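import Mathlib
import Fermat.Agent.S58.helper6859_WPTransport
import Fermat.Agent.S58.helper4170_WPAnalytic
import Fermat.Agent.S58.helper701_SubLattice

/-!
# Injectivity of `(℘, ℘')` modulo the lattice (S48 leaf WPINJ, helper8477)

For a Mathlib `PeriodPair` `L` (no modular forms involved):

* `sub_mem_lattice_of_WP_eq_of_derivWP_eq` : `℘ a = ℘ b` and `℘' a = ℘' b` (both points off the
  lattice) force `a - b ∈ L.lattice`  (uniqueness for `℘'' = 6 ℘² - g₂ / 2` plus the identity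
  theorem plus "a local period is a lattice point").
* `WP_eq_iff` : `℘ a = ℘ b ↔ a - b ∈ L.lattice ∨ a + b ∈ L.lattice`.
* `derivWP_eq_zero_iff` : `℘' a = 0 ↔ a + a ∈ L.lattice`.
* `div_mem_lattice_iff`, `WP_div_eq_iff`, `WP_div_ne`, `derivWP_div_eq_zero_iff`,
  `derivWP_div_ne_zero` : the same statements for the division points
  `(r ω₁ + s ω₂) / M`, `r s : ℤ`.  In particular the differences
  `℘((r ω₁ + s ω₂) / M) - ℘((r' ω₁ + s' ω₂) / M)` never vanish when `(r, s) ≢ ± (r', s')`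
  modulo `M`.
* `WP_rat_eq_iff`, `derivWP_rat_eq_zero_iff` : the same in the `ℚ`-coordinates of Mathlib's
  `PeriodPair.mul_ω₁_add_mul_ω₂_mem_lattice`.
-/

set_option autoImplicit false

namespace Fermat.Agent.S48.helper8477

open scoped Topology PeriodPair
open Filter PeriodPair

/-- **Core.** Off the lattice, the pair `(℘, ℘')` determines the point modulo the lattice. -/
theorem sub_mem_lattice_of_WP_eq_of_derivWP_eq (L : PeriodPair) {a b : ℂ}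
    (ha : a ∉ L.lattice) (hb : b ∉ L.lattice)
    (h0 : ℘[L] a = ℘[L] b) (h1 : ℘'[L] a = ℘'[L] b) : a - b ∈ L.lattice := by
  have hder : ∀ n, iteratedDeriv n ℘[L] a = iteratedDeriv n ℘[L] b := fun n => by
    simpa using Fermat.Agent.S58.helper6859.map_iteratedDeriv_WP (RingHom.id ℂ) L L rfl b a hb ha
      (by simpa using h0) (by simpa using h1) n
  have hfa : AnalyticAt ℂ (fun u => ℘[L] (u + a)) 0 :=
    Fermat.Agent.S58.helper701.analyticAt_weierstrassP_add L (by simpa using ha)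
  have hfb : AnalyticAt ℂ (fun u => ℘[L] (u + b)) 0 :=
    Fermat.Agent.S58.helper701.analyticAt_weierstrassP_add L (by simpa using hb)
  have hev : (fun u => ℘[L] (u + a)) =ᶠ[𝓝 0] (fun u => ℘[L] (u + b)) := by
    refine Fermat.Agent.S58.helper4170.eventuallyEq_of_iteratedDeriv_eq hfa hfb (fun n => ?_)
    rw [iteratedDeriv_comp_add_const, iteratedDeriv_comp_add_const]
    simpa using hder n
  obtain ⟨U, hUsub, hUo, h0U⟩ := eventually_nhds_iff.mp hev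
  refine Fermat.Agent.S58.helper701.mem_lattice_of_eqOn L (a - b) ((fun v : ℂ => v - b) ⁻¹' U)
    (hUo.preimage (by fun_prop)) ⟨b, by simpa using h0U⟩ (fun v hv => ?_)
  have h := hUsub (v - b) hv
  have e1 : v - b + a = v + (a - b) := by ring
  have e2 : v - b + b = v := by ring
  simpa only [e1, e2] using h

/-- `℘` takes the same value at `a` and `b` iff `a ≡ ± b` modulo the lattice. -/
theorem WP_eq_iff (L : PeriodPair) {a b : ℂ} (ha : a ∉ L.lattice) (hb : b ∉ L.lattice) :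
    ℘[L] a = ℘[L] b ↔ a - b ∈ L.lattice ∨ a + b ∈ L.lattice := by
  constructor
  · intro h0
    have hsq : ℘'[L] a ^ 2 = ℘'[L] b ^ 2 := by
      rw [L.derivWeierstrassP_sq a ha, L.derivWeierstrassP_sq b hb, h0]
    rcases sq_eq_sq_iff_eq_or_eq_neg.mp hsq with h1 | h1
    · exact Or.inl (sub_mem_lattice_of_WP_eq_of_derivWP_eq L ha hb h0 h1)
    · right
      have hnb : -b ∉ L.lattice := fun h => hb (by simpa using L.lattice.neg_mem h)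
      have := sub_mem_lattice_of_WP_eq_of_derivWP_eq L ha hnb
        (by rw [L.weierstrassP_neg]; exact h0) (by rw [L.derivWeierstrassP_neg]; exact h1)
      simpa [sub_neg_eq_add] using this
  · rintro (h | h)
    · have := L.weierstrassP_add_coe b ⟨a - b, h⟩
      rw [← this]; congr 1; simp
    · have := L.weierstrassP_add_coe (-b) ⟨a + b, h⟩
      rw [L.weierstrassP_neg] at this
      rw [← this]; congr 1; simp

/-- The zeros of `℘'` off the lattice are exactly the `2`-division points. -/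
theorem derivWP_eq_zero_iff (L : PeriodPair) {a : ℂ} (ha : a ∉ L.lattice) :
    ℘'[L] a = 0 ↔ a + a ∈ L.lattice := by
  have hna : -a ∉ L.lattice := fun h => ha (by simpa using L.lattice.neg_mem h)
  constructor
  · intro h
    have := sub_mem_lattice_of_WP_eq_of_derivWP_eq L ha hna
      (by rw [L.weierstrassP_neg]) (by rw [L.derivWeierstrassP_neg, h, neg_zero])
    simpa [sub_neg_eq_add] using this
  · intro h
    have h1 := L.derivWeierstrassP_add_coe (-a) ⟨a + a, h⟩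
    rw [L.derivWeierstrassP_neg] at h1
    have e : -a + ((⟨a + a, h⟩ : L.lattice) : ℂ) = a := by simp
    rw [e] at h1
    have h2 : (2 : ℂ) * ℘'[L] a = 0 := by linear_combination h1
    simpa using h2

/-! ## Division points -/

/-- `(r ω₁ + s ω₂) / M` is a lattice point iff `M ∣ r` and `M ∣ s`. -/
theorem div_mem_lattice_iff (L : PeriodPair) {M : ℕ} (hM : M ≠ 0) (r s : ℤ) :
    ((r : ℂ) * L.ω₁ + (s : ℂ) * L.ω₂) / (M : ℂ) ∈ L.lattice ↔ (M : ℤ) ∣ r ∧ (M : ℤ) ∣ s := by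
  have hMc : (M : ℂ) ≠ 0 := Nat.cast_ne_zero.mpr hM
  rw [PeriodPair.mem_lattice]
  constructor
  · rintro ⟨m, n, e⟩
    have e' : ((((m * M - r : ℤ) : ℝ)) : ℂ) * L.ω₁ + ((((n * M - s : ℤ) : ℝ)) : ℂ) * L.ω₂ = 0 := by
      have e2 : ((m : ℂ) * L.ω₁ + (n : ℂ) * L.ω₂) * (M : ℂ)
          = (r : ℂ) * L.ω₁ + (s : ℂ) * L.ω₂ := by
        rw [e]; field_simp
      push_cast
      linear_combination e2
    obtain ⟨h1, h2⟩ := LinearIndependent.pair_iff.mp L.indep (((m * M - r : ℤ) : ℝ))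
      (((n * M - s : ℤ) : ℝ)) (by simp only [Complex.real_smul]; exact e')
    have h1' : m * M - r = 0 := by exact_mod_cast h1
    have h2' : n * M - s = 0 := by exact_mod_cast h2
    exact ⟨⟨m, by linarith⟩, ⟨n, by linarith⟩⟩
  · rintro ⟨⟨m, rfl⟩, ⟨n, rfl⟩⟩
    refine ⟨m, n, ?_⟩
    push_cast
    field_simp

/-- `℘` at two `M`-division points: equal iff the indices agree up to sign modulo `M`. -/
theorem WP_div_eq_iff (L : PeriodPair) {M : ℕ} (hM : M ≠ 0) {r s r' s' : ℤ}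
    (h : ¬ ((M : ℤ) ∣ r ∧ (M : ℤ) ∣ s)) (h' : ¬ ((M : ℤ) ∣ r' ∧ (M : ℤ) ∣ s')) :
    ℘[L] (((r : ℂ) * L.ω₁ + (s : ℂ) * L.ω₂) / (M : ℂ))
        = ℘[L] (((r' : ℂ) * L.ω₁ + (s' : ℂ) * L.ω₂) / (M : ℂ))
      ↔ ((M : ℤ) ∣ r - r' ∧ (M : ℤ) ∣ s - s') ∨ ((M : ℤ) ∣ r + r' ∧ (M : ℤ) ∣ s + s') := by
  rw [WP_eq_iff L (fun hm => h ((div_mem_lattice_iff L hM r s).mp hm))
    (fun hm => h' ((div_mem_lattice_iff L hM r' s').mp hm)),
    ← div_mem_lattice_iff L hM (r - r') (s - s'), ← div_mem_lattice_iff L hM (r + r') (s + s')]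
  have e1 : ((r : ℂ) * L.ω₁ + (s : ℂ) * L.ω₂) / (M : ℂ)
      - ((r' : ℂ) * L.ω₁ + (s' : ℂ) * L.ω₂) / (M : ℂ)
      = ((((r - r' : ℤ)) : ℂ) * L.ω₁ + (((s - s' : ℤ)) : ℂ) * L.ω₂) / (M : ℂ) := by
    push_cast; ring
  have e2 : ((r : ℂ) * L.ω₁ + (s : ℂ) * L.ω₂) / (M : ℂ)
      + ((r' : ℂ) * L.ω₁ + (s' : ℂ) * L.ω₂) / (M : ℂ)
      = ((((r + r' : ℤ)) : ℂ) * L.ω₁ + (((s + s' : ℤ)) : ℂ) * L.ω₂) / (M : ℂ) := by
    push_cast; ring
  rw [e1, e2]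

/-- **`D_{a,b} ≠ 0`.** The difference of `℘` at two `M`-division points whose indices are
non-zero and distinct up to sign modulo `M` does not vanish. -/
theorem WP_div_ne (L : PeriodPair) {M : ℕ} (hM : M ≠ 0) {r s r' s' : ℤ}
    (h : ¬ ((M : ℤ) ∣ r ∧ (M : ℤ) ∣ s)) (h' : ¬ ((M : ℤ) ∣ r' ∧ (M : ℤ) ∣ s'))
    (hsub : ¬ ((M : ℤ) ∣ r - r' ∧ (M : ℤ) ∣ s - s'))
    (hadd : ¬ ((M : ℤ) ∣ r + r' ∧ (M : ℤ) ∣ s + s')) :
    ℘[L] (((r : ℂ) * L.ω₁ + (s : ℂ) * L.ω₂) / (M : ℂ))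
        - ℘[L] (((r' : ℂ) * L.ω₁ + (s' : ℂ) * L.ω₂) / (M : ℂ)) ≠ 0 := by
  intro h0
  rcases (WP_div_eq_iff L hM h h').mp (sub_eq_zero.mp h0) with h1 | h1
  · exact hsub h1
  · exact hadd h1

/-- `℘'` at an `M`-division point vanishes iff the point is a `2`-division point. -/
theorem derivWP_div_eq_zero_iff (L : PeriodPair) {M : ℕ} (hM : M ≠ 0) {r s : ℤ}
    (h : ¬ ((M : ℤ) ∣ r ∧ (M : ℤ) ∣ s)) :
    ℘'[L] (((r : ℂ) * L.ω₁ + (s : ℂ) * L.ω₂) / (M : ℂ)) = 0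
      ↔ (M : ℤ) ∣ 2 * r ∧ (M : ℤ) ∣ 2 * s := by
  rw [derivWP_eq_zero_iff L (fun hm => h ((div_mem_lattice_iff L hM r s).mp hm)),
    ← div_mem_lattice_iff L hM (2 * r) (2 * s)]
  have e : ((r : ℂ) * L.ω₁ + (s : ℂ) * L.ω₂) / (M : ℂ)
      + ((r : ℂ) * L.ω₁ + (s : ℂ) * L.ω₂) / (M : ℂ)
      = ((((2 * r : ℤ)) : ℂ) * L.ω₁ + (((2 * s : ℤ)) : ℂ) * L.ω₂) / (M : ℂ) := by
    push_cast; ring
  rw [e]

/-- `℘'` does not vanish at an `M`-division point which is not a `2`-division point. -/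
theorem derivWP_div_ne_zero (L : PeriodPair) {M : ℕ} (hM : M ≠ 0) {r s : ℤ}
    (h2 : ¬ ((M : ℤ) ∣ 2 * r ∧ (M : ℤ) ∣ 2 * s)) :
    ℘'[L] (((r : ℂ) * L.ω₁ + (s : ℂ) * L.ω₂) / (M : ℂ)) ≠ 0 := by
  have h : ¬ ((M : ℤ) ∣ r ∧ (M : ℤ) ∣ s) := fun hh =>
    h2 ⟨Dvd.dvd.mul_left hh.1 2, Dvd.dvd.mul_left hh.2 2⟩
  exact fun h0 => h2 ((derivWP_div_eq_zero_iff L hM h).mp h0)

/-! ## The same in `ℚ`-coordinates -/

/-- `℘` at two points with rational coordinates in the period basis. -/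
theorem WP_rat_eq_iff (L : PeriodPair) {α β α' β' : ℚ}
    (h : ¬ (α.den = 1 ∧ β.den = 1)) (h' : ¬ (α'.den = 1 ∧ β'.den = 1)) :
    ℘[L] ((α : ℂ) * L.ω₁ + (β : ℂ) * L.ω₂) = ℘[L] ((α' : ℂ) * L.ω₁ + (β' : ℂ) * L.ω₂)
      ↔ ((α - α').den = 1 ∧ (β - β').den = 1) ∨ ((α + α').den = 1 ∧ (β + β').den = 1) := by
  rw [WP_eq_iff L (fun hm => h (PeriodPair.mul_ω₁_add_mul_ω₂_mem_lattice.mp hm))
    (fun hm => h' (PeriodPair.mul_ω₁_add_mul_ω₂_mem_lattice.mp hm)),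
    ← PeriodPair.mul_ω₁_add_mul_ω₂_mem_lattice (L := L) (α := α - α') (β := β - β'),
    ← PeriodPair.mul_ω₁_add_mul_ω₂_mem_lattice (L := L) (α := α + α') (β := β + β')]
  have e1 : (α : ℂ) * L.ω₁ + (β : ℂ) * L.ω₂ - ((α' : ℂ) * L.ω₁ + (β' : ℂ) * L.ω₂)
      = ((α - α' : ℚ) : ℂ) * L.ω₁ + ((β - β' : ℚ) : ℂ) * L.ω₂ := by
    push_cast; ring
  have e2 : (α : ℂ) * L.ω₁ + (β : ℂ) * L.ω₂ + ((α' : ℂ) * L.ω₁ + (β' : ℂ) * L.ω₂)
      = ((α + α' : ℚ) : ℂ) * L.ω₁ + ((β + β' : ℚ) : ℂ) * L.ω₂ := by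
    push_cast; ring
  rw [e1, e2]

/-- `℘'` at a point with rational coordinates in the period basis. -/
theorem derivWP_rat_eq_zero_iff (L : PeriodPair) {α β : ℚ} (h : ¬ (α.den = 1 ∧ β.den = 1)) :
    ℘'[L] ((α : ℂ) * L.ω₁ + (β : ℂ) * L.ω₂) = 0 ↔ (2 * α).den = 1 ∧ (2 * β).den = 1 := by
  rw [derivWP_eq_zero_iff L (fun hm => h (PeriodPair.mul_ω₁_add_mul_ω₂_mem_lattice.mp hm)),
    ← PeriodPair.mul_ω₁_add_mul_ω₂_mem_lattice (L := L) (α := 2 * α) (β := 2 * β)]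
  have e : (α : ℂ) * L.ω₁ + (β : ℂ) * L.ω₂ + ((α : ℂ) * L.ω₁ + (β : ℂ) * L.ω₂)
      = ((2 * α : ℚ) : ℂ) * L.ω₁ + ((2 * β : ℚ) : ℂ) * L.ω₂ := by
    push_cast; ring
  rw [e]

/-! ## The lattice `ℤ + ℤ τ` : period pairs with `ω₁ = 1`, `ω₂ = τ`

(`S58.helper9384.tauPair τ`, `S48.helper9565.pairTau τ`: apply with `h1 := rfl`, `h2 := rfl`.)
The division points are written `(r τ + s) / M`. -/

section OneTau

variable (L : PeriodPair) (τ : ℂ) (h1 : L.ω₁ = 1) (h2 : L.ω₂ = τ)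
include h1 h2

theorem oneTau_point_eq (M : ℕ) (r s : ℤ) :
    ((r : ℂ) * τ + (s : ℂ)) / (M : ℂ) = ((s : ℂ) * L.ω₁ + (r : ℂ) * L.ω₂) / (M : ℂ) := by
  rw [h1, h2]; ring

/-- `(r τ + s) / M ∈ ℤ + ℤ τ` iff `M ∣ r` and `M ∣ s`. -/
theorem div_mem_lattice_iff_of_one_tau {M : ℕ} (hM : M ≠ 0) (r s : ℤ) :
    ((r : ℂ) * τ + (s : ℂ)) / (M : ℂ) ∈ L.lattice ↔ (M : ℤ) ∣ r ∧ (M : ℤ) ∣ s := by
  rw [oneTau_point_eq L τ h1 h2, div_mem_lattice_iff L hM s r, and_comm]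

/-- `℘((r τ + s) / M) = ℘((r' τ + s') / M)` iff `(r, s) ≡ ± (r', s')` modulo `M`. -/
theorem WP_div_eq_iff_of_one_tau {M : ℕ} (hM : M ≠ 0) {r s r' s' : ℤ}
    (h : ¬ ((M : ℤ) ∣ r ∧ (M : ℤ) ∣ s)) (h' : ¬ ((M : ℤ) ∣ r' ∧ (M : ℤ) ∣ s')) :
    ℘[L] (((r : ℂ) * τ + (s : ℂ)) / (M : ℂ)) = ℘[L] (((r' : ℂ) * τ + (s' : ℂ)) / (M : ℂ))
      ↔ ((M : ℤ) ∣ r - r' ∧ (M : ℤ) ∣ s - s') ∨ ((M : ℤ) ∣ r + r' ∧ (M : ℤ) ∣ s + s') := by
  rw [oneTau_point_eq L τ h1 h2, oneTau_point_eq L τ h1 h2,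
    WP_div_eq_iff L hM (r := s) (s := r) (r' := s') (s' := r') (fun hh => h ⟨hh.2, hh.1⟩)
      (fun hh => h' ⟨hh.2, hh.1⟩)]
  tauto

/-- **`D ≠ 0` on `ℍ`**, shape `(r τ + s) / M`: the difference of two division values of `℘` with
non-zero indices distinct up to sign modulo `M` never vanishes. -/
theorem WP_div_ne_of_one_tau {M : ℕ} (hM : M ≠ 0) {r s r' s' : ℤ}
    (h : ¬ ((M : ℤ) ∣ r ∧ (M : ℤ) ∣ s)) (h' : ¬ ((M : ℤ) ∣ r' ∧ (M : ℤ) ∣ s'))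
    (hsub : ¬ ((M : ℤ) ∣ r - r' ∧ (M : ℤ) ∣ s - s'))
    (hadd : ¬ ((M : ℤ) ∣ r + r' ∧ (M : ℤ) ∣ s + s')) :
    ℘[L] (((r : ℂ) * τ + (s : ℂ)) / (M : ℂ)) - ℘[L] (((r' : ℂ) * τ + (s' : ℂ)) / (M : ℂ)) ≠ 0 := by
  intro h0
  rcases (WP_div_eq_iff_of_one_tau L τ h1 h2 hM h h').mp (sub_eq_zero.mp h0) with h3 | h3
  · exact hsub h3
  · exact hadd h3

/-- `℘'((r τ + s) / M) = 0` iff `M ∣ 2 r` and `M ∣ 2 s` (for a non-lattice division point). -/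
theorem derivWP_div_eq_zero_iff_of_one_tau {M : ℕ} (hM : M ≠ 0) {r s : ℤ}
    (h : ¬ ((M : ℤ) ∣ r ∧ (M : ℤ) ∣ s)) :
    ℘'[L] (((r : ℂ) * τ + (s : ℂ)) / (M : ℂ)) = 0 ↔ (M : ℤ) ∣ 2 * r ∧ (M : ℤ) ∣ 2 * s := by
  rw [oneTau_point_eq L τ h1 h2, derivWP_div_eq_zero_iff L hM (r := s) (s := r) (fun hh => h ⟨hh.2, hh.1⟩),
    and_comm]

/-- `℘'((r τ + s) / M) ≠ 0` unless the point is a `2`-division point. -/
theorem derivWP_div_ne_zero_of_one_tau {M : ℕ} (hM : M ≠ 0) {r s : ℤ}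
    (h2' : ¬ ((M : ℤ) ∣ 2 * r ∧ (M : ℤ) ∣ 2 * s)) :
    ℘'[L] (((r : ℂ) * τ + (s : ℂ)) / (M : ℂ)) ≠ 0 := by
  rw [oneTau_point_eq L τ h1 h2]
  exact derivWP_div_ne_zero L hM (r := s) (s := r) (fun hh => h2' ⟨hh.2, hh.1⟩)

/-- Odd level: `℘'(a / M) ≠ 0` for `M` odd, `M ∤ a` (the numerator of `W_{a,b}`). -/
theorem derivWP_div_ne_zero_of_odd {M : ℕ} (hM : Odd M) {r s : ℤ}
    (h : ¬ ((M : ℤ) ∣ r ∧ (M : ℤ) ∣ s)) :
    ℘'[L] (((r : ℂ) * τ + (s : ℂ)) / (M : ℂ)) ≠ 0 := by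
  have hM0 : M ≠ 0 := fun h0 => by simp [h0] at hM
  have hcop : IsCoprime (M : ℤ) 2 := by
    have : Nat.Coprime M 2 := Nat.Coprime.symm (Nat.coprime_two_left.mpr hM)
    exact_mod_cast Nat.isCoprime_iff_coprime.mpr this
  refine derivWP_div_ne_zero_of_one_tau L τ h1 h2 hM0 (fun hh => h ⟨?_, ?_⟩)
  · exact hcop.dvd_of_dvd_mul_left hh.1
  · exact hcop.dvd_of_dvd_mul_left hh.2

end OneTau

end Fermat.Agent.S48.helper8477
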