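import Fermat.Agent.S48.helper1002_CPlaceGen
import Fermat.Agent.S29.helper8395_KummerOff

/-!
# S48 / M3-CINST (helper1002): the inputs of the descent/surjectivity spine from an `AnField`

For an analytic field `D : AnField E` this file restates the complex place dictionary in the
exact (unfolded) shapes of the instance-level inputs of the generic (TH4) spine
(`helper2122.surj_baseChange` / `descG_baseChange`):

* `AnField.invG` : (INV) `∀ γ ∈ Γ, ∀ x, pull γ (ev x) = ev x`;
* `AnField.den`, `AnField.den_hol_growth`, `AnField.den_frac` : (A) the multiplicative set of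
  denominators with holomorphic realisations of exponential growth at all cusps;
* `AnField.cplaceDvd` : (CPLACE) divisibility of the orders at the places centred off
  `0, 1728` of a function whose realisation is an `n`-th power;

and, for `E = laurentBaseChange ℂ F₀` with `D.j` the canonical `j` (`S29.helper8395.jL`):

* `AnField.finiteDimensional_jL`, `AnField.finrank_jL_le`, `AnField.cplaceDvd_jL`.
-/

set_option autoImplicit false

open UpperHalfPlane IntermediateField AlgebraicCurve ModularCurve
open scoped MatrixGroups Manifold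

noncomputable section

namespace Fermat.Agent.S48.helper1002

open Fermat.Agent.S24 Fermat.Agent.S24.helper580 Fermat.Agent.S29.helper580

namespace AnField

section General

variable {E : Type*} [Field E] [Algebra ℂ E] (D : AnField E)

/-- (INV) the realisations are `Γ`-invariant. -/
theorem invG : ∀ γ ∈ D.Γ, ∀ x : E, pull γ (D.ev x) = D.ev x :=
  fun γ hγ x => D.pull_ev γ hγ x

/-- (A) the multiplicative set of denominators. -/
def den : Submonoid E := D.A.toSubmonoid

theorem mem_den {a : E} : a ∈ D.den ↔ a ∈ D.A := Iff.rfl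

/-- (A) the denominators have holomorphic realisations of exponential growth at all cusps. -/
theorem den_hol_growth : ∀ a ∈ D.den, ∃ f : Hol, algebraMap Hol Mer f = D.ev a ∧
    ∀ g : SL(2, ℤ), helper167.HasExpGrowth (fun τ : ℍ => (f : ℍ → ℂ) (g • τ)) := by
  intro a ha
  obtain ⟨f, hf⟩ := D.hol a ha
  exact ⟨f, hf.symm, fun g => D.growth a ha f hf g⟩

/-- (A) every element is a quotient with denominator in `den`. -/
theorem den_frac : ∀ f : E, ∃ d ∈ D.den, d ≠ 0 ∧ f * d ∈ D.den := by
  intro f
  obtain ⟨a, ha, b, hb, hb0, hf⟩ := D.frac f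
  refine ⟨b, hb, hb0, ?_⟩
  rw [hf, div_mul_cancel₀ a hb0]
  exact ha

/-- (CPLACE) if `ev u` is an `n`-th power in `Mer`, then `n` divides the order of `u` at every
place centred at a value `c ∉ {0, 1728}`. -/
theorem cplaceDvd (n : ℕ) : ∀ (v : Place ℂ E) (c : ℂ),
    0 < v.ord (D.j - algebraMap ℂ E c) → c ≠ 0 → c ≠ 1728 → ∀ u : E, u ≠ 0 →
      ∀ W : Mer, W ^ n = D.ev u → (n : ℤ) ∣ v.ord u :=
  fun v c hc h0 h1 _ hu W hW => D.dvd_ord_of_pow_eq_generic v c hc h0 h1 hu n W hW

end General

section BaseChange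

variable {F₀ : IntermediateField ℚ (LaurentSeries ℚ)} (hj : jq ∈ F₀)
  (D : AnField (laurentBaseChange ℂ F₀)) (hDj : D.j = Fermat.Agent.S29.helper8395.jL ℂ F₀ hj)

include hDj

/-- (C1) the complex function field is finite over `ℂ(j)`. -/
theorem finiteDimensional_jL :
    FiniteDimensional ℂ⟮Fermat.Agent.S29.helper8395.jL ℂ F₀ hj⟯ (laurentBaseChange ℂ F₀) :=
  hDj ▸ D.finiteDimensional_j

/-- (C1) the degree over `ℂ(j)` is at most the index of `Γ`. -/
theorem finrank_jL_le :
    Module.finrank ℂ⟮Fermat.Agent.S29.helper8395.jL ℂ F₀ hj⟯ (laurentBaseChange ℂ F₀) ≤ D.Γ.index :=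
  hDj ▸ D.finrank_j_le

/-- (CPLACE) in the shape `helper2122.CPlaceDvd hj D.ev n`. -/
theorem cplaceDvd_jL (n : ℕ) : ∀ (v : Place ℂ (laurentBaseChange ℂ F₀)) (c : ℂ),
    0 < v.ord (Fermat.Agent.S29.helper8395.jL ℂ F₀ hj - algebraMap ℂ (laurentBaseChange ℂ F₀) c) →
    c ≠ 0 → c ≠ 1728 → ∀ u : laurentBaseChange ℂ F₀, u ≠ 0 → ∀ W : Mer, W ^ n = D.ev u →
      (n : ℤ) ∣ v.ord u :=
  hDj ▸ D.cplaceDvd n

end BaseChange

end AnField

end Fermat.Agent.S48.helper1002
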