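import Fermat.Agent.S48.helper1002_CPlaceGen

/-!
# S48 / M3-CINST (helper1002): the complex place dictionary from an evaluation datum

The complex-side instance kit of `helper1002_CPlaceGen`.

* `hasExpGrowth_of_germ` : a continuous `h`-periodic function on `ℍ` which near `i∞` is a
  meromorphic function of `q_h = exp (2πiτ/h)` has exponential growth
  (`S24.helper167.HasExpGrowth`).
* `HasGerm h f` : `f = H ∘ q_h` near `i∞` with `H` meromorphic at `0`; closed under the field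
  operations; holds for periodic holomorphic functions bounded at `i∞`; for the translates of a
  ratio of two functions in terms of their slashes.
* `EvalC Γ h jE A e` : an evaluation datum of a field `E` over `ℂ`, in the vocabulary of the
  `ℚ̄`-side evaluation data (`frac / inj / hol / const / j_mem / j_eval / inv / level / germ`),
  and `EvalC.toAnField`, the associated `AnField E`; so all statements of
  `helper1002_CPlaceGen` hold for `E`.
-/

set_option autoImplicit false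

open UpperHalfPlane Filter Topology
open scoped MatrixGroups Manifold

noncomputable section

namespace Fermat.Agent.S48.helper1002

open Fermat.Agent.S24 Fermat.Agent.S24.helper580 Fermat.Agent.S29.helper580

/-! ## Exponential growth from a meromorphic germ at the cusp -/

/-- Invariance under `τ ↦ h + τ` gives invariance under all integer multiples. -/
theorem periodic_int_mul {f : ℍ → ℂ} {h : ℝ} (hper : ∀ τ : ℍ, f (h +ᵥ τ) = f τ) (k : ℤ)
    (τ : ℍ) : f (((k : ℝ) * h) +ᵥ τ) = f τ := by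
  induction k using Int.induction_on generalizing τ with
  | zero => rw [Int.cast_zero, zero_mul, zero_vadd]
  | succ n ih =>
      have e : (((n : ℤ) + 1 : ℤ) : ℝ) * h = h + ((n : ℤ) : ℝ) * h := by push_cast; ring
      rw [e, add_vadd, hper, ih]
  | pred n ih =>
      have e : h + ((-(n : ℤ) - 1 : ℤ) : ℝ) * h = ((-(n : ℤ) : ℤ) : ℝ) * h := by push_cast; ring
      have h1 := hper ((((-(n : ℤ) - 1 : ℤ) : ℝ) * h) +ᵥ τ)
      rw [← add_vadd, e, ih] at h1
      exact h1.symm

/-- **Growth from a germ.** A continuous `h`-periodic function on the upper half plane which,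
near `i∞`, is a meromorphic function of `q_h`, has exponential growth at `i∞`, uniformly in the
real part. -/
theorem hasExpGrowth_of_germ {f : ℍ → ℂ} (hf : Continuous f) {h : ℝ} (hh : 0 < h)
    (hper : ∀ τ : ℍ, f (h +ᵥ τ) = f τ) {H : ℂ → ℂ} (hH : MeromorphicAt H 0)
    (hev : ∀ᶠ τ : ℍ in atImInfty, f τ = H (Function.Periodic.qParam h (τ : ℂ))) :
    helper167.HasExpGrowth f := by
  -- the germ: `z ^ n * H z` is bounded near `0`
  obtain ⟨n, hn⟩ := hH
  have hcont : ContinuousAt (fun z : ℂ => (z - 0) ^ n • H z) 0 := hn.continuousAt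
  obtain ⟨r, hr, hball⟩ : ∃ r : ℝ, 0 < r ∧ ∀ z : ℂ, ‖z‖ < r →
      ‖z ^ n * H z‖ ≤ ‖(0 : ℂ) ^ n * H 0‖ + 1 := by
    have h1 := Metric.continuousAt_iff.mp hcont 1 one_pos
    obtain ⟨r, hr, h2⟩ := h1
    refine ⟨r, hr, fun z hz => ?_⟩
    have h3 := h2 (x := z) (by rwa [dist_zero_right])
    simp only [sub_zero, smul_eq_mul] at h3
    have h4 := norm_le_insert' (z ^ n * H z) ((0 : ℂ) ^ n * H 0)
    rw [dist_eq_norm] at h3
    linarith
  set C₁ : ℝ := ‖(0 : ℂ) ^ n * H 0‖ + 1 with hC₁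
  have hC₁pos : 0 < C₁ := by positivity
  -- the region where `f = H ∘ q`
  obtain ⟨Y₀, hY₀⟩ := (atImInfty_mem _).mp hev
  -- a height above which `‖q‖ < r`
  obtain ⟨Y₁, hY₁1, hY₁0, hY₁r⟩ : ∃ Y₁ : ℝ, 1 ≤ Y₁ ∧ Y₀ ≤ Y₁ ∧
      ∀ y : ℝ, Y₁ ≤ y → Real.exp (-2 * Real.pi * y / h) < r := by
    refine ⟨max (max 1 Y₀) (-(Real.log r) * h / (2 * Real.pi) + 1), ?_, ?_, fun y hy => ?_⟩
    · exact le_max_of_le_left (le_max_left _ _)
    · exact le_max_of_le_left (le_max_right _ _)
    · have h1 : -(Real.log r) * h / (2 * Real.pi) + 1 ≤ y := le_trans (le_max_right _ _) hy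
      have hpi : (0 : ℝ) < 2 * Real.pi := by positivity
      have h2 : -(Real.log r) * h / (2 * Real.pi) < y := by linarith
      rw [div_lt_iff₀ hpi] at h2
      have h3 : -2 * Real.pi * y / h < Real.log r := by
        rw [div_lt_iff₀ hh]
        nlinarith
      calc Real.exp (-2 * Real.pi * y / h) < Real.exp (Real.log r) := Real.exp_lt_exp.mpr h3
        _ = r := Real.exp_log hr
  -- compactness for the middle region
  let L : Set ℍ := UpperHalfPlane.coe ⁻¹' (Set.Icc 0 h ×ℂ Set.Icc 1 Y₁)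
  have hL : IsCompact L := by
    refine isEmbedding_coe.isInducing.isCompact_preimage' (isCompact_Icc.reProdIm isCompact_Icc) ?_
    intro w hw
    rw [range_coe]
    have h2 : (1 : ℝ) ≤ w.im := hw.2.1
    show 0 < w.im
    linarith
  obtain ⟨C₂, hC₂⟩ := hL.exists_bound_of_continuousOn hf.continuousOn
  -- the exponent
  obtain ⟨m, hm⟩ := exists_nat_ge ((n : ℝ) / h)
  refine ⟨m, max C₁ (max C₂ 0), fun τ hτ => ?_⟩
  have hexp1 : 1 ≤ Real.exp (2 * Real.pi * m * τ.im) := by
    apply Real.one_le_exp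
    have := τ.im_pos
    positivity
  by_cases hcase : Y₁ ≤ τ.im
  · -- the cusp region
    have hfτ : f τ = H (Function.Periodic.qParam h (τ : ℂ)) := hY₀ τ (le_trans hY₁0 hcase)
    set q : ℂ := Function.Periodic.qParam h (τ : ℂ) with hq
    have hqn : ‖q‖ = Real.exp (-2 * Real.pi * τ.im / h) := Function.Periodic.norm_qParam h _
    have hqr : ‖q‖ < r := by rw [hqn]; exact hY₁r _ hcase
    have hq0 : 0 < ‖q‖ := by rw [hqn]; exact Real.exp_pos _
    have h1 := hball q hqr
    rw [norm_mul, norm_pow] at h1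
    have h2 : ‖H q‖ ≤ C₁ * (‖q‖ ^ n)⁻¹ := by
      rw [← div_eq_mul_inv, le_div_iff₀ (pow_pos hq0 n), mul_comm]
      exact h1
    have h3 : (‖q‖ ^ n)⁻¹ ≤ Real.exp (2 * Real.pi * m * τ.im) := by
      rw [hqn, ← Real.exp_nat_mul, ← Real.exp_neg]
      apply Real.exp_le_exp.mpr
      have hpi : (0 : ℝ) < 2 * Real.pi := by positivity
      have him := τ.im_pos
      have e : -((n : ℝ) * (-2 * Real.pi * τ.im / h)) = 2 * Real.pi * τ.im * ((n : ℝ) / h) := by
        field_simp
      rw [e]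
      have : 2 * Real.pi * τ.im * ((n : ℝ) / h) ≤ 2 * Real.pi * τ.im * m :=
        mul_le_mul_of_nonneg_left hm (by positivity)
      linarith
    rw [hfτ]
    calc ‖H q‖ ≤ C₁ * (‖q‖ ^ n)⁻¹ := h2
      _ ≤ C₁ * Real.exp (2 * Real.pi * m * τ.im) := mul_le_mul_of_nonneg_left h3 hC₁pos.le
      _ ≤ max C₁ (max C₂ 0) * Real.exp (2 * Real.pi * m * τ.im) :=
          mul_le_mul_of_nonneg_right (le_max_left _ _) (Real.exp_pos _).le
  · -- the compact region, after a translation
    push Not at hcase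
    set k : ℤ := ⌊τ.re / h⌋ with hk
    set τ' : ℍ := ((((-k : ℤ) : ℝ)) * h) +ᵥ τ with hτ'
    have hfτ' : f τ' = f τ := periodic_int_mul hper (-k) τ
    have hre : τ'.re = τ.re - k * h := by
      rw [hτ', vadd_re]; push_cast; ring
    have him : τ'.im = τ.im := by rw [hτ', vadd_im]
    have hmem : τ' ∈ L := by
      show (τ' : ℂ) ∈ Set.Icc 0 h ×ℂ Set.Icc 1 Y₁
      refine ⟨⟨?_, ?_⟩, ⟨?_, ?_⟩⟩
      · show 0 ≤ τ'.re
        rw [hre]
        have h1 : (k : ℝ) ≤ τ.re / h := Int.floor_le _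
        rw [le_div_iff₀ hh] at h1
        linarith
      · show τ'.re ≤ h
        rw [hre]
        have h1 : τ.re / h < k + 1 := Int.lt_floor_add_one _
        rw [div_lt_iff₀ hh] at h1
        linarith
      · show 1 ≤ τ'.im
        rw [him]; exact hτ
      · show τ'.im ≤ Y₁
        rw [him]; exact hcase.le
    have h1 := hC₂ τ' hmem
    rw [hfτ'] at h1
    have hC : 0 ≤ max C₁ (max C₂ 0) := le_max_of_le_right (le_max_right _ _)
    calc ‖f τ‖ ≤ C₂ := h1
      _ ≤ max C₁ (max C₂ 0) := le_max_of_le_right (le_max_left _ _)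
      _ = max C₁ (max C₂ 0) * 1 := (mul_one _).symm
      _ ≤ max C₁ (max C₂ 0) * Real.exp (2 * Real.pi * m * τ.im) :=
          mul_le_mul_of_nonneg_left hexp1 hC

/-! ## Germs at the cusp -/

/-- `f` is, near `i∞`, a meromorphic function of `q_h = exp (2πiτ/h)`. -/
def HasGerm (h : ℝ) (f : ℍ → ℂ) : Prop :=
  ∃ H : ℂ → ℂ, MeromorphicAt H 0 ∧
    ∀ᶠ τ : ℍ in atImInfty, f τ = H (Function.Periodic.qParam h (τ : ℂ))

theorem hasGerm_const (h : ℝ) (c : ℂ) : HasGerm h (fun _ => c) :=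
  ⟨fun _ => c, MeromorphicAt.const c 0, Eventually.of_forall fun _ => rfl⟩

theorem HasGerm.add {h : ℝ} {f₁ f₂ : ℍ → ℂ} (h₁ : HasGerm h f₁) (h₂ : HasGerm h f₂) :
    HasGerm h (f₁ + f₂) := by
  obtain ⟨H₁, m₁, e₁⟩ := h₁
  obtain ⟨H₂, m₂, e₂⟩ := h₂
  refine ⟨H₁ + H₂, m₁.add m₂, ?_⟩
  filter_upwards [e₁, e₂] with τ a₁ a₂
  rw [Pi.add_apply, Pi.add_apply, a₁, a₂]

theorem HasGerm.mul {h : ℝ} {f₁ f₂ : ℍ → ℂ} (h₁ : HasGerm h f₁) (h₂ : HasGerm h f₂) :
    HasGerm h (f₁ * f₂) := by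
  obtain ⟨H₁, m₁, e₁⟩ := h₁
  obtain ⟨H₂, m₂, e₂⟩ := h₂
  refine ⟨H₁ * H₂, m₁.mul m₂, ?_⟩
  filter_upwards [e₁, e₂] with τ a₁ a₂
  rw [Pi.mul_apply, Pi.mul_apply, a₁, a₂]

theorem HasGerm.neg {h : ℝ} {f : ℍ → ℂ} (hf : HasGerm h f) : HasGerm h (-f) := by
  have := (hasGerm_const h (-1)).mul hf
  have e : (fun _ : ℍ => (-1 : ℂ)) * f = -f := by
    funext τ; simp
  rwa [e] at this

theorem HasGerm.sub {h : ℝ} {f₁ f₂ : ℍ → ℂ} (h₁ : HasGerm h f₁) (h₂ : HasGerm h f₂) :
    HasGerm h (f₁ - f₂) := by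
  rw [sub_eq_add_neg]; exact h₁.add h₂.neg

theorem HasGerm.pow {h : ℝ} {f : ℍ → ℂ} (hf : HasGerm h f) (n : ℕ) : HasGerm h (f ^ n) := by
  induction n with
  | zero => rw [pow_zero]; exact hasGerm_const h 1
  | succ n ih => rw [pow_succ]; exact ih.mul hf

/-- The pointwise inverse has a germ (no non-vanishing hypothesis is needed). -/
theorem HasGerm.inv {h : ℝ} {f : ℍ → ℂ} (hf : HasGerm h f) : HasGerm h f⁻¹ := by
  obtain ⟨H, m, e⟩ := hf
  refine ⟨H⁻¹, m.inv, ?_⟩
  filter_upwards [e] with τ a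
  rw [Pi.inv_apply, Pi.inv_apply, a]

theorem HasGerm.div {h : ℝ} {f₁ f₂ : ℍ → ℂ} (h₁ : HasGerm h f₁) (h₂ : HasGerm h f₂) :
    HasGerm h (f₁ / f₂) := by
  rw [div_eq_mul_inv]; exact h₁.mul h₂.inv

theorem HasGerm.congr {h : ℝ} {f₁ f₂ : ℍ → ℂ} (h₁ : HasGerm h f₁)
    (he : ∀ᶠ τ : ℍ in atImInfty, f₂ τ = f₁ τ) : HasGerm h f₂ := by
  obtain ⟨H, m, e⟩ := h₁
  refine ⟨H, m, ?_⟩
  filter_upwards [e, he] with τ a b
  rw [b, a]

/-- A periodic holomorphic function bounded at `i∞` has a germ (its cusp function). -/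
theorem hasGerm_of_bounded {h : ℝ} (hh : 0 < h) {f : ℍ → ℂ}
    (hper : Function.Periodic (f ∘ ofComplex) h) (hol : MDiff f)
    (hbdd : IsBoundedAtImInfty f) : HasGerm h f := by
  refine ⟨cuspFunction h f, (analyticAt_cuspFunction_zero hh hper hol hbdd).meromorphicAt,
    Eventually.of_forall fun τ => ?_⟩
  have h1 := Function.Periodic.eq_cuspFunction hh.ne' hper (τ : ℂ)
  have h2 : (f ∘ ofComplex) (τ : ℂ) = f τ := by
    rw [Function.comp_apply, ofComplex_apply]
  rw [← h2, ← h1]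
  rfl

/-- A continuous periodic function with a germ has exponential growth. -/
theorem HasGerm.hasExpGrowth {h : ℝ} {f : ℍ → ℂ} (hg : HasGerm h f) (hf : Continuous f)
    (hh : 0 < h) (hper : ∀ τ : ℍ, f (h +ᵥ τ) = f τ) : helper167.HasExpGrowth f := by
  obtain ⟨H, m, e⟩ := hg
  exact hasExpGrowth_of_germ hf hh hper m e

open scoped ModularForm in
/-- The translate by `g` of a quotient is the quotient of the weight `k` slashes. -/
theorem div_smul_eq_div_slash (k : ℤ) (f₁ f₂ : ℍ → ℂ) (g : SL(2, ℤ)) (τ : ℍ) :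
    f₁ (g • τ) / f₂ (g • τ) = (f₁ ∣[k] g) τ / (f₂ ∣[k] g) τ := by
  rw [ModularForm.SL_slash_apply, ModularForm.SL_slash_apply]
  have hd : denom (Matrix.SpecialLinearGroup.toGL
      ((Matrix.SpecialLinearGroup.map (Int.castRingHom ℝ)) g)) (τ : ℂ) ^ (-k) ≠ 0 :=
    zpow_ne_zero _ (denom_ne_zero _ τ)
  rw [mul_div_mul_right _ _ hd]

open scoped ModularForm in
/-- **Germs of the translates of a ratio**: if the weight `k` slashes of `f₁`, `f₂` by `g` have
germs (e.g. are periodic, holomorphic and bounded at `i∞`), the translate by `g` of `f₁ / f₂`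
has a germ. -/
theorem hasGerm_div_smul_of_slash {h : ℝ} (k : ℤ) {f₁ f₂ : ℍ → ℂ} (g : SL(2, ℤ))
    (h₁ : HasGerm h (f₁ ∣[k] g)) (h₂ : HasGerm h (f₂ ∣[k] g)) :
    HasGerm h (fun τ : ℍ => f₁ (g • τ) / f₂ (g • τ)) := by
  refine (h₁.div h₂).congr (Eventually.of_forall fun τ => ?_)
  rw [div_smul_eq_div_slash k f₁ f₂ g τ]
  rfl

/-! ## Complex evaluation data -/

/-- **A complex evaluation datum**: the twin over `ℂ` of the `ℚ̄`-side evaluation data of the
`Γ₁(M)`-machine.  `A` is a subalgebra of the field `E` over `ℂ` with field of fractions `E`,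
`e` realises its elements as holomorphic functions on `ℍ`, invariant under `Γ`, and whose
`SL(2, ℤ)`-translates are meromorphic functions of `q_h` near `i∞`; `level` says that `Γ`
contains all conjugates of the translation by `h`. -/
structure EvalC {E : Type*} [Field E] [Algebra ℂ E] (Γ : Subgroup SL(2, ℤ)) (h : ℕ) (jE : E)
    (A : Subalgebra ℂ E) (e : A →+* (ℍ → ℂ)) : Prop where
  frac : ∀ f : E, ∃ a b : A, b ≠ 0 ∧ f * (b : E) = a
  inj : Function.Injective e
  hol : ∀ a, MDiff (e a)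
  const : ∀ c : ℂ, e (algebraMap ℂ A c) = fun _ => c
  j_mem : jE ∈ A
  j_eval : e ⟨jE, j_mem⟩ = helper288.jFn
  inv : ∀ γ ∈ Γ, ∀ (a : A) (τ : ℍ), e a (γ • τ) = e a τ
  level : ∀ g : SL(2, ℤ), g⁻¹ * ModularGroup.T ^ h * g ∈ Γ
  germ : ∀ (g : SL(2, ℤ)) (a : A), HasGerm (h : ℝ) (fun τ : ℍ => e a (g • τ))

namespace EvalC

variable {E : Type*} [Field E] [Algebra ℂ E] {Γ : Subgroup SL(2, ℤ)} {h : ℕ} {jE : E}
  {A : Subalgebra ℂ E} {e : A →+* (ℍ → ℂ)}

/-- The evaluation as an algebra homomorphism into the holomorphic functions. -/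
def evHol (hE : EvalC Γ h jE A e) : A →ₐ[ℂ] Hol where
  toFun a := ⟨e a, hE.hol a⟩
  map_one' := Subtype.ext (map_one e)
  map_mul' a b := Subtype.ext (map_mul e a b)
  map_zero' := Subtype.ext (map_zero e)
  map_add' a b := Subtype.ext (map_add e a b)
  commutes' c := Subtype.ext (hE.const c)

theorem coe_evHol (hE : EvalC Γ h jE A e) (a : A) : (hE.evHol a : ℍ → ℂ) = e a := rfl

theorem evHol_injective (hE : EvalC Γ h jE A e) : Function.Injective hE.evHol := by
  intro a b hab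
  exact hE.inj (congrArg (fun x : Hol => (x : ℍ → ℂ)) hab)

theorem isFractionRing (hE : EvalC Γ h jE A e) : IsFractionRing A E :=
  IsFractionRing.of_field _ _ fun z => by
    obtain ⟨a, b, hb, hz⟩ := hE.frac z
    have hb' : (b : E) ≠ 0 := fun h0 => hb (Subtype.ext h0)
    exact ⟨a, b, eq_div_of_mul_eq hb' hz⟩

/-- The evaluation of `A` in the meromorphic functions. -/
def evMerA (hE : EvalC Γ h jE A e) : A →ₐ[ℂ] Mer :=
  (IsScalarTower.toAlgHom ℂ Hol Mer).comp hE.evHol

theorem evMerA_injective (hE : EvalC Γ h jE A e) : Function.Injective hE.evMerA := by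
  intro a b hab
  exact hE.evHol_injective (IsFractionRing.injective Hol Mer hab)

/-- The evaluation of `E` in the field of meromorphic functions on the upper half plane. -/
def evMer (hE : EvalC Γ h jE A e) : E →ₐ[ℂ] Mer :=
  haveI := hE.isFractionRing
  IsFractionRing.liftAlgHom hE.evMerA_injective

theorem evMer_coe (hE : EvalC Γ h jE A e) (a : A) :
    hE.evMer (a : E) = algebraMap Hol Mer (hE.evHol a) :=
  haveI := hE.isFractionRing
  IsFractionRing.lift_algebraMap hE.evMerA_injective a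

/-- The translates are periodic of period `h`. -/
theorem smul_vadd (hE : EvalC Γ h jE A e) (g : SL(2, ℤ)) (a : A) (τ : ℍ) :
    e a (g • ((h : ℝ) +ᵥ τ)) = e a (g • τ) := by
  have h1 := modular_T_zpow_smul τ (h : ℤ)
  rw [zpow_natCast, Int.cast_natCast] at h1
  have h2 : g • ((h : ℝ) +ᵥ τ) = (g * ModularGroup.T ^ h * g⁻¹) • (g • τ) := by
    rw [← h1, ← mul_smul, ← mul_smul, inv_mul_cancel_right]
  have h3 : g * ModularGroup.T ^ h * g⁻¹ ∈ Γ := by
    have := hE.level g⁻¹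
    rwa [inv_inv] at this
  rw [h2, hE.inv _ h3]

theorem hasExpGrowth (hE : EvalC Γ h jE A e) (hh : 0 < h) (g : SL(2, ℤ)) (a : A) :
    helper167.HasExpGrowth (fun τ : ℍ => e a (g • τ)) :=
  (hE.germ g a).hasExpGrowth (mdifferentiable_comp_smul g (hE.hol a)).continuous
    (by exact_mod_cast hh) (fun τ => hE.smul_vadd g a τ)

/-- **The analytic field of a complex evaluation datum.** -/
def toAnField (hE : EvalC Γ h jE A e) (hh : 0 < h) (fin : Γ.FiniteIndex) : AnField E where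
  ev := hE.evMer
  j := jE
  ev_j := by
    have h1 := hE.evMer_coe ⟨jE, hE.j_mem⟩
    rw [h1]
    congr 1
    exact Subtype.ext hE.j_eval
  A := A
  j_mem := hE.j_mem
  hol a ha := ⟨hE.evHol ⟨a, ha⟩, hE.evMer_coe ⟨a, ha⟩⟩
  frac x := by
    obtain ⟨a, b, hb, hx⟩ := hE.frac x
    have hb' : (b : E) ≠ 0 := fun h0 => hb (Subtype.ext h0)
    exact ⟨a, a.2, b, b.2, hb', eq_div_of_mul_eq hb' hx⟩
  Γ := Γ
  fin := fin
  inv a ha γ hγ := by
    have h1 := hE.evMer_coe ⟨a, ha⟩
    rw [h1, pull_algebraMap]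
    congr 1
    exact Subtype.ext (funext fun τ => hE.inv γ hγ ⟨a, ha⟩ τ)
  growth a ha f hf g := by
    have h1 := hE.evMer_coe ⟨a, ha⟩
    have hff : f = hE.evHol ⟨a, ha⟩ := IsFractionRing.injective Hol Mer (by rw [← hf, ← h1])
    rw [hff]
    exact hE.hasExpGrowth hh g ⟨a, ha⟩

@[simp] theorem toAnField_ev (hE : EvalC Γ h jE A e) (hh : 0 < h) (fin : Γ.FiniteIndex) :
    (hE.toAnField hh fin).ev = hE.evMer := rfl

@[simp] theorem toAnField_j (hE : EvalC Γ h jE A e) (hh : 0 < h) (fin : Γ.FiniteIndex) :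
    (hE.toAnField hh fin).j = jE := rfl

@[simp] theorem toAnField_A (hE : EvalC Γ h jE A e) (hh : 0 < h) (fin : Γ.FiniteIndex) :
    (hE.toAnField hh fin).A = A := rfl

@[simp] theorem toAnField_Γ (hE : EvalC Γ h jE A e) (hh : 0 < h) (fin : Γ.FiniteIndex) :
    (hE.toAnField hh fin).Γ = Γ := rfl

/-! ### The place dictionary in the vocabulary of the datum -/

section Consequences

open IntermediateField AlgebraicCurve

variable (hE : EvalC Γ h jE A e) (hh : 0 < h) (fin : Γ.FiniteIndex)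
include hE hh fin

theorem evMer_injective : Function.Injective hE.evMer :=
  (hE.toAnField hh fin).ev_injective

/-- `Γ`-invariance of the evaluation. -/
theorem pull_evMer (γ : SL(2, ℤ)) (hγ : γ ∈ Γ) (f : E) : pull γ (hE.evMer f) = hE.evMer f :=
  (hE.toAnField hh fin).pull_ev γ hγ f

theorem transcendental_j : Transcendental ℂ jE :=
  (hE.toAnField hh fin).transcendental_j

/-- (C1) `E` is finite over `ℂ(j)`. -/
theorem finiteDimensional_j : FiniteDimensional ℂ⟮jE⟯ E :=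
  (hE.toAnField hh fin).finiteDimensional_j

/-- (C1) the degree over `ℂ(j)` is at most the index of `Γ`. -/
theorem finrank_j_le : Module.finrank ℂ⟮jE⟯ E ≤ Γ.index :=
  (hE.toAnField hh fin).finrank_j_le

/-- **Completeness**: every place at which `j` has no pole is the place of a point. -/
theorem exists_point_of_place (v : Place ℂ E) (hv : 0 ≤ v.ord jE) :
    ∃ (z : ℍ) (k : ℕ), 0 < k ∧ ∀ f : E, f ≠ 0 →
      ordAt z (hE.evMer f) = (((k : ℤ) * v.ord f : ℤ) : WithTop ℤ) :=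
  (hE.toAnField hh fin).exists_point_of_place v hv

/-- **Completeness at generic places**, index `1`. -/
theorem exists_point_of_place_generic (v : Place ℂ E) (c : ℂ)
    (hc : 0 < v.ord (jE - algebraMap ℂ E c)) (h0 : c ≠ 0) (h1 : c ≠ 1728) :
    ∃ z : ℍ, helper288.jFn z = c ∧ ∀ f : E, f ≠ 0 →
      ordAt z (hE.evMer f) = ((v.ord f : ℤ) : WithTop ℤ) := by
  obtain ⟨z, hz, -, hf⟩ := (hE.toAnField hh fin).exists_point_of_place_generic v c hc h0 h1
  exact ⟨z, hz, hf⟩

/-- (C5) If `evMer u` is an `n`-th power in `Mer`, then `n` divides the order of `u` at every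
place centred at a value `c ∉ {0, 1728}`. -/
theorem dvd_ord_of_pow_eq_generic (v : Place ℂ E) (c : ℂ)
    (hc : 0 < v.ord (jE - algebraMap ℂ E c)) (h0 : c ≠ 0) (h1 : c ≠ 1728)
    {u : E} (hu : u ≠ 0) (n : ℕ) (W : Mer) (hW : W ^ n = hE.evMer u) :
    (n : ℤ) ∣ v.ord u :=
  (hE.toAnField hh fin).dvd_ord_of_pow_eq_generic v c hc h0 h1 hu n W hW

/-- **Stability**: if all analytic orders of `u` are divisible by `p`, the same holds for every
conjugate of `u` under a semilinear automorphism of `E` fixing `j`. -/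
theorem dvd_ordAt_smul (g : SemilinearAut ℂ E) (hg : g • jE = jE) (p : ℤ) {u : E} (hu : u ≠ 0)
    (hdvd : ∀ z : ℍ, ∃ m : ℤ, ordAt z (hE.evMer u) = ((p * m : ℤ) : WithTop ℤ)) (z : ℍ) :
    ∃ m : ℤ, ordAt z (hE.evMer (g • u)) = ((p * m : ℤ) : WithTop ℤ) := by
  set D := hE.toAnField hh fin with hD
  have hgu : g • u ≠ 0 := by
    rw [SemilinearAut.smul_def]
    exact (RingEquiv.map_ne_zero_iff _).mpr hu
  have h1 : ∀ z : ℍ, p ∣ D.ordE z u := fun z => (D.dvd_ordE_iff z hu p).mpr (hdvd z)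
  exact (D.dvd_ordE_iff z hgu p).mp (D.dvd_ordE_smul g hg p u h1 z)

end Consequences

end EvalC

end Fermat.Agent.S48.helper1002
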