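import Fermat.Agent.S29.helper580_CPlaceFin

/-!
# S48 / M3-CPLACE (helper1002): the complex place dictionary for an abstract analytic
function field

Field-generic port of the landed `S29/helper580_CPlaceFin` (which is hard-wired to the complex
function field `FC N` of `X₀(N)`, its subalgebra `AC N` and the cosets `XN N`).

An `AnField E` is a field `E` over `ℂ` together with

* an evaluation `ev : E →ₐ[ℂ] Mer` into the field of meromorphic functions on `ℍ`
  (`S24.helper580.Mer`),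
* an element `j` with `ev j = J`,
* a subalgebra `A` containing `j`, generating `E` as a field, whose elements are holomorphic on
  `ℍ`,
* a finite index subgroup `Γ` of `SL(2, ℤ)` under which the elements of `A` are invariant,
* exponential growth at `i∞` of every `SL(2, ℤ)`-translate of every element of `A`.

(For `Γ₁(M)`: `E = F₁(M) ⊗ ℂ`, `A = ℂ[j(q^d), D-ratios]`, `Γ = Γ₁(M)`.)

Main statements (`D : AnField E`):

* `D.finiteDimensional_j_and_finrank_le` : `E` is finite over `ℂ(j)` of degree `≤ [SL(2,ℤ) : Γ]`;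
* `D.pointPlace z`, `D.pointIndex z`, `D.ordE_eq` : the order at `z : ℍ` is a positive multiple
  of the order function of a place of `E / ℂ`;
* `D.exists_pointPlace_eq` (**completeness**): every place `v` with `0 ≤ v.ord j` is the place
  of a point of the upper half plane;
* `D.pointIndex_eq_one`, `D.exists_point_of_place_generic` : index `1` off `j = 0, 1728`;
* `D.dvd_ord_of_pow_eq_generic` : if `ev u` is an `n`-th power in `Mer` then `n ∣ v.ord u` at
  every place centred at `c ∉ {0, 1728}`;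
* `D.exists_point_of_smul`, `D.dvd_ordE_smul` (**stability**): semilinear automorphisms of `E`
  fixing `j` permute the point valuations.
-/

set_option autoImplicit false

open UpperHalfPlane IntermediateField AlgebraicCurve Polynomial
open scoped MatrixGroups Manifold

noncomputable section

namespace Fermat.Agent.S48.helper1002

open Fermat.Agent.S24 Fermat.Agent.S24.helper580 Fermat.Agent.S29.helper580
open Fermat.Agent.S29.helper265 (IsIntOrder)

/-- An analytic function field: a field over `ℂ` realised by meromorphic functions on the upper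
half plane, generated by a subalgebra of holomorphic functions invariant under a finite index
subgroup of `SL(2, ℤ)` and of exponential growth at all cusps. -/
structure AnField (E : Type*) [Field E] [Algebra ℂ E] where
  /-- the analytic realisation -/
  ev : E →ₐ[ℂ] Mer
  /-- the `j`-function -/
  j : E
  ev_j : ev j = algebraMap Hol Mer JHol
  /-- the holomorphic generators -/
  A : Subalgebra ℂ E
  j_mem : j ∈ A
  hol : ∀ a ∈ A, ∃ f : Hol, ev a = algebraMap Hol Mer f
  frac : ∀ x : E, ∃ a ∈ A, ∃ b ∈ A, b ≠ 0 ∧ x = a / b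
  /-- the invariance group -/
  Γ : Subgroup SL(2, ℤ)
  fin : Γ.FiniteIndex
  inv : ∀ a ∈ A, ∀ γ ∈ Γ, pull γ (ev a) = ev a
  growth : ∀ a ∈ A, ∀ f : Hol, ev a = algebraMap Hol Mer f → ∀ g : SL(2, ℤ),
    helper167.HasExpGrowth (fun τ : ℍ => (f : ℍ → ℂ) (g • τ))

namespace AnField

variable {E : Type*} [Field E] [Algebra ℂ E] (D : AnField E)

attribute [instance] AnField.fin

/-! ## Basic API -/

theorem ev_injective : Function.Injective D.ev := D.ev.toRingHom.injective

theorem ev_ne_zero {f : E} (hf : f ≠ 0) : D.ev f ≠ 0 :=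
  (map_ne_zero_iff _ D.ev_injective).mpr hf

/-- The holomorphic function of an element of `A`. -/
def evHol (a : D.A) : Hol := (D.hol a a.2).choose

theorem ev_coe (a : D.A) : D.ev (a : E) = algebraMap Hol Mer (D.evHol a) :=
  (D.hol a a.2).choose_spec

/-- The function on `ℍ` of an element of `A`. -/
def evFun (a : D.A) : ℍ → ℂ := (D.evHol a : ℍ → ℂ)

theorem coe_evHol (a : D.A) : (D.evHol a : ℍ → ℂ) = D.evFun a := rfl

theorem evHol_ne_zero {a : D.A} (ha : (a : E) ≠ 0) : D.evHol a ≠ 0 := by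
  intro h
  have h1 := D.ev_coe a
  rw [h, map_zero] at h1
  exact D.ev_ne_zero ha h1

theorem exists_div (x : E) : ∃ a b : D.A, (b : E) ≠ 0 ∧ x = (a : E) / (b : E) := by
  obtain ⟨a, ha, b, hb, hb0, hx⟩ := D.frac x
  exact ⟨⟨a, ha⟩, ⟨b, hb⟩, hb0, hx⟩

theorem pull_ev_coe (g : SL(2, ℤ)) (a : D.A) :
    pull g (D.ev (a : E)) = algebraMap Hol Mer (pullHol g (D.evHol a)) := by
  rw [D.ev_coe, pull_algebraMap]

theorem evFun_smul_of_mem (a : D.A) (γ : SL(2, ℤ)) (hγ : γ ∈ D.Γ) (τ : ℍ) :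
    D.evFun a (γ • τ) = D.evFun a τ := by
  have h1 := D.inv a a.2 γ hγ
  rw [D.pull_ev_coe, D.ev_coe] at h1
  have h2 : pullHol γ (D.evHol a) = D.evHol a := IsFractionRing.injective Hol Mer h1
  have h3 := congrArg (fun f : Hol => (f : ℍ → ℂ) τ) h2
  exact h3

theorem evFun_smul_mdiff_growth (a : D.A) (g : SL(2, ℤ)) :
    MDiff (fun τ : ℍ => D.evFun a (g • τ)) ∧
      helper167.HasExpGrowth (fun τ : ℍ => D.evFun a (g • τ)) :=
  ⟨mdifferentiable_comp_smul g (D.evHol a).2, D.growth a a.2 (D.evHol a) (D.ev_coe a) g⟩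

/-- `ev f` is `Γ`-invariant. -/
theorem pull_ev (γ : SL(2, ℤ)) (hγ : γ ∈ D.Γ) (f : E) : pull γ (D.ev f) = D.ev f := by
  obtain ⟨a, b, -, rfl⟩ := D.exists_div f
  rw [map_div₀, map_div₀, D.inv a a.2 γ hγ, D.inv b b.2 γ hγ]

/-- `ev` of a polynomial in `j`. -/
theorem ev_aeval_j (p : ℂ[X]) :
    D.ev (aeval D.j p) = algebraMap Hol Mer (aeval JHol p) := by
  rw [← Polynomial.aeval_algHom_apply, D.ev_j, Polynomial.aeval_algebraMap_apply]

theorem ev_j_sub (c : ℂ) :
    D.ev (D.j - algebraMap ℂ E c) = algebraMap Hol Mer (JHol - algebraMap ℂ Hol c) := by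
  rw [map_sub, D.ev_j, AlgHom.commutes, map_sub, ← IsScalarTower.algebraMap_apply]

theorem transcendental_j : Transcendental ℂ D.j := by
  rintro ⟨p, hp0, hp⟩
  have h1 : D.ev (aeval D.j p) = 0 := by rw [hp, map_zero]
  rw [D.ev_aeval_j] at h1
  have h2 : aeval JHol p = 0 := IsFractionRing.injective Hol Mer (by rw [h1, map_zero])
  apply hp0
  refine Polynomial.funext fun c => ?_
  obtain ⟨τ, hτ⟩ := helper454.exists_j_eq c
  have hτ' : helper288.jFn τ = c := hτ
  have h3 := aeval_JHol_apply p τ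
  rw [h2, hτ'] at h3
  rw [eval_zero, ← h3]
  rfl

theorem j_sub_ne_zero (c : ℂ) : D.j - algebraMap ℂ E c ≠ 0 :=
  helper204.sub_ne_zero_of_transcendental D.transcendental_j c

theorem j_ne_zero : D.j ≠ 0 := by
  have h := D.j_sub_ne_zero 0
  rwa [map_zero, sub_zero] at h

theorem aeval_comp_shift (c : ℂ) (q : ℂ[X]) :
    aeval (D.j - algebraMap ℂ E c) (q.comp (X + C c)) = aeval D.j q := by
  rw [aeval_comp, map_add, aeval_X, aeval_C, sub_add_cancel]

/-! ## Orders at points -/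

/-- The order at `z` of the meromorphic function `ev f` (junk value `0` at `f = 0`). -/
def ordE (z : ℍ) (f : E) : ℤ := (ordAt z (D.ev f)).untopD 0

theorem coe_ordE (z : ℍ) {f : E} (hf : f ≠ 0) :
    ((D.ordE z f : ℤ) : WithTop ℤ) = ordAt z (D.ev f) := by
  obtain ⟨n, hn⟩ := WithTop.ne_top_iff_exists.mp (ordAt_ne_top z (D.ev_ne_zero hf))
  rw [ordE, ← hn]
  rfl

theorem ordE_zero (z : ℍ) : D.ordE z 0 = 0 := by
  rw [ordE, map_zero, AddValuation.map_zero]
  rfl

theorem isIntOrder_ordE (z : ℍ) : IsIntOrder ℂ (D.ordE z) := by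
  refine ⟨fun f g hf hg => ?_, fun f g hf hg hfg => ?_, fun a ha => ?_⟩
  · have h := D.coe_ordE z (mul_ne_zero hf hg)
    rw [map_mul, AddValuation.map_mul, ← D.coe_ordE z hf, ← D.coe_ordE z hg,
      ← WithTop.coe_add] at h
    exact WithTop.coe_injective h
  · have h1 := (ordAt z).map_add (D.ev f) (D.ev g)
    rw [← map_add, ← D.coe_ordE z hf, ← D.coe_ordE z hg, ← D.coe_ordE z hfg] at h1
    exact_mod_cast h1
  · rw [ordE, AlgHom.commutes, ordAt_const z ha]
    rfl

theorem ordAt_ev_j_sub_self (z : ℍ) :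
    ordAt z (D.ev (D.j - algebraMap ℂ E (helper288.jFn z)))
      = ((jOrd (helper288.jFn z) : ℤ) : WithTop ℤ) := by
  rw [D.ev_j_sub, ordAt_algebraMap_eq_analyticOrderAt]
  have hfun : (((JHol - algebraMap ℂ Hol (helper288.jFn z) : Hol) : ℍ → ℂ) ∘ ofComplex)
      = fun s : ℂ => helper288.jFn (ofComplex s) - helper288.jFn z := rfl
  rw [hfun]
  obtain ⟨h3, h2, h1⟩ := helper2064.analyticOrderAt_sub_of_eq helper288.jFn (fun τ => rfl) z
  unfold jOrd
  split_ifs with hc0 hc1
  · rw [h3 hc0]; rfl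
  · rw [h2 hc1]; rfl
  · rw [h1 hc0 hc1]; rfl

theorem ordE_j_sub_self (z : ℍ) :
    D.ordE z (D.j - algebraMap ℂ E (helper288.jFn z)) = jOrd (helper288.jFn z) := by
  rw [ordE, D.ordAt_ev_j_sub_self]
  rfl

theorem ordE_j_sub_of_ne (z : ℍ) {c : ℂ} (hc : helper288.jFn z ≠ c) :
    D.ordE z (D.j - algebraMap ℂ E c) = 0 := by
  rw [ordE, D.ev_j_sub, ordAt_algebraMap_eq_analyticOrderAt]
  have h0 : analyticOrderAt (((JHol - algebraMap ℂ Hol c : Hol) : ℍ → ℂ) ∘ ofComplex) (z : ℂ)
      = 0 := by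
    rw [(Hol.analyticAt _ z).analyticOrderAt_eq_zero]
    show helper288.jFn (ofComplex (z : ℂ)) - c ≠ 0
    rw [UpperHalfPlane.ofComplex_apply]
    exact sub_ne_zero.mpr hc
  rw [h0]
  rfl

theorem ordE_j_nonneg (z : ℍ) : 0 ≤ D.ordE z D.j := by
  have h := ordAt_algebraMap_nonneg z JHol
  rw [← D.ev_j, ← D.coe_ordE z D.j_ne_zero] at h
  exact_mod_cast h

/-- The order function at a point is a positive multiple of the order function of a place. -/
theorem exists_pointPlace (z : ℍ) :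
    ∃ (v : Place ℂ E) (e : ℕ), 0 < e ∧ ∀ f : E, f ≠ 0 → D.ordE z f = (e : ℤ) * v.ord f :=
  (D.isIntOrder_ordE z).exists_place
    ⟨D.j - algebraMap ℂ E (helper288.jFn z), D.j_sub_ne_zero _, by
      rw [D.ordE_j_sub_self]
      exact_mod_cast (jOrd_pos _).ne'⟩

/-- The place of `E` defined by a point of the upper half plane. -/
def pointPlace (z : ℍ) : Place ℂ E := (D.exists_pointPlace z).choose

/-- The ramification index of the uniformisation at a point. -/
def pointIndex (z : ℍ) : ℕ := (D.exists_pointPlace z).choose_spec.choose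

theorem pointIndex_pos (z : ℍ) : 0 < D.pointIndex z :=
  (D.exists_pointPlace z).choose_spec.choose_spec.1

theorem ordE_eq (z : ℍ) {f : E} (hf : f ≠ 0) :
    D.ordE z f = (D.pointIndex z : ℤ) * (D.pointPlace z).ord f :=
  (D.exists_pointPlace z).choose_spec.choose_spec.2 f hf

theorem pointPlace_ord_j_nonneg (z : ℍ) : 0 ≤ (D.pointPlace z).ord D.j := by
  have h := D.ordE_j_nonneg z
  rw [D.ordE_eq z D.j_ne_zero] at h
  have he : (0 : ℤ) < D.pointIndex z := by exact_mod_cast D.pointIndex_pos z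
  exact nonneg_of_mul_nonneg_right h he

/-! ## Finiteness over `ℂ(j)` -/

/-- The cosets of the invariance group. -/
abbrev Cos : Type := SL(2, ℤ) ⧸ D.Γ

instance : Finite D.Cos := Subgroup.finite_quotient_of_finiteIndex

/-- Translating by `g` permutes the conjugates `F ∘ (out x)⁻¹` of a `Γ`-invariant function. -/
theorem out_inv_smul_smul (F : ℍ → ℂ) (hinv : ∀ γ ∈ D.Γ, ∀ τ : ℍ, F (γ • τ) = F τ)
    (g : SL(2, ℤ)) (x : D.Cos) (τ : ℍ) :
    F ((Quotient.out x)⁻¹ • g • τ) = F ((Quotient.out (g⁻¹ • x))⁻¹ • τ) := by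
  obtain ⟨h, hh, hout⟩ : ∃ h ∈ D.Γ,
      Quotient.out (g⁻¹ • x) = g⁻¹ * Quotient.out x * h := by
    have hx : g⁻¹ • x = ((g⁻¹ * Quotient.out x : SL(2, ℤ)) : D.Cos) := by
      conv_lhs => rw [← QuotientGroup.out_eq' x]
      rfl
    rw [hx]
    obtain ⟨h, hh⟩ := QuotientGroup.mk_out_eq_mul D.Γ (g⁻¹ * Quotient.out x)
    exact ⟨h, h.2, hh⟩
  rw [hout, mul_inv_rev, mul_inv_rev, inv_inv, mul_smul, mul_smul, hinv h⁻¹ (inv_mem hh)]

theorem out_one_inv_mem : (Quotient.out ((1 : SL(2, ℤ)) : D.Cos))⁻¹ ∈ D.Γ := by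
  obtain ⟨h, hh⟩ := QuotientGroup.mk_out_eq_mul D.Γ (1 : SL(2, ℤ))
  rw [hh, one_mul]
  exact inv_mem h.2

theorem out_one_inv_smul (F : ℍ → ℂ) (hinv : ∀ γ ∈ D.Γ, ∀ τ : ℍ, F (γ • τ) = F τ)
    (τ : ℍ) : F ((Quotient.out ((1 : SL(2, ℤ)) : D.Cos))⁻¹ • τ) = F τ :=
  hinv _ D.out_one_inv_mem τ

/-- The monic relation over `ℂ[J]` satisfied by `evFun a`. -/
theorem exists_monic_relation_evFun [Fintype D.Cos] (a : D.A) :
    ∃ P : Polynomial (Polynomial ℂ), P.Monic ∧ P.natDegree = Fintype.card D.Cos ∧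
      ∀ τ : ℍ, ∑ i ∈ Finset.range (Fintype.card D.Cos + 1),
        (P.coeff i).eval (helper288.jFn τ) * D.evFun a τ ^ i = 0 := by
  classical
  let φ : D.Cos → ℍ → ℂ := fun x τ => D.evFun a ((Quotient.out x)⁻¹ • τ)
  have hφhol : ∀ x, MDiff (φ x) := fun x => (D.evFun_smul_mdiff_growth a _).1
  have hφgr : ∀ x, helper167.HasExpGrowth (φ x) := fun x => (D.evFun_smul_mdiff_growth a _).2
  have hφperm : ∀ g : SL(2, ℤ), ∃ s : Equiv.Perm D.Cos, ∀ (x : D.Cos) (τ : ℍ),
      φ x (g • τ) = φ (s x) τ := fun g =>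
    ⟨MulAction.toPerm g⁻¹, fun x τ =>
      D.out_inv_smul_smul (D.evFun a) (fun γ hγ τ => D.evFun_smul_of_mem a γ hγ τ) g x τ⟩
  obtain ⟨P, hmonic, hdeg, hP⟩ := helper167.exists_monic_relation_sum φ hφhol hφperm hφgr
  refine ⟨P, hmonic, hdeg, fun τ => ?_⟩
  have h1 := hP ((1 : SL(2, ℤ)) : D.Cos) τ
  have h2 : φ ((1 : SL(2, ℤ)) : D.Cos) τ = D.evFun a τ :=
    D.out_one_inv_smul (D.evFun a) (fun γ hγ τ => D.evFun_smul_of_mem a γ hγ τ) τ
  rw [h2] at h1
  exact h1

/-- The monic relation over `ℂ[j]` satisfied by an element of `A`. -/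
theorem exists_relation_A [Fintype D.Cos] (a : D.A) :
    ∃ P : Polynomial (Polynomial ℂ), P.Monic ∧ P.natDegree = Fintype.card D.Cos ∧
      ∑ i ∈ Finset.range (Fintype.card D.Cos + 1),
        aeval D.j (P.coeff i) * (a : E) ^ i = 0 := by
  obtain ⟨P, hmonic, hdeg, hP⟩ := D.exists_monic_relation_evFun a
  refine ⟨P, hmonic, hdeg, ?_⟩
  apply D.ev_injective
  rw [map_zero, map_sum]
  have h : ∀ i, D.ev (aeval D.j (P.coeff i) * (a : E) ^ i)
      = algebraMap Hol Mer (aeval JHol (P.coeff i) * D.evHol a ^ i) := by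
    intro i
    rw [map_mul, map_pow, D.ev_aeval_j, D.ev_coe, map_mul, map_pow]
  simp_rw [h]
  rw [← map_sum]
  have h0 : ∑ i ∈ Finset.range (Fintype.card D.Cos + 1),
      aeval JHol (P.coeff i) * D.evHol a ^ i = 0 := by
    refine Hol.ext fun τ => ?_
    show evalAt τ (∑ i ∈ Finset.range (Fintype.card D.Cos + 1),
      aeval JHol (P.coeff i) * D.evHol a ^ i) = evalAt τ 0
    rw [map_sum, map_zero]
    simp_rw [map_mul, map_pow, evalAt_aeval_JHol]
    exact hP τ
  rw [h0, map_zero]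

/-- `E` is finite over `ℂ(j)`, of degree at most `[SL(2,ℤ) : Γ]`. -/
theorem finiteDimensional_j_and_finrank_le :
    FiniteDimensional ℂ⟮D.j⟯ E ∧ Module.finrank ℂ⟮D.j⟯ E ≤ Nat.card D.Cos := by
  classical
  let _ : Fintype D.Cos := Fintype.ofFinite _
  rw [Nat.card_eq_fintype_card]
  refine helper102.finrank_le_of_forall_mem D.j D.A D.j_mem (fun x => ?_) _
    (fun a ha => ?_)
  · obtain ⟨a, ha, b, hb, -, hx⟩ := D.frac x
    exact ⟨a, ha, b, hb, hx⟩
  · obtain ⟨P, hmonic, hdeg, hP⟩ := D.exists_relation_A ⟨a, ha⟩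
    refine helper102.isIntegral_natDegree_le_of_relation D.j a D.transcendental_j _
      (fun k => P.coeff k) ⟨Fintype.card D.Cos, le_rfl, ?_⟩ hP
    rw [← hdeg, hmonic.coeff_natDegree]
    exact one_ne_zero

theorem finiteDimensional_j : FiniteDimensional ℂ⟮D.j⟯ E :=
  D.finiteDimensional_j_and_finrank_le.1

theorem finrank_j_le : Module.finrank ℂ⟮D.j⟯ E ≤ D.Γ.index := by
  have h := D.finiteDimensional_j_and_finrank_le.2
  rwa [← Subgroup.index_eq_card] at h

theorem finiteDimensional_j_sub (c : ℂ) :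
    FiniteDimensional ℂ⟮D.j - algebraMap ℂ E c⟯ E :=
  have := D.finiteDimensional_j
  helper102.finiteDimensional_adjoin_sub_algebraMap D.j c

/-! ## Completeness: every finite place is a point place -/

/-- **Completeness.** Every place of `E` at which `j` has no pole is the place of a point of the
upper half plane. -/
theorem exists_pointPlace_eq (v : Place ℂ E) (hv : 0 ≤ v.ord D.j) :
    ∃ z : ℍ, D.pointPlace z = v := by
  classical
  have : FiniteDimensional ℂ⟮D.j⟯ E := D.finiteDimensional_j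
  let _ : Fintype D.Cos := Fintype.ofFinite _
  -- the centre of `v`
  obtain ⟨c, hc, -⟩ : ∃! c : ℂ, 0 < v.ord (D.j - algebraMap ℂ E c) :=
    (helper204.place_center D.j D.transcendental_j v).resolve_left (not_lt.mpr hv)
  obtain ⟨τ0, hτ0⟩ := helper454.exists_j_eq c
  have hJ0 : helper288.jFn τ0 = c := hτ0
  set t : E := D.j - algebraMap ℂ E c with ht
  have : FiniteDimensional ℂ⟮t⟯ E := D.finiteDimensional_j_sub c
  have ht0 : t ≠ 0 := D.j_sub_ne_zero c
  -- the points over `c`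
  let g : D.Cos → SL(2, ℤ) := fun x => (Quotient.out x)⁻¹
  let zx : D.Cos → ℍ := fun x => g x • τ0
  have hJx : ∀ x, helper288.jFn (zx x) = c := fun x => by
    show helper288.jFn (g x • τ0) = c
    rw [helper288.jFn_smul, hJ0]
  by_contra hno
  push Not at hno
  -- prime avoidance
  have hVt : ∀ x : D.Cos, 0 < (D.pointPlace (zx x)).ord t := by
    intro x
    have h1 := D.ordE_j_sub_self (zx x)
    rw [hJx x, D.ordE_eq (zx x) ht0] at h1
    have he : (0 : ℤ) < D.pointIndex (zx x) := by exact_mod_cast D.pointIndex_pos (zx x)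
    have hj : (0 : ℤ) < jOrd c := by exact_mod_cast jOrd_pos c
    rw [← h1] at hj
    exact (mul_pos_iff_of_pos_left he).mp hj
  obtain ⟨b, -, hbv, hbV⟩ := helper384.exists_integral_avoiding t v hc Finset.univ
    (fun x => D.pointPlace (zx x)) hVt (fun x _ => hno (zx x))
  have hb0 : b ≠ 0 := by
    rintro rfl
    rw [v.ord_zero] at hbv
    exact lt_irrefl _ hbv
  have hbx : ∀ x, D.ordE (zx x) b = 0 := fun x => by
    rw [D.ordE_eq (zx x) hb0, hbV x (Finset.mem_univ x), mul_zero]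
  -- write `b = a1 / b1`
  obtain ⟨a1, b1, hb1, hb⟩ := D.exists_div b
  set A : ℍ → ℂ := D.evFun a1 with hA
  set B : ℍ → ℂ := D.evFun b1 with hB
  have hAinv : ∀ γ ∈ D.Γ, ∀ τ : ℍ, A (γ • τ) = A τ :=
    fun γ hγ τ => D.evFun_smul_of_mem a1 γ hγ τ
  have hBinv : ∀ γ ∈ D.Γ, ∀ τ : ℍ, B (γ • τ) = B τ :=
    fun γ hγ τ => D.evFun_smul_of_mem b1 γ hγ τ
  -- holomorphic conjugates
  let AH : D.Cos → Hol := fun x => pullHol (g x) (D.evHol a1)
  let BH : D.Cos → Hol := fun x => pullHol (g x) (D.evHol b1)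
  have hBH0 : ∀ x, BH x ≠ 0 := fun x =>
    (EmbeddingLike.map_ne_zero_iff (f := pullHol (g x))).mpr (D.evHol_ne_zero hb1)
  let ΦH : D.Cos → Hol := fun x => AH x * ∏ y ∈ Finset.univ.erase x, BH y
  let βH : Hol := ∏ y, BH y
  have hβH0 : βH ≠ 0 := Finset.prod_ne_zero_iff.mpr fun y _ => hBH0 y
  have hΦB : ∀ x, ΦH x * BH x = AH x * βH := by
    intro x
    show AH x * (∏ y ∈ Finset.univ.erase x, BH y) * BH x = AH x * ∏ y, BH y
    rw [mul_assoc, mul_comm (∏ y ∈ Finset.univ.erase x, BH y) (BH x),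
      Finset.mul_prod_erase Finset.univ BH (Finset.mem_univ x)]
  let φ : D.Cos → ℍ → ℂ := fun x => (ΦH x : ℍ → ℂ)
  let β : ℍ → ℂ := (βH : ℍ → ℂ)
  have hφ_apply : ∀ x τ, φ x τ = A (g x • τ) * ∏ y ∈ Finset.univ.erase x, B (g y • τ) := by
    intro x τ
    show evalAt τ (AH x * ∏ y ∈ Finset.univ.erase x, BH y) = _
    rw [map_mul, map_prod]
    rfl
  have hβ_apply : ∀ τ, β τ = ∏ y, B (g y • τ) := by
    intro τ
    show evalAt τ (∏ y, BH y) = _
    rw [map_prod]
    rfl
  have hφhol : ∀ x, MDiff (φ x) := fun x => (ΦH x).2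
  have hβhol : MDiff β := βH.2
  have hφgr : ∀ x, helper167.HasExpGrowth (φ x) := by
    intro x
    have h1 : helper167.HasExpGrowth (fun τ : ℍ => A (g x • τ)) :=
      (D.evFun_smul_mdiff_growth a1 (g x)).2
    have h2 : helper167.HasExpGrowth
        (fun τ : ℍ => ∏ y ∈ Finset.univ.erase x, B (g y • τ)) :=
      helper167.hasExpGrowth_finset_prod _ (fun y τ => B (g y • τ))
        (fun y _ => (D.evFun_smul_mdiff_growth b1 (g y)).2)
    have h3 := h1.mul h2
    have h4 : φ x = fun τ : ℍ => A (g x • τ) * ∏ y ∈ Finset.univ.erase x, B (g y • τ) :=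
      funext fun τ => hφ_apply x τ
    rw [h4]
    exact h3
  have hβgr : helper167.HasExpGrowth β := by
    have h2 : helper167.HasExpGrowth (fun τ : ℍ => ∏ y, B (g y • τ)) :=
      helper167.hasExpGrowth_finset_prod _ (fun y τ => B (g y • τ))
        (fun y _ => (D.evFun_smul_mdiff_growth b1 (g y)).2)
    have h4 : β = fun τ : ℍ => ∏ y, B (g y • τ) := funext fun τ => hβ_apply τ
    rw [h4]
    exact h2
  have hφperm : ∀ h : SL(2, ℤ), ∃ s : Equiv.Perm D.Cos, ∀ (x : D.Cos) (τ : ℍ),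
      φ x (h • τ) = φ (s x) τ := by
    intro h
    refine ⟨MulAction.toPerm h⁻¹, fun x τ => ?_⟩
    rw [hφ_apply, hφ_apply]
    show A ((Quotient.out x)⁻¹ • h • τ) * ∏ y ∈ Finset.univ.erase x, B (g y • h • τ)
      = A ((Quotient.out (h⁻¹ • x))⁻¹ • τ) * ∏ y ∈ Finset.univ.erase (h⁻¹ • x), B (g y • τ)
    rw [D.out_inv_smul_smul A hAinv h x τ]
    congr 1
    refine Finset.prod_equiv (MulAction.toPerm h⁻¹) (fun y => ?_) (fun y _ => ?_)
    · simp only [Finset.mem_erase, Finset.mem_univ, and_true, MulAction.toPerm_apply]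
      exact (MulAction.injective h⁻¹).ne_iff.symm
    · exact D.out_inv_smul_smul B hBinv h y τ
  have hβinv : ∀ (γ : SL(2, ℤ)) (τ : ℍ), β (γ • τ) = β τ := by
    intro γ τ
    rw [hβ_apply, hβ_apply]
    rw [← Equiv.prod_comp (MulAction.toPerm γ⁻¹) (fun y => B (g y • τ))]
    exact Finset.prod_congr rfl fun y _ => D.out_inv_smul_smul B hBinv γ y τ
  -- `β` is a polynomial in `J`
  obtain ⟨mβ, Cβ, hgrβ⟩ := hβgr
  obtain ⟨Pβ, -, hPβ⟩ := helper167.polyInJ_of_invariant β hβhol hβinv mβ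
    (helper167.isBoundedAtImInfty_disc_pow_mul hgrβ)
  -- the monic relation
  obtain ⟨P, hPmonic, hPdeg, hP⟩ := helper167.exists_monic_relation φ hφhol hφperm hφgr
  set n := Fintype.card D.Cos with hn
  -- the meromorphic conjugates of `b`
  let ψ : D.Cos → Mer := fun x => pull (g x) (D.ev b)
  have hψ0 : ∀ x, ordAt τ0 (ψ x) = 0 := by
    intro x
    show ordAt τ0 (pull (g x) (D.ev b)) = 0
    rw [ordAt_pull, ← D.coe_ordE _ hb0]
    exact_mod_cast hbx x
  have hψ : ∀ x, ψ x = algebraMap Hol Mer (AH x) / algebraMap Hol Mer (BH x) := by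
    intro x
    show pull (g x) (D.ev b) = _
    rw [hb, map_div₀, map_div₀, D.pull_ev_coe, D.pull_ev_coe]
  set βM : Mer := algebraMap Hol Mer βH with hβM
  have hβM0 : βM ≠ 0 := (map_ne_zero_iff _ (IsFractionRing.injective Hol Mer)).mpr hβH0
  have hΦM : ∀ x, ψ x * βM = algebraMap Hol Mer (ΦH x) := by
    intro x
    have hB0 : algebraMap Hol Mer (BH x) ≠ 0 :=
      (map_ne_zero_iff _ (IsFractionRing.injective Hol Mer)).mpr (hBH0 x)
    have h1 : algebraMap Hol Mer (ΦH x) * algebraMap Hol Mer (BH x)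
        = algebraMap Hol Mer (AH x) * βM := by
      rw [← map_mul, hΦB x, map_mul]
    rw [hψ x, div_mul_eq_mul_div, ← h1, mul_div_assoc, div_self hB0, mul_one]
  set β' : E := aeval D.j Pβ with hβ'
  have hβ'M : D.ev β' = βM := by
    rw [hβ', D.ev_aeval_j, hβM]
    congr 1
    refine Hol.ext fun τ => ?_
    rw [aeval_JHol_apply]
    exact (hPβ τ).symm
  have hβ'0 : β' ≠ 0 := by
    intro h
    rw [h, map_zero] at hβ'M
    exact hβM0 hβ'M.symm
  -- the two polynomials
  set Q : Polynomial Mer := ∏ x, (X - C (ψ x)) with hQ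
  have hQdeg : Q.natDegree = n := by
    rw [hQ, natDegree_finsetProd_X_sub_C_eq_card, Finset.card_univ]
  have hscale : Q.scaleRoots βM = ∏ x, (X - C (algebraMap Hol Mer (ΦH x))) := by
    rw [hQ, prod_X_sub_C_scaleRoots]
    exact Finset.prod_congr rfl fun x _ => by rw [hΦM x]
  have hcoeffH : ∀ i, (∏ x, (X - C (ΦH x))).coeff i = aeval JHol (P.coeff i) := by
    intro i
    refine Hol.ext fun τ => ?_
    show evalAt τ ((∏ x, (X - C (ΦH x))).coeff i) = evalAt τ (aeval JHol (P.coeff i))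
    rw [evalAt_aeval_JHol]
    have h1 : evalAt τ ((∏ x, (X - C (ΦH x))).coeff i)
        = ((∏ x, (X - C (ΦH x))).map (evalAt τ : Hol →+* ℂ)).coeff i := by
      rw [coeff_map]
      rfl
    rw [h1, Polynomial.map_prod]
    have h2 : ∏ x, (X - C (ΦH x)).map (evalAt τ : Hol →+* ℂ) = ∏ x, (X - C (φ x τ)) :=
      Finset.prod_congr rfl fun x _ => by
        rw [Polynomial.map_sub, Polynomial.map_X, Polynomial.map_C]
        rfl
    rw [h2, ← hP τ, coeff_map]
    rfl
  have hcoeff : ∀ i, Q.coeff i * βM ^ (n - i) = D.ev (aeval D.j (P.coeff i)) := by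
    intro i
    have h1 := coeff_scaleRoots Q βM i
    rw [hQdeg, hscale] at h1
    rw [← h1, D.ev_aeval_j, ← hcoeffH i]
    have h2 : ∏ x, (X - C (algebraMap Hol Mer (ΦH x)))
        = (∏ x, (X - C (ΦH x))).map (algebraMap Hol Mer) := by
      rw [Polynomial.map_prod]
      exact Finset.prod_congr rfl fun x _ => by
        rw [Polynomial.map_sub, Polynomial.map_X, Polynomial.map_C]
    rw [h2, coeff_map]
  -- the coefficients as elements of `ℂ(j)`
  let r : ℕ → E := fun i => aeval D.j (P.coeff i) / β' ^ (n - i)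
  have hr : ∀ i, D.ev (r i) = Q.coeff i := by
    intro i
    show D.ev (aeval D.j (P.coeff i) / β' ^ (n - i)) = Q.coeff i
    rw [map_div₀, map_pow, hβ'M, ← hcoeff i, mul_div_assoc, div_self (pow_ne_zero _ hβM0),
      mul_one]
  have hr_ord : ∀ i, 0 ≤ ordAt τ0 (D.ev (r i)) := by
    intro i
    rw [hr i]
    exact coeff_prod_X_sub_C_mem (ordRing τ0) Finset.univ ψ
      (fun x _ => mem_ordRing.mpr (hψ0 x).ge) i
  have hr0_ord : ordAt τ0 (D.ev (r 0)) = 0 := by
    rw [hr 0, hQ, coeff_zero_eq_eval_zero, eval_prod]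
    refine addVal_prod_eq_zero (ordAt τ0) Finset.univ _ fun x _ => ?_
    rw [eval_sub, eval_X, eval_C, zero_sub, AddValuation.map_neg]
    exact hψ0 x
  -- the relation satisfied by `b`
  have hx0 : ψ ((1 : SL(2, ℤ)) : D.Cos) = D.ev b := by
    show pull (g ((1 : SL(2, ℤ)) : D.Cos)) (D.ev b) = D.ev b
    exact D.pull_ev _ D.out_one_inv_mem b
  have hrel : ∑ i ∈ Finset.range (n + 1), r i * b ^ i = 0 := by
    apply D.ev_injective
    rw [map_zero, map_sum]
    have h1 : ∀ i, D.ev (r i * b ^ i) = Q.coeff i * D.ev b ^ i := fun i => by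
      rw [map_mul, map_pow, hr i]
    simp_rw [h1]
    have h2 := eval_eq_sum_range (p := Q) (D.ev b)
    rw [hQdeg] at h2
    rw [← h2, hQ, eval_prod]
    refine Finset.prod_eq_zero (Finset.mem_univ ((1 : SL(2, ℤ)) : D.Cos)) ?_
    rw [eval_sub, eval_X, eval_C, hx0, sub_self]
  -- transfer to `v`
  have hw1 : IsIntOrder ℂ v.ord := isIntOrder_ord v
  have hw2 : IsIntOrder ℂ (D.ordE τ0) := D.isIntOrder_ordE τ0
  have ht2 : 0 < D.ordE τ0 t := by
    have h1 := D.ordE_j_sub_self τ0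
    rw [hJ0] at h1
    rw [ht, h1]
    exact_mod_cast jOrd_pos c
  have hβshift : aeval t (Pβ.comp (X + C c)) ≠ 0 := by
    rw [ht, D.aeval_comp_shift]
    exact hβ'0
  have hrv : ∀ i, r i ≠ 0 → 0 ≤ v.ord (r i) := by
    intro i hri
    have hpi : aeval t ((P.coeff i).comp (X + C c)) ≠ 0 := by
      rw [ht, D.aeval_comp_shift]
      intro h
      apply hri
      show aeval D.j (P.coeff i) / β' ^ (n - i) = 0
      rw [h, zero_div]
    have key := (isIntOrder_sign_transfer hw1 hw2 hc ht2 ((P.coeff i).comp (X + C c))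
      (Pβ.comp (X + C c)) hpi hβshift (n - i)).1
    rw [ht, D.aeval_comp_shift, D.aeval_comp_shift] at key
    apply key
    have h2 := hr_ord i
    rw [← D.coe_ordE τ0 hri] at h2
    exact_mod_cast h2
  have hr0 : r 0 ≠ 0 := by
    intro h
    rw [h, map_zero, AddValuation.map_zero] at hr0_ord
    exact WithTop.top_ne_zero hr0_ord
  have hrv0 : v.ord (r 0) = 0 := by
    have hpi : aeval t ((P.coeff 0).comp (X + C c)) ≠ 0 := by
      rw [ht, D.aeval_comp_shift]
      intro h
      apply hr0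
      show aeval D.j (P.coeff 0) / β' ^ (n - 0) = 0
      rw [h, zero_div]
    have key := (isIntOrder_sign_transfer hw1 hw2 hc ht2 ((P.coeff 0).comp (X + C c))
      (Pβ.comp (X + C c)) hpi hβshift (n - 0)).2
    rw [ht, D.aeval_comp_shift, D.aeval_comp_shift] at key
    apply key
    have h2 := hr0_ord
    rw [← D.coe_ordE τ0 hr0] at h2
    exact_mod_cast h2
  -- the contradiction
  rw [Finset.sum_range_succ', pow_zero, mul_one] at hrel
  have hsum := isIntOrder_sum_gt hw1 0 (Finset.range n) (fun i => r (i + 1) * b ^ (i + 1))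
    (fun i _ => by
      by_cases hri : r (i + 1) = 0
      · left
        rw [hri, zero_mul]
      · right
        have hbi : b ^ (i + 1) ≠ 0 := pow_ne_zero _ hb0
        have h1 : v.ord (b ^ (i + 1)) = ((i + 1 : ℕ) : ℤ) * v.ord b := by
          have := hw1.map_zpow hb0 ((i + 1 : ℕ) : ℤ)
          rwa [zpow_natCast] at this
        rw [hw1.map_mul hri hbi, h1]
        have h2 := hrv (i + 1) hri
        have h3 : (0 : ℤ) < ((i + 1 : ℕ) : ℤ) * v.ord b :=
          mul_pos (by exact_mod_cast Nat.succ_pos i) hbv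
        omega)
  have hr0eq : r 0 = -∑ i ∈ Finset.range n, r (i + 1) * b ^ (i + 1) :=
    eq_neg_of_add_eq_zero_right hrel
  rcases hsum with h0 | h0
  · rw [h0, neg_zero] at hr0eq
    exact hr0 hr0eq
  · have hS : ∑ i ∈ Finset.range n, r (i + 1) * b ^ (i + 1) ≠ 0 := by
      intro h
      rw [h, neg_zero] at hr0eq
      exact hr0 hr0eq
    rw [hr0eq, hw1.map_neg hS] at hrv0
    omega

/-! ## Consequences: the dictionary and its stability under semilinear automorphisms -/

theorem pointIndex_mul_ord_j_sub (z : ℍ) :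
    (D.pointIndex z : ℤ)
        * (D.pointPlace z).ord (D.j - algebraMap ℂ E (helper288.jFn z))
      = jOrd (helper288.jFn z) := by
  rw [← D.ordE_eq z (D.j_sub_ne_zero _), D.ordE_j_sub_self]

theorem pointPlace_ord_j_sub_pos (z : ℍ) :
    0 < (D.pointPlace z).ord (D.j - algebraMap ℂ E (helper288.jFn z)) := by
  have h1 := D.pointIndex_mul_ord_j_sub z
  have he : (0 : ℤ) < D.pointIndex z := by exact_mod_cast D.pointIndex_pos z
  have hj : (0 : ℤ) < jOrd (helper288.jFn z) := by exact_mod_cast jOrd_pos _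
  rw [← h1] at hj
  exact (mul_pos_iff_of_pos_left he).mp hj

theorem pointPlace_ord_j_sub_of_ne (z : ℍ) {c : ℂ} (hc : helper288.jFn z ≠ c) :
    (D.pointPlace z).ord (D.j - algebraMap ℂ E c) = 0 := by
  have h1 := D.ordE_j_sub_of_ne z hc
  rw [D.ordE_eq z (D.j_sub_ne_zero c)] at h1
  have he : (D.pointIndex z : ℤ) ≠ 0 := by exact_mod_cast (D.pointIndex_pos z).ne'
  exact (mul_eq_zero.mp h1).resolve_left he

/-- At a point whose `j`-value is neither `0` nor `1728` the index is `1`. -/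
theorem pointIndex_eq_one (z : ℍ) (h0 : helper288.jFn z ≠ 0) (h1 : helper288.jFn z ≠ 1728) :
    D.pointIndex z = 1 := by
  have h := D.pointIndex_mul_ord_j_sub z
  have hj : jOrd (helper288.jFn z) = 1 := by
    unfold jOrd
    rw [if_neg h0, if_neg h1]
  rw [hj, Nat.cast_one] at h
  have hd : (D.pointIndex z : ℤ) ∣ 1 := Dvd.intro _ h
  have he : (0 : ℤ) ≤ D.pointIndex z := Int.natCast_nonneg _
  exact_mod_cast Int.eq_one_of_dvd_one he hd

/-- **Completeness**, order form: a place with `0 ≤ v.ord j` is the place of a point `z`, and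
the analytic order at `z` is `e · v.ord`. -/
theorem exists_point_of_place (v : Place ℂ E) (hv : 0 ≤ v.ord D.j) :
    ∃ (z : ℍ) (e : ℕ), 0 < e ∧ ∀ f : E, f ≠ 0 →
      ordAt z (D.ev f) = (((e : ℤ) * v.ord f : ℤ) : WithTop ℤ) := by
  obtain ⟨z, hz⟩ := D.exists_pointPlace_eq v hv
  refine ⟨z, D.pointIndex z, D.pointIndex_pos z, fun f hf => ?_⟩
  rw [← D.coe_ordE z hf, D.ordE_eq z hf, hz]

/-- **Completeness at generic places**: a place centred at `c ∉ {0, 1728}` is the place of a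
point `z` with `j(z) = c`, and the analytic order at `z` equals `v.ord` (index `1`). -/
theorem exists_point_of_place_generic (v : Place ℂ E) (c : ℂ)
    (hc : 0 < v.ord (D.j - algebraMap ℂ E c)) (h0 : c ≠ 0) (h1 : c ≠ 1728) :
    ∃ z : ℍ, helper288.jFn z = c ∧ D.pointPlace z = v ∧ ∀ f : E, f ≠ 0 →
      ordAt z (D.ev f) = ((v.ord f : ℤ) : WithTop ℤ) := by
  have hv : 0 ≤ v.ord D.j := by
    rw [helper204.ord_nonneg_iff]
    have h2 : D.j - algebraMap ℂ E c ∈ v.toValuationSubring :=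
      helper204.mem_of_ord_nonneg v hc.le
    have h3 := add_mem h2 (v.algebraMap_mem' c)
    rwa [sub_add_cancel] at h3
  obtain ⟨z, hz⟩ := D.exists_pointPlace_eq v hv
  have hzc : helper288.jFn z = c := by
    by_contra hne
    have h2 := D.pointPlace_ord_j_sub_of_ne z hne
    rw [hz] at h2
    omega
  refine ⟨z, hzc, hz, fun f hf => ?_⟩
  rw [← D.coe_ordE z hf, D.ordE_eq z hf, hz,
    D.pointIndex_eq_one z (by rw [hzc]; exact h0) (by rw [hzc]; exact h1), Nat.cast_one,
    one_mul]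

/-- If `ev u` is a `p`-th power in `Mer`, then `p` divides the order of `u` at every place
centred at a value `c ∉ {0, 1728}`. -/
theorem dvd_ord_of_pow_eq_generic (v : Place ℂ E) (c : ℂ)
    (hc : 0 < v.ord (D.j - algebraMap ℂ E c)) (h0 : c ≠ 0) (h1 : c ≠ 1728)
    {u : E} (hu : u ≠ 0) (p : ℕ) (W : Mer) (hW : W ^ p = D.ev u) :
    (p : ℤ) ∣ v.ord u := by
  obtain ⟨z, -, -, hz⟩ := D.exists_point_of_place_generic v c hc h0 h1
  have hW0 : W ^ p ≠ 0 := by rw [hW]; exact D.ev_ne_zero hu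
  rcases Nat.eq_zero_or_pos p with hp | hp
  · subst hp
    rw [pow_zero] at hW
    have hu1 : u = 1 := D.ev_injective (by rw [← hW, map_one])
    rw [hu1, v.ord_one]
    exact dvd_zero _
  · have hW1 : W ≠ 0 := fun h => hW0 (by rw [h, zero_pow hp.ne'])
    obtain ⟨m, hm⟩ := WithTop.ne_top_iff_exists.mp (ordAt_ne_top z hW1)
    have h2 := hz u hu
    rw [← hW, AddValuation.map_pow, ← hm] at h2
    rw [nsmul_coe_withTop] at h2
    exact ⟨m, (WithTop.coe_injective h2).symm⟩

/-- **Stability.** A semilinear automorphism of `E` fixing `j` permutes the point valuations: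
the order at `z` of `g • f` is the order of `f` at another point `z'`. -/
theorem exists_point_of_smul (g : SemilinearAut ℂ E) (hg : g • D.j = D.j) (z : ℍ) :
    ∃ z' : ℍ, ∀ f : E, D.ordE z (g • f) = D.ordE z' f := by
  set v := D.pointPlace z with hv
  set v' : Place ℂ E := g⁻¹ • v with hv'
  have hord : ∀ f : E, v'.ord f = v.ord (g • f) := by
    intro f
    have h := SemilinearAut.ord_smul g⁻¹ v (g • f)
    rwa [inv_smul_smul] at h
  have hv'j : 0 ≤ v'.ord D.j := by
    rw [hord, hg]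
    exact D.pointPlace_ord_j_nonneg z
  obtain ⟨z', hz'⟩ := D.exists_pointPlace_eq v' hv'j
  set c := helper288.jFn z with hcdef
  set c' : ℂ := (SemilinearAut.baseAut g).symm c with hc'def
  have hgc : g • (D.j - algebraMap ℂ E c') = D.j - algebraMap ℂ E c := by
    rw [smul_sub, hg, SemilinearAut.smul_algebraMap, hc'def, RingEquiv.apply_symm_apply]
  have hm : v'.ord (D.j - algebraMap ℂ E c') = v.ord (D.j - algebraMap ℂ E c) := by
    rw [hord, hgc]
  have hmpos : 0 < v.ord (D.j - algebraMap ℂ E c) := D.pointPlace_ord_j_sub_pos z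
  have hz'c : helper288.jFn z' = c' := by
    by_contra hne
    have h2 := D.pointPlace_ord_j_sub_of_ne z' hne
    rw [hz', hm] at h2
    omega
  have hjord : jOrd c' = jOrd c := by
    have e0 : c' = 0 ↔ c = 0 := by
      rw [hc'def]
      exact EmbeddingLike.map_eq_zero_iff
    have e1 : c' = 1728 ↔ c = 1728 := by
      rw [hc'def]
      constructor
      · intro h
        have h2 := congrArg (SemilinearAut.baseAut g) h
        rwa [RingEquiv.apply_symm_apply, map_ofNat] at h2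
      · intro h
        rw [h, map_ofNat]
    unfold jOrd
    simp only [e0, e1]
  have he : (D.pointIndex z' : ℤ) = D.pointIndex z := by
    have h1 := D.pointIndex_mul_ord_j_sub z
    have h2 := D.pointIndex_mul_ord_j_sub z'
    rw [hz'c, hz', hm, hjord] at h2
    rw [← hcdef, ← hv] at h1
    have h3 : (D.pointIndex z' : ℤ) * v.ord (D.j - algebraMap ℂ E c)
        = (D.pointIndex z : ℤ) * v.ord (D.j - algebraMap ℂ E c) := by
      rw [h2, h1]
    exact mul_right_cancel₀ hmpos.ne' h3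
  refine ⟨z', fun f => ?_⟩
  rcases eq_or_ne f 0 with rfl | hf
  · rw [smul_zero, D.ordE_zero, D.ordE_zero]
  · have hgf : g • f ≠ 0 := by
      rw [SemilinearAut.smul_def]
      exact (EmbeddingLike.map_ne_zero_iff (f := SemilinearAut.toRingAut g)).mpr hf
    rw [D.ordE_eq z hgf, D.ordE_eq z' hf, hz', hord, he]

/-- **Stability of divisibility.** If all analytic orders of `u` on `ℍ` are divisible by `p`,
the same holds for `g • u`, for every semilinear automorphism `g` of `E` fixing `j`. -/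
theorem dvd_ordE_smul (g : SemilinearAut ℂ E) (hg : g • D.j = D.j) (p : ℤ) (u : E)
    (h : ∀ z : ℍ, p ∣ D.ordE z u) (z : ℍ) : p ∣ D.ordE z (g • u) := by
  obtain ⟨z', hz'⟩ := D.exists_point_of_smul g hg z
  rw [hz']
  exact h z'

/-- Divisibility of `ordE` in the `WithTop ℤ` form used by the root lemmas. -/
theorem dvd_ordE_iff (z : ℍ) {u : E} (hu : u ≠ 0) (p : ℤ) :
    p ∣ D.ordE z u ↔ ∃ m : ℤ, ordAt z (D.ev u) = ((p * m : ℤ) : WithTop ℤ) := by
  rw [← D.coe_ordE z hu]
  constructor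
  · rintro ⟨m, hm⟩
    exact ⟨m, by rw [hm]⟩
  · rintro ⟨m, hm⟩
    exact ⟨m, WithTop.coe_injective hm⟩

/-- Place orders divisible by `p` give analytic orders divisible by `p` (no dictionary
needed). -/
theorem dvd_ordE_of_forall_place (p : ℤ) {u : E} (hu : u ≠ 0)
    (h : ∀ v : Place ℂ E, p ∣ v.ord u) (z : ℍ) : p ∣ D.ordE z u := by
  rw [D.ordE_eq z hu]
  exact Dvd.dvd.mul_left (h _) _

/-- Analytic orders divisible by `p` at every point give place orders divisible by `p` at every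
place centred off `j = 0, 1728, ∞`. -/
theorem dvd_ord_of_forall_point (p : ℤ) {u : E} (hu : u ≠ 0)
    (h : ∀ z : ℍ, p ∣ D.ordE z u) (v : Place ℂ E) (c : ℂ)
    (hc : 0 < v.ord (D.j - algebraMap ℂ E c)) (h0 : c ≠ 0) (h1 : c ≠ 1728) : p ∣ v.ord u := by
  obtain ⟨z, hzc, hz, -⟩ := D.exists_point_of_place_generic v c hc h0 h1
  have h2 := h z
  rw [D.ordE_eq z hu, hz,
    D.pointIndex_eq_one z (by rw [hzc]; exact h0) (by rw [hzc]; exact h1), Nat.cast_one,
    one_mul] at h2
  exact h2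

/-! ## A constructor from generators -/

section Generators

variable {E : Type*} [Field E] [Algebra ℂ E]

/-- The property of an element that the constructor `ofGenerators` propagates from generators to
the generated subalgebra: holomorphic, `Γ`-invariant, of exponential growth at all cusps. -/
def IsGood (ev : E →ₐ[ℂ] Mer) (Γ : Subgroup SL(2, ℤ)) (a : E) : Prop :=
  ∃ f : Hol, ev a = algebraMap Hol Mer f ∧ (∀ γ ∈ Γ, pullHol γ f = f) ∧
    ∀ g : SL(2, ℤ), helper167.HasExpGrowth (fun τ : ℍ => (f : ℍ → ℂ) (g • τ))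

theorem isGood_algebraMap (ev : E →ₐ[ℂ] Mer) (Γ : Subgroup SL(2, ℤ)) (c : ℂ) :
    IsGood ev Γ (algebraMap ℂ E c) := by
  refine ⟨algebraMap ℂ Hol c, ?_, fun γ _ => (pullHol γ).commutes c, fun g => ?_⟩
  · rw [AlgHom.commutes, ← IsScalarTower.algebraMap_apply]
  · exact helper167.hasExpGrowth_const c

theorem IsGood.add {ev : E →ₐ[ℂ] Mer} {Γ : Subgroup SL(2, ℤ)} {a b : E}
    (ha : IsGood ev Γ a) (hb : IsGood ev Γ b) : IsGood ev Γ (a + b) := by
  obtain ⟨f, hf, hfinv, hfgr⟩ := ha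
  obtain ⟨f', hf', hfinv', hfgr'⟩ := hb
  refine ⟨f + f', by rw [map_add, hf, hf', map_add], fun γ hγ => ?_, fun g => ?_⟩
  · rw [map_add, hfinv γ hγ, hfinv' γ hγ]
  · exact (hfgr g).add (hfgr' g)

theorem IsGood.mul {ev : E →ₐ[ℂ] Mer} {Γ : Subgroup SL(2, ℤ)} {a b : E}
    (ha : IsGood ev Γ a) (hb : IsGood ev Γ b) : IsGood ev Γ (a * b) := by
  obtain ⟨f, hf, hfinv, hfgr⟩ := ha
  obtain ⟨f', hf', hfinv', hfgr'⟩ := hb
  refine ⟨f * f', by rw [map_mul, hf, hf', map_mul], fun γ hγ => ?_, fun g => ?_⟩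
  · rw [map_mul, hfinv γ hγ, hfinv' γ hγ]
  · exact (hfgr g).mul (hfgr' g)

theorem isGood_of_mem_adjoin {ev : E →ₐ[ℂ] Mer} {Γ : Subgroup SL(2, ℤ)} {S : Set E}
    (hS : ∀ s ∈ S, IsGood ev Γ s) {a : E} (ha : a ∈ Algebra.adjoin ℂ S) : IsGood ev Γ a := by
  induction ha using Algebra.adjoin_induction with
  | mem x hx => exact hS x hx
  | algebraMap c => exact isGood_algebraMap ev Γ c
  | add x y _ _ hx hy => exact hx.add hy
  | mul x y _ _ hx hy => exact hx.mul hy

/-- **Constructor from generators.** It is enough to know holomorphy, `Γ`-invariance and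
exponential growth of all translates for a set `S ∋ j` of generators. -/
def ofGenerators (ev : E →ₐ[ℂ] Mer) (j : E) (ev_j : ev j = algebraMap Hol Mer JHol)
    (S : Set E) (hj : j ∈ S)
    (frac : ∀ x : E, ∃ a ∈ Algebra.adjoin ℂ S, ∃ b ∈ Algebra.adjoin ℂ S, b ≠ 0 ∧ x = a / b)
    (Γ : Subgroup SL(2, ℤ)) (fin : Γ.FiniteIndex) (hS : ∀ s ∈ S, IsGood ev Γ s) : AnField E where
  ev := ev
  j := j
  ev_j := ev_j
  A := Algebra.adjoin ℂ S
  j_mem := Algebra.subset_adjoin hj
  hol a ha := by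
    obtain ⟨f, hf, -, -⟩ := isGood_of_mem_adjoin hS ha
    exact ⟨f, hf⟩
  frac := frac
  Γ := Γ
  fin := fin
  inv a ha γ hγ := by
    obtain ⟨f, hf, hinv, -⟩ := isGood_of_mem_adjoin hS ha
    rw [hf, pull_algebraMap, hinv γ hγ]
  growth a ha f hf g := by
    obtain ⟨f', hf', -, hgr⟩ := isGood_of_mem_adjoin hS ha
    have hff' : f = f' := IsFractionRing.injective Hol Mer (by rw [← hf, hf'])
    rw [hff']
    exact hgr g

end Generators

end AnField

end Fermat.Agent.S48.helper1002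

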