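import Mathlib
import Fermat.Prelude.Def_ModularCurve_LaurentCoeff
import Fermat.Agent.S24.helper1704_QDict
import Fermat.Agent.S24.helper580_HolMer
import Fermat.Agent.S24.helper167_SymmetricJ

/-!
# S48-EVAL1 (helper5047): the evaluation datum "`q`-series field → holomorphic functions on `ℍ`"

For a field `K` with an embedding `i0 : K →+* ℂ`:

* `qAlg i0 : Subalgebra K (LaurentSeries K)` — the Laurent series `x` whose image
  `coeffMap i0 x` is the `q`-expansion at `i∞` of a holomorphic function on `ℍ`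
  (landed dictionary `S24.helper1704.HasQ 1`);
* `qFun i0 : qAlg i0 →+* (ℍ → ℂ)` — that function; injective, holomorphic values, constants;
* `hasQ_inv_of_ne_zero`, `hasQ_div_of_ne_zero`, `mem_qAlg_of_mul_eq` — division by a nowhere
  vanishing function stays in the dictionary;
* field form: for `F : IntermediateField K (LaurentSeries K)`: `holAlg i0 F : Subalgebra K F`
  (all elements of `F` in `qAlg`), `holFun i0 F`, `genAlg`/`genFun` (the image of
  `Algebra.adjoin K S`), fractions, induction principle, invariance transfer, and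
  `evMer : F →+* Mer` (landed `S24.helper580.Mer`).
-/

set_option autoImplicit false

open UpperHalfPlane Function Complex Filter ModularCurve
open scoped Real Manifold Topology MatrixGroups

namespace Fermat.Agent.S48.helper5047

open Fermat.Agent.S24.helper1704 Fermat.Agent.S24.helper580

local notation "𝕢" => Function.Periodic.qParam

noncomputable section

/-! ## Division in the Laurent dictionary -/

/-- A nice nowhere-vanishing function has an inverse with at most a pole at `i∞`. -/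
theorem isNice_pow_mul_inv {u : ℍ → ℂ} (hu : IsNice 1 u) (hne : ∀ τ, u τ ≠ 0) :
    ∃ k : ℕ, IsNice 1 (qf 1 ^ k * u⁻¹) := by
  have hU : AnalyticAt ℂ (cuspFunction 1 u) 0 := hu.analytic one_pos
  have hUq : ∀ τ : ℍ, cuspFunction 1 u (𝕢 1 τ) = u τ := fun τ =>
    eq_cuspFunction τ one_ne_zero hu.per
  have hq0 : Tendsto (fun τ : ℍ => 𝕢 1 τ) atImInfty (𝓝 0) := qParam_tendsto_atImInfty one_pos
  have hnz : ¬ ∀ᶠ w in 𝓝 (0 : ℂ), cuspFunction 1 u w = 0 := by
    intro h0
    obtain ⟨τ, hτ⟩ := (hq0.eventually h0).exists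
    exact hne τ ((hUq τ).symm.trans hτ)
  obtain ⟨k, V, hV, hV0, hUV⟩ := (hU.exists_eventuallyEq_pow_smul_nonzero_iff).mpr hnz
  refine ⟨k, ⟨?_, ?_, ?_⟩⟩
  · rw [periodic_comp_ofComplex_iff]
    intro τ
    have h1 := periodic_comp_ofComplex_iff.mp hu.per τ
    have h2 := periodic_comp_ofComplex_iff.mp (IsNice.qf one_pos).per τ
    simp only [Pi.mul_apply, Pi.pow_apply, Pi.inv_apply, h1, h2]
  · rw [UpperHalfPlane.mdifferentiable_iff]
    have h1 := UpperHalfPlane.mdifferentiable_iff.mp hu.hol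
    have h2 := UpperHalfPlane.mdifferentiable_iff.mp ((IsNice.qf one_pos).pow k).hol
    have h3 : DifferentiableOn ℂ
        (fun z => ((qf 1 ^ k) ∘ ofComplex) z * ((u ∘ ofComplex) z)⁻¹) {z : ℂ | 0 < z.im} :=
      h2.mul (h1.inv (fun z _ => hne _))
    refine h3.congr fun z _ => ?_
    simp only [comp_apply, Pi.mul_apply, Pi.pow_apply, Pi.inv_apply]
  · have hVt : Tendsto (fun τ : ℍ => (V (𝕢 1 τ))⁻¹) atImInfty (𝓝 (V 0)⁻¹) :=
      (hV.continuousAt.tendsto.comp hq0).inv₀ hV0
    have heq : ∀ᶠ τ : ℍ in atImInfty, (V (𝕢 1 τ))⁻¹ = (qf 1 ^ k * u⁻¹) τ := by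
      filter_upwards [hq0.eventually hUV] with τ hτ
      have h1 : u τ = 𝕢 1 τ ^ k * V (𝕢 1 τ) := by
        rw [← hUq τ, hτ, sub_zero, smul_eq_mul]
      have hq : 𝕢 1 (τ : ℂ) ≠ 0 := Function.Periodic.qParam_ne_zero _
      have hVne : V (𝕢 1 τ) ≠ 0 := by
        intro h0
        exact hne τ (by rw [h1, h0, mul_zero])
      simp only [Pi.mul_apply, Pi.pow_apply, Pi.inv_apply, qf_apply, h1]
      field_simp
    exact (hVt.congr' heq).isBigO_one ℝ

/-- The inverse of a nowhere vanishing function with a Laurent expansion at `i∞`. -/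
theorem hasQ_inv_of_ne_zero {f : ℍ → ℂ} {L : LaurentSeries ℂ} (hf : HasQ 1 f L)
    (hne : ∀ τ, f τ ≠ 0) : HasQ 1 f⁻¹ L⁻¹ := by
  obtain ⟨M, hn, -⟩ := id hf
  have hune : ∀ τ, (qf 1 ^ M * f) τ ≠ 0 := fun τ =>
    mul_ne_zero (pow_ne_zero _ (qf_ne_zero 1 τ)) (hne τ)
  obtain ⟨k, hk⟩ := isNice_pow_mul_inv hn hune
  have e : qf 1 ^ k * f⁻¹ = qf 1 ^ M * (qf 1 ^ k * (qf 1 ^ M * f)⁻¹) := by
    funext τ
    simp only [Pi.mul_apply, Pi.pow_apply, Pi.inv_apply]
    have h1 := qf_ne_zero 1 τ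
    have h2 := hne τ
    field_simp
  have hk' : IsNice 1 (qf 1 ^ k * f⁻¹) := e ▸ ((IsNice.qf one_pos).pow M).mul hk
  have h1 := HasQ.of_isNice hk'
  have h2 := hf.mul one_pos h1
  have h3 : f * f⁻¹ = 1 := by
    funext τ
    simp [hne τ]
  rw [h3] at h2
  have h4 := HasQ.unique one_pos h2 (HasQ.one 1)
  rw [← eq_inv_of_mul_eq_one_right h4]
  exact h1

/-- Division by a nowhere vanishing function in the Laurent dictionary. -/
theorem hasQ_div_of_ne_zero {f g : ℍ → ℂ} {L L' : LaurentSeries ℂ} (hg : HasQ 1 g L')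
    (hf : HasQ 1 f L) (hne : ∀ τ, f τ ≠ 0) : HasQ 1 (g / f) (L' / L) := by
  rw [div_eq_mul_inv, div_eq_mul_inv]
  exact hg.mul one_pos (hasQ_inv_of_ne_zero hf hne)

/-! ## The algebra of `q`-expansions of holomorphic functions -/

section Alg

variable {K : Type*} [Field K] (i0 : K →+* ℂ)

theorem coeffMap_injective :
    Function.Injective (coeffMap i0 : LaurentSeries K → LaurentSeries ℂ) := by
  intro x y h
  ext n
  have h1 := congrArg (fun z : LaurentSeries ℂ => z.coeff n) h
  simp only [coeffMap_coeff] at h1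
  exact i0.injective h1

/-- The `K`-algebra of Laurent series over `K` which are, through `i0`, the `q`-expansion at
`i∞` of a holomorphic function on the upper half plane (meromorphic at `i∞`). -/
def qAlg : Subalgebra K (LaurentSeries K) where
  carrier := {x | ∃ f : ℍ → ℂ, HasQ 1 f (coeffMap i0 x)}
  mul_mem' := by
    rintro x y ⟨f, hf⟩ ⟨g, hg⟩
    exact ⟨f * g, by rw [map_mul]; exact hf.mul one_pos hg⟩
  add_mem' := by
    rintro x y ⟨f, hf⟩ ⟨g, hg⟩
    exact ⟨f + g, by rw [map_add]; exact hf.add one_pos hg⟩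
  algebraMap_mem' c := ⟨fun _ => i0 c, by
    rw [algebraMap_laurentSeries_eq_single, coeffMap_single]
    exact HasQ.const 1 (i0 c)⟩

theorem mem_qAlg {x : LaurentSeries K} :
    x ∈ qAlg i0 ↔ ∃ f : ℍ → ℂ, HasQ 1 f (coeffMap i0 x) := Iff.rfl

/-- The function on `ℍ` with `q`-expansion `a`. -/
def qFunAux (a : qAlg i0) : ℍ → ℂ := Classical.choose a.2

theorem qFunAux_spec (a : qAlg i0) :
    HasQ 1 (qFunAux i0 a) (coeffMap i0 (a : LaurentSeries K)) := Classical.choose_spec a.2

theorem qFunAux_eq {a : qAlg i0} {f : ℍ → ℂ}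
    (hf : HasQ 1 f (coeffMap i0 (a : LaurentSeries K))) : qFunAux i0 a = f :=
  HasQ.eq_of_eq one_pos (qFunAux_spec i0 a) hf

/-- **The evaluation**: a `q`-series in `qAlg` as a function on the upper half plane. -/
def qFun : qAlg i0 →+* (ℍ → ℂ) where
  toFun := qFunAux i0
  map_one' := qFunAux_eq i0 (by
    rw [OneMemClass.coe_one, map_one]; exact HasQ.one 1)
  map_mul' a b := qFunAux_eq i0 (by
    rw [MulMemClass.coe_mul, map_mul]
    exact (qFunAux_spec i0 a).mul one_pos (qFunAux_spec i0 b))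
  map_zero' := qFunAux_eq i0 (by
    rw [ZeroMemClass.coe_zero, map_zero]; exact HasQ.zero 1)
  map_add' a b := qFunAux_eq i0 (by
    rw [AddMemClass.coe_add, map_add]
    exact (qFunAux_spec i0 a).add one_pos (qFunAux_spec i0 b))

/-- The defining property of `qFun`. -/
theorem qFun_spec (a : qAlg i0) :
    HasQ 1 (qFun i0 a) (coeffMap i0 (a : LaurentSeries K)) := qFunAux_spec i0 a

/-- `qFun a` is the only function with `q`-expansion `a`. -/
theorem qFun_eq {a : qAlg i0} {f : ℍ → ℂ}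
    (hf : HasQ 1 f (coeffMap i0 (a : LaurentSeries K))) : qFun i0 a = f := qFunAux_eq i0 hf

/-- Generators: a series which is the `q`-expansion of `f` lies in `qAlg`, with function `f`. -/
theorem qFun_mk {x : LaurentSeries K} {f : ℍ → ℂ} (hf : HasQ 1 f (coeffMap i0 x)) :
    qFun i0 ⟨x, f, hf⟩ = f := qFun_eq i0 hf

theorem qFun_injective : Function.Injective (qFun i0) := by
  intro a b h
  have h1 := qFun_spec i0 a
  rw [h] at h1
  exact Subtype.ext (coeffMap_injective i0 (HasQ.unique one_pos h1 (qFun_spec i0 b)))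

theorem mdiff_qFun (a : qAlg i0) : MDiff (qFun i0 a) := (qFun_spec i0 a).mdiff one_pos

theorem qFun_vadd (a : qAlg i0) (τ : ℍ) : qFun i0 a ((1 : ℝ) +ᵥ τ) = qFun i0 a τ :=
  (qFun_spec i0 a).periodic one_pos τ

theorem qFun_algebraMap (c : K) : qFun i0 (algebraMap K (qAlg i0) c) = fun _ => i0 c :=
  qFun_eq i0 (by
    show HasQ 1 (fun _ => i0 c) (coeffMap i0 (algebraMap K (LaurentSeries K) c))
    rw [algebraMap_laurentSeries_eq_single, coeffMap_single]
    exact HasQ.const 1 (i0 c))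

theorem qFun_ne_zero {a : qAlg i0} (ha : a ≠ 0) : qFun i0 a ≠ 0 :=
  (map_ne_zero_iff (qFun i0) (qFun_injective i0)).mpr ha

/-- **Division** by a series whose function vanishes nowhere on `ℍ`. -/
theorem mem_qAlg_of_mul_eq {x y z : LaurentSeries K} (hy : y ∈ qAlg i0) (hz : z ∈ qAlg i0)
    (hxy : x * y = z) (hne : ∀ τ, qFun i0 ⟨y, hy⟩ τ ≠ 0) :
    ∃ hx : x ∈ qAlg i0, qFun i0 ⟨x, hx⟩ = qFun i0 ⟨z, hz⟩ / qFun i0 ⟨y, hy⟩ := by
  have h1 := hasQ_div_of_ne_zero (qFun_spec i0 ⟨z, hz⟩) (qFun_spec i0 ⟨y, hy⟩) hne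
  have hy0 : coeffMap i0 y ≠ 0 := by
    intro h0
    have h2 := qFun_spec i0 ⟨y, hy⟩
    simp only at h2
    rw [h0] at h2
    exact hne UpperHalfPlane.I (congrFun (HasQ.eq_zero_of_zero one_pos h2) _)
  have h3 : coeffMap i0 x = coeffMap i0 z / coeffMap i0 y := by
    rw [eq_div_iff hy0, ← map_mul, hxy]
  have hx : HasQ 1 (qFun i0 ⟨z, hz⟩ / qFun i0 ⟨y, hy⟩) (coeffMap i0 x) := by
    rw [h3]; exact h1
  exact ⟨⟨_, hx⟩, qFun_eq i0 hx⟩

end Alg

/-! ## The field form -/

section FieldForm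

variable {K : Type*} [Field K] (i0 : K →+* ℂ) (F : IntermediateField K (LaurentSeries K))

/-- The elements of `F` which are `q`-expansions of holomorphic functions on `ℍ`. -/
def holAlg : Subalgebra K F := (qAlg i0).comap F.val

theorem mem_holAlg {x : F} : x ∈ holAlg i0 F ↔ (x : LaurentSeries K) ∈ qAlg i0 := Iff.rfl

/-- The inclusion of `holAlg i0 F` in `qAlg i0`. -/
def holIncl : holAlg i0 F →ₐ[K] qAlg i0 :=
  (F.val.comp (holAlg i0 F).val).codRestrict (qAlg i0) (fun a => a.2)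

@[simp] theorem coe_holIncl (a : holAlg i0 F) :
    ((holIncl i0 F a : qAlg i0) : LaurentSeries K) = ((a : F) : LaurentSeries K) := rfl

/-- **The evaluation on `F`**: an element of `holAlg i0 F` as a function on `ℍ`. -/
def holFun : holAlg i0 F →+* (ℍ → ℂ) :=
  (qFun i0).comp (holIncl i0 F : holAlg i0 F →+* qAlg i0)

theorem holFun_apply (a : holAlg i0 F) : holFun i0 F a = qFun i0 (holIncl i0 F a) := rfl

theorem holFun_mk {x : F} (hx : (x : LaurentSeries K) ∈ qAlg i0) :
    holFun i0 F ⟨x, hx⟩ = qFun i0 ⟨(x : LaurentSeries K), hx⟩ := rfl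

theorem holFun_spec (a : holAlg i0 F) :
    HasQ 1 (holFun i0 F a) (coeffMap i0 ((a : F) : LaurentSeries K)) :=
  qFun_spec i0 (holIncl i0 F a)

theorem holFun_eq {a : holAlg i0 F} {f : ℍ → ℂ}
    (hf : HasQ 1 f (coeffMap i0 ((a : F) : LaurentSeries K))) : holFun i0 F a = f :=
  qFun_eq i0 (a := holIncl i0 F a) hf

theorem holFun_injective : Function.Injective (holFun i0 F) := by
  intro a b h
  have h1 := qFun_injective i0 h
  exact Subtype.ext (Subtype.ext (congrArg (fun z : qAlg i0 => (z : LaurentSeries K)) h1))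

theorem mdiff_holFun (a : holAlg i0 F) : MDiff (holFun i0 F a) := mdiff_qFun i0 _

theorem holFun_algebraMap (c : K) :
    holFun i0 F (algebraMap K (holAlg i0 F) c) = fun _ => i0 c := by
  rw [holFun_apply, AlgHom.commutes]
  exact qFun_algebraMap i0 c

theorem holFun_ne_zero {a : holAlg i0 F} (ha : a ≠ 0) : holFun i0 F a ≠ 0 :=
  (map_ne_zero_iff (holFun i0 F) (holFun_injective i0 F)).mpr ha

/-- Membership by division: `x * y = z` in `F`, with `y`, `z` holomorphic and the function of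
`y` nowhere zero, puts `x` in `holAlg`. -/
theorem mem_holAlg_of_mul_eq {x : F} (y z : holAlg i0 F) (hxy : x * (y : F) = (z : F))
    (hne : ∀ τ, holFun i0 F y τ ≠ 0) :
    ∃ hx : x ∈ holAlg i0 F, holFun i0 F ⟨x, hx⟩ = holFun i0 F z / holFun i0 F y := by
  have h1 : (x : LaurentSeries K) * ((y : F) : LaurentSeries K) = ((z : F) : LaurentSeries K) := by
    rw [← hxy]; rfl
  obtain ⟨hx, h2⟩ := mem_qAlg_of_mul_eq i0 y.2 z.2 h1 hne
  exact ⟨hx, h2⟩

/-- The image in `F` of the `K`-algebra generated by `S`. -/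
def genAlg (S : Set (LaurentSeries K)) : Subalgebra K F := (Algebra.adjoin K S).comap F.val

variable {F} in
theorem mem_genAlg {S : Set (LaurentSeries K)} {x : F} :
    x ∈ genAlg F S ↔ (x : LaurentSeries K) ∈ Algebra.adjoin K S := Iff.rfl

variable {i0} in
theorem genAlg_le_holAlg {S : Set (LaurentSeries K)} (hS : ∀ s ∈ S, s ∈ qAlg i0) :
    genAlg F S ≤ holAlg i0 F := fun _ hx => Algebra.adjoin_le hS hx

/-- Every element of `F = K(S)` is a quotient of two elements of `K[S]`. -/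
theorem exists_genAlg_frac {S : Set (LaurentSeries K)} (hF : F = IntermediateField.adjoin K S)
    (f : F) : ∃ a b : genAlg F S, b ≠ 0 ∧ f * (b : F) = (a : F) := by
  have hf : (f : LaurentSeries K) ∈ IntermediateField.adjoin K S := hF ▸ f.2
  obtain ⟨r, hr, s, hs, h⟩ := IntermediateField.mem_adjoin_iff_div.mp hf
  have hle : ∀ x ∈ Algebra.adjoin K S, x ∈ F := fun x hx => by
    rw [hF]; exact IntermediateField.algebra_adjoin_le_adjoin K S hx
  by_cases hs0 : s = 0
  · refine ⟨0, 1, one_ne_zero, ?_⟩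
    have hf0 : f = 0 := Subtype.ext (by rw [h, hs0, div_zero]; rfl)
    rw [hf0, zero_mul]; rfl
  · refine ⟨⟨⟨r, hle r hr⟩, hr⟩, ⟨⟨s, hle s hs⟩, hs⟩, ?_, ?_⟩
    · intro h0
      exact hs0 (congrArg (fun z : genAlg F S => ((z : F) : LaurentSeries K)) h0)
    · refine Subtype.ext ?_
      show (f : LaurentSeries K) * s = r
      rw [h, div_mul_cancel₀ r hs0]

/-- Every element of `F = K(S)`, `S ⊆ qAlg`, is a quotient of two elements of `holAlg`. -/
theorem exists_holAlg_frac {S : Set (LaurentSeries K)} (hS : ∀ s ∈ S, s ∈ qAlg i0)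
    (hF : F = IntermediateField.adjoin K S) (f : F) :
    ∃ a b : holAlg i0 F, b ≠ 0 ∧ f * (b : F) = (a : F) := by
  obtain ⟨a, b, hb, h⟩ := exists_genAlg_frac F hF f
  refine ⟨⟨a, genAlg_le_holAlg F hS a.2⟩, ⟨b, genAlg_le_holAlg F hS b.2⟩, ?_, h⟩
  intro h0
  exact hb (Subtype.ext (congrArg (fun z : holAlg i0 F => (z : F)) h0))

/-- **Induction principle** for the functions of the elements of `K[S]`. -/
theorem qFun_adjoin_induction {S : Set (LaurentSeries K)} (hS : ∀ s ∈ S, s ∈ qAlg i0)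
    (P : (ℍ → ℂ) → Prop) (hc : ∀ c : ℂ, P (fun _ => c))
    (hadd : ∀ f g, P f → P g → P (f + g)) (hmul : ∀ f g, P f → P g → P (f * g))
    (hgen : ∀ s (hs : s ∈ S), P (qFun i0 ⟨s, hS s hs⟩))
    (x : LaurentSeries K) (hx : x ∈ Algebra.adjoin K S) :
    P (qFun i0 ⟨x, Algebra.adjoin_le hS hx⟩) := by
  let T : Subalgebra K (qAlg i0) :=
    { carrier := {a | P (qFun i0 a)}
      mul_mem' := fun {a b} ha hb => by
        show P (qFun i0 (a * b))
        rw [map_mul]; exact hmul _ _ ha hb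
      add_mem' := fun {a b} ha hb => by
        show P (qFun i0 (a + b))
        rw [map_add]; exact hadd _ _ ha hb
      algebraMap_mem' := fun c => by
        show P (qFun i0 (algebraMap K (qAlg i0) c))
        rw [qFun_algebraMap]; exact hc _ }
  have hle : Algebra.adjoin K S ≤ T.map (qAlg i0).val := by
    refine Algebra.adjoin_le fun s hs => ?_
    exact ⟨⟨s, hS s hs⟩, hgen s hs, rfl⟩
  obtain ⟨a, ha, hax⟩ := hle hx
  have h1 : (⟨x, Algebra.adjoin_le hS hx⟩ : qAlg i0) = a := Subtype.ext hax.symm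
  rw [h1]; exact ha

/-- Induction principle, stated on `genAlg F S` through `holFun`. -/
theorem holFun_genAlg_induction {S : Set (LaurentSeries K)} (hS : ∀ s ∈ S, s ∈ qAlg i0)
    (P : (ℍ → ℂ) → Prop) (hc : ∀ c : ℂ, P (fun _ => c))
    (hadd : ∀ f g, P f → P g → P (f + g)) (hmul : ∀ f g, P f → P g → P (f * g))
    (hgen : ∀ s (hs : s ∈ S), P (qFun i0 ⟨s, hS s hs⟩)) (a : genAlg F S) :
    P (holFun i0 F ⟨a, genAlg_le_holAlg F hS a.2⟩) :=
  qFun_adjoin_induction i0 hS P hc hadd hmul hgen _ a.2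

/-- **Invariance transfer**: if the functions of the generators are invariant under
`γ : SL(2, ℤ)`, so is the function of every element of `holAlg i0 F`, `F = K(S)`. -/
theorem holFun_smul_of_gen {S : Set (LaurentSeries K)} (hS : ∀ s ∈ S, s ∈ qAlg i0)
    (hF : F = IntermediateField.adjoin K S) (γ : SL(2, ℤ))
    (hgen : ∀ s (hs : s ∈ S) (τ : ℍ), qFun i0 ⟨s, hS s hs⟩ (γ • τ) = qFun i0 ⟨s, hS s hs⟩ τ)
    (a : holAlg i0 F) (τ : ℍ) : holFun i0 F a (γ • τ) = holFun i0 F a τ := by
  have hgenAlg : ∀ (b : genAlg F S) (τ : ℍ),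
      holFun i0 F ⟨b, genAlg_le_holAlg F hS b.2⟩ (γ • τ)
        = holFun i0 F ⟨b, genAlg_le_holAlg F hS b.2⟩ τ := by
    intro b
    refine holFun_genAlg_induction i0 F hS (fun f => ∀ τ : ℍ, f (γ • τ) = f τ)
      (fun c τ => rfl) (fun f g hf hg τ => by simp only [Pi.add_apply, hf τ, hg τ])
      (fun f g hf hg τ => by simp only [Pi.mul_apply, hf τ, hg τ]) hgen b
  obtain ⟨c, b, hb, h⟩ := exists_genAlg_frac F hF (a : F)
  set b' : holAlg i0 F := ⟨b, genAlg_le_holAlg F hS b.2⟩ with hb'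
  set c' : holAlg i0 F := ⟨c, genAlg_le_holAlg F hS c.2⟩ with hc'
  have hmul : a * b' = c' := Subtype.ext h
  have hfun : holFun i0 F a * holFun i0 F b' = holFun i0 F c' := by
    rw [← map_mul, hmul]
  have hb0 : b' ≠ 0 := by
    intro h0
    exact hb (Subtype.ext (congrArg (fun z : holAlg i0 F => (z : F)) h0))
  -- the two holomorphic functions `fa ∘ γ - fa` and `fb` have product zero
  set A' : Hol := ⟨fun τ => holFun i0 F a (γ • τ) - holFun i0 F a τ,
    (mdifferentiable_comp_smul γ (mdiff_holFun i0 F a)).sub (mdiff_holFun i0 F a)⟩ with hA'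
  set B' : Hol := ⟨holFun i0 F b', mdiff_holFun i0 F b'⟩ with hB'
  have hAB : A' * B' = 0 := by
    refine Hol.ext fun σ => ?_
    show (holFun i0 F a (γ • σ) - holFun i0 F a σ) * holFun i0 F b' σ = 0
    have h1 := congrFun hfun σ
    have h2 := congrFun hfun (γ • σ)
    simp only [Pi.mul_apply] at h1 h2
    rw [hgenAlg b σ, hgenAlg c σ] at h2
    rw [sub_mul, h2, h1, sub_self]
  have hB0 : B' ≠ 0 := by
    intro h0
    exact holFun_ne_zero i0 F hb0 (congrArg (fun z : Hol => (z : ℍ → ℂ)) h0)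
  have hA0 : A' = 0 := (mul_eq_zero.mp hAB).resolve_right hB0
  have := congrFun (congrArg (fun z : Hol => (z : ℍ → ℂ)) hA0) τ
  exact sub_eq_zero.mp this

end FieldForm

/-! ## Growth transfer and the evaluation into `Mer` -/

section MerForm

variable {K : Type*} [Field K] (i0 : K →+* ℂ) (F : IntermediateField K (LaurentSeries K))

/-- **Growth transfer**: if every `SL(2, ℤ)`-translate of the function of every generator has
at most exponential growth at `i∞`, the same holds for every element of `K[S]`. -/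
theorem hasExpGrowth_holFun_genAlg {S : Set (LaurentSeries K)} (hS : ∀ s ∈ S, s ∈ qAlg i0)
    (hgen : ∀ s (hs : s ∈ S) (g : SL(2, ℤ)),
      Fermat.Agent.S24.helper167.HasExpGrowth (fun τ => qFun i0 ⟨s, hS s hs⟩ (g • τ)))
    (a : genAlg F S) (g : SL(2, ℤ)) :
    Fermat.Agent.S24.helper167.HasExpGrowth
      (fun τ => holFun i0 F ⟨a, genAlg_le_holAlg F hS a.2⟩ (g • τ)) :=
  holFun_genAlg_induction i0 F hS
    (fun f => ∀ g : SL(2, ℤ), Fermat.Agent.S24.helper167.HasExpGrowth (fun τ => f (g • τ)))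
    (fun c _ => Fermat.Agent.S24.helper167.hasExpGrowth_const c)
    (fun _ _ hf hg g => (hf g).add (hg g)) (fun _ _ hf hg g => (hf g).mul (hg g)) hgen a g

/-- `holFun` as a ring homomorphism into the ring `Hol` of holomorphic functions. -/
def holHom : holAlg i0 F →+* Hol :=
  (holFun i0 F).codRestrict Hol (fun a => mdiff_holFun i0 F a)

@[simp] theorem coe_holHom (a : holAlg i0 F) :
    ((holHom i0 F a : Hol) : ℍ → ℂ) = holFun i0 F a := rfl

theorem holHom_injective : Function.Injective (holHom i0 F) := by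
  intro a b h
  exact holFun_injective i0 F (congrArg (fun z : Hol => (z : ℍ → ℂ)) h)

theorem holHom_algebraMap (c : K) :
    holHom i0 F (algebraMap K (holAlg i0 F) c) = algebraMap ℂ Hol (i0 c) :=
  Subtype.ext (holFun_algebraMap i0 F c)

variable {S : Set (LaurentSeries K)}

/-- `F = K(S)` with `S ⊆ qAlg` is the fraction field of `holAlg i0 F`. -/
theorem isFractionRing_holAlg (hS : ∀ s ∈ S, s ∈ qAlg i0)
    (hF : F = IntermediateField.adjoin K S) : IsFractionRing (holAlg i0 F) F := by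
  refine IsFractionRing.of_field _ _ fun z => ?_
  obtain ⟨a, b, hb, h⟩ := exists_holAlg_frac i0 F hS hF z
  refine ⟨a, b, ?_⟩
  have hb' : algebraMap (holAlg i0 F) F b ≠ 0 := by
    intro h0
    exact hb (Subtype.ext h0)
  rw [eq_div_iff hb']
  exact h

/-- **The evaluation of `F` in the field of meromorphic functions on `ℍ`.** -/
def evMer (hS : ∀ s ∈ S, s ∈ qAlg i0) (hF : F = IntermediateField.adjoin K S) : F →+* Mer :=
  haveI := isFractionRing_holAlg i0 F hS hF
  IsFractionRing.lift (A := holAlg i0 F) (g := (algebraMap Hol Mer).comp (holHom i0 F))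
    ((IsFractionRing.injective Hol Mer).comp (holHom_injective i0 F))

theorem evMer_coe (hS : ∀ s ∈ S, s ∈ qAlg i0) (hF : F = IntermediateField.adjoin K S)
    (a : holAlg i0 F) : evMer i0 F hS hF (a : F) = algebraMap Hol Mer (holHom i0 F a) := by
  have := isFractionRing_holAlg i0 F hS hF
  exact IsFractionRing.lift_algebraMap _ a

theorem evMer_algebraMap (hS : ∀ s ∈ S, s ∈ qAlg i0) (hF : F = IntermediateField.adjoin K S)
    (c : K) : evMer i0 F hS hF (algebraMap K F c) = algebraMap ℂ Mer (i0 c) := by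
  have h1 : algebraMap K F c = ((algebraMap K (holAlg i0 F) c : holAlg i0 F) : F) := rfl
  rw [h1, evMer_coe, holHom_algebraMap, IsScalarTower.algebraMap_apply ℂ Hol Mer]

/-- The evaluation of a fraction. -/
theorem evMer_mul_eq (hS : ∀ s ∈ S, s ∈ qAlg i0) (hF : F = IntermediateField.adjoin K S)
    {y : F} {a b : holAlg i0 F} (h : y * (b : F) = (a : F)) :
    evMer i0 F hS hF y * algebraMap Hol Mer (holHom i0 F b)
      = algebraMap Hol Mer (holHom i0 F a) := by
  rw [← evMer_coe i0 F hS hF b, ← evMer_coe i0 F hS hF a, ← map_mul, h]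

/-- **Invariance of the evaluation**: if the functions of the generators are invariant under
`γ`, then `pull γ` fixes the evaluation of every element of `F`. -/
theorem pull_evMer (hS : ∀ s ∈ S, s ∈ qAlg i0) (hF : F = IntermediateField.adjoin K S)
    (γ : SL(2, ℤ))
    (hgen : ∀ s (hs : s ∈ S) (τ : ℍ), qFun i0 ⟨s, hS s hs⟩ (γ • τ) = qFun i0 ⟨s, hS s hs⟩ τ)
    (f : F) : pull γ (evMer i0 F hS hF f) = evMer i0 F hS hF f := by
  have := isFractionRing_holAlg i0 F hS hF
  have key : ((pull γ : Mer ≃ₐ[ℂ] Mer) : Mer →+* Mer).comp (evMer i0 F hS hF)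
      = evMer i0 F hS hF := by
    refine IsLocalization.ringHom_ext (nonZeroDivisors (holAlg i0 F)) (RingHom.ext fun a => ?_)
    show pull γ (evMer i0 F hS hF (a : F)) = evMer i0 F hS hF (a : F)
    rw [evMer_coe, pull_algebraMap]
    congr 1
    exact Hol.ext fun τ => holFun_smul_of_gen i0 F hS hF γ hgen a τ
  exact congrArg (fun φ : F →+* Mer => φ f) key

/-- **The compatibility "series ↔ function" in one statement** (the `heval` hypothesis of
`helper288.ratioIn_of_evalDatum_interm`): every element of `F` is a quotient of two elements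
whose functions are holomorphic with the expected `q`-expansions. -/
theorem exists_hasQ_frac (hS : ∀ s ∈ S, s ∈ qAlg i0) (hF : F = IntermediateField.adjoin K S)
    (y : F) : ∃ a b : Hol, b ≠ 0 ∧ ∃ A B : LaurentSeries ℂ,
      HasQ 1 (a : ℍ → ℂ) A ∧ HasQ 1 (b : ℍ → ℂ) B ∧
        coeffMap i0 (y : LaurentSeries K) * B = A ∧
        evMer i0 F hS hF y * algebraMap Hol Mer b = algebraMap Hol Mer a := by
  obtain ⟨a, b, hb, h⟩ := exists_holAlg_frac i0 F hS hF y
  refine ⟨holHom i0 F a, holHom i0 F b, ?_, coeffMap i0 ((a : F) : LaurentSeries K),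
    coeffMap i0 ((b : F) : LaurentSeries K), holFun_spec i0 F a, holFun_spec i0 F b, ?_,
    evMer_mul_eq i0 F hS hF h⟩
  · intro h0
    exact hb (holHom_injective i0 F (h0.trans (map_zero _).symm))
  · rw [← map_mul]
    exact congrArg (coeffMap i0) (congrArg (fun z : F => (z : LaurentSeries K)) h)

end MerForm

/-! ## Complex coefficients -/

section Complex

variable (F : IntermediateField ℂ (LaurentSeries ℂ)) {S : Set (LaurentSeries ℂ)}

/-- Over `ℂ` (with `i0 = id`) the evaluation is `ℂ`-linear. -/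
def evMerC (hS : ∀ s ∈ S, s ∈ qAlg (RingHom.id ℂ)) (hF : F = IntermediateField.adjoin ℂ S) :
    F →ₐ[ℂ] Mer :=
  { evMer (RingHom.id ℂ) F hS hF with
    commutes' := fun c => evMer_algebraMap (RingHom.id ℂ) F hS hF c }

@[simp] theorem evMerC_apply (hS : ∀ s ∈ S, s ∈ qAlg (RingHom.id ℂ))
    (hF : F = IntermediateField.adjoin ℂ S) (f : F) :
    evMerC F hS hF f = evMer (RingHom.id ℂ) F hS hF f := rfl

/-- The `heval` hypothesis of `helper288.ratioIn_of_evalDatum_interm`, verbatim. -/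
theorem exists_hasQ_fracC (hS : ∀ s ∈ S, s ∈ qAlg (RingHom.id ℂ))
    (hF : F = IntermediateField.adjoin ℂ S) (y : F) :
    ∃ a b : Hol, b ≠ 0 ∧ ∃ A B : LaurentSeries ℂ,
      HasQ 1 (a : ℍ → ℂ) A ∧ HasQ 1 (b : ℍ → ℂ) B ∧ (y : LaurentSeries ℂ) * B = A ∧
        evMerC F hS hF y * algebraMap Hol Mer b = algebraMap Hol Mer a := by
  obtain ⟨a, b, hb, A, B, hA, hB, h1, h2⟩ := exists_hasQ_frac (RingHom.id ℂ) F hS hF y
  rw [coeffMap_id] at h1
  exact ⟨a, b, hb, A, B, hA, hB, h1, h2⟩

end Complex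

end

end Fermat.Agent.S48.helper5047
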