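import Fermat.Agent.S48.helper1002_CPlaceEval
import Fermat.Agent.S48.helper1002_CPlaceBC
import Fermat.Agent.S48.helper5047_EvalDatum

/-!
# S48 / M3-CINST (helper1002): the complex place dictionary of a field of `q`-series

For a field `F = ℂ(S)` of Laurent series generated by a set `S` of `q`-expansions of holomorphic
functions on the upper half plane (`helper5047.qAlg`, with the evaluation
`helper5047.evMerC F hS hF : F →ₐ[ℂ] Mer`), containing a series `jS` with function `j`, the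
generator-level facts

* invariance of the functions of the generators under a finite index subgroup `Γ`,
* exponential growth of their `SL(2, ℤ)`-translates (`anFieldOfGrowth`), or a meromorphic germ
  in `q_h` of these translates together with `Γ ⊇` the conjugates of `T ^ h` (`anFieldOfGerm`),

make `F` an analytic field (`AnField F`), so that the whole complex place dictionary of
`helper1002_CPlaceGen` applies to `F`.  With `F = laurentBaseChange ℂ F₀` (`hF` from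
`helper8098` RATFORM) this is the complex function field of the `Γ₁(M)`-machine.
-/

set_option autoImplicit false

open UpperHalfPlane Filter Topology ModularCurve
open scoped MatrixGroups Manifold

noncomputable section

namespace Fermat.Agent.S48.helper1002

open Fermat.Agent.S24 Fermat.Agent.S24.helper580 Fermat.Agent.S29.helper580
open Fermat.Agent.S24.helper1704 (HasQ)
open Fermat.Agent.S48.helper5047

section Gen

variable (F : IntermediateField ℂ (LaurentSeries ℂ)) {S : Set (LaurentSeries ℂ)}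
  (hS : ∀ s ∈ S, s ∈ qAlg (RingHom.id ℂ)) (hF : F = IntermediateField.adjoin ℂ S)

/-- A generator as an element of the field. -/
def genElt {s : LaurentSeries ℂ} (hs : s ∈ S) : F :=
  ⟨s, hF ▸ IntermediateField.subset_adjoin ℂ S hs⟩

theorem genElt_mem_genAlg {s : LaurentSeries ℂ} (hs : s ∈ S) :
    genElt F hF hs ∈ genAlg F S :=
  Algebra.subset_adjoin hs

include hS in
/-- The evaluation of an element of `ℂ[S]`. -/
theorem evMerC_genAlg (a : genAlg F S) :
    evMerC F hS hF (a : F)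
      = algebraMap Hol Mer (holHom (RingHom.id ℂ) F ⟨a, genAlg_le_holAlg F hS a.2⟩) :=
  evMer_coe (RingHom.id ℂ) F hS hF ⟨a, genAlg_le_holAlg F hS a.2⟩

include hS in
/-- The function of a generator. -/
theorem holFun_genElt {s : LaurentSeries ℂ} (hs : s ∈ S) :
    holFun (RingHom.id ℂ) F
        ⟨genElt F hF hs, genAlg_le_holAlg F hS (genElt_mem_genAlg F hF hs)⟩
      = qFun (RingHom.id ℂ) ⟨s, hS s hs⟩ := rfl

/-- **The analytic field of a field of `q`-series, from growth of the generators.** -/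
def anFieldOfGrowth {jS : LaurentSeries ℂ} (hjS : jS ∈ S) (hj : HasQ 1 helper288.jFn jS)
    (Γ : Subgroup SL(2, ℤ)) (fin : Γ.FiniteIndex)
    (hinv : ∀ γ ∈ Γ, ∀ s (hs : s ∈ S) (τ : ℍ),
      qFun (RingHom.id ℂ) ⟨s, hS s hs⟩ (γ • τ) = qFun (RingHom.id ℂ) ⟨s, hS s hs⟩ τ)
    (hgrowth : ∀ s (hs : s ∈ S) (g : SL(2, ℤ)),
      helper167.HasExpGrowth (fun τ => qFun (RingHom.id ℂ) ⟨s, hS s hs⟩ (g • τ))) :
    AnField F where
  ev := evMerC F hS hF
  j := genElt F hF hjS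
  ev_j := by
    rw [evMerC_genAlg F hS hF ⟨genElt F hF hjS, genElt_mem_genAlg F hF hjS⟩]
    congr 1
    refine Subtype.ext ?_
    show holFun (RingHom.id ℂ) F _ = helper288.jFn
    rw [holFun_genElt F hS hF hjS]
    exact qFun_eq (RingHom.id ℂ) (by rw [coeffMap_id]; exact hj)
  A := genAlg F S
  j_mem := genElt_mem_genAlg F hF hjS
  hol a ha := ⟨_, evMerC_genAlg F hS hF ⟨a, ha⟩⟩
  frac x := by
    obtain ⟨a, b, hb, hx⟩ := exists_genAlg_frac F hF x
    have hb' : (b : F) ≠ 0 := fun h0 => hb (Subtype.ext h0)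
    exact ⟨a, a.2, b, b.2, hb', eq_div_of_mul_eq hb' hx⟩
  Γ := Γ
  fin := fin
  inv a _ γ hγ := pull_evMer (RingHom.id ℂ) F hS hF γ (hinv γ hγ) a
  growth a ha f hf g := by
    have h1 := evMerC_genAlg F hS hF ⟨a, ha⟩
    have hff : f = holHom (RingHom.id ℂ) F ⟨a, genAlg_le_holAlg F hS ha⟩ :=
      IsFractionRing.injective Hol Mer (by rw [← hf, ← h1])
    rw [hff]
    exact hasExpGrowth_holFun_genAlg (RingHom.id ℂ) F hS hgrowth ⟨a, ha⟩ g

/-- The translates of the function of a generator are periodic of period `h`, if `Γ` contains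
the conjugates of `T ^ h`. -/
theorem qFun_smul_vadd (Γ : Subgroup SL(2, ℤ)) (h : ℕ)
    (level : ∀ g : SL(2, ℤ), g⁻¹ * ModularGroup.T ^ h * g ∈ Γ)
    (hinv : ∀ γ ∈ Γ, ∀ s (hs : s ∈ S) (τ : ℍ),
      qFun (RingHom.id ℂ) ⟨s, hS s hs⟩ (γ • τ) = qFun (RingHom.id ℂ) ⟨s, hS s hs⟩ τ)
    {s : LaurentSeries ℂ} (hs : s ∈ S) (g : SL(2, ℤ)) (τ : ℍ) :
    qFun (RingHom.id ℂ) ⟨s, hS s hs⟩ (g • ((h : ℝ) +ᵥ τ))
      = qFun (RingHom.id ℂ) ⟨s, hS s hs⟩ (g • τ) := by
  have h1 := modular_T_zpow_smul τ (h : ℤ)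
  rw [zpow_natCast, Int.cast_natCast] at h1
  have h2 : g • ((h : ℝ) +ᵥ τ) = (g * ModularGroup.T ^ h * g⁻¹) • (g • τ) := by
    rw [← h1, ← mul_smul, ← mul_smul, inv_mul_cancel_right]
  have h3 : g * ModularGroup.T ^ h * g⁻¹ ∈ Γ := by
    have := level g⁻¹
    rwa [inv_inv] at this
  rw [h2, hinv _ h3 s hs]

/-- **The analytic field of a field of `q`-series, from germs of the generators**: it is enough
that the `SL(2, ℤ)`-translates of the functions of the generators are meromorphic functions of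
`q_h` near `i∞`. -/
def anFieldOfGerm {jS : LaurentSeries ℂ} (hjS : jS ∈ S) (hj : HasQ 1 helper288.jFn jS)
    (Γ : Subgroup SL(2, ℤ)) (fin : Γ.FiniteIndex) (h : ℕ) (hh : 0 < h)
    (level : ∀ g : SL(2, ℤ), g⁻¹ * ModularGroup.T ^ h * g ∈ Γ)
    (hinv : ∀ γ ∈ Γ, ∀ s (hs : s ∈ S) (τ : ℍ),
      qFun (RingHom.id ℂ) ⟨s, hS s hs⟩ (γ • τ) = qFun (RingHom.id ℂ) ⟨s, hS s hs⟩ τ)
    (hgerm : ∀ s (hs : s ∈ S) (g : SL(2, ℤ)),
      HasGerm (h : ℝ) (fun τ => qFun (RingHom.id ℂ) ⟨s, hS s hs⟩ (g • τ))) :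
    AnField F :=
  anFieldOfGrowth F hS hF hjS hj Γ fin hinv fun s hs g =>
    (hgerm s hs g).hasExpGrowth
      (mdifferentiable_comp_smul g (mdiff_qFun (RingHom.id ℂ) ⟨s, hS s hs⟩)).continuous
      (by exact_mod_cast hh) (fun τ => qFun_smul_vadd hS Γ h level hinv hs g τ)

section Simp

variable {jS : LaurentSeries ℂ} (hjS : jS ∈ S) (hj : HasQ 1 helper288.jFn jS)
  (Γ : Subgroup SL(2, ℤ)) (fin : Γ.FiniteIndex)
  (hinv : ∀ γ ∈ Γ, ∀ s (hs : s ∈ S) (τ : ℍ),
    qFun (RingHom.id ℂ) ⟨s, hS s hs⟩ (γ • τ) = qFun (RingHom.id ℂ) ⟨s, hS s hs⟩ τ)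
  (hgrowth : ∀ s (hs : s ∈ S) (g : SL(2, ℤ)),
    helper167.HasExpGrowth (fun τ => qFun (RingHom.id ℂ) ⟨s, hS s hs⟩ (g • τ)))

@[simp] theorem anFieldOfGrowth_ev :
    (anFieldOfGrowth F hS hF hjS hj Γ fin hinv hgrowth).ev = evMerC F hS hF := rfl

@[simp] theorem anFieldOfGrowth_j :
    (anFieldOfGrowth F hS hF hjS hj Γ fin hinv hgrowth).j = genElt F hF hjS := rfl

@[simp] theorem anFieldOfGrowth_A :
    (anFieldOfGrowth F hS hF hjS hj Γ fin hinv hgrowth).A = genAlg F S := rfl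

@[simp] theorem anFieldOfGrowth_Γ :
    (anFieldOfGrowth F hS hF hjS hj Γ fin hinv hgrowth).Γ = Γ := rfl

end Simp

end Gen

/-! ## The base-change carrier `laurentBaseChange ℂ F₀` -/

section BaseChange

open AlgebraicCurve IntermediateField

variable {F₀ : IntermediateField ℚ (LaurentSeries ℚ)} (hj : jq ∈ F₀) {S : Set (LaurentSeries ℂ)}
  (hS : ∀ s ∈ S, s ∈ qAlg (RingHom.id ℂ))
  (hF : laurentBaseChange ℂ F₀ = IntermediateField.adjoin ℂ S)
  (hjS : coeffEmb ℂ jq ∈ S) (hjQ : HasQ 1 helper288.jFn (coeffEmb ℂ jq))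
  (Γ : Subgroup SL(2, ℤ)) (fin : Γ.FiniteIndex)
  (hinv : ∀ γ ∈ Γ, ∀ s (hs : s ∈ S) (τ : ℍ),
    qFun (RingHom.id ℂ) ⟨s, hS s hs⟩ (γ • τ) = qFun (RingHom.id ℂ) ⟨s, hS s hs⟩ τ)
  (hgrowth : ∀ s (hs : s ∈ S) (g : SL(2, ℤ)),
    helper167.HasExpGrowth (fun τ => qFun (RingHom.id ℂ) ⟨s, hS s hs⟩ (g • τ)))

/-- The analytic field structure of the complex function field `laurentBaseChange ℂ F₀`
generated by `q`-expansions of holomorphic functions. -/
def anFieldBC : AnField (laurentBaseChange ℂ F₀) :=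
  anFieldOfGrowth (laurentBaseChange ℂ F₀) hS hF hjS hjQ Γ fin hinv hgrowth

include hj in
theorem anFieldBC_j :
    (anFieldBC hS hF hjS hjQ Γ fin hinv hgrowth).j = Fermat.Agent.S29.helper8395.jL ℂ F₀ hj :=
  rfl

@[simp] theorem anFieldBC_ev :
    (anFieldBC hS hF hjS hjQ Γ fin hinv hgrowth).ev = evMerC (laurentBaseChange ℂ F₀) hS hF :=
  rfl

@[simp] theorem anFieldBC_Γ : (anFieldBC hS hF hjS hjQ Γ fin hinv hgrowth).Γ = Γ := rfl

include hjS hjQ fin hinv hgrowth in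
/-- **The instance-level inputs of the (TH4)/(DESC) spine** for the complex function field
`FC = laurentBaseChange ℂ F₀ = ℂ(S)` with the evaluation `evMerC FC hS hF`:
(C1) finiteness over `ℂ(j)`, (INV), (A) denominators with growth, (CPLACE) for every `n`. -/
theorem surjInputs_of_gens :
    FiniteDimensional ℂ⟮Fermat.Agent.S29.helper8395.jL ℂ F₀ hj⟯ (laurentBaseChange ℂ F₀) ∧
    (∀ γ ∈ Γ, ∀ x : laurentBaseChange ℂ F₀,
      pull γ (evMerC (laurentBaseChange ℂ F₀) hS hF x) = evMerC (laurentBaseChange ℂ F₀) hS hF x) ∧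
    (∃ A : Submonoid (laurentBaseChange ℂ F₀),
      (∀ a ∈ A, ∃ f : Hol, algebraMap Hol Mer f = evMerC (laurentBaseChange ℂ F₀) hS hF a ∧
        ∀ g : SL(2, ℤ), helper167.HasExpGrowth (fun τ : ℍ => (f : ℍ → ℂ) (g • τ))) ∧
      ∀ f : laurentBaseChange ℂ F₀, ∃ d ∈ A, d ≠ 0 ∧ f * d ∈ A) ∧
    ∀ n : ℕ, ∀ (v : Place ℂ (laurentBaseChange ℂ F₀)) (c : ℂ),
      0 < v.ord (Fermat.Agent.S29.helper8395.jL ℂ F₀ hj
        - algebraMap ℂ (laurentBaseChange ℂ F₀) c) →
      c ≠ 0 → c ≠ 1728 → ∀ u : laurentBaseChange ℂ F₀, u ≠ 0 → ∀ W : Mer,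
        W ^ n = evMerC (laurentBaseChange ℂ F₀) hS hF u → (n : ℤ) ∣ v.ord u := by
  set D := anFieldBC hS hF hjS hjQ Γ fin hinv hgrowth with hD
  have hDj : D.j = Fermat.Agent.S29.helper8395.jL ℂ F₀ hj := rfl
  exact ⟨D.finiteDimensional_jL hj hDj, D.invG, ⟨D.den, D.den_hol_growth, D.den_frac⟩,
    fun n => D.cplaceDvd_jL hj hDj n⟩

end BaseChange

end Fermat.Agent.S48.helper1002
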