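import Fermat.Agent.S48.helper9025_DivForms
import Fermat.Agent.S48.helper1002_CPlaceEval

/-!
# S48 / GERM1 (helper1002): germs and growth at all cusps of the `Γ₁(M)` generator functions

Carrier-free (pure functions on `ℍ`), on the landed division forms of `helper9025_DivForms`
(`wpFun M r s = (2πi)⁻² ℘((rτ + s)/M)`, `wpForm M a`, `divD M a b = wpForm M a - wpForm M b`).

For every `g : SL(2, ℤ)`:

* `hasGerm_wpFun`, `hasGerm_divD_slash` : the slashes of the division forms are meromorphic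
  (indeed holomorphic) functions of `q_M` near `i∞`;
* `divD_ratio_smul_eq`, `hasGerm_divD_ratio_smul`, `hasExpGrowth_divD_ratio_smul` : the
  translates of the ratios `D_{a,b} / D_{c,e}`;
* `normalised_smul_eq`, `hasGerm_normalised_smul`, `hasExpGrowth_normalised_smul` : the translates
  of the normalised differences `(A / B) · D_{a,b}`, `A`, `B` of level one and weights `k`,
  `k + 2` (e.g. `E₄ / E₆`, or the holomorphic normaliser `E₄ E₆ / Δ`);
* `HasGerm.exists_growth` : the growth form `∃ m C B, ∀ τ, B ≤ im τ → ‖f τ‖ ≤ C exp (2π m im τ)`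
  of a germ.
-/

set_option autoImplicit false

open UpperHalfPlane Filter Topology CongruenceSubgroup
open scoped MatrixGroups Manifold ModularForm

noncomputable section

namespace Fermat.Agent.S48.helper1002

open Fermat.Agent.S24 Fermat.Agent.S24.helper580
open Fermat.Agent.S48.helper9025 (wpFun wpForm divD)

/-! ## Generalities -/

/-- Periodicity on `ℍ` gives periodicity of the extension by `ofComplex`. -/
theorem periodic_comp_ofComplex_of_vadd {f : ℍ → ℂ} {h : ℝ}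
    (hf : ∀ τ : ℍ, f (h +ᵥ τ) = f τ) : Function.Periodic (f ∘ ofComplex) h := by
  intro w
  by_cases hw : 0 < w.im
  · have him : 0 < (w + h).im := by simp [hw]
    simp only [Function.comp_apply, ofComplex_apply_of_im_pos him, ofComplex_apply_of_im_pos hw]
    rw [← hf ⟨w, hw⟩]
    congr 1
    ext
    simp [add_comm]
  · have hw' : w.im ≤ 0 := not_lt.mp hw
    have him : (w + h).im ≤ 0 := by simpa using hw'
    simp [ofComplex_apply_of_im_nonpos him, ofComplex_apply_of_im_nonpos hw']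

/-- A holomorphic function bounded at `i∞` and invariant under `τ ↦ h + τ` has a germ. -/
theorem hasGerm_of_bounded_vadd {h : ℝ} (hh : 0 < h) {f : ℍ → ℂ}
    (hper : ∀ τ : ℍ, f (h +ᵥ τ) = f τ) (hol : MDiff f) (hbdd : IsBoundedAtImInfty f) :
    HasGerm h f :=
  hasGerm_of_bounded hh (periodic_comp_ofComplex_of_vadd hper) hol hbdd

/-- **The growth form of a germ**: no continuity or periodicity is needed near the cusp. -/
theorem HasGerm.exists_growth {h : ℝ} (hh : 0 < h) {f : ℍ → ℂ} (hg : HasGerm h f) :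
    ∃ (m : ℕ) (C B : ℝ), ∀ τ : ℍ, B ≤ τ.im →
      ‖f τ‖ ≤ C * Real.exp (2 * Real.pi * m * τ.im) := by
  obtain ⟨H, ⟨n, hn⟩, hev⟩ := hg
  have hcont : ContinuousAt (fun z : ℂ => (z - 0) ^ n • H z) 0 := hn.continuousAt
  obtain ⟨r, hr, hball⟩ : ∃ r : ℝ, 0 < r ∧ ∀ z : ℂ, ‖z‖ < r →
      ‖z ^ n * H z‖ ≤ ‖(0 : ℂ) ^ n * H 0‖ + 1 := by
    obtain ⟨r, hr, h2⟩ := Metric.continuousAt_iff.mp hcont 1 one_pos
    refine ⟨r, hr, fun z hz => ?_⟩
    have h3 := h2 (x := z) (by rwa [dist_zero_right])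
    simp only [sub_zero, smul_eq_mul] at h3
    have h4 := norm_le_insert' (z ^ n * H z) ((0 : ℂ) ^ n * H 0)
    rw [dist_eq_norm] at h3
    linarith
  set C₁ : ℝ := ‖(0 : ℂ) ^ n * H 0‖ + 1 with hC₁
  have hC₁pos : 0 < C₁ := by positivity
  obtain ⟨Y₀, hY₀⟩ := (atImInfty_mem _).mp hev
  obtain ⟨m, hm⟩ := exists_nat_ge ((n : ℝ) / h)
  refine ⟨m, C₁, max (max 1 Y₀) (-(Real.log r) * h / (2 * Real.pi) + 1), fun τ hτ => ?_⟩
  have hτ0 : Y₀ ≤ τ.im := le_trans (le_trans (le_max_right _ _) (le_max_left _ _)) hτ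
  have hfτ : f τ = H (Function.Periodic.qParam h (τ : ℂ)) := hY₀ τ hτ0
  set q : ℂ := Function.Periodic.qParam h (τ : ℂ) with hq
  have hqn : ‖q‖ = Real.exp (-2 * Real.pi * τ.im / h) := Function.Periodic.norm_qParam h _
  have hqr : ‖q‖ < r := by
    rw [hqn]
    have h1 : -(Real.log r) * h / (2 * Real.pi) + 1 ≤ τ.im := le_trans (le_max_right _ _) hτ
    have hpi : (0 : ℝ) < 2 * Real.pi := by positivity
    have h2 : -(Real.log r) * h / (2 * Real.pi) < τ.im := by linarith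
    rw [div_lt_iff₀ hpi] at h2
    have h3 : -2 * Real.pi * τ.im / h < Real.log r := by
      rw [div_lt_iff₀ hh]
      nlinarith
    calc Real.exp (-2 * Real.pi * τ.im / h) < Real.exp (Real.log r) := Real.exp_lt_exp.mpr h3
      _ = r := Real.exp_log hr
  have hq0 : 0 < ‖q‖ := by rw [hqn]; exact Real.exp_pos _
  have h1 := hball q hqr
  rw [norm_mul, norm_pow] at h1
  have h2 : ‖H q‖ ≤ C₁ * (‖q‖ ^ n)⁻¹ := by
    rw [← div_eq_mul_inv, le_div_iff₀ (pow_pos hq0 n), mul_comm]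
    exact h1
  have h3 : (‖q‖ ^ n)⁻¹ ≤ Real.exp (2 * Real.pi * m * τ.im) := by
    rw [hqn, ← Real.exp_nat_mul, ← Real.exp_neg]
    apply Real.exp_le_exp.mpr
    have hpi : (0 : ℝ) < 2 * Real.pi := by positivity
    have him := τ.im_pos
    have e : -((n : ℝ) * (-2 * Real.pi * τ.im / h)) = 2 * Real.pi * τ.im * ((n : ℝ) / h) := by
      field_simp
    rw [e]
    have : 2 * Real.pi * τ.im * ((n : ℝ) / h) ≤ 2 * Real.pi * τ.im * m :=
      mul_le_mul_of_nonneg_left hm (by positivity)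
    linarith
  rw [hfτ]
  exact h2.trans (mul_le_mul_of_nonneg_left h3 hC₁pos.le)

/-- The automorphy factor of `SL(2, ℤ)` does not vanish. -/
theorem denomSL_ne_zero (g : SL(2, ℤ)) (τ : ℍ) :
    denom (Matrix.SpecialLinearGroup.toGL
      ((Matrix.SpecialLinearGroup.map (Int.castRingHom ℝ)) g)) (τ : ℂ) ≠ 0 :=
  denom_ne_zero _ τ

/-- Translation by `n` as the action of `T ^ n`. -/
theorem natCast_vadd_eq (n : ℕ) (τ : ℍ) : ((n : ℝ) +ᵥ τ) = ModularGroup.T ^ n • τ := by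
  have h1 := modular_T_zpow_smul τ (n : ℤ)
  rw [zpow_natCast, Int.cast_natCast] at h1
  exact h1.symm

/-- The slash by `T ^ n` is the translation by `n`. -/
theorem slash_T_pow_apply (k : ℤ) (f : ℍ → ℂ) (n : ℕ) (τ : ℍ) :
    (f ∣[k] (ModularGroup.T ^ n)) τ = f ((n : ℝ) +ᵥ τ) := by
  rw [ModularForm.SL_slash_apply, natCast_vadd_eq]
  have hd : denom (Matrix.SpecialLinearGroup.toGL
      ((Matrix.SpecialLinearGroup.map (Int.castRingHom ℝ)) (ModularGroup.T ^ n))) (τ : ℂ) = 1 := by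
    have h1 := ModularGroup.coe_T_zpow (n : ℤ)
    rw [zpow_natCast] at h1
    have e10 : (ModularGroup.T ^ n : SL(2, ℤ)) 1 0 = 0 := by
      have := congrFun (congrFun h1 1) 0
      simpa using this
    have e11 : (ModularGroup.T ^ n : SL(2, ℤ)) 1 1 = 1 := by
      have := congrFun (congrFun h1 1) 1
      simpa using this
    rw [ModularGroup.denom_apply, e10, e11]
    simp
  rw [hd, one_zpow, mul_one]

/-! ## The division forms -/

section Div

variable (M : ℕ) [NeZero M]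

/-- `wpFun M r s` is periodic of period `M`. -/
theorem wpFun_vadd (r s : ℤ) (τ : ℍ) : wpFun M r s ((M : ℝ) +ᵥ τ) = wpFun M r s τ := by
  rw [← slash_T_pow_apply 2 (wpFun M r s) M τ, Fermat.Agent.S48.helper9025.wpFun_slash]
  have h1 := ModularGroup.coe_T_zpow (M : ℤ)
  rw [zpow_natCast] at h1
  have e : wpFun M (r * (ModularGroup.T ^ M : SL(2, ℤ)) 0 0 + s * (ModularGroup.T ^ M : SL(2, ℤ)) 1 0)
      (r * (ModularGroup.T ^ M : SL(2, ℤ)) 0 1 + s * (ModularGroup.T ^ M : SL(2, ℤ)) 1 1)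
        = wpFun M r s := by
    refine Fermat.Agent.S48.helper9025.wpFun_congr (NeZero.ne M) ?_ ?_
    · simp [h1]
    · simp [h1]
  rw [e]

/-- The division functions have a germ in `q_M`. -/
theorem hasGerm_wpFun (r s : ℤ) : HasGerm (M : ℝ) (wpFun M r s) :=
  hasGerm_of_bounded_vadd (by exact_mod_cast Nat.pos_of_ne_zero (NeZero.ne M))
    (wpFun_vadd M r s) (Fermat.Agent.S48.helper9025.mdiff_wpFun M r s)
    (Fermat.Agent.S48.helper9025.isBoundedAtImInfty_wpFun (NeZero.ne M) r s)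

/-- The slash of `D_{a,b}` by an arbitrary element of `SL(2, ℤ)`. -/
theorem divD_slash_SL (a b : ℤ) (g : SL(2, ℤ)) :
    ⇑(divD M a b) ∣[(2 : ℤ)] g
      = wpFun M (a * g 1 0) (a * g 1 1) - wpFun M (b * g 1 0) (b * g 1 1) := by
  have e : ⇑(divD M a b) = ⇑(wpForm M a) - ⇑(wpForm M b) := rfl
  rw [e, sub_eq_add_neg, SlashAction.add_slash, SlashAction.neg_slash,
    Fermat.Agent.S48.helper9025.wpForm_slash_SL, Fermat.Agent.S48.helper9025.wpForm_slash_SL,
    sub_eq_add_neg]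

/-- The slashes of `D_{a,b}` have a germ in `q_M`. -/
theorem hasGerm_divD_slash (a b : ℤ) (g : SL(2, ℤ)) :
    HasGerm (M : ℝ) (⇑(divD M a b) ∣[(2 : ℤ)] g) := by
  rw [divD_slash_SL]
  exact (hasGerm_wpFun M _ _).sub (hasGerm_wpFun M _ _)

theorem divD_slash_vadd (a b : ℤ) (g : SL(2, ℤ)) (τ : ℍ) :
    (⇑(divD M a b) ∣[(2 : ℤ)] g) ((M : ℝ) +ᵥ τ) = (⇑(divD M a b) ∣[(2 : ℤ)] g) τ := by
  rw [divD_slash_SL]
  simp only [Pi.sub_apply, wpFun_vadd]

theorem mdiff_divD_slash (a b : ℤ) (g : SL(2, ℤ)) : MDiff (⇑(divD M a b) ∣[(2 : ℤ)] g) := by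
  rw [divD_slash_SL]
  exact (Fermat.Agent.S48.helper9025.mdiff_wpFun M _ _).sub
    (Fermat.Agent.S48.helper9025.mdiff_wpFun M _ _)

/-- The slash of `D_{a,b}` vanishes exactly where the translate does. -/
theorem divD_slash_apply_ne_zero {a b : ℤ} (g : SL(2, ℤ)) (τ : ℍ)
    (h : divD M a b (g • τ) ≠ 0) : (⇑(divD M a b) ∣[(2 : ℤ)] g) τ ≠ 0 := by
  rw [ModularForm.SL_slash_apply]
  exact mul_ne_zero h (zpow_ne_zero _ (denomSL_ne_zero g τ))

/-! ### Ratios -/

/-- **The translates of the ratios** `D_{a,b} / D_{c,e}`. -/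
theorem divD_ratio_smul_eq (a b c e : ℤ) (g : SL(2, ℤ)) (τ : ℍ) :
    divD M a b (g • τ) / divD M c e (g • τ)
      = (⇑(divD M a b) ∣[(2 : ℤ)] g) τ / (⇑(divD M c e) ∣[(2 : ℤ)] g) τ :=
  div_smul_eq_div_slash 2 _ _ g τ

/-- **Germs of the translates of the ratios** (all cusps, no condition on the indices). -/
theorem hasGerm_divD_ratio_smul (a b c e : ℤ) (g : SL(2, ℤ)) :
    HasGerm (M : ℝ) (fun τ : ℍ => divD M a b (g • τ) / divD M c e (g • τ)) :=
  hasGerm_div_smul_of_slash 2 g (hasGerm_divD_slash M a b g) (hasGerm_divD_slash M c e g)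

theorem divD_ratio_smul_vadd (a b c e : ℤ) (g : SL(2, ℤ)) (τ : ℍ) :
    divD M a b (g • ((M : ℝ) +ᵥ τ)) / divD M c e (g • ((M : ℝ) +ᵥ τ))
      = divD M a b (g • τ) / divD M c e (g • τ) := by
  rw [divD_ratio_smul_eq, divD_ratio_smul_eq, divD_slash_vadd, divD_slash_vadd]

/-- Continuity of the translates of a ratio with non-vanishing denominator. -/
theorem continuous_divD_ratio_smul (a b : ℤ) {c e : ℤ} (hc : ¬ (M : ℤ) ∣ c) (he : ¬ (M : ℤ) ∣ e)
    (hsub : ¬ (M : ℤ) ∣ c - e) (hadd : ¬ (M : ℤ) ∣ c + e) (g : SL(2, ℤ)) :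
    Continuous (fun τ : ℍ => divD M a b (g • τ) / divD M c e (g • τ)) := by
  have h1 : Continuous (fun τ : ℍ => divD M a b (g • τ)) :=
    (mdifferentiable_comp_smul g (ModularFormClass.holo (divD M a b))).continuous
  have h2 : Continuous (fun τ : ℍ => divD M c e (g • τ)) :=
    (mdifferentiable_comp_smul g (ModularFormClass.holo (divD M c e))).continuous
  exact h1.div h2 fun τ =>
    Fermat.Agent.S48.helper9025.divD_apply_ne_zero M hc he hsub hadd (g • τ)

/-- **Exponential growth of the translates of the ratios** `D_{a,b} / D_{c,e}`, `c ≢ ± e`. -/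
theorem hasExpGrowth_divD_ratio_smul (a b : ℤ) {c e : ℤ} (hc : ¬ (M : ℤ) ∣ c)
    (he : ¬ (M : ℤ) ∣ e) (hsub : ¬ (M : ℤ) ∣ c - e) (hadd : ¬ (M : ℤ) ∣ c + e) (g : SL(2, ℤ)) :
    helper167.HasExpGrowth (fun τ : ℍ => divD M a b (g • τ) / divD M c e (g • τ)) :=
  (hasGerm_divD_ratio_smul M a b c e g).hasExpGrowth
    (continuous_divD_ratio_smul M a b hc he hsub hadd g)
    (by exact_mod_cast Nat.pos_of_ne_zero (NeZero.ne M))
    (fun τ => divD_ratio_smul_vadd M a b c e g τ)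

/-! ### Normalised differences -/

section Normalised

variable {k : ℤ} {A B : ℍ → ℂ}

/-- A function invariant under the weight `k` slash by `T` is periodic of period `M`. -/
theorem vadd_of_slash_T (hA : A ∣[k] ModularGroup.T = A) (n : ℕ) (τ : ℍ) :
    A ((n : ℝ) +ᵥ τ) = A τ := by
  have h1 : ∀ τ : ℍ, A ((1 : ℝ) +ᵥ τ) = A τ := by
    intro τ
    have h2 := slash_T_pow_apply k A 1 τ
    rw [pow_one, hA, Nat.cast_one] at h2
    exact h2.symm
  have h3 := periodic_int_mul h1 (n : ℤ) τ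
  rwa [Int.cast_natCast, mul_one] at h3

/-- A level-one function (holomorphic, bounded at `i∞`, invariant under `T`) has a germ in
`q_M`. -/
theorem hasGerm_of_slash_T (hA : A ∣[k] ModularGroup.T = A) (hol : MDiff A)
    (hbdd : IsBoundedAtImInfty A) : HasGerm (M : ℝ) A :=
  hasGerm_of_bounded_vadd (by exact_mod_cast Nat.pos_of_ne_zero (NeZero.ne M))
    (fun τ => vadd_of_slash_T hA M τ) hol hbdd

/-- **The translates of the normalised differences** `(A / B) · D_{a,b}`, for `A`, `B`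
invariant of weights `k`, `k + 2` under `SL(2, ℤ)`. -/
theorem normalised_smul_eq (hA : ∀ g : SL(2, ℤ), A ∣[k] g = A)
    (hB : ∀ g : SL(2, ℤ), B ∣[k + 2] g = B) (a b : ℤ) (g : SL(2, ℤ)) (τ : ℍ) :
    A (g • τ) / B (g • τ) * divD M a b (g • τ)
      = A τ / B τ * (⇑(divD M a b) ∣[(2 : ℤ)] g) τ := by
  have h1 : A (g • τ) / B (g • τ) * divD M a b (g • τ)
      = (A * ⇑(divD M a b)) (g • τ) / B (g • τ) := by
    rw [Pi.mul_apply]; ring
  rw [h1, div_smul_eq_div_slash (k + 2) (A * ⇑(divD M a b)) B g τ,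
    ModularForm.mul_slash_SL2, hA g, hB g, Pi.mul_apply]
  ring

/-- **Germs of the translates of the normalised differences** (all cusps). -/
theorem hasGerm_normalised_smul (hA : ∀ g : SL(2, ℤ), A ∣[k] g = A) (holA : MDiff A)
    (bddA : IsBoundedAtImInfty A) (hB : ∀ g : SL(2, ℤ), B ∣[k + 2] g = B) (holB : MDiff B)
    (bddB : IsBoundedAtImInfty B) (a b : ℤ) (g : SL(2, ℤ)) :
    HasGerm (M : ℝ) (fun τ : ℍ => A (g • τ) / B (g • τ) * divD M a b (g • τ)) := by
  have h1 : HasGerm (M : ℝ) (A / B * (⇑(divD M a b) ∣[(2 : ℤ)] g)) :=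
    ((hasGerm_of_slash_T M (hA _) holA bddA).div (hasGerm_of_slash_T M (hB _) holB bddB)).mul
      (hasGerm_divD_slash M a b g)
  refine h1.congr (Eventually.of_forall fun τ => ?_)
  rw [normalised_smul_eq M hA hB a b g τ]
  rfl

theorem normalised_smul_vadd (hA : ∀ g : SL(2, ℤ), A ∣[k] g = A)
    (hB : ∀ g : SL(2, ℤ), B ∣[k + 2] g = B) (a b : ℤ) (g : SL(2, ℤ)) (τ : ℍ) :
    A (g • ((M : ℝ) +ᵥ τ)) / B (g • ((M : ℝ) +ᵥ τ)) * divD M a b (g • ((M : ℝ) +ᵥ τ))
      = A (g • τ) / B (g • τ) * divD M a b (g • τ) := by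
  rw [normalised_smul_eq M hA hB, normalised_smul_eq M hA hB, divD_slash_vadd,
    vadd_of_slash_T (hA _) M τ, vadd_of_slash_T (hB _) M τ]

/-- **Exponential growth of the translates of the normalised differences** when the
denominator `B` of the normaliser has no zero on `ℍ` (e.g. `B = Δ`, `A = E₄ E₆`). -/
theorem hasExpGrowth_normalised_smul (hA : ∀ g : SL(2, ℤ), A ∣[k] g = A) (holA : MDiff A)
    (bddA : IsBoundedAtImInfty A) (hB : ∀ g : SL(2, ℤ), B ∣[k + 2] g = B) (holB : MDiff B)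
    (bddB : IsBoundedAtImInfty B) (hB0 : ∀ τ : ℍ, B τ ≠ 0) (a b : ℤ) (g : SL(2, ℤ)) :
    helper167.HasExpGrowth (fun τ : ℍ => A (g • τ) / B (g • τ) * divD M a b (g • τ)) := by
  refine (hasGerm_normalised_smul M hA holA bddA hB holB bddB a b g).hasExpGrowth ?_
    (by exact_mod_cast Nat.pos_of_ne_zero (NeZero.ne M))
    (fun τ => normalised_smul_vadd M hA hB a b g τ)
  have h1 : Continuous (fun τ : ℍ => A (g • τ)) := (mdifferentiable_comp_smul g holA).continuous
  have h2 : Continuous (fun τ : ℍ => B (g • τ)) := (mdifferentiable_comp_smul g holB).continuous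
  have h3 : Continuous (fun τ : ℍ => divD M a b (g • τ)) :=
    (mdifferentiable_comp_smul g (ModularFormClass.holo (divD M a b))).continuous
  exact (h1.div h2 fun τ => hB0 (g • τ)).mul h3

end Normalised

/-! ### The two standard normalisers -/

/-- Quotient of holomorphic functions on `ℍ` with non-vanishing denominator. -/
theorem mdiff_div {f g : ℍ → ℂ} (hf : MDiff f) (hg : MDiff g) (h0 : ∀ τ, g τ ≠ 0) :
    MDiff (fun τ : ℍ => f τ / g τ) := by
  rw [UpperHalfPlane.mdifferentiable_iff] at hf hg ⊢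
  exact hf.div hg fun z _ => h0 _

theorem E4_slash (g : SL(2, ℤ)) : ⇑ModularForm.E₄ ∣[(4 : ℤ)] g = ⇑ModularForm.E₄ :=
  SlashInvariantFormClass.slash_action_eq ModularForm.E₄ _ ⟨g, rfl⟩

theorem E6_slash (g : SL(2, ℤ)) : ⇑ModularForm.E₆ ∣[(6 : ℤ)] g = ⇑ModularForm.E₆ :=
  SlashInvariantFormClass.slash_action_eq ModularForm.E₆ _ ⟨g, rfl⟩

theorem discriminant_slash (g : SL(2, ℤ)) :
    ⇑CuspForm.discriminant ∣[(12 : ℤ)] g = ⇑CuspForm.discriminant :=
  SlashInvariantFormClass.slash_action_eq CuspForm.discriminant _ ⟨g, rfl⟩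

theorem E4_mul_E6_slash (g : SL(2, ℤ)) :
    (⇑ModularForm.E₄ * ⇑ModularForm.E₆) ∣[(10 : ℤ)] g = ⇑ModularForm.E₄ * ⇑ModularForm.E₆ := by
  have h := ModularForm.mul_slash_SL2 4 6 g ⇑ModularForm.E₄ ⇑ModularForm.E₆
  rw [E4_slash, E6_slash] at h
  have e : (4 : ℤ) + 6 = 10 := by norm_num
  rwa [e] at h

/-- **Germs of the translates of the formal generators' functions** `(E₄ / E₆) · D_{a,b}`
(the functions of `helper7300.gen K phiZ u v`; they have poles on `ℍ` at the zeros of `E₆`). -/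
theorem hasGerm_E4_div_E6_mul_divD_smul (a b : ℤ) (g : SL(2, ℤ)) :
    HasGerm (M : ℝ) (fun τ : ℍ =>
      ModularForm.E₄ (g • τ) / ModularForm.E₆ (g • τ) * divD M a b (g • τ)) :=
  hasGerm_normalised_smul M (k := 4) E4_slash (ModularFormClass.holo ModularForm.E₄)
    (ModularFormClass.bdd_at_infty ModularForm.E₄)
    (fun g => by rw [show (4 : ℤ) + 2 = 6 by norm_num]; exact E6_slash g)
    (ModularFormClass.holo ModularForm.E₆) (ModularFormClass.bdd_at_infty ModularForm.E₆) a b g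

/-- **The holomorphic generator** `h_{a,b} = (E₄ E₆ / Δ) · D_{a,b}` (`= (j - 1728) · (E₄ / E₆) ·
D_{a,b}`): weight `0`, holomorphic on `ℍ`, a simple pole at `i∞`. -/
def holGen (a b : ℤ) (τ : ℍ) : ℂ :=
  ModularForm.E₄ τ * ModularForm.E₆ τ / ModularForm.discriminant τ * divD M a b τ

theorem holGen_apply (a b : ℤ) (τ : ℍ) :
    holGen M a b τ = (⇑ModularForm.E₄ * ⇑ModularForm.E₆) τ / (⇑CuspForm.discriminant) τ
      * divD M a b τ := rfl

theorem mdiff_holGen (a b : ℤ) : MDiff (holGen M a b) := by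
  have h1 : MDiff (fun τ : ℍ => (⇑ModularForm.E₄ * ⇑ModularForm.E₆) τ
      / (⇑CuspForm.discriminant) τ) :=
    mdiff_div ((ModularFormClass.holo ModularForm.E₄).mul (ModularFormClass.holo ModularForm.E₆))
      (ModularFormClass.holo CuspForm.discriminant) ModularForm.discriminant_ne_zero
  exact h1.mul (ModularFormClass.holo (divD M a b))

theorem discriminant_slash' (g : SL(2, ℤ)) :
    ⇑CuspForm.discriminant ∣[(10 : ℤ) + 2] g = ⇑CuspForm.discriminant := by
  rw [show (10 : ℤ) + 2 = 12 by norm_num]; exact discriminant_slash g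

/-- The translates of the holomorphic generators. -/
theorem holGen_smul (a b : ℤ) (g : SL(2, ℤ)) (τ : ℍ) :
    holGen M a b (g • τ) = (⇑ModularForm.E₄ * ⇑ModularForm.E₆) τ / (⇑CuspForm.discriminant) τ
      * (⇑(divD M a b) ∣[(2 : ℤ)] g) τ := by
  rw [holGen_apply]
  exact normalised_smul_eq M (k := 10) E4_mul_E6_slash discriminant_slash' a b g τ

/-- The holomorphic generators are `Γ₁(M)`-invariant. -/
theorem holGen_smul_of_mem_Gamma1 (a b : ℤ) {γ : SL(2, ℤ)} (hγ : γ ∈ Gamma1 M) (τ : ℍ) :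
    holGen M a b (γ • τ) = holGen M a b τ := by
  rw [holGen_smul]
  have h : ⇑(divD M a b) ∣[(2 : ℤ)] γ = ⇑(divD M a b) :=
    SlashInvariantFormClass.slash_action_eq (divD M a b) _ ⟨γ, hγ, rfl⟩
  rw [h]
  rfl

/-- **Germs of the translates of the holomorphic generators.** -/
theorem hasGerm_holGen_smul (a b : ℤ) (g : SL(2, ℤ)) :
    HasGerm (M : ℝ) (fun τ : ℍ => holGen M a b (g • τ)) :=
  hasGerm_normalised_smul M (k := 10) E4_mul_E6_slash
    ((ModularFormClass.holo ModularForm.E₄).mul (ModularFormClass.holo ModularForm.E₆))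
    ((ModularFormClass.bdd_at_infty ModularForm.E₄).mul
      (ModularFormClass.bdd_at_infty ModularForm.E₆))
    discriminant_slash' (ModularFormClass.holo CuspForm.discriminant)
    (ModularFormClass.bdd_at_infty CuspForm.discriminant) a b g

/-- **Exponential growth of the translates of the holomorphic generators.** -/
theorem hasExpGrowth_holGen_smul (a b : ℤ) (g : SL(2, ℤ)) :
    helper167.HasExpGrowth (fun τ : ℍ => holGen M a b (g • τ)) :=
  hasExpGrowth_normalised_smul M (k := 10) E4_mul_E6_slash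
    ((ModularFormClass.holo ModularForm.E₄).mul (ModularFormClass.holo ModularForm.E₆))
    ((ModularFormClass.bdd_at_infty ModularForm.E₄).mul
      (ModularFormClass.bdd_at_infty ModularForm.E₆))
    discriminant_slash' (ModularFormClass.holo CuspForm.discriminant)
    (ModularFormClass.bdd_at_infty CuspForm.discriminant) ModularForm.discriminant_ne_zero a b g

/-- The formal generator's function times `E₆ ^ 2 / Δ` is the holomorphic generator. -/
theorem holGen_eq (a b : ℤ) (τ : ℍ) (h6 : ModularForm.E₆ τ ≠ 0) :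
    holGen M a b τ = ModularForm.E₆ τ ^ 2 / ModularForm.discriminant τ
      * (ModularForm.E₄ τ / ModularForm.E₆ τ * divD M a b τ) := by
  unfold holGen
  field_simp

end Div

/-! ## (4) Level-one functions at `(a τ + b) / e`, and `j(d τ)` at all cusps -/

section JGerm

open Fermat.Agent.S24.helper288 (jFn affinePt)

/-- A germ in `q` gives a germ in `q_N` of `τ ↦ f ((a τ + b) / e)` when `e ∣ N`. -/
theorem hasGerm_affinePt {f : ℍ → ℂ} (hf : HasGerm 1 f) (a b e : ℤ) (ha : 0 < a) (he : 0 < e)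
    (N k : ℕ) (hN : 0 < N) (hk : e * k = N) :
    HasGerm (N : ℝ) (fun τ : ℍ => f (affinePt a b e ha he τ)) := by
  obtain ⟨H, hH, hev⟩ := hf
  have hk0 : k ≠ 0 := by
    rintro rfl
    simp at hk
    omega
  have ha0 : a.toNat ≠ 0 := by omega
  have hn : a.toNat * k ≠ 0 := Nat.mul_ne_zero ha0 hk0
  refine ⟨fun Q : ℂ => H (Complex.exp (2 * Real.pi * Complex.I * b / e) * Q ^ (a.toNat * k)),
    ?_, ?_⟩
  · have han : AnalyticAt ℂ
        (fun Q : ℂ => Complex.exp (2 * Real.pi * Complex.I * b / e) * Q ^ (a.toNat * k)) 0 := by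
      fun_prop
    have h0 : (fun Q : ℂ => Complex.exp (2 * Real.pi * Complex.I * b / e) * Q ^ (a.toNat * k)) 0
        = 0 := by
      simp [hn]
    exact MeromorphicAt.comp_analyticAt (f := H)
      (g := fun Q : ℂ => Complex.exp (2 * Real.pi * Complex.I * b / e) * Q ^ (a.toNat * k))
      (by
        have e0 : Complex.exp (2 * Real.pi * Complex.I * b / e) * (0 : ℂ) ^ (a.toNat * k) = 0 := h0
        rw [e0]; exact hH) han
  · have h1 := (Fermat.Agent.S24.helper288.tendsto_affinePt_atImInfty a b e ha he).eventually hev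
    filter_upwards [h1] with τ hτ
    rw [hτ, Fermat.Agent.S24.helper288.qParam_affinePt a b e ha he N k hN hk τ]

/-- **`f(d · g τ)` at all cusps**: for `f` invariant under `SL(2, ℤ)` with a germ in `q`, and
`d ∣ M`, every translate of `τ ↦ f (d τ)` has a germ in `q_M`. -/
theorem hasGerm_invariant_mul_smul (M : ℕ) [NeZero M] {f : ℍ → ℂ}
    (hinv : ∀ (γ : SL(2, ℤ)) (τ : ℍ), f (γ • τ) = f τ) (hf : HasGerm 1 f) (d : ℕ) (hd : 0 < d)
    (hdM : d ∣ M) (g : SL(2, ℤ)) :
    HasGerm (M : ℝ) (fun τ : ℍ => f (ofComplex ((d : ℂ) * ((g • τ : ℍ) : ℂ)))) := by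
  obtain ⟨a, b, e, ha, he, hae, -, -, -, h⟩ :=
    Fermat.Agent.S24.helper288.exists_affinePt_of_invariant g d hd
  have hM : 0 < M := Nat.pos_of_ne_zero (NeZero.ne M)
  have hed : e ∣ (M : ℤ) := (Dvd.intro_left a hae).trans (Int.natCast_dvd_natCast.mpr hdM)
  obtain ⟨k', hk'⟩ := hed
  have hk'pos : 0 < k' := by
    have hM' : (0 : ℤ) < (M : ℤ) := by exact_mod_cast hM
    rw [hk'] at hM'
    exact (mul_pos_iff_of_pos_left he).mp hM'
  have hk : e * ((k'.toNat : ℕ) : ℤ) = (M : ℤ) := by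
    rw [Int.toNat_of_nonneg hk'pos.le, hk']
  refine (hasGerm_affinePt hf a b e ha he M k'.toNat hM hk).congr
    (Eventually.of_forall fun τ => ?_)
  exact h f hinv τ

/-- Level-one holomorphic functions bounded at `i∞` have a germ in `q`. -/
theorem hasGerm_one_of_slash_T {k : ℤ} {A : ℍ → ℂ} (hA : A ∣[k] ModularGroup.T = A)
    (hol : MDiff A) (hbdd : IsBoundedAtImInfty A) : HasGerm 1 A := by
  have h := hasGerm_of_slash_T 1 hA hol hbdd
  rwa [Nat.cast_one] at h

/-- `j` is a meromorphic function of `q` near `i∞`. -/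
theorem hasGerm_jFn : HasGerm 1 jFn := by
  have h4 : HasGerm 1 (⇑ModularForm.E₄) :=
    hasGerm_one_of_slash_T (E4_slash _) (ModularFormClass.holo ModularForm.E₄)
      (ModularFormClass.bdd_at_infty ModularForm.E₄)
  have h12 : HasGerm 1 (⇑CuspForm.discriminant) :=
    hasGerm_one_of_slash_T (discriminant_slash _) (ModularFormClass.holo CuspForm.discriminant)
      (ModularFormClass.bdd_at_infty CuspForm.discriminant)
  exact ((h4.pow 3).div h12).congr (Eventually.of_forall fun τ => rfl)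

/-- **Germs of `j(d · g τ)`**, `d ∣ M`, at all cusps. -/
theorem hasGerm_jFn_mul_smul (M : ℕ) [NeZero M] (d : ℕ) (hd : 0 < d) (hdM : d ∣ M)
    (g : SL(2, ℤ)) :
    HasGerm (M : ℝ) (fun τ : ℍ => jFn (ofComplex ((d : ℂ) * ((g • τ : ℍ) : ℂ)))) :=
  hasGerm_invariant_mul_smul M Fermat.Agent.S24.helper288.jFn_smul hasGerm_jFn d hd hdM g

end JGerm

/-! ## (5) The generator functions of the `Γ₁(M)` function field: one-call form -/

section GenFun

variable (M : ℕ) [NeZero M]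

open Fermat.Agent.S24.helper288 (jFn)

/-- The three kinds of generator functions of the function field of `Γ₁(M)`: `j(dτ)` for
`d ∣ M`, the holomorphic normalised differences `(E₄ E₆ / Δ) · D_{a,b}`, and the ratios
`D_{a,b} / D_{c,e}` with `c ≢ 0`, `e ≢ 0`, `c ≢ ± e` mod `M`. -/
def IsGenFun (F : ℍ → ℂ) : Prop :=
  (∃ d : ℕ, 0 < d ∧ d ∣ M ∧ F = fun τ : ℍ => jFn (ofComplex ((d : ℂ) * (τ : ℂ)))) ∨
  (∃ a b : ℤ, F = fun τ : ℍ =>
    ModularForm.E₄ τ * ModularForm.E₆ τ / ModularForm.discriminant τ * divD M a b τ) ∨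
  (∃ a b c e : ℤ, ¬ (M : ℤ) ∣ c ∧ ¬ (M : ℤ) ∣ e ∧ ¬ (M : ℤ) ∣ c - e ∧ ¬ (M : ℤ) ∣ c + e ∧
    F = fun τ : ℍ => divD M a b τ / divD M c e τ)

theorem isGenFun_jFn {d : ℕ} (hd : 0 < d) (hdM : d ∣ M) :
    IsGenFun M (fun τ : ℍ => jFn (ofComplex ((d : ℂ) * (τ : ℂ)))) :=
  Or.inl ⟨d, hd, hdM, rfl⟩

theorem isGenFun_holGen (a b : ℤ) : IsGenFun M (holGen M a b) :=
  Or.inr (Or.inl ⟨a, b, rfl⟩)

theorem isGenFun_ratio (a b : ℤ) {c e : ℤ} (hc : ¬ (M : ℤ) ∣ c) (he : ¬ (M : ℤ) ∣ e)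
    (hsub : ¬ (M : ℤ) ∣ c - e) (hadd : ¬ (M : ℤ) ∣ c + e) :
    IsGenFun M (fun τ : ℍ => divD M a b τ / divD M c e τ) :=
  Or.inr (Or.inr ⟨a, b, c, e, hc, he, hsub, hadd, rfl⟩)

variable {M} {F : ℍ → ℂ}

/-- The generator functions are holomorphic on `ℍ`. -/
theorem IsGenFun.mdiff (hF : IsGenFun M F) : MDiff F := by
  rcases hF with ⟨d, hd, -, rfl⟩ | ⟨a, b, rfl⟩ | ⟨a, b, c, e, hc, he, hsub, hadd, rfl⟩
  · have h := Fermat.Agent.S24.helper288.mdiff_jFn_mul_smul 1 d hd
    simpa only [one_smul] using h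
  · exact mdiff_holGen M a b
  · exact mdiff_div (ModularFormClass.holo (divD M a b)) (ModularFormClass.holo (divD M c e))
      (Fermat.Agent.S48.helper9025.divD_apply_ne_zero M hc he hsub hadd)

/-- The generator functions are invariant under `Γ₁(M)`. -/
theorem IsGenFun.smul_of_mem_Gamma1 (hF : IsGenFun M F) {γ : SL(2, ℤ)} (hγ : γ ∈ Gamma1 M)
    (τ : ℍ) : F (γ • τ) = F τ := by
  rcases hF with ⟨d, hd, hdM, rfl⟩ | ⟨a, b, rfl⟩ | ⟨a, b, c, e, -, -, -, -, rfl⟩
  · exact Fermat.Agent.S24.helper288.jFn_mul_smul_of_mem_Gamma0 M d hd hdM γ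
      (Gamma1_in_Gamma0 M hγ) τ
  · exact holGen_smul_of_mem_Gamma1 M a b hγ τ
  · show divD M a b (γ • τ) / divD M c e (γ • τ) = divD M a b τ / divD M c e τ
    rw [divD_ratio_smul_eq]
    have h1 : ⇑(divD M a b) ∣[(2 : ℤ)] γ = ⇑(divD M a b) :=
      SlashInvariantFormClass.slash_action_eq (divD M a b) _ ⟨γ, hγ, rfl⟩
    have h2 : ⇑(divD M c e) ∣[(2 : ℤ)] γ = ⇑(divD M c e) :=
      SlashInvariantFormClass.slash_action_eq (divD M c e) _ ⟨γ, hγ, rfl⟩
    rw [h1, h2]

/-- The generator functions are invariant under `± Γ₁(M)`. -/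
theorem IsGenFun.smul_of_pm_mem_Gamma1 (hF : IsGenFun M F) {γ : SL(2, ℤ)}
    (hγ : γ ∈ Gamma1 M ∨ -γ ∈ Gamma1 M) (τ : ℍ) : F (γ • τ) = F τ := by
  rcases hγ with hγ | hγ
  · exact hF.smul_of_mem_Gamma1 hγ τ
  · have h := hF.smul_of_mem_Gamma1 hγ τ
    rwa [ModularGroup.SL_neg_smul] at h

/-- **Germs of the generator functions at all cusps.** -/
theorem IsGenFun.hasGerm_smul (hF : IsGenFun M F) (g : SL(2, ℤ)) :
    HasGerm (M : ℝ) (fun τ : ℍ => F (g • τ)) := by
  rcases hF with ⟨d, hd, hdM, rfl⟩ | ⟨a, b, rfl⟩ | ⟨a, b, c, e, -, -, -, -, rfl⟩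
  · exact hasGerm_jFn_mul_smul M d hd hdM g
  · exact hasGerm_holGen_smul M a b g
  · exact hasGerm_divD_ratio_smul M a b c e g

/-- The same, unfolded (the germ clause of the evaluation data). -/
theorem IsGenFun.exists_germ (hF : IsGenFun M F) (g : SL(2, ℤ)) :
    ∃ H : ℂ → ℂ, MeromorphicAt H 0 ∧
      ∀ᶠ τ : ℍ in atImInfty, F (g • τ) = H (Function.Periodic.qParam (M : ℝ) (τ : ℂ)) :=
  hF.hasGerm_smul g

/-- **Exponential growth of the generator functions at all cusps.** -/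
theorem IsGenFun.hasExpGrowth_smul (hF : IsGenFun M F) (g : SL(2, ℤ)) :
    helper167.HasExpGrowth (fun τ : ℍ => F (g • τ)) := by
  rcases hF with ⟨d, hd, -, rfl⟩ | ⟨a, b, rfl⟩ | ⟨a, b, c, e, hc, he, hsub, hadd, rfl⟩
  · exact Fermat.Agent.S24.helper288.hasExpGrowth_jFn_mul_smul g d hd
  · exact hasExpGrowth_holGen_smul M a b g
  · exact hasExpGrowth_divD_ratio_smul M a b hc he hsub hadd g

/-- The translates of the generator functions are holomorphic. -/
theorem IsGenFun.mdiff_smul (hF : IsGenFun M F) (g : SL(2, ℤ)) :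
    MDiff (fun τ : ℍ => F (g • τ)) :=
  mdifferentiable_comp_smul g hF.mdiff

/-- The growth form `∃ m C B` of the translates of the generator functions. -/
theorem IsGenFun.exists_growth (hF : IsGenFun M F) (g : SL(2, ℤ)) :
    ∃ (m : ℕ) (C B : ℝ), ∀ τ : ℍ, B ≤ τ.im →
      ‖F (g • τ)‖ ≤ C * Real.exp (2 * Real.pi * m * τ.im) :=
  (hF.hasGerm_smul g).exists_growth (by exact_mod_cast Nat.pos_of_ne_zero (NeZero.ne M))

end GenFun

end Fermat.Agent.S48.helper1002
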