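import Fermat.Agent.S48.helper5047_Gamma1Eval
import Fermat.Agent.S48.helper1002_Gamma1Germ
import Fermat.Agent.S29.helper8395_KummerOff
import Fermat.Agent.S29.helper1736_CuspGermCore

/-!
# S48 / M3-EVALC1 (helper1002): the complex evaluation datum of the `Γ₁(M)` function field

* `HasGerm.of_mul_eq` : germs at `i∞` pass to quotients of holomorphic functions;
* `evalC_of_gen` : for a field `F = ℂ(S)` of Laurent series generated by `q`-expansions of
  holomorphic functions, the canonical pair `(holAlg id F, holFun id F)` of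
  `helper5047_EvalDatum` is a complex evaluation datum `EvalC Γ h jF _ _` as soon as the
  functions of the generators are `Γ`-invariant, `Γ` contains the conjugates of `T ^ h`, and the
  `SL(2, ℤ)`-translates of the functions of the generators have germs in `q_h`;
* `EvalC.evMer_eq_of_hasQ` : the evaluation `evMer` of such a datum sends every series of the
  field which is the `q`-expansion of a holomorphic function to that function;
* `isGenFun_qFun_g1Set` : the functions of the generators `helper5047.g1Set K M` of the `Γ₁(M)`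
  field are generator functions in the sense of `helper1002_Gamma1Germ`, hence have germs and
  exponential growth at all cusps (`hasGerm_qFun_g1Set`, `hasExpGrowth_qFun_g1Set`);
* `evalC_gamma1Field`, `evalC_baseChange` : **the complex evaluation datum of the `Γ₁(M)`
  field** `gamma1Field ℂ M`, resp. of `laurentBaseChange ℂ F₀` for a rational form `F₀`
  (`hF₀ : laurentBaseChange ℂ F₀ = gamma1Field ℂ M`), with `hasQ_holFun_id` (`hser`) and
  `evMer_baseChange_eq_of_hasQ` (`hcompat`).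
-/

set_option autoImplicit false

open UpperHalfPlane Filter Topology ModularCurve CongruenceSubgroup
open scoped MatrixGroups Manifold

noncomputable section

namespace Fermat.Agent.S48.helper1002

open Fermat.Agent.S24 Fermat.Agent.S24.helper580
open Fermat.Agent.S24.helper1704 (HasQ)
open Fermat.Agent.S48.helper5047

/-! ## Germs of quotients -/

/-- **Germs pass to quotients**: if `fa * fc = fb` with `fc` holomorphic and not identically
zero, and `fb`, `fc` are meromorphic functions of `q_h` near `i∞`, so is `fa`. -/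
theorem HasGerm.of_mul_eq {h : ℕ} [NeZero h] {fa fb fc : ℍ → ℂ} (hc : MDiff fc) (hc0 : fc ≠ 0)
    (hmul : ∀ τ : ℍ, fa τ * fc τ = fb τ) (hb : HasGerm (h : ℝ) fb) (hcg : HasGerm (h : ℝ) fc) :
    HasGerm (h : ℝ) fa := by
  obtain ⟨Hb, mb, eb⟩ := hb
  obtain ⟨Hc, mc, ec⟩ := hcg
  have hq := Fermat.Agent.S29.helper1736.tendsto_qParam_atImInfty h
  have hne : ∀ᶠ z in 𝓝[≠] (0 : ℂ), Hc z ≠ 0 := by
    rcases mc.eventually_eq_zero_or_eventually_ne_zero with h0 | h0
    · exfalso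
      have h1 : ∀ᶠ τ : ℍ in atImInfty, fc τ = 0 := by
        filter_upwards [ec, hq.eventually h0] with τ h2 h3
        rw [h2, h3]
      obtain ⟨c, hc'⟩ := (UpperHalfPlane.atImInfty_mem _).mp h1
      obtain ⟨τ, hτ, hτ0⟩ := Fermat.Agent.S29.helper1736.exists_ne_zero_of_im_gt hc hc0 c
      exact hτ0 (hc' τ hτ.le)
    · exact h0
  refine ⟨Hb / Hc, mb.div mc, ?_⟩
  filter_upwards [eb, ec, hq.eventually hne] with τ h1 h2 h3
  have h4 : fc τ ≠ 0 := by rw [h2]; exact h3
  rw [Pi.div_apply, ← h1, ← h2, eq_div_iff h4, hmul]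

/-! ## The evaluation datum of a field generated by `q`-expansions -/

section Gen

variable (F : IntermediateField ℂ (LaurentSeries ℂ)) {S : Set (LaurentSeries ℂ)}
  (hS : ∀ s ∈ S, s ∈ qAlg (RingHom.id ℂ)) (hF : F = IntermediateField.adjoin ℂ S)

include hS in
/-- Germs of the translates of the functions of the elements of `ℂ[S]`. -/
theorem hasGerm_holFun_genAlg (h : ℕ)
    (hgerm : ∀ s (hs : s ∈ S) (g : SL(2, ℤ)),
      HasGerm (h : ℝ) (fun τ => qFun (RingHom.id ℂ) ⟨s, hS s hs⟩ (g • τ)))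
    (a : genAlg F S) (g : SL(2, ℤ)) :
    HasGerm (h : ℝ)
      (fun τ => holFun (RingHom.id ℂ) F ⟨a, genAlg_le_holAlg F hS a.2⟩ (g • τ)) :=
  holFun_genAlg_induction (RingHom.id ℂ) F hS
    (fun f => ∀ g : SL(2, ℤ), HasGerm (h : ℝ) (fun τ => f (g • τ)))
    (fun c _ => hasGerm_const (h : ℝ) c)
    (fun _ _ hf hg g => (hf g).add (hg g)) (fun _ _ hf hg g => (hf g).mul (hg g)) hgerm a g

include hS hF in
/-- Germs of the translates of the functions of all the elements of `holAlg`. -/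
theorem hasGerm_holFun (h : ℕ) [NeZero h]
    (hgerm : ∀ s (hs : s ∈ S) (g : SL(2, ℤ)),
      HasGerm (h : ℝ) (fun τ => qFun (RingHom.id ℂ) ⟨s, hS s hs⟩ (g • τ)))
    (a : holAlg (RingHom.id ℂ) F) (g : SL(2, ℤ)) :
    HasGerm (h : ℝ) (fun τ => holFun (RingHom.id ℂ) F a (g • τ)) := by
  obtain ⟨c, b, hb, hab⟩ := exists_genAlg_frac F hF (a : F)
  set b' : holAlg (RingHom.id ℂ) F := ⟨b, genAlg_le_holAlg F hS b.2⟩ with hb'
  set c' : holAlg (RingHom.id ℂ) F := ⟨c, genAlg_le_holAlg F hS c.2⟩ with hc'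
  have hmul : a * b' = c' := Subtype.ext hab
  have hfun : holFun (RingHom.id ℂ) F a * holFun (RingHom.id ℂ) F b'
      = holFun (RingHom.id ℂ) F c' := by
    rw [← map_mul, hmul]
  have hb0 : b' ≠ 0 := by
    intro h0
    exact hb (Subtype.ext (congrArg (fun z : holAlg (RingHom.id ℂ) F => (z : F)) h0))
  have hbf : holFun (RingHom.id ℂ) F b' ≠ 0 := holFun_ne_zero (RingHom.id ℂ) F hb0
  refine HasGerm.of_mul_eq (fc := fun τ => holFun (RingHom.id ℂ) F b' (g • τ))
    (fb := fun τ => holFun (RingHom.id ℂ) F c' (g • τ))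
    (mdifferentiable_comp_smul g (mdiff_holFun (RingHom.id ℂ) F b')) ?_ ?_
    (hasGerm_holFun_genAlg F hS h hgerm c g) (hasGerm_holFun_genAlg F hS h hgerm b g)
  · intro h0
    apply hbf
    funext τ
    have := congrFun h0 (g⁻¹ • τ)
    simpa only [smul_inv_smul, Pi.zero_apply] using this
  · intro τ
    have := congrFun hfun (g • τ)
    simpa only [Pi.mul_apply] using this

include hS hF in
/-- **The complex evaluation datum of a field generated by `q`-expansions of holomorphic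
functions**: the canonical pair `(holAlg id F, holFun id F)`. -/
theorem evalC_of_gen (Γ : Subgroup SL(2, ℤ)) (h : ℕ) [NeZero h] (jF : F)
    (hj : HasQ 1 helper288.jFn ((jF : F) : LaurentSeries ℂ))
    (hinv : ∀ γ ∈ Γ, ∀ s (hs : s ∈ S) (τ : ℍ),
      qFun (RingHom.id ℂ) ⟨s, hS s hs⟩ (γ • τ) = qFun (RingHom.id ℂ) ⟨s, hS s hs⟩ τ)
    (level : ∀ g : SL(2, ℤ), g⁻¹ * ModularGroup.T ^ h * g ∈ Γ)
    (hgerm : ∀ s (hs : s ∈ S) (g : SL(2, ℤ)),
      HasGerm (h : ℝ) (fun τ => qFun (RingHom.id ℂ) ⟨s, hS s hs⟩ (g • τ))) :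
    EvalC Γ h jF (holAlg (RingHom.id ℂ) F) (holFun (RingHom.id ℂ) F) where
  frac := exists_holAlg_frac (RingHom.id ℂ) F hS hF
  inj := holFun_injective (RingHom.id ℂ) F
  hol := mdiff_holFun (RingHom.id ℂ) F
  const := holFun_algebraMap (RingHom.id ℂ) F
  j_mem := ⟨helper288.jFn, by rw [coeffMap_id]; exact hj⟩
  j_eval := holFun_eq (RingHom.id ℂ) F (by rw [coeffMap_id]; exact hj)
  inv := fun γ hγ a τ => holFun_smul_of_gen (RingHom.id ℂ) F hS hF γ (hinv γ hγ) a τ
  level := level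
  germ := fun g a => hasGerm_holFun F hS hF h hgerm a g

/-- (`hser`) The function of an element of `holAlg id F` has that element as `q`-expansion. -/
theorem hasQ_holFun_id (a : holAlg (RingHom.id ℂ) F) :
    HasQ 1 (holFun (RingHom.id ℂ) F a) (((a : F) : LaurentSeries ℂ)) := by
  have h := holFun_spec (RingHom.id ℂ) F a
  rwa [coeffMap_id] at h

/-- **The evaluation is the analytic one**: `evMer` of an evaluation datum on the canonical pair
sends a series of `F` which is the `q`-expansion of a holomorphic function `f` to `f`. -/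
theorem EvalC.evMer_eq_of_hasQ {Γ : Subgroup SL(2, ℤ)} {h : ℕ} {jF : F}
    (hC : EvalC Γ h jF (holAlg (RingHom.id ℂ) F) (holFun (RingHom.id ℂ) F)) (x : F) (f : Hol)
    (hf : HasQ 1 (f : ℍ → ℂ) ((x : F) : LaurentSeries ℂ)) :
    hC.evMer x = algebraMap Hol Mer f := by
  have hx : x ∈ holAlg (RingHom.id ℂ) F := ⟨(f : ℍ → ℂ), by rw [coeffMap_id]; exact hf⟩
  have h1 := hC.evMer_coe ⟨x, hx⟩
  rw [h1]
  congr 1
  refine Subtype.ext ?_
  show holFun (RingHom.id ℂ) F ⟨x, hx⟩ = (f : ℍ → ℂ)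
  exact holFun_eq (RingHom.id ℂ) F (by rw [coeffMap_id]; exact hf)

include hS hF in
/-- **The two evaluations agree**: `evMer` of an evaluation datum on the canonical pair is the
evaluation `helper5047.evMerC` of the field generated by `S`. -/
theorem EvalC.evMer_eq_evMerC {Γ : Subgroup SL(2, ℤ)} {h : ℕ} {jF : F}
    (hC : EvalC Γ h jF (holAlg (RingHom.id ℂ) F) (holFun (RingHom.id ℂ) F)) :
    hC.evMer = evMerC F hS hF := by
  have key : ∀ a : holAlg (RingHom.id ℂ) F, hC.evMer (a : F) = evMerC F hS hF (a : F) := by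
    intro a
    rw [hC.evMer_coe a, evMerC_apply, helper5047.evMer_coe (RingHom.id ℂ) F hS hF a]
    rfl
  refine AlgHom.ext fun x => ?_
  obtain ⟨a, b, hb, hx⟩ := hC.frac x
  have hb' : (b : F) ≠ 0 := fun h0 => hb (Subtype.ext h0)
  have h1 : hC.evMer x * hC.evMer (b : F) = hC.evMer (a : F) := by rw [← map_mul, hx]
  have h2 : evMerC F hS hF x * evMerC F hS hF (b : F) = evMerC F hS hF (a : F) := by
    rw [← map_mul, hx]
  have h3 : evMerC F hS hF (b : F) ≠ 0 := (map_ne_zero (evMerC F hS hF)).mpr hb'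
  rw [key a, key b, ← h2] at h1
  exact mul_right_cancel₀ h3 h1

end Gen

/-! ## The generators of the `Γ₁(M)` field -/

section Gamma1

variable (M : ℕ) [NeZero M]

omit [NeZero M] in
/-- The conjugates of `T ^ M` lie in `Γ₁(M)`. -/
theorem conj_T_pow_mem_Gamma1' (g : SL(2, ℤ)) : g⁻¹ * ModularGroup.T ^ M * g ∈ Gamma1 M := by
  have h1 : ModularGroup.T ^ M ∈ Gamma M := by
    have := CongruenceSubgroup.ModularGroup_T_pow_mem_Gamma (M : ℤ) (M : ℤ) dvd_rfl
    simpa using this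
  have h2 : g⁻¹ * ModularGroup.T ^ M * g⁻¹⁻¹ ∈ Gamma M :=
    (CongruenceSubgroup.Gamma_normal M).conj_mem _ h1 g⁻¹
  rw [inv_inv, Gamma_mem] at h2
  rw [Gamma1_mem]
  exact ⟨h2.1, h2.2.2.2, h2.2.2.1⟩

variable {K : Type*} [Field K] (i0 : K →+* ℂ)

/-- **The functions of the generators of the `Γ₁(M)` field are generator functions.** -/
theorem isGenFun_qFun_g1Set {s : LaurentSeries K} (hs : s ∈ g1Set K M) :
    IsGenFun M (qFun i0 ⟨s, g1Set_subset_qAlg i0 M s hs⟩) := by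
  rcases qFun_g1Set_cases i0 M hs with ⟨d, h1, h2, h⟩ | ⟨a, b, -, -, h⟩ |
    ⟨a, b, c, e, -, -, hc, he, hsub, hadd, h⟩
  · rw [h]; exact Or.inl ⟨d, h1, h2, rfl⟩
  · rw [h]; exact Or.inr (Or.inl ⟨a, b, rfl⟩)
  · rw [h]; exact Or.inr (Or.inr ⟨a, b, c, e, hc, he, hsub, hadd, rfl⟩)

/-- **Germs at all cusps of the functions of the generators of the `Γ₁(M)` field.** -/
theorem hasGerm_qFun_g1Set {s : LaurentSeries K} (hs : s ∈ g1Set K M) (g : SL(2, ℤ)) :
    HasGerm (M : ℝ) (fun τ => qFun i0 ⟨s, g1Set_subset_qAlg i0 M s hs⟩ (g • τ)) :=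
  (isGenFun_qFun_g1Set M i0 hs).hasGerm_smul g

/-- The same, unfolded. -/
theorem exists_germ_qFun_g1Set {s : LaurentSeries K} (hs : s ∈ g1Set K M) (g : SL(2, ℤ)) :
    ∃ H : ℂ → ℂ, MeromorphicAt H 0 ∧ ∀ᶠ τ : ℍ in atImInfty,
      qFun i0 ⟨s, g1Set_subset_qAlg i0 M s hs⟩ (g • τ)
        = H (Function.Periodic.qParam (M : ℝ) (τ : ℂ)) :=
  hasGerm_qFun_g1Set M i0 hs g

/-- **Exponential growth at all cusps of the functions of the generators of the `Γ₁(M)`
field.** -/
theorem hasExpGrowth_qFun_g1Set {s : LaurentSeries K} (hs : s ∈ g1Set K M) (g : SL(2, ℤ)) :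
    helper167.HasExpGrowth (fun τ => qFun i0 ⟨s, g1Set_subset_qAlg i0 M s hs⟩ (g • τ)) :=
  (isGenFun_qFun_g1Set M i0 hs).hasExpGrowth_smul g

/-- `j` has the `q`-expansion `jqModC ℂ`. -/
theorem hasQ_jFn_jqModC : HasQ 1 helper288.jFn (jqModC ℂ) :=
  Fermat.Agent.S48.helper1704.hasQ_jFun

/-- `j` has the `q`-expansion `coeffEmb ℂ jq`. -/
theorem hasQ_jFn_coeffEmb : HasQ 1 helper288.jFn (coeffEmb ℂ jq) := by
  have h : coeffEmb ℂ jq = jqModC ℂ := Fermat.Agent.S48.helper1704.coeffMap_jq_eq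
  rw [h]
  exact hasQ_jFn_jqModC

/-- **The complex evaluation datum of the `Γ₁(M)` field** `gamma1Field ℂ M`, for every subgroup
`Γ ≤ ±Γ₁(M)` containing the conjugates of `T ^ M` (e.g. `Γ₁(M)`, `±Γ₁(M)`, `Γ(M)`). -/
theorem evalC_gamma1Field (Γ : Subgroup SL(2, ℤ))
    (hΓ : ∀ γ ∈ Γ, γ ∈ Gamma1 M ∨ -γ ∈ Gamma1 M)
    (level : ∀ g : SL(2, ℤ), g⁻¹ * ModularGroup.T ^ M * g ∈ Γ) :
    EvalC Γ M (⟨jqModC ℂ, Fermat.Agent.S48.helper7300.jqModC_mem_gamma1FieldP ℂ
        Fermat.Agent.S48.helper7300.phiZ M⟩ : Fermat.Agent.S48.helper7300.gamma1Field ℂ M)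
      (holAlg (RingHom.id ℂ) (Fermat.Agent.S48.helper7300.gamma1Field ℂ M))
      (holFun (RingHom.id ℂ) (Fermat.Agent.S48.helper7300.gamma1Field ℂ M)) :=
  evalC_of_gen (Fermat.Agent.S48.helper7300.gamma1Field ℂ M)
    (g1Set_subset_qAlg (RingHom.id ℂ) M) (gamma1Field_eq_adjoin ℂ M) Γ M _ hasQ_jFn_jqModC
    (fun γ hγ s hs τ => qFun_g1Set_smul (RingHom.id ℂ) M (hΓ γ hγ) s hs τ) level
    (fun _ hs g => hasGerm_qFun_g1Set M (RingHom.id ℂ) hs g)

/-! ## The base-change carrier -/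

section BaseChange

variable {F₀ : IntermediateField ℚ (LaurentSeries ℚ)} (hj : jq ∈ F₀)
  (hF₀ : laurentBaseChange ℂ F₀ = Fermat.Agent.S48.helper7300.gamma1Field ℂ M)

include hF₀ in
/-- **The complex evaluation datum of the `Γ₁(M)` machine**: for a rational form `F₀` of the
`Γ₁(M)` field (`laurentBaseChange ℂ F₀ = gamma1Field ℂ M`), the canonical pair
`(holAlg id FC, holFun id FC)` on `FC = laurentBaseChange ℂ F₀`, with `j = helper8395.jL`. -/
theorem evalC_baseChange (Γ : Subgroup SL(2, ℤ))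
    (hΓ : ∀ γ ∈ Γ, γ ∈ Gamma1 M ∨ -γ ∈ Gamma1 M)
    (level : ∀ g : SL(2, ℤ), g⁻¹ * ModularGroup.T ^ M * g ∈ Γ) :
    EvalC Γ M (Fermat.Agent.S29.helper8395.jL ℂ F₀ hj)
      (holAlg (RingHom.id ℂ) (laurentBaseChange ℂ F₀))
      (holFun (RingHom.id ℂ) (laurentBaseChange ℂ F₀)) :=
  evalC_of_gen (laurentBaseChange ℂ F₀) (g1Set_subset_qAlg (RingHom.id ℂ) M)
    (hF₀.trans (gamma1Field_eq_adjoin ℂ M)) Γ M _ hasQ_jFn_coeffEmb
    (fun γ hγ s hs τ => qFun_g1Set_smul (RingHom.id ℂ) M (hΓ γ hγ) s hs τ) level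
    (fun _ hs g => hasGerm_qFun_g1Set M (RingHom.id ℂ) hs g)

include hF₀ in
/-- The datum for `Γ₁(M)` itself. -/
theorem evalC_baseChange_Gamma1 :
    EvalC (Gamma1 M) M (Fermat.Agent.S29.helper8395.jL ℂ F₀ hj)
      (holAlg (RingHom.id ℂ) (laurentBaseChange ℂ F₀))
      (holFun (RingHom.id ℂ) (laurentBaseChange ℂ F₀)) :=
  evalC_baseChange M hj hF₀ (Gamma1 M) (fun _ hγ => Or.inl hγ) (conj_T_pow_mem_Gamma1' M)

/-- (`hcompat`) The evaluation of the datum at a series of `FC` which is the `q`-expansion of a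
holomorphic function. -/
theorem evMer_baseChange_eq_of_hasQ {Γ : Subgroup SL(2, ℤ)} {h : ℕ}
    {jC : laurentBaseChange ℂ F₀}
    (hC : EvalC Γ h jC (holAlg (RingHom.id ℂ) (laurentBaseChange ℂ F₀))
      (holFun (RingHom.id ℂ) (laurentBaseChange ℂ F₀)))
    (x : laurentBaseChange ℂ F₀) (f : ℍ → ℂ) (hf : MDiff f)
    (hq : HasQ 1 f ((x : laurentBaseChange ℂ F₀) : LaurentSeries ℂ)) :
    hC.evMer x = algebraMap Hol Mer ⟨f, hf⟩ :=
  EvalC.evMer_eq_of_hasQ (laurentBaseChange ℂ F₀) hC x ⟨f, hf⟩ hq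

end BaseChange

end Gamma1

end Fermat.Agent.S48.helper1002
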