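/-
S48-M1-MODEL, part A (helper1267): DESCENT OF FRACTIONS OF SERIES WITH FINITELY GENERATED
COEFFICIENTS along an algebraic extension of coefficient fields.

`IsFgFrac x` : `x = r / s` with `r, s` Laurent series whose coefficients lie in a finitely
generated `ℤ`-module (`helper8991.fgCoeff`), `s ≠ 0`.

* closure properties (`add`, `mul`, `inv`, constants) and `isFgFrac_of_mem_adjoin`;
* `IsFgFrac.isNormalizable` : a nonzero fraction is normalisable (`helper8991.IsNormalizable`)
  for EVERY valuation subring of the coefficient field (no discreteness);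
* `IsFgFrac.descent` : if `K ⊆ L` is algebraic (`L` algebraically closed, `char K = 0`) and a
  series `x0` over `K` is a fraction over `L`, then it is a fraction over `K`
  (trace argument: sum over the `K`-embeddings of a finite level).
-/
import Mathlib
import Fermat.Agent.S18.helper8991_GaussInst
import Fermat.Agent.S18.helper4661_NFDescent

set_option autoImplicit false
set_option linter.style.haveILetI false

open HahnSeries ModularCurve

namespace Fermat.Agent.S48.helper1267

open Fermat.Agent.S18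

noncomputable section

section Frac

variable {L : Type*} [Field L]

/-- A Laurent series which is a fraction of two series with finitely generated coefficients. -/
def IsFgFrac (x : LaurentSeries L) : Prop :=
  ∃ r s : LaurentSeries L, r ∈ helper8991.fgCoeff L ∧ s ∈ helper8991.fgCoeff L ∧ s ≠ 0 ∧
    s * x = r

theorem IsFgFrac.of_mem {x : LaurentSeries L} (hx : x ∈ helper8991.fgCoeff L) : IsFgFrac x :=
  ⟨x, 1, hx, one_mem _, one_ne_zero, one_mul x⟩

theorem IsFgFrac.zero : IsFgFrac (0 : LaurentSeries L) := IsFgFrac.of_mem (zero_mem _)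

theorem IsFgFrac.one : IsFgFrac (1 : LaurentSeries L) := IsFgFrac.of_mem (one_mem _)

theorem IsFgFrac.const (c : L) : IsFgFrac (algebraMap L (LaurentSeries L) c) :=
  IsFgFrac.of_mem (Subalgebra.algebraMap_mem _ c)

theorem IsFgFrac.add {x y : LaurentSeries L} (hx : IsFgFrac x) (hy : IsFgFrac y) :
    IsFgFrac (x + y) := by
  obtain ⟨r, s, hr, hs, hs0, h⟩ := hx
  obtain ⟨r', s', hr', hs', hs0', h'⟩ := hy
  refine ⟨r * s' + r' * s, s * s', add_mem (mul_mem hr hs') (mul_mem hr' hs), mul_mem hs hs',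
    mul_ne_zero hs0 hs0', ?_⟩
  rw [← h, ← h']; ring

theorem IsFgFrac.mul {x y : LaurentSeries L} (hx : IsFgFrac x) (hy : IsFgFrac y) :
    IsFgFrac (x * y) := by
  obtain ⟨r, s, hr, hs, hs0, h⟩ := hx
  obtain ⟨r', s', hr', hs', hs0', h'⟩ := hy
  refine ⟨r * r', s * s', mul_mem hr hr', mul_mem hs hs', mul_ne_zero hs0 hs0', ?_⟩
  rw [← h, ← h']; ring

theorem IsFgFrac.neg {x : LaurentSeries L} (hx : IsFgFrac x) : IsFgFrac (-x) := by
  obtain ⟨r, s, hr, hs, hs0, h⟩ := hx
  exact ⟨-r, s, neg_mem hr, hs, hs0, by rw [← h]; ring⟩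

theorem IsFgFrac.inv {x : LaurentSeries L} (hx : IsFgFrac x) : IsFgFrac x⁻¹ := by
  by_cases hx0 : x = 0
  · rw [hx0, inv_zero]; exact IsFgFrac.zero
  obtain ⟨r, s, hr, hs, hs0, h⟩ := hx
  have hr0 : r ≠ 0 := by rw [← h]; exact mul_ne_zero hs0 hx0
  refine ⟨s, r, hs, hr, hr0, ?_⟩
  rw [← h, mul_assoc, mul_inv_cancel₀ hx0, mul_one]

theorem IsFgFrac.div {x y : LaurentSeries L} (hx : IsFgFrac x) (hy : IsFgFrac y) :
    IsFgFrac (x / y) := by
  rw [div_eq_mul_inv]; exact hx.mul hy.inv

/-- Every element of a field generated over `L` by fractions of series with finitely generated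
coefficients is such a fraction. -/
theorem isFgFrac_of_mem_adjoin {S : Set (LaurentSeries L)} (hS : ∀ x ∈ S, IsFgFrac x)
    {f : LaurentSeries L} (hf : f ∈ IntermediateField.adjoin L S) : IsFgFrac f := by
  induction hf using IntermediateField.adjoin_induction with
  | mem x hx => exact hS x hx
  | algebraMap c => exact IsFgFrac.const c
  | add x y _ _ hx hy => exact hx.add hy
  | inv x _ hx => exact hx.inv
  | mul x y _ _ hx hy => exact hx.mul hy

/-- A nonzero fraction of series with finitely generated coefficients is normalisable with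
respect to EVERY valuation subring of the coefficient field. -/
theorem IsFgFrac.isNormalizable (A : ValuationSubring L) {k : Type*} [Field k] (π : A →+* k)
    {f : LaurentSeries L} (hf : IsFgFrac f) (hf0 : f ≠ 0) : helper8991.IsNormalizable A π f := by
  obtain ⟨r, s, hr, hs, hs0, hrel⟩ := hf
  have hr0 : r ≠ 0 := by rw [← hrel]; exact mul_ne_zero hs0 hf0
  obtain ⟨c₁, X, hc₁, hX, hrX⟩ := helper8991.exists_normalize A π hr hr0
  obtain ⟨c₂, Y, hc₂, hY, hsY⟩ := helper8991.exists_normalize A π hs hs0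
  refine ⟨c₂⁻¹ * c₁, X, Y, mul_ne_zero (inv_ne_zero hc₂) hc₁, hX, hY, ?_⟩
  have h1 : helper8991.inc A Y = HahnSeries.C c₂⁻¹ * s := by
    rw [hsY, helper8991.C_inv_mul_C_mul hc₂]
  rw [h1, map_mul, mul_assoc, ← hrX, ← hrel]
  ring

end Frac

section Descent

variable {K L : Type*} [Field K] [Field L] [Algebra K L] [Algebra.IsAlgebraic K L] [CharZero K]
  [IsAlgClosed L]

/-- **Descent of fractions.**  A Laurent series over `K` which over an algebraic closure-like
extension `L` is a fraction of series with finitely generated coefficients is already such a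
fraction over `K`. -/
theorem IsFgFrac.descent (x0 : LaurentSeries K)
    (h : IsFgFrac (coeffMap (algebraMap K L) x0)) : IsFgFrac x0 := by
  classical
  obtain ⟨r, s, ⟨Mr, hMr, hr⟩, ⟨Ms, hMs, hs⟩, hs0, hrel⟩ := h
  obtain ⟨Tr, hTr⟩ := hMr
  obtain ⟨Ts, hTs⟩ := hMs
  -- the finite level
  let K1 : IntermediateField K L := IntermediateField.adjoin K ((Tr ∪ Ts : Finset L) : Set L)
  haveI : FiniteDimensional K K1 :=
    IntermediateField.finiteDimensional_adjoin (fun x _ => Algebra.IsIntegral.isIntegral x)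
  have hMK : ∀ c ∈ Mr ⊔ Ms, c ∈ K1 := by
    intro c hc
    have hle : Mr ⊔ Ms ≤ (K1.toSubalgebra.toSubmodule.restrictScalars ℤ) := by
      rw [← hTr, ← hTs, ← Submodule.span_union]
      refine Submodule.span_le.mpr fun y hy => ?_
      exact IntermediateField.subset_adjoin K _ (by simpa using hy)
    exact hle hc
  have hcoef : ∀ P : LaurentSeries L, (∀ n, P.coeff n ∈ Mr ⊔ Ms) →
      ∃ P1 : LaurentSeries K1, coeffMap (algebraMap K1 L) P1 = P := fun P hP =>
    helper4661.exists_coeffMap_eq _ P (fun n => ⟨⟨P.coeff n, hMK _ (hP n)⟩, rfl⟩)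
  obtain ⟨r1, hr1⟩ := hcoef r (fun n => Submodule.mem_sup_left (hr n))
  obtain ⟨s1, hs1⟩ := hcoef s (fun n => Submodule.mem_sup_right (hs n))
  set x1 : LaurentSeries K1 := coeffMap (algebraMap K K1) x0 with hx1def
  have hx1 : coeffMap (algebraMap K1 L) x1 = coeffMap (algebraMap K L) x0 := by
    rw [hx1def, coeffMap_coeffMap]
    exact coeffMap_congr (RingHom.ext fun _ => rfl) _
  have hrel1 : s1 * x1 = r1 := by
    apply helper4661.coeffMap_injective (algebraMap K1 L).injective
    rw [map_mul, hs1, hx1, hr1]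
    exact hrel
  have hs10 : s1 ≠ 0 := by
    rintro rfl
    exact hs0 (by rw [← hs1, map_zero])
  obtain ⟨i, hi⟩ : ∃ i, s1.coeff i ≠ 0 := by
    by_contra hcon
    exact hs10 (HahnSeries.ext (funext fun n => by_contra fun hn => hcon ⟨n, hn⟩))
  set c : K1 := (s1.coeff i)⁻¹ with hc
  -- the sums over the embeddings
  set S' : LaurentSeries L :=
    ∑ σ : K1 →ₐ[K] L, coeffMap (σ : K1 →+* L) (HahnSeries.C c * s1) with hS'
  set R' : LaurentSeries L :=
    ∑ σ : K1 →ₐ[K] L, coeffMap (σ : K1 →+* L) (HahnSeries.C c * r1) with hR'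
  have hrel' : S' * coeffMap (algebraMap K L) x0 = R' := by
    rw [hS', hR', Finset.sum_mul]
    refine Finset.sum_congr rfl fun σ _ => ?_
    have hσ : coeffMap (σ : K1 →+* L) x1 = coeffMap (algebraMap K L) x0 := by
      rw [hx1def, coeffMap_coeffMap]
      exact coeffMap_congr (RingHom.ext fun a => σ.commutes a) _
    rw [← hσ, ← map_mul, mul_assoc, hrel1]
  have hcoeffsum : ∀ (P : LaurentSeries K1) (n : ℤ),
      (∑ σ : K1 →ₐ[K] L, coeffMap (σ : K1 →+* L) (HahnSeries.C c * P)).coeff n =
        algebraMap K L (Algebra.trace K K1 (c * P.coeff n)) := by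
    intro P n
    rw [trace_eq_sum_embeddings L, HahnSeries.coeff_sum]
    refine Finset.sum_congr rfl fun σ _ => ?_
    rw [coeffMap_coeff, helper8991.coeff_C_mul]
    rfl
  obtain ⟨S0, hS0⟩ := helper4661.exists_coeffMap_eq (algebraMap K L) S'
    (fun n => ⟨_, (hcoeffsum s1 n).symm⟩)
  obtain ⟨R0, hR0⟩ := helper4661.exists_coeffMap_eq (algebraMap K L) R'
    (fun n => ⟨_, (hcoeffsum r1 n).symm⟩)
  have hS0c : ∀ n, S0.coeff n = Algebra.trace K K1 (c * s1.coeff n) := by
    intro n
    apply (algebraMap K L).injective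
    rw [← hcoeffsum s1 n, ← hS', ← hS0, coeffMap_coeff]
  have hR0c : ∀ n, R0.coeff n = Algebra.trace K K1 (c * r1.coeff n) := by
    intro n
    apply (algebraMap K L).injective
    rw [← hcoeffsum r1 n, ← hR', ← hR0, coeffMap_coeff]
  -- the module of coefficients at level `K`
  let ι1 : K1 →ₗ[ℤ] L := (algebraMap K1 L).toAddMonoidHom.toIntLinearMap
  let M1 : Submodule ℤ K1 := (Mr ⊔ Ms).comap ι1
  have hM1fg : M1.FG := by
    have hfg : (Mr ⊔ Ms).FG := Submodule.FG.sup ⟨Tr, hTr⟩ ⟨Ts, hTs⟩
    haveI : Module.Finite ℤ ↥(Mr ⊔ Ms) := Module.Finite.iff_fg.mpr hfg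
    let g : ↥M1 →ₗ[ℤ] ↥(Mr ⊔ Ms) := (ι1.domRestrict M1).codRestrict (Mr ⊔ Ms) (fun x => x.2)
    have hg : Function.Injective g := by
      intro a b hab
      apply Subtype.ext
      apply (algebraMap K1 L).injective
      have h1 : ((g a : ↥(Mr ⊔ Ms)) : L) = ((g b : ↥(Mr ⊔ Ms)) : L) := congrArg Subtype.val hab
      exact h1
    haveI : Module.Finite ℤ ↥M1 := Module.Finite.of_injective g hg
    exact Module.Finite.iff_fg.mp inferInstance
  let lam : K1 →ₗ[ℤ] K :=
    ((Algebra.trace K K1).toAddMonoidHom.comp (AddMonoidHom.mulLeft c)).toIntLinearMap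
  have hlam : ∀ a : K1, lam a = Algebra.trace K K1 (c * a) := fun a => rfl
  have hmem : ∀ (P1 : LaurentSeries K1), (∀ n, (algebraMap K1 L) (P1.coeff n) ∈ Mr ⊔ Ms) →
      ∀ n, Algebra.trace K K1 (c * P1.coeff n) ∈ M1.map lam := fun P1 hP1 n =>
    ⟨P1.coeff n, hP1 n, hlam _⟩
  have hS0mem : S0 ∈ helper8991.fgCoeff K := by
    refine ⟨M1.map lam, hM1fg.map lam, fun n => ?_⟩
    rw [hS0c]
    refine hmem s1 (fun n => ?_) n
    rw [← coeffMap_coeff, hs1]
    exact Submodule.mem_sup_right (hs n)
  have hR0mem : R0 ∈ helper8991.fgCoeff K := by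
    refine ⟨M1.map lam, hM1fg.map lam, fun n => ?_⟩
    rw [hR0c]
    refine hmem r1 (fun n => ?_) n
    rw [← coeffMap_coeff, hr1]
    exact Submodule.mem_sup_left (hr n)
  have hS00 : S0 ≠ 0 := by
    intro h0
    have h1 := hS0c i
    rw [h0, HahnSeries.coeff_zero, hc, inv_mul_cancel₀ hi] at h1
    have h2 : Algebra.trace K K1 (1 : K1) = (Module.finrank K K1 : K) := by
      rw [← map_one (algebraMap K K1), Algebra.trace_algebraMap]
      simp
    rw [h2] at h1
    have h3 : Module.finrank K K1 ≠ 0 := Module.finrank_pos.ne'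
    exact h3 (by exact_mod_cast h1.symm)
  refine ⟨R0, S0, hR0mem, hS0mem, hS00, ?_⟩
  apply helper4661.coeffMap_injective (algebraMap K L).injective
  rw [map_mul, hS0, hR0]
  exact hrel'

end Descent

end

end Fermat.Agent.S48.helper1267
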