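/-
S48-M1-MODEL (helper1267): THE NUMBER-FIELD LAYER MODEL for an arbitrary `ℚ`-form
`F₁ : IntermediateField ℚ (LaurentSeries ℚ)` above the level-`M` modular function field
(the `Γ₁(M)` field of the machine half), on top of the landed `F_M` model
`Fermat.Agent.S18.helper1267` (`S18/helper1267_ModelBase`).

* LEVEL/TOWER: `ELevel F₁ K0 = K0 · F₁ ⊆ K0((q))`, `EBar F₁ = ℚ̄ · F₁`, the inclusions
  `levelIncl1`, `towerIncl`, the algebra structures `algAE`, `algTower`, `algLevelAmb1`.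
* GAUSS: `gaussLayer` = the `q`-expansion Gauss valuation subring of `ELevel F₁ K0`
  (`helper8991.gaussSubring` at the valuation ring `A ∩ K0`), defined as soon as the elements
  of `ℚ̄ · F₁` are fractions of series with finitely generated coefficients (`IsFgFrac`,
  descended to `K0` by `IsFgFrac.descent`); `gaussLayer_comap` (it restricts to the landed
  Gauss ring `OLevel` of `F_M`), the four coefficientwise `GaussData` clauses, and the Kummer
  facts `U ∈ O'`, `U⁻¹ ∈ O'`, `h ^ m - U ∈ O'.nonunits`.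
* MODEL: `model1` (`mkKData` over the layer) with `model1_good`, `model1_gen`.
-/
import Mathlib
import Fermat.Agent.S18.helper1267_ModelBase
import Fermat.Agent.S18.helper508_GaussBridge
import Fermat.Agent.S18.helper8991_GaussInst
import Fermat.Agent.S48.helper1267_FgDescent

set_option autoImplicit false
set_option synthInstance.maxHeartbeats 400000
set_option linter.style.haveILetI false

open Polynomial IntermediateField ModularCurve

namespace Fermat.Agent.S48.helper1267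

open Fermat.Agent.S18 Fermat.Agent.S18.helper3578 Fermat.Agent.S18.helper1267
open Fermat.Agent.Lib

noncomputable section

local notation "Qb" => AlgebraicClosure ℚ

/-! ## The level fields -/

section Level

/-- Monotonicity of the base change of a `ℚ`-form. -/
theorem laurentBaseChange_le (L : Type*) [Field L] [Algebra ℚ L]
    {F₀ F₁ : IntermediateField ℚ (LaurentSeries ℚ)} (h : F₀ ≤ F₁) :
    laurentBaseChange L F₀ ≤ laurentBaseChange L F₁ :=
  IntermediateField.adjoin.mono _ _ _ (Set.image_mono h)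

variable (F₁ : IntermediateField ℚ (LaurentSeries ℚ)) (K0 : IntermediateField ℚ Qb)

/-- The layer field at the number-field level `K0`: `K0 · F₁ ⊆ K0((q))`. -/
abbrev ELevel : Type := ↥(laurentBaseChange ↥K0 F₁)

/-- The layer field over `ℚ̄`. -/
abbrev EBar : Type := ↥(laurentBaseChange Qb F₁)

/-- The ambient field of the Kummer extension of the layer. -/
abbrev Amb1 : Type := AlgebraicClosure (EBar F₁)

scoped instance (priority := 5000) scAlgKE : Algebra ↥K0 (ELevel F₁ K0) :=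
  SubalgebraClass.toAlgebra (laurentBaseChange (↥K0) F₁)

scoped instance (priority := 5000) scSMulKE : SMul ↥K0 (ELevel F₁ K0) :=
  (SubalgebraClass.toAlgebra (laurentBaseChange (↥K0) F₁)).toSMul

/-- The `A ∩ K0`-algebra structure of the layer field (the composite through `K0`; for
`F₁ = modularFunctionFieldFull N` this is `helper897.algAF`). -/
@[reducible] def algAE (A : ValuationSubring Qb) :
    Algebra ↥(helper4661.levelRing A K0) (ELevel F₁ K0) :=
  ((algebraMap ↥K0 (ELevel F₁ K0)).comp (helper4661.levelRing A K0).subtype).toAlgebra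

scoped instance (priority := 5000) scAlgAE (A : ValuationSubring Qb) :
    Algebra ↥(helper4661.levelRing A K0) (ELevel F₁ K0) := algAE F₁ K0 A

scoped instance (priority := 5000) scSMulAE (A : ValuationSubring Qb) :
    SMul ↥(helper4661.levelRing A K0) (ELevel F₁ K0) := (algAE F₁ K0 A).toSMul

theorem algAE_algebraMap (A : ValuationSubring Qb) (x : ↥(helper4661.levelRing A K0)) :
    algebraMap ↥(helper4661.levelRing A K0) (ELevel F₁ K0) x =
      algebraMap ↥K0 (ELevel F₁ K0) (x : ↥K0) := rfl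

/-- The tower `A ∩ K0 → K0 → E0`. -/
theorem isScalarTower_levelRing1 (A : ValuationSubring Qb) :
    IsScalarTower ↥(helper4661.levelRing A K0) ↥K0 (ELevel F₁ K0) :=
  IsScalarTower.of_algebraMap_eq (fun _ => rfl)

/-- The inclusion of the level-`K0` layer field into the layer field over `ℚ̄`. -/
def levelIncl1 : ELevel F₁ K0 →+* EBar F₁ where
  toFun x := ⟨coeffMap (algebraMap ↥K0 Qb) (x : LaurentSeries ↥K0),
    helper4661.coeffMap_mem_laurentBaseChange' _ _ x.2⟩
  map_one' := Subtype.ext (map_one _)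
  map_mul' _ _ := Subtype.ext (map_mul _ _ _)
  map_zero' := Subtype.ext (map_zero _)
  map_add' _ _ := Subtype.ext (map_add _ _ _)

theorem levelIncl1_coe (x : ELevel F₁ K0) :
    ((levelIncl1 F₁ K0 x : EBar F₁) : LaurentSeries Qb) =
      coeffMap (algebraMap ↥K0 Qb) (x : LaurentSeries ↥K0) := rfl

theorem levelIncl1_injective : Function.Injective (levelIncl1 F₁ K0) :=
  (levelIncl1 F₁ K0).injective

theorem levelIncl1_algebraMap (c : K0) :
    levelIncl1 F₁ K0 (algebraMap ↥K0 (ELevel F₁ K0) c) = algebraMap Qb (EBar F₁) (c : Qb) :=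
  Subtype.ext (helper4661.coeffMap_algebraMap' (algebraMap ↥K0 Qb) c)

/-- The image of `levelIncl1` is the `K0`-form `helper296.descentSubfield`. -/
theorem range_levelIncl1 :
    Set.range (levelIncl1 F₁ K0) = (helper296.descentSubfield Qb F₁ K0 : Set _) := by
  ext y
  rw [SetLike.mem_coe, helper296.mem_descentSubfield_iff, helper296.mem_descentField_iff]
  constructor
  · rintro ⟨x, rfl⟩
    exact ⟨x.1, x.2, rfl⟩
  · rintro ⟨x0, hx0, h⟩
    exact ⟨⟨x0, hx0⟩, Subtype.ext h⟩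

/-- The algebra structure of the ambient field over the level-`K0` layer field (through
`levelIncl1`).  Not an instance: it is supplied explicitly to `mkKData`. -/
@[reducible] def algLevelAmb1 : Algebra (ELevel F₁ K0) (Amb1 F₁) :=
  ((algebraMap (EBar F₁) (Amb1 F₁)).comp (levelIncl1 F₁ K0)).toAlgebra

theorem algLevelAmb1_algebraMap (x : ELevel F₁ K0) :
    @algebraMap (ELevel F₁ K0) (Amb1 F₁) _ _ (algLevelAmb1 F₁ K0) x =
      algebraMap (EBar F₁) (Amb1 F₁) (levelIncl1 F₁ K0 x) := rfl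

/-- Constants: the two ways from `K0` to the ambient field agree. -/
theorem algLevelAmb1_algebraMap_const (c : K0) :
    @algebraMap (ELevel F₁ K0) (Amb1 F₁) _ _ (algLevelAmb1 F₁ K0)
        (algebraMap ↥K0 (ELevel F₁ K0) c) = algebraMap Qb (Amb1 F₁) (c : Qb) := by
  rw [algLevelAmb1_algebraMap, levelIncl1_algebraMap,
    ← IsScalarTower.algebraMap_apply Qb (EBar F₁) (Amb1 F₁)]

/-! ### The tower `K0 · F₀ ⊆ K0 · F₁` for two `ℚ`-forms `F₀ ≤ F₁`

Stated for an arbitrary `F₀` (for the machine: `F₀ = modularFunctionFieldFull M`, and then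
`ELevel F₀ K0` is `helper1267.FLevel M K0` on the nose). -/

variable (F₀ : IntermediateField ℚ (LaurentSeries ℚ)) (h01 : F₀ ≤ F₁)

/-- The inclusion `K0 · F₀ → K0 · F₁`. -/
def towerIncl : ELevel F₀ K0 →+* ELevel F₁ K0 where
  toFun x := ⟨(x : LaurentSeries ↥K0), laurentBaseChange_le ↥K0 h01 x.2⟩
  map_one' := rfl
  map_mul' _ _ := rfl
  map_zero' := rfl
  map_add' _ _ := rfl

theorem towerIncl_coe (x : ELevel F₀ K0) :
    ((towerIncl F₁ K0 F₀ h01 x : ELevel F₁ K0) : LaurentSeries ↥K0) = (x : LaurentSeries ↥K0) := by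
  cases x with
  | mk v hv => exact Eq.refl v

theorem towerIncl_injective : Function.Injective (towerIncl F₁ K0 F₀ h01) :=
  (towerIncl F₁ K0 F₀ h01).injective

/-- The algebra structure of `K0 · F₁` over `K0 · F₀`.  Not an instance (it depends on
`h01`). -/
@[reducible] def algTower : Algebra (ELevel F₀ K0) (ELevel F₁ K0) :=
  (towerIncl F₁ K0 F₀ h01).toAlgebra

theorem algTower_algebraMap (x : ELevel F₀ K0) :
    @algebraMap (ELevel F₀ K0) (ELevel F₁ K0) _ _ (algTower F₁ K0 F₀ h01) x =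
      towerIncl F₁ K0 F₀ h01 x := rfl

theorem towerIncl_algebraMap (c : K0) :
    towerIncl F₁ K0 F₀ h01 (algebraMap ↥K0 (ELevel F₀ K0) c) = algebraMap ↥K0 (ELevel F₁ K0) c :=
  Subtype.ext (by
    rw [towerIncl_coe, IntermediateField.coe_algebraMap_apply,
      IntermediateField.coe_algebraMap_apply])

theorem isScalarTower_tower_K :
    @IsScalarTower ↥K0 (ELevel F₀ K0) (ELevel F₁ K0) _ (algTower F₁ K0 F₀ h01).toSMul _ :=
  letI := algTower F₁ K0 F₀ h01
  IsScalarTower.of_algebraMap_eq (fun c => (towerIncl_algebraMap F₁ K0 F₀ h01 c).symm)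

theorem isScalarTower_tower_A (A : ValuationSubring Qb) :
    @IsScalarTower ↥(helper4661.levelRing A K0) (ELevel F₀ K0) (ELevel F₁ K0) _
      (algTower F₁ K0 F₀ h01).toSMul _ :=
  letI := algTower F₁ K0 F₀ h01
  IsScalarTower.of_algebraMap_eq (fun c => (towerIncl_algebraMap F₁ K0 F₀ h01 (c : ↥K0)).symm)

/-- Compatibility of the inclusions into the fields over `ℚ̄`. -/
theorem levelIncl1_towerIncl (x : ELevel F₀ K0) :
    ((levelIncl1 F₁ K0 (towerIncl F₁ K0 F₀ h01 x) : EBar F₁) : LaurentSeries Qb) =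
      ((levelIncl1 F₀ K0 x : EBar F₀) : LaurentSeries Qb) := by
  rw [levelIncl1_coe, levelIncl1_coe, towerIncl_coe]

/-- For the modular `ℚ`-form, `levelIncl1` is the landed `levelIncl`. -/
theorem levelIncl1_modular (N : ℕ) :
    levelIncl1 (modularFunctionFieldFull N) K0 = levelIncl N K0 := rfl

end Level

/-! ## The Gauss valuation subring of the layer -/

section Gauss

variable (F₁ : IntermediateField ℚ (LaurentSeries ℚ)) (K0 : IntermediateField ℚ Qb)
  (A : ValuationSubring Qb)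

/-- The hypothesis on the `ℚ`-form under which the `q`-expansion Gauss ring exists at every
level: every element of `ℚ̄ · F₁` is a fraction of series with finitely generated coefficients
(`isFgFrac_of_mem_adjoin`: it suffices to check generators of `ℚ̄ · F₁` over `ℚ̄`). -/
def FgForm : Prop := ∀ x ∈ laurentBaseChange Qb F₁, IsFgFrac x

variable {F₁} in
theorem FgForm.mono {F₀ : IntermediateField ℚ (LaurentSeries ℚ)} (h01 : F₀ ≤ F₁)
    (h : FgForm F₁) : FgForm F₀ :=
  fun x hx => h x (laurentBaseChange_le Qb h01 hx)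

/-- The modular `ℚ`-forms satisfy `FgForm`. -/
theorem fgForm_modular (N : ℕ) : FgForm (modularFunctionFieldFull N) := by
  intro x hx
  rw [helper8991.laurentBaseChange_full_eq] at hx
  exact isFgFrac_of_mem_adjoin
    (fun y hy => IsFgFrac.of_mem (helper8991.divisorExpansionsC_subset_fgCoeff N hy)) hx

variable {F₁} in
/-- Descent to the level `K0`: the elements of `K0 · F₁` are fractions over `K0`. -/
theorem FgForm.isFgFrac_level (hfg : FgForm F₁) {f : LaurentSeries ↥K0}
    (hf : f ∈ laurentBaseChange ↥K0 F₁) : IsFgFrac f := by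
  haveI : Algebra.IsAlgebraic ℚ Qb := helper296.isAlgebraic_rat_algebraicClosure
  haveI : Algebra.IsAlgebraic ↥K0 Qb := Algebra.IsAlgebraic.tower_top (K := ℚ) ↥K0
  exact IsFgFrac.descent f
    (hfg _ (helper4661.coeffMap_mem_laurentBaseChange' F₁ (algebraMap ↥K0 Qb) hf))

variable {F₁} in
theorem FgForm.isNormalizable_level (hfg : FgForm F₁) (f : LaurentSeries ↥K0)
    (hf : f ∈ laurentBaseChange ↥K0 F₁) (hf0 : f ≠ 0) :
    helper8991.IsNormalizable (helper4661.levelRing A K0)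
      (IsLocalRing.residue ↥(helper4661.levelRing A K0)) f :=
  (hfg.isFgFrac_level K0 hf).isNormalizable _ _ hf0

/-- **The `q`-expansion Gauss valuation subring of the layer field** `K0 · F₁` at the valuation
ring `A ∩ K0`: the elements `ι X / ι Y` with `X, Y ∈ (A ∩ K0)((q))`, `Y` of nonzero reduction. -/
def gaussLayer (hfg : FgForm F₁) : ValuationSubring (ELevel F₁ K0) :=
  helper8991.gaussSubring (helper4661.levelRing A K0)
    (IsLocalRing.residue ↥(helper4661.levelRing A K0)) (laurentBaseChange ↥K0 F₁)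
    (hfg.isNormalizable_level K0 A)

/-- The reduction map of the Gauss ring of the layer, with values in `k0((q))`. -/
def gaussLayerRed (hfg : FgForm F₁) :
    ↥(gaussLayer F₁ K0 A hfg) →+*
      LaurentSeries (IsLocalRing.ResidueField ↥(helper4661.levelRing A K0)) :=
  helper8991.gaussRed (helper4661.levelRing A K0)
    (IsLocalRing.residue ↥(helper4661.levelRing A K0)) (laurentBaseChange ↥K0 F₁)
    (hfg.isNormalizable_level K0 A)

theorem mem_gaussLayer_iff (hfg : FgForm F₁) (f : ELevel F₁ K0) :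
    f ∈ gaussLayer F₁ K0 A hfg ↔
      ∃ X Y : LaurentSeries ↥(helper4661.levelRing A K0),
        coeffMap (IsLocalRing.residue ↥(helper4661.levelRing A K0)) Y ≠ 0 ∧
        (f : LaurentSeries ↥K0) * coeffMap (helper4661.levelRing A K0).subtype Y =
          coeffMap (helper4661.levelRing A K0).subtype X := Iff.rfl

/-- An integral series lying in the layer field is in the Gauss ring. -/
theorem coeffMap_mem_gaussLayer (hfg : FgForm F₁)
    (y : LaurentSeries ↥(helper4661.levelRing A K0))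
    (hy : coeffMap (helper4661.levelRing A K0).subtype y ∈ laurentBaseChange ↥K0 F₁) :
    (⟨coeffMap (helper4661.levelRing A K0).subtype y, hy⟩ : ELevel F₁ K0) ∈
      gaussLayer F₁ K0 A hfg :=
  helper8991.inc_mem_gaussSubring _ _ _ _ hy

/-- ... and its reduction is the coefficientwise reduction. -/
theorem gaussLayerRed_coeffMap (hfg : FgForm F₁)
    (y : LaurentSeries ↥(helper4661.levelRing A K0))
    (hy : coeffMap (helper4661.levelRing A K0).subtype y ∈ laurentBaseChange ↥K0 F₁) :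
    gaussLayerRed F₁ K0 A hfg ⟨_, coeffMap_mem_gaussLayer F₁ K0 A hfg y hy⟩ =
      coeffMap (IsLocalRing.residue ↥(helper4661.levelRing A K0)) y :=
  helper8991.gaussRed_inc _ _ _ _ hy

theorem isUnit_iff_gaussLayerRed_ne_zero (hfg : FgForm F₁) (f : ↥(gaussLayer F₁ K0 A hfg)) :
    IsUnit f ↔ gaussLayerRed F₁ K0 A hfg f ≠ 0 :=
  helper8991.isUnit_iff_gaussRed_ne_zero _ _ _ _ f

theorem gaussLayerRed_eq_zero_iff (hfg : FgForm F₁) (f : ↥(gaussLayer F₁ K0 A hfg)) :
    gaussLayerRed F₁ K0 A hfg f = 0 ↔ f ∈ IsLocalRing.maximalIdeal ↥(gaussLayer F₁ K0 A hfg) :=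
  helper8991.gaussRed_eq_zero_iff _ _ _ _ f

/-- **The Gauss ring of the layer restricts to the Gauss ring of a smaller `ℚ`-form.** -/
theorem gaussLayer_comap_tower (F₀ : IntermediateField ℚ (LaurentSeries ℚ)) (h01 : F₀ ≤ F₁)
    (hfg : FgForm F₁) :
    (gaussLayer F₁ K0 A hfg).comap (towerIncl F₁ K0 F₀ h01) =
      gaussLayer F₀ K0 A (hfg.mono h01) := by
  ext f
  rw [ValuationSubring.mem_comap, mem_gaussLayer_iff, mem_gaussLayer_iff, towerIncl_coe]

/-- For the modular `ℚ`-form the Gauss ring of the layer is the landed Gauss ring `OLevel`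
(`= helper897.gaussO = helper508.gaussValuationSubring`). -/
theorem gaussLayer_modular (N : ℕ) [NeZero N] (ℓ : ℕ) [Fact ℓ.Prime] (hℓN : ¬ ℓ ∣ N)
    (hA : A.LiesOverPrime ℓ) (hfg : FgForm (modularFunctionFieldFull N)) :
    gaussLayer (modularFunctionFieldFull N) K0 A hfg = OLevel N K0 ℓ hℓN A hA :=
  helper508.gaussF_eq_gaussValuationSubring N ℓ hℓN (helper4661.levelRing A K0)
    (natCast_mem_nonunits_levelRing K0 ℓ A hA)
    (IsLocalRing.residue ↥(helper4661.levelRing A K0)) IsLocalRing.residue_surjective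

/-- **`O'.comap (algebraMap F0 E0) = O`**: the Gauss ring of the layer over the level-`M`
modular function field restricts to the landed Gauss ring of the `F_M` model. -/
theorem gaussLayer_comap (M : ℕ) [NeZero M] (ℓ : ℕ) [Fact ℓ.Prime] (hℓM : ¬ ℓ ∣ M)
    (hA : A.LiesOverPrime ℓ) (h01 : modularFunctionFieldFull M ≤ F₁) (hfg : FgForm F₁) :
    (gaussLayer F₁ K0 A hfg).comap (towerIncl F₁ K0 (modularFunctionFieldFull M) h01) =
      OLevel M K0 ℓ hℓM A hA := by
  rw [gaussLayer_comap_tower]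
  exact gaussLayer_modular K0 A M ℓ hℓM hA _

end Gauss


/-! ## Kummer facts in the Gauss ring of the layer -/

section Kummer

variable (F₁ : IntermediateField ℚ (LaurentSeries ℚ)) (K0 : IntermediateField ℚ Qb)
  (A : ValuationSubring Qb) (hfg : FgForm F₁)

/-- **Kummer facts, element form.**  For `fa, fb, h` in the Gauss ring of the layer with
`red fa = (red h) ^ m * red fb ≠ 0` and `red fb ≠ 0`: the quotient `U = fa / fb` and its inverse
lie in the Gauss ring, and `h ^ m - U` is a non-unit (`Good.U_mem`, `U_inv_mem`, `h_pow`). -/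
theorem gaussLayer_kummer_core (m : ℕ) (fa fb h : ELevel F₁ K0)
    (hfa : fa ∈ gaussLayer F₁ K0 A hfg) (hfb : fb ∈ gaussLayer F₁ K0 A hfg)
    (hh : h ∈ gaussLayer F₁ K0 A hfg)
    (hra : gaussLayerRed F₁ K0 A hfg ⟨fa, hfa⟩ ≠ 0)
    (hrb : gaussLayerRed F₁ K0 A hfg ⟨fb, hfb⟩ ≠ 0)
    (hE : gaussLayerRed F₁ K0 A hfg ⟨fa, hfa⟩ =
      gaussLayerRed F₁ K0 A hfg ⟨h, hh⟩ ^ m * gaussLayerRed F₁ K0 A hfg ⟨fb, hfb⟩) :
    fa * fb⁻¹ ∈ gaussLayer F₁ K0 A hfg ∧ (fa * fb⁻¹)⁻¹ ∈ gaussLayer F₁ K0 A hfg ∧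
      h ^ m - fa * fb⁻¹ ∈ (gaussLayer F₁ K0 A hfg).nonunits := by
  set O := gaussLayer F₁ K0 A hfg with hO
  have hua : IsUnit (⟨fa, hfa⟩ : O) := (isUnit_iff_gaussLayerRed_ne_zero F₁ K0 A hfg _).mpr hra
  have hub : IsUnit (⟨fb, hfb⟩ : O) := (isUnit_iff_gaussLayerRed_ne_zero F₁ K0 A hfg _).mpr hrb
  have hfb0 : fb ≠ 0 := by
    intro h0
    have : (⟨fb, hfb⟩ : O) = 0 := Subtype.ext h0
    rw [this] at hub
    exact not_isUnit_zero hub
  have hfbinv : fb⁻¹ ∈ O := inv_mem_of_isUnit O hfb hub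
  have hfainv : fa⁻¹ ∈ O := inv_mem_of_isUnit O hfa hua
  refine ⟨mul_mem hfa hfbinv, ?_, ?_⟩
  · rw [mul_inv_rev, inv_inv]
    exact mul_mem hfb hfainv
  · set x' : O := ⟨h, hh⟩ ^ m * ⟨fb, hfb⟩ - ⟨fa, hfa⟩ with hx'
    have hx'res : gaussLayerRed F₁ K0 A hfg x' = 0 := by
      rw [hx', map_sub, map_mul, map_pow, hE, sub_self]
    have hx'max : x' ∈ IsLocalRing.maximalIdeal ↥O :=
      (gaussLayerRed_eq_zero_iff F₁ K0 A hfg x').mp hx'res
    have hprod : x' * ⟨fb⁻¹, hfbinv⟩ ∈ IsLocalRing.maximalIdeal ↥O :=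
      Ideal.mul_mem_right _ _ hx'max
    have hcoe := ValuationSubring.coe_mem_nonunits_iff.mpr hprod
    have heq : ((x' * ⟨fb⁻¹, hfbinv⟩ : O) : ELevel F₁ K0) = h ^ m - fa * fb⁻¹ := by
      show (h ^ m * fb - fa) * fb⁻¹ = _
      rw [sub_mul, mul_assoc, mul_inv_cancel₀ hfb0, mul_one]
    rw [heq] at hcoe
    exact hcoe

/-- **Kummer facts for an integral pair with equal reductions** (the `w = 1` case, the shape of
the consumer `KF1`): if `ya, yb ∈ (A ∩ K0)((q))` lie in the layer field and have the same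
nonzero reduction, then `U = ya / yb` and `U⁻¹` lie in the Gauss ring and `1 ^ m - U` is a
non-unit (so `h := 1` is a residual `m`-th root for every `m`). -/
theorem gaussLayer_kummer_one (m : ℕ)
    (ya yb : LaurentSeries ↥(helper4661.levelRing A K0))
    (hya : coeffMap (helper4661.levelRing A K0).subtype ya ∈ laurentBaseChange ↥K0 F₁)
    (hyb : coeffMap (helper4661.levelRing A K0).subtype yb ∈ laurentBaseChange ↥K0 F₁)
    (hrb : coeffMap (IsLocalRing.residue ↥(helper4661.levelRing A K0)) yb ≠ 0)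
    (hE : coeffMap (IsLocalRing.residue ↥(helper4661.levelRing A K0)) ya =
      coeffMap (IsLocalRing.residue ↥(helper4661.levelRing A K0)) yb) :
    ∃ U : ELevel F₁ K0,
      U * ⟨coeffMap (helper4661.levelRing A K0).subtype yb, hyb⟩ =
        ⟨coeffMap (helper4661.levelRing A K0).subtype ya, hya⟩ ∧
      U ∈ gaussLayer F₁ K0 A hfg ∧ U⁻¹ ∈ gaussLayer F₁ K0 A hfg ∧
      (1 : ELevel F₁ K0) ∈ gaussLayer F₁ K0 A hfg ∧
      (1 : ELevel F₁ K0) ^ m - U ∈ (gaussLayer F₁ K0 A hfg).nonunits := by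
  set fa : ELevel F₁ K0 := ⟨coeffMap (helper4661.levelRing A K0).subtype ya, hya⟩ with hfa
  set fb : ELevel F₁ K0 := ⟨coeffMap (helper4661.levelRing A K0).subtype yb, hyb⟩ with hfb
  have hfaO := coeffMap_mem_gaussLayer F₁ K0 A hfg ya hya
  have hfbO := coeffMap_mem_gaussLayer F₁ K0 A hfg yb hyb
  have hresa := gaussLayerRed_coeffMap F₁ K0 A hfg ya hya
  have hresb := gaussLayerRed_coeffMap F₁ K0 A hfg yb hyb
  have h1O : (1 : ELevel F₁ K0) ∈ gaussLayer F₁ K0 A hfg := one_mem _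
  have h1res : gaussLayerRed F₁ K0 A hfg ⟨1, h1O⟩ = 1 := map_one _
  have hfb0 : fb ≠ 0 := by
    intro h0
    apply hrb
    rw [← hresb]
    have : (⟨fb, hfbO⟩ : ↥(gaussLayer F₁ K0 A hfg)) = 0 := Subtype.ext h0
    rw [this, map_zero]
  obtain ⟨hU, hU', hpow⟩ := gaussLayer_kummer_core F₁ K0 A hfg m fa fb 1 hfaO hfbO h1O
    (by rw [hresa, hE]; exact hrb) (by rw [hresb]; exact hrb)
    (by rw [hresa, hresb, h1res, one_pow, one_mul, hE])
  refine ⟨fa * fb⁻¹, ?_, hU, hU', h1O, hpow⟩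
  rw [mul_assoc, inv_mul_cancel₀ hfb0, mul_one]

end Kummer

/-! ## A generic complement to `mkKData` -/

section GenericConst

variable {A0 K0 F0 Ω : Type} [CommRing A0] [IsDomain A0] [IsDiscreteValuationRing A0]
  [Field K0] [CharZero K0] [Algebra A0 K0] [IsFractionRing A0 K0]
  [Field F0] [Algebra K0 F0] [Algebra A0 F0] [IsScalarTower A0 K0 F0]
  [Field Ω] [Algebra F0 Ω]
  (ϖ : A0) (t : F0) (O : ValuationSubring F0) (ζ : A0) (U h : F0) (θ : Ω)

/-- The clause `Good.const` of the built model alone (the `const` part of `good_mkKData`). -/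
theorem mkKData_const
    (hconst : ∀ z ∈ adjoin F0 ({θ} : Set Ω), ∀ p : K0[X], p ≠ 0 →
      eval₂ ((algebraMap F0 Ω).comp (algebraMap K0 F0)) z p = 0 →
      ∃ c : K0, z = algebraMap F0 Ω (algebraMap K0 F0 c)) :
    ∀ z : (mkKData A0 K0 F0 Ω ϖ t O ζ U h θ).L0,
      IsAlgebraic (mkKData A0 K0 F0 Ω ϖ t O ζ U h θ).K0 z →
      z ∈ Set.range (algebraMap (mkKData A0 K0 F0 Ω ϖ t O ζ U h θ).K0
        (mkKData A0 K0 F0 Ω ϖ t O ζ U h θ).L0) := by
  intro z hz
  obtain ⟨p, hp0, hp⟩ := hz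
  have h1 := congrArg (mkKData_incl (K0 := K0) ϖ t O ζ U h θ) hp
  rw [map_zero, aeval_def, hom_eval₂] at h1
  obtain ⟨c, hc⟩ := hconst _ (mkKData_incl_mem (K0 := K0) ϖ t O ζ U h θ z) p hp0 h1
  exact ⟨c, (mkKData_incl_injective (K0 := K0) ϖ t O ζ U h θ hc).symm⟩

end GenericConst

/-! ## The model over the layer -/

section Model

variable (F₁ : IntermediateField ℚ (LaurentSeries ℚ)) (K0 : IntermediateField ℚ Qb)
  (ℓ : ℕ) [Fact ℓ.Prime] (A : ValuationSubring Qb) (hA : A.LiesOverPrime ℓ)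

/-- **The model over the layer** at the number-field level `K0`: `A0 := A ∩ K0`,
`F0 := K0 · F₁`, an arbitrary coordinate `t` and valuation subring `O'` of the layer field
(for the machine: `t := jE` or a Hauptmodul `t_r`, `O' := gaussLayer`), `L0 := F0(θ)` inside an
algebraic closure of `ℚ̄ · F₁`. -/
def model1 [FiniteDimensional ℚ K0] (O' : ValuationSubring (ELevel F₁ K0)) (t : ELevel F₁ K0)
    (ϖ ζ : ↥(helper4661.levelRing A K0)) (U h : ELevel F₁ K0) (θ : Amb1 F₁) : KData :=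
  haveI : IsDiscreteValuationRing ↥(helper4661.levelRing A K0) :=
    isDiscreteValuationRing_levelRing K0 ℓ A hA
  haveI : IsScalarTower ↥(helper4661.levelRing A K0) ↥K0 (ELevel F₁ K0) :=
    isScalarTower_levelRing1 F₁ K0 A
  letI : Algebra (ELevel F₁ K0) (Amb1 F₁) := algLevelAmb1 F₁ K0
  mkKData ↥(helper4661.levelRing A K0) ↥K0 (ELevel F₁ K0) (Amb1 F₁) ϖ t O' ζ U h θ

variable (O' : ValuationSubring (ELevel F₁ K0)) (t : ELevel F₁ K0)
  (ϖ ζ : ↥(helper4661.levelRing A K0)) (U h : ELevel F₁ K0) (θ : Amb1 F₁)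

/-- The field-level form of "`K0` is algebraically closed in `F0(θ)`" (the `hconst` of
`good_mkKData`), from the conclusion of NFCONST
(`helper296.exists_constants_closed_of_isAlgClosed` at `F₀ := F₁`). -/
theorem const_of_nfconst
    (hconst : ∀ z ∈ Subfield.closure
        ((algebraMap (EBar F₁) (Amb1 F₁)) '' (helper296.descentSubfield Qb F₁ K0 : Set _) ∪ {θ}),
      IsAlgebraic Qb z → ∃ c ∈ K0, z = algebraMap Qb (Amb1 F₁) c) :
    letI : Algebra (ELevel F₁ K0) (Amb1 F₁) := algLevelAmb1 F₁ K0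
    ∀ z ∈ adjoin (ELevel F₁ K0) ({θ} : Set (Amb1 F₁)), ∀ p : (↥K0)[X], p ≠ 0 →
      eval₂ ((algebraMap (ELevel F₁ K0) (Amb1 F₁)).comp (algebraMap ↥K0 (ELevel F₁ K0))) z p = 0 →
      ∃ c : ↥K0, z = algebraMap (ELevel F₁ K0) (Amb1 F₁) (algebraMap ↥K0 (ELevel F₁ K0) c) := by
  letI : Algebra (ELevel F₁ K0) (Amb1 F₁) := algLevelAmb1 F₁ K0
  intro z hz p hp0 hp
  have hz' : z ∈ Subfield.closure
      ((algebraMap (EBar F₁) (Amb1 F₁)) '' (helper296.descentSubfield Qb F₁ K0 : Set _) ∪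
        {θ}) := by
    have hz1 : z ∈ (adjoin (ELevel F₁ K0) ({θ} : Set (Amb1 F₁))).toSubfield := hz
    rw [adjoin_toSubfield] at hz1
    refine Subfield.closure_mono ?_ hz1
    rintro y (⟨x, rfl⟩ | hy)
    · left
      refine ⟨levelIncl1 F₁ K0 x, ?_, rfl⟩
      rw [← range_levelIncl1]
      exact ⟨x, rfl⟩
    · right
      exact hy
  have hcomp : (algebraMap Qb (Amb1 F₁)).comp (algebraMap ↥K0 Qb) =
      (algebraMap (ELevel F₁ K0) (Amb1 F₁)).comp (algebraMap ↥K0 (ELevel F₁ K0)) :=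
    RingHom.ext fun c => (algLevelAmb1_algebraMap_const F₁ K0 c).symm
  have halg : IsAlgebraic Qb z := by
    refine ⟨p.map (algebraMap ↥K0 Qb),
      (Polynomial.map_ne_zero_iff (algebraMap ↥K0 Qb).injective).mpr hp0, ?_⟩
    rw [aeval_def, eval₂_map, hcomp]
    exact hp
  obtain ⟨c, hc, hzc⟩ := hconst z hz' halg
  refine ⟨⟨c, hc⟩, ?_⟩
  rw [hzc]
  exact (algLevelAmb1_algebraMap_const F₁ K0 ⟨c, hc⟩).symm

variable [FiniteDimensional ℚ K0]

/-- **`Good` for the model over the layer**, from the Gauss data of `(t, O')` (Igusa for the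
layer: the output of the tower step), transcendence and finiteness of the coordinate, the
Kummer facts and NFCONST. -/
theorem model1_good (m : ℕ) (hm : ¬ ℓ ∣ m) (hϖ : Irreducible ϖ)
    (hgauss : GaussData ϖ t O') (htr : Transcendental ↥K0 t)
    (hfin : FiniteDimensional ↥(adjoin ↥K0 ({t} : Set (ELevel F₁ K0))) (ELevel F₁ K0))
    (hζ : IsPrimitiveRoot ζ m) (hU : U ∈ O') (hU' : U⁻¹ ∈ O') (hh : h ∈ O')
    (hpow : h ^ m - U ∈ O'.nonunits)
    (hθ : θ ^ m = algebraMap (EBar F₁) (Amb1 F₁) (levelIncl1 F₁ K0 U))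
    (hconst : ∀ z ∈ Subfield.closure
        ((algebraMap (EBar F₁) (Amb1 F₁)) '' (helper296.descentSubfield Qb F₁ K0 : Set _) ∪ {θ}),
      IsAlgebraic Qb z → ∃ c ∈ K0, z = algebraMap Qb (Amb1 F₁) c) :
    (model1 F₁ K0 ℓ A hA O' t ϖ ζ U h θ).Good m := by
  haveI : IsDiscreteValuationRing ↥(helper4661.levelRing A K0) :=
    isDiscreteValuationRing_levelRing K0 ℓ A hA
  haveI : IsScalarTower ↥(helper4661.levelRing A K0) ↥K0 (ELevel F₁ K0) :=
    isScalarTower_levelRing1 F₁ K0 A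
  letI : Algebra (ELevel F₁ K0) (Amb1 F₁) := algLevelAmb1 F₁ K0
  exact good_mkKData ϖ t O' ζ U h θ m hϖ hgauss htr hfin (const_of_nfconst F₁ K0 θ hconst)
    (isUnit_natCast_levelRing K0 ℓ A hA hm) hζ hU hU' hh hpow hθ

/-- `L0 = F0[θ]` for the model over the layer (`hgenθ` of `helper6839.tower_kummer_res`,
`Facts.gen`). -/
theorem model1_gen {m : ℕ} (hm : m ≠ 0)
    (hθ : θ ^ m = algebraMap (EBar F₁) (Amb1 F₁) (levelIncl1 F₁ K0 U)) :
    Algebra.adjoin (model1 F₁ K0 ℓ A hA O' t ϖ ζ U h θ).F0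
      ({(model1 F₁ K0 ℓ A hA O' t ϖ ζ U h θ).θ} :
        Set (model1 F₁ K0 ℓ A hA O' t ϖ ζ U h θ).L0) = ⊤ := by
  haveI : IsDiscreteValuationRing ↥(helper4661.levelRing A K0) :=
    isDiscreteValuationRing_levelRing K0 ℓ A hA
  haveI : IsScalarTower ↥(helper4661.levelRing A K0) ↥K0 (ELevel F₁ K0) :=
    isScalarTower_levelRing1 F₁ K0 A
  letI : Algebra (ELevel F₁ K0) (Amb1 F₁) := algLevelAmb1 F₁ K0
  exact mkKData_algebra_adjoin_θ (K0 := ↥K0) ϖ t O' ζ U h θ hm hθ

/-- `K0` is algebraically closed in the Kummer field of the model over the layer (`hconstL` of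
`helper6839.tower_kummer_res`, `Good.const`), from NFCONST. -/
theorem model1_const
    (hconst : ∀ z ∈ Subfield.closure
        ((algebraMap (EBar F₁) (Amb1 F₁)) '' (helper296.descentSubfield Qb F₁ K0 : Set _) ∪ {θ}),
      IsAlgebraic Qb z → ∃ c ∈ K0, z = algebraMap Qb (Amb1 F₁) c) :
    ∀ z : (model1 F₁ K0 ℓ A hA O' t ϖ ζ U h θ).L0,
      IsAlgebraic (model1 F₁ K0 ℓ A hA O' t ϖ ζ U h θ).K0 z →
      z ∈ Set.range (algebraMap (model1 F₁ K0 ℓ A hA O' t ϖ ζ U h θ).K0
        (model1 F₁ K0 ℓ A hA O' t ϖ ζ U h θ).L0) := by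
  haveI : IsDiscreteValuationRing ↥(helper4661.levelRing A K0) :=
    isDiscreteValuationRing_levelRing K0 ℓ A hA
  haveI : IsScalarTower ↥(helper4661.levelRing A K0) ↥K0 (ELevel F₁ K0) :=
    isScalarTower_levelRing1 F₁ K0 A
  letI : Algebra (ELevel F₁ K0) (Amb1 F₁) := algLevelAmb1 F₁ K0
  exact mkKData_const ϖ t O' ζ U h θ (const_of_nfconst F₁ K0 θ hconst)

/-- `θ ^ m = U` inside the model (`hθ` of `helper6839.tower_kummer_res`, `Good.θ_pow`). -/
theorem model1_θ_pow {m : ℕ}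
    (hθ : θ ^ m = algebraMap (EBar F₁) (Amb1 F₁) (levelIncl1 F₁ K0 U)) :
    (model1 F₁ K0 ℓ A hA O' t ϖ ζ U h θ).θ ^ m =
      algebraMap (model1 F₁ K0 ℓ A hA O' t ϖ ζ U h θ).F0
        (model1 F₁ K0 ℓ A hA O' t ϖ ζ U h θ).L0 (model1 F₁ K0 ℓ A hA O' t ϖ ζ U h θ).U :=
  Subtype.ext hθ

end Model


/-! ## Existence of the base data of the model (number-field descent + NFCONST) -/

section Existence

variable (F₁ : IntermediateField ℚ (LaurentSeries ℚ)) (ℓ : ℕ) [Fact ℓ.Prime]
  (A : ValuationSubring Qb) (hA : A.LiesOverPrime ℓ) (hfg : FgForm F₁)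

include hA in
/-- **Existence of the base data of the layer model** for an integral pair with equal nonzero
reductions (the hypotheses of the consumer `KF1`, without the divisibility of the orders, which
only the bar side uses): there are a number field `K0 ⊆ ℚ̄` (containing any prescribed number
field `K'`), a uniformiser `ϖ` and a primitive `m`-th root of unity `ζ` of `A ∩ K0`, `U` in the
level-`K0` layer field and `θ` in the ambient field such that `ι U = ya / yb`, `θ ^ m = ι U`,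
the Kummer facts hold in the `q`-expansion Gauss ring of the layer with `h := 1`, and `K0` is
algebraically closed in `F0(θ)` (NFCONST). -/
theorem exists_model_base1 (K' : IntermediateField ℚ Qb) [FiniteDimensional ℚ K'] (m : ℕ)
    (hm : ¬ ℓ ∣ m) (ya yb : LaurentSeries ↥A)
    (hya : coeffMap A.subtype ya ∈ laurentBaseChange Qb F₁)
    (hyb : coeffMap A.subtype yb ∈ laurentBaseChange Qb F₁)
    (hrb : coeffMap (IsLocalRing.residue ↥A) yb ≠ 0)
    (hred : coeffMap (IsLocalRing.residue ↥A) ya = coeffMap (IsLocalRing.residue ↥A) yb) :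
    ∃ (K0 : IntermediateField ℚ Qb) (_ : FiniteDimensional ℚ K0)
      (ϖ ζ : ↥(helper4661.levelRing A K0)) (U : ELevel F₁ K0) (θ : Amb1 F₁),
      K' ≤ K0 ∧ Irreducible ϖ ∧ IsPrimitiveRoot ζ m ∧
      U ∈ gaussLayer F₁ K0 A hfg ∧ U⁻¹ ∈ gaussLayer F₁ K0 A hfg ∧
      (1 : ELevel F₁ K0) ∈ gaussLayer F₁ K0 A hfg ∧
      (1 : ELevel F₁ K0) ^ m - U ∈ (gaussLayer F₁ K0 A hfg).nonunits ∧
      levelIncl1 F₁ K0 U * (⟨coeffMap A.subtype yb, hyb⟩ : EBar F₁) =
        ⟨coeffMap A.subtype ya, hya⟩ ∧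
      θ ^ m = algebraMap (EBar F₁) (Amb1 F₁) (levelIncl1 F₁ K0 U) ∧
      ∀ z ∈ Subfield.closure
          ((algebraMap (EBar F₁) (Amb1 F₁)) '' (helper296.descentSubfield Qb F₁ K0 : Set _) ∪
            {θ}),
        IsAlgebraic Qb z → ∃ c ∈ K0, z = algebraMap Qb (Amb1 F₁) c := by
  classical
  have hm0 : m ≠ 0 := fun h0 => hm (h0 ▸ dvd_zero ℓ)
  haveI : NeZero m := ⟨hm0⟩
  -- a primitive `m`-th root of unity in `ℚ̄`
  obtain ⟨ζ', hζ'⟩ := HasEnoughRootsOfUnity.exists_primitiveRoot Qb m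
  have hζint : IsIntegral ℚ ζ' :=
    ⟨X ^ m - C 1, monic_X_pow_sub_C 1 hm0, by simp [hζ'.pow_eq_one]⟩
  haveI : FiniteDimensional ℚ ↥ℚ⟮ζ'⟯ := adjoin.finiteDimensional hζint
  let K1 : IntermediateField ℚ Qb := K' ⊔ ℚ⟮ζ'⟯
  haveI : FiniteDimensional ℚ ↥K1 := IntermediateField.finiteDimensional_sup K' ℚ⟮ζ'⟯
  -- the Kummer generator over `ℚ̄`
  set a : EBar F₁ := ⟨coeffMap A.subtype ya, hya⟩ with ha
  set b : EBar F₁ := ⟨coeffMap A.subtype yb, hyb⟩ with hb
  have hb0 : b ≠ 0 := by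
    intro h0
    apply hrb
    have h1 : coeffMap A.subtype yb = 0 := congrArg Subtype.val h0
    have h2 : yb = 0 :=
      helper4661.coeffMap_injective Subtype.val_injective (by rw [h1, map_zero])
    rw [h2, map_zero]
  obtain ⟨θ, hθ⟩ := IsAlgClosed.exists_pow_nat_eq
    (algebraMap (EBar F₁) (Amb1 F₁) (a * b⁻¹)) (Nat.pos_of_ne_zero hm0)
  haveI := helper296.isAlgebraic_rat_algebraicClosure
  have hθint : IsIntegral (EBar F₁) θ :=
    ⟨X ^ m - C (a * b⁻¹), monic_X_pow_sub_C _ hm0, by simp [hθ]⟩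
  obtain ⟨Kmin, hK1min, hKminfin, hKmin⟩ :=
    helper296.exists_constants_closed_of_isAlgClosed (L := Qb) (F₀ := F₁) hθint K1
  haveI := hKminfin
  -- the common level of `ya`, `yb`
  obtain ⟨K0, hK0fin, hKminK0, hs⟩ :=
    helper4661.exists_definedOver_finset (F₀ := F₁) Kmin
      {coeffMap A.subtype ya, coeffMap A.subtype yb} (by
        intro x hx
        rcases Finset.mem_insert.mp hx with rfl | hx
        · exact hya
        · rw [Finset.mem_singleton] at hx
          subst hx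
          exact hyb)
  haveI := hK0fin
  have hDa := hs _ (Finset.mem_insert_self _ _)
  have hDb := hs _ (Finset.mem_insert_of_mem (Finset.mem_singleton_self _))
  obtain ⟨ya0, hya_mem, hya_up, hya_red⟩ :=
    helper4661.exists_integral_descent F₁ A K0 ya hDa
  obtain ⟨yb0, hyb_mem, hyb_up, hyb_red⟩ :=
    helper4661.exists_integral_descent F₁ A K0 yb hDb
  -- the residual relation at level `K0`
  have hinj : Function.Injective (coeffMap (helper4661.levelResMap A K0)) :=
    helper4661.coeffMap_injective (helper4661.resMap_injective A _)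
  have hE : coeffMap (IsLocalRing.residue ↥(helper4661.levelRing A K0)) ya0 =
      coeffMap (IsLocalRing.residue ↥(helper4661.levelRing A K0)) yb0 := by
    apply hinj
    rw [← hya_red, ← hyb_red]
    exact hred
  have hrb0 : coeffMap (IsLocalRing.residue ↥(helper4661.levelRing A K0)) yb0 ≠ 0 := by
    intro h0
    apply hrb
    rw [hyb_red, h0, map_zero]
  obtain ⟨U, hUb, hU, hU', h1O, hpow⟩ :=
    gaussLayer_kummer_one F₁ K0 A hfg m ya0 yb0 hya_mem hyb_mem hrb0 hE
  -- `ι U = a / b`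
  have hιa : levelIncl1 F₁ K0 ⟨coeffMap (helper4661.levelRing A K0).subtype ya0, hya_mem⟩ = a := by
    apply Subtype.ext
    rw [levelIncl1_coe]
    show coeffMap (algebraMap ↥K0 Qb) (coeffMap (helper4661.levelRing A K0).subtype ya0) = _
    rw [coeffMap_coeffMap, ← helper4661.subtype_comp_comapHom, ← coeffMap_coeffMap, hya_up]
  have hιb : levelIncl1 F₁ K0 ⟨coeffMap (helper4661.levelRing A K0).subtype yb0, hyb_mem⟩ = b := by
    apply Subtype.ext
    rw [levelIncl1_coe]
    show coeffMap (algebraMap ↥K0 Qb) (coeffMap (helper4661.levelRing A K0).subtype yb0) = _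
    rw [coeffMap_coeffMap, ← helper4661.subtype_comp_comapHom, ← coeffMap_coeffMap, hyb_up]
  have hιU : levelIncl1 F₁ K0 U * b = a := by
    have := congrArg (levelIncl1 F₁ K0) hUb
    rw [map_mul, hιa, hιb] at this
    exact this
  have hιU' : levelIncl1 F₁ K0 U = a * b⁻¹ := by
    rw [← hιU, mul_assoc, mul_inv_cancel₀ hb0, mul_one]
  -- uniformiser and root of unity
  haveI : IsDiscreteValuationRing ↥(helper4661.levelRing A K0) :=
    isDiscreteValuationRing_levelRing K0 ℓ A hA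
  obtain ⟨ϖ, hϖ⟩ := IsDiscreteValuationRing.exists_irreducible ↥(helper4661.levelRing A K0)
  have hK'K0 : K' ≤ K0 := le_sup_left.trans (hK1min.trans hKminK0)
  have hζK0 : ζ' ∈ K0 :=
    hKminK0 (hK1min ((le_sup_right : ℚ⟮ζ'⟯ ≤ K1) (mem_adjoin_simple_self ℚ ζ')))
  have hζA : (⟨ζ', hζK0⟩ : ↥K0) ∈ helper4661.levelRing A K0 :=
    mem_of_pow_eq_one A hm0 hζ'.pow_eq_one
  have hζ : IsPrimitiveRoot (⟨⟨ζ', hζK0⟩, hζA⟩ : ↥(helper4661.levelRing A K0)) m := by
    refine IsPrimitiveRoot.of_map_of_injective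
      (f := (algebraMap ↥K0 Qb).comp (helper4661.levelRing A K0).subtype) ?_ ?_
    · exact hζ'
    · exact (algebraMap ↥K0 Qb).injective.comp Subtype.val_injective
  have hθ' : θ ^ m = algebraMap (EBar F₁) (Amb1 F₁) (levelIncl1 F₁ K0 U) := by
    rw [hθ, hιU']
  exact ⟨K0, hK0fin, ϖ, ⟨⟨ζ', hζK0⟩, hζA⟩, U, θ, hK'K0, hϖ, hζ, hU, hU', h1O, hpow, hιU, hθ',
    hKmin K0 hKminK0⟩

end Existence

end

end Fermat.Agent.S48.helper1267
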