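import Mathlib
import Fermat.Prelude.Def_ModularCurve_X0ModL
import Fermat.Prelude.Def_ModularCurve_ArithmeticGalois

/-!
# S48 leaf A2: the `Γ₁(M)` function field, formal layer (helper7300)

Mathlib + Prelude definitions only; no analysis.  Everything lives in `K((q))`.

## The series (any commutative ring `R`; in the applications `u` and `1 - u` are units)

* `xv u = u / (1 - u)^2`, `wpCoeff u n = ∑_{d ∣ n} d (u^d + u^{-d} - 2)`,
  `wpSer u = xv u + ∑_{n ≥ 1} wpCoeff u n q^n : R⟦q⟧`
  [the `q`-expansion of `(2πi)⁻² ℘(z; τ) - 1/12` at `u = e^{2πiz}`, A1 normalisation],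
* `dSer u v = wpSer u - wpSer v` [the expansion of `(2πi)⁻² (℘(z_u) - ℘(z_v))`, no `1/12`],
* `gen R P u v = P · dSer u v` as a Laurent series, `P : ℤ⟦q⟧` a weight `-2` normaliser
  (default `phiZ = E₄ / E₆`, `constantCoeff_phiZ`).
* relations: `dSer_swap`, `dSer_add_dSer`, `dSer_sub_dSer`, `gen_swap`, `gen_add_gen`,
  `gen_sub_gen` (differences of generators are generators), `wpSer_inv`, `gen_inv_left/right`
  (fields: only `u^{±1}` matters);
* constant term: `xv_sub_xv` : `x(u) - x(v) = (u - v)(1 - uv) / ((1-u)^2 (1-v)^2)`,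
  `dSer_eq_zero_iff`, `gen_eq_zero_iff` : zero iff `v = u^{±1}`; `gen_coeff_zero`,
  `gen_coeff_of_neg`, `isUnit_dSer`;
* functoriality: `map_wpSer`, `map_dSer`, `coeffMap_gen` (rings, unit hypotheses),
  `map_dSer_field`, `coeffMap_gen_field` (fields, unconditional), `coeffMap_gen_pow`
  (diamond form: `σ ζ = ζ^d` maps `gen (ζ^a) (ζ^b)` to `gen (ζ^(da)) (ζ^(db))`).

## The field

* `gamma1Gens K P M` : all `gen K P u v`, `u, v` non-trivial `M`-th roots of unity of `K`;
  `gamma1FieldP K P M = K(j(q^d) : d ∣ M)(gamma1Gens) ⊆ K((q))`; `gamma1Field K M` is the case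
  `P = phiZ`.  `gamma1Gens_eq_of_isPrimitiveRoot` : with a primitive root `z` the generators
  are the `gen (z^a) (z^b)`, `M ∤ a, b`.  `gamma1FieldP_eq_adjoin_base` : one base point
  suffices.  `ratio_mem` : the weight-zero ratios lie in the field.  `gamma1FieldP_mono`.
* `fullC_le_gamma1FieldP`, `laurentBaseChange_le_gamma1FieldP`,
  `modularFunctionFieldBar_le_gamma1FieldP` : the frozen `Γ₀(M)` fields are contained in it.
* `coeffMap_mem_gamma1FieldP` : functoriality in the constant field (any ring homomorphism);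
  `gamma1FieldP_eq_adjoin_image` : base change (if the small field has a primitive root).
* `gamma1RingAut`, `gamma1SemilinearAut`, `gamma1Galois` : the arithmetic (coefficientwise)
  Galois action, shape of the Prelude `arithmeticGalois`; `gamma1Galois_smul_gamma0Incl`
  (the inclusion of the `Γ₀(M)` field is equivariant), `gamma1Galois_smul_gen`.
* `gamma1OverC`, `gamma1Over` : the same field as an `IntermediateField` over the `Γ₀(M)`
  field (`modularFunctionFieldFullC K M`, resp. the frozen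
  `laurentBaseChange L (modularFunctionFieldFull M)`); `gamma1Over_eq_adjoin`,
  `gamma1Gens_finite`, `finiteDimensional_gamma1Over` (finite as soon as the generators are
  algebraic).
* `JOne M`, `JOne.torsionGaloisRep` : `Pic⁰` of the field over `ℚ̄` and its Galois action.

## Integrality and reduction (`A` a local ring in which `M` is invertible)

* `isUnit_one_sub_of_pow_eq_one`, `isUnit_sub_of_pow_eq_one`, `isUnit_xv_sub_xv` : the leading
  coefficient `x(u) - x(v)` is a unit (every residue characteristic `∤ M`, `2, 3` included);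
  `isUnit_gen_of_pow_eq_one` : the integral generator is a unit of `A((q))`.
* `coeffMap_gen_of_pow_eq_one`, `coeffMap_residue_gen_mem`, `exists_gen_lift`,
  `gamma1FieldP_residue` : the generators reduce onto the generators of the twin
  `gamma1FieldP (ResidueField A) P M`; `isPrimitiveRoot_residue`.
* `A : ValuationSubring L` : `mem_of_pow_eq_one`, `isUnit_natCast_of_not_dvd`,
  `exists_integral_gen`, `exists_integral_inv_gen` (generators and their inverses have
  `A`-integral expansions).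

NOT here (analytic / Galois-theoretic leaves): the generators are algebraic over the `Γ₀(M)`
field, `[F₁(M) : F_M] = φ(M)/2`, and the identification with `Γ₁(M)`-invariant functions.
-/

set_option autoImplicit false

noncomputable section

namespace Fermat.Agent.S48.helper7300

open ModularCurve IntermediateField

/-! ## The `x`-coordinate of the Tate curve at a point `u` of the multiplicative group -/

section Series

variable {R S : Type*} [CommRing R] [CommRing S]

/-- `u / (1 - u)^2` (with `Ring.inverse`, so that it makes sense over any commutative ring). -/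
def xv (u : R) : R := u * Ring.inverse ((1 - u) ^ 2)

/-- `∑_{d ∣ n} d (u^d + u^{-d} - 2)`. -/
def wpCoeff (u : R) (n : ℕ) : R :=
  ∑ d ∈ n.divisors, (d : R) * (u ^ d + Ring.inverse u ^ d - 2)

/-- The `q`-expansion of `(2πi)⁻² ℘ - 1/12` at the point `u` of the Tate curve. -/
def wpSer (u : R) : PowerSeries R :=
  PowerSeries.mk fun n => if n = 0 then xv u else wpCoeff u n

/-- The `q`-expansion of `(2πi)⁻² (℘(z_u) - ℘(z_v))`. -/
def dSer (u v : R) : PowerSeries R := wpSer u - wpSer v

@[simp] theorem coeff_wpSer_zero (u : R) : PowerSeries.coeff 0 (wpSer u) = xv u := by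
  simp [wpSer]

theorem coeff_wpSer_of_ne_zero (u : R) {n : ℕ} (hn : n ≠ 0) :
    PowerSeries.coeff n (wpSer u) = wpCoeff u n := by
  simp [wpSer, hn]

@[simp] theorem constantCoeff_wpSer (u : R) : PowerSeries.constantCoeff (wpSer u) = xv u := by
  rw [← PowerSeries.coeff_zero_eq_constantCoeff_apply, coeff_wpSer_zero]

@[simp] theorem coeff_dSer_zero (u v : R) : PowerSeries.coeff 0 (dSer u v) = xv u - xv v := by
  simp [dSer]

theorem coeff_dSer_of_ne_zero (u v : R) {n : ℕ} (hn : n ≠ 0) :
    PowerSeries.coeff n (dSer u v) = wpCoeff u n - wpCoeff v n := by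
  simp [dSer, coeff_wpSer_of_ne_zero _ hn]

@[simp] theorem constantCoeff_dSer (u v : R) :
    PowerSeries.constantCoeff (dSer u v) = xv u - xv v := by
  rw [← PowerSeries.coeff_zero_eq_constantCoeff_apply, coeff_dSer_zero]

theorem wpCoeff_sub (u v : R) (n : ℕ) :
    wpCoeff u n - wpCoeff v n =
      ∑ d ∈ n.divisors, (d : R) * (u ^ d + Ring.inverse u ^ d - v ^ d - Ring.inverse v ^ d) := by
  rw [wpCoeff, wpCoeff, ← Finset.sum_sub_distrib]
  exact Finset.sum_congr rfl fun d _ => by ring

/-! ### The cocycle relations -/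

@[simp] theorem dSer_self (u : R) : dSer u u = 0 := sub_self _

theorem dSer_swap (u v : R) : dSer v u = -dSer u v := by
  simp [dSer]

theorem dSer_add_dSer (u v w : R) : dSer u v + dSer v w = dSer u w := by
  simp [dSer]

theorem dSer_sub_dSer (u v w : R) : dSer u w - dSer v w = dSer u v := by
  simp [dSer]

/-! ### Functoriality -/

theorem map_ringInverse (f : R →+* S) {u : R} (hu : IsUnit u) :
    f (Ring.inverse u) = Ring.inverse (f u) := by
  have h1 : f (Ring.inverse u) * f u = 1 := by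
    rw [← map_mul, Ring.inverse_mul_cancel _ hu, map_one]
  have h2 : IsUnit (f u) := hu.map f
  calc f (Ring.inverse u) = f (Ring.inverse u) * (f u * Ring.inverse (f u)) := by
        rw [Ring.mul_inverse_cancel _ h2, mul_one]
    _ = Ring.inverse (f u) := by rw [← mul_assoc, h1, one_mul]

theorem map_xv (f : R →+* S) {u : R} (h1 : IsUnit (1 - u)) : f (xv u) = xv (f u) := by
  rw [xv, xv, map_mul, map_ringInverse f (h1.pow 2), map_pow, map_sub, map_one]

theorem map_wpCoeff (f : R →+* S) {u : R} (hu : IsUnit u) (n : ℕ) :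
    f (wpCoeff u n) = wpCoeff (f u) n := by
  simp only [wpCoeff, map_sum, map_mul, map_natCast, map_sub, map_add, map_pow,
    map_ringInverse f hu, map_ofNat]

/-- **Functoriality of `wpSer`.** -/
theorem map_wpSer (f : R →+* S) {u : R} (hu : IsUnit u) (h1 : IsUnit (1 - u)) :
    PowerSeries.map f (wpSer u) = wpSer (f u) := by
  ext n
  rw [PowerSeries.coeff_map]
  rcases eq_or_ne n 0 with rfl | hn
  · rw [coeff_wpSer_zero, coeff_wpSer_zero, map_xv f h1]
  · rw [coeff_wpSer_of_ne_zero _ hn, coeff_wpSer_of_ne_zero _ hn, map_wpCoeff f hu]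

/-- **Functoriality of `dSer`.** -/
theorem map_dSer (f : R →+* S) {u v : R} (hu : IsUnit u) (hu1 : IsUnit (1 - u))
    (hv : IsUnit v) (hv1 : IsUnit (1 - v)) :
    PowerSeries.map f (dSer u v) = dSer (f u) (f v) := by
  rw [dSer, map_sub, map_wpSer f hu hu1, map_wpSer f hv hv1, dSer]

end Series

/-! ## Over a field -/

section FieldSeries

variable {K K' : Type*} [Field K] [Field K']

theorem xv_eq_div (u : K) : xv u = u / (1 - u) ^ 2 := by
  rw [xv, Ring.inverse_eq_inv', div_eq_mul_inv]

theorem wpCoeff_eq (u : K) (n : ℕ) :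
    wpCoeff u n = ∑ d ∈ n.divisors, (d : K) * (u ^ d + u⁻¹ ^ d - 2) := by
  rw [wpCoeff, Ring.inverse_eq_inv']

theorem xv_inv (u : K) : xv u⁻¹ = xv u := by
  rw [xv_eq_div, xv_eq_div]
  rcases eq_or_ne u 0 with rfl | h0
  · simp
  rcases eq_or_ne u 1 with rfl | h1
  · simp
  have h2 : 1 - u ≠ 0 := sub_ne_zero.mpr (Ne.symm h1)
  have h3 : 1 - u⁻¹ = -(1 - u) / u := by field_simp; ring
  rw [h3]
  field_simp

theorem wpCoeff_inv (u : K) (n : ℕ) : wpCoeff u⁻¹ n = wpCoeff u n := by
  rw [wpCoeff_eq, wpCoeff_eq, inv_inv]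
  exact Finset.sum_congr rfl fun d _ => by ring

/-- `x(u⁻¹) = x(u)` : the expansion only depends on the point up to sign. -/
theorem wpSer_inv (u : K) : wpSer u⁻¹ = wpSer u := by
  ext n
  rcases eq_or_ne n 0 with rfl | hn
  · rw [coeff_wpSer_zero, coeff_wpSer_zero, xv_inv]
  · rw [coeff_wpSer_of_ne_zero _ hn, coeff_wpSer_of_ne_zero _ hn, wpCoeff_inv]

theorem dSer_inv_left (u v : K) : dSer u⁻¹ v = dSer u v := by
  rw [dSer, wpSer_inv, dSer]

theorem dSer_inv_right (u v : K) : dSer u v⁻¹ = dSer u v := by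
  rw [dSer, wpSer_inv, dSer]

/-- Functoriality over fields needs no unit hypothesis. -/
theorem map_wpSer_field (f : K →+* K') (u : K) : PowerSeries.map f (wpSer u) = wpSer (f u) := by
  ext n
  rw [PowerSeries.coeff_map]
  rcases eq_or_ne n 0 with rfl | hn
  · rw [coeff_wpSer_zero, coeff_wpSer_zero, xv_eq_div, xv_eq_div, map_div₀, map_pow, map_sub,
      map_one]
  · rw [coeff_wpSer_of_ne_zero _ hn, coeff_wpSer_of_ne_zero _ hn, wpCoeff_eq, wpCoeff_eq]
    simp only [map_sum, map_mul, map_natCast, map_sub, map_add, map_pow, map_inv₀, map_ofNat]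

theorem map_dSer_field (f : K →+* K') (u v : K) :
    PowerSeries.map f (dSer u v) = dSer (f u) (f v) := by
  rw [dSer, map_sub, map_wpSer_field, map_wpSer_field, dSer]

/-- **The constant term of the difference.** -/
theorem xv_sub_xv {u v : K} (hu : u ≠ 1) (hv : v ≠ 1) :
    xv u - xv v = (u - v) * (1 - u * v) / ((1 - u) ^ 2 * (1 - v) ^ 2) := by
  have h1 : 1 - u ≠ 0 := sub_ne_zero.mpr (Ne.symm hu)
  have h2 : 1 - v ≠ 0 := sub_ne_zero.mpr (Ne.symm hv)
  rw [xv_eq_div, xv_eq_div]
  field_simp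
  ring

theorem xv_eq_xv_iff {u v : K} (hu : u ≠ 1) (hv : v ≠ 1) :
    xv u = xv v ↔ u = v ∨ u * v = 1 := by
  have h1 : 1 - u ≠ 0 := sub_ne_zero.mpr (Ne.symm hu)
  have h2 : 1 - v ≠ 0 := sub_ne_zero.mpr (Ne.symm hv)
  rw [← sub_eq_zero, xv_sub_xv hu hv, div_eq_zero_iff, mul_eq_zero, sub_eq_zero, sub_eq_zero]
  constructor
  · rintro ((h | h) | h)
    · exact Or.inl h
    · exact Or.inr h.symm
    · exact absurd h (mul_ne_zero (pow_ne_zero 2 h1) (pow_ne_zero 2 h2))
  · rintro (h | h)
    · exact Or.inl (Or.inl h)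
    · exact Or.inl (Or.inr h.symm)

/-- **Non-vanishing.**  For `u, v ≠ 1` the difference `dSer u v` vanishes exactly when
`v = u^{±1}`. -/
theorem dSer_eq_zero_iff {u v : K} (hu : u ≠ 1) (hv : v ≠ 1) :
    dSer u v = 0 ↔ u = v ∨ u * v = 1 := by
  constructor
  · intro h
    have h0 := congrArg (PowerSeries.coeff 0) h
    rw [coeff_dSer_zero, map_zero, sub_eq_zero] at h0
    exact (xv_eq_xv_iff hu hv).mp h0
  · rintro (rfl | h)
    · exact dSer_self u
    · have hv' : v = u⁻¹ := (eq_inv_of_mul_eq_one_right h)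
      rw [hv', dSer_inv_right, dSer_self]

theorem constantCoeff_dSer_ne_zero {u v : K} (hu : u ≠ 1) (hv : v ≠ 1) (h : u ≠ v)
    (h' : u * v ≠ 1) : PowerSeries.constantCoeff (dSer u v) ≠ 0 := by
  rw [constantCoeff_dSer, sub_ne_zero, Ne, xv_eq_xv_iff hu hv]
  exact fun hh => hh.elim h h'

/-- If `dSer u v ≠ 0` its constant term is non-zero: order `0`, a unit of `K⟦q⟧`. -/
theorem isUnit_dSer {u v : K} (hu : u ≠ 1) (hv : v ≠ 1) (h : u ≠ v) (h' : u * v ≠ 1) :
    IsUnit (dSer u v) :=
  PowerSeries.isUnit_iff_constantCoeff.mpr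
    (isUnit_iff_ne_zero.mpr (constantCoeff_dSer_ne_zero hu hv h h'))

end FieldSeries

/-! ## The weight `-2` normaliser -/

section Normaliser

/-- `E₆ = 1 - 504 ∑ σ₅(n) qⁿ ∈ ℤ⟦q⟧`. -/
def eisenstein6 : PowerSeries ℤ :=
  PowerSeries.mk fun n => if n = 0 then 1 else -504 * ∑ d ∈ n.divisors, (d : ℤ) ^ 5

@[simp]
theorem constantCoeff_eisenstein6 : PowerSeries.constantCoeff eisenstein6 = 1 := by
  rw [← PowerSeries.coeff_zero_eq_constantCoeff_apply]
  simp [eisenstein6]

/-- The default normaliser `E₄ / E₆ ∈ ℤ⟦q⟧` (weight `-2`, level one, zeros and poles only above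
the branch values `j = 0, 1728`; congruent to `1` modulo `2` and `3`). -/
def phiZ : PowerSeries ℤ := eisenstein4 * eisenstein6.invOfUnit 1

@[simp]
theorem constantCoeff_phiZ : PowerSeries.constantCoeff phiZ = 1 := by
  rw [phiZ, map_mul, constantCoeff_eisenstein4, PowerSeries.constantCoeff_invOfUnit]
  simp

theorem phiZ_mul_eisenstein6 : phiZ * eisenstein6 = eisenstein4 := by
  rw [phiZ, mul_assoc, mul_comm (eisenstein6.invOfUnit 1),
    PowerSeries.mul_invOfUnit _ _ (by rw [constantCoeff_eisenstein6]; rfl), mul_one]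

variable (R : Type*) [CommRing R]

/-- The image in `R⟦q⟧` of an integral power series. -/
def zSer (P : PowerSeries ℤ) : PowerSeries R := PowerSeries.map (Int.castRingHom R) P

variable {R}

@[simp]
theorem constantCoeff_zSer (P : PowerSeries ℤ) :
    PowerSeries.constantCoeff (zSer R P) = ((PowerSeries.constantCoeff P : ℤ) : R) := by
  rw [← PowerSeries.coeff_zero_eq_constantCoeff_apply, zSer, PowerSeries.coeff_map,
    PowerSeries.coeff_zero_eq_constantCoeff_apply]
  rfl

theorem map_zSer {S : Type*} [CommRing S] (f : R →+* S) (P : PowerSeries ℤ) :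
    PowerSeries.map f (zSer R P) = zSer S P := by
  rw [zSer, zSer, ← RingHom.comp_apply, ← PowerSeries.map_comp,
    RingHom.ext_int (f.comp (Int.castRingHom R)) (Int.castRingHom S)]

theorem isUnit_zSer {P : PowerSeries ℤ} (hP : PowerSeries.constantCoeff P = 1) :
    IsUnit (zSer R P) := by
  rw [PowerSeries.isUnit_iff_constantCoeff, constantCoeff_zSer, hP, Int.cast_one]
  exact isUnit_one

theorem zSer_ne_zero [Nontrivial R] {P : PowerSeries ℤ} (hP : PowerSeries.constantCoeff P = 1) :
    zSer R P ≠ 0 :=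
  (isUnit_zSer hP).ne_zero

end Normaliser

/-! ## The generators as Laurent series -/

section Gen

variable (R : Type*) [CommRing R] {S : Type*} [CommRing S]

/-- The generator `P · (x(u) - x(v))` as a Laurent series: for `u = ζ^a`, `v = ζ^b` the
`q`-expansion at `∞` of `P · (2πi)⁻² (℘(a/M) - ℘(b/M))`. -/
def gen (P : PowerSeries ℤ) (u v : R) : LaurentSeries R :=
  HahnSeries.ofPowerSeries ℤ R (zSer R P * dSer u v)

variable {R}

theorem gen_def (P : PowerSeries ℤ) (u v : R) :
    gen R P u v = HahnSeries.ofPowerSeries ℤ R (zSer R P) *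
      HahnSeries.ofPowerSeries ℤ R (dSer u v) := by
  rw [gen, map_mul]

theorem gen_coeff_natCast (P : PowerSeries ℤ) (u v : R) (n : ℕ) :
    (gen R P u v).coeff (n : ℤ) = PowerSeries.coeff n (zSer R P * dSer u v) := by
  rw [gen, HahnSeries.ofPowerSeries_apply_coeff]

theorem gen_coeff_of_neg (P : PowerSeries ℤ) (u v : R) {k : ℤ} (hk : k < 0) :
    (gen R P u v).coeff k = 0 :=
  ofPowerSeries_coeff_of_neg _ hk

/-- The leading coefficient. -/
theorem gen_coeff_zero {P : PowerSeries ℤ} (hP : PowerSeries.constantCoeff P = 1) (u v : R) :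
    (gen R P u v).coeff 0 = xv u - xv v := by
  have h := gen_coeff_natCast P u v 0
  rw [Nat.cast_zero] at h
  rw [h, PowerSeries.coeff_zero_eq_constantCoeff_apply, map_mul, constantCoeff_zSer, hP,
    constantCoeff_dSer, Int.cast_one, one_mul]

@[simp] theorem gen_self (P : PowerSeries ℤ) (u : R) : gen R P u u = 0 := by
  rw [gen, dSer_self, mul_zero, map_zero]

theorem gen_swap (P : PowerSeries ℤ) (u v : R) : gen R P v u = -gen R P u v := by
  rw [gen, gen, dSer_swap, mul_neg, map_neg]

/-- The cocycle relation: differences of generators are generators. -/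
theorem gen_add_gen (P : PowerSeries ℤ) (u v w : R) :
    gen R P u v + gen R P v w = gen R P u w := by
  rw [gen, gen, gen, ← map_add, ← mul_add, dSer_add_dSer]

theorem gen_sub_gen (P : PowerSeries ℤ) (u v w : R) :
    gen R P u w - gen R P v w = gen R P u v := by
  rw [gen, gen, gen, ← map_sub, ← mul_sub, dSer_sub_dSer]

/-- **Functoriality of the generators** under a ring homomorphism. -/
theorem coeffMap_gen (f : R →+* S) (P : PowerSeries ℤ) {u v : R} (hu : IsUnit u)
    (hu1 : IsUnit (1 - u)) (hv : IsUnit v) (hv1 : IsUnit (1 - v)) :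
    coeffMap f (gen R P u v) = gen S P (f u) (f v) := by
  rw [gen, gen, coeffMap_ofPowerSeries, map_mul, map_zSer, map_dSer f hu hu1 hv hv1]

/-- If the constant term `x(u) - x(v)` is a unit, the generator is a unit of `R⟦q⟧`. -/
theorem isUnit_zSer_mul_dSer {P : PowerSeries ℤ} (hP : PowerSeries.constantCoeff P = 1)
    {u v : R} (h : IsUnit (xv u - xv v)) : IsUnit (zSer R P * dSer u v) := by
  refine (isUnit_zSer hP).mul ?_
  rw [PowerSeries.isUnit_iff_constantCoeff, constantCoeff_dSer]
  exact h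

theorem isUnit_gen {P : PowerSeries ℤ} (hP : PowerSeries.constantCoeff P = 1)
    {u v : R} (h : IsUnit (xv u - xv v)) : IsUnit (gen R P u v) :=
  (isUnit_zSer_mul_dSer hP h).map (HahnSeries.ofPowerSeries ℤ R)

end Gen

section GenField

variable {K K' : Type*} [Field K] [Field K']

/-- Functoriality over fields needs no unit hypothesis. -/
theorem coeffMap_gen_field (f : K →+* K') (P : PowerSeries ℤ) (u v : K) :
    coeffMap f (gen K P u v) = gen K' P (f u) (f v) := by
  rw [gen, gen, coeffMap_ofPowerSeries, map_mul, map_zSer, map_dSer_field]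

theorem gen_inv_left (P : PowerSeries ℤ) (u v : K) : gen K P u⁻¹ v = gen K P u v := by
  rw [gen, dSer_inv_left, gen]

theorem gen_inv_right (P : PowerSeries ℤ) (u v : K) : gen K P u v⁻¹ = gen K P u v := by
  rw [gen, dSer_inv_right, gen]

/-- **Non-vanishing of the generators.** -/
theorem gen_eq_zero_iff {P : PowerSeries ℤ} (hP : PowerSeries.constantCoeff P = 1) {u v : K}
    (hu : u ≠ 1) (hv : v ≠ 1) : gen K P u v = 0 ↔ u = v ∨ u * v = 1 := by
  rw [gen, map_eq_zero_iff _ HahnSeries.ofPowerSeries_injective, mul_eq_zero,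
    or_iff_right (zSer_ne_zero hP), dSer_eq_zero_iff hu hv]

theorem gen_ne_zero {P : PowerSeries ℤ} (hP : PowerSeries.constantCoeff P = 1) {u v : K}
    (hu : u ≠ 1) (hv : v ≠ 1) (h : u ≠ v) (h' : u * v ≠ 1) : gen K P u v ≠ 0 := by
  rw [Ne, gen_eq_zero_iff hP hu hv]
  exact fun hh => hh.elim h h'

/-- The weight-zero ratios do not depend on the normaliser. -/
theorem gen_div_gen {P : PowerSeries ℤ} (hP : PowerSeries.constantCoeff P = 1)
    (u v u' v' : K) :
    gen K P u v / gen K P u' v' =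
      HahnSeries.ofPowerSeries ℤ K (dSer u v) / HahnSeries.ofPowerSeries ℤ K (dSer u' v') := by
  have h0 : HahnSeries.ofPowerSeries ℤ K (zSer K P) ≠ 0 :=
    (map_ne_zero_iff _ HahnSeries.ofPowerSeries_injective).mpr (zSer_ne_zero hP)
  rw [gen_def, gen_def, mul_div_mul_left _ _ h0]

end GenField

/-! ## The field -/

section FieldDef

variable (K : Type*) [Field K] (P : PowerSeries ℤ) (M : ℕ)

/-- The `Γ₁(M)` generators: all `P · (x(u) - x(v))`, `u, v` non-trivial `M`-th roots of unity
of `K`. -/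
def gamma1Gens : Set (LaurentSeries K) :=
  {x | ∃ u v : K, u ^ M = 1 ∧ u ≠ 1 ∧ v ^ M = 1 ∧ v ≠ 1 ∧ x = gen K P u v}

/-- **The `Γ₁(M)` function field with constant field `K`, inside `K((q))`** (normaliser `P`):
generated over `K` by the `Γ₀(M)` generators `j(q^d)`, `d ∣ M`, and the normalised differences
of the `x`-coordinates of the points of `μ_M` on the Tate curve. -/
def gamma1FieldP : IntermediateField K (LaurentSeries K) :=
  IntermediateField.adjoin K (divisorExpansionsC K M ∪ gamma1Gens K P M)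

/-- The `Γ₁(M)` function field for the default normaliser `E₄ / E₆`. -/
abbrev gamma1Field : IntermediateField K (LaurentSeries K) := gamma1FieldP K phiZ M

variable {K M}

theorem gen_mem_gamma1Gens {u v : K} (hu : u ^ M = 1) (hu1 : u ≠ 1) (hv : v ^ M = 1)
    (hv1 : v ≠ 1) : gen K P u v ∈ gamma1Gens K P M :=
  ⟨u, v, hu, hu1, hv, hv1, rfl⟩

theorem gen_mem {u v : K} (hu : u ^ M = 1) (hu1 : u ≠ 1) (hv : v ^ M = 1) (hv1 : v ≠ 1) :
    gen K P u v ∈ gamma1FieldP K P M :=
  subset_adjoin K _ (Or.inr (gen_mem_gamma1Gens P hu hu1 hv hv1))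

variable (K M)

theorem gamma1FieldP_eq_sup :
    gamma1FieldP K P M = modularFunctionFieldFullC K M ⊔ adjoin K (gamma1Gens K P M) :=
  adjoin_union K

/-- The `Γ₀(M)` field is contained in the `Γ₁(M)` field. -/
theorem fullC_le_gamma1FieldP : modularFunctionFieldFullC K M ≤ gamma1FieldP K P M :=
  adjoin.mono K _ _ Set.subset_union_left

theorem jqModC_mem_gamma1FieldP : jqModC K ∈ gamma1FieldP K P M :=
  fullC_le_gamma1FieldP K P M (jqModC_mem_full K M)

theorem qExpand_jqModC_mem_gamma1FieldP {d : ℕ} [NeZero d] (hd : d ∣ M) :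
    qExpand K d (jqModC K) ∈ gamma1FieldP K P M :=
  fullC_le_gamma1FieldP K P M (jqModCd_mem_full K M hd)

variable {K M}

/-- The weight-zero ratios `(x(u) - x(v)) / (x(u') - x(v'))` lie in the field. -/
theorem ratio_mem {P : PowerSeries ℤ} (hP : PowerSeries.constantCoeff P = 1) {u v u' v' : K}
    (hu : u ^ M = 1) (hu1 : u ≠ 1) (hv : v ^ M = 1) (hv1 : v ≠ 1)
    (hu' : u' ^ M = 1) (hu1' : u' ≠ 1) (hv' : v' ^ M = 1) (hv1' : v' ≠ 1) :
    HahnSeries.ofPowerSeries ℤ K (dSer u v) / HahnSeries.ofPowerSeries ℤ K (dSer u' v') ∈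
      gamma1FieldP K P M := by
  rw [← gen_div_gen hP]
  exact div_mem (gen_mem P hu hu1 hv hv1) (gen_mem P hu' hu1' hv' hv1')

/-- Monotonicity in the level. -/
theorem gamma1FieldP_mono {M M' : ℕ} (h : M ∣ M') : gamma1FieldP K P M ≤ gamma1FieldP K P M' := by
  rw [gamma1FieldP, adjoin_le_iff]
  rintro x (⟨d, hne, hdvd, rfl⟩ | ⟨u, v, hu, hu1, hv, hv1, rfl⟩)
  · have := hne
    exact qExpand_jqModC_mem_gamma1FieldP K P M' (hdvd.trans h)
  · obtain ⟨c, rfl⟩ := h
    exact gen_mem P (by rw [pow_mul, hu, one_pow]) hu1 (by rw [pow_mul, hv, one_pow]) hv1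

/-- One base point suffices: the field is generated by the `gen u w`, `w` fixed. -/
theorem gamma1FieldP_eq_adjoin_base {w : K} (hw : w ^ M = 1) (hw1 : w ≠ 1) :
    gamma1FieldP K P M = adjoin K (divisorExpansionsC K M ∪
      {x | ∃ u : K, u ^ M = 1 ∧ u ≠ 1 ∧ x = gen K P u w}) := by
  apply le_antisymm
  · rw [gamma1FieldP, adjoin_le_iff]
    rintro x (hx | ⟨u, v, hu, hu1, hv, hv1, rfl⟩)
    · exact subset_adjoin K _ (Or.inl hx)
    · rw [← gen_sub_gen P u v w]
      exact sub_mem (subset_adjoin K _ (Or.inr ⟨u, hu, hu1, rfl⟩))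
        (subset_adjoin K _ (Or.inr ⟨v, hv, hv1, rfl⟩))
  · rw [adjoin_le_iff]
    rintro x (hx | ⟨u, hu, hu1, rfl⟩)
    · exact subset_adjoin K _ (Or.inl hx)
    · exact gen_mem P hu hu1 hw hw1

/-- With a primitive `M`-th root of unity `z` the generators are the
`gen (z^a) (z^b)`, `a, b ≢ 0 mod M`. -/
theorem gamma1Gens_eq_of_isPrimitiveRoot [NeZero M] {z : K} (hz : IsPrimitiveRoot z M) :
    gamma1Gens K P M =
      {x | ∃ a b : ℕ, ¬ M ∣ a ∧ ¬ M ∣ b ∧ x = gen K P (z ^ a) (z ^ b)} := by
  ext x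
  constructor
  · rintro ⟨u, v, hu, hu1, hv, hv1, rfl⟩
    obtain ⟨a, -, rfl⟩ := hz.eq_pow_of_pow_eq_one hu
    obtain ⟨b, -, rfl⟩ := hz.eq_pow_of_pow_eq_one hv
    exact ⟨a, b, fun h => hu1 ((hz.pow_eq_one_iff_dvd a).mpr h),
      fun h => hv1 ((hz.pow_eq_one_iff_dvd b).mpr h), rfl⟩
  · rintro ⟨a, b, ha, hb, rfl⟩
    refine gen_mem_gamma1Gens P ?_ (fun h => ha ((hz.pow_eq_one_iff_dvd a).mp h)) ?_
      (fun h => hb ((hz.pow_eq_one_iff_dvd b).mp h))
    · rw [← pow_mul, mul_comm, pow_mul, hz.pow_eq_one, one_pow]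
    · rw [← pow_mul, mul_comm, pow_mul, hz.pow_eq_one, one_pow]

theorem gen_pow_mem [NeZero M] {z : K} (hz : IsPrimitiveRoot z M) {a b : ℕ} (ha : ¬ M ∣ a)
    (hb : ¬ M ∣ b) : gen K P (z ^ a) (z ^ b) ∈ gamma1FieldP K P M := by
  refine subset_adjoin K _ (Or.inr ?_)
  rw [gamma1Gens_eq_of_isPrimitiveRoot P hz]
  exact ⟨a, b, ha, hb, rfl⟩

end FieldDef

/-! ## Functoriality in the constant field and the arithmetic Galois action -/

section Functorial

variable {K K' : Type*} [Field K] [Field K'] (P : PowerSeries ℤ) {M : ℕ}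

theorem coeffMap_algebraMap_general (f : K →+* K') (c : K) :
    coeffMap f (algebraMap K (LaurentSeries K) c) = algebraMap K' (LaurentSeries K') (f c) := by
  rw [algebraMap_laurentSeries_eq_single, algebraMap_laurentSeries_eq_single, coeffMap_single]

theorem mem_gamma1FieldP_iff {x : LaurentSeries K} :
    x ∈ gamma1FieldP K P M ↔
      x ∈ Subfield.closure (Set.range (algebraMap K (LaurentSeries K)) ∪
        (divisorExpansionsC K M ∪ gamma1Gens K P M)) :=
  Iff.rfl

/-- A homomorphism of constant fields maps `Γ₁(M)` generators to `Γ₁(M)` generators. -/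
theorem coeffMap_mem_gamma1Gens (f : K →+* K') {x : LaurentSeries K}
    (hx : x ∈ gamma1Gens K P M) : coeffMap f x ∈ gamma1Gens K' P M := by
  obtain ⟨u, v, hu, hu1, hv, hv1, rfl⟩ := hx
  rw [coeffMap_gen_field]
  refine gen_mem_gamma1Gens P ?_ ?_ ?_ ?_
  · rw [← map_pow, hu, map_one]
  · exact fun h => hu1 (f.injective (h.trans (map_one f).symm))
  · rw [← map_pow, hv, map_one]
  · exact fun h => hv1 (f.injective (h.trans (map_one f).symm))

theorem coeffMap_mem_divisorExpansionsC (f : K →+* K') {x : LaurentSeries K}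
    (hx : x ∈ divisorExpansionsC K M) : coeffMap f x ∈ divisorExpansionsC K' M := by
  obtain ⟨d, hne, hdvd, rfl⟩ := hx
  have := hne
  rw [coeffMap_qExpand, coeffMap_jqModC]
  exact mem_divisorExpansionsC K' M hdvd

/-- Coefficientwise application of a homomorphism of constant fields maps the `Γ₀(M)` field
into the `Γ₀(M)` field. -/
theorem coeffMap_mem_fullC (f : K →+* K') {x : LaurentSeries K}
    (hx : x ∈ modularFunctionFieldFullC K M) : coeffMap f x ∈ modularFunctionFieldFullC K' M := by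
  change x ∈ Subfield.closure (Set.range (algebraMap K (LaurentSeries K)) ∪
      divisorExpansionsC K M) at hx
  induction hx using Subfield.closure_induction with
  | mem y hy =>
      rcases hy with ⟨a, rfl⟩ | hy
      · rw [coeffMap_algebraMap_general]
        exact (modularFunctionFieldFullC K' M).algebraMap_mem _
      · exact subset_adjoin K' _ (coeffMap_mem_divisorExpansionsC f hy)
  | one => simp
  | add x y _ _ hx hy => simpa using add_mem hx hy
  | neg x _ hx => simpa using neg_mem hx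
  | inv x _ hx => simpa using inv_mem hx
  | mul x y _ _ hx hy => simpa using mul_mem hx hy

/-- **Functoriality / stability.**  Coefficientwise application of a homomorphism of constant
fields maps the `Γ₁(M)` field into the `Γ₁(M)` field. -/
theorem coeffMap_mem_gamma1FieldP (f : K →+* K') {x : LaurentSeries K}
    (hx : x ∈ gamma1FieldP K P M) : coeffMap f x ∈ gamma1FieldP K' P M := by
  rw [mem_gamma1FieldP_iff] at hx
  induction hx using Subfield.closure_induction with
  | mem y hy =>
      rcases hy with ⟨a, rfl⟩ | hy | hy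
      · rw [coeffMap_algebraMap_general]
        exact (gamma1FieldP K' P M).algebraMap_mem _
      · exact subset_adjoin K' _ (Or.inl (coeffMap_mem_divisorExpansionsC f hy))
      · exact subset_adjoin K' _ (Or.inr (coeffMap_mem_gamma1Gens P f hy))
  | one => simp
  | add x y _ _ hx hy => simpa using add_mem hx hy
  | neg x _ hx => simpa using neg_mem hx
  | inv x _ hx => simpa using inv_mem hx
  | mul x y _ _ hx hy => simpa using mul_mem hx hy

/-- **Base change.**  If `K` contains a primitive `M`-th root of unity, the `Γ₁(M)` field over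
an extension `K'` is generated over `K'` by the `Γ₁(M)` field over `K`. -/
theorem gamma1FieldP_eq_adjoin_image [NeZero M] (f : K →+* K') {z : K}
    (hz : IsPrimitiveRoot z M) :
    gamma1FieldP K' P M =
      adjoin K' (⇑(coeffMap f) '' (gamma1FieldP K P M : Set (LaurentSeries K))) := by
  apply le_antisymm
  · rw [gamma1FieldP, adjoin_le_iff]
    rintro x (⟨d, hne, hdvd, rfl⟩ | ⟨u, v, hu, hu1, hv, hv1, rfl⟩)
    · have := hne
      refine subset_adjoin K' _ ⟨qExpand K d (jqModC K),
        qExpand_jqModC_mem_gamma1FieldP K P M hdvd, ?_⟩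
      rw [coeffMap_qExpand, coeffMap_jqModC]
    · have hz' : IsPrimitiveRoot (f z) M := hz.map_of_injective f.injective
      obtain ⟨a, -, rfl⟩ := hz'.eq_pow_of_pow_eq_one hu
      obtain ⟨b, -, rfl⟩ := hz'.eq_pow_of_pow_eq_one hv
      have ha : ¬ M ∣ a := fun h => hu1 ((hz'.pow_eq_one_iff_dvd a).mpr h)
      have hb : ¬ M ∣ b := fun h => hv1 ((hz'.pow_eq_one_iff_dvd b).mpr h)
      refine subset_adjoin K' _ ⟨gen K P (z ^ a) (z ^ b), gen_pow_mem P hz ha hb, ?_⟩
      rw [coeffMap_gen_field, map_pow, map_pow]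
  · rw [adjoin_le_iff]
    rintro _ ⟨x, hx, rfl⟩
    exact coeffMap_mem_gamma1FieldP P f hx

end Functorial

section Galois

variable {K : Type*} [Field K] (P : PowerSeries ℤ) (M : ℕ)

/-- The ring automorphism of the `Γ₁(M)` field induced by an automorphism of the constants
(coefficientwise action on `q`-expansions). -/
def gamma1RingAut (σ : K ≃+* K) : (gamma1FieldP K P M) ≃+* (gamma1FieldP K P M) where
  toFun x := ⟨coeffMap (σ : K →+* K) (x : LaurentSeries K),
    coeffMap_mem_gamma1FieldP P (σ : K →+* K) x.2⟩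
  invFun x := ⟨coeffMap (σ.symm : K →+* K) (x : LaurentSeries K),
    coeffMap_mem_gamma1FieldP P (σ.symm : K →+* K) x.2⟩
  left_inv x := Subtype.ext <| by
    show coeffMap (σ.symm : K →+* K) (coeffMap (σ : K →+* K) (x : LaurentSeries K))
      = (x : LaurentSeries K)
    rw [coeffMap_coeffMap,
      coeffMap_congr (g := RingHom.id K) (RingHom.ext fun a => σ.symm_apply_apply a)
        (x : LaurentSeries K),
      coeffMap_id]
  right_inv x := Subtype.ext <| by
    show coeffMap (σ : K →+* K) (coeffMap (σ.symm : K →+* K) (x : LaurentSeries K))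
      = (x : LaurentSeries K)
    rw [coeffMap_coeffMap,
      coeffMap_congr (g := RingHom.id K) (RingHom.ext fun a => σ.apply_symm_apply a)
        (x : LaurentSeries K),
      coeffMap_id]
  map_mul' x y :=
    Subtype.ext (map_mul (coeffMap (σ : K →+* K)) (x : LaurentSeries K) (y : LaurentSeries K))
  map_add' x y :=
    Subtype.ext (map_add (coeffMap (σ : K →+* K)) (x : LaurentSeries K) (y : LaurentSeries K))

@[simp]
theorem coe_gamma1RingAut_apply (σ : K ≃+* K) (x : gamma1FieldP K P M) :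
    (gamma1RingAut P M σ x : LaurentSeries K) = coeffMap (σ : K →+* K) (x : LaurentSeries K) :=
  rfl

theorem gamma1RingAut_algebraMap (σ : K ≃+* K) (a : K) :
    gamma1RingAut P M σ (algebraMap K (gamma1FieldP K P M) a)
      = algebraMap K (gamma1FieldP K P M) (σ a) :=
  Subtype.ext (coeffMap_algebraMap (σ : K →+* K) a)

/-- The semilinear action of the ring automorphisms of the constant field. -/
def gamma1SemilinearAut :
    RingAut K →* AlgebraicCurve.SemilinearAut K (gamma1FieldP K P M) where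
  toFun σ := ⟨(gamma1RingAut P M σ, σ), fun a => gamma1RingAut_algebraMap P M σ a⟩
  map_one' := by
    refine Subtype.ext (Prod.ext (RingEquiv.ext fun x => Subtype.ext ?_) rfl)
    show coeffMap ((1 : RingAut K) : K →+* K) (x : LaurentSeries K) = (x : LaurentSeries K)
    rw [show ((1 : RingAut K) : K →+* K) = RingHom.id K from RingHom.ext fun _ => rfl,
      coeffMap_id]
  map_mul' σ τ := by
    refine Subtype.ext (Prod.ext (RingEquiv.ext fun x => Subtype.ext ?_) rfl)
    show coeffMap ((σ * τ : RingAut K) : K →+* K) (x : LaurentSeries K)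
      = coeffMap (σ : K →+* K) (coeffMap (τ : K →+* K) (x : LaurentSeries K))
    rw [coeffMap_coeffMap]
    exact coeffMap_congr (RingHom.ext fun _ => rfl) _

variable {L : Type*} [Field L] [Algebra ℚ L]

/-- **The arithmetic Galois action on the `Γ₁(M)` field** (same shape as the Prelude
`ModularCurve.arithmeticGalois`). -/
def gamma1Galois :
    (L ≃ₐ[ℚ] L) →* AlgebraicCurve.SemilinearAut L (gamma1FieldP L P M) where
  toFun σ := ⟨(gamma1RingAut P M σ.toRingEquiv, σ.toRingEquiv),
    fun a => gamma1RingAut_algebraMap P M σ.toRingEquiv a⟩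
  map_one' := by
    refine Subtype.ext (Prod.ext (RingEquiv.ext fun x => Subtype.ext ?_) rfl)
    show coeffMap ((1 : L ≃ₐ[ℚ] L) : L →+* L) (x : LaurentSeries L) = (x : LaurentSeries L)
    rw [show ((1 : L ≃ₐ[ℚ] L) : L →+* L) = RingHom.id L from RingHom.ext fun _ => rfl,
      coeffMap_id]
  map_mul' σ τ := by
    refine Subtype.ext (Prod.ext (RingEquiv.ext fun x => Subtype.ext ?_) rfl)
    show coeffMap ((σ * τ : L ≃ₐ[ℚ] L) : L →+* L) (x : LaurentSeries L)
      = coeffMap (σ : L →+* L) (coeffMap (τ : L →+* L) (x : LaurentSeries L))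
    rw [coeffMap_coeffMap]
    exact coeffMap_congr (RingHom.ext fun _ => rfl) _

@[simp]
theorem toRingAut_gamma1Galois (σ : L ≃ₐ[ℚ] L) :
    AlgebraicCurve.SemilinearAut.toRingAut (gamma1Galois P M σ) =
      gamma1RingAut P M σ.toRingEquiv :=
  rfl

@[simp]
theorem baseAut_gamma1Galois (σ : L ≃ₐ[ℚ] L) :
    AlgebraicCurve.SemilinearAut.baseAut (gamma1Galois (L := L) P M σ) = σ.toRingEquiv :=
  rfl

theorem coe_gamma1Galois_smul (σ : L ≃ₐ[ℚ] L) (x : gamma1FieldP L P M) :
    ((gamma1Galois P M σ • x : gamma1FieldP L P M) : LaurentSeries L)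
      = coeffMap (σ : L →+* L) (x : LaurentSeries L) :=
  rfl

end Galois

/-! ## Comparison with the frozen `Γ₀(M)` fields -/

section Compare

variable (L : Type*) [Field L] [Algebra ℚ L] (P : PowerSeries ℤ) (M : ℕ)

/-- The frozen base-changed `Γ₀(M)` field is contained in the `Γ₁(M)` field. -/
theorem laurentBaseChange_le_gamma1FieldP :
    laurentBaseChange L (modularFunctionFieldFull M) ≤ gamma1FieldP L P M := by
  rw [laurentBaseChange, adjoin_le_iff]
  rintro _ ⟨x, hx, rfl⟩
  have hx' : x ∈ gamma1FieldP ℚ P M := fullC_le_gamma1FieldP ℚ P M hx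
  exact coeffMap_mem_gamma1FieldP P (algebraMap ℚ L) hx'

/-- `modularFunctionFieldBar M ≤ gamma1FieldP ℚ̄ P M`. -/
theorem modularFunctionFieldBar_le_gamma1FieldP :
    modularFunctionFieldBar M ≤ gamma1FieldP (AlgebraicClosure ℚ) P M :=
  laurentBaseChange_le_gamma1FieldP (AlgebraicClosure ℚ) P M

/-- The inclusion of the frozen `Γ₀(M)` field into the `Γ₁(M)` field. -/
def gamma0Incl :
    laurentBaseChange L (modularFunctionFieldFull M) →ₐ[L] gamma1FieldP L P M :=
  IntermediateField.inclusion (laurentBaseChange_le_gamma1FieldP L P M)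

@[simp]
theorem coe_gamma0Incl (x : laurentBaseChange L (modularFunctionFieldFull M)) :
    ((gamma0Incl L P M x : gamma1FieldP L P M) : LaurentSeries L) = (x : LaurentSeries L) :=
  IntermediateField.coe_inclusion (laurentBaseChange_le_gamma1FieldP L P M) x

theorem gamma0Incl_injective : Function.Injective (gamma0Incl L P M) :=
  (gamma0Incl L P M).injective

variable {L}

/-- The inclusion is equivariant for the two arithmetic Galois actions. -/
theorem gamma1Galois_smul_gamma0Incl (σ : L ≃ₐ[ℚ] L)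
    (x : laurentBaseChange L (modularFunctionFieldFull M)) :
    gamma1Galois P M σ • gamma0Incl L P M x =
      gamma0Incl L P M (arithmeticGalois (modularFunctionFieldFull M) σ • x) := by
  apply Subtype.ext
  rw [coe_gamma1Galois_smul, coe_gamma0Incl, coe_gamma0Incl, coe_arithmeticGalois_smul]

/-- **The arithmetic Galois action on the generators**: `σ` moves the points. -/
theorem gamma1Galois_smul_gen (σ : L ≃ₐ[ℚ] L) {u v : L} (hu : u ^ M = 1) (hu1 : u ≠ 1)
    (hv : v ^ M = 1) (hv1 : v ≠ 1)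
    (hσu : (σ u) ^ M = 1) (hσu1 : σ u ≠ 1) (hσv : (σ v) ^ M = 1) (hσv1 : σ v ≠ 1) :
    gamma1Galois P M σ • (⟨gen L P u v, gen_mem P hu hu1 hv hv1⟩ : gamma1FieldP L P M) =
      ⟨gen L P (σ u) (σ v), gen_mem P hσu hσu1 hσv hσv1⟩ := by
  apply Subtype.ext
  rw [coe_gamma1Galois_smul]
  exact coeffMap_gen_field (σ : L →+* L) P u v

/-- **Diamond form**: if `σ ζ = ζ^d` then `σ` maps `gen (ζ^a) (ζ^b)` to
`gen (ζ^(d a)) (ζ^(d b))`. -/
theorem coeffMap_gen_pow {K : Type*} [Field K] (σ : K →+* K) {z : K} {d : ℕ} (hσ : σ z = z ^ d)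
    (a b : ℕ) :
    coeffMap σ (gen K P (z ^ a) (z ^ b)) = gen K P (z ^ (d * a)) (z ^ (d * b)) := by
  rw [coeffMap_gen_field, map_pow, map_pow, hσ, ← pow_mul, ← pow_mul]

end Compare

/-! ## Integrality and reduction -/

section Integral

variable {A : Type*} [CommRing A]

/-- The constant term identity over a commutative ring in which `1 - u`, `1 - v` are units. -/
theorem xv_sub_xv_of_isUnit {u v : A} (hu : IsUnit (1 - u)) (hv : IsUnit (1 - v)) :
    xv u - xv v = (u - v) * (1 - u * v) *
      (Ring.inverse ((1 - u) ^ 2) * Ring.inverse ((1 - v) ^ 2)) := by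
  have ha : (1 - u) ^ 2 * Ring.inverse ((1 - u) ^ 2) = 1 := Ring.mul_inverse_cancel _ (hu.pow 2)
  have hb : (1 - v) ^ 2 * Ring.inverse ((1 - v) ^ 2) = 1 := Ring.mul_inverse_cancel _ (hv.pow 2)
  have key : xv u - xv v = u * Ring.inverse ((1 - u) ^ 2) * ((1 - v) ^ 2 * Ring.inverse ((1 - v) ^ 2))
      - v * Ring.inverse ((1 - v) ^ 2) * ((1 - u) ^ 2 * Ring.inverse ((1 - u) ^ 2)) := by
    rw [ha, hb, mul_one, mul_one, xv, xv]
  rw [key]
  ring

variable [IsLocalRing A] {M : ℕ}

/-- In a local ring in which `M` is invertible, a non-trivial `M`-th root of unity `u` has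
`1 - u` invertible (reduction is injective on `μ_M`). -/
theorem isUnit_one_sub_of_pow_eq_one (hM : IsUnit (M : A)) {u : A} (hu : u ^ M = 1)
    (h1 : u ≠ 1) : IsUnit (1 - u) := by
  by_contra hnu
  have hmem : u - 1 ∈ IsLocalRing.maximalIdeal A := by
    have h2 : 1 - u ∈ IsLocalRing.maximalIdeal A := (IsLocalRing.mem_maximalIdeal _).mpr hnu
    have h3 := neg_mem h2
    rwa [neg_sub] at h3
  have hgeom : (∑ i ∈ Finset.range M, u ^ i) * (u - 1) = 0 := by
    rw [geom_sum_mul, hu, sub_self]
  have hsum : (M : A) - ∑ i ∈ Finset.range M, u ^ i ∈ IsLocalRing.maximalIdeal A := by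
    have h4 : (M : A) - ∑ i ∈ Finset.range M, u ^ i = -∑ i ∈ Finset.range M, (u ^ i - 1) := by
      rw [Finset.sum_sub_distrib]
      simp
    rw [h4]
    refine neg_mem (Ideal.sum_mem _ fun i _ => ?_)
    have h5 : u - 1 ∣ u ^ i - 1 := by simpa using sub_dvd_pow_sub_pow u 1 i
    exact Ideal.mem_of_dvd _ h5 hmem
  have hS : IsUnit (∑ i ∈ Finset.range M, u ^ i) := by
    have h2 : IsUnit ((∑ i ∈ Finset.range M, u ^ i) +
        ((M : A) - ∑ i ∈ Finset.range M, u ^ i)) := by
      rw [add_sub_cancel]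
      exact hM
    rcases IsLocalRing.isUnit_or_isUnit_of_isUnit_add h2 with h | h
    · exact h
    · exact absurd h ((IsLocalRing.mem_maximalIdeal _).mp hsum)
  exact h1 (sub_eq_zero.mp (hS.mul_right_eq_zero.mp hgeom))

theorem ne_zero_of_isUnit_natCast (hM : IsUnit (M : A)) : M ≠ 0 := by
  rintro rfl
  rw [Nat.cast_zero] at hM
  exact not_isUnit_zero hM

theorem isUnit_sub_of_pow_eq_one (hM : IsUnit (M : A)) {u v : A} (hu : u ^ M = 1)
    (hv : v ^ M = 1) (h : u ≠ v) : IsUnit (u - v) := by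
  have hM0 : M ≠ 0 := ne_zero_of_isUnit_natCast hM
  have hvu : IsUnit v := IsUnit.of_pow_eq_one hv hM0
  have hvw : v * (u * v ^ (M - 1)) = u := by
    rw [mul_comm, mul_assoc, ← pow_succ, Nat.sub_add_cancel (Nat.pos_of_ne_zero hM0), hv, mul_one]
  have hwM : (u * v ^ (M - 1)) ^ M = 1 := by
    rw [mul_pow, hu, ← pow_mul, mul_comm (M - 1), pow_mul, hv, one_pow, one_mul]
  have hw1 : u * v ^ (M - 1) ≠ 1 := by
    intro h1
    apply h
    rw [← hvw, h1, mul_one]
  have h2 : u - v = -(v * (1 - u * v ^ (M - 1))) := by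
    rw [mul_sub, hvw]
    ring
  rw [h2]
  exact (hvu.mul (isUnit_one_sub_of_pow_eq_one hM hwM hw1)).neg

/-- **The leading coefficient is a unit**: in a local ring in which `M` is invertible,
`x(u) - x(v)` is a unit for `M`-th roots of unity `u, v ≠ 1` with `v ≠ u^{±1}`
(in particular at every prime not dividing `M`, `2` and `3` included). -/
theorem isUnit_xv_sub_xv (hM : IsUnit (M : A)) {u v : A} (hu : u ^ M = 1) (hu1 : u ≠ 1)
    (hv : v ^ M = 1) (hv1 : v ≠ 1) (h : u ≠ v) (h' : u * v ≠ 1) : IsUnit (xv u - xv v) := by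
  have h1u := isUnit_one_sub_of_pow_eq_one hM hu hu1
  have h1v := isUnit_one_sub_of_pow_eq_one hM hv hv1
  rw [xv_sub_xv_of_isUnit h1u h1v]
  refine ((isUnit_sub_of_pow_eq_one hM hu hv h).mul
    (isUnit_one_sub_of_pow_eq_one hM (by rw [mul_pow, hu, hv, one_mul]) h')).mul ?_
  exact (isUnit_ringInverse.mpr (h1u.pow 2)).mul (isUnit_ringInverse.mpr (h1v.pow 2))

/-- The integral generator is a unit of `A((q))`. -/
theorem isUnit_gen_of_pow_eq_one {P : PowerSeries ℤ} (hP : PowerSeries.constantCoeff P = 1)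
    (hM : IsUnit (M : A)) {u v : A} (hu : u ^ M = 1) (hu1 : u ≠ 1)
    (hv : v ^ M = 1) (hv1 : v ≠ 1) (h : u ≠ v) (h' : u * v ≠ 1) : IsUnit (gen A P u v) :=
  isUnit_gen hP (isUnit_xv_sub_xv hM hu hu1 hv hv1 h h')

/-- Functoriality of the integral generators: no unit hypothesis is left. -/
theorem coeffMap_gen_of_pow_eq_one {S : Type*} [CommRing S] (f : A →+* S) (P : PowerSeries ℤ)
    (hM : IsUnit (M : A)) {u v : A} (hu : u ^ M = 1) (hu1 : u ≠ 1) (hv : v ^ M = 1)
    (hv1 : v ≠ 1) : coeffMap f (gen A P u v) = gen S P (f u) (f v) :=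
  coeffMap_gen f P (IsUnit.of_pow_eq_one hu (ne_zero_of_isUnit_natCast hM))
    (isUnit_one_sub_of_pow_eq_one hM hu hu1)
    (IsUnit.of_pow_eq_one hv (ne_zero_of_isUnit_natCast hM))
    (isUnit_one_sub_of_pow_eq_one hM hv hv1)

theorem residue_ne_one_of_pow_eq_one (hM : IsUnit (M : A)) {u : A} (hu : u ^ M = 1)
    (h1 : u ≠ 1) : IsLocalRing.residue A u ≠ 1 := by
  intro h
  have h2 : IsLocalRing.residue A (1 - u) = 0 := by rw [map_sub, map_one, h, sub_self]
  exact (IsLocalRing.mem_maximalIdeal _).mp ((IsLocalRing.residue_eq_zero_iff _).mp h2)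
    (isUnit_one_sub_of_pow_eq_one hM hu h1)

theorem residue_ne_of_pow_eq_one (hM : IsUnit (M : A)) {u v : A} (hu : u ^ M = 1)
    (hv : v ^ M = 1) (h : u ≠ v) : IsLocalRing.residue A u ≠ IsLocalRing.residue A v := by
  intro h1
  have h2 : IsLocalRing.residue A (u - v) = 0 := by rw [map_sub, h1, sub_self]
  exact (IsLocalRing.mem_maximalIdeal _).mp ((IsLocalRing.residue_eq_zero_iff _).mp h2)
    (isUnit_sub_of_pow_eq_one hM hu hv h)

/-- A primitive `M`-th root of unity stays primitive in the residue field. -/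
theorem isPrimitiveRoot_residue (hM : IsUnit (M : A)) {z : A} (hz : IsPrimitiveRoot z M) :
    IsPrimitiveRoot (IsLocalRing.residue A z) M := by
  rw [IsPrimitiveRoot.iff_def]
  refine ⟨by rw [← map_pow, hz.pow_eq_one, map_one], fun l hl => ?_⟩
  by_contra hnd
  have h1 : z ^ l ≠ 1 := fun h => hnd ((hz.pow_eq_one_iff_dvd l).mp h)
  have h2 : (z ^ l) ^ M = 1 := by rw [← pow_mul, mul_comm, pow_mul, hz.pow_eq_one, one_pow]
  exact residue_ne_one_of_pow_eq_one hM h2 h1 (by rw [map_pow, hl])

/-- **Reduction of the generators**: the reduction of an integral `Γ₁(M)` generator is a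
`Γ₁(M)` generator of the twin over the residue field. -/
theorem coeffMap_residue_gen_mem (P : PowerSeries ℤ) (hM : IsUnit (M : A)) {u v : A}
    (hu : u ^ M = 1) (hu1 : u ≠ 1) (hv : v ^ M = 1) (hv1 : v ≠ 1) :
    coeffMap (IsLocalRing.residue A) (gen A P u v) ∈
      gamma1Gens (IsLocalRing.ResidueField A) P M := by
  rw [coeffMap_gen_of_pow_eq_one _ P hM hu hu1 hv hv1]
  exact gen_mem_gamma1Gens P (by rw [← map_pow, hu, map_one])
    (residue_ne_one_of_pow_eq_one hM hu hu1) (by rw [← map_pow, hv, map_one])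
    (residue_ne_one_of_pow_eq_one hM hv hv1)

/-- **Every generator of the twin lifts.** -/
theorem exists_gen_lift (P : PowerSeries ℤ) [NeZero M] (hM : IsUnit (M : A)) {z : A}
    (hz : IsPrimitiveRoot z M) {x : LaurentSeries (IsLocalRing.ResidueField A)}
    (hx : x ∈ gamma1Gens (IsLocalRing.ResidueField A) P M) :
    ∃ u v : A, u ^ M = 1 ∧ u ≠ 1 ∧ v ^ M = 1 ∧ v ≠ 1 ∧
      coeffMap (IsLocalRing.residue A) (gen A P u v) = x := by
  obtain ⟨u', v', hu, hu1, hv, hv1, rfl⟩ := hx
  have hz' := isPrimitiveRoot_residue hM hz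
  obtain ⟨a, -, rfl⟩ := hz'.eq_pow_of_pow_eq_one hu
  obtain ⟨b, -, rfl⟩ := hz'.eq_pow_of_pow_eq_one hv
  have hza : (z ^ a) ^ M = 1 := by rw [← pow_mul, mul_comm, pow_mul, hz.pow_eq_one, one_pow]
  have hzb : (z ^ b) ^ M = 1 := by rw [← pow_mul, mul_comm, pow_mul, hz.pow_eq_one, one_pow]
  have hza1 : z ^ a ≠ 1 := fun h => hu1 (by rw [← map_pow, h, map_one])
  have hzb1 : z ^ b ≠ 1 := fun h => hv1 (by rw [← map_pow, h, map_one])
  refine ⟨z ^ a, z ^ b, hza, hza1, hzb, hzb1, ?_⟩
  rw [coeffMap_gen_of_pow_eq_one _ P hM hza hza1 hzb hzb1, map_pow, map_pow]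

/-- **The twin is generated by the reductions of the integral generators.** -/
theorem gamma1FieldP_residue (P : PowerSeries ℤ) [NeZero M] (hM : IsUnit (M : A)) {z : A}
    (hz : IsPrimitiveRoot z M) :
    gamma1FieldP (IsLocalRing.ResidueField A) P M =
      adjoin (IsLocalRing.ResidueField A) (divisorExpansionsC (IsLocalRing.ResidueField A) M ∪
        {x | ∃ u v : A, u ^ M = 1 ∧ u ≠ 1 ∧ v ^ M = 1 ∧ v ≠ 1 ∧
          x = coeffMap (IsLocalRing.residue A) (gen A P u v)}) := by
  apply le_antisymm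
  · rw [gamma1FieldP, adjoin_le_iff]
    rintro x (hx | hx)
    · exact subset_adjoin _ _ (Or.inl hx)
    · obtain ⟨u, v, hu, hu1, hv, hv1, rfl⟩ := exists_gen_lift P hM hz hx
      exact subset_adjoin _ _ (Or.inr ⟨u, v, hu, hu1, hv, hv1, rfl⟩)
  · rw [adjoin_le_iff]
    rintro x (hx | ⟨u, v, hu, hu1, hv, hv1, rfl⟩)
    · exact subset_adjoin _ _ (Or.inl hx)
    · exact subset_adjoin _ _ (Or.inr (coeffMap_residue_gen_mem P hM hu hu1 hv hv1))

end Integral

/-! ## Valuation subrings of the constant field -/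

section ValuationSubring

variable {L : Type*} [Field L] (A : ValuationSubring L) {M : ℕ}

/-- Roots of unity lie in every valuation subring. -/
theorem mem_of_pow_eq_one (hM : M ≠ 0) {u : L} (hu : u ^ M = 1) : u ∈ A := by
  rcases A.mem_or_inv_mem u with h | h
  · exact h
  · have h1 : u ^ (M - 1) * u = 1 := by
      rw [← pow_succ, Nat.sub_add_cancel (Nat.pos_of_ne_zero hM), hu]
    have h2 : u = u⁻¹ ^ (M - 1) := by
      rw [inv_pow]
      exact (inv_eq_of_mul_eq_one_right h1).symm
    rw [h2]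
    exact pow_mem h (M - 1)

/-- A prime `ℓ ∤ M` in the maximal ideal makes `M` a unit of the valuation ring. -/
theorem isUnit_natCast_of_not_dvd {ℓ : ℕ} (hℓ : ℓ.Prime) (hℓM : ¬ ℓ ∣ M)
    (hA : (ℓ : L) ∈ A.nonunits) : IsUnit ((M : ℕ) : A) := by
  have hcop : IsCoprime (ℓ : ℤ) (M : ℤ) :=
    Nat.isCoprime_iff_coprime.mpr ((Nat.Prime.coprime_iff_not_dvd hℓ).mpr hℓM)
  obtain ⟨a, b, hab⟩ := hcop
  have hab' : ((a : ℤ) : A) * ((ℓ : ℕ) : A) + ((b : ℤ) : A) * ((M : ℕ) : A) = 1 := by
    have := congrArg (Int.cast : ℤ → A) hab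
    push_cast at this
    exact this
  have hℓm : ((ℓ : ℕ) : A) ∈ IsLocalRing.maximalIdeal A := by
    obtain ⟨hmem, hmax⟩ := (A.mem_nonunits_iff_exists_mem_maximalIdeal).mp hA
    have : (⟨(ℓ : L), hmem⟩ : A) = ((ℓ : ℕ) : A) := Subtype.ext (by simp)
    rwa [this] at hmax
  by_contra hnu
  have hMm : ((M : ℕ) : A) ∈ IsLocalRing.maximalIdeal A := (IsLocalRing.mem_maximalIdeal _).mpr hnu
  have h1 : (1 : A) ∈ IsLocalRing.maximalIdeal A := by
    rw [← hab']
    exact add_mem (Ideal.mul_mem_left _ _ hℓm) (Ideal.mul_mem_left _ _ hMm)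
  exact (Ideal.ne_top_iff_one _).mp (IsLocalRing.maximalIdeal.isMaximal A).ne_top h1

/-- **Integral models of the generators.**  Every `Γ₁(M)` generator over `L` is the image of a
Laurent series with coefficients in `A` whose reduction is a `Γ₁(M)` generator of the twin over
the residue field. -/
theorem exists_integral_gen (P : PowerSeries ℤ) (hM : IsUnit ((M : ℕ) : A))
    {x : LaurentSeries L} (hx : x ∈ gamma1Gens L P M) :
    ∃ y : LaurentSeries A, coeffMap A.subtype y = x ∧
      coeffMap (IsLocalRing.residue A) y ∈ gamma1Gens (IsLocalRing.ResidueField A) P M := by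
  obtain ⟨u, v, hu, hu1, hv, hv1, rfl⟩ := hx
  have hM0 : M ≠ 0 := ne_zero_of_isUnit_natCast hM
  have hu' : (⟨u, mem_of_pow_eq_one A hM0 hu⟩ : A) ^ M = 1 := Subtype.ext (by simpa using hu)
  have hv' : (⟨v, mem_of_pow_eq_one A hM0 hv⟩ : A) ^ M = 1 := Subtype.ext (by simpa using hv)
  have hu1' : (⟨u, mem_of_pow_eq_one A hM0 hu⟩ : A) ≠ 1 := fun h => hu1 (congrArg Subtype.val h)
  have hv1' : (⟨v, mem_of_pow_eq_one A hM0 hv⟩ : A) ≠ 1 := fun h => hv1 (congrArg Subtype.val h)
  refine ⟨gen A P ⟨u, mem_of_pow_eq_one A hM0 hu⟩ ⟨v, mem_of_pow_eq_one A hM0 hv⟩, ?_,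
    coeffMap_residue_gen_mem P hM hu' hu1' hv' hv1'⟩
  rw [coeffMap_gen_of_pow_eq_one _ P hM hu' hu1' hv' hv1']
  rfl

/-- **The inverse of a generator is integral too** (the generators are Gauss units). -/
theorem exists_integral_inv_gen {P : PowerSeries ℤ} (hP : PowerSeries.constantCoeff P = 1)
    (hM : IsUnit ((M : ℕ) : A)) {u v : L} (hu : u ^ M = 1) (hu1 : u ≠ 1) (hv : v ^ M = 1)
    (hv1 : v ≠ 1) (h : u ≠ v) (h' : u * v ≠ 1) :
    ∃ y y' : LaurentSeries A, y * y' = 1 ∧ coeffMap A.subtype y = gen L P u v ∧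
      coeffMap A.subtype y' = (gen L P u v)⁻¹ := by
  have hM0 : M ≠ 0 := ne_zero_of_isUnit_natCast hM
  have hu' : (⟨u, mem_of_pow_eq_one A hM0 hu⟩ : A) ^ M = 1 := Subtype.ext (by simpa using hu)
  have hv' : (⟨v, mem_of_pow_eq_one A hM0 hv⟩ : A) ^ M = 1 := Subtype.ext (by simpa using hv)
  have hu1' : (⟨u, mem_of_pow_eq_one A hM0 hu⟩ : A) ≠ 1 := fun h => hu1 (congrArg Subtype.val h)
  have hv1' : (⟨v, mem_of_pow_eq_one A hM0 hv⟩ : A) ≠ 1 := fun h => hv1 (congrArg Subtype.val h)
  have hne : (⟨u, mem_of_pow_eq_one A hM0 hu⟩ : A) ≠ ⟨v, mem_of_pow_eq_one A hM0 hv⟩ :=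
    fun hh => h (congrArg Subtype.val hh)
  have hne' : (⟨u, mem_of_pow_eq_one A hM0 hu⟩ : A) * ⟨v, mem_of_pow_eq_one A hM0 hv⟩ ≠ 1 :=
    fun hh => h' (congrArg Subtype.val hh)
  obtain ⟨w, hw⟩ := isUnit_gen_of_pow_eq_one hP hM hu' hu1' hv' hv1' hne hne'
  have hy : coeffMap A.subtype (gen A P ⟨u, mem_of_pow_eq_one A hM0 hu⟩
      ⟨v, mem_of_pow_eq_one A hM0 hv⟩) = gen L P u v := by
    rw [coeffMap_gen_of_pow_eq_one _ P hM hu' hu1' hv' hv1']
    rfl
  refine ⟨(w : LaurentSeries A), ((w⁻¹ : (LaurentSeries A)ˣ) : LaurentSeries A), w.mul_inv,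
    by rw [hw, hy], ?_⟩
  have h1 : coeffMap A.subtype (w : LaurentSeries A) *
      coeffMap A.subtype ((w⁻¹ : (LaurentSeries A)ˣ) : LaurentSeries A) = 1 := by
    rw [← map_mul, w.mul_inv, map_one]
  rw [hw, hy] at h1
  exact (inv_eq_of_mul_eq_one_right h1).symm

end ValuationSubring

/-! ## The `Γ₁(M)` field as an extension of the `Γ₀(M)` field -/

section Tower

variable (K : Type*) [Field K] (P : PowerSeries ℤ) (M : ℕ)

/-- There are only finitely many generators. -/
theorem gamma1Gens_finite [NeZero M] : (gamma1Gens K P M).Finite := by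
  have hfin : {u : K | u ^ M = 1}.Finite :=
    (Polynomial.nthRootsFinset M (1 : K)).finite_toSet.subset fun u hu =>
      (Polynomial.mem_nthRootsFinset (NeZero.pos M) (1 : K)).mpr hu
  refine ((hfin.prod hfin).image fun p : K × K => gen K P p.1 p.2).subset ?_
  rintro x ⟨u, v, hu, -, hv, -, rfl⟩
  exact ⟨(u, v), ⟨hu, hv⟩, rfl⟩

/-- The `Γ₁(M)` field as an intermediate field of `K((q))` over the `Γ₀(M)` field
`modularFunctionFieldFullC K M` (same carrier as `gamma1FieldP K P M`). -/
def gamma1OverC : IntermediateField ↥(modularFunctionFieldFullC K M) (LaurentSeries K) :=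
  IntermediateField.extendScalars (fullC_le_gamma1FieldP K P M)

variable {K M} in
@[simp]
theorem mem_gamma1OverC {x : LaurentSeries K} :
    x ∈ gamma1OverC K P M ↔ x ∈ gamma1FieldP K P M :=
  Iff.rfl

theorem gamma1OverC_restrictScalars :
    (gamma1OverC K P M).restrictScalars K = gamma1FieldP K P M :=
  rfl

/-- Over the `Γ₀(M)` field, the `Γ₁(M)` field is generated by the `Γ₁(M)` generators alone. -/
theorem gamma1OverC_eq_adjoin :
    gamma1OverC K P M = adjoin ↥(modularFunctionFieldFullC K M) (gamma1Gens K P M) := by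
  apply IntermediateField.restrictScalars_injective K
  rw [gamma1OverC_restrictScalars, restrictScalars_adjoin_eq_sup, gamma1FieldP_eq_sup]

/-- **Finiteness criterion**: if the (finitely many) generators are algebraic over the `Γ₀(M)`
field then the `Γ₁(M)` field is a finite extension of it. -/
theorem finiteDimensional_gamma1OverC [NeZero M]
    (h : ∀ x ∈ gamma1Gens K P M, IsIntegral ↥(modularFunctionFieldFullC K M) x) :
    FiniteDimensional ↥(modularFunctionFieldFullC K M) ↥(gamma1OverC K P M) := by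
  rw [gamma1OverC_eq_adjoin]
  have : Finite ↥(gamma1Gens K P M) := (gamma1Gens_finite K P M).to_subtype
  exact IntermediateField.finiteDimensional_adjoin h

end Tower

section TowerRat

variable (L : Type*) [Field L] [Algebra ℚ L] (P : PowerSeries ℤ) (M : ℕ)

theorem coeffEmb_qExpand_jq (d : ℕ) [NeZero d] :
    coeffEmb L (qExpand ℚ d jq) = qExpand L d (jqModC L) :=
  coeffMap_jqNModC (algebraMap ℚ L) d

/-- The base change of the frozen rational `Γ₀(M)` field is the field generated over `L` by the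
`j(q^d)`, `d ∣ M`. -/
theorem laurentBaseChange_full_eq :
    laurentBaseChange L (modularFunctionFieldFull M) = modularFunctionFieldFullC L M := by
  apply le_antisymm
  · rw [laurentBaseChange, adjoin_le_iff]
    rintro _ ⟨x, hx, rfl⟩
    exact coeffMap_mem_fullC (algebraMap ℚ L) hx
  · rw [modularFunctionFieldFullC, adjoin_le_iff]
    rintro _ ⟨d, hd, hdM, rfl⟩
    have := hd
    rw [SetLike.mem_coe, ← coeffEmb_qExpand_jq]
    exact coeffEmb_mem_laurentBaseChange L (jqd_mem_full M hdM)

/-- The `Γ₁(M)` field as an intermediate field of `L((q))` over the frozen base-changed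
`Γ₀(M)` field (same carrier as `gamma1FieldP L P M`): the type of the number-field model of
`F₁(M)` over the landed model of `F_M`. -/
def gamma1Over :
    IntermediateField ↥(laurentBaseChange L (modularFunctionFieldFull M)) (LaurentSeries L) :=
  IntermediateField.extendScalars (laurentBaseChange_le_gamma1FieldP L P M)

variable {L M} in
@[simp]
theorem mem_gamma1Over {x : LaurentSeries L} :
    x ∈ gamma1Over L P M ↔ x ∈ gamma1FieldP L P M :=
  Iff.rfl

theorem gamma1Over_restrictScalars :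
    (gamma1Over L P M).restrictScalars L = gamma1FieldP L P M :=
  rfl

theorem gamma1Over_eq_adjoin :
    gamma1Over L P M =
      adjoin ↥(laurentBaseChange L (modularFunctionFieldFull M)) (gamma1Gens L P M) := by
  apply IntermediateField.restrictScalars_injective L
  rw [gamma1Over_restrictScalars, restrictScalars_adjoin_eq_sup, gamma1FieldP_eq_sup,
    laurentBaseChange_full_eq]

/-- **Finiteness criterion** over the frozen `Γ₀(M)` field. -/
theorem finiteDimensional_gamma1Over [NeZero M]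
    (h : ∀ x ∈ gamma1Gens L P M,
      IsIntegral ↥(laurentBaseChange L (modularFunctionFieldFull M)) x) :
    FiniteDimensional ↥(laurentBaseChange L (modularFunctionFieldFull M))
      ↥(gamma1Over L P M) := by
  rw [gamma1Over_eq_adjoin]
  have : Finite ↥(gamma1Gens L P M) := (gamma1Gens_finite L P M).to_subtype
  exact IntermediateField.finiteDimensional_adjoin h

end TowerRat

/-! ## The Jacobian of `X₁(M)` with its Galois action (definitions only) -/

section Jacobian

variable (M : ℕ)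

/-- The `Γ₁(M)` function field over `ℚ̄` (default normaliser). -/
abbrev gamma1FieldBar : IntermediateField (AlgebraicClosure ℚ)
    (LaurentSeries (AlgebraicClosure ℚ)) :=
  gamma1Field (AlgebraicClosure ℚ) M

theorem modularFunctionFieldBar_le_gamma1FieldBar :
    modularFunctionFieldBar M ≤ gamma1FieldBar M :=
  modularFunctionFieldBar_le_gamma1FieldP phiZ M

/-- `Pic⁰` of the `Γ₁(M)` function field over `ℚ̄` (the Jacobian of `X_μ(M) ≅ X₁(M)`). -/
abbrev JOne : Type _ := AlgebraicCurve.Pic0 (AlgebraicClosure ℚ) (gamma1FieldBar M)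

/-- The Galois representation on the `n`-torsion of `JOne M` induced by the arithmetic
(coefficientwise) Galois action; same shape as the Prelude `JZero.torsionGaloisRep`. -/
def JOne.torsionGaloisRep (n : ℕ) :
    (AlgebraicClosure ℚ ≃ₐ[ℚ] AlgebraicClosure ℚ) →*
      Module.End (ZMod n)
        (AlgebraicCurve.Pic0.torsion (AlgebraicClosure ℚ) (gamma1FieldBar M) n) :=
  (AlgebraicCurve.SemilinearAut.torsionRep _ _ n).comp (gamma1Galois phiZ M)

@[simp]
theorem JOne.torsionGaloisRep_apply {n : ℕ}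
    (σ : AlgebraicClosure ℚ ≃ₐ[ℚ] AlgebraicClosure ℚ)
    (x : AlgebraicCurve.Pic0.torsion (AlgebraicClosure ℚ) (gamma1FieldBar M) n) :
    JOne.torsionGaloisRep M n σ x = gamma1Galois phiZ M σ • x :=
  rfl

end Jacobian

/-! ## Change of normaliser and the ratio-generated subfield -/

section Normalisers

variable {K K' : Type*} [Field K] [Field K'] {M : ℕ}

/-- If the normaliser `P` is a multiple of `P'` by an element of the `Γ₁(M)` field for `P'`,
then the field for `P` is contained in the field for `P'`. -/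
theorem gamma1FieldP_le_of_normaliser {P P' : PowerSeries ℤ} {c : LaurentSeries K}
    (hc : c ∈ gamma1FieldP K P' M)
    (h : HahnSeries.ofPowerSeries ℤ K (zSer K P) = c * HahnSeries.ofPowerSeries ℤ K (zSer K P')) :
    gamma1FieldP K P M ≤ gamma1FieldP K P' M := by
  rw [gamma1FieldP, adjoin_le_iff]
  rintro x (hx | ⟨u, v, hu, hu1, hv, hv1, rfl⟩)
  · exact subset_adjoin K _ (Or.inl hx)
  · have h1 : gen K P u v = c * gen K P' u v := by
      rw [gen_def, gen_def, h, mul_assoc]
    rw [SetLike.mem_coe, h1]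
    exact mul_mem hc (gen_mem P' hu hu1 hv hv1)

/-- **Change of normaliser**: two normalisers whose quotient lies in the `Γ₀(M)` field give
the same `Γ₁(M)` field. -/
theorem gamma1FieldP_eq_of_normaliser {P P' : PowerSeries ℤ}
    (hP : PowerSeries.constantCoeff P = 1) {c : LaurentSeries K}
    (hc : c ∈ modularFunctionFieldFullC K M)
    (h : HahnSeries.ofPowerSeries ℤ K (zSer K P) = c * HahnSeries.ofPowerSeries ℤ K (zSer K P')) :
    gamma1FieldP K P M = gamma1FieldP K P' M := by
  have hP0 : HahnSeries.ofPowerSeries ℤ K (zSer K P) ≠ 0 :=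
    (map_ne_zero_iff _ HahnSeries.ofPowerSeries_injective).mpr (zSer_ne_zero hP)
  have hc0 : c ≠ 0 := by
    rintro rfl
    rw [zero_mul] at h
    exact hP0 h
  apply le_antisymm
  · exact gamma1FieldP_le_of_normaliser (fullC_le_gamma1FieldP K P' M hc) h
  · refine gamma1FieldP_le_of_normaliser (c := c⁻¹)
      (fullC_le_gamma1FieldP K P M (inv_mem hc)) ?_
    rw [h, ← mul_assoc, inv_mul_cancel₀ hc0, one_mul]

variable (K M)

/-- The weight-zero ratio `(x(u) - x(v)) / (x(u') - x(v'))`. -/
def dRatio (u v u' v' : K) : LaurentSeries K :=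
  HahnSeries.ofPowerSeries ℤ K (dSer u v) / HahnSeries.ofPowerSeries ℤ K (dSer u' v')

/-- The ratio generators: all `dRatio u v u' v'` with `u, v, u', v'` non-trivial `M`-th roots of
unity of `K` (the ratio is `0` when the denominator vanishes). -/
def gamma1RatioGens : Set (LaurentSeries K) :=
  {x | ∃ u v u' v' : K, u ^ M = 1 ∧ u ≠ 1 ∧ v ^ M = 1 ∧ v ≠ 1 ∧ u' ^ M = 1 ∧ u' ≠ 1 ∧
    v' ^ M = 1 ∧ v' ≠ 1 ∧ x = dRatio K u v u' v'}

/-- The subfield generated over the `Γ₀(M)` generators by the weight-zero ratios (no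
normaliser).  It equals the `Γ₁(M)` field as soon as it contains one non-zero normalised
generator (`gamma1RatioField_eq_of_gen_mem`); for `M = 5` it is strictly smaller. -/
def gamma1RatioField : IntermediateField K (LaurentSeries K) :=
  IntermediateField.adjoin K (divisorExpansionsC K M ∪ gamma1RatioGens K M)

variable {K M}

theorem dRatio_mem {u v u' v' : K} (hu : u ^ M = 1) (hu1 : u ≠ 1) (hv : v ^ M = 1) (hv1 : v ≠ 1)
    (hu' : u' ^ M = 1) (hu1' : u' ≠ 1) (hv' : v' ^ M = 1) (hv1' : v' ≠ 1) :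
    dRatio K u v u' v' ∈ gamma1RatioField K M :=
  subset_adjoin K _ (Or.inr ⟨u, v, u', v', hu, hu1, hv, hv1, hu', hu1', hv', hv1', rfl⟩)

theorem fullC_le_gamma1RatioField : modularFunctionFieldFullC K M ≤ gamma1RatioField K M :=
  adjoin.mono K _ _ Set.subset_union_left

theorem gen_div_gen_eq_dRatio {P : PowerSeries ℤ} (hP : PowerSeries.constantCoeff P = 1)
    (u v u' v' : K) : gen K P u v / gen K P u' v' = dRatio K u v u' v' :=
  gen_div_gen hP u v u' v'

/-- The ratio field is contained in the `Γ₁(M)` field of any normaliser. -/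
theorem gamma1RatioField_le {P : PowerSeries ℤ} (hP : PowerSeries.constantCoeff P = 1) :
    gamma1RatioField K M ≤ gamma1FieldP K P M := by
  rw [gamma1RatioField, adjoin_le_iff]
  rintro x (hx | ⟨u, v, u', v', hu, hu1, hv, hv1, hu', hu1', hv', hv1', rfl⟩)
  · exact subset_adjoin K _ (Or.inl hx)
  · exact ratio_mem hP hu hu1 hv hv1 hu' hu1' hv' hv1'

/-- **Equality criterion**: if the ratio field contains one non-zero normalised generator
(e.g. a diamond-invariant one, which lies in the `Γ₀(M)` field), it is the whole `Γ₁(M)`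
field. -/
theorem gamma1RatioField_eq_of_gen_mem {P : PowerSeries ℤ}
    (hP : PowerSeries.constantCoeff P = 1) {u₀ v₀ : K} (hu₀ : u₀ ^ M = 1) (hu₀1 : u₀ ≠ 1)
    (hv₀ : v₀ ^ M = 1) (hv₀1 : v₀ ≠ 1) (hne : u₀ ≠ v₀) (hne' : u₀ * v₀ ≠ 1)
    (h : gen K P u₀ v₀ ∈ gamma1RatioField K M) :
    gamma1RatioField K M = gamma1FieldP K P M := by
  apply le_antisymm (gamma1RatioField_le hP)
  rw [gamma1FieldP, adjoin_le_iff]
  rintro x (hx | ⟨u, v, hu, hu1, hv, hv1, rfl⟩)
  · exact subset_adjoin K _ (Or.inl hx)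
  · have h0 : gen K P u₀ v₀ ≠ 0 := gen_ne_zero hP hu₀1 hv₀1 hne hne'
    have h1 : gen K P u v = dRatio K u v u₀ v₀ * gen K P u₀ v₀ := by
      rw [← gen_div_gen_eq_dRatio hP, div_mul_cancel₀ _ h0]
    rw [SetLike.mem_coe, h1]
    exact mul_mem (dRatio_mem hu hu1 hv hv1 hu₀ hu₀1 hv₀ hv₀1) h

theorem coeffMap_dRatio (f : K →+* K') (u v u' v' : K) :
    coeffMap f (dRatio K u v u' v') = dRatio K' (f u) (f v) (f u') (f v') := by
  rw [dRatio, dRatio, map_div₀, coeffMap_ofPowerSeries, coeffMap_ofPowerSeries, map_dSer_field,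
    map_dSer_field]

theorem coeffMap_mem_gamma1RatioGens (f : K →+* K') {x : LaurentSeries K}
    (hx : x ∈ gamma1RatioGens K M) : coeffMap f x ∈ gamma1RatioGens K' M := by
  obtain ⟨u, v, u', v', hu, hu1, hv, hv1, hu', hu1', hv', hv1', rfl⟩ := hx
  have key : ∀ w : K, w ^ M = 1 → w ≠ 1 → (f w) ^ M = 1 ∧ f w ≠ 1 := fun w hw hw1 =>
    ⟨by rw [← map_pow, hw, map_one], fun h => hw1 (f.injective (h.trans (map_one f).symm))⟩
  exact ⟨f u, f v, f u', f v', (key u hu hu1).1, (key u hu hu1).2, (key v hv hv1).1,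
    (key v hv hv1).2, (key u' hu' hu1').1, (key u' hu' hu1').2, (key v' hv' hv1').1,
    (key v' hv' hv1').2, coeffMap_dRatio f u v u' v'⟩

/-- Functoriality / Galois stability of the ratio field. -/
theorem coeffMap_mem_gamma1RatioField (f : K →+* K') {x : LaurentSeries K}
    (hx : x ∈ gamma1RatioField K M) : coeffMap f x ∈ gamma1RatioField K' M := by
  change x ∈ Subfield.closure (Set.range (algebraMap K (LaurentSeries K)) ∪
      (divisorExpansionsC K M ∪ gamma1RatioGens K M)) at hx
  induction hx using Subfield.closure_induction with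
  | mem y hy =>
      rcases hy with ⟨a, rfl⟩ | hy | hy
      · rw [coeffMap_algebraMap_general]
        exact (gamma1RatioField K' M).algebraMap_mem _
      · exact subset_adjoin K' _ (Or.inl (coeffMap_mem_divisorExpansionsC f hy))
      · exact subset_adjoin K' _ (Or.inr (coeffMap_mem_gamma1RatioGens f hy))
  | one => simp
  | add x y _ _ hx hy => simpa using add_mem hx hy
  | neg x _ hx => simpa using neg_mem hx
  | inv x _ hx => simpa using inv_mem hx
  | mul x y _ _ hx hy => simpa using mul_mem hx hy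

end Normalisers

end Fermat.Agent.S48.helper7300
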