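/-
S48-M1-MODEL, carrier side (helper1267): THE `Γ₁(M)` FIELD OF `helper7300` IS GENERATED BY SERIES
WITH FINITELY GENERATED COEFFICIENTS.

* `gen_mem_fgCoeff` : the generators `helper7300.gen K P u v` (`u, v` `M`-th roots of unity) have
  coefficients in a finitely generated `ℤ`-module;
* `gamma1Gens_subset_fgCoeff`, `gamma1FieldP_gens_subset_fgCoeff`;
* `isNormalizable_of_mem_gamma1FieldP` : every nonzero element of `gamma1FieldP K P M` is
  normalisable for every valuation subring of `K` (the `norm` field of `helper8782.IsQGauss`);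
* `isFgFrac_of_mem_gamma1FieldP`, `fgForm_of_le_gamma1FieldP` : a `ℚ`-form whose base change to
  `ℚ̄` lies in `gamma1FieldP ℚ̄ P M` satisfies `FgForm` (the hypothesis of `gaussLayer`).
-/
import Mathlib
import Fermat.Agent.S48.helper1267_LayerModel
import Fermat.Agent.S48.helper7300_Gamma1Field

set_option autoImplicit false

open HahnSeries ModularCurve

namespace Fermat.Agent.S48.helper1267

open Fermat.Agent.S18

noncomputable section

section Carrier

variable {K : Type*} [Field K]

/-- A power series whose coefficients lie in a finitely generated `ℤ`-module, as a Laurent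
series with finitely generated coefficients. -/
theorem ofPowerSeries_mem_fgCoeff (p : PowerSeries K) (Mo : Submodule ℤ K) (hMo : Mo.FG)
    (h : ∀ n, PowerSeries.coeff n p ∈ Mo) :
    HahnSeries.ofPowerSeries ℤ K p ∈ helper8991.fgCoeff K := by
  refine ⟨Mo, hMo, fun k => ?_⟩
  rcases le_or_gt 0 k with hk | hk
  · lift k to ℕ using hk
    rw [HahnSeries.ofPowerSeries_apply_coeff]
    exact h k
  · rw [ofPowerSeries_coeff_of_neg _ hk]
    exact zero_mem _

/-- The image of an integral power series has finitely generated coefficients. -/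
theorem zSer_mem_fgCoeff (P : PowerSeries ℤ) :
    HahnSeries.ofPowerSeries ℤ K (helper7300.zSer K P) ∈ helper8991.fgCoeff K := by
  refine ofPowerSeries_mem_fgCoeff _ (Submodule.span ℤ {1}) (Submodule.fg_span_singleton 1)
    fun n => ?_
  have h : PowerSeries.coeff n (helper7300.zSer K P) = (PowerSeries.coeff n P) • (1 : K) := by
    rw [helper7300.zSer, PowerSeries.coeff_map]
    simp
  rw [h]
  exact Submodule.smul_mem _ _ (Submodule.subset_span rfl)

/-- The difference series `x(u) - x(v)` of two `M`-th roots of unity has finitely generated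
coefficients (they lie in `ℤ[u, v] + ℤ (x(u) - x(v))`). -/
theorem dSer_mem_fgCoeff {M : ℕ} (hM : M ≠ 0) {u v : K} (hu : u ^ M = 1) (hv : v ^ M = 1) :
    HahnSeries.ofPowerSeries ℤ K (helper7300.dSer u v) ∈ helper8991.fgCoeff K := by
  classical
  let T : Finset K := (Finset.range M).image (fun i => u ^ i) ∪
    (Finset.range M).image (fun i => v ^ i) ∪ {1, helper7300.xv u - helper7300.xv v}
  refine ofPowerSeries_mem_fgCoeff _ (Submodule.span ℤ (T : Set K))
    (Submodule.fg_span T.finite_toSet) fun n => ?_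
  have hT1 : (1 : K) ∈ T :=
    Finset.mem_union_right _ (Finset.mem_insert_self _ _)
  have hTx : helper7300.xv u - helper7300.xv v ∈ T :=
    Finset.mem_union_right _ (Finset.mem_insert_of_mem (Finset.mem_singleton_self _))
  have huT : ∀ i < M, u ^ i ∈ T := fun i hi =>
    Finset.mem_union_left _ (Finset.mem_union_left _
      (Finset.mem_image.mpr ⟨i, Finset.mem_range.mpr hi, rfl⟩))
  have hvT : ∀ i < M, v ^ i ∈ T := fun i hi =>
    Finset.mem_union_left _ (Finset.mem_union_right _
      (Finset.mem_image.mpr ⟨i, Finset.mem_range.mpr hi, rfl⟩))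
  have h1 : (1 : K) ∈ Submodule.span ℤ (T : Set K) := Submodule.subset_span hT1
  have hpow : ∀ w : K, w ^ M = 1 → (∀ i < M, w ^ i ∈ T) →
      ∀ d : ℕ, w ^ d ∈ Submodule.span ℤ (T : Set K) := by
    intro w hw hT d
    rw [pow_eq_pow_mod d hw]
    exact Submodule.subset_span (hT _ (Nat.mod_lt _ (Nat.pos_of_ne_zero hM)))
  have hinv : ∀ w : K, w ^ M = 1 → Ring.inverse w = w ^ (M - 1) := by
    intro w hw
    rw [Ring.inverse_eq_inv']
    apply inv_eq_of_mul_eq_one_right
    rw [← pow_succ', Nat.sub_add_cancel (Nat.pos_of_ne_zero hM), hw]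
  have hwp : ∀ w : K, w ^ M = 1 → (∀ i < M, w ^ i ∈ T) →
      ∀ n, helper7300.wpCoeff w n ∈ Submodule.span ℤ (T : Set K) := by
    intro w hw hT n
    unfold helper7300.wpCoeff
    refine Submodule.sum_mem _ fun d _ => ?_
    have hx : w ^ d + Ring.inverse w ^ d - 2 ∈ Submodule.span ℤ (T : Set K) := by
      rw [hinv w hw, ← pow_mul]
      refine sub_mem (add_mem (hpow w hw hT d) (hpow w hw hT _)) ?_
      have h2 : (2 : K) = 1 + 1 := by norm_num
      rw [h2]
      exact add_mem h1 h1
    have h3 : (d : K) * (w ^ d + Ring.inverse w ^ d - 2) =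
        d • (w ^ d + Ring.inverse w ^ d - 2) := by rw [nsmul_eq_mul]
    rw [h3]
    exact nsmul_mem hx d
  by_cases hn : n = 0
  · subst hn
    rw [helper7300.coeff_dSer_zero]
    exact Submodule.subset_span hTx
  · rw [helper7300.coeff_dSer_of_ne_zero u v hn]
    exact sub_mem (hwp u hu huT n) (hwp v hv hvT n)

/-- **The `Γ₁(M)` generators have finitely generated coefficients.** -/
theorem gen_mem_fgCoeff (P : PowerSeries ℤ) {M : ℕ} (hM : M ≠ 0) {u v : K} (hu : u ^ M = 1)
    (hv : v ^ M = 1) : helper7300.gen K P u v ∈ helper8991.fgCoeff K := by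
  rw [helper7300.gen_def]
  exact mul_mem (zSer_mem_fgCoeff P) (dSer_mem_fgCoeff hM hu hv)

theorem gamma1Gens_subset_fgCoeff (P : PowerSeries ℤ) {M : ℕ} (hM : M ≠ 0) :
    helper7300.gamma1Gens K P M ⊆ (helper8991.fgCoeff K : Set (LaurentSeries K)) := by
  rintro x ⟨u, v, hu, -, hv, -, rfl⟩
  exact gen_mem_fgCoeff P hM hu hv

/-- All generators of `gamma1FieldP K P M` have finitely generated coefficients. -/
theorem gamma1FieldP_gens_subset_fgCoeff (P : PowerSeries ℤ) {M : ℕ} (hM : M ≠ 0) :
    divisorExpansionsC K M ∪ helper7300.gamma1Gens K P M ⊆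
      (helper8991.fgCoeff K : Set (LaurentSeries K)) :=
  Set.union_subset (helper8991.divisorExpansionsC_subset_fgCoeff M)
    (gamma1Gens_subset_fgCoeff P hM)

/-- Every nonzero element of the `Γ₁(M)` field is normalisable with respect to EVERY valuation
subring of the coefficient field (the `norm` field of `helper8782.IsQGauss`). -/
theorem isNormalizable_of_mem_gamma1FieldP (P : PowerSeries ℤ) {M : ℕ} (hM : M ≠ 0)
    (A : ValuationSubring K) {k : Type*} [Field k] (π : A →+* k) {f : LaurentSeries K}
    (hf : f ∈ helper7300.gamma1FieldP K P M) (hf0 : f ≠ 0) :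
    helper8991.IsNormalizable A π f :=
  helper8991.isNormalizable_of_mem_adjoin A π (gamma1FieldP_gens_subset_fgCoeff P hM) hf hf0

/-- Every element of the `Γ₁(M)` field is a fraction of series with finitely generated
coefficients. -/
theorem isFgFrac_of_mem_gamma1FieldP (P : PowerSeries ℤ) {M : ℕ} (hM : M ≠ 0)
    {f : LaurentSeries K} (hf : f ∈ helper7300.gamma1FieldP K P M) : IsFgFrac f :=
  isFgFrac_of_mem_adjoin
    (fun _ hx => IsFgFrac.of_mem (gamma1FieldP_gens_subset_fgCoeff P hM hx)) hf

end Carrier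

local notation "Qb" => AlgebraicClosure ℚ

/-- **`FgForm` for every `ℚ`-form inside the `Γ₁(M)` field**: if the base change of `F₁` to `ℚ̄`
lies in `gamma1FieldP ℚ̄ P M` (e.g. `F₁ = ratPoints` of it, for which equality holds), then the
`q`-expansion Gauss ring `gaussLayer F₁ K0 A` exists at every number-field level. -/
theorem fgForm_of_le_gamma1FieldP (P : PowerSeries ℤ) {M : ℕ} (hM : M ≠ 0)
    (F₁ : IntermediateField ℚ (LaurentSeries ℚ))
    (h : laurentBaseChange Qb F₁ ≤ helper7300.gamma1FieldP Qb P M) : FgForm F₁ :=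
  fun _ hx => isFgFrac_of_mem_gamma1FieldP P hM (h hx)

end

end Fermat.Agent.S48.helper1267
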