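import Fermat.Agent.S48.helper1398_ChebSpec

/-!
# S48 / F5 — assembly of the symmetric Chebotarev density theorem (helper1398)

`chebSymNF_of : Stmt_PairNF → Stmt_CrossAbs → Stmt_FrobClass → Stmt_ChebSymNF`.
-/

set_option autoImplicit false
set_option maxHeartbeats 1000000

namespace Fermat.Agent.S48.helper1398

open NumberField

open scoped Classical

noncomputable section

/-! ### Prime sums with a condition -/

theorem summable_primes_rpow {s : ℝ} (hs : 1 < s) :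
    Summable (fun ℓ : Nat.Primes => ((ℓ : ℕ) : ℝ) ^ (-s)) :=
  Nat.Primes.summable_rpow.mpr (by linarith)

theorem rpow_neg_nonneg (ℓ : Nat.Primes) (s : ℝ) : 0 ≤ ((ℓ : ℕ) : ℝ) ^ (-s) :=
  Real.rpow_nonneg (Nat.cast_nonneg _) _

theorem summable_ite_primes {s : ℝ} (hs : 1 < s) (P : Nat.Primes → Prop)
    [∀ ℓ, Decidable (P ℓ)] :
    Summable (fun ℓ : Nat.Primes => if P ℓ then ((ℓ : ℕ) : ℝ) ^ (-s) else 0) := by
  refine Summable.of_nonneg_of_le (fun ℓ => ?_) (fun ℓ => ?_) (summable_primes_rpow hs)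
  · split_ifs
    · exact rpow_neg_nonneg ℓ s
    · exact le_rfl
  · split_ifs
    · exact le_rfl
    · exact rpow_neg_nonneg ℓ s

theorem logPole_nonneg {s : ℝ} (hs : 1 < s) (hs2 : s ≤ 2) : 0 ≤ logPole s := by
  unfold logPole
  apply Real.log_nonneg
  rw [le_div_iff₀ (by linarith)]
  linarith

theorem logPole_two : logPole 2 = 0 := by
  unfold logPole
  norm_num

theorem frobResSum_nonneg (E : Type*) [Field E] [NumberField E] (T : Finset ℕ) (q : ℕ)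
    (σ : E ≃ₐ[ℚ] E) (c : ZMod q) (s : ℝ) : 0 ≤ frobResSum E T q σ c s := by
  unfold frobResSum
  refine tsum_nonneg fun ℓ => ?_
  split_ifs
  · exact rpow_neg_nonneg ℓ s
  · exact le_rfl

theorem frobSum_nonneg (E : Type*) [Field E] [NumberField E] (T : Finset ℕ)
    (X : Set (E ≃ₐ[ℚ] E)) (s : ℝ) : 0 ≤ frobSum E T X s := by
  unfold frobSum
  refine tsum_nonneg fun ℓ => ?_
  split_ifs
  · exact rpow_neg_nonneg ℓ s
  · exact le_rfl

/-- Summing `frobResSum` over all residues `c` forgets the residue condition. -/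
theorem sum_frobResSum (E : Type*) [Field E] [NumberField E] (T : Finset ℕ) (q : ℕ)
    [NeZero q] (σ : E ≃ₐ[ℚ] E) {s : ℝ} (hs : 1 < s) :
    ∑ c : ZMod q, frobResSum E T q σ c s =
      ∑' ℓ : Nat.Primes, if (ℓ : ℕ) ∉ T ∧ IsFrobNF E ℓ σ then ((ℓ : ℕ) : ℝ) ^ (-s) else 0 := by
  unfold frobResSum
  refine (Summable.tsum_finsetSum (fun c _ => summable_ite_primes hs _)).symm.trans
    (tsum_congr fun ℓ => ?_)
  by_cases h : (ℓ : ℕ) ∉ T ∧ IsFrobNF E ℓ σ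
  · rw [if_pos h]
    have : ∀ c : ZMod q, (if (ℓ : ℕ) ∉ T ∧ IsFrobNF E ℓ σ ∧ ((ℓ : ℕ) : ZMod q) ^ 2 = c then
        ((ℓ : ℕ) : ℝ) ^ (-s) else 0) =
        if ((ℓ : ℕ) : ZMod q) ^ 2 = c then ((ℓ : ℕ) : ℝ) ^ (-s) else 0 := by
      intro c
      by_cases hc : ((ℓ : ℕ) : ZMod q) ^ 2 = c
      · rw [if_pos ⟨h.1, h.2, hc⟩, if_pos hc]
      · rw [if_neg (fun h' => hc h'.2.2), if_neg hc]
    simp_rw [this]
    rw [Finset.sum_ite_eq]
    simp
  · rw [if_neg h]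
    refine Finset.sum_eq_zero fun c _ => ?_
    rw [if_neg]
    intro h'
    exact h ⟨h'.1, h'.2.1⟩

/-- The size of the conjugacy class. -/
abbrev clsCard {G : Type*} [Group G] (σ : G) : ℕ := Nat.card {τ : G // IsConj σ τ}

theorem clsCard_pos {G : Type*} [Group G] [Finite G] (σ : G) : 0 < clsCard σ :=
  Nat.card_pos_iff.mpr ⟨⟨⟨σ, IsConj.refl σ⟩⟩, inferInstance⟩

theorem clsCard_eq_of_isConj {G : Type*} [Group G] {σ τ : G} (h : IsConj σ τ) :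
    clsCard σ = clsCard τ := by
  refine Nat.card_congr (Equiv.subtypeEquivRight fun ρ => ?_)
  exact ⟨fun h1 => h.symm.trans h1, fun h1 => h.trans h1⟩

theorem clsCard_inv {G : Type*} [Group G] (σ : G) : clsCard σ⁻¹ = clsCard σ := by
  refine Nat.card_congr ⟨fun ρ => ⟨ρ.1⁻¹, ?_⟩, fun ρ => ⟨ρ.1⁻¹, ?_⟩, fun ρ => ?_, fun ρ => ?_⟩
  · obtain ⟨c, hc⟩ := isConj_iff.mp ρ.2
    exact isConj_iff.mpr ⟨c, by rw [← hc]; group⟩
  · obtain ⟨c, hc⟩ := isConj_iff.mp ρ.2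
    exact isConj_iff.mpr ⟨c, by rw [← hc]; group⟩
  · simp
  · simp

/-- Key termwise inequality: the Frobenius elements over `ℓ` lying in `X`, each weighted by the
inverse of its class size, weigh at most `1`. -/
theorem sum_weight_le_one {G : Type*} [Group G] [Fintype G] (X : Finset G) (P : G → Prop)
    [DecidablePred P] [Decidable (∃ τ ∈ X, P τ)]
    (hP : ∀ σ τ, P σ → P τ → IsConj σ τ) :
    ∑ σ ∈ X, (if P σ then ((clsCard σ : ℝ))⁻¹ else 0) ≤ if ∃ τ ∈ X, P τ then 1 else 0 := by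
  by_cases hex : ∃ τ ∈ X, P τ
  · rw [if_pos hex]
    obtain ⟨σ₀, hσ₀X, hσ₀⟩ := hex
    rw [← Finset.sum_filter]
    have h1 : ∀ σ ∈ X.filter P, ((clsCard σ : ℝ))⁻¹ = ((clsCard σ₀ : ℝ))⁻¹ := by
      intro σ hσ
      rw [clsCard_eq_of_isConj (hP σ σ₀ (Finset.mem_filter.mp hσ).2 hσ₀)]
    rw [Finset.sum_congr rfl h1, Finset.sum_const, nsmul_eq_mul]
    have hpos : (0 : ℝ) < clsCard σ₀ := by exact_mod_cast clsCard_pos σ₀
    rw [← div_eq_mul_inv, div_le_one hpos]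
    have h2 : (X.filter P).card ≤ clsCard σ₀ := by
      have : (X.filter P).card = Nat.card {σ // σ ∈ X.filter P} := by
        rw [Nat.card_eq_fintype_card, Fintype.card_coe]
      rw [this]
      refine Nat.card_le_card_of_injective
        (fun σ => (⟨σ.1, hP σ₀ σ.1 hσ₀ (Finset.mem_filter.mp σ.2).2⟩ : {τ : G // IsConj σ₀ τ}))
        (fun a b h => Subtype.ext (by simpa using congrArg Subtype.val h))
    exact_mod_cast h2
  · rw [if_neg hex]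
    refine le_of_eq (Finset.sum_eq_zero fun σ hσ => ?_)
    rw [if_neg]
    intro h
    exact hex ⟨σ, hσ, h⟩

/-- **Assembly.** -/
theorem chebSymNF_of (h1 : Stmt_PairNF) (h2 : Stmt_CrossAbs) (h3 : Stmt_FrobClass) :
    Stmt_ChebSymNF := by
  intro E _ _ _ X hconj hinv T ε hε
  set N : ℕ := Fintype.card (E ≃ₐ[ℚ] E) with hN
  have hNpos : 0 < N := Fintype.card_pos
  have hNR : (0 : ℝ) < N := by exact_mod_cast hNpos
  -- choose `k`
  obtain ⟨k, hk⟩ : ∃ k : ℕ, 4 * (N : ℝ) ^ 2 / 2 ^ k ≤ ε := by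
    obtain ⟨k, hk⟩ := pow_unbounded_of_one_lt (4 * (N : ℝ) ^ 2 / ε) (by norm_num : (1 : ℝ) < 2)
    refine ⟨k, ?_⟩
    rw [div_le_iff₀ (by positivity)]
    rw [div_lt_iff₀ hε] at hk
    linarith
  -- choose `q`
  have hmod0 : (4 * N) ^ k ≠ 0 := pow_ne_zero _ (by omega)
  obtain ⟨q, hq, hq2, hqmod⟩ := Nat.exists_prime_gt_modEq_one (k := (4 * N) ^ k) 2 hmod0
  have : Fact q.Prime := ⟨hq⟩
  have hdvd : (4 * N) ^ k ∣ q - 1 := (Nat.modEq_iff_dvd' hq.one_le).mp hqmod.symm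
  -- the exceptional sets
  obtain ⟨T₀, hT₀⟩ := h3 E
  set T₁ : Finset ℕ := T ∪ T₀ with hT₁
  obtain ⟨Δ, hπ, hcard, hPB⟩ := h1 E q (by omega) T₁
  -- uniform constant
  have hex : ∀ p : (E ≃ₐ[ℚ] E) × (ZMod q)ˣ, ∃ B : ℝ, p ∈ Δ → 4 * orderOf p.1 ∣ orderOf p.2 →
      ∀ s : ℝ, 1 < s → s < 2 →
        4 * (clsCard p.1 : ℝ) / (Nat.card Δ : ℝ) * logPole s - B ≤
          frobResSum E T₁ q p.1 ((p.2 : ZMod q) ^ 2) s +
            frobResSum E T₁ q p.1⁻¹ (((p.2⁻¹ : (ZMod q)ˣ) : ZMod q) ^ 2) s := by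
    intro p
    by_cases h : p ∈ Δ ∧ 4 * orderOf p.1 ∣ orderOf p.2
    · obtain ⟨B, hB⟩ := hPB p.1 p.2 h.1 h.2
      exact ⟨B, fun _ _ => hB⟩
    · exact ⟨0, fun h1 h2 => absurd ⟨h1, h2⟩ h⟩
  choose Bf hBf using hex
  set B₀ : ℝ := ∑ p, |Bf p| with hB₀
  have hB₀nn : 0 ≤ B₀ := Finset.sum_nonneg fun p _ => abs_nonneg _
  have hBle : ∀ p, Bf p ≤ B₀ := fun p =>
    (le_abs_self _).trans (Finset.single_le_sum (f := fun p => |Bf p|)
      (fun _ _ => abs_nonneg _) (Finset.mem_univ p))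
  set X' : Finset (E ≃ₐ[ℚ] E) := X.toFinset with hX'
  have hX'inv : ∀ σ ∈ X', σ⁻¹ ∈ X' := by
    intro σ hσ
    rw [hX', Set.mem_toFinset] at hσ ⊢
    exact hinv σ hσ
  have hXcard : (X.ncard : ℝ) = (X'.card : ℝ) := by
    rw [Set.ncard_eq_toFinset_card' X]
  have hNcard : (Nat.card (E ≃ₐ[ℚ] E) : ℝ) = (N : ℝ) := by
    rw [Nat.card_eq_fintype_card]
  refine ⟨(N : ℝ) * q * B₀, fun s hs hs2 => ?_⟩
  rcases eq_or_lt_of_le hs2 with rfl | hs2'
  · rw [logPole_two, mul_zero, zero_sub]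
    have : 0 ≤ (N : ℝ) * q * B₀ := by positivity
    linarith [frobSum_nonneg E T X 2]
  have hLam : 0 ≤ logPole s := logPole_nonneg hs hs2
  -- the weights
  set ν : (E ≃ₐ[ℚ] E) → ZMod q → ℝ := fun σ c => frobResSum E T₁ q σ c s / (clsCard σ : ℝ)
    with hν
  have hνnn : ∀ σ c, 0 ≤ ν σ c := fun σ c =>
    div_nonneg (frobResSum_nonneg E T₁ q σ c s) (Nat.cast_nonneg _)
  have hPB' : ∀ σ a, (σ, a) ∈ Δ → σ ∈ X' → 4 * orderOf σ ∣ orderOf a →
      4 / (Nat.card Δ : ℝ) * logPole s - B₀ ≤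
        ν σ ((a : ZMod q) ^ 2) + ν σ⁻¹ (((a⁻¹ : (ZMod q)ˣ) : ZMod q) ^ 2) := by
    intro σ a hΔ _ hgood
    have hb := hBf (σ, a) hΔ hgood s hs hs2'
    have hc : (0 : ℝ) < clsCard σ := by exact_mod_cast clsCard_pos σ
    have hc1 : (1 : ℝ) ≤ clsCard σ := by exact_mod_cast clsCard_pos σ
    simp only [hν]
    rw [clsCard_inv, ← add_div, le_div_iff₀ hc]
    have e1 : (4 / (Nat.card Δ : ℝ) * logPole s - B₀) * (clsCard σ : ℝ) =
        4 * (clsCard σ : ℝ) / (Nat.card Δ : ℝ) * logPole s - B₀ * (clsCard σ : ℝ) := by ring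
    rw [e1]
    have e2 : Bf (σ, a) ≤ B₀ * (clsCard σ : ℝ) := by
      calc Bf (σ, a) ≤ B₀ := hBle _
        _ = B₀ * 1 := (mul_one _).symm
        _ ≤ B₀ * (clsCard σ : ℝ) := by gcongr
    linarith
  have hcross := h2 (E ≃ₐ[ℚ] E) q k hdvd Δ hπ hcard X' hX'inv ν hνnn (logPole s) B₀ hLam hB₀nn hPB'
  -- compare the double sum with `frobSum`
  have hsum : ∑ σ ∈ X', ∑ c : ZMod q, ν σ c ≤ frobSum E T X s := by
    have hA : ∀ σ : E ≃ₐ[ℚ] E, ∑ c : ZMod q, ν σ c =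
        ∑' ℓ : Nat.Primes, (clsCard σ : ℝ)⁻¹ *
          (if (ℓ : ℕ) ∉ T₁ ∧ IsFrobNF E ℓ σ then ((ℓ : ℕ) : ℝ) ^ (-s) else 0) := by
      intro σ
      simp only [hν]
      rw [← Finset.sum_div, sum_frobResSum E T₁ q σ hs, div_eq_inv_mul, tsum_mul_left]
    rw [Finset.sum_congr rfl (fun σ _ => hA σ)]
    refine (le_of_eq (Summable.tsum_finsetSum
      (fun σ _ => (summable_ite_primes hs _).mul_left _)).symm).trans ?_
    unfold frobSum
    refine Summable.tsum_le_tsum (fun ℓ => ?_)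
      (summable_sum fun σ _ => (summable_ite_primes hs _).mul_left _) (summable_ite_primes hs _)
    by_cases hℓT : (ℓ : ℕ) ∈ T₁
    · have : ∀ σ ∈ X', (clsCard σ : ℝ)⁻¹ *
          (if (ℓ : ℕ) ∉ T₁ ∧ IsFrobNF E ℓ σ then ((ℓ : ℕ) : ℝ) ^ (-s) else 0) = 0 := by
        intro σ _
        rw [if_neg (fun h => h.1 hℓT), mul_zero]
      rw [Finset.sum_eq_zero this]
      split_ifs
      · exact rpow_neg_nonneg ℓ s
      · exact le_rfl
    · have hℓT' : (ℓ : ℕ) ∉ T := fun h => hℓT (Finset.mem_union_left _ h)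
      have hℓT₀ : (ℓ : ℕ) ∉ T₀ := fun h => hℓT (Finset.mem_union_right _ h)
      have e : ∀ σ ∈ X', (clsCard σ : ℝ)⁻¹ *
          (if (ℓ : ℕ) ∉ T₁ ∧ IsFrobNF E ℓ σ then ((ℓ : ℕ) : ℝ) ^ (-s) else 0) =
          (if IsFrobNF E ℓ σ then ((clsCard σ : ℝ))⁻¹ else 0) * ((ℓ : ℕ) : ℝ) ^ (-s) := by
        intro σ _
        by_cases hF : IsFrobNF E ℓ σ
        · rw [if_pos ⟨hℓT, hF⟩, if_pos hF]
        · rw [if_neg (fun h => hF h.2), if_neg hF, mul_zero, zero_mul]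
      rw [Finset.sum_congr rfl e, ← Finset.sum_mul]
      have hw := sum_weight_le_one X' (fun σ => IsFrobNF E ℓ σ)
        (fun σ τ hσ hτ => hT₀ ℓ ℓ.2 hℓT₀ σ τ hσ hτ)
      have hx := rpow_neg_nonneg ℓ s
      by_cases hex : ∃ τ ∈ X', IsFrobNF E ℓ τ
      · rw [if_pos hex] at hw
        have hex' : (ℓ : ℕ) ∉ T ∧ ∃ τ ∈ X, IsFrobNF E ℓ τ := by
          obtain ⟨τ, hτ, hF⟩ := hex
          exact ⟨hℓT', τ, Set.mem_toFinset.mp hτ, hF⟩
        rw [if_pos hex']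
        calc _ ≤ 1 * ((ℓ : ℕ) : ℝ) ^ (-s) := by gcongr
          _ = _ := one_mul _
      · rw [if_neg hex] at hw
        have : (∑ σ ∈ X', if IsFrobNF E ℓ σ then ((clsCard σ : ℝ))⁻¹ else 0) *
            ((ℓ : ℕ) : ℝ) ^ (-s) ≤ 0 * ((ℓ : ℕ) : ℝ) ^ (-s) := by gcongr
        rw [zero_mul] at this
        refine this.trans ?_
        split_ifs
        · exact hx
        · exact le_rfl
  -- conclude
  rw [hXcard, hNcard]
  have hfrac : (X'.card : ℝ) / (N : ℝ) ≤ 1 := by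
    rw [div_le_one hNR]
    exact_mod_cast Finset.card_le_univ X'
  have hfrac0 : 0 ≤ (X'.card : ℝ) / (N : ℝ) := by positivity
  have hkey : ((X'.card : ℝ) / (N : ℝ) - ε) * logPole s ≤
      ((X'.card : ℝ) / (N : ℝ)) * (1 - 4 * (N : ℝ) ^ 2 / 2 ^ k) * logPole s := by
    refine mul_le_mul_of_nonneg_right ?_ hLam
    have h4 : 0 ≤ 4 * (N : ℝ) ^ 2 / 2 ^ k := by positivity
    nlinarith
  have hcross' : ((X'.card : ℝ) / (N : ℝ)) * (1 - 4 * (N : ℝ) ^ 2 / 2 ^ k) * logPole s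
      - ((N : ℝ) * q) * B₀ ≤ ∑ σ ∈ X', ∑ c : ZMod q, ν σ c := hcross
  linarith

end

end Fermat.Agent.S48.helper1398
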