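import Mathlib

/-!
# S48 / F5 — symmetric Chebotarev density: interface file (helper1398, F5 sub-architect)

Target (`Stmt_ChebSymNF`): for a Galois number field `E/ℚ`, a subset `X` of `Gal(E/ℚ)` stable
under conjugation and inversion, a finite set `T` of primes and `ε > 0`, the primes `ℓ ∉ T` having
a Frobenius element in `X` satisfy
`∑ ℓ^(-s) ≥ (|X|/|G| - ε) * log (1/(s-1)) - B` on `(1,2]`.

No class field theory, no limit of `L`-functions at `1`: only real parts of prime sums are used,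
which is why `X` has to be inversion-stable and why there is an `ε`.

Three seams:

* `Stmt_SymNormRes` (analytic, one number field `F`, a prime `q`): pair density of the degree-one
  primes of `F` according to the *square* of their norm modulo `q`.
* `Stmt_PairNF` (number fields): for the Galois group `Δ ≅ Gal(E(ζ_q)/ℚ) ≤ Gal(E/ℚ) × (ℤ/q)ˣ`
  and every "good" pair `(σ, a) ∈ Δ`, a pair lower bound for the primes with Frobenius `σ` in `E`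
  and `ℓ² ≡ a²` modulo `q`.
* `Stmt_CrossAbs` (finite group theory): the count of good pairs.

`Stmt_FrobClass` says that outside a finite set the Frobenius elements over `ℓ` form one
conjugacy class.  The assembly is in `helper1398_ChebAssembly.lean`.
-/

set_option autoImplicit false

namespace Fermat.Agent.S48.helper1398

open NumberField

noncomputable section

/-- `log (1/(s-1))`. -/
def logPole (s : ℝ) : ℝ := Real.log (1 / (s - 1))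

/-- The number of ideals of `𝓞 F` of absolute norm `ℓ` (for `ℓ` prime: the number of
degree-one primes of `F` above `ℓ`). -/
def normCnt (F : Type*) [Field F] [NumberField F] (ℓ : ℕ) : ℕ :=
  Nat.card {I : Ideal (𝓞 F) // Ideal.absNorm I = ℓ}

/-- Weighted sum over the degree-one primes of `F`, fibred over the prime numbers:
`∑_ℓ w ℓ * normCnt F ℓ * ℓ^(-s)`. -/
def degOneSum (F : Type*) [Field F] [NumberField F] (w : ℕ → ℝ) (s : ℝ) : ℝ :=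
  ∑' ℓ : Nat.Primes, w ℓ * (normCnt F ℓ : ℝ) * ((ℓ : ℕ) : ℝ) ^ (-s)

/-- Indicator of `ℓ² ≡ c` modulo `q`. -/
def sqInd (q : ℕ) (c : ZMod q) (ℓ : ℕ) : ℝ := if ((ℓ : ZMod q)) ^ 2 = c then 1 else 0

/-- The squares of the norm residues modulo `q` of the ideals of `𝓞 F` prime to `q`. -/
def sqNormRes (F : Type*) [Field F] [NumberField F] (q : ℕ) : Set (ZMod q) :=
  {c | ∃ I : Ideal (𝓞 F), (Ideal.absNorm I).Coprime q ∧ ((Ideal.absNorm I : ℕ) : ZMod q) ^ 2 = c}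

/-- **Seam 1 (analytic).**  `F` a number field, `q` an odd prime, `R := sqNormRes F q`.
(i) Weber's upper bound for the degree-one primes with `ℓ² ≡ 1`;
(ii) if these primes have density `≥ 1/|R|`, then for every `c ∈ R` the degree-one primes with
`ℓ² ∈ {c, c⁻¹}` have pair density `≥ 2/|R|`. -/
def Stmt_SymNormRes : Prop :=
  ∀ (F : Type) [Field F] [NumberField F] (q : ℕ) [Fact q.Prime], q ≠ 2 →
    (∃ B : ℝ, ∀ s : ℝ, 1 < s → s < 2 →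
      ((sqNormRes F q).ncard : ℝ) * degOneSum F (sqInd q 1) s ≤ logPole s + B) ∧
    ((∃ B : ℝ, ∀ s : ℝ, 1 < s → s < 2 →
        logPole s - B ≤ ((sqNormRes F q).ncard : ℝ) * degOneSum F (sqInd q 1) s) →
      ∀ c ∈ sqNormRes F q, ∃ B : ℝ, ∀ s : ℝ, 1 < s → s < 2 →
        2 / ((sqNormRes F q).ncard : ℝ) * logPole s - B ≤
          degOneSum F (fun ℓ => sqInd q c ℓ + sqInd q c⁻¹ ℓ) s)

/-- `σ` is a Frobenius element of `E/ℚ` at some prime of `𝓞 E` above `ℓ`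
(the shape of `Lib/helper74_GenChebCore`). -/
def IsFrobNF (E : Type*) [Field E] [NumberField E] (ℓ : ℕ) (σ : E ≃ₐ[ℚ] E) : Prop :=
  ∃ 𝔏 : Ideal (𝓞 E), 𝔏.IsPrime ∧ (ℓ : 𝓞 E) ∈ 𝔏 ∧ ∀ x : 𝓞 E, σ • x - x ^ ℓ ∈ 𝔏

open Classical in
/-- `∑ ℓ^(-s)` over the primes `ℓ ∉ T` with Frobenius `σ` in `E` and `ℓ² ≡ c` modulo `q`. -/
def frobResSum (E : Type*) [Field E] [NumberField E] (T : Finset ℕ) (q : ℕ) (σ : E ≃ₐ[ℚ] E)
    (c : ZMod q) (s : ℝ) : ℝ :=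
  ∑' ℓ : Nat.Primes, if (ℓ : ℕ) ∉ T ∧ IsFrobNF E ℓ σ ∧ ((ℓ : ℕ) : ZMod q) ^ 2 = c then
    ((ℓ : ℕ) : ℝ) ^ (-s) else 0

/-- **Seam 2 (number fields).**  `Δ` is the image of `Gal(E(ζ_q)/ℚ)` in `Gal(E/ℚ) × (ℤ/q)ˣ`. -/
def Stmt_PairNF : Prop :=
  ∀ (E : Type) [Field E] [NumberField E] [IsGalois ℚ E] (q : ℕ) [Fact q.Prime], q ≠ 2 →
    ∀ T : Finset ℕ, ∃ Δ : Subgroup ((E ≃ₐ[ℚ] E) × (ZMod q)ˣ),
      (∀ σ, ∃ a, (σ, a) ∈ Δ) ∧ q - 1 ≤ Nat.card Δ ∧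
      ∀ σ a, (σ, a) ∈ Δ → 4 * orderOf σ ∣ orderOf a →
        ∃ B : ℝ, ∀ s : ℝ, 1 < s → s < 2 →
          4 * (Nat.card {τ : E ≃ₐ[ℚ] E // IsConj σ τ} : ℝ) / (Nat.card Δ : ℝ) * logPole s - B ≤
            frobResSum E T q σ ((a : ZMod q) ^ 2) s +
              frobResSum E T q σ⁻¹ (((a⁻¹ : (ZMod q)ˣ) : ZMod q) ^ 2) s

/-- **Seam 3 (finite group theory).**  The count of good pairs. -/
def Stmt_CrossAbs : Prop :=
  ∀ (G : Type) [Group G] [Fintype G] (q : ℕ) [Fact q.Prime] (k : ℕ),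
    (4 * Fintype.card G) ^ k ∣ q - 1 →
    ∀ Δ : Subgroup (G × (ZMod q)ˣ), (∀ σ, ∃ a, (σ, a) ∈ Δ) → q - 1 ≤ Nat.card Δ →
    ∀ X : Finset G, (∀ σ ∈ X, σ⁻¹ ∈ X) →
    ∀ ν : G → ZMod q → ℝ, (∀ σ c, 0 ≤ ν σ c) → ∀ Lam B : ℝ, 0 ≤ Lam → 0 ≤ B →
    (∀ σ a, (σ, a) ∈ Δ → σ ∈ X → 4 * orderOf σ ∣ orderOf a →
      4 / (Nat.card Δ : ℝ) * Lam - B ≤
        ν σ ((a : ZMod q) ^ 2) + ν σ⁻¹ (((a⁻¹ : (ZMod q)ˣ) : ZMod q) ^ 2)) →
    ((X.card : ℝ) / (Fintype.card G : ℝ)) * (1 - 4 * (Fintype.card G : ℝ) ^ 2 / 2 ^ k) * Lam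
        - ((Fintype.card G : ℝ) * q) * B ≤ ∑ σ ∈ X, ∑ c : ZMod q, ν σ c

/-- Outside a finite set of primes, the Frobenius elements over `ℓ` form one conjugacy class. -/
def Stmt_FrobClass : Prop :=
  ∀ (E : Type) [Field E] [NumberField E] [IsGalois ℚ E], ∃ T₀ : Finset ℕ,
    ∀ ℓ : ℕ, ℓ.Prime → ℓ ∉ T₀ → ∀ σ τ : E ≃ₐ[ℚ] E, IsFrobNF E ℓ σ → IsFrobNF E ℓ τ → IsConj σ τ

open Classical in
/-- `∑ ℓ^(-s)` over the primes `ℓ ∉ T` having a Frobenius element in `X`. -/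
def frobSum (E : Type*) [Field E] [NumberField E] (T : Finset ℕ) (X : Set (E ≃ₐ[ℚ] E))
    (s : ℝ) : ℝ :=
  ∑' ℓ : Nat.Primes, if (ℓ : ℕ) ∉ T ∧ ∃ τ ∈ X, IsFrobNF E ℓ τ then ((ℓ : ℕ) : ℝ) ^ (-s) else 0

/-- **Symmetric Chebotarev density theorem, number-field form (ε-form).** -/
def Stmt_ChebSymNF : Prop :=
  ∀ (E : Type) [Field E] [NumberField E] [IsGalois ℚ E] (X : Set (E ≃ₐ[ℚ] E)),
    (∀ g τ, τ ∈ X → g * τ * g⁻¹ ∈ X) → (∀ τ ∈ X, τ⁻¹ ∈ X) →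
    ∀ (T : Finset ℕ) (ε : ℝ), 0 < ε → ∃ B : ℝ, ∀ s : ℝ, 1 < s → s ≤ 2 →
      ((X.ncard : ℝ) / (Nat.card (E ≃ₐ[ℚ] E) : ℝ) - ε) * logPole s - B ≤ frobSum E T X s

end

end Fermat.Agent.S48.helper1398
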