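import Fermat.Agent.S48.helper1550_ChebDensity
import Fermat.Agent.S48.helper1398_ChebSpec

/-!
# S48 / F5 (Chebotarev density): the last line (helper1550)

The final statement `helper1398.Stmt_ChebSymNF` of the F5 chain (interface file
`helper1398_ChebSpec`) implies the blueprint statement `helper8231.Stmt_ChebDensity`:

* `stmt_ChebSymNF_of_spec : helper1398.Stmt_ChebSymNF → helper1550.Stmt_ChebSymNF`
  (the two number-field statements differ only by definitional unfolding and `ncard`/`Nat.card`);
* `stmt_ChebDensity_of_spec : helper1398.Stmt_ChebSymNF → helper8231.Stmt_ChebDensity`.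
-/

set_option autoImplicit false

namespace Fermat.Agent.S48.helper1550

open NumberField

/-- The two copies of the ideal-theoretic Frobenius predicate agree. -/
theorem isFrobNF_iff_spec (E : Type) [Field E] [NumberField E] (ℓ : ℕ) (σ : E ≃ₐ[ℚ] E) :
    IsFrobNF E ℓ σ ↔ Fermat.Agent.S48.helper1398.IsFrobNF E ℓ σ := Iff.rfl

/-- The final statement of the interface file of helper1398 is the statement consumed by the
Frobenius adapter. -/
theorem stmt_ChebSymNF_of_spec (h : Fermat.Agent.S48.helper1398.Stmt_ChebSymNF) :
    Stmt_ChebSymNF := by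
  intro E _ _ _ X hconj hinv T ε hε
  obtain ⟨B, hB⟩ := h E X hconj hinv T ε hε
  refine ⟨B, fun s hs1 hs2 => ?_⟩
  have h1 := hB s hs1 hs2
  rw [Fermat.Agent.S48.helper1398.logPole, Fermat.Agent.S48.helper1398.frobSum] at h1
  have h2 : (Nat.card X : ℝ) = (X.ncard : ℝ) := rfl
  rw [h2]
  exact h1

/-- **F5, last line**: the final statement of the chain implies the blueprint statement
`Stmt_ChebDensity` of the S48 Spec. -/
theorem stmt_ChebDensity_of_spec (h : Fermat.Agent.S48.helper1398.Stmt_ChebSymNF) :
    Fermat.Agent.S48.helper8231.Stmt_ChebDensity :=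
  stmt_ChebDensity_of_NF (stmt_ChebSymNF_of_spec h)

end Fermat.Agent.S48.helper1550
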