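/-
S48 / F5 (Chebotarev, inversion-symmetric form), analytic core on the landed S55 ray-zeta files.

`K ⊆ L` number fields, `𝔪` a nonzero ideal of `K`, `ψ` a homomorphism from the nonzero ideals of
`K` to a finite abelian group `G`, trivial on the principal ideals `(α)` with `α ≡ 1 mod 𝔪`, onto
on the ideals prime to `𝔪`, trivial on the primes `v ∤ 𝔪` below a prime of degree one of `L`, and
`[L : K] ≤ |G|`.  Then for every `c : G` the primes `v ∤ 𝔪` with `ψ v ∈ {c, c⁻¹}` satisfy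

  `P_c(s) + P_{c⁻¹}(s) = (2/|G|) log (1/(s-1)) + O(1)` on `(1, 2)`.

No new analytic input: bounded differences of the ray partial zeta sums
(`helper865.exists_rayZ_diff_bound`), the sieve `helper865.zM_insert` / `zM_tendsto` (Euler
product, one prime at a time), the degree-one primes of `L` (`helper865.exists_degOne_lower`)
and characters of the finite abelian group `G`.
-/
import Mathlib
import Fermat.Agent.S55.helper865_SecondIneq

set_option autoImplicit false
set_option linter.unusedSectionVars false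

namespace Fermat.Agent.S48.helper4600

open NumberField IsDedekindDomain Filter Topology
open scoped nonZeroDivisors
open Fermat.Agent.S14 Fermat.Agent.S55

/-! ### Two elementary lemmas -/

/-- `log ‖1 - u w‖ = - Re u * w + O(w²)` for `‖u‖ = 1`, `0 ≤ w ≤ 1/2`. -/
theorem abs_log_norm_one_sub_add_le {u : ℂ} (hu : ‖u‖ = 1) {w : ℝ} (hw0 : 0 ≤ w)
    (hw : w ≤ 1 / 2) : |Real.log ‖1 - u * (w : ℂ)‖ + u.re * w| ≤ w ^ 2 := by
  set z : ℂ := -(u * (w : ℂ)) with hz
  have hzn : ‖z‖ = w := by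
    rw [hz, norm_neg, norm_mul, hu, one_mul, Complex.norm_real, Real.norm_of_nonneg hw0]
  have h1 := Complex.norm_log_one_add_sub_self_le (z := z) (by rw [hzn]; linarith)
  have h2 : (Complex.log (1 + z) - z).re = Real.log ‖1 - u * (w : ℂ)‖ + u.re * w := by
    rw [Complex.sub_re, Complex.log_re, hz, ← sub_eq_add_neg, Complex.neg_re,
      Complex.re_mul_ofReal]
    ring
  have h3 : |(Complex.log (1 + z) - z).re| ≤ ‖Complex.log (1 + z) - z‖ :=
    Complex.abs_re_le_norm _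
  rw [h2] at h3
  refine h3.trans (h1.trans ?_)
  rw [hzn]
  have h4 : (1 - w)⁻¹ ≤ 2 := by
    rw [inv_le_comm₀ (by linarith) (by norm_num)]
    linarith
  have h5 : 0 ≤ w ^ 2 := sq_nonneg w
  calc w ^ 2 * (1 - w)⁻¹ / 2 ≤ w ^ 2 * 2 / 2 := by
        apply div_le_div_of_nonneg_right (mul_le_mul_of_nonneg_left h4 h5) (by norm_num)
    _ = w ^ 2 := by ring

section Char

variable {K : Type*} [Field K] [NumberField K]
variable {A : Type*} [AddCommGroup A] [Fintype A] (κ : (Ideal (𝓞 K))⁰ →* Multiplicative A)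

/-- the zeta sums of `helper865.zM` twisted by a character of `A`. -/
noncomputable def Lc (χ : AddChar A ℂ) (s : ℝ) (Q : Finset (HeightOneSpectrum (𝓞 K))) : ℂ :=
  ∑ j : A, χ j * ((helper865.zM κ s Q j : ℝ) : ℂ)

/-- removing one more prime multiplies the twisted sum by the Euler factor. -/
theorem Lc_insert [DecidableEq (HeightOneSpectrum (𝓞 K))] (χ : AddChar A ℂ) {s : ℝ}
    (hsum : Summable (helper1094.wt (K := K) s))
    (Q : Finset (HeightOneSpectrum (𝓞 K))) (v : HeightOneSpectrum (𝓞 K)) (hv : v ∉ Q) :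
    Lc κ χ s (insert v Q) =
      (1 - χ (helper865.clsA κ (helper1094.pr v)) *
        ((helper1094.wt s (helper1094.pr v) : ℝ) : ℂ)) * Lc κ χ s Q := by
  unfold Lc
  simp only [helper865.zM_insert κ hsum Q v hv]
  set c := helper865.clsA κ (helper1094.pr v) with hc
  set w : ℂ := ((helper1094.wt s (helper1094.pr v) : ℝ) : ℂ) with hw
  have h1 : ∑ j : A, χ j * ((helper865.zM κ s Q (j - c) : ℝ) : ℂ) =
      χ c * ∑ j : A, χ j * ((helper865.zM κ s Q j : ℝ) : ℂ) := by
    rw [Finset.mul_sum]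
    refine Fintype.sum_equiv (Equiv.subRight c) _ _ (fun j => ?_)
    simp only [Equiv.subRight_apply]
    rw [← mul_assoc, ← AddChar.map_add_eq_mul, add_sub_cancel]
  calc ∑ j : A, χ j * ((helper865.zM κ s Q j - helper1094.wt s (helper1094.pr v) *
          helper865.zM κ s Q (j - c) : ℝ) : ℂ)
      = ∑ j : A, χ j * ((helper865.zM κ s Q j : ℝ) : ℂ) -
          w * ∑ j : A, χ j * ((helper865.zM κ s Q (j - c) : ℝ) : ℂ) := by
        rw [Finset.mul_sum, ← Finset.sum_sub_distrib]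
        refine Finset.sum_congr rfl (fun j _ => ?_)
        push_cast
        ring
    _ = (1 - χ c * w) * ∑ j : A, χ j * ((helper865.zM κ s Q j : ℝ) : ℂ) := by
        rw [h1]; ring

open Classical in
/-- the Euler factor at `v` (trivial at the primes of `Q₀`). -/
noncomputable def locC (χ : AddChar A ℂ) (s : ℝ) (Q₀ : Finset (HeightOneSpectrum (𝓞 K)))
    (v : HeightOneSpectrum (𝓞 K)) : ℂ :=
  if v ∈ Q₀ then 1 else
    1 - χ (helper865.clsA κ (helper1094.pr v)) * ((helper1094.wt s (helper1094.pr v) : ℝ) : ℂ)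

theorem Lc_union [DecidableEq (HeightOneSpectrum (𝓞 K))] (χ : AddChar A ℂ) {s : ℝ}
    (hsum : Summable (helper1094.wt (K := K) s))
    (Q₀ Q : Finset (HeightOneSpectrum (𝓞 K))) :
    Lc κ χ s (Q₀ ∪ Q) = Lc κ χ s Q₀ * ∏ v ∈ Q, locC κ χ s Q₀ v := by
  induction Q using Finset.induction_on with
  | empty => simp
  | insert v Q hv ih =>
    rw [Finset.prod_insert hv]
    by_cases hv₀ : v ∈ Q₀
    · have h1 : Q₀ ∪ insert v Q = Q₀ ∪ Q := by
        rw [Finset.union_insert, Finset.insert_eq_of_mem (Finset.mem_union_left _ hv₀)]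
      rw [h1, ih, locC, if_pos hv₀, one_mul]
    · have h1 : v ∉ Q₀ ∪ Q := by simp [hv₀, hv]
      rw [Finset.union_insert, Lc_insert κ χ hsum _ v h1, ih, locC, if_neg hv₀]
      ring

theorem Lc_tendsto [DecidableEq A] (χ : AddChar A ℂ) {s : ℝ}
    (hsum : Summable (helper1094.wt (K := K) s)) :
    Tendsto (fun Q : Finset (HeightOneSpectrum (𝓞 K)) => Lc κ χ s Q) atTop (𝓝 1) := by
  have h : ∀ j : A, Tendsto
      (fun Q : Finset (HeightOneSpectrum (𝓞 K)) => χ j * ((helper865.zM κ s Q j : ℝ) : ℂ)) atTop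
      (𝓝 (χ j * (((if j = 0 then (1 : ℝ) else 0) : ℝ) : ℂ))) := fun j =>
    ((Complex.continuous_ofReal.tendsto _).comp (helper865.zM_tendsto κ hsum j)).const_mul _
  have h2 := tendsto_finsetSum Finset.univ (fun j _ => h j)
  have h3 : ∑ j : A, χ j * (((if j = 0 then (1 : ℝ) else 0) : ℝ) : ℂ) = 1 := by
    rw [Finset.sum_eq_single (0 : A)]
    · simp [AddChar.map_zero_eq_one]
    · intro j _ hj
      simp [hj]
    · intro h0
      exact absurd (Finset.mem_univ _) h0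
  rw [h3] at h2
  exact h2

/-! ### The prime sums attached to a character -/

theorem wt_pr_le_half {s : ℝ} (hs : 1 ≤ s) (v : HeightOneSpectrum (𝓞 K)) :
    helper1094.wt s (helper1094.pr v) ≤ 1 / 2 := by
  have h2 : 2 ≤ Ideal.absNorm v.asIdeal := by
    have h0 : Ideal.absNorm v.asIdeal ≠ 0 := by
      rw [Ne, Ideal.absNorm_eq_zero_iff]; exact v.ne_bot
    have h1 : Ideal.absNorm v.asIdeal ≠ 1 := by
      rw [Ne, Ideal.absNorm_eq_one_iff]; exact v.isPrime.ne_top
    omega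
  have h2' : (2 : ℝ) ≤ (Ideal.absNorm v.asIdeal : ℝ) := by exact_mod_cast h2
  unfold helper1094.wt helper1094.pr
  calc ((Ideal.absNorm v.asIdeal : ℝ)) ^ (-s) ≤ (2 : ℝ) ^ (-s) :=
        Real.rpow_le_rpow_of_nonpos (by norm_num) h2' (by linarith)
    _ ≤ (2 : ℝ) ^ (-1 : ℝ) :=
        Real.rpow_le_rpow_of_exponent_le (by norm_num) (by linarith)
    _ = 1 / 2 := by rw [Real.rpow_neg_one]; norm_num

open Classical in
/-- the prime sum `∑_{v ∉ Q₀} Re χ(v) N v ^ (-s)`. -/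
noncomputable def Rch (χ : AddChar A ℂ) (s : ℝ) (Q₀ : Finset (HeightOneSpectrum (𝓞 K))) : ℝ :=
  ∑' v : HeightOneSpectrum (𝓞 K),
    if v ∈ Q₀ then 0 else
      (χ (helper865.clsA κ (helper1094.pr v))).re * helper1094.wt s (helper1094.pr v)

theorem summable_wt_pr {s : ℝ} (hsum : Summable (helper1094.wt (K := K) s)) :
    Summable (fun v : HeightOneSpectrum (𝓞 K) => helper1094.wt s (helper1094.pr v)) :=
  hsum.comp_injective helper1094.pr_injective

theorem summable_wt_pr_sq {s : ℝ} (hs : 1 ≤ s) (hsum : Summable (helper1094.wt (K := K) s)) :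
    Summable (fun v : HeightOneSpectrum (𝓞 K) => helper1094.wt s (helper1094.pr v) ^ 2) := by
  refine Summable.of_nonneg_of_le (fun v => sq_nonneg _) (fun v => ?_) (summable_wt_pr hsum)
  have h0 := helper1094.wt_nonneg s (helper1094.pr v)
  have h1 := wt_pr_le_half hs v
  nlinarith

open Classical in
theorem summable_Rch_term (χ : AddChar A ℂ) {s : ℝ}
    (hsum : Summable (helper1094.wt (K := K) s)) (Q₀ : Finset (HeightOneSpectrum (𝓞 K))) :
    Summable (fun v : HeightOneSpectrum (𝓞 K) => if v ∈ Q₀ then (0 : ℝ) else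
      (χ (helper865.clsA κ (helper1094.pr v))).re * helper1094.wt s (helper1094.pr v)) := by
  refine Summable.of_norm_bounded (summable_wt_pr hsum) (fun v => ?_)
  have h0 := helper1094.wt_nonneg s (helper1094.pr v)
  split_ifs
  · simpa using h0
  · rw [Real.norm_eq_abs, abs_mul, abs_of_nonneg h0]
    have h1 : |(χ (helper865.clsA κ (helper1094.pr v))).re| ≤ 1 := by
      have := Complex.abs_re_le_norm (χ (helper865.clsA κ (helper1094.pr v)))
      rwa [AddChar.norm_apply] at this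
    nlinarith

/-- **Euler product in logarithmic form**: `log ‖L(χ)‖ = ∑_{v ∉ Q₀} Re χ(v) N v^(-s) + O(1)`,
the error being at most `∑_v N v ^ (-2 s)`. -/
theorem abs_log_norm_Lc_sub_le [DecidableEq A] (χ : AddChar A ℂ) {s : ℝ} (hs : 1 ≤ s)
    (hsum : Summable (helper1094.wt (K := K) s)) (Q₀ : Finset (HeightOneSpectrum (𝓞 K))) :
    Lc κ χ s Q₀ ≠ 0 ∧ |Real.log ‖Lc κ χ s Q₀‖ - Rch κ χ s Q₀| ≤
      ∑' v : HeightOneSpectrum (𝓞 K), helper1094.wt s (helper1094.pr v) ^ 2 := by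
  classical
  set w : HeightOneSpectrum (𝓞 K) → ℝ := fun v => helper1094.wt s (helper1094.pr v) with hw
  have hw0 : ∀ v, 0 ≤ w v := fun v => helper1094.wt_nonneg s _
  have hwh : ∀ v, w v ≤ 1 / 2 := fun v => wt_pr_le_half hs v
  have hwsum : Summable w := summable_wt_pr hsum
  have hsq_sum : Summable (fun v => w v ^ 2) := summable_wt_pr_sq hs hsum
  set ℓ : HeightOneSpectrum (𝓞 K) → ℝ := fun v => Real.log ‖locC κ χ s Q₀ v‖ with hℓ
  set r : HeightOneSpectrum (𝓞 K) → ℝ := fun v => if v ∈ Q₀ then (0 : ℝ) else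
      (χ (helper865.clsA κ (helper1094.pr v))).re * helper1094.wt s (helper1094.pr v) with hr
  have hℓr : ∀ v, |ℓ v + r v| ≤ w v ^ 2 := by
    intro v
    by_cases hv : v ∈ Q₀
    · simp only [hℓ, hr, locC, if_pos hv, norm_one, Real.log_one, add_zero, abs_zero]
      exact sq_nonneg _
    · simp only [hℓ, hr, locC, if_neg hv]
      exact abs_log_norm_one_sub_add_le (AddChar.norm_apply χ _) (hw0 v) (hwh v)
  have hr_sum : Summable r := summable_Rch_term κ χ hsum Q₀
  have hℓr_sum : Summable (fun v => ℓ v + r v) :=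
    Summable.of_norm_bounded hsq_sum (fun v => by rw [Real.norm_eq_abs]; exact hℓr v)
  have hℓ_sum : Summable ℓ := by
    have := hℓr_sum.sub hr_sum
    refine this.congr (fun v => ?_)
    ring
  have hloc_ne : ∀ v, locC κ χ s Q₀ v ≠ 0 := by
    intro v
    unfold locC
    split_ifs
    · exact one_ne_zero
    · intro h0
      have h1 : χ (helper865.clsA κ (helper1094.pr v)) *
          ((helper1094.wt s (helper1094.pr v) : ℝ) : ℂ) = 1 := (sub_eq_zero.mp h0).symm
      have h2 := congrArg norm h1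
      rw [norm_mul, AddChar.norm_apply, one_mul, Complex.norm_real, norm_one,
        Real.norm_of_nonneg (hw0 v)] at h2
      have := hwh v
      simp only [hw] at this
      linarith
  have hunion : Tendsto (fun Q : Finset (HeightOneSpectrum (𝓞 K)) => Q₀ ∪ Q) atTop atTop :=
    tendsto_atTop_mono (fun Q => Finset.subset_union_right) tendsto_id
  have ha : Tendsto (fun Q : Finset (HeightOneSpectrum (𝓞 K)) => Lc κ χ s (Q₀ ∪ Q)) atTop
      (𝓝 1) := (Lc_tendsto κ χ hsum).comp hunion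
  have hL0 : Lc κ χ s Q₀ ≠ 0 := by
    intro h0
    have h1 : Tendsto (fun Q : Finset (HeightOneSpectrum (𝓞 K)) => Lc κ χ s (Q₀ ∪ Q)) atTop
        (𝓝 0) := by
      have : (fun Q : Finset (HeightOneSpectrum (𝓞 K)) => Lc κ χ s (Q₀ ∪ Q)) = fun _ => 0 := by
        funext Q
        rw [Lc_union κ χ hsum, h0, zero_mul]
      rw [this]
      exact tendsto_const_nhds
    exact zero_ne_one (tendsto_nhds_unique h1 ha)
  refine ⟨hL0, ?_⟩
  have hn : Tendsto (fun Q : Finset (HeightOneSpectrum (𝓞 K)) =>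
      ‖Lc κ χ s Q₀‖ * ‖∏ v ∈ Q, locC κ χ s Q₀ v‖) atTop (𝓝 1) := by
    have h1 := ha.norm
    rw [norm_one] at h1
    refine h1.congr (fun Q => ?_)
    rw [Lc_union κ χ hsum, norm_mul]
  have hlog : ∀ Q : Finset (HeightOneSpectrum (𝓞 K)),
      Real.log (‖Lc κ χ s Q₀‖ * ‖∏ v ∈ Q, locC κ χ s Q₀ v‖) =
        Real.log ‖Lc κ χ s Q₀‖ + ∑ v ∈ Q, ℓ v := by
    intro Q
    rw [Real.log_mul (norm_ne_zero_iff.mpr hL0)
      (norm_ne_zero_iff.mpr (Finset.prod_ne_zero_iff.mpr fun v _ => hloc_ne v)), norm_prod,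
      Real.log_prod (fun v _ => norm_ne_zero_iff.mpr (hloc_ne v))]
  have h1 : Tendsto (fun Q : Finset (HeightOneSpectrum (𝓞 K)) =>
      Real.log ‖Lc κ χ s Q₀‖ + ∑ v ∈ Q, ℓ v) atTop (𝓝 (Real.log 1)) := by
    have := (Real.continuousAt_log one_ne_zero).tendsto.comp hn
    exact this.congr hlog
  have h2 : Tendsto (fun Q : Finset (HeightOneSpectrum (𝓞 K)) =>
      Real.log ‖Lc κ χ s Q₀‖ + ∑ v ∈ Q, ℓ v) atTop
      (𝓝 (Real.log ‖Lc κ χ s Q₀‖ + ∑' v, ℓ v)) := tendsto_const_nhds.add hℓ_sum.hasSum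
  have h3 : Real.log ‖Lc κ χ s Q₀‖ + ∑' v, ℓ v = 0 := by
    rw [← Real.log_one]
    exact tendsto_nhds_unique h2 h1
  have h4 : Real.log ‖Lc κ χ s Q₀‖ - Rch κ χ s Q₀ = -∑' v, (ℓ v + r v) := by
    rw [hℓ_sum.tsum_add hr_sum]
    have : Rch κ χ s Q₀ = ∑' v, r v := rfl
    rw [this]
    linarith
  rw [h4, abs_neg]
  calc |∑' v, (ℓ v + r v)| ≤ ∑' v, |ℓ v + r v| := by
        have := norm_tsum_le_tsum_norm (f := fun v => ℓ v + r v) hℓr_sum.norm
        simpa [Real.norm_eq_abs] using this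
    _ ≤ ∑' v, w v ^ 2 := Summable.tsum_le_tsum hℓr hℓr_sum.abs hsq_sum

/-! ### Characters: upper bound, orthogonality, the pair identity -/

/-- a nontrivial character sum of zeta sums with bounded differences is bounded. -/
theorem norm_Lc_le (χ : AddChar A ℂ) (hχ : χ ≠ 0) (s : ℝ)
    (Q₀ : Finset (HeightOneSpectrum (𝓞 K))) (M : ℝ)
    (hM : ∀ j j' : A, |helper865.zM κ s Q₀ j - helper865.zM κ s Q₀ j'| ≤ M) :
    ‖Lc κ χ s Q₀‖ ≤ Fintype.card A * M := by
  have h0 : ∑ j : A, χ j = 0 := AddChar.sum_eq_zero_iff_ne_zero.mpr hχ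
  have h1 : Lc κ χ s Q₀ = ∑ j : A, χ j *
      (((helper865.zM κ s Q₀ j - helper865.zM κ s Q₀ 0 : ℝ)) : ℂ) := by
    unfold Lc
    have : ∑ j : A, χ j * (((helper865.zM κ s Q₀ j - helper865.zM κ s Q₀ 0 : ℝ)) : ℂ) =
        ∑ j : A, χ j * ((helper865.zM κ s Q₀ j : ℝ) : ℂ) -
          (∑ j : A, χ j) * ((helper865.zM κ s Q₀ 0 : ℝ) : ℂ) := by
      rw [Finset.sum_mul, ← Finset.sum_sub_distrib]
      refine Finset.sum_congr rfl (fun j _ => ?_)
      push_cast
      ring
    rw [this, h0, zero_mul, sub_zero]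
  rw [h1]
  calc ‖∑ j : A, χ j * (((helper865.zM κ s Q₀ j - helper865.zM κ s Q₀ 0 : ℝ)) : ℂ)‖
      ≤ ∑ j : A, ‖χ j * (((helper865.zM κ s Q₀ j - helper865.zM κ s Q₀ 0 : ℝ)) : ℂ)‖ :=
        norm_sum_le _ _
    _ ≤ ∑ _j : A, M := by
        refine Finset.sum_le_sum (fun j _ => ?_)
        rw [norm_mul, AddChar.norm_apply, one_mul, Complex.norm_real, Real.norm_eq_abs]
        exact hM j 0
    _ = Fintype.card A * M := by simp

/-- summing the prime sums over all characters leaves the primes of trivial class. -/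
theorem sum_Rch [DecidableEq A] {s : ℝ} (hsum : Summable (helper1094.wt (K := K) s))
    (Q₀ : Finset (HeightOneSpectrum (𝓞 K))) :
    ∑ χ : AddChar A ℂ, Rch κ χ s Q₀ =
      Fintype.card A * ∑' v : HeightOneSpectrum (𝓞 K), helper865.indM κ s Q₀ v := by
  classical
  unfold Rch
  rw [← Summable.tsum_finsetSum (fun χ _ => summable_Rch_term κ χ hsum Q₀), ← tsum_mul_left]
  refine tsum_congr (fun v => ?_)
  unfold helper865.indM
  by_cases hv : v ∈ Q₀
  · simp [hv]
  · simp only [if_neg hv]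
    rw [← Finset.sum_mul, ← Complex.re_sum, AddChar.sum_apply_eq_ite]
    by_cases hc : helper865.clsA κ (helper1094.pr v) = 0
    · simp [hc, hv]
    · simp [hc, hv]

theorem sum_two_re_mul_re [DecidableEq A] (c j : A) :
    ∑ χ : AddChar A ℂ, 2 * (χ c).re * (χ j).re =
      Fintype.card A * ((if j = c then (1 : ℝ) else 0) + (if j = -c then 1 else 0)) := by
  have h1 : ∀ χ : AddChar A ℂ, 2 * (χ c).re * (χ j).re = (χ (c + j)).re + (χ (j - c)).re := by
    intro χ
    rw [AddChar.map_add_eq_mul, sub_eq_add_neg, AddChar.map_add_eq_mul,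
      AddChar.map_neg_eq_conj]
    simp only [Complex.mul_re, Complex.conj_re, Complex.conj_im]
    ring
  simp only [h1]
  rw [Finset.sum_add_distrib, ← Complex.re_sum, ← Complex.re_sum, AddChar.sum_apply_eq_ite,
    AddChar.sum_apply_eq_ite]
  have e1 : (c + j = 0) ↔ (j = -c) := by
    constructor
    · intro h; exact eq_neg_of_add_eq_zero_right h
    · intro h; rw [h, add_neg_cancel]
  have e2 : (j - c = 0) ↔ (j = c) := sub_eq_zero
  simp only [e1, e2]
  split_ifs <;> first | (simp; done) | (simp; ring)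

open Classical in
/-- the prime sum over the primes outside `Q₀` of class `c`. -/
noncomputable def Pcl (s : ℝ) (Q₀ : Finset (HeightOneSpectrum (𝓞 K))) (c : A) : ℝ :=
  ∑' v : HeightOneSpectrum (𝓞 K),
    if v ∉ Q₀ ∧ helper865.clsA κ (helper1094.pr v) = c then
      helper1094.wt s (helper1094.pr v) else 0

open Classical in
theorem summable_Pcl_term {s : ℝ} (hsum : Summable (helper1094.wt (K := K) s))
    (Q₀ : Finset (HeightOneSpectrum (𝓞 K))) (c : A) :
    Summable (fun v : HeightOneSpectrum (𝓞 K) =>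
      if v ∉ Q₀ ∧ helper865.clsA κ (helper1094.pr v) = c then
        helper1094.wt s (helper1094.pr v) else 0) := by
  refine Summable.of_nonneg_of_le (fun v => ?_) (fun v => ?_) (summable_wt_pr hsum)
  · split_ifs
    · exact helper1094.wt_nonneg s _
    · exact le_rfl
  · split_ifs
    · exact le_rfl
    · exact helper1094.wt_nonneg s _

theorem Pcl_zero_eq (s : ℝ) (Q₀ : Finset (HeightOneSpectrum (𝓞 K))) :
    Pcl κ s Q₀ 0 = ∑' v : HeightOneSpectrum (𝓞 K), helper865.indM κ s Q₀ v := rfl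

/-- the pair identity `1[c] + 1[-c] = (1/|A|) ∑_χ 2 Re χ(c) Re χ` for the prime sums. -/
theorem card_mul_Pcl_add [DecidableEq A] {s : ℝ} (hsum : Summable (helper1094.wt (K := K) s))
    (Q₀ : Finset (HeightOneSpectrum (𝓞 K))) (c : A) :
    (Fintype.card A : ℝ) * (Pcl κ s Q₀ c + Pcl κ s Q₀ (-c)) =
      ∑ χ : AddChar A ℂ, 2 * (χ c).re * Rch κ χ s Q₀ := by
  classical
  unfold Pcl Rch
  rw [← Summable.tsum_add (summable_Pcl_term κ hsum Q₀ c) (summable_Pcl_term κ hsum Q₀ (-c)),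
    ← tsum_mul_left]
  have h1 : ∀ χ : AddChar A ℂ, 2 * (χ c).re * (∑' v : HeightOneSpectrum (𝓞 K),
      if v ∈ Q₀ then (0 : ℝ) else
        (χ (helper865.clsA κ (helper1094.pr v))).re * helper1094.wt s (helper1094.pr v)) =
      ∑' v : HeightOneSpectrum (𝓞 K), 2 * (χ c).re * (if v ∈ Q₀ then (0 : ℝ) else
        (χ (helper865.clsA κ (helper1094.pr v))).re * helper1094.wt s (helper1094.pr v)) :=
    fun χ => tsum_mul_left.symm
  simp only [h1]
  rw [← Summable.tsum_finsetSum (fun χ _ => (summable_Rch_term κ χ hsum Q₀).mul_left _)]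
  refine tsum_congr (fun v => ?_)
  by_cases hv : v ∈ Q₀
  · simp [hv]
  · simp only [hv, not_false_eq_true, true_and, if_false]
    have h2 : ∀ χ : AddChar A ℂ, 2 * (χ c).re *
        ((χ (helper865.clsA κ (helper1094.pr v))).re * helper1094.wt s (helper1094.pr v)) =
        (2 * (χ c).re * (χ (helper865.clsA κ (helper1094.pr v))).re) *
          helper1094.wt s (helper1094.pr v) := fun χ => by ring
    simp only [h2]
    rw [← Finset.sum_mul, sum_two_re_mul_re]
    split_ifs <;> ring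

end Char

section Main

variable {K : Type*} [Field K] [NumberField K]

theorem wt_pr_sq_le {s : ℝ} (hs : 1 ≤ s) (v : HeightOneSpectrum (𝓞 K)) :
    helper1094.wt s (helper1094.pr v) ^ 2 ≤ helper1094.wt 2 (helper1094.pr v) := by
  have h2 : 2 ≤ Ideal.absNorm v.asIdeal := by
    have h0 : Ideal.absNorm v.asIdeal ≠ 0 := by
      rw [Ne, Ideal.absNorm_eq_zero_iff]; exact v.ne_bot
    have h1 : Ideal.absNorm v.asIdeal ≠ 1 := by
      rw [Ne, Ideal.absNorm_eq_one_iff]; exact v.isPrime.ne_top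
    omega
  have h1 : (1 : ℝ) ≤ (Ideal.absNorm v.asIdeal : ℝ) := by exact_mod_cast (by omega : 1 ≤ _)
  show ((Ideal.absNorm v.asIdeal : ℝ) ^ (-s)) ^ 2 ≤ (Ideal.absNorm v.asIdeal : ℝ) ^ (-(2 : ℝ))
  rw [← Real.rpow_natCast, ← Real.rpow_mul (Nat.cast_nonneg _)]
  exact Real.rpow_le_rpow_of_exponent_le h1 (by push_cast; linarith)

variable {A : Type*} [AddCommGroup A] [Finite A] (κ : (Ideal (𝓞 K))⁰ →* Multiplicative A)

/-- **Pair equidistribution, sieve form.**  If the zeta sums over the ideals prime to `Q₀` of the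
classes of `κ` have bounded differences on `(1, 2]` and the primes of trivial class have
"density at least `1/|A|`", then for every class `c` the primes of class `c` or `-c` satisfy
`P_c + P_{-c} = (2/|A|) log (1/(s-1)) + O(1)`. -/
theorem exists_Pcl_pair_bound (Q₀ : Finset (HeightOneSpectrum (𝓞 K)))
    (hdiff : ∃ M : ℝ, ∀ s : ℝ, 1 < s → s ≤ 2 → ∀ j j' : A,
      |helper865.zM κ s Q₀ j - helper865.zM κ s Q₀ j'| ≤ M)
    (hlow : ∃ B : ℝ, ∀ s : ℝ, 1 < s → s < 2 →
      Real.log (1 / (s - 1)) - B ≤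
        (Nat.card A : ℝ) * ∑' v : HeightOneSpectrum (𝓞 K), helper865.indM κ s Q₀ v)
    (c : A) :
    ∃ B : ℝ, ∀ s : ℝ, 1 < s → s < 2 →
      |Pcl κ s Q₀ c + Pcl κ s Q₀ (-c) - 2 / (Nat.card A : ℝ) * Real.log (1 / (s - 1))| ≤ B := by
  classical
  have : Fintype A := Fintype.ofFinite A
  obtain ⟨M, hM⟩ := hdiff
  obtain ⟨B₁, hB₁⟩ := hlow
  obtain ⟨B₃, hB₃⟩ := helper2850.primeSumUpper K
  set g : ℝ := (Fintype.card A : ℝ) with hg
  have hg1 : 1 ≤ g := by
    rw [hg]
    exact_mod_cast (Fintype.card_pos : 0 < Fintype.card A)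
  have hgpos : 0 < g := by linarith
  have hw2 : Summable (helper1094.wt (K := K) 2) :=
    Fermat.Agent.Lib.helper1121.summable_ideal_rpow K (by norm_num)
  set E₂ : ℝ := ∑' v : HeightOneSpectrum (𝓞 K), helper1094.wt 2 (helper1094.pr v) with hE₂
  have hE₂0 : 0 ≤ E₂ := tsum_nonneg (fun v => helper1094.wt_nonneg _ _)
  set U : ℝ := Real.log (max 1 (g * M)) + E₂ with hU
  have hU0 : 0 ≤ U := add_nonneg (Real.log_nonneg (le_max_left _ _)) hE₂0
  set W : ℝ := |B₁| + |B₃| + g * U with hW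
  have hW0 : 0 ≤ W := by positivity
  refine ⟨2 * W + 2 * g * W, fun s hs1 hs2 => ?_⟩
  have hw : Summable (helper1094.wt (K := K) s) :=
    Fermat.Agent.Lib.helper1121.summable_ideal_rpow K hs1
  have hsq : ∑' v : HeightOneSpectrum (𝓞 K), helper1094.wt s (helper1094.pr v) ^ 2 ≤ E₂ :=
    Summable.tsum_le_tsum (fun v => wt_pr_sq_le hs1.le v) (summable_wt_pr_sq hs1.le hw)
      (summable_wt_pr hw2)
  -- (i) upper bound for the nontrivial characters
  have hup : ∀ χ : AddChar A ℂ, χ ≠ 0 → Rch κ χ s Q₀ ≤ U := by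
    intro χ hχ
    obtain ⟨hne, habs⟩ := abs_log_norm_Lc_sub_le κ χ hs1.le hw Q₀
    have h1 := norm_Lc_le κ χ hχ s Q₀ M (hM s hs1 hs2.le)
    have h2 : Real.log ‖Lc κ χ s Q₀‖ ≤ Real.log (max 1 (g * M)) :=
      Real.log_le_log (norm_pos_iff.mpr hne) (h1.trans (le_max_right _ _))
    have h3 := (abs_le.mp habs).1
    linarith
  -- (ii) the trivial character
  have hR0_def : Rch κ (0 : AddChar A ℂ) s Q₀ = ∑' v : HeightOneSpectrum (𝓞 K),
      if v ∈ Q₀ then (0 : ℝ) else helper1094.wt s (helper1094.pr v) := by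
    unfold Rch
    refine tsum_congr (fun v => ?_)
    simp [AddChar.zero_apply]
  have hR0_up : Rch κ (0 : AddChar A ℂ) s Q₀ ≤ Real.log (1 / (s - 1)) + B₃ := by
    rw [hR0_def]
    refine Real.tsum_le_of_sum_le (fun v => ?_) (fun T => ?_)
    · split_ifs
      · exact le_rfl
      · exact helper1094.wt_nonneg s _
    · calc ∑ v ∈ T, (if v ∈ Q₀ then (0 : ℝ) else helper1094.wt s (helper1094.pr v))
          ≤ ∑ v ∈ T, (Ideal.absNorm v.asIdeal : ℝ) ^ (-s) := by
            refine Finset.sum_le_sum (fun v _ => ?_)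
            split_ifs
            · exact Real.rpow_nonneg (Nat.cast_nonneg _) _
            · exact le_rfl
        _ ≤ Real.log (1 / (s - 1)) + B₃ := hB₃ s hs1 hs2 T
  -- (iii) all characters together
  have htot : Real.log (1 / (s - 1)) - B₁ ≤ ∑ χ : AddChar A ℂ, Rch κ χ s Q₀ := by
    rw [sum_Rch κ hw Q₀]
    have := hB₁ s hs1 hs2
    rwa [Nat.card_eq_fintype_card] at this
  have hsplit0 : ∑ χ : AddChar A ℂ, Rch κ χ s Q₀ = Rch κ (0 : AddChar A ℂ) s Q₀ +
      ∑ χ ∈ Finset.univ.erase (0 : AddChar A ℂ), Rch κ χ s Q₀ :=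
    (Finset.add_sum_erase _ _ (Finset.mem_univ _)).symm
  have hcard_erase : (((Finset.univ.erase (0 : AddChar A ℂ)).card : ℕ) : ℝ) ≤ g := by
    rw [Finset.card_erase_of_mem (Finset.mem_univ _), Finset.card_univ, AddChar.card_eq, hg]
    exact_mod_cast Nat.sub_le _ _
  have hsum_up : ∑ χ ∈ Finset.univ.erase (0 : AddChar A ℂ), Rch κ χ s Q₀ ≤ g * U := by
    calc ∑ χ ∈ Finset.univ.erase (0 : AddChar A ℂ), Rch κ χ s Q₀
        ≤ ∑ _χ ∈ Finset.univ.erase (0 : AddChar A ℂ), U :=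
          Finset.sum_le_sum (fun χ hχ => hup χ (Finset.ne_of_mem_erase hχ))
      _ = ((Finset.univ.erase (0 : AddChar A ℂ)).card : ℝ) * U := by
          rw [Finset.sum_const, nsmul_eq_mul]
      _ ≤ g * U := mul_le_mul_of_nonneg_right hcard_erase hU0
  -- (iv) lower bound for the nontrivial characters
  have hlow' : ∀ χ : AddChar A ℂ, χ ≠ 0 → -(B₁ + B₃ + g * U) ≤ Rch κ χ s Q₀ := by
    intro χ hχ
    have hmem : χ ∈ Finset.univ.erase (0 : AddChar A ℂ) :=
      Finset.mem_erase.mpr ⟨hχ, Finset.mem_univ _⟩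
    have hs2' : ∑ χ' ∈ Finset.univ.erase (0 : AddChar A ℂ), Rch κ χ' s Q₀ = Rch κ χ s Q₀ +
        ∑ χ' ∈ (Finset.univ.erase (0 : AddChar A ℂ)).erase χ, Rch κ χ' s Q₀ :=
      (Finset.add_sum_erase _ _ hmem).symm
    have hcard2 : ((((Finset.univ.erase (0 : AddChar A ℂ)).erase χ).card : ℕ) : ℝ) ≤ g := by
      refine le_trans ?_ hcard_erase
      exact_mod_cast Finset.card_erase_le
    have hrest : ∑ χ' ∈ (Finset.univ.erase (0 : AddChar A ℂ)).erase χ, Rch κ χ' s Q₀ ≤ g * U := by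
      calc ∑ χ' ∈ (Finset.univ.erase (0 : AddChar A ℂ)).erase χ, Rch κ χ' s Q₀
          ≤ ∑ _χ' ∈ (Finset.univ.erase (0 : AddChar A ℂ)).erase χ, U :=
            Finset.sum_le_sum (fun χ' hχ' =>
              hup χ' (Finset.ne_of_mem_erase (Finset.mem_of_mem_erase hχ')))
        _ = ((((Finset.univ.erase (0 : AddChar A ℂ)).erase χ).card : ℕ) : ℝ) * U := by
            rw [Finset.sum_const, nsmul_eq_mul]
        _ ≤ g * U := mul_le_mul_of_nonneg_right hcard2 hU0
    linarith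
  have hgU : U ≤ g * U := by nlinarith
  have habsχ : ∀ χ : AddChar A ℂ, χ ≠ 0 → |Rch κ χ s Q₀| ≤ W := by
    intro χ hχ
    rw [abs_le]
    constructor
    · have := hlow' χ hχ
      linarith [le_abs_self B₁, le_abs_self B₃]
    · have := hup χ hχ
      linarith [abs_nonneg B₁, abs_nonneg B₃]
  have habs0 : |Rch κ (0 : AddChar A ℂ) s Q₀ - Real.log (1 / (s - 1))| ≤ W := by
    rw [abs_le]
    constructor
    · linarith [le_abs_self B₁, abs_nonneg B₃]
    · linarith [le_abs_self B₃, abs_nonneg B₁, mul_nonneg hgpos.le hU0]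
  -- (v) the pair identity
  have hpair := card_mul_Pcl_add κ hw Q₀ c
  rw [← Finset.add_sum_erase _ _ (Finset.mem_univ (0 : AddChar A ℂ))] at hpair
  have h0c : ((0 : AddChar A ℂ) c).re = 1 := by simp [AddChar.zero_apply]
  rw [h0c] at hpair
  have hrest : |∑ χ ∈ Finset.univ.erase (0 : AddChar A ℂ), 2 * (χ c).re * Rch κ χ s Q₀| ≤
      2 * g * W := by
    calc |∑ χ ∈ Finset.univ.erase (0 : AddChar A ℂ), 2 * (χ c).re * Rch κ χ s Q₀|
        ≤ ∑ χ ∈ Finset.univ.erase (0 : AddChar A ℂ), |2 * (χ c).re * Rch κ χ s Q₀| :=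
          Finset.abs_sum_le_sum_abs _ _
      _ ≤ ∑ _χ ∈ Finset.univ.erase (0 : AddChar A ℂ), 2 * W := by
          refine Finset.sum_le_sum (fun χ hχ => ?_)
          rw [abs_mul, abs_mul, abs_of_pos (two_pos : (0 : ℝ) < 2)]
          have h1 : |(χ c).re| ≤ 1 := by
            have := Complex.abs_re_le_norm (χ c)
            rwa [AddChar.norm_apply] at this
          have h2 := habsχ χ (Finset.ne_of_mem_erase hχ)
          nlinarith [abs_nonneg (χ c).re, abs_nonneg (Rch κ χ s Q₀)]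
      _ = ((Finset.univ.erase (0 : AddChar A ℂ)).card : ℝ) * (2 * W) := by
          rw [Finset.sum_const, nsmul_eq_mul]
      _ ≤ g * (2 * W) := mul_le_mul_of_nonneg_right hcard_erase (by positivity)
      _ = 2 * g * W := by ring
  have key : |g * (Pcl κ s Q₀ c + Pcl κ s Q₀ (-c)) - 2 * Real.log (1 / (s - 1))| ≤
      2 * W + 2 * g * W := by
    rw [hpair]
    have e : 2 * 1 * Rch κ (0 : AddChar A ℂ) s Q₀ +
        ∑ χ ∈ Finset.univ.erase (0 : AddChar A ℂ), 2 * (χ c).re * Rch κ χ s Q₀ -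
          2 * Real.log (1 / (s - 1)) =
        2 * (Rch κ (0 : AddChar A ℂ) s Q₀ - Real.log (1 / (s - 1))) +
          ∑ χ ∈ Finset.univ.erase (0 : AddChar A ℂ), 2 * (χ c).re * Rch κ χ s Q₀ := by ring
    rw [e]
    refine (abs_add_le _ _).trans ?_
    rw [abs_mul, abs_of_pos (two_pos : (0 : ℝ) < 2)]
    linarith
  have e2 : Pcl κ s Q₀ c + Pcl κ s Q₀ (-c) - 2 / (Nat.card A : ℝ) * Real.log (1 / (s - 1)) =
      (g * (Pcl κ s Q₀ c + Pcl κ s Q₀ (-c)) - 2 * Real.log (1 / (s - 1))) / g := by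
    rw [Nat.card_eq_fintype_card, ← hg]
    field_simp
  rw [e2, abs_div, abs_of_pos hgpos, div_le_iff₀ hgpos]
  calc |g * (Pcl κ s Q₀ c + Pcl κ s Q₀ (-c)) - 2 * Real.log (1 / (s - 1))|
      ≤ 2 * W + 2 * g * W := key
    _ ≤ (2 * W + 2 * g * W) * g := le_mul_of_one_le_right (by positivity) hg1

end Main

section Ray

variable {K : Type*} [Field K] [NumberField K] {G : Type*} [CommGroup G] [Finite G]

/-- the bounded differences of the landed `helper865.exists_rayZ_diff_bound`, in the sieve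
vocabulary of `helper865.zM` (modulus = the primes dividing `𝔪`). -/
theorem exists_zM_diff_bound (𝔪 : Ideal (𝓞 K)) (h𝔪 : 𝔪 ≠ ⊥) (ψ : (Ideal (𝓞 K))⁰ →* G)
    (hprin : ∀ (α : 𝓞 K) (hα : α ≠ 0), α - 1 ∈ 𝔪 → ψ (helper865.spanNZ α hα) = 1)
    (hsurj : ∀ g : G, ∃ I : (Ideal (𝓞 K))⁰, IsCoprime (I : Ideal (𝓞 K)) 𝔪 ∧ ψ I = g) :
    ∃ M : ℝ, ∀ s : ℝ, 1 < s → s ≤ 2 → ∀ j j' : Additive G,
      |helper865.zM (helper865.kap ψ) s (helper865.primesDvd 𝔪 h𝔪) j -
        helper865.zM (helper865.kap ψ) s (helper865.primesDvd 𝔪 h𝔪) j'| ≤ M := by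
  obtain ⟨M, hM⟩ := helper865.exists_rayZ_diff_bound
    (⟨𝔪, mem_nonZeroDivisors_of_ne_zero h𝔪⟩ : (Ideal (𝓞 K))⁰) ψ hprin hsurj
  refine ⟨M, fun s hs1 hs2 j j' => ?_⟩
  have := hM s hs1 hs2 (Additive.toMul j) (Additive.toMul j')
  rw [helper865.rayZ_eq_zM ψ 𝔪 h𝔪, helper865.rayZ_eq_zM ψ 𝔪 h𝔪] at this
  exact this

/-- **Pair equidistribution, ray form (two-sided).**  `ψ` trivial on the principal ideals `(α)`,
`α ≡ 1 mod 𝔪`, onto on the ideals prime to `𝔪`; if the primes `v ∤ 𝔪` of trivial class have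
"density at least `1/|G|`", then for every `c : G` the primes `v ∤ 𝔪` of class `c` or `c⁻¹`
satisfy `P_c + P_{c⁻¹} = (2/|G|) log (1/(s-1)) + O(1)`. -/
theorem exists_ray_pair_bound (𝔪 : Ideal (𝓞 K)) (h𝔪 : 𝔪 ≠ ⊥) (ψ : (Ideal (𝓞 K))⁰ →* G)
    (hprin : ∀ (α : 𝓞 K) (hα : α ≠ 0), α - 1 ∈ 𝔪 → ψ (helper865.spanNZ α hα) = 1)
    (hsurj : ∀ g : G, ∃ I : (Ideal (𝓞 K))⁰, IsCoprime (I : Ideal (𝓞 K)) 𝔪 ∧ ψ I = g)
    (hlow : ∃ B : ℝ, ∀ s : ℝ, 1 < s → s < 2 →
      Real.log (1 / (s - 1)) - B ≤ (Nat.card G : ℝ) *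
        Pcl (helper865.kap ψ) s (helper865.primesDvd 𝔪 h𝔪) (Additive.ofMul (1 : G)))
    (c : G) :
    ∃ B : ℝ, ∀ s : ℝ, 1 < s → s < 2 →
      |Pcl (helper865.kap ψ) s (helper865.primesDvd 𝔪 h𝔪) (Additive.ofMul c) +
        Pcl (helper865.kap ψ) s (helper865.primesDvd 𝔪 h𝔪) (Additive.ofMul c⁻¹) -
          2 / (Nat.card G : ℝ) * Real.log (1 / (s - 1))| ≤ B := by
  have hcard : Nat.card (Additive G) = Nat.card G := Nat.card_congr Additive.toMul
  have h := exists_Pcl_pair_bound (helper865.kap ψ) (helper865.primesDvd 𝔪 h𝔪)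
    (exists_zM_diff_bound 𝔪 h𝔪 ψ hprin hsurj)
    (by
      obtain ⟨B, hB⟩ := hlow
      refine ⟨B, fun s hs1 hs2 => ?_⟩
      rw [hcard]
      exact hB s hs1 hs2) (Additive.ofMul c)
  rw [hcard] at h
  exact h

end Ray

end Fermat.Agent.S48.helper4600
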