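/-
S48 / F5, SEAM 1 (analytic): `helper1398.Stmt_SymNormRes`.

`F` a number field, `q` a prime, `R := sqNormRes F q` the squares of the norm residues modulo `q`
of the ideals of `F` prime to `q`.  With `ψ I := (prime-to-q part of N I)² mod q`, a homomorphism
from the nonzero ideals of `F` onto the group `R`, trivial on the principal ideals `(α)`,
`α ≡ 1 mod q` (because `N α ≡ 1 mod q`), the landed ray-class equidistribution
`S55/helper865.exists_rayZ_diff_bound` applies for every number field, and the pair form of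
`helper4600_RayPair` gives

(i)  `|R| * D(1) ≤ log (1/(s-1)) + B`  (Weber), and
(ii) if `log (1/(s-1)) - B ≤ |R| * D(1)` then `2/|R| * log (1/(s-1)) - B ≤ D(c) + D(c⁻¹)`,

where `D(c)` is the sum of `ℓ^(-s)` over the degree-one primes of `F` with `ℓ² ≡ c mod q`.
-/
import Mathlib
import Fermat.Agent.S48.helper4600_RayPair
import Fermat.Agent.S29.helper141_LinearZeta
import Fermat.Agent.S48.helper1398_ChebSpec

set_option autoImplicit false
set_option linter.unusedSectionVars false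

namespace Fermat.Agent.S48.helper4600

open NumberField IsDedekindDomain
open scoped nonZeroDivisors
open Fermat.Agent.S14 Fermat.Agent.S55

/-! ### Degree-one sums as sums over the primes of `F` -/

section Weighted

variable (F : Type) [Field F] [NumberField F]

open Classical in
/-- the term of the degree-one sum at a prime `v` of `F`. -/
noncomputable def degTerm (w : ℕ → ℝ) (s : ℝ) (v : HeightOneSpectrum (𝓞 F)) : ℝ :=
  if (Ideal.absNorm v.asIdeal).Prime then
    w (Ideal.absNorm v.asIdeal) * (Ideal.absNorm v.asIdeal : ℝ) ^ (-s) else 0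

open Classical in
/-- the term of the sum over the primes of `F` whose norm is not a prime number. -/
noncomputable def ndTerm (s : ℝ) (v : HeightOneSpectrum (𝓞 F)) : ℝ :=
  if (Ideal.absNorm v.asIdeal).Prime then 0 else (Ideal.absNorm v.asIdeal : ℝ) ^ (-s)

theorem ndTerm_nonneg (s : ℝ) (v : HeightOneSpectrum (𝓞 F)) : 0 ≤ ndTerm F s v := by
  unfold ndTerm
  split_ifs
  · exact le_rfl
  · exact Real.rpow_nonneg (Nat.cast_nonneg _) _

theorem summable_ndTerm {s : ℝ} (hs : 1 < s) : Summable (ndTerm F s) := by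
  refine Summable.of_nonneg_of_le (ndTerm_nonneg F s) (fun v => ?_)
    (helper2850.summable_primes F hs)
  unfold ndTerm
  split_ifs
  · exact Real.rpow_nonneg (Nat.cast_nonneg _) _
  · exact le_rfl

theorem tsum_ndTerm_eq (s : ℝ) : ∑' v : HeightOneSpectrum (𝓞 F), ndTerm F s v =
    NumberField.Set.primeIdealZetaSum
      {v : HeightOneSpectrum (𝓞 F) | ¬ (Ideal.absNorm v.asIdeal).Prime} s := by
  classical
  rw [NumberField.Set.primeIdealZetaSum_def,
    tsum_subtype {v : HeightOneSpectrum (𝓞 F) | ¬ (Ideal.absNorm v.asIdeal).Prime}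
      (fun v : HeightOneSpectrum (𝓞 F) => (Ideal.absNorm v.asIdeal : ℝ) ^ (-s))]
  refine tsum_congr (fun v => ?_)
  unfold ndTerm
  by_cases h : (Ideal.absNorm v.asIdeal).Prime
  · rw [if_pos h, Set.indicator_of_notMem]
    exact fun h' => h' h
  · rw [if_neg h, Set.indicator_of_mem]
    exact h

theorem summable_degTerm (w : ℕ → ℝ) (C : ℝ) (hw : ∀ n, |w n| ≤ C) {s : ℝ} (hs : 1 < s) :
    Summable (degTerm F w s) := by
  refine Summable.of_norm_bounded ((helper2850.summable_primes F hs).mul_left C) (fun v => ?_)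
  unfold degTerm
  split_ifs
  · rw [Real.norm_eq_abs, abs_mul, abs_of_nonneg (Real.rpow_nonneg (Nat.cast_nonneg _) _)]
    exact mul_le_mul_of_nonneg_right (hw _) (Real.rpow_nonneg (Nat.cast_nonneg _) _)
  · rw [norm_zero]
    exact mul_nonneg ((abs_nonneg _).trans (hw 0)) (Real.rpow_nonneg (Nat.cast_nonneg _) _)

/-- the degree-one sum of the Spec, fibred over the prime numbers, is a sum over the primes of
`F` of prime norm. -/
theorem degOneSum_eq (w : ℕ → ℝ) (C : ℝ) (hw : ∀ n, |w n| ≤ C) {s : ℝ} (hs : 1 < s) :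
    helper1398.degOneSum F w s = ∑' v : HeightOneSpectrum (𝓞 F), degTerm F w s v := by
  classical
  have hsum : Summable fun v : HeightOneSpectrum (𝓞 F) =>
      w (Ideal.absNorm v.asIdeal) * (Ideal.absNorm v.asIdeal : ℝ) ^ (-s) := by
    refine Summable.of_norm_bounded ((helper2850.summable_primes F hs).mul_left C) (fun v => ?_)
    rw [Real.norm_eq_abs, abs_mul, abs_of_nonneg (Real.rpow_nonneg (Nat.cast_nonneg _) _)]
    exact mul_le_mul_of_nonneg_right (hw _) (Real.rpow_nonneg (Nat.cast_nonneg _) _)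
  have hsub : Summable fun v : {v : HeightOneSpectrum (𝓞 F) // (Ideal.absNorm v.asIdeal).Prime} =>
      w (Ideal.absNorm v.1.asIdeal) * (Ideal.absNorm v.1.asIdeal : ℝ) ^ (-s) :=
    hsum.subtype _
  have hsig : Summable fun p : (Σ ℓ : Nat.Primes, S29.helper141.PrimeFiber F ℓ) =>
      w (Ideal.absNorm ((S29.helper141.degOneEquiv F p).1).asIdeal) *
        (Ideal.absNorm ((S29.helper141.degOneEquiv F p).1).asIdeal : ℝ) ^ (-s) :=
    (S29.helper141.degOneEquiv F).summable_iff.mpr hsub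
  have hinner : ∀ ℓ : Nat.Primes, ∑' v : S29.helper141.PrimeFiber F ℓ,
      w (Ideal.absNorm ((S29.helper141.degOneEquiv F ⟨ℓ, v⟩).1).asIdeal) *
        (Ideal.absNorm ((S29.helper141.degOneEquiv F ⟨ℓ, v⟩).1).asIdeal : ℝ) ^ (-s) =
      w ℓ * (helper1398.normCnt F ℓ : ℝ) * ((ℓ : ℕ) : ℝ) ^ (-s) := by
    intro ℓ
    have h1 : ∀ v : S29.helper141.PrimeFiber F ℓ,
        w (Ideal.absNorm ((S29.helper141.degOneEquiv F ⟨ℓ, v⟩).1).asIdeal) *
        (Ideal.absNorm ((S29.helper141.degOneEquiv F ⟨ℓ, v⟩).1).asIdeal : ℝ) ^ (-s) =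
        w ℓ * ((ℓ : ℕ) : ℝ) ^ (-s) := by
      intro v
      have : Ideal.absNorm ((S29.helper141.degOneEquiv F ⟨ℓ, v⟩).1).asIdeal = (ℓ : ℕ) := v.2
      rw [this]
    simp_rw [h1]
    have h2 : helper1398.normCnt F ℓ = Nat.card (S29.helper141.PrimeFiber F ℓ) :=
      S29.helper141.normCount_eq_card_primes F ℓ.2
    rw [tsum_const, nsmul_eq_mul, h2]
    ring
  have h2 := hsig.tsum_sigma
  simp_rw [hinner] at h2
  have h3 := (S29.helper141.degOneEquiv F).tsum_eq
    (fun v : {v : HeightOneSpectrum (𝓞 F) // (Ideal.absNorm v.asIdeal).Prime} =>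
      w (Ideal.absNorm v.1.asIdeal) * (Ideal.absNorm v.1.asIdeal : ℝ) ^ (-s))
  have h4 := tsum_subtype {v : HeightOneSpectrum (𝓞 F) | (Ideal.absNorm v.asIdeal).Prime}
    (fun v : HeightOneSpectrum (𝓞 F) =>
      w (Ideal.absNorm v.asIdeal) * (Ideal.absNorm v.asIdeal : ℝ) ^ (-s))
  have h5 : helper1398.degOneSum F w s =
      ∑' ℓ : Nat.Primes, w ℓ * (helper1398.normCnt F ℓ : ℝ) * ((ℓ : ℕ) : ℝ) ^ (-s) := rfl
  rw [h5, ← h2, h3]
  refine h4.trans (tsum_congr (fun v => ?_))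
  unfold degTerm
  by_cases h : (Ideal.absNorm v.asIdeal).Prime
  · rw [if_pos h, Set.indicator_of_mem]
    exact h
  · rw [if_neg h, Set.indicator_of_notMem]
    exact h

theorem degOneSum_add (w₁ w₂ : ℕ → ℝ) (C₁ C₂ : ℝ) (h₁ : ∀ n, |w₁ n| ≤ C₁)
    (h₂ : ∀ n, |w₂ n| ≤ C₂) {s : ℝ} (hs : 1 < s) :
    helper1398.degOneSum F (fun ℓ => w₁ ℓ + w₂ ℓ) s =
      helper1398.degOneSum F w₁ s + helper1398.degOneSum F w₂ s := by
  rw [degOneSum_eq F w₁ C₁ h₁ hs, degOneSum_eq F w₂ C₂ h₂ hs,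
    degOneSum_eq F (fun ℓ => w₁ ℓ + w₂ ℓ) (C₁ + C₂)
      (fun n => (abs_add_le _ _).trans (add_le_add (h₁ n) (h₂ n))) hs,
    ← Summable.tsum_add (summable_degTerm F w₁ C₁ h₁ hs) (summable_degTerm F w₂ C₂ h₂ hs)]
  refine tsum_congr (fun v => ?_)
  unfold degTerm
  split_ifs
  · ring
  · ring

end Weighted

/-! ### The norm-residue homomorphism -/

section NormRes

variable (F : Type) [Field F] [NumberField F] (q : ℕ) [hq : Fact q.Prime]

/-- the modulus `q 𝓞_F`. -/
def qMod : Ideal (𝓞 F) := Ideal.span {(q : 𝓞 F)}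

theorem qMod_ne_bot : qMod F q ≠ ⊥ := by
  unfold qMod
  rw [Ne, Ideal.span_singleton_eq_bot]
  exact_mod_cast hq.out.ne_zero

theorem natCast_mem_qMod : (q : 𝓞 F) ∈ qMod F q := Ideal.mem_span_singleton_self _

/-- norm prime to `q` implies ideal prime to `q`. -/
theorem isCoprime_qMod_of_coprime {I : Ideal (𝓞 F)} (h : (Ideal.absNorm I).Coprime q) :
    IsCoprime I (qMod F q) := by
  rw [Ideal.isCoprime_iff_exists]
  obtain ⟨a, b, hab⟩ := Nat.isCoprime_iff_coprime.mpr h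
  refine ⟨(a : 𝓞 F) * (Ideal.absNorm I : 𝓞 F), Ideal.mul_mem_left _ _ (Ideal.absNorm_mem I),
    (b : 𝓞 F) * (q : 𝓞 F), Ideal.mul_mem_left _ _ (natCast_mem_qMod F q), ?_⟩
  have := congrArg (Int.cast : ℤ → 𝓞 F) hab
  push_cast at this
  exact this

/-- ideal prime to `q` implies norm prime to `q` (Cauchy in `𝓞 F ⧸ I`). -/
theorem coprime_of_isCoprime_qMod {I : Ideal (𝓞 F)} (hI : I ≠ ⊥) (h : IsCoprime I (qMod F q)) :
    (Ideal.absNorm I).Coprime q := by
  by_contra hc
  have hdvd : q ∣ Ideal.absNorm I := by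
    by_contra hnd
    exact hc ((Nat.Prime.coprime_iff_not_dvd hq.out).mpr hnd).symm
  have : Finite (𝓞 F ⧸ I) := Ideal.finiteQuotientOfFreeOfNeBot I hI
  have : Fintype (𝓞 F ⧸ I) := Fintype.ofFinite _
  have hcard : q ∣ Fintype.card (𝓞 F ⧸ I) := by
    rw [← Nat.card_eq_fintype_card, ← Submodule.cardQuot_apply, ← Ideal.absNorm_apply]
    exact hdvd
  obtain ⟨x, hx⟩ := exists_prime_addOrderOf_dvd_card q hcard
  obtain ⟨i, hi, j, hj, hij⟩ := Ideal.isCoprime_iff_exists.mp h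
  obtain ⟨b, rfl⟩ := Ideal.mem_span_singleton'.mp hj
  have hx0 : x ≠ 0 := by
    rintro rfl
    rw [addOrderOf_zero] at hx
    exact hq.out.one_lt.ne hx
  have hqx : (q : 𝓞 F ⧸ I) * x = 0 := by
    have := addOrderOf_nsmul_eq_zero x
    rw [hx, nsmul_eq_mul] at this
    exact this
  have h1 : (Ideal.Quotient.mk I b) * (q : 𝓞 F ⧸ I) = 1 := by
    have := congrArg (Ideal.Quotient.mk I) hij
    rw [map_add, Ideal.Quotient.eq_zero_iff_mem.mpr hi, zero_add, map_mul, map_natCast,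
      map_one] at this
    exact this
  apply hx0
  calc x = (Ideal.Quotient.mk I b * (q : 𝓞 F ⧸ I)) * x := by rw [h1, one_mul]
    _ = Ideal.Quotient.mk I b * ((q : 𝓞 F ⧸ I) * x) := by ring
    _ = 0 := by rw [hqx, mul_zero]

/-- an ideal containing `q` has norm a power of `q`. -/
theorem absNorm_eq_pow_of_mem {I : Ideal (𝓞 F)} (h : (q : 𝓞 F) ∈ I) :
    ∃ k : ℕ, Ideal.absNorm I = q ^ k := by
  have hle : qMod F q ≤ I := (Ideal.span_singleton_le_iff_mem I).mpr h
  have hdvd := Ideal.absNorm_dvd_absNorm_of_le hle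
  rw [qMod, Ideal.absNorm_span_natCast] at hdvd
  obtain ⟨k, -, hk⟩ := (Nat.dvd_prime_pow hq.out).mp hdvd
  exact ⟨k, hk⟩

theorem ordCompl_eq_self_of_coprime {n : ℕ} (h : n.Coprime q) : ordCompl[q] n = n := by
  have h0 : n.factorization q = 0 :=
    Nat.factorization_eq_zero_of_not_dvd ((Nat.Prime.coprime_iff_not_dvd hq.out).mp h.symm)
  rw [h0, pow_zero, Nat.div_one]

/-- a maximal ideal not containing `q` has norm prime to `q`. -/
theorem coprime_absNorm_of_natCast_notMem {p : Ideal (𝓞 F)} (hmax : p.IsMaximal) (hp0 : p ≠ ⊥)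
    (hqp : (q : 𝓞 F) ∉ p) : (Ideal.absNorm p).Coprime q := by
  have hcop : IsCoprime p (qMod F q) := by
    rw [Ideal.isCoprime_iff_exists]
    obtain ⟨y, i, hi, hyi⟩ := hmax.exists_inv hqp
    exact ⟨i, hi, y * q, Ideal.mul_mem_left _ _ (natCast_mem_qMod F q), by
      rw [add_comm]; exact hyi⟩
  exact coprime_of_isCoprime_qMod F q hp0 hcop

/-- the prime-to-`q` part of the norm of a nonzero ideal is the norm of an ideal prime to `q`. -/
theorem exists_norm_eq_ordCompl (I : Ideal (𝓞 F)) : I ≠ ⊥ →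
    ∃ J : Ideal (𝓞 F), (Ideal.absNorm J).Coprime q ∧
      Ideal.absNorm J = ordCompl[q] (Ideal.absNorm I) := by
  refine UniqueFactorizationMonoid.induction_on_prime I ?_ ?_ ?_
  · intro h
    exact absurd Ideal.zero_eq_bot h
  · intro x hx _
    rw [Ideal.isUnit_iff] at hx
    subst hx
    exact ⟨⊤, by simp, by simp⟩
  · intro a p ha hp ih _
    obtain ⟨J, hJ1, hJ2⟩ := ih ha
    have hp0 : p ≠ ⊥ := hp.ne_zero
    have hpP : p.IsPrime := (Ideal.prime_iff_isPrime hp0).mp hp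
    rw [map_mul, Nat.ordCompl_mul]
    by_cases hqp : (q : 𝓞 F) ∈ p
    · obtain ⟨k, hk⟩ := absNorm_eq_pow_of_mem F q hqp
      refine ⟨J, hJ1, ?_⟩
      rw [hk, Nat.ordCompl_self_pow hq.out, one_mul, hJ2]
    · have hN := coprime_absNorm_of_natCast_notMem F q (hpP.isMaximal hp0) hp0 hqp
      refine ⟨p * J, ?_, ?_⟩
      · rw [map_mul]
        exact Nat.Coprime.mul_left hN hJ1
      · rw [map_mul, ordCompl_eq_self_of_coprime q hN, hJ2]

/-- `I ↦ (prime-to-q part of N I)² mod q`, as a unit. -/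
noncomputable def psi0 : (Ideal (𝓞 F))⁰ →* (ZMod q)ˣ where
  toFun I := (ZMod.unitOfCoprime (ordCompl[q] (Ideal.absNorm (I : Ideal (𝓞 F))))
    (Nat.coprime_ordCompl hq.out (by
      rw [Ne, Ideal.absNorm_eq_zero_iff]
      exact nonZeroDivisors.coe_ne_zero I)).symm) ^ 2
  map_one' := by
    apply Units.ext
    simp [ZMod.coe_unitOfCoprime]
  map_mul' I J := by
    apply Units.ext
    simp only [Units.val_pow_eq_pow_val, ZMod.coe_unitOfCoprime, Units.val_mul,
      Submonoid.coe_mul, map_mul, Nat.ordCompl_mul, Nat.cast_mul]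
    ring

theorem coe_psi0 (I : (Ideal (𝓞 F))⁰) : ((psi0 F q I : (ZMod q)ˣ) : ZMod q) =
    ((ordCompl[q] (Ideal.absNorm (I : Ideal (𝓞 F))) : ℕ) : ZMod q) ^ 2 := by
  simp [psi0, ZMod.coe_unitOfCoprime]

/-- the monoid of squares of norm residues. -/
def sqSubM : Submonoid (ZMod q)ˣ where
  carrier := {u | (u : ZMod q) ∈ helper1398.sqNormRes F q}
  one_mem' := ⟨⊤, by simp, by simp⟩
  mul_mem' := by
    rintro u v ⟨I, hI1, hI2⟩ ⟨J, hJ1, hJ2⟩
    refine ⟨I * J, ?_, ?_⟩
    · rw [map_mul]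
      exact Nat.Coprime.mul_left hI1 hJ1
    · rw [map_mul, Nat.cast_mul, mul_pow, hI2, hJ2, Units.val_mul]

/-- the group of squares of norm residues. -/
def sqSub : Subgroup (ZMod q)ˣ :=
  { sqSubM F q with
    inv_mem' := by
      intro u hu
      have h2 : u * u ^ (q - 2) = 1 := by
        rw [← pow_succ', show q - 2 + 1 = q - 1 from by have := hq.out.two_le; omega]
        exact ZMod.units_pow_card_sub_one_eq_one q u
      rw [inv_eq_of_mul_eq_one_right h2]
      exact (sqSubM F q).pow_mem hu _ }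

theorem mem_sqSub {u : (ZMod q)ˣ} :
    u ∈ sqSub F q ↔ (u : ZMod q) ∈ helper1398.sqNormRes F q := Iff.rfl

theorem exists_unit_of_mem {c : ZMod q} (hc : c ∈ helper1398.sqNormRes F q) :
    ∃ u : (ZMod q)ˣ, (u : ZMod q) = c := by
  obtain ⟨I, hI1, hI2⟩ := hc
  refine ⟨(ZMod.unitOfCoprime _ hI1) ^ 2, ?_⟩
  rw [Units.val_pow_eq_pow_val, ZMod.coe_unitOfCoprime, hI2]

theorem card_sqSub : Nat.card (sqSub F q) = (helper1398.sqNormRes F q).ncard := by
  rw [← Nat.card_coe_set_eq]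
  refine Nat.card_congr (Equiv.ofBijective
    (fun u : sqSub F q => (⟨((u : (ZMod q)ˣ) : ZMod q), u.2⟩ : helper1398.sqNormRes F q))
    ⟨?_, ?_⟩)
  · intro u v huv
    exact Subtype.ext (Units.ext (congrArg Subtype.val huv))
  · rintro ⟨c, hc⟩
    obtain ⟨u, hu⟩ := exists_unit_of_mem F q hc
    exact ⟨⟨u, by rw [mem_sqSub, hu]; exact hc⟩, Subtype.ext hu⟩

theorem psi0_mem (I : (Ideal (𝓞 F))⁰) : psi0 F q I ∈ sqSub F q := by
  obtain ⟨J, hJ1, hJ2⟩ := exists_norm_eq_ordCompl F q (I : Ideal (𝓞 F))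
    (nonZeroDivisors.coe_ne_zero I)
  rw [mem_sqSub, coe_psi0]
  exact ⟨J, hJ1, by rw [hJ2]⟩

/-- the norm-residue homomorphism onto the group of squares of norm residues. -/
noncomputable def psiQ : (Ideal (𝓞 F))⁰ →* sqSub F q :=
  (psi0 F q).codRestrict (sqSub F q) (psi0_mem F q)

theorem coe_psiQ_of_coprime (I : (Ideal (𝓞 F))⁰)
    (h : (Ideal.absNorm (I : Ideal (𝓞 F))).Coprime q) :
    (((psiQ F q I : sqSub F q) : (ZMod q)ˣ) : ZMod q) =
      ((Ideal.absNorm (I : Ideal (𝓞 F)) : ℕ) : ZMod q) ^ 2 := by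
  have h1 : (((psiQ F q I : sqSub F q) : (ZMod q)ˣ) : ZMod q) =
      ((ordCompl[q] (Ideal.absNorm (I : Ideal (𝓞 F))) : ℕ) : ZMod q) ^ 2 := coe_psi0 F q I
  rw [h1, ordCompl_eq_self_of_coprime q h]

theorem psiQ_surj (g : sqSub F q) : ∃ I : (Ideal (𝓞 F))⁰,
    IsCoprime (I : Ideal (𝓞 F)) (qMod F q) ∧ psiQ F q I = g := by
  have hg : ((g : (ZMod q)ˣ) : ZMod q) ∈ helper1398.sqNormRes F q := g.2
  obtain ⟨J, hJ1, hJ2⟩ := hg
  have hJ0 : J ≠ ⊥ := by
    rintro rfl
    rw [Ideal.absNorm_bot, Nat.coprime_zero_left] at hJ1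
    exact hq.out.ne_one hJ1
  have hI : (Ideal.absNorm (((⟨J, mem_nonZeroDivisors_of_ne_zero hJ0⟩ : (Ideal (𝓞 F))⁰)) :
      Ideal (𝓞 F))).Coprime q := hJ1
  refine ⟨⟨J, mem_nonZeroDivisors_of_ne_zero hJ0⟩, isCoprime_qMod_of_coprime F q hJ1, ?_⟩
  apply Subtype.ext
  apply Units.ext
  exact (coe_psiQ_of_coprime F q ⟨J, mem_nonZeroDivisors_of_ne_zero hJ0⟩ hI).trans hJ2

/-- `N α ≡ 1 mod q` for `α ≡ 1 mod q`. -/
theorem intCast_norm_eq_one (α : 𝓞 F) (h : α - 1 ∈ qMod F q) :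
    ((Algebra.norm ℤ α : ℤ) : ZMod q) = 1 := by
  classical
  obtain ⟨β, hβ⟩ := Ideal.mem_span_singleton'.mp h
  have hα : α = 1 + β * (q : 𝓞 F) := by rw [hβ]; ring
  have hq0 : ((q : ℕ) : Matrix (Module.Free.ChooseBasisIndex ℤ (𝓞 F))
      (Module.Free.ChooseBasisIndex ℤ (𝓞 F)) (ZMod q)) = 0 := by
    rw [← Matrix.diagonal_natCast, ZMod.natCast_self]
    exact Matrix.diagonal_zero
  have key : (Int.castRingHom (ZMod q)).mapMatrix
      (Algebra.leftMulMatrix (RingOfIntegers.basis F) (1 + β * (q : 𝓞 F))) = 1 := by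
    rw [map_add, map_one, map_mul, map_natCast, map_add, map_one, map_mul, map_natCast, hq0,
      mul_zero, add_zero]
  rw [Algebra.norm_eq_matrix_det (RingOfIntegers.basis F), hα]
  show (Int.castRingHom (ZMod q)) (Matrix.det _) = 1
  rw [RingHom.map_det, key, Matrix.det_one]

theorem psiQ_prin (α : 𝓞 F) (hα : α ≠ 0) (h : α - 1 ∈ qMod F q) :
    psiQ F q (helper865.spanNZ α hα) = 1 := by
  have hN := intCast_norm_eq_one F q α h
  have hsq : (((Algebra.norm ℤ α).natAbs : ℕ) : ZMod q) ^ 2 = 1 := by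
    have h1 : ((((Algebra.norm ℤ α).natAbs : ℕ) : ℤ) : ZMod q) ^ 2 = 1 := by
      rw [← Int.cast_pow, Int.natCast_natAbs, sq_abs, Int.cast_pow, hN, one_pow]
    rwa [Int.cast_natCast] at h1
  have hcop : (Ideal.absNorm ((helper865.spanNZ α hα : (Ideal (𝓞 F))⁰) : Ideal (𝓞 F))).Coprime
      q := by
    rw [helper865.coe_spanNZ, Ideal.absNorm_span_singleton]
    by_contra hc
    have hdvd : q ∣ (Algebra.norm ℤ α).natAbs := by
      by_contra hnd
      exact hc ((Nat.Prime.coprime_iff_not_dvd hq.out).mpr hnd).symm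
    rw [(ZMod.natCast_eq_zero_iff _ _).mpr hdvd, zero_pow two_ne_zero] at hsq
    exact zero_ne_one hsq
  apply Subtype.ext
  apply Units.ext
  rw [coe_psiQ_of_coprime F q (helper865.spanNZ α hα) hcop, helper865.coe_spanNZ,
    Ideal.absNorm_span_singleton, hsq]
  rfl

/-! ### Primes -/

theorem mem_primesDvd_qMod_iff (v : HeightOneSpectrum (𝓞 F)) :
    v ∈ helper865.primesDvd (qMod F q) (qMod_ne_bot F q) ↔ (q : 𝓞 F) ∈ v.asIdeal := by
  rw [helper865.mem_primesDvd, Ideal.dvd_iff_le, qMod, Ideal.span_singleton_le_iff_mem]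

theorem natCast_absNorm_eq_zero_of_mem (v : HeightOneSpectrum (𝓞 F))
    (hv : (q : 𝓞 F) ∈ v.asIdeal) : ((Ideal.absNorm v.asIdeal : ℕ) : ZMod q) = 0 := by
  obtain ⟨k, hk⟩ := absNorm_eq_pow_of_mem F q hv
  have hk0 : k ≠ 0 := by
    rintro rfl
    rw [pow_zero, Ideal.absNorm_eq_one_iff] at hk
    exact v.isPrime.ne_top hk
  rw [hk, Nat.cast_pow, ZMod.natCast_self, zero_pow hk0]

theorem psiQ_pr_eq_iff (v : HeightOneSpectrum (𝓞 F)) (hv : (q : 𝓞 F) ∉ v.asIdeal)
    (u : sqSub F q) :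
    psiQ F q (helper1094.pr v) = u ↔
      ((Ideal.absNorm v.asIdeal : ℕ) : ZMod q) ^ 2 = ((u : (ZMod q)ˣ) : ZMod q) := by
  have h : (((psiQ F q (helper1094.pr v) : sqSub F q) : (ZMod q)ˣ) : ZMod q) =
      ((Ideal.absNorm v.asIdeal : ℕ) : ZMod q) ^ 2 :=
    coe_psiQ_of_coprime F q (helper1094.pr v)
      (coprime_absNorm_of_natCast_notMem F q v.isMaximal v.ne_bot hv)
  constructor
  · intro e
    rw [← e]
    exact h.symm
  · intro e
    exact Subtype.ext (Units.ext (h.trans e))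

theorem abs_sqInd_le (c : ZMod q) (n : ℕ) : |helper1398.sqInd q c n| ≤ 1 := by
  unfold helper1398.sqInd
  split_ifs <;> simp

/-! ### Comparison of the class sums with the degree-one sums -/

/-- the degree-one primes with `ℓ² ≡ u` are primes of class `u` outside `q`. -/
theorem degOneSum_le_Pcl (u : sqSub F q) {s : ℝ} (hs : 1 < s) :
    helper1398.degOneSum F (helper1398.sqInd q ((u : (ZMod q)ˣ) : ZMod q)) s ≤
      Pcl (helper865.kap (psiQ F q)) s (helper865.primesDvd (qMod F q) (qMod_ne_bot F q))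
        (Additive.ofMul u) := by
  classical
  have hw : Summable (helper1094.wt (K := F) s) :=
    Fermat.Agent.Lib.helper1121.summable_ideal_rpow F hs
  rw [degOneSum_eq F _ 1 (abs_sqInd_le q _) hs]
  unfold Pcl
  refine Summable.tsum_le_tsum (fun v => ?_) (summable_degTerm F _ 1 (abs_sqInd_le q _) hs)
    (summable_Pcl_term _ hw _ _)
  have hnn : ∀ (P : Prop) (d : Decidable P),
      (0 : ℝ) ≤ @ite ℝ P d (helper1094.wt s (helper1094.pr v)) 0 := by
    intro P _
    split_ifs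
    · exact helper1094.wt_nonneg s _
    · exact le_rfl
  unfold degTerm
  by_cases hp : (Ideal.absNorm v.asIdeal).Prime
  · rw [if_pos hp]
    unfold helper1398.sqInd
    by_cases he : ((Ideal.absNorm v.asIdeal : ℕ) : ZMod q) ^ 2 = ((u : (ZMod q)ˣ) : ZMod q)
    · rw [if_pos he, one_mul]
      have hv : (q : 𝓞 F) ∉ v.asIdeal := by
        intro hmem
        rw [natCast_absNorm_eq_zero_of_mem F q v hmem, zero_pow two_ne_zero] at he
        exact (Units.ne_zero (u : (ZMod q)ˣ)) he.symm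
      have hcond : v ∉ helper865.primesDvd (qMod F q) (qMod_ne_bot F q) ∧
          helper865.clsA (helper865.kap (psiQ F q)) (helper1094.pr v) = Additive.ofMul u := by
        refine ⟨fun h' => hv ((mem_primesDvd_qMod_iff F q v).mp h'), ?_⟩
        rw [helper865.clsA_kap, (psiQ_pr_eq_iff F q v hv u).mpr he]
      rw [if_pos hcond]
      exact le_rfl
    · rw [if_neg he, zero_mul]
      exact hnn _ _
  · rw [if_neg hp]
    exact hnn _ _

/-- the primes of class `u` outside `q` are degree-one primes with `ℓ² ≡ u`, or primes whose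
norm is not a prime number. -/
theorem Pcl_le_degOneSum_add (u : sqSub F q) {s : ℝ} (hs : 1 < s) :
    Pcl (helper865.kap (psiQ F q)) s (helper865.primesDvd (qMod F q) (qMod_ne_bot F q))
        (Additive.ofMul u) ≤
      helper1398.degOneSum F (helper1398.sqInd q ((u : (ZMod q)ˣ) : ZMod q)) s +
        ∑' v : HeightOneSpectrum (𝓞 F), ndTerm F s v := by
  classical
  have hw : Summable (helper1094.wt (K := F) s) :=
    Fermat.Agent.Lib.helper1121.summable_ideal_rpow F hs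
  have hd := summable_degTerm F (helper1398.sqInd q ((u : (ZMod q)ˣ) : ZMod q)) 1
    (abs_sqInd_le q _) hs
  rw [degOneSum_eq F _ 1 (abs_sqInd_le q _) hs, ← Summable.tsum_add hd (summable_ndTerm F hs)]
  unfold Pcl
  refine Summable.tsum_le_tsum (fun v => ?_) (summable_Pcl_term _ hw _ _)
    (hd.add (summable_ndTerm F hs))
  have hN : (0 : ℝ) ≤ (Ideal.absNorm v.asIdeal : ℝ) ^ (-s) :=
    Real.rpow_nonneg (Nat.cast_nonneg _) _
  have hwt : helper1094.wt s (helper1094.pr v) = (Ideal.absNorm v.asIdeal : ℝ) ^ (-s) := rfl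
  unfold degTerm ndTerm helper1398.sqInd
  by_cases hcond : v ∉ helper865.primesDvd (qMod F q) (qMod_ne_bot F q) ∧
      helper865.clsA (helper865.kap (psiQ F q)) (helper1094.pr v) = Additive.ofMul u
  · rw [if_pos hcond, hwt]
    by_cases hp : (Ideal.absNorm v.asIdeal).Prime
    · rw [if_pos hp, if_pos hp]
      have hv : (q : 𝓞 F) ∉ v.asIdeal := fun hmem =>
        hcond.1 ((mem_primesDvd_qMod_iff F q v).mpr hmem)
      have h2 : psiQ F q (helper1094.pr v) = u := by
        have := hcond.2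
        rw [helper865.clsA_kap] at this
        exact Additive.ofMul.injective this
      rw [if_pos ((psiQ_pr_eq_iff F q v hv u).mp h2)]
      linarith
    · rw [if_neg hp, if_neg hp]
      linarith
  · rw [if_neg hcond]
    by_cases hp : (Ideal.absNorm v.asIdeal).Prime
    · rw [if_pos hp, if_pos hp]
      split_ifs
      · linarith
      · linarith
    · rw [if_neg hp, if_neg hp]
      linarith

/-! ### Seam 1 -/

/-- **(i) Weber's upper bound** for the degree-one primes with `ℓ² ≡ 1 mod q`. -/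
theorem exists_weber_sqNormRes : ∃ B : ℝ, ∀ s : ℝ, 1 < s → s < 2 →
    ((helper1398.sqNormRes F q).ncard : ℝ) *
      helper1398.degOneSum F (helper1398.sqInd q 1) s ≤ helper1398.logPole s + B := by
  obtain ⟨B, hB⟩ := helper865.exists_weber_mod (helper865.kap (psiQ F q))
    (helper865.primesDvd (qMod F q) (qMod_ne_bot F q))
    (exists_zM_diff_bound (qMod F q) (qMod_ne_bot F q) (psiQ F q) (psiQ_prin F q)
      (psiQ_surj F q))
  refine ⟨B, fun s hs1 hs2 => ?_⟩
  have h1 := hB s hs1 hs2.le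
  have hcard : Nat.card (Additive (sqSub F q)) = (helper1398.sqNormRes F q).ncard :=
    (Nat.card_congr Additive.toMul).trans (card_sqSub F q)
  rw [hcard] at h1
  have h2 := degOneSum_le_Pcl F q 1 hs1
  have h3 : (((1 : sqSub F q) : (ZMod q)ˣ) : ZMod q) = 1 := rfl
  rw [h3] at h2
  have h4 : Pcl (helper865.kap (psiQ F q)) s (helper865.primesDvd (qMod F q) (qMod_ne_bot F q))
      (Additive.ofMul (1 : sqSub F q)) = ∑' v : HeightOneSpectrum (𝓞 F),
      helper865.indM (helper865.kap (psiQ F q)) s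
        (helper865.primesDvd (qMod F q) (qMod_ne_bot F q)) v := rfl
  rw [h4] at h2
  have h5 := mul_le_mul_of_nonneg_left h2
    (Nat.cast_nonneg (helper1398.sqNormRes F q).ncard : (0 : ℝ) ≤ _)
  exact h5.trans h1

/-- **(ii) pair density** of the degree-one primes with `ℓ² ∈ {c, c⁻¹}`. -/
theorem exists_pair_sqNormRes
    (hlow : ∃ B : ℝ, ∀ s : ℝ, 1 < s → s < 2 →
      helper1398.logPole s - B ≤ ((helper1398.sqNormRes F q).ncard : ℝ) *
        helper1398.degOneSum F (helper1398.sqInd q 1) s)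
    (c : ZMod q) (hc : c ∈ helper1398.sqNormRes F q) :
    ∃ B : ℝ, ∀ s : ℝ, 1 < s → s < 2 →
      2 / ((helper1398.sqNormRes F q).ncard : ℝ) * helper1398.logPole s - B ≤
        helper1398.degOneSum F (fun ℓ => helper1398.sqInd q c ℓ + helper1398.sqInd q c⁻¹ ℓ) s := by
  obtain ⟨u₀, hu₀⟩ := exists_unit_of_mem F q hc
  have hu₀mem : u₀ ∈ sqSub F q := by rw [mem_sqSub, hu₀]; exact hc
  set u : sqSub F q := ⟨u₀, hu₀mem⟩ with hu
  have hucoe : ((u : (ZMod q)ˣ) : ZMod q) = c := hu₀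
  have huinv : (((u⁻¹ : sqSub F q) : (ZMod q)ˣ) : ZMod q) = c⁻¹ := by
    rw [← hu₀]
    exact Units.val_inv_eq_inv_val u₀
  have hlow' : ∃ B : ℝ, ∀ s : ℝ, 1 < s → s < 2 →
      Real.log (1 / (s - 1)) - B ≤ (Nat.card (sqSub F q) : ℝ) *
        Pcl (helper865.kap (psiQ F q)) s (helper865.primesDvd (qMod F q) (qMod_ne_bot F q))
          (Additive.ofMul (1 : sqSub F q)) := by
    obtain ⟨B, hB⟩ := hlow
    refine ⟨B, fun s hs1 hs2 => ?_⟩
    have h1 := hB s hs1 hs2
    have h2 := degOneSum_le_Pcl F q 1 hs1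
    have h3 : (((1 : sqSub F q) : (ZMod q)ˣ) : ZMod q) = 1 := rfl
    rw [h3] at h2
    rw [card_sqSub]
    have h5 := mul_le_mul_of_nonneg_left h2
      (Nat.cast_nonneg (helper1398.sqNormRes F q).ncard : (0 : ℝ) ≤ _)
    exact h1.trans h5
  obtain ⟨B₁, hB₁⟩ := exists_ray_pair_bound (qMod F q) (qMod_ne_bot F q) (psiQ F q)
    (psiQ_prin F q) (psiQ_surj F q) hlow' u
  obtain ⟨B₂, hB₂⟩ := helper2850.stmt_NonDegOne F
  refine ⟨B₁ + 2 * B₂, fun s hs1 hs2 => ?_⟩
  have h1 := (abs_le.mp (hB₁ s hs1 hs2)).1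
  rw [card_sqSub] at h1
  have h2 := Pcl_le_degOneSum_add F q u hs1
  have h3 := Pcl_le_degOneSum_add F q u⁻¹ hs1
  rw [hucoe] at h2
  rw [huinv] at h3
  have h4 : ∑' v : HeightOneSpectrum (𝓞 F), ndTerm F s v ≤ B₂ := by
    rw [tsum_ndTerm_eq]
    exact hB₂ s hs1 hs2
  rw [degOneSum_add F _ _ 1 1 (abs_sqInd_le q c) (abs_sqInd_le q c⁻¹) hs1]
  have h5 : helper1398.logPole s = Real.log (1 / (s - 1)) := rfl
  rw [h5]
  linarith

/-- **Seam 1 of the F5 Spec** (`helper1398_ChebSpec`). -/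
theorem stmt_SymNormRes : helper1398.Stmt_SymNormRes := by
  intro F _ _ q _ _
  exact ⟨exists_weber_sqNormRes F q, fun hlow c hc => exists_pair_sqNormRes F q hlow c hc⟩

end NormRes

end Fermat.Agent.S48.helper4600
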