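/-
S48, leaf F5 (Chebotarev, Dirichlet-density form), sub-leaf XING (helper9319).

Crossing with a cyclotomic field and Deuring's reduction, done in ONE step on the rational
primes of `Γ = Gal(E(ζ_q)/ℚ)`; abstract finite-group core, Mathlib only.

Setting: `π : Γ →* G` (restriction to `E`), `χ : Γ →* A` (cyclotomic character, `A = (ℤ/q)ˣ`),
both onto, jointly injective.

* `card_conj_mem_zpowers` (X1): if `h` is the only element of `⟨h⟩` with `χ`-value `χ h` and
  `χ γ = χ h`, then `#{g | g γ g⁻¹ ∈ ⟨h⟩}` is `#C_Γ(h)` if `γ ~ h` and `0` otherwise.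
  (With the counting identity `#{g | g τ g⁻¹ ∈ H} = #H * #{primes of norm ℓ of L^H}` this says
  that the primes of norm `ℓ ≡ χ h` of the fixed field of `⟨h⟩` see exactly the rational primes
  whose Frobenius class is the class of `h`.)
* `eq_of_mem_zpowers_of_map_eq` (X2): the hypothesis of (X1) holds as soon as `#G ∣ ord (χ h)`.
* `card_not_dvd_orderOf_mul_le` (X3): in a cyclic group `A` with `n ^ k ∣ #A`, at most
  `n * #A / 2 ^ k` elements have order not divisible by `n`.
* `card_good_ge` : consequently all but a fraction `#G ^ 2 / 2 ^ k` of every fibre of `π` over a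
  conjugacy class is "good".
* `cross_lower` (X4, one value of `s`) and `cheb_eps_of_cross` (X4, the `ε`-form of Chebotarev's
  theorem from the `O(1)` lower bounds for the good classes of `Γ`).
* `cheb_eps_of_cross_symm`, `cheb_set_of_symm`, `cheb_sym_of_cross`: the inversion-symmetric twin
  (good classes only satisfy the bound for `cl h` and `cl h⁻¹` together; conclusion for every
  conjugation- and inversion-stable subset `X` of `G`).
-/
import Mathlib

set_option autoImplicit false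

namespace Fermat.Agent.S48.helper9319

open Finset

/-! ### (X1) the conjugacy count -/

section X1

variable {Γ A : Type*} [Group Γ] [CommGroup A]

/-- `χ` takes the same value on conjugate elements (`A` is commutative). -/
theorem map_conj_eq (χ : Γ →* A) (g γ : Γ) : χ (g * γ * g⁻¹) = χ γ := by
  rw [map_mul, map_mul, map_inv, mul_comm (χ g), mul_assoc, mul_inv_cancel, mul_one]

/-- **(X1)** If `h` is the only element of `⟨h⟩` with `χ`-value `χ h` and `χ γ = χ h`, then the
conjugates of `γ` meet `⟨h⟩` only in `h`: the set `{g | g γ g⁻¹ ∈ ⟨h⟩}` is a coset of the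
centraliser of `h` if `γ` is conjugate to `h`, and empty otherwise. -/
theorem card_conj_mem_zpowers (χ : Γ →* A) (h γ : Γ) [Decidable (IsConj γ h)]
    (hinj : ∀ x ∈ Subgroup.zpowers h, χ x = χ h → x = h) (hγ : χ γ = χ h) :
    Nat.card {g : Γ // g * γ * g⁻¹ ∈ Subgroup.zpowers h} =
      if IsConj γ h then Nat.card (Subgroup.centralizer ({h} : Set Γ)) else 0 := by
  have key : ∀ g : Γ, g * γ * g⁻¹ ∈ Subgroup.zpowers h ↔ g * γ * g⁻¹ = h := by
    intro g
    constructor
    · intro hg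
      exact hinj _ hg (by rw [map_conj_eq, hγ])
    · intro hg
      rw [hg]
      exact Subgroup.mem_zpowers h
  split_ifs with hc
  · obtain ⟨c, hc⟩ := isConj_iff.mp hc
    refine Nat.card_congr ⟨fun g => ⟨g.1 * c⁻¹, ?_⟩, fun z => ⟨z.1 * c, ?_⟩, ?_, ?_⟩
    · rw [Subgroup.mem_centralizer_iff]
      intro y hy
      rw [Set.mem_singleton_iff] at hy
      rw [hy]
      have h1 : g.1 * γ * g.1⁻¹ = h := (key g.1).mp g.2
      calc h * (g.1 * c⁻¹) = (g.1 * γ * g.1⁻¹) * (g.1 * c⁻¹) := by rw [h1]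
        _ = g.1 * c⁻¹ * (c * γ * c⁻¹) := by group
        _ = g.1 * c⁻¹ * h := by rw [hc]
    · rw [key]
      have hz := Subgroup.mem_centralizer_iff.mp z.2 h (Set.mem_singleton h)
      calc z.1 * c * γ * (z.1 * c)⁻¹ = z.1 * (c * γ * c⁻¹) * z.1⁻¹ := by group
        _ = z.1 * h * z.1⁻¹ := by rw [hc]
        _ = h * z.1 * z.1⁻¹ := by rw [hz]
        _ = h := by group
    · intro g
      apply Subtype.ext
      simp
    · intro z
      apply Subtype.ext
      simp
  · rw [Nat.card_eq_zero]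
    left
    refine ⟨fun g => hc ?_⟩
    exact isConj_iff.mpr ⟨g.1, (key g.1).mp g.2⟩

end X1

/-! ### (X2) which elements are good -/

section X2

variable {Γ G A : Type*} [Group Γ] [Group G] [CommGroup A]

/-- **(X2)** If `(π, χ)` is jointly injective and `#G` divides the order of `χ γ`, then `γ` is
the only element of `⟨γ⟩` with `χ`-value `χ γ`. -/
theorem eq_of_mem_zpowers_of_map_eq (π : Γ →* G) (χ : Γ →* A)
    (hker : ∀ x, π x = 1 → χ x = 1 → x = 1) (γ : Γ) (hdvd : Nat.card G ∣ orderOf (χ γ)) :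
    ∀ x ∈ Subgroup.zpowers γ, χ x = χ γ → x = γ := by
  rintro x ⟨j, rfl⟩ hx
  have h1 : χ γ ^ (j - 1) = 1 := by
    have : χ γ ^ j = χ γ := by simpa using hx
    rw [zpow_sub, zpow_one, this, mul_inv_cancel]
  have h2 : (orderOf (χ γ) : ℤ) ∣ j - 1 := orderOf_dvd_iff_zpow_eq_one.mpr h1
  have h3 : (Nat.card G : ℤ) ∣ j - 1 := (Int.natCast_dvd_natCast.mpr hdvd).trans h2
  obtain ⟨m, hm⟩ := h3
  have h4 : π γ ^ (j - 1) = 1 := by
    rw [hm, zpow_mul, zpow_natCast, pow_card_eq_one', one_zpow]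
  have h5 : γ ^ (j - 1) = 1 := hker _ (by rw [map_zpow, h4]) (by rw [map_zpow, h1])
  have : γ ^ j = γ ^ (j - 1) * γ := by
    rw [← zpow_add_one]; congr 1; ring
  simp only at *
  rw [this, h5, one_mul]

end X2

/-! ### (X3) elements of a cyclic group whose order is not divisible by `n` -/

section X3

/-- If `n ^ k ∣ N`, `o ∣ N` and `¬ n ∣ o`, then `o ∣ N / r ^ k` for some prime `r ∣ n`. -/
theorem exists_prime_dvd_div (n k N o : ℕ) (hn : 0 < n) (hN : 0 < N) (hnk : n ^ k ∣ N)
    (ho : o ∣ N) (hno : ¬ n ∣ o) : ∃ r, r.Prime ∧ r ∣ n ∧ o ∣ N / r ^ k := by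
  have ho0 : o ≠ 0 := by
    rintro rfl
    exact hN.ne' (Nat.eq_zero_of_zero_dvd ho)
  have hn0 : n ≠ 0 := hn.ne'
  have h1 : ¬ ∀ p : ℕ, p.Prime → n.factorization p ≤ o.factorization p :=
    fun h => hno ((Nat.factorization_prime_le_iff_dvd hn0 ho0).mp h)
  push Not at h1
  obtain ⟨r, hr, hlt⟩ := h1
  have hrn : r ∣ n := Nat.dvd_of_factorization_pos (by omega)
  refine ⟨r, hr, hrn, ?_⟩
  obtain ⟨d, hd⟩ := ho
  have hd0 : d ≠ 0 := by
    rintro rfl
    simp at hd
    omega
  have hNk : (n ^ k).factorization r ≤ N.factorization r :=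
    (Nat.factorization_le_iff_dvd (pow_ne_zero k hn0) hN.ne').mpr hnk r
  have hmul : N.factorization r = o.factorization r + d.factorization r := by
    rw [hd, Nat.factorization_mul ho0 hd0]
    rfl
  have hpow : (n ^ k).factorization r = k * n.factorization r := by
    rw [Nat.factorization_pow]
    rfl
  have hkd : k ≤ d.factorization r := by
    rcases Nat.eq_zero_or_pos k with rfl | hk
    · exact Nat.zero_le _
    · have h2 : k * (o.factorization r + 1) ≤ k * n.factorization r :=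
        Nat.mul_le_mul_left k hlt
      have h3 : o.factorization r ≤ k * o.factorization r := Nat.le_mul_of_pos_left _ hk
      have h4 : k * (o.factorization r + 1) = k * o.factorization r + k := by ring
      omega
  obtain ⟨d', hd'⟩ := (hr.pow_dvd_iff_le_factorization hd0).mpr hkd
  have hrk : 0 < r ^ k := pow_pos hr.pos k
  have : N / r ^ k = o * d' := by
    rw [hd, hd', show o * (r ^ k * d') = r ^ k * (o * d') by ring, Nat.mul_div_cancel_left _ hrk]
  rw [this]
  exact Dvd.intro _ rfl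

variable {A : Type*} [CommGroup A] [Finite A] [IsCyclic A]

/-- **(X3)** In a finite cyclic group `A` with `n ^ k ∣ #A`, the number of elements whose order
is not divisible by `n` is at most `n * #A / 2 ^ k`. -/
theorem card_not_dvd_orderOf_mul_le (n k : ℕ) (hn : 0 < n) (hnk : n ^ k ∣ Nat.card A) :
    Nat.card {t : A // ¬ n ∣ orderOf t} * 2 ^ k ≤ n * Nat.card A := by
  classical
  have _inst : Fintype A := Fintype.ofFinite A
  set N := Nat.card A with hNdef
  have hN : 0 < N := Nat.card_pos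
  have hcard : Nat.card {t : A // ¬ n ∣ orderOf t} = #{t : A | ¬ n ∣ orderOf t} := by
    rw [Nat.card_eq_fintype_card, Fintype.card_subtype]
  rw [hcard]
  have hsub : ({t : A | ¬ n ∣ orderOf t} : Finset A) ⊆
      n.primeFactors.biUnion (fun r => ({t : A | t ^ (N / r ^ k) = 1} : Finset A)) := by
    intro t ht
    rw [mem_filter] at ht
    obtain ⟨r, hr, hrn, hdvd⟩ :=
      exists_prime_dvd_div n k N (orderOf t) hn hN hnk (orderOf_dvd_natCard t) ht.2
    rw [mem_biUnion]
    refine ⟨r, Nat.mem_primeFactors.mpr ⟨hr, hrn, hn.ne'⟩, ?_⟩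
    rw [mem_filter]
    exact ⟨mem_univ _, orderOf_dvd_iff_pow_eq_one.mp hdvd⟩
  have hle1 : #{t : A | ¬ n ∣ orderOf t} ≤ ∑ r ∈ n.primeFactors, #{t : A | t ^ (N / r ^ k) = 1} :=
    (card_le_card hsub).trans card_biUnion_le
  have hterm : ∀ r ∈ n.primeFactors, #{t : A | t ^ (N / r ^ k) = 1} * 2 ^ k ≤ N := by
    intro r hr
    obtain ⟨hrp, hrn, -⟩ := Nat.mem_primeFactors.mp hr
    have hrkN : r ^ k ∣ N := (pow_dvd_pow_of_dvd hrn k).trans hnk
    have hpos : 0 < N / r ^ k := Nat.div_pos (Nat.le_of_dvd hN hrkN) (pow_pos hrp.pos k)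
    have h1 : #{t : A | t ^ (N / r ^ k) = 1} ≤ N / r ^ k := IsCyclic.card_pow_eq_one_le hpos
    calc #{t : A | t ^ (N / r ^ k) = 1} * 2 ^ k ≤ N / r ^ k * r ^ k :=
          Nat.mul_le_mul h1 (Nat.pow_le_pow_left hrp.two_le k)
      _ ≤ N := Nat.div_mul_le_self N (r ^ k)
  have hpf : #n.primeFactors ≤ n := by
    have : n.primeFactors ⊆ Finset.Icc 1 n := by
      intro r hr
      obtain ⟨hrp, hrn, -⟩ := Nat.mem_primeFactors.mp hr
      exact Finset.mem_Icc.mpr ⟨hrp.one_le, Nat.le_of_dvd hn hrn⟩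
    simpa using card_le_card this
  calc #{t : A | ¬ n ∣ orderOf t} * 2 ^ k
      ≤ (∑ r ∈ n.primeFactors, #{t : A | t ^ (N / r ^ k) = 1}) * 2 ^ k :=
        Nat.mul_le_mul_right _ hle1
    _ = ∑ r ∈ n.primeFactors, #{t : A | t ^ (N / r ^ k) = 1} * 2 ^ k := Finset.sum_mul _ _ _
    _ ≤ ∑ _r ∈ n.primeFactors, N := Finset.sum_le_sum hterm
    _ = #n.primeFactors * N := by rw [Finset.sum_const, smul_eq_mul]
    _ ≤ n * N := Nat.mul_le_mul_right _ hpf

end X3

/-! ### Counting the good elements above a subset of `G` -/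

section Count

variable {Γ G A : Type*} [Group Γ] [Finite Γ] [Group G] [Finite G] [CommGroup A] [Finite A]
  [IsCyclic A]

/-- All but a fraction `#G ^ 2 / 2 ^ k` of the elements of `Γ` above a subset `c` of `G` are
good (`#G` divides the order of their `χ`-value), if `A` is cyclic with `#G ^ k ∣ #A`. -/
theorem card_good_mul_ge (π : Γ →* G) (χ : Γ →* A) (hπ : Function.Surjective π)
    (hχ : Function.Surjective χ) (hker : ∀ x, π x = 1 → χ x = 1 → x = 1) (k : ℕ)
    (hk : Nat.card G ^ k ∣ Nat.card A) (c : Set G) :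
    Nat.card c * Nat.card Γ * 2 ^ k ≤
      Nat.card {γ : Γ // π γ ∈ c ∧ Nat.card G ∣ orderOf (χ γ)} * Nat.card G * 2 ^ k +
        Nat.card c * Nat.card G ^ 2 * Nat.card Γ := by
  classical
  have _i1 : Fintype Γ := Fintype.ofFinite Γ
  have _i2 : Fintype G := Fintype.ofFinite G
  have _i3 : Fintype A := Fintype.ofFinite A
  set g := Nat.card G with hg
  have hgpos : 0 < g := Nat.card_pos
  set m := #{γ : Γ | π γ = 1} with hm
  have hfib : ∀ σ : G, #{γ : Γ | π γ = σ} = m := fun σ =>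
    MonoidHom.card_fiber_eq_of_mem_range π (hπ σ) (hπ 1)
  have hmg : m * g = Nat.card Γ := by
    have h1 : #(univ : Finset Γ) = ∑ σ : G, #{γ : Γ | π γ = σ} :=
      Finset.card_eq_sum_card_fiberwise (fun x _ => mem_univ (π x))
    rw [Nat.card_eq_fintype_card, ← Finset.card_univ, h1, Finset.sum_congr rfl (fun σ _ => hfib σ),
      Finset.sum_const, smul_eq_mul, Finset.card_univ, hg, Nat.card_eq_fintype_card, mul_comm]
  set cF : Finset G := {σ : G | σ ∈ c} with hcF
  have hcard_c : Nat.card c = #cF := by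
    rw [Nat.card_eq_fintype_card, hcF, ← Fintype.card_subtype]
  set tot : Finset Γ := {γ : Γ | π γ ∈ c} with htot
  have htotcard : #tot = #cF * m := by
    have h1 : #tot = ∑ σ ∈ cF, #{γ ∈ tot | π γ = σ} :=
      Finset.card_eq_sum_card_fiberwise (fun x hx => by
        have hx' : π x ∈ c := (mem_filter.mp (Finset.mem_coe.mp hx)).2
        exact Finset.mem_coe.mpr (mem_filter.mpr ⟨mem_univ _, hx'⟩))
    rw [h1, Finset.sum_congr rfl (g := fun _ => m), Finset.sum_const, smul_eq_mul]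
    intro σ hσ
    rw [← hfib σ]
    congr 1
    ext γ
    simp only [htot, mem_filter, mem_univ, true_and]
    constructor
    · exact fun h => h.2
    · intro h
      refine ⟨?_, h⟩
      rw [h]
      rw [hcF, mem_filter] at hσ
      exact hσ.2
  set good : Finset Γ := {γ ∈ tot | g ∣ orderOf (χ γ)} with hgood
  set bad : Finset Γ := {γ ∈ tot | ¬ g ∣ orderOf (χ γ)} with hbad
  have hsplit : #good + #bad = #tot := Finset.card_filter_add_card_filter_not _
  set badA : Finset A := {t : A | ¬ g ∣ orderOf t} with hbadA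
  have hbadle : #bad ≤ #cF * #badA := by
    rw [← Finset.card_product]
    refine Finset.card_le_card_of_injOn (fun γ => (π γ, χ γ)) ?_ ?_
    · intro γ hγ
      have hγ' := hγ
      rw [Finset.mem_coe, hbad, mem_filter, htot, mem_filter] at hγ'
      rw [Finset.mem_coe, Finset.mem_product, hcF, mem_filter, hbadA, mem_filter]
      exact ⟨⟨mem_univ _, hγ'.1.2⟩, mem_univ _, hγ'.2⟩
    · intro γ₁ _ γ₂ _ h12
      simp only [Prod.mk.injEq] at h12
      have h1 : γ₁ * γ₂⁻¹ = 1 := hker _ (by rw [map_mul, map_inv, h12.1, mul_inv_cancel])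
        (by rw [map_mul, map_inv, h12.2, mul_inv_cancel])
      exact mul_inv_eq_one.mp h1
  have hbadA_le : #badA * 2 ^ k ≤ g * Nat.card A := by
    have h1 := card_not_dvd_orderOf_mul_le (A := A) g k hgpos hk
    have h2 : Nat.card {t : A // ¬ g ∣ orderOf t} = #badA := by
      rw [Nat.card_eq_fintype_card, Fintype.card_subtype]
    rwa [h2] at h1
  have hAΓ : Nat.card A ≤ Nat.card Γ := Nat.card_le_card_of_surjective χ hχ
  have hgoodcard : Nat.card {γ : Γ // π γ ∈ c ∧ g ∣ orderOf (χ γ)} = #good := by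
    rw [Nat.card_eq_fintype_card, Fintype.card_subtype, hgood, htot, Finset.filter_filter]
  rw [hgoodcard, hcard_c, ← hmg]
  calc #cF * (m * g) * 2 ^ k = #tot * g * 2 ^ k := by rw [htotcard]; ring
    _ = #good * g * 2 ^ k + #bad * g * 2 ^ k := by rw [← hsplit]; ring
    _ ≤ #good * g * 2 ^ k + #cF * #badA * g * 2 ^ k := by
        gcongr
    _ = #good * g * 2 ^ k + #cF * g * (#badA * 2 ^ k) := by ring
    _ ≤ #good * g * 2 ^ k + #cF * g * (g * Nat.card A) := by
        gcongr
    _ ≤ #good * g * 2 ^ k + #cF * g * (g * (m * g)) := by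
        rw [hmg]
        gcongr
    _ = #good * g * 2 ^ k + #cF * g ^ 2 * (m * g) := by ring

end Count

/-! ### (X4) the crossing inequality -/

section Main

variable {Γ G A : Type*} [Group Γ] [Finite Γ] [Group G] [Finite G] [CommGroup A] [Finite A]
  [IsCyclic A]

omit [Finite Γ] [Finite A] [IsCyclic A] [CommGroup A] [Group G] [Finite G] in
/-- Class equation for one class: `#cl(h) * #C_Γ(h) = #Γ`. -/
theorem card_carrier_mul_card_centralizer (h : Γ) :
    Nat.card (ConjClasses.mk h).carrier * Nat.card (Subgroup.centralizer ({h} : Set Γ)) =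
      Nat.card Γ := by
  have h1 := Subgroup.card_mul_index (MulAction.stabilizer (ConjAct Γ) h)
  rw [MulAction.index_stabilizer, ConjAct.orbit_eq_carrier_conjClasses,
    ← Subgroup.nat_card_centralizer_nat_card_stabilizer] at h1
  have h2 : Nat.card (ConjAct Γ) = Nat.card Γ := Nat.card_congr ConjAct.ofConjAct.toEquiv
  rw [h2, mul_comm] at h1
  rw [← h1]
  rfl

/-- **(X4), one value of `s`.**  `Dc` dominates every finite sum of the `DΓ c'` over classes
`c'` of `Γ` above the class `c` of `G`, and the good classes of `Γ` satisfy the lower bound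
`L / #C_Γ(h) - B h ≤ DΓ (cl h)`.  Then
`(#c / #G) * (1 - #G ^ 2 / 2 ^ k) * L - ∑ |B h| ≤ Dc`. -/
theorem cross_lower (π : Γ →* G) (χ : Γ →* A) (hπ : Function.Surjective π)
    (hχ : Function.Surjective χ) (hker : ∀ x, π x = 1 → χ x = 1 → x = 1) (k : ℕ)
    (hk : Nat.card G ^ k ∣ Nat.card A) (c : ConjClasses G) (Dc : ℝ) (DΓ : ConjClasses Γ → ℝ)
    (L : ℝ) (B : Γ → ℝ) (hL : 0 ≤ L)
    (hcomp : ∀ T : Finset (ConjClasses Γ), (∀ c' ∈ T, ConjClasses.map π c' = c) →
      ∑ c' ∈ T, DΓ c' ≤ Dc)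
    (hcyc : ∀ h : Γ, (∀ x ∈ Subgroup.zpowers h, χ x = χ h → x = h) →
      L / Nat.card (Subgroup.centralizer ({h} : Set Γ)) - B h ≤ DΓ (ConjClasses.mk h)) :
    ((Nat.card c.carrier : ℝ) / Nat.card G) * (1 - (Nat.card G : ℝ) ^ 2 / 2 ^ k) * L
      - ∑ᶠ h : Γ, |B h| ≤ Dc := by
  classical
  have _i1 : Fintype Γ := Fintype.ofFinite Γ
  have _i2 : Fintype (ConjClasses Γ) := Fintype.ofFinite _
  set g := Nat.card G with hg
  have hgpos : 0 < g := Nat.card_pos
  have hΓpos : 0 < Nat.card Γ := Nat.card_pos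
  -- representatives
  choose rep hrep using fun c' : ConjClasses Γ => ConjClasses.exists_rep c'
  have hχrep : ∀ γ : Γ, χ (rep (ConjClasses.mk γ)) = χ γ := by
    intro γ
    have h1 : IsConj (rep (ConjClasses.mk γ)) γ := ConjClasses.mk_eq_mk_iff_isConj.mp (hrep _)
    obtain ⟨x, hx⟩ := isConj_iff.mp h1
    calc χ (rep (ConjClasses.mk γ)) = χ (x * rep (ConjClasses.mk γ) * x⁻¹) :=
          (map_conj_eq χ x _).symm
      _ = χ γ := by rw [hx]
  set T : Finset (ConjClasses Γ) :=
    {c' : ConjClasses Γ | ConjClasses.map π c' = c ∧ g ∣ orderOf (χ (rep c'))} with hT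
  have hTc : ∀ c' ∈ T, ConjClasses.map π c' = c := fun c' hc' => (mem_filter.mp hc').2.1
  have h1 : ∑ c' ∈ T, DΓ c' ≤ Dc := hcomp T hTc
  -- lower bound for each good class
  have h2 : ∀ c' ∈ T, L / Nat.card (Subgroup.centralizer ({rep c'} : Set Γ)) - B (rep c') ≤
      DΓ c' := by
    intro c' hc'
    have := hcyc (rep c')
      (eq_of_mem_zpowers_of_map_eq π χ hker (rep c') (mem_filter.mp hc').2.2)
    rwa [hrep c'] at this
  -- the set of good elements above `c`
  set good : Finset Γ := {γ : Γ | π γ ∈ c.carrier ∧ g ∣ orderOf (χ γ)} with hgood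
  have hmkT : ∀ γ : Γ, ConjClasses.mk γ ∈ T ↔ γ ∈ good := by
    intro γ
    rw [hT, hgood, mem_filter, mem_filter, hχrep γ, ConjClasses.mem_carrier_iff_mk_eq]
    constructor
    · rintro ⟨-, h1, h2⟩
      exact ⟨mem_univ _, h1, h2⟩
    · rintro ⟨-, h1, h2⟩
      exact ⟨mem_univ _, h1, h2⟩
  have hcount : #good = ∑ c' ∈ T, Nat.card c'.carrier := by
    have h3 : #good = ∑ c' ∈ T, #{γ ∈ good | ConjClasses.mk γ = c'} :=
      Finset.card_eq_sum_card_fiberwise (fun γ hγ => Finset.mem_coe.mpr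
        ((hmkT γ).mpr (Finset.mem_coe.mp hγ)))
    rw [h3]
    refine Finset.sum_congr rfl fun c' hc' => ?_
    have h4 : ({γ ∈ good | ConjClasses.mk γ = c'} : Finset Γ) =
        univ.filter (fun γ => γ ∈ c'.carrier) := by
      ext γ
      constructor
      · intro h
        have h' := mem_filter.mp h
        exact mem_filter.mpr ⟨mem_univ _, ConjClasses.mem_carrier_iff_mk_eq.mpr h'.2⟩
      · intro h
        have h' := ConjClasses.mem_carrier_iff_mk_eq.mp (mem_filter.mp h).2
        exact mem_filter.mpr ⟨(hmkT γ).mp (h' ▸ hc'), h'⟩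
    rw [h4, Nat.card_eq_fintype_card, ← Fintype.card_subtype]
  -- sum of `1 / #C(rep c')`
  have hsum : ∑ c' ∈ T, L / (Nat.card (Subgroup.centralizer ({rep c'} : Set Γ)) : ℝ) =
      L * #good / Nat.card Γ := by
    rw [hcount, Nat.cast_sum, Finset.mul_sum, Finset.sum_div]
    refine Finset.sum_congr rfl fun c' _ => ?_
    have h5 := card_carrier_mul_card_centralizer (rep c')
    rw [hrep c'] at h5
    have h6 : (Nat.card c'.carrier : ℝ) * Nat.card (Subgroup.centralizer ({rep c'} : Set Γ)) =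
        Nat.card Γ := by exact_mod_cast h5
    have h7 : (0 : ℝ) < Nat.card (Subgroup.centralizer ({rep c'} : Set Γ)) := by
      exact_mod_cast Nat.card_pos
    have h8 : (0 : ℝ) < Nat.card c'.carrier := by
      have : 0 < Nat.card c'.carrier :=
        Nat.pos_of_ne_zero (fun h0 => by rw [h0, zero_mul] at h5; omega)
      exact_mod_cast this
    rw [← h6]
    field_simp
  -- the `B`-terms
  have hB : ∑ c' ∈ T, B (rep c') ≤ ∑ᶠ h : Γ, |B h| := by
    rw [finsum_eq_sum_of_fintype]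
    have hinj : Set.InjOn rep (T : Set (ConjClasses Γ)) := by
      intro a _ b _ hab
      rw [← hrep a, ← hrep b, hab]
    calc ∑ c' ∈ T, B (rep c') ≤ ∑ c' ∈ T, |B (rep c')| :=
          Finset.sum_le_sum fun c' _ => le_abs_self _
      _ = ∑ h ∈ T.image rep, |B h| := (Finset.sum_image (f := fun h => |B h|) hinj).symm
      _ ≤ ∑ h : Γ, |B h| :=
          Finset.sum_le_sum_of_subset_of_nonneg (Finset.subset_univ _) fun _ _ _ => abs_nonneg _
  -- the count
  have hgoodge : ((Nat.card c.carrier : ℝ) / g) * (1 - (g : ℝ) ^ 2 / 2 ^ k) ≤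
      #good / Nat.card Γ := by
    have h8 := card_good_mul_ge π χ hπ hχ hker k hk c.carrier
    have h9 : Nat.card {γ : Γ // π γ ∈ c.carrier ∧ g ∣ orderOf (χ γ)} = #good := by
      rw [Nat.card_eq_fintype_card, Fintype.card_subtype]
    rw [h9] at h8
    have h10 : (Nat.card c.carrier : ℝ) * Nat.card Γ * 2 ^ k ≤
        (#good : ℝ) * g * 2 ^ k + Nat.card c.carrier * (g : ℝ) ^ 2 * Nat.card Γ := by
      exact_mod_cast h8
    have hg' : (0 : ℝ) < g := by exact_mod_cast hgpos
    have hΓ' : (0 : ℝ) < Nat.card Γ := by exact_mod_cast hΓpos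
    have h2k : (0 : ℝ) < 2 ^ k := by positivity
    rw [div_mul_eq_mul_div, div_le_div_iff₀ hg' hΓ']
    have h11 : (Nat.card c.carrier : ℝ) * (1 - (g : ℝ) ^ 2 / 2 ^ k) * Nat.card Γ * 2 ^ k =
        Nat.card c.carrier * Nat.card Γ * 2 ^ k - Nat.card c.carrier * (g : ℝ) ^ 2 * Nat.card Γ := by
      field_simp
    have h12 : (Nat.card c.carrier : ℝ) * (1 - (g : ℝ) ^ 2 / 2 ^ k) * Nat.card Γ * 2 ^ k ≤
        (#good : ℝ) * g * 2 ^ k := by
      rw [h11]; linarith
    exact le_of_mul_le_mul_right h12 h2k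
  calc ((Nat.card c.carrier : ℝ) / g) * (1 - (g : ℝ) ^ 2 / 2 ^ k) * L - ∑ᶠ h : Γ, |B h|
      ≤ (#good / Nat.card Γ) * L - ∑ c' ∈ T, B (rep c') := by
        have := mul_le_mul_of_nonneg_right hgoodge hL
        linarith
    _ = ∑ c' ∈ T, (L / (Nat.card (Subgroup.centralizer ({rep c'} : Set Γ)) : ℝ) - B (rep c')) := by
        rw [Finset.sum_sub_distrib, hsum]
        ring
    _ ≤ ∑ c' ∈ T, DΓ c' := Finset.sum_le_sum h2
    _ ≤ Dc := h1

end Main

/-! ### (X4) the `ε`-form of Chebotarev's density theorem from the crossing data -/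

section Eps

universe u v

/-- **(X4), `ε`-form.**  `D c s` plays the role of `∑ p ^ (-s)` over the primes with Frobenius
class `c` in `G = Gal(E/ℚ)` and `L s` that of `log (1 / (s - 1))`.  Suppose that for every `k`
there is a crossing datum: a finite group `Γ` (`= Gal(E(ζ_q)/ℚ)`) with maps `π : Γ →* G`,
`χ : Γ →* A` onto, jointly injective, `A` cyclic with `#G ^ k ∣ #A`, and prime sums `DΓ` over the
classes of `Γ`, compatible with `D`, such that every `h : Γ` which is the only element of `⟨h⟩`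
with its `χ`-value satisfies the `O(1)` lower bound `L s / #C_Γ(h) - B ≤ DΓ (cl h) s`
(this is the cyclotomic case over the fixed field of `⟨h⟩`, see `card_conj_mem_zpowers`).
Then every class `c` of `G` has lower density `#c / #G` in the `ε`-form. -/
theorem cheb_eps_of_cross {G : Type*} [Group G] [Finite G] (D : ConjClasses G → ℝ → ℝ)
    (L : ℝ → ℝ) (hL : ∀ s, 1 < s → s ≤ 2 → 0 ≤ L s)
    (hcross : ∀ k : ℕ, ∃ (Γ : Type u) (A : Type v) (_ : Group Γ) (_ : Finite Γ) (_ : CommGroup A)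
      (_ : Finite A) (_ : IsCyclic A) (π : Γ →* G) (χ : Γ →* A) (DΓ : ConjClasses Γ → ℝ → ℝ),
      Function.Surjective π ∧ Function.Surjective χ ∧ (∀ x, π x = 1 → χ x = 1 → x = 1) ∧
      Nat.card G ^ k ∣ Nat.card A ∧
      (∀ (c : ConjClasses G) (T : Finset (ConjClasses Γ)),
        (∀ c' ∈ T, ConjClasses.map π c' = c) →
          ∀ s, 1 < s → s ≤ 2 → ∑ c' ∈ T, DΓ c' s ≤ D c s) ∧
      (∀ h : Γ, (∀ x ∈ Subgroup.zpowers h, χ x = χ h → x = h) →
        ∃ B : ℝ, ∀ s, 1 < s → s ≤ 2 →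
          L s / Nat.card (Subgroup.centralizer ({h} : Set Γ)) - B ≤ DΓ (ConjClasses.mk h) s)) :
    ∀ (c : ConjClasses G) (ε : ℝ), 0 < ε → ∃ B : ℝ, ∀ s, 1 < s → s ≤ 2 →
      ((Nat.card c.carrier : ℝ) / Nat.card G - ε) * L s - B ≤ D c s := by
  classical
  intro c ε hε
  set g := Nat.card G with hg
  have hgpos : (0 : ℝ) < g := by exact_mod_cast (Nat.card_pos : 0 < Nat.card G)
  -- choose `k` with `g ^ 2 / 2 ^ k ≤ ε`
  obtain ⟨k, hk⟩ := exists_nat_gt ((g : ℝ) ^ 2 / ε)
  have h2k : (k : ℝ) < 2 ^ k := by exact_mod_cast Nat.lt_two_pow_self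
  have h2kpos : (0 : ℝ) < 2 ^ k := by positivity
  have hkε : (g : ℝ) ^ 2 / 2 ^ k ≤ ε := by
    rw [div_le_iff₀ h2kpos]
    have h1 : (g : ℝ) ^ 2 < (2 : ℝ) ^ k * ε := by
      have := hk.trans h2k
      rwa [div_lt_iff₀ hε] at this
    linarith
  obtain ⟨Γ, A, _, _, _, _, _, π, χ, DΓ, hπ, hχ, hker, hdvd, hcomp, hcyc⟩ := hcross k
  -- the constants
  choose! Bf hBf using hcyc
  refine ⟨∑ᶠ h : Γ, |Bf h|, fun s hs1 hs2 => ?_⟩
  have hLs : 0 ≤ L s := hL s hs1 hs2
  have key := cross_lower π χ hπ hχ hker k hdvd c (D c s) (fun c' => DΓ c' s) (L s) Bf hLs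
    (fun T hT => hcomp c T hT s hs1 hs2) (fun h hh => hBf h hh s hs1 hs2)
  have hcle : (Nat.card c.carrier : ℝ) / g ≤ 1 := by
    rw [div_le_one hgpos]
    exact_mod_cast Nat.card_le_card_of_injective (Subtype.val : c.carrier → G)
      Subtype.val_injective
  have hc0 : (0 : ℝ) ≤ (Nat.card c.carrier : ℝ) / g := by positivity
  have h3 : (Nat.card c.carrier : ℝ) / g - ε ≤
      ((Nat.card c.carrier : ℝ) / g) * (1 - (g : ℝ) ^ 2 / 2 ^ k) := by
    have h4 : ((Nat.card c.carrier : ℝ) / g) * ((g : ℝ) ^ 2 / 2 ^ k) ≤ 1 * ε :=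
      mul_le_mul hcle hkε (by positivity) zero_le_one
    linarith
  have h5 := mul_le_mul_of_nonneg_right h3 hLs
  linarith

end Eps

/-! ### The inversion-symmetric twin -/

section Symm

variable {Γ G : Type*} [Group Γ] [Group G]

/-- Inversion on conjugacy classes. -/
def invClass : ConjClasses Γ → ConjClasses Γ :=
  Quotient.lift (fun g : Γ => ConjClasses.mk g⁻¹) fun a b ab =>
    ConjClasses.mk_eq_mk_iff_isConj.2 (by
      obtain ⟨x, hx⟩ := isConj_iff.mp ab
      exact isConj_iff.mpr ⟨x, by rw [← hx, conj_inv]⟩)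

theorem invClass_mk (g : Γ) : invClass (ConjClasses.mk g) = ConjClasses.mk g⁻¹ := rfl

theorem invClass_invClass (c : ConjClasses Γ) : invClass (invClass c) = c := by
  obtain ⟨g, rfl⟩ := ConjClasses.exists_rep c
  rw [invClass_mk, invClass_mk, inv_inv]

theorem invClass_injective : Function.Injective (invClass : ConjClasses Γ → ConjClasses Γ) :=
  Function.LeftInverse.injective invClass_invClass

theorem map_invClass (π : Γ →* G) (c : ConjClasses Γ) :
    ConjClasses.map π (invClass c) = invClass (ConjClasses.map π c) := by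
  obtain ⟨g, rfl⟩ := ConjClasses.exists_rep c
  show ConjClasses.mk (π g⁻¹) = ConjClasses.mk (π g)⁻¹
  rw [map_inv]

theorem mem_carrier_invClass (c : ConjClasses Γ) (x : Γ) :
    x ∈ (invClass c).carrier ↔ x⁻¹ ∈ c.carrier := by
  rw [ConjClasses.mem_carrier_iff_mk_eq, ConjClasses.mem_carrier_iff_mk_eq]
  constructor
  · intro h
    rw [← invClass_mk, h, invClass_invClass]
  · intro h
    rw [← h, invClass_mk, inv_inv]

end Symm

section SymmEps

universe u v

/-- **Inversion-symmetric `ε`-form.**  As `cheb_eps_of_cross`, but the good classes of `Γ` are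
only assumed to satisfy the symmetric lower bound
`2 * L s / #C_Γ(h) - B ≤ DΓ (cl h) s + DΓ (cl h⁻¹) s` (what real parts of characters give).
Conclusion: the symmetric `ε`-form for every class of `G`. -/
theorem cheb_eps_of_cross_symm {G : Type*} [Group G] [Finite G] (D : ConjClasses G → ℝ → ℝ)
    (L : ℝ → ℝ) (hL : ∀ s, 1 < s → s ≤ 2 → 0 ≤ L s)
    (hcross : ∀ k : ℕ, ∃ (Γ : Type u) (A : Type v) (_ : Group Γ) (_ : Finite Γ) (_ : CommGroup A)
      (_ : Finite A) (_ : IsCyclic A) (π : Γ →* G) (χ : Γ →* A) (DΓ : ConjClasses Γ → ℝ → ℝ),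
      Function.Surjective π ∧ Function.Surjective χ ∧ (∀ x, π x = 1 → χ x = 1 → x = 1) ∧
      Nat.card G ^ k ∣ Nat.card A ∧
      (∀ (c : ConjClasses G) (T : Finset (ConjClasses Γ)),
        (∀ c' ∈ T, ConjClasses.map π c' = c) →
          ∀ s, 1 < s → s ≤ 2 → ∑ c' ∈ T, DΓ c' s ≤ D c s) ∧
      (∀ h : Γ, (∀ x ∈ Subgroup.zpowers h, χ x = χ h → x = h) →
        ∃ B : ℝ, ∀ s, 1 < s → s ≤ 2 →
          2 * L s / Nat.card (Subgroup.centralizer ({h} : Set Γ)) - B ≤
            DΓ (ConjClasses.mk h) s + DΓ (ConjClasses.mk h⁻¹) s)) :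
    ∀ (g : G) (ε : ℝ), 0 < ε → ∃ B : ℝ, ∀ s, 1 < s → s ≤ 2 →
      2 * ((Nat.card (ConjClasses.mk g).carrier : ℝ) / Nat.card G - ε) * L s - B ≤
        D (ConjClasses.mk g) s + D (ConjClasses.mk g⁻¹) s := by
  classical
  intro g ε hε
  have key := cheb_eps_of_cross.{u, v} (G := G) (fun c s => D c s + D (invClass c) s)
    (fun s => 2 * L s) (fun s h1 h2 => by have := hL s h1 h2; positivity) ?_
    (ConjClasses.mk g) ε hε
  · obtain ⟨B, hB⟩ := key
    refine ⟨B, fun s h1 h2 => ?_⟩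
    have := hB s h1 h2
    rw [invClass_mk] at this
    linarith
  · intro k
    obtain ⟨Γ, A, i1, i2, i3, i4, i5, π, χ, DΓ, hπ, hχ, hker, hdvd, hcomp, hcyc⟩ := hcross k
    refine ⟨Γ, A, i1, i2, i3, i4, i5, π, χ, fun c' s => DΓ c' s + DΓ (invClass c') s,
      hπ, hχ, hker, hdvd, ?_, ?_⟩
    · intro c T hT s h1 h2
      rw [Finset.sum_add_distrib]
      have e1 := hcomp c T hT s h1 h2
      have e2 := hcomp (invClass c) (T.image invClass) (by
        intro c'' hc''
        obtain ⟨c', hc', rfl⟩ := Finset.mem_image.mp hc''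
        rw [map_invClass, hT c' hc']) s h1 h2
      rw [Finset.sum_image (fun a _ b _ hab => invClass_injective hab)] at e2
      linarith
    · intro h hh
      obtain ⟨B, hB⟩ := hcyc h hh
      exact ⟨B, fun s h1 h2 => hB s h1 h2⟩

/-- **Set form.**  From the symmetric `ε`-form for every class to every conjugation- and
inversion-stable subset `X` of `G`. -/
theorem cheb_set_of_symm {G : Type*} [Group G] [Finite G] (D : ConjClasses G → ℝ → ℝ)
    (L : ℝ → ℝ) (hL : ∀ s, 1 < s → s ≤ 2 → 0 ≤ L s)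
    (hsym : ∀ (g : G) (ε : ℝ), 0 < ε → ∃ B : ℝ, ∀ s, 1 < s → s ≤ 2 →
      2 * ((Nat.card (ConjClasses.mk g).carrier : ℝ) / Nat.card G - ε) * L s - B ≤
        D (ConjClasses.mk g) s + D (ConjClasses.mk g⁻¹) s)
    (X : Set G) (hconj : ∀ g x : G, x ∈ X → g * x * g⁻¹ ∈ X) (hinv : ∀ x ∈ X, x⁻¹ ∈ X)
    (δ : ℝ) (hδ : 0 < δ) :
    ∃ B : ℝ, ∀ s, 1 < s → s ≤ 2 →
      ((Nat.card X : ℝ) / Nat.card G - δ) * L s - B ≤
        ∑ᶠ (c : ConjClasses G) (_ : c.carrier ⊆ X), D c s := by
  classical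
  have _i1 : Fintype G := Fintype.ofFinite G
  have _i2 : Fintype (ConjClasses G) := Fintype.ofFinite _
  set S : Finset (ConjClasses G) := {c : ConjClasses G | c.carrier ⊆ X} with hS
  have hgpos : (0 : ℝ) < Nat.card G := by exact_mod_cast (Nat.card_pos : 0 < Nat.card G)
  -- classes of elements of `X`
  have hmkS : ∀ x ∈ X, ConjClasses.mk x ∈ S := by
    intro x hx
    rw [hS, mem_filter]
    refine ⟨mem_univ _, fun y hy => ?_⟩
    have h1 : IsConj x y :=
      ConjClasses.mk_eq_mk_iff_isConj.mp (ConjClasses.mem_carrier_iff_mk_eq.mp hy).symm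
    obtain ⟨a, ha⟩ := isConj_iff.mp h1
    rw [← ha]
    exact hconj a x hx
  have hinvS : ∀ c ∈ S, invClass c ∈ S := by
    intro c hc
    rw [hS, mem_filter] at hc ⊢
    refine ⟨mem_univ _, fun y hy => ?_⟩
    have h1 := hinv _ (hc.2 ((mem_carrier_invClass c y).mp hy))
    rwa [inv_inv] at h1
  -- the count
  have hcount : (Nat.card X : ℝ) = ∑ c ∈ S, (Nat.card c.carrier : ℝ) := by
    have h1 : Nat.card X = #({x : G | x ∈ X} : Finset G) := by
      rw [Nat.card_eq_fintype_card, Fintype.card_subtype]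
    have h2 : #({x : G | x ∈ X} : Finset G) =
        ∑ c ∈ S, #{x ∈ ({x : G | x ∈ X} : Finset G) | ConjClasses.mk x = c} :=
      Finset.card_eq_sum_card_fiberwise (fun x hx => Finset.mem_coe.mpr
        (hmkS x (mem_filter.mp (Finset.mem_coe.mp hx)).2))
    rw [h1, h2, Nat.cast_sum]
    refine Finset.sum_congr rfl fun c hc => ?_
    have h4 : ({x ∈ ({x : G | x ∈ X} : Finset G) | ConjClasses.mk x = c} : Finset G) =
        univ.filter (fun x => x ∈ c.carrier) := by
      ext x
      simp only [mem_filter, mem_univ, true_and]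
      constructor
      · intro h
        exact ConjClasses.mem_carrier_iff_mk_eq.mpr h.2
      · intro h
        exact ⟨(mem_filter.mp hc).2 h, ConjClasses.mem_carrier_iff_mk_eq.mp h⟩
    rw [h4, Nat.card_eq_fintype_card, ← Fintype.card_subtype]
  -- the constants
  choose rep hrep using fun c : ConjClasses G => ConjClasses.exists_rep c
  set ε : ℝ := δ / (#S + 1) with hε
  have hεpos : 0 < ε := by positivity
  have hSε : (#S : ℝ) * ε ≤ δ := by
    rw [hε, mul_div_assoc', div_le_iff₀ (by positivity)]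
    nlinarith
  choose Bf hBf using fun c : ConjClasses G => hsym (rep c) ε hεpos
  refine ⟨(∑ c ∈ S, Bf c) / 2, fun s hs1 hs2 => ?_⟩
  have hLs := hL s hs1 hs2
  have hfin : ∑ᶠ (c : ConjClasses G) (_ : c.carrier ⊆ X), D c s = ∑ c ∈ S, D c s :=
    finsum_cond_eq_sum_of_cond_iff _ (fun {c} _ => by rw [hS, mem_filter]; simp)
  rw [hfin]
  have hsum : ∑ c ∈ S, (2 * ((Nat.card c.carrier : ℝ) / Nat.card G - ε) * L s - Bf c) ≤
      ∑ c ∈ S, (D c s + D (invClass c) s) := by
    refine Finset.sum_le_sum fun c _ => ?_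
    have := hBf c s hs1 hs2
    rw [hrep c] at this
    rw [← hrep c, invClass_mk]
    rw [hrep c]
    exact this
  have hinvsum : ∑ c ∈ S, D (invClass c) s = ∑ c ∈ S, D c s :=
    Finset.sum_nbij' (fun c => invClass c) (fun c => invClass c) hinvS hinvS
      (fun c _ => invClass_invClass c) (fun c _ => invClass_invClass c) (fun c _ => rfl)
  rw [Finset.sum_add_distrib, hinvsum] at hsum
  have hlhs : ∑ c ∈ S, (2 * ((Nat.card c.carrier : ℝ) / Nat.card G - ε) * L s - Bf c) =
      2 * ((Nat.card X : ℝ) / Nat.card G - #S * ε) * L s - ∑ c ∈ S, Bf c := by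
    rw [Finset.sum_sub_distrib, ← Finset.sum_mul, ← Finset.mul_sum, Finset.sum_sub_distrib,
      ← Finset.sum_div, ← hcount, Finset.sum_const, nsmul_eq_mul]
  rw [hlhs] at hsum
  have h7 : ((Nat.card X : ℝ) / Nat.card G - δ) * L s ≤
      ((Nat.card X : ℝ) / Nat.card G - #S * ε) * L s :=
    mul_le_mul_of_nonneg_right (by linarith) hLs
  linarith

/-- **Symmetric Chebotarev, abstract form.**  The composition of `cheb_eps_of_cross_symm` and
`cheb_set_of_symm`: from the symmetric `O(1)` lower bounds for the good classes of the crossing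
groups `Γ` to the `δ`-form of the density of every conjugation- and inversion-stable `X ⊆ G`. -/
theorem cheb_sym_of_cross {G : Type*} [Group G] [Finite G] (D : ConjClasses G → ℝ → ℝ)
    (L : ℝ → ℝ) (hL : ∀ s, 1 < s → s ≤ 2 → 0 ≤ L s)
    (hcross : ∀ k : ℕ, ∃ (Γ : Type u) (A : Type v) (_ : Group Γ) (_ : Finite Γ) (_ : CommGroup A)
      (_ : Finite A) (_ : IsCyclic A) (π : Γ →* G) (χ : Γ →* A) (DΓ : ConjClasses Γ → ℝ → ℝ),
      Function.Surjective π ∧ Function.Surjective χ ∧ (∀ x, π x = 1 → χ x = 1 → x = 1) ∧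
      Nat.card G ^ k ∣ Nat.card A ∧
      (∀ (c : ConjClasses G) (T : Finset (ConjClasses Γ)),
        (∀ c' ∈ T, ConjClasses.map π c' = c) →
          ∀ s, 1 < s → s ≤ 2 → ∑ c' ∈ T, DΓ c' s ≤ D c s) ∧
      (∀ h : Γ, (∀ x ∈ Subgroup.zpowers h, χ x = χ h → x = h) →
        ∃ B : ℝ, ∀ s, 1 < s → s ≤ 2 →
          2 * L s / Nat.card (Subgroup.centralizer ({h} : Set Γ)) - B ≤
            DΓ (ConjClasses.mk h) s + DΓ (ConjClasses.mk h⁻¹) s))
    (X : Set G) (hconj : ∀ g x : G, x ∈ X → g * x * g⁻¹ ∈ X) (hinv : ∀ x ∈ X, x⁻¹ ∈ X)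
    (δ : ℝ) (hδ : 0 < δ) :
    ∃ B : ℝ, ∀ s, 1 < s → s ≤ 2 →
      ((Nat.card X : ℝ) / Nat.card G - δ) * L s - B ≤
        ∑ᶠ (c : ConjClasses G) (_ : c.carrier ⊆ X), D c s :=
  cheb_set_of_symm D L hL (cheb_eps_of_cross_symm.{u, v} D L hL hcross) X hconj hinv δ hδ

end SymmEps

end Fermat.Agent.S48.helper9319
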