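/-
S48, leaf F5 (symmetric Chebotarev density), SEAM 3 of the F5 Spec `helper1398_ChebSpec`
(helper9319): `Stmt_CrossAbs`, the count of good pairs.  Pure finite group theory.

Proof.  `Δ ≤ G × U` (`U = (ℤ/q)ˣ`) with first projection onto: every fibre
`A σ = {a | (σ, a) ∈ Δ}` is a coset of `A 1`, so `#Δ = #G * m`, `m = #(A 1)`.  A pair is good if
`4 * ord σ ∣ ord a`; in the cyclic group `U` with `(4 #G) ^ k ∣ #U` at most `4 #G #U / 2 ^ k`
elements are bad (`card_not_dvd_orderOf_mul_le`).  Summing the hypothesis over the good pairs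
above `X`, using that `(σ, a) ↦ (σ⁻¹, a⁻¹)` permutes them and that `a ↦ a ^ 2` has fibres of
size `≤ 2`, gives `N * (4 / #Δ * Lam - B) ≤ 4 * ∑_{σ ∈ X} ∑_c ν σ c` with `N` the number of good
pairs above `X`.
-/
import Mathlib
import Fermat.Agent.S48.helper1398_ChebSpec
import Fermat.Agent.S48.helper9319_ChebCross

set_option autoImplicit false

namespace Fermat.Agent.S48.helper9319

open Finset

/-- Squaring on the units of a commutative domain has fibres of size at most two. -/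
theorem card_units_sq_eq_le_two {R : Type*} [CommRing R] [IsDomain R] [Fintype Rˣ]
    [DecidableEq R] (c : R) : #{a : Rˣ | (a : R) ^ 2 = c} ≤ 2 := by
  classical
  by_cases hne : ({a : Rˣ | (a : R) ^ 2 = c} : Finset Rˣ).Nonempty
  · obtain ⟨a0, ha0⟩ := hne
    rw [mem_filter] at ha0
    refine le_trans (Finset.card_le_card (t := {a0, -a0}) ?_) Finset.card_le_two
    intro a ha
    rw [mem_filter] at ha
    have h1 : (a : R) ^ 2 = (a0 : R) ^ 2 := by rw [ha.2, ha0.2]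
    rcases sq_eq_sq_iff_eq_or_eq_neg.mp h1 with h | h
    · have : a = a0 := Units.ext h
      simp [this]
    · have : a = -a0 := Units.ext (by rw [h, Units.val_neg])
      simp [this]
  · rw [Finset.not_nonempty_iff_eq_empty] at hne
    rw [hne]
    simp

/-- A sum over the values of a map with fibres of size at most two. -/
theorem sum_comp_le_two_mul {α β : Type*} [Fintype α] [Fintype β] [DecidableEq β] (φ : α → β)
    (f : β → ℝ) (hf : ∀ c, 0 ≤ f c) (hφ : ∀ c, #{a : α | φ a = c} ≤ 2) :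
    ∑ a : α, f (φ a) ≤ 2 * ∑ c : β, f c := by
  calc ∑ a : α, f (φ a) = ∑ c : β, ∑ a : α with φ a = c, f (φ a) :=
        (Finset.sum_fiberwise _ _ _).symm
    _ = ∑ c : β, (#{a : α | φ a = c} : ℝ) * f c := by
        refine Finset.sum_congr rfl fun c _ => ?_
        rw [Finset.sum_congr rfl (g := fun _ => f c)
          (fun a ha => by rw [(mem_filter.mp ha).2]), Finset.sum_const, nsmul_eq_mul]
    _ ≤ ∑ c : β, 2 * f c :=
        Finset.sum_le_sum fun c _ => mul_le_mul_of_nonneg_right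
          (by exact_mod_cast hφ c) (hf c)
    _ = 2 * ∑ c : β, f c := by rw [Finset.mul_sum]

/-- **The count of good pairs, abstract form.**  `U` a finite cyclic group with
`(4 #G) ^ k ∣ #U`, `φ : U → C` with fibres of size `≤ 2`. -/
theorem cross_abs_core {G U C : Type*} [Group G] [Fintype G] [CommGroup U] [Fintype U]
    [IsCyclic U] [Fintype C] [DecidableEq C] (φ : U → C) (hφ : ∀ c, #{a : U | φ a = c} ≤ 2)
    (k : ℕ) (hk : (4 * Fintype.card G) ^ k ∣ Fintype.card U)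
    (Δ : Subgroup (G × U)) (hsurj : ∀ σ, ∃ a, (σ, a) ∈ Δ) (hΔ : Fintype.card U ≤ Nat.card Δ)
    (X : Finset G) (hXinv : ∀ σ ∈ X, σ⁻¹ ∈ X)
    (ν : G → C → ℝ) (hν : ∀ σ c, 0 ≤ ν σ c) (Lam B : ℝ) (hLam : 0 ≤ Lam) (hB : 0 ≤ B)
    (hPB : ∀ σ a, (σ, a) ∈ Δ → σ ∈ X → 4 * orderOf σ ∣ orderOf a →
      4 / (Nat.card Δ : ℝ) * Lam - B ≤ ν σ (φ a) + ν σ⁻¹ (φ a⁻¹)) :
    ((X.card : ℝ) / (Fintype.card G : ℝ)) * (1 - 4 * (Fintype.card G : ℝ) ^ 2 / 2 ^ k) * Lam
        - ((Fintype.card G : ℝ) * (Fintype.card U + 1 : ℕ)) * B ≤ ∑ σ ∈ X, ∑ c : C, ν σ c := by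
  classical
  set g := Fintype.card G with hg
  have hgpos : 0 < g := Fintype.card_pos
  set u := Fintype.card U with hu
  set d := Nat.card Δ with hd
  have hdpos : 0 < d := Nat.card_pos
  -- the fibres of the first projection
  set Afib : G → Finset U := fun σ => {a : U | (σ, a) ∈ Δ} with hAfib
  have hmemA : ∀ σ a, a ∈ Afib σ ↔ (σ, a) ∈ Δ := by
    intro σ a
    simp [hAfib]
  set m := #(Afib 1) with hm
  have hfib : ∀ σ, #(Afib σ) = m := by
    intro σ
    obtain ⟨a0, ha0⟩ := hsurj σ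
    symm
    refine Finset.card_nbij' (fun a => a0 * a) (fun b => a0⁻¹ * b) ?_ ?_ ?_ ?_
    · intro a ha
      have ha' := (hmemA 1 a).mp (Finset.mem_coe.mp ha)
      refine Finset.mem_coe.mpr ((hmemA σ _).mpr ?_)
      have h1 : (σ, a0 * a) = (σ, a0) * ((1 : G), a) := by simp
      rw [h1]
      exact Δ.mul_mem ha0 ha'
    · intro b hb
      have hb' := (hmemA σ b).mp (Finset.mem_coe.mp hb)
      refine Finset.mem_coe.mpr ((hmemA 1 _).mpr ?_)
      have h1 : ((1 : G), a0⁻¹ * b) = (σ, a0)⁻¹ * (σ, b) := by simp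
      rw [h1]
      exact Δ.mul_mem (Δ.inv_mem ha0) hb'
    · intro a _
      simp
    · intro b _
      simp
  -- `#Δ = #G * m`
  have hdm : d = g * m := by
    have h1 : d = #({p : G × U | p ∈ Δ} : Finset (G × U)) := by
      rw [hd, Nat.card_eq_fintype_card, Fintype.card_subtype]
    have h2 : #({p : G × U | p ∈ Δ} : Finset (G × U)) =
        ∑ σ : G, #{p ∈ ({p : G × U | p ∈ Δ} : Finset (G × U)) | p.1 = σ} :=
      Finset.card_eq_sum_card_fiberwise (fun p _ => Finset.mem_coe.mpr (mem_univ p.1))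
    rw [h1, h2, Finset.sum_congr rfl (g := fun _ => m), Finset.sum_const, smul_eq_mul,
      Finset.card_univ]
    intro σ _
    rw [← hfib σ]
    refine Finset.card_nbij' (fun p => p.2) (fun a => (σ, a)) ?_ ?_ ?_ ?_
    · intro p hp
      have hp' := mem_filter.mp (Finset.mem_coe.mp hp)
      have hp'' := (mem_filter.mp hp'.1).2
      refine Finset.mem_coe.mpr ((hmemA σ _).mpr ?_)
      rw [← hp'.2]
      exact hp''
    · intro a ha
      have ha' := (hmemA σ a).mp (Finset.mem_coe.mp ha)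
      exact Finset.mem_coe.mpr (mem_filter.mpr ⟨mem_filter.mpr ⟨mem_univ _, ha'⟩, rfl⟩)
    · intro p hp
      have hp' := mem_filter.mp (Finset.mem_coe.mp hp)
      exact Prod.ext hp'.2.symm rfl
    · intro a _
      rfl
  have hmU : m ≤ u := by
    rw [hu, ← Finset.card_univ]
    exact Finset.card_le_card (Finset.subset_univ _)
  -- good and bad elements of the fibres
  set Gd : G → Finset U := fun σ => {a ∈ Afib σ | 4 * orderOf σ ∣ orderOf a} with hGd
  set Bd : G → Finset U := fun σ => {a ∈ Afib σ | ¬ 4 * orderOf σ ∣ orderOf a} with hBd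
  have hsplit : ∀ σ, #(Gd σ) + #(Bd σ) = m := by
    intro σ
    rw [← hfib σ]
    exact Finset.card_filter_add_card_filter_not _
  have hbad : ∀ σ, #(Bd σ) * 2 ^ k ≤ 4 * g * u := by
    intro σ
    have h1 := card_not_dvd_orderOf_mul_le (A := U) (4 * g) k (by positivity)
      (by rw [Nat.card_eq_fintype_card]; exact hk)
    rw [Nat.card_eq_fintype_card, Nat.card_eq_fintype_card, Fintype.card_subtype] at h1
    refine le_trans (Nat.mul_le_mul_right _ (Finset.card_le_card ?_)) h1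
    intro a ha
    rw [hBd, mem_filter] at ha
    rw [mem_filter]
    refine ⟨mem_univ _, fun hdvd => ha.2 ?_⟩
    exact dvd_trans (Nat.mul_dvd_mul_left 4 orderOf_dvd_card) hdvd
  -- squares
  have hF6 : ∀ σ, ∑ a ∈ Gd σ, ν σ (φ a) ≤ 2 * ∑ c : C, ν σ c := by
    intro σ
    calc ∑ a ∈ Gd σ, ν σ (φ a) ≤ ∑ a : U, ν σ (φ a) :=
          Finset.sum_le_sum_of_subset_of_nonneg (Finset.subset_univ _) (fun _ _ _ => hν _ _)
      _ ≤ 2 * ∑ c : C, ν σ c := sum_comp_le_two_mul φ (ν σ) (hν σ) hφ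
  -- the inversion symmetry
  have hF7 : ∀ σ, ∑ a ∈ Gd σ, ν σ⁻¹ (φ a⁻¹) = ∑ b ∈ Gd σ⁻¹, ν σ⁻¹ (φ b) := by
    intro σ
    have hmap : ∀ τ : G, ∀ a ∈ Gd τ, a⁻¹ ∈ Gd τ⁻¹ := by
      intro τ a ha
      rw [hGd, mem_filter] at ha ⊢
      refine ⟨(hmemA _ _).mpr ?_, ?_⟩
      · have h1 : (τ⁻¹, a⁻¹) = (τ, a)⁻¹ := rfl
        rw [h1]
        exact Δ.inv_mem ((hmemA _ _).mp ha.1)
      · rw [orderOf_inv, orderOf_inv]
        exact ha.2
    refine Finset.sum_nbij' (fun a => a⁻¹) (fun b => b⁻¹) ?_ ?_ ?_ ?_ ?_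
    · intro a ha
      exact hmap σ a ha
    · intro b hb
      have := hmap σ⁻¹ b hb
      rwa [inv_inv] at this
    · intro a _
      exact inv_inv a
    · intro b _
      exact inv_inv b
    · intro a _
      rfl
  have hF8 : ∑ σ ∈ X, ∑ a ∈ Gd σ, ν σ⁻¹ (φ a⁻¹) = ∑ σ ∈ X, ∑ a ∈ Gd σ, ν σ (φ a) := by
    rw [Finset.sum_congr rfl (fun σ _ => hF7 σ)]
    exact Finset.sum_nbij' (fun σ => σ⁻¹) (fun σ => σ⁻¹) hXinv hXinv (fun σ _ => inv_inv σ)
      (fun σ _ => inv_inv σ) (fun σ _ => rfl)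
  -- the main inequality
  set S : ℝ := ∑ σ ∈ X, ∑ c : C, ν σ c with hS
  set N : ℝ := ∑ σ ∈ X, (#(Gd σ) : ℝ) with hN
  have hmain : N * (4 / (d : ℝ) * Lam - B) ≤ 4 * S := by
    calc N * (4 / (d : ℝ) * Lam - B)
        = ∑ σ ∈ X, ∑ _a ∈ Gd σ, (4 / (d : ℝ) * Lam - B) := by
          rw [hN, Finset.sum_mul]
          refine Finset.sum_congr rfl fun σ _ => ?_
          rw [Finset.sum_const, nsmul_eq_mul]
      _ ≤ ∑ σ ∈ X, ∑ a ∈ Gd σ, (ν σ (φ a) + ν σ⁻¹ (φ a⁻¹)) := by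
          refine Finset.sum_le_sum fun σ hσ => Finset.sum_le_sum fun a ha => ?_
          rw [hGd, mem_filter] at ha
          exact hPB σ a ((hmemA σ a).mp ha.1) hσ ha.2
      _ = 2 * ∑ σ ∈ X, ∑ a ∈ Gd σ, ν σ (φ a) := by
          simp only [Finset.sum_add_distrib]
          rw [hF8]
          ring
      _ ≤ 2 * ∑ σ ∈ X, 2 * ∑ c : C, ν σ c :=
          mul_le_mul_of_nonneg_left (Finset.sum_le_sum fun σ _ => hF6 σ) (by norm_num)
      _ = 4 * S := by
          rw [hS, ← Finset.mul_sum]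
          ring
  -- bounds for `N`
  have hgR : (0 : ℝ) < g := by exact_mod_cast hgpos
  have hdR : (0 : ℝ) < d := by exact_mod_cast hdpos
  have h2k : (0 : ℝ) < 2 ^ k := by positivity
  have hmR : (m : ℝ) = (d : ℝ) / g := by
    rw [eq_div_iff hgR.ne']
    have : (d : ℝ) = (g : ℝ) * m := by exact_mod_cast hdm
    rw [this]
    ring
  have hXg : (#X : ℝ) ≤ g := by exact_mod_cast Finset.card_le_univ X
  have hNupper : N ≤ (g : ℝ) * (u + 1 : ℕ) := by
    have h1 : N ≤ ∑ _σ ∈ X, ((u + 1 : ℕ) : ℝ) := by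
      refine Finset.sum_le_sum fun σ _ => ?_
      have h2 : #(Gd σ) ≤ u + 1 := by
        have := hsplit σ
        omega
      exact_mod_cast h2
    rw [Finset.sum_const, nsmul_eq_mul] at h1
    have hq0 : (0 : ℝ) ≤ ((u + 1 : ℕ) : ℝ) := Nat.cast_nonneg _
    nlinarith
  have hN0 : 0 ≤ N := Finset.sum_nonneg fun _ _ => Nat.cast_nonneg _
  have hNlower : ((#X : ℝ) / g) * (1 - 4 * (g : ℝ) ^ 2 / 2 ^ k) * d ≤ N := by
    have h1 : ∀ σ ∈ X, (d : ℝ) / g - 4 * g * d / 2 ^ k ≤ (#(Gd σ) : ℝ) := by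
      intro σ _
      have h2 : (#(Gd σ) : ℝ) + #(Bd σ) = m := by exact_mod_cast hsplit σ
      have h3 : (#(Bd σ) : ℝ) * 2 ^ k ≤ 4 * g * d := by
        have h4 : #(Bd σ) * 2 ^ k ≤ 4 * g * d := (hbad σ).trans (Nat.mul_le_mul_left _ hΔ)
        exact_mod_cast h4
      have h5 : (#(Bd σ) : ℝ) ≤ 4 * g * d / 2 ^ k := by
        rw [le_div_iff₀ h2k]
        exact h3
      rw [← hmR]
      linarith
    have h6 : ∑ _σ ∈ X, ((d : ℝ) / g - 4 * g * d / 2 ^ k) ≤ N := Finset.sum_le_sum h1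
    rw [Finset.sum_const, nsmul_eq_mul] at h6
    have h7 : ((#X : ℝ) / g) * (1 - 4 * (g : ℝ) ^ 2 / 2 ^ k) * d =
        (#X : ℝ) * ((d : ℝ) / g - 4 * g * d / 2 ^ k) := by
      field_simp
    rw [h7]
    exact h6
  -- conclusion
  have hcoef : ((#X : ℝ) / g) * (1 - 4 * (g : ℝ) ^ 2 / 2 ^ k) ≤ N / d := by
    rw [le_div_iff₀ hdR]
    exact hNlower
  have h8 : N * (4 / (d : ℝ) * Lam - B) = 4 * (N / d * Lam) - N * B := by
    field_simp
  rw [h8] at hmain
  have h9 : ((#X : ℝ) / g) * (1 - 4 * (g : ℝ) ^ 2 / 2 ^ k) * Lam ≤ N / d * Lam :=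
    mul_le_mul_of_nonneg_right hcoef hLam
  have h10 : N * B ≤ (g : ℝ) * (u + 1 : ℕ) * B := mul_le_mul_of_nonneg_right hNupper hB
  have h11 : 0 ≤ N * B := mul_nonneg hN0 hB
  linarith

/-- **Seam 3 of the F5 Spec**: the count of good pairs. -/
theorem stmt_CrossAbs : Fermat.Agent.S48.helper1398.Stmt_CrossAbs := by
  intro G _ _ q _ k hk Δ hsurj hΔ X hXinv ν hν Lam B hLam hB hPB
  have hUcard : Fintype.card (ZMod q)ˣ = q - 1 := ZMod.card_units q
  have hq1 : q - 1 + 1 = q := Nat.sub_add_cancel (Fact.out : q.Prime).one_le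
  have key := cross_abs_core (G := G) (U := (ZMod q)ˣ) (C := ZMod q)
    (fun a => (a : ZMod q) ^ 2) (fun c => card_units_sq_eq_le_two c) k
    (by rw [hUcard]; exact hk) Δ hsurj (by rw [hUcard]; exact hΔ) X hXinv ν hν Lam B hLam hB hPB
  rw [hUcard, hq1] at key
  exact key

end Fermat.Agent.S48.helper9319
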