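import Mathlib

/-!
# S48 / F5 (Chebotarev crossing over `ℚ`, no disjointness): the group-theoretic count (helper9846)

Abstract setting of the crossing argument: a finite group `Γ` (`= Gal(L(ζ_q)/ℚ)`), a surjection
`π : Γ →* G` (`G = Gal(L/ℚ)`), a surjection `r : Γ →* Z` onto a finite cyclic group
(`Z = (ℤ/q)ˣ`, the cyclotomic character) such that `(π, r)` is injective, and natural numbers
`N`, `k` with `g ^ N = 1` on `G` and `N ^ k ∣ |Z|`.

* `dvd_orderOf_of_pow_ne_one`, `card_not_dvd_orderOf_mul_le` : in a cyclic group `Z` with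
  `N ^ k ∣ |Z|`, all but a proportion `ω(N) / 2 ^ k` of the elements have order divisible by `N`.
* `orderOf_eq_of_dvd`, `eq_of_mem_zpowers_of_map_eq` : if `N ∣ ord (r γ)` then
  `ord (r γ) = ord γ`, and `r` is injective on `⟨γ⟩` (`γ` is a *good* element).
* `card_good_lifts` : for every `X ⊆ G`, the good elements above `X` are at least
  `(|X| / |G|) * (1 - ω(N) * |G| / 2 ^ k) * |Γ|`.  No hypothesis on `ker π` (no linear
  disjointness): only that `r` is onto.
* `card_conj_mem_pair_mul` : the conjugation count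
  `#{g | g τ g⁻¹ ∈ {γ, γ⁻¹}} * |S| = [τ ∈ S] * |Γ| * #{γ, γ⁻¹}` for the symmetric class
  `S = cl(γ) ∪ cl(γ⁻¹)`.
-/

set_option autoImplicit false

namespace Fermat.Agent.S48.helper9846

/-! ### Arithmetic -/

/-- If `o ∣ p ^ k * w`, `p ^ e ∤ o` and `p ^ (e - 1) ∣ w`, then `o ∣ w`. -/
theorem dvd_of_dvd_pow_mul {p o k w e : ℕ} (hp : p.Prime) (ho : o ∣ p ^ k * w)
    (he : ¬ p ^ e ∣ o) (hw : p ^ (e - 1) ∣ w) : o ∣ w := by
  have ho0 : o ≠ 0 := by
    rintro rfl
    exact he (dvd_zero _)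
  have hv : o.factorization p < e := by
    by_contra h
    push Not at h
    exact he ((pow_dvd_pow p h).trans (Nat.ordProj_dvd o p))
  have h1 : p ^ o.factorization p ∣ w :=
    (pow_dvd_pow p (by omega : o.factorization p ≤ e - 1)).trans hw
  have hcop : Nat.Coprime (p ^ k) (o / p ^ o.factorization p) :=
    Nat.Coprime.pow_left k (Nat.coprime_ordCompl hp ho0)
  have h2 : o / p ^ o.factorization p ∣ w := by
    have h3 : o / p ^ o.factorization p ∣ p ^ k * w := (Nat.ordCompl_dvd o p).trans ho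
    exact hcop.symm.dvd_of_dvd_mul_left h3
  have hcop2 : Nat.Coprime (p ^ o.factorization p) (o / p ^ o.factorization p) :=
    Nat.Coprime.pow_left _ (Nat.coprime_ordCompl hp ho0)
  have h4 := hcop2.mul_dvd_of_dvd_of_dvd h1 h2
  rwa [Nat.ordProj_mul_ordCompl_eq_self] at h4

/-! ### Elements of a cyclic group whose order is divisible by `N` -/

section Cyclic

variable {Z : Type*} [CommGroup Z] [Finite Z]

/-- In a finite group `Z` with `N ^ k ∣ |Z|` (`k ≥ 1`): if `x ^ (|Z| / p ^ k) ≠ 1` for every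
prime `p ∣ N`, then `N ∣ ord x`. -/
theorem dvd_orderOf_of_pow_ne_one (N k : ℕ) (hk : 1 ≤ k) (hNk : N ^ k ∣ Nat.card Z) (x : Z)
    (hx : ∀ p : ℕ, p.Prime → p ∣ N → x ^ (Nat.card Z / p ^ k) ≠ 1) : N ∣ orderOf x := by
  have hz : 0 < Nat.card Z := Nat.card_pos
  have hN0 : N ≠ 0 := by
    rintro rfl
    rw [zero_pow (by omega)] at hNk
    exact hz.ne' (Nat.eq_zero_of_zero_dvd hNk)
  have ho0 : orderOf x ≠ 0 := (orderOf_pos x).ne'
  rw [← Nat.factorization_prime_le_iff_dvd hN0 ho0]
  intro p hp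
  by_cases hpN : p ∣ N
  · rw [← hp.pow_dvd_iff_le_factorization ho0]
    by_contra hnd
    set e := N.factorization p with he
    have he1 : 1 ≤ e := (hp.dvd_iff_one_le_factorization hN0).mp hpN
    have hpkz : p ^ k ∣ Nat.card Z := (pow_dvd_pow_of_dvd hpN k).trans hNk
    obtain ⟨w, hw⟩ := hpkz
    have hwdiv : Nat.card Z / p ^ k = w := by
      rw [hw, Nat.mul_div_cancel_left _ (pow_pos hp.pos k)]
    have h1 : (p ^ e) ^ k ∣ p ^ k * w := by
      rw [← hw]
      exact (pow_dvd_pow_of_dvd (Nat.ordProj_dvd N p) k).trans hNk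
    have h2 : p ^ (e - 1) ∣ w := by
      have h3 : p ^ k * p ^ (k * (e - 1)) ∣ p ^ k * w := by
        have : (p ^ e) ^ k = p ^ k * p ^ (k * (e - 1)) := by
          rw [← pow_mul, ← pow_add]
          congr 1
          have : e = (e - 1) + 1 := by omega
          nth_rewrite 1 [this]
          ring
        rwa [this] at h1
      have h4 : p ^ (k * (e - 1)) ∣ w := Nat.dvd_of_mul_dvd_mul_left (pow_pos hp.pos k) h3
      exact (pow_dvd_pow p (Nat.le_mul_of_pos_left _ hk)).trans h4
    have h5 : orderOf x ∣ w := by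
      refine dvd_of_dvd_pow_mul (k := k) hp ?_ hnd h2
      rw [← hw]
      exact orderOf_dvd_natCard x
    apply hx p hp hpN
    rw [hwdiv]
    exact orderOf_dvd_iff_pow_eq_one.mp h5
  · rw [Nat.factorization_eq_zero_of_not_dvd hpN]
    exact Nat.zero_le _

variable [IsCyclic Z]

/-- In a finite cyclic group `Z` with `N ^ k ∣ |Z|` (`k ≥ 1`), at most `ω(N) * |Z| / 2 ^ k`
elements have order not divisible by `N`. -/
theorem card_not_dvd_orderOf_mul_le (N k : ℕ) (hk : 1 ≤ k) (hNk : N ^ k ∣ Nat.card Z) :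
    Nat.card {x : Z // ¬ N ∣ orderOf x} * 2 ^ k ≤ N.primeFactors.card * Nat.card Z := by
  classical
  have : Fintype Z := Fintype.ofFinite Z
  have hz : 0 < Nat.card Z := Nat.card_pos
  rw [Nat.card_eq_fintype_card, Fintype.card_subtype]
  have hsub : (Finset.univ.filter fun x : Z => ¬ N ∣ orderOf x) ⊆
      N.primeFactors.biUnion fun p => Finset.univ.filter fun x : Z => x ^ (Nat.card Z / p ^ k) = 1 := by
    intro x hx
    rw [Finset.mem_filter] at hx
    by_contra hcon
    apply hx.2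
    refine dvd_orderOf_of_pow_ne_one N k hk hNk x fun p hp hpN h1 => hcon ?_
    rw [Finset.mem_biUnion]
    refine ⟨p, Nat.mem_primeFactors.mpr ⟨hp, hpN, ?_⟩, Finset.mem_filter.mpr ⟨Finset.mem_univ _, h1⟩⟩
    rintro rfl
    rw [zero_pow (by omega)] at hNk
    exact hz.ne' (Nat.eq_zero_of_zero_dvd hNk)
  have hcard : ∀ p ∈ N.primeFactors,
      (Finset.univ.filter fun x : Z => x ^ (Nat.card Z / p ^ k) = 1).card * 2 ^ k ≤ Nat.card Z := by
    intro p hp
    have hpp : p.Prime := Nat.prime_of_mem_primeFactors hp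
    have hpN : p ∣ N := Nat.dvd_of_mem_primeFactors hp
    have hpkz : p ^ k ∣ Nat.card Z := (pow_dvd_pow_of_dvd hpN k).trans hNk
    have hpos : 0 < Nat.card Z / p ^ k := Nat.div_pos (Nat.le_of_dvd hz hpkz) (pow_pos hpp.pos k)
    calc (Finset.univ.filter fun x : Z => x ^ (Nat.card Z / p ^ k) = 1).card * 2 ^ k
        ≤ (Nat.card Z / p ^ k) * 2 ^ k :=
          Nat.mul_le_mul_right _ (IsCyclic.card_pow_eq_one_le hpos)
      _ ≤ (Nat.card Z / p ^ k) * p ^ k :=
          Nat.mul_le_mul_left _ (Nat.pow_le_pow_left hpp.two_le k)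
      _ = Nat.card Z := Nat.div_mul_cancel hpkz
  calc (Finset.univ.filter fun x : Z => ¬ N ∣ orderOf x).card * 2 ^ k
      ≤ (N.primeFactors.biUnion fun p =>
          Finset.univ.filter fun x : Z => x ^ (Nat.card Z / p ^ k) = 1).card * 2 ^ k :=
        Nat.mul_le_mul_right _ (Finset.card_le_card hsub)
    _ ≤ (∑ p ∈ N.primeFactors,
          (Finset.univ.filter fun x : Z => x ^ (Nat.card Z / p ^ k) = 1).card) * 2 ^ k :=
        Nat.mul_le_mul_right _ Finset.card_biUnion_le
    _ = ∑ p ∈ N.primeFactors,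
          (Finset.univ.filter fun x : Z => x ^ (Nat.card Z / p ^ k) = 1).card * 2 ^ k :=
        Finset.sum_mul _ _ _
    _ ≤ ∑ _p ∈ N.primeFactors, Nat.card Z := Finset.sum_le_sum hcard
    _ = N.primeFactors.card * Nat.card Z := by rw [Finset.sum_const, smul_eq_mul]

end Cyclic

/-! ### Good elements -/

section Lifts

variable {Γ G Z : Type*} [Group Γ] [Group G] [CommGroup Z] (π : Γ →* G) (r : Γ →* Z)

/-- If `(π, r)` is injective, `g ^ N = 1` on `G` and `N ∣ ord (r γ)`, then `ord (r γ) = ord γ`. -/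
theorem orderOf_eq_of_dvd (hinj : ∀ γ : Γ, π γ = 1 → r γ = 1 → γ = 1) (N : ℕ)
    (hN : ∀ g : G, g ^ N = 1) (γ : Γ) (h : N ∣ orderOf (r γ)) : orderOf (r γ) = orderOf γ := by
  apply Nat.dvd_antisymm (orderOf_map_dvd r γ)
  rw [orderOf_dvd_iff_pow_eq_one]
  apply hinj
  · obtain ⟨c, hc⟩ := h
    rw [map_pow, hc, pow_mul, hN, one_pow]
  · rw [map_pow, pow_orderOf_eq_one]

/-- If `ord (r γ) = ord γ` (finite order), then `r` is injective on `⟨γ⟩`. -/
theorem eq_of_mem_zpowers_of_map_eq {γ : Γ}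
    (h : orderOf (r γ) = orderOf γ) {a b : Γ} (ha : a ∈ Subgroup.zpowers γ)
    (hb : b ∈ Subgroup.zpowers γ) (hab : r a = r b) : a = b := by
  obtain ⟨i, rfl⟩ := Subgroup.mem_zpowers_iff.mp ha
  obtain ⟨j, rfl⟩ := Subgroup.mem_zpowers_iff.mp hb
  have h1 : (r γ) ^ (i - j) = 1 := by
    rw [zpow_sub, ← map_zpow, ← map_zpow, hab, mul_inv_cancel]
  have h2 : (orderOf γ : ℤ) ∣ i - j := by
    rw [← h]
    exact orderOf_dvd_iff_zpow_eq_one.mpr h1
  have h3 : γ ^ (i - j) = 1 := orderOf_dvd_iff_zpow_eq_one.mp h2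
  rw [zpow_sub, mul_inv_eq_one] at h3
  exact h3

variable [Finite Γ] [Finite G] [Finite Z] [IsCyclic Z]

/-- **Counting the good lifts** (integer form). -/
theorem card_good_lifts_nat (hπ : Function.Surjective π)
    (hinj : ∀ γ : Γ, π γ = 1 → r γ = 1 → γ = 1) (N k : ℕ) (hk : 1 ≤ k)
    (hNk : N ^ k ∣ Nat.card Z) (X : Set G) :
    Nat.card X * Nat.card Γ * 2 ^ k ≤
      Nat.card {γ : Γ // π γ ∈ X ∧ N ∣ orderOf (r γ)} * Nat.card G * 2 ^ k +
        Nat.card X * Nat.card G * (N.primeFactors.card * Nat.card Z) := by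
  classical
  have : Fintype Γ := Fintype.ofFinite Γ
  have : Fintype G := Fintype.ofFinite G
  have : Fintype Z := Fintype.ofFinite Z
  set b := Nat.card {x : Z // ¬ N ∣ orderOf x} with hb
  have hbk : b * 2 ^ k ≤ N.primeFactors.card * Nat.card Z :=
    card_not_dvd_orderOf_mul_le N k hk hNk
  -- the fibres of `π` all have `|ker π|` elements
  set κ := (Finset.univ.filter fun γ : Γ => π γ = 1).card with hκ
  have hfib : ∀ σ : G, (Finset.univ.filter fun γ : Γ => π γ = σ).card = κ := by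
    intro σ
    exact MonoidHom.card_fiber_eq_of_mem_range π (hπ σ) (hπ 1)
  have hΓ : Nat.card Γ = Nat.card G * κ := by
    rw [Nat.card_eq_fintype_card, Nat.card_eq_fintype_card, ← Finset.card_univ (α := Γ),
      Finset.card_eq_sum_card_fiberwise (f := π) (t := Finset.univ) (fun _ _ => Finset.mem_univ _)]
    simp only [hfib, Finset.sum_const, Finset.card_univ, smul_eq_mul]
  -- the bad elements in a fibre inject into the bad elements of `Z`
  have hbad : ∀ σ : G,
      (Finset.univ.filter fun γ : Γ => π γ = σ ∧ ¬ N ∣ orderOf (r γ)).card ≤ b := by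
    intro σ
    rw [hb, Nat.card_eq_fintype_card, Fintype.card_subtype]
    refine Finset.card_le_card_of_injOn (fun γ => r γ) ?_ ?_
    · intro γ hγ
      have hγ' := (Finset.mem_filter.mp (Finset.mem_coe.mp hγ)).2
      exact Finset.mem_coe.mpr (Finset.mem_filter.mpr ⟨Finset.mem_univ _, hγ'.2⟩)
    · intro γ hγ γ' hγ' heq
      have h1 := (Finset.mem_filter.mp (Finset.mem_coe.mp hγ)).2.1
      have h2 := (Finset.mem_filter.mp (Finset.mem_coe.mp hγ')).2.1
      have h3 : γ⁻¹ * γ' = 1 := by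
        apply hinj
        · rw [map_mul, map_inv, h1, h2, inv_mul_cancel]
        · have heq' : r γ = r γ' := heq
          rw [map_mul, map_inv, heq', inv_mul_cancel]
      exact inv_mul_eq_one.mp h3
  -- count over `X`
  set XF : Finset G := Finset.univ.filter fun σ => σ ∈ X with hXF
  have hXcard : Nat.card X = XF.card := by
    rw [Nat.card_eq_fintype_card, hXF, ← Fintype.card_subtype]
  set good := Finset.univ.filter fun γ : Γ => π γ ∈ X ∧ N ∣ orderOf (r γ) with hgood
  have hgoodcard : Nat.card {γ : Γ // π γ ∈ X ∧ N ∣ orderOf (r γ)} = good.card := by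
    rw [Nat.card_eq_fintype_card, Fintype.card_subtype]
  have hsplit : XF.card * κ ≤ good.card + XF.card * b := by
    have h1 : ∀ σ ∈ XF, κ ≤ (good.filter fun γ => π γ = σ).card + b := by
      intro σ hσ
      have hσX : σ ∈ X := (Finset.mem_filter.mp hσ).2
      rw [← hfib σ]
      have hunion : (Finset.univ.filter fun γ : Γ => π γ = σ) ⊆
          (good.filter fun γ => π γ = σ) ∪
            (Finset.univ.filter fun γ : Γ => π γ = σ ∧ ¬ N ∣ orderOf (r γ)) := by
        intro γ hγ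
        have hγσ : π γ = σ := (Finset.mem_filter.mp hγ).2
        rw [Finset.mem_union]
        by_cases hd : N ∣ orderOf (r γ)
        · left
          refine Finset.mem_filter.mpr ⟨Finset.mem_filter.mpr ⟨Finset.mem_univ _, ?_, hd⟩, hγσ⟩
          rw [hγσ]
          exact hσX
        · right
          exact Finset.mem_filter.mpr ⟨Finset.mem_univ _, hγσ, hd⟩
      calc (Finset.univ.filter fun γ : Γ => π γ = σ).card
          ≤ ((good.filter fun γ => π γ = σ) ∪
              (Finset.univ.filter fun γ : Γ => π γ = σ ∧ ¬ N ∣ orderOf (r γ))).card :=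
            Finset.card_le_card hunion
        _ ≤ (good.filter fun γ => π γ = σ).card +
              (Finset.univ.filter fun γ : Γ => π γ = σ ∧ ¬ N ∣ orderOf (r γ)).card :=
            Finset.card_union_le _ _
        _ ≤ (good.filter fun γ => π γ = σ).card + b := Nat.add_le_add_left (hbad σ) _
    have h2 : good.card = ∑ σ ∈ XF, (good.filter fun γ => π γ = σ).card := by
      refine Finset.card_eq_sum_card_fiberwise fun γ hγ => ?_
      exact Finset.mem_filter.mpr ⟨Finset.mem_univ _, (Finset.mem_filter.mp hγ).2.1⟩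
    calc XF.card * κ = ∑ _σ ∈ XF, κ := by rw [Finset.sum_const, smul_eq_mul]
      _ ≤ ∑ σ ∈ XF, ((good.filter fun γ => π γ = σ).card + b) := Finset.sum_le_sum h1
      _ = good.card + XF.card * b := by
          rw [Finset.sum_add_distrib, ← h2, Finset.sum_const, smul_eq_mul]
  rw [hXcard, hgoodcard, hΓ]
  calc XF.card * (Nat.card G * κ) * 2 ^ k = (XF.card * κ) * (Nat.card G * 2 ^ k) := by ring
    _ ≤ (good.card + XF.card * b) * (Nat.card G * 2 ^ k) := Nat.mul_le_mul_right _ hsplit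
    _ = good.card * Nat.card G * 2 ^ k + XF.card * Nat.card G * (b * 2 ^ k) := by ring
    _ ≤ good.card * Nat.card G * 2 ^ k +
          XF.card * Nat.card G * (N.primeFactors.card * Nat.card Z) :=
        Nat.add_le_add_left (Nat.mul_le_mul_left _ hbk) _

/-- Real-number bookkeeping for `card_good_lifts`. -/
theorem good_lifts_real_aux {x g c z ω y t : ℝ} (hg : 0 < g) (hc : 0 < c) (ht : 0 < t)
    (hx : 0 ≤ x) (hω : 0 ≤ ω) (hz : z ≤ c)
    (h : x * c * t ≤ y * g * t + x * g * (ω * z)) :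
    x / g * (1 - ω * g / t) ≤ y / c := by
  have h' : x * c * t ≤ y * g * t + x * g * (ω * c) := by
    have h1 : x * g * (ω * z) ≤ x * g * (ω * c) :=
      mul_le_mul_of_nonneg_left (mul_le_mul_of_nonneg_left hz hω) (mul_nonneg hx hg.le)
    linarith
  rw [div_mul_eq_mul_div, div_le_div_iff₀ hg hc]
  have key : x * (1 - ω * g / t) * c = (x * c * t - x * g * (ω * c)) / t := by
    field_simp
  rw [key, div_le_iff₀ ht]
  linarith

/-- **Counting the good lifts** (density form): if `π` and `r` are onto, `(π, r)` is injective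
and `N ^ k ∣ |Z|`, then the elements `γ` above `X` with `N ∣ ord (r γ)` have proportion at least
`(|X| / |G|) * (1 - ω(N) * |G| / 2 ^ k)` in `Γ`. -/
theorem card_good_lifts (hπ : Function.Surjective π) (hr : Function.Surjective r)
    (hinj : ∀ γ : Γ, π γ = 1 → r γ = 1 → γ = 1) (N k : ℕ) (hk : 1 ≤ k)
    (hNk : N ^ k ∣ Nat.card Z) (X : Set G) :
    (Nat.card X : ℝ) / Nat.card G * (1 - N.primeFactors.card * Nat.card G / 2 ^ k) ≤
      (Nat.card {γ : Γ // π γ ∈ X ∧ N ∣ orderOf (r γ)} : ℝ) / Nat.card Γ := by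
  have hnat := card_good_lifts_nat π r hπ hinj N k hk hNk X
  have hZΓ : Nat.card Z ≤ Nat.card Γ := Nat.card_le_card_of_surjective r hr
  have hΓpos : (0 : ℝ) < Nat.card Γ := by exact_mod_cast Nat.card_pos
  have hGpos : (0 : ℝ) < Nat.card G := by exact_mod_cast Nat.card_pos
  have h2k : (0 : ℝ) < 2 ^ k := by positivity
  refine good_lifts_real_aux hGpos hΓpos h2k (Nat.cast_nonneg _) (Nat.cast_nonneg _)
    (z := (Nat.card Z : ℝ)) (by exact_mod_cast hZΓ) ?_
  exact_mod_cast hnat

end Lifts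

/-! ### The conjugation count for a pair `{γ, γ⁻¹}` -/

section Conj

variable {Γ : Type*} [Group Γ]

/-- The symmetric class of `γ`: the conjugates of `γ` and of `γ⁻¹`. -/
def symClass (γ : Γ) : Set Γ := {τ | ∃ g : Γ, g * τ * g⁻¹ = γ ∨ g * τ * g⁻¹ = γ⁻¹}

theorem mem_symClass_self (γ : Γ) : γ ∈ symClass γ := ⟨1, Or.inl (by simp)⟩

theorem conj_mem_symClass {γ τ : Γ} (h : τ ∈ symClass γ) (g : Γ) : g * τ * g⁻¹ ∈ symClass γ := by
  obtain ⟨a, ha⟩ := h
  refine ⟨a * g⁻¹, ?_⟩
  have : a * g⁻¹ * (g * τ * g⁻¹) * (a * g⁻¹)⁻¹ = a * τ * a⁻¹ := by group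
  rwa [this]

theorem inv_mem_symClass {γ τ : Γ} (h : τ ∈ symClass γ) : τ⁻¹ ∈ symClass γ := by
  obtain ⟨a, ha⟩ := h
  refine ⟨a, ?_⟩
  have : a * τ⁻¹ * a⁻¹ = (a * τ * a⁻¹)⁻¹ := by group
  rw [this]
  rcases ha with ha | ha
  · right; rw [ha]
  · left; rw [ha, inv_inv]

variable [Finite Γ]

open scoped Classical in
/-- **Conjugation count.** `#{g | g τ g⁻¹ ∈ {γ, γ⁻¹}} * |S| = [τ ∈ S] * |Γ| * #{γ, γ⁻¹}`, where
`S` is the symmetric class of `γ`. -/
theorem card_conj_mem_pair_mul (γ τ : Γ) :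
    Nat.card {g : Γ // g * τ * g⁻¹ = γ ∨ g * τ * g⁻¹ = γ⁻¹} * Nat.card (symClass γ) =
      if τ ∈ symClass γ then Nat.card Γ * Nat.card ({γ, γ⁻¹} : Set Γ) else 0 := by
  classical
  have : Fintype Γ := Fintype.ofFinite Γ
  let f : Γ → ℕ := fun t => (Finset.univ.filter fun g : Γ => g * t * g⁻¹ = γ ∨ g * t * g⁻¹ = γ⁻¹).card
  have hf : ∀ t, Nat.card {g : Γ // g * t * g⁻¹ = γ ∨ g * t * g⁻¹ = γ⁻¹} = f t := by
    intro t
    rw [Nat.card_eq_fintype_card, Fintype.card_subtype]
  -- `f` is invariant under conjugation and inversion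
  have hconj : ∀ t a : Γ, f (a * t * a⁻¹) = f t := by
    intro t a
    refine Finset.card_bij (fun g _ => g * a) ?_ ?_ ?_
    · intro g hg
      have hg' := (Finset.mem_filter.mp hg).2
      refine Finset.mem_filter.mpr ⟨Finset.mem_univ _, ?_⟩
      have : g * a * t * (g * a)⁻¹ = g * (a * t * a⁻¹) * g⁻¹ := by group
      rwa [this]
    · intro g _ g' _ h
      exact mul_right_cancel h
    · intro g hg
      have hg' := (Finset.mem_filter.mp hg).2
      refine ⟨g * a⁻¹, Finset.mem_filter.mpr ⟨Finset.mem_univ _, ?_⟩, by group⟩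
      have : g * a⁻¹ * (a * t * a⁻¹) * (g * a⁻¹)⁻¹ = g * t * g⁻¹ := by group
      rwa [this]
  have hinv : ∀ t : Γ, f t⁻¹ = f t := by
    intro t
    refine congrArg Finset.card (Finset.filter_congr fun g _ => ?_)
    have : g * t⁻¹ * g⁻¹ = (g * t * g⁻¹)⁻¹ := by group
    rw [this, inv_eq_iff_eq_inv, inv_inj, or_comm]
  have hconst : ∀ t ∈ symClass γ, f t = f γ := by
    intro t ht
    obtain ⟨a, ha | ha⟩ := ht
    · rw [← hconj t a, ha]
    · rw [← hconj t a, ha, hinv]
  have hzero : ∀ t, t ∉ symClass γ → f t = 0 := by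
    intro t ht
    rw [Finset.card_eq_zero, Finset.filter_eq_empty_iff]
    intro g _ hg
    exact ht ⟨g, hg⟩
  -- double counting
  set S : Finset Γ := Finset.univ.filter fun t => t ∈ symClass γ with hS
  have hScard : Nat.card (symClass γ) = S.card := by
    rw [Nat.card_eq_fintype_card, hS, ← Fintype.card_subtype]
  set E : Finset Γ := {γ, γ⁻¹} with hE
  have hEcard : Nat.card ({γ, γ⁻¹} : Set Γ) = E.card := by
    rw [Nat.card_eq_fintype_card, ← Set.toFinset_card]
    congr 1
    ext t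
    simp [hE]
  have hsum : ∑ t : Γ, f t = Fintype.card Γ * E.card := by
    have h1 : ∀ t : Γ, f t = ∑ g : Γ, if g * t * g⁻¹ ∈ E then 1 else 0 := by
      intro t
      simp only [f, Finset.card_filter, hE, Finset.mem_insert, Finset.mem_singleton]
    simp_rw [h1]
    rw [Finset.sum_comm]
    have h2 : ∀ g : Γ, (∑ t : Γ, if g * t * g⁻¹ ∈ E then 1 else 0) = E.card := by
      intro g
      rw [← Finset.card_filter]
      refine Finset.card_bij (fun t _ => g * t * g⁻¹) ?_ ?_ ?_
      · intro t ht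
        exact (Finset.mem_filter.mp ht).2
      · intro t _ t' _ h
        exact mul_left_cancel (mul_right_cancel h)
      · intro e he
        refine ⟨g⁻¹ * e * g, Finset.mem_filter.mpr ⟨Finset.mem_univ _, ?_⟩, by group⟩
        have : g * (g⁻¹ * e * g) * g⁻¹ = e := by group
        rwa [this]
    simp_rw [h2]
    rw [Finset.sum_const, Finset.card_univ, smul_eq_mul]
  have hsum' : ∑ t : Γ, f t = S.card * f γ := by
    rw [← Finset.sum_filter_add_sum_filter_not Finset.univ (fun t => t ∈ symClass γ)]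
    have h1 : ∑ t ∈ Finset.univ.filter (fun t => t ∈ symClass γ), f t = S.card * f γ := by
      rw [Finset.sum_congr rfl (fun t ht => hconst t (Finset.mem_filter.mp ht).2),
        Finset.sum_const, smul_eq_mul]
    have h2 : ∑ t ∈ Finset.univ.filter (fun t => t ∉ symClass γ), f t = 0 :=
      Finset.sum_eq_zero fun t ht => hzero t (Finset.mem_filter.mp ht).2
    rw [h1, h2, add_zero]
  rw [hf, hScard, hEcard]
  split_ifs with hτ
  · rw [hconst τ hτ, mul_comm, ← hsum', hsum, Nat.card_eq_fintype_card]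
  · rw [hzero τ hτ, zero_mul]

end Conj

end Fermat.Agent.S48.helper9846
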