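import Fermat.Agent.Lib.helper74_GenChebCore
import Fermat.Agent.S29.helper141_LinearZeta
import Fermat.Agent.S48.helper9846_GoodLifts

/-!
# S48 / F5: Chebotarev crossing directly over `ℚ` (helper9846)

WIP
-/

set_option autoImplicit false
set_option maxHeartbeats 400000
set_option linter.unusedSectionVars false

namespace Fermat.Agent.S48.helper9846

open NumberField
open scoped Pointwise
open Fermat.Agent.Lib.helper74 Fermat.Agent.S29.helper141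

/-! ### Roots of unity modulo a prime ideal -/

section RootsMod

variable {R : Type*} [CommRing R] [IsDomain R]

/-- If `η` is a primitive `q`-th root of unity (`q` prime) and `η ^ i ≡ η ^ j` modulo a prime
ideal not containing `q`, then `i ≡ j mod q`. -/
theorem natCast_eq_of_pow_sub_pow_mem {q : ℕ} [Fact q.Prime] {η : R} (hη : IsPrimitiveRoot η q)
    (P : Ideal R) [P.IsPrime] (hq : (q : R) ∉ P) {i j : ℕ} (h : η ^ i - η ^ j ∈ P) :
    (i : ZMod q) = (j : ZMod q) := by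
  have hqp : q.Prime := Fact.out
  set x : R ⧸ P := Ideal.Quotient.mk P η with hx
  have hxq : x ^ q = 1 := by rw [hx, ← map_pow, hη.pow_eq_one, map_one]
  have hij : x ^ i = x ^ j := by
    rw [hx, ← map_pow, ← map_pow]
    exact Ideal.Quotient.eq.mpr h
  rcases (Nat.dvd_prime hqp).mp (orderOf_dvd_of_pow_eq_one hxq) with h1 | h1
  · exfalso
    apply hq
    have hx1 : x = 1 := orderOf_eq_one_iff.mp h1
    have hsum : (∑ k ∈ Finset.range q, η ^ k) = 0 := hη.geom_sum_eq_zero hqp.one_lt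
    have h2 : Ideal.Quotient.mk P (∑ k ∈ Finset.range q, η ^ k) = (q : R ⧸ P) := by
      rw [map_sum]
      simp only [map_pow, ← hx, hx1, one_pow, Finset.sum_const, Finset.card_range, nsmul_eq_mul,
        mul_one]
    rw [hsum, map_zero] at h2
    rw [← Ideal.Quotient.eq_zero_iff_mem, map_natCast]
    exact h2.symm
  · have hfin : IsOfFinOrder x := isOfFinOrder_iff_pow_eq_one.mpr ⟨q, hqp.pos, hxq⟩
    rw [hfin.pow_eq_pow_iff_modEq, h1] at hij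
    exact (ZMod.natCast_eq_natCast_iff i j q).mpr hij

end RootsMod

/-! ### The cyclotomic character and Frobenius elements -/

section Res

variable {M : Type} [Field M] [NumberField M] {q : ℕ} [Fact q.Prime] {ζ : M}

instance neZero_of_fact_prime : NeZero q := ⟨(Fact.out : q.Prime).ne_zero⟩

/-- The cyclotomic character modulo `q` on `Gal(M/ℚ)`. -/
noncomputable def res (hζ : IsPrimitiveRoot ζ q) : (M ≃ₐ[ℚ] M) →* (ZMod q)ˣ := hζ.autToPow ℚ

theorem smul_toInteger (hζ : IsPrimitiveRoot ζ q) (τ : M ≃ₐ[ℚ] M) :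
    τ • hζ.toInteger = hζ.toInteger ^ ((res hζ τ : (ZMod q)ˣ) : ZMod q).val := by
  apply RingOfIntegers.ext
  have h := hζ.autToPow_spec ℚ τ
  show τ ζ = _
  rw [← h]
  rfl

/-- If `σ x ≡ x ^ n` modulo a prime ideal `P` not containing `q`, then `res σ = n mod q`. -/
theorem res_eq_of_frob (hζ : IsPrimitiveRoot ζ q) (P : Ideal (𝓞 M)) [P.IsPrime]
    (hq : (q : 𝓞 M) ∉ P) (τ : M ≃ₐ[ℚ] M) (n : ℕ) (hτ : ∀ x : 𝓞 M, τ • x - x ^ n ∈ P) :
    ((res hζ τ : (ZMod q)ˣ) : ZMod q) = (n : ZMod q) := by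
  have h1 := hτ hζ.toInteger
  rw [smul_toInteger hζ τ] at h1
  have h2 := natCast_eq_of_pow_sub_pow_mem hζ.toInteger_isPrimitiveRoot P hq h1
  rw [← h2, ZMod.natCast_zmod_val]

/-- A prime ideal over a prime number `ℓ ≠ q` does not contain `q`. -/
theorem natCast_notMem_of_ne {ℓ : ℕ} (hℓ : ℓ.Prime) (hne : ℓ ≠ q) (P : Ideal (𝓞 M)) [P.IsPrime]
    (hmem : (ℓ : 𝓞 M) ∈ P) : (q : 𝓞 M) ∉ P := by
  intro hq
  have hqp : q.Prime := Fact.out
  have h1 : ((q : ℤ) : 𝓞 M) ∈ P := by simpa using hq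
  rw [Int.cast_mem_ideal_iff, absNorm_under_eq_of_mem hℓ P Ideal.IsPrime.ne_top' hmem] at h1
  have h2 : ℓ ∣ q := Int.natCast_dvd_natCast.mp h1
  exact hne ((Nat.prime_dvd_prime_iff_eq hℓ hqp).mp h2)

/-- The residue of a Frobenius element over `ℓ ≠ q` is `ℓ mod q`. -/
theorem res_frob (hζ : IsPrimitiveRoot ζ q) {ℓ : ℕ} (hℓ : ℓ.Prime) (hne : ℓ ≠ q)
    (P : Ideal (𝓞 M)) [P.IsPrime] (hmem : (ℓ : 𝓞 M) ∈ P) (τ : M ≃ₐ[ℚ] M)
    (hτ : ∀ x : 𝓞 M, τ • x - x ^ ℓ ∈ P) : ((res hζ τ : (ZMod q)ˣ) : ZMod q) = (ℓ : ZMod q) :=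
  res_eq_of_frob hζ P (natCast_notMem_of_ne hℓ hne P hmem) τ ℓ hτ

end Res

/-! ### Norm residues of a fixed field -/

section FixedField

variable {M : Type} [Field M] [NumberField M] [IsGalois ℚ M] {q : ℕ} [Fact q.Prime] {ζ : M}

/-- **Norm residues of a fixed field, prime case**: the norm of a prime `𝔭` of the fixed field of
`H`, prime to `q`, is the residue of an element of `H` (a Frobenius of `M / M^H` above `𝔭`). -/
theorem exists_mem_res_eq_absNorm_prime (hζ : IsPrimitiveRoot ζ q) (H : Subgroup (M ≃ₐ[ℚ] M))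
    (𝔭 : Ideal (𝓞 (fixF M H))) [𝔭.IsPrime] (h𝔭 : 𝔭 ≠ ⊥)
    (hu : IsUnit ((Ideal.absNorm 𝔭 : ℕ) : ZMod q)) :
    ∃ h ∈ H, ((res hζ h : (ZMod q)ˣ) : ZMod q) = ((Ideal.absNorm 𝔭 : ℕ) : ZMod q) := by
  classical
  have hqp : q.Prime := Fact.out
  obtain ⟨Q, -, hQp, hQ⟩ :=
    Ideal.exists_ideal_over_prime_of_isIntegral 𝔭 (⊥ : Ideal (𝓞 M)) (by simp)
  have hIG : IsGaloisGroup H (𝓞 (fixF M H)) (𝓞 M) :=
    IsGaloisGroup.of_isFractionRing H (𝓞 (fixF M H)) (𝓞 M) (fixF M H) M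
  have hQbot : Q ≠ ⊥ := by
    rintro rfl
    apply h𝔭
    rw [← hQ]
    exact Ideal.comap_bot_of_injective _ (FaithfulSMul.algebraMap_injective _ _)
  have : Finite (𝓞 M ⧸ Q) := Ideal.finiteQuotientOfFreeOfNeBot Q hQbot
  have := hIG.isInvariant
  have := hIG.commutes
  obtain ⟨σ, hσ⟩ := IsArithFrobAt.exists_of_isInvariant (𝓞 (fixF M H)) H Q
  have hunder : Q.under (𝓞 (fixF M H)) = 𝔭 := hQ
  have hcard : Nat.card (𝓞 (fixF M H) ⧸ Q.under (𝓞 (fixF M H))) = Ideal.absNorm 𝔭 := by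
    rw [hunder, Ideal.absNorm_apply, Submodule.cardQuot_apply]
  have hq : (q : 𝓞 M) ∉ Q := by
    intro hmem
    have h1 : (q : 𝓞 (fixF M H)) ∈ 𝔭 := by
      rw [← hQ, Ideal.mem_comap]
      simpa using hmem
    have h2 : q ∣ Ideal.absNorm 𝔭 := prime_dvd_absNorm hqp 𝔭 Ideal.IsPrime.ne_top' h1
    have h3 : ((Ideal.absNorm 𝔭 : ℕ) : ZMod q) = 0 := (ZMod.natCast_eq_zero_iff _ _).mpr h2
    rw [h3] at hu
    exact not_isUnit_zero hu
  refine ⟨σ.1, σ.2, res_eq_of_frob hζ Q hq σ.1 (Ideal.absNorm 𝔭) fun x => ?_⟩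
  have h4 := hσ x
  rw [hcard] at h4
  exact h4

/-- **Norm residues of a fixed field**: every unit norm residue mod `q` of an ideal of the fixed
field of `H` is the residue of an element of `H`. -/
theorem exists_mem_res_eq_absNorm (hζ : IsPrimitiveRoot ζ q) (H : Subgroup (M ≃ₐ[ℚ] M))
    (I : Ideal (𝓞 (fixF M H))) (hu : IsUnit ((Ideal.absNorm I : ℕ) : ZMod q)) :
    ∃ h ∈ H, ((res hζ h : (ZMod q)ˣ) : ZMod q) = ((Ideal.absNorm I : ℕ) : ZMod q) := by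
  classical
  induction I using UniqueFactorizationMonoid.induction_on_prime with
  | h₁ =>
    exfalso
    rw [Ideal.zero_eq_bot, Ideal.absNorm_bot, Nat.cast_zero] at hu
    exact not_isUnit_zero hu
  | h₂ x hx =>
    rw [Ideal.isUnit_iff] at hx
    refine ⟨1, H.one_mem, ?_⟩
    rw [hx, Ideal.absNorm_top, map_one, Units.val_one, Nat.cast_one]
  | h₃ a p ha hp ih =>
    rw [map_mul, Nat.cast_mul, IsUnit.mul_iff] at hu
    have hpp : p.IsPrime := Ideal.isPrime_of_prime hp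
    obtain ⟨h1, hh1, e1⟩ := exists_mem_res_eq_absNorm_prime hζ H p hp.ne_zero hu.1
    obtain ⟨h2, hh2, e2⟩ := ih hu.2
    refine ⟨h1 * h2, H.mul_mem hh1 hh2, ?_⟩
    rw [map_mul, Units.val_mul, e1, e2, map_mul, Nat.cast_mul]

/-- Every unit norm residue mod `q` of the fixed field of `H` lies in `res H`. -/
theorem mem_map_res_of_absNorm (hζ : IsPrimitiveRoot ζ q) (H : Subgroup (M ≃ₐ[ℚ] M))
    (I : Ideal (𝓞 (fixF M H))) (u : (ZMod q)ˣ) (hu : ((Ideal.absNorm I : ℕ) : ZMod q) = u) :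
    u ∈ H.map (res hζ) := by
  obtain ⟨h, hh, e⟩ := exists_mem_res_eq_absNorm hζ H I (hu ▸ u.isUnit)
  exact ⟨h, hh, Units.ext (by rw [e, hu])⟩

/-- The residue of `γ` is a norm residue of the fixed field of `⟨γ⟩`. -/
theorem exists_absNorm_eq_res (hζ : IsPrimitiveRoot ζ q) (γ : M ≃ₐ[ℚ] M) :
    ∃ I : Ideal (𝓞 (fixF M (Subgroup.zpowers γ))),
      ((Ideal.absNorm I : ℕ) : ZMod q) = ((res hζ γ : (ZMod q)ˣ) : ZMod q) := by
  obtain ⟨ℓ, 𝔏, τ, k, m, hℓ, hℓT, h𝔏, hmem, hτ, -, hτγ, hγτ⟩ :=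
    exists_frob_generator γ ({q} : Finset ℕ)
  have hne : ℓ ≠ q := fun h => hℓT (by simp [h])
  have hτH : τ ∈ Subgroup.zpowers γ := hτγ ▸ Subgroup.pow_mem _ (Subgroup.mem_zpowers γ) k
  have hN := absNorm_under_eq_of_frob (Subgroup.zpowers γ) hℓ 𝔏 hmem hτH hτ
  refine ⟨(𝔏.under (𝓞 (fixF M (Subgroup.zpowers γ)))) ^ m, ?_⟩
  rw [map_pow, hN, Nat.cast_pow, ← res_frob hζ hℓ hne 𝔏 hmem τ hτ, ← Units.val_pow_eq_pow_val,
    ← map_pow, ← hγτ]

end FixedField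

/-! ### Frobenius elements over a prime number -/

/-- All Frobenius elements of `M/ℚ` at all primes of `M` over `ℓ` lie in `S`. -/
def FrobIn (M : Type) [Field M] [NumberField M] (S : Set (M ≃ₐ[ℚ] M)) (ℓ : ℕ) : Prop :=
  ∀ (𝔏 : Ideal (𝓞 M)) (τ : M ≃ₐ[ℚ] M), 𝔏.IsPrime → (ℓ : 𝓞 M) ∈ 𝔏 →
    (∀ x : 𝓞 M, τ • x - x ^ ℓ ∈ 𝔏) → τ ∈ S

section Count

variable {M : Type} [Field M] [NumberField M] [IsGalois ℚ M] {q : ℕ} [Fact q.Prime] {ζ : M}

/-- Every prime number has a Frobenius element at some prime of `M` above it. -/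
theorem exists_frob {ℓ : ℕ} (hℓ : ℓ.Prime) :
    ∃ (𝔏 : Ideal (𝓞 M)) (τ : M ≃ₐ[ℚ] M), 𝔏.IsPrime ∧ (ℓ : 𝓞 M) ∈ 𝔏 ∧
      ∀ x : 𝓞 M, τ • x - x ^ ℓ ∈ 𝔏 := by
  classical
  have : Fact ℓ.Prime := ⟨hℓ⟩
  obtain ⟨𝔏, -, h𝔏p, h𝔏⟩ := Ideal.exists_ideal_over_prime_of_isIntegral
    (Ideal.span {(ℓ : ℤ)}) (⊥ : Ideal (𝓞 M))
    (le_of_eq_of_le (Ideal.comap_bot_of_injective _
      (FaithfulSMul.algebraMap_injective ℤ (𝓞 M))) bot_le)
  have hmem : (ℓ : 𝓞 M) ∈ 𝔏 := by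
    have h1 : (ℓ : ℤ) ∈ 𝔏.comap (algebraMap ℤ (𝓞 M)) := h𝔏 ▸ Ideal.mem_span_singleton_self _
    simpa using h1
  have h𝔏bot : 𝔏 ≠ ⊥ := fun h => by
    rw [h, Ideal.mem_bot] at hmem
    exact hℓ.ne_zero (by exact_mod_cast hmem)
  have : Finite (𝓞 M ⧸ 𝔏) := Ideal.finiteQuotientOfFreeOfNeBot 𝔏 h𝔏bot
  obtain ⟨τ, hτA⟩ := IsArithFrobAt.exists_of_isInvariant ℤ (M ≃ₐ[ℚ] M) 𝔏
  exact ⟨𝔏, τ, h𝔏p, hmem, (isArithFrobAt_iff hℓ 𝔏 hmem τ).mp hτA⟩

/-- Outside the bad set, if one Frobenius over `ℓ` lies in the conjugation-stable set `S`, all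
of them do. -/
theorem frobIn_of_mem {S : Set (M ≃ₐ[ℚ] M)} (hS : ∀ g t : M ≃ₐ[ℚ] M, t ∈ S → g * t * g⁻¹ ∈ S)
    {ℓ : ℕ} (hℓ : ℓ.Prime) (hbad : ℓ ∉ badSet (thetaL M)) (𝔏 : Ideal (𝓞 M)) [𝔏.IsPrime]
    (hmem : (ℓ : 𝓞 M) ∈ 𝔏) (τ : M ≃ₐ[ℚ] M) (hτ : ∀ x : 𝓞 M, τ • x - x ^ ℓ ∈ 𝔏) (hτS : τ ∈ S) :
    FrobIn M S ℓ := by
  intro 𝔏' τ' h𝔏' hmem' hτ'
  have hunder : 𝔏.under ℤ = 𝔏'.under ℤ := by
    rw [under_int_eq_span hℓ 𝔏 Ideal.IsPrime.ne_top' hmem,
      under_int_eq_span hℓ 𝔏' Ideal.IsPrime.ne_top' hmem']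
  obtain ⟨g, hg⟩ := Algebra.IsInvariant.exists_smul_of_under_eq ℤ (𝓞 M) (M ≃ₐ[ℚ] M) 𝔏 𝔏' hunder
  have hF : IsArithFrobAt ℤ τ 𝔏 := (isArithFrobAt_iff hℓ 𝔏 hmem τ).mpr hτ
  have hmem2 : (ℓ : 𝓞 M) ∈ g • 𝔏 := natCast_mem_smul 𝔏 hmem g
  have hF' := (isArithFrobAt_iff hℓ (g • 𝔏) hmem2 _).mp (hF.conj g)
  have hτ'2 : ∀ x : 𝓞 M, τ' • x - x ^ ℓ ∈ g • 𝔏 := hg ▸ hτ'
  have := frob_unique hℓ hbad (g • 𝔏) hmem2 hF' hτ'2
  rw [this]
  exact hS g τ hτS

/-- **Per-prime count.**  Let `γ` be good (`ord (res γ) = ord γ`), `F` the fixed field of `⟨γ⟩`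
and `ℓ ≡ (res γ)^{±1} mod q` a prime outside the bad sets.  Then
`ord γ * #{primes of F of norm ℓ} * |S| = [Frob_ℓ ∈ S] * |Gal(M/ℚ)| * #{γ, γ⁻¹}`, `S` the
symmetric class of `γ`. -/
theorem normCount_mul (hζ : IsPrimitiveRoot ζ q) (γ : M ≃ₐ[ℚ] M)
    (hgood : orderOf (res hζ γ) = orderOf γ) {ℓ : ℕ} (hℓ : ℓ.Prime) (hne : ℓ ≠ q)
    (hbadH : ℓ ∉ badSet (thetaH (Subgroup.zpowers γ))) (hbadL : ℓ ∉ badSet (thetaL M))
    (hres : ((ℓ : ℕ) : ZMod q) = ((res hζ γ : (ZMod q)ˣ) : ZMod q) ∨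
      ((ℓ : ℕ) : ZMod q) = (((res hζ γ)⁻¹ : (ZMod q)ˣ) : ZMod q)) :
    orderOf γ * normCount (fixF M (Subgroup.zpowers γ)) ℓ * Nat.card (symClass γ) =
      open scoped Classical in
      if FrobIn M (symClass γ) ℓ then Nat.card (M ≃ₐ[ℚ] M) * Nat.card ({γ, γ⁻¹} : Set (M ≃ₐ[ℚ] M))
      else 0 := by
  classical
  obtain ⟨𝔏, τ, h𝔏, hmem, hτ⟩ := exists_frob (M := M) hℓ
  have h1 := card_conj_mem (Subgroup.zpowers γ) hℓ hbadH 𝔏 hmem hτ
  have hτres := res_frob hζ hℓ hne 𝔏 hmem τ hτ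
  have h2 : Nat.card {g : M ≃ₐ[ℚ] M // g * τ * g⁻¹ ∈ Subgroup.zpowers γ} =
      Nat.card {g : M ≃ₐ[ℚ] M // g * τ * g⁻¹ = γ ∨ g * τ * g⁻¹ = γ⁻¹} := by
    refine Nat.card_congr (Equiv.subtypeEquivRight fun g => ?_)
    constructor
    · intro ht
      have hrt : res hζ (g * τ * g⁻¹) = res hζ τ := by
        rw [map_mul, map_mul, map_inv, mul_comm (res hζ g), mul_assoc, mul_inv_cancel, mul_one]
      rcases hres with h | h
      · left
        refine eq_of_mem_zpowers_of_map_eq (res hζ) hgood ht (Subgroup.mem_zpowers γ) ?_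
        rw [hrt]
        exact Units.ext (by rw [hτres, h])
      · right
        refine eq_of_mem_zpowers_of_map_eq (res hζ) hgood ht
          (Subgroup.inv_mem _ (Subgroup.mem_zpowers γ)) ?_
        rw [hrt, map_inv]
        exact Units.ext (by rw [hτres, h])
    · rintro (h | h)
      · rw [h]; exact Subgroup.mem_zpowers γ
      · rw [h]; exact Subgroup.inv_mem _ (Subgroup.mem_zpowers γ)
  have h3 := card_conj_mem_pair_mul γ τ
  have hiff : FrobIn M (symClass γ) ℓ ↔ τ ∈ symClass γ :=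
    ⟨fun h => h 𝔏 τ h𝔏 hmem hτ,
      fun h => frobIn_of_mem (fun g t ht => conj_mem_symClass ht g) hℓ hbadL 𝔏 hmem τ hτ h⟩
  have hcardH : Nat.card (Subgroup.zpowers γ) = orderOf γ := Nat.card_zpowers γ
  have hnc : normCount (fixF M (Subgroup.zpowers γ)) ℓ =
      Nat.card {I : Ideal (𝓞 (fixF M (Subgroup.zpowers γ))) // Ideal.absNorm I = ℓ} := rfl
  rw [hnc, ← hcardH, ← h1, h2, h3]
  simp only [hiff]

end Count

/-! ### The cyclotomic tower `M = E(ζ_q)` over a Galois number field `E` -/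

section Tower

open Polynomial

variable (E : Type) [Field E] [NumberField E] [IsGalois ℚ E] (q : ℕ) [Fact q.Prime]

/-- `E(ζ_q)` is Galois over `ℚ`. -/
theorem isGalois_cyclotomicField : IsGalois ℚ (CyclotomicField q E) := by
  obtain ⟨p, hsep, hp⟩ := IsGalois.is_separable_splitting_field ℚ E
  have hp0 : p ≠ 0 := hsep.ne_zero
  have hc0 : cyclotomic q ℚ ≠ 0 := cyclotomic_ne_zero q ℚ
  have h2 : IsSplittingField E (CyclotomicField q E) ((cyclotomic q ℚ).map (algebraMap ℚ E)) := by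
    rw [map_cyclotomic]
    exact IsCyclotomicExtension.splitting_field_cyclotomic q E (CyclotomicField q E)
  have h3 : IsSplittingField ℚ (CyclotomicField q E) (p * cyclotomic q ℚ) :=
    IsSplittingField.mul (K := E) (CyclotomicField q E) p (cyclotomic q ℚ) hp0 hc0
  have : Normal ℚ (CyclotomicField q E) := Normal.of_isSplittingField (p * cyclotomic q ℚ)
  exact ⟨⟩

/-- The chosen primitive `q`-th root of unity of `E(ζ_q)`. -/
noncomputable def zetaM : CyclotomicField q E :=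
  IsCyclotomicExtension.zeta q E (CyclotomicField q E)

theorem zetaM_spec : IsPrimitiveRoot (zetaM E q) q :=
  IsCyclotomicExtension.zeta_spec q E (CyclotomicField q E)

/-- Restriction `Gal(E(ζ_q)/ℚ) → Gal(E/ℚ)`. -/
noncomputable def piHom :
    (CyclotomicField q E ≃ₐ[ℚ] CyclotomicField q E) →* (E ≃ₐ[ℚ] E) :=
  AlgEquiv.restrictNormalHom (F := ℚ) (K₁ := CyclotomicField q E) E

theorem piHom_surjective : Function.Surjective (piHom E q) := by
  have := isGalois_cyclotomicField E q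
  exact AlgEquiv.restrictNormalHom_surjective (CyclotomicField q E)

theorem algebraMap_piHom (g : CyclotomicField q E ≃ₐ[ℚ] CyclotomicField q E) (x : E) :
    algebraMap E (CyclotomicField q E) (piHom E q g x) =
      g (algebraMap E (CyclotomicField q E) x) :=
  AlgEquiv.restrictNormal_commutes g E x

/-- The cyclotomic character of `Gal(E(ζ_q)/ℚ)` is onto `(ℤ/q)ˣ`. -/
theorem res_surjective : Function.Surjective (res (zetaM_spec E q)) := by
  have := isGalois_cyclotomicField E q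
  intro a
  have hqp : q.Prime := Fact.out
  have hζ := zetaM_spec E q
  have hprim : IsPrimitiveRoot (zetaM E q ^ (a : ZMod q).val) q :=
    hζ.pow_of_coprime _ (ZMod.val_coe_unit_coprime a)
  have hroot : aeval (zetaM E q ^ (a : ZMod q).val) (minpoly ℚ (zetaM E q)) = 0 := by
    rw [← cyclotomic_eq_minpoly_rat hζ hqp.pos, aeval_def, ← eval_map, map_cyclotomic]
    exact hprim.isRoot_cyclotomic hqp.pos
  obtain ⟨σ, hσ⟩ := minpoly.exists_algEquiv_of_root'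
    (Algebra.IsAlgebraic.isAlgebraic (zetaM E q)) hroot
  refine ⟨σ, Units.ext ?_⟩
  have e1 := hζ.autToPow_spec ℚ σ
  rw [hσ] at e1
  exact ZMod.val_injective q (hζ.pow_inj (ZMod.val_lt _) (ZMod.val_lt _) e1)

/-- `(π, res)` is injective on `Gal(E(ζ_q)/ℚ)`. -/
theorem eq_one_of_piHom_of_res (g : CyclotomicField q E ≃ₐ[ℚ] CyclotomicField q E)
    (h1 : piHom E q g = 1) (h2 : res (zetaM_spec E q) g = 1) : g = 1 := by
  have hζ := zetaM_spec E q
  have hfix : ∀ x : E,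
      g (algebraMap E (CyclotomicField q E) x) = algebraMap E (CyclotomicField q E) x := by
    intro x
    rw [← algebraMap_piHom, h1]
    rfl
  let gE : CyclotomicField q E ≃ₐ[E] CyclotomicField q E := { g with commutes' := hfix }
  have hgE : hζ.autToPow E gE = 1 := by
    apply Units.ext
    have e1 := hζ.autToPow_spec E gE
    have e2 := hζ.autToPow_spec ℚ g
    have h2' : hζ.autToPow ℚ g = 1 := h2
    rw [h2'] at e2
    have e3 : gE (zetaM E q) = g (zetaM E q) := rfl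
    rw [e3, ← e2] at e1
    exact ZMod.val_injective q (hζ.pow_inj (ZMod.val_lt _) (ZMod.val_lt _) e1)
  have hgE1 : gE = 1 := hζ.autToPow_injective (K := E) (by rw [hgE, map_one])
  ext x
  exact congrArg (fun f : CyclotomicField q E ≃ₐ[E] CyclotomicField q E => f x) hgE1

/-- The restriction of a Frobenius of `E(ζ_q)` is a Frobenius of `E`. -/
theorem piHom_frob (𝔏 : Ideal (𝓞 (CyclotomicField q E)))
    (τ : CyclotomicField q E ≃ₐ[ℚ] CyclotomicField q E) (n : ℕ)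
    (hτ : ∀ x : 𝓞 (CyclotomicField q E), τ • x - x ^ n ∈ 𝔏) (y : 𝓞 E) :
    piHom E q τ • y - y ^ n ∈ 𝔏.comap (algebraMap (𝓞 E) (𝓞 (CyclotomicField q E))) := by
  rw [Ideal.mem_comap, map_sub, map_pow]
  have h1 : algebraMap (𝓞 E) (𝓞 (CyclotomicField q E)) (piHom E q τ • y) =
      τ • algebraMap (𝓞 E) (𝓞 (CyclotomicField q E)) y := by
    apply RingOfIntegers.ext
    exact algebraMap_piHom E q τ (y : E)
  rw [h1]
  exact hτ _

/-- Descent of the Frobenius condition from `E(ζ_q)` to `E`. -/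
theorem frobIn_of_frobIn_cyclotomicField
    (S : Set (CyclotomicField q E ≃ₐ[ℚ] CyclotomicField q E)) (X : Set (E ≃ₐ[ℚ] E))
    (hSX : ∀ γ ∈ S, piHom E q γ ∈ X) (hX : ∀ g t : E ≃ₐ[ℚ] E, t ∈ X → g * t * g⁻¹ ∈ X)
    {ℓ : ℕ} (hℓ : ℓ.Prime) (hbad : ℓ ∉ badSet (thetaL E))
    (h : FrobIn (CyclotomicField q E) S ℓ) : FrobIn E X ℓ := by
  have := isGalois_cyclotomicField E q
  obtain ⟨𝔏, τ, h𝔏, hmem, hτ⟩ := exists_frob (M := CyclotomicField q E) hℓ
  have hτS : τ ∈ S := h 𝔏 τ h𝔏 hmem hτ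
  have hp : (𝔏.comap (algebraMap (𝓞 E) (𝓞 (CyclotomicField q E)))).IsPrime :=
    Ideal.comap_isPrime _ _
  have hmem' : (ℓ : 𝓞 E) ∈ 𝔏.comap (algebraMap (𝓞 E) (𝓞 (CyclotomicField q E))) := by
    rw [Ideal.mem_comap, map_natCast]
    exact hmem
  exact frobIn_of_mem hX hℓ hbad _ hmem' (piHom E q τ) (piHom_frob E q 𝔏 τ ℓ hτ) (hSX τ hτS)

end Tower

end Fermat.Agent.S48.helper9846
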