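import Fermat.Agent.S48.helper1398_ChebSpec
import Fermat.Agent.S48.helper9846_ChebCross

/-!
# S48 / F5, SEAM 2: `Stmt_SymNormRes → Stmt_PairNF`, and `Stmt_FrobClass` (helper9846)

Against the interface of `helper1398_ChebSpec.lean`:

* `stmt_FrobClass : Stmt_FrobClass`;
* `stmt_PairNF (h1 : Stmt_SymNormRes) : Stmt_PairNF`.

Route for Seam 2: `M = E(ζ_q)`, `Δ` = image of `Gal(M/ℚ)` under (restriction, cyclotomic
character).  For a good `γ ↦ (σ, a)` (i.e. `4 * ord σ ∣ ord a`), `H = ⟨γ⟩`, `F = M^H`: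
the squares of the norm residues of `F` are `⟨a²⟩` (`sqNormRes_eq`), the hypothesis of
Seam 1 (ii) comes from the zeta asymptotics of the fixed field of `γ^(t/2) = (1,-1)`
(`exists_lower_sqInd_one`), and the degree-one primes of `F` with `ℓ² ≡ a^(±2)` are compared
prime by prime with the Frobenius condition in `E` (`normCount_mul_le`).
-/

set_option autoImplicit false
set_option maxHeartbeats 400000
set_option linter.unusedSectionVars false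

namespace Fermat.Agent.S48.helper9846

open NumberField
open scoped Pointwise
open Fermat.Agent.Lib.helper74 Fermat.Agent.S29.helper141 Fermat.Agent.S48.helper1398

/-! ### `Stmt_FrobClass` -/

/-- Outside `badSet (thetaL E)`, the Frobenius elements over `ℓ` form one conjugacy class. -/
theorem stmt_FrobClass : Stmt_FrobClass := by
  intro E _ _ _
  refine ⟨badSet (thetaL E), ?_⟩
  rintro ℓ hℓ hbad σ τ ⟨𝔏, h𝔏, hmem, hσ⟩ ⟨𝔏', h𝔏', hmem', hτ⟩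
  have hunder : 𝔏.under ℤ = 𝔏'.under ℤ := by
    rw [under_int_eq_span hℓ 𝔏 Ideal.IsPrime.ne_top' hmem,
      under_int_eq_span hℓ 𝔏' Ideal.IsPrime.ne_top' hmem']
  obtain ⟨g, hg⟩ := Algebra.IsInvariant.exists_smul_of_under_eq ℤ (𝓞 E) (E ≃ₐ[ℚ] E) 𝔏 𝔏' hunder
  have hF : IsArithFrobAt ℤ σ 𝔏 := (isArithFrobAt_iff hℓ 𝔏 hmem σ).mpr hσ
  have hmem2 : (ℓ : 𝓞 E) ∈ g • 𝔏 := natCast_mem_smul 𝔏 hmem g
  have hF' := (isArithFrobAt_iff hℓ (g • 𝔏) hmem2 _).mp (hF.conj g)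
  have hτ2 : ∀ x : 𝓞 E, τ • x - x ^ ℓ ∈ g • 𝔏 := hg ▸ hτ
  have := frob_unique hℓ hbad (g • 𝔏) hmem2 hF' hτ2
  exact isConj_iff.mpr ⟨g, this.symm⟩

/-! ### A conjugation count through a surjection -/

section GroupCount

variable {Γ G : Type*} [Group Γ] [Group G] [Finite Γ] [Finite G]

open scoped Classical in
/-- For a surjection `π : Γ → G`: `#{g ∈ Γ | π g * τ * (π g)⁻¹ = σ} * |cl σ| = [τ ~ σ] * |Γ|`. -/
theorem card_conj_eq_mul (π : Γ →* G) (hπ : Function.Surjective π) (σ τ : G) :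
    Nat.card {g : Γ // π g * τ * (π g)⁻¹ = σ} * Nat.card {τ' : G // IsConj σ τ'} =
      if IsConj σ τ then Nat.card Γ else 0 := by
  classical
  have : Fintype Γ := Fintype.ofFinite Γ
  have : Fintype G := Fintype.ofFinite G
  let f : G → ℕ := fun t => (Finset.univ.filter fun g : Γ => π g * t * (π g)⁻¹ = σ).card
  have hf : ∀ t, Nat.card {g : Γ // π g * t * (π g)⁻¹ = σ} = f t := by
    intro t
    rw [Nat.card_eq_fintype_card, Fintype.card_subtype]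
  have hconj : ∀ t x : G, f (x * t * x⁻¹) = f t := by
    intro t x
    obtain ⟨u, rfl⟩ := hπ x
    refine Finset.card_bij (fun g _ => g * u) ?_ ?_ ?_
    · intro g hg
      have hg' := (Finset.mem_filter.mp hg).2
      refine Finset.mem_filter.mpr ⟨Finset.mem_univ _, ?_⟩
      rw [map_mul, ← hg']
      group
    · intro g _ g' _ h
      exact mul_right_cancel h
    · intro g hg
      have hg' := (Finset.mem_filter.mp hg).2
      refine ⟨g * u⁻¹, Finset.mem_filter.mpr ⟨Finset.mem_univ _, ?_⟩, by group⟩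
      rw [map_mul, map_inv, ← hg']
      group
  have hzero : ∀ t, ¬ IsConj σ t → f t = 0 := by
    intro t ht
    rw [Finset.card_eq_zero, Finset.filter_eq_empty_iff]
    intro g _ hg
    exact ht (isConj_iff.mpr ⟨π g, hg⟩).symm
  have hconst : ∀ t, IsConj σ t → f t = f σ := by
    intro t ht
    obtain ⟨x, hx⟩ := isConj_iff.mp ht
    rw [← hx, hconj]
  have hsum : ∑ t : G, f t = Fintype.card Γ := by
    have h1 : ∀ t : G, f t = ∑ g : Γ, if π g * t * (π g)⁻¹ = σ then 1 else 0 := by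
      intro t
      simp only [f, Finset.card_filter]
    simp_rw [h1]
    rw [Finset.sum_comm]
    have h2 : ∀ g : Γ, (∑ t : G, if π g * t * (π g)⁻¹ = σ then 1 else 0) = 1 := by
      intro g
      rw [Finset.sum_eq_single ((π g)⁻¹ * σ * π g)]
      · rw [if_pos (by group)]
      · intro t _ ht
        rw [if_neg]
        intro h
        apply ht
        rw [← h]
        group
      · intro h
        exact absurd (Finset.mem_univ _) h
    simp_rw [h2]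
    rw [Finset.sum_const, Finset.card_univ, smul_eq_mul, mul_one]
  have hcl : Nat.card {τ' : G // IsConj σ τ'} = (Finset.univ.filter fun t : G => IsConj σ t).card := by
    rw [Nat.card_eq_fintype_card, Fintype.card_subtype]
  have hsum' : ∑ t : G, f t = (Finset.univ.filter fun t : G => IsConj σ t).card * f σ := by
    rw [← Finset.sum_filter_add_sum_filter_not Finset.univ (fun t => IsConj σ t)]
    have h1 : ∑ t ∈ Finset.univ.filter (fun t => IsConj σ t), f t =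
        (Finset.univ.filter fun t : G => IsConj σ t).card * f σ := by
      rw [Finset.sum_congr rfl (fun t ht => hconst t (Finset.mem_filter.mp ht).2),
        Finset.sum_const, smul_eq_mul]
    have h2 : ∑ t ∈ Finset.univ.filter (fun t => ¬ IsConj σ t), f t = 0 :=
      Finset.sum_eq_zero fun t ht => hzero t (Finset.mem_filter.mp ht).2
    rw [h1, h2, add_zero]
  rw [hf, hcl]
  split_ifs with h
  · rw [hconst τ h, mul_comm, ← hsum', hsum, Nat.card_eq_fintype_card]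
  · rw [hzero τ h, zero_mul]

end GroupCount

/-! ### Sums over primes with a finite exceptional set -/

/-- If `f ≤ g` outside a finite set `T` of primes and `f ≤ D` on `T`, then
`∑' f ≤ ∑' g + |T| * D`. -/
theorem tsum_primes_le_add {f g : Nat.Primes → ℝ} (T : Finset ℕ) (D : ℝ)
    (hf : Summable f) (hg : Summable g) (hD : 0 ≤ D)
    (hfg : ∀ ℓ : Nat.Primes, (ℓ : ℕ) ∉ T → f ℓ ≤ g ℓ)
    (hfD : ∀ ℓ : Nat.Primes, (ℓ : ℕ) ∈ T → f ℓ ≤ g ℓ + D) :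
    ∑' ℓ, f ℓ ≤ ∑' ℓ, g ℓ + T.card * D := by
  classical
  set S : Finset Nat.Primes := T.subtype Nat.Prime with hS
  let h : Nat.Primes → ℝ := fun ℓ => if (ℓ : ℕ) ∈ T then D else 0
  have hh0 : ∀ ℓ ∉ S, h ℓ = 0 := by
    intro ℓ hℓ
    have : (ℓ : ℕ) ∉ T := fun hmem => hℓ (Finset.mem_subtype.mpr hmem)
    simp [h, this]
  have hhsum : Summable h := summable_of_ne_finset_zero hh0
  have hhtsum : ∑' ℓ, h ℓ ≤ T.card * D := by
    rw [tsum_eq_sum hh0]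
    have h1 : ∀ ℓ ∈ S, h ℓ = D := by
      intro ℓ hℓ
      have : (ℓ : ℕ) ∈ T := Finset.mem_subtype.mp hℓ
      simp [h, this]
    rw [Finset.sum_congr rfl h1, Finset.sum_const, nsmul_eq_mul]
    have hcard : S.card ≤ T.card := by
      refine Finset.card_le_card_of_injOn (fun ℓ : Nat.Primes => (ℓ : ℕ)) ?_ ?_
      · intro ℓ hℓ
        exact Finset.mem_coe.mpr (Finset.mem_subtype.mp (Finset.mem_coe.mp hℓ))
      · intro ℓ _ ℓ' _ h
        exact Subtype.ext h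
    exact mul_le_mul_of_nonneg_right (by exact_mod_cast hcard) hD
  have hle : ∀ ℓ, f ℓ ≤ g ℓ + h ℓ := by
    intro ℓ
    by_cases hℓ : (ℓ : ℕ) ∈ T
    · simpa [h, hℓ] using hfD ℓ hℓ
    · simpa [h, hℓ] using hfg ℓ hℓ
  calc ∑' ℓ, f ℓ ≤ ∑' ℓ, (g ℓ + h ℓ) := hf.tsum_le_tsum hle (hg.add hhsum)
    _ = ∑' ℓ, g ℓ + ∑' ℓ, h ℓ := hg.tsum_add hhsum
    _ ≤ ∑' ℓ, g ℓ + T.card * D := by linarith

/-- `ℓ^(-s) ≤ 1` for a prime `ℓ` and `s > 0`. -/
theorem prime_rpow_neg_le_one (ℓ : Nat.Primes) {s : ℝ} (hs : 0 < s) :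
    ((ℓ : ℕ) : ℝ) ^ (-s) ≤ 1 :=
  Real.rpow_le_one_of_one_le_of_nonpos (by exact_mod_cast ℓ.2.one_lt.le) (by linarith)

theorem prime_rpow_neg_nonneg (ℓ : Nat.Primes) (s : ℝ) : 0 ≤ ((ℓ : ℕ) : ℝ) ^ (-s) :=
  Real.rpow_nonneg (Nat.cast_nonneg _) _

/-! ### Units of `ZMod q` -/

section Units

variable {q : ℕ} [Fact q.Prime]

/-- An element of order `2` of `(ℤ/q)ˣ` is `-1`. -/
theorem units_eq_neg_one_of_orderOf_eq_two (x : (ZMod q)ˣ) (hx : orderOf x = 2) :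
    ((x : (ZMod q)ˣ) : ZMod q) = -1 := by
  have h1 : x ^ 2 = 1 := by rw [← hx]; exact pow_orderOf_eq_one x
  have h2 : ((x : (ZMod q)ˣ) : ZMod q) ^ 2 = 1 := by
    rw [← Units.val_pow_eq_pow_val, h1, Units.val_one]
  rcases sq_eq_one_iff.mp h2 with h | h
  · exfalso
    have : x = 1 := Units.ext (by rw [h, Units.val_one])
    rw [this, orderOf_one] at hx
    omega
  · exact h

/-- If `a` has even order `t`, then `a ^ (t / 2) = -1` in `(ℤ/q)ˣ`. -/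
theorem units_pow_half_orderOf (a : (ZMod q)ˣ) (h2 : 2 ∣ orderOf a) :
    (((a ^ (orderOf a / 2) : (ZMod q)ˣ)) : ZMod q) = -1 := by
  apply units_eq_neg_one_of_orderOf_eq_two
  have ht : 0 < orderOf a := orderOf_pos a
  obtain ⟨m, hm⟩ := h2
  have hm0 : 0 < m := by
    rcases Nat.eq_zero_or_pos m with h | h
    · rw [h, mul_zero] at hm; omega
    · exact h
  have hdiv : orderOf a / 2 = m := by rw [hm, Nat.mul_div_cancel_left _ (by norm_num)]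
  rw [hdiv, orderOf_pow' a hm0.ne', hm, Nat.gcd_mul_left_left, Nat.mul_div_cancel _ hm0]

end Units

/-! ### The per-prime inequality in `M = E(ζ_q)` -/

section PerPrime

variable (E : Type) [Field E] [NumberField E] [IsGalois ℚ E] (q : ℕ) [Fact q.Prime]

local notation "Mq" => CyclotomicField q E
local notation "κ" => res (zetaM_spec E q)
local notation "πE" => piHom E q

/-- A conjugate of a Frobenius of `M` restricting to `σ` shows that `σ` is a Frobenius of `E`. -/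
theorem isFrobNF_of_conj {ℓ : ℕ} (hℓ : ℓ.Prime) (𝔏 : Ideal (𝓞 Mq)) [𝔏.IsPrime]
    (hmem : (ℓ : 𝓞 Mq) ∈ 𝔏) (φ : Mq ≃ₐ[ℚ] Mq) (hφ : ∀ x : 𝓞 Mq, φ • x - x ^ ℓ ∈ 𝔏)
    (g : Mq ≃ₐ[ℚ] Mq) : IsFrobNF E ℓ (πE (g * φ * g⁻¹)) := by
  have := isGalois_cyclotomicField E q
  have hF : IsArithFrobAt ℤ φ 𝔏 := (isArithFrobAt_iff hℓ 𝔏 hmem φ).mpr hφ
  have hmem2 : (ℓ : 𝓞 Mq) ∈ g • 𝔏 := natCast_mem_smul 𝔏 hmem g
  have hF' := (isArithFrobAt_iff hℓ (g • 𝔏) hmem2 _).mp (hF.conj g)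
  refine ⟨(g • 𝔏).comap (algebraMap (𝓞 E) (𝓞 Mq)), Ideal.comap_isPrime _ _, ?_,
    piHom_frob E q (g • 𝔏) (g * φ * g⁻¹) ℓ hF'⟩
  rw [Ideal.mem_comap, map_natCast]
  exact hmem2

open scoped Classical in
/-- **Per-prime inequality.**  `H ≤ Gal(M/ℚ)` a subgroup on which `κ` is injective, containing
`γ` and `z` with `κ z = -1`, `π z = 1`; `ℓ² ≡ κ(γ)²` a prime outside the bad set.  Then
`|H| * #{primes of M^H of norm ℓ} * |cl (π γ)| ≤ [π γ is a Frobenius of E over ℓ] * |Gal(M/ℚ)|`. -/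
theorem normCount_mul_le (H : Subgroup (Mq ≃ₐ[ℚ] Mq)) (γ z : Mq ≃ₐ[ℚ] Mq) (hγ : γ ∈ H)
    (hz : z ∈ H) (hinj : ∀ x ∈ H, ∀ y ∈ H, κ x = κ y → x = y)
    (hκz : ((κ z : (ZMod q)ˣ) : ZMod q) = -1) (hπz : πE z = 1)
    {ℓ : ℕ} (hℓ : ℓ.Prime) (hne : ℓ ≠ q) (hbadH : ℓ ∉ badSet (thetaH H))
    (hsq : ((ℓ : ℕ) : ZMod q) ^ 2 = ((κ γ : (ZMod q)ˣ) : ZMod q) ^ 2) :
    Nat.card H * normCount (fixF Mq H) ℓ * Nat.card {τ' : E ≃ₐ[ℚ] E // IsConj (πE γ) τ'} ≤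
      if IsFrobNF E ℓ (πE γ) then Nat.card (Mq ≃ₐ[ℚ] Mq) else 0 := by
  have := isGalois_cyclotomicField E q
  obtain ⟨𝔏, φ, h𝔏, hmem, hφ⟩ := exists_frob (M := Mq) hℓ
  have h1 := card_conj_mem H hℓ hbadH 𝔏 hmem hφ
  have hφres := res_frob (zetaM_spec E q) hℓ hne 𝔏 hmem φ hφ
  -- the key implication
  have key : ∀ g : Mq ≃ₐ[ℚ] Mq, g * φ * g⁻¹ ∈ H → πE (g * φ * g⁻¹) = πE γ := by
    intro g hg
    have hrt : κ (g * φ * g⁻¹) = κ φ := by
      rw [map_mul, map_mul, map_inv, mul_comm (κ g), mul_assoc, mul_inv_cancel, mul_one]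
    have hsq' : ((κ (g * φ * g⁻¹) : (ZMod q)ˣ) : ZMod q) ^ 2 =
        ((κ γ : (ZMod q)ˣ) : ZMod q) ^ 2 := by
      rw [hrt, hφres, hsq]
    rcases sq_eq_sq_iff_eq_or_eq_neg.mp hsq' with h | h
    · have : g * φ * g⁻¹ = γ := hinj _ hg _ hγ (Units.ext h)
      rw [this]
    · have hγz : κ (g * φ * g⁻¹) = κ (γ * z) := by
        apply Units.ext
        rw [h, map_mul, Units.val_mul, hκz, mul_neg_one]
      have : g * φ * g⁻¹ = γ * z := hinj _ hg _ (H.mul_mem hγ hz) hγz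
      rw [this, map_mul, hπz, mul_one]
  have hnc : normCount (fixF Mq H) ℓ =
      Nat.card {I : Ideal (𝓞 (fixF Mq H)) // Ideal.absNorm I = ℓ} := rfl
  rw [hnc, ← h1]
  by_cases hne' : Nonempty {g : Mq ≃ₐ[ℚ] Mq // g * φ * g⁻¹ ∈ H}
  · obtain ⟨⟨g, hg⟩⟩ := hne'
    have hfrob : IsFrobNF E ℓ (πE γ) := by
      rw [← key g hg]
      exact isFrobNF_of_conj E q hℓ 𝔏 hmem φ hφ g
    rw [if_pos hfrob]
    have hle : Nat.card {g : Mq ≃ₐ[ℚ] Mq // g * φ * g⁻¹ ∈ H} ≤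
        Nat.card {g : Mq ≃ₐ[ℚ] Mq // πE g * πE φ * (πE g)⁻¹ = πE γ} := by
      refine Nat.card_le_card_of_injective
        (fun x => ⟨x.1, by
          have := key x.1 x.2
          rwa [map_mul, map_mul, map_inv] at this⟩) ?_
      intro x y hxy
      exact Subtype.ext (Subtype.mk.inj hxy)
    have hcount : Nat.card {g : Mq ≃ₐ[ℚ] Mq // πE g * πE φ * (πE g)⁻¹ = πE γ} *
        Nat.card {τ' : E ≃ₐ[ℚ] E // IsConj (πE γ) τ'} ≤ Nat.card (Mq ≃ₐ[ℚ] Mq) := by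
      rw [card_conj_eq_mul (πE) (piHom_surjective E q) (πE γ) (πE φ)]
      split_ifs <;> simp
    calc Nat.card {g : Mq ≃ₐ[ℚ] Mq // g * φ * g⁻¹ ∈ H} *
          Nat.card {τ' : E ≃ₐ[ℚ] E // IsConj (πE γ) τ'}
        ≤ Nat.card {g : Mq ≃ₐ[ℚ] Mq // πE g * πE φ * (πE g)⁻¹ = πE γ} *
          Nat.card {τ' : E ≃ₐ[ℚ] E // IsConj (πE γ) τ'} := Nat.mul_le_mul_right _ hle
      _ ≤ Nat.card (Mq ≃ₐ[ℚ] Mq) := hcount
  · rw [not_nonempty_iff] at hne'
    rw [Nat.card_of_isEmpty, zero_mul]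
    exact Nat.zero_le _

end PerPrime

/-! ### Good elements of `Gal(E(ζ_q)/ℚ)` -/

section Good

variable (E : Type) [Field E] [NumberField E] [IsGalois ℚ E] (q : ℕ) [Fact q.Prime]

local notation "Mq" => CyclotomicField q E
local notation "κ" => res (zetaM_spec E q)
local notation "πE" => piHom E q

theorem good_orderOf (γ : Mq ≃ₐ[ℚ] Mq) (h : orderOf (πE γ) ∣ orderOf (κ γ)) :
    orderOf (κ γ) = orderOf γ := by
  refine Nat.dvd_antisymm (orderOf_map_dvd _ γ) (orderOf_dvd_iff_pow_eq_one.mpr ?_)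
  apply eq_one_of_piHom_of_res E q
  · rw [map_pow]
    exact orderOf_dvd_iff_pow_eq_one.mp h
  · rw [map_pow, pow_orderOf_eq_one]

theorem good_z (γ : Mq ≃ₐ[ℚ] Mq) (h4 : 4 * orderOf (πE γ) ∣ orderOf (κ γ)) :
    ((κ (γ ^ (orderOf (κ γ) / 2)) : (ZMod q)ˣ) : ZMod q) = -1 ∧
      πE (γ ^ (orderOf (κ γ) / 2)) = 1 := by
  constructor
  · rw [map_pow]
    exact units_pow_half_orderOf (κ γ)
      ((dvd_mul_of_dvd_left (by norm_num : 2 ∣ 4) (orderOf (πE γ))).trans h4)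
  · rw [map_pow]
    apply orderOf_dvd_iff_pow_eq_one.mp
    obtain ⟨m, hm⟩ := h4
    have : orderOf (κ γ) / 2 = orderOf (πE γ) * (2 * m) := by
      rw [hm]
      have : 4 * orderOf (πE γ) * m = 2 * (orderOf (πE γ) * (2 * m)) := by ring
      rw [this, Nat.mul_div_cancel_left _ (by norm_num : 0 < 2)]
    rw [this]
    exact Dvd.intro _ rfl

/-- The squares of the norm residues of the fixed field of `⟨γ⟩` are exactly the powers of
`κ(γ)²`. -/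
theorem sqNormRes_eq (γ : Mq ≃ₐ[ℚ] Mq) :
    sqNormRes (fixF Mq (Subgroup.zpowers γ)) q =
      Units.val '' ((Subgroup.zpowers ((κ γ) ^ 2) : Subgroup (ZMod q)ˣ) : Set (ZMod q)ˣ) := by
  have := isGalois_cyclotomicField E q
  ext c
  constructor
  · rintro ⟨I, hcop, hc⟩
    have hu : IsUnit ((Ideal.absNorm I : ℕ) : ZMod q) := (ZMod.isUnit_iff_coprime _ _).mpr hcop
    obtain ⟨h, hh, e⟩ := exists_mem_res_eq_absNorm (zetaM_spec E q) (Subgroup.zpowers γ) I hu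
    obtain ⟨j, rfl⟩ := Subgroup.mem_zpowers_iff.mp hh
    refine ⟨((κ γ) ^ 2) ^ j, Subgroup.zpow_mem _ (Subgroup.mem_zpowers _) j, ?_⟩
    rw [← hc, ← e, map_zpow, ← Units.val_pow_eq_pow_val]
    congr 1
    rw [← zpow_natCast, ← zpow_natCast, ← zpow_mul, ← zpow_mul, mul_comm]
  · rintro ⟨u, hu, rfl⟩
    obtain ⟨n, rfl⟩ := (isOfFinOrder_of_finite ((κ γ) ^ 2)).mem_powers_iff_mem_zpowers.mpr hu
    obtain ⟨I0, hI0⟩ := exists_absNorm_eq_res (zetaM_spec E q) γ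
    have hcop : (Ideal.absNorm I0).Coprime q :=
      (ZMod.isUnit_iff_coprime _ _).mp (hI0 ▸ (κ γ).isUnit)
    refine ⟨I0 ^ n, ?_, ?_⟩
    · rw [map_pow]
      exact Nat.Coprime.pow_left n hcop
    · rw [map_pow, Nat.cast_pow, hI0, Units.val_pow_eq_pow_val, Units.val_pow_eq_pow_val]
      ring

theorem two_mul_ncard_sqNormRes (γ : Mq ≃ₐ[ℚ] Mq) (h2 : 2 ∣ orderOf (κ γ)) :
    2 * (sqNormRes (fixF Mq (Subgroup.zpowers γ)) q).ncard = orderOf (κ γ) := by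
  rw [sqNormRes_eq, Set.ncard_image_of_injective _ Units.val_injective]
  have h1 : ((Subgroup.zpowers ((κ γ) ^ 2) : Subgroup (ZMod q)ˣ) : Set (ZMod q)ˣ).ncard =
      Nat.card (Subgroup.zpowers ((κ γ) ^ 2)) := (Nat.card_coe_set_eq _).symm
  rw [h1, Nat.card_zpowers, orderOf_pow' _ (by norm_num : (2 : ℕ) ≠ 0), Nat.gcd_eq_right h2,
    Nat.mul_div_cancel' h2]

end Good

/-! ### Small general helpers -/

theorem orderOf_pow_half {G : Type*} [Group G] (a : G) (h0 : 0 < orderOf a)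
    (h2 : 2 ∣ orderOf a) : orderOf (a ^ (orderOf a / 2)) = 2 := by
  obtain ⟨m, hm⟩ := h2
  have hm0 : 0 < m := by
    rcases Nat.eq_zero_or_pos m with h | h
    · rw [h, mul_zero] at hm; omega
    · exact h
  have hdiv : orderOf a / 2 = m := by rw [hm, Nat.mul_div_cancel_left _ (by norm_num)]
  rw [hdiv, orderOf_pow' a hm0.ne', hm, Nat.gcd_mul_left_left, Nat.mul_div_cancel _ hm0]

theorem card_isConj_inv {G : Type*} [Group G] (σ : G) :
    Nat.card {τ : G // IsConj σ⁻¹ τ} = Nat.card {τ : G // IsConj σ τ} := by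
  refine Nat.card_congr ⟨fun x => ⟨x.1⁻¹, ?_⟩, fun x => ⟨x.1⁻¹, ?_⟩,
    fun x => Subtype.ext (inv_inv _), fun x => Subtype.ext (inv_inv _)⟩
  · obtain ⟨c, hc⟩ := isConj_iff.mp x.2
    exact isConj_iff.mpr ⟨c, by rw [← hc]; group⟩
  · obtain ⟨c, hc⟩ := isConj_iff.mp x.2
    exact isConj_iff.mpr ⟨c, by rw [← hc]; group⟩

theorem summable_weight_normCnt (F : Type) [Field F] [NumberField F] (w : ℕ → ℝ) (C : ℝ)
    (hw0 : ∀ n, 0 ≤ w n) (hwC : ∀ n, w n ≤ C) {s : ℝ} (hs : 1 < s) :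
    Summable (fun ℓ : Nat.Primes => w ℓ * (normCnt F ℓ : ℝ) * ((ℓ : ℕ) : ℝ) ^ (-s)) := by
  have h := (summable_normCount_and_tsum_eq F hs).1
  refine Summable.of_nonneg_of_le (fun ℓ => ?_) (fun ℓ => ?_) (h.mul_left C)
  · exact mul_nonneg (mul_nonneg (hw0 ℓ) (Nat.cast_nonneg _)) (prime_rpow_neg_nonneg ℓ s)
  · rw [mul_assoc]
    exact mul_le_mul_of_nonneg_right (hwC ℓ)
      (mul_nonneg (Nat.cast_nonneg _) (prime_rpow_neg_nonneg ℓ s))

theorem sqInd_nonneg (q : ℕ) (c : ZMod q) (n : ℕ) : 0 ≤ sqInd q c n := by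
  unfold sqInd
  split_ifs <;> norm_num

theorem sqInd_le_one (q : ℕ) (c : ZMod q) (n : ℕ) : sqInd q c n ≤ 1 := by
  unfold sqInd
  split_ifs <;> norm_num

/-- The summand of `frobResSum`, characterised without mentioning decidability instances. -/
theorem frobResSum_eq (E : Type) [Field E] [NumberField E] (T : Finset ℕ) (q : ℕ)
    (σ : E ≃ₐ[ℚ] E) (c : ZMod q) (s : ℝ) :
    ∃ f : Nat.Primes → ℝ, frobResSum E T q σ c s = ∑' ℓ, f ℓ ∧
      (∀ ℓ : Nat.Primes, ((ℓ : ℕ) ∉ T ∧ IsFrobNF E ℓ σ ∧ ((ℓ : ℕ) : ZMod q) ^ 2 = c) →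
        f ℓ = ((ℓ : ℕ) : ℝ) ^ (-s)) ∧
      (∀ ℓ : Nat.Primes, ¬ ((ℓ : ℕ) ∉ T ∧ IsFrobNF E ℓ σ ∧ ((ℓ : ℕ) : ZMod q) ^ 2 = c) →
        f ℓ = 0) :=
  ⟨_, rfl, fun _ h => if_pos h, fun _ h => if_neg h⟩

theorem ind_nonneg {f : Nat.Primes → ℝ} {P : Nat.Primes → Prop} {s : ℝ}
    (hpos : ∀ ℓ, P ℓ → f ℓ = ((ℓ : ℕ) : ℝ) ^ (-s)) (hneg : ∀ ℓ, ¬ P ℓ → f ℓ = 0)
    (ℓ : Nat.Primes) : 0 ≤ f ℓ := by
  by_cases h : P ℓ
  · rw [hpos ℓ h]; exact prime_rpow_neg_nonneg ℓ s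
  · rw [hneg ℓ h]

theorem summable_of_ind {f : Nat.Primes → ℝ} {P : Nat.Primes → Prop} {s : ℝ} (hs : 1 < s)
    (hpos : ∀ ℓ, P ℓ → f ℓ = ((ℓ : ℕ) : ℝ) ^ (-s)) (hneg : ∀ ℓ, ¬ P ℓ → f ℓ = 0) :
    Summable f := by
  refine Summable.of_nonneg_of_le (ind_nonneg hpos hneg) (fun ℓ => ?_)
    (Nat.Primes.summable_rpow.mpr (by linarith : -s < -1))
  by_cases h : P ℓ
  · rw [hpos ℓ h]
  · rw [hneg ℓ h]; exact prime_rpow_neg_nonneg ℓ s

/-! ### The hypothesis of Seam 1 (ii) for the fixed field of a good cyclic subgroup -/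

section Lower

variable (E : Type) [Field E] [NumberField E] [IsGalois ℚ E] (q : ℕ) [Fact q.Prime]

local notation "Mq" => CyclotomicField q E
local notation "κ" => res (zetaM_spec E q)
local notation "πE" => piHom E q

open scoped Classical in
/-- Comparison of the degree-one primes of the fixed fields of `Hz ≤ H`, when `κ² = 1` on
`Hz`. -/
theorem normCount_sub_le (H Hz : Subgroup (Mq ≃ₐ[ℚ] Mq)) (hle : Hz ≤ H)
    (hsq : ∀ x ∈ Hz, ((κ x : (ZMod q)ˣ) : ZMod q) ^ 2 = 1)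
    {ℓ : ℕ} (hℓ : ℓ.Prime) (hne : ℓ ≠ q) (hbadH : ℓ ∉ badSet (thetaH H))
    (hbadHz : ℓ ∉ badSet (thetaH Hz)) :
    Nat.card Hz * normCount (fixF Mq Hz) ℓ ≤
      if ((ℓ : ℕ) : ZMod q) ^ 2 = 1 then Nat.card H * normCount (fixF Mq H) ℓ else 0 := by
  have := isGalois_cyclotomicField E q
  obtain ⟨𝔏, φ, h𝔏, hmem, hφ⟩ := exists_frob (M := Mq) hℓ
  have h1 := card_conj_mem H hℓ hbadH 𝔏 hmem hφ
  have h2 := card_conj_mem Hz hℓ hbadHz 𝔏 hmem hφ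
  have hφres := res_frob (zetaM_spec E q) hℓ hne 𝔏 hmem φ hφ
  have hnc : ∀ K : Subgroup (Mq ≃ₐ[ℚ] Mq), normCount (fixF Mq K) ℓ =
      Nat.card {I : Ideal (𝓞 (fixF Mq K)) // Ideal.absNorm I = ℓ} := fun _ => rfl
  rw [hnc, hnc, ← h1, ← h2]
  split_ifs with h
  · exact Nat.card_le_card_of_injective (fun x => ⟨x.1, hle x.2⟩)
      (fun x y hxy => Subtype.ext (Subtype.mk.inj hxy))
  · have hempty : IsEmpty {g : Mq ≃ₐ[ℚ] Mq // g * φ * g⁻¹ ∈ Hz} := by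
      refine ⟨fun ⟨g, hg⟩ => h ?_⟩
      have hrt : κ (g * φ * g⁻¹) = κ φ := by
        rw [map_mul, map_mul, map_inv, mul_comm (κ g), mul_assoc, mul_inv_cancel, mul_one]
      rw [← hφres, ← hrt]
      exact hsq _ hg
    rw [Nat.card_of_isEmpty]

/-- The degree-one primes `ℓ² ≡ 1` of the fixed field `F` of a good `⟨γ⟩` have density at least
`1/|R|`: the hypothesis of Seam 1 (ii). -/
theorem exists_lower_sqInd_one (γ : Mq ≃ₐ[ℚ] Mq)
    (h4 : 4 * orderOf (πE γ) ∣ orderOf (κ γ)) :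
    ∃ B : ℝ, ∀ s : ℝ, 1 < s → s < 2 →
      logPole s - B ≤ ((sqNormRes (fixF Mq (Subgroup.zpowers γ)) q).ncard : ℝ) *
        degOneSum (fixF Mq (Subgroup.zpowers γ)) (sqInd q 1) s := by
  have := isGalois_cyclotomicField E q
  have hd1 : orderOf (πE γ) ∣ orderOf (κ γ) := (Dvd.intro_left 4 rfl).trans h4
  have h2t : 2 ∣ orderOf (κ γ) := (dvd_mul_of_dvd_left (by norm_num : 2 ∣ 4) _).trans h4
  have htγ : orderOf (κ γ) = orderOf γ := good_orderOf E q γ hd1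
  obtain ⟨hκz, -⟩ := good_z E q γ h4
  have hR : ((sqNormRes (fixF Mq (Subgroup.zpowers γ)) q).ncard : ℝ) = (orderOf γ : ℝ) / 2 := by
    have := two_mul_ncard_sqNormRes E q γ h2t
    rw [htγ] at this
    rw [eq_div_iff (by norm_num : (2 : ℝ) ≠ 0), mul_comm]
    exact_mod_cast this
  rw [htγ] at hκz h2t
  have ht0 : 0 < orderOf γ := orderOf_pos γ
  set t := orderOf γ with ht
  set z := γ ^ (t / 2) with hz
  set H := Subgroup.zpowers γ with hH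
  set Hz := Subgroup.zpowers z with hHz
  have hzH : Hz ≤ H := by
    rw [hHz, Subgroup.zpowers_le]
    exact Subgroup.pow_mem _ (Subgroup.mem_zpowers γ) _
  have hcardH : Nat.card H = t := Nat.card_zpowers γ
  have hcardHz : Nat.card Hz = 2 := by
    rw [hHz, Nat.card_zpowers, hz, ht]
    exact orderOf_pow_half γ ht0 h2t
  have hz2 : (κ z) ^ 2 = 1 := Units.ext (by rw [Units.val_pow_eq_pow_val, hκz, Units.val_one]; ring)
  have hsq : ∀ x ∈ Hz, ((κ x : (ZMod q)ˣ) : ZMod q) ^ 2 = 1 := by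
    intro x hx
    obtain ⟨j, rfl⟩ := Subgroup.mem_zpowers_iff.mp hx
    have : (κ (z ^ j)) ^ 2 = 1 := by
      rw [map_zpow, ← zpow_natCast, ← zpow_mul, mul_comm, zpow_mul, zpow_natCast, hz2, one_zpow]
    rw [← Units.val_pow_eq_pow_val, this, Units.val_one]
  obtain ⟨B0, hB0⟩ := normCount_asymp (fixF Mq Hz)
  set T1 : Finset ℕ := insert q (badSet (thetaH H) ∪ badSet (thetaH Hz)) with hT1
  set D : ℝ := ∑ n ∈ T1, (normCount (fixF Mq Hz) n : ℝ) with hD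
  have hD0 : 0 ≤ D := Finset.sum_nonneg fun n _ => Nat.cast_nonneg _
  refine ⟨B0 + T1.card * D, fun s hs hs2 => ?_⟩
  obtain ⟨hsum, habs⟩ := hB0 s hs hs2
  have hlow : logPole s - B0 ≤
      ∑' ℓ : Nat.Primes, (normCount (fixF Mq Hz) ℓ : ℝ) * ((ℓ : ℕ) : ℝ) ^ (-s) := by
    have := (abs_le.mp habs).1
    unfold logPole
    linarith
  have hper : ∀ ℓ : Nat.Primes, (ℓ : ℕ) ∉ T1 →
      (normCount (fixF Mq Hz) ℓ : ℝ) * ((ℓ : ℕ) : ℝ) ^ (-s) ≤
        (t : ℝ) / 2 * (sqInd q 1 ℓ * (normCnt (fixF Mq H) ℓ : ℝ) * ((ℓ : ℕ) : ℝ) ^ (-s)) := by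
    intro ℓ hℓ
    have hne : (ℓ : ℕ) ≠ q := fun h => hℓ (by rw [hT1, h]; exact Finset.mem_insert_self _ _)
    have hb1 : (ℓ : ℕ) ∉ badSet (thetaH H) := fun h =>
      hℓ (Finset.mem_insert_of_mem (Finset.mem_union_left _ h))
    have hb2 : (ℓ : ℕ) ∉ badSet (thetaH Hz) := fun h =>
      hℓ (Finset.mem_insert_of_mem (Finset.mem_union_right _ h))
    have hnat := normCount_sub_le E q H Hz hzH hsq ℓ.2 hne hb1 hb2
    rw [hcardH, hcardHz] at hnat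
    have hpow := prime_rpow_neg_nonneg ℓ s
    by_cases hc : (((ℓ : ℕ) : ZMod q)) ^ 2 = 1
    · rw [if_pos hc] at hnat
      have hreal : (2 : ℝ) * (normCount (fixF Mq Hz) ℓ : ℝ) ≤
          (t : ℝ) * (normCount (fixF Mq H) ℓ : ℝ) := by exact_mod_cast hnat
      have hs1 : sqInd q 1 ℓ = 1 := if_pos hc
      rw [hs1, one_mul]
      have h3 : (normCount (fixF Mq Hz) ℓ : ℝ) ≤ (t : ℝ) / 2 * (normCount (fixF Mq H) ℓ : ℝ) := by
        linarith
      calc (normCount (fixF Mq Hz) ℓ : ℝ) * ((ℓ : ℕ) : ℝ) ^ (-s)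
          ≤ ((t : ℝ) / 2 * (normCount (fixF Mq H) ℓ : ℝ)) * ((ℓ : ℕ) : ℝ) ^ (-s) :=
            mul_le_mul_of_nonneg_right h3 hpow
        _ = (t : ℝ) / 2 * ((normCnt (fixF Mq H) ℓ : ℝ) * ((ℓ : ℕ) : ℝ) ^ (-s)) := by
            rw [mul_assoc]; rfl
    · rw [if_neg hc] at hnat
      have h0 : normCount (fixF Mq Hz) ℓ = 0 := by omega
      have hs1 : sqInd q 1 ℓ = 0 := if_neg hc
      rw [h0, hs1]
      simp
  have hg0 : ∀ ℓ : Nat.Primes, 0 ≤ (t : ℝ) / 2 *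
      (sqInd q 1 ℓ * (normCnt (fixF Mq H) ℓ : ℝ) * ((ℓ : ℕ) : ℝ) ^ (-s)) := fun ℓ =>
    mul_nonneg (by positivity) (mul_nonneg (mul_nonneg (sqInd_nonneg q 1 ℓ) (Nat.cast_nonneg _))
      (prime_rpow_neg_nonneg ℓ s))
  have hperT : ∀ ℓ : Nat.Primes, (ℓ : ℕ) ∈ T1 →
      (normCount (fixF Mq Hz) ℓ : ℝ) * ((ℓ : ℕ) : ℝ) ^ (-s) ≤
        (t : ℝ) / 2 * (sqInd q 1 ℓ * (normCnt (fixF Mq H) ℓ : ℝ) * ((ℓ : ℕ) : ℝ) ^ (-s)) + D := by
    intro ℓ hℓ
    have h1 : (normCount (fixF Mq Hz) ℓ : ℝ) * ((ℓ : ℕ) : ℝ) ^ (-s) ≤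
        (normCount (fixF Mq Hz) ℓ : ℝ) :=
      mul_le_of_le_one_right (Nat.cast_nonneg _) (prime_rpow_neg_le_one ℓ (by linarith))
    have h2 : (normCount (fixF Mq Hz) ℓ : ℝ) ≤ D :=
      Finset.single_le_sum (f := fun n => (normCount (fixF Mq Hz) n : ℝ))
        (fun n _ => Nat.cast_nonneg _) hℓ
    linarith [hg0 ℓ]
  have hg : Summable fun ℓ : Nat.Primes => (t : ℝ) / 2 *
      (sqInd q 1 ℓ * (normCnt (fixF Mq H) ℓ : ℝ) * ((ℓ : ℕ) : ℝ) ^ (-s)) :=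
    (summable_weight_normCnt (fixF Mq H) (sqInd q 1) 1 (sqInd_nonneg q 1) (sqInd_le_one q 1)
      hs).mul_left _
  have hfin := tsum_primes_le_add T1 D hsum hg hD0 hper hperT
  rw [tsum_mul_left] at hfin
  rw [hR]
  have hdeg : degOneSum (fixF Mq H) (sqInd q 1) s = ∑' ℓ : Nat.Primes,
      sqInd q 1 ℓ * (normCnt (fixF Mq H) ℓ : ℝ) * ((ℓ : ℕ) : ℝ) ^ (-s) := rfl
  rw [hdeg]
  linarith

end Lower

/-! ### Seam 2 -/

section Main

variable (E : Type) [Field E] [NumberField E] [IsGalois ℚ E] (q : ℕ) [Fact q.Prime]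

local notation "Mq" => CyclotomicField q E
local notation "κ" => res (zetaM_spec E q)
local notation "πE" => piHom E q

/-- The pair bound for one good element `γ` of `Gal(E(ζ_q)/ℚ)`. -/
theorem pair_bound (h1 : Stmt_SymNormRes) (hq : q ≠ 2) (T : Finset ℕ) (γ : Mq ≃ₐ[ℚ] Mq)
    (h4 : 4 * orderOf (πE γ) ∣ orderOf (κ γ)) :
    ∃ B : ℝ, ∀ s : ℝ, 1 < s → s < 2 →
      4 * (Nat.card {τ : E ≃ₐ[ℚ] E // IsConj (πE γ) τ} : ℝ) /
          (Nat.card (Mq ≃ₐ[ℚ] Mq) : ℝ) * logPole s - B ≤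
        frobResSum E T q (πE γ) (((κ γ : (ZMod q)ˣ) : ZMod q) ^ 2) s +
          frobResSum E T q (πE γ)⁻¹ ((((κ γ)⁻¹ : (ZMod q)ˣ) : ZMod q) ^ 2) s := by
  have := isGalois_cyclotomicField E q
  have hd1 : orderOf (πE γ) ∣ orderOf (κ γ) := (Dvd.intro_left 4 rfl).trans h4
  have h2t : 2 ∣ orderOf (κ γ) := (dvd_mul_of_dvd_left (by norm_num : 2 ∣ 4) _).trans h4
  have htγ : orderOf (κ γ) = orderOf γ := good_orderOf E q γ hd1
  obtain ⟨hκz, hπz⟩ := good_z E q γ h4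
  obtain ⟨B0, hB0⟩ := exists_lower_sqInd_one E q γ h4
  have hR : ((sqNormRes (fixF Mq (Subgroup.zpowers γ)) q).ncard : ℝ) = (orderOf γ : ℝ) / 2 := by
    have := two_mul_ncard_sqNormRes E q γ h2t
    rw [htγ] at this
    rw [eq_div_iff (by norm_num : (2 : ℝ) ≠ 0), mul_comm]
    exact_mod_cast this
  have ht0 : 0 < orderOf γ := orderOf_pos γ
  set z := γ ^ (orderOf (κ γ) / 2) with hz
  set H := Subgroup.zpowers γ with hH
  have hγH : γ ∈ H := Subgroup.mem_zpowers γ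
  have hzH : z ∈ H := Subgroup.pow_mem _ hγH _
  have hinj : ∀ x ∈ H, ∀ y ∈ H, κ x = κ y → x = y := fun x hx y hy hxy =>
    eq_of_mem_zpowers_of_map_eq (κ) htγ hx hy hxy
  have hcardH : Nat.card H = orderOf γ := Nat.card_zpowers γ
  have hc : ((κ γ : (ZMod q)ˣ) : ZMod q) ^ 2 ∈ sqNormRes (fixF Mq H) q := by
    rw [sqNormRes_eq]
    exact ⟨(κ γ) ^ 2, Subgroup.mem_zpowers _, Units.val_pow_eq_pow_val _ _⟩
  obtain ⟨B1, hB1⟩ := (h1 (fixF Mq H) q hq).2 ⟨B0, hB0⟩ _ hc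
  have hcinv : (((κ γ : (ZMod q)ˣ) : ZMod q) ^ 2)⁻¹ = (((κ γ)⁻¹ : (ZMod q)ˣ) : ZMod q) ^ 2 := by
    rw [Units.val_inv_eq_inv_val, inv_pow]
  rw [hcinv] at hB1
  -- real constants
  set n : ℝ := (Nat.card (Mq ≃ₐ[ℚ] Mq) : ℝ) with hn
  set k : ℝ := (Nat.card {τ : E ≃ₐ[ℚ] E // IsConj (πE γ) τ} : ℝ) with hk
  set t : ℝ := (orderOf γ : ℝ) with ht
  have hn0 : 0 < n := by
    rw [hn]; exact_mod_cast Nat.card_pos
  have hkpos : 0 < Nat.card {τ : E ≃ₐ[ℚ] E // IsConj (πE γ) τ} := by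
    have : Nonempty {τ : E ≃ₐ[ℚ] E // IsConj (πE γ) τ} := ⟨⟨πE γ, IsConj.refl _⟩⟩
    exact Nat.card_pos
  have hk0 : 0 < k := by rw [hk]; exact_mod_cast hkpos
  have htpos : 0 < t := by rw [ht]; exact_mod_cast ht0
  set T2 : Finset ℕ := T ∪ insert q (badSet (thetaH H)) with hT2
  set D2 : ℝ := ∑ m ∈ T2, 2 * (normCnt (fixF Mq H) m : ℝ) with hD2
  have hD20 : 0 ≤ D2 := Finset.sum_nonneg fun m _ => by positivity
  refine ⟨t * k / n * (B1 + T2.card * D2), fun s hs hs2 => ?_⟩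
  obtain ⟨f1, hf1, hf1pos, hf1neg⟩ := frobResSum_eq E T q (πE γ)
    (((κ γ : (ZMod q)ˣ) : ZMod q) ^ 2) s
  obtain ⟨f2, hf2, hf2pos, hf2neg⟩ := frobResSum_eq E T q (πE γ)⁻¹
    ((((κ γ)⁻¹ : (ZMod q)ˣ) : ZMod q) ^ 2) s
  have hf1s : Summable f1 := summable_of_ind hs hf1pos hf1neg
  have hf2s : Summable f2 := summable_of_ind hs hf2pos hf2neg
  have hf10 := ind_nonneg hf1pos hf1neg
  have hf20 := ind_nonneg hf2pos hf2neg
  rw [hf1, hf2, ← hf1s.tsum_add hf2s]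
  -- the per-prime bounds
  have hA : ∀ ℓ : Nat.Primes, (ℓ : ℕ) ∉ T2 →
      sqInd q (((κ γ : (ZMod q)ˣ) : ZMod q) ^ 2) ℓ * (normCnt (fixF Mq H) ℓ : ℝ) *
        ((ℓ : ℕ) : ℝ) ^ (-s) ≤ n / (t * k) * f1 ℓ := by
    intro ℓ hℓ
    have hT : (ℓ : ℕ) ∉ T := fun h => hℓ (Finset.mem_union_left _ h)
    have hne : (ℓ : ℕ) ≠ q := fun h =>
      hℓ (Finset.mem_union_right _ (by rw [h]; exact Finset.mem_insert_self _ _))
    have hbad : (ℓ : ℕ) ∉ badSet (thetaH H) := fun h =>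
      hℓ (Finset.mem_union_right _ (Finset.mem_insert_of_mem h))
    have hpow := prime_rpow_neg_nonneg ℓ s
    have hrhs : 0 ≤ n / (t * k) * f1 ℓ := mul_nonneg (by positivity) (hf10 ℓ)
    by_cases hcℓ : (((ℓ : ℕ) : ZMod q)) ^ 2 = ((κ γ : (ZMod q)ˣ) : ZMod q) ^ 2
    · have hs1 : sqInd q (((κ γ : (ZMod q)ˣ) : ZMod q) ^ 2) ℓ = 1 := if_pos hcℓ
      rw [hs1, one_mul]
      have hnat := normCount_mul_le E q H γ z hγH hzH hinj hκz hπz ℓ.2 hne hbad hcℓ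
      rw [hcardH] at hnat
      by_cases hfr : IsFrobNF E ℓ (πE γ)
      · rw [if_pos hfr] at hnat
        rw [hf1pos ℓ ⟨hT, hfr, hcℓ⟩]
        have hreal : t * (normCnt (fixF Mq H) ℓ : ℝ) * k ≤ n := by
          rw [ht, hk, hn]; exact_mod_cast hnat
        have h3 : (normCnt (fixF Mq H) ℓ : ℝ) ≤ n / (t * k) := by
          rw [le_div_iff₀ (by positivity)]
          nlinarith
        exact mul_le_mul_of_nonneg_right h3 hpow
      · rw [if_neg hfr] at hnat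
        have h0 : normCnt (fixF Mq H) ℓ = 0 := by
          have h5 : orderOf γ * normCount (fixF Mq H) ℓ *
              Nat.card {τ : E ≃ₐ[ℚ] E // IsConj (πE γ) τ} = 0 := Nat.le_zero.mp hnat
          rcases Nat.mul_eq_zero.mp h5 with h6 | h6
          · rcases Nat.mul_eq_zero.mp h6 with h7 | h7
            · omega
            · exact h7
          · omega
        rw [h0]
        simpa using hrhs
    · have hs1 : sqInd q (((κ γ : (ZMod q)ˣ) : ZMod q) ^ 2) ℓ = 0 := if_neg hcℓ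
      rw [hs1]
      simpa using hrhs
  have hkinv : (Nat.card {τ : E ≃ₐ[ℚ] E // IsConj (πE γ)⁻¹ τ} : ℝ) = k := by
    rw [hk, card_isConj_inv]
  have hB : ∀ ℓ : Nat.Primes, (ℓ : ℕ) ∉ T2 →
      sqInd q ((((κ γ)⁻¹ : (ZMod q)ˣ) : ZMod q) ^ 2) ℓ * (normCnt (fixF Mq H) ℓ : ℝ) *
        ((ℓ : ℕ) : ℝ) ^ (-s) ≤ n / (t * k) * f2 ℓ := by
    intro ℓ hℓ
    have hT : (ℓ : ℕ) ∉ T := fun h => hℓ (Finset.mem_union_left _ h)
    have hne : (ℓ : ℕ) ≠ q := fun h =>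
      hℓ (Finset.mem_union_right _ (by rw [h]; exact Finset.mem_insert_self _ _))
    have hbad : (ℓ : ℕ) ∉ badSet (thetaH H) := fun h =>
      hℓ (Finset.mem_union_right _ (Finset.mem_insert_of_mem h))
    have hpow := prime_rpow_neg_nonneg ℓ s
    have hrhs : 0 ≤ n / (t * k) * f2 ℓ := mul_nonneg (by positivity) (hf20 ℓ)
    by_cases hcℓ : (((ℓ : ℕ) : ZMod q)) ^ 2 = (((κ γ)⁻¹ : (ZMod q)ˣ) : ZMod q) ^ 2
    · have hs1 : sqInd q ((((κ γ)⁻¹ : (ZMod q)ˣ) : ZMod q) ^ 2) ℓ = 1 := if_pos hcℓ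
      rw [hs1, one_mul]
      have hcℓ' : (((ℓ : ℕ) : ZMod q)) ^ 2 = ((κ γ⁻¹ : (ZMod q)ˣ) : ZMod q) ^ 2 := by
        rw [map_inv]; exact hcℓ
      have hnat := normCount_mul_le E q H γ⁻¹ z (H.inv_mem hγH) hzH hinj hκz hπz ℓ.2 hne hbad hcℓ'
      rw [hcardH] at hnat
      simp only [map_inv] at hnat
      by_cases hfr : IsFrobNF E ℓ (πE γ)⁻¹
      · have hfr' : IsFrobNF E ℓ (πE γ⁻¹) := by rw [map_inv]; exact hfr
        rw [if_pos hfr'] at hnat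
        rw [hf2pos ℓ ⟨hT, hfr, hcℓ⟩]
        have hreal : t * (normCnt (fixF Mq H) ℓ : ℝ) * k ≤ n := by
          rw [← hkinv, ht, hn]; exact_mod_cast hnat
        have h3 : (normCnt (fixF Mq H) ℓ : ℝ) ≤ n / (t * k) := by
          rw [le_div_iff₀ (by positivity)]
          nlinarith
        exact mul_le_mul_of_nonneg_right h3 hpow
      · have hfr' : ¬ IsFrobNF E ℓ (πE γ⁻¹) := by rw [map_inv]; exact hfr
        rw [if_neg hfr'] at hnat
        have hkpos' : 0 < Nat.card {τ : E ≃ₐ[ℚ] E // IsConj (πE γ)⁻¹ τ} := by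
          rw [card_isConj_inv]; exact hkpos
        have h0 : normCnt (fixF Mq H) ℓ = 0 := by
          have h5 : orderOf γ * normCount (fixF Mq H) ℓ *
              Nat.card {τ : E ≃ₐ[ℚ] E // IsConj (πE γ)⁻¹ τ} = 0 := Nat.le_zero.mp hnat
          rcases Nat.mul_eq_zero.mp h5 with h6 | h6
          · rcases Nat.mul_eq_zero.mp h6 with h7 | h7
            · omega
            · exact h7
          · omega
        rw [h0]
        simpa using hrhs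
    · have hs1 : sqInd q ((((κ γ)⁻¹ : (ZMod q)ˣ) : ZMod q) ^ 2) ℓ = 0 := if_neg hcℓ
      rw [hs1]
      simpa using hrhs
  -- assemble
  set w : ℕ → ℝ := fun m => sqInd q (((κ γ : (ZMod q)ˣ) : ZMod q) ^ 2) m +
    sqInd q ((((κ γ)⁻¹ : (ZMod q)ˣ) : ZMod q) ^ 2) m with hw
  have hw0 : ∀ m, 0 ≤ w m := fun m => add_nonneg (sqInd_nonneg _ _ _) (sqInd_nonneg _ _ _)
  have hw2 : ∀ m, w m ≤ 2 := fun m => by
    have := sqInd_le_one q (((κ γ : (ZMod q)ˣ) : ZMod q) ^ 2) m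
    have := sqInd_le_one q ((((κ γ)⁻¹ : (ZMod q)ˣ) : ZMod q) ^ 2) m
    show sqInd q _ m + sqInd q _ m ≤ 2
    linarith
  have hfs : Summable fun ℓ : Nat.Primes =>
      w ℓ * (normCnt (fixF Mq H) ℓ : ℝ) * ((ℓ : ℕ) : ℝ) ^ (-s) :=
    summable_weight_normCnt (fixF Mq H) w 2 hw0 hw2 hs
  have hgs : Summable fun ℓ : Nat.Primes => n / (t * k) * (f1 ℓ + f2 ℓ) :=
    (hf1s.add hf2s).mul_left _
  have hfg : ∀ ℓ : Nat.Primes, (ℓ : ℕ) ∉ T2 →
      w ℓ * (normCnt (fixF Mq H) ℓ : ℝ) * ((ℓ : ℕ) : ℝ) ^ (-s) ≤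
        n / (t * k) * (f1 ℓ + f2 ℓ) := by
    intro ℓ hℓ
    have ha := hA ℓ hℓ
    have hb := hB ℓ hℓ
    show (sqInd q _ ℓ + sqInd q _ ℓ) * _ * _ ≤ _
    rw [add_mul, add_mul, mul_add]
    exact add_le_add ha hb
  have hfD : ∀ ℓ : Nat.Primes, (ℓ : ℕ) ∈ T2 →
      w ℓ * (normCnt (fixF Mq H) ℓ : ℝ) * ((ℓ : ℕ) : ℝ) ^ (-s) ≤
        n / (t * k) * (f1 ℓ + f2 ℓ) + D2 := by
    intro ℓ hℓ
    have hrhs : 0 ≤ n / (t * k) * (f1 ℓ + f2 ℓ) :=
      mul_nonneg (by positivity) (add_nonneg (hf10 ℓ) (hf20 ℓ))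
    have hN0 : (0 : ℝ) ≤ (normCnt (fixF Mq H) ℓ : ℝ) := Nat.cast_nonneg _
    have h1' : w ℓ * (normCnt (fixF Mq H) ℓ : ℝ) * ((ℓ : ℕ) : ℝ) ^ (-s) ≤
        2 * (normCnt (fixF Mq H) ℓ : ℝ) := by
      calc w ℓ * (normCnt (fixF Mq H) ℓ : ℝ) * ((ℓ : ℕ) : ℝ) ^ (-s)
          ≤ w ℓ * (normCnt (fixF Mq H) ℓ : ℝ) :=
            mul_le_of_le_one_right (mul_nonneg (hw0 _) hN0)
              (prime_rpow_neg_le_one ℓ (by linarith))
        _ ≤ 2 * (normCnt (fixF Mq H) ℓ : ℝ) := mul_le_mul_of_nonneg_right (hw2 _) hN0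
    have h2' : 2 * (normCnt (fixF Mq H) ℓ : ℝ) ≤ D2 :=
      Finset.single_le_sum (f := fun m => 2 * (normCnt (fixF Mq H) m : ℝ))
        (fun m _ => by positivity) hℓ
    linarith
  have hfin := tsum_primes_le_add T2 D2 hfs hgs hD20 hfg hfD
  rw [tsum_mul_left] at hfin
  have hlow := hB1 s hs hs2
  rw [hR] at hlow
  have hdeg : degOneSum (fixF Mq H) (fun ℓ => sqInd q (((κ γ : (ZMod q)ˣ) : ZMod q) ^ 2) ℓ +
      sqInd q ((((κ γ)⁻¹ : (ZMod q)ˣ) : ZMod q) ^ 2) ℓ) s = ∑' ℓ : Nat.Primes,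
      w ℓ * (normCnt (fixF Mq H) ℓ : ℝ) * ((ℓ : ℕ) : ℝ) ^ (-s) := rfl
  rw [hdeg] at hlow
  set S : ℝ := ∑' ℓ : Nat.Primes, (f1 ℓ + f2 ℓ) with hS
  set L : ℝ := logPole s with hL
  have hK : 0 < t * k / n := by positivity
  have hmain : 2 / (t / 2) * L - B1 - T2.card * D2 ≤ n / (t * k) * S := by linarith
  have hmul := mul_le_mul_of_nonneg_left hmain hK.le
  have e1 : t * k / n * (n / (t * k) * S) = S := by field_simp
  have e2 : t * k / n * (2 / (t / 2) * L - B1 - T2.card * D2) =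
      4 * k / n * L - t * k / n * (B1 + T2.card * D2) := by
    field_simp
    ring
  rw [e1, e2] at hmul
  exact hmul

end Main

/-- **Seam 2.**  `Δ` is the image of `Gal(E(ζ_q)/ℚ)` in `Gal(E/ℚ) × (ℤ/q)ˣ`. -/
theorem stmt_PairNF (h1 : Stmt_SymNormRes) : Stmt_PairNF := by
  intro E _ _ _ q _ hq T
  have := isGalois_cyclotomicField E q
  let Φ : (CyclotomicField q E ≃ₐ[ℚ] CyclotomicField q E) →* (E ≃ₐ[ℚ] E) × (ZMod q)ˣ :=
    (piHom E q).prod (res (zetaM_spec E q))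
  have hΦinj : Function.Injective Φ := by
    rw [injective_iff_map_eq_one]
    intro g hg
    exact eq_one_of_piHom_of_res E q g (congrArg Prod.fst hg) (congrArg Prod.snd hg)
  have hcardΔ : Nat.card Φ.range = Nat.card (CyclotomicField q E ≃ₐ[ℚ] CyclotomicField q E) :=
    (Nat.card_congr (MonoidHom.ofInjective hΦinj).toEquiv).symm
  refine ⟨Φ.range, ?_, ?_, ?_⟩
  · intro σ
    obtain ⟨g, rfl⟩ := piHom_surjective E q σ
    exact ⟨res (zetaM_spec E q) g, g, rfl⟩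
  · rw [hcardΔ]
    have hle := Nat.card_le_card_of_surjective _ (res_surjective E q)
    rw [Nat.card_eq_fintype_card (α := (ZMod q)ˣ), ZMod.card_units] at hle
    exact hle
  · rintro σ a ⟨γ, hγ⟩ h4
    have hσ : piHom E q γ = σ := congrArg Prod.fst hγ
    have ha : res (zetaM_spec E q) γ = a := congrArg Prod.snd hγ
    subst hσ
    subst ha
    obtain ⟨B, hB⟩ := pair_bound E q h1 hq T γ h4
    refine ⟨B, fun s hs hs2 => ?_⟩
    rw [hcardΔ]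
    exact hB s hs hs2

end Fermat.Agent.S48.helper9846
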