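import Fermat.Agent.S48.helper1398_ChebAssembly
import Fermat.Agent.S48.helper4600_SymNormRes
import Fermat.Agent.S48.helper9846_PairNF
import Fermat.Agent.S48.helper9319_CrossAbs
import Fermat.Agent.S48.helper1550_ChebFinal

/-!
# S48 / F5 — the symmetric Chebotarev density theorem, unconditional (helper1398)

Final wiring of the three seams of `helper1398_ChebSpec.lean`:

* seam 1 `Stmt_SymNormRes` : `helper4600.stmt_SymNormRes`;
* seam 2 `Stmt_PairNF` and `Stmt_FrobClass` : `helper9846.stmt_PairNF`, `helper9846.stmt_FrobClass`;
* seam 3 `Stmt_CrossAbs` : `helper9319.stmt_CrossAbs`;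

through `chebSymNF_of` (`helper1398_ChebAssembly.lean`), and then the adapter of helper1550 to the
statement `Stmt_ChebDensity` of the S48 interface file `helper8231_Spec.lean`.
-/

set_option autoImplicit false

namespace Fermat.Agent.S48.helper1398

/-- **Symmetric Chebotarev density theorem, number-field form (ε-form).** -/
theorem stmt_ChebSymNF : Stmt_ChebSymNF :=
  chebSymNF_of (Fermat.Agent.S48.helper9846.stmt_PairNF Fermat.Agent.S48.helper4600.stmt_SymNormRes)
    Fermat.Agent.S48.helper9319.stmt_CrossAbs Fermat.Agent.S48.helper9846.stmt_FrobClass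

/-- **F5 of S48**: the Chebotarev density statement of the S48 interface file. -/
theorem stmt_ChebDensity : Fermat.Agent.S48.helper8231.Stmt_ChebDensity :=
  Fermat.Agent.S48.helper1550.stmt_ChebDensity_of_spec stmt_ChebSymNF

end Fermat.Agent.S48.helper1398
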