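import Fermat.Agent.S48.helper1398_ChebSpec

/-!
# S48 / F5 — sub-interfaces of seam 2 (`Stmt_PairNF`) (helper1398)

`Stmt_PairNF` is assembled (file `helper1398_ChebPair.lean`) from `Stmt_SymNormRes`, the landed
`Lib/helper74_GenChebCore` (`card_conj_mem`, `exists_frob_generator`) and
`S29/helper141_LinearZeta.normCount_asymp`, and the statements below:

* `Stmt_CycloField` : the Galois number field `M = E(ζ_q)` with the restriction `π` to `E` and the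
  cyclotomic character `κ`, in the only form the assembly uses: `π` onto, `(π, κ)` jointly
  injective, `q - 1 ≤ [M : ℚ]`, and a Frobenius element `τ` of `M` over `ℓ ≠ q` has `κ τ = ℓ`
  and restricts to a Frobenius element of `E` over `ℓ`.
* `Stmt_GrpConj`, `Stmt_GrpSqOne`, `Stmt_GrpOrder`, `Stmt_GrpSqImage`, `Stmt_GrpConjCard` : finite
  group lemmas about a "good" element `γ` (`4 * ord (π γ) ∣ ord (κ γ)`).
-/

set_option autoImplicit false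

namespace Fermat.Agent.S48.helper1398

open NumberField

/-- **(P1)+(P2) The cyclotomic Galois field.** -/
def Stmt_CycloField : Prop :=
  ∀ (E : Type) [Field E] [NumberField E] [IsGalois ℚ E] (q : ℕ) [Fact q.Prime],
    ∃ (M : Type) (_ : Field M) (_ : NumberField M) (_ : IsGalois ℚ M)
      (π : (M ≃ₐ[ℚ] M) →* (E ≃ₐ[ℚ] E)) (κ : (M ≃ₐ[ℚ] M) →* (ZMod q)ˣ),
      Function.Surjective π ∧ (∀ g, π g = 1 → κ g = 1 → g = 1) ∧
      q - 1 ≤ Nat.card (M ≃ₐ[ℚ] M) ∧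
      ∀ (ℓ : ℕ) (𝔏 : Ideal (𝓞 M)) (τ : M ≃ₐ[ℚ] M), ℓ.Prime → ℓ ≠ q → 𝔏.IsPrime →
        (ℓ : 𝓞 M) ∈ 𝔏 → (∀ x : 𝓞 M, τ • x - x ^ ℓ ∈ 𝔏) →
        ((κ τ : (ZMod q)ˣ) : ZMod q) = (ℓ : ZMod q) ∧ IsFrobNF E ℓ (π τ)

/-- **(G1)** For a good `γ` and `φ` with `κ(φ)² = κ(γ)²`: a conjugate of `φ` lies in `⟨γ⟩` iff its
image under `π` is `π γ`; hence the count. -/
def Stmt_GrpConj : Prop :=
  ∀ (Γ G : Type) [Group Γ] [Group G] [Finite Γ] (q : ℕ) [Fact q.Prime] (π : Γ →* G)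
    (κ : Γ →* (ZMod q)ˣ), Function.Surjective π → (∀ g, π g = 1 → κ g = 1 → g = 1) →
    ∀ γ φ : Γ, 4 * orderOf (π γ) ∣ orderOf (κ γ) →
      ((κ φ : (ZMod q)ˣ) : ZMod q) ^ 2 = ((κ γ : (ZMod q)ˣ) : ZMod q) ^ 2 →
      Nat.card {g : Γ // g * φ * g⁻¹ ∈ Subgroup.zpowers γ} =
        Nat.card π.ker * Nat.card {x : G // x * π φ * x⁻¹ = π γ}

/-- **(G2)** For a good `γ` (of order `t`) and `φ` with `κ(φ)² = 1`: a conjugate of `φ` lies in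
`⟨γ⟩` iff it lies in `⟨γ^(t/2)⟩`; if `κ(φ)² ≠ 1` no conjugate of `φ` lies in `⟨γ^(t/2)⟩`. -/
def Stmt_GrpSqOne : Prop :=
  ∀ (Γ G : Type) [Group Γ] [Group G] [Finite Γ] (q : ℕ) [Fact q.Prime] (π : Γ →* G)
    (κ : Γ →* (ZMod q)ˣ), (∀ g, π g = 1 → κ g = 1 → g = 1) →
    ∀ γ φ : Γ, 4 * orderOf (π γ) ∣ orderOf (κ γ) →
      (((κ φ : (ZMod q)ˣ) : ZMod q) ^ 2 = 1 →
        ∀ g : Γ, g * φ * g⁻¹ ∈ Subgroup.zpowers γ ↔
          g * φ * g⁻¹ ∈ Subgroup.zpowers (γ ^ (orderOf γ / 2))) ∧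
      (((κ φ : (ZMod q)ˣ) : ZMod q) ^ 2 ≠ 1 →
        ∀ g : Γ, g * φ * g⁻¹ ∉ Subgroup.zpowers (γ ^ (orderOf γ / 2)))

/-- **(G2a,b)** For a good `γ`: `ord γ = ord (κ γ)`, it is divisible by `4`, and `⟨γ^(t/2)⟩` has
two elements. -/
def Stmt_GrpOrder : Prop :=
  ∀ (Γ G : Type) [Group Γ] [Group G] [Finite Γ] (q : ℕ) [Fact q.Prime] (π : Γ →* G)
    (κ : Γ →* (ZMod q)ˣ), (∀ g, π g = 1 → κ g = 1 → g = 1) →
    ∀ γ : Γ, 4 * orderOf (π γ) ∣ orderOf (κ γ) →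
      orderOf γ = orderOf (κ γ) ∧ 4 ∣ orderOf γ ∧
        Nat.card (Subgroup.zpowers (γ ^ (orderOf γ / 2))) = 2

/-- **(G4)** For a good `γ` of order `t`, the squares `κ(h)²`, `h ∈ ⟨γ⟩`, are `t/2` in number. -/
def Stmt_GrpSqImage : Prop :=
  ∀ (Γ G : Type) [Group Γ] [Group G] [Finite Γ] (q : ℕ) [Fact q.Prime] (π : Γ →* G)
    (κ : Γ →* (ZMod q)ˣ), (∀ g, π g = 1 → κ g = 1 → g = 1) →
    ∀ γ : Γ, 4 * orderOf (π γ) ∣ orderOf (κ γ) →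
      2 * Set.ncard {c : ZMod q | ∃ h ∈ Subgroup.zpowers γ,
        ((κ h : (ZMod q)ˣ) : ZMod q) ^ 2 = c} = orderOf γ

/-- **(G3)** The number of `x` conjugating `ρ` to `σ`. -/
def Stmt_GrpConjCard : Prop :=
  ∀ (G : Type) [Group G] [Finite G] (ρ σ : G),
    (IsConj ρ σ →
      Nat.card {x : G // x * ρ * x⁻¹ = σ} * Nat.card {τ : G // IsConj σ τ} = Nat.card G) ∧
    (¬ IsConj ρ σ → Nat.card {x : G // x * ρ * x⁻¹ = σ} = 0)

end Fermat.Agent.S48.helper1398
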