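import Fermat.Agent.Lib.helper74_GenChebQbar

/-!
# S48 / F5 (Chebotarev density): the Frobenius adapter (helper1550)

The interface `Prop`s of F5 (inversion-symmetric Chebotarev lower bound, eps-form) and the bridge
from the ideal-theoretic vocabulary to the Prelude vocabulary of the frozen S48.

* `IsFrobNF E ℓ σ` : `σ ∈ Gal(E/ℚ)` is a Frobenius at some prime `𝔏 ∋ ℓ` of `𝓞 E`
  (`σ x ≡ x ^ ℓ mod 𝔏`; the vocabulary of the landed `Lib/helper74_GenChebCore`).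
* `Stmt_ChebSymNF` : the number-field form (final statement of the F5 chain, architecture of
  helper1398, S48 chat #193): for `X ⊆ Gal(E/ℚ)` stable under conjugation and inversion, `T` a
  finite set of primes and `ε > 0` there is `B` with
  `(#X / #G - ε) * log (1 / (s - 1)) - B ≤ ∑' ℓ prime, [ℓ ∉ T ∧ ∃ τ ∈ X, IsFrobNF E ℓ τ] ℓ ^ (-s)`
  on `(1, 2]`.
* `Stmt_ChebSymFin` : the same with a FINITE set `P` of good primes chosen for each `s` (no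
  infinite sum; the shape convenient for consumers).
* `Stmt_ChebSymQbar` : the finite-set form in the Prelude vocabulary: `E` a finite Galois level
  inside `ℚ̄`, and for `ℓ ∈ P` a valuation subring `A` of `ℚ̄` over `ℓ`
  (`ValuationSubring.LiesOverPrime`) and a Frobenius `σ` at `A` (`ValuationSubring.IsFrobeniusAt`)
  with `σ|E ∈ X`.
* `stmt_ChebSymFin_of_NF`, `stmt_ChebSymQbar_of_Fin`, `stmt_ChebSymQbar_of_NF` : the bridges,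
  all unconditional.
-/

set_option autoImplicit false

namespace Fermat.Agent.S48.helper1550

open NumberField

local notation "Qb" => AlgebraicClosure ℚ
local notation "GQ" => (AlgebraicClosure ℚ ≃ₐ[ℚ] AlgebraicClosure ℚ)

/-- `σ` is a Frobenius at some prime of `𝓞 E` containing `ℓ` (ideal-theoretic form). -/
def IsFrobNF (E : Type) [Field E] [NumberField E] (ℓ : ℕ) (σ : E ≃ₐ[ℚ] E) : Prop :=
  ∃ 𝔏 : Ideal (𝓞 E), 𝔏.IsPrime ∧ (ℓ : 𝓞 E) ∈ 𝔏 ∧ ∀ x : 𝓞 E, σ • x - x ^ ℓ ∈ 𝔏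

open Classical in
/-- **Symmetric Chebotarev lower bound, number-field form** (sum over all primes). -/
def Stmt_ChebSymNF : Prop :=
  ∀ (E : Type) [Field E] [NumberField E] [IsGalois ℚ E] (X : Set (E ≃ₐ[ℚ] E)),
    (∀ g x : E ≃ₐ[ℚ] E, x ∈ X → g * x * g⁻¹ ∈ X) → (∀ x ∈ X, x⁻¹ ∈ X) →
    ∀ (T : Finset ℕ) (ε : ℝ), 0 < ε → ∃ B : ℝ, ∀ s : ℝ, 1 < s → s ≤ 2 →
      ((Nat.card X : ℝ) / (Nat.card (E ≃ₐ[ℚ] E) : ℝ) - ε) * Real.log (1 / (s - 1)) - B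
        ≤ ∑' ℓ : Nat.Primes,
            if (ℓ : ℕ) ∉ T ∧ ∃ τ ∈ X, IsFrobNF E ℓ τ then ((ℓ : ℕ) : ℝ) ^ (-s) else 0

/-- **Symmetric Chebotarev lower bound, number-field form with finite sets of primes.** -/
def Stmt_ChebSymFin : Prop :=
  ∀ (E : Type) [Field E] [NumberField E] [IsGalois ℚ E] (X : Set (E ≃ₐ[ℚ] E)),
    (∀ g x : E ≃ₐ[ℚ] E, x ∈ X → g * x * g⁻¹ ∈ X) → (∀ x ∈ X, x⁻¹ ∈ X) →
    ∀ (T : Finset ℕ) (ε : ℝ), 0 < ε → ∃ B : ℝ, ∀ s : ℝ, 1 < s → s ≤ 2 →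
      ∃ P : Finset ℕ,
        (∀ ℓ ∈ P, ℓ.Prime ∧ ℓ ∉ T ∧ ∃ τ ∈ X, IsFrobNF E ℓ τ) ∧
        ((Nat.card X : ℝ) / (Nat.card (E ≃ₐ[ℚ] E) : ℝ) - ε) * Real.log (1 / (s - 1)) - B
          ≤ ∑ ℓ ∈ P, (ℓ : ℝ) ^ (-s)

/-- **Symmetric Chebotarev lower bound, Prelude (`ℚ̄`) form.** -/
def Stmt_ChebSymQbar : Prop :=
  ∀ (E : IntermediateField ℚ Qb) [FiniteDimensional ℚ E] [IsGalois ℚ E] (X : Set (E ≃ₐ[ℚ] E)),
    (∀ g x : E ≃ₐ[ℚ] E, x ∈ X → g * x * g⁻¹ ∈ X) → (∀ x ∈ X, x⁻¹ ∈ X) →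
    ∀ (T : Finset ℕ) (ε : ℝ), 0 < ε → ∃ B : ℝ, ∀ s : ℝ, 1 < s → s ≤ 2 →
      ∃ P : Finset ℕ,
        (∀ ℓ ∈ P, ℓ.Prime ∧ ℓ ∉ T ∧ ∃ (A : ValuationSubring Qb) (σ : GQ),
          A.LiesOverPrime ℓ ∧ A.IsFrobeniusAt σ ℓ ∧ σ.restrictNormal E ∈ X) ∧
        ((Nat.card X : ℝ) / (Nat.card (E ≃ₐ[ℚ] E) : ℝ) - ε) * Real.log (1 / (s - 1)) - B
          ≤ ∑ ℓ ∈ P, (ℓ : ℝ) ^ (-s)

/-! ### From the sum over all primes to finite sets of primes -/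

/-- A sum over the primes satisfying `Good` of `ℓ ^ (-s)`, `s > 1`, is approximated from below
up to `1` by the sum over a finite set of good primes. -/
theorem exists_finset_primes_of_le_tsum (Good : ℕ → Prop) [DecidablePred Good] {s c : ℝ}
    (hs : 1 < s)
    (hc : c ≤ ∑' ℓ : Nat.Primes, if Good ℓ then ((ℓ : ℕ) : ℝ) ^ (-s) else 0) :
    ∃ P : Finset ℕ, (∀ ℓ ∈ P, ℓ.Prime ∧ Good ℓ) ∧ c - 1 ≤ ∑ ℓ ∈ P, (ℓ : ℝ) ^ (-s) := by
  classical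
  set f : Nat.Primes → ℝ := fun ℓ => if Good ℓ then ((ℓ : ℕ) : ℝ) ^ (-s) else 0 with hf
  have hf0 : ∀ ℓ, 0 ≤ f ℓ := by
    intro ℓ
    simp only [hf]
    split_ifs
    · exact Real.rpow_nonneg (Nat.cast_nonneg _) _
    · exact le_rfl
  have hsum : Summable f := by
    have h1 : Summable (fun ℓ : Nat.Primes => ((ℓ : ℕ) : ℝ) ^ (-s)) :=
      Nat.Primes.summable_rpow.mpr (by linarith)
    refine Summable.of_nonneg_of_le hf0 (fun ℓ => ?_) h1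
    simp only [hf]
    split_ifs
    · exact le_rfl
    · exact Real.rpow_nonneg (Nat.cast_nonneg _) _
  have hev : ∀ᶠ Q : Finset Nat.Primes in Filter.atTop, (∑' ℓ, f ℓ) - 1 < ∑ ℓ ∈ Q, f ℓ :=
    hsum.hasSum.eventually (lt_mem_nhds (by linarith))
  obtain ⟨Q, hQ⟩ := hev.exists
  refine ⟨Finset.image (fun ℓ : Nat.Primes => (ℓ : ℕ)) (Q.filter (fun ℓ => Good ℓ)), ?_, ?_⟩
  · intro ℓ hℓ
    rw [Finset.mem_image] at hℓ
    obtain ⟨p, hp, rfl⟩ := hℓ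
    exact ⟨p.2, (Finset.mem_filter.mp hp).2⟩
  · have hinj : ∀ a ∈ Q.filter (fun ℓ : Nat.Primes => Good ℓ),
        ∀ b ∈ Q.filter (fun ℓ : Nat.Primes => Good ℓ),
        (fun ℓ : Nat.Primes => (ℓ : ℕ)) a = (fun ℓ : Nat.Primes => (ℓ : ℕ)) b → a = b :=
      fun a _ b _ hab => Subtype.ext hab
    have h1 : ∑ ℓ ∈ Finset.image (fun ℓ : Nat.Primes => (ℓ : ℕ)) (Q.filter (fun ℓ => Good ℓ)),
        (ℓ : ℝ) ^ (-s) = ∑ ℓ ∈ Q.filter (fun ℓ : Nat.Primes => Good ℓ), ((ℓ : ℕ) : ℝ) ^ (-s) :=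
      Finset.sum_image (f := fun n : ℕ => (n : ℝ) ^ (-s)) hinj
    have h2 : ∑ ℓ ∈ Q, f ℓ = ∑ ℓ ∈ Q.filter (fun ℓ : Nat.Primes => Good ℓ), ((ℓ : ℕ) : ℝ) ^ (-s) := by
      rw [Finset.sum_filter]
    rw [h1, ← h2]
    linarith

/-- The sum-over-all-primes form implies the finite-set form. -/
theorem stmt_ChebSymFin_of_NF (h : Stmt_ChebSymNF) : Stmt_ChebSymFin := by
  intro E _ _ _ X hconj hinv T ε hε
  obtain ⟨B, hB⟩ := h E X hconj hinv T ε hε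
  refine ⟨B + 1, fun s hs1 hs2 => ?_⟩
  classical
  have hle0 := hB s hs1 hs2
  obtain ⟨P, hP, hle⟩ := exists_finset_primes_of_le_tsum
    (fun ℓ => ℓ ∉ T ∧ ∃ τ ∈ X, IsFrobNF E ℓ τ) hs1 (c := _) (by convert hle0)
  exact ⟨P, fun ℓ hℓ => ⟨(hP ℓ hℓ).1, (hP ℓ hℓ).2.1, (hP ℓ hℓ).2.2⟩, by linarith⟩

/-! ### From ideals of a number field inside `ℚ̄` to valuation subrings of `ℚ̄` -/

/-- One prime: an ideal-theoretic Frobenius at a prime outside the bad set of `E` gives a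
valuation subring of `ℚ̄` over `ℓ` and a Frobenius element at it whose restriction to `E` is the
given one. -/
theorem exists_frobeniusAt_of_ideal (E : IntermediateField ℚ Qb) [FiniteDimensional ℚ E]
    [IsGalois ℚ E] [NumberField E] {ℓ : ℕ} (hℓ : ℓ.Prime)
    (hbad : ℓ ∉ Fermat.Agent.Lib.helper74.badSet (Fermat.Agent.Lib.helper74.thetaL E))
    (𝔏 : Ideal (𝓞 E)) [h𝔏 : 𝔏.IsPrime] (hmem : (ℓ : 𝓞 E) ∈ 𝔏) (τ : E ≃ₐ[ℚ] E)
    (hτ : ∀ x : 𝓞 E, τ • x - x ^ ℓ ∈ 𝔏) :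
    ∃ (A : ValuationSubring Qb) (σ : GQ),
      A.LiesOverPrime ℓ ∧ A.IsFrobeniusAt σ ℓ ∧ σ.restrictNormal E = τ := by
  have h𝔏0 : 𝔏 ≠ ⊥ := by
    rintro rfl
    have h0 : (ℓ : 𝓞 E) = 0 := by simpa using hmem
    exact hℓ.ne_zero (by exact_mod_cast h0)
  have : 𝔏.IsMaximal := h𝔏.isMaximal h𝔏0
  obtain ⟨A, hA⟩ := Fermat.Agent.S29.helper9726.exists_valuationSubring_of_ideal E 𝔏 h𝔏.ne_top
  have hAℓ : A.LiesOverPrime ℓ := by
    have := hA (ℓ : 𝓞 E) hmem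
    simpa [ValuationSubring.LiesOverPrime, Fermat.Agent.S29.helper9726.toQb_apply] using this
  obtain ⟨σ, hσ⟩ := Fermat.Agent.Lib.helper54.exists_isFrobeniusAt hℓ A hAℓ
  refine ⟨A, σ, hAℓ, hσ, ?_⟩
  exact Fermat.Agent.Lib.helper74.frob_unique hℓ hbad 𝔏 hmem hτ
    (Fermat.Agent.S29.helper9726.restrictNormal_frob E 𝔏 A hA hσ)

/-- **The Frobenius adapter**: the finite-set number-field form implies the Prelude form. -/
theorem stmt_ChebSymQbar_of_Fin (h : Stmt_ChebSymFin) : Stmt_ChebSymQbar := by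
  intro E _ _ X hconj hinv T ε hε
  classical
  have : NumberField E := ⟨⟩
  obtain ⟨B, hB⟩ := h E X hconj hinv
    (T ∪ Fermat.Agent.Lib.helper74.badSet (Fermat.Agent.Lib.helper74.thetaL E)) ε hε
  refine ⟨B, fun s hs1 hs2 => ?_⟩
  obtain ⟨P, hP, hsum⟩ := hB s hs1 hs2
  refine ⟨P, fun ℓ hℓP => ?_, hsum⟩
  obtain ⟨hℓ, hℓT, τ, hτX, 𝔏, h𝔏, hmem, hτ⟩ := hP ℓ hℓP
  have hT : ℓ ∉ T := fun hh => hℓT (Finset.mem_union_left _ hh)
  have hbad : ℓ ∉ Fermat.Agent.Lib.helper74.badSet (Fermat.Agent.Lib.helper74.thetaL E) :=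
    fun hh => hℓT (Finset.mem_union_right _ hh)
  obtain ⟨A, σ, hA, hσ, hres⟩ := exists_frobeniusAt_of_ideal E hℓ hbad 𝔏 hmem τ hτ
  exact ⟨hℓ, hT, A, σ, hA, hσ, hres ▸ hτX⟩

/-- **The Frobenius adapter, from the sum-over-all-primes form.** -/
theorem stmt_ChebSymQbar_of_NF (h : Stmt_ChebSymNF) : Stmt_ChebSymQbar :=
  stmt_ChebSymQbar_of_Fin (stmt_ChebSymFin_of_NF h)

end Fermat.Agent.S48.helper1550
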