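/-
S48 (Deligne–Serre) blueprint, PART I — captain helper8231.
Interface statements (every `Stmt_*` is a `Prop`) and the compiled assembly of the frozen
statement from them.  Hypothesis-passing style: workers prove the `Stmt_*` (or implications
between them) in their own files under `Fermat/Agent/S48/`.

Layout:
* top level:  `Stmt_Reduce` (WLOG `5 ≤ N`, depleted), `Stmt_Arith`, `Stmt_Res`, `Stmt_Endgame`,
  and `result_of` (compiled) = the frozen statement;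
* endgame:    `Stmt_BddLift`, `Stmt_Exact`, `Stmt_Glue`, `Stmt_Irred` and `endgame_of` (compiled);
  inputs of `Stmt_BddLift`: `Stmt_FiniteValues`, `Stmt_ChebDensity`, `Stmt_BoundedImage`,
  `Stmt_SemiSimp`, `Stmt_Lift`;
* arithmetic side: `Stmt_Neben`, `Stmt_Conj1`, `Stmt_IntCoeff`, `Stmt_RankinOne`;
* residual side:   `Stmt_Cong` (weight 1 → weight 2 congruence) and `Stmt_Mach` (the `Γ₁` machine).
-/
import Mathlib
import Fermat.Prelude.Def_GaloisRep_Residual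
import Fermat.Prelude.Def_Deformations_MatrixRepresentation

set_option autoImplicit false

namespace Fermat.Agent.S48.helper8231

open CongruenceSubgroup Polynomial
open scoped MatrixGroups ModularForm

/-- The absolute Galois group of `ℚ` (the `Γℚ` of the frozen statement). -/
abbrev GQ : Type := AlgebraicClosure ℚ ≃ₐ[ℚ] AlgebraicClosure ℚ

/-- The ring of algebraic integers inside `ℂ`. -/
abbrev Zc : Type := integralClosure ℤ ℂ

/-! ## Top-level objects -/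

/-- The hypotheses of the frozen statement on `(N, ε, f)`. -/
def IsWt1Eigen (N : ℕ) (ε : DirichletCharacter ℂ N) (f : CuspForm (Gamma1 N) 1) : Prop :=
  ModularFormClass.qCoeff f 1 = 1 ∧
  ∀ p : ℕ, p.Prime → ¬ p ∣ N → ∀ n : ℕ,
    ModularFormClass.qCoeff f (p * n) +
        ε (p : ZMod N) * (if p ∣ n then ModularFormClass.qCoeff f (n / p) else 0) =
      ModularFormClass.qCoeff f p * ModularFormClass.qCoeff f n

/-- `f` is `N`-depleted: its `q`-coefficients vanish at all `n` not prime to `N`. -/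
def IsDepleted (N : ℕ) (f : CuspForm (Gamma1 N) 1) : Prop :=
  ∀ n : ℕ, ¬ Nat.Coprime n N → ModularFormClass.qCoeff f n = 0

/-- `ρ` is of finite level, and at every prime `p ∤ S` it is unramified with
`tr ρ(Frob) = a p`, `det ρ(Frob) = d p` for every Frobenius at every place over `p`. -/
def IsGoodOff (S : ℕ) (a d : ℕ → ℂ) (ρ : GQ →* GL (Fin 2) ℂ) : Prop :=
  GaloisFactorsThroughFiniteLevel ρ ∧
  ∀ p : ℕ, p.Prime → ¬ p ∣ S →
    ∀ A : ValuationSubring (AlgebraicClosure ℚ), A.LiesOverPrime p →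
      (∀ σ ∈ A.inertiaSubgroupIn ℚ, ρ σ = 1) ∧
      ∀ σ : GQ, A.IsFrobeniusAt σ p →
        ((ρ σ : GL (Fin 2) ℂ) : Matrix (Fin 2) (Fin 2) ℂ).trace = a p ∧
        ((ρ σ : GL (Fin 2) ℂ) : Matrix (Fin 2) (Fin 2) ℂ).det = d p

/-- The conclusion of the frozen statement for abstract trace/determinant data. -/
def Conclusion (N : ℕ) (a d : ℕ → ℂ) : Prop :=
  ∃ ρ : GQ →* GL (Fin 2) ℂ, GaloisFactorsThroughFiniteLevel ρ ∧
    (Deformation.matrixRepresentation ρ).IsIrreducible ∧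
    ∀ p : ℕ, p.Prime → ¬ p ∣ N →
      ∀ A : ValuationSubring (AlgebraicClosure ℚ), A.LiesOverPrime p →
        (∀ σ ∈ A.inertiaSubgroupIn ℚ, ρ σ = 1) ∧
        ∀ σ : GQ, A.IsFrobeniusAt σ p →
          ((ρ σ : GL (Fin 2) ℂ) : Matrix (Fin 2) (Fin 2) ℂ).trace = a p ∧
          ((ρ σ : GL (Fin 2) ℂ) : Matrix (Fin 2) (Fin 2) ℂ).det = d p

/-- Residual representations mod `ℓ` attached to the system `(a p, d p)` away from `B * ℓ`,
universally in the coefficient field `κ` and the reduction map `φ` (as in the frozen S29). -/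
def HasResidualRep (B : ℕ) (a d : ℕ → ℂ) (ℓ : ℕ) : Prop :=
  ∀ (κ : Type) [Field κ] [CharP κ ℓ] (φ : Zc →+* κ),
    ∃ ρ : ResidualGaloisRep κ, ∀ p : ℕ, p.Prime → ¬ p ∣ B * ℓ →
      ρ.IsUnramifiedAt p ∧
      ∀ A : ValuationSubring (AlgebraicClosure ℚ), A.LiesOverPrime p →
        ∀ σ : GQ, A.IsFrobeniusAt σ p →
          ∃ t δ : Zc, (t : ℂ) = a p ∧ (δ : ℂ) = d p ∧
            LinearMap.charpoly (ρ.ρ σ) = X ^ 2 - C (φ t) * X + C (φ δ)

/-- The Rankin bound (logarithmic form) for a finite family of sequences containing all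
`Aut(ℂ)`-conjugates of `(a p)_{p ∤ N}`. -/
def RankinFamily (N : ℕ) (a : ℕ → ℂ) : Prop :=
  ∃ (n : ℕ) (b : Fin n → ℕ → ℂ) (C : ℝ),
    (∀ τ : ℂ ≃+* ℂ, ∃ i : Fin n, ∀ p : ℕ, p.Prime → ¬ p ∣ N → τ (a p) = b i p) ∧
    ∀ (i : Fin n) (P : Finset ℕ), (∀ p ∈ P, p.Prime ∧ ¬ p ∣ N) →
      ∀ s : ℝ, 1 < s → s ≤ 2 →
        ∑ p ∈ P, Real.log (1 + ‖b i p‖ ^ 2 * (p : ℝ) ^ (-s)) ≤ Real.log (1 / (s - 1)) + C

/-! ## The top-level statements -/

/-- (REDUCE) WLOG `5 ≤ N` (there is no weight-one cusp form on `Γ₁(N)` for `N ≤ 4`) and `f` is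
`N`-depleted (replace `f` by `∑_{(n,N)=1} a_n q^n`, a cusp form on `Γ₁(N²)` with the same
`a_p`, `ε(p)` for `p ∤ N`). -/
def Stmt_Reduce : Prop :=
  (∀ (N : ℕ) [NeZero N] (ε : DirichletCharacter ℂ N) (f : CuspForm (Gamma1 N) 1),
      IsWt1Eigen N ε f → 5 ≤ N → IsDepleted N f →
      Conclusion N (fun p => ModularFormClass.qCoeff f p) (fun p => ε (p : ZMod N))) →
  ∀ (N : ℕ) [NeZero N] (ε : DirichletCharacter ℂ N) (f : CuspForm (Gamma1 N) 1),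
      IsWt1Eigen N ε f →
      Conclusion N (fun p => ModularFormClass.qCoeff f p) (fun p => ε (p : ZMod N))

/-- (ARITH) integrality of all coefficients and the Rankin bound for all conjugates. -/
def Stmt_Arith : Prop :=
  ∀ (N : ℕ) [NeZero N] (ε : DirichletCharacter ℂ N) (f : CuspForm (Gamma1 N) 1),
    IsWt1Eigen N ε f → 5 ≤ N → IsDepleted N f →
    (∀ n : ℕ, IsIntegral ℤ (ModularFormClass.qCoeff f n)) ∧
    RankinFamily N (fun p => ModularFormClass.qCoeff f p)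

/-- (RES) residual representations for infinitely many `ℓ`, away from an auxiliary level `B`
which can be chosen prime to any given prime `p ∤ N` (`B = N` is allowed). -/
def Stmt_Res : Prop :=
  ∀ (N : ℕ) [NeZero N] (ε : DirichletCharacter ℂ N) (f : CuspForm (Gamma1 N) 1),
    IsWt1Eigen N ε f → 5 ≤ N → IsDepleted N f →
    (∀ n : ℕ, IsIntegral ℤ (ModularFormClass.qCoeff f n)) →
    ∀ p : ℕ, p.Prime → ¬ p ∣ N → ∃ B : ℕ, N ∣ B ∧ ¬ p ∣ B ∧
      {ℓ : ℕ | ℓ.Prime ∧ HasResidualRep B (fun q => ModularFormClass.qCoeff f q)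
        (fun q => ε (q : ZMod N)) ℓ}.Infinite

/-- (END) the Deligne–Serre endgame, for abstract data `(N, ε, a)`. -/
def Stmt_Endgame : Prop :=
  ∀ (N : ℕ) [NeZero N] (ε : DirichletCharacter ℂ N) (a : ℕ → ℂ),
    (∀ p : ℕ, p.Prime → ¬ p ∣ N → IsIntegral ℤ (a p)) →
    RankinFamily N a →
    (∀ p : ℕ, p.Prime → ¬ p ∣ N → ∃ B : ℕ, N ∣ B ∧ ¬ p ∣ B ∧
      {ℓ : ℕ | ℓ.Prime ∧ HasResidualRep B a (fun q => ε (q : ZMod N)) ℓ}.Infinite) →
    Conclusion N a (fun q => ε (q : ZMod N))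

/-- Assembly of the frozen statement S48 from the top-level statements. -/
theorem result_of (hW : Stmt_Reduce) (hA : Stmt_Arith) (hR : Stmt_Res) (hE : Stmt_Endgame)
    (N : ℕ) [NeZero N] (ε : DirichletCharacter ℂ N) (f : CuspForm (Gamma1 N) 1)
    (hf₁ : ModularFormClass.qCoeff f 1 = 1)
    (hT : ∀ p : ℕ, p.Prime → ¬ p ∣ N → ∀ n : ℕ,
        ModularFormClass.qCoeff f (p * n) +
            ε (p : ZMod N) * (if p ∣ n then ModularFormClass.qCoeff f (n / p) else 0) =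
          ModularFormClass.qCoeff f p * ModularFormClass.qCoeff f n) :
    ∃ ρ : GQ →* GL (Fin 2) ℂ, GaloisFactorsThroughFiniteLevel ρ ∧
      (Deformation.matrixRepresentation ρ).IsIrreducible ∧
      ∀ p : ℕ, p.Prime → ¬ p ∣ N →
        ∀ A : ValuationSubring (AlgebraicClosure ℚ), A.LiesOverPrime p →
          (∀ σ ∈ A.inertiaSubgroupIn ℚ, ρ σ = 1) ∧
          ∀ σ : GQ, A.IsFrobeniusAt σ p →
            ((ρ σ : GL (Fin 2) ℂ) : Matrix (Fin 2) (Fin 2) ℂ).trace = ModularFormClass.qCoeff f p ∧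
            ((ρ σ : GL (Fin 2) ℂ) : Matrix (Fin 2) (Fin 2) ℂ).det = ε (p : ZMod N) := by
  refine hW ?_ N ε f ⟨hf₁, hT⟩
  intro N _ ε f h h5 hdep
  obtain ⟨hint, hrank⟩ := hA N ε f h h5 hdep
  exact hE N ε (fun p => ModularFormClass.qCoeff f p) (fun p _ _ => hint p) hrank
    (hR N ε f h h5 hdep hint)

/-! ## The endgame -/

/-- `ρ` has finite level and finite image of size `≤ B0`; at the primes `p ∤ S` it is unramified
and trace/determinant of Frobenius are algebraic integers congruent to `a p`, `d p` modulo the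
ideal `𝔪` of `Zc`. -/
def IsCongLift (𝔪 : Ideal Zc) (B0 S : ℕ) (a d : ℕ → ℂ) (ρ : GQ →* GL (Fin 2) ℂ) : Prop :=
  GaloisFactorsThroughFiniteLevel ρ ∧ (Set.range ρ).Finite ∧ (Set.range ρ).ncard ≤ B0 ∧
  ∀ p : ℕ, p.Prime → ¬ p ∣ S →
    ∀ A : ValuationSubring (AlgebraicClosure ℚ), A.LiesOverPrime p →
      (∀ σ ∈ A.inertiaSubgroupIn ℚ, ρ σ = 1) ∧
      ∀ σ : GQ, A.IsFrobeniusAt σ p →
        ∃ t δ t' δ' : Zc,
          (t : ℂ) = ((ρ σ : GL (Fin 2) ℂ) : Matrix (Fin 2) (Fin 2) ℂ).trace ∧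
          (δ : ℂ) = ((ρ σ : GL (Fin 2) ℂ) : Matrix (Fin 2) (Fin 2) ℂ).det ∧
          (t' : ℂ) = a p ∧ (δ' : ℂ) = d p ∧ t - t' ∈ 𝔪 ∧ δ - δ' ∈ 𝔪

/-- There is a maximal ideal `𝔪 ∋ ℓ` of `Zc` and a congruence lift modulo `𝔪` away from `B * ℓ`. -/
def HasCongLift (B0 B : ℕ) (a d : ℕ → ℂ) (ℓ : ℕ) : Prop :=
  ∃ 𝔪 : Ideal Zc, 𝔪.IsMaximal ∧ (ℓ : Zc) ∈ 𝔪 ∧
    ∃ ρ : GQ →* GL (Fin 2) ℂ, IsCongLift 𝔪 B0 (B * ℓ) a d ρ

/-- (E1, BDDLIFT) bounded image + lift to characteristic `0`: there is a bound `B0` depending only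
on `(N, ε, a)` such that every residual representation mod `ℓ > B0` lifts.
Inputs: `Stmt_FiniteValues`, `Stmt_ChebDensity`, `Stmt_BoundedImage`, `Stmt_SemiSimp`,
`Stmt_Lift` (with `κ := Zc ⧸ 𝔪`, `φ := Ideal.Quotient.mk 𝔪`, `𝔪` any maximal ideal containing `ℓ`). -/
def Stmt_BddLift : Prop :=
  ∀ (N : ℕ) [NeZero N] (ε : DirichletCharacter ℂ N) (a : ℕ → ℂ),
    (∀ p : ℕ, p.Prime → ¬ p ∣ N → IsIntegral ℤ (a p)) →
    RankinFamily N a →
    ∃ B0 : ℕ, ∀ B : ℕ, N ∣ B → B ≠ 0 → ∀ ℓ : ℕ, ℓ.Prime → B0 < ℓ →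
      HasResidualRep B a (fun q => ε (q : ZMod N)) ℓ →
      HasCongLift B0 B a (fun q => ε (q : ZMod N)) ℓ

/-- (E2, EXACT) pigeonhole: congruence lifts of bounded image for infinitely many `ℓ` are exact
(`tr = a p`, `det = d p`) for infinitely many `ℓ`. -/
def Stmt_Exact : Prop :=
  ∀ (a d : ℕ → ℂ) (B0 B : ℕ),
    {ℓ : ℕ | ℓ.Prime ∧ HasCongLift B0 B a d ℓ}.Infinite →
    {ℓ : ℕ | ℓ.Prime ∧ ∃ ρ : GQ →* GL (Fin 2) ℂ, IsGoodOff (B * ℓ) a d ρ}.Infinite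

/-- (E3, GLUE) two representations which are good off `S`, resp. off `S'`, for the same data have
the same kernel (`ker = {tr = 2}` on Frobenius classes), hence the first is good off `S'` too.
Input: `Stmt_ChebDensity` (existence of Frobenius elements in `C ∪ C⁻¹`). -/
def Stmt_Glue : Prop :=
  ∀ (a d : ℕ → ℂ) (S S' : ℕ) (ρ ρ' : GQ →* GL (Fin 2) ℂ), S ≠ 0 → S' ≠ 0 →
    IsGoodOff S a d ρ → IsGoodOff S' a d ρ' → IsGoodOff S' a d ρ

/-- (E4, IRRED) a representation good off `N` whose traces satisfy the Rankin bound is irreducible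
(reducible ⟹ `∑ |a_p|² p^{-s} ≥ (2 - ε) log(1/(s-1))`).  Input: `Stmt_ChebDensity`. -/
def Stmt_Irred : Prop :=
  ∀ (N : ℕ) (a d : ℕ → ℂ) (ρ : GQ →* GL (Fin 2) ℂ), N ≠ 0 →
    RankinFamily N a → IsGoodOff N a d ρ →
    (Deformation.matrixRepresentation ρ).IsIrreducible

/-- Values of a Dirichlet character are algebraic integers. -/
theorem isIntegral_dirichlet (N : ℕ) [NeZero N] (ε : DirichletCharacter ℂ N) (x : ZMod N) :
    IsIntegral ℤ (ε x) := by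
  by_cases hx : IsUnit x
  · obtain ⟨u, rfl⟩ := hx
    have h1 : ε (u : ZMod N) ^ (Fintype.card (ZMod N)ˣ) = 1 := by
      rw [← map_pow, ← Units.val_pow_eq_pow_val, pow_card_eq_one, Units.val_one, map_one]
    exact IsIntegral.of_pow Fintype.card_pos (h1 ▸ isIntegral_one)
  · rw [MulChar.map_nonunit ε hx]
    exact isIntegral_zero

/-- Assembly of the endgame from (E1)–(E4). -/
theorem endgame_of (h1 : Stmt_BddLift) (h2 : Stmt_Exact) (h3 : Stmt_Glue) (h4 : Stmt_Irred) :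
    Stmt_Endgame := by
  intro N _ ε a hint hrank hres
  have hN : N ≠ 0 := NeZero.ne N
  obtain ⟨B0, hB0⟩ := h1 N ε a hint hrank
  -- for every prime `p ∤ N` a representation which is good off some `S ≠ 0` prime to `p`
  have key : ∀ p : ℕ, p.Prime → ¬ p ∣ N → ∃ (S : ℕ) (ρ : GQ →* GL (Fin 2) ℂ),
      S ≠ 0 ∧ ¬ p ∣ S ∧ IsGoodOff S a (fun q => ε (q : ZMod N)) ρ := by
    intro p hp hpN
    obtain ⟨B, hNB, hpB, hinf⟩ := hres p hp hpN
    have hB : B ≠ 0 := fun h => hpB (h ▸ dvd_zero p)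
    have hinf2 : {ℓ : ℕ | ℓ.Prime ∧ HasCongLift B0 B a (fun q => ε (q : ZMod N)) ℓ}.Infinite := by
      have hsub : {ℓ : ℕ | ℓ.Prime ∧ HasResidualRep B a (fun q => ε (q : ZMod N)) ℓ} \
          (Finset.range (B0 + 1) : Set ℕ) ⊆
          {ℓ : ℕ | ℓ.Prime ∧ HasCongLift B0 B a (fun q => ε (q : ZMod N)) ℓ} := by
        rintro ℓ ⟨⟨hℓ, hrep⟩, hℓB⟩
        have hlt : B0 < ℓ := by
          by_contra hcon
          exact hℓB (by simpa [Finset.mem_range] using Nat.lt_succ_of_le (not_lt.mp hcon))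
        exact ⟨hℓ, hB0 B hNB hB ℓ hℓ hlt hrep⟩
      exact (hinf.diff (Finset.finite_toSet _)).mono hsub
    have hinf3 := h2 a (fun q => ε (q : ZMod N)) B0 B hinf2
    obtain ⟨ℓ, ⟨hℓ, ρ, hρ⟩, hℓp⟩ := (hinf3.diff (Set.finite_singleton p)).nonempty
    refine ⟨B * ℓ, ρ, mul_ne_zero hB hℓ.ne_zero, ?_, hρ⟩
    intro hdvd
    rcases (Nat.Prime.dvd_mul hp).mp hdvd with h | h
    · exact hpB h
    · exact hℓp ((Nat.prime_dvd_prime_iff_eq hp hℓ).mp h).symm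
  -- a prime not dividing `N`
  obtain ⟨p0, hp0N, hp0⟩ := Nat.exists_infinite_primes (N + 1)
  have hp0' : ¬ p0 ∣ N := fun h => by
    have := Nat.le_of_dvd (Nat.pos_of_ne_zero hN) h
    omega
  obtain ⟨S0, ρ, hS0, -, hρ⟩ := key p0 hp0 hp0'
  have hgood : IsGoodOff N a (fun q => ε (q : ZMod N)) ρ := by
    refine ⟨hρ.1, ?_⟩
    intro p hp hpN
    obtain ⟨S, ρ', hS, hpS, hρ'⟩ := key p hp hpN
    exact (h3 a _ S0 S ρ ρ' hS0 hS hρ hρ').2 p hp hpS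
  exact ⟨ρ, hgood.1, h4 N a _ ρ hN hrank hgood, hgood.2⟩

/-! ### Inputs of (E1) -/

/-- (CHEB) Chebotarev, Dirichlet-density lower bound in the `ε`-form, for subsets `T` of a finite
quotient `π : GQ ↠ G` of finite level which are stable under conjugation AND inversion.
`S` is an arbitrary nonzero integer (its prime divisors are excluded). -/
def Stmt_ChebDensity : Prop :=
  ∀ (G : Type) [Group G] [Finite G] (π : GQ →* G), Function.Surjective π →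
    GaloisFactorsThroughFiniteLevel π →
    ∀ T : Set G, (∀ g h : G, h ∈ T → g * h * g⁻¹ ∈ T) → (∀ h ∈ T, h⁻¹ ∈ T) →
    ∀ S : ℕ, S ≠ 0 → ∀ e : ℝ, 0 < e → ∃ C : ℝ, ∀ s : ℝ, 1 < s → s ≤ 2 →
      ∃ P : Finset ℕ,
        (∀ p ∈ P, p.Prime ∧ ¬ p ∣ S ∧ ∃ A : ValuationSubring (AlgebraicClosure ℚ),
          A.LiesOverPrime p ∧ ∃ σ : GQ, A.IsFrobeniusAt σ p ∧ π σ ∈ T) ∧
        ((Nat.card T : ℝ) / (Nat.card G : ℝ) - e) * Real.log (1 / (s - 1)) - C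
          ≤ ∑ p ∈ P, (p : ℝ) ^ (-s)

/-- (FINVAL) finitely many values up to density `η`: from the Rankin bound for all conjugates and
integrality (Northcott). -/
def Stmt_FiniteValues : Prop :=
  ∀ (N : ℕ) (a : ℕ → ℂ), (∀ p : ℕ, p.Prime → ¬ p ∣ N → IsIntegral ℤ (a p)) →
    RankinFamily N a → ∀ e : ℝ, 0 < e →
    ∃ (Y : Finset ℂ) (C : ℝ), (∀ y ∈ Y, IsIntegral ℤ y) ∧
      ∀ P : Finset ℕ, (∀ p ∈ P, p.Prime ∧ ¬ p ∣ N ∧ a p ∉ Y) →
        ∀ s : ℝ, 1 < s → s ≤ 2 →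
          ∑ p ∈ P, (p : ℝ) ^ (-s) ≤ e * Real.log (1 / (s - 1)) + C

/-- (BDD) bounded image by the trace-basis count (no Dickson, no condition on the
characteristic): a finite subgroup of `GL₂(k)`, irreducible or diagonal, almost all of whose
traces lie in `Y` and whose determinants lie in `D`, has at most `2|Y|⁴ + 3|Y||D|` elements. -/
def Stmt_BoundedImage : Prop :=
  ∀ (k : Type) [Field k] [IsAlgClosed k] (G : Subgroup (GL (Fin 2) k)) [Finite G],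
    ((∀ v : Fin 2 → k, v ≠ 0 →
        ∃ g ∈ G, ∀ c : k, (g : Matrix (Fin 2) (Fin 2) k).mulVec v ≠ c • v) ∨
      (∀ g ∈ G, ∃ x y : k, (g : Matrix (Fin 2) (Fin 2) k) = Matrix.diagonal ![x, y])) →
    ∀ Y D : Finset k, (∀ g ∈ G, (g : Matrix (Fin 2) (Fin 2) k).det ∈ D) →
      8 * Nat.card {g : G // (g.1 : Matrix (Fin 2) (Fin 2) k).trace ∉ Y} ≤ Nat.card G →
      Nat.card G ≤ 2 * Y.card ^ 4 + 3 * Y.card * D.card

/-- (SS) matrix form + semisimplification of a residual representation: same characteristic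
polynomials, kernel not smaller, and either no common eigenvector or diagonal. -/
def Stmt_SemiSimp : Prop :=
  ∀ (κ : Type) [Field κ] (ρ : ResidualGaloisRep κ),
    ∃ r : GQ →* GL (Fin 2) κ,
      (∀ σ : GQ, ((r σ : GL (Fin 2) κ) : Matrix (Fin 2) (Fin 2) κ).charpoly =
        LinearMap.charpoly (ρ.ρ σ)) ∧
      (∀ σ : GQ, ρ.ρ σ = 1 → r σ = 1) ∧
      ((∀ v : Fin 2 → κ, v ≠ 0 → ∃ σ : GQ, ∀ c : κ,
          ((r σ : GL (Fin 2) κ) : Matrix (Fin 2) (Fin 2) κ).mulVec v ≠ c • v) ∨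
        (∀ σ : GQ, ∃ x y : κ,
          ((r σ : GL (Fin 2) κ) : Matrix (Fin 2) (Fin 2) κ) = Matrix.diagonal ![x, y]))

/-- (LIFT) lift to characteristic `0` without completions: a finite subgroup of
`GL₂(Zc ⧸ 𝔪)` of order prime to the residue characteristic lifts to `GL₂(ℂ)`, with traces and
determinants in `Zc` reducing correctly. -/
def Stmt_Lift : Prop :=
  ∀ (𝔪 : Ideal Zc) [𝔪.IsMaximal] (G : Subgroup (GL (Fin 2) (Zc ⧸ 𝔪))) [Finite G],
    ((Nat.card G : ℕ) : Zc ⧸ 𝔪) ≠ 0 →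
    ∃ r : G →* GL (Fin 2) ℂ, Function.Injective r ∧ ∀ g : G, ∃ t δ : Zc,
      (t : ℂ) = ((r g : GL (Fin 2) ℂ) : Matrix (Fin 2) (Fin 2) ℂ).trace ∧
      (δ : ℂ) = ((r g : GL (Fin 2) ℂ) : Matrix (Fin 2) (Fin 2) ℂ).det ∧
      Ideal.Quotient.mk 𝔪 t = ((g : GL (Fin 2) (Zc ⧸ 𝔪)) : Matrix (Fin 2) (Fin 2) (Zc ⧸ 𝔪)).trace ∧
      Ideal.Quotient.mk 𝔪 δ = ((g : GL (Fin 2) (Zc ⧸ 𝔪)) : Matrix (Fin 2) (Fin 2) (Zc ⧸ 𝔪)).det

/-! ## The arithmetic side -/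

/-- (F0, NEBEN) the Hecke relations force nebentypus `ε`. -/
def Stmt_Neben : Prop :=
  ∀ (N : ℕ) [NeZero N] (ε : DirichletCharacter ℂ N) (f : CuspForm (Gamma1 N) 1),
    IsWt1Eigen N ε f →
    ∀ γ : SL(2, ℤ), γ ∈ Gamma0 N → (⇑f) ∣[(1 : ℤ)] γ = ε ((γ 1 1 : ℤ) : ZMod N) • (⇑f)

/-- (F1, CONJ) coefficientwise `Aut(ℂ)`-conjugates of weight-one cusp forms on `Γ₁(N)`. -/
def Stmt_Conj1 : Prop :=
  ∀ (N : ℕ) [NeZero N] (f : CuspForm (Gamma1 N) 1) (σ : ℂ ≃+* ℂ),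
    ∃ g : CuspForm (Gamma1 N) 1, ∀ n : ℕ,
      ModularFormClass.qCoeff g n = σ (ModularFormClass.qCoeff f n)

/-- (F1-INT) the eigenvalues `a_p`, `p ∤ N`, are algebraic integers and generate, together with
the values of `ε`, a number field. -/
def Stmt_IntCoeff : Prop :=
  ∀ (N : ℕ) [NeZero N] (ε : DirichletCharacter ℂ N) (f : CuspForm (Gamma1 N) 1),
    IsWt1Eigen N ε f →
    (∀ p : ℕ, p.Prime → ¬ p ∣ N → IsIntegral ℤ (ModularFormClass.qCoeff f p)) ∧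
    ∃ K : IntermediateField ℚ ℂ, FiniteDimensional ℚ K ∧
      ∀ p : ℕ, p.Prime → ¬ p ∣ N → ModularFormClass.qCoeff f p ∈ K

/-- (F4, RANKIN) the logarithmic Rankin bound for one eigenform. -/
def Stmt_RankinOne : Prop :=
  ∀ (N : ℕ) [NeZero N] (ε : DirichletCharacter ℂ N) (f : CuspForm (Gamma1 N) 1),
    IsWt1Eigen N ε f →
    ∃ C : ℝ, ∀ P : Finset ℕ, (∀ p ∈ P, p.Prime ∧ ¬ p ∣ N) → ∀ s : ℝ, 1 < s → s ≤ 2 →
      ∑ p ∈ P, Real.log (1 + ‖ModularFormClass.qCoeff f p‖ ^ 2 * (p : ℝ) ^ (-s))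
        ≤ Real.log (1 / (s - 1)) + C

/-! ## The residual side -/

/-- `g` is a nonzero weight-two cusp form on `Γ₁(M)` with nebentypus `ψ` which is an eigenvector
of all `T_p`, `p ∤ M`, with eigenvalues `b p` (`q`-expansion form). -/
def IsEigen2 (M : ℕ) (ψ : DirichletCharacter ℂ M) (g : CuspForm (Gamma1 M) 2) (b : ℕ → ℂ) :
    Prop :=
  g ≠ 0 ∧
  (∀ γ : SL(2, ℤ), γ ∈ Gamma0 M → (⇑g) ∣[(2 : ℤ)] γ = ψ ((γ 1 1 : ℤ) : ZMod M) • (⇑g)) ∧
  ∀ p : ℕ, p.Prime → ¬ p ∣ M → ∀ n : ℕ,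
    ModularFormClass.qCoeff g (p * n) +
        (p : ℂ) * ψ (p : ZMod M) * (if p ∣ n then ModularFormClass.qCoeff g (n / p) else 0) =
      b p * ModularFormClass.qCoeff g n

/-- (MACH) the `Γ₁` machine = the analogue of the frozen S29 for weight-two eigenvectors with
nebentypus: integrality of the eigenvalues and residual representations for every `ℓ`, `κ`, `φ`.
`LevelOK` is the level condition under which the machine is run (fixed in Part II). -/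
def Stmt_Mach (LevelOK : ℕ → Prop) : Prop :=
  ∀ (M : ℕ) [NeZero M] (ψ : DirichletCharacter ℂ M) (g : CuspForm (Gamma1 M) 2) (b : ℕ → ℂ),
    LevelOK M → IsEigen2 M ψ g b →
    ∀ ℓ : ℕ, ℓ.Prime → ∀ (κ : Type) [Field κ] [CharP κ ℓ] (φ : Zc →+* κ),
      ∃ ρ : ResidualGaloisRep κ, ∀ p : ℕ, p.Prime → ¬ p ∣ M * ℓ →
        ρ.IsUnramifiedAt p ∧
        ∀ A : ValuationSubring (AlgebraicClosure ℚ), A.LiesOverPrime p →
          ∀ σ : GQ, A.IsFrobeniusAt σ p →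
            ∃ t δ : Zc, (t : ℂ) = b p ∧ (δ : ℂ) = (p : ℂ) * ψ (p : ZMod M) ∧
              LinearMap.charpoly (ρ.ρ σ) = X ^ 2 - C (φ t) * X + C (φ δ)

/-- (CONG) weight 1 → weight 2: for every level `B` divisible by `N`, every large prime `ℓ` and
every reduction `φ` in characteristic `ℓ` there is a weight-two eigenvector `g` on `Γ₁(B ℓ)` with
nebentypus `ψ` whose eigenvalues are congruent to the `a_p` and with `p ψ(p) ≡ ε(p)`.
(`f · E` with `E ≡ 1` of weight one on `Γ₁(ℓ)`, then the lifting lemma relative to `φ`.) -/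
def Stmt_Cong : Prop :=
  ∀ (N : ℕ) [NeZero N] (ε : DirichletCharacter ℂ N) (f : CuspForm (Gamma1 N) 1),
    IsWt1Eigen N ε f → 5 ≤ N → IsDepleted N f →
    (∀ n : ℕ, IsIntegral ℤ (ModularFormClass.qCoeff f n)) →
    ∀ B : ℕ, N ∣ B → B ≠ 0 → ∃ ℓ₀ : ℕ, ∀ ℓ : ℕ, ℓ.Prime → ℓ₀ ≤ ℓ →
      ∀ (κ : Type) [Field κ] [CharP κ ℓ] (φ : Zc →+* κ),
        ∃ (ψ : DirichletCharacter ℂ (B * ℓ)) (g : CuspForm (Gamma1 (B * ℓ)) 2) (b : ℕ → ℂ),
          IsEigen2 (B * ℓ) ψ g b ∧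
          ∀ p : ℕ, p.Prime → ¬ p ∣ B * ℓ →
            (∀ t' : Zc, (t' : ℂ) = b p →
              ∃ t : Zc, (t : ℂ) = ModularFormClass.qCoeff f p ∧ φ t' = φ t) ∧
            (∀ δ' : Zc, (δ' : ℂ) = (p : ℂ) * ψ (p : ZMod (B * ℓ)) →
              ∃ δ : Zc, (δ : ℂ) = ε (p : ZMod N) ∧ φ δ' = φ δ)

/-- Assembly of (RES) from (CONG) and (MACH), for any level condition satisfied by `B ℓ` for
suitable multiples `B` of `N`. -/
theorem res_of (LevelOK : ℕ → Prop)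
    (hlevel : ∀ N : ℕ, 5 ≤ N → ∀ p : ℕ, p.Prime → ¬ p ∣ N →
      ∃ B : ℕ, N ∣ B ∧ ¬ p ∣ B ∧ ∀ ℓ : ℕ, ℓ.Prime → LevelOK (B * ℓ))
    (hC : Stmt_Cong) (hM : Stmt_Mach LevelOK) : Stmt_Res := by
  intro N _ ε f h h5 hdep hint p hp hpN
  obtain ⟨B, hNB, hpB, hlev⟩ := hlevel N h5 p hp hpN
  have hB : B ≠ 0 := fun h => hpB (h ▸ dvd_zero p)
  refine ⟨B, hNB, hpB, ?_⟩
  obtain ⟨ℓ₀, hℓ₀⟩ := hC N ε f h h5 hdep hint B hNB hB
  have hsub : {ℓ : ℕ | ℓ.Prime} \ (Finset.range ℓ₀ : Set ℕ) ⊆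
      {ℓ : ℕ | ℓ.Prime ∧ HasResidualRep B (fun q => ModularFormClass.qCoeff f q)
        (fun q => ε (q : ZMod N)) ℓ} := by
    rintro ℓ ⟨hℓ, hℓr⟩
    have hle : ℓ₀ ≤ ℓ := by
      by_contra hcon
      exact hℓr (by simpa [Finset.mem_range] using not_le.mp hcon)
    refine ⟨hℓ, ?_⟩
    intro κ _ _ φ
    obtain ⟨ψ, g, b, hg, hcong⟩ := hℓ₀ ℓ hℓ hle κ φ
    have : NeZero (B * ℓ) := ⟨mul_ne_zero hB hℓ.ne_zero⟩
    obtain ⟨ρ, hρ⟩ := hM (B * ℓ) ψ g b (hlev ℓ hℓ) hg ℓ hℓ κ φ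
    refine ⟨ρ, ?_⟩
    intro q hq hqBℓ
    have hq' : ¬ q ∣ B * ℓ * ℓ := by
      intro hdvd
      rcases (Nat.Prime.dvd_mul hq).mp hdvd with h | h
      · exact hqBℓ h
      · exact hqBℓ (dvd_mul_of_dvd_right h B)
    obtain ⟨hunr, hfrob⟩ := hρ q hq hq'
    refine ⟨hunr, ?_⟩
    intro A hA σ hσ
    obtain ⟨t', δ', ht', hδ', hcp⟩ := hfrob A hA σ hσ
    obtain ⟨h1, h2⟩ := hcong q hq hqBℓ
    obtain ⟨t, ht, htt⟩ := h1 t' ht'
    obtain ⟨δ, hδ, hδδ⟩ := h2 δ' hδ'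
    exact ⟨t, δ, ht, hδ, by rw [hcp, htt, hδδ]⟩
  exact (Nat.infinite_setOf_prime.diff (Finset.finite_toSet _)).mono hsub

end Fermat.Agent.S48.helper8231
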