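import Fermat.Agent.S48.helper1550_ChebAdapter
import Fermat.Agent.S48.helper8231_Spec

/-!
# S48 / F5 (Chebotarev density): from a finite Galois level to the captain's `Stmt_ChebDensity`

`Stmt_ChebSymQbar` (a finite Galois level `E ⊆ ℚ̄` and a subset of `Gal(E/ℚ)`) implies the
interface statement `helper8231.Stmt_ChebDensity` of the S48 blueprint (an abstract finite group
`G`, a surjection `π : Gal(ℚ̄/ℚ) ↠ G` of finite level and a subset `T ⊆ G`):

* `stmt_ChebDensity_of_Qbar : Stmt_ChebSymQbar → helper8231.Stmt_ChebDensity`;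
* `stmt_ChebDensity_of_NF : Stmt_ChebSymNF → helper8231.Stmt_ChebDensity`.

Proof: `π` factors through `Gal(E/ℚ)` for `E` the normal closure of a finite level of `π`; the
preimage `X` of `T` in `Gal(E/ℚ)` has the same proportion as `T` in `G`.
-/

set_option autoImplicit false

namespace Fermat.Agent.S48.helper1550

open NumberField

local notation "Qb" => AlgebraicClosure ℚ
local notation "GQ" => (AlgebraicClosure ℚ ≃ₐ[ℚ] AlgebraicClosure ℚ)

/-- The preimage of a set under a surjective homomorphism of finite groups has the same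
proportion. -/
theorem card_preimage_mul_card {H G : Type*} [Group H] [Group G] (f : H →* G)
    (hf : Function.Surjective f) (T : Set G) :
    Nat.card (f ⁻¹' T) = Nat.card T * Nat.card f.ker := by
  rw [← Nat.card_prod]
  let s : G → H := Function.surjInv hf
  have hs : ∀ g, f (s g) = g := Function.surjInv_eq hf
  refine Nat.card_congr
    { toFun := fun x => (⟨f x.1, x.2⟩, ⟨(s (f x.1))⁻¹ * x.1, by
        rw [MonoidHom.mem_ker, map_mul, map_inv, hs, inv_mul_cancel]⟩)
      invFun := fun p => ⟨s p.1.1 * p.2.1, by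
        show f (s p.1.1 * p.2.1) ∈ T
        rw [map_mul, hs, MonoidHom.mem_ker.mp p.2.2, mul_one]
        exact p.1.2⟩
      left_inv := fun x => by
        apply Subtype.ext
        simp
      right_inv := fun p => by
        obtain ⟨⟨t, ht⟩, ⟨k, hk⟩⟩ := p
        have hk' : f k = 1 := MonoidHom.mem_ker.mp hk
        have h1 : f (s t * k) = t := by rw [map_mul, hs, hk', mul_one]
        apply Prod.ext
        · exact Subtype.ext h1
        · apply Subtype.ext
          show (s (f (s t * k)))⁻¹ * (s t * k) = k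
          rw [h1, inv_mul_cancel_left] }

/-- Proportions: for a surjective homomorphism `f : H → G` of finite groups,
`#f⁻¹(T) / #H = #T / #G`. -/
theorem card_preimage_div {H G : Type*} [Group H] [Group G] [Finite H] (f : H →* G)
    (hf : Function.Surjective f) (T : Set G) :
    (Nat.card (f ⁻¹' T) : ℝ) / (Nat.card H : ℝ) = (Nat.card T : ℝ) / (Nat.card G : ℝ) := by
  have : Finite G := Finite.of_surjective f hf
  have h1 := card_preimage_mul_card f hf T
  have h2 : Nat.card H = Nat.card G * Nat.card f.ker := by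
    have h3 := card_preimage_mul_card f hf (Set.univ : Set G)
    rw [Set.preimage_univ, Nat.card_congr (Equiv.Set.univ H),
      Nat.card_congr (Equiv.Set.univ G)] at h3
    exact h3
  have hk : (Nat.card f.ker : ℝ) ≠ 0 := by
    exact_mod_cast (Nat.card_pos (α := f.ker)).ne'
  have hG : (Nat.card G : ℝ) ≠ 0 := by
    exact_mod_cast (Nat.card_pos (α := G)).ne'
  rw [h1, h2]
  push_cast
  field_simp

/-- **From a finite Galois level to the blueprint statement.** -/
theorem stmt_ChebDensity_of_Qbar (h : Stmt_ChebSymQbar) :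
    Fermat.Agent.S48.helper8231.Stmt_ChebDensity := by
  intro G _ _ π hπ hfin T hconj hinv S hS e he
  classical
  obtain ⟨L, hLfin, hL⟩ := hfin
  -- the normal closure of the level
  let E : IntermediateField ℚ Qb := IntermediateField.normalClosure ℚ ↥L Qb
  have : Normal ℚ Qb := Fermat.Agent.Lib.helper54.isGalois_Qbar.to_normal
  have : FiniteDimensional ℚ ↥E := normalClosure.is_finiteDimensional _ _ _
  have : Normal ℚ ↥E := normalClosure.normal _ _ _
  have : IsGalois ℚ ↥E := ⟨⟩
  have hle : L ≤ E := IntermediateField.le_normalClosure L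
  -- the restriction homomorphism and the factorisation of `π`
  let res : GQ →* (E ≃ₐ[ℚ] E) := AlgEquiv.restrictNormalHom (F := ℚ) (K₁ := Qb) E
  have hres : Function.Surjective res := AlgEquiv.restrictNormalHom_surjective Qb
  have hker : res.ker ≤ π.ker := by
    intro σ hσ
    rw [MonoidHom.mem_ker] at hσ ⊢
    refine hL σ (fun x hx => ?_)
    have h1 := AlgEquiv.restrictNormal_commutes σ E ⟨x, hle hx⟩
    have h2 : σ.restrictNormal E = 1 := hσ
    rw [h2] at h1
    exact h1.symm
  let πbar : (E ≃ₐ[ℚ] E) →* G := res.liftOfSurjective hres ⟨π, hker⟩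
  have hπbar : ∀ σ : GQ, πbar (res σ) = π σ := fun σ =>
    MonoidHom.liftOfRightInverse_comp_apply res _ (Function.rightInverse_surjInv hres) ⟨π, hker⟩ σ
  have hπbar_surj : Function.Surjective πbar := by
    intro g
    obtain ⟨σ, rfl⟩ := hπ g
    exact ⟨res σ, hπbar σ⟩
  set X : Set (E ≃ₐ[ℚ] E) := πbar ⁻¹' T with hX
  have hXconj : ∀ g x : E ≃ₐ[ℚ] E, x ∈ X → g * x * g⁻¹ ∈ X := by
    intro g x hx
    show πbar (g * x * g⁻¹) ∈ T
    rw [map_mul, map_mul, map_inv]
    exact hconj _ _ hx
  have hXinv : ∀ x ∈ X, x⁻¹ ∈ X := by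
    intro x hx
    show πbar x⁻¹ ∈ T
    rw [map_inv]
    exact hinv _ hx
  obtain ⟨C, hC⟩ := h E X hXconj hXinv S.primeFactors e he
  refine ⟨C, fun s hs1 hs2 => ?_⟩
  obtain ⟨P, hP, hsum⟩ := hC s hs1 hs2
  refine ⟨P, fun p hp => ?_, ?_⟩
  · obtain ⟨hpp, hpS, A, σ, hA, hσ, hσX⟩ := hP p hp
    refine ⟨hpp, fun hdvd => hpS (Nat.mem_primeFactors.mpr ⟨hpp, hdvd, hS⟩), A, hA, σ, hσ, ?_⟩
    have h1 : πbar (res σ) ∈ T := hσX
    rwa [hπbar] at h1
  · have hcard := card_preimage_div πbar hπbar_surj T
    rw [← hcard]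
    exact hsum

/-- **From the number-field form to the blueprint statement.** -/
theorem stmt_ChebDensity_of_NF (h : Stmt_ChebSymNF) :
    Fermat.Agent.S48.helper8231.Stmt_ChebDensity :=
  stmt_ChebDensity_of_Qbar (stmt_ChebSymQbar_of_NF h)

end Fermat.Agent.S48.helper1550
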