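import Fermat.Agent.S48.helper1550_ChebFinal
import Fermat.Agent.S48.helper1398_ChebAssembly
import Fermat.Agent.S48.helper4600_SymNormRes
import Fermat.Agent.S48.helper9319_CrossAbs
import Fermat.Agent.S48.helper9846_PairNF

/-!
# S48 / F5 — the Chebotarev density statement of the captain's Spec, unconditionally (helper1550)

`stmt_ChebDensity : helper8231.Stmt_ChebDensity`, assembled from the three seams of
`helper1398_ChebSpec` (SEAM 1 `helper4600.stmt_SymNormRes`, SEAM 2 `helper9846.stmt_PairNF` with
`helper9846.stmt_FrobClass`, SEAM 3 `helper9319.stmt_CrossAbs`), the assembly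
`helper1398.chebSymNF_of` and the Frobenius adapter `stmt_ChebDensity_of_spec`.
-/

set_option autoImplicit false

namespace Fermat.Agent.S48.helper1550

/-- The symmetric Chebotarev density theorem in the number-field form of `helper1398_ChebSpec`. -/
theorem stmt_ChebSymNF_spec : Fermat.Agent.S48.helper1398.Stmt_ChebSymNF :=
  Fermat.Agent.S48.helper1398.chebSymNF_of
    (Fermat.Agent.S48.helper9846.stmt_PairNF Fermat.Agent.S48.helper4600.stmt_SymNormRes)
    Fermat.Agent.S48.helper9319.stmt_CrossAbs
    Fermat.Agent.S48.helper9846.stmt_FrobClass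

/-- **`Stmt_ChebDensity` of the S48 Spec (Part I), unconditionally.** -/
theorem stmt_ChebDensity : Fermat.Agent.S48.helper8231.Stmt_ChebDensity :=
  stmt_ChebDensity_of_spec stmt_ChebSymNF_spec

end Fermat.Agent.S48.helper1550
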