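import Fermat.Agent.S48.helper160_SwapFrac
import Fermat.Agent.S24.helper3176_Dictionary

/-!
# S48-M2-SWAP1 (helper160): the twisted Atkin–Lehner swap embedding for a `Γ₁(M)` field

`L` a field with an embedding `i0 : L →+* ℂ`, `p` a prime not dividing `M`,
`E ≤ L((q))` a field of `q`-expansions of ratios of weight `k` functions on the upper half plane
invariant under `Γ₁(M)`, `D : E ≃ₐ[L] E` the diamond operator `⟨p⟩` (in the ratio sense:
`u = Q(F)/Q(H)` and `D⁻¹ u = Q(F∣γ)/Q(H∣γ)` for `γ ∈ Γ₀(M)` with lower right entry `≡ p⁻¹`),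
and `E'` a field generated by elements of `E`, elements `u(q^p)` (`u ∈ E`) and series `j(q^e)`,
`e ∣ M p`.  Then (`exists_swap1`) there is an embedding `w : E' →ₐ[L] L((q))` with

* `w u = u(q^{p²})` for `u ∈ E`,
* `w (u(q^p)) = (D⁻¹ u)(q^p)` for `u ∈ E`.

`w` is "`x ↦ q`-expansion of `x ∘ G`" for `G = γ₁ · diag(p², 1)`,
`γ₁ = [[1, b], [M, p d₀]] ∈ Γ₁(M)` (`p d₀ - M b = 1`):

* `e · Gτ = [[1, e b], [M/e, p d₀]] · (e p² τ)` for `e ∣ M`;
* `e p · Gτ = [[p, e b], [M/e, d₀]] · (e p τ)` for `e ∣ M`;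
* `p · Gτ = γ₂ · (p τ)`, `γ₂ = [[p, b], [M, d₀]] ∈ Γ₀(M)` with lower right entry `d₀ ≡ p⁻¹`;
* automorphy factors: `j(γ₁, p² τ) = p · j(γ₂, p τ)`.

The analytic dictionary is the landed `S24.helper3176.HasQExp` (convergent expansion on all of
`ℍ`); the algebra is `helper160_SwapFrac`.
-/

set_option autoImplicit false

open ModularCurve UpperHalfPlane CongruenceSubgroup
open scoped MatrixGroups ModularForm

namespace Fermat.Agent.S48.helper160

noncomputable section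

open Fermat.Agent.S24 Fermat.Agent.S24.helper3176

/-! ## The `HasQExp` dictionary -/

section Dictionary

variable {L : Type*} [Field L]

/-- The landed dictionary `HasQExp 1` is a dictionary in the sense of `IsDictW`, for the
coefficientwise embedding `coeffMap i0 : L((q)) → ℂ((q))`. -/
theorem isDictW_hasQExp (i0 : L →+* ℂ) :
    IsDictW (K := LaurentSeries L) i0 (coeffMap i0) (HasQExp 1) where
  add := fun hf hg => HasQExp.add hf hg
  mul := fun hf hg => HasQExp.mul hf hg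
  const := fun l => by
    rw [algebraMap_laurentSeries_eq_single, coeffMap_single]
    exact hasQExp_const 1 (i0 l)
  series_unique := fun hf hg => HasQExp.unique_right one_pos hf hg
  fun_unique := fun hf hg => HasQExp.unique_left hf hg

end Dictionary

/-! ## The Möbius substitution -/

section Moebius

/-- An element of `SL(2, ℤ)` given by its entries. -/
def mkSL2 (a b c e : ℤ) (h : a * e - b * c = 1) : SL(2, ℤ) :=
  ⟨!![a, b; c, e], by rw [Matrix.det_fin_two_of]; exact h⟩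

theorem coe_mkSL2_smul (a b c e : ℤ) (h : a * e - b * c = 1) (τ : ℍ) :
    ((mkSL2 a b c e h • τ : ℍ) : ℂ) = ((a : ℂ) * τ + b) / ((c : ℂ) * τ + e) := by
  rw [coe_specialLinearGroup_apply]
  simp [mkSL2]

theorem denom_mkSL2 (a b c e : ℤ) (h : a * e - b * c = 1) (τ : ℍ) :
    denom (mkSL2 a b c e h) τ = (c : ℂ) * τ + e := by
  rw [ModularGroup.denom_apply]
  simp [mkSL2]

/-- The point `d τ` of the upper half plane. -/
def scalePt (d : ℕ) (τ : ℍ) : ℍ := ofComplex ((d : ℂ) * (τ : ℂ))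

theorem coe_scalePt (d : ℕ) [NeZero d] (τ : ℍ) : ((scalePt d τ : ℍ) : ℂ) = (d : ℂ) * (τ : ℂ) :=
  coe_ofComplex_natCast_mul d τ

theorem scalePt_surjective (d : ℕ) [NeZero d] : Function.Surjective (scalePt d) := by
  intro σ
  have hd : (0 : ℝ) < d := by exact_mod_cast NeZero.pos d
  have hdc : (d : ℂ) ≠ 0 := by exact_mod_cast NeZero.ne d
  have him : 0 < ((σ : ℂ) / (d : ℂ)).im := by
    have : ((σ : ℂ) / (d : ℂ)).im = σ.im / d := by
      rw [Complex.div_natCast_im]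
      rfl
    rw [this]
    exact div_pos σ.im_pos hd
  refine ⟨⟨(σ : ℂ) / (d : ℂ), him⟩, ?_⟩
  apply UpperHalfPlane.ext
  rw [coe_scalePt]
  show (d : ℂ) * ((σ : ℂ) / (d : ℂ)) = σ
  field_simp

/-- Composition of scalings. -/
theorem scalePt_scalePt (d e : ℕ) [NeZero d] [NeZero e] (τ : ℍ) :
    scalePt d (scalePt e τ) = scalePt (d * e) τ := by
  apply UpperHalfPlane.ext
  rw [coe_scalePt, coe_scalePt, coe_scalePt]
  push_cast
  ring

/-- Conjugation of an integral matrix by a scaling: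
`e · ([[a, b], [e c, d]] σ) = [[a, e b], [c, d]] (e σ)`. -/
theorem scalePt_mkSL2_smul (e : ℕ) [NeZero e] (a b' c d : ℤ)
    (h : a * d - b' * ((e : ℤ) * c) = 1) (h' : a * d - ((e : ℤ) * b') * c = 1) (σ : ℍ) :
    scalePt e (mkSL2 a b' ((e : ℤ) * c) d h • σ) = mkSL2 a ((e : ℤ) * b') c d h' • scalePt e σ := by
  apply UpperHalfPlane.ext
  rw [coe_scalePt, coe_mkSL2_smul, coe_mkSL2_smul, coe_scalePt, ← mul_div_assoc]
  push_cast
  congr 1 <;> ring

/-- Cancelling a scaling against a matrix with lower right entry divisible by `p`: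
`p · ([[a, b], [c, p d]] (p σ)) = [[p a, b], [c, d]] σ`. -/
theorem scalePt_mkSL2_smul_scalePt (p : ℕ) [NeZero p] (a b' c d : ℤ)
    (h : a * ((p : ℤ) * d) - b' * c = 1) (h' : ((p : ℤ) * a) * d - b' * c = 1) (σ : ℍ) :
    scalePt p (mkSL2 a b' c ((p : ℤ) * d) h • scalePt p σ) = mkSL2 ((p : ℤ) * a) b' c d h' • σ := by
  apply UpperHalfPlane.ext
  have hp : (p : ℂ) ≠ 0 := by exact_mod_cast NeZero.ne p
  rw [coe_scalePt, coe_mkSL2_smul, coe_mkSL2_smul, coe_scalePt, ← mul_div_assoc]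
  push_cast
  have e1 : (c : ℂ) * ((p : ℂ) * (σ : ℂ)) + (p : ℂ) * (d : ℂ)
      = (p : ℂ) * ((c : ℂ) * (σ : ℂ) + (d : ℂ)) := by ring
  have e2 : (p : ℂ) * ((a : ℂ) * ((p : ℂ) * (σ : ℂ)) + (b' : ℂ))
      = (p : ℂ) * ((p : ℂ) * (a : ℂ) * (σ : ℂ) + (b' : ℂ)) := by ring
  rw [e1, e2, mul_div_mul_left _ _ hp]

variable (M p : ℕ) (b d0 : ℤ) (hbd : (p : ℤ) * d0 - (M : ℤ) * b = 1)

/-- The matrix `γ₁ = [[1, b], [M, p d₀]]` of `Γ₁(M)`. -/
def gammaOne : SL(2, ℤ) := mkSL2 1 b M (p * d0) (by linear_combination hbd)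

/-- The matrix `γ₂ = [[p, b], [M, d₀]]` of `Γ₀(M)`, with lower right entry `d₀ ≡ p⁻¹`. -/
def gammaTwo : SL(2, ℤ) := mkSL2 p b M d0 (by linear_combination hbd)

theorem gammaOne_mem_Gamma1 : gammaOne M p b d0 hbd ∈ Gamma1 M := by
  rw [Gamma1_mem]
  have h11 : (((p : ℤ) * d0 : ℤ) : ZMod M) = 1 := by
    have h := congrArg (Int.cast : ℤ → ZMod M) hbd
    push_cast at h
    rw [ZMod.natCast_self, zero_mul, sub_zero] at h
    push_cast
    exact h
  refine ⟨?_, ?_, ?_⟩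
  · simp [gammaOne, mkSL2]
  · simpa [gammaOne, mkSL2] using h11
  · simp [gammaOne, mkSL2]

theorem gammaTwo_mem_Gamma0 : gammaTwo M p b d0 hbd ∈ Gamma0 M := by
  rw [Gamma0_mem]
  simp [gammaTwo, mkSL2]

theorem gammaTwo_lowerRight :
    (((gammaTwo M p b d0 hbd) 1 1 : ℤ) : ZMod M) * (p : ZMod M) = 1 := by
  have h := congrArg (Int.cast : ℤ → ZMod M) hbd
  push_cast at h
  rw [ZMod.natCast_self, zero_mul, sub_zero] at h
  have e : ((gammaTwo M p b d0 hbd) 1 1 : ℤ) = d0 := by simp [gammaTwo, mkSL2]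
  rw [e, mul_comm]
  exact h

/-- The substitution `τ ↦ Gτ`, `G = γ₁ · diag(p², 1) = [[p², b], [M p², p d₀]]`. -/
def swapPt1 (τ : ℍ) : ℍ := gammaOne M p b d0 hbd • scalePt (p ^ 2) τ

/-- The automorphy factor of the substitution: `j(γ₁, p² τ) = M p² τ + p d₀`. -/
def swapMu (τ : ℍ) : ℂ := denom (gammaOne M p b d0 hbd) (scalePt (p ^ 2) τ)

theorem swapMu_ne_zero (τ : ℍ) : swapMu M p b d0 hbd τ ≠ 0 :=
  UpperHalfPlane.denom_ne_zero _ _

theorem swapPt1_surjective [NeZero p] : Function.Surjective (swapPt1 M p b d0 hbd) := by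
  intro σ
  obtain ⟨τ, hτ⟩ := scalePt_surjective (p ^ 2) ((gammaOne M p b d0 hbd)⁻¹ • σ)
  refine ⟨τ, ?_⟩
  rw [swapPt1, hτ, smul_inv_smul]

/-- `p · Gτ = γ₂ · (p τ)`. -/
theorem scalePt_swapPt1 [NeZero p] (τ : ℍ) :
    scalePt p (swapPt1 M p b d0 hbd τ) = gammaTwo M p b d0 hbd • scalePt p τ := by
  have e : scalePt (p ^ 2) τ = scalePt p (scalePt p τ) := by
    rw [scalePt_scalePt]
    exact congrArg (fun n => scalePt n τ) (pow_two p)
  rw [swapPt1, e, gammaOne, gammaTwo]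
  have h' : ((p : ℤ) * 1) * d0 - b * (M : ℤ) = 1 := by linear_combination hbd
  rw [scalePt_mkSL2_smul_scalePt p 1 b M d0 _ h']
  congr 2
  rw [mul_one]

/-- `j(γ₁, p² τ) = p · j(γ₂, p τ)`. -/
theorem swapMu_eq [NeZero p] (τ : ℍ) :
    swapMu M p b d0 hbd τ = (p : ℂ) * denom (gammaTwo M p b d0 hbd) (scalePt p τ) := by
  rw [swapMu, gammaOne, gammaTwo, denom_mkSL2, denom_mkSL2, coe_scalePt, coe_scalePt]
  push_cast
  ring

/-- `e · Gτ = [[1, e b], [M/e, p d₀]] · (e p² τ)` for `e ∣ M`: the point `e · Gτ` is an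
`SL(2, ℤ)`-translate of `e p² τ`. -/
theorem exists_scalePt_swapPt1_of_dvd [NeZero p] (e e' : ℕ) [NeZero e] (hM : M = e * e') (τ : ℍ) :
    ∃ γ : SL(2, ℤ), scalePt e (swapPt1 M p b d0 hbd τ) = γ • scalePt (e * p ^ 2) τ := by
  subst hM
  have h1 : (1 : ℤ) * ((p : ℤ) * d0) - b * ((e : ℤ) * (e' : ℤ)) = 1 := by
    push_cast at hbd
    linear_combination hbd
  have h2 : (1 : ℤ) * ((p : ℤ) * d0) - ((e : ℤ) * b) * (e' : ℤ) = 1 := by
    linear_combination h1
  refine ⟨mkSL2 1 ((e : ℤ) * b) e' ((p : ℤ) * d0) h2, ?_⟩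
  have e0 : gammaOne (e * e') p b d0 hbd = mkSL2 1 b ((e : ℤ) * (e' : ℤ)) ((p : ℤ) * d0) h1 := by
    unfold gammaOne
    congr 1
  rw [swapPt1, e0, scalePt_mkSL2_smul e 1 b e' ((p : ℤ) * d0) h1 h2, scalePt_scalePt]

/-- `e p · Gτ = [[p, e b], [M/e, d₀]] · (e p τ)` for `e ∣ M`. -/
theorem exists_scalePt_swapPt1_of_mul [NeZero p] (e e' : ℕ) [NeZero e] (hM : M = e * e') (τ : ℍ) :
    ∃ γ : SL(2, ℤ), scalePt (e * p) (swapPt1 M p b d0 hbd τ) = γ • scalePt (e * p) τ := by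
  subst hM
  have h1 : (p : ℤ) * d0 - b * ((e : ℤ) * (e' : ℤ)) = 1 := by
    push_cast at hbd
    linear_combination hbd
  have h2 : (p : ℤ) * d0 - ((e : ℤ) * b) * (e' : ℤ) = 1 := by
    linear_combination h1
  refine ⟨mkSL2 p ((e : ℤ) * b) e' d0 h2, ?_⟩
  have e0 : gammaTwo (e * e') p b d0 hbd = mkSL2 p b ((e : ℤ) * (e' : ℤ)) d0 h1 := by
    unfold gammaTwo
    congr 1
  rw [← scalePt_scalePt e p, scalePt_swapPt1, e0,
    scalePt_mkSL2_smul e p b e' d0 h1 h2, scalePt_scalePt]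

end Moebius

/-! ## Swap partners -/

section Partners

variable {L : Type*} [Field L] (i0 : L →+* ℂ)
variable (M p : ℕ) (b d0 : ℤ) (hbd : (p : ℤ) * d0 - (M : ℤ) * b = 1)

/-- The swap relation of the `Γ₁(M)` instance. -/
abbrev SwapRel1 (x y : LaurentSeries L) : Prop :=
  FRel (coeffMap i0) (HasQExp 1) (swapPt1 M p b d0 hbd) (swapMu M p b d0 hbd) x y

/-- `τ ↦ j(e τ)` has the expansion `j(q^e)`. -/
theorem hasQExp_jq (e : ℕ) [NeZero e] :
    HasQExp 1 (fun τ : ℍ => helper1644.jFun (scalePt e τ))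
      (coeffMap i0 (qExpand L e (jqModC L))) := by
  rw [coeffMap_qExpand, coeffMap_jqModC]
  have h := hasQExp_jFun_scale e
  rw [← jqModC_rat, coeffMap_jqModC] at h
  exact h

/-- Every generator `j(q^e)`, `e ∣ M p`, has a swap partner (namely `j(q^e)` if `p ∣ e` and
`j(q^{e p²})` otherwise). -/
theorem exists_swapRel1_jq [NeZero p] (hp : p.Prime) (e : ℕ) [NeZero e] (he : e ∣ M * p) :
    ∃ y, SwapRel1 i0 M p b d0 hbd (qExpand L e (jqModC L)) y := by
  by_cases hpe : p ∣ e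
  · obtain ⟨e1, rfl⟩ := hpe
    have he1 : e1 ∣ M := by
      rw [mul_comm M p] at he
      exact Nat.dvd_of_mul_dvd_mul_left hp.pos he
    obtain ⟨e', hM⟩ := he1
    have hne1 : NeZero e1 := ⟨fun h0 => NeZero.ne (p * e1) (by rw [h0, mul_zero])⟩
    refine ⟨qExpand L (p * e1) (jqModC L), FRel.of_wRel (isDictW_hasQExp i0)
      ⟨_, hasQExp_jq i0 (p * e1), ?_⟩⟩
    have hfun : wSlash (swapPt1 M p b d0 hbd) (swapMu M p b d0 hbd) 0
        (fun τ : ℍ => helper1644.jFun (scalePt (p * e1) τ))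
        = fun τ : ℍ => helper1644.jFun (scalePt (p * e1) τ) := by
      rw [wSlash_zero_weight]
      funext τ
      obtain ⟨γ, hγ⟩ := exists_scalePt_swapPt1_of_mul M p b d0 hbd e1 e' hM τ
      show helper1644.jFun (scalePt (p * e1) (swapPt1 M p b d0 hbd τ)) = _
      rw [mul_comm p e1, hγ, helper1644.jFun_smul]
    rw [hfun]
    exact hasQExp_jq i0 (p * e1)
  · have heM : e ∣ M :=
      Nat.Coprime.dvd_of_dvd_mul_right ((Nat.Prime.coprime_iff_not_dvd hp).mpr hpe).symm he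
    obtain ⟨e', hM⟩ := heM
    refine ⟨qExpand L (e * p ^ 2) (jqModC L), FRel.of_wRel (isDictW_hasQExp i0)
      ⟨_, hasQExp_jq i0 e, ?_⟩⟩
    have hfun : wSlash (swapPt1 M p b d0 hbd) (swapMu M p b d0 hbd) 0
        (fun τ : ℍ => helper1644.jFun (scalePt e τ))
        = fun τ : ℍ => helper1644.jFun (scalePt (e * p ^ 2) τ) := by
      rw [wSlash_zero_weight]
      funext τ
      obtain ⟨γ, hγ⟩ := exists_scalePt_swapPt1_of_dvd M p b d0 hbd e e' hM τ
      show helper1644.jFun (scalePt e (swapPt1 M p b d0 hbd τ)) = _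
      rw [hγ, helper1644.jFun_smul]
    rw [hfun]
    exact hasQExp_jq i0 (e * p ^ 2)

/-- First substitution identity: for `F` of weight `k` invariant under `γ₁`, the weight `k`
substitution of `F` is `τ ↦ F(p² τ)`. -/
theorem wSlash_swap_of_invariant (k : ℤ) (F : ℍ → ℂ)
    (hF : F ∣[k] gammaOne M p b d0 hbd = F) :
    wSlash (swapPt1 M p b d0 hbd) (swapMu M p b d0 hbd) k F
      = fun τ : ℍ => F (scalePt (p ^ 2) τ) := by
  funext τ
  have h := congrFun hF (scalePt (p ^ 2) τ)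
  rw [ModularForm.SL_slash_apply] at h
  rw [wSlash_apply, swapPt1, swapMu, mul_comm]
  exact h

/-- Second substitution identity: the weight `k` substitution of `τ ↦ F(p τ)` is
`τ ↦ p^{-k} (F ∣[k] γ₂)(p τ)`. -/
theorem wSlash_swap_scale [NeZero p] (k : ℤ) (F : ℍ → ℂ) :
    wSlash (swapPt1 M p b d0 hbd) (swapMu M p b d0 hbd) k (fun τ : ℍ => F (scalePt p τ))
      = fun τ : ℍ => (p : ℂ) ^ (-k) * (F ∣[k] gammaTwo M p b d0 hbd) (scalePt p τ) := by
  funext τ
  have hp : (p : ℂ) ≠ 0 := by exact_mod_cast NeZero.ne p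
  have hd : denom (gammaTwo M p b d0 hbd) (scalePt p τ) ≠ 0 := UpperHalfPlane.denom_ne_zero _ _
  rw [wSlash_apply, scalePt_swapPt1, swapMu_eq, ModularForm.SL_slash_apply, mul_zpow]
  ring

/-- The swap partner of `u = a / b` (ratio of the expansions of two weight `k` functions
invariant under `γ₁`) is `u(q^{p²})`. -/
theorem swapRel1_of_invariant [NeZero p] (k : ℤ) (F H : ℍ → ℂ) (a b' : LaurentSeries ℂ)
    (hF : F ∣[k] gammaOne M p b d0 hbd = F) (hH : H ∣[k] gammaOne M p b d0 hbd = H)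
    (hFa : HasQExp 1 F a) (hHb : HasQExp 1 H b') (hb : b' ≠ 0) (u : LaurentSeries L)
    (hu : coeffMap i0 u * b' = a) :
    SwapRel1 i0 M p b d0 hbd u (qExpand L (p ^ 2) u) := by
  refine ⟨k, a, b', qExpand ℂ (p ^ 2) a, qExpand ℂ (p ^ 2) b', ⟨F, hFa, ?_⟩, ⟨H, hHb, ?_⟩, hb, hu,
    ?_⟩
  · rw [wSlash_swap_of_invariant M p b d0 hbd k F hF]
    exact HasQExp.scale (p ^ 2) hFa
  · rw [wSlash_swap_of_invariant M p b d0 hbd k H hH]
    exact HasQExp.scale (p ^ 2) hHb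
  · rw [coeffMap_qExpand, ← map_mul, hu]

/-- The swap partner of `u(q^p)`, `u = a / b` a ratio of expansions of two functions `F`, `H`,
is `v(q^p)`, where `v = a' / b'` is the ratio of the expansions of `F ∣[k] γ₂`, `H ∣[k] γ₂`. -/
theorem swapRel1_scale [NeZero p] (k : ℤ) (F H : ℍ → ℂ) (a b' a₂ b₂ : LaurentSeries ℂ)
    (hFa : HasQExp 1 F a) (hHb : HasQExp 1 H b') (hb : b' ≠ 0)
    (hFa' : HasQExp 1 (F ∣[k] gammaTwo M p b d0 hbd) a₂)
    (hHb' : HasQExp 1 (H ∣[k] gammaTwo M p b d0 hbd) b₂)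
    (u v : LaurentSeries L) (hu : coeffMap i0 u * b' = a) (hv : coeffMap i0 v * b₂ = a₂) :
    SwapRel1 i0 M p b d0 hbd (qExpand L p u) (qExpand L p v) := by
  refine ⟨k, qExpand ℂ p a, qExpand ℂ p b',
    HahnSeries.C ((p : ℂ) ^ (-k)) * qExpand ℂ p a₂, HahnSeries.C ((p : ℂ) ^ (-k)) * qExpand ℂ p b₂,
    ⟨fun τ => F (scalePt p τ), HasQExp.scale p hFa, ?_⟩,
    ⟨fun τ => H (scalePt p τ), HasQExp.scale p hHb, ?_⟩, ?_, ?_, ?_⟩
  · rw [wSlash_swap_scale]
    exact (HasQExp.scale p hFa').const_mul _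
  · rw [wSlash_swap_scale]
    exact (HasQExp.scale p hHb').const_mul _
  · exact fun h0 => hb (qExpand_injective (R := ℂ) p (h0.trans (map_zero _).symm))
  · rw [coeffMap_qExpand, ← map_mul, hu]
  · rw [coeffMap_qExpand, mul_left_comm, ← map_mul, hv]

end Partners

/-! ## The swap embedding -/

section Main

variable {L : Type*} [Field L]

/-- **The diamond hypothesis, ratio form** ("`D` is the diamond operator `⟨p⟩` of `E`"):
every `u ∈ E` is, for every `γ ∈ Γ₀(M)` with lower right entry `≡ p⁻¹ mod M`, the ratio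
`u = a / b` of the `q`-expansions of two functions `F`, `H` on `ℍ` of some weight `k`, invariant
under `Γ₁(M)`, such that `D⁻¹ u = a' / b'` is the ratio of the `q`-expansions of `F ∣[k] γ` and
`H ∣[k] γ`.  (`HasQExp` is the landed `S24.helper3176.HasQExp`: convergent expansion on all of
`ℍ`; for modular forms `F`, `H` on `Γ₁(M)` this is `qExpansion 1`.) -/
def DiamondRatio (i0 : L →+* ℂ) (M p : ℕ) (E : IntermediateField L (LaurentSeries L))
    (D : E ≃ₐ[L] E) : Prop :=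
  ∀ (u : E) (γ : SL(2, ℤ)), γ ∈ Gamma0 M → ((γ 1 1 : ℤ) : ZMod M) * (p : ZMod M) = 1 →
    ∃ (k : ℤ) (F H : ℍ → ℂ) (a b a' b' : LaurentSeries ℂ),
      (∀ δ ∈ Gamma1 M, F ∣[k] δ = F) ∧ (∀ δ ∈ Gamma1 M, H ∣[k] δ = H) ∧
      HasQExp 1 F a ∧ HasQExp 1 H b ∧ b ≠ 0 ∧ coeffMap i0 (u : LaurentSeries L) * b = a ∧
      HasQExp 1 (F ∣[k] γ) a' ∧ HasQExp 1 (H ∣[k] γ) b' ∧
      coeffMap i0 ((D.symm u : E) : LaurentSeries L) * b' = a'

/-- **S48-M2-SWAP1: the twisted Atkin–Lehner swap embedding for a `Γ₁(M)` field.**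

`p` a prime not dividing `M`, `E` a field of Laurent series with an automorphism `D` which is
the diamond operator `⟨p⟩` in the ratio sense (`DiamondRatio`), `E' = L(S')` where every element
of `S'` is an element of `E`, or `u(q^p)` for some `u ∈ E`, or some `j(q^e)`, `e ∣ M p`.
Then there is an embedding `w : E' →ₐ[L] L((q))` with `w u = u(q^{p²})` and
`w (u(q^p)) = (D⁻¹ u)(q^p)` for all `u ∈ E`. -/
theorem exists_swap1 (i0 : L →+* ℂ) (M p : ℕ) [NeZero p] (hp : p.Prime) (hpM : ¬ p ∣ M)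
    (S' : Set (LaurentSeries L)) (E E' : IntermediateField L (LaurentSeries L))
    (hE' : E' = IntermediateField.adjoin L S') (D : E ≃ₐ[L] E)
    (hS' : ∀ s ∈ S', s ∈ E ∨ (∃ u : E, s = qExpand L p (u : LaurentSeries L)) ∨
      ∃ (e : ℕ) (_ : NeZero e), e ∣ M * p ∧ s = qExpand L e (jqModC L))
    (hD : DiamondRatio i0 M p E D) :
    ∃ w : E' →ₐ[L] LaurentSeries L,
      (∀ (u : E) (hu : (u : LaurentSeries L) ∈ E'),
        w ⟨u, hu⟩ = qExpand L (p ^ 2) (u : LaurentSeries L)) ∧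
      (∀ (u : E) (hu : qExpand L p (u : LaurentSeries L) ∈ E'),
        w ⟨qExpand L p (u : LaurentSeries L), hu⟩
          = qExpand L p ((D.symm u : E) : LaurentSeries L)) := by
  -- the matrix
  have hcop : IsCoprime (p : ℤ) (M : ℤ) :=
    Nat.isCoprime_iff_coprime.mpr ((Nat.Prime.coprime_iff_not_dvd hp).mpr hpM)
  obtain ⟨x, y, hxy⟩ := hcop
  have hbd : (p : ℤ) * x - (M : ℤ) * (-y) = 1 := by linear_combination hxy
  have h1 : ∀ u : E, SwapRel1 i0 M p (-y) x hbd (u : LaurentSeries L)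
      (qExpand L (p ^ 2) (u : LaurentSeries L)) := by
    intro u
    obtain ⟨k, F, H, a, b, a', b', hF, hH, hFa, hHb, hb, hu, -, -, -⟩ :=
      hD u _ (gammaTwo_mem_Gamma0 M p (-y) x hbd) (gammaTwo_lowerRight M p (-y) x hbd)
    exact swapRel1_of_invariant i0 M p (-y) x hbd k F H a b
      (hF _ (gammaOne_mem_Gamma1 M p (-y) x hbd)) (hH _ (gammaOne_mem_Gamma1 M p (-y) x hbd))
      hFa hHb hb _ hu
  have h2 : ∀ u : E, SwapRel1 i0 M p (-y) x hbd (qExpand L p (u : LaurentSeries L))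
      (qExpand L p ((D.symm u : E) : LaurentSeries L)) := by
    intro u
    obtain ⟨k, F, H, a, b, a', b', -, -, hFa, hHb, hb, hu, hFa', hHb', hv⟩ :=
      hD u _ (gammaTwo_mem_Gamma0 M p (-y) x hbd) (gammaTwo_lowerRight M p (-y) x hbd)
    exact swapRel1_scale i0 M p (-y) x hbd k F H a b a' b' hFa hHb hb hFa' hHb' _ _ hu hv
  refine exists_swap_of_fRel (isDictW_hasQExp i0) (swapMu_ne_zero M p (-y) x hbd)
    (swapPt1_surjective M p (-y) x hbd) p S' E E' hE' D ?_ h1 h2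
  intro s hs
  rcases hS' s hs with hsE | ⟨u, rfl⟩ | ⟨e, he0, he, rfl⟩
  · exact ⟨_, h1 ⟨s, hsE⟩⟩
  · exact ⟨_, h2 u⟩
  · exact exists_swapRel1_jq i0 M p (-y) x hbd hp e he

/-- **S48-M2-SWAP1, for any field between**: the same conclusion for every `E'` contained in
`E ⊔ V_p(E) ⊔ F_{M p}` (`V_p(E)` the image of `E` under `u ↦ u(q^p)`, `F_{M p}` the `Γ₀(M p)`
field `L(j(q^e) : e ∣ M p)`), e.g. `E' = E ⊔ F_{M p}` or `E' = E ⊔ V_p(E)`. -/
theorem exists_swap1_of_le (i0 : L →+* ℂ) (M p : ℕ) [NeZero M] [NeZero p] (hp : p.Prime)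
    (hpM : ¬ p ∣ M) (E E' : IntermediateField L (LaurentSeries L))
    (hE' : E' ≤ E ⊔ E.map (qExpandAlgHomC L p) ⊔ modularFunctionFieldFullC L (M * p))
    (D : E ≃ₐ[L] E) (hD : DiamondRatio i0 M p E D) :
    ∃ w : E' →ₐ[L] LaurentSeries L,
      (∀ (u : E) (hu : (u : LaurentSeries L) ∈ E'),
        w ⟨u, hu⟩ = qExpand L (p ^ 2) (u : LaurentSeries L)) ∧
      (∀ (u : E) (hu : qExpand L p (u : LaurentSeries L) ∈ E'),
        w ⟨qExpand L p (u : LaurentSeries L), hu⟩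
          = qExpand L p ((D.symm u : E) : LaurentSeries L)) := by
  set S' : Set (LaurentSeries L) :=
    ((E : Set (LaurentSeries L)) ∪ (fun x => qExpand L p x) '' (E : Set (LaurentSeries L)))
      ∪ divisorExpansionsC L (M * p) with hS'def
  obtain ⟨w, hw1, hw2⟩ := exists_swap1 i0 M p hp hpM S' E (IntermediateField.adjoin L S') rfl D
    (by
      rintro s ((hs | ⟨u, hu, rfl⟩) | ⟨e, he0, he, rfl⟩)
      · exact Or.inl hs
      · exact Or.inr (Or.inl ⟨⟨u, hu⟩, rfl⟩)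
      · exact Or.inr (Or.inr ⟨e, he0, he, rfl⟩)) hD
  have hle : E' ≤ IntermediateField.adjoin L S' := by
    refine hE'.trans (sup_le (sup_le ?_ ?_) ?_)
    · exact fun x hx => IntermediateField.subset_adjoin L S' (Or.inl (Or.inl hx))
    · rintro _ ⟨u, hu, rfl⟩
      exact IntermediateField.subset_adjoin L S' (Or.inl (Or.inr ⟨u, hu, rfl⟩))
    · exact IntermediateField.adjoin.mono L _ _ Set.subset_union_right
  exact ⟨w.comp (IntermediateField.inclusion hle), fun u hu => hw1 u (hle hu),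
    fun u hu => hw2 u (hle hu)⟩

end Main

end

end Fermat.Agent.S48.helper160
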