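import Mathlib
import Fermat.Prelude.Def_ModularCurve_X0ModL

/-!
# S48-M2-SWAP1 (helper160): the weighted fraction engine

Carrier-free algebra behind the twisted Atkin–Lehner swap embedding, in the generality needed for
fields of *ratios of modular forms* (the generators need not be holomorphic on the upper half
plane).

Setting: `L` a field, `K` a field over `L` (in the application `K = L((q))`), `K'` a second field
with a ring hom `c : K →+* K'` (`K' = ℂ((q))`, `c` = coefficientwise embedding), `X` a set of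
points (`ℍ`), `C` a field (`ℂ`), `Q : (X → C) → K' → Prop` a dictionary ("`a` is the expansion of
`f`", `IsDictW`), `G : X → X` a surjective substitution and `μ : X → C` a nowhere vanishing
automorphy factor.

* `wSlash G μ k f = μ^{-k} · (f ∘ G)` : the weight `k` substitution;
* `WRel k a b` : `a` is the expansion of some `f` and `b` is the expansion of `wSlash k f`;
* `FRel x y` (`x y : K`) : `c x = a₁ / a₂`, `c y = b₁ / b₂` with `WRel k a₁ b₁`, `WRel k a₂ b₂`
  for one weight `k` ("`y` is the expansion of `x ∘ G`, for `x` a ratio of two forms of equal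
  weight");
* `FRel` is the graph of an `L`-algebra hom `fracHom` defined on an intermediate field
  `fracField` of `K / L` (`FRel.unique`, `.add`, `.mul`, `.inv`, `fRel_const`);
* `exists_algHom_of_fRel` : for `S' ⊆ fracField` there is `w : L(S') →ₐ[L] K` with `w x = y`
  whenever `FRel x y`;
* `exists_swap_of_fRel` : the `(SWAP)` statement.
-/

set_option autoImplicit false
set_option linter.unusedSectionVars false

open IntermediateField

namespace Fermat.Agent.S48.helper160

noncomputable section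

section FracDict

variable {L K K' : Type*} [Field L] [Field K] [Algebra L K] [Field K'] {X C : Type*} [Field C]

/-- The weight `k` substitution `f ↦ μ^{-k} · (f ∘ G)`. -/
def wSlash (G : X → X) (μ : X → C) (k : ℤ) (f : X → C) : X → C :=
  fun x => μ x ^ (-k) * f (G x)

theorem wSlash_apply (G : X → X) (μ : X → C) (k : ℤ) (f : X → C) (x : X) :
    wSlash G μ k f x = μ x ^ (-k) * f (G x) := rfl

theorem wSlash_add (G : X → X) (μ : X → C) (k : ℤ) (f g : X → C) :
    wSlash G μ k (f + g) = wSlash G μ k f + wSlash G μ k g := by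
  funext x
  simp only [wSlash, Pi.add_apply, mul_add]

theorem wSlash_mul {G : X → X} {μ : X → C} (hμ : ∀ x, μ x ≠ 0) (k l : ℤ) (f g : X → C) :
    wSlash G μ (k + l) (f * g) = wSlash G μ k f * wSlash G μ l g := by
  funext x
  simp only [wSlash, Pi.mul_apply]
  rw [neg_add, zpow_add₀ (hμ x)]
  ring

theorem wSlash_zero_weight (G : X → X) (μ : X → C) (f : X → C) : wSlash G μ 0 f = f ∘ G := by
  funext x
  simp [wSlash]

theorem wSlash_eq_zero {G : X → X} {μ : X → C} (hμ : ∀ x, μ x ≠ 0)
    (hG : Function.Surjective G) {k : ℤ} {f : X → C} (h : wSlash G μ k f = 0) : f = 0 := by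
  funext y
  obtain ⟨x, rfl⟩ := hG y
  have h1 := congrFun h x
  simp only [wSlash, Pi.zero_apply, mul_eq_zero] at h1
  rcases h1 with h0 | h0
  · exact absurd h0 (zpow_ne_zero _ (hμ x))
  · exact h0

/-- A dictionary between functions `X → C` and elements of `K'`, containing the constants of `L`
(through `i0 : L →+* C` on the function side and `c ∘ algebraMap` on the series side). -/
structure IsDictW (i0 : L →+* C) (c : K →+* K') (Q : (X → C) → K' → Prop) : Prop where
  add : ∀ {f g : X → C} {a b : K'}, Q f a → Q g b → Q (f + g) (a + b)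
  mul : ∀ {f g : X → C} {a b : K'}, Q f a → Q g b → Q (f * g) (a * b)
  const : ∀ l : L, Q (fun _ => i0 l) (c (algebraMap L K l))
  series_unique : ∀ {f : X → C} {a b : K'}, Q f a → Q f b → a = b
  fun_unique : ∀ {f g : X → C} {a : K'}, Q f a → Q g a → f = g

/-- `a` is the expansion of some `f`, and `b` is the expansion of the weight `k` substitution
of `f`. -/
def WRel (Q : (X → C) → K' → Prop) (G : X → X) (μ : X → C) (k : ℤ) (a b : K') : Prop :=
  ∃ f : X → C, Q f a ∧ Q (wSlash G μ k f) b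

variable {i0 : L →+* C} {c : K →+* K'} {Q : (X → C) → K' → Prop} {G : X → X} {μ : X → C}

theorem IsDictW.zero (hQ : IsDictW i0 c Q) : Q (fun _ => (0 : C)) (0 : K') := by
  have h := hQ.const 0
  rwa [map_zero, map_zero, map_zero] at h

theorem WRel.unique (hQ : IsDictW i0 c Q) {k : ℤ} {a b b' : K'} (h : WRel Q G μ k a b)
    (h' : WRel Q G μ k a b') : b = b' := by
  obtain ⟨f, hf, hfG⟩ := h
  obtain ⟨f', hf', hfG'⟩ := h'
  have e : f = f' := hQ.fun_unique hf hf'
  subst e
  exact hQ.series_unique hfG hfG'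

theorem wRel_const (hQ : IsDictW i0 c Q) (G : X → X) (μ : X → C) (l : L) :
    WRel Q G μ 0 (c (algebraMap L K l)) (c (algebraMap L K l)) := by
  refine ⟨fun _ => i0 l, hQ.const l, ?_⟩
  rw [wSlash_zero_weight]
  exact hQ.const l

theorem WRel.add (hQ : IsDictW i0 c Q) {k : ℤ} {a a' b b' : K'} (h : WRel Q G μ k a b)
    (h' : WRel Q G μ k a' b') : WRel Q G μ k (a + a') (b + b') := by
  obtain ⟨f, hf, hfG⟩ := h
  obtain ⟨f', hf', hfG'⟩ := h'
  refine ⟨f + f', hQ.add hf hf', ?_⟩
  rw [wSlash_add]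
  exact hQ.add hfG hfG'

theorem WRel.mul (hQ : IsDictW i0 c Q) (hμ : ∀ x, μ x ≠ 0) {k l : ℤ} {a a' b b' : K'}
    (h : WRel Q G μ k a b) (h' : WRel Q G μ l a' b') :
    WRel Q G μ (k + l) (a * a') (b * b') := by
  obtain ⟨f, hf, hfG⟩ := h
  obtain ⟨f', hf', hfG'⟩ := h'
  refine ⟨f * f', hQ.mul hf hf', ?_⟩
  rw [wSlash_mul hμ]
  exact hQ.mul hfG hfG'

theorem WRel.eq_zero (hQ : IsDictW i0 c Q) (hμ : ∀ x, μ x ≠ 0) (hG : Function.Surjective G)
    {k : ℤ} {a : K'} (h : WRel Q G μ k a 0) : a = 0 := by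
  obtain ⟨f, hf, hfG⟩ := h
  have e1 : wSlash G μ k f = fun _ => (0 : C) := hQ.fun_unique hfG hQ.zero
  have e2 : f = fun _ => (0 : C) := wSlash_eq_zero hμ hG e1
  rw [e2] at hf
  exact hQ.series_unique hf hQ.zero

theorem WRel.ne_zero (hQ : IsDictW i0 c Q) (hμ : ∀ x, μ x ≠ 0) (hG : Function.Surjective G)
    {k : ℤ} {a b : K'} (h : WRel Q G μ k a b) (ha : a ≠ 0) : b ≠ 0 := by
  rintro rfl
  exact ha (h.eq_zero hQ hμ hG)

theorem WRel.congr_weight {k k' : ℤ} {a b : K'} (h : WRel Q G μ k a b) (hk : k = k') :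
    WRel Q G μ k' a b := hk ▸ h

/-- `y` is "the expansion of `x ∘ G`", for `x` the ratio of two expansions of equal weight. -/
def FRel (c : K →+* K') (Q : (X → C) → K' → Prop) (G : X → X) (μ : X → C) (x y : K) : Prop :=
  ∃ (k : ℤ) (a₁ a₂ b₁ b₂ : K'), WRel Q G μ k a₁ b₁ ∧ WRel Q G μ k a₂ b₂ ∧ a₂ ≠ 0 ∧
    c x * a₂ = a₁ ∧ c y * b₂ = b₁

/-- A weight zero element with a swap partner. -/
theorem FRel.of_wRel (hQ : IsDictW i0 c Q) {x y : K} (h : WRel Q G μ 0 (c x) (c y)) :
    FRel c Q G μ x y := by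
  refine ⟨0, c x, c (algebraMap L K 1), c y, c (algebraMap L K 1), h, wRel_const hQ G μ 1, ?_, ?_,
    ?_⟩
  · rw [map_one, map_one]
    exact one_ne_zero
  · rw [map_one, map_one, mul_one]
  · rw [map_one, map_one, mul_one]

theorem fRel_const (hQ : IsDictW i0 c Q) (G : X → X) (μ : X → C) (l : L) :
    FRel c Q G μ (algebraMap L K l) (algebraMap L K l) :=
  FRel.of_wRel hQ (wRel_const hQ G μ l)

theorem FRel.unique (hQ : IsDictW i0 c Q) (hμ : ∀ x, μ x ≠ 0) (hG : Function.Surjective G)
    {x y y' : K} (h : FRel c Q G μ x y) (h' : FRel c Q G μ x y') : y = y' := by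
  obtain ⟨k, a₁, a₂, b₁, b₂, h1, h2, ha2, hx, hy⟩ := h
  obtain ⟨k', a₁', a₂', b₁', b₂', h1', h2', ha2', hx', hy'⟩ := h'
  have e : a₁' * a₂ = a₁ * a₂' := by
    rw [← hx, ← hx']
    ring
  have r1 : WRel Q G μ (k + k') (a₁ * a₂') (b₁ * b₂') := h1.mul hQ hμ h2'
  have r2 : WRel Q G μ (k + k') (a₁ * a₂') (b₁' * b₂) := by
    have := (h1'.mul hQ hμ h2).congr_weight (add_comm k' k)
    rwa [e] at this
  have e' : b₁ * b₂' = b₁' * b₂ := r1.unique hQ r2
  have hb2 : b₂ ≠ 0 := h2.ne_zero hQ hμ hG ha2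
  have hb2' : b₂' ≠ 0 := h2'.ne_zero hQ hμ hG ha2'
  have e'' : c y * (b₂ * b₂') = c y' * (b₂ * b₂') := by
    rw [← hy, ← hy'] at e'
    linear_combination e'
  exact c.injective (mul_right_cancel₀ (mul_ne_zero hb2 hb2') e'')

theorem FRel.add (hQ : IsDictW i0 c Q) (hμ : ∀ x, μ x ≠ 0) {x y x' y' : K}
    (h : FRel c Q G μ x y) (h' : FRel c Q G μ x' y') : FRel c Q G μ (x + x') (y + y') := by
  obtain ⟨k, a₁, a₂, b₁, b₂, h1, h2, ha2, hx, hy⟩ := h
  obtain ⟨k', a₁', a₂', b₁', b₂', h1', h2', ha2', hx', hy'⟩ := h'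
  refine ⟨k + k', a₁ * a₂' + a₁' * a₂, a₂ * a₂', b₁ * b₂' + b₁' * b₂, b₂ * b₂',
    (h1.mul hQ hμ h2').add hQ ((h1'.mul hQ hμ h2).congr_weight (add_comm k' k)),
    h2.mul hQ hμ h2', mul_ne_zero ha2 ha2', ?_, ?_⟩
  · rw [map_add, ← hx, ← hx']
    ring
  · rw [map_add, ← hy, ← hy']
    ring

theorem FRel.mul (hQ : IsDictW i0 c Q) (hμ : ∀ x, μ x ≠ 0) {x y x' y' : K}
    (h : FRel c Q G μ x y) (h' : FRel c Q G μ x' y') : FRel c Q G μ (x * x') (y * y') := by
  obtain ⟨k, a₁, a₂, b₁, b₂, h1, h2, ha2, hx, hy⟩ := h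
  obtain ⟨k', a₁', a₂', b₁', b₂', h1', h2', ha2', hx', hy'⟩ := h'
  refine ⟨k + k', a₁ * a₁', a₂ * a₂', b₁ * b₁', b₂ * b₂', h1.mul hQ hμ h1', h2.mul hQ hμ h2',
    mul_ne_zero ha2 ha2', ?_, ?_⟩
  · rw [map_mul, ← hx, ← hx']
    ring
  · rw [map_mul, ← hy, ← hy']
    ring

theorem FRel.inv (hQ : IsDictW i0 c Q) (hμ : ∀ x, μ x ≠ 0) (hG : Function.Surjective G)
    {x y : K} (h : FRel c Q G μ x y) (hx0 : x ≠ 0) : FRel c Q G μ x⁻¹ y⁻¹ := by
  obtain ⟨k, a₁, a₂, b₁, b₂, h1, h2, ha2, hx, hy⟩ := h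
  have hcx : c x ≠ 0 := (map_ne_zero c).mpr hx0
  have ha1 : a₁ ≠ 0 := by
    rw [← hx]
    exact mul_ne_zero hcx ha2
  have hb1 : b₁ ≠ 0 := h1.ne_zero hQ hμ hG ha1
  have hcy : c y ≠ 0 := by
    intro h0
    rw [h0, zero_mul] at hy
    exact hb1 hy.symm
  refine ⟨k, a₂, a₁, b₂, b₁, h2, h1, ha1, ?_, ?_⟩
  · rw [map_inv₀, ← hx, inv_mul_cancel_left₀ hcx]
  · rw [map_inv₀, ← hy, inv_mul_cancel_left₀ hcy]

variable (c Q G μ) in
/-- The intermediate field of the elements having a swap partner. -/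
def fracField (hQ : IsDictW i0 c Q) (hμ : ∀ x, μ x ≠ 0) (hG : Function.Surjective G) :
    IntermediateField L K where
  carrier := {x | ∃ y, FRel c Q G μ x y}
  mul_mem' := fun ⟨_, h⟩ ⟨_, h'⟩ => ⟨_, h.mul hQ hμ h'⟩
  add_mem' := fun ⟨_, h⟩ ⟨_, h'⟩ => ⟨_, h.add hQ hμ h'⟩
  algebraMap_mem' l := ⟨_, fRel_const hQ G μ l⟩
  inv_mem' := by
    rintro x ⟨y, h⟩
    by_cases hx : x = 0
    · subst hx
      have h0 := fRel_const hQ G μ (0 : L)
      rw [map_zero] at h0
      rw [inv_zero]
      exact ⟨0, h0⟩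
    · exact ⟨y⁻¹, h.inv hQ hμ hG hx⟩

variable (hQ : IsDictW i0 c Q) (hμ : ∀ x, μ x ≠ 0) (hG : Function.Surjective G)

theorem mem_fracField_iff (x : K) :
    x ∈ fracField c Q G μ hQ hμ hG ↔ ∃ y, FRel c Q G μ x y := Iff.rfl

/-- The swap, as a function on `fracField`. -/
def fracFun (x : fracField c Q G μ hQ hμ hG) : K := Classical.choose x.2

theorem fracFun_spec (x : fracField c Q G μ hQ hμ hG) :
    FRel c Q G μ (x : K) (fracFun hQ hμ hG x) := Classical.choose_spec x.2

/-- The swap `x ↦ expansion of x ∘ G`, as an algebra hom on `fracField`. -/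
def fracHom : fracField c Q G μ hQ hμ hG →ₐ[L] K where
  toFun := fracFun hQ hμ hG
  map_one' := by
    have h1 := fRel_const hQ G μ (1 : L)
    rw [map_one] at h1
    exact (fracFun_spec hQ hμ hG 1).unique hQ hμ hG h1
  map_mul' x y :=
    (fracFun_spec hQ hμ hG (x * y)).unique hQ hμ hG
      ((fracFun_spec hQ hμ hG x).mul hQ hμ (fracFun_spec hQ hμ hG y))
  map_zero' := by
    have h1 := fRel_const hQ G μ (0 : L)
    rw [map_zero] at h1
    exact (fracFun_spec hQ hμ hG 0).unique hQ hμ hG h1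
  map_add' x y :=
    (fracFun_spec hQ hμ hG (x + y)).unique hQ hμ hG
      ((fracFun_spec hQ hμ hG x).add hQ hμ (fracFun_spec hQ hμ hG y))
  commutes' l :=
    (fracFun_spec hQ hμ hG (algebraMap L (fracField c Q G μ hQ hμ hG) l)).unique hQ hμ hG
      (fRel_const hQ G μ l)

theorem fracHom_eq (x : fracField c Q G μ hQ hμ hG) {y : K} (h : FRel c Q G μ (x : K) y) :
    fracHom hQ hμ hG x = y :=
  (fracFun_spec hQ hμ hG x).unique hQ hμ hG h

include hQ hμ hG in
/-- **The swap embedding on a field generated by elements with a swap partner.** -/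
theorem exists_algHom_of_fRel (S' : Set K) (hS' : ∀ s ∈ S', ∃ y, FRel c Q G μ s y) :
    ∃ w : IntermediateField.adjoin L S' →ₐ[L] K,
      ∀ (x : IntermediateField.adjoin L S') (y : K), FRel c Q G μ (x : K) y → w x = y := by
  have hle : IntermediateField.adjoin L S' ≤ fracField c Q G μ hQ hμ hG :=
    IntermediateField.adjoin_le_iff.mpr hS'
  refine ⟨(fracHom hQ hμ hG).comp (IntermediateField.inclusion hle), fun x y h => ?_⟩
  exact fracHom_eq hQ hμ hG (IntermediateField.inclusion hle x) h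

end FracDict

/-! ## The swap statement -/

section SwapFrac

open ModularCurve

variable {L K' : Type*} [Field L] [Field K'] {X C : Type*} [Field C] {i0 : L →+* C}
  {c : LaurentSeries L →+* K'} {Q : (X → C) → K' → Prop} {G : X → X} {μ : X → C}

/-- **The swap statement, weighted fraction form.**  `E`, `E' = L(S')` fields of Laurent series,
`D` an automorphism of `E`.  If every generator of `E'` has a swap partner, the swap partner of
`u ∈ E` is `u(q^{p²})` and the swap partner of `u(q^p)` is `(D⁻¹ u)(q^p)`, then there is an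
embedding `w : E' → L((q))` with `w u = u(q^{p²})` and `w (u(q^p)) = (D⁻¹ u)(q^p)` for all
`u ∈ E` (whenever `u`, resp. `u(q^p)`, lies in `E'`). -/
theorem exists_swap_of_fRel (hQ : IsDictW i0 c Q) (hμ : ∀ x, μ x ≠ 0)
    (hG : Function.Surjective G) (p : ℕ) [NeZero p] (S' : Set (LaurentSeries L))
    (E E' : IntermediateField L (LaurentSeries L)) (hE' : E' = IntermediateField.adjoin L S')
    (D : E ≃ₐ[L] E)
    (hS' : ∀ s ∈ S', ∃ y, FRel c Q G μ s y)
    (h1 : ∀ u : E, FRel c Q G μ (u : LaurentSeries L) (qExpand L (p ^ 2) (u : LaurentSeries L)))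
    (h2 : ∀ u : E, FRel c Q G μ (qExpand L p (u : LaurentSeries L))
      (qExpand L p ((D.symm u : E) : LaurentSeries L))) :
    ∃ w : E' →ₐ[L] LaurentSeries L,
      (∀ (u : E) (hu : (u : LaurentSeries L) ∈ E'),
        w ⟨u, hu⟩ = qExpand L (p ^ 2) (u : LaurentSeries L)) ∧
      (∀ (u : E) (hu : qExpand L p (u : LaurentSeries L) ∈ E'),
        w ⟨qExpand L p (u : LaurentSeries L), hu⟩
          = qExpand L p ((D.symm u : E) : LaurentSeries L)) := by
  subst hE'
  obtain ⟨w, hw⟩ := exists_algHom_of_fRel hQ hμ hG S' hS'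
  exact ⟨w, fun u hu => hw ⟨u, hu⟩ _ (h1 u), fun u hu => hw ⟨_, hu⟩ _ (h2 u)⟩

/-- Two algebra homs out of `IntermediateField.adjoin L S` into a field which agree on the
generators are equal. -/
theorem algHom_ext_adjoin {L K Ω : Type*} [Field L] [Field K] [Algebra L K] [Field Ω]
    [Algebra L Ω] {S : Set K} {f g : IntermediateField.adjoin L S →ₐ[L] Ω}
    (h : ∀ (s : K) (hs : s ∈ S), f ⟨s, IntermediateField.subset_adjoin L S hs⟩
      = g ⟨s, IntermediateField.subset_adjoin L S hs⟩) : f = g := by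
  ext ⟨x, hx⟩
  induction hx using IntermediateField.adjoin_induction with
  | mem s hs => exact h s hs
  | algebraMap c =>
      have e : (⟨algebraMap L K c, IntermediateField.algebraMap_mem _ c⟩ :
          IntermediateField.adjoin L S) = algebraMap L (IntermediateField.adjoin L S) c := rfl
      rw [e, AlgHom.commutes, AlgHom.commutes]
  | add x y hx hy ihx ihy =>
      have e : (⟨x + y, add_mem hx hy⟩ : IntermediateField.adjoin L S) = ⟨x, hx⟩ + ⟨y, hy⟩ := rfl
      rw [e, map_add, map_add, ihx, ihy]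
  | inv x hx ihx =>
      have e : (⟨x⁻¹, inv_mem hx⟩ : IntermediateField.adjoin L S) = (⟨x, hx⟩ : _)⁻¹ := rfl
      rw [e, map_inv₀, map_inv₀, ihx]
  | mul x y hx hy ihx ihy =>
      have e : (⟨x * y, mul_mem hx hy⟩ : IntermediateField.adjoin L S) = ⟨x, hx⟩ * ⟨y, hy⟩ := rfl
      rw [e, map_mul, map_mul, ihx, ihy]

/-- **The swap statement, generator form.**  As `exists_swap_of_fRel`, but the two identities
are only required on a generating set `S` of `E` (`E ≤ E'` and `u(q^p) ∈ E'` for `u ∈ E` are then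
needed to propagate them). -/
theorem exists_swap_of_fRel_gen (hQ : IsDictW i0 c Q) (hμ : ∀ x, μ x ≠ 0)
    (hG : Function.Surjective G) (p : ℕ) [NeZero p] (S S' : Set (LaurentSeries L))
    (E E' : IntermediateField L (LaurentSeries L))
    (hE : E = IntermediateField.adjoin L S) (hE' : E' = IntermediateField.adjoin L S')
    (hEE' : E ≤ E') (D : E ≃ₐ[L] E)
    (hV : ∀ u : E, qExpand L p (u : LaurentSeries L) ∈ E')
    (hS' : ∀ s ∈ S', ∃ y, FRel c Q G μ s y)
    (h1 : ∀ s ∈ S, FRel c Q G μ s (qExpand L (p ^ 2) s))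
    (h2 : ∀ u : E, (u : LaurentSeries L) ∈ S →
      FRel c Q G μ (qExpand L p (u : LaurentSeries L))
        (qExpand L p ((D.symm u : E) : LaurentSeries L))) :
    ∃ w : E' →ₐ[L] LaurentSeries L,
      (∀ (u : E) (hu : (u : LaurentSeries L) ∈ E'),
        w ⟨u, hu⟩ = qExpand L (p ^ 2) (u : LaurentSeries L)) ∧
      (∀ (u : E) (hu : qExpand L p (u : LaurentSeries L) ∈ E'),
        w ⟨qExpand L p (u : LaurentSeries L), hu⟩
          = qExpand L p ((D.symm u : E) : LaurentSeries L)) := by
  subst hE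
  subst hE'
  obtain ⟨w, hw⟩ := exists_algHom_of_fRel hQ hμ hG S' hS'
  refine ⟨w, ?_, ?_⟩
  · -- first identity
    let f : IntermediateField.adjoin L S →ₐ[L] LaurentSeries L :=
      w.comp (IntermediateField.inclusion hEE')
    let g : IntermediateField.adjoin L S →ₐ[L] LaurentSeries L :=
      (qExpandAlgHomC L (p ^ 2)).comp (IntermediateField.adjoin L S).val
    have hfg : f = g := by
      refine algHom_ext_adjoin fun s hs => ?_
      show w ⟨s, _⟩ = qExpand L (p ^ 2) s
      exact hw ⟨s, _⟩ _ (h1 s hs)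
    intro u hu
    exact congrArg (fun φ : IntermediateField.adjoin L S →ₐ[L] LaurentSeries L => φ u) hfg
  · -- second identity
    let f : IntermediateField.adjoin L S →ₐ[L] LaurentSeries L :=
      { toFun := fun u => w ⟨qExpand L p (u : LaurentSeries L), hV u⟩
        map_one' := by
          have e : (⟨qExpand L p ((1 : IntermediateField.adjoin L S) : LaurentSeries L), hV 1⟩ :
              IntermediateField.adjoin L S') = 1 := Subtype.ext (map_one _)
          rw [e, map_one]
        map_mul' := fun u v => by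
          have e : (⟨qExpand L p ((u * v : IntermediateField.adjoin L S) : LaurentSeries L),
              hV (u * v)⟩ : IntermediateField.adjoin L S')
              = ⟨qExpand L p (u : LaurentSeries L), hV u⟩
                * ⟨qExpand L p (v : LaurentSeries L), hV v⟩ := Subtype.ext (map_mul _ _ _)
          rw [e, map_mul]
        map_zero' := by
          have e : (⟨qExpand L p ((0 : IntermediateField.adjoin L S) : LaurentSeries L), hV 0⟩ :
              IntermediateField.adjoin L S') = 0 := Subtype.ext (map_zero _)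
          rw [e, map_zero]
        map_add' := fun u v => by
          have e : (⟨qExpand L p ((u + v : IntermediateField.adjoin L S) : LaurentSeries L),
              hV (u + v)⟩ : IntermediateField.adjoin L S')
              = ⟨qExpand L p (u : LaurentSeries L), hV u⟩
                + ⟨qExpand L p (v : LaurentSeries L), hV v⟩ := Subtype.ext (map_add _ _ _)
          rw [e]
          exact map_add w _ _
        commutes' := fun l => by
          have e : (⟨qExpand L p ((algebraMap L (IntermediateField.adjoin L S) l :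
              IntermediateField.adjoin L S) : LaurentSeries L), hV _⟩ :
              IntermediateField.adjoin L S') = algebraMap L (IntermediateField.adjoin L S') l :=
            Subtype.ext ((qExpandAlgHomC L p).commutes l)
          rw [e, AlgHom.commutes] }
    let g : IntermediateField.adjoin L S →ₐ[L] LaurentSeries L :=
      ((qExpandAlgHomC L p).comp (IntermediateField.adjoin L S).val).comp
        (D.symm : IntermediateField.adjoin L S →ₐ[L] IntermediateField.adjoin L S)
    have hfg : f = g := by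
      refine algHom_ext_adjoin fun s hs => ?_
      have hrel := h2 ⟨s, IntermediateField.subset_adjoin L S hs⟩ hs
      show w ⟨qExpand L p s, _⟩ = qExpand L p ((D.symm ⟨s, _⟩ : IntermediateField.adjoin L S) :
        LaurentSeries L)
      exact hw ⟨qExpand L p s, _⟩ _ hrel
    intro u hu
    exact congrArg (fun φ : IntermediateField.adjoin L S →ₐ[L] LaurentSeries L => φ u) hfg

end SwapFrac

end

end Fermat.Agent.S48.helper160
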