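import Mathlib
import Fermat.Agent.S24.helper1704_QDict
import Fermat.Agent.S24.helper3176_Dictionary
import Fermat.Prelude.Def_ModularCurve_JqCoeff
import Fermat.Prelude.Thm_ModularCurve_coeffMap_qExpand

/-!
# Bridge between the two landed `q`-expansion dictionaries (helper1704, S48)

* `Fermat.Agent.S24.helper1704.HasQ h f L` (cusp-function form: `𝕢^M f` is holomorphic, periodic,
  bounded, with Mathlib `qExpansion` equal to `𝕢^M L`), and
* `Fermat.Agent.S24.helper3176.HasQExp h f L` (pointwise convergent form: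
  `f τ = ∑_{k ∈ ℤ} L.coeff k * 𝕢^k` for every `τ`)

are equivalent (`hasQ_iff_hasQExp`).  Consequences in the `HasQ` vocabulary: scaling
`τ ↦ f (d τ)` (`hasQ_scale`), the analytic `j` function and `j (d τ)`, Mathlib modular forms.
-/

set_option autoImplicit false

open UpperHalfPlane Function Complex Filter ModularCurve
open scoped Real Manifold Topology

namespace Fermat.Agent.S48.helper1704

open Fermat.Agent.S24.helper1704 Fermat.Agent.S24

local notation "𝕢" => Function.Periodic.qParam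

noncomputable section

variable {h : ℝ} {f : ℍ → ℂ} {L : LaurentSeries ℂ}

/-- Coefficient bookkeeping for `ofPowerSeries P = single M 1 * L`. -/
theorem coeff_of_single_mul_eq {M : ℕ} {P : PowerSeries ℂ}
    (hL : HahnSeries.ofPowerSeries ℤ ℂ P = HahnSeries.single (M : ℤ) 1 * L) (j : ℕ) :
    L.coeff ((j : ℤ) + -(M : ℤ)) = PowerSeries.coeff j P := by
  have h1 : (HahnSeries.single (M : ℤ) (1 : ℂ) * L).coeff (((j : ℤ) + -(M : ℤ)) + (M : ℤ))
      = 1 * L.coeff ((j : ℤ) + -(M : ℤ)) := HahnSeries.coeff_single_mul_add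
  rw [← hL, one_mul, neg_add_cancel_right, HahnSeries.ofPowerSeries_apply_coeff] at h1
  exact h1.symm

theorem coeff_eq_zero_of_single_mul_eq {M : ℕ} {P : PowerSeries ℂ}
    (hL : HahnSeries.ofPowerSeries ℤ ℂ P = HahnSeries.single (M : ℤ) 1 * L) {k : ℤ}
    (hk : k < -(M : ℤ)) : L.coeff k = 0 := by
  have h2 : (HahnSeries.single (M : ℤ) (1 : ℂ) * L).coeff (k + (M : ℤ)) = 1 * L.coeff k :=
    HahnSeries.coeff_single_mul_add
  rw [← hL, one_mul, ofPowerSeries_coeff_neg _ (by omega)] at h2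
  exact h2.symm

/-- **`HasQ ⟹ HasQExp`**: the Laurent expansion converges to `f` on all of `ℍ`. -/
theorem hasQExp_of_hasQ (hh : 0 < h) (hf : HasQ h f L) : helper3176.HasQExp h f L := by
  obtain ⟨M, hnice, hser⟩ := hf
  intro τ
  have hq : 𝕢 h (τ : ℂ) ≠ 0 := Function.Periodic.qParam_ne_zero _
  have h1 := UpperHalfPlane.hasSum_qExpansion hh hnice.per hnice.hol hnice.bdd τ
  refine (helper3176.hasSum_int_iff_nat_shift (-(M : ℤ)) ?_).mp ?_
  · intro k hk
    rw [coeff_eq_zero_of_single_mul_eq hser hk, zero_mul]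
  · have h2 := h1.mul_right ((𝕢 h (τ : ℂ) ^ M)⁻¹)
    have hfun : (fun j : ℕ => L.coeff ((j : ℤ) + -(M : ℤ)) * 𝕢 h (τ : ℂ) ^ ((j : ℤ) + -(M : ℤ)))
        = fun i : ℕ => (PowerSeries.coeff i) (qExpansion h (qf h ^ M * f)) • 𝕢 h (τ : ℂ) ^ i
            * (𝕢 h (τ : ℂ) ^ M)⁻¹ := by
      funext j
      rw [coeff_of_single_mul_eq hser j, smul_eq_mul, zpow_add₀ hq, zpow_natCast, zpow_neg,
        zpow_natCast, mul_assoc]
    have hval : f τ = (qf h ^ M * f) τ * (𝕢 h (τ : ℂ) ^ M)⁻¹ := by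
      simp only [Pi.mul_apply, Pi.pow_apply, qf_apply]
      field_simp
    rw [hfun, hval]
    exact h2

/-- A function on `ℍ` given by a convergent power series in `𝕢` is holomorphic. -/
theorem mdiff_of_hasSum (hh : 0 < h) {g : ℍ → ℂ} {c : ℕ → ℂ}
    (hs : ∀ τ : ℍ, HasSum (fun m : ℕ => c m * 𝕢 h (τ : ℂ) ^ m) (g τ)) : MDiff g := by
  set G : ℂ → ℂ := fun q => ∑' m : ℕ, c m * q ^ m with hG
  have hsum : ∀ z : ℂ, ‖z‖ < ((1 : NNReal) : ℝ) → HasSum (fun n => c n * z ^ n) (G z) := by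
    intro z hz
    have hz1 : ‖z‖ < 1 := by simpa using hz
    rcases eq_or_ne z 0 with rfl | hz0
    · have h0 : ∀ n : ℕ, n ≠ 0 → c n * (0 : ℂ) ^ n = 0 := fun n hn => by
        rw [zero_pow hn, mul_zero]
      have h1 := hasSum_single (0 : ℕ) (fun n hn => h0 n hn)
      have h2 : G 0 = c 0 * (0 : ℂ) ^ 0 := h1.tsum_eq
      rw [h2]; exact h1
    · have him := Function.Periodic.im_invQParam_pos_of_norm_lt_one hh hz1 hz0
      have h1 := hs ⟨Function.Periodic.invQParam h z, him⟩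
      have h2 : 𝕢 h ((⟨Function.Periodic.invQParam h z, him⟩ : ℍ) : ℂ) = z :=
        Function.Periodic.qParam_right_inv hh.ne' hz0
      rw [h2] at h1
      exact h1.summable.hasSum
  have hball := helper1644.hasFPowerSeriesOnBall_of_hasSum (f := G) (c := c) (r := 1) one_pos hsum
  have hdiff : DifferentiableOn ℂ G (Metric.ball 0 1) := by
    have := hball.differentiableOn
    rwa [Metric.eball_coe, NNReal.coe_one] at this
  have hgG : ∀ τ : ℍ, g τ = G (𝕢 h (τ : ℂ)) := fun τ => ((hs τ).tsum_eq).symm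
  rw [UpperHalfPlane.mdifferentiable_iff]
  have hq : DifferentiableOn ℂ (fun z : ℂ => G (𝕢 h z)) {z : ℂ | 0 < z.im} := by
    refine hdiff.comp (Function.Periodic.differentiable_qParam (h := h)).differentiableOn ?_
    intro z hz
    simpa using Function.Periodic.norm_qParam_lt_one hh hz
  refine hq.congr fun z hz => ?_
  simp only [comp_apply]
  rw [hgG, ofComplex_apply_of_im_pos hz]

/-- **`HasQExp ⟹ HasQ`**: a function given on all of `ℍ` by a convergent Laurent series in `𝕢`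
is holomorphic, periodic, meromorphic at `i∞` with that expansion. -/
theorem hasQ_of_hasQExp (hh : 0 < h) (hf : helper3176.HasQExp h f L) : HasQ h f L := by
  -- a lower bound for the support
  obtain ⟨M, hM⟩ : ∃ M : ℕ, ∀ k : ℤ, k < -(M : ℤ) → L.coeff k = 0 := by
    refine ⟨(-L.order).toNat, fun k hk => HahnSeries.coeff_eq_zero_of_lt_order ?_⟩
    have := Int.self_le_toNat (-L.order)
    omega
  set c : ℕ → ℂ := fun j => L.coeff ((j : ℤ) + -(M : ℤ)) with hc
  have hs : ∀ τ : ℍ, HasSum (fun m : ℕ => c m * 𝕢 h (τ : ℂ) ^ m) ((qf h ^ M * f) τ) := by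
    intro τ
    have hq : 𝕢 h (τ : ℂ) ≠ 0 := Function.Periodic.qParam_ne_zero _
    have h1 := (helper3176.hasSum_int_iff_nat_shift (-(M : ℤ))
      (fun k hk => by rw [hM k hk, zero_mul])).mpr (hf τ)
    have h2 := h1.mul_left (𝕢 h (τ : ℂ) ^ M)
    have hfun : (fun m : ℕ => c m * 𝕢 h (τ : ℂ) ^ m)
        = fun i : ℕ => 𝕢 h (τ : ℂ) ^ M
            * (L.coeff ((i : ℤ) + -(M : ℤ)) * 𝕢 h (τ : ℂ) ^ ((i : ℤ) + -(M : ℤ))) := by
      funext j
      rw [hc, zpow_add₀ hq, zpow_natCast, zpow_neg, zpow_natCast]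
      field_simp
    rw [hfun]
    exact h2
  have hs' : ∀ τ : ℍ, HasSum (fun m : ℕ => c m • 𝕢 h (τ : ℂ) ^ m) ((qf h ^ M * f) τ) := by
    intro τ; simpa only [smul_eq_mul] using hs τ
  have hnice : IsNice h (qf h ^ M * f) := by
    refine ⟨?_, mdiff_of_hasSum hh hs, isBoundedAtImInfty_of_hasSum_qExpansion hh hs'⟩
    rw [periodic_comp_ofComplex_iff]
    intro τ
    have h1 := hs (h +ᵥ τ)
    have h2 : 𝕢 h ((h +ᵥ τ : ℍ) : ℂ) = 𝕢 h (τ : ℂ) :=
      periodic_comp_ofComplex_iff.mp (IsNice.qf hh).per τ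
    rw [h2] at h1
    exact h1.unique (hs τ)
  have h3 := HasQ.of_isNice hnice
  have h4 := helper3176.HasQExp.unique_right hh (hasQExp_of_hasQ hh h3) hf
  rwa [h4] at h3

/-- The two dictionaries agree. -/
theorem hasQ_iff_hasQExp (hh : 0 < h) : HasQ h f L ↔ helper3176.HasQExp h f L :=
  ⟨hasQExp_of_hasQ hh, hasQ_of_hasQExp hh⟩

/-- The explicit convergent form of `HasQ`. -/
theorem hasQ_hasSum (hh : 0 < h) (hf : HasQ h f L) (τ : ℍ) :
    HasSum (fun k : ℤ => L.coeff k * 𝕢 h (τ : ℂ) ^ k) (f τ) :=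
  hasQExp_of_hasQ hh hf τ

/-! ## Scaling `τ ↦ d τ` -/

/-- Scaling: if `f` has the expansion `L(𝕢)` then `τ ↦ f (d τ)` has the expansion `L(𝕢 ^ d)`. -/
theorem hasQ_scale (hh : 0 < h) (d : ℕ) [NeZero d] (hf : HasQ h f L) :
    HasQ h (fun τ : ℍ => f (ofComplex ((d : ℂ) * (τ : ℂ)))) (qExpand ℂ d L) :=
  hasQ_of_hasQExp hh ((hasQExp_of_hasQ hh hf).scale d)

/-! ## The analytic `j` function -/

theorem coeffMap_jq_eq : coeffMap (algebraMap ℚ ℂ) jq = jqModC ℂ := by
  rw [← jqModC_rat]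
  exact map_jqModC (algebraMap ℚ ℂ)

/-- The analytic `j` has the expansion `jq` with complex coefficients. -/
theorem hasQ_jFun : HasQ 1 helper1644.jFun (jqModC ℂ) := by
  rw [← coeffMap_jq_eq]
  exact hasQ_of_hasQExp one_pos helper3176.hasQExp_jFun

/-- `τ ↦ j (d τ)` has the expansion `jq (q ^ d)`. -/
theorem hasQ_jFun_scale (d : ℕ) [NeZero d] :
    HasQ 1 (fun τ : ℍ => helper1644.jFun (ofComplex ((d : ℂ) * (τ : ℂ)))) (jqNModC ℂ d) :=
  hasQ_scale one_pos d hasQ_jFun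

/-- Coefficient-field form: for any ring hom `i0 : K →+* ℂ`. -/
theorem hasQ_jFun_coeffMap {K : Type*} [CommRing K] (i0 : K →+* ℂ) :
    HasQ 1 helper1644.jFun (coeffMap i0 (jqModC K)) := by
  have : coeffMap i0 (jqModC K) = jqModC ℂ := map_jqModC i0
  rw [this]
  exact hasQ_jFun

theorem hasQ_jFun_scale_coeffMap {K : Type*} [CommRing K] (i0 : K →+* ℂ) (d : ℕ) [NeZero d] :
    HasQ 1 (fun τ : ℍ => helper1644.jFun (ofComplex ((d : ℂ) * (τ : ℂ))))
      (coeffMap i0 (jqNModC K d)) := by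
  have h1 : coeffMap i0 (jqModC K) = jqModC ℂ := map_jqModC i0
  have : coeffMap i0 (jqNModC K d) = jqNModC ℂ d := by
    rw [jqNModC, coeffMap_qExpand, h1, jqNModC]
  rw [this]
  exact hasQ_jFun_scale d

/-! ## Mathlib modular forms -/

/-- A Mathlib modular form with strict period `h` has its Mathlib `q`-expansion as Laurent
expansion. -/
theorem hasQ_of_modularFormClass {F : Type*} [FunLike F ℍ ℂ] {Γ : Subgroup (GL (Fin 2) ℝ)}
    {k : ℤ} [ModularFormClass F Γ k] (g : F) (hh : 0 < h) (hΓ : h ∈ Γ.strictPeriods) :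
    HasQ h (g : ℍ → ℂ) (HahnSeries.ofPowerSeries ℤ ℂ (qExpansion h g)) := by
  have : Fact (IsCusp OnePoint.infty Γ) := ⟨Γ.isCusp_of_mem_strictPeriods hh hΓ⟩
  have hnice : IsNice h (g : ℍ → ℂ) :=
    ⟨SlashInvariantFormClass.periodic_comp_ofComplex g hΓ, ModularFormClass.holo g,
      ModularFormClass.bdd_at_infty g⟩
  refine ⟨0, ?_, ?_⟩
  · simpa using hnice
  · simp

end

end Fermat.Agent.S48.helper1704
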