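/-
S48 (Deligne–Serre), leaf A3 of route #2706: affine rigidity of the division values
`x(ζ^a) = ζ^a / (1 - ζ^a)^2`.

Over an arbitrary field `k` (every characteristic, `2` and `3` included) with a primitive
`M`-th root of unity `z`, `M ≥ 7`, and `d` prime to `M`: if the permutation
`x(z^a) ↦ x(z^(d a))` of the division values preserves the ratios of differences (this is what
"the diamond `⟨d⟩` fixes the residues of the functions `D_{a,b} / D_{c,e}`" means on constant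
terms of `q`-expansions), then `d ≡ ±1 mod M`.

Proof: ratio preservation makes the permutation the restriction of ONE affine map
`A = α X + β`; `A` commutes with the duplication `x ↦ x² / (1 + 4 x)` on the division values,
which is a polynomial identity of degree `≤ 2` with three distinct roots; comparing
coefficients gives `A = id`, except in characteristic `2` where `A = X + 1` survives and is
excluded by the triplication `x ↦ x³ / (1 + 3 x)²`.  Finally `x(u) = x(v)` iff `v = u` or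
`u v = 1`.

Mathlib only.
-/
import Mathlib

set_option autoImplicit false

namespace Fermat.Agent.S48.helper1785

variable {k : Type*} [Field k]

/-- `x(u) = u / (1 - u)²`: the constant term of the `q`-expansion of `(2πi)⁻² ℘` at the
division point with `u = e^{2πi z}`. -/
def xv (u : k) : k := u / (1 - u) ^ 2

/-- `x(u) = x(v)` iff `v = u` or `u v = 1`. -/
theorem xv_eq_iff {u v : k} (hu : u ≠ 1) (hv : v ≠ 1) :
    xv u = xv v ↔ u = v ∨ u * v = 1 := by
  have hu' : (1 - u) ^ 2 ≠ 0 := pow_ne_zero 2 (sub_ne_zero.mpr (Ne.symm hu))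
  have hv' : (1 - v) ^ 2 ≠ 0 := pow_ne_zero 2 (sub_ne_zero.mpr (Ne.symm hv))
  unfold xv
  rw [div_eq_div_iff hu' hv']
  constructor
  · intro h
    have h0 : (u - v) * (1 - u * v) = 0 := by linear_combination h
    rcases mul_eq_zero.mp h0 with h1 | h1
    · exact Or.inl (sub_eq_zero.mp h1)
    · exact Or.inr (sub_eq_zero.mp h1).symm
  · rintro (h | h)
    · rw [h]
    · have h0 : (u - v) * (1 - u * v) = 0 := by rw [h]; ring
      linear_combination h0

/-- Duplication formula: `x(u²) (1 + 4 x(u)) = x(u)²`. -/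
theorem xv_sq {u : k} (hu : u ≠ 1) (hu' : u ≠ -1) :
    xv (u ^ 2) * (1 + 4 * xv u) = xv u ^ 2 := by
  have h1 : 1 - u ≠ 0 := sub_ne_zero.mpr (Ne.symm hu)
  have h2 : 1 + u ≠ 0 := fun h => hu' (by linear_combination h)
  have h3 : 1 - u ^ 2 ≠ 0 := by
    have : 1 - u ^ 2 = (1 - u) * (1 + u) := by ring
    rw [this]; exact mul_ne_zero h1 h2
  unfold xv
  field_simp
  ring

/-- Triplication formula: `x(u³) (1 + 3 x(u))² = x(u)³`. -/
theorem xv_cube {u : k} (hu : u ≠ 1) (hu3 : u ^ 3 ≠ 1) :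
    xv (u ^ 3) * (1 + 3 * xv u) ^ 2 = xv u ^ 3 := by
  have h1 : 1 - u ≠ 0 := sub_ne_zero.mpr (Ne.symm hu)
  have h3 : 1 - u ^ 3 ≠ 0 := sub_ne_zero.mpr (Ne.symm hu3)
  unfold xv
  field_simp
  ring

/-- A quadratic polynomial with three distinct roots is zero. -/
theorem quad_eq_zero_of_three_roots {c₂ c₁ c₀ x₁ x₂ x₃ : k}
    (h12 : x₁ ≠ x₂) (h13 : x₁ ≠ x₃) (h23 : x₂ ≠ x₃)
    (e₁ : c₂ * x₁ ^ 2 + c₁ * x₁ + c₀ = 0) (e₂ : c₂ * x₂ ^ 2 + c₁ * x₂ + c₀ = 0)
    (e₃ : c₂ * x₃ ^ 2 + c₁ * x₃ + c₀ = 0) : c₂ = 0 ∧ c₁ = 0 ∧ c₀ = 0 := by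
  have a12 : c₂ * (x₁ + x₂) + c₁ = 0 := by
    have h : (x₁ - x₂) * (c₂ * (x₁ + x₂) + c₁) = 0 := by linear_combination e₁ - e₂
    exact (mul_eq_zero.mp h).resolve_left (sub_ne_zero.mpr h12)
  have a13 : c₂ * (x₁ + x₃) + c₁ = 0 := by
    have h : (x₁ - x₃) * (c₂ * (x₁ + x₃) + c₁) = 0 := by linear_combination e₁ - e₃
    exact (mul_eq_zero.mp h).resolve_left (sub_ne_zero.mpr h13)
  have hc2 : c₂ = 0 := by
    have h : (x₂ - x₃) * c₂ = 0 := by linear_combination a12 - a13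
    exact (mul_eq_zero.mp h).resolve_left (sub_ne_zero.mpr h23)
  have hc1 : c₁ = 0 := by rw [hc2] at a12; simpa using a12
  have hc0 : c₀ = 0 := by rw [hc2, hc1] at e₁; simpa using e₁
  exact ⟨hc2, hc1, hc0⟩

section Root

variable {M : ℕ} {z : k}

theorem pow_ne_one_of_not_dvd (hz : IsPrimitiveRoot z M) {a : ℕ} (ha : ¬ M ∣ a) :
    z ^ a ≠ 1 := fun h => ha ((hz.pow_eq_one_iff_dvd a).mp h)

theorem pow_mul_ne_one_of_not_dvd (hz : IsPrimitiveRoot z M) {d : ℕ} (hd : d.Coprime M)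
    {a : ℕ} (ha : ¬ M ∣ a) : z ^ (d * a) ≠ 1 := by
  intro h
  have h1 : M ∣ d * a := (hz.pow_eq_one_iff_dvd _).mp h
  exact ha ((Nat.Coprime.dvd_mul_left hd.symm).mp h1)

/-- Distinctness criterion for the division values. -/
theorem xv_pow_ne (hz : IsPrimitiveRoot z M) {a b : ℕ} (ha : a < M) (hb : b < M)
    (hab : a ≠ b) (ha0 : ¬ M ∣ a) (hb0 : ¬ M ∣ b) (hsum : ¬ M ∣ a + b) :
    xv (z ^ a) ≠ xv (z ^ b) := by
  intro h
  rcases (xv_eq_iff (pow_ne_one_of_not_dvd hz ha0) (pow_ne_one_of_not_dvd hz hb0)).mp h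
    with h1 | h1
  · exact hab (hz.pow_inj ha hb h1)
  · rw [← pow_add] at h1
    exact hsum ((hz.pow_eq_one_iff_dvd _).mp h1)

/-- In characteristic `2` the order of a primitive root of unity is odd. -/
theorem odd_of_two_eq_zero (hz : IsPrimitiveRoot z M) (hM : 0 < M) (h2 : (2 : k) = 0) :
    ¬ 2 ∣ M := by
  rintro ⟨m, rfl⟩
  have hm : 0 < m := by omega
  have h1 : (z ^ m) ^ 2 = 1 := by rw [← pow_mul, mul_comm]; exact hz.pow_eq_one
  have h3 : (z ^ m - 1) ^ 2 = 0 := by linear_combination h1 + (1 - z ^ m) * h2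
  have h4 : z ^ m = 1 := sub_eq_zero.mp (pow_eq_zero_iff (two_ne_zero) |>.mp h3)
  have h5 : 2 * m ∣ m := (hz.pow_eq_one_iff_dvd m).mp h4
  have := Nat.le_of_dvd hm h5
  omega

/-- **Affine rigidity.**  An affine map `A = α X + β` with `A (x(z^a)) = x(z^(d a))` for all
`a ≢ 0 mod M` is the identity (`M ≥ 7`, `d` prime to `M`, any characteristic). -/
theorem eq_id_of_affine (hM : 7 ≤ M) (hz : IsPrimitiveRoot z M) {d : ℕ} (hd : d.Coprime M)
    {α β : k} (hα : α ≠ 0)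
    (hA : ∀ a : ℕ, ¬ M ∣ a → xv (z ^ (d * a)) = α * xv (z ^ a) + β) :
    α = 1 ∧ β = 0 := by
  have hnd : ∀ a : ℕ, 0 < a → a < M → ¬ M ∣ a := fun a h0 h1 h =>
    absurd (Nat.le_of_dvd h0 h) (by omega)
  -- the duplication relation, as a quadratic equation for `x(z^a)`
  have hquad : ∀ a : ℕ, ¬ M ∣ a → ¬ M ∣ 2 * a →
      α * (1 + 12 * β - α) * xv (z ^ a) ^ 2 + β * (2 * α + 4 + 12 * β) * xv (z ^ a)
        + β * (1 + 3 * β) = 0 := by
    intro a ha h2a
    have hu1 : z ^ a ≠ 1 := pow_ne_one_of_not_dvd hz ha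
    have hu2 : z ^ a ≠ -1 := by
      intro h
      have : z ^ (2 * a) = 1 := by rw [pow_mul', h]; ring
      exact h2a ((hz.pow_eq_one_iff_dvd _).mp this)
    have hv1 : z ^ (d * a) ≠ 1 := pow_mul_ne_one_of_not_dvd hz hd ha
    have hv2 : z ^ (d * a) ≠ -1 := by
      intro h
      have : z ^ (d * (2 * a)) = 1 := by
        rw [show d * (2 * a) = 2 * (d * a) by ring, pow_mul', h]; ring
      exact pow_mul_ne_one_of_not_dvd hz hd h2a this
    have E1 := xv_sq hu1 hu2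
    have E2 := xv_sq hv1 hv2
    rw [← pow_mul'] at E1 E2
    rw [show 2 * (d * a) = d * (2 * a) by ring, hA a ha, hA (2 * a) h2a] at E2
    linear_combination (1 + 4 * xv (z ^ a)) * E2
      - α * (1 + 4 * α * xv (z ^ a) + 4 * β) * E1
  -- three distinct roots
  have h1 : ¬ M ∣ 1 := hnd 1 (by omega) (by omega)
  have h2 : ¬ M ∣ 2 := hnd 2 (by omega) (by omega)
  have h3 : ¬ M ∣ 3 := hnd 3 (by omega) (by omega)
  have h4 : ¬ M ∣ 4 := hnd 4 (by omega) (by omega)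
  have h5 : ¬ M ∣ 5 := hnd 5 (by omega) (by omega)
  have h6 : ¬ M ∣ 6 := hnd 6 (by omega) (by omega)
  have d12 : xv (z ^ 1) ≠ xv (z ^ 2) :=
    xv_pow_ne hz (by omega) (by omega) (by omega) h1 h2 h3
  have d13 : xv (z ^ 1) ≠ xv (z ^ 3) :=
    xv_pow_ne hz (by omega) (by omega) (by omega) h1 h3 h4
  have d23 : xv (z ^ 2) ≠ xv (z ^ 3) :=
    xv_pow_ne hz (by omega) (by omega) (by omega) h2 h3 h5
  obtain ⟨c2, c1, c0⟩ := quad_eq_zero_of_three_roots d12 d13 d23
    (hquad 1 h1 h2) (hquad 2 h2 h4) (hquad 3 h3 h6)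
  have hα1 : α = 1 + 12 * β := by
    have := (mul_eq_zero.mp c2).resolve_left hα
    linear_combination -this
  rcases mul_eq_zero.mp c0 with hβ | hβ
  · exact ⟨by rw [hα1, hβ]; ring, hβ⟩
  · -- `β ≠ 0`: then the characteristic is `2` and `A = X + 1`
    exfalso
    have hβ0 : β ≠ 0 := by
      rintro rfl
      simp at hβ
    have hc1 : 2 * α + 4 + 12 * β = 0 := (mul_eq_zero.mp c1).resolve_left hβ0
    have h2α : 2 * α = 0 := by linear_combination hc1 - 4 * hβ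
    have htwo : (2 : k) = 0 := (mul_eq_zero.mp h2α).resolve_right hα
    have hβ1 : β = 1 := by linear_combination hβ - (β + 1) * htwo
    have hα' : α = 1 := by rw [hα1]; linear_combination 6 * β * htwo
    subst hβ1 hα'
    have hodd : ¬ 2 ∣ M := odd_of_two_eq_zero hz (by omega) htwo
    have hM9 : ¬ M ∣ 12 := by
      intro h
      have h' : M ∣ 3 := by
        have hc2 : Nat.Coprime M 2 :=
          ((Nat.Prime.coprime_iff_not_dvd Nat.prime_two).mpr hodd).symm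
        have hc : Nat.Coprime M (2 ^ 2) := hc2.pow_right 2
        have h12 : M ∣ 3 * 2 ^ 2 := by norm_num; exact h
        exact (Nat.Coprime.dvd_mul_right hc).mp h12
      exact h3 h'
    -- the triplication relation forces `x² + x + 1 = 0` at the division values
    have htrip : ∀ a : ℕ, ¬ M ∣ a → ¬ M ∣ 3 * a →
        xv (z ^ a) ^ 2 + xv (z ^ a) + 1 = 0 := by
      intro a ha h3a
      have hu1 : z ^ a ≠ 1 := pow_ne_one_of_not_dvd hz ha
      have hu3 : (z ^ a) ^ 3 ≠ 1 := by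
        rw [← pow_mul']; exact pow_ne_one_of_not_dvd hz h3a
      have hv1 : z ^ (d * a) ≠ 1 := pow_mul_ne_one_of_not_dvd hz hd ha
      have hv3 : (z ^ (d * a)) ^ 3 ≠ 1 := by
        rw [← pow_mul', show 3 * (d * a) = d * (3 * a) by ring]
        exact pow_mul_ne_one_of_not_dvd hz hd h3a
      have T1 := xv_cube hu1 hu3
      have T2 := xv_cube hv1 hv3
      rw [← pow_mul'] at T1 T2
      rw [show 3 * (d * a) = d * (3 * a) by ring, hA a ha, hA (3 * a) h3a] at T2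
      linear_combination xv (z ^ a) ^ 2 * T1 - (xv (z ^ a) ^ 2 + 1) * T2
        + (8 + 8 * xv (z ^ (3 * a)) + 11 * xv (z ^ a)
            + 12 * xv (z ^ a) * xv (z ^ (3 * a)) + 11 * xv (z ^ a) ^ 2
            + 12 * xv (z ^ a) ^ 2 * xv (z ^ (3 * a)) + 10 * xv (z ^ a) ^ 3
            + 9 * xv (z ^ a) ^ 3 * xv (z ^ (3 * a)) + 3 * xv (z ^ a) ^ 4) * htwo
    have d14 : xv (z ^ 1) ≠ xv (z ^ 4) :=
      xv_pow_ne hz (by omega) (by omega) (by omega) h1 h4 h5
    have d24 : xv (z ^ 2) ≠ xv (z ^ 4) :=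
      xv_pow_ne hz (by omega) (by omega) (by omega) h2 h4 h6
    have t1 := htrip 1 h1 h3
    have t2 := htrip 2 h2 h6
    have t4 := htrip 4 h4 hM9
    have s12 : xv (z ^ 1) + xv (z ^ 2) + 1 = 0 := by
      have h : (xv (z ^ 1) - xv (z ^ 2)) * (xv (z ^ 1) + xv (z ^ 2) + 1) = 0 := by
        linear_combination t1 - t2
      exact (mul_eq_zero.mp h).resolve_left (sub_ne_zero.mpr d12)
    have s14 : xv (z ^ 1) + xv (z ^ 4) + 1 = 0 := by
      have h : (xv (z ^ 1) - xv (z ^ 4)) * (xv (z ^ 1) + xv (z ^ 4) + 1) = 0 := by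
        linear_combination t1 - t4
      exact (mul_eq_zero.mp h).resolve_left (sub_ne_zero.mpr d14)
    exact d24 (by linear_combination s12 - s14)

/-- Ratio preservation (only the quadruples `(a, 1, 1, 2)` are needed) gives one affine map. -/
theorem exists_affine_of_ratio (hM : 7 ≤ M) (hz : IsPrimitiveRoot z M) {d : ℕ}
    (hd : d.Coprime M)
    (h : ∀ a : ℕ, ¬ M ∣ a →
      (xv (z ^ (d * a)) - xv (z ^ (d * 1))) * (xv (z ^ 1) - xv (z ^ 2)) =
        (xv (z ^ a) - xv (z ^ 1)) * (xv (z ^ (d * 1)) - xv (z ^ (d * 2)))) :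
    ∃ α β : k, α ≠ 0 ∧ ∀ a : ℕ, ¬ M ∣ a → xv (z ^ (d * a)) = α * xv (z ^ a) + β := by
  have hnd : ∀ a : ℕ, 0 < a → a < M → ¬ M ∣ a := fun a h0 h1 h =>
    absurd (Nat.le_of_dvd h0 h) (by omega)
  have h1 : ¬ M ∣ 1 := hnd 1 (by omega) (by omega)
  have h2 : ¬ M ∣ 2 := hnd 2 (by omega) (by omega)
  have h3 : ¬ M ∣ 3 := hnd 3 (by omega) (by omega)
  have d12 : xv (z ^ 1) - xv (z ^ 2) ≠ 0 :=
    sub_ne_zero.mpr (xv_pow_ne hz (by omega) (by omega) (by omega) h1 h2 h3)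
  have e12 : xv (z ^ (d * 1)) - xv (z ^ (d * 2)) ≠ 0 := by
    apply sub_ne_zero.mpr
    intro hh
    rcases (xv_eq_iff (pow_mul_ne_one_of_not_dvd hz hd h1)
      (pow_mul_ne_one_of_not_dvd hz hd h2)).mp hh with h' | h'
    · have e : z ^ (d * 2) = z ^ (d * 1) * z ^ (d * 1) := by rw [← pow_add]; ring_nf
      rw [e] at h'
      have hz0 : z ^ (d * 1) ≠ 0 := pow_ne_zero _ (hz.ne_zero (by omega))
      have : z ^ (d * 1) = 1 := by
        have h'' : z ^ (d * 1) * 1 = z ^ (d * 1) * z ^ (d * 1) := by rw [mul_one]; exact h'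
        exact (mul_left_cancel₀ hz0 h'').symm
      exact pow_mul_ne_one_of_not_dvd hz hd h1 this
    · rw [← pow_add, show d * 1 + d * 2 = d * 3 by ring] at h'
      exact pow_mul_ne_one_of_not_dvd hz hd h3 h'
  refine ⟨(xv (z ^ (d * 1)) - xv (z ^ (d * 2))) / (xv (z ^ 1) - xv (z ^ 2)),
    xv (z ^ (d * 1)) - (xv (z ^ (d * 1)) - xv (z ^ (d * 2))) / (xv (z ^ 1) - xv (z ^ 2))
      * xv (z ^ 1), div_ne_zero e12 d12, ?_⟩
  intro a ha
  have := h a ha
  have key : xv (z ^ (d * a)) - xv (z ^ (d * 1)) =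
      (xv (z ^ (d * 1)) - xv (z ^ (d * 2))) / (xv (z ^ 1) - xv (z ^ 2))
        * (xv (z ^ a) - xv (z ^ 1)) := by
    rw [div_mul_eq_mul_div, eq_div_iff d12]
    linear_combination this
  linear_combination key

/-- **Leaf A3.**  If `x(z^a) ↦ x(z^(d a))` preserves the ratios
`(x_a - x_1) / (x_1 - x_2)`, then `d ≡ ±1 mod M`. -/
theorem diamond_eq_pm_one_of_ratio (hM : 7 ≤ M) (hz : IsPrimitiveRoot z M) {d : ℕ}
    (hd : d.Coprime M)
    (h : ∀ a : ℕ, ¬ M ∣ a →
      (xv (z ^ (d * a)) - xv (z ^ (d * 1))) * (xv (z ^ 1) - xv (z ^ 2)) =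
        (xv (z ^ a) - xv (z ^ 1)) * (xv (z ^ (d * 1)) - xv (z ^ (d * 2)))) :
    (d : ZMod M) = 1 ∨ (d : ZMod M) = -1 := by
  obtain ⟨α, β, hα, hA⟩ := exists_affine_of_ratio hM hz hd h
  obtain ⟨rfl, rfl⟩ := eq_id_of_affine hM hz hd hα hA
  have h1 : ¬ M ∣ 1 := fun hh => absurd (Nat.le_of_dvd (by omega) hh) (by omega)
  have e := hA 1 h1
  rw [one_mul, add_zero] at e
  have hd0 : 0 < d := by
    rcases Nat.eq_zero_or_pos d with rfl | hpos
    · simp at hd; omega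
    · exact hpos
  rcases (xv_eq_iff (pow_mul_ne_one_of_not_dvd hz hd h1) (pow_ne_one_of_not_dvd hz h1)).mp e
    with h' | h'
  · left
    have hz0 : z ≠ 0 := hz.ne_zero (by omega)
    have e1 : z ^ (d - 1) = 1 := by
      have : z * z ^ (d - 1) = z * 1 := by
        rw [← pow_succ', mul_one, Nat.sub_add_cancel hd0]
        simpa using h'
      exact mul_left_cancel₀ hz0 this
    have hdvd : M ∣ d - 1 := (hz.pow_eq_one_iff_dvd _).mp e1
    have : ((d - 1 : ℕ) : ZMod M) = 0 := (ZMod.natCast_eq_zero_iff _ _).mpr hdvd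
    rw [Nat.cast_sub hd0, Nat.cast_one] at this
    exact sub_eq_zero.mp this
  · right
    rw [← pow_add] at h'
    have hdvd : M ∣ d * 1 + 1 := (hz.pow_eq_one_iff_dvd _).mp h'
    have : ((d * 1 + 1 : ℕ) : ZMod M) = 0 := (ZMod.natCast_eq_zero_iff _ _).mpr hdvd
    rw [mul_one, Nat.cast_add, Nat.cast_one] at this
    exact eq_neg_of_add_eq_zero_left this

/-- **Leaf A3, cross-multiplied form for all quadruples.** -/
theorem diamond_eq_pm_one (hM : 7 ≤ M) (hz : IsPrimitiveRoot z M) {d : ℕ} (hd : d.Coprime M)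
    (h : ∀ a b c e : ℕ, ¬ M ∣ a → ¬ M ∣ b → ¬ M ∣ c → ¬ M ∣ e →
      (xv (z ^ (d * a)) - xv (z ^ (d * b))) * (xv (z ^ c) - xv (z ^ e)) =
        (xv (z ^ a) - xv (z ^ b)) * (xv (z ^ (d * c)) - xv (z ^ (d * e)))) :
    (d : ZMod M) = 1 ∨ (d : ZMod M) = -1 := by
  have hnd : ∀ a : ℕ, 0 < a → a < M → ¬ M ∣ a := fun a h0 h1 h =>
    absurd (Nat.le_of_dvd h0 h) (by omega)
  exact diamond_eq_pm_one_of_ratio hM hz hd
    (fun a ha => h a 1 1 2 ha (hnd 1 (by omega) (by omega)) (hnd 1 (by omega) (by omega))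
      (hnd 2 (by omega) (by omega)))

/-- **Leaf A3, division form.**  The ratios `(x_a - x_1) / (x_1 - x_2)` are preserved. -/
theorem diamond_eq_pm_one_of_div (hM : 7 ≤ M) (hz : IsPrimitiveRoot z M) {d : ℕ}
    (hd : d.Coprime M)
    (h : ∀ a : ℕ, ¬ M ∣ a →
      (xv (z ^ (d * a)) - xv (z ^ (d * 1))) / (xv (z ^ (d * 1)) - xv (z ^ (d * 2))) =
        (xv (z ^ a) - xv (z ^ 1)) / (xv (z ^ 1) - xv (z ^ 2))) :
    (d : ZMod M) = 1 ∨ (d : ZMod M) = -1 := by
  have hnd : ∀ a : ℕ, 0 < a → a < M → ¬ M ∣ a := fun a h0 h1 h =>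
    absurd (Nat.le_of_dvd h0 h) (by omega)
  have h1 : ¬ M ∣ 1 := hnd 1 (by omega) (by omega)
  have h2 : ¬ M ∣ 2 := hnd 2 (by omega) (by omega)
  have h3 : ¬ M ∣ 3 := hnd 3 (by omega) (by omega)
  have d12 : xv (z ^ 1) - xv (z ^ 2) ≠ 0 :=
    sub_ne_zero.mpr (xv_pow_ne hz (by omega) (by omega) (by omega) h1 h2 h3)
  have e12 : xv (z ^ (d * 1)) - xv (z ^ (d * 2)) ≠ 0 := by
    apply sub_ne_zero.mpr
    intro hh
    rcases (xv_eq_iff (pow_mul_ne_one_of_not_dvd hz hd h1)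
      (pow_mul_ne_one_of_not_dvd hz hd h2)).mp hh with h' | h'
    · have e : z ^ (d * 2) = z ^ (d * 1) * z ^ (d * 1) := by rw [← pow_add]; ring_nf
      rw [e] at h'
      have hz0 : z ^ (d * 1) ≠ 0 := pow_ne_zero _ (hz.ne_zero (by omega))
      have : z ^ (d * 1) = 1 := by
        have h'' : z ^ (d * 1) * 1 = z ^ (d * 1) * z ^ (d * 1) := by rw [mul_one]; exact h'
        exact (mul_left_cancel₀ hz0 h'').symm
      exact pow_mul_ne_one_of_not_dvd hz hd h1 this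
    · rw [← pow_add, show d * 1 + d * 2 = d * 3 by ring] at h'
      exact pow_mul_ne_one_of_not_dvd hz hd h3 h'
  refine diamond_eq_pm_one_of_ratio hM hz hd (fun a ha => ?_)
  have := h a ha
  rw [div_eq_div_iff e12 d12] at this
  exact this

/-- **Leaf A3 for a unit of `ZMod M`** (the index set of the diamond operators). -/
theorem unit_eq_pm_one (hM : 7 ≤ M) (hz : IsPrimitiveRoot z M) (d : (ZMod M)ˣ)
    (h : ∀ a : ℕ, ¬ M ∣ a →
      (xv (z ^ ((d : ZMod M).val * a)) - xv (z ^ ((d : ZMod M).val * 1)))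
          * (xv (z ^ 1) - xv (z ^ 2)) =
        (xv (z ^ a) - xv (z ^ 1))
          * (xv (z ^ ((d : ZMod M).val * 1)) - xv (z ^ ((d : ZMod M).val * 2)))) :
    d = 1 ∨ d = -1 := by
  have : NeZero M := ⟨by omega⟩
  have hd : ((d : ZMod M).val).Coprime M := ZMod.val_coe_unit_coprime d
  have key := diamond_eq_pm_one_of_ratio hM hz hd h
  rw [ZMod.natCast_zmod_val] at key
  rcases key with h1 | h1
  · exact Or.inl (Units.ext (by simpa using h1))
  · exact Or.inr (Units.ext (by simpa using h1))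

end Root

/-- The difference of two division values in "unit" form. -/
theorem xv_sub_xv {u v : k} (hu : u ≠ 1) (hv : v ≠ 1) :
    xv u - xv v = (u - v) * (1 - u * v) / ((1 - u) ^ 2 * (1 - v) ^ 2) := by
  have hu' : 1 - u ≠ 0 := sub_ne_zero.mpr (Ne.symm hu)
  have hv' : 1 - v ≠ 0 := sub_ne_zero.mpr (Ne.symm hv)
  unfold xv
  field_simp
  ring

end Fermat.Agent.S48.helper1785
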