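import Mathlib
import Fermat.Agent.S28.helper1448_RatioField

/-!
# S48-A2-GAL, analytic core (helper182): ratios of modular forms on `Γ₁(M)` and the diamonds

Everything is over `ℂ` and at the level of `q`-expansions in `LaurentSeries ℂ`.

* `IsMF1 M k g` : the function `g : ℍ → ℂ` is a modular form of weight `k` on `Γ₁(M)`
  (function-level predicate, the `Γ₁` twin of the landed `S28.helper1448.IsMF`).
* `IsMF1.slash` : `Γ₀(M)` normalises `Γ₁(M)`: `g ∣[k] γ` is again a form on `Γ₁(M)` for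
  `γ ∈ Γ₀(M)`; it only depends on `dd M γ = (γ 1 1 mod M)` (`IsMF1.slash_eq_of_dd_eq`).
* `IsRatio1 M x` : `x` is the ratio of the `q`-expansions of two forms of equal weight on
  `Γ₁(M)`; `ratioField1 M : Subfield (LaurentSeries ℂ)`.
* `DiaRel M γ x y` : `x = Q(F)/Q(H)` and `y = Q(F∣γ)/Q(H∣γ)` for one (equivalently every)
  presentation of `x`.  For `γ ∈ Γ₀(M)` it is the graph of a field automorphism of
  `ratioField1 M` (`DiaRel.unique`, `IsRatio1.exists_diaRel`, `DiaRel.add`, `DiaRel.mul`, ...),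
  the **diamond operator** `⟨dd M γ⟩`.
* `DiaRel.of_isRatio` : ratios of forms on `Γ₀(M)` are fixed;
* `isRatio_of_diaRel_self` : conversely a `Γ₁`-ratio fixed by all diamonds is a ratio of two
  forms on `Γ₀(M)` (norm trick), i.e. lies in the landed `S28.helper1448.ratioField M`.
-/

set_option autoImplicit false

open UpperHalfPlane ModularForm CongruenceSubgroup
open scoped MatrixGroups ModularForm

namespace Fermat.Agent.S48.helper182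

noncomputable section

open Fermat.Agent.S28.helper1448 (ιC ιC_injective G0 IsMF)

/-! ### `Γ₁(M)` inside `Γ₀(M)` -/

/-- `Γ₁(M)` as a subgroup of `GL(2, ℝ)`. -/
abbrev G1 (M : ℕ) : Subgroup (GL (Fin 2) ℝ) :=
  (Gamma1 M).map (Matrix.SpecialLinearGroup.mapGL ℝ)

/-- The lower right entry modulo `M` (the diamond index of an element of `Γ₀(M)`). -/
def dd (M : ℕ) (γ : SL(2, ℤ)) : ZMod M := ((γ 1 1 : ℤ) : ZMod M)

theorem mem_Gamma1_iff {M : ℕ} {A : SL(2, ℤ)} :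
    A ∈ Gamma1 M ↔ A ∈ Gamma0 M ∧ dd M A = 1 := by
  rw [Gamma1_mem, Gamma0_mem, dd]
  constructor
  · rintro ⟨-, h1, h0⟩
    exact ⟨h0, h1⟩
  · rintro ⟨h0, h1⟩
    refine ⟨?_, h1, h0⟩
    have hdet := Matrix.SpecialLinearGroup.det_coe A
    rw [Matrix.det_fin_two] at hdet
    have h := congrArg (Int.cast : ℤ → ZMod M) hdet
    push_cast at h
    rw [h0, h1] at h
    simpa using h

theorem dd_one (M : ℕ) : dd M 1 = 1 := by simp [dd]

theorem dd_mul {M : ℕ} {γ : SL(2, ℤ)} (hγ : γ ∈ Gamma0 M) (γ' : SL(2, ℤ)) :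
    dd M (γ * γ') = dd M γ * dd M γ' := by
  rw [Gamma0_mem] at hγ
  simp only [dd, Matrix.SpecialLinearGroup.coe_mul, Matrix.mul_apply, Fin.sum_univ_two]
  push_cast
  rw [hγ]
  ring

theorem dd_mul_inv {M : ℕ} {γ : SL(2, ℤ)} (hγ : γ ∈ Gamma0 M) : dd M γ * dd M γ⁻¹ = 1 := by
  rw [← dd_mul hγ, mul_inv_cancel, dd_one]

theorem dd_inv_mul {M : ℕ} {γ : SL(2, ℤ)} (hγ : γ ∈ Gamma0 M) : dd M γ⁻¹ * dd M γ = 1 := by
  rw [mul_comm, dd_mul_inv hγ]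

theorem mul_inv_mem_Gamma1 {M : ℕ} {γ γ' : SL(2, ℤ)} (hγ : γ ∈ Gamma0 M) (hγ' : γ' ∈ Gamma0 M)
    (h : dd M γ' = dd M γ) : γ' * γ⁻¹ ∈ Gamma1 M := by
  rw [mem_Gamma1_iff]
  refine ⟨mul_mem hγ' (inv_mem hγ), ?_⟩
  rw [dd_mul hγ', h, dd_mul_inv hγ]

theorem conj_mem_Gamma1 {M : ℕ} {γ δ : SL(2, ℤ)} (hγ : γ ∈ Gamma0 M) (hδ : δ ∈ Gamma1 M) :
    γ * δ * γ⁻¹ ∈ Gamma1 M := by
  rw [mem_Gamma1_iff] at hδ ⊢
  refine ⟨mul_mem (mul_mem hγ hδ.1) (inv_mem hγ), ?_⟩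
  rw [dd_mul (mul_mem hγ hδ.1), dd_mul hγ, hδ.2, mul_one, dd_mul_inv hγ]

theorem conj_mem_Gamma1' {M : ℕ} {γ δ : SL(2, ℤ)} (hγ : γ ∈ Gamma0 M) (hδ : δ ∈ Gamma1 M) :
    γ⁻¹ * δ * γ ∈ Gamma1 M := by
  have := conj_mem_Gamma1 (inv_mem hγ) hδ
  rwa [inv_inv] at this

open ConjAct Pointwise in
theorem conj_G1 {M : ℕ} {γ : SL(2, ℤ)} (hγ : γ ∈ Gamma0 M) :
    toConjAct (Matrix.SpecialLinearGroup.mapGL ℝ γ)⁻¹ • G1 M = G1 M := by
  ext x
  rw [Subgroup.mem_pointwise_smul_iff_inv_smul_mem, map_inv, inv_inv, ConjAct.toConjAct_smul]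
  constructor
  · rintro ⟨δ, hδ, h⟩
    refine ⟨γ⁻¹ * δ * γ, conj_mem_Gamma1' hγ hδ, ?_⟩
    rw [map_mul, map_mul, h, map_inv]
    group
  · rintro ⟨δ, hδ, rfl⟩
    refine ⟨γ * δ * γ⁻¹, conj_mem_Gamma1 hγ hδ, ?_⟩
    rw [map_mul, map_mul, map_inv]

/-- Every unit of `ZMod M` is the diamond index of an element of `Γ₀(M)`. -/
theorem exists_mem_Gamma0_dd_eq {M : ℕ} (u : (ZMod M)ˣ) :
    ∃ γ : SL(2, ℤ), γ ∈ Gamma0 M ∧ dd M γ = (u : ZMod M) := by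
  obtain ⟨d, hd⟩ := ZMod.intCast_surjective (u : ZMod M)
  have hcop : IsCoprime d (M : ℤ) := by
    obtain ⟨e, he⟩ := ZMod.intCast_surjective ((u⁻¹ : (ZMod M)ˣ) : ZMod M)
    have h1 : ((d * e - 1 : ℤ) : ZMod M) = 0 := by
      push_cast
      rw [hd, he, Units.mul_inv, sub_self]
    rw [ZMod.intCast_zmod_eq_zero_iff_dvd] at h1
    obtain ⟨c, hc⟩ := h1
    exact ⟨e, -c, by linear_combination hc⟩
  obtain ⟨a, b, hab⟩ := hcop
  have hdet : Matrix.det !![a, -b; (M : ℤ), d] = 1 := by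
    rw [Matrix.det_fin_two_of]
    linear_combination hab
  let g : SL(2, ℤ) := ⟨!![a, -b; (M : ℤ), d], hdet⟩
  have h10 : (g 1 0 : ℤ) = (M : ℤ) := rfl
  have h11 : (g 1 1 : ℤ) = d := rfl
  refine ⟨g, ?_, ?_⟩
  · rw [Gamma0_mem, h10]
    simp
  · rw [dd, h11, hd]

/-! ### Function-level modular forms on `Γ₁(M)` -/

/-- Function-level modular forms of weight `k` on `Γ₁(M)`. -/
def IsMF1 (M : ℕ) (k : ℤ) (g : ℍ → ℂ) : Prop :=
  ∃ G : ModularForm (G1 M) k, ⇑G = g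

namespace IsMF1

variable {M : ℕ} {k k₁ k₂ : ℤ} {g g₁ g₂ : ℍ → ℂ}

lemma zero : IsMF1 M k 0 := ⟨0, rfl⟩

lemma add (h₁ : IsMF1 M k g₁) (h₂ : IsMF1 M k g₂) : IsMF1 M k (g₁ + g₂) := by
  obtain ⟨G₁, rfl⟩ := h₁
  obtain ⟨G₂, rfl⟩ := h₂
  exact ⟨G₁ + G₂, rfl⟩

lemma neg (h : IsMF1 M k g) : IsMF1 M k (-g) := by
  obtain ⟨G, rfl⟩ := h
  exact ⟨-G, rfl⟩

lemma sub (h₁ : IsMF1 M k g₁) (h₂ : IsMF1 M k g₂) : IsMF1 M k (g₁ - g₂) := by
  obtain ⟨G₁, rfl⟩ := h₁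
  obtain ⟨G₂, rfl⟩ := h₂
  exact ⟨G₁ - G₂, rfl⟩

lemma smul (c : ℂ) (h : IsMF1 M k g) : IsMF1 M k (c • g) := by
  obtain ⟨G, rfl⟩ := h
  exact ⟨c • G, rfl⟩

lemma mul (h₁ : IsMF1 M k₁ g₁) (h₂ : IsMF1 M k₂ g₂) : IsMF1 M (k₁ + k₂) (g₁ * g₂) := by
  obtain ⟨G₁, rfl⟩ := h₁
  obtain ⟨G₂, rfl⟩ := h₂
  exact ⟨G₁.mul G₂, rfl⟩

lemma one : IsMF1 M 0 1 := ⟨1, rfl⟩

lemma cast (h : IsMF1 M k₁ g) (e : k₁ = k₂) : IsMF1 M k₂ g := e ▸ h

lemma prod {ι : Type} (s : Finset ι) (f : ι → ℍ → ℂ) (h : ∀ i, IsMF1 M k (f i)) :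
    IsMF1 M (s.card * k) (∏ i ∈ s, f i) := by
  choose F hF using h
  refine ⟨ModularForm.prodEqualWeights (s := s) F, ?_⟩
  rw [ModularForm.coe_prodEqualWeights]
  exact Finset.prod_congr rfl fun i _ => hF i

lemma one_mem_strictPeriods (M : ℕ) : (1 : ℝ) ∈ (G1 M).strictPeriods := by simp

lemma analyticAt (h : IsMF1 M k g) : AnalyticAt ℂ (cuspFunction 1 g) 0 := by
  obtain ⟨G, rfl⟩ := h
  exact ModularFormClass.analyticAt_cuspFunction_zero G one_pos (one_mem_strictPeriods M)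

lemma qExpansion_mul (h₁ : IsMF1 M k₁ g₁) (h₂ : IsMF1 M k₂ g₂) :
    qExpansion 1 (g₁ * g₂) = qExpansion 1 g₁ * qExpansion 1 g₂ :=
  UpperHalfPlane.qExpansion_mul h₁.analyticAt h₂.analyticAt

lemma qExpansion_add (h₁ : IsMF1 M k₁ g₁) (h₂ : IsMF1 M k₂ g₂) :
    qExpansion 1 (g₁ + g₂) = qExpansion 1 g₁ + qExpansion 1 g₂ :=
  UpperHalfPlane.qExpansion_add h₁.analyticAt h₂.analyticAt

lemma qExpansion_sub (h₁ : IsMF1 M k₁ g₁) (h₂ : IsMF1 M k₂ g₂) :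
    qExpansion 1 (g₁ - g₂) = qExpansion 1 g₁ - qExpansion 1 g₂ :=
  UpperHalfPlane.qExpansion_sub h₁.analyticAt h₂.analyticAt

lemma qExpansion_eq_zero_iff (h : IsMF1 M k g) : qExpansion 1 g = 0 ↔ g = 0 := by
  obtain ⟨G, rfl⟩ := h
  rw [ModularForm.qExpansion_eq_zero_iff one_pos (one_mem_strictPeriods M)]
  exact ⟨fun h => by rw [h]; rfl, fun h => DFunLike.coe_injective h⟩

/-- The `q`-expansion is injective on forms of a given weight. -/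
lemma eq_of_qExpansion_eq (h₁ : IsMF1 M k g₁) (h₂ : IsMF1 M k g₂)
    (h : qExpansion 1 g₁ = qExpansion 1 g₂) : g₁ = g₂ := by
  have h0 : qExpansion 1 (g₁ - g₂) = 0 := by rw [h₁.qExpansion_sub h₂, h, sub_self]
  exact sub_eq_zero.mp ((h₁.sub h₂).qExpansion_eq_zero_iff.mp h0)

lemma ιC_qExpansion_ne_zero (h : IsMF1 M k g) (h0 : g ≠ 0) : ιC (qExpansion 1 g) ≠ 0 := by
  intro h'
  exact h0 (h.qExpansion_eq_zero_iff.mp (ιC_injective (by simpa using h')))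

lemma mul_ne_zero (h₁ : IsMF1 M k₁ g₁) (h₂ : IsMF1 M k₂ g₂) (h₁0 : g₁ ≠ 0) (h₂0 : g₂ ≠ 0) :
    g₁ * g₂ ≠ 0 := by
  intro h
  have := (h₁.mul h₂).qExpansion_eq_zero_iff.mpr h
  rw [h₁.qExpansion_mul h₂] at this
  rcases mul_eq_zero.mp this with h | h
  · exact h₁0 (h₁.qExpansion_eq_zero_iff.mp h)
  · exact h₂0 (h₂.qExpansion_eq_zero_iff.mp h)

/-- Forms on `Γ₁(M)` are invariant under `Γ₁(M)`. -/
lemma slash_eq (h : IsMF1 M k g) {δ : SL(2, ℤ)} (hδ : δ ∈ Gamma1 M) : g ∣[k] δ = g := by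
  obtain ⟨G, rfl⟩ := h
  exact G.slash_action_eq' _ (Subgroup.mem_map_of_mem _ hδ)

/-- `Γ₀(M)` normalises `Γ₁(M)`: the slash by `γ ∈ Γ₀(M)` preserves forms on `Γ₁(M)`. -/
lemma slash (h : IsMF1 M k g) {γ : SL(2, ℤ)} (hγ : γ ∈ Gamma0 M) : IsMF1 M k (g ∣[k] γ) := by
  obtain ⟨G, rfl⟩ := h
  exact ⟨(ModularForm.translate G (Matrix.SpecialLinearGroup.mapGL ℝ γ)).mcast rfl
    (conj_G1 hγ).symm, rfl⟩

/-- The slash by `γ ∈ Γ₀(M)` of a form on `Γ₁(M)` only depends on the diamond index. -/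
lemma slash_eq_of_dd_eq (h : IsMF1 M k g) {γ γ' : SL(2, ℤ)} (hγ : γ ∈ Gamma0 M)
    (hγ' : γ' ∈ Gamma0 M) (hd : dd M γ' = dd M γ) : g ∣[k] γ' = g ∣[k] γ := by
  have h1 : γ' = (γ' * γ⁻¹) * γ := by group
  rw [h1, SlashAction.slash_mul, h.slash_eq (mul_inv_mem_Gamma1 hγ hγ' hd)]

lemma slash_ne_zero (h0 : g ≠ 0) (γ : SL(2, ℤ)) : g ∣[k] γ ≠ 0 := by
  intro h
  apply h0
  have h1 : g = (g ∣[k] γ) ∣[k] γ⁻¹ := by
    rw [← SlashAction.slash_mul, mul_inv_cancel, SlashAction.slash_one]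
  rw [h1, h, SlashAction.zero_slash]

/-- A form on `Γ₀(M)` is a form on `Γ₁(M)`. -/
lemma of_isMF (h : IsMF M k g) : IsMF1 M k g := by
  obtain ⟨G, rfl⟩ := h
  have hle : G1 M ≤ G0 M := Subgroup.map_mono (Gamma1_in_Gamma0 M)
  exact ⟨{ toFun := G
           slash_action_eq' := fun γ hγ => G.slash_action_eq' γ (hle hγ)
           holo' := G.holo'
           bdd_at_cusps' := fun hc => G.bdd_at_cusps' (hc.mono hle) }, rfl⟩

/-- A form on `Γ₁(M)` that is invariant under `Γ₀(M)` is a form on `Γ₀(M)`. -/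
lemma isMF [NeZero M] (h : IsMF1 M k g) (hinv : ∀ γ ∈ Gamma0 M, g ∣[k] γ = g) : IsMF M k g := by
  obtain ⟨G, rfl⟩ := h
  refine ⟨{ toFun := G
            slash_action_eq' := ?_
            holo' := G.holo'
            bdd_at_cusps' := fun hc => G.bdd_at_cusps' ?_ }, rfl⟩
  · rintro _ ⟨γ, hγ, rfl⟩
    exact hinv γ hγ
  · rw [Subgroup.IsArithmetic.isCusp_iff_isCusp_SL2Z] at hc ⊢
    exact hc

end IsMF1

/-! ### Ratios of `q`-expansions of forms on `Γ₁(M)` -/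

/-- `x` is the ratio of the `q`-expansions of two modular forms of the same weight on `Γ₁(M)`. -/
def IsRatio1 (M : ℕ) (x : LaurentSeries ℂ) : Prop :=
  ∃ (k : ℤ) (F H : ℍ → ℂ), IsMF1 M k F ∧ IsMF1 M k H ∧ H ≠ 0 ∧
    ιC (qExpansion 1 H) * x = ιC (qExpansion 1 F)

/-- The diamond relation: `x = Q(F)/Q(H)` and `y = Q(F∣γ)/Q(H∣γ)`. -/
def DiaRel (M : ℕ) (γ : SL(2, ℤ)) (x y : LaurentSeries ℂ) : Prop :=
  ∃ (k : ℤ) (F H : ℍ → ℂ), IsMF1 M k F ∧ IsMF1 M k H ∧ H ≠ 0 ∧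
    ιC (qExpansion 1 H) * x = ιC (qExpansion 1 F) ∧
    ιC (qExpansion 1 (H ∣[k] γ)) * y = ιC (qExpansion 1 (F ∣[k] γ))

namespace DiaRel

variable {M : ℕ} {γ : SL(2, ℤ)} {x y x' y' : LaurentSeries ℂ}

lemma isRatio1 (h : DiaRel M γ x y) : IsRatio1 M x := by
  obtain ⟨k, F, H, hF, hH, hH0, hx, -⟩ := h
  exact ⟨k, F, H, hF, hH, hH0, hx⟩

lemma isRatio1' (hγ : γ ∈ Gamma0 M) (h : DiaRel M γ x y) : IsRatio1 M y := by
  obtain ⟨k, F, H, hF, hH, hH0, -, hy⟩ := h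
  exact ⟨k, F ∣[k] γ, H ∣[k] γ, hF.slash hγ, hH.slash hγ, IsMF1.slash_ne_zero hH0 γ, hy⟩

/-- The diamond relation is functional. -/
lemma unique (hγ : γ ∈ Gamma0 M) (h : DiaRel M γ x y) (h' : DiaRel M γ x y') : y = y' := by
  obtain ⟨k, F, H, hF, hH, hH0, hx, hy⟩ := h
  obtain ⟨k', F', H', hF', hH', hH'0, hx', hy'⟩ := h'
  -- `H * F' = H' * F` as functions
  have e1 : qExpansion 1 (H * F') = qExpansion 1 (H' * F) := by
    apply ιC_injective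
    rw [hH.qExpansion_mul hF', hH'.qExpansion_mul hF, map_mul, map_mul, ← hx', ← hx]
    ring
  have e2 : H * F' = H' * F :=
    (hH.mul hF').eq_of_qExpansion_eq ((hH'.mul hF).cast (add_comm k' k)) e1
  have e3 : (H ∣[k] γ) * (F' ∣[k'] γ) = (H' ∣[k'] γ) * (F ∣[k] γ) := by
    rw [← mul_slash_SL2, ← mul_slash_SL2, e2, add_comm k k']
  have e4 : ιC (qExpansion 1 (H ∣[k] γ)) * ιC (qExpansion 1 (F' ∣[k'] γ))
      = ιC (qExpansion 1 (H' ∣[k'] γ)) * ιC (qExpansion 1 (F ∣[k] γ)) := by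
    rw [← map_mul, ← map_mul, ← (hH.slash hγ).qExpansion_mul (hF'.slash hγ),
      ← (hH'.slash hγ).qExpansion_mul (hF.slash hγ), e3]
  have n1 := (hH.slash hγ).ιC_qExpansion_ne_zero (IsMF1.slash_ne_zero hH0 γ)
  have n2 := (hH'.slash hγ).ιC_qExpansion_ne_zero (IsMF1.slash_ne_zero hH'0 γ)
  apply mul_left_cancel₀ (mul_ne_zero n1 n2)
  calc ιC (qExpansion 1 (H ∣[k] γ)) * ιC (qExpansion 1 (H' ∣[k'] γ)) * y
      = ιC (qExpansion 1 (H' ∣[k'] γ)) * (ιC (qExpansion 1 (H ∣[k] γ)) * y) := by ring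
    _ = ιC (qExpansion 1 (H ∣[k] γ)) * (ιC (qExpansion 1 (H' ∣[k'] γ)) * y') := by
        rw [hy, ← e4, hy']
    _ = ιC (qExpansion 1 (H ∣[k] γ)) * ιC (qExpansion 1 (H' ∣[k'] γ)) * y' := by ring

lemma add (h : DiaRel M γ x y) (h' : DiaRel M γ x' y') (hγ : γ ∈ Gamma0 M) :
    DiaRel M γ (x + x') (y + y') := by
  obtain ⟨k, F, H, hF, hH, hH0, hx, hy⟩ := h
  obtain ⟨k', F', H', hF', hH', hH'0, hx', hy'⟩ := h'
  refine ⟨k + k', F * H' + H * F', H * H', (hF.mul hH').add (hH.mul hF'), hH.mul hH',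
    hH.mul_ne_zero hH' hH0 hH'0, ?_, ?_⟩
  · rw [hH.qExpansion_mul hH', (hF.mul hH').qExpansion_add (hH.mul hF'), hF.qExpansion_mul hH',
      hH.qExpansion_mul hF', map_mul, map_add, map_mul, map_mul, ← hx, ← hx']
    ring
  · rw [SlashAction.add_slash, mul_slash_SL2, mul_slash_SL2, mul_slash_SL2,
      (hH.slash hγ).qExpansion_mul (hH'.slash hγ),
      ((hF.slash hγ).mul (hH'.slash hγ)).qExpansion_add ((hH.slash hγ).mul (hF'.slash hγ)),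
      (hF.slash hγ).qExpansion_mul (hH'.slash hγ), (hH.slash hγ).qExpansion_mul (hF'.slash hγ),
      map_mul, map_add, map_mul, map_mul, ← hy, ← hy']
    ring

lemma mul (h : DiaRel M γ x y) (h' : DiaRel M γ x' y') (hγ : γ ∈ Gamma0 M) :
    DiaRel M γ (x * x') (y * y') := by
  obtain ⟨k, F, H, hF, hH, hH0, hx, hy⟩ := h
  obtain ⟨k', F', H', hF', hH', hH'0, hx', hy'⟩ := h'
  refine ⟨k + k', F * F', H * H', hF.mul hF', hH.mul hH', hH.mul_ne_zero hH' hH0 hH'0, ?_, ?_⟩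
  · rw [hH.qExpansion_mul hH', hF.qExpansion_mul hF', map_mul, map_mul, ← hx, ← hx']
    ring
  · rw [mul_slash_SL2, mul_slash_SL2, (hH.slash hγ).qExpansion_mul (hH'.slash hγ),
      (hF.slash hγ).qExpansion_mul (hF'.slash hγ), map_mul, map_mul, ← hy, ← hy']
    ring

end DiaRel

/-! ### Further closure properties of the diamond relation -/

lemma IsMF1.qExpansion_smul {M : ℕ} {k : ℤ} {g : ℍ → ℂ} (c : ℂ) (h : IsMF1 M k g) :
    qExpansion 1 (c • g) = c • qExpansion 1 g :=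
  UpperHalfPlane.qExpansion_smul h.analyticAt c

lemma IsRatio1.diaRel_one {M : ℕ} {x : LaurentSeries ℂ} (hx : IsRatio1 M x) :
    DiaRel M 1 x x := by
  obtain ⟨k, F, H, hF, hH, hH0, hxe⟩ := hx
  refine ⟨k, F, H, hF, hH, hH0, hxe, ?_⟩
  rw [SlashAction.slash_one, SlashAction.slash_one]
  exact hxe

namespace DiaRel

variable {M : ℕ} {γ : SL(2, ℤ)} {x y x' y' : LaurentSeries ℂ}

/-- Constants are fixed by the diamonds. -/
lemma const (γ : SL(2, ℤ)) (c : ℂ) : DiaRel M γ (HahnSeries.C c) (HahnSeries.C c) := by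
  have hc : ((c • (1 : ℍ → ℂ)) ∣[(0 : ℤ)] γ) = c • (1 : ℍ → ℂ) := by
    rw [SL_smul_slash, is_invariant_one]
  have h1 : ((1 : ℍ → ℂ) ∣[(0 : ℤ)] γ) = (1 : ℍ → ℂ) := is_invariant_one γ
  have e : ιC (qExpansion 1 (1 : ℍ → ℂ)) * HahnSeries.C c
      = ιC (qExpansion 1 (c • (1 : ℍ → ℂ))) := by
    rw [(IsMF1.one (M := M)).qExpansion_smul, UpperHalfPlane.qExpansion_one, map_one, one_mul,
      Fermat.Agent.S28.helper1448.ιC_smul, map_one, ← HahnSeries.C_mul_eq_smul, mul_one]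
  refine ⟨0, c • (1 : ℍ → ℂ), 1, IsMF1.one.smul c, IsMF1.one, one_ne_zero, e, ?_⟩
  rw [hc, h1]
  exact e

lemma zero (γ : SL(2, ℤ)) : DiaRel M γ 0 0 := by simpa using (const (M := M) γ 0)

lemma one (γ : SL(2, ℤ)) : DiaRel M γ 1 1 := by simpa using (const (M := M) γ 1)

lemma neg (h : DiaRel M γ x y) (hγ : γ ∈ Gamma0 M) : DiaRel M γ (-x) (-y) := by
  have h1 := (const (M := M) γ (-1)).mul h hγ
  have e : ∀ z : LaurentSeries ℂ, HahnSeries.C (-1 : ℂ) * z = -z := fun z => by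
    rw [map_neg, map_one, neg_mul, one_mul]
  rwa [e, e] at h1

lemma inv (h : DiaRel M γ x y) (hγ : γ ∈ Gamma0 M) : DiaRel M γ x⁻¹ y⁻¹ := by
  obtain ⟨k, F, H, hF, hH, hH0, hx, hy⟩ := h
  rcases eq_or_ne x 0 with rfl | hx0
  · -- then `F = 0` and `y = 0`
    rw [mul_zero] at hx
    have hF0 : F = 0 := hF.qExpansion_eq_zero_iff.mp (ιC_injective (by simpa using hx.symm))
    rw [hF0, SlashAction.zero_slash, UpperHalfPlane.qExpansion_zero, map_zero] at hy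
    have n1 := (hH.slash hγ).ιC_qExpansion_ne_zero (IsMF1.slash_ne_zero hH0 γ)
    have hy0 : y = 0 := by
      rcases mul_eq_zero.mp hy with h | h
      · exact absurd h n1
      · exact h
    rw [hy0, inv_zero]
    exact zero γ
  have hF0 : F ≠ 0 := by
    rintro rfl
    rw [UpperHalfPlane.qExpansion_zero, map_zero] at hx
    rcases mul_eq_zero.mp hx with h | h
    · exact hH.ιC_qExpansion_ne_zero hH0 h
    · exact hx0 h
  have hy0 : y ≠ 0 := by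
    rintro rfl
    rw [mul_zero] at hy
    exact (hF.slash hγ).ιC_qExpansion_ne_zero (IsMF1.slash_ne_zero hF0 γ) hy.symm
  refine ⟨k, H, F, hH, hF, hF0, ?_, ?_⟩
  · rw [← hx, mul_assoc, mul_inv_cancel₀ hx0, mul_one]
  · rw [← hy, mul_assoc, mul_inv_cancel₀ hy0, mul_one]

/-- Elements of `Γ₁(M)` act trivially. -/
lemma of_mem_Gamma1 (hx : IsRatio1 M x) {δ : SL(2, ℤ)} (hδ : δ ∈ Gamma1 M) : DiaRel M δ x x := by
  obtain ⟨k, F, H, hF, hH, hH0, hxe⟩ := hx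
  refine ⟨k, F, H, hF, hH, hH0, hxe, ?_⟩
  rw [hF.slash_eq hδ, hH.slash_eq hδ]
  exact hxe

/-- The diamond only depends on the index `dd M γ`. -/
lemma of_dd_eq (h : DiaRel M γ x y) {γ' : SL(2, ℤ)} (hγ : γ ∈ Gamma0 M) (hγ' : γ' ∈ Gamma0 M)
    (hd : dd M γ' = dd M γ) : DiaRel M γ' x y := by
  obtain ⟨k, F, H, hF, hH, hH0, hx, hy⟩ := h
  refine ⟨k, F, H, hF, hH, hH0, hx, ?_⟩
  rw [hF.slash_eq_of_dd_eq hγ hγ' hd, hH.slash_eq_of_dd_eq hγ hγ' hd]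
  exact hy

/-- Composition of diamonds. -/
lemma comp (h : DiaRel M γ x y) (hγ : γ ∈ Gamma0 M) {γ' : SL(2, ℤ)} (hγ' : γ' ∈ Gamma0 M)
    {z : LaurentSeries ℂ} (h' : DiaRel M γ' y z) : DiaRel M (γ * γ') x z := by
  obtain ⟨k, F, H, hF, hH, hH0, hx, hy⟩ := h
  -- the presentation `(F∣γ, H∣γ)` of `y`
  have h2 : DiaRel M γ' y
      (ιC (qExpansion 1 ((F ∣[k] γ) ∣[k] γ')) / ιC (qExpansion 1 ((H ∣[k] γ) ∣[k] γ'))) := by
    refine ⟨k, F ∣[k] γ, H ∣[k] γ, hF.slash hγ, hH.slash hγ, IsMF1.slash_ne_zero hH0 γ, hy, ?_⟩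
    rw [mul_div_cancel₀]
    exact ((hH.slash hγ).slash hγ').ιC_qExpansion_ne_zero
      (IsMF1.slash_ne_zero (IsMF1.slash_ne_zero hH0 γ) γ')
  have hz := h'.unique hγ' h2
  refine ⟨k, F, H, hF, hH, hH0, hx, ?_⟩
  rw [SlashAction.slash_mul, SlashAction.slash_mul, hz, mul_div_cancel₀]
  exact ((hH.slash hγ).slash hγ').ιC_qExpansion_ne_zero
    (IsMF1.slash_ne_zero (IsMF1.slash_ne_zero hH0 γ) γ')

/-- Ratios of forms on `Γ₀(M)` are fixed by the diamonds. -/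
lemma of_isRatio (hx : Fermat.Agent.S28.helper1448.IsRatio M x) (hγ : γ ∈ Gamma0 M) :
    DiaRel M γ x x := by
  obtain ⟨k, F, H, hF, hH, hH0, hxe⟩ := hx
  have hsl : ∀ {g : ℍ → ℂ}, IsMF M k g → g ∣[k] γ = g := by
    rintro g ⟨G, rfl⟩
    exact G.slash_action_eq' _ (Subgroup.mem_map_of_mem _ hγ)
  refine ⟨k, F, H, IsMF1.of_isMF hF, IsMF1.of_isMF hH, hH0, hxe, ?_⟩
  rw [hsl hF, hsl hH]
  exact hxe

end DiaRel

/-- Every `Γ₁`-ratio has a diamond translate. -/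
lemma IsRatio1.exists_diaRel {M : ℕ} {x : LaurentSeries ℂ} (hx : IsRatio1 M x) {γ : SL(2, ℤ)}
    (hγ : γ ∈ Gamma0 M) : ∃ y, DiaRel M γ x y := by
  obtain ⟨k, F, H, hF, hH, hH0, hxe⟩ := hx
  refine ⟨ιC (qExpansion 1 (F ∣[k] γ)) / ιC (qExpansion 1 (H ∣[k] γ)), k, F, H, hF, hH, hH0, hxe,
    ?_⟩
  rw [mul_div_cancel₀]
  exact (hH.slash hγ).ιC_qExpansion_ne_zero (IsMF1.slash_ne_zero hH0 γ)

lemma isRatio1_of_isRatio {M : ℕ} {x : LaurentSeries ℂ}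
    (hx : Fermat.Agent.S28.helper1448.IsRatio M x) : IsRatio1 M x :=
  (DiaRel.of_isRatio hx (one_mem _)).isRatio1

/-- The field of ratios of `q`-expansions of modular forms of equal weight on `Γ₁(M)`. -/
def ratioField1 (M : ℕ) : Subfield (LaurentSeries ℂ) where
  carrier := {x | IsRatio1 M x}
  mul_mem' hx hy := (hx.diaRel_one.mul hy.diaRel_one (one_mem _)).isRatio1
  one_mem' := (DiaRel.one (M := M) 1).isRatio1
  add_mem' hx hy := (hx.diaRel_one.add hy.diaRel_one (one_mem _)).isRatio1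
  zero_mem' := (DiaRel.zero (M := M) 1).isRatio1
  neg_mem' hx := (hx.diaRel_one.neg (one_mem _)).isRatio1
  inv_mem' _ hx := (hx.diaRel_one.inv (one_mem _)).isRatio1

lemma mem_ratioField1 {M : ℕ} {x : LaurentSeries ℂ} : x ∈ ratioField1 M ↔ IsRatio1 M x := Iff.rfl

/-! ### The fixed field of the diamonds: the norm trick -/

instance instIsFiniteRelIndexG1G0 (M : ℕ) [NeZero M] : (G1 M).IsFiniteRelIndex (G0 M) := by
  refine ⟨?_⟩
  rw [Subgroup.relIndex_map_map_of_injective _ _ Matrix.SpecialLinearGroup.mapGL_injective]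
  exact ne_zero_of_dvd_ne_zero (Subgroup.FiniteIndex.index_ne_zero (H := Gamma1 M))
    (Subgroup.relIndex_dvd_index_of_le (Gamma1_in_Gamma0 M))

/-- **Fixed field of the diamonds.** A ratio of forms on `Γ₁(M)` that is fixed by all diamonds is
a ratio of two forms of equal weight on `Γ₀(M)`. -/
theorem isRatio_of_diaRel_self {M : ℕ} [NeZero M] {x : LaurentSeries ℂ} (hx : IsRatio1 M x)
    (hfix : ∀ γ ∈ Gamma0 M, DiaRel M γ x x) : Fermat.Agent.S28.helper1448.IsRatio M x := by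
  classical
  obtain ⟨k, F, H, hF, ⟨GH, rfl⟩, hH0, hxe⟩ := hx
  have hH : IsMF1 M k ⇑GH := ⟨GH, rfl⟩
  let _ : Fintype ((G0 M) ⧸ (G1 M).subgroupOf (G0 M)) := Fintype.ofFinite _
  set Nm : ModularForm (G0 M) (k * Nat.card ((G0 M) ⧸ (G1 M).subgroupOf (G0 M))) :=
    ModularForm.norm (G0 M) GH with hNm
  have hcoe : ⇑Nm = ∏ q : (G0 M) ⧸ (G1 M).subgroupOf (G0 M),
      SlashInvariantForm.quotientFunc GH q := by
    rw [hNm, ModularForm.coe_norm]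
  -- every factor is a form on `Γ₁(M)`
  have hfac : ∀ q : (G0 M) ⧸ (G1 M).subgroupOf (G0 M),
      IsMF1 M k (SlashInvariantForm.quotientFunc GH q) := by
    intro q
    induction q using Quotient.inductionOn with
    | h r =>
      obtain ⟨r, γ, hγ, rfl⟩ := r
      rw [SlashInvariantForm.quotientFunc_mk]
      have : (⇑GH ∣[k] (Matrix.SpecialLinearGroup.mapGL ℝ γ)⁻¹) = (⇑GH ∣[k] γ⁻¹) := by
        rw [← map_inv]
        rfl
      rw [this]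
      exact hH.slash (inv_mem hγ)
  set q₁ : (G0 M) ⧸ (G1 M).subgroupOf (G0 M) := ⟦1⟧ with hq₁
  have hq1 : SlashInvariantForm.quotientFunc GH q₁ = ⇑GH := by
    rw [hq₁, SlashInvariantForm.quotientFunc_mk]
    simp
  set N' : ℍ → ℂ := ∏ q ∈ Finset.univ.erase q₁, SlashInvariantForm.quotientFunc GH q with hN'
  set k' : ℤ := ((Finset.univ.erase q₁).card : ℤ) * k with hk'
  have hN'mf : IsMF1 M k' N' := IsMF1.prod _ _ hfac
  have hprod : ⇑Nm = ⇑GH * N' := by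
    rw [hcoe, ← hq1, hN']
    exact (Finset.mul_prod_erase Finset.univ _ (Finset.mem_univ q₁)).symm
  have hw : k * (Nat.card ((G0 M) ⧸ (G1 M).subgroupOf (G0 M)) : ℤ) = k + k' := by
    rw [hk', Finset.card_erase_of_mem (Finset.mem_univ q₁), Finset.card_univ,
      Nat.card_eq_fintype_card]
    have hpos : 0 < Fintype.card ((G0 M) ⧸ (G1 M).subgroupOf (G0 M)) := Fintype.card_pos
    rw [Nat.cast_sub hpos]
    push_cast
    ring
  have hNmMF : IsMF M (k + k') (⇑GH * N') := by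
    rw [← hprod]
    have h0 : IsMF M (k * (Nat.card ((G0 M) ⧸ (G1 M).subgroupOf (G0 M)) : ℤ)) ⇑Nm := ⟨Nm, rfl⟩
    exact h0.cast hw
  have hNm0 : ⇑GH * N' ≠ 0 := by
    rw [← hprod]
    intro h0
    exact ModularForm.norm_ne_zero (G0 M) hH0 (DFunLike.coe_injective h0)
  have hA1 : IsMF1 M (k + k') (F * N') := hF.mul hN'mf
  have hxA : ιC (qExpansion 1 (⇑GH * N')) * x = ιC (qExpansion 1 (F * N')) := by
    rw [hH.qExpansion_mul hN'mf, hF.qExpansion_mul hN'mf, map_mul, map_mul, ← hxe]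
    ring
  -- `F * N'` is invariant under `Γ₀(M)`
  have hinv : ∀ γ ∈ Gamma0 M, (F * N') ∣[k + k'] γ = F * N' := by
    intro γ hγ
    have hNinv : (⇑GH * N') ∣[k + k'] γ = ⇑GH * N' := by
      obtain ⟨G, hG⟩ := hNmMF
      rw [← hG]
      exact G.slash_action_eq' _ (Subgroup.mem_map_of_mem _ hγ)
    have h1 : DiaRel M γ x
        (ιC (qExpansion 1 ((F * N') ∣[k + k'] γ)) / ιC (qExpansion 1 (⇑GH * N'))) := by
      refine ⟨k + k', F * N', ⇑GH * N', hA1, IsMF1.of_isMF hNmMF, hNm0, hxA, ?_⟩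
      rw [hNinv, mul_div_cancel₀]
      exact (IsMF1.of_isMF hNmMF).ιC_qExpansion_ne_zero hNm0
    have h2 := (hfix γ hγ).unique hγ h1
    have h3 : ιC (qExpansion 1 ((F * N') ∣[k + k'] γ)) = ιC (qExpansion 1 (F * N')) := by
      rw [← hxA, h2, mul_div_cancel₀]
      exact (IsMF1.of_isMF hNmMF).ιC_qExpansion_ne_zero hNm0
    exact (hA1.slash hγ).eq_of_qExpansion_eq hA1 (ιC_injective h3)
  exact ⟨k + k', F * N', ⇑GH * N', hA1.isMF hinv, hNmMF, hNm0, hxA⟩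

end

end Fermat.Agent.S48.helper182
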