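import Mathlib
import Fermat.Agent.S48.helper182_Gamma1Ratio
import Fermat.Agent.S29.helper288_RatioInFC
import Fermat.Agent.S29.helper6961_CoeffDescent

/-!
# S48-A2-GAL (helper182): the Galois layer of the `Γ₁(M)` function field

`k` a field with an embedding `ι : k →+* ℂ` (e.g. `ℚ̄`, or a number field containing `ζ_M`),
`F₀ := laurentBaseChange k (modularFunctionFieldFull M)` the function field of `X₀(M)` over `k`
inside `k((q))`, `S` a set of Laurent series over `k` whose images over `ℂ` are ratios of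
`q`-expansions of modular forms on `Γ₁(M)` and which is permuted by the diamonds
(`DiamondStable ι M S`), `F₁ := gamma1Gen k M S = k(F₀ ∪ S)`.

* `diamondAlgHom ι hS γ hγ : F₁ →ₐ[k] F₁` for `γ ∈ Γ₀(M)`, characterised by
  `DiaRel M γ (coeffMap ι x) (coeffMap ι (D x))` (`diamondAlgHom_spec`);
* it fixes `F₀` pointwise (`diamondAlgHom_of_mem_base`), maps a generator to the prescribed
  translate (`diamondAlgHom_eq_of_diaRel`), only depends on `γ 1 1 mod M` and is multiplicative;
* `diamond ι hS : (ZMod M)ˣ →* (F₁ ≃ₐ[k] F₁)`;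
* **fixed field** `mem_base_of_diamond_fixed` : an element of `F₁` fixed by all diamonds lies in
  `F₀`.
-/

set_option autoImplicit false

open UpperHalfPlane ModularForm CongruenceSubgroup ModularCurve IntermediateField
open scoped MatrixGroups ModularForm

namespace Fermat.Agent.S48.helper182

noncomputable section

open Fermat.Agent.S28.helper1448 (ιC ιC_injective G0 IsMF)

/-! ### The landed `Γ₀`-ratio fields -/

local notation "Δ" => ModularForm.discriminant

theorem isRatio_of_isRatio1219 {M : ℕ} {x : LaurentSeries ℂ}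
    (h : Fermat.Agent.Lib.helper1219.IsRatio M x) : Fermat.Agent.S28.helper1448.IsRatio M x := by
  obtain ⟨k, m, -, G, E, hE, hx⟩ := h
  refine ⟨k, G, E, ⟨G, rfl⟩, ⟨E, rfl⟩, fun h0 => hE (DFunLike.coe_injective h0), ?_⟩
  rw [mul_comm]
  exact hx

theorem isRatio1219_of_isRatio {M : ℕ} {x : LaurentSeries ℂ}
    (h : Fermat.Agent.S28.helper1448.IsRatio M x) : Fermat.Agent.Lib.helper1219.IsRatio M x := by
  obtain ⟨k, F, H, hF, hH, hH0, hx⟩ := h
  have hΔ : IsMF M 12 Δ := Fermat.Agent.S28.helper1448.isMF_discriminant M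
  have hΔ0 : (Δ : ℍ → ℂ) ≠ 0 := fun h0 =>
    ModularForm.discriminant_ne_zero UpperHalfPlane.I (congrFun h0 _)
  set j : ℕ := k.natAbs with hj
  have hΔj : IsMF M ((j : ℤ) * 12) (Δ ^ j) := hΔ.pow j
  have hΔj0 : (Δ : ℍ → ℂ) ^ j ≠ 0 := fun h0 =>
    pow_ne_zero j (ModularForm.discriminant_ne_zero UpperHalfPlane.I) (congrFun h0 _)
  set K : ℤ := k + (j : ℤ) * 12 with hK
  have hK0 : 0 ≤ K := by
    rw [hK, hj]
    omega
  have hF1 : IsMF M K (F * Δ ^ j) := hF.mul hΔj
  have hH1 : IsMF M K (H * Δ ^ j) := hH.mul hΔj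
  have hH10 : H * Δ ^ j ≠ 0 := hH.mul_ne_zero hΔj hH0 hΔj0
  obtain ⟨m, hm⟩ : ∃ m : ℕ, (m : ℤ) = K := ⟨K.toNat, Int.toNat_of_nonneg hK0⟩
  have hG : IsMF M (12 * (m : ℤ)) ((F * Δ ^ j) * (H * Δ ^ j) ^ 11) :=
    (hF1.mul (hH1.pow 11)).cast (by rw [hm]; push_cast; ring)
  have hE : IsMF M (12 * (m : ℤ)) ((H * Δ ^ j) ^ 12) :=
    (hH1.pow 12).cast (by rw [hm]; push_cast; ring)
  obtain ⟨G, hGc⟩ := hG
  obtain ⟨E, hEc⟩ := hE
  refine ⟨12 * (m : ℤ), m, rfl, G, E, ?_, ?_⟩
  · intro h0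
    have h1 : (H * Δ ^ j) ^ 12 = 0 := by rw [← hEc, h0]; rfl
    have h2 : qExpansion 1 ((H * Δ ^ j) ^ 12) = 0 := by
      rw [h1]; exact UpperHalfPlane.qExpansion_zero 1
    rw [hH1.qExpansion_pow] at h2
    exact hH10 (hH1.qExpansion_eq_zero_iff.mp (pow_eq_zero_iff (by norm_num) |>.mp h2))
  · rw [hGc, hEc, hF1.qExpansion_mul (hH1.pow 11), hH1.qExpansion_pow, hH1.qExpansion_pow,
      hF.qExpansion_mul hΔj, hH.qExpansion_mul hΔj]
    simp only [map_mul, map_pow]
    rw [← hx]
    ring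

theorem isRatio_of_mem_baseC {M : ℕ} {x : LaurentSeries ℂ}
    (hx : x ∈ laurentBaseChange ℂ (modularFunctionFieldFull M)) :
    Fermat.Agent.S28.helper1448.IsRatio M x :=
  isRatio_of_isRatio1219 (Fermat.Agent.S29.helper288.fullC_le_ratioField M x hx)

theorem mem_baseC_of_isRatio {M : ℕ} [NeZero M] {x : LaurentSeries ℂ}
    (hx : Fermat.Agent.S28.helper1448.IsRatio M x) :
    x ∈ laurentBaseChange ℂ (modularFunctionFieldFull M) :=
  Fermat.Agent.S29.helper288.ratioInFC M x (isRatio1219_of_isRatio hx)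

/-! ### The `Γ₁` field over `k` and the diamonds -/

section Field

variable {k : Type*} [Field k] [Algebra ℚ k]

omit [Algebra ℚ k] in
theorem coeffMap_inj (ι : k →+* ℂ) : Function.Injective (coeffMap ι) := by
  intro u v huv
  ext n
  have := congrArg (fun w => w.coeff n) huv
  simp only [coeffMap_coeff] at this
  exact ι.injective this

omit [Algebra ℚ k] in
theorem coeffMap_algebraMap_eq_C (ι : k →+* ℂ) (c : k) :
    coeffMap ι (algebraMap k (LaurentSeries k) c) = HahnSeries.C (ι c) := by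
  rw [algebraMap_laurentSeries_eq_single, coeffMap_single]
  rfl

/-- The field `k(F₀ ∪ S)` generated over the function field `F₀` of `X₀(M)` by `S`. -/
def gamma1Gen (k : Type*) [Field k] [Algebra ℚ k] (M : ℕ) (S : Set (LaurentSeries k)) :
    IntermediateField k (LaurentSeries k) :=
  IntermediateField.adjoin k
    ((laurentBaseChange k (modularFunctionFieldFull M) : Set (LaurentSeries k)) ∪ S)

theorem base_le_gamma1Gen (M : ℕ) (S : Set (LaurentSeries k)) :
    laurentBaseChange k (modularFunctionFieldFull M) ≤ gamma1Gen k M S :=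
  fun _ hx => IntermediateField.subset_adjoin k _ (Or.inl hx)

theorem subset_gamma1Gen (M : ℕ) (S : Set (LaurentSeries k)) : S ⊆ gamma1Gen k M S :=
  fun _ hx => IntermediateField.subset_adjoin k _ (Or.inr hx)

/-- `S` consists of (models over `k` of) ratios of forms on `Γ₁(M)` and is permuted by the
diamonds. -/
def DiamondStable (ι : k →+* ℂ) (M : ℕ) (S : Set (LaurentSeries k)) : Prop :=
  ∀ γ ∈ Gamma0 M, ∀ s ∈ S, ∃ s' ∈ S, DiaRel M γ (coeffMap ι s) (coeffMap ι s')

variable {ι : k →+* ℂ} {M : ℕ} {S : Set (LaurentSeries k)}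

/-- Elements of the base field are fixed by the diamonds. -/
theorem diaRel_of_mem_base {γ : SL(2, ℤ)} (hγ : γ ∈ Gamma0 M) {x : LaurentSeries k}
    (hx : x ∈ laurentBaseChange k (modularFunctionFieldFull M)) :
    DiaRel M γ (coeffMap ι x) (coeffMap ι x) :=
  DiaRel.of_isRatio (isRatio_of_mem_baseC
    (Fermat.Agent.S29.helper6961.coeffMap_mem_laurentBaseChange_of_mem _ ι hx)) hγ

/-- Every element of `k(F₀ ∪ S)` has a diamond translate in `k(F₀ ∪ S)`. -/
theorem exists_diaRel_of_mem (hS : DiamondStable ι M S) {γ : SL(2, ℤ)} (hγ : γ ∈ Gamma0 M)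
    {x : LaurentSeries k} (hx : x ∈ gamma1Gen k M S) :
    ∃ y ∈ gamma1Gen k M S, DiaRel M γ (coeffMap ι x) (coeffMap ι y) := by
  unfold gamma1Gen at hx
  induction hx using IntermediateField.adjoin_induction with
  | mem x hx =>
    rcases hx with hx | hx
    · exact ⟨x, base_le_gamma1Gen M S hx, diaRel_of_mem_base hγ hx⟩
    · obtain ⟨s', hs', h⟩ := hS γ hγ x hx
      exact ⟨s', subset_gamma1Gen M S hs', h⟩
  | algebraMap c =>
    refine ⟨algebraMap k _ c, (gamma1Gen k M S).algebraMap_mem c, ?_⟩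
    rw [coeffMap_algebraMap_eq_C]
    exact DiaRel.const γ (ι c)
  | add x y _ _ hx hy =>
    obtain ⟨x', hx', h1⟩ := hx
    obtain ⟨y', hy', h2⟩ := hy
    exact ⟨x' + y', add_mem hx' hy', by rw [map_add, map_add]; exact h1.add h2 hγ⟩
  | inv x _ hx =>
    obtain ⟨x', hx', h1⟩ := hx
    exact ⟨x'⁻¹, inv_mem hx', by rw [map_inv₀, map_inv₀]; exact h1.inv hγ⟩
  | mul x y _ _ hx hy =>
    obtain ⟨x', hx', h1⟩ := hx
    obtain ⟨y', hy', h2⟩ := hy
    exact ⟨x' * y', mul_mem hx' hy', by rw [map_mul, map_mul]; exact h1.mul h2 hγ⟩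

/-- The diamond translate of an element of `k(F₀ ∪ S)`. -/
def diamondFun (hS : DiamondStable ι M S) (γ : SL(2, ℤ)) (hγ : γ ∈ Gamma0 M)
    (x : gamma1Gen k M S) : gamma1Gen k M S :=
  ⟨(exists_diaRel_of_mem hS hγ x.2).choose, (exists_diaRel_of_mem hS hγ x.2).choose_spec.1⟩

theorem diamondFun_spec (hS : DiamondStable ι M S) {γ : SL(2, ℤ)} (hγ : γ ∈ Gamma0 M)
    (x : gamma1Gen k M S) :
    DiaRel M γ (coeffMap ι (x : LaurentSeries k))
      (coeffMap ι (diamondFun hS γ hγ x : LaurentSeries k)) :=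
  (exists_diaRel_of_mem hS hγ x.2).choose_spec.2

/-- Uniqueness: the diamond translate is determined by the relation. -/
theorem diamondFun_eq (hS : DiamondStable ι M S) {γ : SL(2, ℤ)} (hγ : γ ∈ Gamma0 M)
    (x : gamma1Gen k M S) {y : LaurentSeries k}
    (h : DiaRel M γ (coeffMap ι (x : LaurentSeries k)) (coeffMap ι y)) :
    (diamondFun hS γ hγ x : LaurentSeries k) = y :=
  coeffMap_inj ι ((diamondFun_spec hS hγ x).unique hγ h)

/-- The diamond operator as a `k`-algebra endomorphism of `k(F₀ ∪ S)`. -/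
def diamondAlgHom (hS : DiamondStable ι M S) (γ : SL(2, ℤ)) (hγ : γ ∈ Gamma0 M) :
    gamma1Gen k M S →ₐ[k] gamma1Gen k M S where
  toFun := diamondFun hS γ hγ
  map_one' := Subtype.ext (diamondFun_eq hS hγ 1 (by
    simpa using DiaRel.one (M := M) γ))
  map_mul' x y := Subtype.ext (diamondFun_eq hS hγ (x * y) (by
    have := (diamondFun_spec hS hγ x).mul (diamondFun_spec hS hγ y) hγ
    simpa using this))
  map_zero' := Subtype.ext (diamondFun_eq hS hγ 0 (by
    simpa using DiaRel.zero (M := M) γ))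
  map_add' x y := Subtype.ext (diamondFun_eq hS hγ (x + y) (by
    have := (diamondFun_spec hS hγ x).add (diamondFun_spec hS hγ y) hγ
    simpa using this))
  commutes' c := Subtype.ext (diamondFun_eq hS hγ (algebraMap k _ c) (by
    have h := DiaRel.const (M := M) γ (ι c)
    rw [← coeffMap_algebraMap_eq_C] at h
    exact h))

theorem diamondAlgHom_spec (hS : DiamondStable ι M S) {γ : SL(2, ℤ)} (hγ : γ ∈ Gamma0 M)
    (x : gamma1Gen k M S) :
    DiaRel M γ (coeffMap ι (x : LaurentSeries k))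
      (coeffMap ι (diamondAlgHom hS γ hγ x : LaurentSeries k)) :=
  diamondFun_spec hS hγ x

theorem diamondAlgHom_eq_of_diaRel (hS : DiamondStable ι M S) {γ : SL(2, ℤ)} (hγ : γ ∈ Gamma0 M)
    (x : gamma1Gen k M S) {y : LaurentSeries k}
    (h : DiaRel M γ (coeffMap ι (x : LaurentSeries k)) (coeffMap ι y)) :
    (diamondAlgHom hS γ hγ x : LaurentSeries k) = y :=
  diamondFun_eq hS hγ x h

/-- The diamonds fix the function field of `X₀(M)`. -/
theorem diamondAlgHom_of_mem_base (hS : DiamondStable ι M S) {γ : SL(2, ℤ)} (hγ : γ ∈ Gamma0 M)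
    (x : gamma1Gen k M S)
    (hx : (x : LaurentSeries k) ∈ laurentBaseChange k (modularFunctionFieldFull M)) :
    diamondAlgHom hS γ hγ x = x :=
  Subtype.ext (diamondAlgHom_eq_of_diaRel hS hγ x (diaRel_of_mem_base hγ hx))

/-- Composition: `⟨γ γ'⟩ = ⟨γ'⟩ ∘ ⟨γ⟩`. -/
theorem diamondAlgHom_mul (hS : DiamondStable ι M S) {γ γ' : SL(2, ℤ)} (hγ : γ ∈ Gamma0 M)
    (hγ' : γ' ∈ Gamma0 M) (x : gamma1Gen k M S) :
    diamondAlgHom hS (γ * γ') (mul_mem hγ hγ') x
      = diamondAlgHom hS γ' hγ' (diamondAlgHom hS γ hγ x) :=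
  Subtype.ext (diamondAlgHom_eq_of_diaRel hS (mul_mem hγ hγ') x
    ((diamondAlgHom_spec hS hγ x).comp hγ hγ' (diamondAlgHom_spec hS hγ' _)))

/-- The diamond only depends on `γ 1 1 mod M`. -/
theorem diamondAlgHom_eq_of_dd_eq (hS : DiamondStable ι M S) {γ γ' : SL(2, ℤ)}
    (hγ : γ ∈ Gamma0 M) (hγ' : γ' ∈ Gamma0 M) (hd : dd M γ' = dd M γ) :
    diamondAlgHom hS γ' hγ' = diamondAlgHom hS γ hγ :=
  AlgHom.ext fun x => Subtype.ext (diamondAlgHom_eq_of_diaRel hS hγ' x
    ((diamondAlgHom_spec hS hγ x).of_dd_eq hγ hγ' hd))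

theorem diamondAlgHom_one (hS : DiamondStable ι M S) (x : gamma1Gen k M S) :
    diamondAlgHom hS 1 (one_mem _) x = x :=
  Subtype.ext (diamondAlgHom_eq_of_diaRel hS (one_mem _) x
    (diamondAlgHom_spec hS (one_mem _) x).isRatio1.diaRel_one)

/-- **Fixed field of the diamonds.** An element of `k(F₀ ∪ S)` that is fixed by all diamonds lies
in the function field `F₀` of `X₀(M)` over `k`. -/
theorem mem_base_of_diamond_fixed [NeZero M] (hS : DiamondStable ι M S) (x : gamma1Gen k M S)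
    (hfix : ∀ γ (hγ : γ ∈ Gamma0 M), diamondAlgHom hS γ hγ x = x) :
    (x : LaurentSeries k) ∈ laurentBaseChange k (modularFunctionFieldFull M) := by
  apply Fermat.Agent.S29.helper6961.mem_laurentBaseChange_of_coeffMap_mem _ ι
  apply mem_baseC_of_isRatio
  refine isRatio_of_diaRel_self (diamondAlgHom_spec hS (one_mem _) x).isRatio1 fun γ hγ => ?_
  have h := diamondAlgHom_spec hS hγ x
  rwa [hfix γ hγ] at h

/-! ### The diamonds as a homomorphism from `(ZMod M)ˣ` -/

/-- A representative in `Γ₀(M)` of a unit of `ZMod M`. -/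
def diaRep (M : ℕ) (u : (ZMod M)ˣ) : SL(2, ℤ) := (exists_mem_Gamma0_dd_eq u).choose

theorem diaRep_mem (u : (ZMod M)ˣ) : diaRep M u ∈ Gamma0 M :=
  (exists_mem_Gamma0_dd_eq u).choose_spec.1

theorem dd_diaRep (u : (ZMod M)ˣ) : dd M (diaRep M u) = (u : ZMod M) :=
  (exists_mem_Gamma0_dd_eq u).choose_spec.2

/-- The diamond index of an element of `Γ₀(M)` as a unit. -/
def ddUnit {γ : SL(2, ℤ)} (hγ : γ ∈ Gamma0 M) : (ZMod M)ˣ :=
  ⟨dd M γ, dd M γ⁻¹, dd_mul_inv hγ, dd_inv_mul hγ⟩

@[simp] theorem coe_ddUnit {γ : SL(2, ℤ)} (hγ : γ ∈ Gamma0 M) :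
    ((ddUnit hγ : (ZMod M)ˣ) : ZMod M) = dd M γ := rfl

theorem diamondAlgHom_comp_of_dd_mul_eq_one (hS : DiamondStable ι M S) {γ γ' : SL(2, ℤ)}
    (hγ : γ ∈ Gamma0 M) (hγ' : γ' ∈ Gamma0 M) (h : dd M γ * dd M γ' = 1)
    (x : gamma1Gen k M S) : diamondAlgHom hS γ' hγ' (diamondAlgHom hS γ hγ x) = x := by
  rw [← diamondAlgHom_mul hS hγ hγ',
    diamondAlgHom_eq_of_dd_eq hS (one_mem _) (mul_mem hγ hγ') (by rw [dd_mul hγ, h, dd_one]),
    diamondAlgHom_one]

/-- **The diamond operators** on `k(F₀ ∪ S)`, as a group homomorphism from `(ZMod M)ˣ`. -/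
def diamond (hS : DiamondStable ι M S) :
    (ZMod M)ˣ →* (gamma1Gen k M S ≃ₐ[k] gamma1Gen k M S) where
  toFun u := AlgEquiv.ofAlgHom (diamondAlgHom hS (diaRep M u) (diaRep_mem u))
    (diamondAlgHom hS (diaRep M u⁻¹) (diaRep_mem u⁻¹))
    (AlgHom.ext fun x => diamondAlgHom_comp_of_dd_mul_eq_one hS (diaRep_mem u⁻¹) (diaRep_mem u)
      (by rw [dd_diaRep, dd_diaRep, ← Units.val_mul, inv_mul_cancel, Units.val_one]) x)
    (AlgHom.ext fun x => diamondAlgHom_comp_of_dd_mul_eq_one hS (diaRep_mem u) (diaRep_mem u⁻¹)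
      (by rw [dd_diaRep, dd_diaRep, ← Units.val_mul, mul_inv_cancel, Units.val_one]) x)
  map_one' := by
    apply AlgEquiv.ext
    intro x
    show diamondAlgHom hS (diaRep M 1) (diaRep_mem 1) x = x
    rw [diamondAlgHom_eq_of_dd_eq hS (one_mem _) (diaRep_mem 1)
      (by rw [dd_diaRep, dd_one, Units.val_one]), diamondAlgHom_one]
  map_mul' u v := by
    apply AlgEquiv.ext
    intro x
    show diamondAlgHom hS (diaRep M (u * v)) (diaRep_mem (u * v)) x
      = diamondAlgHom hS (diaRep M u) (diaRep_mem u)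
          (diamondAlgHom hS (diaRep M v) (diaRep_mem v) x)
    rw [← diamondAlgHom_mul hS (diaRep_mem v) (diaRep_mem u)]
    exact congrFun (congrArg DFunLike.coe (diamondAlgHom_eq_of_dd_eq hS
      (mul_mem (diaRep_mem v) (diaRep_mem u)) (diaRep_mem (u * v))
      (by rw [dd_diaRep, dd_mul (diaRep_mem v), dd_diaRep, dd_diaRep, Units.val_mul,
        mul_comm]))) x

theorem diamond_apply (hS : DiamondStable ι M S) (u : (ZMod M)ˣ) {γ : SL(2, ℤ)}
    (hγ : γ ∈ Gamma0 M) (hd : dd M γ = (u : ZMod M)) (x : gamma1Gen k M S) :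
    diamond hS u x = diamondAlgHom hS γ hγ x :=
  congrFun (congrArg DFunLike.coe (diamondAlgHom_eq_of_dd_eq hS hγ (diaRep_mem u)
    (by rw [dd_diaRep, hd]))) x

/-- The characterisation of `⟨u⟩ x`: if `coeffMap ι x = Q(F)/Q(H)` with `F`, `H` forms of equal
weight on `Γ₁(M)`, then `coeffMap ι (⟨u⟩ x) = Q(F∣γ)/Q(H∣γ)` for every `γ ∈ Γ₀(M)` with
`γ 1 1 ≡ u mod M`. -/
theorem diamond_spec (hS : DiamondStable ι M S) (u : (ZMod M)ˣ) {γ : SL(2, ℤ)}
    (hγ : γ ∈ Gamma0 M) (hd : dd M γ = (u : ZMod M)) (x : gamma1Gen k M S) :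
    DiaRel M γ (coeffMap ι (x : LaurentSeries k))
      (coeffMap ι (diamond hS u x : LaurentSeries k)) := by
  rw [diamond_apply hS u hγ hd]
  exact diamondAlgHom_spec hS hγ x

/-- Computing `⟨u⟩` on an element with a known translate (e.g. a generator). -/
theorem diamond_eq_of_diaRel (hS : DiamondStable ι M S) (u : (ZMod M)ˣ) {γ : SL(2, ℤ)}
    (hγ : γ ∈ Gamma0 M) (hd : dd M γ = (u : ZMod M)) (x : gamma1Gen k M S) {y : LaurentSeries k}
    (h : DiaRel M γ (coeffMap ι (x : LaurentSeries k)) (coeffMap ι y)) :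
    (diamond hS u x : LaurentSeries k) = y := by
  rw [diamond_apply hS u hγ hd]
  exact diamondAlgHom_eq_of_diaRel hS hγ x h

/-- The diamonds fix the function field of `X₀(M)`. -/
theorem diamond_of_mem_base (hS : DiamondStable ι M S) (u : (ZMod M)ˣ) (x : gamma1Gen k M S)
    (hx : (x : LaurentSeries k) ∈ laurentBaseChange k (modularFunctionFieldFull M)) :
    diamond hS u x = x :=
  diamondAlgHom_of_mem_base hS (diaRep_mem u) x hx

/-- **Fixed field of the diamonds** = the function field of `X₀(M)` over `k`. -/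
theorem mem_base_iff_diamond_fixed [NeZero M] (hS : DiamondStable ι M S) (x : gamma1Gen k M S) :
    (x : LaurentSeries k) ∈ laurentBaseChange k (modularFunctionFieldFull M) ↔
      ∀ u : (ZMod M)ˣ, diamond hS u x = x := by
  refine ⟨fun hx u => diamond_of_mem_base hS u x hx, fun hfix => ?_⟩
  refine mem_base_of_diamond_fixed hS x fun γ hγ => ?_
  rw [← diamond_apply hS (ddUnit hγ) hγ rfl]
  exact hfix _

end Field

/-! ### Artin's theorem in the form used for the tower `F₀ ≤ F₁` inside `k((q))` -/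

section Artin

variable {k E : Type*} [Field k] [Field E] [Algebra k E] {F0 F1 : IntermediateField k E}

/-- **Artin.** If a finite group `H` of `k`-automorphisms of `F1` has fixed field `F0 ≤ F1`, then
`F1 / F0` is Galois of degree `#H`. -/
theorem artin_of_fixed (hle : F0 ≤ F1) (H : Subgroup (F1 ≃ₐ[k] F1)) [Finite H]
    (hfix : ∀ x : F1, (x : E) ∈ F0 ↔ ∀ g ∈ H, g x = x) :
    IsGalois F0 (extendScalars hle) ∧ Module.finrank F0 (extendScalars hle) = Nat.card H := by
  classical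
  have : Fintype H := Fintype.ofFinite H
  have hT : ∀ x : F1, x ∈ FixedPoints.subfield H F1 ↔ (x : E) ∈ F0 := by
    intro x
    rw [hfix]
    constructor
    · intro h g hg
      exact h ⟨g, hg⟩
    · intro h g
      exact h g.1 g.2
  let i : FixedPoints.subfield H F1 ≃+* F0 :=
    { toFun := fun x => ⟨(x.1 : E), (hT x.1).mp x.2⟩
      invFun := fun y => ⟨⟨y.1, hle y.2⟩, (hT _).mpr y.2⟩
      left_inv := fun x => rfl
      right_inv := fun y => rfl
      map_mul' := fun x y => rfl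
      map_add' := fun x y => rfl }
  let j : F1 ≃+* extendScalars hle :=
    { toFun := fun x => ⟨x.1, x.2⟩
      invFun := fun y => ⟨y.1, y.2⟩
      left_inv := fun x => rfl
      right_inv := fun y => rfl
      map_mul' := fun x y => rfl
      map_add' := fun x y => rfl }
  have hcomp : (algebraMap F0 (extendScalars hle)).comp (i : _ →+* F0)
      = (j : F1 →+* _).comp (algebraMap (FixedPoints.subfield H F1) F1) := by
    ext x
    rfl
  have : IsGalois (FixedPoints.subfield H F1) F1 := ⟨⟩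
  refine ⟨IsGalois.of_equiv_equiv (f := i) (g := j) hcomp, ?_⟩
  rw [← Algebra.finrank_eq_of_equiv_equiv i j hcomp, FixedPoints.finrank_eq_card,
    Nat.card_eq_fintype_card]

end Artin

section Field

variable {k : Type*} [Field k] [Algebra ℚ k] {ι : k →+* ℂ} {M : ℕ} {S : Set (LaurentSeries k)}

/-- **The Galois layer.** `k(F₀ ∪ S)` is Galois over the function field `F₀` of `X₀(M)` over `k`,
with group the image of the diamonds. -/
theorem isGalois_gamma1Gen [NeZero M] (hS : DiamondStable ι M S) :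
    IsGalois (laurentBaseChange k (modularFunctionFieldFull M))
        (extendScalars (base_le_gamma1Gen M S)) ∧
      Module.finrank (laurentBaseChange k (modularFunctionFieldFull M))
        (extendScalars (base_le_gamma1Gen M S)) = Nat.card (diamond hS).range := by
  have : Finite (diamond hS).range := Set.finite_range _
  refine artin_of_fixed (base_le_gamma1Gen M S) (diamond hS).range fun x => ?_
  rw [mem_base_iff_diamond_fixed hS]
  constructor
  · rintro h _ ⟨u, rfl⟩
    exact h u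
  · intro h u
    exact h _ ⟨u, rfl⟩

end Field

end

end Fermat.Agent.S48.helper182
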