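import Mathlib
import Fermat.Agent.S48.helper182_Gamma1Galois

/-!
# S48-A2-GAL (helper182): the diamond-stable generator set of ratios of division forms

Generic instance of `DiamondStable`: a family `form a b` of weight-`2` forms on `Γ₁(M)` indexed by
pairs of integers, with the diamond law `form a b ∣ γ = form (a γ₁₁) (b γ₁₁)` on `Γ₀(M)` and
models `ser a b` over `k` of their `q`-expansions (the `D_{a,b}` of the `℘`-division values).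
The set of ratios `ser a b / ser c e` is permuted by the diamonds, and `⟨u⟩` acts on it by
multiplying the indices by `γ₁₁ ≡ u`.
-/

set_option autoImplicit false

open UpperHalfPlane ModularForm CongruenceSubgroup ModularCurve IntermediateField
open scoped MatrixGroups ModularForm

namespace Fermat.Agent.S48.helper182

noncomputable section

open Fermat.Agent.S28.helper1448 (ιC ιC_injective G0 IsMF)

variable {k : Type*} [Field k] [Algebra ℚ k]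

/-- The ratios `ser a b / ser c e` with admissible indices. -/
def ratioSet (M : ℕ) (ser : ℤ → ℤ → LaurentSeries k) : Set (LaurentSeries k) :=
  {s | ∃ a b c e : ℤ, ¬ (M : ℤ) ∣ a ∧ ¬ (M : ℤ) ∣ b ∧ ¬ (M : ℤ) ∣ c ∧ ¬ (M : ℤ) ∣ e ∧
    ¬ (M : ℤ) ∣ c - e ∧ ¬ (M : ℤ) ∣ c + e ∧ s = ser a b / ser c e}

omit [Algebra ℚ k] in
theorem mem_ratioSet {M : ℕ} {ser : ℤ → ℤ → LaurentSeries k} {a b c e : ℤ}
    (ha : ¬ (M : ℤ) ∣ a) (hb : ¬ (M : ℤ) ∣ b) (hc : ¬ (M : ℤ) ∣ c) (he : ¬ (M : ℤ) ∣ e)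
    (hce : ¬ (M : ℤ) ∣ c - e) (hce' : ¬ (M : ℤ) ∣ c + e) :
    ser a b / ser c e ∈ ratioSet M ser :=
  ⟨a, b, c, e, ha, hb, hc, he, hce, hce', rfl⟩

/-- Multiplication by the lower right entry of an element of `Γ₀(M)` preserves
non-divisibility by `M`. -/
theorem not_dvd_mul_of_mem_Gamma0 {M : ℕ} {γ : SL(2, ℤ)} (hγ : γ ∈ Gamma0 M) {a : ℤ}
    (ha : ¬ (M : ℤ) ∣ a) : ¬ (M : ℤ) ∣ a * γ 1 1 := by
  intro h
  apply ha
  rw [← ZMod.intCast_zmod_eq_zero_iff_dvd] at h ⊢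
  have h1 : ((a * γ 1 1 : ℤ) : ZMod M) * dd M γ⁻¹ = 0 := by rw [h, zero_mul]
  have h2 : ((γ 1 1 : ℤ) : ZMod M) * dd M γ⁻¹ = 1 := dd_mul_inv hγ
  push_cast at h1
  rw [mul_assoc, h2, mul_one] at h1
  exact h1

section Family

variable {ι : k →+* ℂ} {M : ℕ} {ser : ℤ → ℤ → LaurentSeries k}
  {form : ℤ → ℤ → ModularForm (G1 M) 2}

omit [Algebra ℚ k] in
/-- The diamond relation on a ratio of two division forms. -/
theorem diaRel_ratio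
    (hq : ∀ a b : ℤ, ¬ (M : ℤ) ∣ a → ¬ (M : ℤ) ∣ b →
      ιC (qExpansion 1 (form a b)) = coeffMap ι (ser a b))
    (hslash : ∀ (a b : ℤ) (γ : SL(2, ℤ)), γ ∈ Gamma0 M →
      (⇑(form a b) ∣[(2 : ℤ)] γ) = ⇑(form (a * γ 1 1) (b * γ 1 1)))
    (hne : ∀ c e : ℤ, ¬ (M : ℤ) ∣ c → ¬ (M : ℤ) ∣ e → ¬ (M : ℤ) ∣ c - e → ¬ (M : ℤ) ∣ c + e →
      form c e ≠ 0)
    {γ : SL(2, ℤ)} (hγ : γ ∈ Gamma0 M) {a b c e : ℤ}
    (ha : ¬ (M : ℤ) ∣ a) (hb : ¬ (M : ℤ) ∣ b) (hc : ¬ (M : ℤ) ∣ c) (he : ¬ (M : ℤ) ∣ e)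
    (hce : ¬ (M : ℤ) ∣ c - e) (hce' : ¬ (M : ℤ) ∣ c + e) :
    DiaRel M γ (coeffMap ι (ser a b / ser c e))
      (coeffMap ι (ser (a * γ 1 1) (b * γ 1 1) / ser (c * γ 1 1) (e * γ 1 1))) := by
  have ha' := not_dvd_mul_of_mem_Gamma0 hγ ha
  have hb' := not_dvd_mul_of_mem_Gamma0 hγ hb
  have hc' := not_dvd_mul_of_mem_Gamma0 hγ hc
  have he' := not_dvd_mul_of_mem_Gamma0 hγ he
  have hce1 : ¬ (M : ℤ) ∣ c * γ 1 1 - e * γ 1 1 := by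
    rw [← sub_mul]
    exact not_dvd_mul_of_mem_Gamma0 hγ hce
  have hce2 : ¬ (M : ℤ) ∣ c * γ 1 1 + e * γ 1 1 := by
    rw [← add_mul]
    exact not_dvd_mul_of_mem_Gamma0 hγ hce'
  have hmf : ∀ x y : ℤ, IsMF1 M 2 ⇑(form x y) := fun x y => ⟨form x y, rfl⟩
  have hcoe0 : ∀ x y : ℤ, form x y ≠ 0 → (⇑(form x y) : ℍ → ℂ) ≠ 0 := fun x y h h0 =>
    h (DFunLike.coe_injective h0)
  have h0 := hcoe0 c e (hne c e hc he hce hce')
  have h0' := hcoe0 _ _ (hne _ _ hc' he' hce1 hce2)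
  refine ⟨2, ⇑(form a b), ⇑(form c e), hmf a b, hmf c e, h0, ?_, ?_⟩
  · rw [map_div₀, ← hq a b ha hb, ← hq c e hc he, mul_div_cancel₀]
    exact (hmf c e).ιC_qExpansion_ne_zero h0
  · rw [hslash a b γ hγ, hslash c e γ hγ, map_div₀, ← hq _ _ ha' hb', ← hq _ _ hc' he',
      mul_div_cancel₀]
    exact (hmf _ _).ιC_qExpansion_ne_zero h0'

/-- **The set of ratios of division series is permuted by the diamonds.** -/
theorem diamondStable_ratioSet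
    (hq : ∀ a b : ℤ, ¬ (M : ℤ) ∣ a → ¬ (M : ℤ) ∣ b →
      ιC (qExpansion 1 (form a b)) = coeffMap ι (ser a b))
    (hslash : ∀ (a b : ℤ) (γ : SL(2, ℤ)), γ ∈ Gamma0 M →
      (⇑(form a b) ∣[(2 : ℤ)] γ) = ⇑(form (a * γ 1 1) (b * γ 1 1)))
    (hne : ∀ c e : ℤ, ¬ (M : ℤ) ∣ c → ¬ (M : ℤ) ∣ e → ¬ (M : ℤ) ∣ c - e → ¬ (M : ℤ) ∣ c + e →
      form c e ≠ 0) :
    DiamondStable ι M (ratioSet M ser) := by
  rintro γ hγ s ⟨a, b, c, e, ha, hb, hc, he, hce, hce', rfl⟩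
  refine ⟨_, mem_ratioSet (not_dvd_mul_of_mem_Gamma0 hγ ha) (not_dvd_mul_of_mem_Gamma0 hγ hb)
    (not_dvd_mul_of_mem_Gamma0 hγ hc) (not_dvd_mul_of_mem_Gamma0 hγ he) ?_ ?_,
    diaRel_ratio hq hslash hne hγ ha hb hc he hce hce'⟩
  · rw [← sub_mul]
    exact not_dvd_mul_of_mem_Gamma0 hγ hce
  · rw [← add_mul]
    exact not_dvd_mul_of_mem_Gamma0 hγ hce'

/-- The diamond `⟨u⟩` on a generator: indices are multiplied by `γ₁₁ ≡ u`. -/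
theorem diamond_ratio
    (hq : ∀ a b : ℤ, ¬ (M : ℤ) ∣ a → ¬ (M : ℤ) ∣ b →
      ιC (qExpansion 1 (form a b)) = coeffMap ι (ser a b))
    (hslash : ∀ (a b : ℤ) (γ : SL(2, ℤ)), γ ∈ Gamma0 M →
      (⇑(form a b) ∣[(2 : ℤ)] γ) = ⇑(form (a * γ 1 1) (b * γ 1 1)))
    (hne : ∀ c e : ℤ, ¬ (M : ℤ) ∣ c → ¬ (M : ℤ) ∣ e → ¬ (M : ℤ) ∣ c - e → ¬ (M : ℤ) ∣ c + e →
      form c e ≠ 0)
    (u : (ZMod M)ˣ) {γ : SL(2, ℤ)} (hγ : γ ∈ Gamma0 M) (hd : dd M γ = (u : ZMod M))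
    {a b c e : ℤ} (ha : ¬ (M : ℤ) ∣ a) (hb : ¬ (M : ℤ) ∣ b) (hc : ¬ (M : ℤ) ∣ c)
    (he : ¬ (M : ℤ) ∣ e) (hce : ¬ (M : ℤ) ∣ c - e) (hce' : ¬ (M : ℤ) ∣ c + e) :
    (diamond (diamondStable_ratioSet (ser := ser) hq hslash hne) u
        ⟨ser a b / ser c e, subset_gamma1Gen M _ (mem_ratioSet ha hb hc he hce hce')⟩ :
        LaurentSeries k)
      = ser (a * γ 1 1) (b * γ 1 1) / ser (c * γ 1 1) (e * γ 1 1) :=
  diamond_eq_of_diaRel _ u hγ hd _ (diaRel_ratio hq hslash hne hγ ha hb hc he hce hce')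

end Family

end

end Fermat.Agent.S48.helper182
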