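import Mathlib
import Fermat.Agent.S29.helper3718_TwistedEisenstein

set_option autoImplicit false

/-!
# Twisted Eisenstein series and twisted roots for an arbitrary subgroup `Γ ≤ SL(2, ℤ)`
(S48, machine half M3: first analytic brick of "every parabolic character is a multiplier")

This is the generic-`Γ` version of the landed `S29/helper3718_Twisted{Eisenstein,Root}`, whose
statements are written for `↥(Gamma0 N)`.  The weighted Eisenstein sums `twSum w k` of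
`helper3718` (summability, holomorphy, slash law, boundedness at all cusps, value at `i∞`) are
independent of the group and are reused as they stand; only the weight attached to a character
is redone here, for an arbitrary subgroup `Γ` of `SL(2, ℤ)` and a character `χ : ↥Γ →* ℂˣ` with

* `hunit : ∀ γ, ‖(χ γ : ℂ)‖ = 1` (unitary), and
* `hpar : ∀ γ : ↥Γ, (γ : SL(2, ℤ)).1 1 0 = 0 → χ γ = 1` (trivial on the upper triangular
  elements of `Γ`, i.e. on the stabiliser of the cusp `∞`).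

Main statements (shapes of `helper3718`, with `Gamma0 N` replaced by `Γ`):

* `exists_twisted_form`: a holomorphic `h` with `h (γ z) = χ γ * (c z + d) ^ 4 * h z` on `Γ`,
  bounded at all cusps, tending to `twLimit Γ ∈ {1, 2}` at `i∞`;
* `exists_twisted_root`: the twisted root `W = E_{12,χ} / Δ`, holomorphic with multiplier `χ`,
  of moderate growth at every cusp, `W * Δ → twLimit Γ`, eventually nonzero;
* `exists_invariant_pow_with_root`: if `χ ^ p = 1`, then `H = W ^ p` is `Γ`-invariant;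
* `exists_twisted_cusp`: `Δ · E_{12,χ}`, weight `24`, multiplier `χ`, zero at all cusps, `≠ 0`.

`twLimit Γ = 2` if `Γ` contains an element with bottom row `(0, -1)` (e.g. `-1 ∈ Γ`) and `1`
otherwise (e.g. `Γ = Γ₁(M)`, `M ≥ 3`).
-/

open UpperHalfPlane EisensteinSeries Matrix ModularForm CongruenceSubgroup Filter Topology
open scoped MatrixGroups Manifold Real

namespace Fermat.Agent.S48.helper4027

open Fermat.Agent.S29.helper3718

noncomputable section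

/-! ### The weight attached to a character of `Γ` -/

/-- The weight `v ↦ χ(γ_v)⁻¹` where `γ_v ∈ Γ` has bottom row `v` (and `0` if there is no such
matrix in `Γ`). -/
def chiWeight (Γ : Subgroup SL(2, ℤ)) (χ : ↥Γ →* ℂˣ) (v : Fin 2 → ℤ) : ℂ :=
  open Classical in
  if h : ∃ γ : ↥Γ, (γ : SL(2, ℤ)).1 1 = v then (((χ h.choose)⁻¹ : ℂˣ) : ℂ) else 0

variable {Γ : Subgroup SL(2, ℤ)} {χ : ↥Γ →* ℂˣ}

lemma coe_mul_row (δ γ : ↥Γ) :
    ((δ * γ : ↥Γ) : SL(2, ℤ)).1 1 = (δ : SL(2, ℤ)).1 1 ᵥ* (γ : SL(2, ℤ)).1 := by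
  rw [Subgroup.coe_mul, Matrix.SpecialLinearGroup.coe_mul, Matrix.mul_apply_eq_vecMul]

lemma chi_eq_of_row_eq (hpar : ∀ γ : ↥Γ, (γ : SL(2, ℤ)).1 1 0 = 0 → χ γ = 1)
    {γ γ' : ↥Γ} (h : (γ' : SL(2, ℤ)).1 1 = (γ : SL(2, ℤ)).1 1) : χ γ' = χ γ := by
  have h1 : χ (γ' * γ⁻¹) = 1 := by
    apply hpar
    have : ((γ' * γ⁻¹ : ↥Γ) : SL(2, ℤ)).1 1 =
        ((γ * γ⁻¹ : ↥Γ) : SL(2, ℤ)).1 1 := by
      rw [coe_mul_row, coe_mul_row, h]
    rw [this, mul_inv_cancel]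
    simp
  rw [map_mul, map_inv, mul_inv_eq_one] at h1
  exact h1

lemma chiWeight_row (hpar : ∀ γ : ↥Γ, (γ : SL(2, ℤ)).1 1 0 = 0 → χ γ = 1)
    (γ : ↥Γ) : chiWeight Γ χ ((γ : SL(2, ℤ)).1 1) = (((χ γ)⁻¹ : ℂˣ) : ℂ) := by
  have hex : ∃ γ' : ↥Γ, (γ' : SL(2, ℤ)).1 1 = (γ : SL(2, ℤ)).1 1 := ⟨γ, rfl⟩
  unfold chiWeight
  rw [dif_pos hex, chi_eq_of_row_eq hpar hex.choose_spec]

lemma chiWeight_of_not {v : Fin 2 → ℤ} (h : ¬ ∃ γ : ↥Γ, (γ : SL(2, ℤ)).1 1 = v) :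
    chiWeight Γ χ v = 0 := dif_neg h

lemma norm_chiWeight_le_one (hunit : ∀ γ, ‖(χ γ : ℂ)‖ = 1) (v : Fin 2 → ℤ) :
    ‖chiWeight Γ χ v‖ ≤ 1 := by
  unfold chiWeight
  split_ifs with h
  · rw [Units.val_inv_eq_inv_val, norm_inv, hunit, inv_one]
  · simp

/-- The key equivariance of the weight. -/
lemma chiWeight_vecMul (hpar : ∀ γ : ↥Γ, (γ : SL(2, ℤ)).1 1 0 = 0 → χ γ = 1)
    (γ : ↥Γ) (v : Fin 2 → ℤ) :
    chiWeight Γ χ (v ᵥ* (γ : SL(2, ℤ)).1) = (((χ γ)⁻¹ : ℂˣ) : ℂ) * chiWeight Γ χ v := by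
  by_cases h : ∃ δ : ↥Γ, (δ : SL(2, ℤ)).1 1 = v
  · obtain ⟨δ, rfl⟩ := h
    rw [← coe_mul_row, chiWeight_row hpar, chiWeight_row hpar, map_mul, mul_inv, ← Units.val_mul,
      mul_comm]
  · have h' : ¬ ∃ δ : ↥Γ, (δ : SL(2, ℤ)).1 1 = v ᵥ* (γ : SL(2, ℤ)).1 := by
      rintro ⟨δ, hδ⟩
      apply h
      refine ⟨δ * γ⁻¹, ?_⟩
      rw [coe_mul_row, hδ, vecMul_vecMul]
      have : (γ : SL(2, ℤ)).1 * ((γ⁻¹ : ↥Γ) : SL(2, ℤ)).1 = 1 := by
        rw [Subgroup.coe_inv, ← Matrix.SpecialLinearGroup.coe_mul, mul_inv_cancel,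
          Matrix.SpecialLinearGroup.coe_one]
      rw [this, vecMul_one]
    rw [chiWeight_of_not h, chiWeight_of_not h', mul_zero]

lemma chiWeight_supp {v : Fin 2 → ℤ} (hv : chiWeight Γ χ v ≠ 0) (h0 : v 0 = 0) :
    v = ![0, 1] ∨ v = ![0, -1] := by
  by_cases h : ∃ δ : ↥Γ, (δ : SL(2, ℤ)).1 1 = v
  · obtain ⟨δ, rfl⟩ := h
    have hdet := Matrix.SpecialLinearGroup.det_coe (δ : SL(2, ℤ))
    rw [Matrix.det_fin_two, h0, mul_zero, sub_zero] at hdet
    rcases Int.eq_one_or_neg_one_of_mul_eq_one (by rw [mul_comm]; exact hdet) with h1 | h1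
    · left
      ext i
      fin_cases i
      · simpa using h0
      · simpa using h1
    · right
      ext i
      fin_cases i
      · simpa using h0
      · simpa using h1
  · exact absurd (chiWeight_of_not h) hv

lemma chiWeight_zero_one (hpar : ∀ γ : ↥Γ, (γ : SL(2, ℤ)).1 1 0 = 0 → χ γ = 1) :
    chiWeight Γ χ ![0, 1] = 1 := by
  have h1 : ((1 : ↥Γ) : SL(2, ℤ)).1 1 = ![0, 1] := by
    ext i
    fin_cases i <;> simp
  rw [← h1, chiWeight_row hpar, map_one]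
  simp

/-- The value of the weight at `(0, -1)`: `1` if some element of `Γ` has this bottom row,
`0` otherwise. -/
lemma chiWeight_zero_neg_one (hpar : ∀ γ : ↥Γ, (γ : SL(2, ℤ)).1 1 0 = 0 → χ γ = 1) :
    chiWeight Γ χ ![0, -1] =
      open Classical in if ∃ γ : ↥Γ, (γ : SL(2, ℤ)).1 1 = ![0, -1] then 1 else 0 := by
  classical
  split_ifs with h
  · obtain ⟨γ, hγ⟩ := h
    have h2 : χ γ = 1 := by
      apply hpar
      rw [hγ]
      simp
    rw [← hγ, chiWeight_row hpar, h2]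
    simp
  · exact chiWeight_of_not h

/-- The value at `i∞` of the twisted Eisenstein series of even weight: `2` if `Γ` has an
element with bottom row `(0, -1)`, and `1` otherwise. -/
def twLimit (Γ : Subgroup SL(2, ℤ)) : ℂ :=
  open Classical in if ∃ γ : ↥Γ, (γ : SL(2, ℤ)).1 1 = ![0, -1] then 2 else 1

lemma twLimit_ne_zero (Γ : Subgroup SL(2, ℤ)) : twLimit Γ ≠ 0 := by
  unfold twLimit
  split_ifs <;> norm_num

lemma twLimit_of_neg_one_mem (h : (-1 : SL(2, ℤ)) ∈ Γ) : twLimit Γ = 2 := by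
  unfold twLimit
  rw [if_pos]
  refine ⟨⟨-1, h⟩, ?_⟩
  ext i
  fin_cases i <;> simp

/-! ### The twisted Eisenstein series -/

/-- The twisted Eisenstein series of weight `k` attached to a character `χ` of `Γ`. -/
def twistedEisenstein (Γ : Subgroup SL(2, ℤ)) (χ : ↥Γ →* ℂˣ) (k : ℤ) : ℍ → ℂ :=
  twSum (chiWeight Γ χ) k

theorem twistedEisenstein_mdifferentiable (hunit : ∀ γ, ‖(χ γ : ℂ)‖ = 1) {k : ℤ} (hk : 3 ≤ k) :
    MDiff (twistedEisenstein Γ χ k) :=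
  twSum_mdifferentiable (norm_chiWeight_le_one hunit) hk

/-- The transformation law: `h (γ • z) = χ γ * (c z + d) ^ k * h z` for `γ ∈ Γ`. -/
theorem twistedEisenstein_smul
    (hpar : ∀ γ : ↥Γ, (γ : SL(2, ℤ)).1 1 0 = 0 → χ γ = 1) (k : ℤ)
    (γ : ↥Γ) (z : ℍ) :
    twistedEisenstein Γ χ k ((γ : SL(2, ℤ)) • z) =
      (χ γ : ℂ) * denom (γ : SL(2, ℤ)) z ^ k * twistedEisenstein Γ χ k z := by
  unfold twistedEisenstein
  rw [twSum_smul]
  have hw : (fun v : Fin 2 → ℤ => chiWeight Γ χ (v ᵥ* ((γ : SL(2, ℤ))⁻¹).1)) =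
      fun v => (χ γ : ℂ) * chiWeight Γ χ v := by
    ext v
    have := chiWeight_vecMul hpar γ⁻¹ v
    rw [Subgroup.coe_inv] at this
    rw [this, map_inv, inv_inv]
  rw [hw]
  unfold twSum
  simp_rw [mul_assoc]
  rw [tsum_mul_left]
  ring

theorem isBoundedAtImInfty_twistedEisenstein_slash (hunit : ∀ γ, ‖(χ γ : ℂ)‖ = 1) {k : ℤ}
    (hk : 3 ≤ k) (g : SL(2, ℤ)) : IsBoundedAtImInfty (twistedEisenstein Γ χ k ∣[k] g) :=
  isBoundedAtImInfty_twSum_slash (norm_chiWeight_le_one hunit) hk g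

/-- The twisted Eisenstein series of even weight `k ≥ 4` tends to `twLimit Γ` at `i∞`. -/
theorem tendsto_twistedEisenstein (hunit : ∀ γ, ‖(χ γ : ℂ)‖ = 1)
    (hpar : ∀ γ : ↥Γ, (γ : SL(2, ℤ)).1 1 0 = 0 → χ γ = 1) {k : ℤ} (hk : 4 ≤ k)
    (hk2 : Even k) : Tendsto (twistedEisenstein Γ χ k) atImInfty (𝓝 (twLimit Γ)) := by
  classical
  have h := tendsto_twSum_atImInfty (norm_chiWeight_le_one (χ := χ) hunit)
    (fun v hv h0 => chiWeight_supp hv h0) hk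
  rw [chiWeight_zero_one hpar, chiWeight_zero_neg_one hpar, hk2.neg.neg_one_zpow] at h
  have h2 : (1 : ℂ) + (if ∃ γ : ↥Γ, (γ : SL(2, ℤ)).1 1 = ![0, -1] then (1 : ℂ) else 0) * 1
      = twLimit Γ := by
    unfold twLimit
    split_ifs <;> norm_num
  rw [h2] at h
  exact h

/-- **Twisted Eisenstein series.** For every subgroup `Γ` of `SL(2, ℤ)` and every unitary
character `χ` of `Γ` which is trivial on the upper triangular elements of `Γ`, there is a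
holomorphic function `h` on the upper half plane with `h (γ z) = χ γ * (c z + d) ^ 4 * h z` for
`γ ∈ Γ`, bounded at all cusps, and tending to `twLimit Γ ≠ 0` at `i∞` (in particular `h ≠ 0`). -/
theorem exists_twisted_form (Γ : Subgroup SL(2, ℤ)) (χ : ↥Γ →* ℂˣ)
    (hunit : ∀ γ, ‖(χ γ : ℂ)‖ = 1)
    (hpar : ∀ γ : ↥Γ, (γ : SL(2, ℤ)).1 1 0 = 0 → χ γ = 1) :
    ∃ h : ℍ → ℂ, MDiff h ∧
      (∀ (γ : ↥Γ) (z : ℍ),
        h ((γ : SL(2, ℤ)) • z) = (χ γ : ℂ) * denom (γ : SL(2, ℤ)) z ^ (4 : ℤ) * h z) ∧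
      (∀ g : SL(2, ℤ), IsBoundedAtImInfty (h ∣[(4 : ℤ)] g)) ∧
      Tendsto h atImInfty (𝓝 (twLimit Γ)) :=
  ⟨twistedEisenstein Γ χ 4, twistedEisenstein_mdifferentiable hunit (by norm_num),
    twistedEisenstein_smul hpar 4, isBoundedAtImInfty_twistedEisenstein_slash hunit (by norm_num),
    tendsto_twistedEisenstein hunit hpar (by norm_num) (by decide)⟩

/-! ### The twisted root `W_χ = E_{12,χ} / Δ` -/

/-- Modularity of the discriminant in functional form. -/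
lemma discriminant_smul_SL (γ : SL(2, ℤ)) (τ : ℍ) :
    discriminant (γ • τ) = denom γ τ ^ (12 : ℤ) * discriminant τ := by
  have : SlashInvariantFormClass (CuspForm 𝒮ℒ 12) Γ(1) 12 := Gamma_one_coe_eq_SL ▸ inferInstance
  exact_mod_cast SlashInvariantForm.slash_action_eqn_SL'' CuspForm.discriminant (mem_Gamma_one γ) τ

/-- The twisted root `W_χ = E_{12,χ} / Δ`. -/
def twistedRoot (Γ : Subgroup SL(2, ℤ)) (χ : ↥Γ →* ℂˣ) (z : ℍ) : ℂ :=
  twistedEisenstein Γ χ 12 z / discriminant z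

theorem twistedRoot_mdifferentiable (hunit : ∀ γ, ‖(χ γ : ℂ)‖ = 1) :
    MDiff (twistedRoot Γ χ) :=
  (twistedEisenstein_mdifferentiable hunit (by norm_num)).div CuspForm.discriminant.holo'
    discriminant_ne_zero

/-- The multiplier of the twisted root is `χ`. -/
theorem twistedRoot_smul (hpar : ∀ γ : ↥Γ, (γ : SL(2, ℤ)).1 1 0 = 0 → χ γ = 1)
    (γ : ↥Γ) (z : ℍ) :
    twistedRoot Γ χ ((γ : SL(2, ℤ)) • z) = (χ γ : ℂ) * twistedRoot Γ χ z := by
  unfold twistedRoot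
  rw [twistedEisenstein_smul hpar, discriminant_smul_SL]
  have hd : denom (γ : SL(2, ℤ)) z ^ (12 : ℤ) ≠ 0 := zpow_ne_zero _ (denom_ne_zero _ z)
  have hΔ := discriminant_ne_zero z
  field_simp

/-- The translates of the twisted root by `SL(2, ℤ)`. -/
theorem twistedRoot_smul_SL (g : SL(2, ℤ)) (z : ℍ) :
    twistedRoot Γ χ (g • z) = (twistedEisenstein Γ χ 12 ∣[(12 : ℤ)] g) z / discriminant z := by
  unfold twistedRoot
  rw [SL_slash_apply, discriminant_smul_SL, _root_.zpow_neg]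
  have hd : denom g z ^ (12 : ℤ) ≠ 0 := zpow_ne_zero _ (denom_ne_zero _ z)
  have hΔ := discriminant_ne_zero z
  field_simp

/-- Moderate growth of the twisted root at every cusp. -/
theorem twistedRoot_growth (hunit : ∀ γ, ‖(χ γ : ℂ)‖ = 1) (g : SL(2, ℤ)) :
    ∃ C A : ℝ, ∀ z : ℍ, A ≤ z.im →
      ‖twistedRoot Γ χ (g • z)‖ ≤ C * Real.exp (2 * π * z.im) := by
  obtain ⟨M, A₁, hM⟩ := UpperHalfPlane.isBoundedAtImInfty_iff.mp
    (isBoundedAtImInfty_twistedEisenstein_slash (χ := χ) hunit (k := 12) (by norm_num) g)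
  obtain ⟨c, hc⟩ := exp_isBigO_discriminant.bound
  obtain ⟨A₂, hA₂⟩ := (atImInfty_mem _).mp hc
  refine ⟨M * c, max A₁ A₂, fun z hz => ?_⟩
  have h1 := hM z ((le_max_left _ _).trans hz)
  have h2 : ‖Real.exp (-2 * π * z.im)‖ ≤ c * ‖discriminant z‖ :=
    hA₂ z ((le_max_right _ _).trans hz)
  rw [Real.norm_of_nonneg (Real.exp_pos _).le] at h2
  have hD : 0 < ‖discriminant z‖ := norm_pos_iff.mpr (discriminant_ne_zero z)
  have hM0 : 0 ≤ M := (norm_nonneg _).trans h1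
  have hE : Real.exp (-2 * π * z.im) = (Real.exp (2 * π * z.im))⁻¹ := by
    rw [← Real.exp_neg]
    congr 1
    ring
  have hEpos : 0 < Real.exp (2 * π * z.im) := Real.exp_pos _
  rw [hE] at h2
  have h3 : 1 ≤ c * Real.exp (2 * π * z.im) * ‖discriminant z‖ := by
    have := mul_le_mul_of_nonneg_right h2 hEpos.le
    rw [inv_mul_cancel₀ hEpos.ne'] at this
    linarith
  rw [twistedRoot_smul_SL, norm_div, div_le_iff₀ hD]
  calc ‖(twistedEisenstein Γ χ 12 ∣[(12 : ℤ)] g) z‖ ≤ M := h1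
    _ = M * 1 := (mul_one M).symm
    _ ≤ M * (c * Real.exp (2 * π * z.im) * ‖discriminant z‖) :=
        mul_le_mul_of_nonneg_left h3 hM0
    _ = M * c * Real.exp (2 * π * z.im) * ‖discriminant z‖ := by ring

/-- The twisted root has a simple pole with leading coefficient `twLimit Γ` at `i∞`:
`W * Δ → twLimit Γ`. -/
theorem tendsto_twistedRoot_mul_discriminant (hunit : ∀ γ, ‖(χ γ : ℂ)‖ = 1)
    (hpar : ∀ γ : ↥Γ, (γ : SL(2, ℤ)).1 1 0 = 0 → χ γ = 1) :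
    Tendsto (fun z : ℍ => twistedRoot Γ χ z * discriminant z) atImInfty (𝓝 (twLimit Γ)) := by
  have h := tendsto_twistedEisenstein (Γ := Γ) (χ := χ) hunit hpar (k := 12) (by norm_num)
    (by decide)
  refine h.congr fun z => ?_
  unfold twistedRoot
  rw [div_mul_cancel₀ _ (discriminant_ne_zero z)]

/-- The twisted Eisenstein series of even weight `k ≥ 4` does not vanish near `i∞`. -/
theorem eventually_twistedEisenstein_ne_zero (hunit : ∀ γ, ‖(χ γ : ℂ)‖ = 1)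
    (hpar : ∀ γ : ↥Γ, (γ : SL(2, ℤ)).1 1 0 = 0 → χ γ = 1) {k : ℤ} (hk : 4 ≤ k)
    (hk2 : Even k) : ∀ᶠ z in atImInfty, twistedEisenstein Γ χ k z ≠ 0 :=
  (tendsto_twistedEisenstein (Γ := Γ) (χ := χ) hunit hpar hk hk2).eventually_ne (twLimit_ne_zero Γ)

/-- The twisted root does not vanish near `i∞`. -/
theorem eventually_twistedRoot_ne_zero (hunit : ∀ γ, ‖(χ γ : ℂ)‖ = 1)
    (hpar : ∀ γ : ↥Γ, (γ : SL(2, ℤ)).1 1 0 = 0 → χ γ = 1) :
    ∀ᶠ z in atImInfty, twistedRoot Γ χ z ≠ 0 := by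
  have h := (tendsto_twistedRoot_mul_discriminant (Γ := Γ) (χ := χ) hunit hpar).eventually_ne
    (twLimit_ne_zero Γ)
  filter_upwards [h] with z hz h0
  exact hz (by rw [h0, zero_mul])

/-- If `χ ^ p = 1` then the `p`-th power of the twisted root is `Γ`-invariant. -/
theorem twistedRoot_pow_smul (hpar : ∀ γ : ↥Γ, (γ : SL(2, ℤ)).1 1 0 = 0 → χ γ = 1)
    {p : ℕ} (hχ : ∀ γ, χ γ ^ p = 1) (γ : ↥Γ) (z : ℍ) :
    twistedRoot Γ χ ((γ : SL(2, ℤ)) • z) ^ p = twistedRoot Γ χ z ^ p := by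
  rw [twistedRoot_smul hpar, mul_pow, ← Units.val_pow_eq_pow_val, hχ, Units.val_one, one_mul]

/-- Moderate growth of the `p`-th power of the twisted root at every cusp. -/
theorem twistedRoot_pow_growth (hunit : ∀ γ, ‖(χ γ : ℂ)‖ = 1) (p : ℕ) (g : SL(2, ℤ)) :
    ∃ C A : ℝ, ∀ z : ℍ, A ≤ z.im →
      ‖twistedRoot Γ χ (g • z) ^ p‖ ≤ C * Real.exp (2 * π * p * z.im) := by
  obtain ⟨C, A, h⟩ := twistedRoot_growth (χ := χ) hunit g
  refine ⟨C ^ p, A, fun z hz => ?_⟩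
  rw [norm_pow]
  calc ‖twistedRoot Γ χ (g • z)‖ ^ p ≤ (C * Real.exp (2 * π * z.im)) ^ p :=
        pow_le_pow_left₀ (norm_nonneg _) (h z hz) p
    _ = C ^ p * Real.exp (2 * π * p * z.im) := by
        rw [mul_pow, ← Real.exp_nat_mul]
        congr 2
        ring

/-- **Twisted roots.** For every subgroup `Γ` of `SL(2, ℤ)` and every unitary character `χ` of
`Γ` which is trivial on the upper triangular elements of `Γ` there is a holomorphic function `W`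
on the upper half plane with multiplier `χ`, of moderate growth at every cusp, and not vanishing
near `i∞`. -/
theorem exists_twisted_root (Γ : Subgroup SL(2, ℤ)) (χ : ↥Γ →* ℂˣ)
    (hunit : ∀ γ, ‖(χ γ : ℂ)‖ = 1)
    (hpar : ∀ γ : ↥Γ, (γ : SL(2, ℤ)).1 1 0 = 0 → χ γ = 1) :
    ∃ W : ℍ → ℂ, MDiff W ∧
      (∀ (γ : ↥Γ) (z : ℍ), W ((γ : SL(2, ℤ)) • z) = (χ γ : ℂ) * W z) ∧
      (∀ g : SL(2, ℤ), ∃ C A : ℝ, ∀ z : ℍ, A ≤ z.im →
        ‖W (g • z)‖ ≤ C * Real.exp (2 * π * z.im)) ∧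
      Tendsto (fun z : ℍ => W z * discriminant z) atImInfty (𝓝 (twLimit Γ)) ∧
      (∀ᶠ z in atImInfty, W z ≠ 0) :=
  ⟨twistedRoot Γ χ, twistedRoot_mdifferentiable hunit, twistedRoot_smul hpar,
    twistedRoot_growth hunit, tendsto_twistedRoot_mul_discriminant hunit hpar,
    eventually_twistedRoot_ne_zero hunit hpar⟩

/-- **Surjectivity input for the Kummer map.** If moreover `χ ^ p = 1`, then `H = W ^ p` is a
holomorphic `Γ`-invariant function of moderate growth at every cusp, not identically zero,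
with a holomorphic `p`-th root `W` of multiplier `χ`. -/
theorem exists_invariant_pow_with_root (Γ : Subgroup SL(2, ℤ)) (p : ℕ) (χ : ↥Γ →* ℂˣ)
    (hχ : ∀ γ, χ γ ^ p = 1) (hunit : ∀ γ, ‖(χ γ : ℂ)‖ = 1)
    (hpar : ∀ γ : ↥Γ, (γ : SL(2, ℤ)).1 1 0 = 0 → χ γ = 1) :
    ∃ H W : ℍ → ℂ, MDiff H ∧ MDiff W ∧ (∀ z, W z ^ p = H z) ∧
      (∀ (γ : ↥Γ) (z : ℍ), W ((γ : SL(2, ℤ)) • z) = (χ γ : ℂ) * W z) ∧
      (∀ (γ : ↥Γ) (z : ℍ), H ((γ : SL(2, ℤ)) • z) = H z) ∧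
      (∀ g : SL(2, ℤ), ∃ C A : ℝ, ∀ z : ℍ, A ≤ z.im →
        ‖H (g • z)‖ ≤ C * Real.exp (2 * π * p * z.im)) ∧
      (∀ᶠ z in atImInfty, H z ≠ 0) := by
  refine ⟨fun z => twistedRoot Γ χ z ^ p, twistedRoot Γ χ,
    (twistedRoot_mdifferentiable hunit).pow p, twistedRoot_mdifferentiable hunit, fun z => rfl,
    twistedRoot_smul hpar, twistedRoot_pow_smul hpar hχ, twistedRoot_pow_growth hunit p, ?_⟩
  filter_upwards [eventually_twistedRoot_ne_zero (Γ := Γ) (χ := χ) hunit hpar] with z hz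
  exact pow_ne_zero p hz

/-! ### The twisted cusp form `Δ · E_{12,χ}` of weight `24` -/

/-- The twisted cusp form `Δ · E_{12,χ}` (weight `24`, multiplier `χ`). -/
def twistedCusp (Γ : Subgroup SL(2, ℤ)) (χ : ↥Γ →* ℂˣ) : ℍ → ℂ :=
  discriminant * twistedEisenstein Γ χ 12

lemma twistedCusp_apply (z : ℍ) :
    twistedCusp Γ χ z = discriminant z * twistedEisenstein Γ χ 12 z := rfl

theorem twistedCusp_mdifferentiable (hunit : ∀ γ, ‖(χ γ : ℂ)‖ = 1) :
    MDiff (twistedCusp Γ χ) :=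
  CuspForm.discriminant.holo'.mul (twistedEisenstein_mdifferentiable hunit (by norm_num))

lemma discriminant_slash_SL (g : SL(2, ℤ)) :
    (discriminant : ℍ → ℂ) ∣[(12 : ℤ)] g = discriminant :=
  SlashInvariantForm.slash_action_generators_SL2Z discriminant_S_invariant
    discriminant_T_invariant g

lemma twistedCusp_slash_SL (g : SL(2, ℤ)) :
    twistedCusp Γ χ ∣[(24 : ℤ)] g =
      discriminant * (twistedEisenstein Γ χ 12 ∣[(12 : ℤ)] g) := by
  unfold twistedCusp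
  rw [show (24 : ℤ) = 12 + 12 by norm_num, mul_slash_SL2, discriminant_slash_SL]

/-- The slash action of `Γ` on the twisted cusp form is multiplication by `χ`. -/
theorem twistedCusp_slash (hpar : ∀ γ : ↥Γ, (γ : SL(2, ℤ)).1 1 0 = 0 → χ γ = 1)
    (γ : ↥Γ) :
    twistedCusp Γ χ ∣[(24 : ℤ)] (γ : SL(2, ℤ)) = (χ γ : ℂ) • twistedCusp Γ χ := by
  rw [twistedCusp_slash_SL]
  ext z
  simp only [Pi.mul_apply, Pi.smul_apply, smul_eq_mul, twistedCusp_apply]
  rw [SL_slash_apply, twistedEisenstein_smul hpar, _root_.zpow_neg]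
  have hd : denom (γ : SL(2, ℤ)) z ^ (12 : ℤ) ≠ 0 := zpow_ne_zero _ (denom_ne_zero _ z)
  field_simp

/-- The twisted cusp form vanishes at every cusp. -/
theorem isZeroAtImInfty_twistedCusp_slash (hunit : ∀ γ, ‖(χ γ : ℂ)‖ = 1) (A : SL(2, ℤ)) :
    IsZeroAtImInfty (twistedCusp Γ χ ∣[(24 : ℤ)] A) := by
  rw [twistedCusp_slash_SL]
  have h1 : (discriminant : ℍ → ℂ) =o[atImInfty] (fun _ => (1 : ℝ)) :=
    (Asymptotics.isLittleO_one_iff ℝ).mpr discriminant_isZeroAtImInfty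
  have h2 : (twistedEisenstein Γ χ 12 ∣[(12 : ℤ)] A) =O[atImInfty] (fun _ => (1 : ℝ)) :=
    isBoundedAtImInfty_twistedEisenstein_slash (χ := χ) hunit (k := 12) (by norm_num) A
  have h3 := h1.mul_isBigO h2
  simp only [mul_one] at h3
  exact (Asymptotics.isLittleO_one_iff ℝ).mp h3

theorem twistedCusp_ne_zero (hunit : ∀ γ, ‖(χ γ : ℂ)‖ = 1)
    (hpar : ∀ γ : ↥Γ, (γ : SL(2, ℤ)).1 1 0 = 0 → χ γ = 1) :
    twistedCusp Γ χ ≠ 0 := by
  intro h
  have hev := eventually_twistedEisenstein_ne_zero (Γ := Γ) (χ := χ) hunit hpar (k := 12)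
    (by norm_num) (by decide)
  obtain ⟨z, hz⟩ := hev.exists
  have h0 := congrFun h z
  rw [twistedCusp_apply] at h0
  exact (mul_ne_zero (discriminant_ne_zero z) hz) h0

/-- **A nonzero cuspidal `χ`-automorphic form of weight `24`** (the input of the form-level
descent): holomorphic, `H ∣[24] γ = χ γ • H` on `Γ`, zero at every cusp, `H ≠ 0`; moreover
`H = Δ ^ 2 * W` for the twisted root `W`. -/
theorem exists_twisted_cusp (Γ : Subgroup SL(2, ℤ)) (χ : ↥Γ →* ℂˣ)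
    (hunit : ∀ γ, ‖(χ γ : ℂ)‖ = 1)
    (hpar : ∀ γ : ↥Γ, (γ : SL(2, ℤ)).1 1 0 = 0 → χ γ = 1) :
    ∃ H : ℍ → ℂ, (MDiff H ∧
      (∀ γ : ↥Γ, H ∣[(24 : ℤ)] (γ : SL(2, ℤ)) = (χ γ : ℂ) • H) ∧
      ∀ A : SL(2, ℤ), IsZeroAtImInfty (H ∣[(24 : ℤ)] A)) ∧ H ≠ 0 ∧
      ∀ z, H z = discriminant z ^ 2 * twistedRoot Γ χ z := by
  refine ⟨twistedCusp Γ χ, ⟨twistedCusp_mdifferentiable hunit, twistedCusp_slash hpar,
    isZeroAtImInfty_twistedCusp_slash hunit⟩, twistedCusp_ne_zero hunit hpar, fun z => ?_⟩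
  rw [twistedCusp_apply, twistedRoot]
  have hΔ := discriminant_ne_zero z
  field_simp

end

end Fermat.Agent.S48.helper4027
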