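import Mathlib
import Fermat.Agent.S48.helper4027_TwistedGamma

set_option autoImplicit false

/-!
# Powers of twisted Eisenstein series as modular forms on a finite-index `Γ ≤ SL(2, ℤ)`
(S48, machine half M3; generic-`Γ` version of the landed `S29/helper3718_TwistedForm`)

If `χ ^ n = 1` then `E_{12,χ} ^ n` is a modular form of weight `12 n` on `Γ`, and so is `Δ ^ n`;
the `n`-th power of the twisted root `W = E_{12,χ} / Δ` is pointwise their ratio, and the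
`q`-expansions (at any strict period `h > 0` of `Γ`) satisfy `x * q(Δ ^ n) = q(E_{12,χ} ^ n)` for a
nonzero Laurent series `x`.

Also: the hypothesis `hpar` for `Γ = Γ₁(M)`, `3 ≤ M`, from `χ T = 1`, and for any `Γ ∋ T, -1` from
`χ T = 1`, `χ (-1) = 1`.
-/

open UpperHalfPlane EisensteinSeries Matrix ModularForm CongruenceSubgroup Filter Topology
open scoped MatrixGroups Manifold Real

namespace Fermat.Agent.S48.helper4027

noncomputable section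

/-- Slash of a power: `(h ^ n) ∣[k * n] g = (h ∣[k] g) ^ n` for `g ∈ SL(2, ℤ)`. -/
lemma pow_slash_SL (h : ℍ → ℂ) (k : ℤ) (n : ℕ) (g : SL(2, ℤ)) :
    (fun z => h z ^ n) ∣[k * (n : ℤ)] g = fun z => (h ∣[k] g) z ^ n := by
  ext z
  rw [SL_slash_apply, SL_slash_apply, mul_pow, ← zpow_natCast (denom g z ^ (-k)) n,
    ← _root_.zpow_mul, neg_mul]

/-- **Generic engine.** If `h` is holomorphic, transforms under `Γ` with weight `k` and a
multiplier `c` with `c ^ n = 1`, and all its `SL(2, ℤ)`-slashes are bounded at `i∞`, then `h ^ n`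
is a modular form of weight `k * n` on `Γ`. -/
def powForm (Γ : Subgroup SL(2, ℤ)) [Γ.FiniteIndex] (k : ℤ) (n : ℕ) (h : ℍ → ℂ) (c : ↥Γ → ℂ)
    (hc : ∀ γ, c γ ^ n = 1) (hol : MDiff h)
    (htr : ∀ (γ : ↥Γ) (z : ℍ),
      h ((γ : SL(2, ℤ)) • z) = c γ * denom (γ : SL(2, ℤ)) z ^ k * h z)
    (hbd : ∀ g : SL(2, ℤ), IsBoundedAtImInfty (h ∣[k] g)) :
    ModularForm (Γ : Subgroup (GL (Fin 2) ℝ)) (k * (n : ℤ)) where
  toFun := fun z => h z ^ n
  slash_action_eq' := by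
    rintro γ ⟨γ₀, hγ₀, rfl⟩
    have h1 : (fun z => h z ^ n) ∣[k * (n : ℤ)] (Matrix.SpecialLinearGroup.mapGL ℝ γ₀) =
        (fun z => h z ^ n) ∣[k * (n : ℤ)] γ₀ := rfl
    rw [h1]
    ext z
    rw [SL_slash_apply]
    have h2 := htr ⟨γ₀, hγ₀⟩ z
    simp only at h2
    rw [h2, mul_pow, mul_pow, hc, one_mul, ← zpow_natCast (denom γ₀ z ^ k) n,
      ← _root_.zpow_mul, _root_.zpow_neg, mul_comm, ← mul_assoc,
      inv_mul_cancel₀ (zpow_ne_zero _ (denom_ne_zero _ z)), one_mul]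
  holo' := hol.pow n
  bdd_at_cusps' := by
    intro c hc'
    rw [Subgroup.IsArithmetic.isCusp_iff_isCusp_SL2Z] at hc'
    rw [OnePoint.isBoundedAt_iff_forall_SL2Z hc']
    intro g _
    show IsBoundedAtImInfty ((fun z => h z ^ n) ∣[k * (n : ℤ)] g)
    rw [pow_slash_SL]
    obtain ⟨M, A, hM⟩ := UpperHalfPlane.isBoundedAtImInfty_iff.mp (hbd g)
    rw [UpperHalfPlane.isBoundedAtImInfty_iff]
    refine ⟨M ^ n, A, fun z hz => ?_⟩
    rw [norm_pow]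
    exact pow_le_pow_left₀ (norm_nonneg _) (hM z hz) n

@[simp] lemma powForm_apply (Γ : Subgroup SL(2, ℤ)) [Γ.FiniteIndex] (k : ℤ) (n : ℕ) (h : ℍ → ℂ)
    (c : ↥Γ → ℂ) (hc : ∀ γ, c γ ^ n = 1) (hol : MDiff h)
    (htr : ∀ (γ : ↥Γ) (z : ℍ),
      h ((γ : SL(2, ℤ)) • z) = c γ * denom (γ : SL(2, ℤ)) z ^ k * h z)
    (hbd : ∀ g : SL(2, ℤ), IsBoundedAtImInfty (h ∣[k] g)) (z : ℍ) :
    powForm Γ k n h c hc hol htr hbd z = h z ^ n := rfl

variable {Γ : Subgroup SL(2, ℤ)} [Γ.FiniteIndex] {χ : ↥Γ →* ℂˣ}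

/-- `E_{12,χ} ^ n` as a modular form of weight `12 n` on `Γ`, when `χ ^ n = 1`. -/
def twistedPowForm (Γ : Subgroup SL(2, ℤ)) [Γ.FiniteIndex] (χ : ↥Γ →* ℂˣ) (n : ℕ)
    (hχ : ∀ γ, χ γ ^ n = 1) (hunit : ∀ γ, ‖(χ γ : ℂ)‖ = 1)
    (hpar : ∀ γ : ↥Γ, (γ : SL(2, ℤ)).1 1 0 = 0 → χ γ = 1) :
    ModularForm (Γ : Subgroup (GL (Fin 2) ℝ)) (12 * (n : ℤ)) :=
  powForm Γ 12 n (twistedEisenstein Γ χ 12) (fun γ => (χ γ : ℂ))
    (fun γ => by rw [← Units.val_pow_eq_pow_val, hχ, Units.val_one])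
    (twistedEisenstein_mdifferentiable hunit (by norm_num))
    (twistedEisenstein_smul hpar 12)
    (isBoundedAtImInfty_twistedEisenstein_slash hunit (by norm_num))

lemma twistedPowForm_apply (n : ℕ) (hχ : ∀ γ, χ γ ^ n = 1) (hunit : ∀ γ, ‖(χ γ : ℂ)‖ = 1)
    (hpar : ∀ γ : ↥Γ, (γ : SL(2, ℤ)).1 1 0 = 0 → χ γ = 1) (z : ℍ) :
    twistedPowForm Γ χ n hχ hunit hpar z = twistedEisenstein Γ χ 12 z ^ n := rfl

/-- `Δ ^ n` as a modular form of weight `12 n` on `Γ`. -/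
def discPowForm (Γ : Subgroup SL(2, ℤ)) [Γ.FiniteIndex] (n : ℕ) :
    ModularForm (Γ : Subgroup (GL (Fin 2) ℝ)) (12 * (n : ℤ)) :=
  powForm Γ 12 n discriminant (fun _ => 1) (fun _ => one_pow n) CuspForm.discriminant.holo'
    (fun γ z => by rw [discriminant_smul_SL, one_mul])
    (fun g => by
      rw [discriminant_slash_SL]
      exact discriminant_isZeroAtImInfty.isBoundedAtImInfty)

lemma discPowForm_apply (n : ℕ) (z : ℍ) : discPowForm Γ n z = discriminant z ^ n := rfl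

lemma discPowForm_ne_zero (n : ℕ) : discPowForm Γ n ≠ 0 := by
  intro h
  have := congrArg
    (fun f : ModularForm (Γ : Subgroup (GL (Fin 2) ℝ)) (12 * (n : ℤ)) => f UpperHalfPlane.I) h
  simp only [discPowForm_apply, _root_.zero_apply] at this
  exact pow_ne_zero n (discriminant_ne_zero _) this

lemma twistedPowForm_ne_zero (n : ℕ) (hχ : ∀ γ, χ γ ^ n = 1) (hunit : ∀ γ, ‖(χ γ : ℂ)‖ = 1)
    (hpar : ∀ γ : ↥Γ, (γ : SL(2, ℤ)).1 1 0 = 0 → χ γ = 1) :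
    twistedPowForm Γ χ n hχ hunit hpar ≠ 0 := by
  intro h
  have hev := eventually_twistedEisenstein_ne_zero (Γ := Γ) (χ := χ) hunit hpar (k := 12)
    (by norm_num) (by decide)
  obtain ⟨z, hz⟩ := hev.exists
  have := congrArg
    (fun f : ModularForm (Γ : Subgroup (GL (Fin 2) ℝ)) (12 * (n : ℤ)) => f z) h
  simp only [twistedPowForm_apply, _root_.zero_apply] at this
  exact pow_ne_zero n hz this

/-- For every `z`, `(twistedRoot Γ χ z) ^ n` is the ratio of the two forms. -/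
lemma twistedRoot_pow_eq (n : ℕ) (hχ : ∀ γ, χ γ ^ n = 1) (hunit : ∀ γ, ‖(χ γ : ℂ)‖ = 1)
    (hpar : ∀ γ : ↥Γ, (γ : SL(2, ℤ)).1 1 0 = 0 → χ γ = 1) (z : ℍ) :
    twistedRoot Γ χ z ^ n = twistedPowForm Γ χ n hχ hunit hpar z / discPowForm Γ n z := by
  rw [twistedPowForm_apply, discPowForm_apply, twistedRoot, div_pow]

local notation "ιL" => HahnSeries.ofPowerSeries ℤ ℂ

omit [Γ.FiniteIndex] in
/-- The `q`-expansion (at a strict period `h > 0`) of a nonzero modular form on `Γ` is a nonzero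
Laurent series. -/
lemma ofPS_qExpansion_ne_zero {h : ℝ} (hh : 0 < h)
    (hΓ : h ∈ (Γ : Subgroup (GL (Fin 2) ℝ)).strictPeriods) {k : ℤ}
    {E : ModularForm (Γ : Subgroup (GL (Fin 2) ℝ)) k} (hE : E ≠ 0) :
    ιL (qExpansion h E) ≠ 0 := by
  intro h0
  have h2 : qExpansion h E = 0 :=
    HahnSeries.ofPowerSeries_injective (by rw [h0, map_zero])
  exact hE ((ModularForm.qExpansion_eq_zero_iff hh hΓ E).mp h2)

/-- **The `q`-expansion of `(E_{12,χ} / Δ) ^ n` is a ratio of `q`-expansions of two modular forms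
of weight `12 n` on `Γ`** (at any strict period `h > 0` of `Γ`). -/
theorem exists_twisted_ratio (Γ : Subgroup SL(2, ℤ)) [Γ.FiniteIndex] (χ : ↥Γ →* ℂˣ) (n : ℕ)
    (hχ : ∀ γ, χ γ ^ n = 1) (hunit : ∀ γ, ‖(χ γ : ℂ)‖ = 1)
    (hpar : ∀ γ : ↥Γ, (γ : SL(2, ℤ)).1 1 0 = 0 → χ γ = 1) {h : ℝ} (hh : 0 < h)
    (hΓ : h ∈ (Γ : Subgroup (GL (Fin 2) ℝ)).strictPeriods) :
    ∃ x : LaurentSeries ℂ, x ≠ 0 ∧ ιL (qExpansion h (discPowForm Γ n)) ≠ 0 ∧
      x * ιL (qExpansion h (discPowForm Γ n)) =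
        ιL (qExpansion h (twistedPowForm Γ χ n hχ hunit hpar)) := by
  have hE := ofPS_qExpansion_ne_zero hh hΓ (discPowForm_ne_zero (Γ := Γ) n)
  have hG := ofPS_qExpansion_ne_zero hh hΓ
    (twistedPowForm_ne_zero (Γ := Γ) (χ := χ) n hχ hunit hpar)
  refine ⟨ιL (qExpansion h (twistedPowForm Γ χ n hχ hunit hpar)) *
    (ιL (qExpansion h (discPowForm Γ n)))⁻¹, mul_ne_zero hG (inv_ne_zero hE), hE, ?_⟩
  rw [mul_assoc, inv_mul_cancel₀ hE, mul_one]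

end

/-! ### The hypothesis `hpar` in concrete cases -/

section Hpar

variable {Γ : Subgroup SL(2, ℤ)} {χ : ↥Γ →* ℂˣ}

/-- A character of `Γ ∋ T, -1` which is trivial on `T` and on `-1` is trivial on all upper
triangular elements of `Γ`. -/
lemma chi_eq_one_of_lower_left_zero (hTmem : ModularGroup.T ∈ Γ) (hnegmem : (-1 : SL(2, ℤ)) ∈ Γ)
    (hT : χ ⟨ModularGroup.T, hTmem⟩ = 1) (hneg : χ ⟨-1, hnegmem⟩ = 1) (γ : ↥Γ)
    (h : (γ : SL(2, ℤ)).1 1 0 = 0) : χ γ = 1 := by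
  have hdet := Matrix.SpecialLinearGroup.det_coe (γ : SL(2, ℤ))
  rw [Matrix.det_fin_two, h, mul_zero, sub_zero] at hdet
  rcases Int.eq_one_or_neg_one_of_mul_eq_one' hdet with ⟨h0, h1⟩ | ⟨h0, h1⟩
  · have : γ = (⟨ModularGroup.T, hTmem⟩ : ↥Γ) ^ ((γ : SL(2, ℤ)).1 0 1) := by
      apply Subtype.ext
      rw [Subgroup.coe_zpow]
      ext i j
      rw [ModularGroup.coe_T_zpow]
      fin_cases i <;> fin_cases j <;> simp [h0, h1, h]
    rw [this, map_zpow, hT, _root_.one_zpow]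
  · have : γ = (⟨-1, hnegmem⟩ : ↥Γ) *
        (⟨ModularGroup.T, hTmem⟩ : ↥Γ) ^ (-(γ : SL(2, ℤ)).1 0 1) := by
      apply Subtype.ext
      rw [Subgroup.coe_mul, Subgroup.coe_zpow]
      ext i j
      rw [Matrix.SpecialLinearGroup.coe_mul, ModularGroup.coe_T_zpow]
      fin_cases i <;> fin_cases j <;> simp [h0, h1, h]
    rw [this, map_mul, map_zpow, hT, hneg, _root_.one_zpow, one_mul]

lemma T_mem_Gamma1 (M : ℕ) : ModularGroup.T ∈ Gamma1 M := by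
  rw [Gamma1_mem]
  simp [ModularGroup.T]

/-- For `3 ≤ M`, an upper triangular element of `Γ₁(M)` has diagonal `(1, 1)`. -/
lemma diag_eq_one_of_mem_Gamma1 {M : ℕ} (hM : 3 ≤ M) (γ : ↥(Gamma1 M))
    (h : (γ : SL(2, ℤ)).1 1 0 = 0) : (γ : SL(2, ℤ)).1 0 0 = 1 ∧ (γ : SL(2, ℤ)).1 1 1 = 1 := by
  have hdet := Matrix.SpecialLinearGroup.det_coe (γ : SL(2, ℤ))
  rw [Matrix.det_fin_two, h, mul_zero, sub_zero] at hdet
  rcases Int.eq_one_or_neg_one_of_mul_eq_one' hdet with ⟨h0, h1⟩ | ⟨h0, h1⟩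
  · exact ⟨h0, h1⟩
  · exfalso
    have hmem := (Gamma1_mem M (γ : SL(2, ℤ))).mp γ.2
    have h11 : (((γ : SL(2, ℤ)).1 1 1 : ℤ) : ZMod M) = 1 := hmem.2.1
    rw [h1] at h11
    have h2 : ((2 : ℤ) : ZMod M) = 0 := by
      have : ((-1 : ℤ) : ZMod M) = ((1 : ℤ) : ZMod M) := by
        rw [h11]; simp
      have h3 : ((1 : ℤ) : ZMod M) - ((-1 : ℤ) : ZMod M) = 0 := by rw [this, sub_self]
      rw [← Int.cast_sub] at h3
      norm_num at h3
      exact_mod_cast h3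
    rw [ZMod.intCast_zmod_eq_zero_iff_dvd] at h2
    have h3 : (M : ℤ) ≤ 2 := Int.le_of_dvd (by norm_num) h2
    omega

/-- For `3 ≤ M`, a character of `Γ₁(M)` which is trivial on `T` is trivial on all upper
triangular elements of `Γ₁(M)` (they are the powers of `T`). -/
lemma chi_eq_one_of_lower_left_zero_Gamma1 {M : ℕ} (hM : 3 ≤ M) {χ : ↥(Gamma1 M) →* ℂˣ}
    (hT : χ ⟨ModularGroup.T, T_mem_Gamma1 M⟩ = 1) (γ : ↥(Gamma1 M))
    (h : (γ : SL(2, ℤ)).1 1 0 = 0) : χ γ = 1 := by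
  obtain ⟨h0, h1⟩ := diag_eq_one_of_mem_Gamma1 hM γ h
  have : γ = (⟨ModularGroup.T, T_mem_Gamma1 M⟩ : ↥(Gamma1 M)) ^ ((γ : SL(2, ℤ)).1 0 1) := by
    apply Subtype.ext
    rw [Subgroup.coe_zpow]
    ext i j
    rw [ModularGroup.coe_T_zpow]
    fin_cases i <;> fin_cases j <;> simp [h0, h1, h]
  rw [this, map_zpow, hT, _root_.one_zpow]

/-- For `3 ≤ M` the value at `i∞` of the twisted Eisenstein series on `Γ₁(M)` is `1`. -/
lemma twLimit_Gamma1 {M : ℕ} (hM : 3 ≤ M) : twLimit (Gamma1 M) = 1 := by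
  unfold twLimit
  rw [if_neg]
  rintro ⟨γ, hγ⟩
  have h10 : (γ : SL(2, ℤ)).1 1 0 = 0 := by rw [hγ]; simp
  have h11 : (γ : SL(2, ℤ)).1 1 1 = -1 := by rw [hγ]; simp
  have := (diag_eq_one_of_mem_Gamma1 hM γ h10).2
  rw [h11] at this
  norm_num at this

/-- **Twisted roots on `Γ₁(M)`**, `3 ≤ M`, with the hypothesis `χ T = 1`: a holomorphic `W` with
multiplier `χ`, of moderate growth at every cusp, `W * Δ → 1` at `i∞`. -/
theorem exists_twisted_root_Gamma1 {M : ℕ} (hM : 3 ≤ M) (χ : ↥(Gamma1 M) →* ℂˣ)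
    (hunit : ∀ γ, ‖(χ γ : ℂ)‖ = 1) (hT : χ ⟨ModularGroup.T, T_mem_Gamma1 M⟩ = 1) :
    ∃ W : ℍ → ℂ, MDiff W ∧
      (∀ (γ : ↥(Gamma1 M)) (z : ℍ), W ((γ : SL(2, ℤ)) • z) = (χ γ : ℂ) * W z) ∧
      (∀ g : SL(2, ℤ), ∃ C A : ℝ, ∀ z : ℍ, A ≤ z.im →
        ‖W (g • z)‖ ≤ C * Real.exp (2 * π * z.im)) ∧
      Tendsto (fun z : ℍ => W z * discriminant z) atImInfty (𝓝 1) ∧
      (∀ᶠ z in atImInfty, W z ≠ 0) := by
  have h := exists_twisted_root (Gamma1 M) χ hunit (chi_eq_one_of_lower_left_zero_Gamma1 hM hT)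
  rwa [twLimit_Gamma1 hM] at h

end Hpar

end Fermat.Agent.S48.helper4027
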