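import Mathlib
import Fermat.Prelude.Def_ModularCurve_PeriodMap
import Fermat.Agent.S24.helper580_HolMer
import Fermat.Agent.S48.helper4027_TwistedGammaForm

set_option autoImplicit false

/-!
# The twisted root of a parabolic character of `Γ ≤ SL(2, ℤ)` as a meromorphic function
(S48, machine half M3; generic-`Γ` version of the first section of `S29/helper2122_SurjAsm`)

* `chiOf Γ ζ lam : ↥Γ →* ℂˣ`, `γ ↦ ζ ^ lam γ`, for `lam : Additive ↥Γ →+ ℤ`;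
  `chiOf_pow`, `chiOf_eq_one_of_trace` (Prelude `Period.IsParabolicHom`),
  `chiOf_eq_one_of_finOrder`;
* `norm_chi_eq_one`, `chi_eq_one_of_upper`: the hypotheses `hunit`, `hpar` of
  `helper4027_TwistedGamma` for a character of finite order trivial on the elements of trace `±2`;
* `rootHol`, `rootMer`: the twisted root in the landed `S24.helper580.Hol` / `Mer`, with
  `pull γ (rootMer Γ χ hunit) = χ γ • rootMer Γ χ hunit` for `γ ∈ Γ`, `rootMer ≠ 0`;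
* `exists_root_of_parabolicHom`: for every integral parabolic homomorphism `lam` of `Γ` and every
  `ζ` with `ζ ^ n = 1`, `0 < n`, a nonzero `W : Mer` with multiplier `γ ↦ ζ ^ lam γ` whose `n`-th
  power is fixed by `pull γ`, `γ ∈ Γ`.
-/

open ModularCurve CongruenceSubgroup UpperHalfPlane Filter Topology
open scoped MatrixGroups Manifold Real

noncomputable section

namespace Fermat.Agent.S48.helper4027

open Fermat.Agent.S24.helper580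

/-! ## Characters attached to integral homomorphisms -/

/-- The character `γ ↦ ζ ^ (lam γ)`. -/
def chiOf (Γ : Subgroup SL(2, ℤ)) (ζ : ℂˣ) (lam : Additive ↥Γ →+ ℤ) : ↥Γ →* ℂˣ where
  toFun γ := ζ ^ (lam (Additive.ofMul γ))
  map_one' := by
    show ζ ^ (lam 0) = 1
    rw [map_zero, zpow_zero]
  map_mul' γ δ := by
    show ζ ^ (lam (Additive.ofMul γ + Additive.ofMul δ)) = _
    rw [map_add, zpow_add]

variable {Γ : Subgroup SL(2, ℤ)}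

theorem chiOf_apply (ζ : ℂˣ) (lam : Additive ↥Γ →+ ℤ) (γ : ↥Γ) :
    chiOf Γ ζ lam γ = ζ ^ (lam (Additive.ofMul γ)) := rfl

theorem chiOf_pow {n : ℕ} {ζ : ℂˣ} (hζ : ζ ^ n = 1) (lam : Additive ↥Γ →+ ℤ)
    (γ : ↥Γ) : chiOf Γ ζ lam γ ^ n = 1 := by
  rw [chiOf_apply, ← zpow_natCast, ← zpow_mul, mul_comm, zpow_mul, zpow_natCast, hζ, one_zpow]

theorem chiOf_eq_one_of_trace (ζ : ℂˣ) {lam : Additive ↥Γ →+ ℤ}
    (hlam : Period.IsParabolicHom Γ lam) (γ : ↥Γ)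
    (hγ : ((γ : SL(2, ℤ)) : Matrix (Fin 2) (Fin 2) ℤ).trace ^ 2 = 4) : chiOf Γ ζ lam γ = 1 := by
  rw [chiOf_apply, hlam γ hγ, zpow_zero]

theorem chiOf_eq_one_of_finOrder (ζ : ℂˣ) (lam : Additive ↥Γ →+ ℤ)
    (γ : ↥Γ) (hγ : IsOfFinOrder (γ : SL(2, ℤ))) : chiOf Γ ζ lam γ = 1 := by
  obtain ⟨k, hk, hpow'⟩ := isOfFinOrder_iff_pow_eq_one.mp hγ
  have hpow : γ ^ k = 1 := Subtype.ext (by rw [Subgroup.coe_pow, hpow', Subgroup.coe_one])
  have h1 : (k : ℤ) * lam (Additive.ofMul γ) = 0 := by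
    have h2 : lam (Additive.ofMul (γ ^ k)) = k • lam (Additive.ofMul γ) := by
      rw [ofMul_pow, map_nsmul]
    rw [hpow] at h2
    have h3 : lam (Additive.ofMul (1 : ↥Γ)) = 0 := map_zero lam
    rw [h3] at h2
    rw [← nsmul_eq_mul]
    exact h2.symm
  have h4 : lam (Additive.ofMul γ) = 0 := by
    rcases mul_eq_zero.mp h1 with h | h
    · exact absurd (by exact_mod_cast h) hk.ne'
    · exact h
  rw [chiOf_apply, h4, zpow_zero]

/-! ## The twisted root as a meromorphic function -/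

section Root

variable {χ : ↥Γ →* ℂˣ}

theorem norm_chi_eq_one {n : ℕ} (hn : 0 < n) (hχ : ∀ γ, χ γ ^ n = 1) (γ : ↥Γ) :
    ‖(χ γ : ℂ)‖ = 1 := by
  refine Complex.norm_eq_one_of_pow_eq_one (n := n) ?_ hn.ne'
  rw [← Units.val_pow_eq_pow_val, hχ, Units.val_one]

theorem chi_eq_one_of_upper
    (hχtr : ∀ γ : ↥Γ,
      ((γ : SL(2, ℤ)) : Matrix (Fin 2) (Fin 2) ℤ).trace ^ 2 = 4 → χ γ = 1)
    (γ : ↥Γ) (h10 : (γ : SL(2, ℤ)).1 1 0 = 0) : χ γ = 1 := by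
  apply hχtr
  have hdet : ((γ : SL(2, ℤ)) : Matrix (Fin 2) (Fin 2) ℤ).det = 1 := (γ : SL(2, ℤ)).2
  rw [Matrix.det_fin_two, h10, mul_zero, sub_zero] at hdet
  rw [Matrix.trace_fin_two]
  rcases Int.eq_one_or_neg_one_of_mul_eq_one' hdet with ⟨h1, h2⟩ | ⟨h1, h2⟩
  · rw [h1, h2]; norm_num
  · rw [h1, h2]; norm_num

/-- The twisted root `E_{12,χ} / Δ` as an element of `Hol`. -/
def rootHol (Γ : Subgroup SL(2, ℤ)) (χ : ↥Γ →* ℂˣ) (hunit : ∀ γ, ‖(χ γ : ℂ)‖ = 1) : Hol :=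
  ⟨twistedRoot Γ χ, twistedRoot_mdifferentiable hunit⟩

theorem rootHol_apply (hunit : ∀ γ, ‖(χ γ : ℂ)‖ = 1) (τ : ℍ) :
    (rootHol Γ χ hunit : ℍ → ℂ) τ = twistedRoot Γ χ τ := rfl

theorem pullHol_rootHol (hunit : ∀ γ, ‖(χ γ : ℂ)‖ = 1)
    (hpar : ∀ γ : ↥Γ, (γ : SL(2, ℤ)).1 1 0 = 0 → χ γ = 1) (γ : ↥Γ) :
    pullHol (γ : SL(2, ℤ)) (rootHol Γ χ hunit) = (χ γ : ℂ) • rootHol Γ χ hunit := by
  refine Hol.ext fun τ => ?_
  show twistedRoot Γ χ ((γ : SL(2, ℤ)) • τ) = (χ γ : ℂ) * twistedRoot Γ χ τ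
  exact twistedRoot_smul hpar γ τ

theorem rootHol_ne_zero (hunit : ∀ γ, ‖(χ γ : ℂ)‖ = 1)
    (hpar : ∀ γ : ↥Γ, (γ : SL(2, ℤ)).1 1 0 = 0 → χ γ = 1) : rootHol Γ χ hunit ≠ 0 := by
  intro h
  obtain ⟨z, hz⟩ := (eventually_twistedRoot_ne_zero (Γ := Γ) (χ := χ) hunit hpar).exists
  apply hz
  have := congrArg (fun f : Hol => (f : ℍ → ℂ) z) h
  simpa [rootHol_apply] using this

/-- The twisted root as an element of `Mer`. -/
def rootMer (Γ : Subgroup SL(2, ℤ)) (χ : ↥Γ →* ℂˣ) (hunit : ∀ γ, ‖(χ γ : ℂ)‖ = 1) : Mer :=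
  algebraMap Hol Mer (rootHol Γ χ hunit)

theorem pull_rootMer (hunit : ∀ γ, ‖(χ γ : ℂ)‖ = 1)
    (hpar : ∀ γ : ↥Γ, (γ : SL(2, ℤ)).1 1 0 = 0 → χ γ = 1) (γ : ↥Γ) :
    pull (γ : SL(2, ℤ)) (rootMer Γ χ hunit)
      = algebraMap ℂ Mer (χ γ : ℂ) * rootMer Γ χ hunit := by
  unfold rootMer
  rw [pull_algebraMap, pullHol_rootHol hunit hpar, Algebra.smul_def, map_mul,
    ← IsScalarTower.algebraMap_apply]

theorem rootMer_ne_zero (hunit : ∀ γ, ‖(χ γ : ℂ)‖ = 1)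
    (hpar : ∀ γ : ↥Γ, (γ : SL(2, ℤ)).1 1 0 = 0 → χ γ = 1) : rootMer Γ χ hunit ≠ 0 := by
  unfold rootMer
  intro h
  exact rootHol_ne_zero hunit hpar
    ((IsFractionRing.injective Hol Mer) (by rw [h, map_zero]))

/-- The `n`-th power of the twisted root is fixed by `Γ` when `χ ^ n = 1`. -/
theorem pull_rootMer_pow {n : ℕ} (hχ : ∀ γ, χ γ ^ n = 1) (hunit : ∀ γ, ‖(χ γ : ℂ)‖ = 1)
    (hpar : ∀ γ : ↥Γ, (γ : SL(2, ℤ)).1 1 0 = 0 → χ γ = 1) (γ : ↥Γ) :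
    pull (γ : SL(2, ℤ)) (rootMer Γ χ hunit ^ n) = rootMer Γ χ hunit ^ n := by
  rw [map_pow, pull_rootMer hunit hpar, mul_pow, ← map_pow, ← Units.val_pow_eq_pow_val, hχ,
    Units.val_one, map_one, one_mul]

end Root

/-- **Every parabolic character of finite order is a multiplier** (analytic form, any subgroup
`Γ` of `SL(2, ℤ)`): for an integral parabolic homomorphism `lam` of `Γ` and `ζ ^ n = 1`, `0 < n`,
there is a nonzero meromorphic (indeed holomorphic) `W` on `ℍ` with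
`pull γ W = ζ ^ lam γ • W` for all `γ ∈ Γ`; its `n`-th power is `Γ`-invariant. -/
theorem exists_root_of_parabolicHom (Γ : Subgroup SL(2, ℤ)) {n : ℕ} (hn : 0 < n) {ζ : ℂˣ}
    (hζ : ζ ^ n = 1) {lam : Additive ↥Γ →+ ℤ} (hlam : Period.IsParabolicHom Γ lam) :
    ∃ W : Mer, W ≠ 0 ∧
      (∀ γ : ↥Γ, pull (γ : SL(2, ℤ)) W
        = algebraMap ℂ Mer (((ζ ^ lam (Additive.ofMul γ) : ℂˣ) : ℂ)) * W) ∧
      ∀ γ : ↥Γ, pull (γ : SL(2, ℤ)) (W ^ n) = W ^ n := by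
  have hχ : ∀ γ, chiOf Γ ζ lam γ ^ n = 1 := chiOf_pow hζ lam
  have hunit : ∀ γ, ‖(chiOf Γ ζ lam γ : ℂ)‖ = 1 := norm_chi_eq_one hn hχ
  have hpar : ∀ γ : ↥Γ, (γ : SL(2, ℤ)).1 1 0 = 0 → chiOf Γ ζ lam γ = 1 :=
    chi_eq_one_of_upper (chiOf_eq_one_of_trace ζ hlam)
  exact ⟨rootMer Γ (chiOf Γ ζ lam) hunit, rootMer_ne_zero hunit hpar,
    fun γ => pull_rootMer hunit hpar γ, fun γ => pull_rootMer_pow hχ hunit hpar γ⟩

end Fermat.Agent.S48.helper4027
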