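import Mathlib
import Fermat.Prelude.Def_ModularCurve_PeriodMap
import Fermat.Agent.S24.helper580_HolMer
import Fermat.Agent.S29.helper8217_KummerClass
import Fermat.Agent.S29.helper2122_MerBridge
import Fermat.Agent.S48.helper4027_TwistedGammaMer

/-!
# S48 / M3-SURJ (helper2122): the surjectivity statement (TH4) for an arbitrary subgroup
`Γ ≤ SL(2, ℤ)` and an arbitrary carrier

Carrier-generic twin of the landed `S29/helper2122_SurjAsm` + `_SurjInst` (TH4 for `Γ₀(N)`) and of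
the multiplier relation `S31/helper2756.MultMer`.  Everything is stated at the level of the landed
field `S24.helper580.Mer` of meromorphic functions on the upper half plane, so that no concrete
function field is needed:

* `F`  : the function field over `ℚ̄`, `FC` : the function field over `ℂ`, `bc : F →+* FC` the base
  change and `evC : FC →ₐ[ℂ] Mer` the analytic realisation;
* `InvG Γ evC`, `RatioIn Γ evC`, `DescG bc evC n`, `AnDivG Γ evM n` : the four inputs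
  (invariance, RATIO, DESC, ANDIV), each a `Prop`;
* `MultMerG Γ evM n ζ u ψ` : `u` has a meromorphic `n`-th root with multiplier `γ ↦ ζ ^ ψ γ`,
  with the closure properties `multMerG_one`, `MultMerG.mul`, `MultMerG.inv`, `MultMerG.dvd_of_eq_mul_pow`;
* `surjG` : **(TH4ₙ)** every integral parabolic homomorphism `ψ` of `Γ` is the multiplier of an
  `n`-Kummer function.
-/

set_option autoImplicit false

open UpperHalfPlane AlgebraicCurve ModularCurve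
open scoped MatrixGroups Manifold

noncomputable section

namespace Fermat.Agent.S48.helper2122

open Fermat.Agent.S24.helper580

/-- A modular form on `Γ` as an element of `Hol`. -/
def formHol {Γ : Subgroup SL(2, ℤ)} {k : ℤ}
    (f : ModularForm (Γ : Subgroup (GL (Fin 2) ℝ)) k) : Hol :=
  ⟨(f : ℍ → ℂ), ModularFormClass.holo f⟩

theorem formHol_apply {Γ : Subgroup SL(2, ℤ)} {k : ℤ}
    (f : ModularForm (Γ : Subgroup (GL (Fin 2) ℝ)) k) (τ : ℍ) :
    (formHol f : ℍ → ℂ) τ = f τ := rfl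

theorem formHol_ne_zero {Γ : Subgroup SL(2, ℤ)} {k : ℤ}
    {f : ModularForm (Γ : Subgroup (GL (Fin 2) ℝ)) k} (hf : f ≠ 0) : formHol f ≠ 0 := by
  intro h
  apply hf
  ext τ
  have := congrArg (fun g : Hol => (g : ℍ → ℂ) τ) h
  simpa [formHol_apply] using this

section Carrier

variable {F : Type*} [Field F] [Algebra (AlgebraicClosure ℚ) F]
variable {FC : Type*} [Field FC] [Algebra ℂ FC]

/-! ## The four inputs -/

/-- (INV) the analytic realisations of the functions of the complex function field are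
`Γ`-invariant. -/
def InvG (Γ : Subgroup SL(2, ℤ)) (evC : FC →ₐ[ℂ] Mer) : Prop :=
  ∀ γ ∈ Γ, ∀ x : FC, pull γ (evC x) = evC x

/-- (RATIO) every ratio of two modular forms of the same weight on `Γ` is the analytic
realisation of a function of the complex function field. -/
def RatioIn (Γ : Subgroup SL(2, ℤ)) (evC : FC →ₐ[ℂ] Mer) : Prop :=
  ∀ (k : ℤ) (G E : ModularForm (Γ : Subgroup (GL (Fin 2) ℝ)) k), E ≠ 0 →
    ∃ x : FC, evC x * algebraMap Hol Mer (formHol E) = algebraMap Hol Mer (formHol G)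

/-- (DESC) descent from `ℂ` to `ℚ̄` of a function with an analytic `n`-th root: `x = c * u₀ * t ^ n`
with `u₀` defined over `ℚ̄`. -/
def DescG (bc : F →+* FC) (evC : FC →ₐ[ℂ] Mer) (n : ℕ) : Prop :=
  ∀ x : FC, x ≠ 0 → ∀ W : Mer, W ^ n = evC x →
    ∃ (u₀ : F) (c : ℂ) (t : FC), u₀ ≠ 0 ∧ c ≠ 0 ∧ t ≠ 0 ∧
      x = algebraMap ℂ FC c * bc u₀ * t ^ n

/-- (ANDIV) divisibility of all the orders of a function over `ℚ̄` with an analytic `n`-th root
which is invariant under the elements of finite order and the elements of trace `±2` of `Γ`. -/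
def AnDivG (Γ : Subgroup SL(2, ℤ)) (evM : F →+* Mer) (n : ℕ) : Prop :=
  ∀ u₀ : F, u₀ ≠ 0 → ∀ h : Mer, h ^ n = evM u₀ →
    (∀ γ ∈ Γ, IsOfFinOrder γ → pull γ h = h) →
    (∀ γ ∈ Γ, (γ : Matrix (Fin 2) (Fin 2) ℤ).trace ^ 2 = 4 → pull γ h = h) →
    ∀ v : Place (AlgebraicClosure ℚ) F, (n : ℤ) ∣ v.ord u₀

/-! ## The multiplier relation -/

/-- **The multiplier relation.**  `u` has a meromorphic `n`-th root on `ℍ` with multiplier
`γ ↦ ζ ^ ψ γ` under `Γ`. -/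
def MultMerG (Γ : Subgroup SL(2, ℤ)) (evM : F →+* Mer) (n : ℕ) (ζ : ℂˣ) (u : F)
    (ψ : Additive ↥Γ →+ ℤ) : Prop :=
  ∃ W : Mer, W ^ n = evM u ∧
    ∀ γ : ↥Γ, pull (γ : SL(2, ℤ)) W
      = algebraMap ℂ Mer (((ζ ^ ψ (Additive.ofMul γ) : ℂˣ) : ℂ)) * W

variable {Γ : Subgroup SL(2, ℤ)} {evM : F →+* Mer} {n : ℕ} {ζ : ℂˣ}

omit [Algebra (AlgebraicClosure ℚ) F] in
theorem multMerG_one : MultMerG Γ evM n ζ 1 0 :=
  ⟨1, by rw [one_pow, map_one], fun γ => by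
    rw [map_one, AddMonoidHom.zero_apply, zpow_zero, Units.val_one, map_one, one_mul]⟩

omit [Algebra (AlgebraicClosure ℚ) F] in
theorem MultMerG.mul {u u' : F} {ψ ψ' : Additive ↥Γ →+ ℤ}
    (h : MultMerG Γ evM n ζ u ψ) (h' : MultMerG Γ evM n ζ u' ψ') :
    MultMerG Γ evM n ζ (u * u') (ψ + ψ') := by
  obtain ⟨W, hW, hγ⟩ := h
  obtain ⟨W', hW', hγ'⟩ := h'
  refine ⟨W * W', by rw [mul_pow, hW, hW', map_mul], fun γ => ?_⟩
  rw [map_mul, hγ γ, hγ' γ, AddMonoidHom.add_apply, zpow_add, Units.val_mul, map_mul]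
  ring

omit [Algebra (AlgebraicClosure ℚ) F] in
theorem MultMerG.inv {u : F} {ψ : Additive ↥Γ →+ ℤ}
    (h : MultMerG Γ evM n ζ u ψ) : MultMerG Γ evM n ζ u⁻¹ (-ψ) := by
  obtain ⟨W, hW, hγ⟩ := h
  refine ⟨W⁻¹, by rw [inv_pow, hW, map_inv₀], fun γ => ?_⟩
  rw [map_inv₀, hγ γ, AddMonoidHom.neg_apply, zpow_neg, Units.val_inv_eq_inv_val, map_inv₀,
    mul_inv]

/-- A function of the shape *constant times `n`-th power* has trivial multiplier.  `hinv` is the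
`Γ`-invariance of the analytic realisations and `hconst` says that the realisation of a constant
of `ℚ̄` is a constant function. -/
theorem MultMerG.dvd_of_eq_mul_pow (hn : n ≠ 0) (hζ : IsPrimitiveRoot ζ n)
    (hinv : ∀ γ ∈ Γ, ∀ x : F, pull γ (evM x) = evM x)
    (hconst : ∀ a : AlgebraicClosure ℚ, ∃ z : ℂ,
      evM (algebraMap (AlgebraicClosure ℚ) F a) = algebraMap ℂ Mer z)
    {w : F} {a : AlgebraicClosure ℚ} {ψ : Additive ↥Γ →+ ℤ} (hw : w ≠ 0) (ha : a ≠ 0)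
    (h : MultMerG Γ evM n ζ (algebraMap (AlgebraicClosure ℚ) F a * w ^ n) ψ)
    (γ : Additive ↥Γ) : (n : ℤ) ∣ ψ γ := by
  obtain ⟨W, hW, hγ⟩ := h
  obtain ⟨z, hz⟩ := hconst a
  have hz0 : z ≠ 0 := by
    rintro rfl
    rw [map_zero] at hz
    exact ha ((map_eq_zero _).mp ((map_eq_zero evM).mp hz))
  obtain ⟨d, hd⟩ := IsAlgClosed.exists_pow_nat_eq z (Nat.pos_of_ne_zero hn)
  have hd0 : d ≠ 0 := by
    rintro rfl
    rw [zero_pow hn] at hd
    exact hz0 hd.symm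
  set V : Mer := algebraMap ℂ Mer d * evM w with hV
  have hV0 : V ≠ 0 :=
    mul_ne_zero ((map_ne_zero _).mpr hd0) ((map_ne_zero evM).mpr hw)
  have hpow : W ^ n = V ^ n := by
    rw [hW, hV, mul_pow, ← map_pow, hd, map_mul, map_pow, hz]
  obtain ⟨ζ', -, hWζ⟩ := Fermat.Agent.S29.helper2122.exists_const_mul_of_pow_eq
    (Nat.pos_of_ne_zero hn) hV0 hpow
  have hW0 : W ≠ 0 := by
    rintro rfl
    rw [zero_pow hn] at hpow
    exact pow_ne_zero n hV0 hpow.symm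
  obtain ⟨g, rfl⟩ : ∃ g : ↥Γ, Additive.ofMul g = γ := ⟨Additive.toMul γ, rfl⟩
  have hpinv : pull (g : SL(2, ℤ)) W = W := by
    rw [hWζ, hV, map_mul, map_mul, AlgEquiv.commutes, AlgEquiv.commutes, hinv _ g.2 w]
  have h1 := hγ g
  rw [hpinv] at h1
  have h2 : algebraMap ℂ Mer (((ζ ^ ψ (Additive.ofMul g) : ℂˣ) : ℂ)) = 1 := by
    have h3 : (algebraMap ℂ Mer (((ζ ^ ψ (Additive.ofMul g) : ℂˣ) : ℂ)) - 1) * W = 0 := by
      rw [sub_mul, one_mul, ← h1, sub_self]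
    rcases mul_eq_zero.mp h3 with h4 | h4
    · exact sub_eq_zero.mp h4
    · exact absurd h4 hW0
  have h5 : (((ζ ^ ψ (Additive.ofMul g) : ℂˣ) : ℂ)) = 1 := by
    apply (algebraMap ℂ Mer).injective
    rw [h2, map_one]
  have h6 : ζ ^ ψ (Additive.ofMul g) = 1 := Units.ext h5
  exact (hζ.zpow_eq_one_iff_dvd _).mp h6

/-! ## (ANDIV): from the pair form to the `Mer` form -/

/-- (ANDIV, pair form) the shape of the landed `S29.helper1736.dvd_ord_of_analytic_root` for an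
evaluation `e` of a subalgebra `A` of `F` by holomorphic functions. -/
def AnDivPair (Γ : Subgroup SL(2, ℤ)) (A : Subalgebra (AlgebraicClosure ℚ) F)
    (e : A →+* (ℍ → ℂ)) (n : ℕ) : Prop :=
  ∀ (a b : A), a ≠ 0 → b ≠ 0 → ∀ (P Q : ℍ → ℂ), MDiff P → MDiff Q → Q ≠ 0 →
    (∀ τ : ℍ, P τ ^ n * e b τ = Q τ ^ n * e a τ) →
    (∀ γ ∈ Γ, IsOfFinOrder γ → ∀ τ : ℍ, P (γ • τ) * Q τ = P τ * Q (γ • τ)) →
    (∀ (g : SL(2, ℤ)) (k : ℤ), g⁻¹ * ModularGroup.T ^ k * g ∈ Γ →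
      ∀ τ : ℍ, P ((g⁻¹ * ModularGroup.T ^ k * g) • τ) * Q τ
        = P τ * Q ((g⁻¹ * ModularGroup.T ^ k * g) • τ)) →
    ∀ v : Place (AlgebraicClosure ℚ) F, (n : ℤ) ∣ v.ord ((a : F) / (b : F))

theorem trace_sq_conj_T_zpow' (g : SL(2, ℤ)) (k : ℤ) :
    ((g⁻¹ * ModularGroup.T ^ k * g : SL(2, ℤ)) : Matrix (Fin 2) (Fin 2) ℤ).trace ^ 2 = 4 := by
  have h1 : ((g⁻¹ * ModularGroup.T ^ k * g : SL(2, ℤ)) : Matrix (Fin 2) (Fin 2) ℤ).trace
      = ((ModularGroup.T ^ k : SL(2, ℤ)) : Matrix (Fin 2) (Fin 2) ℤ).trace := by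
    rw [Matrix.SpecialLinearGroup.coe_mul, Matrix.trace_mul_comm,
      ← Matrix.SpecialLinearGroup.coe_mul, mul_inv_cancel_left]
  rw [h1, ModularGroup.coe_T_zpow, Matrix.trace_fin_two_of]
  norm_num

/-- **The pair form of (ANDIV) implies the `Mer` form**, for an evaluation `e` of a subalgebra
`A` with fraction field `F` which is compatible with `evM`. -/
theorem anDivG_of_pair {A : Subalgebra (AlgebraicClosure ℚ) F} {e : A →+* (ℍ → ℂ)}
    (hfrac : ∀ f : F, ∃ a b : A, b ≠ 0 ∧ f = (a : F) / (b : F))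
    (hol : ∀ a : A, MDiff (e a))
    (hcompat : ∀ a : A, evM (a : F) = algebraMap Hol Mer ⟨e a, hol a⟩)
    (hP : AnDivPair Γ A e n) : AnDivG Γ evM n := by
  intro u₀ hu₀ h hpow hfin htr v
  have hinj : Function.Injective (algebraMap Hol Mer) := IsFractionRing.injective Hol Mer
  obtain ⟨a, b, hb, hu⟩ := hfrac u₀
  have hbF : (b : F) ≠ 0 := fun h0 => hb (Subtype.ext h0)
  have ha : a ≠ 0 := by
    rintro rfl
    apply hu₀
    rw [hu]
    simp
  obtain ⟨PH, QH, hQH, hW⟩ := IsFractionRing.div_surjective (A := Hol) h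
  have hQH0 : QH ≠ 0 := nonZeroDivisors.ne_zero hQH
  have hQM : algebraMap Hol Mer QH ≠ 0 := by
    rw [Ne, ← map_zero (algebraMap Hol Mer)]
    exact fun h0 => hQH0 (hinj h0)
  have hEb : algebraMap Hol Mer ⟨e b, hol b⟩ ≠ 0 := by
    rw [← hcompat]
    exact (map_ne_zero evM).mpr hbF
  -- the root identity in `Hol`
  have hroot : PH ^ n * (⟨e b, hol b⟩ : Hol) = QH ^ n * (⟨e a, hol a⟩ : Hol) := by
    apply hinj
    rw [map_mul, map_mul, map_pow, map_pow]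
    have h1 := hpow
    rw [← hW, hu, map_div₀, hcompat, hcompat, div_pow,
      div_eq_div_iff (pow_ne_zero n hQM) hEb] at h1
    rw [h1, mul_comm]
  -- invariance in `Hol`
  have hinvH : ∀ γ : SL(2, ℤ), pull γ h = h → pullHol γ PH * QH = PH * pullHol γ QH := by
    intro γ hγ
    apply hinj
    have hpQ : algebraMap Hol Mer (pullHol γ QH) ≠ 0 := by
      rw [Ne, ← map_zero (algebraMap Hol Mer)]
      intro h0
      have h2 := hinj h0
      apply hQH0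
      have h3 : pullHol γ QH = pullHol γ 0 := by rw [h2, map_zero]
      exact (pullHol γ).injective h3
    have h1 := hγ
    rw [← hW, map_div₀, pull_algebraMap, pull_algebraMap, div_eq_div_iff hpQ hQM] at h1
    rw [map_mul, map_mul, h1]
  have hpt : ∀ γ : SL(2, ℤ), pull γ h = h → ∀ τ : ℍ,
      (PH : ℍ → ℂ) (γ • τ) * (QH : ℍ → ℂ) τ = (PH : ℍ → ℂ) τ * (QH : ℍ → ℂ) (γ • τ) := by
    intro γ hγ τ
    exact congrArg (fun f : Hol => (f : ℍ → ℂ) τ) (hinvH γ hγ)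
  rw [hu]
  refine hP a b ha hb (PH : ℍ → ℂ) (QH : ℍ → ℂ) PH.2 QH.2 ?_ ?_ ?_ ?_ v
  · intro h0
    exact hQH0 (Subtype.ext h0)
  · intro τ
    exact congrArg (fun f : Hol => (f : ℍ → ℂ) τ) hroot
  · intro γ hγ hγfin τ
    exact hpt γ (hfin γ hγ hγfin) τ
  · intro g k hγ τ
    exact hpt _ (htr _ hγ (trace_sq_conj_T_zpow' g k)) τ

/-! ## The assembly of (TH4) -/

/-- **The target (relation form of TH4).** There is a nonzero function `u₀` over `ℚ̄` all of whose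
orders are divisible by `n`, whose analytic realisation has a meromorphic `n`-th root on the upper
half plane with multiplier `χ`. -/
def SurjAtG (Γ : Subgroup SL(2, ℤ)) (evM : F →+* Mer) (n : ℕ) (χ : ↥Γ →* ℂˣ) : Prop :=
  ∃ u₀ : F, u₀ ≠ 0 ∧ (∀ v : Place (AlgebraicClosure ℚ) F, (n : ℤ) ∣ v.ord u₀) ∧
    ∃ h : Mer, h ^ n = evM u₀ ∧
      ∀ γ : ↥Γ, pull (γ : SL(2, ℤ)) h = algebraMap ℂ Mer (χ γ : ℂ) * h

/-- **Tail of the assembly**: from a function `u₀` over `ℚ̄`, a meromorphic `W` with multiplier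
`χ` and a relation `W ^ n = c' ^ n * ev u₀ * ev t ^ n` with `t` in the complex function field, we
get `SurjAtG`.  `Γ'` is the group for which (ANDIV) is available (e.g. `±Γ`). -/
theorem surjAtG_of_root {bc : F →+* FC} {evC : FC →ₐ[ℂ] Mer} (hinv : InvG Γ evC)
    {Γ' : Subgroup SL(2, ℤ)} (hΓ' : ∀ g ∈ Γ', g ∈ Γ ∨ -g ∈ Γ)
    (hAD : AnDivG Γ' ((evC : FC →+* Mer).comp bc) n) {χ : ↥Γ →* ℂˣ}
    (hχtr : ∀ γ : ↥Γ,
      ((γ : SL(2, ℤ)) : Matrix (Fin 2) (Fin 2) ℤ).trace ^ 2 = 4 → χ γ = 1)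
    (hχfin : ∀ γ : ↥Γ, IsOfFinOrder (γ : SL(2, ℤ)) → χ γ = 1)
    (W : Mer) (hW : ∀ γ : ↥Γ, pull (γ : SL(2, ℤ)) W = algebraMap ℂ Mer (χ γ : ℂ) * W)
    (u₀ : F) (hu₀ : u₀ ≠ 0) (c' : ℂ) (hc' : c' ≠ 0) (t : FC) (ht : t ≠ 0)
    (hrel : W ^ n = algebraMap ℂ Mer (c' ^ n) * evC (bc u₀) * evC t ^ n) :
    SurjAtG Γ ((evC : FC →+* Mer).comp bc) n χ := by
  have hc'M : algebraMap ℂ Mer c' ≠ 0 := (map_ne_zero _).mpr hc'
  have hevt0 : evC t ≠ 0 := (map_ne_zero evC).mpr ht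
  have hden : algebraMap ℂ Mer c' * evC t ≠ 0 := mul_ne_zero hc'M hevt0
  set h : Mer := W / (algebraMap ℂ Mer c' * evC t) with hh
  have hpow : h ^ n = evC (bc u₀) := by
    rw [hh, div_pow, mul_pow, hrel, map_pow]
    field_simp
  have hmult : ∀ γ : ↥Γ, pull (γ : SL(2, ℤ)) h = algebraMap ℂ Mer (χ γ : ℂ) * h := by
    intro γ
    rw [hh, map_div₀, map_mul, hW γ, hinv _ γ.2 t, AlgEquiv.commutes, mul_div_assoc]
  have hone : ∀ γ : ↥Γ, χ γ = 1 → pull (γ : SL(2, ℤ)) h = h := by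
    intro γ hγ
    rw [hmult γ, hγ, Units.val_one, map_one, one_mul]
  have hneg_fin : ∀ g : SL(2, ℤ), IsOfFinOrder g → IsOfFinOrder (-g) := by
    intro g hg
    have h1 : IsOfFinOrder (-1 : SL(2, ℤ)) :=
      isOfFinOrder_iff_pow_eq_one.mpr ⟨2, by norm_num, by
        rw [neg_one_sq]⟩
    have h2 : -g = (-1 : SL(2, ℤ)) * g := by rw [neg_one_mul]
    rw [h2]
    exact (Commute.neg_one_left g).isOfFinOrder_mul h1 hg
  have hneg_tr : ∀ g : SL(2, ℤ),
      (((-g : SL(2, ℤ)) : Matrix (Fin 2) (Fin 2) ℤ)).trace ^ 2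
        = ((g : Matrix (Fin 2) (Fin 2) ℤ)).trace ^ 2 := by
    intro g
    rw [Matrix.SpecialLinearGroup.coe_neg, Matrix.trace_neg, neg_sq]
  refine ⟨u₀, hu₀, ?_, h, hpow, hmult⟩
  intro v
  refine hAD u₀ hu₀ h hpow ?_ ?_ v
  · intro g hg hfin
    rcases hΓ' g hg with hg' | hg'
    · exact hone ⟨g, hg'⟩ (hχfin ⟨g, hg'⟩ hfin)
    · have := hone ⟨-g, hg'⟩ (hχfin ⟨-g, hg'⟩ (hneg_fin g hfin))
      rwa [pull_neg] at this
  · intro g hg htr
    rcases hΓ' g hg with hg' | hg'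
    · exact hone ⟨g, hg'⟩ (hχtr ⟨g, hg'⟩ htr)
    · have := hone ⟨-g, hg'⟩ (hχtr ⟨-g, hg'⟩ (by rw [hneg_tr]; exact htr))
      rwa [pull_neg] at this

/-- The `n`-th power of the twisted root of `helper4027` is the ratio of the two forms
`twistedPowForm`, `discPowForm`, in `Mer`. -/
theorem rootMer_pow_mul [Γ.FiniteIndex] {χ : ↥Γ →* ℂˣ} (hχ : ∀ γ, χ γ ^ n = 1)
    (hunit : ∀ γ, ‖(χ γ : ℂ)‖ = 1)
    (hpar : ∀ γ : ↥Γ, (γ : SL(2, ℤ)).1 1 0 = 0 → χ γ = 1) :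
    helper4027.rootMer Γ χ hunit ^ n
        * algebraMap Hol Mer (formHol (helper4027.discPowForm Γ n))
      = algebraMap Hol Mer (formHol (helper4027.twistedPowForm Γ χ n hχ hunit hpar)) := by
  have hHol : helper4027.rootHol Γ χ hunit ^ n * formHol (helper4027.discPowForm Γ n)
      = formHol (helper4027.twistedPowForm Γ χ n hχ hunit hpar) := by
    refine Hol.ext fun τ => ?_
    show helper4027.twistedRoot Γ χ τ ^ n * helper4027.discPowForm Γ n τ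
      = helper4027.twistedPowForm Γ χ n hχ hunit hpar τ
    have hD : helper4027.discPowForm Γ n τ ≠ 0 := by
      rw [helper4027.discPowForm_apply]
      exact pow_ne_zero n (ModularForm.discriminant_ne_zero τ)
    rw [helper4027.twistedRoot_pow_eq n hχ hunit hpar τ, div_mul_cancel₀ _ hD]
  unfold helper4027.rootMer
  rw [← map_pow, ← map_mul, hHol]

/-- **TH4, assembled.** From (INV), (RATIO), (DESC) and (ANDIV): every character `χ` of `Γ` with
`χ ^ n = 1` which is trivial on the elements of trace `±2` and on the elements of finite order is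
the multiplier of an analytic `n`-th root of a function `u₀` over `ℚ̄` with `n`-divisible
divisor. -/
theorem surjAtG_of [Γ.FiniteIndex] {bc : F →+* FC} {evC : FC →ₐ[ℂ] Mer} (hinv : InvG Γ evC)
    (hRC : RatioIn Γ evC) (hDC : DescG bc evC n)
    {Γ' : Subgroup SL(2, ℤ)} (hΓ' : ∀ g ∈ Γ', g ∈ Γ ∨ -g ∈ Γ)
    (hAD : AnDivG Γ' ((evC : FC →+* Mer).comp bc) n) (hn : 0 < n)
    (χ : ↥Γ →* ℂˣ) (hχn : ∀ γ, χ γ ^ n = 1)
    (hχtr : ∀ γ : ↥Γ,
      ((γ : SL(2, ℤ)) : Matrix (Fin 2) (Fin 2) ℤ).trace ^ 2 = 4 → χ γ = 1)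
    (hχfin : ∀ γ : ↥Γ, IsOfFinOrder (γ : SL(2, ℤ)) → χ γ = 1) :
    SurjAtG Γ ((evC : FC →+* Mer).comp bc) n χ := by
  have hunit : ∀ γ, ‖(χ γ : ℂ)‖ = 1 := helper4027.norm_chi_eq_one hn hχn
  have hpar : ∀ γ : ↥Γ, (γ : SL(2, ℤ)).1 1 0 = 0 → χ γ = 1 :=
    helper4027.chi_eq_one_of_upper hχtr
  set W : Mer := helper4027.rootMer Γ χ hunit with hWdef
  have hW0 : W ≠ 0 := helper4027.rootMer_ne_zero hunit hpar
  have hD0 : algebraMap Hol Mer (formHol (helper4027.discPowForm Γ n)) ≠ 0 := by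
    rw [Ne, ← map_zero (algebraMap Hol Mer)]
    exact fun h => formHol_ne_zero (helper4027.discPowForm_ne_zero (Γ := Γ) n)
      (IsFractionRing.injective Hol Mer h)
  obtain ⟨x, hx⟩ := hRC _ (helper4027.twistedPowForm Γ χ n hχn hunit hpar)
    (helper4027.discPowForm Γ n) (helper4027.discPowForm_ne_zero (Γ := Γ) n)
  have hev : W ^ n = evC x := by
    have h1 := rootMer_pow_mul (Γ := Γ) (n := n) hχn hunit hpar
    rw [← hx] at h1
    exact mul_right_cancel₀ hD0 h1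
  have hx0 : x ≠ 0 := by
    rintro rfl
    rw [map_zero] at hev
    exact pow_ne_zero n hW0 hev
  obtain ⟨u₀, c, t, hu₀, hc, ht, hxeq⟩ := hDC x hx0 W hev
  obtain ⟨c', hc'⟩ := IsAlgClosed.exists_pow_nat_eq c hn
  have hc'0 : c' ≠ 0 := by
    rintro rfl
    rw [zero_pow hn.ne'] at hc'
    exact hc hc'.symm
  refine surjAtG_of_root hinv hΓ' hAD hχtr hχfin W
    (fun γ => helper4027.pull_rootMer hunit hpar γ) u₀ hu₀ c' hc'0 t ht ?_
  rw [hev, hxeq, map_mul, map_mul, map_pow, AlgHom.commutes, hc']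

/-- **(TH4ₙ), the `surj` field of the multiplier relation.**  For every integral parabolic
homomorphism `ψ` of `Γ` and every `n`-th root of unity `ζ` there is an `n`-Kummer function `u`
over `ℚ̄` with an analytic `n`-th root of multiplier `γ ↦ ζ ^ ψ γ`. -/
theorem surjG [Γ.FiniteIndex] {bc : F →+* FC} {evC : FC →ₐ[ℂ] Mer} (hinv : InvG Γ evC)
    (hRC : RatioIn Γ evC) (hDC : DescG bc evC n)
    {Γ' : Subgroup SL(2, ℤ)} (hΓ' : ∀ g ∈ Γ', g ∈ Γ ∨ -g ∈ Γ)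
    (hAD : AnDivG Γ' ((evC : FC →+* Mer).comp bc) n) (hn : 0 < n)
    (hζ : ζ ^ n = 1) (ψ : Additive ↥Γ →+ ℤ) (hψ : ψ ∈ Period.parabolicHoms ℤ Γ ℤ) :
    ∃ u : F, Fermat.Agent.S29.helper8217.IsKummer (AlgebraicClosure ℚ) n u ∧
      MultMerG Γ ((evC : FC →+* Mer).comp bc) n ζ u ψ := by
  obtain ⟨u₀, hu₀, hord, h, hpow, hmult⟩ :=
    surjAtG_of hinv hRC hDC hΓ' hAD hn (helper4027.chiOf Γ ζ ψ) (helper4027.chiOf_pow hζ ψ)
      (fun γ hγ => helper4027.chiOf_eq_one_of_trace ζ hψ γ hγ)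
      (fun γ hγ => helper4027.chiOf_eq_one_of_finOrder ζ ψ γ hγ)
  exact ⟨u₀, ⟨hu₀, hord⟩, h, hpow, hmult⟩

end Carrier

end Fermat.Agent.S48.helper2122
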