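import Fermat.Agent.S29.helper6855_DescentCanon
import Fermat.Agent.S29.helper8395_KummerOff
import Fermat.Agent.S24.helper204_Places
import Fermat.Agent.S28.helper3292_JqFacts
import Fermat.Agent.S28.helper1457_PrimeTrace
import Fermat.Agent.S48.helper2122_SurjGen

/-!
# S48 / M3-DESC (helper2122): the descent `ℂ → ℚ̄` of a function with an analytic `n`-th root,
for an arbitrary `ℚ`-form `F₀ ∋ j`

Generic-`F₀` twin of the landed `S29/helper3932_DescC` + `S29/helper6855_DescentModular`
(which are stated for `modularFunctionFieldFull N`).  Here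
`F = laurentBaseChange ℚ̄ F₀`, `FC = laurentBaseChange ℂ F₀` for any
`F₀ : IntermediateField ℚ (LaurentSeries ℚ)` containing `jq`, with `FC` finite over `ℂ(j)`.

* `transcendental_jLG`, `hasPrincipalDivisors_G`, `place_center_G` : the function-field package;
* `exists_descent_gen` : the descent `Ω → K` for functions that are Kummer off the places above
  `j = 0, 1728, ∞`, from finiteness of the Kummer classes (landed `helper6855.exists_descent` +
  `helper8395.exists_finset_orbit_arithmeticGalois`, both already generic in `F₀`);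
* `bcG` : the base change `laurentBaseChange ℚ̄ F₀ →+* laurentBaseChange ℂ F₀`;
* `CPlaceDvd`, `FinC` : the two level-specific inputs (CPLACE, FINC) as `Prop`s;
* `descG_of` : `CPlaceDvd → FinC → DescG (bcG i0 F₀) evC n`, the (DESC) input of
  `helper2122_SurjGen.surjG`.
-/

set_option autoImplicit false

open ModularCurve AlgebraicCurve IntermediateField

noncomputable section

namespace Fermat.Agent.S48.helper2122

open Fermat.Agent.S24.helper580 (Hol Mer)
open Fermat.Agent.S29

/-! ## The function-field package of `L · F₀` -/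

section JFacts

variable (L : Type) [Field L] [Algebra ℚ L] (F₀ : IntermediateField ℚ (LaurentSeries ℚ))

theorem coeffEmb_jq : coeffEmb L jq = jqModC L := by
  rw [← jqModC_rat]
  exact coeffMap_jqModC (algebraMap ℚ L)

/-- `j` is transcendental over `L`. -/
theorem transcendental_jLG (hj : jq ∈ F₀) : Transcendental L (helper8395.jL L F₀ hj) := by
  have h0 : Transcendental L (jqModC L) :=
    (transcendental_iff_injective).mpr (Fermat.Agent.S28.helper3292.aeval_jqModC_injective L)
  have h1 : Transcendental L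
      (algebraMap (laurentBaseChange L F₀) (LaurentSeries L) (helper8395.jL L F₀ hj)) := by
    show Transcendental L (coeffEmb L jq)
    rw [coeffEmb_jq]
    exact h0
  exact (transcendental_algebraMap_iff
    (algebraMap (laurentBaseChange L F₀) (LaurentSeries L)).injective).mp h1

variable [CharZero L] [IsAlgClosed L]

/-- Principal divisors exist on `L · F₀`. -/
theorem hasPrincipalDivisors_G (hj : jq ∈ F₀)
    [FiniteDimensional L⟮helper8395.jL L F₀ hj⟯ (laurentBaseChange L F₀)] :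
    HasPrincipalDivisors L (laurentBaseChange L F₀) :=
  Fermat.Agent.S24.helper204.hasPrincipalDivisors (helper8395.jL L F₀ hj)
    (transcendental_jLG L F₀ hj)

omit [CharZero L] in
/-- Every place is a pole of `j` or a zero of `j - c` for a unique `c`. -/
theorem place_center_G (hj : jq ∈ F₀)
    [FiniteDimensional L⟮helper8395.jL L F₀ hj⟯ (laurentBaseChange L F₀)]
    (v : Place L (laurentBaseChange L F₀)) :
    v.ord (helper8395.jL L F₀ hj) < 0 ∨
      ∃! c : L, 0 < v.ord (helper8395.jL L F₀ hj - algebraMap L _ c) :=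
  Fermat.Agent.S24.helper204.place_center (helper8395.jL L F₀ hj)
    (transcendental_jLG L F₀ hj) v

end JFacts

/-! ## The descent `Ω → K` -/

section Descent

variable {K Ω : Type} [Field K] [Field Ω] [Algebra K Ω] [Algebra ℚ K] [Algebra ℚ Ω]
  [IsAlgClosed K] [IsAlgClosed Ω] [CharZero Ω]

/-- **Descent for `Ω · F₀` from finiteness of the Kummer classes**, for functions whose divisor
is divisible by `n` outside the places above `j = 0, 1728, ∞`. -/
theorem exists_descent_gen (F₀ : IntermediateField ℚ (LaurentSeries ℚ)) (hj : jq ∈ F₀)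
    [FiniteDimensional Ω⟮helper8395.jL Ω F₀ hj⟯ (laurentBaseChange Ω F₀)]
    (n : ℕ) (hn : n ≠ 0)
    (hfin : ∃ T : Finset (laurentBaseChange Ω F₀),
      ∀ u : laurentBaseChange Ω F₀, u ≠ 0 →
      (∀ v : Place Ω (laurentBaseChange Ω F₀), (n : ℤ) ∣ v.ord u) →
      ∃ s ∈ T, ∃ (c : Ω) (t : laurentBaseChange Ω F₀), c ≠ 0 ∧ t ≠ 0 ∧
        u = algebraMap Ω (laurentBaseChange Ω F₀) c * s * t ^ n)
    (u : laurentBaseChange Ω F₀)
    (hu : helper8395.KummerOff Ω n (helper8395.badPlaces Ω F₀ hj) u) :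
    ∃ (u₀ : LaurentSeries K) (w : laurentBaseChange Ω F₀),
      u₀ ∈ laurentBaseChange K F₀ ∧ u₀ ≠ 0 ∧
      coeffMap (algebraMap K Ω) u₀ = (w : LaurentSeries Ω) ∧ helper6855.SameClass Ω n u w := by
  have : HasPrincipalDivisors Ω (laurentBaseChange Ω F₀) := hasPrincipalDivisors_G Ω F₀ hj
  obtain ⟨T', hT'⟩ := helper8395.exists_finset_orbit_arithmeticGalois (L := Ω) F₀ hj n hn hfin
  refine helper6855.exists_descent (K := K) F₀ (helper8395.jL Ω F₀ hj)
    (transcendental_jLG Ω F₀ hj) (fun σ => ?_) ?_ n hn (↑T') T'.finite_toSet u hu.1 ?_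
  · rw [helper8395.coe_jL, coeffEmb_jq]
    exact coeffMap_jqModC _
  · rw [helper8395.coe_jL, coeffEmb_jq, Fermat.Agent.S28.helper1457.order_jqModC]
    norm_num
  · intro σ u' hu'
    let σℚ : Ω ≃ₐ[ℚ] Ω := AlgEquiv.ofRingEquiv (f := σ.toRingEquiv) (fun q => by simp)
    obtain ⟨s, hs, c, t, hc, ht, h⟩ := hT' u hu σℚ
    have hu'' : u' = arithmeticGalois F₀ σℚ • u := Subtype.ext hu'
    exact ⟨s, hs, c, t, hc, ht, by rw [hu'']; exact h⟩

end Descent

/-! ## The (DESC) input of the TH4 assembly -/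

section DescG

variable (i0 : AlgebraicClosure ℚ →+* ℂ) (F₀ : IntermediateField ℚ (LaurentSeries ℚ))

/-- Extension of constants `ℚ̄ → ℂ` (along `i0`) on the function fields. -/
def bcG : laurentBaseChange (AlgebraicClosure ℚ) F₀ →+* laurentBaseChange ℂ F₀ where
  toFun x := ⟨coeffMap i0 (x : LaurentSeries (AlgebraicClosure ℚ)),
    helper6961.coeffMap_mem_laurentBaseChange_of_mem F₀ i0 x.2⟩
  map_one' := Subtype.ext (map_one _)
  map_mul' _ _ := Subtype.ext (map_mul _ _ _)
  map_zero' := Subtype.ext (map_zero _)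
  map_add' _ _ := Subtype.ext (map_add _ _ _)

theorem coe_bcG (x : laurentBaseChange (AlgebraicClosure ℚ) F₀) :
    ((bcG i0 F₀ x : laurentBaseChange ℂ F₀) : LaurentSeries ℂ)
      = coeffMap i0 (x : LaurentSeries (AlgebraicClosure ℚ)) := rfl

theorem bcG_algebraMap (c : AlgebraicClosure ℚ) :
    bcG i0 F₀ (algebraMap (AlgebraicClosure ℚ) (laurentBaseChange (AlgebraicClosure ℚ) F₀) c)
      = algebraMap ℂ (laurentBaseChange ℂ F₀) (i0 c) := by
  apply Subtype.ext
  rw [coe_bcG]
  show coeffMap i0 (algebraMap (AlgebraicClosure ℚ) (LaurentSeries (AlgebraicClosure ℚ)) c)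
    = algebraMap ℂ (LaurentSeries ℂ) (i0 c)
  rw [algebraMap_laurentSeries_eq_single, coeffMap_single, ← algebraMap_laurentSeries_eq_single]

variable {F₀}

/-- (CPLACE) a function of the complex function field whose analytic realisation is an `n`-th
power in `Mer` has order divisible by `n` at every place whose centre is not `0`, `1728`. -/
def CPlaceDvd (hj : jq ∈ F₀) (evC : laurentBaseChange ℂ F₀ →ₐ[ℂ] Mer) (n : ℕ) : Prop :=
  ∀ (v : Place ℂ (laurentBaseChange ℂ F₀)) (c : ℂ),
    0 < v.ord (helper8395.jL ℂ F₀ hj - algebraMap ℂ (laurentBaseChange ℂ F₀) c) →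
    c ≠ 0 → c ≠ 1728 → ∀ u : laurentBaseChange ℂ F₀, u ≠ 0 → ∀ W : Mer, W ^ n = evC u →
      (n : ℤ) ∣ v.ord u

variable (F₀)

/-- (FINC) finitely many Kummer classes modulo `n`-th powers in the complex function field. -/
def FinC (n : ℕ) : Prop :=
  ∃ T : Finset (laurentBaseChange ℂ F₀), ∀ u : laurentBaseChange ℂ F₀, u ≠ 0 →
    (∀ v : Place ℂ (laurentBaseChange ℂ F₀), (n : ℤ) ∣ v.ord u) →
      ∃ s ∈ T, ∃ t : laurentBaseChange ℂ F₀, t ≠ 0 ∧ u = s * t ^ n

variable {F₀}

/-- **CPLACE in the consumer form of OFFS.** -/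
theorem kummerOff_of_pow_eqG (hj : jq ∈ F₀)
    [FiniteDimensional ℂ⟮helper8395.jL ℂ F₀ hj⟯ (laurentBaseChange ℂ F₀)]
    {evC : laurentBaseChange ℂ F₀ →ₐ[ℂ] Mer} {n : ℕ} (hCP : CPlaceDvd hj evC n)
    {u : laurentBaseChange ℂ F₀} (hu : u ≠ 0) (W : Mer) (hW : W ^ n = evC u) :
    helper8395.KummerOff ℂ n (helper8395.badPlaces ℂ F₀ hj) u := by
  refine ⟨hu, fun v hv => ?_⟩
  rcases place_center_G ℂ F₀ hj v with hneg | ⟨c, hc, -⟩
  · exfalso
    apply hv
    left
    show v.ord (helper8395.jL ℂ F₀ hj) ≠ 0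
    omega
  · obtain ⟨h0, h1⟩ := helper8395.center_ne_of_not_mem_badPlaces ℂ F₀ hj hv hc
    have h1' : c ≠ 1728 := by
      intro h
      apply h1
      rw [h]
      simp
    exact hCP v c hc h0 h1' u hu W hW

/-- **(DESC) for the base change of `F₀`**: from (CPLACE) and (FINC). -/
theorem descG_of (hj : jq ∈ F₀)
    [FiniteDimensional ℂ⟮helper8395.jL ℂ F₀ hj⟯ (laurentBaseChange ℂ F₀)]
    (evC : laurentBaseChange ℂ F₀ →ₐ[ℂ] Mer) (n : ℕ) (hCP : CPlaceDvd hj evC n)
    (hfin : n ≠ 0 → FinC F₀ n) : DescG (bcG i0 F₀) evC n := by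
  intro x hx W hW
  rcases Nat.eq_zero_or_pos n with hn | hn
  · subst hn
    rw [pow_zero] at hW
    have hx1 : x = 1 := evC.toRingHom.injective (by
      show evC x = evC 1
      rw [← hW, map_one])
    refine ⟨1, 1, 1, one_ne_zero, one_ne_zero, one_ne_zero, ?_⟩
    rw [hx1, map_one, map_one, pow_zero, mul_one, mul_one]
  · have hn' : n ≠ 0 := hn.ne'
    let _ : Algebra (AlgebraicClosure ℚ) ℂ := i0.toAlgebra
    obtain ⟨T, hT⟩ := hfin hn'
    obtain ⟨u₀, w, hu₀, hu₀0, hw, hcl⟩ :=
      exists_descent_gen (K := AlgebraicClosure ℚ) (Ω := ℂ) F₀ hj n hn'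
        ⟨T, fun u hu0 hk => by
          obtain ⟨s, hs, t, ht, h⟩ := hT u hu0 hk
          exact ⟨s, hs, 1, t, one_ne_zero, ht, by rw [map_one, one_mul]; exact h⟩⟩
        x (kummerOff_of_pow_eqG hj hCP hx W hW)
    obtain ⟨c, t, hc, ht, h⟩ := hcl.symm
    refine ⟨⟨u₀, hu₀⟩, c, t, fun h0 => hu₀0 (congrArg Subtype.val h0), hc, ht, ?_⟩
    have hw' : bcG i0 F₀ ⟨u₀, hu₀⟩ = w := Subtype.ext hw
    rw [hw']
    exact h

end DescG

end Fermat.Agent.S48.helper2122
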