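import Fermat.Agent.S24.helper1704_QDict
import Fermat.Agent.S48.helper2122_SurjGen

/-!
# S48 / M3-SURJ (helper2122): the input (RATIO) from `q`-expansions

`ratioIn_of_series` : for a complex function field `FC` given as an intermediate field of
`ℂ((q))` with an analytic realisation `evC : FC →ₐ[ℂ] Mer` compatible with `q`-expansions at `i∞`
(landed dictionary `S24.helper1704.HasQ`), the `Mer`-level statement `RatioIn Γ evC` of
`helper2122_SurjGen` follows from the series-level statement "every ratio of `q`-expansions of two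
modular forms of the same weight on `Γ` lies in `FC`" (the RATIO leaf).
-/

set_option autoImplicit false

open UpperHalfPlane
open scoped MatrixGroups Manifold

noncomputable section

namespace Fermat.Agent.S48.helper2122

open Fermat.Agent.S24.helper580 Fermat.Agent.S24.helper1704

local notation "ιL" => HahnSeries.ofPowerSeries ℤ ℂ

/-- A modular form on a group with strict period `1` has its `q`-expansion as Laurent expansion
at `i∞`. -/
theorem hasQ_modularForm {𝒢 : Subgroup (GL (Fin 2) ℝ)} [𝒢.IsArithmetic] (h1 : (1 : ℝ) ∈ 𝒢.strictPeriods) {k : ℤ}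
    (f : ModularForm 𝒢 k) : HasQ 1 (f : ℍ → ℂ) (ιL (qExpansion 1 f)) := by
  have hnice : IsNice 1 (f : ℍ → ℂ) :=
    ⟨SlashInvariantFormClass.periodic_comp_ofComplex f h1, ModularFormClass.holo f,
      ModularFormClass.bdd_at_infty f⟩
  refine ⟨0, ?_, ?_⟩
  · rw [pow_zero, one_mul]
    exact hnice
  · rw [pow_zero, one_mul, Nat.cast_zero, HahnSeries.single_zero_one, one_mul]

/-- **(RATIO), from `q`-expansions.**  `hq` : every element of `FC` is a quotient of two
holomorphic functions with Laurent expansions at `i∞` whose quotient is the given series;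
`hratio` : every ratio of `q`-expansions of two modular forms of the same weight on `Γ` lies in
`FC`. -/
theorem ratioIn_of_series (Γ : Subgroup SL(2, ℤ)) [Γ.FiniteIndex]
    (h1 : (1 : ℝ) ∈ (Γ : Subgroup (GL (Fin 2) ℝ)).strictPeriods)
    (FC : IntermediateField ℂ (LaurentSeries ℂ)) (evC : FC →ₐ[ℂ] Mer)
    (hq : ∀ x : FC, ∃ (P Q : Hol) (p q : LaurentSeries ℂ), Q ≠ 0 ∧
      evC x * algebraMap Hol Mer Q = algebraMap Hol Mer P ∧
      HasQ 1 (P : ℍ → ℂ) p ∧ HasQ 1 (Q : ℍ → ℂ) q ∧ (x : LaurentSeries ℂ) * q = p)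
    (hratio : ∀ (k : ℤ) (G E : ModularForm (Γ : Subgroup (GL (Fin 2) ℝ)) k), E ≠ 0 →
      ∀ x : LaurentSeries ℂ, x * ιL (qExpansion 1 E) = ιL (qExpansion 1 G) → x ∈ FC) :
    RatioIn Γ evC := by
  intro k G E hE
  have hinj := IsFractionRing.injective Hol Mer
  have hE' : ιL (qExpansion 1 E) ≠ 0 := by
    intro h0
    have h2 : qExpansion 1 E = 0 :=
      HahnSeries.ofPowerSeries_injective (by rw [h0, map_zero])
    exact hE ((ModularForm.qExpansion_eq_zero_iff one_pos h1 E).mp h2)
  set x₀ : LaurentSeries ℂ := ιL (qExpansion 1 G) * (ιL (qExpansion 1 E))⁻¹ with hx₀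
  have hx₀E : x₀ * ιL (qExpansion 1 E) = ιL (qExpansion 1 G) := by
    rw [hx₀, mul_assoc, inv_mul_cancel₀ hE', mul_one]
  have hmem : x₀ ∈ FC := hratio k G E hE x₀ hx₀E
  obtain ⟨P, Q, p, q, hQ0, hev, hP, hQ, hpq⟩ := hq ⟨x₀, hmem⟩
  have hpq' : x₀ * q = p := hpq
  -- the function identity `P * E = Q * G`
  have hser : p * ιL (qExpansion 1 E) = q * ιL (qExpansion 1 G) := by
    rw [← hpq', ← hx₀E]
    ring
  have hfun : (P : ℍ → ℂ) * (E : ℍ → ℂ) = (Q : ℍ → ℂ) * (G : ℍ → ℂ) := by
    refine HasQ.eq_of_eq one_pos (hP.mul one_pos (hasQ_modularForm h1 E)) ?_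
    rw [hser]
    exact hQ.mul one_pos (hasQ_modularForm h1 G)
  have hHol : P * formHol E = Q * formHol G := by
    refine Hol.ext fun τ => ?_
    exact congrFun hfun τ
  have hQM : algebraMap Hol Mer Q ≠ 0 := by
    rw [Ne, ← map_zero (algebraMap Hol Mer)]
    exact fun h => hQ0 (hinj h)
  refine ⟨⟨x₀, hmem⟩, ?_⟩
  have h2 := congrArg (algebraMap Hol Mer) hHol
  rw [map_mul, map_mul, ← hev] at h2
  apply mul_right_cancel₀ hQM
  rw [mul_comm (algebraMap Hol Mer (formHol G)), ← h2]
  ring

end Fermat.Agent.S48.helper2122
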