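import Mathlib
import Fermat.Agent.Lib.helper1219_NormRel
import Fermat.Agent.Lib.helper1219_RatioField

/-!
# The field of ratios of `q`-expansions of modular forms on an arbitrary arithmetic group

Generic-`𝒢` version of `Lib/helper1219_RatioField` (which is `Γ₀(N)` and weight `12 M` only).

* `IsRatioG 𝒢 x` : `x * qexp E = qexp A` for two modular forms `A`, `E ≠ 0` of the same weight
  (ANY weight `k : ℤ`) on `𝒢`.
* `ratioFieldG 𝒢 h1 : Subfield (LaurentSeries ℂ)`.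
* `liftNeg` : a modular form of EVEN weight on `𝒢` is a modular form on `𝒢.adjoinNegOne`
  (the group generated by `𝒢` and `-1`).
* `ratioG_relation` : every element of the field of ratios is a root of a nonzero polynomial over
  `ℂ[j]` of degree `≤ [SL(2,ℤ) : ±𝒢]` (NOT only `[SL(2,ℤ) : 𝒢]`: for `𝒢 = Γ₁(M)`, `M ≥ 3`,
  this gains the factor `2` needed to identify the field of ratios with the function field).
-/

set_option autoImplicit false

open UpperHalfPlane ModularForm Polynomial EisensteinSeries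
open scoped MatrixGroups

namespace Fermat.Agent.S48.helper288

local notation "Δ" => ModularForm.discriminant
local notation "ι" => HahnSeries.ofPowerSeries ℤ ℂ

open Fermat.Agent.Lib.helper1219

variable (𝒢 : Subgroup (GL (Fin 2) ℝ))

/-- `x` is the ratio of the `q`-expansions of two modular forms of the same weight on `𝒢`. -/
def IsRatioG (x : LaurentSeries ℂ) : Prop :=
  ∃ (k : ℤ) (A E : ModularForm 𝒢 k), E ≠ 0 ∧ x * ι (qExpansion 1 E) = ι (qExpansion 1 A)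

variable {𝒢}

lemma ofPS_qExpansion_ne_zeroG (h1 : (1 : ℝ) ∈ 𝒢.strictPeriods) {k : ℤ} {E : ModularForm 𝒢 k}
    (hE : E ≠ 0) : ι (qExpansion 1 E) ≠ 0 := by
  intro h
  have h2 : qExpansion 1 E = 0 := ofPS_injective (by rw [h, map_zero])
  exact hE ((ModularForm.qExpansion_eq_zero_iff one_pos h1 E).mp h2)

namespace IsRatioG

/-- constructor. -/
lemma of_forms {k : ℤ} (A E : ModularForm 𝒢 k) (hE : E ≠ 0) {x : LaurentSeries ℂ}
    (h : x * ι (qExpansion 1 E) = ι (qExpansion 1 A)) : IsRatioG 𝒢 x :=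
  ⟨k, A, E, hE, h⟩

variable [𝒢.HasDetOne]

lemma one : IsRatioG 𝒢 1 := by
  refine ⟨0, 1, 1, ?_, by rw [one_mul]⟩
  intro h
  have := congrArg (fun f : ModularForm 𝒢 0 => f UpperHalfPlane.I) h
  simp at this

lemma zero : IsRatioG 𝒢 0 := by
  refine ⟨0, 0, 1, ?_, ?_⟩
  · intro h
    have := congrArg (fun f : ModularForm 𝒢 0 => f UpperHalfPlane.I) h
    simp at this
  · rw [zero_mul, FunLike.coe_zero, UpperHalfPlane.qExpansion_zero, map_zero]

lemma mul (h1 : (1 : ℝ) ∈ 𝒢.strictPeriods) {x y : LaurentSeries ℂ} (hx : IsRatioG 𝒢 x)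
    (hy : IsRatioG 𝒢 y) : IsRatioG 𝒢 (x * y) := by
  obtain ⟨k₁, G₁, E₁, hE₁, h₁⟩ := hx
  obtain ⟨k₂, G₂, E₂, hE₂, h₂⟩ := hy
  refine ⟨k₁ + k₂, G₁.mul G₂, E₁.mul E₂,
    ModularForm.mul_ne_zero ⟨1, h1, one_pos⟩ hE₁ hE₂, ?_⟩
  rw [ModularForm.qExpansion_mul one_pos h1, ModularForm.qExpansion_mul one_pos h1,
    map_mul, map_mul, ← h₁, ← h₂]
  ring

lemma add (h1 : (1 : ℝ) ∈ 𝒢.strictPeriods) {x y : LaurentSeries ℂ} (hx : IsRatioG 𝒢 x)
    (hy : IsRatioG 𝒢 y) : IsRatioG 𝒢 (x + y) := by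
  obtain ⟨k₁, G₁, E₁, hE₁, h₁⟩ := hx
  obtain ⟨k₂, G₂, E₂, hE₂, h₂⟩ := hy
  refine ⟨k₁ + k₂, G₁.mul E₂ + E₁.mul G₂,
    E₁.mul E₂, ModularForm.mul_ne_zero ⟨1, h1, one_pos⟩ hE₁ hE₂, ?_⟩
  rw [FunLike.coe_add, ModularForm.qExpansion_add one_pos h1,
    ModularForm.qExpansion_mul one_pos h1, ModularForm.qExpansion_mul one_pos h1,
    ModularForm.qExpansion_mul one_pos h1, map_add, map_mul, map_mul, map_mul, ← h₁, ← h₂]
  ring

omit [𝒢.HasDetOne] in
lemma neg (h1 : (1 : ℝ) ∈ 𝒢.strictPeriods) {x : LaurentSeries ℂ} (hx : IsRatioG 𝒢 x) :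
    IsRatioG 𝒢 (-x) := by
  obtain ⟨k, G, E, hE, h⟩ := hx
  refine ⟨k, -G, E, hE, ?_⟩
  rw [FunLike.coe_neg, ModularForm.qExpansion_neg one_pos h1, map_neg, ← h]
  ring

omit [𝒢.HasDetOne] in
lemma inv' (h1 : (1 : ℝ) ∈ 𝒢.strictPeriods) {x : LaurentSeries ℂ} (hx0 : x ≠ 0)
    (hx : IsRatioG 𝒢 x) : IsRatioG 𝒢 x⁻¹ := by
  obtain ⟨k, G, E, hE, h⟩ := hx
  have hG : G ≠ 0 := by
    rintro rfl
    rw [FunLike.coe_zero, UpperHalfPlane.qExpansion_zero, map_zero] at h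
    exact (mul_ne_zero hx0 (ofPS_qExpansion_ne_zeroG h1 hE)) h
  refine ⟨k, E, G, hG, ?_⟩
  rw [← h, ← mul_assoc, inv_mul_cancel₀ hx0, one_mul]

lemma inv (h1 : (1 : ℝ) ∈ 𝒢.strictPeriods) {x : LaurentSeries ℂ} (hx : IsRatioG 𝒢 x) :
    IsRatioG 𝒢 x⁻¹ := by
  by_cases hx0 : x = 0
  · rw [hx0, inv_zero]; exact zero
  · exact inv' h1 hx0 hx

lemma const (c : ℂ) : IsRatioG 𝒢 (HahnSeries.C c) := by
  refine ⟨0, c • (1 : ModularForm 𝒢 0), 1, ?_, ?_⟩
  · intro h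
    have := congrArg (fun f : ModularForm 𝒢 0 => f UpperHalfPlane.I) h
    simp at this
  · have h2 : (⇑(c • (1 : ModularForm 𝒢 0)) : ℍ → ℂ) = fun _ => c := by
      funext τ; simp
    have h3 : (⇑(1 : ModularForm 𝒢 0) : ℍ → ℂ) = 1 := by
      funext τ; simp
    rw [h2, h3, qExpansion_const, HahnSeries.ofPowerSeries_C,
      UpperHalfPlane.qExpansion_one, map_one, mul_one]

end IsRatioG

variable (𝒢) in
/-- The field of ratios of `q`-expansions of modular forms of equal weight on `𝒢`. -/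
def ratioFieldG [𝒢.HasDetOne] (h1 : (1 : ℝ) ∈ 𝒢.strictPeriods) : Subfield (LaurentSeries ℂ) where
  carrier := {x | IsRatioG 𝒢 x}
  mul_mem' := IsRatioG.mul h1
  one_mem' := IsRatioG.one
  add_mem' := IsRatioG.add h1
  zero_mem' := IsRatioG.zero
  neg_mem' := IsRatioG.neg h1
  inv_mem' _ := IsRatioG.inv h1

lemma mem_ratioFieldG [𝒢.HasDetOne] {h1 : (1 : ℝ) ∈ 𝒢.strictPeriods} {x : LaurentSeries ℂ} :
    x ∈ ratioFieldG 𝒢 h1 ↔ IsRatioG 𝒢 x := Iff.rfl

/-- The field of ratios as an intermediate field of `ℂ((q)) / ℂ`. -/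
def ratioInterG (𝒢 : Subgroup (GL (Fin 2) ℝ)) [𝒢.HasDetOne] (h1 : (1 : ℝ) ∈ 𝒢.strictPeriods) :
    IntermediateField ℂ (LaurentSeries ℂ) :=
  { ratioFieldG 𝒢 h1 with
    algebraMap_mem' := fun c => by
      have h : algebraMap ℂ (LaurentSeries ℂ) c = HahnSeries.C c := by
        have h1 : algebraMap ℂ (PowerSeries ℂ) c = PowerSeries.C c := by simp
        rw [HahnSeries.algebraMap_apply', h1, HahnSeries.ofPowerSeries_C]
      show algebraMap ℂ (LaurentSeries ℂ) c ∈ ratioFieldG 𝒢 h1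
      rw [h]
      exact IsRatioG.const c }

lemma mem_ratioInterG [𝒢.HasDetOne] {h1 : (1 : ℝ) ∈ 𝒢.strictPeriods} {x : LaurentSeries ℂ} :
    x ∈ ratioInterG 𝒢 h1 ↔ IsRatioG 𝒢 x := Iff.rfl

/-! ### Monotonicity in the group -/

/-- restriction of a modular form to a smaller group (same function). -/
def restrictForm {𝒢 ℋ : Subgroup (GL (Fin 2) ℝ)} (h : ℋ ≤ 𝒢) {k : ℤ} (f : ModularForm 𝒢 k) :
    ModularForm ℋ k where
  toFun := f
  slash_action_eq' γ hγ := f.slash_action_eq' γ (h hγ)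
  holo' := f.holo'
  bdd_at_cusps' hc := f.bdd_at_cusps' (hc.mono h)

@[simp] lemma coe_restrictForm {𝒢 ℋ : Subgroup (GL (Fin 2) ℝ)} (h : ℋ ≤ 𝒢) {k : ℤ}
    (f : ModularForm 𝒢 k) : (⇑(restrictForm h f) : ℍ → ℂ) = ⇑f := rfl

lemma IsRatioG.mono {𝒢 ℋ : Subgroup (GL (Fin 2) ℝ)} (h : ℋ ≤ 𝒢) {x : LaurentSeries ℂ}
    (hx : IsRatioG 𝒢 x) : IsRatioG ℋ x := by
  obtain ⟨k, A, E, hE, hxE⟩ := hx
  refine ⟨k, restrictForm h A, restrictForm h E, ?_, ?_⟩
  · intro h0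
    apply hE
    ext τ
    have := congrArg (fun f : ModularForm ℋ k => f τ) h0
    simpa using this
  · simpa using hxE

/-! ### Even weight forms live on `± 𝒢` -/

/-- A modular form of even weight on `𝒢` is a modular form on the group generated by `𝒢`
and `-1`. -/
def liftNeg {k : ℤ} (hk : Even k) (f : ModularForm 𝒢 k) : ModularForm 𝒢.adjoinNegOne k where
  toFun := f
  slash_action_eq' γ hγ := by
    rcases hγ with h | h
    · exact f.slash_action_eq' γ h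
    · have h2 := f.slash_action_eq' (-γ) h
      funext τ
      have h3 := congrFun h2 τ
      rw [ModularForm.slash_apply] at h3 ⊢
      rw [σ_neg, UpperHalfPlane.neg_smul, denom_neg, Even.neg_zpow hk.neg] at h3
      have hdet : (Matrix.GeneralLinearGroup.det (-γ)) = Matrix.GeneralLinearGroup.det γ := by
        ext
        simp [Matrix.det_neg]
      rw [hdet] at h3
      exact h3
  holo' := f.holo'
  bdd_at_cusps' hc := f.bdd_at_cusps' ((𝒢.commensurable_adjoinNegOne_self.isCusp_iff).mp hc)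

@[simp] lemma coe_liftNeg {k : ℤ} (hk : Even k) (f : ModularForm 𝒢 k) :
    (⇑(liftNeg hk f) : ℍ → ℂ) = ⇑f := rfl

/-! ### The relation over `ℂ[j]` -/

/-- Generic form of `Lib.helper1219.ratio_relation`: a ratio of two forms of weight `12 M` on
`𝒢` is a root of a nonzero polynomial of degree `≤ [SL(2,ℤ) : 𝒢]` over `ℂ[j]`. -/
theorem relation_of_forms [𝒢.IsFiniteRelIndex 𝒮ℒ] [𝒢.HasDetOne]
    (h1 : (1 : ℝ) ∈ 𝒢.strictPeriods) (M : ℕ) {k : ℤ} (hk : k = 12 * (M : ℤ))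
    (G E : ModularForm 𝒢 k) (hE : E ≠ 0) {x : LaurentSeries ℂ}
    (hxE : x * ι (qExpansion 1 E) = ι (qExpansion 1 G))
    (jC : LaurentSeries ℂ) (hj : jC * ι (qExpansion 1 Δ) = ι (qExpansion 1 ⇑E₄) ^ 3) :
    ∃ P : Polynomial (Polynomial ℂ), P ≠ 0 ∧
      P.natDegree ≤ Nat.card (↥𝒮ℒ ⧸ 𝒢.subgroupOf 𝒮ℒ) ∧
      P.eval₂ (Polynomial.aeval jC).toRingHom x = 0 := by
  obtain ⟨P, hP0, hPdeg, hPc, hrel⟩ := exists_relation_qExpansion h1 M hk G E hE
  refine ⟨P, hP0, hPdeg, ?_⟩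
  set n : ℕ := Nat.card (↥𝒮ℒ ⧸ 𝒢.subgroupOf 𝒮ℒ) with hn
  set m : ℕ := M * n with hm
  set D : LaurentSeries ℂ := ι (qExpansion 1 Δ) with hD
  set e : LaurentSeries ℂ := ι (qExpansion 1 E) with he
  have hDne : D ≠ 0 := by
    intro h
    have h4 : qExpansion 1 Δ = 0 := ofPS_injective (by rw [← hD, h, map_zero])
    exact discForm_ne_zero
      ((ModularForm.qExpansion_eq_zero_iff one_pos one_mem_strictPeriods_SL discForm).mp h4)
  have hene : e ≠ 0 := ofPS_qExpansion_ne_zeroG h1 hE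
  have h2 := congrArg ι hrel
  simp only [map_sum, map_mul, map_pow, map_zero] at h2
  -- rewrite each inner sum
  have hinner : ∀ j, ∑ a ∈ Finset.range (m + 1),
      ι (PowerSeries.C ((P.coeff j).coeff a)) * D ^ (m - a) * ι (qExpansion 1 ⇑E₄) ^ (3 * a)
        = D ^ m * Polynomial.aeval jC (P.coeff j) := by
    intro j
    rw [Polynomial.aeval_eq_sum_range' (Nat.lt_succ_of_le (hPc j)), Finset.mul_sum]
    refine Finset.sum_congr rfl fun a ha => ?_
    have ha' : a ≤ m := Nat.lt_succ_iff.mp (Finset.mem_range.mp ha)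
    have hpow : D ^ m = D ^ (m - a) * D ^ a := by rw [← pow_add, Nat.sub_add_cancel ha']
    rw [pow_mul, ← hj, mul_pow, hpow, HahnSeries.ofPowerSeries_C, Algebra.smul_def]
    have hC : (HahnSeries.C ((P.coeff j).coeff a) : LaurentSeries ℂ)
        = algebraMap ℂ (LaurentSeries ℂ) ((P.coeff j).coeff a) := by
      have h1 : algebraMap ℂ (PowerSeries ℂ) ((P.coeff j).coeff a)
          = PowerSeries.C ((P.coeff j).coeff a) := by simp
      rw [HahnSeries.algebraMap_apply', h1, HahnSeries.ofPowerSeries_C]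
    rw [hC]
    ring
  have h3 : D ^ m * e ^ n * ∑ j ∈ Finset.range (n + 1),
      Polynomial.aeval jC (P.coeff j) * x ^ j = 0 := by
    rw [← h2, Finset.mul_sum]
    refine Finset.sum_congr rfl fun j hj' => ?_
    have hjn : j ≤ n := Nat.lt_succ_iff.mp (Finset.mem_range.mp hj')
    have hpow : e ^ n = e ^ j * e ^ (n - j) := by rw [← pow_add, Nat.add_sub_cancel' hjn]
    rw [hinner j, ← hxE, mul_pow, hpow]
    ring
  have h4 : ∑ j ∈ Finset.range (n + 1), Polynomial.aeval jC (P.coeff j) * x ^ j = 0 :=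
    (mul_eq_zero.mp h3).resolve_left (mul_ne_zero (pow_ne_zero _ hDne) (pow_ne_zero _ hene))
  rw [Polynomial.eval₂_eq_sum_range' _ (Nat.lt_succ_of_le hPdeg)]
  exact h4

lemma one_mem_strictPeriods_adjoinNegOne (h1 : (1 : ℝ) ∈ 𝒢.strictPeriods) :
    (1 : ℝ) ∈ 𝒢.adjoinNegOne.strictPeriods :=
  𝒢.strictPeriods_le_periods h1

/-- **The relation with the index of `± 𝒢`.**  Every ratio of `q`-expansions of two modular
forms of the same weight on an arithmetic group `𝒢` is a root of a nonzero polynomial over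
`ℂ[j]` of degree at most the index of the group generated by `𝒢` and `-1` in `SL(2,ℤ)`. -/
theorem ratioG_relation [𝒢.IsArithmetic] [𝒢.HasDetOne] (h1 : (1 : ℝ) ∈ 𝒢.strictPeriods)
    {x : LaurentSeries ℂ} (hx : IsRatioG 𝒢 x)
    (jC : LaurentSeries ℂ) (hj : jC * ι (qExpansion 1 Δ) = ι (qExpansion 1 ⇑E₄) ^ 3) :
    ∃ P : Polynomial (Polynomial ℂ), P ≠ 0 ∧
      P.natDegree ≤ Nat.card (↥𝒮ℒ ⧸ 𝒢.adjoinNegOne.subgroupOf 𝒮ℒ) ∧
      P.eval₂ (Polynomial.aeval jC).toRingHom x = 0 := by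
  obtain ⟨k, A, E, hE, hxE⟩ := hx
  rcases lt_or_ge k 0 with hk | hk
  · exact absurd (ModularForm.isZero_of_neg_weight hk E) hE
  lift k to ℕ using hk
  have : Fact (Even (Fintype.card (Fin 2))) := ⟨by decide⟩
  -- the weight `12 k` forms
  let A' : ModularForm 𝒢 (12 * (k : ℤ)) :=
    ModularForm.mcast (by push_cast; ring) (A.mul (E.pow 11))
  let E' : ModularForm 𝒢 (12 * (k : ℤ)) := ModularForm.mcast (by push_cast; ring) (E.pow 12)
  have hev : Even (12 * (k : ℤ)) := ⟨6 * k, by ring⟩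
  have hE' : E' ≠ 0 := by
    intro h0
    have h2 : qExpansion 1 E' = 0 := by rw [h0, FunLike.coe_zero, UpperHalfPlane.qExpansion_zero]
    rw [ModularForm.qExpansion_mcast, ModularForm.qExpansion_pow one_pos h1] at h2
    have h3 : qExpansion 1 E = 0 := by simpa using h2
    exact hE ((ModularForm.qExpansion_eq_zero_iff one_pos h1 E).mp h3)
  refine relation_of_forms (𝒢 := 𝒢.adjoinNegOne) (one_mem_strictPeriods_adjoinNegOne h1) k rfl
    (liftNeg hev A') (liftNeg hev E') ?_ ?_ jC hj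
  · intro h0
    apply hE'
    ext τ
    have := congrArg (fun f : ModularForm 𝒢.adjoinNegOne (12 * (k : ℤ)) => f τ) h0
    simpa using this
  · rw [coe_liftNeg, coe_liftNeg]
    show x * ι (qExpansion 1 E') = ι (qExpansion 1 A')
    rw [ModularForm.qExpansion_mcast, ModularForm.qExpansion_mcast,
      ModularForm.qExpansion_pow one_pos h1, ModularForm.qExpansion_mul one_pos h1,
      ModularForm.qExpansion_pow one_pos h1, map_mul, map_pow, map_pow, ← hxE]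
    ring

/-- the same, for `Γ ≤ SL(2,ℤ)` with `-1 ∈ Γ`-free statement of the bound by the index of `𝒢`
itself (weaker, always available). -/
theorem ratioG_relation_weak [𝒢.IsArithmetic] [𝒢.HasDetOne] (h1 : (1 : ℝ) ∈ 𝒢.strictPeriods)
    {x : LaurentSeries ℂ} (hx : IsRatioG 𝒢 x)
    (jC : LaurentSeries ℂ) (hj : jC * ι (qExpansion 1 Δ) = ι (qExpansion 1 ⇑E₄) ^ 3) :
    ∃ P : Polynomial (Polynomial ℂ), P ≠ 0 ∧
      P.natDegree ≤ Nat.card (↥𝒮ℒ ⧸ 𝒢.subgroupOf 𝒮ℒ) ∧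
      P.eval₂ (Polynomial.aeval jC).toRingHom x = 0 := by
  obtain ⟨P, hP0, hPdeg, hP⟩ := ratioG_relation h1 hx jC hj
  refine ⟨P, hP0, hPdeg.trans ?_, hP⟩
  -- `[SL : ±𝒢] ≤ [SL : 𝒢]`
  have h2 : (𝒢.adjoinNegOne).relIndex 𝒮ℒ ∣ 𝒢.relIndex 𝒮ℒ :=
    Subgroup.relIndex_dvd_of_le_left 𝒮ℒ 𝒢.le_adjoinNegOne
  exact Nat.le_of_dvd (Nat.pos_of_ne_zero Subgroup.IsFiniteRelIndex.relIndex_ne_zero) h2

end Fermat.Agent.S48.helper288
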