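import Fermat.Agent.S48.helper6324_AnDivGenPm
import Fermat.Agent.S48.helper2122_SurjGen

/-!
# S48 / M3 (helper6324): the seam ANDIV1 → `helper2122.AnDivG`

`helper2122.surj_baseChange` (TH4 spine) takes `hAD : AnDivG Γ' evM n`.  This file produces it
from an `EvDatum` for `Γ'` (ANDIV1), the degree equality and the compatibility of `evM` with the
evaluation of the datum.  Specialised to `Γ' = ±Γ₁(M)`.
-/

namespace Fermat.Agent.S48.helper6324

open UpperHalfPlane CongruenceSubgroup IntermediateField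
open Fermat.Agent.S24 Fermat.Agent.S24.helper24 Fermat.Agent.S24.helper580
open scoped MatrixGroups Manifold

noncomputable section

variable {F : Type} [Field F] [Algebra Kbar F]
variable {Γ : Subgroup SL(2, ℤ)} {h : ℕ} {jF : F} {i0 : Kbar →+* ℂ} {A : Subalgebra Kbar F}
  {e : A →+* (ℍ → ℂ)}

/-- ANDIV1 in the pair shape consumed by `helper2122.anDivG_of_pair`. -/
theorem anDivPair_of_evDatum [NeZero h] (hE : EvDatum Γ h jF i0 A e)
    [FiniteDimensional Kbar⟮jF⟯ F]
    (hdeg : Module.finrank Kbar⟮jF⟯ F = Nat.card (SL(2, ℤ) ⧸ Γ)) (n : ℕ) :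
    helper2122.AnDivPair Γ A e n :=
  fun a b ha hb P Q hP hQ hQ0 hroot hfin hpar v =>
    dvd_ord_of_root_pair_gen hE hdeg n a b ha hb P Q hP hQ hQ0 hroot hfin hpar v

/-- **ANDIV in the `Mer` form** (`hAD` of `helper2122.surjG` / `surj_baseChange`) from an
evaluation datum. -/
theorem anDivG_of_evDatum [NeZero h] (hE : EvDatum Γ h jF i0 A e)
    [FiniteDimensional Kbar⟮jF⟯ F]
    (hdeg : Module.finrank Kbar⟮jF⟯ F = Nat.card (SL(2, ℤ) ⧸ Γ))
    (evM : F →+* Mer)
    (hcompat : ∀ a : A, evM (a : F) = algebraMap Hol Mer ⟨e a, hE.hol a⟩) (n : ℕ) :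
    helper2122.AnDivG Γ evM n :=
  helper2122.anDivG_of_pair hE.toEvFin.exists_div hE.hol hcompat (anDivPair_of_evDatum hE hdeg n)

end

end Fermat.Agent.S48.helper6324
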