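import Fermat.Agent.S48.helper6324_AnDivEvalGen
import Fermat.Agent.S48.helper6324_AnDivPlug
import Fermat.Agent.S48.helper2122_DescGen

/-!
# S48-M3-ANDIV-INST (helper6324): ANDIV in the `Mer` form for a field generated by `q`-expansions

On top of `helper6324_AnDivEvalGen` (the evaluation datum on `holAlg` from generator-level
germs) and of the plug `helper6324_AnDivPlug` into `helper2122.AnDivG`:

* `anDivG_of_gen`, `anDivG_pm_Gamma1_of_gen` : **(ANDIV) in the `Mer` form** from generator-level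
  facts;
* `evMerC_bcG_coe`, `hcompat_evMerC_bcG` : the compatibility `hcompat` of the base change
  `ℚ̄ → ℂ` with the two evaluations (`helper5047.evMerC` over `ℂ`, `holFun` over `ℚ̄`);
* `hAD_pm_Gamma1` : the hypothesis `hAD` of `helper2122.surj_baseChange` verbatim, for
  `Γ' := pmSubgroup (Gamma1 M)` and `evC := helper5047.evMerC`;
* `hGamma'_pmSubgroup` : the hypothesis `hΓ'` of `helper2122.surj_baseChange`.
-/

set_option autoImplicit false

open ModularCurve CongruenceSubgroup UpperHalfPlane Filter AlgebraicCurve IntermediateField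
open scoped MatrixGroups Manifold Topology

namespace Fermat.Agent.S48.helper6324

open Fermat.Agent.S24 Fermat.Agent.S24.helper24 Fermat.Agent.S24.helper580
open Fermat.Agent.S48.helper5047 (qAlg qFun holAlg holFun genAlg)

noncomputable section

section Gen

variable (i0 : Kbar →+* ℂ) (F : IntermediateField Kbar (LaurentSeries Kbar))
  {S : Set (LaurentSeries Kbar)} (hS : ∀ s ∈ S, s ∈ qAlg i0)
  (hF : F = IntermediateField.adjoin Kbar S)

include hF in
/-- **(ANDIV) in the `Mer` form from generator-level facts**, any `Γ`. -/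
theorem anDivG_of_gen {Γ : Subgroup SL(2, ℤ)} {jF : F}
    (hD : helper2648.EvalData Γ jF i0 (holAlg i0 F) (holFun i0 F))
    (h : ℕ) [NeZero h] (level : ∀ g : SL(2, ℤ), g⁻¹ * ModularGroup.T ^ h * g ∈ Γ)
    (hgerm : ∀ s (hs : s ∈ S) (g : SL(2, ℤ)), ∃ H : ℂ → ℂ, MeromorphicAt H 0 ∧
      ∀ᶠ τ : ℍ in atImInfty,
        qFun i0 ⟨s, hS s hs⟩ (g • τ) = H (Function.Periodic.qParam (h : ℝ) (τ : ℂ)))
    [FiniteDimensional Kbar⟮jF⟯ F]
    (hdeg : Module.finrank Kbar⟮jF⟯ F = Nat.card (SL(2, ℤ) ⧸ Γ))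
    (evM : F →+* Mer)
    (hcompat : ∀ a : holAlg i0 F,
      evM (a : F) = algebraMap Hol Mer ⟨holFun i0 F a, helper5047.mdiff_holFun i0 F a⟩)
    (n : ℕ) : helper2122.AnDivG Γ evM n :=
  anDivG_of_evDatum (evDatum_of_evalData_gen i0 F hS hF hD h level hgerm) hdeg evM hcompat n

include hF in
/-- **(ANDIV) for `± Γ₁(M)` in the `Mer` form from generator-level facts** (`hAD` of
`helper2122.surj_baseChange` with `Γ' := pmSubgroup (Gamma1 M)`). -/
theorem anDivG_pm_Gamma1_of_gen {M : ℕ} [NeZero M] {jF : F}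
    (hD : helper2648.EvalData (pmSubgroup (Gamma1 M)) jF i0 (holAlg i0 F) (holFun i0 F))
    (hgerm : ∀ s (hs : s ∈ S) (g : SL(2, ℤ)), ∃ H : ℂ → ℂ, MeromorphicAt H 0 ∧
      ∀ᶠ τ : ℍ in atImInfty,
        qFun i0 ⟨s, hS s hs⟩ (g • τ) = H (Function.Periodic.qParam (M : ℝ) (τ : ℂ)))
    [FiniteDimensional Kbar⟮jF⟯ F]
    (hdeg : Module.finrank Kbar⟮jF⟯ F = Nat.card (SL(2, ℤ) ⧸ pmSubgroup (Gamma1 M)))
    (evM : F →+* Mer)
    (hcompat : ∀ a : holAlg i0 F,
      evM (a : F) = algebraMap Hol Mer ⟨holFun i0 F a, helper5047.mdiff_holFun i0 F a⟩)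
    (n : ℕ) : helper2122.AnDivG (pmSubgroup (Gamma1 M)) evM n :=
  anDivG_of_evDatum (evDatum_pm_Gamma1_of_gen i0 F hS hF hD hgerm) hdeg evM hcompat n

end Gen

/-! ## The compatibility with the base change `ℚ̄ → ℂ` -/

section BaseChange

variable (i0 : AlgebraicClosure ℚ →+* ℂ) (F₀ : IntermediateField ℚ (LaurentSeries ℚ))
  {SC : Set (LaurentSeries ℂ)} (hSC : ∀ s ∈ SC, s ∈ qAlg (RingHom.id ℂ))
  (hFC : laurentBaseChange ℂ F₀ = IntermediateField.adjoin ℂ SC)

/-- **`hcompat`.**  The complex evaluation `helper5047.evMerC` of the base change of a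
holomorphic element of the `ℚ̄`-field is its function `holFun`. -/
theorem evMerC_bcG_coe (a : holAlg i0 (laurentBaseChange (AlgebraicClosure ℚ) F₀)) :
    helper5047.evMerC (laurentBaseChange ℂ F₀) hSC hFC
        (helper2122.bcG i0 F₀ (a : laurentBaseChange (AlgebraicClosure ℚ) F₀))
      = algebraMap Hol Mer ⟨holFun i0 (laurentBaseChange (AlgebraicClosure ℚ) F₀) a,
          helper5047.mdiff_holFun i0 _ a⟩ := by
  have hspec := helper5047.holFun_spec i0 (laurentBaseChange (AlgebraicClosure ℚ) F₀) a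
  have hx : helper2122.bcG i0 F₀ (a : laurentBaseChange (AlgebraicClosure ℚ) F₀)
      ∈ holAlg (RingHom.id ℂ) (laurentBaseChange ℂ F₀) := by
    refine ⟨holFun i0 (laurentBaseChange (AlgebraicClosure ℚ) F₀) a, ?_⟩
    rw [coeffMap_id]
    exact hspec
  have h1 := helper5047.evMer_coe (RingHom.id ℂ) (laurentBaseChange ℂ F₀) hSC hFC ⟨_, hx⟩
  rw [helper5047.evMerC_apply, h1]
  refine congrArg (algebraMap Hol Mer) (Subtype.ext ?_)
  show holFun (RingHom.id ℂ) (laurentBaseChange ℂ F₀) ⟨_, hx⟩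
    = holFun i0 (laurentBaseChange (AlgebraicClosure ℚ) F₀) a
  apply helper5047.holFun_eq
  rw [coeffMap_id]
  exact hspec

/-- `hcompat` for `evM := evC ∘ bcG`, the shape of `helper2122.surj_baseChange`. -/
theorem hcompat_evMerC_bcG (a : holAlg i0 (laurentBaseChange (AlgebraicClosure ℚ) F₀)) :
    ((helper5047.evMerC (laurentBaseChange ℂ F₀) hSC hFC :
          laurentBaseChange ℂ F₀ →+* Mer).comp (helper2122.bcG i0 F₀))
        (a : laurentBaseChange (AlgebraicClosure ℚ) F₀)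
      = algebraMap Hol Mer ⟨holFun i0 (laurentBaseChange (AlgebraicClosure ℚ) F₀) a,
          helper5047.mdiff_holFun i0 _ a⟩ :=
  evMerC_bcG_coe i0 F₀ hSC hFC a

/-- **`hAD` of `helper2122.surj_baseChange` for `± Γ₁(M)`**, with `evC := helper5047.evMerC`
on the complex base change, from generator-level facts on the `ℚ̄`-side: the evaluation datum
on `holAlg`, cusp germs (width `M`) of the translates of the generators, and the degree. -/
theorem hAD_pm_Gamma1 {M : ℕ} [NeZero M]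
    {S : Set (LaurentSeries (AlgebraicClosure ℚ))} (hS : ∀ s ∈ S, s ∈ qAlg i0)
    (hF : laurentBaseChange (AlgebraicClosure ℚ) F₀
      = IntermediateField.adjoin (AlgebraicClosure ℚ) S)
    {jF : laurentBaseChange (AlgebraicClosure ℚ) F₀}
    (hD : helper2648.EvalData (pmSubgroup (Gamma1 M)) jF i0
      (holAlg i0 (laurentBaseChange (AlgebraicClosure ℚ) F₀))
      (holFun i0 (laurentBaseChange (AlgebraicClosure ℚ) F₀)))
    (hgerm : ∀ s (hs : s ∈ S) (g : SL(2, ℤ)), ∃ H : ℂ → ℂ, MeromorphicAt H 0 ∧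
      ∀ᶠ τ : ℍ in atImInfty,
        qFun i0 ⟨s, hS s hs⟩ (g • τ) = H (Function.Periodic.qParam (M : ℝ) (τ : ℂ)))
    [FiniteDimensional (AlgebraicClosure ℚ)⟮jF⟯ (laurentBaseChange (AlgebraicClosure ℚ) F₀)]
    (hdeg : Module.finrank (AlgebraicClosure ℚ)⟮jF⟯ (laurentBaseChange (AlgebraicClosure ℚ) F₀)
      = Nat.card (SL(2, ℤ) ⧸ pmSubgroup (Gamma1 M)))
    (n : ℕ) :
    helper2122.AnDivG (pmSubgroup (Gamma1 M))
      ((helper5047.evMerC (laurentBaseChange ℂ F₀) hSC hFC :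
          laurentBaseChange ℂ F₀ →+* Mer).comp (helper2122.bcG i0 F₀)) n :=
  anDivG_pm_Gamma1_of_gen i0 (laurentBaseChange (AlgebraicClosure ℚ) F₀) hS hF hD hgerm hdeg _
    (hcompat_evMerC_bcG i0 F₀ hSC hFC) n

/-- The inclusion hypothesis `hΓ'` of `helper2122.surj_baseChange` for `Γ' := ± Γ`. -/
theorem hGamma'_pmSubgroup (Γ : Subgroup SL(2, ℤ)) :
    ∀ g ∈ pmSubgroup Γ, g ∈ Γ ∨ -g ∈ Γ :=
  fun _ hg => mem_pmSubgroup.mp hg

end BaseChange

end

end Fermat.Agent.S48.helper6324
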