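import Fermat.Agent.S48.helper4027_K5Carrier
import Fermat.Agent.S48.helper6324_AnDivEval
import Fermat.Agent.S48.helper1002_CPlaceInst
import Fermat.Agent.S48.helper2122_RatioQ
import Fermat.Agent.S48.helper288_RatioG

/-!
# S48 / M3-DICT-E1 (helper2122): the Kummer dictionary at an arbitrary carrier, with the
evaluation of record

The leaves of the multiplier dictionary are proved on the base-change carriers
`FQ = laurentBaseChange ℚ̄ F₀`, `FC = laurentBaseChange ℂ F₀` (`helper2122_DescGen`,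
`helper4027_K5Carrier`, `helper1002_CPlaceInst`, `helper6324_AnDivEval`), for the relation
`MultMerG Γ (evC ∘ bcG i0 F₀) n ζ`.  The module of (M2) lives on a field `E` given as an
`IntermediateField ℚ̄ (LaurentSeries ℚ̄)` which is only *equal* to `FQ`, and the evaluation the
operator identities are computed with is `helper5047.evMer i0 E hSQ hFQ : E →+* Mer`.

* `multSpecG_baseChange_gens` : `MultSpecG` on the base-change carrier from generator-level
  facts (assembly of the compiled legs);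
* `evMer_eq_evMerC_comp_bcG` : the evaluation over `ℚ̄` is the composite of the base change with
  the evaluation over `ℂ`;
* `multSpecG_carrier_gens` : **the dictionary at `E`**, for the evaluation of record: the
  hypothesis `hM` of `helper2756.hasKummerMap_galHecke`, from generator-level facts and
  `hE : E = laurentBaseChange ℚ̄ F₀`.
-/

set_option autoImplicit false

open ModularCurve AlgebraicCurve IntermediateField UpperHalfPlane CongruenceSubgroup Filter
open scoped MatrixGroups Manifold Topology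

noncomputable section

namespace Fermat.Agent.S48.helper2122

open Fermat.Agent.S24.helper580 (Hol Mer pull)
open Fermat.Agent.S24 Fermat.Agent.S29
open Fermat.Agent.S24.helper1704 (HasQ)
open Fermat.Agent.S48.helper5047 (qAlg qFun holAlg holFun holHom evMerC)

local notation "Qb" => AlgebraicClosure ℚ

section BaseChange

variable {M : ℕ} (i0 : Qb →+* ℂ) {F₀ : IntermediateField ℚ (LaurentSeries ℚ)} (hj : jq ∈ F₀)
  {SC : Set (LaurentSeries ℂ)} (hSC : ∀ s ∈ SC, s ∈ qAlg (RingHom.id ℂ))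
  (hFC : laurentBaseChange ℂ F₀ = IntermediateField.adjoin ℂ SC)
  {SQ : Set (LaurentSeries Qb)} (hSQ : ∀ s ∈ SQ, s ∈ qAlg i0)

/-- (RATIO) for the canonical evaluation over `ℂ`, from the series-level membership. -/
theorem ratioIn_evMerC (Γ : Subgroup SL(2, ℤ)) [Γ.FiniteIndex]
    (h1 : (1 : ℝ) ∈ (Γ : Subgroup (GL (Fin 2) ℝ)).strictPeriods)
    (hmem : ∀ x : LaurentSeries ℂ,
      helper288.IsRatioG (Γ : Subgroup (GL (Fin 2) ℝ)) x → x ∈ laurentBaseChange ℂ F₀) :
    RatioIn Γ (evMerC (laurentBaseChange ℂ F₀) hSC hFC) := by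
  refine ratioIn_of_series Γ h1 (laurentBaseChange ℂ F₀) _ (fun x => ?_)
    (fun k G E hE x hx => hmem x ⟨k, G, E, hE, hx⟩)
  obtain ⟨a, b, hb, A', B', hA', hB', hAB, hev⟩ :=
    helper5047.exists_hasQ_fracC (laurentBaseChange ℂ F₀) hSC hFC x
  exact ⟨a, b, A', B', hb, hev, hA', hB', hAB⟩

/-- **The multiplier dictionary for `Γ₁(M)` on the base-change carrier, from generator-level
facts**: over `ℂ` the invariance and growth of the functions of the generators and the RATIO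
membership; over `ℚ̄` the evaluation datum of `±Γ₁(M)` on `holAlg`, the cusp germs of the
generators and the degree. -/
theorem multSpecG_baseChange_gens [NeZero M]
    (hjS : coeffEmb ℂ jq ∈ SC) (hjQ : HasQ 1 helper288.jFn (coeffEmb ℂ jq))
    (hinvC : ∀ γ ∈ Gamma1 M, ∀ s (hs : s ∈ SC) (τ : ℍ),
      qFun (RingHom.id ℂ) ⟨s, hSC s hs⟩ (γ • τ) = qFun (RingHom.id ℂ) ⟨s, hSC s hs⟩ τ)
    (hgrowthC : ∀ s (hs : s ∈ SC) (g : SL(2, ℤ)),
      helper167.HasExpGrowth (fun τ => qFun (RingHom.id ℂ) ⟨s, hSC s hs⟩ (g • τ)))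
    (hmem : ∀ x : LaurentSeries ℂ,
      helper288.IsRatioG ((Gamma1 M : Subgroup SL(2, ℤ)) : Subgroup (GL (Fin 2) ℝ)) x →
        x ∈ laurentBaseChange ℂ F₀)
    (hFQ : laurentBaseChange Qb F₀ = IntermediateField.adjoin Qb SQ)
    (hD : helper2648.EvalData (helper6324.pmSubgroup (Gamma1 M)) (helper8395.jL Qb F₀ hj) i0
      (holAlg i0 (laurentBaseChange Qb F₀)) (holFun i0 (laurentBaseChange Qb F₀)))
    (hgermQ : ∀ s (hs : s ∈ SQ) (g : SL(2, ℤ)), ∃ H : ℂ → ℂ, MeromorphicAt H 0 ∧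
      ∀ᶠ τ : ℍ in atImInfty,
        qFun i0 ⟨s, hSQ s hs⟩ (g • τ) = H (Function.Periodic.qParam (M : ℝ) (τ : ℂ)))
    [FiniteDimensional Qb⟮helper8395.jL Qb F₀ hj⟯ (laurentBaseChange Qb F₀)]
    (hdeg : Module.finrank Qb⟮helper8395.jL Qb F₀ hj⟯ (laurentBaseChange Qb F₀)
      = Nat.card (SL(2, ℤ) ⧸ helper6324.pmSubgroup (Gamma1 M)))
    [HasPrincipalDivisors Qb (laurentBaseChange Qb F₀)]
    {n : ℕ} (hn : 0 < n) {ζ : ℂˣ} (hζ : IsPrimitiveRoot ζ n) :
    helper2756.MultSpecG Qb (Gamma1 M) n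
      (MultMerG (Gamma1 M)
        ((evMerC (laurentBaseChange ℂ F₀) hSC hFC : laurentBaseChange ℂ F₀ →+* Mer).comp
          (bcG i0 F₀)) n ζ) := by
  have fin : (Gamma1 M).FiniteIndex := inferInstance
  obtain ⟨hfd, hinvG, ⟨A, hA, hden⟩, hCP⟩ :=
    helper1002.surjInputs_of_gens hj hSC hFC hjS hjQ (Gamma1 M) fin hinvC hgrowthC
  have hRC : RatioIn (Gamma1 M) (evMerC (laurentBaseChange ℂ F₀) hSC hFC) :=
    ratioIn_evMerC hSC hFC (Gamma1 M) (by simp) hmem
  have hAD := helper6324.hAD_pm_Gamma1 i0 F₀ hSC hFC hSQ hFQ hD hgermQ hdeg n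
  exact helper4027.multSpecG_baseChange (Gamma1 M) i0
    (helper6324.hGamma'_pmSubgroup (Gamma1 M)) hj _ hinvG hRC A hA hden hn (hCP n) hAD hζ

/-- **The evaluation over `ℚ̄` is the base change followed by the evaluation over `ℂ`.** -/
theorem evMer_eq_evMerC_comp_bcG
    (hFQ : laurentBaseChange Qb F₀ = IntermediateField.adjoin Qb SQ) :
    helper5047.evMer i0 (laurentBaseChange Qb F₀) hSQ hFQ
      = (evMerC (laurentBaseChange ℂ F₀) hSC hFC : laurentBaseChange ℂ F₀ →+* Mer).comp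
          (bcG i0 F₀) := by
  have := helper5047.isFractionRing_holAlg i0 (laurentBaseChange Qb F₀) hSQ hFQ
  refine IsLocalization.ringHom_ext (nonZeroDivisors (holAlg i0 (laurentBaseChange Qb F₀)))
    (RingHom.ext fun a => ?_)
  show helper5047.evMer i0 (laurentBaseChange Qb F₀) hSQ hFQ (a : laurentBaseChange Qb F₀)
    = evMerC (laurentBaseChange ℂ F₀) hSC hFC (bcG i0 F₀ (a : laurentBaseChange Qb F₀))
  rw [helper5047.evMer_coe, helper6324.evMerC_bcG_coe]
  rfl

end BaseChange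

section Carrier

variable {M : ℕ} (i0 : Qb →+* ℂ) {F₀ : IntermediateField ℚ (LaurentSeries ℚ)} (hj : jq ∈ F₀)
  {SC : Set (LaurentSeries ℂ)} (hSC : ∀ s ∈ SC, s ∈ qAlg (RingHom.id ℂ))
  (hFC : laurentBaseChange ℂ F₀ = IntermediateField.adjoin ℂ SC)
  {SQ : Set (LaurentSeries Qb)} (hSQ : ∀ s ∈ SQ, s ∈ qAlg i0)

include hj hSC hFC in
/-- **The multiplier dictionary for `Γ₁(M)` at a carrier `E = laurentBaseChange ℚ̄ F₀`, for the
evaluation of record `helper5047.evMer i0 E hSQ hFQ`** (= the hypothesis `hM` of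
`helper2756.hasKummerMap_galHecke`), from generator-level facts. -/
theorem multSpecG_carrier_gens [NeZero M]
    {E : IntermediateField Qb (LaurentSeries Qb)} (hE : E = laurentBaseChange Qb F₀)
    (hjS : coeffEmb ℂ jq ∈ SC) (hjQ : HasQ 1 helper288.jFn (coeffEmb ℂ jq))
    (hinvC : ∀ γ ∈ Gamma1 M, ∀ s (hs : s ∈ SC) (τ : ℍ),
      qFun (RingHom.id ℂ) ⟨s, hSC s hs⟩ (γ • τ) = qFun (RingHom.id ℂ) ⟨s, hSC s hs⟩ τ)
    (hgrowthC : ∀ s (hs : s ∈ SC) (g : SL(2, ℤ)),
      helper167.HasExpGrowth (fun τ => qFun (RingHom.id ℂ) ⟨s, hSC s hs⟩ (g • τ)))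
    (hmem : ∀ x : LaurentSeries ℂ,
      helper288.IsRatioG ((Gamma1 M : Subgroup SL(2, ℤ)) : Subgroup (GL (Fin 2) ℝ)) x →
        x ∈ laurentBaseChange ℂ F₀)
    (hFQ : E = IntermediateField.adjoin Qb SQ)
    (jE : E) (hjE : (jE : LaurentSeries Qb) = coeffEmb Qb jq)
    (hD : helper2648.EvalData (helper6324.pmSubgroup (Gamma1 M)) jE i0
      (holAlg i0 E) (holFun i0 E))
    (hgermQ : ∀ s (hs : s ∈ SQ) (g : SL(2, ℤ)), ∃ H : ℂ → ℂ, MeromorphicAt H 0 ∧
      ∀ᶠ τ : ℍ in atImInfty,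
        qFun i0 ⟨s, hSQ s hs⟩ (g • τ) = H (Function.Periodic.qParam (M : ℝ) (τ : ℂ)))
    [FiniteDimensional Qb⟮jE⟯ E]
    (hdeg : Module.finrank Qb⟮jE⟯ E
      = Nat.card (SL(2, ℤ) ⧸ helper6324.pmSubgroup (Gamma1 M)))
    [HasPrincipalDivisors Qb E]
    {n : ℕ} (hn : 0 < n) {ζ : ℂˣ} (hζ : IsPrimitiveRoot ζ n) :
    helper2756.MultSpecG Qb (Gamma1 M) n
      (MultMerG (Gamma1 M) (helper5047.evMer i0 E hSQ hFQ) n ζ) := by
  subst hE
  obtain rfl : jE = helper8395.jL Qb F₀ hj := Subtype.ext hjE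
  rw [evMer_eq_evMerC_comp_bcG i0 hSC hFC hSQ hFQ]
  exact multSpecG_baseChange_gens i0 hj hSC hFC hSQ hjS hjQ hinvC hgrowthC hmem hFQ hD hgermQ
    hdeg hn hζ

end Carrier

end Fermat.Agent.S48.helper2122
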