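import Mathlib
import Fermat.Agent.S48.helper288_RatioG
import Fermat.Agent.S29.helper288_RatioInFC

/-!
# S48 / machine half: the field of ratios of `Γ₁(M)` is the complex function field of `X₁(M)`

Twin for `Γ₁(M)` of the landed S29 RATIO input `S29.helper288.ratioInFC`.

* `index_Gamma1 : [SL(2,ℤ) : Γ₁(M)] = φ(M) ψ(M)`;
* `card_quotient_Gamma1_adjoinNegOne : [SL(2,ℤ) : ±Γ₁(M)] * 2 = φ(M) ψ(M)` for `3 ≤ M`;
* `exists_poly_of_isRatioG_Gamma1` : every ratio of `q`-expansions of two modular forms of the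
  same weight on `Γ₁(M)` (`3 ≤ M`) is a root of a nonzero polynomial over `ℂ(j)` of degree
  `≤ φ(M) ψ(M) / 2`;
* `ratio_Gamma1_le` (R4) and `ratio_Gamma1_le_of_relrank_full` (R5): any intermediate field `F`
  of `ℂ((q))` containing `j`, contained in the field of ratios, of degree `φ(M) ψ(M) / 2` over
  `ℂ(j)` (resp. of degree `φ(M) / 2` over the `Γ₀(M)` function field) IS the field of ratios.
-/

set_option autoImplicit false

open ModularCurve IntermediateField Polynomial CongruenceSubgroup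
open scoped MatrixGroups

noncomputable section

namespace Fermat.Agent.S48.helper288

/-! ### The index of `Γ₁(M)` -/

/-- `Γ₁(M)`, as a subgroup of `Γ₀(M)`, is Mathlib's `Gamma1'`. -/
theorem Gamma1_subgroupOf_Gamma0 (M : ℕ) : (Gamma1 M).subgroupOf (Gamma0 M) = Gamma1' M := by
  ext g
  rw [Subgroup.mem_subgroupOf, Gamma1_mem, Gamma1_to_Gamma0_mem]

/-- the lower right entry classifies the cosets of `Γ₁(M)` in `Γ₀(M)`. -/
theorem Gamma0Map_eq_iff (M : ℕ) (g g' : Gamma0 M) :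
    Gamma0Map M g = Gamma0Map M g' ↔ g⁻¹ * g' ∈ Gamma1' M := by
  rw [Gamma1_mem', map_mul]
  have h1 : Gamma0Map M g⁻¹ * Gamma0Map M g = 1 := by rw [← map_mul, inv_mul_cancel, map_one]
  constructor
  · intro h
    rw [← h, h1]
  · intro h
    have h2 : Gamma0Map M g * (Gamma0Map M g⁻¹ * Gamma0Map M g') = Gamma0Map M g := by
      rw [h, mul_one]
    rw [← mul_assoc, mul_comm (Gamma0Map M g), h1, one_mul] at h2
    exact h2.symm

/-- the range of the lower right entry on `Γ₀(M)` is the set of units of `ℤ/M`. -/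
theorem range_Gamma0Map (M : ℕ) [NeZero M] :
    Set.range (Gamma0Map M) = {d : ZMod M | IsUnit d} := by
  ext d
  constructor
  · rintro ⟨g, rfl⟩
    exact IsUnit.of_mul_eq_one (Gamma0Map M g⁻¹) (by rw [← map_mul, mul_inv_cancel, map_one])
  · rintro ⟨u, rfl⟩
    have hcop : Nat.Coprime (u : ZMod M).val M := ZMod.val_coe_unit_coprime u
    have hcop' : IsCoprime ((M : ℤ)) (((u : ZMod M).val : ℕ) : ℤ) :=
      (Nat.isCoprime_iff_coprime.mpr hcop).symm
    obtain ⟨g, -, hg⟩ := ModularGroup.bottom_row_surj (R := ℤ)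
      (show IsCoprime ((![(M : ℤ), (((u : ZMod M).val : ℕ) : ℤ)] : Fin 2 → ℤ) 0)
        ((![(M : ℤ), (((u : ZMod M).val : ℕ) : ℤ)] : Fin 2 → ℤ) 1) from hcop')
    have hg10 : g 1 0 = (M : ℤ) := by
      have := congrFun hg 0
      simpa using this
    have hg11 : g 1 1 = (((u : ZMod M).val : ℕ) : ℤ) := by
      have := congrFun hg 1
      simpa using this
    have hmem : g ∈ Gamma0 M := by
      rw [Gamma0_mem, hg10]
      simp
    refine ⟨⟨g, hmem⟩, ?_⟩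
    show ((g 1 1 : ℤ) : ZMod M) = u
    rw [hg11]
    simp

/-- `[Γ₀(M) : Γ₁(M)] = φ(M)`. -/
theorem index_Gamma1' (M : ℕ) [NeZero M] : (Gamma1' M).index = Nat.totient M := by
  rw [Fermat.Agent.S20.helper34.index_eq_card_range (Gamma1' M) (Gamma0Map M) (Gamma0Map_eq_iff M),
    range_Gamma0Map, ← ZMod.card_units_eq_totient, ← Nat.card_eq_fintype_card]
  refine Nat.card_congr ?_
  exact
    { toFun := fun d => d.2.unit
      invFun := fun u => ⟨(u : ZMod M), u.isUnit⟩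
      left_inv := fun d => Subtype.ext (IsUnit.unit_spec d.2)
      right_inv := fun u => Units.ext (IsUnit.unit_spec _) }

/-- **Index of `Γ₁(M)`**: `[SL(2,ℤ) : Γ₁(M)] = φ(M) ψ(M)`. -/
theorem index_Gamma1 (M : ℕ) [NeZero M] :
    (Gamma1 M).index = Nat.totient M * dedekindPsi M := by
  rw [← Subgroup.relIndex_mul_index (Gamma1_in_Gamma0 M), Subgroup.relIndex,
    Gamma1_subgroupOf_Gamma0, index_Gamma1', Fermat.Agent.S20.helper34.index_Gamma0]

/-- `-1 ∉ Γ₁(M)` for `3 ≤ M` (in `SL(2,ℤ)`). -/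
theorem neg_one_not_mem_Gamma1 (M : ℕ) (hM : 3 ≤ M) : (-1 : SL(2, ℤ)) ∉ Gamma1 M := by
  intro hg
  rw [Gamma1_mem] at hg
  have h1 := hg.1
  have h3 : ((-1 : SL(2, ℤ)) 0 0 : ℤ) = -1 := by simp
  rw [h3] at h1
  have h4 : (2 : ZMod M) = 0 := by
    have : (((-1 : ℤ)) : ZMod M) = -1 := by push_cast; ring
    rw [this] at h1
    linear_combination -h1
  have h2 : ((2 : ℕ) : ZMod M) = 0 := by exact_mod_cast h4
  rw [ZMod.natCast_eq_zero_iff] at h2
  have := Nat.le_of_dvd (by norm_num) h2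
  omega

/-- **Index of `±Γ₁(M)` inside `SL(2,ℤ)`**, carrier-free: for ANY subgroup `H` of `SL(2,ℤ)` that
is "`Γ₁(M)` together with `-1`" (contains `Γ₁(M)` and `-1`, and each element is `±` an element
of `Γ₁(M)`), `2 [SL(2,ℤ) : H] = φ(M) ψ(M)` when `3 ≤ M`. -/
theorem two_mul_index_of_pm_Gamma1 (M : ℕ) [NeZero M] (hM : 3 ≤ M) (H : Subgroup SL(2, ℤ))
    (hle : Gamma1 M ≤ H) (hneg : (-1 : SL(2, ℤ)) ∈ H)
    (hH : ∀ g ∈ H, g ∈ Gamma1 M ∨ -g ∈ Gamma1 M) :
    2 * H.index = Nat.totient M * dedekindPsi M := by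
  have h2 : (Gamma1 M).relIndex H = 2 := by
    rw [Subgroup.relIndex_eq_two_iff_exists_notMem_and]
    refine ⟨-1, hneg, neg_one_not_mem_Gamma1 M hM, fun b hb => ?_⟩
    rcases hH b hb with h | h
    · exact Or.inr h
    · left
      have : b * -1 = -b := by simp
      rw [this]
      exact h
  rw [← index_Gamma1 M, ← Subgroup.relIndex_mul_index hle, h2]

/-- the image of `Γ₁(M)` in `GL(2,ℝ)`. -/
abbrev G1 (M : ℕ) : Subgroup (GL (Fin 2) ℝ) :=
  (Gamma1 M).map (Matrix.SpecialLinearGroup.mapGL ℝ)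

theorem relIndex_G1_SL (M : ℕ) [NeZero M] :
    (G1 M).relIndex 𝒮ℒ = Nat.totient M * dedekindPsi M := by
  rw [MonoidHom.range_eq_map,
    Subgroup.relIndex_map_map_of_injective _ _ Matrix.SpecialLinearGroup.mapGL_injective,
    Subgroup.relIndex_top_right, index_Gamma1]

theorem G1_le_SL (M : ℕ) : G1 M ≤ 𝒮ℒ := by
  rintro _ ⟨g, -, rfl⟩
  exact ⟨g, rfl⟩

theorem neg_one_mem_SL : (-1 : GL (Fin 2) ℝ) ∈ 𝒮ℒ := ⟨-1, by ext; simp⟩

theorem adjoinNegOne_G1_le_SL (M : ℕ) : (G1 M).adjoinNegOne ≤ 𝒮ℒ := by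
  rintro g (hg | hg)
  · exact G1_le_SL M hg
  · have h := Subgroup.mul_mem _ neg_one_mem_SL (G1_le_SL M hg)
    simpa using h

/-- `-1 ∉ Γ₁(M)` for `3 ≤ M`. -/
theorem neg_one_not_mem_G1 (M : ℕ) (hM : 3 ≤ M) : (-1 : GL (Fin 2) ℝ) ∉ G1 M := by
  rintro ⟨g, hg, hg1⟩
  have hg' : g = -1 := by
    apply Matrix.SpecialLinearGroup.mapGL_injective (S := ℝ)
    rw [hg1]
    ext; simp
  rw [hg', SetLike.mem_coe, Gamma1_mem] at hg
  have h1 := hg.1
  have h2 : ((2 : ℕ) : ZMod M) = 0 := by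
    have h3 : ((-1 : SL(2, ℤ)) 0 0 : ℤ) = -1 := by simp
    rw [h3] at h1
    have h4 : (2 : ZMod M) = 0 := by
      have : (((-1 : ℤ)) : ZMod M) = -1 := by push_cast; ring
      rw [this] at h1
      linear_combination -h1
    exact_mod_cast h4
  rw [ZMod.natCast_eq_zero_iff] at h2
  have := Nat.le_of_dvd (by norm_num) h2
  omega

/-- **Index of `±Γ₁(M)`** (`3 ≤ M`): `2 [SL(2,ℤ) : ±Γ₁(M)] = φ(M) ψ(M)`. -/
theorem relIndex_adjoinNegOne_G1 (M : ℕ) [NeZero M] (hM : 3 ≤ M) :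
    2 * (G1 M).adjoinNegOne.relIndex 𝒮ℒ = Nat.totient M * dedekindPsi M := by
  have h := Subgroup.relIndex_mul_relIndex _ _ _ (G1 M).le_adjoinNegOne (adjoinNegOne_G1_le_SL M)
  rw [Subgroup.relindex_adjoinNegOne_eq_two (neg_one_not_mem_G1 M hM)] at h
  rw [← relIndex_G1_SL M]
  exact h

/-- the coset space form. -/
theorem card_quotient_adjoinNegOne_G1 (M : ℕ) [NeZero M] (hM : 3 ≤ M) :
    Nat.card (↥𝒮ℒ ⧸ (G1 M).adjoinNegOne.subgroupOf 𝒮ℒ) = Nat.totient M * dedekindPsi M / 2 := by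
  have h := relIndex_adjoinNegOne_G1 M hM
  have h2 : Nat.card (↥𝒮ℒ ⧸ (G1 M).adjoinNegOne.subgroupOf 𝒮ℒ)
      = (G1 M).adjoinNegOne.relIndex 𝒮ℒ := rfl
  rw [h2]
  omega

theorem h1G1 (M : ℕ) : (1 : ℝ) ∈ (G1 M).strictPeriods := by
  simp

/-! ### The degree bound over `ℂ(j)` -/

open Fermat.Agent.Lib.helper1219 in
/-- every ratio of `q`-expansions of two modular forms of the same weight on an arithmetic
group `𝒢` (with `T ∈ 𝒢`) is a root of a nonzero polynomial over `ℂ(j)` of degree at most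
`[SL(2,ℤ) : ±𝒢]`. -/
theorem exists_poly_of_isRatioG {𝒢 : Subgroup (GL (Fin 2) ℝ)} [𝒢.IsArithmetic] [𝒢.HasDetOne]
    (h1 : (1 : ℝ) ∈ 𝒢.strictPeriods) {y : LaurentSeries ℂ} (hy : IsRatioG 𝒢 y) :
    ∃ P : Polynomial (ℂ⟮jqModC ℂ⟯), P ≠ 0 ∧
      P.natDegree ≤ Nat.card (↥𝒮ℒ ⧸ 𝒢.adjoinNegOne.subgroupOf 𝒮ℒ) ∧
      Polynomial.aeval y P = 0 := by
  obtain ⟨P, hP0, hPdeg, hPy⟩ := ratioG_relation h1 hy (jqModC ℂ) jqModC_mul_disc
  -- the coefficient map `ℂ[X] → ℂ(j)`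
  let φ : Polynomial ℂ →+* ℂ⟮jqModC ℂ⟯ :=
    ((Polynomial.aeval (R := ℂ) (jqModC ℂ)).toRingHom).codRestrict (ℂ⟮jqModC ℂ⟯).toSubfield
      (fun p => (IntermediateField.algebra_adjoin_le_adjoin ℂ _)
        (Algebra.adjoin_singleton_eq_range_aeval ℂ (jqModC ℂ) ▸ ⟨p, rfl⟩))
  have hφ : Function.Injective φ := by
    intro p q hpq
    apply Fermat.Agent.S28.helper3292.aeval_jqModC_injective ℂ
    exact congrArg Subtype.val hpq
  have hcomp : (algebraMap (ℂ⟮jqModC ℂ⟯) (LaurentSeries ℂ)).comp φ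
      = (Polynomial.aeval (R := ℂ) (jqModC ℂ)).toRingHom := by
    ext p <;> rfl
  refine ⟨P.map φ, ?_, (Polynomial.natDegree_map_le).trans hPdeg, ?_⟩
  · exact (Polynomial.map_ne_zero_iff hφ).mpr hP0
  · rw [Polynomial.aeval_def, Polynomial.eval₂_map, hcomp]
    exact hPy

/-- the `Γ₁(M)` instance: degree `≤ φ(M) ψ(M) / 2` over `ℂ(j)` for `3 ≤ M`. -/
theorem exists_poly_of_isRatioG_Gamma1 (M : ℕ) [NeZero M] (hM : 3 ≤ M) {y : LaurentSeries ℂ}
    (hy : IsRatioG (G1 M) y) :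
    ∃ P : Polynomial (ℂ⟮jqModC ℂ⟯), P ≠ 0 ∧
      P.natDegree ≤ Nat.totient M * dedekindPsi M / 2 ∧ Polynomial.aeval y P = 0 := by
  obtain ⟨P, hP0, hPdeg, hPy⟩ := exists_poly_of_isRatioG (h1G1 M) hy
  rw [card_quotient_adjoinNegOne_G1 M hM] at hPdeg
  exact ⟨P, hP0, hPdeg, hPy⟩

/-! ### The field of ratios of `Γ₁(M)` is the function field -/

/-- **(R4)** Let `F` be an intermediate field of `ℂ((q)) / ℂ` containing `j`, all of whose
elements are ratios of `q`-expansions of modular forms of equal weight on `Γ₁(M)` (`3 ≤ M`),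
and with `[F : ℂ(j)] = φ(M) ψ(M) / 2`.  Then EVERY such ratio lies in `F`. -/
theorem ratio_Gamma1_le (M : ℕ) [NeZero M] (hM : 3 ≤ M)
    (F : IntermediateField ℂ (LaurentSeries ℂ)) (hj : jqModC ℂ ∈ F)
    (hFR : ∀ y ∈ F, IsRatioG (G1 M) y)
    (hdeg : (ℂ⟮jqModC ℂ⟯).relrank F = ((Nat.totient M * dedekindPsi M / 2 : ℕ) : Cardinal))
    {x : LaurentSeries ℂ} (hx : IsRatioG (G1 M) x) : x ∈ F :=
  Fermat.Agent.S29.helper288.mem_of_relrank_of_degree_le (ℂ⟮jqModC ℂ⟯) F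
    ((IntermediateField.adjoin_simple_le_iff).mpr hj) _ hdeg
    (ratioFieldG (G1 M) (h1G1 M)) hFR
    (fun _ hy => exists_poly_of_isRatioG_Gamma1 M hM hy) hx

/-- the field of ratios of `Γ₁(M)` IS `F`. -/
theorem isRatioG_Gamma1_iff (M : ℕ) [NeZero M] (hM : 3 ≤ M)
    (F : IntermediateField ℂ (LaurentSeries ℂ)) (hj : jqModC ℂ ∈ F)
    (hFR : ∀ y ∈ F, IsRatioG (G1 M) y)
    (hdeg : (ℂ⟮jqModC ℂ⟯).relrank F = ((Nat.totient M * dedekindPsi M / 2 : ℕ) : Cardinal))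
    (x : LaurentSeries ℂ) : IsRatioG (G1 M) x ↔ x ∈ F :=
  ⟨fun hx => ratio_Gamma1_le M hM F hj hFR hdeg hx, fun hx => hFR x hx⟩

/-- `φ(M)` is even for `3 ≤ M`, so `φ(M) ψ(M) / 2 = ψ(M) * (φ(M) / 2)`. -/
theorem totient_mul_psi_div_two (M : ℕ) (hM : 3 ≤ M) :
    Nat.totient M * dedekindPsi M / 2 = dedekindPsi M * (Nat.totient M / 2) := by
  obtain ⟨c, hc⟩ := (Nat.totient_even (by omega : 2 < M)).two_dvd
  rw [hc, Nat.mul_div_cancel_left c (by norm_num), mul_assoc, Nat.mul_div_cancel_left _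
    (by norm_num : 0 < 2), mul_comm]

/-- **(R5)** The same relative to the landed `Γ₀(M)` function field
`K = laurentBaseChange ℂ (modularFunctionFieldFull M)`: if `K ≤ F`, every element of `F` is a
ratio on `Γ₁(M)` and `[F : K] = φ(M) / 2`, then every ratio on `Γ₁(M)` lies in `F`. -/
theorem ratio_Gamma1_le_of_relrank_full (M : ℕ) [NeZero M] (hM : 3 ≤ M)
    (F : IntermediateField ℂ (LaurentSeries ℂ))
    (hKF : laurentBaseChange ℂ (modularFunctionFieldFull M) ≤ F)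
    (hFR : ∀ y ∈ F, IsRatioG (G1 M) y)
    (hdeg : (laurentBaseChange ℂ (modularFunctionFieldFull M)).relrank F
      = ((Nat.totient M / 2 : ℕ) : Cardinal))
    {x : LaurentSeries ℂ} (hx : IsRatioG (G1 M) x) : x ∈ F := by
  have hjK : jqModC ℂ ∈ laurentBaseChange ℂ (modularFunctionFieldFull M) :=
    Fermat.Agent.S29.helper36.jqModC_mem_laurentBaseChange ℂ M
  have hjle : ℂ⟮jqModC ℂ⟯ ≤ laurentBaseChange ℂ (modularFunctionFieldFull M) :=
    (IntermediateField.adjoin_simple_le_iff).mpr hjK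
  refine ratio_Gamma1_le M hM F (hKF hjK) hFR ?_ hx
  rw [← IntermediateField.relrank_mul_relrank hjle hKF,
    Fermat.Agent.S29.helper36.relrank_laurentBaseChange ℂ M, hdeg, totient_mul_psi_div_two M hM]
  push_cast
  rfl

/-! ### Consumer forms -/

open Fermat.Agent.Lib.helper1219 in
/-- a ratio on `Γ₀(N)` in the sense of `Lib.helper1219` is a ratio in the generic sense. -/
theorem isRatioG_of_isRatio {N : ℕ} {x : LaurentSeries ℂ} (h : IsRatio N x) :
    IsRatioG (G0 N) x := by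
  obtain ⟨k, -, -, A, E, hE, hxE⟩ := h
  exact ⟨k, A, E, hE, hxE⟩

theorem G1_le_G0 (M : ℕ) : G1 M ≤ Fermat.Agent.Lib.helper1219.G0 M :=
  Subgroup.map_mono (Gamma1_in_Gamma0 M)

/-- the complex function field of `X₀(M)` consists of ratios on `Γ₁(M)`. -/
theorem isRatioG_Gamma1_of_mem_full (M : ℕ) {y : LaurentSeries ℂ}
    (hy : y ∈ laurentBaseChange ℂ (modularFunctionFieldFull M)) : IsRatioG (G1 M) y :=
  (isRatioG_of_isRatio (Fermat.Agent.S29.helper288.fullC_le_ratioField M y hy)).mono (G1_le_G0 M)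

theorem full_le_ratioInterG_Gamma1 (M : ℕ) :
    laurentBaseChange ℂ (modularFunctionFieldFull M) ≤ ratioInterG (G1 M) (h1G1 M) :=
  fun _ hy => isRatioG_Gamma1_of_mem_full M hy

/-- **(R6), generator form of (R5).** `K` the complex `Γ₀(M)` function field, `S` a set of
ratios of `q`-expansions of modular forms on `Γ₁(M)` (e.g. the ratios of differences of
`℘`-division values) with `[K(S) : K] = φ(M) / 2`.  Then every ratio on `Γ₁(M)` lies in
`K(S) = K ⊔ ℂ(S)`. -/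
theorem ratio_Gamma1_le_sup_adjoin (M : ℕ) [NeZero M] (hM : 3 ≤ M)
    (S : Set (LaurentSeries ℂ)) (hS : ∀ y ∈ S, IsRatioG (G1 M) y)
    (hdeg : (laurentBaseChange ℂ (modularFunctionFieldFull M)).relrank
        (laurentBaseChange ℂ (modularFunctionFieldFull M) ⊔ IntermediateField.adjoin ℂ S)
      = ((Nat.totient M / 2 : ℕ) : Cardinal))
    {x : LaurentSeries ℂ} (hx : IsRatioG (G1 M) x) :
    x ∈ laurentBaseChange ℂ (modularFunctionFieldFull M) ⊔ IntermediateField.adjoin ℂ S := by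
  refine ratio_Gamma1_le_of_relrank_full M hM _ le_sup_left ?_ hdeg hx
  have hle : laurentBaseChange ℂ (modularFunctionFieldFull M) ⊔ IntermediateField.adjoin ℂ S
      ≤ ratioInterG (G1 M) (h1G1 M) :=
    sup_le (full_le_ratioInterG_Gamma1 M)
      ((IntermediateField.adjoin_le_iff).mpr fun y hy => hS y hy)
  exact fun y hy => hle hy

/-- equality of intermediate fields, (R4) form. -/
theorem ratioInterG_Gamma1_eq (M : ℕ) [NeZero M] (hM : 3 ≤ M)
    (F : IntermediateField ℂ (LaurentSeries ℂ)) (hj : jqModC ℂ ∈ F)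
    (hFR : F ≤ ratioInterG (G1 M) (h1G1 M))
    (hdeg : (ℂ⟮jqModC ℂ⟯).relrank F = ((Nat.totient M * dedekindPsi M / 2 : ℕ) : Cardinal)) :
    ratioInterG (G1 M) (h1G1 M) = F :=
  le_antisymm (fun _ hx => ratio_Gamma1_le M hM F hj (fun _ hy => hFR hy) hdeg hx) hFR

/-- the constructor in the shape consumers have: two modular forms on `Γ₁(M)` (Mathlib
coercion of `CongruenceSubgroup.Gamma1 M` to `GL(2,ℝ)`) of the same weight. -/
theorem isRatioG_Gamma1_of_forms (M : ℕ) {k : ℤ}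
    (A E : ModularForm ((Gamma1 M : Subgroup SL(2, ℤ)) : Subgroup (GL (Fin 2) ℝ)) k) (hE : E ≠ 0)
    {x : LaurentSeries ℂ}
    (h : x * HahnSeries.ofPowerSeries ℤ ℂ (UpperHalfPlane.qExpansion 1 E)
      = HahnSeries.ofPowerSeries ℤ ℂ (UpperHalfPlane.qExpansion 1 A)) : IsRatioG (G1 M) x :=
  ⟨k, A, E, hE, h⟩

end Fermat.Agent.S48.helper288
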