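import Mathlib
import Fermat.Agent.S48.helper288_RatioG
import Fermat.Agent.S24.helper1704_QDict
import Fermat.Agent.S24.helper580_HolMer

/-!
# S48 / M3: from the series-level field of ratios to the `Mer`-level statement `RatioIn`

The TH4 assembly for a general group `Γ` consumes: for two modular forms `G`, `E ≠ 0` of the same
weight on `Γ` there is an element `x` of the complex function field with `ev x * [E] = [G]` in
the field `Mer` of meromorphic functions on `ℍ`.  This file derives it from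

* the series-level membership (RATIO1: every ratio of `q`-expansions of modular forms on `Γ` is
  the `q`-series of an element of the function field), and
* the compatibility of the evaluation with `q`-expansions (every element is `a / b` with `a`, `b`
  holomorphic with Laurent expansions at `i∞`).

Main results: `hasQ_modularForm`, `mul_eq_mul_of_hasQ` (function level), `exists_ev_mul_eq`
(`Mer` level, one pair of forms), `ratioIn_of_evalDatum` (the Prop `RatioIn`).
-/

set_option autoImplicit false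

open UpperHalfPlane ModularForm
open scoped MatrixGroups Manifold

namespace Fermat.Agent.S48.helper288

open Fermat.Agent.S24.helper1704 (HasQ)
open Fermat.Agent.S24.helper580 (Hol Mer)

local notation "ι" => HahnSeries.ofPowerSeries ℤ ℂ

/-- A modular form on a group with strict period `1` has its `q`-expansion as Laurent expansion
at `i∞` (in the sense of the S24 dictionary `HasQ`). -/
theorem hasQ_modularForm {𝒢 : Subgroup (GL (Fin 2) ℝ)} {k : ℤ}
    (h1 : (1 : ℝ) ∈ 𝒢.strictPeriods) (E : ModularForm 𝒢 k) :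
    HasQ 1 (⇑E) (ι (qExpansion 1 E)) := by
  have hcusp : Fact (IsCusp OnePoint.infty 𝒢) := ⟨𝒢.isCusp_of_mem_strictPeriods one_pos h1⟩
  have hnice : Fermat.Agent.S24.helper1704.IsNice 1 (⇑E) :=
    ⟨SlashInvariantFormClass.periodic_comp_ofComplex E h1, ModularFormClass.holo E,
      ModularFormClass.bdd_at_infty E⟩
  have e : Fermat.Agent.S24.helper1704.qf 1 ^ 0 * (⇑E : ℍ → ℂ) = ⇑E := by
    rw [pow_zero, one_mul]
  refine ⟨0, by rw [e]; exact hnice, ?_⟩
  rw [e, Nat.cast_zero, HahnSeries.single_zero_one, one_mul]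

/-- **Function-level core.**  If `a`, `b` are functions on `ℍ` with Laurent expansions `A`, `B`
at `i∞`, `x * B = A`, and `x * qexp E = qexp G` for two modular forms `G`, `E`, then
`a * E = b * G` as functions on `ℍ`. -/
theorem mul_eq_mul_of_hasQ {𝒢 : Subgroup (GL (Fin 2) ℝ)} {k : ℤ}
    (h1 : (1 : ℝ) ∈ 𝒢.strictPeriods) (G E : ModularForm 𝒢 k)
    {a b : ℍ → ℂ} {A B x : LaurentSeries ℂ} (ha : HasQ 1 a A) (hb : HasQ 1 b B)
    (hxB : x * B = A) (hxE : x * ι (qExpansion 1 E) = ι (qExpansion 1 G)) :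
    a * (⇑E : ℍ → ℂ) = b * (⇑G : ℍ → ℂ) := by
  have h2 : HasQ 1 (a * (⇑E : ℍ → ℂ)) (A * ι (qExpansion 1 E)) :=
    ha.mul one_pos (hasQ_modularForm h1 E)
  have h3 : HasQ 1 (b * (⇑G : ℍ → ℂ)) (B * ι (qExpansion 1 G)) :=
    hb.mul one_pos (hasQ_modularForm h1 G)
  have h4 : A * ι (qExpansion 1 E) = B * ι (qExpansion 1 G) := by
    rw [← hxB, ← hxE]
    ring
  rw [h4] at h2
  exact HasQ.eq_of_eq one_pos h2 h3

/-- A modular form as an element of `Hol`. -/
noncomputable def formHol {𝒢 : Subgroup (GL (Fin 2) ℝ)} {k : ℤ} (E : ModularForm 𝒢 k) : Hol :=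
  ⟨⇑E, E.holo'⟩

@[simp] theorem coe_formHol {𝒢 : Subgroup (GL (Fin 2) ℝ)} {k : ℤ} (E : ModularForm 𝒢 k) :
    ((formHol E : Hol) : ℍ → ℂ) = ⇑E := rfl

theorem formHol_ne_zero {𝒢 : Subgroup (GL (Fin 2) ℝ)} {k : ℤ} {E : ModularForm 𝒢 k}
    (hE : E ≠ 0) : formHol E ≠ 0 := by
  intro h
  apply hE
  ext τ
  have := congrArg (fun f : Hol => (f : ℍ → ℂ) τ) h
  simpa using this

/-- **`Mer`-level form, one pair.**  `evy : Mer` is the evaluation of an element whose `q`-series
is `x`, presented as `evy * [b] = [a]` with `a`, `b` holomorphic with Laurent expansions `A`, `B`,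
`x * B = A`.  If `x * qexp E = qexp G` then `evy * [E] = [G]`. -/
theorem ev_mul_eq_of_hasQ {𝒢 : Subgroup (GL (Fin 2) ℝ)} {k : ℤ}
    (h1 : (1 : ℝ) ∈ 𝒢.strictPeriods) (G E : ModularForm 𝒢 k)
    {a b : Hol} (hb0 : b ≠ 0) {A B x : LaurentSeries ℂ}
    (ha : HasQ 1 (a : ℍ → ℂ) A) (hb : HasQ 1 (b : ℍ → ℂ) B)
    (hxB : x * B = A) (hxE : x * ι (qExpansion 1 E) = ι (qExpansion 1 G))
    {evy : Mer} (hev : evy * algebraMap Hol Mer b = algebraMap Hol Mer a) :
    evy * algebraMap Hol Mer (formHol E) = algebraMap Hol Mer (formHol G) := by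
  have hfun : (a : ℍ → ℂ) * (⇑E : ℍ → ℂ) = (b : ℍ → ℂ) * (⇑G : ℍ → ℂ) :=
    mul_eq_mul_of_hasQ h1 G E ha hb hxB hxE
  have hHol : a * formHol E = b * formHol G := Subtype.ext hfun
  have hinj : Function.Injective (algebraMap Hol Mer) := IsFractionRing.injective Hol Mer
  have hbM : algebraMap Hol Mer b ≠ 0 := by
    rw [Ne, ← map_zero (algebraMap Hol Mer)]
    exact fun h => hb0 (hinj h)
  have h2 : algebraMap Hol Mer b * (evy * algebraMap Hol Mer (formHol E))
      = algebraMap Hol Mer b * algebraMap Hol Mer (formHol G) := by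
    rw [← map_mul, ← hHol, map_mul, ← hev]
    ring
  exact mul_left_cancel₀ hbM h2

/-- **(RATIOIN), carrier-generic.**  `FC` any field with an evaluation `evC : FC → Mer` and a
`q`-series map `qs : FC → ℂ((q))` such that
* (membership, RATIO1) every ratio of `q`-expansions of two modular forms of the same weight on
  `𝒢` is `qs y` for some `y : FC`;
* (evaluation, EVAL1) every `y : FC` is `a / b` with `a`, `b` holomorphic on `ℍ` having Laurent
  expansions `A`, `B` at `i∞`, with `qs y * B = A` and `evC y * [b] = [a]`.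
Then for all modular forms `G`, `E ≠ 0` of the same weight on `𝒢` there is `x : FC` with
`evC x * [E] = [G]` in `Mer`. -/
theorem ratioIn_of_evalDatum {𝒢 : Subgroup (GL (Fin 2) ℝ)}
    (h1 : (1 : ℝ) ∈ 𝒢.strictPeriods) {FC : Type*} (evC : FC → Mer) (qs : FC → LaurentSeries ℂ)
    (hmem : ∀ x : LaurentSeries ℂ, IsRatioG 𝒢 x → ∃ y : FC, qs y = x)
    (heval : ∀ y : FC, ∃ a b : Hol, b ≠ 0 ∧ ∃ A B : LaurentSeries ℂ,
      HasQ 1 (a : ℍ → ℂ) A ∧ HasQ 1 (b : ℍ → ℂ) B ∧ qs y * B = A ∧
        evC y * algebraMap Hol Mer b = algebraMap Hol Mer a)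
    (k : ℤ) (G E : ModularForm 𝒢 k) (hE : E ≠ 0) :
    ∃ x : FC, evC x * algebraMap Hol Mer (formHol E) = algebraMap Hol Mer (formHol G) := by
  have hEq : ι (qExpansion 1 E) ≠ 0 := ofPS_qExpansion_ne_zeroG h1 hE
  -- the ratio of the two `q`-expansions
  set x : LaurentSeries ℂ := ι (qExpansion 1 G) * (ι (qExpansion 1 E))⁻¹ with hx
  have hxE : x * ι (qExpansion 1 E) = ι (qExpansion 1 G) := by
    rw [hx, mul_assoc, inv_mul_cancel₀ hEq, mul_one]
  obtain ⟨y, hy⟩ := hmem x ⟨k, G, E, hE, hxE⟩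
  obtain ⟨a, b, hb0, A, B, ha, hb, hAB, hev⟩ := heval y
  rw [hy] at hAB
  exact ⟨y, ev_mul_eq_of_hasQ h1 G E hb0 ha hb hAB hxE hev⟩

/-- The same for `FC` an intermediate field of `ℂ((q)) / ℂ` (the `q`-series of an element is the
element itself), with the membership given as an inclusion of the field of ratios. -/
theorem ratioIn_of_evalDatum_interm {𝒢 : Subgroup (GL (Fin 2) ℝ)}
    (h1 : (1 : ℝ) ∈ 𝒢.strictPeriods) (F : IntermediateField ℂ (LaurentSeries ℂ))
    (evC : F → Mer)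
    (hmem : ∀ x : LaurentSeries ℂ, IsRatioG 𝒢 x → x ∈ F)
    (heval : ∀ y : F, ∃ a b : Hol, b ≠ 0 ∧ ∃ A B : LaurentSeries ℂ,
      HasQ 1 (a : ℍ → ℂ) A ∧ HasQ 1 (b : ℍ → ℂ) B ∧ (y : LaurentSeries ℂ) * B = A ∧
        evC y * algebraMap Hol Mer b = algebraMap Hol Mer a)
    (k : ℤ) (G E : ModularForm 𝒢 k) (hE : E ≠ 0) :
    ∃ x : F, evC x * algebraMap Hol Mer (formHol E) = algebraMap Hol Mer (formHol G) :=
  ratioIn_of_evalDatum h1 evC (fun y => (y : LaurentSeries ℂ))
    (fun x hx => ⟨⟨x, hmem x hx⟩, rfl⟩) heval k G E hE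

/-- Converse direction of the dictionary, useful to PRODUCE the evaluation hypothesis on
generators: if `x * qexp E = qexp G` and `E` has no zero on `ℍ`, then the holomorphic function
`G / E` has Laurent expansion `x` at `i∞`. -/
theorem hasQ_div_of_ne_zero {𝒢 : Subgroup (GL (Fin 2) ℝ)} {k : ℤ}
    (h1 : (1 : ℝ) ∈ 𝒢.strictPeriods) (G E : ModularForm 𝒢 k) (hE0 : ∀ τ : ℍ, E τ ≠ 0)
    {x : LaurentSeries ℂ} (hxE : x * ι (qExpansion 1 E) = ι (qExpansion 1 G))
    {f : ℍ → ℂ} {L : LaurentSeries ℂ} (hf : HasQ 1 f L) (hL : L = x) :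
    f = fun τ => G τ / E τ := by
  subst hL
  have h2 : HasQ 1 (f * (⇑E : ℍ → ℂ)) (L * ι (qExpansion 1 E)) :=
    hf.mul one_pos (hasQ_modularForm h1 E)
  rw [hxE] at h2
  have h3 := HasQ.eq_of_eq one_pos h2 (hasQ_modularForm h1 G)
  funext τ
  have h4 := congrFun h3 τ
  simp only [Pi.mul_apply] at h4
  rw [← h4, mul_div_cancel_right₀ _ (hE0 τ)]

end Fermat.Agent.S48.helper288
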