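import Fermat.Agent.S48.helper5288_WpQExp

/-!
# S48 leaf A1, part 2: expansions of `℘`, `℘'` at the division points `(r τ + s)/M` (helper5288)

For a Mathlib `PeriodPair` `L` with `L.ω₁ = 1`, `τ := L.ω₂` in the upper half plane, integers
`0 < r < M` and `s`, with `Q = exp(2πiτ/M)` and `ζ = exp(2πis/M)`:

* `hasSum_weierstrassP_cusp` :
  `(2πi)⁻² ℘((rτ+s)/M) = 1/12 + ∑_{N ≥ 1} (∑_{d ∣ N} d ([N/d ≡ r] ζ^d + [N/d ≡ -r] ζ^{-d}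
    - 2 [M ∣ N/d])) Q^N`;
* `hasSum_derivWeierstrassP_cusp` :
  `(2πi)⁻³ ℘'((rτ+s)/M) = ∑_{N ≥ 1} (∑_{d ∣ N} d² ([N/d ≡ r] ζ^d - [N/d ≡ -r] ζ^{-d})) Q^N`;
* `hasSum_prod_weierstrassP_cusp`, `hasSum_prod_derivWeierstrassP_cusp` : double-series forms;
* `hasSum_qParam_weierstrassP_cusp`, `hasSum_qParam_derivWeierstrassP_cusp` : the shape
  consumed by Mathlib's `UpperHalfPlane.qExpansion_coeff_unique` with period `h = M`.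

(The case `r = 0` is `hasSum_weierstrassP_div` etc. in `helper5288_WpQExp`.)
-/

set_option autoImplicit false

open Complex Real Filter PeriodPair
open scoped Topology Nat

namespace Fermat.Agent.S48.helper5288

/-- Transport of `HasSum` along pointwise and value equalities (avoids instance-path noise). -/
theorem hasSum_of_eq {ι : Type*} {f g : ι → ℂ} {a b : ℂ} (h : HasSum f a)
    (hfg : ∀ i, g i = f i) (hab : b = a) : HasSum g b := by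
  have hgf : g = f := funext hfg
  rw [hgf, hab]
  exact h

theorem three_term_identity (a b x : ℂ) (n d : ℕ) :
    (d : ℂ) ^ 1 * (a * x ^ n) ^ d + (d : ℂ) ^ 1 * (b * x ^ n) ^ d -
        2 * ((d : ℂ) ^ 1 * (1 * x ^ n) ^ d) =
      (d : ℂ) * (a ^ d + b ^ d - 2) * x ^ (n * d) := by
  rw [mul_pow, mul_pow, mul_pow, one_pow, ← pow_mul]
  ring

theorem two_term_identity (a b x : ℂ) (n d : ℕ) :
    (d : ℂ) ^ 2 * (a * x ^ n) ^ d - (d : ℂ) ^ 2 * (b * x ^ n) ^ d =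
      (d : ℂ) ^ 2 * (a ^ d - b ^ d) * x ^ (n * d) := by
  rw [mul_pow, mul_pow, ← pow_mul]
  ring

/-- From a double sum over `(e, d)` to divisor sums, coefficients depending on both `e` and `d`. -/
theorem hasSum_divisors_of_hasSum_prod' {c : ℕ → ℕ → ℂ} {q S : ℂ}
    (h : HasSum (fun p : ℕ+ × ℕ+ ↦ c (p.1 : ℕ) (p.2 : ℕ) * q ^ ((p.1 : ℕ) * (p.2 : ℕ))) S) :
    HasSum (fun N : ℕ+ ↦ (∑ d ∈ (N : ℕ).divisors, c ((N : ℕ) / d) d) * q ^ (N : ℕ)) S := by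
  have h1 := (sigmaAntidiagonalEquivProd.hasSum_iff).mpr h
  refine HasSum.sigma h1 (fun N ↦ ?_)
  have h2 := hasSum_fintype
    (fun x : (N : ℕ).divisorsAntidiagonal ↦ c x.1.1 x.1.2 * q ^ (x.1.1 * x.1.2))
  have hval : ∑ b : (N : ℕ).divisorsAntidiagonal, c b.1.1 b.1.2 * q ^ (b.1.1 * b.1.2) =
      (∑ d ∈ (N : ℕ).divisors, c ((N : ℕ) / d) d) * q ^ (N : ℕ) := by
    rw [Finset.univ_eq_attach,
      Finset.sum_attach _ (fun x : ℕ × ℕ ↦ c x.1 x.2 * q ^ (x.1 * x.2)),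
      Nat.sum_divisorsAntidiagonal' (fun a b ↦ c a b * q ^ (a * b)), Finset.sum_mul]
    refine Finset.sum_congr rfl fun d hd ↦ ?_
    rw [Nat.div_mul_cancel (Nat.dvd_of_mem_divisors hd)]
  rw [hval] at h2
  exact h2

/-- Reindexing a double sum along the arithmetic progression `e = e₀ + (n-1) M`. -/
theorem hasSum_modEq_of_hasSum {M e₀ : ℕ} (he₀ : 0 < e₀) (he₀M : e₀ ≤ M) {F : ℕ → ℕ+ → ℂ}
    {S : ℂ} (h : HasSum (fun p : ℕ+ × ℕ+ ↦ F (((p.1 : ℕ) - 1) * M + e₀) p.2) S) :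
    HasSum (fun p : ℕ+ × ℕ+ ↦ if (p.1 : ℕ) ≡ e₀ [MOD M] then F (p.1 : ℕ) p.2 else 0) S := by
  have hM : 0 < M := lt_of_lt_of_le he₀ he₀M
  let ι : ℕ+ × ℕ+ → ℕ+ × ℕ+ := fun p ↦ (⟨((p.1 : ℕ) - 1) * M + e₀, by omega⟩, p.2)
  have hι : Function.Injective ι := by
    rintro ⟨n, d⟩ ⟨n', d'⟩ hp
    have h3 : ((n : ℕ) - 1) * M + e₀ = ((n' : ℕ) - 1) * M + e₀ :=
      congrArg (fun x : ℕ+ × ℕ+ ↦ (x.1 : ℕ)) hp
    have h2 : d = d' := congrArg Prod.snd hp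
    have h4 : (n : ℕ) - 1 = (n' : ℕ) - 1 :=
      Nat.eq_of_mul_eq_mul_right hM (Nat.add_right_cancel h3)
    have hn := n.pos
    have hn' := n'.pos
    have h5 : (n : ℕ) = (n' : ℕ) := by omega
    exact Prod.ext (PNat.eq h5) h2
  refine (hι.hasSum_iff ?_).mp ?_
  · rintro ⟨e, d⟩ hx
    have hne : ¬ ((e : ℕ) ≡ e₀ [MOD M]) := by
      intro hmod
      apply hx
      have hle : e₀ ≤ (e : ℕ) := by
        rcases he₀M.lt_or_eq with hlt | heq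
        · have h5 : (e : ℕ) % M = e₀ := by
            have h6 : (e : ℕ) % M = e₀ % M := hmod
            rw [h6, Nat.mod_eq_of_lt hlt]
          calc e₀ = (e : ℕ) % M := h5.symm
            _ ≤ e := Nat.mod_le _ _
        · have h5 : (e : ℕ) % M = 0 := by
            have h6 : (e : ℕ) % M = e₀ % M := hmod
            rw [h6, heq, Nat.mod_self]
          rw [heq]
          exact Nat.le_of_dvd e.pos (Nat.dvd_of_mod_eq_zero h5)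
      obtain ⟨t, ht⟩ := (Nat.modEq_iff_dvd' hle).mp hmod.symm
      refine ⟨(⟨t + 1, Nat.succ_pos t⟩, d), ?_⟩
      refine Prod.ext (PNat.eq ?_) rfl
      show (t + 1 - 1) * M + e₀ = (e : ℕ)
      rw [Nat.add_sub_cancel, mul_comm, ← ht]
      omega
    simp [hne]
  · have key : ((fun p : ℕ+ × ℕ+ ↦ if (p.1 : ℕ) ≡ e₀ [MOD M] then F (p.1 : ℕ) p.2 else 0) ∘ ι) =
        fun p : ℕ+ × ℕ+ ↦ F (((p.1 : ℕ) - 1) * M + e₀) p.2 := by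
      funext p
      have hmod : (((p.1 : ℕ) - 1) * M + e₀) ≡ e₀ [MOD M] := by
        show (((p.1 : ℕ) - 1) * M + e₀) % M = e₀ % M
        rw [Nat.add_mod, Nat.mul_mod_left, zero_add, Nat.mod_mod]
      exact if_pos hmod
    rw [key]
    exact h

/-- The Lambert family along an arithmetic progression of exponents. -/
theorem hasSum_lambert_modEq (k : ℕ) {M e₀ : ℕ} (he₀ : 0 < e₀) (he₀M : e₀ ≤ M) {c Q : ℂ}
    (hQ0 : Q ≠ 0) (hq : ‖Q ^ M‖ < 1) (hv : ‖c * Q ^ e₀‖ < 1) :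
    HasSum (fun p : ℕ+ × ℕ+ ↦ if (p.1 : ℕ) ≡ e₀ [MOD M] then
        ((p.2 : ℕ) : ℂ) ^ k * c ^ (p.2 : ℕ) * Q ^ ((p.1 : ℕ) * (p.2 : ℕ)) else 0)
      (∑' p : ℕ+ × ℕ+, ((p.2 : ℕ) : ℂ) ^ k *
        (c * Q ^ e₀ / Q ^ M * (Q ^ M) ^ (p.1 : ℕ)) ^ (p.2 : ℕ)) := by
  have hQM : Q ^ M ≠ 0 := pow_ne_zero _ hQ0
  have hs := summable_prod_pow_mul_pow k hq (v := c * Q ^ e₀ / Q ^ M)
    (by rwa [div_mul_cancel₀ _ hQM])
  have h := hs.hasSum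
  refine hasSum_modEq_of_hasSum he₀ he₀M
    (F := fun e d ↦ ((d : ℕ) : ℂ) ^ k * c ^ (d : ℕ) * Q ^ (e * (d : ℕ))) ?_
  convert h using 1
  funext p
  obtain ⟨m, hm⟩ : ∃ m, (p.1 : ℕ) = m + 1 := ⟨(p.1 : ℕ) - 1, by have := p.1.pos; omega⟩
  rw [hm, Nat.add_sub_cancel, pow_succ (Q ^ M) m]
  have e1 : c * Q ^ e₀ / Q ^ M * ((Q ^ M) ^ m * Q ^ M) = c * Q ^ (m * M + e₀) := by
    field_simp
    ring
  rw [e1, mul_pow, ← pow_mul, mul_assoc]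

/-- Shifting the outer index of a Lambert double series by one. -/
theorem tsum_prod_shift (k : ℕ) {u q : ℂ} (hq0 : q ≠ 0) (hq : ‖q‖ < 1) (hu : ‖u‖ < 1) :
    ∑' p : ℕ+ × ℕ+, ((p.2 : ℕ) : ℂ) ^ k * (u / q * q ^ (p.1 : ℕ)) ^ (p.2 : ℕ) =
      ∑' d : ℕ+, ((d : ℕ) : ℂ) ^ k * u ^ (d : ℕ) +
      ∑' p : ℕ+ × ℕ+, ((p.2 : ℕ) : ℂ) ^ k * (u * q ^ (p.1 : ℕ)) ^ (p.2 : ℕ) := by
  have hs := summable_prod_pow_mul_pow k hq (v := u / q) (by rwa [div_mul_cancel₀ _ hq0])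
  have hs' := summable_prod_pow_mul_pow k hq (v := u) (by
    calc ‖u * q‖ = ‖u‖ * ‖q‖ := norm_mul _ _
      _ < 1 := by nlinarith [norm_nonneg u, norm_nonneg q])
  rw [hs.tsum_prod, hs'.tsum_prod]
  set ψ : ℕ → ℂ := fun m ↦ ∑' d : ℕ+, ((d : ℕ) : ℂ) ^ k * (u * q ^ m) ^ (d : ℕ) with hψ
  have e1 : ∀ n : ℕ+, ∑' d : ℕ+, ((d : ℕ) : ℂ) ^ k * (u / q * q ^ (n : ℕ)) ^ (d : ℕ) =
      ψ ((n : ℕ) - 1) := by
    intro n
    obtain ⟨m, hm⟩ : ∃ m, (n : ℕ) = m + 1 := ⟨(n : ℕ) - 1, by have := n.pos; omega⟩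
    have e3 : u / q * q ^ (m + 1) = u * q ^ m := by
      rw [pow_succ]; field_simp
    simp only [hψ, hm, Nat.add_sub_cancel, e3]
  have hψsum : Summable ψ := by
    have h1 := hs.prod
    simp only [e1] at h1
    have h2 := (summable_pnat_iff_summable_succ (f := fun n : ℕ ↦ ψ (n - 1))).mp h1
    simpa using h2
  have e4 : ∑' n : ℕ+, ψ ((n : ℕ) - 1) = ∑' n : ℕ, ψ n := by
    rw [tsum_pnat_eq_tsum_succ (f := fun n : ℕ ↦ ψ (n - 1))]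
    simp
  have e5 : ∑' n : ℕ+, ψ (n : ℕ) = ∑' n : ℕ, ψ (n + 1) :=
    tsum_pnat_eq_tsum_succ (f := ψ)
  calc ∑' n : ℕ+, ∑' d : ℕ+, ((d : ℕ) : ℂ) ^ k * (u / q * q ^ (n : ℕ)) ^ (d : ℕ)
      = ∑' n : ℕ+, ψ ((n : ℕ) - 1) := tsum_congr e1
    _ = ∑' n : ℕ, ψ n := e4
    _ = ψ 0 + ∑' n : ℕ, ψ (n + 1) := hψsum.tsum_eq_zero_add
    _ = ∑' d : ℕ+, ((d : ℕ) : ℂ) ^ k * u ^ (d : ℕ) + ∑' n : ℕ+, ψ (n : ℕ) := by
        rw [e5]; simp [hψ]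

/-! ## Bookkeeping for the division point `(r τ + s)/M` -/

theorem cusp_point_im (τ : ℂ) (M r : ℕ) (s : ℤ) :
    (((r : ℂ) * τ + s) / M).im = (r : ℝ) * τ.im / M := by
  have h : (((r : ℂ) * τ + s) / M) = (((r : ℝ) / (M : ℝ) : ℝ) : ℂ) * τ +
      (((s : ℝ) / (M : ℝ) : ℝ) : ℂ) := by
    push_cast
    ring
  rw [h, Complex.add_im, Complex.im_ofReal_mul, Complex.ofReal_im]
  ring

theorem cusp_point_mem {τ : ℂ} (hτ : 0 < τ.im) {M r : ℕ} (hr : 0 < r) (hrM : r < M) (s : ℤ) :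
    (((r : ℂ) * τ + s) / M) ∈ Complex.integerComplement := by
  rintro ⟨n, hn⟩
  have h := congrArg Complex.im hn
  rw [cusp_point_im, Complex.intCast_im] at h
  have hM : (0 : ℝ) < M := by exact_mod_cast (lt_of_le_of_lt (Nat.zero_le r) hrM)
  have hr' : (0 : ℝ) < r := by exact_mod_cast hr
  have : 0 < (r : ℝ) * τ.im / M := by positivity
  linarith

theorem cusp_point_abs_im_lt {τ : ℂ} (hτ : 0 < τ.im) {M r : ℕ} (hrM : r < M) (s : ℤ) :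
    |(((r : ℂ) * τ + s) / M).im| < τ.im := by
  rw [cusp_point_im]
  have hM : (0 : ℝ) < M := by exact_mod_cast (lt_of_le_of_lt (Nat.zero_le r) hrM)
  have hr' : (0 : ℝ) ≤ r := by exact_mod_cast Nat.zero_le r
  have hrM' : (r : ℝ) < M := by exact_mod_cast hrM
  rw [abs_of_nonneg (by positivity), div_lt_iff₀ hM]
  nlinarith

theorem cusp_cexp_point (τ : ℂ) (M r : ℕ) (s : ℤ) :
    cexp (2 * π * I * (((r : ℂ) * τ + s) / M)) =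
      cexp (2 * π * I * ((s : ℂ) / (M : ℂ))) * cexp (2 * π * I * τ / (M : ℂ)) ^ r := by
  rw [← Complex.exp_nat_mul, ← Complex.exp_add]
  congr 1
  ring

theorem cusp_cexp_tau (τ : ℂ) {M : ℕ} (hM : M ≠ 0) :
    cexp (2 * π * I * τ) = cexp (2 * π * I * τ / (M : ℂ)) ^ M := by
  rw [← Complex.exp_nat_mul]
  congr 1
  have hM' : (M : ℂ) ≠ 0 := Nat.cast_ne_zero.mpr hM
  field_simp

theorem norm_cexp_int_div (s : ℤ) (M : ℕ) : ‖cexp (2 * π * I * ((s : ℂ) / (M : ℂ)))‖ = 1 := by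
  rw [norm_cexp_two_pi_I_mul, intCast_div_natCast_im]
  simp

theorem norm_cexp_div_lt_one {τ : ℂ} (hτ : 0 < τ.im) {M : ℕ} (hM : M ≠ 0) :
    ‖cexp (2 * π * I * τ / (M : ℂ))‖ < 1 := by
  rw [mul_div_assoc]
  apply norm_cexp_lt_one_of_im_pos
  have h : (τ / (M : ℂ)) = (((1 : ℝ) / (M : ℝ) : ℝ) : ℂ) * τ := by
    push_cast
    ring
  rw [h, Complex.im_ofReal_mul]
  have hM' : (0 : ℝ) < M := by exact_mod_cast Nat.pos_of_ne_zero hM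
  positivity

theorem modEq_sub_iff {M r e : ℕ} (hrM : r < M) :
    e ≡ M - r [MOD M] ↔ e + r ≡ 0 [MOD M] := by
  have h0 : M - r + r = M := by omega
  have hM0 : M ≡ 0 [MOD M] := (Nat.modEq_zero_iff_dvd).mpr dvd_rfl
  constructor
  · intro h
    have h1 := Nat.ModEq.add_right r h
    rw [h0] at h1
    exact h1.trans hM0
  · intro h
    have h1 : e + r ≡ M - r + r [MOD M] := by rw [h0]; exact h.trans hM0.symm
    exact Nat.ModEq.add_right_cancel' r h1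

theorem modEq_self_iff {M e : ℕ} : e ≡ M [MOD M] ↔ M ∣ e := by
  have hM0 : M ≡ 0 [MOD M] := (Nat.modEq_zero_iff_dvd).mpr dvd_rfl
  constructor
  · intro h
    exact (Nat.modEq_zero_iff_dvd).mp (h.trans hM0)
  · intro h
    exact ((Nat.modEq_zero_iff_dvd).mpr h).trans hM0.symm

/-! ## The expansions in `Q = e^{2πiτ/M}` at the division points `(r τ + s)/M`, `0 < r < M` -/

/-- Double-series form of the `Q`-expansion of `℘` at `(r τ + s)/M`, `0 < r < M`: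
`(2πi)⁻² ℘ - 1/12 = ∑_{e,d ≥ 1} d ([e ≡ r] ζ^d + [e ≡ -r] ζ^{-d} - 2 [M ∣ e]) Q^{ed}`
with `ζ = e^{2πis/M}`, `Q = e^{2πiτ/M}`. -/
theorem hasSum_prod_weierstrassP_cusp (L : PeriodPair) (h1 : L.ω₁ = 1) (hτ : 0 < L.ω₂.im)
    {M r : ℕ} (hr : 0 < r) (hrM : r < M) (s : ℤ) {ζ Q : ℂ}
    (hζ : ζ = cexp (2 * π * I * ((s : ℂ) / (M : ℂ))))
    (hQ : Q = cexp (2 * π * I * L.ω₂ / (M : ℂ))) :
    HasSum (fun p : ℕ+ × ℕ+ ↦ (((p.2 : ℕ) : ℂ) *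
        ((if (p.1 : ℕ) ≡ r [MOD M] then ζ ^ (p.2 : ℕ) else 0) +
         (if (p.1 : ℕ) + r ≡ 0 [MOD M] then ζ⁻¹ ^ (p.2 : ℕ) else 0) -
         (if M ∣ (p.1 : ℕ) then 2 else 0))) * Q ^ ((p.1 : ℕ) * (p.2 : ℕ)))
      (((2 * π * I) ^ 2)⁻¹ * ℘[L] (((r : ℂ) * L.ω₂ + s) / M) - 1 / 12) := by
  have hM : M ≠ 0 := by omega
  have hMr : 0 < M - r := by omega
  have hQ0 : Q ≠ 0 := by rw [hQ]; exact Complex.exp_ne_zero _
  have hζ0 : ζ ≠ 0 := by rw [hζ]; exact Complex.exp_ne_zero _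
  have hζn : ‖ζ‖ = 1 := by rw [hζ]; exact norm_cexp_int_div s M
  have hQn : ‖Q‖ < 1 := by rw [hQ]; exact norm_cexp_div_lt_one hτ hM
  have hqn : ‖Q ^ M‖ < 1 := by
    rw [norm_pow]; exact pow_lt_one₀ (norm_nonneg _) hQn hM
  have hQM0 : Q ^ M ≠ 0 := pow_ne_zero _ hQ0
  have hun : ‖ζ * Q ^ r‖ < 1 := by
    rw [norm_mul, hζn, one_mul, norm_pow]; exact pow_lt_one₀ (norm_nonneg _) hQn (by omega)
  have hun' : ‖ζ⁻¹ * Q ^ (M - r)‖ < 1 := by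
    rw [norm_mul, norm_inv, hζn, inv_one, one_mul, norm_pow]
    exact pow_lt_one₀ (norm_nonneg _) hQn (by omega)
  have h1n : ‖(1 : ℂ) * Q ^ M‖ < 1 := by rwa [one_mul]
  have hsplit : Q ^ M = Q ^ (M - r) * Q ^ r := by rw [← pow_add]; congr 1; omega
  have huinv : (ζ * Q ^ r)⁻¹ * Q ^ M = ζ⁻¹ * Q ^ (M - r) := by
    rw [hsplit]; field_simp
  -- the expansion in `u = ζ Q^r`, `q = Q^M`
  have hprod := hasSum_prod_weierstrassP L h1 (cusp_point_mem hτ hr hrM s)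
    (cusp_point_abs_im_lt hτ hrM s)
  rw [cusp_cexp_point, cusp_cexp_tau L.ω₂ hM, ← hζ, ← hQ] at hprod
  -- the three families
  have hS1 := summable_prod_pow_mul_pow 1 hqn (v := ζ * Q ^ r) (by
    calc ‖ζ * Q ^ r * Q ^ M‖ = ‖ζ * Q ^ r‖ * ‖Q ^ M‖ := norm_mul _ _
      _ < 1 := by nlinarith [norm_nonneg (ζ * Q ^ r), norm_nonneg (Q ^ M)])
  have hS2 := summable_prod_pow_mul_pow 1 hqn (v := (ζ * Q ^ r)⁻¹) (by rw [huinv]; exact hun')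
  have hS0 := summable_prod_pow_mul_pow 1 hqn (v := 1) h1n
  have hcomb := (hS1.hasSum.add hS2.hasSum).sub (hS0.hasSum.mul_left 2)
  have hV : ∑' p : ℕ+ × ℕ+, ((p.2 : ℕ) : ℂ) ^ 1 * (ζ * Q ^ r * (Q ^ M) ^ (p.1 : ℕ)) ^ (p.2 : ℕ) +
      ∑' p : ℕ+ × ℕ+, ((p.2 : ℕ) : ℂ) ^ 1 * ((ζ * Q ^ r)⁻¹ * (Q ^ M) ^ (p.1 : ℕ)) ^ (p.2 : ℕ) -
      2 * ∑' p : ℕ+ × ℕ+, ((p.2 : ℕ) : ℂ) ^ 1 * (1 * (Q ^ M) ^ (p.1 : ℕ)) ^ (p.2 : ℕ) =
      ((2 * π * I) ^ 2)⁻¹ * ℘[L] (((r : ℂ) * L.ω₂ + s) / M) -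
        (1 / 12 + ζ * Q ^ r / (1 - ζ * Q ^ r) ^ 2) := by
    exact HasSum.unique hcomb (hasSum_of_eq hprod (fun p ↦ three_term_identity _ _ _ _ _) rfl)
  have hX : ζ * Q ^ r / (1 - ζ * Q ^ r) ^ 2 =
      ∑' d : ℕ+, ((d : ℕ) : ℂ) ^ 1 * (ζ * Q ^ r) ^ (d : ℕ) :=
    (tsum_pnat_pow_one_mul_pow hun).symm
  -- the three Lambert families in the variable `Q`
  have hJ1 := hasSum_lambert_modEq 1 hr hrM.le (c := ζ) hQ0 hqn hun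
  rw [tsum_prod_shift 1 hQM0 hqn hun] at hJ1
  have hJ2 := hasSum_lambert_modEq 1 hMr (Nat.sub_le M r) (c := ζ⁻¹) hQ0 hqn hun'
  have e2 : ζ⁻¹ * Q ^ (M - r) / Q ^ M = (ζ * Q ^ r)⁻¹ := by
    rw [hsplit]; field_simp
  rw [e2] at hJ2
  have hJ0 := hasSum_lambert_modEq 1 (Nat.pos_of_ne_zero hM) le_rfl (c := 1) hQ0 hqn h1n
  have e0 : (1 : ℂ) * Q ^ M / Q ^ M = 1 := by field_simp
  rw [e0] at hJ0
  have hJ := (hJ1.add hJ2).sub (hJ0.mul_left 2)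
  refine hasSum_of_eq hJ (fun p ↦ ?_) ?_
  · rw [if_congr (modEq_sub_iff (e := (p.1 : ℕ)) hrM) rfl rfl,
      if_congr (modEq_self_iff (M := M) (e := (p.1 : ℕ))) rfl rfl]
    by_cases c1 : (p.1 : ℕ) ≡ r [MOD M] <;> by_cases c2 : (p.1 : ℕ) + r ≡ 0 [MOD M] <;>
      by_cases c3 : M ∣ (p.1 : ℕ) <;> simp [c1, c2, c3] <;> ring
  · linear_combination (-1 : ℂ) * hV + hX

/-- Double-series form of the `Q`-expansion of `℘'` at `(r τ + s)/M`, `0 < r < M`: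
`(2πi)⁻³ ℘' = ∑_{e,d ≥ 1} d² ([e ≡ r] ζ^d - [e ≡ -r] ζ^{-d}) Q^{ed}`. -/
theorem hasSum_prod_derivWeierstrassP_cusp (L : PeriodPair) (h1 : L.ω₁ = 1) (hτ : 0 < L.ω₂.im)
    {M r : ℕ} (hr : 0 < r) (hrM : r < M) (s : ℤ) {ζ Q : ℂ}
    (hζ : ζ = cexp (2 * π * I * ((s : ℂ) / (M : ℂ))))
    (hQ : Q = cexp (2 * π * I * L.ω₂ / (M : ℂ))) :
    HasSum (fun p : ℕ+ × ℕ+ ↦ (((p.2 : ℕ) : ℂ) ^ 2 *
        ((if (p.1 : ℕ) ≡ r [MOD M] then ζ ^ (p.2 : ℕ) else 0) -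
         (if (p.1 : ℕ) + r ≡ 0 [MOD M] then ζ⁻¹ ^ (p.2 : ℕ) else 0))) *
        Q ^ ((p.1 : ℕ) * (p.2 : ℕ)))
      (((2 * π * I) ^ 3)⁻¹ * ℘'[L] (((r : ℂ) * L.ω₂ + s) / M)) := by
  have hM : M ≠ 0 := by omega
  have hMr : 0 < M - r := by omega
  have hQ0 : Q ≠ 0 := by rw [hQ]; exact Complex.exp_ne_zero _
  have hζ0 : ζ ≠ 0 := by rw [hζ]; exact Complex.exp_ne_zero _
  have hζn : ‖ζ‖ = 1 := by rw [hζ]; exact norm_cexp_int_div s M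
  have hQn : ‖Q‖ < 1 := by rw [hQ]; exact norm_cexp_div_lt_one hτ hM
  have hqn : ‖Q ^ M‖ < 1 := by
    rw [norm_pow]; exact pow_lt_one₀ (norm_nonneg _) hQn hM
  have hQM0 : Q ^ M ≠ 0 := pow_ne_zero _ hQ0
  have hun : ‖ζ * Q ^ r‖ < 1 := by
    rw [norm_mul, hζn, one_mul, norm_pow]; exact pow_lt_one₀ (norm_nonneg _) hQn (by omega)
  have hun' : ‖ζ⁻¹ * Q ^ (M - r)‖ < 1 := by
    rw [norm_mul, norm_inv, hζn, inv_one, one_mul, norm_pow]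
    exact pow_lt_one₀ (norm_nonneg _) hQn (by omega)
  have hsplit : Q ^ M = Q ^ (M - r) * Q ^ r := by rw [← pow_add]; congr 1; omega
  have huinv : (ζ * Q ^ r)⁻¹ * Q ^ M = ζ⁻¹ * Q ^ (M - r) := by
    rw [hsplit]; field_simp
  have hprod := hasSum_prod_derivWeierstrassP L h1 (cusp_point_mem hτ hr hrM s)
    (cusp_point_abs_im_lt hτ hrM s)
  rw [cusp_cexp_point, cusp_cexp_tau L.ω₂ hM, ← hζ, ← hQ] at hprod
  have hS1 := summable_prod_pow_mul_pow 2 hqn (v := ζ * Q ^ r) (by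
    calc ‖ζ * Q ^ r * Q ^ M‖ = ‖ζ * Q ^ r‖ * ‖Q ^ M‖ := norm_mul _ _
      _ < 1 := by nlinarith [norm_nonneg (ζ * Q ^ r), norm_nonneg (Q ^ M)])
  have hS2 := summable_prod_pow_mul_pow 2 hqn (v := (ζ * Q ^ r)⁻¹) (by rw [huinv]; exact hun')
  have hcomb := hS1.hasSum.sub hS2.hasSum
  have hV : ∑' p : ℕ+ × ℕ+, ((p.2 : ℕ) : ℂ) ^ 2 * (ζ * Q ^ r * (Q ^ M) ^ (p.1 : ℕ)) ^ (p.2 : ℕ) -
      ∑' p : ℕ+ × ℕ+, ((p.2 : ℕ) : ℂ) ^ 2 * ((ζ * Q ^ r)⁻¹ * (Q ^ M) ^ (p.1 : ℕ)) ^ (p.2 : ℕ) =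
      ((2 * π * I) ^ 3)⁻¹ * ℘'[L] (((r : ℂ) * L.ω₂ + s) / M) -
        ζ * Q ^ r * (1 + ζ * Q ^ r) / (1 - ζ * Q ^ r) ^ 3 :=
    HasSum.unique hcomb (hasSum_of_eq hprod (fun p ↦ two_term_identity _ _ _ _ _) rfl)
  have hX : ζ * Q ^ r * (1 + ζ * Q ^ r) / (1 - ζ * Q ^ r) ^ 3 =
      ∑' d : ℕ+, ((d : ℕ) : ℂ) ^ 2 * (ζ * Q ^ r) ^ (d : ℕ) :=
    (tsum_pnat_pow_two_mul_pow hun).symm
  have hJ1 := hasSum_lambert_modEq 2 hr hrM.le (c := ζ) hQ0 hqn hun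
  rw [tsum_prod_shift 2 hQM0 hqn hun] at hJ1
  have hJ2 := hasSum_lambert_modEq 2 hMr (Nat.sub_le M r) (c := ζ⁻¹) hQ0 hqn hun'
  have e2 : ζ⁻¹ * Q ^ (M - r) / Q ^ M = (ζ * Q ^ r)⁻¹ := by
    rw [hsplit]; field_simp
  rw [e2] at hJ2
  have hJ := hJ1.sub hJ2
  refine hasSum_of_eq hJ (fun p ↦ ?_) ?_
  · rw [if_congr (modEq_sub_iff (e := (p.1 : ℕ)) hrM) rfl rfl]
    by_cases c1 : (p.1 : ℕ) ≡ r [MOD M] <;> by_cases c2 : (p.1 : ℕ) + r ≡ 0 [MOD M] <;>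
      simp [c1, c2]
    ring
  · linear_combination (-1 : ℂ) * hV + hX

/-! ## Power series form in `Q = e^{2πiτ/M}` -/

/-- The `N`-th coefficient in `Q = e^{2πiτ/M}` of `(2πi)⁻² ℘((rτ + s)/M; ℤ + ℤτ)`, `0 < r < M`,
as a function of `ζ = e^{2πis/M}`. -/
noncomputable def wpCuspCoeff (M r : ℕ) (ζ : ℂ) (N : ℕ) : ℂ :=
  if N = 0 then 1 / 12
  else ∑ d ∈ N.divisors, (d : ℂ) * ((if N / d ≡ r [MOD M] then ζ ^ d else 0) +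
      (if N / d + r ≡ 0 [MOD M] then ζ⁻¹ ^ d else 0) - (if M ∣ N / d then 2 else 0))

/-- The `N`-th coefficient in `Q = e^{2πiτ/M}` of `(2πi)⁻³ ℘'((rτ + s)/M; ℤ + ℤτ)`, `0 < r < M`,
as a function of `ζ = e^{2πis/M}`. -/
noncomputable def wpDerivCuspCoeff (M r : ℕ) (ζ : ℂ) (N : ℕ) : ℂ :=
  ∑ d ∈ N.divisors, (d : ℂ) ^ 2 * ((if N / d ≡ r [MOD M] then ζ ^ d else 0) -
      (if N / d + r ≡ 0 [MOD M] then ζ⁻¹ ^ d else 0))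

@[simp] theorem wpCuspCoeff_zero (M r : ℕ) (ζ : ℂ) : wpCuspCoeff M r ζ 0 = 1 / 12 := by
  simp [wpCuspCoeff]

theorem wpCuspCoeff_of_ne_zero (M r : ℕ) (ζ : ℂ) {N : ℕ} (hN : N ≠ 0) :
    wpCuspCoeff M r ζ N = ∑ d ∈ N.divisors, (d : ℂ) *
      ((if N / d ≡ r [MOD M] then ζ ^ d else 0) +
      (if N / d + r ≡ 0 [MOD M] then ζ⁻¹ ^ d else 0) - (if M ∣ N / d then 2 else 0)) := by
  simp [wpCuspCoeff, hN]

@[simp] theorem wpDerivCuspCoeff_zero (M r : ℕ) (ζ : ℂ) : wpDerivCuspCoeff M r ζ 0 = 0 := by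
  simp [wpDerivCuspCoeff]

/-- **`Q`-expansion of `℘` at `(r τ + s)/M`, `0 < r < M`** (`Q = e^{2πiτ/M}`, `ζ = e^{2πis/M}`). -/
theorem hasSum_weierstrassP_cusp (L : PeriodPair) (h1 : L.ω₁ = 1) (hτ : 0 < L.ω₂.im)
    {M r : ℕ} (hr : 0 < r) (hrM : r < M) (s : ℤ) :
    HasSum (fun N : ℕ ↦ wpCuspCoeff M r (cexp (2 * π * I * ((s : ℂ) / (M : ℂ)))) N *
        cexp (2 * π * I * L.ω₂ / (M : ℂ)) ^ N)
      (((2 * π * I) ^ 2)⁻¹ * ℘[L] (((r : ℂ) * L.ω₂ + s) / M)) := by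
  have h := hasSum_prod_weierstrassP_cusp L h1 hτ hr hrM s rfl rfl
  have h2 := hasSum_divisors_of_hasSum_prod'
    (c := fun e d ↦ (d : ℂ) *
      ((if e ≡ r [MOD M] then (cexp (2 * π * I * ((s : ℂ) / (M : ℂ)))) ^ d else 0) +
      (if e + r ≡ 0 [MOD M] then (cexp (2 * π * I * ((s : ℂ) / (M : ℂ))))⁻¹ ^ d else 0) -
      (if M ∣ e then 2 else 0))) h
  have h3 := hasSum_nat_of_hasSum_pnat
    (f := fun N : ℕ ↦ wpCuspCoeff M r (cexp (2 * π * I * ((s : ℂ) / (M : ℂ)))) N *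
        cexp (2 * π * I * L.ω₂ / (M : ℂ)) ^ N)
    (S := ((2 * π * I) ^ 2)⁻¹ * ℘[L] (((r : ℂ) * L.ω₂ + s) / M) - 1 / 12)
    (hasSum_of_eq h2 (fun N ↦ by rw [wpCuspCoeff_of_ne_zero _ _ _ N.ne_zero]) rfl)
  exact hasSum_of_eq h3 (fun _ ↦ rfl) (by simp)

/-- **`Q`-expansion of `℘'` at `(r τ + s)/M`, `0 < r < M`** (`Q = e^{2πiτ/M}`,
`ζ = e^{2πis/M}`). -/
theorem hasSum_derivWeierstrassP_cusp (L : PeriodPair) (h1 : L.ω₁ = 1) (hτ : 0 < L.ω₂.im)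
    {M r : ℕ} (hr : 0 < r) (hrM : r < M) (s : ℤ) :
    HasSum (fun N : ℕ ↦ wpDerivCuspCoeff M r (cexp (2 * π * I * ((s : ℂ) / (M : ℂ)))) N *
        cexp (2 * π * I * L.ω₂ / (M : ℂ)) ^ N)
      (((2 * π * I) ^ 3)⁻¹ * ℘'[L] (((r : ℂ) * L.ω₂ + s) / M)) := by
  have h := hasSum_prod_derivWeierstrassP_cusp L h1 hτ hr hrM s rfl rfl
  have h2 := hasSum_divisors_of_hasSum_prod'
    (c := fun e d ↦ (d : ℂ) ^ 2 *
      ((if e ≡ r [MOD M] then (cexp (2 * π * I * ((s : ℂ) / (M : ℂ)))) ^ d else 0) -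
      (if e + r ≡ 0 [MOD M] then (cexp (2 * π * I * ((s : ℂ) / (M : ℂ))))⁻¹ ^ d else 0))) h
  have h3 := hasSum_nat_of_hasSum_pnat
    (f := fun N : ℕ ↦ wpDerivCuspCoeff M r (cexp (2 * π * I * ((s : ℂ) / (M : ℂ)))) N *
        cexp (2 * π * I * L.ω₂ / (M : ℂ)) ^ N)
    (S := ((2 * π * I) ^ 3)⁻¹ * ℘'[L] (((r : ℂ) * L.ω₂ + s) / M))
    (hasSum_of_eq h2 (fun N ↦ rfl) rfl)
  exact hasSum_of_eq h3 (fun _ ↦ rfl) (by simp)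

open scoped UpperHalfPlane in
/-- The Mathlib `qExpansion`-uniqueness shape with period `h = M` for
`τ ↦ (2πi)⁻² ℘((rτ + s)/M; ℤ + ℤτ)`, `0 < r < M`. -/
theorem hasSum_qParam_weierstrassP_cusp (P : ℍ → PeriodPair) (hP1 : ∀ τ, (P τ).ω₁ = 1)
    (hP2 : ∀ τ : ℍ, (P τ).ω₂ = (τ : ℂ)) {M r : ℕ} (hr : 0 < r) (hrM : r < M) (s : ℤ) (τ : ℍ) :
    HasSum (fun N : ℕ ↦ wpCuspCoeff M r (cexp (2 * π * I * ((s : ℂ) / (M : ℂ)))) N •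
        Function.Periodic.qParam (M : ℝ) τ ^ N)
      (((2 * π * I) ^ 2)⁻¹ * ℘[P τ] (((r : ℂ) * (τ : ℂ) + s) / M)) := by
  have h := hasSum_weierstrassP_cusp (P τ) (hP1 τ) (by rw [hP2]; exact τ.2) hr hrM s
  rw [hP2] at h
  simpa [Function.Periodic.qParam, smul_eq_mul] using h

open scoped UpperHalfPlane in
/-- The Mathlib `qExpansion`-uniqueness shape with period `h = M` for
`τ ↦ (2πi)⁻³ ℘'((rτ + s)/M; ℤ + ℤτ)`, `0 < r < M`. -/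
theorem hasSum_qParam_derivWeierstrassP_cusp (P : ℍ → PeriodPair) (hP1 : ∀ τ, (P τ).ω₁ = 1)
    (hP2 : ∀ τ : ℍ, (P τ).ω₂ = (τ : ℂ)) {M r : ℕ} (hr : 0 < r) (hrM : r < M) (s : ℤ) (τ : ℍ) :
    HasSum (fun N : ℕ ↦ wpDerivCuspCoeff M r (cexp (2 * π * I * ((s : ℂ) / (M : ℂ)))) N •
        Function.Periodic.qParam (M : ℝ) τ ^ N)
      (((2 * π * I) ^ 3)⁻¹ * ℘'[P τ] (((r : ℂ) * (τ : ℂ) + s) / M)) := by
  have h := hasSum_derivWeierstrassP_cusp (P τ) (hP1 τ) (by rw [hP2]; exact τ.2) hr hrM s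
  rw [hP2] at h
  simpa [Function.Periodic.qParam, smul_eq_mul] using h

end Fermat.Agent.S48.helper5288
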