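import Mathlib

/-!
# S48 leaf A1: `q`-expansions of the Weierstrass functions at division points (helper5288)

Mathlib-only. For a Mathlib `PeriodPair` `L` with `L.ω₁ = 1` and `τ := L.ω₂` in the upper half
plane, `q = exp(2πiτ)`, and `z ∉ ℤ` with `|Im z| < Im τ`, `u = exp(2πiz)`:

* `hasSum_weierstrassP_qExp` :
  `(2πi)⁻² ℘(z) = 1/12 + u/(1-u)² + ∑_{N ≥ 1} (∑_{d ∣ N} d (u^d + u^{-d} - 2)) q^N`;
* `hasSum_derivWeierstrassP_qExp` :
  `(2πi)⁻³ ℘'(z) = u(1+u)/(1-u)³ + ∑_{N ≥ 1} (∑_{d ∣ N} d² (u^d - u^{-d})) q^N`;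
* `hasSum_prod_weierstrassP`, `hasSum_prod_derivWeierstrassP` : the same as unconditional
  double series over `(n, d) ∈ ℕ+ × ℕ+`;
* `hasSum_weierstrassP_div`, `hasSum_derivWeierstrassP_div`, `hasSum_weierstrassP_div_sub`,
  `hasSum_qParam_weierstrassP_div`, `hasSum_qParam_derivWeierstrassP_div` : the division
  points `z = a/M`, the last two in the shape consumed by Mathlib's
  `UpperHalfPlane.qExpansion_coeff_unique` and `isBoundedAtImInfty_of_hasSum_qExpansion`.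

Proof: the lattice sum is summed row by row (`hasSum_rows`); each row is evaluated by the
Lipschitz formula (Mathlib `EisensteinSeries.qExpansion_identity_pnat`), extended from the
upper half plane to all of `ℂ ∖ ℤ` by symmetry and dominated convergence
(`rowSum_eq_closed_form`).
-/

set_option autoImplicit false

open Complex Real Filter
open scoped Topology Nat

namespace Fermat.Agent.S48.helper5288

/-- Summability of `m ↦ 1/(w+m)^(k+1)` over `ℤ`, for every `w` and `k ≥ 1`. -/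
theorem summable_int_inv_pow (w : ℂ) {k : ℕ} (hk : 1 ≤ k) :
    Summable fun m : ℤ ↦ 1 / (w + m) ^ (k + 1) := by
  have h := EisensteinSeries.linear_right_summable w 1 (k := ((k + 1 : ℕ) : ℤ)) (by omega)
  simp only [zpow_natCast, Int.cast_one, one_mul] at h
  exact h.congr fun m ↦ by simp

/-- `S_{k+1}(w) = ∑_{m ∈ ℤ} 1/(w+m)^(k+1)`. -/
noncomputable def rowSum (k : ℕ) (w : ℂ) : ℂ := ∑' m : ℤ, 1 / (w + m) ^ (k + 1)

theorem hasSum_rowSum (w : ℂ) {k : ℕ} (hk : 1 ≤ k) :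
    HasSum (fun m : ℤ ↦ 1 / (w + m) ^ (k + 1)) (rowSum k w) :=
  (summable_int_inv_pow w hk).hasSum

theorem rowSum_neg (w : ℂ) (k : ℕ) : rowSum k (-w) = (-1) ^ (k + 1) * rowSum k w := by
  unfold rowSum
  rw [← (Equiv.neg ℤ).tsum_eq, ← tsum_mul_left]
  refine tsum_congr fun m ↦ ?_
  simp only [Equiv.neg_apply, Int.cast_neg]
  rw [show -w + -(m : ℂ) = -(w + m) by ring, neg_pow]
  rcases Nat.even_or_odd (k + 1) with h | h
  · simp [h.neg_one_pow]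
  · simp [h.neg_one_pow, div_neg]

theorem rowSum_of_im_pos {w : ℂ} (hw : 0 < w.im) {k : ℕ} (hk : 1 ≤ k) :
    rowSum k w = ((-2 * π * I) ^ (k + 1) / k !) *
      ∑' d : ℕ+, (d : ℂ) ^ k * cexp (2 * π * I * w) ^ (d : ℕ) :=
  EisensteinSeries.qExpansion_identity_pnat hk ⟨w, hw⟩

theorem norm_cexp_two_pi_I_mul (w : ℂ) : ‖cexp (2 * π * I * w)‖ = rexp (-(2 * π * w.im)) := by
  rw [Complex.norm_exp]
  congr 1
  simp [Complex.mul_re, Complex.mul_im]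

theorem norm_cexp_lt_one_of_im_pos {w : ℂ} (hw : 0 < w.im) : ‖cexp (2 * π * I * w)‖ < 1 := by
  rw [norm_cexp_two_pi_I_mul, Real.exp_lt_one_iff]
  have := Real.pi_pos
  nlinarith

theorem cexp_ne_one_of_mem {w : ℂ} (hw : w ∈ Complex.integerComplement) :
    cexp (2 * π * I * w) ≠ 1 := by
  intro h
  obtain ⟨n, hn⟩ := Complex.exp_eq_one_iff.mp h
  apply hw
  refine ⟨n, ?_⟩
  have h2 : (2 * π * I : ℂ) ≠ 0 := by
    simp [Real.pi_ne_zero, Complex.I_ne_zero]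
  have : (2 * π * I) * w = (2 * π * I) * n := by rw [hn]; ring
  exact (mul_left_cancel₀ h2 this).symm

/-- The closed form of the row sum on all of `ℂ ∖ ℤ`, from the closed form `R` of the
`q`-series on the unit disc: symmetry handles the lower half plane, dominated convergence
the real axis. -/
theorem rowSum_eq_closed_form {k : ℕ} (hk : 1 ≤ k) (R : ℂ → ℂ)
    (hR : ∀ u : ℂ, ‖u‖ < 1 → ∑' d : ℕ+, (d : ℂ) ^ k * u ^ (d : ℕ) = R u)
    (hRc : ∀ u : ℂ, u ≠ 1 → ContinuousAt R u)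
    (hRs : ∀ u : ℂ, u ≠ 0 → u ≠ 1 → R u⁻¹ = (-1) ^ (k + 1) * R u)
    {w : ℂ} (hw : w ∈ Complex.integerComplement) :
    rowSum k w = ((-2 * π * I) ^ (k + 1) / k !) * R (cexp (2 * π * I * w)) := by
  have hpos : ∀ v : ℂ, 0 < v.im →
      rowSum k v = ((-2 * π * I) ^ (k + 1) / k !) * R (cexp (2 * π * I * v)) := by
    intro v hv
    rw [rowSum_of_im_pos hv hk, hR _ (norm_cexp_lt_one_of_im_pos hv)]
  rcases lt_trichotomy w.im 0 with h | h | h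
  · -- lower half plane
    have hneg : 0 < (-w).im := by simpa using h
    have h1 := hpos (-w) hneg
    have h2 := rowSum_neg (-w) k
    rw [neg_neg] at h2
    rw [h2, h1]
    have hu0 : cexp (2 * π * I * w) ≠ 0 := Complex.exp_ne_zero _
    have hu1 := cexp_ne_one_of_mem hw
    have h3 : cexp (2 * π * I * -w) = (cexp (2 * π * I * w))⁻¹ := by
      rw [← Complex.exp_neg]; congr 1; ring
    rw [h3, hRs _ hu0 hu1]
    have h4 : ((-1 : ℂ) ^ (k + 1)) * (-1) ^ (k + 1) = 1 := by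
      rw [← mul_pow]; simp
    calc (-1 : ℂ) ^ (k + 1) * ((-2 * π * I) ^ (k + 1) / k ! *
          ((-1) ^ (k + 1) * R (cexp (2 * π * I * w))))
        = ((-1 : ℂ) ^ (k + 1) * (-1) ^ (k + 1)) * ((-2 * π * I) ^ (k + 1) / k ! *
          R (cexp (2 * π * I * w))) := by ring
      _ = _ := by rw [h4, one_mul]
  · -- real axis
    have hwm : ∀ m : ℤ, w + m ≠ 0 := fun m ↦ integerComplement_add_ne_zero hw m
    have hT1 : Tendsto (fun t : ℝ ↦ rowSum k (w + t * I)) (𝓝[>] 0) (𝓝 (rowSum k w)) := by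
      unfold rowSum
      refine tendsto_tsum_of_dominated_convergence
        (bound := fun m : ℤ ↦ ‖1 / (w + m) ^ (k + 1)‖)
        (summable_int_inv_pow w hk).norm ?_ ?_
      · intro m
        have hc : ContinuousAt (fun t : ℝ ↦ 1 / (w + t * I + m) ^ (k + 1)) 0 := by
          refine ContinuousAt.div continuousAt_const ?_ ?_
          · fun_prop
          · simpa using hwm m
        have := hc.tendsto
        simp only [ofReal_zero, zero_mul, add_zero] at this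
        exact this.mono_left nhdsWithin_le_nhds
      · refine Eventually.of_forall fun t m ↦ ?_
        have h1 : ‖w + m‖ ≤ ‖w + t * I + m‖ := by
          have e1 : ‖w + m‖ = |(w + m).re| := by
            rw [eq_comm, Complex.abs_re_eq_norm]; simp [h]
          have e2 : (w + m).re = (w + t * I + m).re := by simp
          rw [e1, e2]
          exact Complex.abs_re_le_norm _
        have h0 : 0 < ‖w + m‖ := norm_pos_iff.mpr (hwm m)
        rw [norm_div, norm_div, norm_pow, norm_pow, norm_one]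
        exact one_div_le_one_div_of_le (pow_pos h0 _) (pow_le_pow_left₀ h0.le h1 _)
    have hT2 : Tendsto (fun t : ℝ ↦ rowSum k (w + t * I)) (𝓝[>] 0)
        (𝓝 (((-2 * π * I) ^ (k + 1) / k !) * R (cexp (2 * π * I * w)))) := by
      have hc : ContinuousAt (fun t : ℝ ↦ ((-2 * π * I) ^ (k + 1) / k !) *
          R (cexp (2 * π * I * (w + t * I)))) 0 := by
        refine ContinuousAt.mul continuousAt_const ?_
        refine ContinuousAt.comp (g := R) ?_ (by fun_prop)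
        simpa using hRc _ (cexp_ne_one_of_mem hw)
      have h5 := hc.tendsto
      simp only [ofReal_zero, zero_mul, add_zero] at h5
      refine (h5.mono_left nhdsWithin_le_nhds).congr' ?_
      filter_upwards [self_mem_nhdsWithin] with t ht
      rw [hpos]
      simpa [h] using ht
    exact tendsto_nhds_unique hT1 hT2
  · exact hpos w h

theorem summable_pnat_pow_mul_pow (k : ℕ) {v : ℂ} (hv : ‖v‖ < 1) :
    Summable fun d : ℕ+ ↦ (d : ℂ) ^ k * v ^ (d : ℕ) :=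
  (summable_pnat_iff_summable_nat (f := fun n : ℕ ↦ (n : ℂ) ^ k * v ^ n)).mpr
    (summable_pow_mul_geometric_of_norm_lt_one k hv)

theorem tsum_pnat_pow_one_mul_pow {u : ℂ} (hu : ‖u‖ < 1) :
    ∑' d : ℕ+, (d : ℂ) ^ 1 * u ^ (d : ℕ) = u / (1 - u) ^ 2 := by
  have h := hasSum_coe_mul_geometric_of_norm_lt_one hu
  have h2 := tsum_zero_pnat_eq_tsum_nat (f := fun n : ℕ ↦ (n : ℂ) * u ^ n) h.summable
  rw [h.tsum_eq] at h2
  simpa using h2

theorem hasSum_sq_mul_geometric {u : ℂ} (hu : ‖u‖ < 1) :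
    HasSum (fun n : ℕ ↦ (n : ℂ) ^ 2 * u ^ n) (u * (1 + u) / (1 - u) ^ 3) := by
  have h2 := hasSum_choose_mul_geometric_of_norm_lt_one 2 hu
  have h1 := hasSum_choose_mul_geometric_of_norm_lt_one 1 hu
  have h0 := hasSum_geometric_of_norm_lt_one hu
  have hne : (1 - u) ≠ 0 := by
    intro h
    have : u = 1 := by linear_combination -h
    rw [this] at hu
    simp at hu
  have := ((h2.mul_left 2).sub (h1.mul_left 3)).add h0
  have hfun : (fun n : ℕ ↦ (n : ℂ) ^ 2 * u ^ n) = fun b : ℕ ↦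
      2 * (((b + 2).choose 2 : ℕ) * u ^ b) - 3 * (((b + 1).choose 1 : ℕ) * u ^ b) + u ^ b := by
    funext n
    have e2 : (((n + 2).choose 2 : ℕ) : ℂ) = (n + 2) * (n + 1) / 2 := by
      rw [Nat.cast_choose_two]; push_cast; ring
    have e1 : (((n + 1).choose 1 : ℕ) : ℂ) = n + 1 := by simp
    rw [e2, e1]; ring
  have hval : u * (1 + u) / (1 - u) ^ 3 =
      2 * (1 / (1 - u) ^ (2 + 1)) - 3 * (1 / (1 - u) ^ (1 + 1)) + (1 - u)⁻¹ := by
    field_simp; ring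
  rw [hfun, hval]; exact this

theorem tsum_pnat_pow_two_mul_pow {u : ℂ} (hu : ‖u‖ < 1) :
    ∑' d : ℕ+, (d : ℂ) ^ 2 * u ^ (d : ℕ) = u * (1 + u) / (1 - u) ^ 3 := by
  have h := hasSum_sq_mul_geometric hu
  have h2 := tsum_zero_pnat_eq_tsum_nat (f := fun n : ℕ ↦ (n : ℂ) ^ 2 * u ^ n) h.summable
  rw [h.tsum_eq] at h2
  simpa using h2

/-- Summability of the double series `d^k (v qⁿ)^d` over `n, d ≥ 1`. -/
theorem summable_prod_pow_mul_pow (k : ℕ) {v q : ℂ} (hq : ‖q‖ < 1) (hvq : ‖v * q‖ < 1) :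
    Summable fun p : ℕ+ × ℕ+ ↦ (p.2 : ℂ) ^ k * (v * q ^ (p.1 : ℕ)) ^ (p.2 : ℕ) := by
  set ρ : ℝ := max ‖q‖ ‖v * q‖ with hρ
  have hρ0 : 0 ≤ ρ := le_max_of_le_left (norm_nonneg _)
  have hρ1 : ρ < 1 := max_lt hq hvq
  have hs := summable_prod_mul_pow (𝕜 := ℝ) k (r := ρ) (by rwa [Real.norm_of_nonneg hρ0])
  refine Summable.of_norm_bounded hs fun p ↦ ?_
  have hn : ‖v * q ^ (p.1 : ℕ)‖ ≤ ρ ^ (p.1 : ℕ) := by
    obtain ⟨n', hn'⟩ : ∃ n', (p.1 : ℕ) = n' + 1 := ⟨(p.1 : ℕ) - 1, by have := p.1.pos; omega⟩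
    rw [hn', pow_succ, ← mul_assoc, mul_right_comm, norm_mul, norm_pow, pow_succ, mul_comm (ρ ^ n')]
    exact mul_le_mul (le_max_right _ _) (pow_le_pow_left₀ (norm_nonneg _) (le_max_left _ _) _)
      (by positivity) hρ0
  rw [norm_mul, norm_pow, norm_pow, Complex.norm_natCast, pow_mul]
  exact mul_le_mul_of_nonneg_left (pow_le_pow_left₀ (norm_nonneg _) hn _) (by positivity)

/-- From the double sum over `n, d ≥ 1` to the sum over `N = n d` with divisor-sum coefficients. -/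
theorem hasSum_divisors_of_hasSum_prod {c : ℕ → ℂ} {q S : ℂ}
    (h : HasSum (fun p : ℕ+ × ℕ+ ↦ c (p.2 : ℕ) * q ^ ((p.1 : ℕ) * (p.2 : ℕ))) S) :
    HasSum (fun N : ℕ+ ↦ (∑ d ∈ (N : ℕ).divisors, c d) * q ^ (N : ℕ)) S := by
  have h1 := (sigmaAntidiagonalEquivProd.hasSum_iff).mpr h
  refine HasSum.sigma h1 (fun N ↦ ?_)
  have h2 := hasSum_fintype
    (fun x : (N : ℕ).divisorsAntidiagonal ↦ c x.1.2 * q ^ (x.1.1 * x.1.2))
  have hval : ∑ b : (N : ℕ).divisorsAntidiagonal, c b.1.2 * q ^ (b.1.1 * b.1.2) =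
      (∑ d ∈ (N : ℕ).divisors, c d) * q ^ (N : ℕ) := by
    rw [Finset.univ_eq_attach,
      Finset.sum_attach _ (fun x : ℕ × ℕ ↦ c x.2 * q ^ (x.1 * x.2)),
      Nat.sum_divisorsAntidiagonal' (fun a b ↦ c b * q ^ (a * b)), Finset.sum_mul]
    refine Finset.sum_congr rfl fun d hd ↦ ?_
    rw [Nat.div_mul_cancel (Nat.dvd_of_mem_divisors hd)]
  rw [hval] at h2
  exact h2

theorem hasSum_nat_of_hasSum_pnat {f : ℕ → ℂ} {S : ℂ} (h : HasSum (fun N : ℕ+ ↦ f N) S) :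
    HasSum f (f 0 + S) := by
  have h1 := (Equiv.pnatEquivNat.symm.hasSum_iff).mpr h
  have h2 : HasSum (fun n : ℕ ↦ f (n + 1)) S := h1
  exact (hasSum_nat_add_iff' (f := f) (g := f 0 + S) 1).mp (by simpa using h2)


/-! ## Closed forms of the row sums -/

theorem rowSum_one {w : ℂ} (hw : w ∈ Complex.integerComplement) :
    rowSum 1 w = (2 * π * I) ^ 2 *
      (cexp (2 * π * I * w) / (1 - cexp (2 * π * I * w)) ^ 2) := by
  have h := rowSum_eq_closed_form (k := 1) le_rfl (fun u ↦ u / (1 - u) ^ 2)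
    (fun u hu ↦ tsum_pnat_pow_one_mul_pow hu)
    (fun u hu ↦ by
      have : (1 - u) ^ 2 ≠ 0 := pow_ne_zero _ (sub_ne_zero.mpr (Ne.symm hu))
      fun_prop (disch := exact this))
    (fun u hu0 hu1 ↦ by
      have h1 : 1 - u ≠ 0 := sub_ne_zero.mpr (Ne.symm hu1)
      have h2 : 1 - u⁻¹ ≠ 0 := by
        rw [sub_ne_zero]; intro h; apply hu1; rw [← inv_inv u, ← h, inv_one]
      field_simp
      ring) hw
  rw [h]
  simp only [Nat.factorial_one, Nat.cast_one, div_one]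
  ring

theorem rowSum_two {w : ℂ} (hw : w ∈ Complex.integerComplement) :
    rowSum 2 w = -((2 * π * I) ^ 3 / 2) *
      (cexp (2 * π * I * w) * (1 + cexp (2 * π * I * w)) / (1 - cexp (2 * π * I * w)) ^ 3) := by
  have h := rowSum_eq_closed_form (k := 2) one_le_two (fun u ↦ u * (1 + u) / (1 - u) ^ 3)
    (fun u hu ↦ tsum_pnat_pow_two_mul_pow hu)
    (fun u hu ↦ by
      have : (1 - u) ^ 3 ≠ 0 := pow_ne_zero _ (sub_ne_zero.mpr (Ne.symm hu))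
      fun_prop (disch := exact this))
    (fun u hu0 hu1 ↦ by
      have h1 : 1 - u ≠ 0 := sub_ne_zero.mpr (Ne.symm hu1)
      have h2 : 1 - u⁻¹ ≠ 0 := by
        rw [sub_ne_zero]; intro h; apply hu1; rw [← inv_inv u, ← h, inv_one]
      field_simp
      ring) hw
  rw [h]
  simp only [Nat.factorial_two, Nat.cast_ofNat]
  ring

theorem rowSum_one_zero : rowSum 1 0 = (π : ℂ) ^ 2 / 3 := by
  have h := two_mul_riemannZeta_eq_tsum_int_inv_pow_of_even (k := 2) le_rfl even_two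
  rw [show ((2 : ℕ) : ℂ) = 2 by norm_num, riemannZeta_two] at h
  unfold rowSum
  simp only [zero_add, one_div, Nat.reduceAdd]
  rw [← h]
  ring

theorem rowSum_shift {k : ℕ} (hk : 1 ≤ k) {τ w : ℂ} (n : ℕ) (h : 0 < (n * τ + w).im) :
    rowSum k (n * τ + w) = ((-2 * π * I) ^ (k + 1) / k !) *
      ∑' d : ℕ+, (d : ℂ) ^ k * (cexp (2 * π * I * w) * cexp (2 * π * I * τ) ^ n) ^ (d : ℕ) := by
  rw [rowSum_of_im_pos h hk]
  have : cexp (2 * π * I * (n * τ + w)) = cexp (2 * π * I * w) * cexp (2 * π * I * τ) ^ n := by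
    rw [← Complex.exp_nat_mul, ← Complex.exp_add]
    congr 1
    ring
  rw [this]

/-! ## Row decomposition of the lattice sums -/

open PeriodPair

/-- Row decomposition of a lattice sum for a period pair `(1, τ)`. -/
theorem hasSum_rows (L : PeriodPair) (h1 : L.ω₁ = 1) {f : ℂ → ℂ} {a : ℂ} {g : ℤ → ℂ}
    (hf : HasSum (fun l : L.lattice ↦ f l) a)
    (hrow : ∀ n : ℤ, HasSum (fun m : ℤ ↦ f (m + n * L.ω₂)) (g n)) : HasSum g a := by
  let e : ℤ × ℤ ≃ L.lattice := (Equiv.prodComm ℤ ℤ).trans L.latticeEquivProd.symm.toEquiv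
  have h2 := (e.hasSum_iff).mpr hf
  refine HasSum.prod_fiberwise h2 (fun n ↦ ?_)
  have key : (fun m : ℤ ↦ ((fun l : L.lattice ↦ f l) ∘ e) (n, m)) =
      fun m : ℤ ↦ f (m + n * L.ω₂) := by
    funext m
    simp [e, L.latticeEquiv_symm_apply, h1]
  rw [key]
  exact hrow n

theorem hasSum_pnat_of_hasSum_int {g : ℤ → ℂ} {a : ℂ} (h : HasSum g a) :
    HasSum (fun n : ℕ+ ↦ g ((n : ℕ) : ℤ) + g (-((n : ℕ) : ℤ))) (a - g 0) := by
  have h1 := h.nat_add_neg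
  have h2 := (hasSum_nat_add_iff' (f := fun n : ℕ ↦ g n + g (-n)) (g := a + g 0) 1).mpr h1
  have h3 : HasSum (fun n : ℕ ↦ g ((n + 1 : ℕ) : ℤ) + g (-((n + 1 : ℕ) : ℤ))) (a - g 0) := by
    have e : a + g 0 - ∑ i ∈ Finset.range 1, (g (i : ℤ) + g (-(i : ℤ))) = a - g 0 := by
      rw [Finset.sum_range_one]; simp
    rw [← e]; exact h2
  exact (Equiv.pnatEquivNat.symm.hasSum_iff
    (f := fun n : ℕ+ ↦ g ((n : ℕ) : ℤ) + g (-((n : ℕ) : ℤ)))).mp h3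

theorem hasSum_int_weierstrassP (L : PeriodPair) (h1 : L.ω₁ = 1) (z : ℂ) :
    HasSum (fun n : ℤ ↦ rowSum 1 (n * L.ω₂ - z) - rowSum 1 (n * L.ω₂)) (℘[L] z) := by
  refine hasSum_rows L h1 (f := fun l ↦ 1 / (z - l) ^ 2 - 1 / l ^ 2)
    (L.hasSum_weierstrassP z) (fun n ↦ ?_)
  have ha := hasSum_rowSum (n * L.ω₂ - z) (k := 1) le_rfl
  have hb := hasSum_rowSum (n * L.ω₂) (k := 1) le_rfl
  have key : (fun m : ℤ ↦ 1 / (z - (m + n * L.ω₂)) ^ 2 - 1 / ((m : ℂ) + n * L.ω₂) ^ 2) =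
      fun m : ℤ ↦ 1 / (n * L.ω₂ - z + m) ^ (1 + 1) - 1 / (n * L.ω₂ + m) ^ (1 + 1) := by
    funext m
    rw [show (z - (m + n * L.ω₂)) ^ 2 = (n * L.ω₂ - z + m) ^ (1 + 1) by ring,
      show ((m : ℂ) + n * L.ω₂) ^ 2 = (n * L.ω₂ + m) ^ (1 + 1) by ring]
  rw [key]
  exact ha.sub hb

theorem hasSum_int_derivWeierstrassP (L : PeriodPair) (h1 : L.ω₁ = 1) (z : ℂ) :
    HasSum (fun n : ℤ ↦ 2 * rowSum 2 (n * L.ω₂ - z)) (℘'[L] z) := by
  refine hasSum_rows L h1 (f := fun l ↦ -2 / (z - l) ^ 3)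
    (L.hasSum_derivWeierstrassP z) (fun n ↦ ?_)
  have ha := hasSum_rowSum (n * L.ω₂ - z) (k := 2) one_le_two
  have key : (fun m : ℤ ↦ -2 / (z - (m + n * L.ω₂)) ^ 3) =
      fun m : ℤ ↦ 2 * (1 / (n * L.ω₂ - z + m) ^ (2 + 1)) := by
    funext m
    rw [show (z - (m + n * L.ω₂)) ^ 3 = -(n * L.ω₂ - z + m) ^ (2 + 1) by ring]
    rw [div_neg, neg_div, neg_neg]
    ring
  rw [key]
  exact ha.mul_left 2

/-! ## The `q`-expansion of `℘` -/

theorem norm_cexp_mul_lt_one {w τ : ℂ} (h : 0 < (τ + w).im) :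
    ‖cexp (2 * π * I * w) * cexp (2 * π * I * τ)‖ < 1 := by
  rw [← Complex.exp_add, ← mul_add, add_comm w τ]
  exact norm_cexp_lt_one_of_im_pos h

/-- The double-series form of the `q`-expansion of `℘` for the lattice `ℤ + ℤτ`
(`ω₁ = 1`, `ω₂ = τ`), valid for every `z ∉ ℤ` with `|Im z| < Im τ`. -/
theorem hasSum_prod_weierstrassP (L : PeriodPair) (h1 : L.ω₁ = 1) {z : ℂ}
    (hz : z ∈ Complex.integerComplement) (hzτ : |z.im| < L.ω₂.im) :
    HasSum (fun p : ℕ+ × ℕ+ ↦ (((p.2 : ℕ) : ℂ) * (cexp (2 * π * I * z) ^ (p.2 : ℕ) +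
        (cexp (2 * π * I * z))⁻¹ ^ (p.2 : ℕ) - 2)) *
        cexp (2 * π * I * L.ω₂) ^ ((p.1 : ℕ) * (p.2 : ℕ)))
      (((2 * π * I) ^ 2)⁻¹ * ℘[L] z -
        (1 / 12 + cexp (2 * π * I * z) / (1 - cexp (2 * π * I * z)) ^ 2)) := by
  set τ := L.ω₂ with hτdef
  set u := cexp (2 * π * I * z) with hu
  set q := cexp (2 * π * I * τ) with hq
  have hτ : 0 < τ.im := lt_of_le_of_lt (abs_nonneg _) hzτ
  have hz1 : -τ.im < z.im := (abs_lt.mp hzτ).1
  have hz2 : z.im < τ.im := (abs_lt.mp hzτ).2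
  have hC : ((2 * π * I : ℂ) ^ 2) ≠ 0 := by
    simp [Real.pi_ne_zero, Complex.I_ne_zero]
  have hu0 : u ≠ 0 := Complex.exp_ne_zero _
  have huinv : cexp (2 * π * I * -z) = u⁻¹ := by
    rw [hu, ← Complex.exp_neg]; congr 1; ring
  have hq1 : ‖q‖ < 1 := norm_cexp_lt_one_of_im_pos hτ
  have huq : ‖u * q‖ < 1 := norm_cexp_mul_lt_one (by simp; linarith)
  have huq' : ‖u⁻¹ * q‖ < 1 := by
    rw [← huinv]; exact norm_cexp_mul_lt_one (by simp; linarith)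
  have h1q : ‖(1 : ℂ) * q‖ < 1 := by simpa using hq1
  -- the three summable double families
  have hS1 := summable_prod_pow_mul_pow 1 hq1 huq
  have hS2 := summable_prod_pow_mul_pow 1 hq1 huq'
  have hS0 := summable_prod_pow_mul_pow 1 hq1 h1q
  set A : ℕ+ × ℕ+ → ℂ := fun p ↦
    (((p.2 : ℕ) : ℂ) ^ 1 * (u⁻¹ * q ^ (p.1 : ℕ)) ^ (p.2 : ℕ) -
      ((p.2 : ℕ) : ℂ) ^ 1 * (1 * q ^ (p.1 : ℕ)) ^ (p.2 : ℕ)) +
    (((p.2 : ℕ) : ℂ) ^ 1 * (u * q ^ (p.1 : ℕ)) ^ (p.2 : ℕ) -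
      ((p.2 : ℕ) : ℂ) ^ 1 * (1 * q ^ (p.1 : ℕ)) ^ (p.2 : ℕ)) with hA
  have hAs : Summable A := (hS2.sub hS0).add (hS1.sub hS0)
  -- rows
  set g : ℤ → ℂ := fun n ↦ rowSum 1 (n * τ - z) - rowSum 1 (n * τ) with hg
  have hgsum : HasSum g (℘[L] z) := hasSum_int_weierstrassP L h1 z
  have hp := hasSum_pnat_of_hasSum_int hgsum
  have hg0 : g 0 = (2 * π * I) ^ 2 * (u / (1 - u) ^ 2) - (π : ℂ) ^ 2 / 3 := by
    simp only [hg, Int.cast_zero, zero_mul, zero_sub]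
    rw [rowSum_neg, rowSum_one hz, rowSum_one_zero, ← hu]
    norm_num
  have hrow : ∀ n : ℕ+, g ((n : ℕ) : ℤ) + g (-((n : ℕ) : ℤ)) =
      (2 * π * I) ^ 2 * ∑' d : ℕ+, A (n, d) := by
    intro n
    have hn1 : (1 : ℝ) ≤ ((n : ℕ) : ℝ) := by exact_mod_cast n.pos
    have hnτ : τ.im ≤ ((n : ℕ) : ℝ) * τ.im := by nlinarith
    have e1 : rowSum 1 (((n : ℕ) : ℂ) * τ + -z) = _ :=
      rowSum_shift (k := 1) le_rfl (τ := τ) (w := -z) (n : ℕ) (by simp; linarith)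
    have e2 : rowSum 1 (((n : ℕ) : ℂ) * τ + z) = _ :=
      rowSum_shift (k := 1) le_rfl (τ := τ) (w := z) (n : ℕ) (by simp; linarith)
    have e0 : rowSum 1 (((n : ℕ) : ℂ) * τ + 0) = _ :=
      rowSum_shift (k := 1) le_rfl (τ := τ) (w := 0) (n : ℕ) (by simp; linarith)
    rw [huinv, ← hq] at e1
    rw [← hu, ← hq] at e2
    rw [mul_zero, Complex.exp_zero, ← hq, add_zero] at e0
    have hg1 : g ((n : ℕ) : ℤ) = rowSum 1 (((n : ℕ) : ℂ) * τ + -z) - rowSum 1 (((n : ℕ) : ℂ) * τ) := by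
      simp only [hg, Int.cast_natCast, sub_eq_add_neg]
    have hg2 : g (-((n : ℕ) : ℤ)) = rowSum 1 (((n : ℕ) : ℂ) * τ + z) - rowSum 1 (((n : ℕ) : ℂ) * τ) := by
      simp only [hg, Int.cast_neg, Int.cast_natCast]
      rw [show -((n : ℕ) : ℂ) * τ - z = -(((n : ℕ) : ℂ) * τ + z) by ring,
        show -((n : ℕ) : ℂ) * τ = -(((n : ℕ) : ℂ) * τ) by ring, rowSum_neg, rowSum_neg]
      norm_num
    have hs1 := (hS1.comp_injective (Prod.mk_right_injective n)).hasSum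
    have hs2 := (hS2.comp_injective (Prod.mk_right_injective n)).hasSum
    have hs0 := (hS0.comp_injective (Prod.mk_right_injective n)).hasSum
    have hsA := ((hs2.sub hs0).add (hs1.sub hs0)).tsum_eq
    simp only [Function.comp_def] at hsA
    rw [hg1, hg2, e1, e2, e0, hA, hsA]
    simp only [Nat.factorial_one, Nat.cast_one, div_one]
    ring
  -- assemble
  have hAtsum : ∑' p, A p = ((2 * π * I) ^ 2)⁻¹ * ℘[L] z -
      (1 / 12 + u / (1 - u) ^ 2) := by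
    rw [hAs.tsum_prod]
    have h3 : ∑' n : ℕ+, (2 * π * I) ^ 2 * ∑' d : ℕ+, A (n, d) = ℘[L] z - g 0 := by
      rw [← hp.tsum_eq]
      exact tsum_congr fun n ↦ (hrow n).symm
    rw [tsum_mul_left] at h3
    have h4 : ∑' n : ℕ+, ∑' d : ℕ+, A (n, d) = ((2 * π * I) ^ 2)⁻¹ * (℘[L] z - g 0) := by
      rw [← h3, inv_mul_cancel_left₀ hC]
    rw [h4, hg0]
    have hπ : (π : ℂ) ≠ 0 := by exact_mod_cast Real.pi_ne_zero
    have hC2 : ((2 * π * I : ℂ) ^ 2)⁻¹ * ((π : ℂ) ^ 2 / 3) = -(1 / 12) := by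
      rw [mul_pow, mul_pow, Complex.I_sq]
      field_simp
      ring
    rw [mul_sub, mul_sub, inv_mul_cancel_left₀ hC, hC2]
    ring
  have hfin := hAs.hasSum
  rw [hAtsum] at hfin
  convert hfin using 1
  funext p
  simp only [hA]
  rw [mul_pow, mul_pow, mul_pow, one_pow, ← pow_mul]
  ring

/-- The double-series form of the `q`-expansion of `℘'` for the lattice `ℤ + ℤτ`
(`ω₁ = 1`, `ω₂ = τ`), valid for every `z ∉ ℤ` with `|Im z| < Im τ`. -/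
theorem hasSum_prod_derivWeierstrassP (L : PeriodPair) (h1 : L.ω₁ = 1) {z : ℂ}
    (hz : z ∈ Complex.integerComplement) (hzτ : |z.im| < L.ω₂.im) :
    HasSum (fun p : ℕ+ × ℕ+ ↦ (((p.2 : ℕ) : ℂ) ^ 2 * (cexp (2 * π * I * z) ^ (p.2 : ℕ) -
        (cexp (2 * π * I * z))⁻¹ ^ (p.2 : ℕ))) *
        cexp (2 * π * I * L.ω₂) ^ ((p.1 : ℕ) * (p.2 : ℕ)))
      (((2 * π * I) ^ 3)⁻¹ * ℘'[L] z -
        cexp (2 * π * I * z) * (1 + cexp (2 * π * I * z)) / (1 - cexp (2 * π * I * z)) ^ 3) := by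
  set τ := L.ω₂ with hτdef
  set u := cexp (2 * π * I * z) with hu
  set q := cexp (2 * π * I * τ) with hq
  have hτ : 0 < τ.im := lt_of_le_of_lt (abs_nonneg _) hzτ
  have hz1 : -τ.im < z.im := (abs_lt.mp hzτ).1
  have hz2 : z.im < τ.im := (abs_lt.mp hzτ).2
  have hC : ((2 * π * I : ℂ) ^ 3) ≠ 0 := by
    simp [Real.pi_ne_zero, Complex.I_ne_zero]
  have hu0 : u ≠ 0 := Complex.exp_ne_zero _
  have huinv : cexp (2 * π * I * -z) = u⁻¹ := by
    rw [hu, ← Complex.exp_neg]; congr 1; ring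
  have hq1 : ‖q‖ < 1 := norm_cexp_lt_one_of_im_pos hτ
  have huq : ‖u * q‖ < 1 := norm_cexp_mul_lt_one (by simp; linarith)
  have huq' : ‖u⁻¹ * q‖ < 1 := by
    rw [← huinv]; exact norm_cexp_mul_lt_one (by simp; linarith)
  have hS1 := summable_prod_pow_mul_pow 2 hq1 huq
  have hS2 := summable_prod_pow_mul_pow 2 hq1 huq'
  set A : ℕ+ × ℕ+ → ℂ := fun p ↦
    ((p.2 : ℕ) : ℂ) ^ 2 * (u * q ^ (p.1 : ℕ)) ^ (p.2 : ℕ) -
      ((p.2 : ℕ) : ℂ) ^ 2 * (u⁻¹ * q ^ (p.1 : ℕ)) ^ (p.2 : ℕ) with hA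
  have hAs : Summable A := hS1.sub hS2
  set g : ℤ → ℂ := fun n ↦ 2 * rowSum 2 (n * τ - z) with hg
  have hgsum : HasSum g (℘'[L] z) := hasSum_int_derivWeierstrassP L h1 z
  have hp := hasSum_pnat_of_hasSum_int hgsum
  have hg0 : g 0 = (2 * π * I) ^ 3 * (u * (1 + u) / (1 - u) ^ 3) := by
    simp only [hg, Int.cast_zero, zero_mul, zero_sub]
    rw [rowSum_neg, rowSum_two hz, ← hu]
    ring
  have hrow : ∀ n : ℕ+, g ((n : ℕ) : ℤ) + g (-((n : ℕ) : ℤ)) =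
      (2 * π * I) ^ 3 * ∑' d : ℕ+, A (n, d) := by
    intro n
    have hn1 : (1 : ℝ) ≤ ((n : ℕ) : ℝ) := by exact_mod_cast n.pos
    have hnτ : τ.im ≤ ((n : ℕ) : ℝ) * τ.im := by nlinarith
    have e1 : rowSum 2 (((n : ℕ) : ℂ) * τ + -z) = _ :=
      rowSum_shift (k := 2) one_le_two (τ := τ) (w := -z) (n : ℕ) (by simp; linarith)
    have e2 : rowSum 2 (((n : ℕ) : ℂ) * τ + z) = _ :=
      rowSum_shift (k := 2) one_le_two (τ := τ) (w := z) (n : ℕ) (by simp; linarith)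
    rw [huinv, ← hq] at e1
    rw [← hu, ← hq] at e2
    have hg1 : g ((n : ℕ) : ℤ) = 2 * rowSum 2 (((n : ℕ) : ℂ) * τ + -z) := by
      simp only [hg, Int.cast_natCast, sub_eq_add_neg]
    have hg2 : g (-((n : ℕ) : ℤ)) = -(2 * rowSum 2 (((n : ℕ) : ℂ) * τ + z)) := by
      simp only [hg, Int.cast_neg, Int.cast_natCast]
      rw [show -((n : ℕ) : ℂ) * τ - z = -(((n : ℕ) : ℂ) * τ + z) by ring, rowSum_neg]
      ring
    have hs1 := (hS1.comp_injective (Prod.mk_right_injective n)).hasSum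
    have hs2 := (hS2.comp_injective (Prod.mk_right_injective n)).hasSum
    have hsA := (hs1.sub hs2).tsum_eq
    simp only [Function.comp_def] at hsA
    rw [hg1, hg2, e1, e2, hA, hsA]
    simp only [Nat.factorial_two, Nat.cast_ofNat]
    ring
  have hAtsum : ∑' p, A p = ((2 * π * I) ^ 3)⁻¹ * ℘'[L] z -
      u * (1 + u) / (1 - u) ^ 3 := by
    rw [hAs.tsum_prod]
    have h3 : ∑' n : ℕ+, (2 * π * I) ^ 3 * ∑' d : ℕ+, A (n, d) = ℘'[L] z - g 0 := by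
      rw [← hp.tsum_eq]
      exact tsum_congr fun n ↦ (hrow n).symm
    rw [tsum_mul_left] at h3
    have h4 : ∑' n : ℕ+, ∑' d : ℕ+, A (n, d) = ((2 * π * I) ^ 3)⁻¹ * (℘'[L] z - g 0) := by
      rw [← h3, inv_mul_cancel_left₀ hC]
    rw [h4, hg0, mul_sub, inv_mul_cancel_left₀ hC]
  have hfin := hAs.hasSum
  rw [hAtsum] at hfin
  convert hfin using 1
  funext p
  simp only [hA]
  rw [mul_pow, mul_pow, ← pow_mul]
  ring

/-! ## Power series form: divisor-sum coefficients -/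

/-- The `N`-th coefficient in `q = e^{2πiτ}` of `(2πi)⁻² ℘(z; ℤ + ℤτ)`, as a function of
`u = e^{2πiz}`: `1/12 + u/(1-u)²` for `N = 0` and `∑_{d ∣ N} d (u^d + u^{-d} - 2)` for `N ≥ 1`. -/
noncomputable def wpCoeff (u : ℂ) (N : ℕ) : ℂ :=
  if N = 0 then 1 / 12 + u / (1 - u) ^ 2
  else ∑ d ∈ N.divisors, (d : ℂ) * (u ^ d + u⁻¹ ^ d - 2)

/-- The `N`-th coefficient in `q = e^{2πiτ}` of `(2πi)⁻³ ℘'(z; ℤ + ℤτ)`, as a function of
`u = e^{2πiz}`: `u(1+u)/(1-u)³` for `N = 0` and `∑_{d ∣ N} d² (u^d - u^{-d})` for `N ≥ 1`. -/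
noncomputable def wpDerivCoeff (u : ℂ) (N : ℕ) : ℂ :=
  if N = 0 then u * (1 + u) / (1 - u) ^ 3
  else ∑ d ∈ N.divisors, (d : ℂ) ^ 2 * (u ^ d - u⁻¹ ^ d)

@[simp] theorem wpCoeff_zero (u : ℂ) : wpCoeff u 0 = 1 / 12 + u / (1 - u) ^ 2 := by
  simp [wpCoeff]

theorem wpCoeff_of_ne_zero (u : ℂ) {N : ℕ} (hN : N ≠ 0) :
    wpCoeff u N = ∑ d ∈ N.divisors, (d : ℂ) * (u ^ d + u⁻¹ ^ d - 2) := by
  simp [wpCoeff, hN]

@[simp] theorem wpDerivCoeff_zero (u : ℂ) : wpDerivCoeff u 0 = u * (1 + u) / (1 - u) ^ 3 := by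
  simp [wpDerivCoeff]

theorem wpDerivCoeff_of_ne_zero (u : ℂ) {N : ℕ} (hN : N ≠ 0) :
    wpDerivCoeff u N = ∑ d ∈ N.divisors, (d : ℂ) ^ 2 * (u ^ d - u⁻¹ ^ d) := by
  simp [wpDerivCoeff, hN]

/-- **`q`-expansion of `℘`.** For a period pair with `ω₁ = 1`, `ω₂ = τ`, and `z ∉ ℤ` with
`|Im z| < Im τ`:
`(2πi)⁻² ℘(z) = 1/12 + u/(1-u)² + ∑_{N ≥ 1} (∑_{d ∣ N} d (u^d + u^{-d} - 2)) q^N`. -/
theorem hasSum_weierstrassP_qExp (L : PeriodPair) (h1 : L.ω₁ = 1) {z : ℂ}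
    (hz : z ∈ Complex.integerComplement) (hzτ : |z.im| < L.ω₂.im) :
    HasSum (fun N : ℕ ↦ wpCoeff (cexp (2 * π * I * z)) N * cexp (2 * π * I * L.ω₂) ^ N)
      (((2 * π * I) ^ 2)⁻¹ * ℘[L] z) := by
  have h := hasSum_prod_weierstrassP L h1 hz hzτ
  have h2 := hasSum_divisors_of_hasSum_prod
    (c := fun d ↦ (d : ℂ) * (cexp (2 * π * I * z) ^ d + (cexp (2 * π * I * z))⁻¹ ^ d - 2)) h
  have h3 := hasSum_nat_of_hasSum_pnat
    (f := fun N : ℕ ↦ wpCoeff (cexp (2 * π * I * z)) N * cexp (2 * π * I * L.ω₂) ^ N)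
    (S := ((2 * π * I) ^ 2)⁻¹ * ℘[L] z -
        (1 / 12 + cexp (2 * π * I * z) / (1 - cexp (2 * π * I * z)) ^ 2)) (by
      convert h2 using 1
      funext N
      rw [wpCoeff_of_ne_zero _ N.ne_zero])
  convert h3 using 1
  simp

/-- **`q`-expansion of `℘'`.** For a period pair with `ω₁ = 1`, `ω₂ = τ`, and `z ∉ ℤ` with
`|Im z| < Im τ`:
`(2πi)⁻³ ℘'(z) = u(1+u)/(1-u)³ + ∑_{N ≥ 1} (∑_{d ∣ N} d² (u^d - u^{-d})) q^N`. -/
theorem hasSum_derivWeierstrassP_qExp (L : PeriodPair) (h1 : L.ω₁ = 1) {z : ℂ}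
    (hz : z ∈ Complex.integerComplement) (hzτ : |z.im| < L.ω₂.im) :
    HasSum (fun N : ℕ ↦ wpDerivCoeff (cexp (2 * π * I * z)) N * cexp (2 * π * I * L.ω₂) ^ N)
      (((2 * π * I) ^ 3)⁻¹ * ℘'[L] z) := by
  have h := hasSum_prod_derivWeierstrassP L h1 hz hzτ
  have h2 := hasSum_divisors_of_hasSum_prod
    (c := fun d ↦ (d : ℂ) ^ 2 * (cexp (2 * π * I * z) ^ d - (cexp (2 * π * I * z))⁻¹ ^ d)) h
  have h3 := hasSum_nat_of_hasSum_pnat
    (f := fun N : ℕ ↦ wpDerivCoeff (cexp (2 * π * I * z)) N * cexp (2 * π * I * L.ω₂) ^ N)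
    (S := ((2 * π * I) ^ 3)⁻¹ * ℘'[L] z -
        cexp (2 * π * I * z) * (1 + cexp (2 * π * I * z)) / (1 - cexp (2 * π * I * z)) ^ 3) (by
      convert h2 using 1
      funext N
      rw [wpDerivCoeff_of_ne_zero _ N.ne_zero])
  convert h3 using 1
  simp

/-! ## Specialisations: arbitrary names for `u`, `q`; division points `a/M`; `𝕢`-form -/

/-- `hasSum_weierstrassP_qExp` with `u` and `q` supplied through equations. -/
theorem hasSum_weierstrassP_qExp' (L : PeriodPair) (h1 : L.ω₁ = 1) {z u q : ℂ}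
    (hz : z ∈ Complex.integerComplement) (hzτ : |z.im| < L.ω₂.im)
    (hu : u = cexp (2 * π * I * z)) (hq : q = cexp (2 * π * I * L.ω₂)) :
    HasSum (fun N : ℕ ↦ wpCoeff u N * q ^ N) (((2 * π * I) ^ 2)⁻¹ * ℘[L] z) := by
  subst hu hq
  exact hasSum_weierstrassP_qExp L h1 hz hzτ

/-- `hasSum_derivWeierstrassP_qExp` with `u` and `q` supplied through equations. -/
theorem hasSum_derivWeierstrassP_qExp' (L : PeriodPair) (h1 : L.ω₁ = 1) {z u q : ℂ}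
    (hz : z ∈ Complex.integerComplement) (hzτ : |z.im| < L.ω₂.im)
    (hu : u = cexp (2 * π * I * z)) (hq : q = cexp (2 * π * I * L.ω₂)) :
    HasSum (fun N : ℕ ↦ wpDerivCoeff u N * q ^ N) (((2 * π * I) ^ 3)⁻¹ * ℘'[L] z) := by
  subst hu hq
  exact hasSum_derivWeierstrassP_qExp L h1 hz hzτ

theorem div_mem_integerComplement {M : ℕ} (hM : M ≠ 0) {a : ℤ} (ha : ¬ (M : ℤ) ∣ a) :
    ((a : ℂ) / (M : ℂ)) ∈ Complex.integerComplement := by
  rintro ⟨n, hn⟩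
  apply ha
  have hM' : (M : ℂ) ≠ 0 := Nat.cast_ne_zero.mpr hM
  have h : (a : ℂ) = ((n * (M : ℤ) : ℤ) : ℂ) := by
    rw [eq_div_iff hM'] at hn
    push_cast
    exact hn.symm
  exact ⟨n, by rw [Int.cast_inj.mp h]; ring⟩

theorem intCast_div_natCast_im (a : ℤ) (M : ℕ) : ((a : ℂ) / (M : ℂ)).im = 0 := by
  have : ((a : ℂ) / (M : ℂ)) = (((a : ℝ) / (M : ℝ) : ℝ) : ℂ) := by push_cast; rfl
  rw [this, Complex.ofReal_im]

/-- `q`-expansion of `℘` at the division point `a/M`, `M ∤ a`. -/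
theorem hasSum_weierstrassP_div (L : PeriodPair) (h1 : L.ω₁ = 1) (hτ : 0 < L.ω₂.im)
    {M : ℕ} (hM : M ≠ 0) {a : ℤ} (ha : ¬ (M : ℤ) ∣ a) :
    HasSum (fun N : ℕ ↦ wpCoeff (cexp (2 * π * I * ((a : ℂ) / (M : ℂ)))) N *
        cexp (2 * π * I * L.ω₂) ^ N)
      (((2 * π * I) ^ 2)⁻¹ * ℘[L] ((a : ℂ) / (M : ℂ))) :=
  hasSum_weierstrassP_qExp L h1 (div_mem_integerComplement hM ha)
    (by rw [intCast_div_natCast_im]; simpa using hτ)

/-- `q`-expansion of `℘'` at the division point `a/M`, `M ∤ a`. -/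
theorem hasSum_derivWeierstrassP_div (L : PeriodPair) (h1 : L.ω₁ = 1) (hτ : 0 < L.ω₂.im)
    {M : ℕ} (hM : M ≠ 0) {a : ℤ} (ha : ¬ (M : ℤ) ∣ a) :
    HasSum (fun N : ℕ ↦ wpDerivCoeff (cexp (2 * π * I * ((a : ℂ) / (M : ℂ)))) N *
        cexp (2 * π * I * L.ω₂) ^ N)
      (((2 * π * I) ^ 3)⁻¹ * ℘'[L] ((a : ℂ) / (M : ℂ))) :=
  hasSum_derivWeierstrassP_qExp L h1 (div_mem_integerComplement hM ha)
    (by rw [intCast_div_natCast_im]; simpa using hτ)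

/-- `q`-expansion of the difference `D_{a,b} = (2πi)⁻² (℘(a/M) - ℘(b/M))`. -/
theorem hasSum_weierstrassP_div_sub (L : PeriodPair) (h1 : L.ω₁ = 1) (hτ : 0 < L.ω₂.im)
    {M : ℕ} (hM : M ≠ 0) {a b : ℤ} (ha : ¬ (M : ℤ) ∣ a) (hb : ¬ (M : ℤ) ∣ b) :
    HasSum (fun N : ℕ ↦ (wpCoeff (cexp (2 * π * I * ((a : ℂ) / (M : ℂ)))) N -
        wpCoeff (cexp (2 * π * I * ((b : ℂ) / (M : ℂ)))) N) * cexp (2 * π * I * L.ω₂) ^ N)
      (((2 * π * I) ^ 2)⁻¹ * (℘[L] ((a : ℂ) / (M : ℂ)) - ℘[L] ((b : ℂ) / (M : ℂ)))) := by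
  have h := (hasSum_weierstrassP_div L h1 hτ hM ha).sub (hasSum_weierstrassP_div L h1 hτ hM hb)
  have e1 : (fun N : ℕ ↦ (wpCoeff (cexp (2 * π * I * ((a : ℂ) / (M : ℂ)))) N -
        wpCoeff (cexp (2 * π * I * ((b : ℂ) / (M : ℂ)))) N) * cexp (2 * π * I * L.ω₂) ^ N) =
      fun N : ℕ ↦ wpCoeff (cexp (2 * π * I * ((a : ℂ) / (M : ℂ)))) N *
        cexp (2 * π * I * L.ω₂) ^ N -
        wpCoeff (cexp (2 * π * I * ((b : ℂ) / (M : ℂ)))) N * cexp (2 * π * I * L.ω₂) ^ N := by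
    funext N; ring
  rw [e1, mul_sub]
  exact h

/-- The coefficients of the difference: the `1/12` and the `-2` cancel. -/
theorem wpCoeff_sub (u v : ℂ) (N : ℕ) :
    wpCoeff u N - wpCoeff v N =
      if N = 0 then u / (1 - u) ^ 2 - v / (1 - v) ^ 2
      else ∑ d ∈ N.divisors, (d : ℂ) * (u ^ d + u⁻¹ ^ d - v ^ d - v⁻¹ ^ d) := by
  by_cases hN : N = 0
  · subst hN; simp
  · rw [wpCoeff_of_ne_zero u hN, wpCoeff_of_ne_zero v hN, if_neg hN, ← Finset.sum_sub_distrib]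
    exact Finset.sum_congr rfl fun d _ ↦ by ring

/-- `e^{2πi a/M} = (e^{2πi/M})^a`. -/
theorem cexp_div_eq_zpow (a : ℤ) (M : ℕ) :
    cexp (2 * π * I * ((a : ℂ) / (M : ℂ))) = cexp (2 * π * I / (M : ℂ)) ^ a := by
  rw [← Complex.exp_int_mul]
  congr 1
  ring

open scoped UpperHalfPlane in
/-- The Mathlib `qExpansion`-uniqueness shape (`UpperHalfPlane.qExpansion_coeff_unique`,
`isBoundedAtImInfty_of_hasSum_qExpansion` with `h = 1`) for `τ ↦ (2πi)⁻² ℘(a/M; ℤ + ℤτ)`,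
for any family `P` of period pairs with `ω₁ = 1`, `ω₂ = τ`. -/
theorem hasSum_qParam_weierstrassP_div (P : ℍ → PeriodPair) (hP1 : ∀ τ, (P τ).ω₁ = 1)
    (hP2 : ∀ τ : ℍ, (P τ).ω₂ = (τ : ℂ)) {M : ℕ} (hM : M ≠ 0) {a : ℤ} (ha : ¬ (M : ℤ) ∣ a)
    (τ : ℍ) :
    HasSum (fun N : ℕ ↦ wpCoeff (cexp (2 * π * I * ((a : ℂ) / (M : ℂ)))) N •
        Function.Periodic.qParam 1 τ ^ N)
      (((2 * π * I) ^ 2)⁻¹ * ℘[P τ] ((a : ℂ) / (M : ℂ))) := by
  have h := hasSum_weierstrassP_div (P τ) (hP1 τ) (by rw [hP2]; exact τ.2) hM ha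
  rw [hP2] at h
  simpa [Function.Periodic.qParam, smul_eq_mul] using h

open scoped UpperHalfPlane in
/-- The Mathlib `qExpansion`-uniqueness shape for `τ ↦ (2πi)⁻³ ℘'(a/M; ℤ + ℤτ)`. -/
theorem hasSum_qParam_derivWeierstrassP_div (P : ℍ → PeriodPair) (hP1 : ∀ τ, (P τ).ω₁ = 1)
    (hP2 : ∀ τ : ℍ, (P τ).ω₂ = (τ : ℂ)) {M : ℕ} (hM : M ≠ 0) {a : ℤ} (ha : ¬ (M : ℤ) ∣ a)
    (τ : ℍ) :
    HasSum (fun N : ℕ ↦ wpDerivCoeff (cexp (2 * π * I * ((a : ℂ) / (M : ℂ)))) N •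
        Function.Periodic.qParam 1 τ ^ N)
      (((2 * π * I) ^ 3)⁻¹ * ℘'[P τ] ((a : ℂ) / (M : ℂ))) := by
  have h := hasSum_derivWeierstrassP_div (P τ) (hP1 τ) (by rw [hP2]; exact τ.2) hM ha
  rw [hP2] at h
  simpa [Function.Periodic.qParam, smul_eq_mul] using h

end Fermat.Agent.S48.helper5288
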