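import Mathlib
import Fermat.Agent.S58.helper9384_Uniformization

/-!
# S48-WPHOL: holomorphy in `τ` of the division values of `℘` and `℘'`

For real `α, β` the functions `τ ↦ ℘[tauPair τ] (α τ + β)` and `τ ↦ ℘'[tauPair τ] (α τ + β)`
are holomorphic on the upper half plane (`MDifferentiable`).  When `(α, β) ∈ ℤ²` the functions are
identically zero (Mathlib's junk value of `℘`, `℘'` at lattice points); otherwise the lattice sum
over `ℤ²` has holomorphic terms that are bounded, on a neighbourhood of any point of `ℍ`, by a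
constant times `‖v‖ ^ (-3)`, so it converges locally uniformly.
-/

set_option autoImplicit false

namespace Fermat.Agent.S48.helper7252

open UpperHalfPlane Complex EisensteinSeries PeriodPair
open scoped Manifold Topology
open Fermat.Agent.S58.helper9384 (tauPair)

/-- The lattice point `v 0 * w + v 1` of `ℤ w + ℤ`. -/
noncomputable def lat (v : Fin 2 → ℤ) (w : ℂ) : ℂ := (v 0 : ℂ) * w + (v 1 : ℂ)

/-- The point `α * w + β`. -/
noncomputable def pt (α β : ℝ) (w : ℂ) : ℂ := (α : ℂ) * w + (β : ℂ)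

/-! ### The lattice sums over `Fin 2 → ℤ` -/

theorem weierstrassP_tauPair_eq_tsum (τ : ℍ) (z : ℂ) :
    ℘[tauPair τ] z = ∑' v : Fin 2 → ℤ, (1 / (z - lat v τ) ^ 2 - 1 / (lat v τ) ^ 2) := by
  unfold PeriodPair.weierstrassP
  rw [← (tauPair τ).latticeEquivProd.symm.toEquiv.tsum_eq,
    ← (Equiv.prodComm ℤ ℤ).tsum_eq, ← (finTwoArrowEquiv ℤ).tsum_eq]
  refine tsum_congr fun v => ?_
  simp [PeriodPair.latticeEquiv_symm_apply, lat, add_comm]

theorem derivWeierstrassP_tauPair_eq_tsum (τ : ℍ) (z : ℂ) :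
    ℘'[tauPair τ] z = - ∑' v : Fin 2 → ℤ, 2 / (z - lat v τ) ^ 3 := by
  unfold PeriodPair.derivWeierstrassP
  rw [← (tauPair τ).latticeEquivProd.symm.toEquiv.tsum_eq,
    ← (Equiv.prodComm ℤ ℤ).tsum_eq, ← (finTwoArrowEquiv ℤ).tsum_eq]
  congr 1
  refine tsum_congr fun v => ?_
  simp [PeriodPair.latticeEquiv_symm_apply, lat, add_comm]

/-! ### Lower bounds -/

/-- Real-coefficient version of `EisensteinSeries.r_mul_max_le`. -/
theorem r_mul_max_le_real (z : ℍ) (c d : ℝ) :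
    r z * max |c| |d| ≤ ‖(c : ℂ) * (z : ℂ) + (d : ℂ)‖ := by
  rcases eq_or_lt_of_le (le_max_of_le_left (abs_nonneg c) : (0 : ℝ) ≤ max |c| |d|) with h | hM
  · rw [← h, mul_zero]; exact norm_nonneg _
  · have hM0 : ((max |c| |d| : ℝ) : ℂ) ≠ 0 := by exact_mod_cast hM.ne'
    have h11 : (c : ℂ) * z + d =
        (((c / max |c| |d| : ℝ) : ℂ) * (z : ℂ) + ((d / max |c| |d| : ℝ) : ℂ)) *
          ((max |c| |d| : ℝ) : ℂ) := by
      push_cast
      field_simp
    rw [h11, norm_mul, Complex.norm_real, Real.norm_of_nonneg hM.le]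
    gcongr
    rcases max_choice |c| |d| with H | H
    · apply auxbound1
      have hc : 0 < |c| := by rw [← H]; exact hM
      rw [div_pow, ← sq_abs c, H, div_self (pow_ne_zero 2 hc.ne')]
    · apply auxbound2
      have hd : 0 < |d| := by rw [← H]; exact hM
      rw [div_pow, ← sq_abs d, H, div_self (pow_ne_zero 2 hd.ne')]

theorem norm_eq_max_abs (v : Fin 2 → ℤ) : ‖v‖ = max |(v 0 : ℝ)| |(v 1 : ℝ)| := by
  rw [norm_eq_max_natAbs]
  push_cast [Nat.cast_natAbs]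
  rfl

/-- If `(α, β) ∉ ℤ²` then `max |α - m| |β - n| ≥ κ (‖(m, n)‖ + 1)` for a positive `κ`. -/
theorem exists_delta_bound (α β : ℝ) (h : ¬ ((∃ m : ℤ, (m : ℝ) = α) ∧ ∃ n : ℤ, (n : ℝ) = β)) :
    ∃ κ : ℝ, 0 < κ ∧ ∀ v : Fin 2 → ℤ, κ * (‖v‖ + 1) ≤ max |α - v 0| |β - v 1| := by
  have hc₀ : 0 ≤ max |α| |β| := le_max_of_le_left (abs_nonneg _)
  have hδ₀ : 0 < max |α - round α| |β - round β| := by
    by_contra hneg
    have h0 : max |α - round α| |β - round β| ≤ 0 := not_lt.mp hneg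
    have h1 : |α - round α| ≤ 0 := (le_max_left _ _).trans h0
    have h2 : |β - round β| ≤ 0 := (le_max_right _ _).trans h0
    exact h ⟨⟨round α, by linarith [abs_nonpos_iff.mp h1]⟩,
      ⟨round β, by linarith [abs_nonpos_iff.mp h2]⟩⟩
  refine ⟨max |α - round α| |β - round β| / (max |α - round α| |β - round β| + max |α| |β| + 1),
    by positivity, fun v => ?_⟩
  have h1 : max |α - round α| |β - round β| ≤ max |α - v 0| |β - v 1| :=
    max_le_max (round_le α (v 0)) (round_le β (v 1))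
  have h2 : ‖v‖ ≤ max |α - v 0| |β - v 1| + max |α| |β| := by
    rw [norm_eq_max_abs]
    refine max_le ?_ ?_
    · have : |(v 0 : ℝ)| ≤ |α| + |α - v 0| := by
        have := abs_sub (α) (α - v 0)
        simpa using this
      linarith [le_max_left |α - v 0| |β - v 1|, le_max_left |α| |β|]
    · have : |(v 1 : ℝ)| ≤ |β| + |β - v 1| := by
        have := abs_sub (β) (β - v 1)
        simpa using this
      linarith [le_max_right |α - v 0| |β - v 1|, le_max_right |α| |β|]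
  rw [div_mul_eq_mul_div, div_le_iff₀ (by positivity)]
  nlinarith [mul_nonneg hδ₀.le (sub_nonneg.mpr h2),
    mul_nonneg (sub_nonneg.mpr h1) (by linarith : (0 : ℝ) ≤ max |α| |β| + 1)]

/-- A neighbourhood of a point of the upper half plane on which `‖c w + d‖ ≥ r₀ max |c| |d|`
uniformly in real `c, d`. -/
theorem exists_nhd_lower_bound {w₀ : ℂ} (hw₀ : 0 < w₀.im) :
    ∃ (U : Set ℂ) (r₀ W : ℝ), IsOpen U ∧ w₀ ∈ U ∧ 0 < r₀ ∧ 0 < W ∧ (∀ w ∈ U, 0 < w.im) ∧
      (∀ w ∈ U, ‖w‖ ≤ W) ∧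
      ∀ w ∈ U, ∀ c d : ℝ, r₀ * max |c| |d| ≤ ‖(c : ℂ) * w + (d : ℂ)‖ := by
  have hBpos : 0 < w₀.im / 2 := by positivity
  have hWpos : 0 < ‖w₀‖ + 1 := by positivity
  refine ⟨{w | w₀.im / 2 < w.im} ∩ Metric.ball 0 (‖w₀‖ + 1),
    r ⟨⟨‖w₀‖ + 1, w₀.im / 2⟩, hBpos⟩, ‖w₀‖ + 1,
    (isOpen_lt continuous_const Complex.continuous_im).inter Metric.isOpen_ball,
    ⟨by show w₀.im / 2 < w₀.im; linarith, by simp⟩, r_pos _, hWpos,
    fun w hw => hBpos.trans hw.1, fun w hw => ?_, fun w hw c d => ?_⟩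
  · have : ‖w‖ < ‖w₀‖ + 1 := by simpa using hw.2
    exact this.le
  · have hwim : 0 < w.im := hBpos.trans hw.1
    have hnorm : ‖w‖ < ‖w₀‖ + 1 := by simpa using hw.2
    have hstrip : (⟨w, hwim⟩ : ℍ) ∈ verticalStrip (‖w₀‖ + 1) (w₀.im / 2) :=
      ⟨(Complex.abs_re_le_norm w).trans hnorm.le, hw.1.le⟩
    have h1 := r_lower_bound_on_verticalStrip (⟨w, hwim⟩ : ℍ) hBpos hstrip
    have h2 := r_mul_max_le_real (⟨w, hwim⟩ : ℍ) c d
    have h3 : (0 : ℝ) ≤ max |c| |d| := le_max_of_le_left (abs_nonneg c)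
    exact (mul_le_mul_of_nonneg_right h1 h3).trans h2

/-! ### The term bounds -/

theorem norm_term_le {p l : ℂ} {Z s t : ℝ} (hs : 0 < s) (ht : 0 < t)
    (hZ : ‖p‖ ≤ Z) (hsl : s ≤ ‖p - l‖) (htl : t ≤ ‖l‖) :
    ‖1 / (p - l) ^ 2 - 1 / l ^ 2‖ ≤ Z * (1 / (s * t ^ 2) + 1 / (s ^ 2 * t)) := by
  have ha : 0 < ‖p - l‖ := hs.trans_le hsl
  have hb : 0 < ‖l‖ := ht.trans_le htl
  have hpl : p - l ≠ 0 := norm_pos_iff.mp ha
  have hl : l ≠ 0 := norm_pos_iff.mp hb
  have hZ0 : 0 ≤ Z := (norm_nonneg p).trans hZ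
  have key : 1 / (p - l) ^ 2 - 1 / l ^ 2 = p * (2 * l - p) / ((p - l) ^ 2 * l ^ 2) := by
    field_simp
    ring
  rw [key, norm_div, norm_mul, norm_mul, norm_pow, norm_pow]
  have h2 : ‖2 * l - p‖ ≤ ‖p - l‖ + ‖l‖ := by
    have : 2 * l - p = l - (p - l) := by ring
    rw [this, add_comm]
    exact norm_sub_le _ _
  calc ‖p‖ * ‖2 * l - p‖ / (‖p - l‖ ^ 2 * ‖l‖ ^ 2)
      ≤ Z * (‖p - l‖ + ‖l‖) / (‖p - l‖ ^ 2 * ‖l‖ ^ 2) := by gcongr
    _ = Z * (1 / (‖p - l‖ * ‖l‖ ^ 2) + 1 / (‖p - l‖ ^ 2 * ‖l‖)) := by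
      field_simp
    _ ≤ Z * (1 / (s * t ^ 2) + 1 / (s ^ 2 * t)) := by gcongr

theorem pt_sub_lat (α β : ℝ) (v : Fin 2 → ℤ) (w : ℂ) :
    pt α β w - lat v w = ((α - v 0 : ℝ) : ℂ) * w + ((β - v 1 : ℝ) : ℂ) := by
  simp only [pt, lat]
  push_cast
  ring

theorem lat_eq (v : Fin 2 → ℤ) (w : ℂ) :
    lat v w = (((v 0 : ℤ) : ℝ) : ℂ) * w + (((v 1 : ℤ) : ℝ) : ℂ) := by
  simp only [lat]
  push_cast
  ring

theorem differentiable_pt (α β : ℝ) : Differentiable ℂ (pt α β) := by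
  unfold pt
  fun_prop

theorem differentiable_lat (v : Fin 2 → ℤ) : Differentiable ℂ (lat v) := by
  unfold lat
  fun_prop

/-! ### Differentiability of the sums -/

theorem differentiableAt_tsum_P (α β : ℝ)
    (h : ¬ ((∃ m : ℤ, (m : ℝ) = α) ∧ ∃ n : ℤ, (n : ℝ) = β)) {w₀ : ℂ} (hw₀ : 0 < w₀.im) :
    DifferentiableAt ℂ (fun w : ℂ => ∑' v : Fin 2 → ℤ,
      (1 / (pt α β w - lat v w) ^ 2 - 1 / (lat v w) ^ 2)) w₀ := by
  obtain ⟨κ, hκ, hδ⟩ := exists_delta_bound α β h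
  obtain ⟨U, r₀, W, hUo, hw₀U, hr₀, hW, -, hUW, hlow⟩ := exists_nhd_lower_bound hw₀
  -- lower bounds on `U`
  have hlow1 : ∀ w ∈ U, ∀ v : Fin 2 → ℤ, r₀ * κ * (‖v‖ + 1) ≤ ‖pt α β w - lat v w‖ := by
    intro w hw v
    rw [pt_sub_lat, mul_assoc]
    exact (mul_le_mul_of_nonneg_left (hδ v) hr₀.le).trans (hlow w hw _ _)
  have hlow2 : ∀ w ∈ U, ∀ v : Fin 2 → ℤ, r₀ * ‖v‖ ≤ ‖lat v w‖ := by
    intro w hw v
    rw [lat_eq, norm_eq_max_abs]
    exact hlow w hw _ _
  have hZ : ∀ w ∈ U, ‖pt α β w‖ ≤ |α| * W + |β| := by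
    intro w hw
    unfold pt
    refine (norm_add_le _ _).trans ?_
    rw [norm_mul, Complex.norm_real, Complex.norm_real, Real.norm_eq_abs, Real.norm_eq_abs]
    gcongr
    exact hUW w hw
  have hZ0 : 0 ≤ |α| * W + |β| := by positivity
  set C : ℝ := (|α| * W + |β|) * (1 / κ + 1 / κ ^ 2) / r₀ ^ 3 with hC
  have hC0 : 0 ≤ C := by positivity
  set K : ℝ := 1 / (r₀ * κ) ^ 2 with hK
  have hu : Summable (fun v : Fin 2 → ℤ => C * ‖v‖ ^ (-3 : ℝ) + if v = 0 then K else 0) :=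
    ((summable_one_div_norm_rpow (k := 3) (by norm_num)).mul_left C).add
      (hasSum_ite_eq (0 : Fin 2 → ℤ) K).summable
  have hd : DifferentiableOn ℂ (fun w : ℂ => ∑' v : Fin 2 → ℤ,
      (1 / (pt α β w - lat v w) ^ 2 - 1 / (lat v w) ^ 2)) U := by
    refine differentiableOn_tsum_of_summable_norm hu (fun v => ?_) hUo (fun v w hw => ?_)
    · -- differentiability of the terms
      have hne1 : ∀ w ∈ U, pt α β w - lat v w ≠ 0 := fun w hw => by
        have := hlow1 w hw v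
        have hpos : 0 < r₀ * κ * (‖v‖ + 1) := by positivity
        exact norm_pos_iff.mp (hpos.trans_le this)
      have hd1 : DifferentiableOn ℂ (fun w : ℂ => 1 / (pt α β w - lat v w) ^ 2) U :=
        DifferentiableOn.div (differentiableOn_const _)
          ((((differentiable_pt α β).sub (differentiable_lat v)).pow 2).differentiableOn)
          (fun w hw => pow_ne_zero 2 (hne1 w hw))
      have hd2 : DifferentiableOn ℂ (fun w : ℂ => 1 / (lat v w) ^ 2) U := by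
        by_cases hv : v = 0
        · subst hv
          have : (fun w : ℂ => 1 / (lat 0 w) ^ 2) = fun _ => 0 := by
            funext w
            simp [lat]
          rw [this]
          exact differentiableOn_const _
        · have hne2 : ∀ w ∈ U, lat v w ≠ 0 := fun w hw => by
            have := hlow2 w hw v
            have hpos : 0 < r₀ * ‖v‖ := mul_pos hr₀ (norm_pos_iff.mpr hv)
            exact norm_pos_iff.mp (hpos.trans_le this)
          exact DifferentiableOn.div (differentiableOn_const _)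
            (((differentiable_lat v).pow 2).differentiableOn)
            (fun w hw => pow_ne_zero 2 (hne2 w hw))
      exact hd1.sub hd2
    · -- the bound
      by_cases hv : v = 0
      · subst hv
        have h1 := hlow1 w hw 0
        have hl0 : lat 0 w = 0 := by simp [lat]
        rw [hl0, sub_zero] at h1 ⊢
        simp only [norm_zero, zero_add, mul_one] at h1
        have hpos : 0 < r₀ * κ := by positivity
        have h2 : ‖1 / (pt α β w) ^ 2 - 1 / (0 : ℂ) ^ 2‖ ≤ K := by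
          have : (1 : ℂ) / (0 : ℂ) ^ 2 = 0 := by simp
          rw [this, sub_zero, norm_div, norm_one, norm_pow, hK]
          gcongr
        have h3 : 0 ≤ C * ‖(0 : Fin 2 → ℤ)‖ ^ (-3 : ℝ) := by positivity
        simp only [if_true]
        linarith
      · have hvpos : 0 < ‖v‖ := norm_pos_iff.mpr hv
        have h1 : r₀ * κ * ‖v‖ ≤ ‖pt α β w - lat v w‖ := by
          refine le_trans ?_ (hlow1 w hw v)
          gcongr
          linarith
        have h2 := hlow2 w hw v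
        have h3 := norm_term_le (by positivity) (by positivity) (hZ w hw) h1 h2
        refine h3.trans ?_
        rw [if_neg hv, add_zero, Real.rpow_neg hvpos.le]
        have h4 : ‖v‖ ^ (3 : ℝ) = ‖v‖ ^ 3 := by
          rw [← Real.rpow_natCast]
          norm_num
        rw [h4, hC]
        apply le_of_eq
        field_simp
  exact hd.differentiableAt (hUo.mem_nhds hw₀U)

theorem differentiableAt_tsum_P' (α β : ℝ)
    (h : ¬ ((∃ m : ℤ, (m : ℝ) = α) ∧ ∃ n : ℤ, (n : ℝ) = β)) {w₀ : ℂ} (hw₀ : 0 < w₀.im) :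
    DifferentiableAt ℂ (fun w : ℂ => ∑' v : Fin 2 → ℤ, 2 / (pt α β w - lat v w) ^ 3) w₀ := by
  obtain ⟨κ, hκ, hδ⟩ := exists_delta_bound α β h
  obtain ⟨U, r₀, W, hUo, hw₀U, hr₀, hW, -, hUW, hlow⟩ := exists_nhd_lower_bound hw₀
  have hlow1 : ∀ w ∈ U, ∀ v : Fin 2 → ℤ, r₀ * κ * (‖v‖ + 1) ≤ ‖pt α β w - lat v w‖ := by
    intro w hw v
    rw [pt_sub_lat, mul_assoc]
    exact (mul_le_mul_of_nonneg_left (hδ v) hr₀.le).trans (hlow w hw _ _)
  set K : ℝ := 2 / (r₀ * κ) ^ 3 with hK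
  have hK0 : 0 ≤ K := by positivity
  have hu : Summable (fun v : Fin 2 → ℤ => K * ‖v‖ ^ (-3 : ℝ) + if v = 0 then K else 0) :=
    ((summable_one_div_norm_rpow (k := 3) (by norm_num)).mul_left K).add
      (hasSum_ite_eq (0 : Fin 2 → ℤ) K).summable
  have hd : DifferentiableOn ℂ (fun w : ℂ => ∑' v : Fin 2 → ℤ,
      2 / (pt α β w - lat v w) ^ 3) U := by
    refine differentiableOn_tsum_of_summable_norm hu (fun v => ?_) hUo (fun v w hw => ?_)
    · have hne1 : ∀ w ∈ U, pt α β w - lat v w ≠ 0 := fun w hw => by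
        have := hlow1 w hw v
        have hpos : 0 < r₀ * κ * (‖v‖ + 1) := by positivity
        exact norm_pos_iff.mp (hpos.trans_le this)
      exact DifferentiableOn.div (differentiableOn_const _)
        ((((differentiable_pt α β).sub (differentiable_lat v)).pow 3).differentiableOn)
        (fun w hw => pow_ne_zero 3 (hne1 w hw))
    · have h1 := hlow1 w hw v
      have hpos : 0 < r₀ * κ := by positivity
      rw [norm_div, norm_pow, Complex.norm_ofNat]
      by_cases hv : v = 0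
      · subst hv
        simp only [norm_zero, zero_add, mul_one] at h1
        have h2 : 2 / ‖pt α β w - lat 0 w‖ ^ 3 ≤ K := by
          rw [hK]
          gcongr
        have h3 : 0 ≤ K * ‖(0 : Fin 2 → ℤ)‖ ^ (-3 : ℝ) := by positivity
        simp only [if_true]
        linarith
      · have hvpos : 0 < ‖v‖ := norm_pos_iff.mpr hv
        have h1' : r₀ * κ * ‖v‖ ≤ ‖pt α β w - lat v w‖ := by
          refine le_trans ?_ h1
          gcongr
          linarith
        rw [if_neg hv, add_zero, Real.rpow_neg hvpos.le]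
        have h4 : ‖v‖ ^ (3 : ℝ) = ‖v‖ ^ 3 := by
          rw [← Real.rpow_natCast]
          norm_num
        rw [h4, hK]
        calc 2 / ‖pt α β w - lat v w‖ ^ 3 ≤ 2 / (r₀ * κ * ‖v‖) ^ 3 := by gcongr
          _ = 2 / (r₀ * κ) ^ 3 * (‖v‖ ^ 3)⁻¹ := by
            field_simp
  exact hd.differentiableAt (hUo.mem_nhds hw₀U)

/-! ### Main theorems -/

/-- **WPHOL**: `τ ↦ ℘[ℤ + ℤ τ] (α τ + β)` is holomorphic on the upper half plane. -/
theorem mdifferentiable_divWP (α β : ℝ) :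
    MDiff (fun τ : ℍ => ℘[tauPair τ] ((α : ℂ) * (τ : ℂ) + (β : ℂ))) := by
  by_cases h : (∃ m : ℤ, (m : ℝ) = α) ∧ ∃ n : ℤ, (n : ℝ) = β
  · obtain ⟨⟨m, rfl⟩, ⟨n, rfl⟩⟩ := h
    have : (fun τ : ℍ => ℘[tauPair τ] (((m : ℝ) : ℂ) * (τ : ℂ) + ((n : ℝ) : ℂ))) =
        fun _ => 0 := by
      funext τ
      have hmem : ((m : ℝ) : ℂ) * (τ : ℂ) + ((n : ℝ) : ℂ) ∈ (tauPair τ).lattice := by
        rw [PeriodPair.mem_lattice]
        exact ⟨n, m, by simp [add_comm]⟩
      exact (tauPair τ).weierstrassP_coe ⟨_, hmem⟩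
    rw [this]
    exact mdifferentiable_const
  · rw [UpperHalfPlane.mdifferentiable_iff]
    intro w hw
    have hd := differentiableAt_tsum_P α β h hw
    refine (hd.congr_of_eventuallyEq ?_).differentiableWithinAt
    filter_upwards [isOpen_upperHalfPlaneSet.mem_nhds hw] with w' hw'
    simp only [Function.comp_apply, ofComplex_apply_of_im_pos hw']
    rw [weierstrassP_tauPair_eq_tsum]
    rfl

/-- **WPHOL**: `τ ↦ ℘'[ℤ + ℤ τ] (α τ + β)` is holomorphic on the upper half plane. -/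
theorem mdifferentiable_divDerivWP (α β : ℝ) :
    MDiff (fun τ : ℍ => ℘'[tauPair τ] ((α : ℂ) * (τ : ℂ) + (β : ℂ))) := by
  by_cases h : (∃ m : ℤ, (m : ℝ) = α) ∧ ∃ n : ℤ, (n : ℝ) = β
  · obtain ⟨⟨m, rfl⟩, ⟨n, rfl⟩⟩ := h
    have : (fun τ : ℍ => ℘'[tauPair τ] (((m : ℝ) : ℂ) * (τ : ℂ) + ((n : ℝ) : ℂ))) =
        fun _ => 0 := by
      funext τ
      have hmem : ((m : ℝ) : ℂ) * (τ : ℂ) + ((n : ℝ) : ℂ) ∈ (tauPair τ).lattice := by
        rw [PeriodPair.mem_lattice]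
        exact ⟨n, m, by simp [add_comm]⟩
      exact (tauPair τ).derivWeierstrassP_coe ⟨_, hmem⟩
    rw [this]
    exact mdifferentiable_const
  · rw [UpperHalfPlane.mdifferentiable_iff]
    intro w hw
    have hd := (differentiableAt_tsum_P' α β h hw).neg
    refine (hd.congr_of_eventuallyEq ?_).differentiableWithinAt
    filter_upwards [isOpen_upperHalfPlaneSet.mem_nhds hw] with w' hw'
    simp only [Function.comp_apply, ofComplex_apply_of_im_pos hw']
    rw [derivWeierstrassP_tauPair_eq_tsum]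
    rfl

/-- Integer shape: `τ ↦ ℘[ℤ + ℤ τ] ((r τ + s) / M)` is holomorphic. -/
theorem mdifferentiable_divWP_int (M : ℕ) (r s : ℤ) :
    MDiff (fun τ : ℍ => ℘[tauPair τ] (((r : ℂ) * (τ : ℂ) + (s : ℂ)) / (M : ℂ))) := by
  have h := mdifferentiable_divWP ((r : ℝ) / (M : ℝ)) ((s : ℝ) / (M : ℝ))
  have e : (fun τ : ℍ => ℘[tauPair τ] (((r : ℂ) * (τ : ℂ) + (s : ℂ)) / (M : ℂ))) =
      fun τ : ℍ => ℘[tauPair τ] ((((r : ℝ) / (M : ℝ) : ℝ) : ℂ) * (τ : ℂ) +
        (((s : ℝ) / (M : ℝ) : ℝ) : ℂ)) := by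
    funext τ
    congr 1
    push_cast
    ring
  rw [e]
  exact h

/-- Integer shape: `τ ↦ ℘'[ℤ + ℤ τ] ((r τ + s) / M)` is holomorphic. -/
theorem mdifferentiable_divDerivWP_int (M : ℕ) (r s : ℤ) :
    MDiff (fun τ : ℍ => ℘'[tauPair τ] (((r : ℂ) * (τ : ℂ) + (s : ℂ)) / (M : ℂ))) := by
  have h := mdifferentiable_divDerivWP ((r : ℝ) / (M : ℝ)) ((s : ℝ) / (M : ℝ))
  have e : (fun τ : ℍ => ℘'[tauPair τ] (((r : ℂ) * (τ : ℂ) + (s : ℂ)) / (M : ℂ))) =
      fun τ : ℍ => ℘'[tauPair τ] ((((r : ℝ) / (M : ℝ) : ℝ) : ℂ) * (τ : ℂ) +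
        (((s : ℝ) / (M : ℝ) : ℝ) : ℂ)) := by
    funext τ
    congr 1
    push_cast
    ring
  rw [e]
  exact h

/-- Quotients of holomorphic functions on `ℍ` with nowhere vanishing denominator are
holomorphic. -/
theorem mdifferentiable_div {f g : ℍ → ℂ} (hf : MDiff f) (hg : MDiff g) (h0 : ∀ τ, g τ ≠ 0) :
    MDiff (fun τ : ℍ => f τ / g τ) := by
  rw [UpperHalfPlane.mdifferentiable_iff] at hf hg ⊢
  exact DifferentiableOn.div hf hg (fun w _ => h0 _)

end Fermat.Agent.S48.helper7252
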