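import Mathlib

/-!
# S48-WPMOD: the `SL(2, ℤ)` transformation law of the division values of `℘` and `℘'`

Mathlib only.

* `wp_congr`, `derivWP_congr`: `℘[L]`, `℘'[L]` only depend on the lattice of `L`.
* `wp_of_lattice_smul`, `derivWP_of_lattice_smul`: homogeneity, in lattice form
  (`L'.lattice = c • L.lattice` ⟹ `℘[L'] (c z) = c⁻² ℘[L] z`, `℘'[L'] (c z) = c⁻³ ℘'[L] z`).
* `pairTau τ`: the period pair `(1, τ)`; `IsTauLattice L τ`: `L.lattice = ℤ + ℤ τ`.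
* `divP M r s τ = ℘[ℤ + ℤ τ] ((r τ + s) / M)`, `divP' M r s τ = ℘'[ℤ + ℤ τ] ((r τ + s) / M)`.
* `divP_smul`, `divP'_smul`: for `γ = [[a, b], [c, d]] ∈ SL(2, ℤ)`,
  `divP M r s (γ • τ) = (c τ + d) ^ 2 * divP M (r a + s c) (r b + s d) τ` (and `^ 3` for `divP'`),
  with the slash forms `divP_slash`, `divP'_slash`.
* `divP_congr`, `divP_neg`, `divP'_congr`, `divP'_neg`: dependence on `(r, s)` mod `M`, parity.
* `divP_zero_slash_of_mem_Gamma0`, `divP'_zero_slash_of_mem_Gamma0`: on `Γ₀(M)` the division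
  values `a / M` are permuted by the diamond `a ↦ a d`; in particular they are
  `Γ₁(M)`-invariant of weight `2`, `3`.
* `divW M a b = divP' M 0 a / (divP M 0 a - divP M 0 b)` has weight `1`:
  `divW_smul_of_mem_Gamma0`.
-/

set_option autoImplicit false

noncomputable section

namespace Fermat.Agent.S48.helper9565

open UpperHalfPlane Complex PeriodPair

open scoped MatrixGroups ModularForm

/-! ### `℘`, `℘'` only depend on the lattice -/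

theorem wp_congr {L L' : PeriodPair} (h : L.lattice = L'.lattice) : ℘[L] = ℘[L'] := by
  funext z
  unfold PeriodPair.weierstrassP
  rw [h]

theorem derivWP_congr {L L' : PeriodPair} (h : L.lattice = L'.lattice) : ℘'[L] = ℘'[L'] := by
  funext z
  unfold PeriodPair.derivWeierstrassP
  rw [h]

/-! ### Homogeneity -/

/-- The bijection `l ↦ c * l` between a lattice and its multiple. -/
def latticeMulEquiv {L L' : PeriodPair} {c : ℂ} (hc : c ≠ 0)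
    (h : ∀ x : ℂ, x ∈ L'.lattice ↔ ∃ l ∈ L.lattice, x = c * l) : L.lattice ≃ L'.lattice where
  toFun l := ⟨c * l, (h _).2 ⟨l, l.2, rfl⟩⟩
  invFun x := ⟨c⁻¹ * x, by
    obtain ⟨l, hl, hx⟩ := (h _).1 x.2
    rw [hx, inv_mul_cancel_left₀ hc]
    exact hl⟩
  left_inv l := Subtype.ext (by simp [inv_mul_cancel_left₀ hc])
  right_inv x := Subtype.ext (by simp [mul_inv_cancel_left₀ hc])

@[simp] theorem latticeMulEquiv_apply {L L' : PeriodPair} {c : ℂ} (hc : c ≠ 0)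
    (h : ∀ x : ℂ, x ∈ L'.lattice ↔ ∃ l ∈ L.lattice, x = c * l) (l : L.lattice) :
    ((latticeMulEquiv hc h l : L'.lattice) : ℂ) = c * l := rfl

/-- Homogeneity of `℘` of degree `-2`, in lattice form. -/
theorem wp_of_lattice_smul {L L' : PeriodPair} {c : ℂ} (hc : c ≠ 0)
    (h : ∀ x : ℂ, x ∈ L'.lattice ↔ ∃ l ∈ L.lattice, x = c * l) (z : ℂ) :
    ℘[L'] (c * z) = (c ^ 2)⁻¹ * ℘[L] z := by
  unfold PeriodPair.weierstrassP
  rw [← (latticeMulEquiv hc h).tsum_eq, ← tsum_mul_left]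
  refine tsum_congr fun l => ?_
  rw [latticeMulEquiv_apply, ← mul_sub, mul_pow, mul_pow]
  simp only [one_div, mul_inv]
  ring

/-- Homogeneity of `℘'` of degree `-3`, in lattice form. -/
theorem derivWP_of_lattice_smul {L L' : PeriodPair} {c : ℂ} (hc : c ≠ 0)
    (h : ∀ x : ℂ, x ∈ L'.lattice ↔ ∃ l ∈ L.lattice, x = c * l) (z : ℂ) :
    ℘'[L'] (c * z) = (c ^ 3)⁻¹ * ℘'[L] z := by
  unfold PeriodPair.derivWeierstrassP
  rw [← (latticeMulEquiv hc h).tsum_eq, mul_neg, ← tsum_mul_left]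
  congr 1
  refine tsum_congr fun l => ?_
  rw [latticeMulEquiv_apply, ← mul_sub, mul_pow]
  simp only [div_eq_mul_inv, mul_inv]
  ring

/-! ### The lattice `ℤ + ℤ τ` -/

/-- The period pair `(1, τ)`. -/
def pairTau (τ : ℍ) : PeriodPair where
  ω₁ := 1
  ω₂ := (τ : ℂ)
  indep := by
    rw [LinearIndependent.pair_iff]
    intro s t hst
    have him := congrArg Complex.im hst
    have hre := congrArg Complex.re hst
    simp at him hre
    have ht : t = 0 := by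
      rcases him with h | h
      · exact h
      · exact absurd h τ.im_ne_zero
    subst ht
    simp at hre
    exact ⟨hre, rfl⟩

@[simp] theorem pairTau_ω₁ (τ : ℍ) : (pairTau τ).ω₁ = 1 := rfl
@[simp] theorem pairTau_ω₂ (τ : ℍ) : (pairTau τ).ω₂ = (τ : ℂ) := rfl

theorem mem_lattice_pairTau {τ : ℍ} {x : ℂ} :
    x ∈ (pairTau τ).lattice ↔ ∃ m n : ℤ, (m : ℂ) + n * τ = x := by
  rw [PeriodPair.mem_lattice]
  simp

/-- `L.lattice = ℤ + ℤ τ`: the hypothesis under which all results below apply to `L`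
(whatever the convention for the two periods). -/
def IsTauLattice (L : PeriodPair) (τ : ℍ) : Prop := L.lattice = (pairTau τ).lattice

theorem isTauLattice_pairTau (τ : ℍ) : IsTauLattice (pairTau τ) τ := rfl

/-- Any period pair with `ω₁ = 1`, `ω₂ = τ` (e.g. the landed `S58.helper9384.tauPair τ`, or the
carrier of the `A1` q-expansions) has the lattice `ℤ + ℤ τ`. -/
theorem isTauLattice_of_eq {L : PeriodPair} {τ : ℍ} (h1 : L.ω₁ = 1) (h2 : L.ω₂ = (τ : ℂ)) :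
    IsTauLattice L τ := by
  unfold IsTauLattice PeriodPair.lattice
  rw [h1, h2]
  rfl

/-- The same with the two periods swapped. -/
theorem isTauLattice_of_eq' {L : PeriodPair} {τ : ℍ} (h1 : L.ω₁ = (τ : ℂ)) (h2 : L.ω₂ = 1) :
    IsTauLattice L τ := by
  unfold IsTauLattice PeriodPair.lattice
  rw [h1, h2, Set.pair_comm]
  rfl

theorem det_eq_one (γ : SL(2, ℤ)) : (γ 0 0 : ℂ) * γ 1 1 - γ 0 1 * γ 1 0 = 1 := by
  have h : γ 0 0 * γ 1 1 - γ 0 1 * γ 1 0 = 1 := by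
    have := γ.det_coe
    rw [Matrix.det_fin_two] at this
    exact this
  exact_mod_cast h

theorem coe_smul_eq (γ : SL(2, ℤ)) (τ : ℍ) :
    ((γ • τ : ℍ) : ℂ) = ((γ 0 0 : ℂ) * τ + γ 0 1) / denom γ τ := by
  rw [UpperHalfPlane.coe_specialLinearGroup_apply, ModularGroup.denom_apply]
  simp

/-- `(c τ + d) * (γ τ) = a τ + b`. -/
theorem denom_mul_coe_smul (γ : SL(2, ℤ)) (τ : ℍ) :
    denom γ τ * ((γ • τ : ℍ) : ℂ) = (γ 0 0 : ℂ) * τ + γ 0 1 := by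
  rw [coe_smul_eq, mul_div_cancel₀ _ (denom_ne_zero γ τ)]

/-- The lattice `ℤ + ℤ (γ τ)` is `(c τ + d)⁻¹ (ℤ + ℤ τ)`. -/
theorem mem_lattice_pairTau_smul (γ : SL(2, ℤ)) (τ : ℍ) (x : ℂ) :
    x ∈ (pairTau (γ • τ)).lattice ↔
      ∃ l ∈ (pairTau τ).lattice, x = (denom γ τ)⁻¹ * l := by
  have hj : denom γ τ ≠ 0 := denom_ne_zero γ τ
  have hdetC := det_eq_one γ
  have hnum := denom_mul_coe_smul γ τ
  have hden : denom γ τ = (γ 1 0 : ℂ) * τ + γ 1 1 := ModularGroup.denom_apply γ τ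
  simp only [mem_lattice_pairTau]
  constructor
  · rintro ⟨m, n, rfl⟩
    refine ⟨((m * γ 1 1 + n * γ 0 1 : ℤ) : ℂ) + ((m * γ 1 0 + n * γ 0 0 : ℤ) : ℂ) * τ,
      ⟨_, _, rfl⟩, ?_⟩
    rw [eq_inv_mul_iff_mul_eq₀ hj, mul_add, mul_comm (denom γ τ) ((n : ℂ) * _), mul_assoc,
      mul_comm _ (denom γ τ), hnum, hden]
    push_cast
    ring
  · rintro ⟨l, ⟨m', n', rfl⟩, rfl⟩
    refine ⟨γ 0 0 * m' - γ 0 1 * n', γ 1 1 * n' - γ 1 0 * m', ?_⟩
    rw [eq_inv_mul_iff_mul_eq₀ hj, mul_add, mul_comm (denom γ τ) (_ * _), mul_assoc,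
      mul_comm _ (denom γ τ), hnum, hden]
    push_cast
    linear_combination ((m' : ℂ) + n' * τ) * hdetC

/-! ### Division values -/

/-- The division value `℘[ℤ + ℤ τ] ((r τ + s) / M)`. -/
def divP (M : ℕ) (r s : ℤ) (τ : ℍ) : ℂ := ℘[pairTau τ] (((r : ℂ) * τ + s) / M)

/-- The division value `℘'[ℤ + ℤ τ] ((r τ + s) / M)`. -/
def divP' (M : ℕ) (r s : ℤ) (τ : ℍ) : ℂ := ℘'[pairTau τ] (((r : ℂ) * τ + s) / M)

theorem divP_eq_of_isTauLattice {L : PeriodPair} {τ : ℍ} (h : IsTauLattice L τ) (M : ℕ)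
    (r s : ℤ) : divP M r s τ = ℘[L] (((r : ℂ) * τ + s) / M) := by
  rw [divP, wp_congr h]

theorem divP'_eq_of_isTauLattice {L : PeriodPair} {τ : ℍ} (h : IsTauLattice L τ) (M : ℕ)
    (r s : ℤ) : divP' M r s τ = ℘'[L] (((r : ℂ) * τ + s) / M) := by
  rw [divP', derivWP_congr h]

/-- The division point `(r (γ τ) + s) / M` of `ℤ + ℤ (γ τ)` is `(c τ + d)⁻¹` times the division
point `((r a + s c) τ + (r b + s d)) / M` of `ℤ + ℤ τ`. -/
theorem divPoint_smul (M : ℕ) (r s : ℤ) (γ : SL(2, ℤ)) (τ : ℍ) :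
    ((r : ℂ) * ((γ • τ : ℍ) : ℂ) + s) / M =
      (denom γ τ)⁻¹ * ((((r * γ 0 0 + s * γ 1 0 : ℤ) : ℂ) * τ + (r * γ 0 1 + s * γ 1 1 : ℤ)) / M) := by
  have hj : denom γ τ ≠ 0 := denom_ne_zero γ τ
  have hnum := denom_mul_coe_smul γ τ
  have hden : denom γ τ = (γ 1 0 : ℂ) * τ + γ 1 1 := ModularGroup.denom_apply γ τ
  rw [eq_inv_mul_iff_mul_eq₀ hj, ← mul_div_assoc, mul_add, mul_left_comm, hnum, hden]
  push_cast
  ring

/-- **Transformation law** of the division values of `℘` under `SL(2, ℤ)` (weight `2`). -/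
theorem divP_smul (M : ℕ) (r s : ℤ) (γ : SL(2, ℤ)) (τ : ℍ) :
    divP M r s (γ • τ) =
      denom γ τ ^ 2 * divP M (r * γ 0 0 + s * γ 1 0) (r * γ 0 1 + s * γ 1 1) τ := by
  have hj : denom γ τ ≠ 0 := denom_ne_zero γ τ
  unfold divP
  rw [divPoint_smul, wp_of_lattice_smul (inv_ne_zero hj) (mem_lattice_pairTau_smul γ τ),
    inv_pow, inv_inv]

/-- **Transformation law** of the division values of `℘'` under `SL(2, ℤ)` (weight `3`). -/
theorem divP'_smul (M : ℕ) (r s : ℤ) (γ : SL(2, ℤ)) (τ : ℍ) :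
    divP' M r s (γ • τ) =
      denom γ τ ^ 3 * divP' M (r * γ 0 0 + s * γ 1 0) (r * γ 0 1 + s * γ 1 1) τ := by
  have hj : denom γ τ ≠ 0 := denom_ne_zero γ τ
  unfold divP'
  rw [divPoint_smul, derivWP_of_lattice_smul (inv_ne_zero hj) (mem_lattice_pairTau_smul γ τ),
    inv_pow, inv_inv]

/-- Slash form of `divP_smul`. -/
theorem divP_slash (M : ℕ) (r s : ℤ) (γ : SL(2, ℤ)) :
    (divP M r s) ∣[(2 : ℤ)] γ = divP M (r * γ 0 0 + s * γ 1 0) (r * γ 0 1 + s * γ 1 1) := by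
  funext τ
  have hj : denom γ τ ≠ 0 := denom_ne_zero γ τ
  rw [ModularForm.SL_slash_apply, divP_smul, zpow_neg, mul_comm, ← mul_assoc]
  have : (denom γ τ ^ (2 : ℤ))⁻¹ * denom γ τ ^ 2 = 1 := by
    rw [zpow_ofNat]
    exact inv_mul_cancel₀ (pow_ne_zero 2 hj)
  rw [this, one_mul]

/-- Slash form of `divP'_smul`. -/
theorem divP'_slash (M : ℕ) (r s : ℤ) (γ : SL(2, ℤ)) :
    (divP' M r s) ∣[(3 : ℤ)] γ = divP' M (r * γ 0 0 + s * γ 1 0) (r * γ 0 1 + s * γ 1 1) := by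
  funext τ
  have hj : denom γ τ ≠ 0 := denom_ne_zero γ τ
  rw [ModularForm.SL_slash_apply, divP'_smul, zpow_neg, mul_comm, ← mul_assoc]
  have : (denom γ τ ^ (3 : ℤ))⁻¹ * denom γ τ ^ 3 = 1 := by
    rw [zpow_ofNat]
    exact inv_mul_cancel₀ (pow_ne_zero 3 hj)
  rw [this, one_mul]

/-! ### Dependence on `(r, s)` modulo `M`, parity -/

/-- The difference of two division points with congruent indices is a lattice point. -/
theorem divPoint_sub_mem_lattice {M : ℕ} (hM : M ≠ 0) {r s r' s' : ℤ} (hr : (M : ℤ) ∣ r' - r)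
    (hs : (M : ℤ) ∣ s' - s) (τ : ℍ) :
    ∃ l : (pairTau τ).lattice,
      ((r' : ℂ) * τ + s') / M = ((r : ℂ) * τ + s) / M + (l : ℂ) := by
  obtain ⟨k, hk⟩ := hr
  obtain ⟨k', hk'⟩ := hs
  have hMC : (M : ℂ) ≠ 0 := Nat.cast_ne_zero.mpr hM
  refine ⟨⟨(k' : ℂ) + k * τ, mem_lattice_pairTau.2 ⟨k', k, rfl⟩⟩, ?_⟩
  have h1 : (r' : ℂ) = r + M * k := by
    have : r' = r + M * k := by linarith
    exact_mod_cast this
  have h2 : (s' : ℂ) = s + M * k' := by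
    have : s' = s + M * k' := by linarith
    exact_mod_cast this
  rw [h1, h2]
  field_simp
  ring

theorem divP_congr {M : ℕ} (hM : M ≠ 0) {r s r' s' : ℤ} (hr : (M : ℤ) ∣ r' - r)
    (hs : (M : ℤ) ∣ s' - s) (τ : ℍ) : divP M r' s' τ = divP M r s τ := by
  obtain ⟨l, hl⟩ := divPoint_sub_mem_lattice hM hr hs τ
  rw [divP, divP, hl, PeriodPair.weierstrassP_add_coe]

theorem divP'_congr {M : ℕ} (hM : M ≠ 0) {r s r' s' : ℤ} (hr : (M : ℤ) ∣ r' - r)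
    (hs : (M : ℤ) ∣ s' - s) (τ : ℍ) : divP' M r' s' τ = divP' M r s τ := by
  obtain ⟨l, hl⟩ := divPoint_sub_mem_lattice hM hr hs τ
  rw [divP', divP', hl, PeriodPair.derivWeierstrassP_add_coe]

theorem divP_neg (M : ℕ) (r s : ℤ) (τ : ℍ) : divP M (-r) (-s) τ = divP M r s τ := by
  rw [divP, divP, ← PeriodPair.weierstrassP_neg]
  congr 1
  push_cast
  ring

theorem divP'_neg (M : ℕ) (r s : ℤ) (τ : ℍ) : divP' M (-r) (-s) τ = -divP' M r s τ := by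
  rw [divP', divP', ← PeriodPair.derivWeierstrassP_neg]
  congr 1
  push_cast
  ring

/-! ### The division values `a / M` on `Γ₀(M)` and `Γ₁(M)` -/

theorem dvd_of_mem_Gamma0 {M : ℕ} {γ : SL(2, ℤ)} (hγ : γ ∈ CongruenceSubgroup.Gamma0 M) :
    (M : ℤ) ∣ γ 1 0 := by
  rw [CongruenceSubgroup.Gamma0_mem] at hγ
  exact (ZMod.intCast_zmod_eq_zero_iff_dvd _ _).1 hγ

/-- On `Γ₀(M)` the division values `℘(a / M)` are permuted by the diamond `a ↦ a d`. -/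
theorem divP_zero_smul_of_mem_Gamma0 {M : ℕ} (hM : M ≠ 0) (a : ℤ) {γ : SL(2, ℤ)}
    (hγ : γ ∈ CongruenceSubgroup.Gamma0 M) (τ : ℍ) :
    divP M 0 a (γ • τ) = denom γ τ ^ 2 * divP M 0 (a * γ 1 1) τ := by
  rw [divP_smul]
  congr 1
  refine divP_congr hM ?_ ?_ τ
  · have := dvd_of_mem_Gamma0 hγ
    simpa using this.mul_left a
  · simp

theorem divP'_zero_smul_of_mem_Gamma0 {M : ℕ} (hM : M ≠ 0) (a : ℤ) {γ : SL(2, ℤ)}
    (hγ : γ ∈ CongruenceSubgroup.Gamma0 M) (τ : ℍ) :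
    divP' M 0 a (γ • τ) = denom γ τ ^ 3 * divP' M 0 (a * γ 1 1) τ := by
  rw [divP'_smul]
  congr 1
  refine divP'_congr hM ?_ ?_ τ
  · have := dvd_of_mem_Gamma0 hγ
    simpa using this.mul_left a
  · simp

theorem divP_zero_slash_of_mem_Gamma0 {M : ℕ} (hM : M ≠ 0) (a : ℤ) {γ : SL(2, ℤ)}
    (hγ : γ ∈ CongruenceSubgroup.Gamma0 M) :
    (divP M 0 a) ∣[(2 : ℤ)] γ = divP M 0 (a * γ 1 1) := by
  rw [divP_slash]
  funext τ
  refine divP_congr hM ?_ ?_ τ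
  · have := dvd_of_mem_Gamma0 hγ
    simpa using this.mul_left a
  · simp

theorem divP'_zero_slash_of_mem_Gamma0 {M : ℕ} (hM : M ≠ 0) (a : ℤ) {γ : SL(2, ℤ)}
    (hγ : γ ∈ CongruenceSubgroup.Gamma0 M) :
    (divP' M 0 a) ∣[(3 : ℤ)] γ = divP' M 0 (a * γ 1 1) := by
  rw [divP'_slash]
  funext τ
  refine divP'_congr hM ?_ ?_ τ
  · have := dvd_of_mem_Gamma0 hγ
    simpa using this.mul_left a
  · simp

theorem mem_Gamma0_of_mem_Gamma1 {M : ℕ} {γ : SL(2, ℤ)} (hγ : γ ∈ CongruenceSubgroup.Gamma1 M) :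
    γ ∈ CongruenceSubgroup.Gamma0 M := by
  rw [CongruenceSubgroup.Gamma1_mem] at hγ
  exact CongruenceSubgroup.Gamma0_mem.2 hγ.2.2

theorem dvd_sub_one_of_mem_Gamma1 {M : ℕ} {γ : SL(2, ℤ)}
    (hγ : γ ∈ CongruenceSubgroup.Gamma1 M) : (M : ℤ) ∣ γ 1 1 - 1 := by
  rw [CongruenceSubgroup.Gamma1_mem] at hγ
  have h := hγ.2.1
  rw [← (ZMod.intCast_zmod_eq_zero_iff_dvd _ _)]
  push_cast
  rw [h, sub_self]

/-- `℘(a / M)` is `Γ₁(M)`-invariant of weight `2`. -/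
theorem divP_zero_slash_of_mem_Gamma1 {M : ℕ} (hM : M ≠ 0) (a : ℤ) {γ : SL(2, ℤ)}
    (hγ : γ ∈ CongruenceSubgroup.Gamma1 M) : (divP M 0 a) ∣[(2 : ℤ)] γ = divP M 0 a := by
  rw [divP_zero_slash_of_mem_Gamma0 hM a (mem_Gamma0_of_mem_Gamma1 hγ)]
  funext τ
  refine divP_congr hM (by simp) ?_ τ
  have := (dvd_sub_one_of_mem_Gamma1 hγ).mul_left a
  rwa [mul_sub, mul_one] at this

/-- `℘'(a / M)` is `Γ₁(M)`-invariant of weight `3`. -/
theorem divP'_zero_slash_of_mem_Gamma1 {M : ℕ} (hM : M ≠ 0) (a : ℤ) {γ : SL(2, ℤ)}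
    (hγ : γ ∈ CongruenceSubgroup.Gamma1 M) : (divP' M 0 a) ∣[(3 : ℤ)] γ = divP' M 0 a := by
  rw [divP'_zero_slash_of_mem_Gamma0 hM a (mem_Gamma0_of_mem_Gamma1 hγ)]
  funext τ
  refine divP'_congr hM (by simp) ?_ τ
  have := (dvd_sub_one_of_mem_Gamma1 hγ).mul_left a
  rwa [mul_sub, mul_one] at this

/-! ### The weight-one quotient `W_{a,b} = ℘'(a/M) / (℘(a/M) - ℘(b/M))` -/

/-- `W_{a,b}(τ) = ℘'(a/M) / (℘(a/M) - ℘(b/M))` for the lattice `ℤ + ℤ τ`. -/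
def divW (M : ℕ) (a b : ℤ) (τ : ℍ) : ℂ := divP' M 0 a τ / (divP M 0 a τ - divP M 0 b τ)

/-- `W_{a,b}` has weight one on `Γ₀(M)`, with the diamond `(a, b) ↦ (a d, b d)`. -/
theorem divW_smul_of_mem_Gamma0 {M : ℕ} (hM : M ≠ 0) (a b : ℤ) {γ : SL(2, ℤ)}
    (hγ : γ ∈ CongruenceSubgroup.Gamma0 M) (τ : ℍ) :
    divW M a b (γ • τ) = denom γ τ * divW M (a * γ 1 1) (b * γ 1 1) τ := by
  have hj : denom γ τ ≠ 0 := denom_ne_zero γ τ
  unfold divW
  rw [divP'_zero_smul_of_mem_Gamma0 hM a hγ, divP_zero_smul_of_mem_Gamma0 hM a hγ,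
    divP_zero_smul_of_mem_Gamma0 hM b hγ, ← mul_sub, pow_succ, mul_assoc,
    mul_div_mul_left _ _ (pow_ne_zero 2 hj), mul_div_assoc]

theorem divW_slash_of_mem_Gamma0 {M : ℕ} (hM : M ≠ 0) (a b : ℤ) {γ : SL(2, ℤ)}
    (hγ : γ ∈ CongruenceSubgroup.Gamma0 M) :
    (divW M a b) ∣[(1 : ℤ)] γ = divW M (a * γ 1 1) (b * γ 1 1) := by
  funext τ
  have hj : denom γ τ ≠ 0 := denom_ne_zero γ τ
  rw [ModularForm.SL_slash_apply, divW_smul_of_mem_Gamma0 hM a b hγ, zpow_neg, zpow_one,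
    mul_comm, ← mul_assoc, inv_mul_cancel₀ hj, one_mul]

theorem divW_congr {M : ℕ} (hM : M ≠ 0) {a b a' b' : ℤ} (ha : (M : ℤ) ∣ a' - a)
    (hb : (M : ℤ) ∣ b' - b) (τ : ℍ) : divW M a' b' τ = divW M a b τ := by
  unfold divW
  rw [divP'_congr hM (r := 0) (r' := 0) (by simp) ha τ,
    divP_congr hM (r := 0) (r' := 0) (by simp) ha τ,
    divP_congr hM (r := 0) (r' := 0) (by simp) hb τ]

/-- `W_{a,b}` is `Γ₁(M)`-invariant of weight `1`. -/
theorem divW_slash_of_mem_Gamma1 {M : ℕ} (hM : M ≠ 0) (a b : ℤ) {γ : SL(2, ℤ)}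
    (hγ : γ ∈ CongruenceSubgroup.Gamma1 M) : (divW M a b) ∣[(1 : ℤ)] γ = divW M a b := by
  rw [divW_slash_of_mem_Gamma0 hM a b (mem_Gamma0_of_mem_Gamma1 hγ)]
  funext τ
  refine divW_congr hM ?_ ?_ τ
  · have := (dvd_sub_one_of_mem_Gamma1 hγ).mul_left a
    rwa [mul_sub, mul_one] at this
  · have := (dvd_sub_one_of_mem_Gamma1 hγ).mul_left b
    rwa [mul_sub, mul_one] at this

/-- `W_{-a,-b} = -W_{a,b}` (the character of `W` is odd). -/
theorem divW_neg (M : ℕ) (a b : ℤ) (τ : ℍ) : divW M (-a) (-b) τ = -divW M a b τ := by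
  unfold divW
  have h1 := divP'_neg M 0 a τ
  have h2 := divP_neg M 0 a τ
  have h3 := divP_neg M 0 b τ
  rw [neg_zero] at h1 h2 h3
  rw [h1, h2, h3, neg_div]

/-! ### General division points: the full `SL(2, ℤ)` orbit of `W` and of the differences -/

/-- `℘((r τ + s)/M) - ℘((r' τ + s')/M)` (weight `2`; `D_{a,b}` is `divD M 0 a 0 b`). -/
def divD (M : ℕ) (r s r' s' : ℤ) (τ : ℍ) : ℂ := divP M r s τ - divP M r' s' τ

theorem divD_smul (M : ℕ) (r s r' s' : ℤ) (γ : SL(2, ℤ)) (τ : ℍ) :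
    divD M r s r' s' (γ • τ) =
      denom γ τ ^ 2 * divD M (r * γ 0 0 + s * γ 1 0) (r * γ 0 1 + s * γ 1 1)
        (r' * γ 0 0 + s' * γ 1 0) (r' * γ 0 1 + s' * γ 1 1) τ := by
  unfold divD
  rw [divP_smul, divP_smul, mul_sub]

theorem divD_slash (M : ℕ) (r s r' s' : ℤ) (γ : SL(2, ℤ)) :
    (divD M r s r' s') ∣[(2 : ℤ)] γ =
      divD M (r * γ 0 0 + s * γ 1 0) (r * γ 0 1 + s * γ 1 1)
        (r' * γ 0 0 + s' * γ 1 0) (r' * γ 0 1 + s' * γ 1 1) := by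
  funext τ
  have hj : denom γ τ ≠ 0 := denom_ne_zero γ τ
  rw [ModularForm.SL_slash_apply, divD_smul, zpow_neg, mul_comm, ← mul_assoc]
  have : (denom γ τ ^ (2 : ℤ))⁻¹ * denom γ τ ^ 2 = 1 := by
    rw [zpow_ofNat]
    exact inv_mul_cancel₀ (pow_ne_zero 2 hj)
  rw [this, one_mul]

/-- `℘'((r τ + s)/M) / (℘((r τ + s)/M) - ℘((r' τ + s')/M))` (weight `1`;
`divW M a b = divW₂ M 0 a 0 b`). -/
def divW₂ (M : ℕ) (r s r' s' : ℤ) (τ : ℍ) : ℂ := divP' M r s τ / divD M r s r' s' τ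

theorem divW_eq_divW₂ (M : ℕ) (a b : ℤ) : divW M a b = divW₂ M 0 a 0 b := rfl

/-- The full `SL(2, ℤ)` transformation law of `W` (weight `1`): this is what computes the
expansions of `W_{a,b}` at all cusps. -/
theorem divW₂_smul (M : ℕ) (r s r' s' : ℤ) (γ : SL(2, ℤ)) (τ : ℍ) :
    divW₂ M r s r' s' (γ • τ) =
      denom γ τ * divW₂ M (r * γ 0 0 + s * γ 1 0) (r * γ 0 1 + s * γ 1 1)
        (r' * γ 0 0 + s' * γ 1 0) (r' * γ 0 1 + s' * γ 1 1) τ := by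
  have hj : denom γ τ ≠ 0 := denom_ne_zero γ τ
  unfold divW₂
  rw [divP'_smul, divD_smul, pow_succ, mul_assoc, mul_div_mul_left _ _ (pow_ne_zero 2 hj),
    mul_div_assoc]

theorem divW₂_slash (M : ℕ) (r s r' s' : ℤ) (γ : SL(2, ℤ)) :
    (divW₂ M r s r' s') ∣[(1 : ℤ)] γ =
      divW₂ M (r * γ 0 0 + s * γ 1 0) (r * γ 0 1 + s * γ 1 1)
        (r' * γ 0 0 + s' * γ 1 0) (r' * γ 0 1 + s' * γ 1 1) := by
  funext τ
  have hj : denom γ τ ≠ 0 := denom_ne_zero γ τ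
  rw [ModularForm.SL_slash_apply, divW₂_smul, zpow_neg, zpow_one, mul_comm, ← mul_assoc,
    inv_mul_cancel₀ hj, one_mul]

theorem divD_congr {M : ℕ} (hM : M ≠ 0) {r s r' s' t u t' u' : ℤ} (h1 : (M : ℤ) ∣ t - r)
    (h2 : (M : ℤ) ∣ u - s) (h3 : (M : ℤ) ∣ t' - r') (h4 : (M : ℤ) ∣ u' - s') (τ : ℍ) :
    divD M t u t' u' τ = divD M r s r' s' τ := by
  unfold divD
  rw [divP_congr hM h1 h2 τ, divP_congr hM h3 h4 τ]

theorem divW₂_congr {M : ℕ} (hM : M ≠ 0) {r s r' s' t u t' u' : ℤ} (h1 : (M : ℤ) ∣ t - r)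
    (h2 : (M : ℤ) ∣ u - s) (h3 : (M : ℤ) ∣ t' - r') (h4 : (M : ℤ) ∣ u' - s') (τ : ℍ) :
    divW₂ M t u t' u' τ = divW₂ M r s r' s' τ := by
  unfold divW₂
  rw [divP'_congr hM h1 h2 τ, divD_congr hM h1 h2 h3 h4 τ]

end Fermat.Agent.S48.helper9565
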