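import Mathlib
import Fermat.Agent.S48.helper9565_WPModular
import Fermat.Agent.S48.helper5288_WpQExp
import Fermat.Agent.S48.helper5288_WpCusp
import Fermat.Agent.S48.helper7252_WPHolo
import Fermat.Agent.S48.helper8477_WPInj

/-!
# S48-DFORM: the division values of `℘`, `℘'` as bundled modular forms on `Γ₁(M)`

The seam between the analytic leaves on the Weierstrass division values

* A1 (`helper5288_WpQExp`): `q`-expansions on the strip,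
* WPMOD (`helper9565_WPModular`): the `SL(2, ℤ)` transformation law,
* WPHOL (`helper7252_WPHolo`): holomorphy in `τ`,
* A1-CUSP (`helper5288_WpCusp`): `Q`-expansions at the other cusps,
* WPINJ (`helper8477_WPInj`): non-vanishing of differences,

and the consumers that need honest Mathlib `ModularForm`s with known `qExpansion`.

Main definitions and results (`M : ℕ`, `[NeZero M]`, `a b : ℤ`):

* `mkForm`: bundle a holomorphic function, slash-invariant under `Γ ≤ SL(2, ℤ)`, all of whose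
  `SL(2, ℤ)`-translates are bounded at `i∞`, into a `ModularForm Γ k`;
* `qExpansion_eq_mk_of_hasSum`: the `q`-expansion of a modular form from a pointwise series;
* `wpFun M r s τ = (2πi)⁻² ℘((r τ + s)/M; ℤ + ℤ τ)`, `wpdFun M r s τ = (2πi)⁻³ ℘'(…)`:
  holomorphic, `SL(2, ℤ)`-slash law, bounded at `i∞` (all `r`, `s`);
* `wpForm M a : ModularForm (Gamma1 M) 2`, `wpdForm M a : ModularForm (Gamma1 M) 3`,
  `divD M a b = wpForm M a - wpForm M b`;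
* the diamond law `wpForm_slash`, `wpdForm_slash`, `divD_slash` for `γ ∈ Γ₀(M)`;
* the `q`-expansions `qExpansion_wpForm`, `qExpansion_wpdForm`, `qExpansion_divD`;
* non-vanishing `divD_apply_ne_zero`, `wpdForm_apply_ne_zero`, `divD_ne_zero`.
-/

set_option autoImplicit false

open CongruenceSubgroup Complex PeriodPair
open UpperHalfPlane hiding I
open scoped MatrixGroups Manifold ModularForm Real PeriodPair

noncomputable section

namespace Fermat.Agent.S48.helper9025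

open Fermat.Agent.S48

/-! ### (DF0) generic glue -/

/-- Bundle a holomorphic function on `ℍ` that is slash-invariant of weight `k` under a subgroup
`Γ` of `SL(2, ℤ)` and all of whose `SL(2, ℤ)`-translates are bounded at `i∞` into a modular
form. -/
def mkForm (Γ : Subgroup SL(2, ℤ)) [(Γ : Subgroup (GL (Fin 2) ℝ)).IsArithmetic] (k : ℤ)
    (f : ℍ → ℂ) (hol : MDiff f) (hinv : ∀ γ ∈ Γ, f ∣[k] γ = f)
    (hbd : ∀ g : SL(2, ℤ), IsBoundedAtImInfty (f ∣[k] g)) : ModularForm Γ k where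
  toFun := f
  slash_action_eq' := by
    rintro γ ⟨γ₀, hγ₀, rfl⟩
    exact hinv γ₀ hγ₀
  holo' := hol
  bdd_at_cusps' := by
    intro c hc
    rw [Subgroup.IsArithmetic.isCusp_iff_isCusp_SL2Z] at hc
    rw [OnePoint.isBoundedAt_iff_forall_SL2Z hc]
    intro g _
    exact hbd g

@[simp] theorem mkForm_apply (Γ : Subgroup SL(2, ℤ)) [(Γ : Subgroup (GL (Fin 2) ℝ)).IsArithmetic]
    (k : ℤ) (f : ℍ → ℂ) (hol : MDiff f) (hinv : ∀ γ ∈ Γ, f ∣[k] γ = f)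
    (hbd : ∀ g : SL(2, ℤ), IsBoundedAtImInfty (f ∣[k] g)) (τ : ℍ) :
    mkForm Γ k f hol hinv hbd τ = f τ := rfl

theorem coe_mkForm (Γ : Subgroup SL(2, ℤ)) [(Γ : Subgroup (GL (Fin 2) ℝ)).IsArithmetic]
    (k : ℤ) (f : ℍ → ℂ) (hol : MDiff f) (hinv : ∀ γ ∈ Γ, f ∣[k] γ = f)
    (hbd : ∀ g : SL(2, ℤ), IsBoundedAtImInfty (f ∣[k] g)) :
    ⇑(mkForm Γ k f hol hinv hbd) = f := rfl

theorem T_mem_Gamma1 (M : ℕ) : ModularGroup.T ∈ Gamma1 M := by
  rw [Gamma1_mem]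
  simp [ModularGroup.T]

/-- `1` is a strict period of `Γ₁(M)`. -/
theorem one_mem_strictPeriods_Gamma1 (M : ℕ) :
    (1 : ℝ) ∈ ((Gamma1 M : Subgroup SL(2, ℤ)) : Subgroup (GL (Fin 2) ℝ)).strictPeriods := by
  rw [Subgroup.strictPeriods_eq_zmultiples_one_of_T_mem (T_mem_Gamma1 M)]
  exact AddSubgroup.mem_zmultiples 1

/-- The `q`-expansion of a modular form given everywhere by a convergent `q`-series. -/
theorem qExpansion_eq_mk_of_hasSum {Γ : Subgroup (GL (Fin 2) ℝ)} {k : ℤ}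
    (h1 : (1 : ℝ) ∈ Γ.strictPeriods) (f : ModularForm Γ k) (c : ℕ → ℂ)
    (hf : ∀ τ : ℍ, HasSum (fun m ↦ c m • Function.Periodic.qParam 1 τ ^ m) (f τ)) :
    qExpansion 1 f = PowerSeries.mk c := by
  ext m
  rw [PowerSeries.coeff_mk]
  exact (ModularFormClass.qExpansion_coeff_unique one_pos h1 hf m).symm

/-! ### The normalised division values as functions -/

/-- `(2πi)⁻² ℘((r τ + s) / M; ℤ + ℤ τ)`. -/
def wpFun (M : ℕ) (r s : ℤ) (τ : ℍ) : ℂ := ((2 * π * I) ^ 2)⁻¹ * helper9565.divP M r s τ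

/-- `(2πi)⁻³ ℘'((r τ + s) / M; ℤ + ℤ τ)`. -/
def wpdFun (M : ℕ) (r s : ℤ) (τ : ℍ) : ℂ := ((2 * π * I) ^ 3)⁻¹ * helper9565.divP' M r s τ

theorem divP_eq_tauPair (M : ℕ) (r s : ℤ) (τ : ℍ) :
    helper9565.divP M r s τ =
      ℘[Fermat.Agent.S58.helper9384.tauPair τ] (((r : ℂ) * (τ : ℂ) + (s : ℂ)) / (M : ℂ)) :=
  helper9565.divP_eq_of_isTauLattice (helper9565.isTauLattice_of_eq rfl rfl) M r s

theorem divP'_eq_tauPair (M : ℕ) (r s : ℤ) (τ : ℍ) :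
    helper9565.divP' M r s τ =
      ℘'[Fermat.Agent.S58.helper9384.tauPair τ] (((r : ℂ) * (τ : ℂ) + (s : ℂ)) / (M : ℂ)) :=
  helper9565.divP'_eq_of_isTauLattice (helper9565.isTauLattice_of_eq rfl rfl) M r s

theorem mdiff_divP (M : ℕ) (r s : ℤ) : MDiff (helper9565.divP M r s) := by
  have h := helper7252.mdifferentiable_divWP_int M r s
  have e : helper9565.divP M r s = fun τ : ℍ =>
      ℘[Fermat.Agent.S58.helper9384.tauPair τ] (((r : ℂ) * (τ : ℂ) + (s : ℂ)) / (M : ℂ)) :=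
    funext (divP_eq_tauPair M r s)
  rw [e]
  exact h

theorem mdiff_divP' (M : ℕ) (r s : ℤ) : MDiff (helper9565.divP' M r s) := by
  have h := helper7252.mdifferentiable_divDerivWP_int M r s
  have e : helper9565.divP' M r s = fun τ : ℍ =>
      ℘'[Fermat.Agent.S58.helper9384.tauPair τ] (((r : ℂ) * (τ : ℂ) + (s : ℂ)) / (M : ℂ)) :=
    funext (divP'_eq_tauPair M r s)
  rw [e]
  exact h

theorem mdiff_wpFun (M : ℕ) (r s : ℤ) : MDiff (wpFun M r s) :=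
  (mdifferentiable_const (c := ((2 * π * I) ^ 2)⁻¹)).mul (mdiff_divP M r s)

theorem mdiff_wpdFun (M : ℕ) (r s : ℤ) : MDiff (wpdFun M r s) :=
  (mdifferentiable_const (c := ((2 * π * I) ^ 3)⁻¹)).mul (mdiff_divP' M r s)

/-- `SL(2, ℤ)`-slash law of `wpFun` (weight `2`). -/
theorem wpFun_slash (M : ℕ) (r s : ℤ) (γ : SL(2, ℤ)) :
    wpFun M r s ∣[(2 : ℤ)] γ = wpFun M (r * γ 0 0 + s * γ 1 0) (r * γ 0 1 + s * γ 1 1) := by
  funext τ
  have h := congrFun (helper9565.divP_slash M r s γ) τ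
  rw [ModularForm.SL_slash_apply] at h ⊢
  unfold wpFun
  rw [← h]
  ring

/-- `SL(2, ℤ)`-slash law of `wpdFun` (weight `3`). -/
theorem wpdFun_slash (M : ℕ) (r s : ℤ) (γ : SL(2, ℤ)) :
    wpdFun M r s ∣[(3 : ℤ)] γ = wpdFun M (r * γ 0 0 + s * γ 1 0) (r * γ 0 1 + s * γ 1 1) := by
  funext τ
  have h := congrFun (helper9565.divP'_slash M r s γ) τ
  rw [ModularForm.SL_slash_apply] at h ⊢
  unfold wpdFun
  rw [← h]
  ring

/-! ### Pointwise `q`-series of the normalised functions, boundedness at `i∞` -/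

theorem divP_eq_zero_of_dvd {M : ℕ} (hM : M ≠ 0) {r s : ℤ} (hr : (M : ℤ) ∣ r) (hs : (M : ℤ) ∣ s)
    (τ : ℍ) : helper9565.divP M r s τ = 0 := by
  rw [helper9565.divP_congr hM (r := 0) (s := 0) (by simpa using hr) (by simpa using hs)]
  unfold helper9565.divP
  simp [PeriodPair.weierstrassP_zero]

theorem divP'_eq_zero_of_dvd {M : ℕ} (hM : M ≠ 0) {r s : ℤ} (hr : (M : ℤ) ∣ r) (hs : (M : ℤ) ∣ s)
    (τ : ℍ) : helper9565.divP' M r s τ = 0 := by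
  rw [helper9565.divP'_congr hM (r := 0) (s := 0) (by simpa using hr) (by simpa using hs)]
  unfold helper9565.divP'
  simp [PeriodPair.derivWeierstrassP_zero]

theorem wpFun_eq_zero_of_dvd {M : ℕ} (hM : M ≠ 0) {r s : ℤ} (hr : (M : ℤ) ∣ r) (hs : (M : ℤ) ∣ s)
    (τ : ℍ) : wpFun M r s τ = 0 := by
  unfold wpFun
  rw [divP_eq_zero_of_dvd hM hr hs, mul_zero]

theorem wpdFun_eq_zero_of_dvd {M : ℕ} (hM : M ≠ 0) {r s : ℤ} (hr : (M : ℤ) ∣ r)
    (hs : (M : ℤ) ∣ s) (τ : ℍ) : wpdFun M r s τ = 0 := by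
  unfold wpdFun
  rw [divP'_eq_zero_of_dvd hM hr hs, mul_zero]

/-- `wpFun M r s` only depends on `(r, s)` modulo `M`. -/
theorem wpFun_congr {M : ℕ} (hM : M ≠ 0) {r s r' s' : ℤ} (hr : (M : ℤ) ∣ r' - r)
    (hs : (M : ℤ) ∣ s' - s) : wpFun M r' s' = wpFun M r s := by
  funext τ
  unfold wpFun
  rw [helper9565.divP_congr hM hr hs]

/-- `wpdFun M r s` only depends on `(r, s)` modulo `M`. -/
theorem wpdFun_congr {M : ℕ} (hM : M ≠ 0) {r s r' s' : ℤ} (hr : (M : ℤ) ∣ r' - r)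
    (hs : (M : ℤ) ∣ s' - s) : wpdFun M r' s' = wpdFun M r s := by
  funext τ
  unfold wpdFun
  rw [helper9565.divP'_congr hM hr hs]

/-- `q`-series of `wpFun M 0 s` (`q = e^{2πiτ}`), `M ∤ s`. -/
theorem hasSum_wpFun_zero {M : ℕ} (hM : M ≠ 0) {s : ℤ} (hs : ¬ (M : ℤ) ∣ s) (τ : ℍ) :
    HasSum (fun N : ℕ ↦ helper5288.wpCoeff (cexp (2 * π * I * ((s : ℂ) / (M : ℂ)))) N •
      Function.Periodic.qParam 1 τ ^ N) (wpFun M 0 s τ) := by
  have h := helper5288.hasSum_qParam_weierstrassP_div helper9565.pairTau (fun _ => rfl)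
    (fun _ => rfl) hM hs τ
  have e : wpFun M 0 s τ =
      ((2 * π * I) ^ 2)⁻¹ * ℘[helper9565.pairTau τ] ((s : ℂ) / (M : ℂ)) := by
    unfold wpFun helper9565.divP
    simp
  rw [e]
  exact h

/-- `q`-series of `wpdFun M 0 s` (`q = e^{2πiτ}`), `M ∤ s`. -/
theorem hasSum_wpdFun_zero {M : ℕ} (hM : M ≠ 0) {s : ℤ} (hs : ¬ (M : ℤ) ∣ s) (τ : ℍ) :
    HasSum (fun N : ℕ ↦ helper5288.wpDerivCoeff (cexp (2 * π * I * ((s : ℂ) / (M : ℂ)))) N •
      Function.Periodic.qParam 1 τ ^ N) (wpdFun M 0 s τ) := by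
  have h := helper5288.hasSum_qParam_derivWeierstrassP_div helper9565.pairTau (fun _ => rfl)
    (fun _ => rfl) hM hs τ
  have e : wpdFun M 0 s τ =
      ((2 * π * I) ^ 3)⁻¹ * ℘'[helper9565.pairTau τ] ((s : ℂ) / (M : ℂ)) := by
    unfold wpdFun helper9565.divP'
    simp
  rw [e]
  exact h

/-- `Q`-series of `wpFun M r s` at the other cusps (`Q = e^{2πiτ/M}`), `0 < r < M`. -/
theorem hasSum_wpFun_cusp {M r : ℕ} (hr : 0 < r) (hrM : r < M) (s : ℤ) (τ : ℍ) :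
    HasSum (fun N : ℕ ↦ helper5288.wpCuspCoeff M r (cexp (2 * π * I * ((s : ℂ) / (M : ℂ)))) N •
      Function.Periodic.qParam (M : ℝ) τ ^ N) (wpFun M (r : ℤ) s τ) := by
  have h := helper5288.hasSum_qParam_weierstrassP_cusp helper9565.pairTau (fun _ => rfl)
    (fun _ => rfl) hr hrM s τ
  have e : wpFun M (r : ℤ) s τ =
      ((2 * π * I) ^ 2)⁻¹ * ℘[helper9565.pairTau τ] (((r : ℂ) * (τ : ℂ) + s) / M) := by
    unfold wpFun helper9565.divP
    simp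
  rw [e]
  exact h

/-- `Q`-series of `wpdFun M r s` at the other cusps (`Q = e^{2πiτ/M}`), `0 < r < M`. -/
theorem hasSum_wpdFun_cusp {M r : ℕ} (hr : 0 < r) (hrM : r < M) (s : ℤ) (τ : ℍ) :
    HasSum (fun N : ℕ ↦
      helper5288.wpDerivCuspCoeff M r (cexp (2 * π * I * ((s : ℂ) / (M : ℂ)))) N •
      Function.Periodic.qParam (M : ℝ) τ ^ N) (wpdFun M (r : ℤ) s τ) := by
  have h := helper5288.hasSum_qParam_derivWeierstrassP_cusp helper9565.pairTau (fun _ => rfl)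
    (fun _ => rfl) hr hrM s τ
  have e : wpdFun M (r : ℤ) s τ =
      ((2 * π * I) ^ 3)⁻¹ * ℘'[helper9565.pairTau τ] (((r : ℂ) * (τ : ℂ) + s) / M) := by
    unfold wpdFun helper9565.divP'
    simp
  rw [e]
  exact h

/-- Reduction of the first index modulo `M` to a natural number `< M`. -/
theorem exists_nat_lt_dvd_sub {M : ℕ} (hM : M ≠ 0) (r : ℤ) :
    ∃ r₀ : ℕ, r₀ < M ∧ (M : ℤ) ∣ r - (r₀ : ℤ) := by
  have hMZ : (M : ℤ) ≠ 0 := Int.natCast_ne_zero.mpr hM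
  have hMpos : (0 : ℤ) < (M : ℤ) := by exact_mod_cast Nat.pos_of_ne_zero hM
  refine ⟨(r % (M : ℤ)).toNat, ?_, ?_⟩
  · have h1 := Int.emod_lt_of_pos r hMpos
    have h2 := Int.toNat_of_nonneg (Int.emod_nonneg r hMZ)
    omega
  · rw [Int.toNat_of_nonneg (Int.emod_nonneg r hMZ)]
    exact (Int.mod_modEq r (M : ℤ)).dvd

/-- `τ ↦ (2πi)⁻² ℘((r τ + s)/M; ℤ + ℤ τ)` is bounded at `i∞`, for all `r`, `s`. -/
theorem isBoundedAtImInfty_wpFun {M : ℕ} (hM : M ≠ 0) (r s : ℤ) :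
    IsBoundedAtImInfty (wpFun M r s) := by
  obtain ⟨r₀, hr₀M, hdvd⟩ := exists_nat_lt_dvd_sub hM r
  rw [wpFun_congr hM (r := (r₀ : ℤ)) (s := s) (r' := r) (s' := s) hdvd (by simp)]
  rcases Nat.eq_zero_or_pos r₀ with h0 | hpos
  · subst h0
    by_cases hs : (M : ℤ) ∣ s
    · have e : wpFun M ((0 : ℕ) : ℤ) s = fun _ => (0 : ℂ) :=
        funext fun τ => wpFun_eq_zero_of_dvd hM (by simp) hs τ
      rw [e]
      exact (tendsto_const_nhds (x := (0 : ℂ)) (f := atImInfty)).isBigO_one ℝ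
    · rw [Nat.cast_zero]
      exact isBoundedAtImInfty_of_hasSum_qExpansion one_pos (hasSum_wpFun_zero hM hs)
  · exact isBoundedAtImInfty_of_hasSum_qExpansion
      (by exact_mod_cast Nat.pos_of_ne_zero hM : (0 : ℝ) < (M : ℝ)) (hasSum_wpFun_cusp hpos hr₀M s)

/-- `τ ↦ (2πi)⁻³ ℘'((r τ + s)/M; ℤ + ℤ τ)` is bounded at `i∞`, for all `r`, `s`. -/
theorem isBoundedAtImInfty_wpdFun {M : ℕ} (hM : M ≠ 0) (r s : ℤ) :
    IsBoundedAtImInfty (wpdFun M r s) := by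
  obtain ⟨r₀, hr₀M, hdvd⟩ := exists_nat_lt_dvd_sub hM r
  rw [wpdFun_congr hM (r := (r₀ : ℤ)) (s := s) (r' := r) (s' := s) hdvd (by simp)]
  rcases Nat.eq_zero_or_pos r₀ with h0 | hpos
  · subst h0
    by_cases hs : (M : ℤ) ∣ s
    · have e : wpdFun M ((0 : ℕ) : ℤ) s = fun _ => (0 : ℂ) :=
        funext fun τ => wpdFun_eq_zero_of_dvd hM (by simp) hs τ
      rw [e]
      exact (tendsto_const_nhds (x := (0 : ℂ)) (f := atImInfty)).isBigO_one ℝ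
    · rw [Nat.cast_zero]
      exact isBoundedAtImInfty_of_hasSum_qExpansion one_pos (hasSum_wpdFun_zero hM hs)
  · exact isBoundedAtImInfty_of_hasSum_qExpansion
      (by exact_mod_cast Nat.pos_of_ne_zero hM : (0 : ℝ) < (M : ℝ)) (hasSum_wpdFun_cusp hpos hr₀M s)

/-! ### Slash of the normalised functions through the slash of `divP`, `divP'` -/

theorem two_pi_I_sq_inv_ne_zero : ((2 * π * I : ℂ) ^ 2)⁻¹ ≠ 0 :=
  inv_ne_zero (pow_ne_zero _ Complex.two_pi_I_ne_zero)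

theorem two_pi_I_cube_inv_ne_zero : ((2 * π * I : ℂ) ^ 3)⁻¹ ≠ 0 :=
  inv_ne_zero (pow_ne_zero _ Complex.two_pi_I_ne_zero)

theorem wpFun_slash_apply (M : ℕ) (r s : ℤ) (γ : SL(2, ℤ)) (τ : ℍ) :
    (wpFun M r s ∣[(2 : ℤ)] γ) τ = ((2 * π * I) ^ 2)⁻¹ * (helper9565.divP M r s ∣[(2 : ℤ)] γ) τ := by
  rw [ModularForm.SL_slash_apply, ModularForm.SL_slash_apply]
  unfold wpFun
  ring

theorem wpdFun_slash_apply (M : ℕ) (r s : ℤ) (γ : SL(2, ℤ)) (τ : ℍ) :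
    (wpdFun M r s ∣[(3 : ℤ)] γ) τ =
      ((2 * π * I) ^ 3)⁻¹ * (helper9565.divP' M r s ∣[(3 : ℤ)] γ) τ := by
  rw [ModularForm.SL_slash_apply, ModularForm.SL_slash_apply]
  unfold wpdFun
  ring

/-- Diamond law on functions: for `γ ∈ Γ₀(M)` the division value `a / M` moves to
`a γ₁₁ / M`. -/
theorem wpFun_zero_slash_of_mem_Gamma0 {M : ℕ} (hM : M ≠ 0) (a : ℤ) {γ : SL(2, ℤ)}
    (hγ : γ ∈ Gamma0 M) : wpFun M 0 a ∣[(2 : ℤ)] γ = wpFun M 0 (a * γ 1 1) := by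
  funext τ
  rw [wpFun_slash_apply, helper9565.divP_zero_slash_of_mem_Gamma0 hM a hγ]
  rfl

theorem wpdFun_zero_slash_of_mem_Gamma0 {M : ℕ} (hM : M ≠ 0) (a : ℤ) {γ : SL(2, ℤ)}
    (hγ : γ ∈ Gamma0 M) : wpdFun M 0 a ∣[(3 : ℤ)] γ = wpdFun M 0 (a * γ 1 1) := by
  funext τ
  rw [wpdFun_slash_apply, helper9565.divP'_zero_slash_of_mem_Gamma0 hM a hγ]
  rfl

theorem wpFun_zero_slash_of_mem_Gamma1 {M : ℕ} (hM : M ≠ 0) (a : ℤ) {γ : SL(2, ℤ)}
    (hγ : γ ∈ Gamma1 M) : wpFun M 0 a ∣[(2 : ℤ)] γ = wpFun M 0 a := by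
  funext τ
  rw [wpFun_slash_apply, helper9565.divP_zero_slash_of_mem_Gamma1 hM a hγ]
  rfl

theorem wpdFun_zero_slash_of_mem_Gamma1 {M : ℕ} (hM : M ≠ 0) (a : ℤ) {γ : SL(2, ℤ)}
    (hγ : γ ∈ Gamma1 M) : wpdFun M 0 a ∣[(3 : ℤ)] γ = wpdFun M 0 a := by
  funext τ
  rw [wpdFun_slash_apply, helper9565.divP'_zero_slash_of_mem_Gamma1 hM a hγ]
  rfl

/-! ### (DF1), (DF2): the bundled forms -/

section Forms

variable (M : ℕ) [NeZero M]

/-- `τ ↦ (2πi)⁻² ℘(a / M; ℤ + ℤ τ)` as a modular form of weight `2` on `Γ₁(M)`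
(the zero form if `M ∣ a`, by Mathlib's convention `℘ = 0` on the lattice). -/
def wpForm (a : ℤ) : ModularForm (Gamma1 M) 2 :=
  mkForm (Gamma1 M) 2 (wpFun M 0 a) (mdiff_wpFun M 0 a)
    (fun _ hγ => wpFun_zero_slash_of_mem_Gamma1 (NeZero.ne M) a hγ)
    (fun g => by
      rw [wpFun_slash]
      exact isBoundedAtImInfty_wpFun (NeZero.ne M) _ _)

/-- `τ ↦ (2πi)⁻³ ℘'(a / M; ℤ + ℤ τ)` as a modular form of weight `3` on `Γ₁(M)`. -/
def wpdForm (a : ℤ) : ModularForm (Gamma1 M) 3 :=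
  mkForm (Gamma1 M) 3 (wpdFun M 0 a) (mdiff_wpdFun M 0 a)
    (fun _ hγ => wpdFun_zero_slash_of_mem_Gamma1 (NeZero.ne M) a hγ)
    (fun g => by
      rw [wpdFun_slash]
      exact isBoundedAtImInfty_wpdFun (NeZero.ne M) _ _)

/-- `D_{a,b} = (2πi)⁻² (℘(a / M) - ℘(b / M))` as a modular form of weight `2` on `Γ₁(M)`. -/
def divD (a b : ℤ) : ModularForm (Gamma1 M) 2 := wpForm M a - wpForm M b

theorem coe_wpForm (a : ℤ) : ⇑(wpForm M a) = wpFun M 0 a := rfl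

theorem coe_wpdForm (a : ℤ) : ⇑(wpdForm M a) = wpdFun M 0 a := rfl

theorem wpForm_apply (a : ℤ) (τ : ℍ) :
    wpForm M a τ = ((2 * π * I) ^ 2)⁻¹ * ℘[helper9565.pairTau τ] ((a : ℂ) / (M : ℂ)) := by
  show wpFun M 0 a τ = _
  unfold wpFun helper9565.divP
  simp

theorem wpdForm_apply (a : ℤ) (τ : ℍ) :
    wpdForm M a τ = ((2 * π * I) ^ 3)⁻¹ * ℘'[helper9565.pairTau τ] ((a : ℂ) / (M : ℂ)) := by
  show wpdFun M 0 a τ = _
  unfold wpdFun helper9565.divP'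
  simp

theorem divD_apply (a b : ℤ) (τ : ℍ) :
    divD M a b τ = ((2 * π * I) ^ 2)⁻¹ *
      (℘[helper9565.pairTau τ] ((a : ℂ) / (M : ℂ)) - ℘[helper9565.pairTau τ] ((b : ℂ) / (M : ℂ))) := by
  show wpForm M a τ - wpForm M b τ = _
  rw [wpForm_apply, wpForm_apply]
  ring

theorem coe_divD (a b : ℤ) : ⇑(divD M a b) = fun τ => wpFun M 0 a τ - wpFun M 0 b τ := rfl

/-- The same values for any period pair with periods `(1, τ)` (e.g. `S58.helper9384.tauPair`). -/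
theorem wpForm_apply_of_pair (a : ℤ) (τ : ℍ) {L : PeriodPair} (h1 : L.ω₁ = 1)
    (h2 : L.ω₂ = (τ : ℂ)) :
    wpForm M a τ = ((2 * π * I) ^ 2)⁻¹ * ℘[L] ((a : ℂ) / (M : ℂ)) := by
  rw [wpForm_apply, helper9565.wp_congr (helper9565.isTauLattice_of_eq h1 h2)]

theorem wpdForm_apply_of_pair (a : ℤ) (τ : ℍ) {L : PeriodPair} (h1 : L.ω₁ = 1)
    (h2 : L.ω₂ = (τ : ℂ)) :
    wpdForm M a τ = ((2 * π * I) ^ 3)⁻¹ * ℘'[L] ((a : ℂ) / (M : ℂ)) := by
  rw [wpdForm_apply, helper9565.derivWP_congr (helper9565.isTauLattice_of_eq h1 h2)]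

/-! ### (DF3): the diamond law, periodicity and parity in the index -/

/-- **Diamond law**: slashing by `γ ∈ Γ₀(M)` multiplies the index by the lower right entry. -/
theorem wpForm_slash (a : ℤ) {γ : SL(2, ℤ)} (hγ : γ ∈ Gamma0 M) :
    ⇑(wpForm M a) ∣[(2 : ℤ)] γ = ⇑(wpForm M (a * γ 1 1)) :=
  wpFun_zero_slash_of_mem_Gamma0 (NeZero.ne M) a hγ

theorem wpdForm_slash (a : ℤ) {γ : SL(2, ℤ)} (hγ : γ ∈ Gamma0 M) :
    ⇑(wpdForm M a) ∣[(3 : ℤ)] γ = ⇑(wpdForm M (a * γ 1 1)) :=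
  wpdFun_zero_slash_of_mem_Gamma0 (NeZero.ne M) a hγ

theorem divD_slash (a b : ℤ) {γ : SL(2, ℤ)} (hγ : γ ∈ Gamma0 M) :
    ⇑(divD M a b) ∣[(2 : ℤ)] γ = ⇑(divD M (a * γ 1 1) (b * γ 1 1)) := by
  have e : ∀ c d : ℤ, ⇑(divD M c d) = ⇑(wpForm M c) - ⇑(wpForm M d) := fun _ _ => rfl
  rw [e, e, sub_eq_add_neg, SlashAction.add_slash, SlashAction.neg_slash, wpForm_slash M a hγ,
    wpForm_slash M b hγ, sub_eq_add_neg]

/-- All `SL(2, ℤ)`-translates of `wpForm M a` (for the expansions at the other cusps use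
`wpFun_congr`, `hasSum_wpFun_zero`, `hasSum_wpFun_cusp`). -/
theorem wpForm_slash_SL (a : ℤ) (g : SL(2, ℤ)) :
    ⇑(wpForm M a) ∣[(2 : ℤ)] g = wpFun M (a * g 1 0) (a * g 1 1) := by
  rw [coe_wpForm, wpFun_slash]
  simp

theorem wpdForm_slash_SL (a : ℤ) (g : SL(2, ℤ)) :
    ⇑(wpdForm M a) ∣[(3 : ℤ)] g = wpdFun M (a * g 1 0) (a * g 1 1) := by
  rw [coe_wpdForm, wpdFun_slash]
  simp

theorem wpForm_congr {a a' : ℤ} (h : (M : ℤ) ∣ a' - a) : wpForm M a' = wpForm M a := by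
  ext τ
  show wpFun M 0 a' τ = wpFun M 0 a τ
  unfold wpFun
  rw [helper9565.divP_congr (NeZero.ne M) (r := 0) (s := a) (by simp) h]

theorem wpdForm_congr {a a' : ℤ} (h : (M : ℤ) ∣ a' - a) : wpdForm M a' = wpdForm M a := by
  ext τ
  show wpdFun M 0 a' τ = wpdFun M 0 a τ
  unfold wpdFun
  rw [helper9565.divP'_congr (NeZero.ne M) (r := 0) (s := a) (by simp) h]

theorem divD_congr {a a' b b' : ℤ} (ha : (M : ℤ) ∣ a' - a) (hb : (M : ℤ) ∣ b' - b) :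
    divD M a' b' = divD M a b := by
  unfold divD
  rw [wpForm_congr M ha, wpForm_congr M hb]

theorem wpForm_neg (a : ℤ) : wpForm M (-a) = wpForm M a := by
  ext τ
  show wpFun M 0 (-a) τ = wpFun M 0 a τ
  unfold wpFun
  have h := helper9565.divP_neg M 0 a τ
  rw [neg_zero] at h
  rw [h]

theorem wpdForm_neg (a : ℤ) : wpdForm M (-a) = -wpdForm M a := by
  ext τ
  show wpdFun M 0 (-a) τ = -wpdFun M 0 a τ
  unfold wpdFun
  have h := helper9565.divP'_neg M 0 a τ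
  rw [neg_zero] at h
  rw [h]
  ring

theorem divD_self (a : ℤ) : divD M a a = 0 := sub_self _

theorem divD_swap (a b : ℤ) : divD M b a = -divD M a b := (neg_sub _ _).symm

theorem divD_neg_left (a b : ℤ) : divD M (-a) b = divD M a b := by
  unfold divD; rw [wpForm_neg]

theorem divD_neg_right (a b : ℤ) : divD M a (-b) = divD M a b := by
  unfold divD; rw [wpForm_neg]

end Forms

/-! ### (DF4): `q`-expansions -/

/-- The primitive `M`-th root of unity `e^{2πi/M}`. -/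
def zetaM (M : ℕ) : ℂ := cexp (2 * π * I / (M : ℂ))

theorem zetaM_isPrimitiveRoot {M : ℕ} (hM : M ≠ 0) : IsPrimitiveRoot (zetaM M) M :=
  Complex.isPrimitiveRoot_exp M hM

theorem zetaM_ne_zero (M : ℕ) : zetaM M ≠ 0 := Complex.exp_ne_zero _

theorem cexp_div_eq (a : ℤ) (M : ℕ) :
    cexp (2 * π * I * ((a : ℂ) / (M : ℂ))) = zetaM M ^ a :=
  helper5288.cexp_div_eq_zpow a M

/-- `ζ_M ^ a = 1` iff `M ∣ a`. -/
theorem zetaM_zpow_eq_one_iff {M : ℕ} (hM : M ≠ 0) (a : ℤ) :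
    zetaM M ^ a = 1 ↔ (M : ℤ) ∣ a :=
  (zetaM_isPrimitiveRoot hM).zpow_eq_one_iff_dvd a

section QExp

variable (M : ℕ) [NeZero M]

/-- Pointwise `q`-series of `wpForm M a`, `M ∤ a`. -/
theorem hasSum_wpForm {a : ℤ} (ha : ¬ (M : ℤ) ∣ a) (τ : ℍ) :
    HasSum (fun N : ℕ ↦ helper5288.wpCoeff (zetaM M ^ a) N • Function.Periodic.qParam 1 τ ^ N)
      (wpForm M a τ) := by
  have h := helper5288.hasSum_qParam_weierstrassP_div helper9565.pairTau (fun _ => rfl)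
    (fun _ => rfl) (NeZero.ne M) ha τ
  rw [cexp_div_eq] at h
  rw [wpForm_apply]
  exact h

/-- Pointwise `q`-series of `wpdForm M a`, `M ∤ a`. -/
theorem hasSum_wpdForm {a : ℤ} (ha : ¬ (M : ℤ) ∣ a) (τ : ℍ) :
    HasSum (fun N : ℕ ↦ helper5288.wpDerivCoeff (zetaM M ^ a) N • Function.Periodic.qParam 1 τ ^ N)
      (wpdForm M a τ) := by
  have h := helper5288.hasSum_qParam_derivWeierstrassP_div helper9565.pairTau (fun _ => rfl)
    (fun _ => rfl) (NeZero.ne M) ha τ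
  rw [cexp_div_eq] at h
  rw [wpdForm_apply]
  exact h

/-- **`q`-expansion of `wpForm M a`**, `M ∤ a`: constant term `1/12 + u/(1-u)²`, `N`-th
coefficient `∑_{d ∣ N} d (u^d + u^{-d} - 2)`, `u = ζ_M^a`. -/
theorem qExpansion_wpForm {a : ℤ} (ha : ¬ (M : ℤ) ∣ a) :
    qExpansion 1 (wpForm M a) = PowerSeries.mk (helper5288.wpCoeff (zetaM M ^ a)) :=
  qExpansion_eq_mk_of_hasSum (one_mem_strictPeriods_Gamma1 M) (wpForm M a) _ (hasSum_wpForm M ha)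

/-- **`q`-expansion of `wpdForm M a`**, `M ∤ a`: constant term `u(1+u)/(1-u)³`, `N`-th
coefficient `∑_{d ∣ N} d² (u^d - u^{-d})`, `u = ζ_M^a`. -/
theorem qExpansion_wpdForm {a : ℤ} (ha : ¬ (M : ℤ) ∣ a) :
    qExpansion 1 (wpdForm M a) = PowerSeries.mk (helper5288.wpDerivCoeff (zetaM M ^ a)) :=
  qExpansion_eq_mk_of_hasSum (one_mem_strictPeriods_Gamma1 M) (wpdForm M a) _ (hasSum_wpdForm M ha)

/-- The coefficients of the `q`-expansion of `D_{a,b}`: `u/(1-u)² - v/(1-v)²` for `N = 0` and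
`∑_{d ∣ N} d (u^d + u^{-d} - v^d - v^{-d})` for `N ≥ 1`. -/
def dCoeff (u v : ℂ) (N : ℕ) : ℂ :=
  if N = 0 then u / (1 - u) ^ 2 - v / (1 - v) ^ 2
  else ∑ d ∈ N.divisors, (d : ℂ) * (u ^ d + u⁻¹ ^ d - v ^ d - v⁻¹ ^ d)

theorem dCoeff_eq (u v : ℂ) (N : ℕ) :
    dCoeff u v N = helper5288.wpCoeff u N - helper5288.wpCoeff v N :=
  (helper5288.wpCoeff_sub u v N).symm

@[simp] theorem dCoeff_zero (u v : ℂ) : dCoeff u v 0 = u / (1 - u) ^ 2 - v / (1 - v) ^ 2 := by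
  simp [dCoeff]

theorem dCoeff_of_ne_zero (u v : ℂ) {N : ℕ} (hN : N ≠ 0) :
    dCoeff u v N = ∑ d ∈ N.divisors, (d : ℂ) * (u ^ d + u⁻¹ ^ d - v ^ d - v⁻¹ ^ d) := by
  simp [dCoeff, hN]

/-- Pointwise `q`-series of `D_{a,b}`. -/
theorem hasSum_divD {a b : ℤ} (ha : ¬ (M : ℤ) ∣ a) (hb : ¬ (M : ℤ) ∣ b) (τ : ℍ) :
    HasSum (fun N : ℕ ↦ dCoeff (zetaM M ^ a) (zetaM M ^ b) N • Function.Periodic.qParam 1 τ ^ N)
      (divD M a b τ) := by
  have h := (hasSum_wpForm M ha τ).sub (hasSum_wpForm M hb τ)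
  have e : (fun N : ℕ ↦ dCoeff (zetaM M ^ a) (zetaM M ^ b) N • Function.Periodic.qParam 1 τ ^ N) =
      fun N : ℕ ↦ helper5288.wpCoeff (zetaM M ^ a) N • Function.Periodic.qParam 1 τ ^ N -
        helper5288.wpCoeff (zetaM M ^ b) N • Function.Periodic.qParam 1 τ ^ N := by
    funext N
    rw [dCoeff_eq, sub_smul]
  rw [e]
  exact h

/-- **`q`-expansion of `D_{a,b}`**. -/
theorem qExpansion_divD {a b : ℤ} (ha : ¬ (M : ℤ) ∣ a) (hb : ¬ (M : ℤ) ∣ b) :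
    qExpansion 1 (divD M a b) = PowerSeries.mk (dCoeff (zetaM M ^ a) (zetaM M ^ b)) :=
  qExpansion_eq_mk_of_hasSum (one_mem_strictPeriods_Gamma1 M) (divD M a b) _ (hasSum_divD M ha hb)

theorem qExpansion_divD_coeff_zero {a b : ℤ} (ha : ¬ (M : ℤ) ∣ a) (hb : ¬ (M : ℤ) ∣ b) :
    (qExpansion 1 (divD M a b)).coeff 0 =
      zetaM M ^ a / (1 - zetaM M ^ a) ^ 2 - zetaM M ^ b / (1 - zetaM M ^ b) ^ 2 := by
  rw [qExpansion_divD M ha hb, PowerSeries.coeff_mk, dCoeff_zero]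

/-- The `q`-coefficients of `D_{a,b}` in the Prelude carrier `ModularFormClass.qCoeff`. -/
theorem qCoeff_divD {a b : ℤ} (ha : ¬ (M : ℤ) ∣ a) (hb : ¬ (M : ℤ) ∣ b) (N : ℕ) :
    (qExpansion 1 (divD M a b)).coeff N = dCoeff (zetaM M ^ a) (zetaM M ^ b) N := by
  rw [qExpansion_divD M ha hb, PowerSeries.coeff_mk]

end QExp

/-! ### (DF5): non-vanishing -/

section NonVanishing

variable (M : ℕ) [NeZero M]

/-- `D_{a,b}` has no zero on the upper half plane when `a ≢ ± b` and `a, b ≢ 0` mod `M`. -/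
theorem divD_apply_ne_zero {a b : ℤ} (ha : ¬ (M : ℤ) ∣ a) (hb : ¬ (M : ℤ) ∣ b)
    (hsub : ¬ (M : ℤ) ∣ a - b) (hadd : ¬ (M : ℤ) ∣ a + b) (τ : ℍ) : divD M a b τ ≠ 0 := by
  rw [divD_apply]
  refine mul_ne_zero two_pi_I_sq_inv_ne_zero ?_
  have h := helper8477.WP_div_ne_of_one_tau (helper9565.pairTau τ) (τ : ℂ) rfl rfl (NeZero.ne M)
    (r := 0) (s := a) (r' := 0) (s' := b) (fun h => ha h.2) (fun h => hb h.2)
    (fun h => hsub h.2) (fun h => hadd h.2)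
  simpa using h

theorem divD_ne_zero {a b : ℤ} (ha : ¬ (M : ℤ) ∣ a) (hb : ¬ (M : ℤ) ∣ b)
    (hsub : ¬ (M : ℤ) ∣ a - b) (hadd : ¬ (M : ℤ) ∣ a + b) : divD M a b ≠ 0 := by
  intro h
  have h1 := divD_apply_ne_zero M ha hb hsub hadd UpperHalfPlane.I
  rw [h] at h1
  exact h1 rfl

/-- `(2πi)⁻³ ℘'(a / M)` has no zero on the upper half plane when `M ∤ 2 a`. -/
theorem wpdForm_apply_ne_zero {a : ℤ} (ha : ¬ (M : ℤ) ∣ 2 * a) (τ : ℍ) : wpdForm M a τ ≠ 0 := by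
  rw [wpdForm_apply]
  refine mul_ne_zero two_pi_I_cube_inv_ne_zero ?_
  have h := helper8477.derivWP_div_ne_zero_of_one_tau (helper9565.pairTau τ) (τ : ℂ) rfl rfl
    (NeZero.ne M) (r := 0) (s := a) (fun h => ha h.2)
  simpa using h

theorem wpdForm_ne_zero {a : ℤ} (ha : ¬ (M : ℤ) ∣ 2 * a) : wpdForm M a ≠ 0 := by
  intro h
  have h1 := wpdForm_apply_ne_zero M ha UpperHalfPlane.I
  rw [h] at h1
  exact h1 rfl

end NonVanishing

end Fermat.Agent.S48.helper9025
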