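import Mathlib
import Fermat.Agent.S48.helper288_RatioGamma1
import Fermat.Agent.S48.helper288_RatioIn
import Fermat.Agent.S48.helper7300_Gamma1Field
import Fermat.Agent.S48.helper9025_DivForms
import Fermat.Agent.Lib.helper941_LevelOneQExp

/-!
# S48 / M3: RATIO membership at the carrier of record `helper7300.gamma1FieldP`

The complex `Γ₁(M)` function field `gamma1Field ℂ M = ℂ(j(q^d) : d ∣ M)(φ · (x(u) - x(v)))`
(`φ = E₄ / E₆`, `u, v` non-trivial `M`-th roots of unity) consists of ratios of `q`-expansions of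
modular forms on `Γ₁(M)`, and — given the degree `[F₁ : F_M] = φ(M) / 2` — it is the field of
ALL such ratios.

* `qExpansion_E₆_eq` : the `q`-expansion of `E₆` is `helper7300.eisenstein6`;
* `ofPowerSeries_qExpansion_divD` : the `q`-expansion of the division form `helper9025.divD M a b`
  is the formal series `helper7300.dSer (ζ^a) (ζ^b)`;
* `isRatioG_gen` : the generators are `Γ₁(M)`-ratios (`E₄ · D_{a,b} / E₆`, weight `6`);
* `gamma1FieldP_le_ratioInterG`;
* `isRatioG_iff_mem_gamma1Field` and variants: the RATIO membership.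
-/

set_option autoImplicit false

open UpperHalfPlane ModularForm EisensteinSeries CongruenceSubgroup ModularCurve IntermediateField
open scoped MatrixGroups

noncomputable section

namespace Fermat.Agent.S48.helper288

open Fermat.Agent.S48.helper7300 (gen dSer zSer phiZ eisenstein6 gamma1Gens gamma1FieldP
  gamma1Field gamma1Over)
open Fermat.Agent.S48.helper9025 (divD zetaM)

local notation "ιPS" => HahnSeries.ofPowerSeries ℤ ℂ

/-! ### (I1) the `q`-expansion of `E₆` -/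

/-- The `q`-expansion of `E₆` is the integral series `1 - 504 ∑ σ₅(n) qⁿ`. -/
theorem qExpansion_E₆_eq :
    qExpansion 1 (E₆ : ModularForm 𝒮ℒ 6) = zSer ℂ eisenstein6 := by
  ext n
  have h := EisensteinSeries.E_qExpansion_coeff (k := 6) (by norm_num) ⟨3, rfl⟩ n
  have hb : bernoulli 6 = 1 / 42 := by decide +kernel
  rw [show (E₆ : ModularForm 𝒮ℒ 6) = E (k := 6) (by norm_num) from rfl, h]
  simp only [zSer, eisenstein6, PowerSeries.coeff_map, PowerSeries.coeff_mk]
  split_ifs with hn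
  · simp
  · rw [hb, ArithmeticFunction.sigma_apply]
    push_cast
    norm_num

/-- The `q`-expansion of `E₄` is the Prelude series `eisenstein4`. -/
theorem qExpansion_E₄_eq :
    qExpansion 1 (E₄ : ModularForm 𝒮ℒ 4) = zSer ℂ eisenstein4 :=
  Fermat.Agent.Lib.helper941.qExpansion_E₄

/-- `φ · E₆ = E₄` over `ℂ`. -/
theorem zSer_phiZ_mul_E₆ :
    zSer ℂ phiZ * qExpansion 1 (E₆ : ModularForm 𝒮ℒ 6)
      = qExpansion 1 (E₄ : ModularForm 𝒮ℒ 4) := by
  rw [qExpansion_E₆_eq, qExpansion_E₄_eq, zSer, zSer, zSer, ← map_mul,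
    Fermat.Agent.S48.helper7300.phiZ_mul_eisenstein6]

/-! ### (I2) the `q`-expansion of the division forms -/

/-- coefficient bridge: DFORM's `dCoeff` are the coefficients of the carrier's `dSer`. -/
theorem mk_dCoeff_eq_dSer (u v : ℂ) :
    PowerSeries.mk (Fermat.Agent.S48.helper9025.dCoeff u v) = dSer u v := by
  ext n
  rw [PowerSeries.coeff_mk]
  rcases eq_or_ne n 0 with rfl | hn
  · rw [Fermat.Agent.S48.helper7300.coeff_dSer_zero, Fermat.Agent.S48.helper7300.xv_eq_div,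
      Fermat.Agent.S48.helper7300.xv_eq_div, Fermat.Agent.S48.helper9025.dCoeff, if_pos rfl]
  · rw [Fermat.Agent.S48.helper7300.coeff_dSer_of_ne_zero u v hn,
      Fermat.Agent.S48.helper7300.wpCoeff_eq, Fermat.Agent.S48.helper7300.wpCoeff_eq,
      Fermat.Agent.S48.helper9025.dCoeff, if_neg hn, ← Finset.sum_sub_distrib]
    refine Finset.sum_congr rfl fun d _ => ?_
    ring

/-- **(I2)** the `q`-expansion of `D_{a,b} = (2πi)⁻² (℘(a/M) - ℘(b/M))` is `dSer (ζ^a) (ζ^b)`. -/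
theorem qExpansion_divD_eq_dSer (M : ℕ) [NeZero M] {a b : ℤ} (ha : ¬ (M : ℤ) ∣ a)
    (hb : ¬ (M : ℤ) ∣ b) :
    qExpansion 1 (divD M a b) = dSer (zetaM M ^ a) (zetaM M ^ b) := by
  rw [Fermat.Agent.S48.helper9025.qExpansion_divD M ha hb, mk_dCoeff_eq_dSer]

/-! ### (I3) the generators are `Γ₁(M)`-ratios -/

/-- `E₄` and `E₆` on `Γ₁(M)`. -/
def e4G1 (M : ℕ) : ModularForm (G1 M) 4 := restrictForm (G1_le_SL M) E₄

def e6G1 (M : ℕ) : ModularForm (G1 M) 6 := restrictForm (G1_le_SL M) E₆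

theorem e6G1_ne_zero (M : ℕ) : e6G1 M ≠ 0 := by
  intro h0
  have h1 : (⇑(e6G1 M) : ℍ → ℂ) = 0 := by rw [h0]; rfl
  have h2 : qExpansion 1 (E₆ : ModularForm 𝒮ℒ 6) = 0 := by
    have h3 : (⇑(E₆ : ModularForm 𝒮ℒ 6) : ℍ → ℂ) = 0 := h1
    rw [h3]
    exact UpperHalfPlane.qExpansion_zero 1
  rw [qExpansion_E₆_eq] at h2
  exact (Fermat.Agent.S48.helper7300.zSer_ne_zero
    Fermat.Agent.S48.helper7300.constantCoeff_eisenstein6) h2

/-- **(I3), integer indices.** -/
theorem isRatioG_gen_zpow (M : ℕ) [NeZero M] {a b : ℤ} (ha : ¬ (M : ℤ) ∣ a)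
    (hb : ¬ (M : ℤ) ∣ b) :
    IsRatioG (G1 M) (gen ℂ phiZ (zetaM M ^ a) (zetaM M ^ b)) := by
  refine isRatioG_Gamma1_of_forms M ((e4G1 M).mul (divD M a b)) (ModularForm.mcast (by norm_num)
    (e6G1 M)) ?_ ?_
  · intro h0
    apply e6G1_ne_zero M
    ext τ
    have := congrArg (fun f : ModularForm (G1 M) (4 + 2) => f τ) h0
    simpa using this
  · rw [ModularForm.qExpansion_mcast, ModularForm.qExpansion_mul one_pos (h1G1 M)]
    show gen ℂ phiZ (zetaM M ^ a) (zetaM M ^ b) * ιPS (qExpansion 1 (E₆ : ModularForm 𝒮ℒ 6))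
      = ιPS (qExpansion 1 (E₄ : ModularForm 𝒮ℒ 4) * qExpansion 1 (divD M a b))
    rw [qExpansion_divD_eq_dSer M ha hb, ← zSer_phiZ_mul_E₆, gen, ← map_mul]
    congr 1
    ring

/-- **(I3)** every generator `φ · (x(u) - x(v))`, `u, v` non-trivial `M`-th roots of unity, is a
ratio of `q`-expansions of two forms of weight `6` on `Γ₁(M)`. -/
theorem isRatioG_gen (M : ℕ) [NeZero M] {u v : ℂ} (hu : u ^ M = 1) (hu1 : u ≠ 1)
    (hv : v ^ M = 1) (hv1 : v ≠ 1) : IsRatioG (G1 M) (gen ℂ phiZ u v) := by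
  have hz := Fermat.Agent.S48.helper9025.zetaM_isPrimitiveRoot (NeZero.ne M)
  obtain ⟨a, -, rfl⟩ := hz.eq_pow_of_pow_eq_one hu
  obtain ⟨b, -, rfl⟩ := hz.eq_pow_of_pow_eq_one hv
  have ha : ¬ (M : ℤ) ∣ (a : ℤ) := fun h =>
    hu1 ((hz.pow_eq_one_iff_dvd a).mpr (Int.natCast_dvd_natCast.mp h))
  have hb : ¬ (M : ℤ) ∣ (b : ℤ) := fun h =>
    hv1 ((hz.pow_eq_one_iff_dvd b).mpr (Int.natCast_dvd_natCast.mp h))
  have h := isRatioG_gen_zpow M ha hb
  rwa [zpow_natCast, zpow_natCast] at h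

/-! ### (I4) the carrier consists of ratios -/

/-- **(I4)** `gamma1Field ℂ M ≤` the field of all `Γ₁(M)`-ratios. -/
theorem gamma1Field_le_ratioInterG (M : ℕ) [NeZero M] :
    gamma1Field ℂ M ≤ ratioInterG (G1 M) (h1G1 M) := by
  rw [gamma1Field, Fermat.Agent.S48.helper7300.gamma1FieldP_eq_sup, sup_le_iff]
  constructor
  · rw [← Fermat.Agent.S48.helper7300.laurentBaseChange_full_eq]
    exact full_le_ratioInterG_Gamma1 M
  · rw [IntermediateField.adjoin_le_iff]
    rintro _ ⟨u, v, hu, hu1, hv, hv1, rfl⟩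
    exact isRatioG_gen M hu hu1 hv hv1

theorem isRatioG_of_mem_gamma1Field (M : ℕ) [NeZero M] {x : LaurentSeries ℂ}
    (hx : x ∈ gamma1Field ℂ M) : IsRatioG (G1 M) x :=
  gamma1Field_le_ratioInterG M hx

/-! ### (I5) RATIO membership -/

/-- **(I5), `relrank` form.** Given `[F₁(M)_ℂ : F_{M,ℂ}] = φ(M) / 2`, the carrier is the field
of ALL ratios of `q`-expansions of modular forms on `Γ₁(M)`. -/
theorem isRatioG_iff_mem_gamma1Field (M : ℕ) [NeZero M] (hM : 3 ≤ M)
    (hdeg : (laurentBaseChange ℂ (modularFunctionFieldFull M)).relrank (gamma1Field ℂ M)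
      = ((Nat.totient M / 2 : ℕ) : Cardinal))
    (x : LaurentSeries ℂ) : IsRatioG (G1 M) x ↔ x ∈ gamma1Field ℂ M :=
  ⟨fun hx => ratio_Gamma1_le_of_relrank_full M hM (gamma1Field ℂ M)
      (Fermat.Agent.S48.helper7300.laurentBaseChange_le_gamma1FieldP ℂ phiZ M)
      (fun _ hy => isRatioG_of_mem_gamma1Field M hy) hdeg hx,
    fun hx => isRatioG_of_mem_gamma1Field M hx⟩

/-- the relative rank of the carrier over the complex `Γ₀(M)` field is the rank of
`helper7300.gamma1Over`. -/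
theorem relrank_gamma1Field_eq_rank (M : ℕ) :
    (laurentBaseChange ℂ (modularFunctionFieldFull M)).relrank (gamma1Field ℂ M)
      = Module.rank ↥(laurentBaseChange ℂ (modularFunctionFieldFull M))
          ↥(gamma1Over ℂ phiZ M) :=
  IntermediateField.relrank_eq_rank_of_le
    (Fermat.Agent.S48.helper7300.laurentBaseChange_le_gamma1FieldP ℂ phiZ M)

/-- **(I5), `finrank` form** (the shape of the A2-GAL degree theorem). -/
theorem isRatioG_iff_mem_gamma1Field_of_finrank (M : ℕ) [NeZero M] (hM : 3 ≤ M)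
    (hdeg : Module.finrank ↥(laurentBaseChange ℂ (modularFunctionFieldFull M))
      ↥(gamma1Over ℂ phiZ M) = Nat.totient M / 2)
    (x : LaurentSeries ℂ) : IsRatioG (G1 M) x ↔ x ∈ gamma1Field ℂ M := by
  refine isRatioG_iff_mem_gamma1Field M hM ?_ x
  have hpos : 0 < Nat.totient M / 2 := by
    obtain ⟨c, hc⟩ := (Nat.totient_even (by omega : 2 < M)).two_dvd
    have h0 : 0 < Nat.totient M := Nat.totient_pos.mpr (by omega)
    omega
  rw [relrank_gamma1Field_eq_rank]
  exact (Cardinal.toNat_eq_iff hpos.ne').mp hdeg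

/-- **(I5), equality of fields.** -/
theorem ratioInterG_Gamma1_eq_gamma1Field (M : ℕ) [NeZero M] (hM : 3 ≤ M)
    (hdeg : (laurentBaseChange ℂ (modularFunctionFieldFull M)).relrank (gamma1Field ℂ M)
      = ((Nat.totient M / 2 : ℕ) : Cardinal)) :
    ratioInterG (G1 M) (h1G1 M) = gamma1Field ℂ M :=
  le_antisymm (fun _ hx => (isRatioG_iff_mem_gamma1Field M hM hdeg _).mp hx)
    (gamma1Field_le_ratioInterG M)

/-! ### (I6) the `Mer`-level RATIO at the carrier (the `RatioIn` input of the TH4 spine) -/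

open Fermat.Agent.S24.helper580 Fermat.Agent.S24.helper1704 in
/-- **(I6)** `RatioIn` for a carrier `F` (an intermediate field of `ℂ((q)) / ℂ`) that EQUALS the
complex `Γ₁(M)` field — e.g. `F = laurentBaseChange ℂ F₀`, `F₀` the rational form — with an
evaluation `evC : F → Mer` compatible with `q`-expansions: for all modular forms `G`, `E ≠ 0` of
the same weight on `Γ₁(M)` there is `x ∈ F` with `evC x * [E] = [G]`. -/
theorem ratioIn_Gamma1_of_carrier (M : ℕ) [NeZero M] (hM : 3 ≤ M)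
    (hdeg : (laurentBaseChange ℂ (modularFunctionFieldFull M)).relrank (gamma1Field ℂ M)
      = ((Nat.totient M / 2 : ℕ) : Cardinal))
    (F : IntermediateField ℂ (LaurentSeries ℂ)) (hF : F = gamma1Field ℂ M)
    (evC : F → Mer)
    (heval : ∀ y : F, ∃ a b : Hol, b ≠ 0 ∧ ∃ A B : LaurentSeries ℂ,
      HasQ 1 (a : ℍ → ℂ) A ∧ HasQ 1 (b : ℍ → ℂ) B ∧ (y : LaurentSeries ℂ) * B = A ∧
        evC y * algebraMap Hol Mer b = algebraMap Hol Mer a)
    (k : ℤ) (G E : ModularForm ((Gamma1 M : Subgroup SL(2, ℤ)) : Subgroup (GL (Fin 2) ℝ)) k)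
    (hE : E ≠ 0) :
    ∃ x : F, evC x * algebraMap Hol Mer (formHol E) = algebraMap Hol Mer (formHol G) :=
  ratioIn_of_evalDatum_interm (𝒢 := G1 M) (h1G1 M) F evC
    (fun x hx => by rw [hF]; exact (isRatioG_iff_mem_gamma1Field M hM hdeg x).mp hx)
    heval k G E hE

end Fermat.Agent.S48.helper288
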