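import Fermat.Agent.S48.helper8098_RatFormDesc

/-!
# S48-A2-RATFORM, part 3 (helper8098): degrees do not depend on the field of coefficients

For rational fields `F₀ ≤ F₁` (intermediate fields of `ℚ((q))/ℚ`) and ANY field `L` of
characteristic zero,

* `relfinrank_laurentBaseChange` :
  `[laurentBaseChange L F₁ : laurentBaseChange L F₀] = [F₁ : F₀]` (as `relfinrank`s, so both
  sides are `0` when the extension is infinite);
* `finite_extendScalars_laurentBaseChange_iff` : finiteness holds at one level iff it holds at
  the rational level;
* `laurentBaseChange_adjoin_simple` : `laurentBaseChange L ℚ(y) = L(y)`;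
* `finrank_adjoin_simple_laurentBaseChange` : for `y ∈ F₀` (for instance `y = j`),
  `[laurentBaseChange L F₀ : L(y)] = [F₀ : ℚ(y)]` in the binder shape
  `Module.finrank L⟮yL⟯ ↥(laurentBaseChange L F₀)` used by the landed `S24.helper24.Stmt_JFinrank`,
  and the corresponding `FiniteDimensional` transfer.
-/

set_option autoImplicit false

noncomputable section

namespace Fermat.Agent.S48.helper8098

open ModularCurve HahnSeries IntermediateField

/-! ## Generic: the degree of `B/A` from a family in the ambient field -/

section Generic

variable {K E : Type*} [Field K] [Field E] [Algebra K E] {A B : IntermediateField K E}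

/-- A family of elements of `B`, linearly independent over `A` in the ambient field, is
linearly independent in `B` viewed as an extension of `A`. -/
theorem linearIndependent_extendScalars (h : A ≤ B) {I : Type*} (v : I → E)
    (hv : ∀ i, v i ∈ B) (hli : LinearIndependent ↥A v) :
    LinearIndependent ↥A
      (fun i => (⟨v i, hv i⟩ : ↥(IntermediateField.extendScalars h))) :=
  LinearIndependent.of_comp (IntermediateField.extendScalars h).val.toLinearMap hli

/-- Conversely, a linearly independent family of `B/A` is linearly independent in the ambient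
field. -/
theorem linearIndependent_coe_extendScalars (h : A ≤ B) {I : Type*}
    (w : I → ↥(IntermediateField.extendScalars h)) (hli : LinearIndependent ↥A w) :
    LinearIndependent ↥A (fun i => (w i : E)) :=
  hli.map' (IntermediateField.extendScalars h).val.toLinearMap
    (LinearMap.ker_eq_bot.mpr (IntermediateField.extendScalars h).val.injective)

/-- A finite family of elements of `B` which is linearly independent over `A` and spans `B`
over `A` computes the degree `[B : A]`. -/
theorem finrank_extendScalars_eq_card (h : A ≤ B) {I : Type*} [Fintype I] (v : I → E)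
    (hv : ∀ i, v i ∈ B) (hli : LinearIndependent ↥A v)
    (hsp : ∀ x ∈ B, ∃ c : I → ↥A, x = ∑ i, c i • v i) :
    Module.Finite ↥A ↥(IntermediateField.extendScalars h) ∧
      Module.finrank ↥A ↥(IntermediateField.extendScalars h) = Fintype.card I := by
  classical
  have hli' := linearIndependent_extendScalars h v hv hli
  have hspan : ⊤ ≤ Submodule.span ↥A
      (Set.range fun i => (⟨v i, hv i⟩ : ↥(IntermediateField.extendScalars h))) := by
    rintro x -
    obtain ⟨c, hc⟩ := hsp x.1 x.2
    have hx : x = ∑ i, c i • (⟨v i, hv i⟩ : ↥(IntermediateField.extendScalars h)) := by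
      apply Subtype.ext
      rw [hc]
      simp [IntermediateField.smul_def]
    rw [hx]
    exact Submodule.sum_mem _ fun i _ => Submodule.smul_mem _ _ (Submodule.subset_span ⟨i, rfl⟩)
  let b := Module.Basis.mk hli' hspan
  exact ⟨Module.Finite.of_basis b, Module.finrank_eq_card_basis b⟩

end Generic

/-! ## Degrees of base changes -/

section Degree

variable (L : Type*) [Field L] [Algebra ℚ L]
variable {F₀ F₁ : IntermediateField ℚ (LaurentSeries ℚ)}

/-- Finiteness descends: if the base change is finite, so is the rational extension. -/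
theorem finite_extendScalars_of_laurentBaseChange (h : F₀ ≤ F₁)
    (hfin : Module.Finite ↥(laurentBaseChange L F₀)
      ↥(IntermediateField.extendScalars (laurentBaseChange_mono (L := L) h))) :
    Module.Finite ↥F₀ ↥(IntermediateField.extendScalars h) := by
  classical
  rw [← Module.rank_lt_aleph0_iff]
  refine lt_of_le_of_lt (rank_le (n := Module.finrank ↥(laurentBaseChange L F₀)
    ↥(IntermediateField.extendScalars (laurentBaseChange_mono (L := L) h))) ?_)
    Cardinal.natCast_lt_aleph0
  intro s hs
  have h1 : LinearIndependent ↥F₀
      (fun i : s => ((i : ↥(IntermediateField.extendScalars h)) : LaurentSeries ℚ)) :=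
    linearIndependent_coe_extendScalars h _ hs
  have h2 := linearIndependent_coeffEmb (L := L) F₀ _ h1
  have h3 := linearIndependent_extendScalars (laurentBaseChange_mono (L := L) h) _
    (fun i : s => coeffEmb_mem_laurentBaseChange L
      (i : ↥(IntermediateField.extendScalars h)).2) h2
  have h4 := h3.fintype_card_le_finrank
  simpa using h4

/-- **Degrees are preserved by base change of the coefficients.** -/
theorem relfinrank_laurentBaseChange (h : F₀ ≤ F₁) :
    (laurentBaseChange L F₀).relfinrank (laurentBaseChange L F₁) = F₀.relfinrank F₁ := by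
  classical
  have h' := laurentBaseChange_mono (L := L) h
  rw [IntermediateField.relfinrank_eq_finrank_of_le h,
    IntermediateField.relfinrank_eq_finrank_of_le h']
  by_cases hfin : Module.Finite ↥F₀ ↥(IntermediateField.extendScalars h)
  · -- a basis of `F₁/F₀`
    let n := Module.finrank ↥F₀ ↥(IntermediateField.extendScalars h)
    let b : Module.Basis (Fin n) ↥F₀ ↥(IntermediateField.extendScalars h) := Module.finBasis _ _
    let y : Fin n → LaurentSeries ℚ := fun i => (b i : LaurentSeries ℚ)
    have hy : ∀ i, y i ∈ F₁ := fun i => (b i).2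
    have hli : LinearIndependent ↥F₀ y := linearIndependent_coe_extendScalars h _ b.linearIndependent
    have hsp : ∀ z ∈ F₁, ∃ a : Fin n → ↥F₀, z = ∑ i, a i • y i := by
      intro z hz
      refine ⟨fun i => b.repr ⟨z, hz⟩ i, ?_⟩
      have hz' : ((∑ i, b.repr ⟨z, hz⟩ i • b i : ↥(IntermediateField.extendScalars h)) :
          LaurentSeries ℚ) = z :=
        congrArg Subtype.val (b.sum_repr (⟨z, hz⟩ : ↥(IntermediateField.extendScalars h)))
      refine hz'.symm.trans ?_
      rw [AddSubmonoidClass.coe_finsetSum]
      rfl
    have hli' := linearIndependent_coeffEmb (L := L) F₀ y hli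
    have hsp' := exists_sum_smul_coeffEmb L y hsp
    have key := finrank_extendScalars_eq_card h' (fun i => coeffEmb L (y i))
      (fun i => coeffEmb_mem_laurentBaseChange L (hy i)) hli' hsp'
    rw [key.2, Fintype.card_fin]
  · rw [Module.finrank_of_not_finite hfin, Module.finrank_of_not_finite]
    exact fun hcon => hfin (finite_extendScalars_of_laurentBaseChange L h hcon)

/-- Finiteness ascends. -/
theorem finite_extendScalars_laurentBaseChange (h : F₀ ≤ F₁)
    (hfin : Module.Finite ↥F₀ ↥(IntermediateField.extendScalars h)) :
    Module.Finite ↥(laurentBaseChange L F₀)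
      ↥(IntermediateField.extendScalars (laurentBaseChange_mono (L := L) h)) := by
  have h' := laurentBaseChange_mono (L := L) h
  have hpos : 0 < Module.finrank ↥F₀ ↥(IntermediateField.extendScalars h) := Module.finrank_pos
  have hrel := relfinrank_laurentBaseChange L h
  rw [IntermediateField.relfinrank_eq_finrank_of_le h,
    IntermediateField.relfinrank_eq_finrank_of_le h'] at hrel
  exact Module.finite_of_finrank_pos (hrel ▸ hpos)

theorem finite_extendScalars_laurentBaseChange_iff (h : F₀ ≤ F₁) :
    Module.Finite ↥(laurentBaseChange L F₀)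
        ↥(IntermediateField.extendScalars (laurentBaseChange_mono (L := L) h)) ↔
      Module.Finite ↥F₀ ↥(IntermediateField.extendScalars h) :=
  ⟨finite_extendScalars_of_laurentBaseChange L h, finite_extendScalars_laurentBaseChange L h⟩

end Degree

/-! ## Simple subextensions: the `j`-line degree in the binder shape of the consumers -/

section Simple

variable {K E : Type*} [Field K] [Field E] [Algebra K E]

/-- Generic: the degree of `F` over the simple extension generated by one of its elements,
computed inside the ambient field. -/
theorem finrank_adjoin_simple_eq_relfinrank (F : IntermediateField K E) (y : ↥F) :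
    Module.finrank K⟮y⟯ ↥F = (K⟮(y : E)⟯).relfinrank F := by
  have h1 : IntermediateField.map F.val K⟮y⟯ = K⟮(y : E)⟯ :=
    IntermediateField.lift_adjoin_simple K F y
  have h2 : IntermediateField.map F.val (⊤ : IntermediateField K ↥F) = F :=
    IntermediateField.lift_top K F
  rw [← IntermediateField.relfinrank_top_right, ← IntermediateField.relfinrank_map_map _ _ F.val,
    h1, h2]

/-- Generic: finiteness is positivity of the degree. -/
theorem finiteDimensional_adjoin_simple_iff (F : IntermediateField K E) (y : ↥F) :
    FiniteDimensional K⟮y⟯ ↥F ↔ 0 < (K⟮(y : E)⟯).relfinrank F := by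
  rw [← finrank_adjoin_simple_eq_relfinrank]
  exact ⟨fun _ => Module.finrank_pos, fun h => Module.finite_of_finrank_pos h⟩

end Simple

section JLine

variable (L : Type*) [Field L] [Algebra ℚ L]

/-- The base change of a field generated over `ℚ` by a set `S` is generated over `L` by the
images of `S`. -/
theorem laurentBaseChange_adjoin (S : Set (LaurentSeries ℚ)) :
    laurentBaseChange L (IntermediateField.adjoin ℚ S) =
      IntermediateField.adjoin L (⇑(coeffEmb L) '' S) :=
  laurentBaseChange_eq_adjoin_coeffMap (algebraMap ℚ L)
    (laurentBaseChange_rat (IntermediateField.adjoin ℚ S))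

/-- `laurentBaseChange L ℚ(y) = L(y)`. -/
theorem laurentBaseChange_adjoin_simple (y : LaurentSeries ℚ) :
    laurentBaseChange L ℚ⟮y⟯ = L⟮coeffEmb L y⟯ := by
  rw [laurentBaseChange_adjoin, Set.image_singleton]

variable {F₀ : IntermediateField ℚ (LaurentSeries ℚ)}

/-- **The `j`-line degree does not depend on the field of coefficients** (binder shape of
`S24.helper24.Stmt_JFinrank`: `Module.finrank L⟮yL⟯ ↥(laurentBaseChange L F₀)` with `yL` an
element of the subtype).  The right-hand side is the rational degree `[F₀ : ℚ(y)]` written in
ambient form. -/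
theorem finrank_adjoin_simple_laurentBaseChange {y : LaurentSeries ℚ} (hy : y ∈ F₀) :
    Module.finrank
        L⟮(⟨coeffEmb L y, coeffEmb_mem_laurentBaseChange L hy⟩ : ↥(laurentBaseChange L F₀))⟯
        ↥(laurentBaseChange L F₀) =
      (ℚ⟮y⟯).relfinrank F₀ := by
  rw [finrank_adjoin_simple_eq_relfinrank]
  show (L⟮coeffEmb L y⟯).relfinrank (laurentBaseChange L F₀) = _
  rw [← laurentBaseChange_adjoin_simple]
  exact relfinrank_laurentBaseChange L (IntermediateField.adjoin_simple_le_iff.mpr hy)

/-- Finiteness over the `j`-line is decided at the rational level. -/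
theorem finiteDimensional_adjoin_simple_laurentBaseChange_iff {y : LaurentSeries ℚ}
    (hy : y ∈ F₀) :
    FiniteDimensional
        L⟮(⟨coeffEmb L y, coeffEmb_mem_laurentBaseChange L hy⟩ : ↥(laurentBaseChange L F₀))⟯
        ↥(laurentBaseChange L F₀) ↔
      0 < (ℚ⟮y⟯).relfinrank F₀ := by
  rw [← finrank_adjoin_simple_laurentBaseChange L hy]
  exact ⟨fun _ => Module.finrank_pos, fun h => Module.finite_of_finrank_pos h⟩

/-- **Transfer between two fields of coefficients** (for instance from `ℂ` to `ℚ̄`):
the degree over the `j`-line is the same. -/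
theorem finrank_adjoin_simple_laurentBaseChange_congr (L' : Type*) [Field L'] [Algebra ℚ L']
    {y : LaurentSeries ℚ} (hy : y ∈ F₀) :
    Module.finrank
        L⟮(⟨coeffEmb L y, coeffEmb_mem_laurentBaseChange L hy⟩ : ↥(laurentBaseChange L F₀))⟯
        ↥(laurentBaseChange L F₀) =
      Module.finrank
        L'⟮(⟨coeffEmb L' y, coeffEmb_mem_laurentBaseChange L' hy⟩ : ↥(laurentBaseChange L' F₀))⟯
        ↥(laurentBaseChange L' F₀) := by
  rw [finrank_adjoin_simple_laurentBaseChange L hy, finrank_adjoin_simple_laurentBaseChange L' hy]

/-- **Transfer between two fields of coefficients**: finiteness over the `j`-line. -/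
theorem finiteDimensional_adjoin_simple_laurentBaseChange_congr (L' : Type*) [Field L']
    [Algebra ℚ L'] {y : LaurentSeries ℚ} (hy : y ∈ F₀) :
    FiniteDimensional
        L⟮(⟨coeffEmb L y, coeffEmb_mem_laurentBaseChange L hy⟩ : ↥(laurentBaseChange L F₀))⟯
        ↥(laurentBaseChange L F₀) ↔
      FiniteDimensional
        L'⟮(⟨coeffEmb L' y, coeffEmb_mem_laurentBaseChange L' hy⟩ : ↥(laurentBaseChange L' F₀))⟯
        ↥(laurentBaseChange L' F₀) := by
  rw [finiteDimensional_adjoin_simple_laurentBaseChange_iff L hy,
    finiteDimensional_adjoin_simple_laurentBaseChange_iff L' hy]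

/-- The rational degree in subtype form (with the instances Lean elaborates by default for
`ℚ⟮y₀⟯` inside `↥F₀`). -/
theorem finrank_adjoin_simple_rat {y : LaurentSeries ℚ} (hy : y ∈ F₀) :
    Module.finrank ℚ⟮(⟨y, hy⟩ : ↥F₀)⟯ ↥F₀ = (ℚ⟮y⟯).relfinrank F₀ := by
  have h := finrank_adjoin_simple_eq_relfinrank F₀ ⟨y, hy⟩
  convert h <;> exact Subsingleton.elim _ _

/-- `[laurentBaseChange L F₀ : L(y)] = [F₀ : ℚ(y)]`, both sides in subtype form. -/
theorem finrank_adjoin_simple_laurentBaseChange_eq_rat {y : LaurentSeries ℚ} (hy : y ∈ F₀) :
    Module.finrank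
        L⟮(⟨coeffEmb L y, coeffEmb_mem_laurentBaseChange L hy⟩ : ↥(laurentBaseChange L F₀))⟯
        ↥(laurentBaseChange L F₀) =
      Module.finrank ℚ⟮(⟨y, hy⟩ : ↥F₀)⟯ ↥F₀ := by
  rw [finrank_adjoin_simple_laurentBaseChange L hy, finrank_adjoin_simple_rat hy]

/-- Finiteness over the `j`-line ascends from the rational level (subtype form). -/
theorem finiteDimensional_adjoin_simple_laurentBaseChange_of_rat {y : LaurentSeries ℚ}
    (hy : y ∈ F₀) (hfin : FiniteDimensional ℚ⟮(⟨y, hy⟩ : ↥F₀)⟯ ↥F₀) :
    FiniteDimensional
        L⟮(⟨coeffEmb L y, coeffEmb_mem_laurentBaseChange L hy⟩ : ↥(laurentBaseChange L F₀))⟯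
        ↥(laurentBaseChange L F₀) := by
  rw [finiteDimensional_adjoin_simple_laurentBaseChange_iff L hy, ← finrank_adjoin_simple_rat hy]
  exact Module.finrank_pos

end JLine

end Fermat.Agent.S48.helper8098
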