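import Fermat.Agent.S48.helper9025_DivForms
import Fermat.Agent.S48.helper1785_AffineRigidity
import Fermat.Agent.S24.helper144_Hermite

/-!
# S48-SEP1 (helper2648): the analytic separation of the cosets of `±Γ₁(M)`

Carrier-free (functions on the upper half plane only).  Let `M ≥ 7`,
`D_{a,b} = helper9025.divD M a b = (2πi)⁻² (℘(a/M) - ℘(b/M))` (modular forms of weight `2` on
`Γ₁(M)`) and `J = E₄³/Δ`.

* `mem_pm_Gamma1_of_invariant` : if `g ∈ SL(2, ℤ)` leaves `τ ↦ J (M τ)` and the ratios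
  `D_{a,1} / D_{1,2}` (`a ≢ 0 mod M`) invariant, then `g ∈ Γ₁(M)` or `-g ∈ Γ₁(M)`.
  (Proof: `J (M τ)` gives `g ∈ Γ₀(M)` by the landed Hermite normal form argument; the diamond law
  `D_{a,b} ∣ g = D_{a d, b d}`, `d = g 1 1`, and the constant terms of the `q`-expansions show
  that `x(ζ^a) ↦ x(ζ^(a d))` preserves ratios of differences of the division values
  `x(u) = u / (1 - u)²`; affine rigidity (leaf A3, `helper1785`) gives `d ≡ ±1 mod M`.)
* `divD_ratio_smul_of_pm_Gamma1`, `divD_div_smul_of_pm_Gamma1`, `scale_smul_of_pm_Gamma1` :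
  conversely these generators are invariant under `±Γ₁(M)`.
* `sep_of_generators` : the `sep` field of a function-level evaluation datum
  (`helper2648.EvalData` / `helper6324.EvFin`) for any `Γ ⊇ ±Γ₁(M)`, from the generator facts.
-/

set_option autoImplicit false

open CongruenceSubgroup Complex Filter Topology
open UpperHalfPlane hiding I
open scoped MatrixGroups Manifold ModularForm Real

noncomputable section

namespace Fermat.Agent.S48.helper2648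

open Fermat.Agent.S48 Fermat.Agent.S48.helper9025

/-! ## Limits at `i∞` -/

section Limits

variable (M : ℕ) [NeZero M]

omit [NeZero M] in
/-- A modular form on `Γ₁(M)` tends at `i∞` to the constant term of its `q`-expansion. -/
theorem tendsto_modularForm_Gamma1 {k : ℤ} (f : ModularForm (Gamma1 M) k) :
    Tendsto (f : ℍ → ℂ) atImInfty (𝓝 ((qExpansion 1 f).coeff 0)) := by
  have h1 := one_mem_strictPeriods_Gamma1 M
  have han := ModularFormClass.analyticAt_cuspFunction_zero f one_pos h1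
  have hfun : (cuspFunction 1 f ∘ fun τ : ℍ => Function.Periodic.qParam 1 (τ : ℂ)) = f := by
    funext τ
    exact SlashInvariantFormClass.eq_cuspFunction f τ h1 one_ne_zero
  have h0 : (qExpansion 1 f).coeff 0 = cuspFunction 1 f 0 := by
    simp [qExpansion_coeff]
  rw [h0]
  have h2 := han.continuousAt.tendsto.comp (qParam_tendsto_atImInfty (h := 1) one_pos)
  rw [hfun] at h2
  exact h2

/-- The division value `x(ζ_M^a) = ζ^a / (1 - ζ^a)²`. -/
def xz (a : ℤ) : ℂ := helper1785.xv (zetaM M ^ a)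

/-- `D_{a,b}` tends to `x(ζ^a) - x(ζ^b)` at `i∞`. -/
theorem tendsto_divD {a b : ℤ} (ha : ¬ (M : ℤ) ∣ a) (hb : ¬ (M : ℤ) ∣ b) :
    Tendsto (divD M a b : ℍ → ℂ) atImInfty (𝓝 (xz M a - xz M b)) := by
  have h := tendsto_modularForm_Gamma1 M (divD M a b)
  rw [qExpansion_divD_coeff_zero M ha hb] at h
  exact h

theorem zetaM_zpow_congr {x y : ℤ} (h : (M : ℤ) ∣ x - y) : zetaM M ^ x = zetaM M ^ y := by
  have h1 : zetaM M ^ (x - y) = 1 := (zetaM_zpow_eq_one_iff (NeZero.ne M) _).mpr h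
  have h2 : x = (x - y) + y := by ring
  rw [h2, zpow_add₀ (zetaM_ne_zero M), h1, one_mul]

theorem xz_congr {x y : ℤ} (h : (M : ℤ) ∣ x - y) : xz M x = xz M y := by
  unfold xz
  rw [zetaM_zpow_congr M h]

omit [NeZero M] in
theorem xz_natCast (n : ℕ) : xz M (n : ℤ) = helper1785.xv (zetaM M ^ n) := by
  unfold xz
  rw [zpow_natCast]

end Limits

/-! ## The diamond law at a point -/

section Diamond

variable (M : ℕ) [NeZero M]

/-- The diamond law of `D_{a,b}` at a point: for `g ∈ Γ₀(M)`,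
`D_{a,b} (g τ) = D_{a d, b d} (τ) (c τ + d)²` with `d = g 1 1`. -/
theorem divD_smul (a b : ℤ) {g : SL(2, ℤ)} (hg : g ∈ Gamma0 M) (τ : ℍ) :
    divD M a b (g • τ) = divD M (a * g 1 1) (b * g 1 1) τ * denom g τ ^ 2 := by
  have h := congrFun (divD_slash M a b hg) τ
  rw [ModularForm.SL_slash_apply] at h
  have hd : denom g τ ≠ 0 := denom_ne_zero g τ
  rw [← h, mul_assoc]
  have h2 : denom g τ ^ (-(2 : ℤ)) * denom g τ ^ 2 = 1 := by
    rw [zpow_neg, zpow_ofNat]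
    exact inv_mul_cancel₀ (pow_ne_zero 2 hd)
  rw [h2, mul_one]

/-- `D_{a,b}` at `g τ` for `g ∈ Γ₁(M)`. -/
theorem divD_smul_of_mem_Gamma1 (a b : ℤ) {g : SL(2, ℤ)} (hg : g ∈ Gamma1 M) (τ : ℍ) :
    divD M a b (g • τ) = divD M a b τ * denom g τ ^ 2 := by
  have hg' := hg
  rw [Gamma1_mem] at hg'
  obtain ⟨-, h11, h10⟩ := hg'
  have hg0 : g ∈ Gamma0 M := Gamma0_mem.mpr h10
  rw [divD_smul M a b hg0 τ]
  have hd : (M : ℤ) ∣ g 1 1 - 1 := by
    rw [← ZMod.intCast_zmod_eq_zero_iff_dvd]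
    push_cast
    rw [h11, sub_self]
  have h1 : ∀ x : ℤ, (M : ℤ) ∣ x * g 1 1 - x := by
    intro x
    have : x * g 1 1 - x = x * (g 1 1 - 1) := by ring
    rw [this]
    exact Dvd.dvd.mul_left hd x
  rw [divD_congr M (h1 a) (h1 b)]

/-- **(I)** Invariance of the ratios `D_{a,b} / D_{c,e}` under `±Γ₁(M)`, cross-multiplied. -/
theorem divD_ratio_smul_of_pm_Gamma1 (g : SL(2, ℤ)) (hg : g ∈ Gamma1 M ∨ -g ∈ Gamma1 M)
    (a b c e : ℤ) (τ : ℍ) :
    divD M a b (g • τ) * divD M c e τ = divD M a b τ * divD M c e (g • τ) := by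
  rcases hg with hg | hg
  · rw [divD_smul_of_mem_Gamma1 M a b hg τ, divD_smul_of_mem_Gamma1 M c e hg τ]
    ring
  · have h1 : (-g) • τ = g • τ := ModularGroup.SL_neg_smul g τ
    rw [← h1, divD_smul_of_mem_Gamma1 M a b hg τ, divD_smul_of_mem_Gamma1 M c e hg τ]
    ring

/-- **(I)** Invariance of the ratios `D_{a,b} / D_{c,e}` under `±Γ₁(M)`, quotient form. -/
theorem divD_div_smul_of_pm_Gamma1 (g : SL(2, ℤ)) (hg : g ∈ Gamma1 M ∨ -g ∈ Gamma1 M)
    (a b c e : ℤ) (τ : ℍ) :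
    divD M a b (g • τ) / divD M c e (g • τ) = divD M a b τ / divD M c e τ := by
  have key : ∀ g' : SL(2, ℤ), g' ∈ Gamma1 M →
      divD M a b (g' • τ) / divD M c e (g' • τ) = divD M a b τ / divD M c e τ := by
    intro g' hg'
    rw [divD_smul_of_mem_Gamma1 M a b hg' τ, divD_smul_of_mem_Gamma1 M c e hg' τ]
    exact mul_div_mul_right _ _ (pow_ne_zero 2 (denom_ne_zero g' τ))
  rcases hg with hg | hg
  · exact key g hg
  · have h1 : (-g) • τ = g • τ := ModularGroup.SL_neg_smul g τ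
    rw [← h1]
    exact key (-g) hg

end Diamond

/-! ## Membership in `±Γ₁(M)` from the lower right entry -/

section Entry

variable (M : ℕ)

theorem mem_Gamma1_of_entry {g : SL(2, ℤ)} (hg : g ∈ Gamma0 M)
    (h : ((g 1 1 : ℤ) : ZMod M) = 1) : g ∈ Gamma1 M := by
  rw [Gamma1_mem]
  have h10 : ((g 1 0 : ℤ) : ZMod M) = 0 := Gamma0_mem.mp hg
  refine ⟨?_, h, h10⟩
  have hdet : g 0 0 * g 1 1 - g 0 1 * g 1 0 = 1 := by
    have := g.det_coe
    rw [Matrix.det_fin_two] at this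
    exact this
  have h2 := congrArg (fun x : ℤ => (x : ZMod M)) hdet
  simp only [Int.cast_sub, Int.cast_mul, Int.cast_one] at h2
  rw [h, h10, mul_one, mul_zero, sub_zero] at h2
  exact h2

theorem neg_mem_Gamma1_of_entry {g : SL(2, ℤ)} (hg : g ∈ Gamma0 M)
    (h : ((g 1 1 : ℤ) : ZMod M) = -1) : -g ∈ Gamma1 M := by
  apply mem_Gamma1_of_entry
  · rw [Gamma0_mem]
    have h10 : ((g 1 0 : ℤ) : ZMod M) = 0 := Gamma0_mem.mp hg
    have e : (-g) 1 0 = -(g 1 0) := by simp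
    rw [e, Int.cast_neg, h10, neg_zero]
  · have e : (-g) 1 1 = -(g 1 1) := by simp
    rw [e, Int.cast_neg, h, neg_neg]

/-- The lower right entry of an element of `Γ₀(M)` is prime to `M`. -/
theorem isCoprime_entry {g : SL(2, ℤ)} (hg : g ∈ Gamma0 M) : IsCoprime (g 1 1) (M : ℤ) := by
  have h10 : ((g 1 0 : ℤ) : ZMod M) = 0 := Gamma0_mem.mp hg
  obtain ⟨k, hk⟩ := (ZMod.intCast_zmod_eq_zero_iff_dvd _ _).mp h10
  have hdet : g 0 0 * g 1 1 - g 0 1 * g 1 0 = 1 := by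
    have := g.det_coe
    rw [Matrix.det_fin_two] at this
    exact this
  refine ⟨g 0 0, -(g 0 1 * k), ?_⟩
  rw [hk] at hdet
  linear_combination hdet

end Entry

/-! ## The separation theorem -/

section Sep

variable (M : ℕ) [NeZero M]

/-- **(S), generic `J`.**  Let `J` be `SL(2, ℤ)`-invariant with `q J → 1` at `i∞` (e.g.
`J = E₄³/Δ`) and `M ≥ 7`.  If `g ∈ SL(2, ℤ)` leaves `τ ↦ J (M τ)` and the ratios
`D_{a,1} / D_{1,2}`, `a ≢ 0 mod M`, invariant, then `g ∈ ±Γ₁(M)`. -/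
theorem mem_pm_Gamma1_of_invariant_gen (hM : 7 ≤ M) {J : ℍ → ℂ}
    (hJ : ∀ (γ : SL(2, ℤ)) (τ : ℍ), J (γ • τ) = J τ)
    (hJ' : Tendsto (fun τ : ℍ => Function.Periodic.qParam 1 (τ : ℂ) * J τ) atImInfty (𝓝 1))
    (g : SL(2, ℤ))
    (hj : ∀ τ : ℍ, J (ofComplex ((M : ℂ) * ((g • τ : ℍ) : ℂ))) = J (ofComplex ((M : ℂ) * (τ : ℂ))))
    (hD : ∀ a : ℤ, ¬ (M : ℤ) ∣ a → ∀ τ : ℍ,
      divD M a 1 (g • τ) * divD M 1 2 τ = divD M a 1 τ * divD M 1 2 (g • τ)) :
    g ∈ Gamma1 M ∨ -g ∈ Gamma1 M := by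
  -- Step 1: `g ∈ Γ₀(M)`
  have hg : g ∈ Gamma0 M := by
    refine Fermat.Agent.S24.helper144.mem_Gamma0_of_scale_eq hJ hJ' M g ?_
    intro τ τ₁ τ₂ h₁ h₂
    have e1 : τ₁ = ofComplex ((M : ℂ) * ((g • τ : ℍ) : ℂ)) := by
      rw [← h₁, ofComplex_apply]
    have e2 : τ₂ = ofComplex ((M : ℂ) * (τ : ℂ)) := by
      rw [← h₂, ofComplex_apply]
    rw [e1, e2]
    exact hj τ
  set d : ℤ := g 1 1 with hd_def
  have hcop : IsCoprime d (M : ℤ) := isCoprime_entry M hg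
  have hM0 : M ≠ 0 := NeZero.ne M
  have hndvd : ∀ x : ℤ, ¬ (M : ℤ) ∣ x → ¬ (M : ℤ) ∣ x * d := by
    intro x hx h
    exact hx (hcop.symm.dvd_of_dvd_mul_right h)
  have hnat : ∀ n : ℕ, 0 < n → n < M → ¬ (M : ℤ) ∣ (n : ℤ) := by
    intro n h0 h1 h
    have h2 : M ∣ n := by exact_mod_cast h
    exact absurd (Nat.le_of_dvd h0 h2) (by omega)
  have h1 : ¬ (M : ℤ) ∣ (1 : ℤ) := by
    have := hnat 1 (by omega) (by omega)
    simpa using this
  have h2 : ¬ (M : ℤ) ∣ (2 : ℤ) := by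
    have := hnat 2 (by omega) (by omega)
    simpa using this
  -- Step 2: the pointwise identity on `ℍ`
  have hpt : ∀ a : ℤ, ¬ (M : ℤ) ∣ a → ∀ τ : ℍ,
      divD M (a * d) (1 * d) τ * divD M 1 2 τ = divD M a 1 τ * divD M (1 * d) (2 * d) τ := by
    intro a ha τ
    have h := hD a ha τ
    rw [divD_smul M a 1 hg τ, divD_smul M 1 2 hg τ] at h
    have hδ : denom g τ ^ 2 ≠ 0 := pow_ne_zero 2 (denom_ne_zero g τ)
    apply mul_right_cancel₀ hδ
    linear_combination h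
  -- Step 3: the identity of the division values
  have hval : ∀ a : ℤ, ¬ (M : ℤ) ∣ a →
      (xz M (a * d) - xz M (1 * d)) * (xz M 1 - xz M 2)
        = (xz M a - xz M 1) * (xz M (1 * d) - xz M (2 * d)) := by
    intro a ha
    have hl : Tendsto (fun τ : ℍ => divD M (a * d) (1 * d) τ * divD M 1 2 τ) atImInfty
        (𝓝 ((xz M (a * d) - xz M (1 * d)) * (xz M 1 - xz M 2))) :=
      (tendsto_divD M (hndvd a ha) (hndvd 1 h1)).mul (tendsto_divD M h1 h2)
    have hr : Tendsto (fun τ : ℍ => divD M a 1 τ * divD M (1 * d) (2 * d) τ) atImInfty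
        (𝓝 ((xz M a - xz M 1) * (xz M (1 * d) - xz M (2 * d)))) :=
      (tendsto_divD M ha h1).mul (tendsto_divD M (hndvd 1 h1) (hndvd 2 h2))
    have heq : (fun τ : ℍ => divD M (a * d) (1 * d) τ * divD M 1 2 τ)
        = fun τ : ℍ => divD M a 1 τ * divD M (1 * d) (2 * d) τ := funext (hpt a ha)
    rw [heq] at hl
    exact tendsto_nhds_unique hl hr
  -- Step 4: affine rigidity
  set d' : ℕ := (d % (M : ℤ)).toNat with hd'_def
  have hMz : (M : ℤ) ≠ 0 := by exact_mod_cast hM0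
  have hd'z : (d' : ℤ) = d % (M : ℤ) := Int.toNat_of_nonneg (Int.emod_nonneg d hMz)
  have hdd' : (M : ℤ) ∣ d - (d' : ℤ) := by
    rw [hd'z]
    refine ⟨d / (M : ℤ), ?_⟩
    have := Int.emod_add_mul_ediv d (M : ℤ)
    linarith
  have hcop' : d'.Coprime M := by
    rw [← Nat.isCoprime_iff_coprime, hd'z]
    have h3 : d % (M : ℤ) = d - (M : ℤ) * (d / (M : ℤ)) := by
      have := Int.emod_add_mul_ediv d (M : ℤ)
      linarith
    rw [h3]
    have h4 : d - (M : ℤ) * (d / (M : ℤ)) = d + (-(d / (M : ℤ))) * (M : ℤ) := by ring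
    rw [h4]
    exact (IsCoprime.add_mul_right_left_iff).mpr hcop
  have hcong : ∀ x : ℕ, (M : ℤ) ∣ (x : ℤ) * d - ((d' * x : ℕ) : ℤ) := by
    intro x
    have : (x : ℤ) * d - ((d' * x : ℕ) : ℤ) = (x : ℤ) * (d - (d' : ℤ)) := by push_cast; ring
    rw [this]
    exact Dvd.dvd.mul_left hdd' _
  have hxz : ∀ x : ℕ, xz M ((x : ℤ) * d) = helper1785.xv (zetaM M ^ (d' * x)) := by
    intro x
    rw [xz_congr M (hcong x), xz_natCast]
  have hA3 : ((d' : ℕ) : ZMod M) = 1 ∨ ((d' : ℕ) : ZMod M) = -1 := by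
    refine helper1785.diamond_eq_pm_one_of_ratio hM (zetaM_isPrimitiveRoot hM0) hcop' ?_
    intro a ha
    have ha' : ¬ (M : ℤ) ∣ (a : ℤ) := by
      intro h
      exact ha (by exact_mod_cast h)
    have h := hval (a : ℤ) ha'
    have e1 : xz M (1 * d) = helper1785.xv (zetaM M ^ (d' * 1)) := by
      have := hxz 1
      simpa using this
    have e2 : xz M (2 * d) = helper1785.xv (zetaM M ^ (d' * 2)) := by
      have := hxz 2
      simpa using this
    have e3 : xz M 1 = helper1785.xv (zetaM M ^ 1) := by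
      have := xz_natCast M 1
      simpa using this
    have e4 : xz M 2 = helper1785.xv (zetaM M ^ 2) := by
      have := xz_natCast M 2
      simpa using this
    rw [hxz a, e1, e2, e3, e4, xz_natCast] at h
    exact h
  -- Step 5: conclusion
  have hdz : ((d : ℤ) : ZMod M) = ((d' : ℕ) : ZMod M) := by
    have h3 : (((d - (d' : ℤ) : ℤ)) : ZMod M) = 0 :=
      (ZMod.intCast_zmod_eq_zero_iff_dvd _ _).mpr hdd'
    rw [Int.cast_sub, Int.cast_natCast, sub_eq_zero] at h3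
    exact h3
  rcases hA3 with h | h
  · left
    exact mem_Gamma1_of_entry M hg (hdz.trans h)
  · right
    exact neg_mem_Gamma1_of_entry M hg (hdz.trans h)

/-- **(S)** for `J = E₄³/Δ` (`= helper144.Jfun`, definitionally equal to `S24.helper24.jFun` and
`S24.helper1644.jFun`). -/
theorem mem_pm_Gamma1_of_invariant (hM : 7 ≤ M) (g : SL(2, ℤ))
    (hj : ∀ τ : ℍ, Fermat.Agent.S24.helper144.Jfun (ofComplex ((M : ℂ) * ((g • τ : ℍ) : ℂ)))
      = Fermat.Agent.S24.helper144.Jfun (ofComplex ((M : ℂ) * (τ : ℂ))))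
    (hD : ∀ a : ℤ, ¬ (M : ℤ) ∣ a → ∀ τ : ℍ,
      divD M a 1 (g • τ) * divD M 1 2 τ = divD M a 1 τ * divD M 1 2 (g • τ)) :
    g ∈ Gamma1 M ∨ -g ∈ Gamma1 M :=
  mem_pm_Gamma1_of_invariant_gen M hM Fermat.Agent.S24.helper144.Jfun_smul
    Fermat.Agent.S24.helper144.tendsto_qParam_mul_Jfun g hj hD

/-- **(S)**, all admissible quadruples, cross-multiplied form. -/
theorem mem_pm_Gamma1_of_invariant_all (hM : 7 ≤ M) (g : SL(2, ℤ))
    (hj : ∀ τ : ℍ, Fermat.Agent.S24.helper144.Jfun (ofComplex ((M : ℂ) * ((g • τ : ℍ) : ℂ)))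
      = Fermat.Agent.S24.helper144.Jfun (ofComplex ((M : ℂ) * (τ : ℂ))))
    (hD : ∀ a b c e : ℤ, ¬ (M : ℤ) ∣ a → ¬ (M : ℤ) ∣ b → ¬ (M : ℤ) ∣ c → ¬ (M : ℤ) ∣ e →
      ¬ (M : ℤ) ∣ c - e → ¬ (M : ℤ) ∣ c + e → ∀ τ : ℍ,
      divD M a b (g • τ) * divD M c e τ = divD M a b τ * divD M c e (g • τ)) :
    g ∈ Gamma1 M ∨ -g ∈ Gamma1 M := by
  have hnat : ∀ n : ℤ, 0 < n → n < 7 → ¬ (M : ℤ) ∣ n := by
    intro n h0 h1 h
    have h2 := Int.le_of_dvd h0 h
    have h3 : (7 : ℤ) ≤ (M : ℤ) := by exact_mod_cast hM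
    omega
  refine mem_pm_Gamma1_of_invariant M hM g hj (fun a ha τ => ?_)
  exact hD a 1 1 2 ha (hnat 1 (by norm_num) (by norm_num)) (hnat 1 (by norm_num) (by norm_num))
    (hnat 2 (by norm_num) (by norm_num))
    (by
      intro h
      have h' : (M : ℤ) ∣ (1 : ℤ) := by
        have e : (1 : ℤ) - 2 = -1 := by norm_num
        rw [e] at h
        exact (dvd_neg.mp h)
      exact hnat 1 (by norm_num) (by norm_num) h')
    (by
      have e : (1 : ℤ) + 2 = 3 := by norm_num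
      rw [e]
      exact hnat 3 (by norm_num) (by norm_num)) τ

/-- **(S)**, quotient form (`D_{1,2}` has no zero on `ℍ`). -/
theorem mem_pm_Gamma1_of_invariant_div (hM : 7 ≤ M) (g : SL(2, ℤ))
    (hj : ∀ τ : ℍ, Fermat.Agent.S24.helper144.Jfun (ofComplex ((M : ℂ) * ((g • τ : ℍ) : ℂ)))
      = Fermat.Agent.S24.helper144.Jfun (ofComplex ((M : ℂ) * (τ : ℂ))))
    (hD : ∀ a : ℤ, ¬ (M : ℤ) ∣ a → ∀ τ : ℍ,
      divD M a 1 (g • τ) / divD M 1 2 (g • τ) = divD M a 1 τ / divD M 1 2 τ) :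
    g ∈ Gamma1 M ∨ -g ∈ Gamma1 M := by
  have hnat : ∀ n : ℤ, 0 < n → n < 7 → ¬ (M : ℤ) ∣ n := by
    intro n h0 h1 h
    have h2 := Int.le_of_dvd h0 h
    have h3 : (7 : ℤ) ≤ (M : ℤ) := by exact_mod_cast hM
    omega
  have h12 : ∀ τ : ℍ, divD M 1 2 τ ≠ 0 := by
    intro τ
    refine divD_apply_ne_zero M (hnat 1 (by norm_num) (by norm_num))
      (hnat 2 (by norm_num) (by norm_num)) ?_ ?_ τ
    · intro h
      have e : (1 : ℤ) - 2 = -1 := by norm_num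
      rw [e] at h
      exact hnat 1 (by norm_num) (by norm_num) (dvd_neg.mp h)
    · have e : (1 : ℤ) + 2 = 3 := by norm_num
      rw [e]
      exact hnat 3 (by norm_num) (by norm_num)
  refine mem_pm_Gamma1_of_invariant M hM g hj (fun a ha τ => ?_)
  have h := hD a ha τ
  rw [div_eq_div_iff (h12 (g • τ)) (h12 τ)] at h
  exact h

/-- **(J)** `τ ↦ J (M τ)` is invariant under `Γ₀(M)` (in particular under `±Γ₁(M)`), for every
`SL(2, ℤ)`-invariant `J`. -/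
theorem scale_smul_of_mem_Gamma0 {α : Type*} {J : ℍ → α}
    (hJ : ∀ (γ : SL(2, ℤ)) (τ : ℍ), J (γ • τ) = J τ) {g : SL(2, ℤ)} (hg : g ∈ Gamma0 M)
    (τ : ℍ) :
    J (ofComplex ((M : ℂ) * ((g • τ : ℍ) : ℂ))) = J (ofComplex ((M : ℂ) * (τ : ℂ))) := by
  have hMpos : (0 : ℝ) < (M : ℝ) := by exact_mod_cast Nat.pos_of_ne_zero (NeZero.ne M)
  have him : ∀ σ : ℍ, 0 < ((M : ℂ) * (σ : ℂ)).im := by
    intro σ
    have e : ((M : ℂ) * (σ : ℂ)).im = (M : ℝ) * σ.im := by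
      rw [← Complex.ofReal_natCast, Complex.im_ofReal_mul]
      rfl
    rw [e]
    exact mul_pos hMpos σ.im_pos
  refine Fermat.Agent.S24.helper144.eq_of_mem_Gamma0 hJ (N := M) (d := (M : ℤ))
    (by exact_mod_cast Nat.pos_of_ne_zero (NeZero.ne M)) dvd_rfl hg τ _ _ ?_ ?_
  · rw [ofComplex_apply_of_im_pos (him (g • τ))]
    push_cast
    rfl
  · rw [ofComplex_apply_of_im_pos (him τ)]
    push_cast
    rfl

omit [NeZero M] in
theorem mem_Gamma0_of_pm_Gamma1 {g : SL(2, ℤ)} (hg : g ∈ Gamma1 M ∨ -g ∈ Gamma1 M) :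
    g ∈ Gamma0 M := by
  rcases hg with hg | hg
  · rw [Gamma1_mem] at hg
    exact Gamma0_mem.mpr hg.2.2
  · rw [Gamma1_mem] at hg
    rw [Gamma0_mem]
    have e : (-g) 1 0 = -(g 1 0) := by simp
    have h := hg.2.2
    rw [e, Int.cast_neg, neg_eq_zero] at h
    exact h

/-- **(J)** `τ ↦ J (M τ)` is invariant under `±Γ₁(M)`. -/
theorem scale_smul_of_pm_Gamma1 {α : Type*} {J : ℍ → α}
    (hJ : ∀ (γ : SL(2, ℤ)) (τ : ℍ), J (γ • τ) = J τ) {g : SL(2, ℤ)}
    (hg : g ∈ Gamma1 M ∨ -g ∈ Gamma1 M) (τ : ℍ) :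
    J (ofComplex ((M : ℂ) * ((g • τ : ℍ) : ℂ))) = J (ofComplex ((M : ℂ) * (τ : ℂ))) :=
  scale_smul_of_mem_Gamma0 M hJ (mem_Gamma0_of_pm_Gamma1 M hg) τ

/-- **(E)** The `sep` field of a function-level evaluation datum for any `Γ ⊇ ±Γ₁(M)`, from the
generator facts: the evaluation takes some element to `τ ↦ J (M τ)` and, for every `a ≢ 0 mod M`,
some element to the ratio `D_{a,1} / D_{1,2}`. -/
theorem sep_of_generators (hM : 7 ≤ M) (Γ : Subgroup SL(2, ℤ))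
    (hΓ : ∀ g : SL(2, ℤ), g ∈ Gamma1 M ∨ -g ∈ Gamma1 M → g ∈ Γ)
    {A : Type*} (e : A → ℍ → ℂ)
    (hjM : ∃ x : A, ∀ τ : ℍ,
      e x τ = Fermat.Agent.S24.helper144.Jfun (ofComplex ((M : ℂ) * (τ : ℂ))))
    (hr : ∀ a : ℤ, ¬ (M : ℤ) ∣ a → ∃ r : A, ∀ τ : ℍ, e r τ * divD M 1 2 τ = divD M a 1 τ)
    (g : SL(2, ℤ)) (hg : ∀ (a : A) (τ : ℍ), e a (g • τ) = e a τ) : g ∈ Γ := by
  apply hΓ
  obtain ⟨x, hx⟩ := hjM
  refine mem_pm_Gamma1_of_invariant M hM g ?_ ?_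
  · intro τ
    rw [← hx, ← hx, hg]
  · intro a ha τ
    obtain ⟨r, hr'⟩ := hr a ha
    rw [← hr' (g • τ), ← hr' τ, hg r τ]
    ring

end Sep

end Fermat.Agent.S48.helper2648
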