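import Mathlib
import Fermat.Prelude.Thm_ModularCurve_coeff_jqModC_neg_one
import Fermat.Agent.S48.helper5047_EvalDatum
import Fermat.Agent.S48.helper7300_Gamma1Field
import Fermat.Agent.S48.helper9025_DivForms
import Fermat.Agent.S48.helper1704_QBridge
import Fermat.Agent.S48.helper2648_SepGamma1
import Fermat.Agent.Lib.helper1219_Bridge
import Fermat.Agent.S24.helper288_Conj

/-!
# S48-EVAL1 (E3) (helper5047): the generator layer of the `Γ₁(M)` field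

The carrier is `helper7300.gamma1Field K M ⊆ K((q))` (any field `K`, any `i0 : K →+* ℂ`).  Its
defining generators `gen K phiZ u v = (E₄/E₆) · (x(u) - x(v))` have poles on the upper half plane
(the zeros of `E₆`), so they are replaced by a generating set `g1Set K M` all of whose elements
are `q`-expansions of *holomorphic* functions on `ℍ`:

* the `Γ₀(M)` generators `j(q^d)`, `d ∣ M`, with functions `τ ↦ j(dτ)`;
* `hGen K u v = (j - 1728) · gen K phiZ u v`, with functions `hFun M a b = E₄ E₆ / Δ · D_{a,b}`;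
* the ratios `dRatio K u v u' v'` (`u' ≠ v'^{±1}`), with functions `rFun M a b c e = D_{a,b}/D_{c,e}`.

Main statements:

* `gamma1Field_eq_adjoin : gamma1Field K M = adjoin K (g1Set K M)`,
* `g1Set_subset_qAlg i0 : ∀ s ∈ g1Set K M, s ∈ qAlg i0`,
* `qFun_g1Set_cases` : the function of every generator is one of the three explicit shapes,
* `qFun_g1Set_smul` : the functions of the generators are invariant under `±Γ₁(M)`.
-/

set_option autoImplicit false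

open UpperHalfPlane Function Complex Filter ModularCurve CongruenceSubgroup
open scoped Real Manifold Topology MatrixGroups ModularForm

namespace Fermat.Agent.S48.helper5047

open Fermat.Agent.S24.helper1704 Fermat.Agent.S24.helper580
open Fermat.Agent.S48.helper7300 Fermat.Agent.S48.helper9025
open ModularForm EisensteinSeries

local notation "Δ" => ModularForm.discriminant
local notation "ι" => HahnSeries.ofPowerSeries ℤ ℂ

noncomputable section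

/-! ## Series bridges over `ℂ` -/

/-- The `q`-expansion of `E₆` is the integral series `eisenstein6`. -/
theorem qExpansion_E6_eq : qExpansion 1 ⇑E₆ = zSer ℂ eisenstein6 := by
  ext m
  rw [EisensteinSeries.E_qExpansion_coeff (by norm_num : 3 ≤ 6) ⟨3, rfl⟩ m, zSer,
    PowerSeries.coeff_map, eisenstein6, PowerSeries.coeff_mk]
  have hb : bernoulli 6 = 1 / 42 := by decide +kernel
  split_ifs with h
  · simp
  · rw [hb, eq_intCast, ArithmeticFunction.sigma_apply]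
    push_cast
    ring

theorem zSer_phiZ_mul_qExpansion_E6 :
    zSer ℂ phiZ * qExpansion 1 ⇑E₆ = qExpansion 1 ⇑E₄ := by
  rw [qExpansion_E6_eq, Fermat.Agent.Lib.helper1219.qExpansion_E4_eq, zSer, zSer, ← map_mul,
    phiZ_mul_eisenstein6]

/-- Coefficient bridge between DFORM's `dCoeff` and A2's `dSer`. -/
theorem mk_dCoeff_eq_dSer (u v : ℂ) : PowerSeries.mk (dCoeff u v) = dSer u v := by
  ext n
  rcases eq_or_ne n 0 with rfl | hn
  · rw [PowerSeries.coeff_mk, dCoeff_zero, coeff_dSer_zero, xv_eq_div, xv_eq_div]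
  · rw [PowerSeries.coeff_mk, dCoeff_of_ne_zero u v hn, coeff_dSer_of_ne_zero u v hn, wpCoeff_sub]
    simp only [Ring.inverse_eq_inv']

theorem hasQ_E4 : HasQ 1 ⇑E₄ (ι (qExpansion 1 ⇑E₄)) :=
  helper1704.hasQ_of_modularFormClass E₄ one_pos one_mem_strictPeriods_SL

theorem hasQ_E6 : HasQ 1 ⇑E₆ (ι (qExpansion 1 ⇑E₆)) :=
  helper1704.hasQ_of_modularFormClass E₆ one_pos one_mem_strictPeriods_SL

theorem hasQ_disc : HasQ 1 Δ (ι (qExpansion 1 Δ)) :=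
  helper1704.hasQ_of_modularFormClass CuspForm.discriminant one_pos one_mem_strictPeriods_SL

theorem hasQ_divD (M : ℕ) [NeZero M] {a b : ℤ} (ha : ¬ (M : ℤ) ∣ a) (hb : ¬ (M : ℤ) ∣ b) :
    HasQ 1 ⇑(divD M a b) (ι (dSer (zetaM M ^ a) (zetaM M ^ b))) := by
  have h := helper1704.hasQ_of_modularFormClass (divD M a b) one_pos
    (one_mem_strictPeriods_Gamma1 M)
  rwa [qExpansion_divD M ha hb, mk_dCoeff_eq_dSer] at h

/-- `(j - 1728) Δ = E₆²` on `q`-expansions. -/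
theorem jq_sub_mul_disc :
    (jqModC ℂ - algebraMap ℂ (LaurentSeries ℂ) 1728) * ι (qExpansion 1 Δ)
      = ι (qExpansion 1 ⇑E₆) ^ 2 := by
  have h1 := Fermat.Agent.Lib.helper1219.jqModC_mul_disc
  have h2 : algebraMap ℂ (LaurentSeries ℂ) 1728 * ι (qExpansion 1 Δ)
      = ι (qExpansion 1 ⇑E₄) ^ 3 - ι (qExpansion 1 ⇑E₆) ^ 2 := by
    have hA : HasQ 1 ((fun _ => (1728 : ℂ)) * Δ)
        (algebraMap ℂ (LaurentSeries ℂ) 1728 * ι (qExpansion 1 Δ)) := by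
      have := (HasQ.const 1 (1728 : ℂ)).mul one_pos hasQ_disc
      rw [algebraMap_laurentSeries_eq_single]
      exact this
    have hB : HasQ 1 (⇑E₄ ^ 3 - ⇑E₆ ^ 2)
        (ι (qExpansion 1 ⇑E₄) ^ 3 - ι (qExpansion 1 ⇑E₆) ^ 2) :=
      (hasQ_E4.pow one_pos 3).sub one_pos (hasQ_E6.pow one_pos 2)
    have hfun : (fun _ => (1728 : ℂ)) * Δ = ⇑E₄ ^ 3 - ⇑E₆ ^ 2 := by
      funext τ
      simp only [Pi.mul_apply, Pi.sub_apply, Pi.pow_apply]
      rw [discriminant_eq_E₄_cube_sub_E₆_sq τ]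
      ring
    rw [hfun] at hA
    exact HasQ.unique one_pos hA hB
  rw [sub_mul, h1, h2]
  ring

/-! ## The functions of the generators -/

/-- `E₄ E₆ / Δ · D_{a,b}` : the holomorphic twin (weight `0`) of the normalised difference
`E₄ / E₆ · D_{a,b}`. -/
def hFun (M : ℕ) [NeZero M] (a b : ℤ) : ℍ → ℂ := fun τ => E₄ τ * E₆ τ / Δ τ * divD M a b τ

/-- The ratio `D_{a,b} / D_{c,e}`. -/
def rFun (M : ℕ) [NeZero M] (a b c e : ℤ) : ℍ → ℂ := fun τ => divD M a b τ / divD M c e τ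

/-- `τ ↦ j(dτ)`. -/
def jdFun (d : ℕ) : ℍ → ℂ := fun τ =>
  Fermat.Agent.S24.helper1644.jFun (ofComplex ((d : ℂ) * (τ : ℂ)))

theorem hFun_apply (M : ℕ) [NeZero M] (a b : ℤ) (τ : ℍ) :
    hFun M a b τ = E₄ τ * E₆ τ / Δ τ * divD M a b τ := rfl

theorem rFun_apply (M : ℕ) [NeZero M] (a b c e : ℤ) (τ : ℍ) :
    rFun M a b c e τ = divD M a b τ / divD M c e τ := rfl

theorem jdFun_apply (d : ℕ) (τ : ℍ) :
    jdFun d τ = Fermat.Agent.S24.helper1644.jFun (ofComplex ((d : ℂ) * (τ : ℂ))) := rfl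

/-- The `q`-expansion of `hFun M a b` over `ℂ`. -/
theorem hasQ_hFun (M : ℕ) [NeZero M] {a b : ℤ} (ha : ¬ (M : ℤ) ∣ a) (hb : ¬ (M : ℤ) ∣ b) :
    HasQ 1 (hFun M a b) ((jqModC ℂ - algebraMap ℂ (LaurentSeries ℂ) 1728) *
      gen ℂ phiZ (zetaM M ^ a) (zetaM M ^ b)) := by
  have hnum : HasQ 1 (⇑E₄ * ⇑E₆ * ⇑(divD M a b))
      (ι (qExpansion 1 ⇑E₄) * ι (qExpansion 1 ⇑E₆) * ι (dSer (zetaM M ^ a) (zetaM M ^ b))) :=
    (hasQ_E4.mul one_pos hasQ_E6).mul one_pos (hasQ_divD M ha hb)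
  have hq := hasQ_div_of_ne_zero hnum hasQ_disc (fun τ => discriminant_ne_zero τ)
  have hfun : (⇑E₄ * ⇑E₆ * ⇑(divD M a b)) / Δ = hFun M a b := by
    funext τ
    simp only [Pi.div_apply, Pi.mul_apply, hFun_apply]
    ring
  have hL0 : ι (qExpansion 1 Δ) ≠ 0 := by
    intro h0
    have h1 := hasQ_disc
    rw [h0] at h1
    have h2 := HasQ.eq_zero_of_zero one_pos h1
    exact discriminant_ne_zero UpperHalfPlane.I (congrFun h2 _)
  have hP : ι (zSer ℂ phiZ) * ι (qExpansion 1 ⇑E₆) = ι (qExpansion 1 ⇑E₄) := by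
    rw [← map_mul, zSer_phiZ_mul_qExpansion_E6]
  have hj := jq_sub_mul_disc
  have hser : ι (qExpansion 1 ⇑E₄) * ι (qExpansion 1 ⇑E₆) * ι (dSer (zetaM M ^ a) (zetaM M ^ b))
      / ι (qExpansion 1 Δ) = (jqModC ℂ - algebraMap ℂ (LaurentSeries ℂ) 1728) *
      gen ℂ phiZ (zetaM M ^ a) (zetaM M ^ b) := by
    rw [div_eq_iff hL0, gen_def]
    linear_combination (-(ι (zSer ℂ phiZ) * ι (dSer (zetaM M ^ a) (zetaM M ^ b)))) * hj
      + (-(ι (qExpansion 1 ⇑E₆) * ι (dSer (zetaM M ^ a) (zetaM M ^ b)))) * hP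
  rw [hfun, hser] at hq
  exact hq

/-- The `q`-expansion of `rFun M a b c e` over `ℂ`. -/
theorem hasQ_rFun (M : ℕ) [NeZero M] {a b c e : ℤ} (ha : ¬ (M : ℤ) ∣ a) (hb : ¬ (M : ℤ) ∣ b)
    (hc : ¬ (M : ℤ) ∣ c) (he : ¬ (M : ℤ) ∣ e) (hsub : ¬ (M : ℤ) ∣ c - e)
    (hadd : ¬ (M : ℤ) ∣ c + e) :
    HasQ 1 (rFun M a b c e)
      (dRatio ℂ (zetaM M ^ a) (zetaM M ^ b) (zetaM M ^ c) (zetaM M ^ e)) :=
  hasQ_div_of_ne_zero (hasQ_divD M ha hb) (hasQ_divD M hc he)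
    (fun τ => divD_apply_ne_zero M hc he hsub hadd τ)

/-- The `q`-expansion of `τ ↦ j(dτ)`. -/
theorem hasQ_jdFun {K : Type*} [Field K] (i0 : K →+* ℂ) (d : ℕ) [NeZero d] :
    HasQ 1 (jdFun d) (coeffMap i0 (qExpand K d (jqModC K))) :=
  helper1704.hasQ_jFun_scale_coeffMap i0 d

/-! ## Roots of unity -/

section Roots

variable {K : Type*} [Field K] (i0 : K →+* ℂ) (M : ℕ) [NeZero M]

/-- The image in `ℂ` of an `M`-th root of unity of `K` is a power of `zetaM M`. -/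
theorem exists_zpow_eq {u : K} (hu : u ^ M = 1) :
    ∃ a : ℤ, i0 u = zetaM M ^ a ∧ (u ≠ 1 → ¬ (M : ℤ) ∣ a) := by
  have h1 : i0 u ^ M = 1 := by rw [← map_pow, hu, map_one]
  obtain ⟨i, -, hi⟩ := (zetaM_isPrimitiveRoot (NeZero.ne M)).eq_pow_of_pow_eq_one h1
  refine ⟨(i : ℤ), by rw [zpow_natCast, hi], fun hu1 hdvd => hu1 ?_⟩
  have h2 : zetaM M ^ (i : ℤ) = 1 := (zetaM_zpow_eq_one_iff (NeZero.ne M) _).mpr hdvd
  rw [zpow_natCast, hi] at h2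
  exact i0.injective (h2.trans (map_one i0).symm)

theorem not_dvd_sub_of_ne {u v : K} {c e : ℤ} (hu : i0 u = zetaM M ^ c) (hv : i0 v = zetaM M ^ e)
    (h : u ≠ v) : ¬ (M : ℤ) ∣ c - e := by
  intro hdvd
  apply h
  have h1 : zetaM M ^ (c - e) = 1 := (zetaM_zpow_eq_one_iff (NeZero.ne M) _).mpr hdvd
  rw [zpow_sub₀ (zetaM_ne_zero M), div_eq_one_iff_eq (zpow_ne_zero _ (zetaM_ne_zero M))] at h1
  exact i0.injective (by rw [hu, hv, h1])

theorem not_dvd_add_of_ne {u v : K} {c e : ℤ} (hu : i0 u = zetaM M ^ c) (hv : i0 v = zetaM M ^ e)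
    (h : u * v ≠ 1) : ¬ (M : ℤ) ∣ c + e := by
  intro hdvd
  apply h
  have h1 : zetaM M ^ (c + e) = 1 := (zetaM_zpow_eq_one_iff (NeZero.ne M) _).mpr hdvd
  rw [zpow_add₀ (zetaM_ne_zero M)] at h1
  exact i0.injective (by rw [map_mul, hu, hv, h1, map_one])

end Roots

/-! ## The holomorphic generating set -/

section GenSet

variable (K : Type*) [Field K] (M : ℕ) [NeZero M]

/-- The holomorphic twin `(j - 1728) · gen K phiZ u v` of the normalised difference. -/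
def hGen (u v : K) : LaurentSeries K :=
  (jqModC K - algebraMap K (LaurentSeries K) 1728) * gen K phiZ u v

/-- The holomorphic generators of the second kind. -/
def hGens : Set (LaurentSeries K) :=
  {x | ∃ u v : K, u ^ M = 1 ∧ u ≠ 1 ∧ v ^ M = 1 ∧ v ≠ 1 ∧ x = hGen K u v}

/-- The holomorphic generators of the third kind: ratios with nowhere vanishing denominator. -/
def rGens : Set (LaurentSeries K) :=
  {x | ∃ u v u' v' : K, u ^ M = 1 ∧ u ≠ 1 ∧ v ^ M = 1 ∧ v ≠ 1 ∧ u' ^ M = 1 ∧ u' ≠ 1 ∧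
    v' ^ M = 1 ∧ v' ≠ 1 ∧ u' ≠ v' ∧ u' * v' ≠ 1 ∧ x = dRatio K u v u' v'}

/-- **The holomorphic generating set of the `Γ₁(M)` field.** -/
def g1Set : Set (LaurentSeries K) := divisorExpansionsC K M ∪ (hGens K M ∪ rGens K M)

variable {K M}

omit [NeZero M] in
theorem jq_sub_ne_zero (c : K) : jqModC K - algebraMap K (LaurentSeries K) c ≠ 0 := by
  intro h
  have h1 := congrArg (fun x : LaurentSeries K => x.coeff (-1)) h
  simp only [HahnSeries.coeff_sub, HahnSeries.coeff_zero] at h1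
  rw [ModularCurve.coeff_jqModC_neg_one, algebraMap_laurentSeries_eq_single,
    HahnSeries.coeff_single_of_ne (by norm_num), sub_zero] at h1
  exact one_ne_zero h1

theorem jqModC_mem_g1Set : jqModC K ∈ g1Set K M :=
  Or.inl ⟨1, inferInstance, one_dvd M, (qExpand_one_apply _).symm⟩

theorem qExpand_jqModC_mem_g1Set {d : ℕ} [NeZero d] (hd : d ∣ M) :
    qExpand K d (jqModC K) ∈ g1Set K M :=
  Or.inl (mem_divisorExpansionsC K M hd)

theorem hGen_mem_g1Set {u v : K} (hu : u ^ M = 1) (hu1 : u ≠ 1) (hv : v ^ M = 1) (hv1 : v ≠ 1) :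
    hGen K u v ∈ g1Set K M :=
  Or.inr (Or.inl ⟨u, v, hu, hu1, hv, hv1, rfl⟩)

theorem dRatio_mem_g1Set {u v u' v' : K} (hu : u ^ M = 1) (hu1 : u ≠ 1) (hv : v ^ M = 1)
    (hv1 : v ≠ 1) (hu' : u' ^ M = 1) (hu1' : u' ≠ 1) (hv' : v' ^ M = 1) (hv1' : v' ≠ 1)
    (hne : u' ≠ v') (hne' : u' * v' ≠ 1) : dRatio K u v u' v' ∈ g1Set K M :=
  Or.inr (Or.inr ⟨u, v, u', v', hu, hu1, hv, hv1, hu', hu1', hv', hv1', hne, hne', rfl⟩)

variable (K M)

/-- **The `Γ₁(M)` field is generated by the holomorphic generators.** -/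
theorem gamma1Field_eq_adjoin :
    gamma1Field K M = IntermediateField.adjoin K (g1Set K M) := by
  apply le_antisymm
  · show IntermediateField.adjoin K (divisorExpansionsC K M ∪ gamma1Gens K phiZ M) ≤ _
    rw [IntermediateField.adjoin_le_iff]
    rintro x (hx | ⟨u, v, hu, hu1, hv, hv1, rfl⟩)
    · exact IntermediateField.subset_adjoin K _ (Or.inl hx)
    · have h0 := jq_sub_ne_zero (K := K) 1728
      have h1 : gen K phiZ u v
          = (jqModC K - algebraMap K (LaurentSeries K) 1728)⁻¹ * hGen K u v := by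
        rw [hGen, ← mul_assoc, inv_mul_cancel₀ h0, one_mul]
      rw [SetLike.mem_coe, h1]
      refine mul_mem (inv_mem (sub_mem ?_ (IntermediateField.algebraMap_mem _ _))) ?_
      · exact IntermediateField.subset_adjoin K _ jqModC_mem_g1Set
      · exact IntermediateField.subset_adjoin K _ (hGen_mem_g1Set hu hu1 hv hv1)
  · rw [IntermediateField.adjoin_le_iff]
    rintro x (hx | ⟨u, v, hu, hu1, hv, hv1, rfl⟩ |
      ⟨u, v, u', v', hu, hu1, hv, hv1, hu', hu1', hv', hv1', -, -, rfl⟩)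
    · exact IntermediateField.subset_adjoin K _ (Or.inl hx)
    · exact mul_mem (sub_mem (jqModC_mem_gamma1FieldP K phiZ M)
        (IntermediateField.algebraMap_mem _ _)) (gen_mem phiZ hu hu1 hv hv1)
    · exact ratio_mem constantCoeff_phiZ hu hu1 hv hv1 hu' hu1' hv' hv1'

end GenSet

/-! ## The generators are `q`-expansions of holomorphic functions -/

section Eval

variable {K : Type*} [Field K] (i0 : K →+* ℂ) (M : ℕ) [NeZero M]

omit [NeZero M] in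
theorem coeffMap_hGen (u v : K) :
    coeffMap i0 (hGen K u v)
      = (jqModC ℂ - algebraMap ℂ (LaurentSeries ℂ) 1728) * gen ℂ phiZ (i0 u) (i0 v) := by
  rw [hGen, map_mul, map_sub, coeffMap_jqModC, coeffMap_algebraMap_general, coeffMap_gen_field,
    map_ofNat]

theorem hasQ_hGen {u v : K} {a b : ℤ} (hu : i0 u = zetaM M ^ a) (hv : i0 v = zetaM M ^ b)
    (ha : ¬ (M : ℤ) ∣ a) (hb : ¬ (M : ℤ) ∣ b) :
    HasQ 1 (hFun M a b) (coeffMap i0 (hGen K u v)) := by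
  rw [coeffMap_hGen, hu, hv]
  exact hasQ_hFun M ha hb

theorem hasQ_dRatio {u v u' v' : K} {a b c e : ℤ} (hu : i0 u = zetaM M ^ a)
    (hv : i0 v = zetaM M ^ b) (hu' : i0 u' = zetaM M ^ c) (hv' : i0 v' = zetaM M ^ e)
    (ha : ¬ (M : ℤ) ∣ a) (hb : ¬ (M : ℤ) ∣ b) (hc : ¬ (M : ℤ) ∣ c) (he : ¬ (M : ℤ) ∣ e)
    (hsub : ¬ (M : ℤ) ∣ c - e) (hadd : ¬ (M : ℤ) ∣ c + e) :
    HasQ 1 (rFun M a b c e) (coeffMap i0 (dRatio K u v u' v')) := by
  rw [coeffMap_dRatio, hu, hv, hu', hv']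
  exact hasQ_rFun M ha hb hc he hsub hadd

/-- **Classification of the generators**: every element of `g1Set K M` is the `q`-expansion of
`τ ↦ j(dτ)`, of some `hFun M a b`, or of some `rFun M a b c e`. -/
theorem g1Set_cases {s : LaurentSeries K} (hs : s ∈ g1Set K M) :
    (∃ d : ℕ, 0 < d ∧ d ∣ M ∧ HasQ 1 (jdFun d) (coeffMap i0 s)) ∨
    (∃ a b : ℤ, ¬ (M : ℤ) ∣ a ∧ ¬ (M : ℤ) ∣ b ∧ HasQ 1 (hFun M a b) (coeffMap i0 s)) ∨
    (∃ a b c e : ℤ, ¬ (M : ℤ) ∣ a ∧ ¬ (M : ℤ) ∣ b ∧ ¬ (M : ℤ) ∣ c ∧ ¬ (M : ℤ) ∣ e ∧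
      ¬ (M : ℤ) ∣ c - e ∧ ¬ (M : ℤ) ∣ c + e ∧ HasQ 1 (rFun M a b c e) (coeffMap i0 s)) := by
  rcases hs with ⟨d, hne, hd, rfl⟩ | ⟨u, v, hu, hu1, hv, hv1, rfl⟩ |
    ⟨u, v, u', v', hu, hu1, hv, hv1, hu', hu1', hv', hv1', hne, hne', rfl⟩
  · have := hne
    exact Or.inl ⟨d, Nat.pos_of_ne_zero (NeZero.ne d), hd, hasQ_jdFun i0 d⟩
  · obtain ⟨a, hua, ha⟩ := exists_zpow_eq i0 M hu
    obtain ⟨b, hvb, hb⟩ := exists_zpow_eq i0 M hv
    exact Or.inr (Or.inl ⟨a, b, ha hu1, hb hv1, hasQ_hGen i0 M hua hvb (ha hu1) (hb hv1)⟩)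
  · obtain ⟨a, hua, ha⟩ := exists_zpow_eq i0 M hu
    obtain ⟨b, hvb, hb⟩ := exists_zpow_eq i0 M hv
    obtain ⟨c, huc, hc⟩ := exists_zpow_eq i0 M hu'
    obtain ⟨e, hve, he⟩ := exists_zpow_eq i0 M hv'
    exact Or.inr (Or.inr ⟨a, b, c, e, ha hu1, hb hv1, hc hu1', he hv1',
      not_dvd_sub_of_ne i0 M huc hve hne, not_dvd_add_of_ne i0 M huc hve hne',
      hasQ_dRatio i0 M hua hvb huc hve (ha hu1) (hb hv1) (hc hu1') (he hv1')
        (not_dvd_sub_of_ne i0 M huc hve hne) (not_dvd_add_of_ne i0 M huc hve hne')⟩)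

/-- **Every generator is the `q`-expansion of a holomorphic function on `ℍ`.** -/
theorem g1Set_subset_qAlg : ∀ s ∈ g1Set K M, s ∈ qAlg i0 := by
  intro s hs
  rcases g1Set_cases i0 M hs with ⟨d, -, -, h⟩ | ⟨a, b, -, -, h⟩ | ⟨a, b, c, e, -, -, -, -, -, -, h⟩
  exacts [⟨_, h⟩, ⟨_, h⟩, ⟨_, h⟩]

/-- The classification, in terms of the evaluation `qFun`. -/
theorem qFun_g1Set_cases {s : LaurentSeries K} (hs : s ∈ g1Set K M) :
    (∃ d : ℕ, 0 < d ∧ d ∣ M ∧ qFun i0 ⟨s, g1Set_subset_qAlg i0 M s hs⟩ = jdFun d) ∨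
    (∃ a b : ℤ, ¬ (M : ℤ) ∣ a ∧ ¬ (M : ℤ) ∣ b ∧
      qFun i0 ⟨s, g1Set_subset_qAlg i0 M s hs⟩ = hFun M a b) ∨
    (∃ a b c e : ℤ, ¬ (M : ℤ) ∣ a ∧ ¬ (M : ℤ) ∣ b ∧ ¬ (M : ℤ) ∣ c ∧ ¬ (M : ℤ) ∣ e ∧
      ¬ (M : ℤ) ∣ c - e ∧ ¬ (M : ℤ) ∣ c + e ∧
      qFun i0 ⟨s, g1Set_subset_qAlg i0 M s hs⟩ = rFun M a b c e) := by
  rcases g1Set_cases i0 M hs with ⟨d, h1, h2, h⟩ | ⟨a, b, h1, h2, h⟩ |
    ⟨a, b, c, e, h1, h2, h3, h4, h5, h6, h⟩
  · exact Or.inl ⟨d, h1, h2, qFun_eq i0 h⟩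
  · exact Or.inr (Or.inl ⟨a, b, h1, h2, qFun_eq i0 h⟩)
  · exact Or.inr (Or.inr ⟨a, b, c, e, h1, h2, h3, h4, h5, h6, qFun_eq i0 h⟩)

/-! ## Invariance under `±Γ₁(M)` -/

omit [NeZero M] in
theorem jdFun_smul {d : ℕ} (hd0 : 0 < d) (hd : d ∣ M) {g : SL(2, ℤ)} (hg : g ∈ Gamma0 M)
    (τ : ℍ) : jdFun d (g • τ) = jdFun d τ :=
  Fermat.Agent.S24.helper288.jFn_mul_smul_of_mem_Gamma0 M d hd0 hd g hg τ

theorem E6_smul (γ : SL(2, ℤ)) (τ : ℍ) : E₆ (γ • τ) = denom γ τ ^ (6 : ℤ) * E₆ τ :=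
  SlashInvariantForm.slash_action_eqn'' E₆ (γ := (Matrix.SpecialLinearGroup.mapGL ℝ γ))
    (MonoidHom.mem_range.mpr ⟨γ, rfl⟩) τ

theorem hFun_smul_of_mem_Gamma1 (a b : ℤ) {g : SL(2, ℤ)} (hg : g ∈ Gamma1 M) (τ : ℍ) :
    hFun M a b (g • τ) = hFun M a b τ := by
  have hd : denom g τ ≠ 0 := denom_ne_zero g τ
  have hΔ : Δ τ ≠ 0 := discriminant_ne_zero τ
  rw [hFun_apply, hFun_apply, Fermat.Agent.S24.helper288.E4_smul, E6_smul,
    Fermat.Agent.S24.helper288.discriminant_smul,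
    helper2648.divD_smul_of_mem_Gamma1 M a b hg τ]
  have e4 : denom g τ ^ (4 : ℤ) = denom g τ ^ 4 := by norm_cast
  have e6 : denom g τ ^ (6 : ℤ) = denom g τ ^ 6 := by norm_cast
  have e12 : denom g τ ^ (12 : ℤ) = denom g τ ^ 12 := by norm_cast
  rw [e4, e6, e12]
  field_simp

theorem hFun_smul (a b : ℤ) {g : SL(2, ℤ)} (hg : g ∈ Gamma1 M ∨ -g ∈ Gamma1 M) (τ : ℍ) :
    hFun M a b (g • τ) = hFun M a b τ := by
  rcases hg with hg | hg
  · exact hFun_smul_of_mem_Gamma1 M a b hg τ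
  · rw [← ModularGroup.SL_neg_smul g τ]
    exact hFun_smul_of_mem_Gamma1 M a b hg τ

theorem rFun_smul (a b c e : ℤ) {g : SL(2, ℤ)} (hg : g ∈ Gamma1 M ∨ -g ∈ Gamma1 M) (τ : ℍ) :
    rFun M a b c e (g • τ) = rFun M a b c e τ :=
  helper2648.divD_div_smul_of_pm_Gamma1 M g hg a b c e τ

/-- **The functions of the generators are invariant under `±Γ₁(M)`** (the hypothesis `hgen` of
`holFun_smul_of_gen`, `pull_evMer`, `evalData_of_gen`). -/
theorem qFun_g1Set_smul {g : SL(2, ℤ)} (hg : g ∈ Gamma1 M ∨ -g ∈ Gamma1 M)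
    (s : LaurentSeries K) (hs : s ∈ g1Set K M) (τ : ℍ) :
    qFun i0 ⟨s, g1Set_subset_qAlg i0 M s hs⟩ (g • τ)
      = qFun i0 ⟨s, g1Set_subset_qAlg i0 M s hs⟩ τ := by
  rcases qFun_g1Set_cases i0 M hs with ⟨d, h1, h2, h⟩ | ⟨a, b, -, -, h⟩ |
    ⟨a, b, c, e, -, -, -, -, -, -, h⟩
  · rw [h]
    exact jdFun_smul M h1 h2 (helper2648.mem_Gamma0_of_pm_Gamma1 M hg) τ
  · rw [h]
    exact hFun_smul M a b hg τ
  · rw [h]
    exact rFun_smul M a b c e hg τ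

/-! ## The separation witnesses and `sep` -/

theorem ne_one_of_not_dvd {u : K} {a : ℤ} (hu : i0 u = zetaM M ^ a) (ha : ¬ (M : ℤ) ∣ a) :
    u ≠ 1 := by
  rintro rfl
  rw [map_one] at hu
  exact ha ((zetaM_zpow_eq_one_iff (NeZero.ne M) a).mp hu.symm)

theorem ne_of_not_dvd_sub {u v : K} {c e : ℤ} (hu : i0 u = zetaM M ^ c)
    (hv : i0 v = zetaM M ^ e) (h : ¬ (M : ℤ) ∣ c - e) : u ≠ v := by
  rintro rfl
  apply h
  rw [← zetaM_zpow_eq_one_iff (NeZero.ne M), zpow_sub₀ (zetaM_ne_zero M), ← hu, ← hv]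
  exact div_self (by rw [hu]; exact zpow_ne_zero _ (zetaM_ne_zero M))

theorem mul_ne_one_of_not_dvd_add {u v : K} {c e : ℤ} (hu : i0 u = zetaM M ^ c)
    (hv : i0 v = zetaM M ^ e) (h : ¬ (M : ℤ) ∣ c + e) : u * v ≠ 1 := by
  intro h1
  apply h
  rw [← zetaM_zpow_eq_one_iff (NeZero.ne M), zpow_add₀ (zetaM_ne_zero M), ← hu, ← hv, ← map_mul,
    h1, map_one]

omit [NeZero M] in
theorem not_dvd_of_pos_of_lt {n : ℤ} (h0 : 0 < n) (h : n < M) : ¬ (M : ℤ) ∣ n :=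
  fun hd => absurd (Int.le_of_dvd h0 hd) (not_le.mpr h)

theorem pow_eq_one_of_map_eq {z : K} (hz : i0 z = zetaM M) : z ^ M = 1 := by
  apply i0.injective
  rw [map_pow, hz, (zetaM_isPrimitiveRoot (NeZero.ne M)).pow_eq_one, map_one]

/-- The ratio witness `(x(z^a) - x(z)) / (x(z) - x(z^2))` of `sep`. -/
theorem dRatio_witness_mem (hM : 4 ≤ M) {z : K} (hz : i0 z = zetaM M) {a : ℤ}
    (ha : ¬ (M : ℤ) ∣ a) : dRatio K (z ^ a) z z (z ^ 2) ∈ g1Set K M := by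
  have hM' : (4 : ℤ) ≤ (M : ℤ) := by exact_mod_cast hM
  have hzM := pow_eq_one_of_map_eq i0 M hz
  have h1 : i0 z = zetaM M ^ (1 : ℤ) := by rw [zpow_one, hz]
  have h2 : i0 (z ^ 2) = zetaM M ^ (2 : ℤ) := by rw [map_pow, hz]; norm_cast
  have ha' : i0 (z ^ a) = zetaM M ^ a := by rw [map_zpow₀, hz]
  have n1 : ¬ (M : ℤ) ∣ 1 := not_dvd_of_pos_of_lt M one_pos (by omega)
  have n2 : ¬ (M : ℤ) ∣ 2 := not_dvd_of_pos_of_lt M two_pos (by omega)
  have n3 : ¬ (M : ℤ) ∣ 1 - 2 := by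
    rw [show (1 : ℤ) - 2 = -1 by norm_num, dvd_neg]; exact n1
  have n4 : ¬ (M : ℤ) ∣ 1 + 2 := not_dvd_of_pos_of_lt M (by norm_num) (by omega)
  refine dRatio_mem_g1Set ?_ (ne_one_of_not_dvd i0 M ha' ha) hzM (ne_one_of_not_dvd i0 M h1 n1)
    hzM (ne_one_of_not_dvd i0 M h1 n1) ?_ (ne_one_of_not_dvd i0 M h2 n2)
    (ne_of_not_dvd_sub i0 M h1 h2 n3) (mul_ne_one_of_not_dvd_add i0 M h1 h2 n4)
  · rw [← zpow_natCast, ← zpow_mul, mul_comm, zpow_mul, zpow_natCast, hzM, one_zpow]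
  · rw [← pow_mul, mul_comm, pow_mul, hzM, one_pow]

theorem hasQ_dRatio_witness (hM : 4 ≤ M) {z : K} (hz : i0 z = zetaM M) {a : ℤ}
    (ha : ¬ (M : ℤ) ∣ a) :
    HasQ 1 (rFun M a 1 1 2) (coeffMap i0 (dRatio K (z ^ a) z z (z ^ 2))) := by
  have hM' : (4 : ℤ) ≤ (M : ℤ) := by exact_mod_cast hM
  have h1 : i0 z = zetaM M ^ (1 : ℤ) := by rw [zpow_one, hz]
  have h2 : i0 (z ^ 2) = zetaM M ^ (2 : ℤ) := by rw [map_pow, hz]; norm_cast
  have ha' : i0 (z ^ a) = zetaM M ^ a := by rw [map_zpow₀, hz]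
  have n1 : ¬ (M : ℤ) ∣ 1 := not_dvd_of_pos_of_lt M one_pos (by omega)
  have n2 : ¬ (M : ℤ) ∣ 2 := not_dvd_of_pos_of_lt M two_pos (by omega)
  have n3 : ¬ (M : ℤ) ∣ 1 - 2 := by
    rw [show (1 : ℤ) - 2 = -1 by norm_num, dvd_neg]; exact n1
  have n4 : ¬ (M : ℤ) ∣ 1 + 2 := not_dvd_of_pos_of_lt M (by norm_num) (by omega)
  exact hasQ_dRatio i0 M ha' h1 h1 h2 ha n1 n1 n2 n3 n4

theorem rFun_witness_mul (hM : 4 ≤ M) (a : ℤ) (τ : ℍ) :
    rFun M a 1 1 2 τ * divD M 1 2 τ = divD M a 1 τ := by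
  have hM' : (4 : ℤ) ≤ (M : ℤ) := by exact_mod_cast hM
  have n1 : ¬ (M : ℤ) ∣ 1 := not_dvd_of_pos_of_lt M one_pos (by omega)
  have n2 : ¬ (M : ℤ) ∣ 2 := not_dvd_of_pos_of_lt M two_pos (by omega)
  have n3 : ¬ (M : ℤ) ∣ 1 - 2 := by
    rw [show (1 : ℤ) - 2 = -1 by norm_num, dvd_neg]; exact n1
  have n4 : ¬ (M : ℤ) ∣ 1 + 2 := not_dvd_of_pos_of_lt M (by norm_num) (by omega)
  rw [rFun_apply, div_mul_cancel₀ _ (divD_apply_ne_zero M n1 n2 n3 n4 τ)]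

/-- **`sep` at the level of generators**: an element of `SL(2, ℤ)` fixing the functions of all
generators lies in any `Γ ⊇ ±Γ₁(M)` (`M ≥ 7`; `K` contains a preimage of `e^{2πi/M}`). -/
theorem sep_g1Set (hM : 7 ≤ M) {z : K} (hz : i0 z = zetaM M) (Γ : Subgroup SL(2, ℤ))
    (hΓ : ∀ g : SL(2, ℤ), g ∈ Gamma1 M ∨ -g ∈ Gamma1 M → g ∈ Γ) (g : SL(2, ℤ))
    (hg : ∀ (s : LaurentSeries K) (hs : s ∈ g1Set K M) (τ : ℍ),
      qFun i0 ⟨s, g1Set_subset_qAlg i0 M s hs⟩ (g • τ)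
        = qFun i0 ⟨s, g1Set_subset_qAlg i0 M s hs⟩ τ) : g ∈ Γ := by
  have hM4 : 4 ≤ M := by omega
  refine helper2648.sep_of_generators M hM Γ hΓ
    (A := {s : LaurentSeries K // s ∈ g1Set K M})
    (fun s => qFun i0 ⟨s.1, g1Set_subset_qAlg i0 M s.1 s.2⟩) ?_ ?_ g (fun s τ => hg s.1 s.2 τ)
  · refine ⟨⟨qExpand K M (jqModC K), qExpand_jqModC_mem_g1Set dvd_rfl⟩, fun τ => ?_⟩
    have h1 := congrFun (qFun_eq i0 (a := ⟨_, g1Set_subset_qAlg i0 M _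
      (qExpand_jqModC_mem_g1Set (K := K) (M := M) (d := M) dvd_rfl)⟩) (hasQ_jdFun i0 M)) τ
    rw [h1]
    rfl
  · intro a ha
    refine ⟨⟨_, dRatio_witness_mem i0 M hM4 hz ha⟩, fun τ => ?_⟩
    have h1 := congrFun (qFun_eq i0 (a := ⟨_, g1Set_subset_qAlg i0 M _
      (dRatio_witness_mem i0 M hM4 hz ha)⟩) (hasQ_dRatio_witness i0 M hM4 hz ha)) τ
    rw [h1]
    exact rFun_witness_mul M hM4 a τ

/-- An algebraically closed `K` contains a preimage of `e^{2πi/M}`. -/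
theorem exists_map_eq_zetaM [IsAlgClosed K] : ∃ z : K, i0 z = zetaM M := by
  have : NeZero (M : K) := ⟨fun h => by
    have h1 : i0 (M : K) = 0 := by rw [h, map_zero]
    rw [map_natCast] at h1
    exact NeZero.ne M (by exact_mod_cast h1)⟩
  obtain ⟨w, hw⟩ := HasEnoughRootsOfUnity.exists_primitiveRoot K M
  have hw' : IsPrimitiveRoot (i0 w) M := hw.map_of_injective i0.injective
  obtain ⟨k, -, hk⟩ := hw'.eq_pow_of_pow_eq_one
    ((zetaM_isPrimitiveRoot (NeZero.ne M)).pow_eq_one)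
  exact ⟨w ^ k, by rw [map_pow, hk]⟩

end Eval

end

end Fermat.Agent.S48.helper5047
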