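import Fermat.Agent.S48.helper5047_EvalInst
import Fermat.Agent.S48.helper5047_Gamma1Eval

/-!
# S48-EVAL1 (E3), instances (helper5047): the evaluation of the `Γ₁(M)` field

One-call corollaries of `helper5047_Gamma1Eval` (the generator layer) and `helper5047_EvalDatum`
/ `helper5047_EvalInst` (the generic evaluation) for the carrier `helper7300.gamma1Field K M`:

* `gamma1Ev i0 M : gamma1Field K M →+* Mer` (any field `K`, `i0 : K →+* ℂ`), `pull_gamma1Ev`
  (invariance under `±Γ₁(M)`), `gamma1Ev_hasQ_frac`;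
* `gamma1EvC M : gamma1Field ℂ M →ₐ[ℂ] Mer`, `pull_gamma1EvC`, `gamma1EvC_hasQ_frac`;
* `evalData_gamma1` : the `helper2648.EvalData` of `gamma1Field ℚ̄ M` for `Γ = ±Γ₁(M)`, `M ≥ 7`.
-/

set_option autoImplicit false

open UpperHalfPlane ModularCurve CongruenceSubgroup
open scoped MatrixGroups Manifold

namespace Fermat.Agent.S48.helper5047

open Fermat.Agent.S24 Fermat.Agent.S24.helper24 Fermat.Agent.S24.helper1704
open Fermat.Agent.S24.helper580 Fermat.Agent.S48.helper7300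

noncomputable section

section AnyField

variable {K : Type*} [Field K] (i0 : K →+* ℂ) (M : ℕ) [NeZero M]

/-- The `j`-invariant as an element of the `Γ₁(M)` field. -/
def jG1 (K : Type*) [Field K] (M : ℕ) [NeZero M] : gamma1Field K M :=
  ⟨jqModC K, jqModC_mem_gamma1FieldP K phiZ M⟩

@[simp] theorem coe_jG1 : ((jG1 K M : gamma1Field K M) : LaurentSeries K) = jqModC K := rfl

/-- **The evaluation of the `Γ₁(M)` field in the meromorphic functions on `ℍ`.** -/
def gamma1Ev : gamma1Field K M →+* Mer :=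
  evMer i0 (gamma1Field K M) (g1Set_subset_qAlg i0 M) (gamma1Field_eq_adjoin K M)

theorem gamma1Ev_coe (a : holAlg i0 (gamma1Field K M)) :
    gamma1Ev i0 M (a : gamma1Field K M)
      = algebraMap Hol Mer (holHom i0 (gamma1Field K M) a) :=
  evMer_coe i0 _ _ _ a

theorem gamma1Ev_algebraMap (c : K) :
    gamma1Ev i0 M (algebraMap K (gamma1Field K M) c) = algebraMap ℂ Mer (i0 c) :=
  evMer_algebraMap i0 _ _ _ c

/-- **`±Γ₁(M)`-invariance of the evaluation.** -/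
theorem pull_gamma1Ev {g : SL(2, ℤ)} (hg : g ∈ Gamma1 M ∨ -g ∈ Gamma1 M)
    (f : gamma1Field K M) : pull g (gamma1Ev i0 M f) = gamma1Ev i0 M f :=
  pull_evMer i0 _ _ _ g (fun s hs τ => qFun_g1Set_smul i0 M hg s hs τ) f

/-- Every element of the `Γ₁(M)` field is a quotient of two holomorphic functions with the
expected `q`-expansions. -/
theorem gamma1Ev_hasQ_frac (y : gamma1Field K M) :
    ∃ a b : Hol, b ≠ 0 ∧ ∃ A B : LaurentSeries ℂ,
      HasQ 1 (a : ℍ → ℂ) A ∧ HasQ 1 (b : ℍ → ℂ) B ∧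
        coeffMap i0 (y : LaurentSeries K) * B = A ∧
        gamma1Ev i0 M y * algebraMap Hol Mer b = algebraMap Hol Mer a :=
  exists_hasQ_frac i0 _ _ _ y

/-- Invariance on the holomorphic subalgebra. -/
theorem holFun_gamma1_smul {g : SL(2, ℤ)} (hg : g ∈ Gamma1 M ∨ -g ∈ Gamma1 M)
    (a : holAlg i0 (gamma1Field K M)) (τ : ℍ) :
    holFun i0 (gamma1Field K M) a (g • τ) = holFun i0 (gamma1Field K M) a τ :=
  holFun_smul_of_gen i0 _ (g1Set_subset_qAlg i0 M) (gamma1Field_eq_adjoin K M) g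
    (fun s hs τ => qFun_g1Set_smul i0 M hg s hs τ) a τ

/-- **Separation** on the holomorphic subalgebra (`M ≥ 7`). -/
theorem holFun_gamma1_sep (hM : 7 ≤ M) {z : K} (hz : i0 z = helper9025.zetaM M)
    (g : SL(2, ℤ)) (hg : ∀ (a : holAlg i0 (gamma1Field K M)) (τ : ℍ),
      holFun i0 (gamma1Field K M) a (g • τ) = holFun i0 (gamma1Field K M) a τ) :
    g ∈ Gamma1 M ∨ -g ∈ Gamma1 M := by
  -- the subgroup `±Γ₁(M)` is not needed as a `Subgroup`: use `sep_of_generators` with `⊤`-style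
  -- predicate through `mem_pm_Gamma1_of_invariant`
  have hM4 : 4 ≤ M := by omega
  have hsF : ∀ s ∈ g1Set K M, s ∈ gamma1Field K M := fun s hs => by
    rw [gamma1Field_eq_adjoin K M]
    exact IntermediateField.subset_adjoin K _ hs
  refine helper2648.mem_pm_Gamma1_of_invariant M hM g ?_ ?_
  · intro τ
    have hmem : qExpand K M (jqModC K) ∈ g1Set K M := qExpand_jqModC_mem_g1Set dvd_rfl
    have h1 := hg ⟨⟨_, hsF _ hmem⟩, g1Set_subset_qAlg i0 M _ hmem⟩
    have h2 : holFun i0 (gamma1Field K M) ⟨⟨_, hsF _ hmem⟩, g1Set_subset_qAlg i0 M _ hmem⟩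
        = jdFun M := holFun_eq i0 _ (hasQ_jdFun i0 M)
    rw [h2] at h1
    exact h1 τ
  · intro a ha τ
    have hmem := dRatio_witness_mem i0 M hM4 hz ha
    have h1 := hg ⟨⟨_, hsF _ hmem⟩, g1Set_subset_qAlg i0 M _ hmem⟩
    have h2 : holFun i0 (gamma1Field K M) ⟨⟨_, hsF _ hmem⟩, g1Set_subset_qAlg i0 M _ hmem⟩
        = rFun M a 1 1 2 := holFun_eq i0 _ (hasQ_dRatio_witness i0 M hM4 hz ha)
    rw [h2] at h1
    have h3 := h1 τ
    rw [← rFun_witness_mul M hM4 a (g • τ), ← rFun_witness_mul M hM4 a τ, h3]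
    ring

end AnyField

/-! ## Complex coefficients -/

section Cx

variable (M : ℕ) [NeZero M]

/-- **The `ℂ`-linear evaluation of the complex `Γ₁(M)` field.** -/
def gamma1EvC : gamma1Field ℂ M →ₐ[ℂ] Mer :=
  evMerC (gamma1Field ℂ M) (g1Set_subset_qAlg (RingHom.id ℂ) M) (gamma1Field_eq_adjoin ℂ M)

theorem gamma1EvC_apply (f : gamma1Field ℂ M) :
    gamma1EvC M f = gamma1Ev (RingHom.id ℂ) M f := rfl

theorem pull_gamma1EvC {g : SL(2, ℤ)} (hg : g ∈ Gamma1 M ∨ -g ∈ Gamma1 M)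
    (f : gamma1Field ℂ M) : pull g (gamma1EvC M f) = gamma1EvC M f :=
  pull_gamma1Ev (RingHom.id ℂ) M hg f

/-- The `heval` hypothesis of `helper288.ratioIn_Gamma1_of_carrier`, for the carrier itself. -/
theorem gamma1EvC_hasQ_frac (y : gamma1Field ℂ M) :
    ∃ a b : Hol, b ≠ 0 ∧ ∃ A B : LaurentSeries ℂ,
      HasQ 1 (a : ℍ → ℂ) A ∧ HasQ 1 (b : ℍ → ℂ) B ∧ (y : LaurentSeries ℂ) * B = A ∧
        gamma1EvC M y * algebraMap Hol Mer b = algebraMap Hol Mer a :=
  exists_hasQ_fracC _ _ _ y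

end Cx

/-! ## The `ℚ̄`-instance of `helper2648.EvalData` -/

section Bar

variable (M : ℕ) [NeZero M] (i0 : Kbar →+* ℂ)

/-- **The evaluation datum of the `Γ₁(M)` field over `ℚ̄`** for `Γ = ±Γ₁(M)`, `M ≥ 7`. -/
theorem evalData_gamma1 (hM : 7 ≤ M) (Γ : Subgroup SL(2, ℤ))
    (hΓ : ∀ g : SL(2, ℤ), g ∈ Γ ↔ (g ∈ Gamma1 M ∨ -g ∈ Gamma1 M)) :
    helper2648.EvalData Γ (jG1 Kbar M) i0 (holAlg i0 (gamma1Field Kbar M))
      (holFun i0 (gamma1Field Kbar M)) := by
  obtain ⟨z, hz⟩ := exists_map_eq_zetaM i0 M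
  exact evalData_of_gen i0 (gamma1Field Kbar M) (g1Set_subset_qAlg i0 M)
    (gamma1Field_eq_adjoin Kbar M) Γ (jG1 Kbar M)
    (Fermat.Agent.S48.helper1704.hasQ_jFun_coeffMap i0)
    (fun γ hγ s hs τ => qFun_g1Set_smul i0 M ((hΓ γ).mp hγ) s hs τ)
    (sep_g1Set i0 M hM hz Γ (fun g hg => (hΓ g).mpr hg))

end Bar

end

end Fermat.Agent.S48.helper5047
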