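import Fermat.Agent.S24.helper580_MerPackage
import Fermat.Agent.S24.helper24_Master
import Fermat.Agent.S29.helper1736_AnDivCore
import Fermat.Agent.S18.helper8185_RamData

/-!
# S48-LOCGEN (helper2648): the finite-place dictionary for an arbitrary function field with a
function-level evaluation datum

The landed S24 finite local data (`helper481` / `helper580` `Stmt_MerPackage`), the S29 place
dictionary (`helper1736.zero_place_dict`) and the S18 ramification data (`helper8185`) are stated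
for the function field `FN N` of `X₀(N)` and the group `Γ₀(N)`.  Here the same statements are
proved for an ARBITRARY field `F` over `ℚ̄` with an element `jF`, an ARBITRARY subgroup
`Γ ≤ SL(2, ℤ)` and a function-level evaluation datum `EvalData Γ jF i0 A e`
(`A` a subalgebra with `Frac A = F`, `e : A →+* (ℍ → ℂ)` injective with holomorphic values,
`e jF = j`, `Γ`-invariant and separating the cosets of `Γ`), under the degree hypothesis
`[F : ℚ̄(jF)] = [SL(2, ℤ) : Γ]`.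

Main statements (`v` a place of `F` which is not a pole of `jF`):

* `loc_place_dict`        : dictionary form of `helper24.Stmt_LOC` (generic engine);
* `EvalData.place_dict`   : `∃ τ κ, 0 < κ ∧ κ ∣ 6 ∧ ∀ f ≠ 0, ord_τ (ev f) = ord_v f * κ`;
* `EvalData.place_dict_of_torsionFree` : `κ = 1` if `Γ` has no elements of finite order except `±1`;
* `EvalData.ord_nonneg`, `EvalData.ord_eq_zero_of_ne_zero` : elements of `A` are regular at `v`,
  and units at `v` if their values never vanish;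
* `EvalData.ord_j_sub_eq_one`, `EvalData.ord_j_dvd_three`, `EvalData.ord_j_sub_1728_dvd_two` :
  the ramification data of `F / ℚ̄(jF)` at the finite places.
-/

set_option autoImplicit false

open UpperHalfPlane ModularCurve AlgebraicCurve IntermediateField
open scoped MatrixGroups Manifold

namespace Fermat.Agent.S48.helper2648

open Fermat.Agent.S24 Fermat.Agent.S24.helper24 Fermat.Agent.S24.helper580

/-! ## The generic engine: dictionary form of `Stmt_LOC` -/

/-- **Dictionary form of `helper24.Stmt_LOC`.** Given `n = [F : K(y)]` distinct `K`-embeddings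
`ι i` of `F` into a discretely valued field `Ω`, all sending `y` to the same element of valuation
`m > 0`, permuted by an automorphism `σ` of `Ω` with the divisibility property `hdiv`: every zero
`v` of `y` is the place of one of the valuations `w ∘ ι i`, with `w (ι i f) = ord_v f * κ` and
`|orbit of i| * κ = m`. -/
theorem loc_place_dict {K F : Type*} [Field K] [Field F] [Algebra K F] [CharZero K]
    {Ω : Type*} [Field Ω] [Algebra K Ω] (y : F) (hy0 : y ≠ 0)
    [FiniteDimensional K⟮y⟯ F]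
    (hfund : ∃ s : Finset (Place K F), (∀ v, v ∈ s ↔ 0 < v.ord y) ∧
      ∑ v ∈ s, v.ord y = Module.finrank K⟮y⟯ F)
    (w : AddValuation Ω (WithTop ℤ))
    (hwK : ∀ a : K, a ≠ 0 → w (algebraMap K Ω a) = 0)
    {X : Type*} [Fintype X] (hcard : Fintype.card X = Module.finrank K⟮y⟯ F)
    (ι : X → (F →ₐ[K] Ω)) (hinj : Function.Injective ι)
    (ξ : Ω) (hξ : ∀ i, ι i y = ξ) (m : ℕ) (hm : 0 < m) (hwξ : w ξ = ((m : ℤ) : WithTop ℤ))
    (σ : Ω ≃ₐ[K] Ω) (hσ : ∀ z, w (σ z) = w z)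
    (ρ : Equiv.Perm X) (hρ : ∀ i f, σ (ι i f) = ι (ρ i) f)
    (hdiv : ∀ (k : ℕ) (z : Ω), z ≠ 0 → (σ ^ k) z = z →
      ∃ l : ℤ, w z = (((m / Nat.gcd k m : ℕ) * l : ℤ) : WithTop ℤ))
    (v : Place K F) (hv : 0 < v.ord y) :
    ∃ (i : X) (κ : ℤ), 0 < κ ∧
      (Nat.card {i' : X // (Quotient.mk'' i' : MulAction.orbitRel.Quotient
        (Subgroup.zpowers ρ) X) = Quotient.mk'' i} : ℤ) * κ = m ∧
      ∀ f : F, f ≠ 0 → w (ι i f) = ((v.ord f * κ : ℤ) : WithTop ℤ) := by
  classical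
  have hne : ∀ (g : X) (f : F), f ≠ 0 → ι g f ≠ 0 := fun g f hf =>
    (map_ne_zero_iff (ι g) (ι g).toRingHom.injective).2 hf
  -- invariance of the valuations under `ρ`
  have hρw : ∀ (τ : Equiv.Perm X), τ ∈ Subgroup.zpowers ρ →
      ∀ i f, w (ι (τ i) f) = w (ι i f) := by
    let H : Subgroup (Equiv.Perm X) :=
      { carrier := {τ | ∀ i f, w (ι (τ i) f) = w (ι i f)}
        mul_mem' := by
          intro a b ha hb i f
          show w (ι (a (b i)) f) = w (ι i f)
          rw [ha, hb]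
        one_mem' := fun i f => rfl
        inv_mem' := by
          intro a ha i f
          have := ha (a⁻¹ i) f
          rw [show a (a⁻¹ i) = i from Equiv.apply_symm_apply a i] at this
          exact this.symm }
    have hρH : ρ ∈ H := fun i f => by rw [← hρ, hσ]
    intro τ hτ
    exact (Subgroup.zpowers_le.2 hρH) hτ
  have hσpow : ∀ (k : ℕ) (i : X) (f : F), (σ ^ k) (ι i f) = ι ((ρ ^ k) i) f := by
    intro k
    induction k with
    | zero => intro i f; rfl
    | succ k ih =>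
      intro i f
      rw [pow_succ', pow_succ']
      show σ ((σ ^ k) (ι i f)) = ι (ρ ((ρ ^ k) i)) f
      rw [ih, hρ]
  obtain ⟨g, κ, hκpos, hκm, hκ⟩ := Fermat.Agent.S29.helper1736.zero_place_dict (K := K) y hy0 hfund
    (X := X) (O := MulAction.orbitRel.Quotient (Subgroup.zpowers ρ) X) hcard
    (fun g f => helper264.valInt w (ι g f)) (by
      intro g a b ha hb
      show helper264.valInt w (ι g (a * b)) = _
      rw [map_mul]
      exact helper264.valInt_mul w (hne g a ha) (hne g b hb)) (by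
      intro g a b ha hb hab
      show _ ≤ helper264.valInt w (ι g (a + b))
      rw [map_add]
      refine helper264.valInt_add w (hne g a ha) (hne g b hb) ?_
      rw [← map_add]
      exact hne g _ hab) (by
      intro g c
      show helper264.valInt w (ι g (algebraMap K F c)) = 0
      rw [AlgHom.commutes]
      by_cases hc : c = 0
      · rw [hc, map_zero]; exact helper264.valInt_zero w
      · unfold helper264.valInt
        rw [hwK c hc]; rfl) (m : ℤ) (by exact_mod_cast hm) (by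
      intro g
      show helper264.valInt w (ι g y) = m
      unfold helper264.valInt
      rw [hξ g, hwξ]; rfl) (by
      intro f hf g₀
      show ∑ g, helper264.valInt w (ι g f) = helper264.valInt w (ι g₀ _)
      rw [← helper264.prod_algHom_eq_norm_adjoin y ι hinj hcard
          (fun g g' => by rw [hξ g, hξ g']) g₀ f,
        helper264.valInt_prod w Finset.univ (fun g => ι g f) (fun g _ => hne g f hf)])
    (fun g => Quotient.mk'' g) Quotient.mk''_surjective (by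
      intro g g' h f
      show helper264.valInt w (ι g f) = helper264.valInt w (ι g' f)
      rw [Quotient.eq''] at h
      have h' : g ∈ MulAction.orbit (Subgroup.zpowers ρ) g' := MulAction.orbitRel_apply.1 h
      obtain ⟨⟨τ, hτ⟩, rfl⟩ := h'
      exact helper264.valInt_eq_of_eq w (hρw τ hτ g' f)) (by
      intro g f hf
      show (m : ℤ) ∣ _ * helper264.valInt w (ι g f)
      set q := Nat.card {g' : X // (Quotient.mk'' g' : MulAction.orbitRel.Quotient
          (Subgroup.zpowers ρ) X) = Quotient.mk'' g} with hq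
      have hfix' : (σ ^ q) (ι g f) = ι g f := by
        rw [hσpow, hq, helper264.pow_card_orbitClass_apply]
      obtain ⟨l, hl⟩ := hdiv q (ι g f) (hne g f hf) hfix'
      rw [← helper264.coe_valInt w (hne g f hf)] at hl
      have hl' : helper264.valInt w (ι g f) = ((m / Nat.gcd q m : ℕ) : ℤ) * l := by
        exact_mod_cast hl
      rw [hl']
      obtain ⟨a, ha⟩ := Nat.gcd_dvd_left q m
      obtain ⟨b, hb⟩ := Nat.gcd_dvd_right q m
      have hgpos : 0 < Nat.gcd q m := Nat.gcd_pos_of_pos_right q hm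
      have hmdiv : m / Nat.gcd q m = b := Nat.div_eq_of_eq_mul_right hgpos hb
      rw [hmdiv]
      refine ⟨(a : ℤ) * l, ?_⟩
      have : (q : ℤ) * ((b : ℤ) * l) = ((q * b : ℕ) : ℤ) * l := by push_cast; ring
      rw [this]
      have h3 : q * b = m * a := by
        conv_lhs => rw [ha]
        conv_rhs => rw [hb]
        ring
      rw [h3]
      push_cast; ring) v hv
  refine ⟨g, κ, hκpos, hκm, fun f hf => ?_⟩
  rw [← helper264.coe_valInt w (hne g f hf)]
  exact congrArg _ (hκ f hf)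


/-! ## Function-level evaluation data -/

noncomputable section

variable {F : Type} [Field F] [Algebra Kbar F]

/-- A function-level evaluation datum of the function field `F` over `ℚ̄` for the subgroup `Γ`
(shape of `helper481.Stmt_EvalHol`, with `FN N`, `Gamma0 N` replaced by `F`, `Γ`): a subalgebra
`A` with `Frac A = F` and an injective ring homomorphism `e` from `A` into holomorphic functions
on the upper half plane, compatible with constants through `i0`, sending `jF` to the analytic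
`j`-function, with `Γ`-invariant values, separating the cosets of `Γ`. -/
structure EvalData (Γ : Subgroup SL(2, ℤ)) (jF : F) (i0 : Kbar →+* ℂ) (A : Subalgebra Kbar F)
    (e : A →+* (ℍ → ℂ)) : Prop where
  frac : ∀ f : F, ∃ a b : A, b ≠ 0 ∧ f * (b : F) = a
  inj : Function.Injective e
  hol : ∀ a : A, MDifferentiable 𝓘(ℂ) 𝓘(ℂ) (e a)
  const : ∀ c : Kbar, e (algebraMap Kbar A c) = fun _ => i0 c
  j_mem : jF ∈ A
  j_eval : e ⟨jF, j_mem⟩ = jFun
  inv : ∀ γ ∈ Γ, ∀ (a : A) (τ : ℍ), e a (γ • τ) = e a τ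
  sep : ∀ g : SL(2, ℤ), (∀ (a : A) (τ : ℍ), e a (g • τ) = e a τ) → g ∈ Γ

namespace EvalData

variable {Γ : Subgroup SL(2, ℤ)} {jF : F} {i0 : Kbar →+* ℂ} {A : Subalgebra Kbar F}
  {e : A →+* (ℍ → ℂ)} (h : EvalData Γ jF i0 A e)

include h

/-- The evaluation with values in `Hol`. -/
def evHol : A →+* Hol := e.codRestrict Hol h.hol

theorem evHol_apply (a : A) (τ : ℍ) : (h.evHol a : ℍ → ℂ) τ = e a τ := rfl

theorem evHol_injective : Function.Injective h.evHol := fun a b hab =>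
  h.inj (congrArg Subtype.val hab)

/-- The evaluation of `A` with values in `Mer`. -/
def evMerA : A →+* Mer := (algebraMap Hol Mer).comp h.evHol

theorem evMerA_injective : Function.Injective h.evMerA :=
  (IsFractionRing.injective Hol Mer).comp h.evHol_injective

theorem isFractionRing : IsFractionRing A F := by
  apply IsFractionRing.of_field
  intro z
  obtain ⟨a, b, hb, hab⟩ := h.frac z
  refine ⟨a, b, ?_⟩
  have hb' : (b : F) ≠ 0 := fun h0 => hb (Subtype.ext h0)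
  show z = (a : F) / (b : F)
  rw [eq_div_iff hb', hab]

/-- The evaluation of the whole function field, with values in the field `Mer` of meromorphic
functions on the upper half plane. -/
def evMer : F →+* Mer :=
  haveI := h.isFractionRing
  IsFractionRing.lift (A := A) (K := F) h.evMerA_injective

theorem evMer_coe (a : A) : h.evMer (a : F) = algebraMap Hol Mer (h.evHol a) :=
  haveI := h.isFractionRing
  IsFractionRing.lift_algebraMap h.evMerA_injective a

theorem evMer_algebraMap (c : Kbar) :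
    h.evMer (algebraMap Kbar F c) = algebraMap ℂ Mer (i0 c) := by
  have h1 : algebraMap Kbar F c = ((algebraMap Kbar A c : A) : F) := rfl
  rw [h1, evMer_coe, IsScalarTower.algebraMap_apply ℂ Hol Mer]
  congr 1
  exact Hol.ext fun τ => by rw [evHol_apply, h.const]; rfl

theorem evMer_j : h.evMer jF = algebraMap Hol Mer (h.evHol ⟨jF, h.j_mem⟩) :=
  h.evMer_coe ⟨jF, h.j_mem⟩

theorem evHol_j_apply (τ : ℍ) : (h.evHol ⟨jF, h.j_mem⟩ : ℍ → ℂ) τ = jFun τ := by
  rw [evHol_apply, h.j_eval]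

/-- The values of `evMer` are `Γ`-invariant. -/
theorem pull_evMer_of_mem {γ : SL(2, ℤ)} (hγ : γ ∈ Γ) (f : F) :
    pull γ (h.evMer f) = h.evMer f := by
  haveI := h.isFractionRing
  have key : ((pull γ : Mer ≃ₐ[ℂ] Mer) : Mer →+* Mer).comp h.evMer = h.evMer := by
    apply IsFractionRing.ringHom_ext (A := A)
    intro a
    rw [RingHom.comp_apply]
    show pull γ (h.evMer (a : F)) = h.evMer (a : F)
    rw [evMer_coe, pull_algebraMap]
    congr 1
    exact Hol.ext fun τ => by rw [pullHol_apply, evHol_apply, evHol_apply, h.inv γ hγ a τ]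
  exact congrArg (fun φ : F →+* Mer => φ f) key

/-- The values of `evMer` separate the cosets of `Γ`. -/
theorem mem_of_pull_evMer (g : SL(2, ℤ)) (hg : ∀ f : F, pull g (h.evMer f) = h.evMer f) :
    g ∈ Γ := by
  apply h.sep
  intro a τ
  have h2 := hg (a : F)
  rw [evMer_coe, pull_algebraMap] at h2
  have h3 : pullHol g (h.evHol a) = h.evHol a := IsFractionRing.injective Hol Mer h2
  exact congrFun (congrArg Subtype.val h3) τ

/-- `-1 ∈ Γ`. -/
theorem neg_one_mem : (-1 : SL(2, ℤ)) ∈ Γ := by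
  apply h.mem_of_pull_evMer
  intro f
  rw [pull_neg, pull_one]

/-- `evMer jF` is invariant under `SL(2, ℤ)`. -/
theorem pull_evMer_j (g : SL(2, ℤ)) : pull g (h.evMer jF) = h.evMer jF := by
  rw [evMer_j, pull_algebraMap]
  congr 1
  refine Hol.ext fun τ => ?_
  rw [pullHol_apply, evHol_j_apply, evHol_j_apply]
  exact helper454.jInvariant g τ

/-- The order of `evMer (jF - c)` at a point `τ` with `j τ = c`. -/
theorem ordAt_evMer_j_sub (τ : ℍ) (c : Kbar) (hτ : jFun τ = i0 c) :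
    ordAt τ (h.evMer jF - algebraMap ℂ Mer (i0 c))
      = (analyticOrderAt (fun z : ℂ => jFun (ofComplex z) - jFun τ) (τ : ℂ)).map Nat.cast := by
  rw [evMer_j, IsScalarTower.algebraMap_apply ℂ Hol Mer, ← map_sub,
    ordAt_algebraMap_eq_analyticOrderAt]
  have h3 : (((h.evHol ⟨jF, h.j_mem⟩ - algebraMap ℂ Hol (i0 c) : Hol) : ℍ → ℂ) ∘ ofComplex)
      = fun z : ℂ => jFun (ofComplex z) - jFun τ := by
    funext z
    show (h.evHol ⟨jF, h.j_mem⟩ : ℍ → ℂ) (ofComplex z) - i0 c = jFun (ofComplex z) - jFun τ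
    rw [evHol_j_apply, hτ]
  rw [h3]

/-- `jF` is transcendental over `ℚ̄`. -/
theorem transcendental_j : Transcendental Kbar jF := by
  intro halg
  obtain ⟨p, hp0, hp⟩ := halg
  apply hp0
  have hA : Polynomial.aeval (⟨jF, h.j_mem⟩ : A) p = 0 := by
    apply Subtype.ext
    rw [Subalgebra.coe_zero, ← hp]
    exact (Polynomial.aeval_algHom_apply A.val (⟨jF, h.j_mem⟩ : A) p).symm
  have hroot : ∀ τ : ℍ, (p.map i0).eval (jFun τ) = 0 := by
    intro τ
    have h1 := congrArg (fun a : A => e a τ) hA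
    simp only [map_zero, Pi.zero_apply] at h1
    rw [Polynomial.aeval_def, Polynomial.hom_eval₂] at h1
    have h2 := Polynomial.hom_eval₂ p (e.comp (algebraMap Kbar A))
      (Pi.evalRingHom (fun _ : ℍ => ℂ) τ) (e ⟨jF, h.j_mem⟩)
    have h3 : (Pi.evalRingHom (fun _ : ℍ => ℂ) τ).comp (e.comp (algebraMap Kbar A)) = i0 := by
      ext c
      show e (algebraMap Kbar A c) τ = i0 c
      rw [h.const]
    rw [h3] at h2
    rw [Polynomial.eval_map, ← h.j_eval]
    exact h2.symm.trans h1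
  have hzero : p.map i0 = 0 := by
    apply Polynomial.eq_zero_of_infinite_isRoot
    have hsub : (Set.univ : Set ℂ) ⊆ {x | (p.map i0).IsRoot x} := by
      intro x _
      obtain ⟨τ, hτ⟩ := helper2064.stmt_JSurj x
      show (p.map i0).eval x = 0
      rw [← hτ]
      exact hroot τ
    exact Set.infinite_univ.mono hsub
  exact (Polynomial.map_eq_zero i0).mp hzero


/-- `evMer` as a `ℚ̄`-algebra homomorphism (`Mer` is a `ℚ̄`-algebra through `i0`). -/
def evAlg : @AlgHom Kbar F Mer _ _ _ _ (algK i0) :=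
  letI := algK i0
  { h.evMer with commutes' := fun c => h.evMer_algebraMap c }

theorem evAlg_apply (f : F) :
    letI := algK i0
    h.evAlg f = h.evMer f := rfl

end EvalData

/-! ## Conjugate embeddings indexed by `SL(2, ℤ) ⧸ Γ` -/

section glue

variable {M : Type} [Field M] [Algebra Kbar M] {Γ : Subgroup SL(2, ℤ)}

/-- The conjugate embeddings `ι_x = act (g_x) ∘ ev`, `g_x` a chosen representative of `x`. -/
def iotaG (act : SL(2, ℤ) → (M ≃ₐ[Kbar] M)) (ev : F →ₐ[Kbar] M)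
    (x : SL(2, ℤ) ⧸ Γ) : F →ₐ[Kbar] M :=
  ((act (Quotient.out x) : M ≃ₐ[Kbar] M) : M →ₐ[Kbar] M).comp ev

theorem iotaG_apply (act : SL(2, ℤ) → (M ≃ₐ[Kbar] M)) (ev : F →ₐ[Kbar] M)
    (x : SL(2, ℤ) ⧸ Γ) (f : F) : iotaG act ev x f = act (Quotient.out x) (ev f) := rfl

theorem act_one_apply' (act : SL(2, ℤ) → (M ≃ₐ[Kbar] M))
    (hmul : ∀ (g h : SL(2, ℤ)) (z : M), act (g * h) z = act g (act h z)) (z : M) :
    act 1 z = z := by
  have h := hmul 1 1 z
  rw [one_mul] at h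
  exact ((act 1).injective h).symm

theorem iotaG_injective (act : SL(2, ℤ) → (M ≃ₐ[Kbar] M)) (ev : F →ₐ[Kbar] M)
    (hmul : ∀ (g h : SL(2, ℤ)) (z : M), act (g * h) z = act g (act h z))
    (hsep : ∀ g : SL(2, ℤ), (∀ f : F, act g (ev f) = ev f) → g ∈ Γ) :
    Function.Injective (iotaG (Γ := Γ) act ev) := by
  intro x y hxy
  have key : (Quotient.out y)⁻¹ * Quotient.out x ∈ Γ := by
    apply hsep
    intro f
    have h1 : act (Quotient.out x) (ev f) = act (Quotient.out y) (ev f) := by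
      have := congrArg (fun φ : F →ₐ[Kbar] M => φ f) hxy
      simpa [iotaG_apply] using this
    rw [hmul, h1, ← hmul, inv_mul_cancel, act_one_apply' act hmul]
  have h2 : (QuotientGroup.mk (Quotient.out y) : SL(2, ℤ) ⧸ Γ) = QuotientGroup.mk (Quotient.out x) :=
    QuotientGroup.eq.mpr key
  have hx : (QuotientGroup.mk (Quotient.out x) : SL(2, ℤ) ⧸ Γ) = x := Quotient.out_eq x
  have hy : (QuotientGroup.mk (Quotient.out y) : SL(2, ℤ) ⧸ Γ) = y := Quotient.out_eq y
  rw [← hx, ← hy, h2]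

theorem act_iotaG (act : SL(2, ℤ) → (M ≃ₐ[Kbar] M)) (ev : F →ₐ[Kbar] M)
    (hmul : ∀ (g h : SL(2, ℤ)) (z : M), act (g * h) z = act g (act h z))
    (hinv : ∀ γ ∈ Γ, ∀ f : F, act γ (ev f) = ev f)
    (g : SL(2, ℤ)) (x : SL(2, ℤ) ⧸ Γ) (f : F) :
    act g (iotaG act ev x f) = iotaG act ev (g • x) f := by
  rw [iotaG_apply, iotaG_apply, ← hmul]
  have hx : (QuotientGroup.mk (Quotient.out x) : SL(2, ℤ) ⧸ Γ) = x := Quotient.out_eq x
  have h1 : (QuotientGroup.mk (g * Quotient.out x) : SL(2, ℤ) ⧸ Γ)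
      = QuotientGroup.mk (Quotient.out (g • x)) := by
    have h2 : (QuotientGroup.mk (Quotient.out (g • x)) : SL(2, ℤ) ⧸ Γ) = g • x := Quotient.out_eq _
    rw [h2]
    conv_rhs => rw [← hx]
    rfl
  have key : (g * Quotient.out x)⁻¹ * Quotient.out (g • x) ∈ Γ := QuotientGroup.eq.mp h1
  have h3 : Quotient.out (g • x)
      = (g * Quotient.out x) * ((g * Quotient.out x)⁻¹ * Quotient.out (g • x)) := by
    group
  conv_rhs => rw [h3, hmul, hinv _ key]

end glue

/-! ## The dictionary at a point -/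

namespace EvalData

variable {Γ : Subgroup SL(2, ℤ)} {jF : F} {i0 : Kbar →+* ℂ} {A : Subalgebra Kbar F}
  {e : A →+* (ℍ → ℂ)} (h : EvalData Γ jF i0 A e)

include h

/-- **The dictionary over a value `c` of `j`.**  Let `τ₀` be a point with `j τ₀ = c`, fixed by
`g₀`, where `j - c` vanishes to order `m`, with the divisibility property `HDiv` of the
stabiliser.  Then every zero `v` of `jF - c` is the place of a point `g⁻¹ • τ₀`:
`ord_{g⁻¹ τ₀} (ev f) = ord_v f * κ`, where `κ * |⟨g₀⟩-orbit of g Γ| = m`. -/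
theorem dict_at [FiniteDimensional Kbar⟮jF⟯ F]
    (hdeg : Module.finrank Kbar⟮jF⟯ F = Nat.card (SL(2, ℤ) ⧸ Γ))
    (c : Kbar) (τ₀ : ℍ) (g₀ : SL(2, ℤ)) (m : ℕ) (hm : 0 < m) (hfix : g₀ • τ₀ = τ₀)
    (hj : jFun τ₀ = i0 c)
    (hval : analyticOrderAt (fun z : ℂ => jFun (ofComplex z) - jFun τ₀) (τ₀ : ℂ) = m)
    (hdiv : @helper481.HDiv Mer _ (algK i0) (ordAt τ₀) (actK i0 g₀) m)
    (v : Place Kbar F) (hv : 0 < v.ord (jF - algebraMap Kbar F c)) :
    ∃ (x : SL(2, ℤ) ⧸ Γ) (κ : ℤ), 0 < κ ∧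
      (Nat.card {x' : SL(2, ℤ) ⧸ Γ // (Quotient.mk'' x' : MulAction.orbitRel.Quotient
        (Subgroup.zpowers (MulAction.toPerm g₀ : Equiv.Perm (SL(2, ℤ) ⧸ Γ))) (SL(2, ℤ) ⧸ Γ))
          = Quotient.mk'' x} : ℤ) * κ = m ∧
      ∀ f : F, f ≠ 0 →
        ordAt ((Quotient.out x)⁻¹ • τ₀) (h.evMer f) = ((v.ord f * κ : ℤ) : WithTop ℤ) := by
  classical
  letI : Algebra Kbar Mer := algK i0
  have hjtr : Transcendental Kbar jF := h.transcendental_j
  set y : F := jF - algebraMap Kbar F c with hy_def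
  have hytr : Transcendental Kbar y := helper1635.transcendental_sub_algebraMap hjtr c
  have he : Kbar⟮y⟯ = Kbar⟮jF⟯ := helper1635.adjoin_sub_algebraMap (K := Kbar) jF c
  haveI : FiniteDimensional Kbar⟮y⟯ F := helper1635.finiteDimensional_of_eq he.symm
  have hcard : Nat.card (SL(2, ℤ) ⧸ Γ) = Module.finrank Kbar⟮y⟯ F := by
    rw [helper1635.finrank_of_eq he, hdeg]
  have hpos : 0 < Module.finrank Kbar⟮y⟯ F := Module.finrank_pos
  haveI : Finite (SL(2, ℤ) ⧸ Γ) := Nat.finite_of_card_ne_zero (by omega)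
  letI : Fintype (SL(2, ℤ) ⧸ Γ) := Fintype.ofFinite _
  have hcard' : Fintype.card (SL(2, ℤ) ⧸ Γ) = Module.finrank Kbar⟮y⟯ F := by
    rw [← Nat.card_eq_fintype_card]; exact hcard
  have hy0 : y ≠ 0 := fun h0 => hytr (h0 ▸ isAlgebraic_zero)
  have hfund := leaf_FundId Kbar F y hytr
  -- the package
  have hmul : ∀ (g g' : SL(2, ℤ)) (z : Mer), actK i0 (g * g') z = actK i0 g (actK i0 g' z) := by
    intro g g' z
    show pull (g * g')⁻¹ z = pull g⁻¹ (pull g'⁻¹ z)
    rw [pull_pull, mul_inv_rev]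
  have hinv : ∀ γ ∈ Γ, ∀ f : F, actK i0 γ (h.evAlg f) = h.evAlg f := by
    intro γ hγ f
    show pull γ⁻¹ (h.evMer f) = h.evMer f
    exact h.pull_evMer_of_mem (inv_mem hγ) f
  have hsep : ∀ g : SL(2, ℤ), (∀ f : F, actK i0 g (h.evAlg f) = h.evAlg f) → g ∈ Γ := by
    intro g hg
    have h1 : g⁻¹ ∈ Γ := h.mem_of_pull_evMer g⁻¹ (fun f => hg f)
    exact inv_mem_iff.mp h1
  set ξ : Mer := h.evMer jF - algebraMap ℂ Mer (i0 c) with hξ_def
  have hξ : ∀ x : SL(2, ℤ) ⧸ Γ, iotaG (Γ := Γ) (actK i0) h.evAlg x y = ξ := by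
    intro x
    rw [iotaG_apply]
    show pull (Quotient.out x)⁻¹ (h.evMer (jF - algebraMap Kbar F c)) = ξ
    rw [map_sub, map_sub, h.pull_evMer_j, h.evMer_algebraMap, AlgEquiv.commutes]
  have hwξ : ordAt τ₀ ξ = ((m : ℤ) : WithTop ℤ) := by
    rw [hξ_def, h.ordAt_evMer_j_sub τ₀ c hj, hval]
    rfl
  have hwK : ∀ a : Kbar, a ≠ 0 → ordAt τ₀ (algebraMap Kbar Mer a) = 0 := by
    intro a ha
    show ordAt τ₀ (algebraMap ℂ Mer (i0 a)) = 0
    exact ordAt_const τ₀ ((map_ne_zero i0).mpr ha)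
  have hσ : ∀ z : Mer, ordAt τ₀ (actK i0 g₀ z) = ordAt τ₀ z := by
    intro z
    show ordAt τ₀ (pull g₀⁻¹ z) = ordAt τ₀ z
    rw [ordAt_pull, inv_smul_eq_iff.mpr hfix.symm]
  obtain ⟨x, κ, hκpos, hκm, hκ⟩ := loc_place_dict (K := Kbar) y hy0 hfund (ordAt τ₀) hwK hcard'
    (iotaG (Γ := Γ) (actK i0) h.evAlg) (iotaG_injective (actK i0) h.evAlg hmul hsep)
    ξ hξ m hm hwξ (actK i0 g₀) hσ (MulAction.toPerm g₀)
    (fun x f => by
      rw [act_iotaG (actK i0) h.evAlg hmul hinv g₀ x f]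
      rfl)
    hdiv v hv
  refine ⟨x, κ, hκpos, hκm, fun f hf => ?_⟩
  rw [← hκ f hf, iotaG_apply]
  show ordAt ((Quotient.out x)⁻¹ • τ₀) (h.evMer f) = ordAt τ₀ (pull (Quotient.out x)⁻¹ (h.evMer f))
  rw [ordAt_pull]


end EvalData

/-! ## Elliptic elements -/

theorem isOfFinOrder_S' : IsOfFinOrder ModularGroup.S := by
  rw [isOfFinOrder_iff_pow_eq_one]
  refine ⟨4, by norm_num, ?_⟩
  have h4 : ModularGroup.S ^ 4 = (ModularGroup.S ^ 2) ^ 2 := by rw [← pow_mul]
  rw [h4, S_pow_two]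
  simp

theorem isOfFinOrder_ST' : IsOfFinOrder (ModularGroup.S * ModularGroup.T) := by
  rw [isOfFinOrder_iff_pow_eq_one]
  refine ⟨6, by norm_num, ?_⟩
  have h6 : (ModularGroup.S * ModularGroup.T) ^ 6 = ((ModularGroup.S * ModularGroup.T) ^ 3) ^ 2 := by
    rw [← pow_mul]
  rw [h6, ST_pow_three]
  simp

theorem S_entry : (ModularGroup.S : SL(2, ℤ)) 0 0 = 0 := by
  show ((ModularGroup.S : SL(2, ℤ)) : Matrix (Fin 2) (Fin 2) ℤ) 0 0 = 0
  rw [ModularGroup.coe_S]; rfl

theorem ST_entry : (ModularGroup.S * ModularGroup.T : SL(2, ℤ)) 0 0 = 0 := by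
  show ((ModularGroup.S * ModularGroup.T : SL(2, ℤ)) : Matrix (Fin 2) (Fin 2) ℤ) 0 0 = 0
  rw [coe_ST]; rfl

theorem ne_one_of_entry {g : SL(2, ℤ)} (hg : g 0 0 = 0) : g ≠ 1 := by
  rintro rfl
  simp at hg

theorem ne_neg_one_of_entry {g : SL(2, ℤ)} (hg : g 0 0 = 0) : g ≠ -1 := by
  rintro rfl
  simp at hg

/-- The alternative for the multiplicity `κ` of the dictionary: `κ = 1`, or the point is fixed by
a nontrivial element of finite order of `Γ`. -/
theorem kappa_cases {Γ : Subgroup SL(2, ℤ)} [Fintype (SL(2, ℤ) ⧸ Γ)] (g₀ : SL(2, ℤ))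
    (hfin : IsOfFinOrder g₀) (hne1 : g₀ ≠ 1)
    (hne2 : g₀ ≠ -1) (τ₀ : ℍ) (hfix : g₀ • τ₀ = τ₀) (m : ℕ) (hmp : m.Prime)
    (x : SL(2, ℤ) ⧸ Γ) (κ : ℤ) (hκpos : 0 < κ)
    (hκm : (Nat.card {x' : SL(2, ℤ) ⧸ Γ // (Quotient.mk'' x' : MulAction.orbitRel.Quotient
        (Subgroup.zpowers (MulAction.toPerm g₀ : Equiv.Perm (SL(2, ℤ) ⧸ Γ))) (SL(2, ℤ) ⧸ Γ))
          = Quotient.mk'' x} : ℤ) * κ = m) :
    κ = 1 ∨ ∃ γ ∈ Γ, IsOfFinOrder γ ∧ γ ≠ 1 ∧ γ ≠ -1 ∧
      γ • ((Quotient.out x)⁻¹ • τ₀) = (Quotient.out x)⁻¹ • τ₀ := by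
  classical
  set q := Nat.card {x' : SL(2, ℤ) ⧸ Γ // (Quotient.mk'' x' : MulAction.orbitRel.Quotient
        (Subgroup.zpowers (MulAction.toPerm g₀ : Equiv.Perm (SL(2, ℤ) ⧸ Γ))) (SL(2, ℤ) ⧸ Γ))
          = Quotient.mk'' x} with hq
  obtain ⟨κ', rfl⟩ : ∃ κ' : ℕ, (κ' : ℤ) = κ := ⟨κ.toNat, Int.toNat_of_nonneg hκpos.le⟩
  have hqm : q * κ' = m := by exact_mod_cast hκm
  rcases (Nat.dvd_prime hmp).mp ⟨κ', hqm.symm⟩ with hq1 | hqm'
  · right
    have hfix' : ((MulAction.toPerm g₀ : Equiv.Perm (SL(2, ℤ) ⧸ Γ)) ^ q) x = x :=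
      helper264.pow_card_orbitClass_apply _ x
    rw [hq1, pow_one] at hfix'
    have hx : (QuotientGroup.mk (Quotient.out x) : SL(2, ℤ) ⧸ Γ) = x := Quotient.out_eq x
    have h1 : (QuotientGroup.mk (g₀ * Quotient.out x) : SL(2, ℤ) ⧸ Γ)
        = QuotientGroup.mk (Quotient.out x) := by
      rw [hx]
      conv_rhs => rw [← hfix', ← hx]
      rfl
    have key : (g₀ * Quotient.out x)⁻¹ * Quotient.out x ∈ Γ := QuotientGroup.eq.mp h1
    set g := Quotient.out x with hg
    refine ⟨g⁻¹ * g₀ * g, ?_, ?_, ?_, ?_, ?_⟩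
    · have h2 : g⁻¹ * g₀ * g = ((g₀ * g)⁻¹ * g)⁻¹ := by group
      rw [h2]
      exact inv_mem key
    · rw [isOfFinOrder_iff_pow_eq_one] at hfin ⊢
      obtain ⟨n, hn, hpow⟩ := hfin
      refine ⟨n, hn, ?_⟩
      have h3 : (g⁻¹ * g₀ * g) ^ n = g⁻¹ * g₀ ^ n * g := by
        have := conj_pow (a := g⁻¹) (b := g₀) (i := n)
        simpa using this
      rw [h3, hpow]
      group
    · intro h1'
      apply hne1
      have : g₀ = g * (g⁻¹ * g₀ * g) * g⁻¹ := by group
      rw [this, h1']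
      group
    · intro h1'
      apply hne2
      have : g₀ = g * (g⁻¹ * g₀ * g) * g⁻¹ := by group
      rw [this, h1', mul_neg, neg_mul, mul_one, mul_inv_cancel]
    · rw [← mul_smul, mul_assoc, mul_inv_cancel, mul_one, mul_smul, hfix]
  · left
    have hqpos : 0 < q := by
      have : Nonempty {x' : SL(2, ℤ) ⧸ Γ // (Quotient.mk'' x' : MulAction.orbitRel.Quotient
        (Subgroup.zpowers (MulAction.toPerm g₀ : Equiv.Perm (SL(2, ℤ) ⧸ Γ))) (SL(2, ℤ) ⧸ Γ))
          = Quotient.mk'' x} := ⟨⟨x, rfl⟩⟩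
      rw [hq]
      exact Nat.card_pos
    have h1 : κ' = 1 := by
      rw [hqm'] at hqm
      exact Nat.eq_of_mul_eq_mul_left hmp.pos (by rw [hqm, mul_one])
    exact_mod_cast h1

namespace EvalData

variable {Γ : Subgroup SL(2, ℤ)} {jF : F} {i0 : Kbar →+* ℂ} {A : Subalgebra Kbar F}
  {e : A →+* (ℍ → ℂ)} (h : EvalData Γ jF i0 A e)

include h

/-- Invariance of the order of `ev (jF - c)` under translation of the point. -/
theorem ordAt_smul_evMer_j_sub (g : SL(2, ℤ)) (τ₀ : ℍ) (c : Kbar) :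
    ordAt (g • τ₀) (h.evMer (jF - algebraMap Kbar F c))
      = ordAt τ₀ (h.evMer (jF - algebraMap Kbar F c)) := by
  rw [← ordAt_pull, map_sub, map_sub, h.pull_evMer_j, h.evMer_algebraMap, AlgEquiv.commutes]

/-- **Master form of the dictionary over a value `c` of `jF`.**  For a zero `v` of `jF - c`
there are a point `τ` with `j τ = c`, a multiplicity `κ > 0` and `m ∈ {1, 2, 3}`
(`m = 3` if `c = 0`, `m = 2` if `c = 1728`, `m = 1` otherwise) such that
`ord_v (jF - c) * κ = m`, `ord_τ (ev f) = ord_v f * κ` for all `f ≠ 0`, and `κ = 1` unless `τ` is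
fixed by a nontrivial element of finite order of `Γ`. -/
theorem dict_master [FiniteDimensional Kbar⟮jF⟯ F]
    (hdeg : Module.finrank Kbar⟮jF⟯ F = Nat.card (SL(2, ℤ) ⧸ Γ))
    (c : Kbar) (v : Place Kbar F) (hc : 0 < v.ord (jF - algebraMap Kbar F c)) :
    ∃ (τ : ℍ) (κ : ℤ) (m : ℕ), 0 < κ ∧ jFun τ = i0 c ∧
      (c = 0 → m = 3) ∧ (c = 1728 → m = 2) ∧ (c ≠ 0 → c ≠ 1728 → m = 1) ∧
      v.ord (jF - algebraMap Kbar F c) * κ = m ∧
      (κ = 1 ∨ ∃ γ ∈ Γ, IsOfFinOrder γ ∧ γ ≠ 1 ∧ γ ≠ -1 ∧ γ • τ = τ) ∧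
      ∀ f : F, f ≠ 0 → ordAt τ (h.evMer f) = ((v.ord f * κ : ℤ) : WithTop ℤ) := by
  classical
  have hjtr : Transcendental Kbar jF := h.transcendental_j
  have hpos : 0 < Module.finrank Kbar⟮jF⟯ F := Module.finrank_pos
  haveI : Finite (SL(2, ℤ) ⧸ Γ) := Nat.finite_of_card_ne_zero (by omega)
  letI : Fintype (SL(2, ℤ) ⧸ Γ) := Fintype.ofFinite _
  have hy0 : jF - algebraMap Kbar F c ≠ 0 := fun h0 =>
    (helper1635.transcendental_sub_algebraMap hjtr c) (h0 ▸ isAlgebraic_zero)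
  -- the order of `jF - c` from the dictionary
  have hordy : ∀ (τ₀ : ℍ) (g : SL(2, ℤ)) (κ : ℤ) (m : ℕ), jFun τ₀ = i0 c →
      analyticOrderAt (fun z : ℂ => jFun (ofComplex z) - jFun τ₀) (τ₀ : ℂ) = m →
      (∀ f : F, f ≠ 0 → ordAt (g • τ₀) (h.evMer f) = ((v.ord f * κ : ℤ) : WithTop ℤ)) →
      v.ord (jF - algebraMap Kbar F c) * κ = m := by
    intro τ₀ g κ m hj hval hκ
    have h1 := hκ _ hy0
    rw [h.ordAt_smul_evMer_j_sub, map_sub, h.evMer_algebraMap, h.ordAt_evMer_j_sub τ₀ c hj,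
      hval] at h1
    have h2 : (((m : ℕ) : ℤ) : WithTop ℤ)
        = ((v.ord (jF - algebraMap Kbar F c) * κ : ℤ) : WithTop ℤ) := h1
    exact_mod_cast h2.symm
  by_cases hc0 : c = 0
  · subst hc0
    obtain ⟨-, ⟨τ₀, hfix, hτ₀, hord3⟩⟩ := helper2064.stmt_JElliptic
    have hj : jFun τ₀ = i0 0 := by rw [hτ₀, map_zero]
    have hval : analyticOrderAt (fun z : ℂ => jFun (ofComplex z) - jFun τ₀) (τ₀ : ℂ)
        = ((3 : ℕ) : ℕ∞) := by rw [hord3]; rfl
    obtain ⟨x, κ, hκpos, hκm, hκ⟩ := h.dict_at hdeg 0 τ₀ (ModularGroup.S * ModularGroup.T) 3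
      (by norm_num) hfix hj hval (hDiv_ST i0 τ₀ hfix) v hc
    have hj' : jFun ((Quotient.out x)⁻¹ • τ₀) = i0 0 := by
      exact (helper454.jInvariant (Quotient.out x)⁻¹ τ₀).trans hj
    refine ⟨_, κ, 3, hκpos, hj', fun _ => rfl, fun h' => ?_, fun h' => absurd rfl h',
      hordy τ₀ _ κ 3 hj hval hκ, ?_, hκ⟩
    · exfalso
      have : (1728 : Kbar) ≠ 0 := by norm_num
      exact this h'.symm
    · convert kappa_cases (Γ := Γ) (ModularGroup.S * ModularGroup.T) isOfFinOrder_ST'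
        (ne_one_of_entry ST_entry) (ne_neg_one_of_entry ST_entry) τ₀ hfix 3 (by norm_num) x κ
        hκpos ?_ using 1
      convert hκm using 4
  by_cases hc1 : c = 1728
  · subst hc1
    obtain ⟨⟨τ₀, hfix, hτ₀, hord2⟩, -⟩ := helper2064.stmt_JElliptic
    have hj : jFun τ₀ = i0 1728 := by rw [hτ₀]; exact (map_ofNat i0 1728).symm
    have hval : analyticOrderAt (fun z : ℂ => jFun (ofComplex z) - jFun τ₀) (τ₀ : ℂ)
        = ((2 : ℕ) : ℕ∞) := by rw [hord2]; rfl
    obtain ⟨x, κ, hκpos, hκm, hκ⟩ := h.dict_at hdeg 1728 τ₀ ModularGroup.S 2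
      (by norm_num) hfix hj hval (hDiv_S i0 τ₀ hfix) v hc
    have hj' : jFun ((Quotient.out x)⁻¹ • τ₀) = i0 1728 := by
      exact (helper454.jInvariant (Quotient.out x)⁻¹ τ₀).trans hj
    refine ⟨_, κ, 2, hκpos, hj', fun h' => absurd h' hc0, fun _ => rfl,
      fun _ h' => absurd rfl h', hordy τ₀ _ κ 2 hj hval hκ, ?_, hκ⟩
    convert kappa_cases (Γ := Γ) ModularGroup.S isOfFinOrder_S'
      (ne_one_of_entry S_entry) (ne_neg_one_of_entry S_entry) τ₀ hfix 2 (by norm_num) x κ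
      hκpos ?_ using 1
    convert hκm using 4
  · obtain ⟨τ₀, hτ₀⟩ := helper2064.stmt_JSurj (i0 c)
    have h0 : jFun τ₀ ≠ 0 := by
      rw [hτ₀]
      exact (map_ne_zero i0).mpr hc0
    have h1 : jFun τ₀ ≠ 1728 := by
      rw [hτ₀]
      intro h'
      apply hc1
      apply i0.injective
      rw [h']
      exact (map_ofNat i0 1728).symm
    have hval : analyticOrderAt (fun z : ℂ => jFun (ofComplex z) - jFun τ₀) (τ₀ : ℂ)
        = ((1 : ℕ) : ℕ∞) := by rw [helper2064.stmt_JGeneric τ₀ h0 h1]; rfl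
    obtain ⟨x, κ, hκpos, hκm, hκ⟩ := h.dict_at hdeg c τ₀ 1 1 Nat.one_pos (one_smul _ _) hτ₀
      hval (@helper481.hDiv_one Mer _ (algK i0) (ordAt τ₀) (actK i0 1)) v hc
    have hκ1 : κ = 1 := by
      have h1' : κ ∣ 1 := Dvd.intro_left _ hκm
      exact Int.eq_one_of_dvd_one hκpos.le h1'
    have hj' : jFun ((Quotient.out x)⁻¹ • τ₀) = i0 c := by
      exact (helper454.jInvariant (Quotient.out x)⁻¹ τ₀).trans hτ₀
    exact ⟨_, κ, 1, hκpos, hj', fun h' => absurd h' hc0, fun h' => absurd h' hc1,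
      fun _ _ => rfl, hordy τ₀ _ κ 1 hτ₀ hval hκ, Or.inl hκ1, hκ⟩

/-- **The finite-place dictionary.**  Every place `v` of `F` which is not a pole of `jF` is the
place of a point `τ` of the upper half plane: `ord_τ (ev f) = ord_v f * κ` for all `f ≠ 0`, with
a multiplicity `κ ∣ 6`, and `κ = 1` unless `τ` is fixed by a nontrivial element of finite order
of `Γ`. -/
theorem place_dict [FiniteDimensional Kbar⟮jF⟯ F]
    (hdeg : Module.finrank Kbar⟮jF⟯ F = Nat.card (SL(2, ℤ) ⧸ Γ))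
    (v : Place Kbar F) (hv : 0 ≤ v.ord jF) :
    ∃ (τ : ℍ) (κ : ℤ), 0 < κ ∧ κ ∣ 6 ∧
      (κ = 1 ∨ ∃ γ ∈ Γ, IsOfFinOrder γ ∧ γ ≠ 1 ∧ γ ≠ -1 ∧ γ • τ = τ) ∧
      ∀ f : F, f ≠ 0 → ordAt τ (h.evMer f) = ((v.ord f * κ : ℤ) : WithTop ℤ) := by
  rcases leaf_Center Kbar F jF h.transcendental_j v with hneg | ⟨c, hc⟩
  · omega
  obtain ⟨τ, κ, m, hκpos, -, hm0, hm1, hm2, hord, halt, hκ⟩ := h.dict_master hdeg c v hc
  refine ⟨τ, κ, hκpos, ?_, halt, hκ⟩
  have hκm : κ ∣ (m : ℤ) := Dvd.intro_left _ hord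
  have hm6 : (m : ℤ) ∣ 6 := by
    by_cases hc0 : c = 0
    · rw [hm0 hc0]; norm_num
    by_cases hc1 : c = 1728
    · rw [hm1 hc1]; norm_num
    · rw [hm2 hc0 hc1]; norm_num
  exact hκm.trans hm6

/-- **The finite-place dictionary, torsion-free case.**  If `Γ` has no element of finite order
except `±1`, every place `v` of `F` which is not a pole of `jF` is the place of a point `τ`:
`ord_τ (ev f) = ord_v f` for all `f ≠ 0`. -/
theorem place_dict_of_torsionFree [FiniteDimensional Kbar⟮jF⟯ F]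
    (hdeg : Module.finrank Kbar⟮jF⟯ F = Nat.card (SL(2, ℤ) ⧸ Γ))
    (hTF : ∀ γ ∈ Γ, IsOfFinOrder γ → γ = 1 ∨ γ = -1)
    (v : Place Kbar F) (hv : 0 ≤ v.ord jF) :
    ∃ τ : ℍ, ∀ f : F, f ≠ 0 → ordAt τ (h.evMer f) = ((v.ord f : ℤ) : WithTop ℤ) := by
  obtain ⟨τ, κ, -, -, halt, hκ⟩ := h.place_dict hdeg v hv
  have hκ1 : κ = 1 := by
    rcases halt with h1 | ⟨γ, hγ, hfin, hne1, hne2, -⟩
    · exact h1
    · rcases hTF γ hγ hfin with h1 | h1
      · exact absurd h1 hne1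
      · exact absurd h1 hne2
  refine ⟨τ, fun f hf => ?_⟩
  rw [hκ f hf, hκ1, mul_one]

/-- The order of `ev a` at `τ`, for `a` in the subalgebra `A`, is the order of vanishing of the
holomorphic function `e a`. -/
theorem ordAt_evMer_coe (a : A) (τ : ℍ) :
    ordAt τ (h.evMer (a : F))
      = (analyticOrderAt (fun z : ℂ => e a (ofComplex z)) (τ : ℂ)).map Nat.cast := by
  rw [evMer_coe, ordAt_algebraMap_eq_analyticOrderAt]
  rfl

/-- **(C1)** The elements of `A` are regular at every place which is not a pole of `jF`. -/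
theorem ord_nonneg [FiniteDimensional Kbar⟮jF⟯ F]
    (hdeg : Module.finrank Kbar⟮jF⟯ F = Nat.card (SL(2, ℤ) ⧸ Γ))
    (v : Place Kbar F) (hv : 0 ≤ v.ord jF) (a : A) : 0 ≤ v.ord (a : F) := by
  by_cases ha : (a : F) = 0
  · rw [ha, Place.ord_zero]
  obtain ⟨τ, κ, hκpos, -, -, hκ⟩ := h.place_dict hdeg v hv
  have h1 := hκ _ ha
  rw [h.ordAt_evMer_coe] at h1
  cases hn : analyticOrderAt (fun z : ℂ => e a (ofComplex z)) (τ : ℂ) with
  | top =>
    rw [hn, ENat.map_top] at h1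
    exact absurd h1 WithTop.top_ne_coe
  | coe n =>
    rw [hn] at h1
    have h2 : ((n : ℤ) : WithTop ℤ) = ((v.ord (a : F) * κ : ℤ) : WithTop ℤ) := h1
    have h3 : (n : ℤ) = v.ord (a : F) * κ := by exact_mod_cast h2
    have h4 : 0 ≤ v.ord (a : F) * κ := by rw [← h3]; exact Int.natCast_nonneg n
    exact nonneg_of_mul_nonneg_left h4 hκpos

/-- **(C2)** An element of `A` whose values never vanish is a unit at every place which is not a
pole of `jF`. -/
theorem ord_eq_zero_of_ne_zero [FiniteDimensional Kbar⟮jF⟯ F]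
    (hdeg : Module.finrank Kbar⟮jF⟯ F = Nat.card (SL(2, ℤ) ⧸ Γ))
    (v : Place Kbar F) (hv : 0 ≤ v.ord jF) (a : A) (ha : ∀ τ : ℍ, e a τ ≠ 0) :
    v.ord (a : F) = 0 := by
  have ha0 : (a : F) ≠ 0 := by
    intro h0
    have h1 : a = 0 := Subtype.ext h0
    apply ha UpperHalfPlane.I
    rw [h1, map_zero]
    rfl
  obtain ⟨τ, κ, hκpos, -, -, hκ⟩ := h.place_dict hdeg v hv
  have h1 := hκ _ ha0
  rw [h.ordAt_evMer_coe] at h1
  have han : AnalyticAt ℂ (fun z : ℂ => e a (ofComplex z)) (τ : ℂ) :=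
    Hol.analyticAt (h.evHol a) τ
  have h0 : analyticOrderAt (fun z : ℂ => e a (ofComplex z)) (τ : ℂ) = 0 := by
    rw [han.analyticOrderAt_eq_zero]
    show e a (ofComplex (τ : ℂ)) ≠ 0
    rw [UpperHalfPlane.ofComplex_apply]
    exact ha τ
  rw [h0] at h1
  have h2 : ((0 : ℤ) : WithTop ℤ) = ((v.ord (a : F) * κ : ℤ) : WithTop ℤ) := h1
  have h3 : (0 : ℤ) = v.ord (a : F) * κ := by exact_mod_cast h2
  rcases mul_eq_zero.mp h3.symm with h4 | h4
  · exact h4
  · omega

/-- **(C3a)** `F / ℚ̄(jF)` is unramified over every `c ≠ 0, 1728`. -/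
theorem ord_j_sub_eq_one [FiniteDimensional Kbar⟮jF⟯ F]
    (hdeg : Module.finrank Kbar⟮jF⟯ F = Nat.card (SL(2, ℤ) ⧸ Γ))
    (c : Kbar) (hc0 : c ≠ 0) (hc : c ≠ 1728) (v : Place Kbar F)
    (hv : 0 < v.ord (jF - algebraMap Kbar F c)) :
    v.ord (jF - algebraMap Kbar F c) = 1 := by
  obtain ⟨τ, κ, m, hκpos, -, -, -, hm2, hord, -, -⟩ := h.dict_master hdeg c v hv
  rw [hm2 hc0 hc] at hord
  have h1 : v.ord (jF - algebraMap Kbar F c) ∣ 1 := Dvd.intro _ (by exact_mod_cast hord)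
  exact Int.eq_one_of_dvd_one hv.le h1

/-- **(C3b)** Every ramification index of `F / ℚ̄(jF)` over `jF = 0` divides `3`. -/
theorem ord_j_dvd_three [FiniteDimensional Kbar⟮jF⟯ F]
    (hdeg : Module.finrank Kbar⟮jF⟯ F = Nat.card (SL(2, ℤ) ⧸ Γ))
    (v : Place Kbar F) (hv : 0 < v.ord jF) : v.ord jF ∣ 3 := by
  have hv' : 0 < v.ord (jF - algebraMap Kbar F 0) := by rwa [map_zero, sub_zero]
  obtain ⟨τ, κ, m, hκpos, -, hm0, -, -, hord, -, -⟩ := h.dict_master hdeg 0 v hv'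
  rw [hm0 rfl, map_zero, sub_zero] at hord
  exact Dvd.intro _ (by exact_mod_cast hord)

/-- **(C3c)** Every ramification index of `F / ℚ̄(jF)` over `jF = 1728` divides `2`. -/
theorem ord_j_sub_1728_dvd_two [FiniteDimensional Kbar⟮jF⟯ F]
    (hdeg : Module.finrank Kbar⟮jF⟯ F = Nat.card (SL(2, ℤ) ⧸ Γ))
    (v : Place Kbar F) (hv : 0 < v.ord (jF - algebraMap Kbar F 1728)) :
    v.ord (jF - algebraMap Kbar F 1728) ∣ 2 := by
  obtain ⟨τ, κ, m, hκpos, -, -, hm1, -, hord, -, -⟩ := h.dict_master hdeg 1728 v hv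
  rw [hm1 rfl] at hord
  exact Dvd.intro _ (by exact_mod_cast hord)

/-- **(C3b′)** If `Γ` has no element of finite order except `±1`, every zero of `jF` has
order `3`. -/
theorem ord_j_eq_three_of_torsionFree [FiniteDimensional Kbar⟮jF⟯ F]
    (hdeg : Module.finrank Kbar⟮jF⟯ F = Nat.card (SL(2, ℤ) ⧸ Γ))
    (hTF : ∀ γ ∈ Γ, IsOfFinOrder γ → γ = 1 ∨ γ = -1)
    (v : Place Kbar F) (hv : 0 < v.ord jF) : v.ord jF = 3 := by
  have hv' : 0 < v.ord (jF - algebraMap Kbar F 0) := by rwa [map_zero, sub_zero]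
  obtain ⟨τ, κ, m, hκpos, -, hm0, -, -, hord, halt, -⟩ := h.dict_master hdeg 0 v hv'
  have hκ1 : κ = 1 := by
    rcases halt with h1 | ⟨γ, hγ, hfin, hne1, hne2, -⟩
    · exact h1
    · rcases hTF γ hγ hfin with h1 | h1
      · exact absurd h1 hne1
      · exact absurd h1 hne2
  rw [hm0 rfl, map_zero, sub_zero, hκ1, mul_one] at hord
  exact_mod_cast hord

/-- **(C3c′)** If `Γ` has no element of finite order except `±1`, every zero of `jF - 1728` has
order `2`. -/
theorem ord_j_sub_1728_eq_two_of_torsionFree [FiniteDimensional Kbar⟮jF⟯ F]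
    (hdeg : Module.finrank Kbar⟮jF⟯ F = Nat.card (SL(2, ℤ) ⧸ Γ))
    (hTF : ∀ γ ∈ Γ, IsOfFinOrder γ → γ = 1 ∨ γ = -1)
    (v : Place Kbar F) (hv : 0 < v.ord (jF - algebraMap Kbar F 1728)) :
    v.ord (jF - algebraMap Kbar F 1728) = 2 := by
  obtain ⟨τ, κ, m, hκpos, -, -, hm1, -, hord, halt, -⟩ := h.dict_master hdeg 1728 v hv
  have hκ1 : κ = 1 := by
    rcases halt with h1 | ⟨γ, hγ, hfin, hne1, hne2, -⟩
    · exact h1
    · rcases hTF γ hγ hfin with h1 | h1
      · exact absurd h1 hne1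
      · exact absurd h1 hne2
  rw [hm1 rfl, hκ1, mul_one] at hord
  exact_mod_cast hord

end EvalData

end

end Fermat.Agent.S48.helper2648
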