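/-
S48-HDEG1 (helper9565): the seam theorem `hdeg` of the `Γ₁(M)` instance line.

For any intermediate field `E` of `ℚ̄((q))/ℚ̄` containing the function field `F_M` of `X₀(M)`
(`modularFunctionFieldBar M`), the degree of `E` over `ℚ̄(j)` is
`[SL(2, ℤ) : Γ₀(M)] * [E : F_M]` (tower law + the landed `S24` degree `[F_M : ℚ̄(j)]`).
With the layer degree `[E : F_M] = φ(M) / 2` (A2-GAL) and the index formula
`2 [SL(2, ℤ) : ±Γ₁(M)] = φ(M) ψ(M)` this is the hypothesis
`hdeg : Module.finrank ℚ̄⟮j⟯ E = Nat.card (SL(2, ℤ) ⧸ Γ)` of the place dictionaries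
(LOCGEN / ANDIV1 / BARGEN), for `Γ = ±Γ₁(M)`.
-/
import Mathlib
import Fermat.Agent.S24.helper2810_JFinrank
import Fermat.Agent.S20.helper34_Index

set_option autoImplicit false

open IntermediateField ModularCurve CongruenceSubgroup
open scoped MatrixGroups

namespace Fermat.Agent.S48.helper9565

section Generic

variable {K L : Type*} [Field K] [Field L] [Algebra K L]

/-- The degree of an intermediate field `E` over the simple extension generated inside `E` by one
of its elements is the relative degree computed in the ambient field. -/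
theorem finrank_adjoin_simple_eq_relfinrank (E : IntermediateField K L) (x : E) :
    Module.finrank K⟮x⟯ E = relfinrank K⟮(x : L)⟯ E := by
  rw [← relfinrank_top_right, ← relfinrank_map_map _ _ E.val]
  congr 1
  · rw [adjoin_map]
    simp
  · rw [← AlgHom.fieldRange_eq_map, fieldRange_val]

/-- **Tower law** for `K(x) ≤ F₀ ≤ E` inside an ambient field, in the `K⟮x⟯`-shape of the place
dictionaries. -/
theorem finrank_adjoin_simple_tower (F₀ E : IntermediateField K L) (hle : F₀ ≤ E) (x₀ : F₀)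
    (x : E) (hx : (x : L) = (x₀ : L)) :
    Module.finrank K⟮x⟯ E =
      Module.finrank K⟮x₀⟯ F₀ * Module.finrank F₀ (extendScalars hle) := by
  have hA : K⟮(x₀ : L)⟯ ≤ F₀ := adjoin_simple_le_iff.mpr x₀.2
  rw [finrank_adjoin_simple_eq_relfinrank E x, finrank_adjoin_simple_eq_relfinrank F₀ x₀,
    ← relfinrank_eq_finrank_of_le hle, hx]
  exact (relfinrank_mul_relfinrank hA hle).symm

end Generic

section Modular

open Fermat.Agent.S24.helper24

variable (M : ℕ) [NeZero M]

/-- **(H1)** `[E : ℚ̄(j)] = [SL(2, ℤ) : Γ₀(M)] * [E : F_M]` for every intermediate field `E`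
of `ℚ̄((q))` containing the function field `F_M` of `X₀(M)`. -/
theorem finrank_j_of_le (E : IntermediateField Kbar (LaurentSeries Kbar))
    (hle : modularFunctionFieldBar M ≤ E) (jE : E)
    (hj : (jE : LaurentSeries Kbar) = coeffEmb Kbar jq) :
    Module.finrank Kbar⟮jE⟯ E =
      Nat.card (SL(2, ℤ) ⧸ Gamma0 M) *
        Module.finrank ↥(modularFunctionFieldBar M) ↥(extendScalars hle) := by
  have h := (Fermat.Agent.S24.helper2810.stmt_JFinrank M).2
  rw [finrank_adjoin_simple_tower (modularFunctionFieldBar M) E hle (jBar M) jE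
    (hj.trans (coe_jBar M).symm)]
  exact congrArg (· * _) h

/-- `Nat.card (SL(2, ℤ) ⧸ Γ₀(M)) = ψ(M)`. -/
theorem card_quotient_Gamma0 : Nat.card (SL(2, ℤ) ⧸ Gamma0 M) = dedekindPsi M :=
  Fermat.Agent.S20.helper34.index_Gamma0 M

/-- `0 < ψ(M)`. -/
theorem dedekindPsi_pos : 0 < dedekindPsi M := by
  rw [← card_quotient_Gamma0 M]
  have h := (Fermat.Agent.S24.helper2810.stmt_JFinrank M)
  have := h.1
  rw [← h.2]
  exact Module.finrank_pos

/-- **(H2)** The hypothesis `hdeg` of the place dictionaries for a field `E ⊇ F_M` whose layer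
degree is `φ(M) / 2` and a subgroup `Γ` of index `φ(M) ψ(M) / 2` (i.e. `Γ = ±Γ₁(M)`). -/
theorem hdeg_of_layer (E : IntermediateField Kbar (LaurentSeries Kbar))
    (hle : modularFunctionFieldBar M ≤ E) (jE : E)
    (hj : (jE : LaurentSeries Kbar) = coeffEmb Kbar jq) (Γ : Subgroup SL(2, ℤ))
    (hidx : 2 * Γ.index = Nat.totient M * dedekindPsi M)
    (hlayer : 2 * Module.finrank ↥(modularFunctionFieldBar M) ↥(extendScalars hle) =
      Nat.totient M) :
    FiniteDimensional Kbar⟮jE⟯ E ∧ Module.finrank Kbar⟮jE⟯ E = Nat.card (SL(2, ℤ) ⧸ Γ) := by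
  have h1 := finrank_j_of_le M E hle jE hj
  rw [card_quotient_Gamma0] at h1
  have h2 : Module.finrank Kbar⟮jE⟯ E = Γ.index := by
    have h3 : 2 * Module.finrank Kbar⟮jE⟯ E = 2 * Γ.index := by
      rw [hidx, h1, ← hlayer]
      ring
    omega
  refine ⟨?_, h2⟩
  have hpos : 0 < Module.finrank Kbar⟮jE⟯ E := by
    rw [h1]
    have hφ : 0 < Nat.totient M := Nat.totient_pos.mpr (Nat.pos_of_ne_zero (NeZero.ne M))
    have : 0 < Module.finrank ↥(modularFunctionFieldBar M) ↥(extendScalars hle) := by omega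
    exact Nat.mul_pos (dedekindPsi_pos M) this
  exact FiniteDimensional.of_finrank_pos hpos

/-- Variant of `hdeg_of_layer` with the layer degree in the form `= φ(M) / 2` (`φ(M)` is even for
`3 ≤ M`). -/
theorem hdeg_of_layer' (hM : 3 ≤ M) (E : IntermediateField Kbar (LaurentSeries Kbar))
    (hle : modularFunctionFieldBar M ≤ E) (jE : E)
    (hj : (jE : LaurentSeries Kbar) = coeffEmb Kbar jq) (Γ : Subgroup SL(2, ℤ))
    (hidx : 2 * Γ.index = Nat.totient M * dedekindPsi M)
    (hlayer : Module.finrank ↥(modularFunctionFieldBar M) ↥(extendScalars hle) =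
      Nat.totient M / 2) :
    FiniteDimensional Kbar⟮jE⟯ E ∧ Module.finrank Kbar⟮jE⟯ E = Nat.card (SL(2, ℤ) ⧸ Γ) := by
  refine hdeg_of_layer M E hle jE hj Γ hidx ?_
  rw [hlayer]
  exact Nat.mul_div_cancel' (Nat.totient_even (by omega)).two_dvd

/-- Variant of `hdeg_of_layer` with the layer degree as a relative degree in `ℚ̄((q))`. -/
theorem hdeg_of_relfinrank (E : IntermediateField Kbar (LaurentSeries Kbar))
    (hle : modularFunctionFieldBar M ≤ E) (jE : E)
    (hj : (jE : LaurentSeries Kbar) = coeffEmb Kbar jq) (Γ : Subgroup SL(2, ℤ))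
    (hidx : 2 * Γ.index = Nat.totient M * dedekindPsi M)
    (hlayer : 2 * relfinrank (modularFunctionFieldBar M) E = Nat.totient M) :
    FiniteDimensional Kbar⟮jE⟯ E ∧ Module.finrank Kbar⟮jE⟯ E = Nat.card (SL(2, ℤ) ⧸ Γ) :=
  hdeg_of_layer M E hle jE hj Γ hidx (by rw [← relfinrank_eq_finrank_of_le hle]; exact hlayer)

end Modular

end Fermat.Agent.S48.helper9565
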