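/-
S48-HDEG2 (helper9565): the degree hypothesis `hdeg` of the place dictionaries, DIRECTLY from a
function-level evaluation datum.

For an arbitrary function field `F` over `ℚ̄` embedded in `ℚ̄((q))`, an arbitrary subgroup
`Γ ≤ SL(2, ℤ)` of finite index and an evaluation datum `helper2648.EvalData Γ jF i0 A e` whose
functions have at most exponential growth along every coset and whose `q`-expansions at `i∞`
are the given series, `[F : ℚ̄(jF)] = [SL(2, ℤ) : Γ]`:

* `≤` : the conjugates `e a ∘ g_x` (`x ∈ SL(2, ℤ) ⧸ Γ`) are permuted by `SL(2, ℤ)`, so `e a`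
  satisfies a monic relation of degree `[SL(2, ℤ) : Γ]` over `ℂ[J]`
  (landed `S24.helper167.exists_monic_relation_sum`), which is transported to formal series by the
  `HasQ` dictionary and descended to `ℚ̄` (landed `S24.helper102.finrank_eq_card_of_monic`);
* `≥` : the conjugate embeddings `pull g_x ∘ ev` are pairwise distinct (`sep`).

This is the generic-`(F, Γ)` port of the landed S24 degree theorem `helper167.jFinrank_of`.
No Galois theory of the layer `F / F_M` is used.
-/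
import Fermat.Agent.S48.helper2648_LocGen
import Fermat.Agent.S24.helper167_JFinrank
import Fermat.Agent.S24.helper102_DegreeAlg
import Fermat.Agent.S24.helper1704_QDict
import Fermat.Agent.S48.helper9565_HDeg

set_option autoImplicit false

open UpperHalfPlane ModularCurve AlgebraicCurve IntermediateField
open scoped MatrixGroups Manifold

namespace Fermat.Agent.S48.helper9565

open Fermat.Agent.S24 Fermat.Agent.S24.helper24 Fermat.Agent.S24.helper580

/-! ## The monic relation over `ℂ[J]` of a `Γ`-invariant function -/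

/-- A holomorphic `Γ`-invariant function on `ℍ` with at most exponential growth along every
coset of `Γ` satisfies a monic relation of degree `[SL(2, ℤ) : Γ]` over `ℂ[J]`. -/
theorem exists_monic_relation_of_invariant (Γ : Subgroup SL(2, ℤ)) [Fintype (SL(2, ℤ) ⧸ Γ)]
    (f : ℍ → ℂ) (hol : MDifferentiable 𝓘(ℂ) 𝓘(ℂ) f)
    (hinv : ∀ γ ∈ Γ, ∀ τ : ℍ, f (γ • τ) = f τ)
    (hgr : ∀ g : SL(2, ℤ), helper167.HasExpGrowth (fun τ => f (g • τ))) :
    ∃ P : Polynomial (Polynomial ℂ), P.Monic ∧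
      P.natDegree = Fintype.card (SL(2, ℤ) ⧸ Γ) ∧
      ∀ τ : ℍ, ∑ i ∈ Finset.range (Fintype.card (SL(2, ℤ) ⧸ Γ) + 1),
        (P.coeff i).eval (jFun τ) * f τ ^ i = 0 := by
  classical
  let φ : SL(2, ℤ) ⧸ Γ → ℍ → ℂ := fun x τ => f ((Quotient.out x)⁻¹ • τ)
  have hφhol : ∀ x, MDifferentiable 𝓘(ℂ) 𝓘(ℂ) (φ x) := fun x => helper167.mdiff_comp_smul hol _
  have hφgr : ∀ x, helper167.HasExpGrowth (φ x) := fun x => hgr _
  have hφperm : ∀ g : SL(2, ℤ), ∃ s : Equiv.Perm (SL(2, ℤ) ⧸ Γ), ∀ (x : SL(2, ℤ) ⧸ Γ) (τ : ℍ),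
      φ x (g • τ) = φ (s x) τ := by
    intro g
    refine ⟨MulAction.toPerm g⁻¹, fun x τ => ?_⟩
    obtain ⟨h, hh, hout⟩ : ∃ h ∈ Γ,
        Quotient.out (g⁻¹ • x) = g⁻¹ * Quotient.out x * h := by
      have hx : g⁻¹ • x = ((g⁻¹ * Quotient.out x : SL(2, ℤ)) : SL(2, ℤ) ⧸ Γ) := by
        conv_lhs => rw [← QuotientGroup.out_eq' x]
        rfl
      rw [hx]
      obtain ⟨h, hh⟩ := QuotientGroup.mk_out_eq_mul Γ (g⁻¹ * Quotient.out x)
      exact ⟨h, h.2, hh⟩
    show f ((Quotient.out x)⁻¹ • g • τ) = f ((Quotient.out (g⁻¹ • x))⁻¹ • τ)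
    rw [hout, mul_inv_rev, mul_inv_rev, inv_inv, mul_smul, mul_smul,
      hinv h⁻¹ (inv_mem hh)]
  obtain ⟨P, hmonic, hdeg, hP⟩ := helper167.exists_monic_relation_sum φ hφhol hφperm hφgr
  refine ⟨P, hmonic, hdeg, fun τ => ?_⟩
  obtain ⟨h, hh⟩ := QuotientGroup.mk_out_eq_mul Γ (1 : SL(2, ℤ))
  have h1 := hP ((1 : SL(2, ℤ)) : SL(2, ℤ) ⧸ Γ) τ
  have h2 : φ ((1 : SL(2, ℤ)) : SL(2, ℤ) ⧸ Γ) τ = f τ := by
    show f ((Quotient.out ((1 : SL(2, ℤ)) : SL(2, ℤ) ⧸ Γ))⁻¹ • τ) = f τ
    rw [hh, one_mul]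
    exact hinv _ (inv_mem h.2) τ
  rw [h2] at h1
  exact h1

/-! ## Transport to formal series -/

open helper1704 in
/-- Polynomials in a function with a `q`-expansion. -/
theorem hasQ_eval (p : Polynomial ℂ) {f : ℍ → ℂ} {L : LaurentSeries ℂ} (hf : HasQ 1 f L) :
    HasQ 1 (fun τ => p.eval (f τ)) (Polynomial.aeval L p) := by
  induction p using Polynomial.induction_on' with
  | add p q hp hq =>
    have h := hp.add one_pos hq
    rw [map_add]
    convert h using 1
    funext τ
    simp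
  | monomial n c =>
    have h := (HasQ.const 1 c).mul one_pos (hf.pow one_pos n)
    have e : Polynomial.aeval L (Polynomial.monomial n c) = HahnSeries.C c * L ^ n := by
      rw [Polynomial.aeval_monomial, ModularCurve.algebraMap_laurentSeries_eq_single]
      rfl
    rw [e]
    convert h using 1
    funext τ
    simp

open helper1704 in
/-- A relation `∑ P_i(g) f^i = 0` between functions with `q`-expansions holds between the
expansions. -/
theorem formal_relation_of_hasQ {f g : ℍ → ℂ} {Lf Lg : LaurentSeries ℂ} (hf : HasQ 1 f Lf)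
    (hg : HasQ 1 g Lg) (P : ℕ → Polynomial ℂ) (s : Finset ℕ)
    (h0 : ∀ τ : ℍ, ∑ i ∈ s, (P i).eval (g τ) * f τ ^ i = 0) :
    ∑ i ∈ s, Polynomial.aeval Lg (P i) * Lf ^ i = 0 := by
  classical
  have key : ∀ t : Finset ℕ, HasQ 1 (fun τ => ∑ i ∈ t, (P i).eval (g τ) * f τ ^ i)
      (∑ i ∈ t, Polynomial.aeval Lg (P i) * Lf ^ i) := by
    intro t
    induction t using Finset.induction_on with
    | empty =>
      simp only [Finset.sum_empty]
      exact HasQ.zero 1
    | insert a t ha ih =>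
      have h1 := ((hasQ_eval (P a) hg).mul one_pos (hf.pow one_pos a)).add one_pos ih
      rw [Finset.sum_insert ha]
      convert h1 using 1
      funext τ
      rw [Finset.sum_insert ha]
      rfl
  have hz : (fun τ : ℍ => ∑ i ∈ s, (P i).eval (g τ) * f τ ^ i) = 0 := funext h0
  have h1 := key s
  rw [hz] at h1
  exact h1.unique one_pos (HasQ.zero 1)

/-! ## The degree -/

section Degree

variable {F : Type} [Field F] [Algebra Kbar F]
variable {Γ : Subgroup SL(2, ℤ)} {jF : F} {i0 : Kbar →+* ℂ} {A : Subalgebra Kbar F}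
  {e : A →+* (ℍ → ℂ)}

/-- **(HDEG2), general form.** `[F : ℚ̄(jF)] = [SL(2, ℤ) : Γ]` for a function field with a
function-level evaluation datum for `Γ`, as soon as on a subalgebra `B ≤ A` containing `jF`
whose fractions exhaust `F` (e.g. the `ℚ̄`-algebra generated by a generating set) the functions
have exponential growth along every coset and their `q`-expansions are the series given by an
embedding `emb : F → ℚ̄((q))`. -/
theorem finrank_j_of_evalData_le (h : helper2648.EvalData Γ jF i0 A e) [Γ.FiniteIndex]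
    (emb : F →ₐ[Kbar] LaurentSeries Kbar) (B : Subalgebra Kbar F) (hBA : B ≤ A) (hjB : jF ∈ B)
    (hfracB : ∀ x : F, ∃ a ∈ B, ∃ b ∈ B, x = a / b)
    (hgr : ∀ (a : F) (ha : a ∈ B) (g : SL(2, ℤ)),
      helper167.HasExpGrowth (fun τ => e ⟨a, hBA ha⟩ (g • τ)))
    (hq : ∀ (a : F) (ha : a ∈ B), helper1704.HasQ 1 (e ⟨a, hBA ha⟩) (coeffMap i0 (emb a))) :
    FiniteDimensional Kbar⟮jF⟯ F ∧
      Module.finrank Kbar⟮jF⟯ F = Nat.card (SL(2, ℤ) ⧸ Γ) := by
  classical
  let _ : Fintype (SL(2, ℤ) ⧸ Γ) := Fintype.ofFinite _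
  let _ : Algebra Kbar Mer := algK i0
  rw [Nat.card_eq_fintype_card]
  have hqj : helper1704.HasQ 1 jFun (coeffMap i0 (emb jF)) := by
    have := hq jF hjB
    rwa [h.j_eval] at this
  have hrel : ∀ a ∈ B, ∃ P : ℕ → Polynomial ℂ,
      coeffMap i0 (emb a) ^ Fintype.card (SL(2, ℤ) ⧸ Γ) +
        ∑ k ∈ Finset.range (Fintype.card (SL(2, ℤ) ⧸ Γ)),
          Polynomial.aeval (coeffMap i0 (emb jF)) (P k) * coeffMap i0 (emb a) ^ k = 0 := by
    intro a ha
    obtain ⟨P, hmonic, hdeg, hP⟩ := exists_monic_relation_of_invariant Γ (e ⟨a, hBA ha⟩)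
      (h.hol ⟨a, hBA ha⟩) (fun γ hγ τ => h.inv γ hγ ⟨a, hBA ha⟩ τ) (hgr a ha)
    have hformal := formal_relation_of_hasQ (hq a ha) hqj (fun i => P.coeff i) _ hP
    refine ⟨fun k => P.coeff k, ?_⟩
    rw [Finset.sum_range_succ] at hformal
    have hlead : P.coeff (Fintype.card (SL(2, ℤ) ⧸ Γ)) = 1 := by
      rw [← hdeg]
      exact hmonic.coeff_natDegree
    rw [hlead, map_one, one_mul] at hformal
    rw [add_comm]
    exact hformal
  have hmul : ∀ (g g' : SL(2, ℤ)) (z : Mer), actK i0 (g * g') z = actK i0 g (actK i0 g' z) := by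
    intro g g' z
    show pull (g * g')⁻¹ z = pull g⁻¹ (pull g'⁻¹ z)
    rw [pull_pull, mul_inv_rev]
  have hsep : ∀ g : SL(2, ℤ), (∀ f : F, actK i0 g (h.evAlg f) = h.evAlg f) → g ∈ Γ := by
    intro g hg
    have h1 : g⁻¹ ∈ Γ := h.mem_of_pull_evMer g⁻¹ (fun f => hg f)
    exact inv_mem_iff.mp h1
  have hinj := helper2648.iotaG_injective (Γ := Γ) (actK i0) h.evAlg hmul hsep
  refine helper102.finrank_eq_card_of_monic i0 emb jF h.transcendental_j B hjB hfracB hrel
    (fun x => ((helper2648.iotaG (Γ := Γ) (actK i0) h.evAlg x : F →ₐ[Kbar] Mer) : F →+* Mer))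
    (fun x y hxy => hinj (AlgHom.coe_ringHom_injective hxy))
    (fun x y c => ?_) (fun x y => ?_)
  · show helper2648.iotaG (actK i0) h.evAlg x (algebraMap Kbar F c) =
      helper2648.iotaG (actK i0) h.evAlg y (algebraMap Kbar F c)
    rw [AlgHom.commutes, AlgHom.commutes]
  · show helper2648.iotaG (actK i0) h.evAlg x jF = helper2648.iotaG (actK i0) h.evAlg y jF
    rw [helper2648.iotaG_apply, helper2648.iotaG_apply]
    show pull (Quotient.out x)⁻¹ (h.evMer jF) = pull (Quotient.out y)⁻¹ (h.evMer jF)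
    rw [h.pull_evMer_j, h.pull_evMer_j]

/-- **(HDEG2)** `[F : ℚ̄(jF)] = [SL(2, ℤ) : Γ]` for a function field with a function-level
evaluation datum for `Γ` whose functions have exponential growth along every coset and whose
`q`-expansions are the series given by an embedding `emb : F → ℚ̄((q))`. -/
theorem finrank_j_of_evalData (h : helper2648.EvalData Γ jF i0 A e) [Γ.FiniteIndex]
    (emb : F →ₐ[Kbar] LaurentSeries Kbar)
    (hgr : ∀ (a : A) (g : SL(2, ℤ)), helper167.HasExpGrowth (fun τ => e a (g • τ)))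
    (hq : ∀ a : A, helper1704.HasQ 1 (e a) (coeffMap i0 (emb (a : F)))) :
    FiniteDimensional Kbar⟮jF⟯ F ∧
      Module.finrank Kbar⟮jF⟯ F = Nat.card (SL(2, ℤ) ⧸ Γ) := by
  have hfrac : ∀ x : F, ∃ a ∈ A, ∃ b ∈ A, x = a / b := by
    intro x
    obtain ⟨a, b, hb, hab⟩ := h.frac x
    have hb' : (b : F) ≠ 0 := fun h0 => hb (Subtype.ext h0)
    exact ⟨a, a.2, b, b.2, by rw [eq_div_iff hb', hab]⟩
  exact finrank_j_of_evalData_le h emb A le_rfl h.j_mem hfrac
    (fun a ha g => hgr ⟨a, ha⟩ g) (fun a ha => hq ⟨a, ha⟩)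

end Degree

/-! ## The layer degree over the function field of `X₀(M)` -/

section Layer

variable (M : ℕ) [NeZero M] (E : IntermediateField Kbar (LaurentSeries Kbar))
  (hle : modularFunctionFieldBar M ≤ E)
variable {Γ : Subgroup SL(2, ℤ)} {jE : E} {i0 : Kbar →+* ℂ} {A : Subalgebra Kbar E}
  {e : A →+* (ℍ → ℂ)}

/-- `hdeg` for a subfield `E` of `ℚ̄((q))` with an evaluation datum (the embedding is the
inclusion). -/
theorem finrank_j_of_evalData_sub (h : helper2648.EvalData Γ jE i0 A e) [Γ.FiniteIndex]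
    (hgr : ∀ (a : A) (g : SL(2, ℤ)), helper167.HasExpGrowth (fun τ => e a (g • τ)))
    (hq : ∀ a : A, helper1704.HasQ 1 (e a) (coeffMap i0 ((a : E) : LaurentSeries Kbar))) :
    FiniteDimensional Kbar⟮jE⟯ E ∧ Module.finrank Kbar⟮jE⟯ E = Nat.card (SL(2, ℤ) ⧸ Γ) :=
  finrank_j_of_evalData h E.val hgr hq

/-- **The layer degree from the evaluation datum** (reverse tower law): for a subfield
`E ⊇ F_M` of `ℚ̄((q))` with an evaluation datum for a subgroup `Γ` of index `φ(M) ψ(M) / 2`
(`Γ = ±Γ₁(M)`), `[E : F_M] = φ(M) / 2`.  No Galois theory of the layer is used. -/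
theorem two_mul_finrank_layer_of_evalData (h : helper2648.EvalData Γ jE i0 A e) [Γ.FiniteIndex]
    (hj : (jE : LaurentSeries Kbar) = coeffEmb Kbar jq)
    (hgr : ∀ (a : A) (g : SL(2, ℤ)), helper167.HasExpGrowth (fun τ => e a (g • τ)))
    (hq : ∀ a : A, helper1704.HasQ 1 (e a) (coeffMap i0 ((a : E) : LaurentSeries Kbar)))
    (hidx : 2 * Γ.index = Nat.totient M * dedekindPsi M) :
    2 * Module.finrank ↥(modularFunctionFieldBar M) ↥(extendScalars hle) = Nat.totient M := by
  have h1 := (finrank_j_of_evalData_sub E h hgr hq).2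
  have h2 := finrank_j_of_le M E hle jE hj
  rw [card_quotient_Gamma0] at h2
  have h3 : Nat.card (SL(2, ℤ) ⧸ Γ) = Γ.index := rfl
  have h4 : dedekindPsi M * (2 * Module.finrank ↥(modularFunctionFieldBar M)
      ↥(extendScalars hle)) = dedekindPsi M * Nat.totient M := by
    have : 2 * (dedekindPsi M * Module.finrank ↥(modularFunctionFieldBar M)
        ↥(extendScalars hle)) = Nat.totient M * dedekindPsi M := by
      rw [← h2, h1, h3, hidx]
    linarith
  exact Nat.eq_of_mul_eq_mul_left (dedekindPsi_pos M) h4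

/-- The layer `E / F_M` is finite. -/
theorem finiteDimensional_layer_of_evalData (h : helper2648.EvalData Γ jE i0 A e)
    [Γ.FiniteIndex] (hj : (jE : LaurentSeries Kbar) = coeffEmb Kbar jq)
    (hgr : ∀ (a : A) (g : SL(2, ℤ)), helper167.HasExpGrowth (fun τ => e a (g • τ)))
    (hq : ∀ a : A, helper1704.HasQ 1 (e a) (coeffMap i0 ((a : E) : LaurentSeries Kbar)))
    (hidx : 2 * Γ.index = Nat.totient M * dedekindPsi M) :
    FiniteDimensional ↥(modularFunctionFieldBar M) ↥(extendScalars hle) := by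
  have h1 := two_mul_finrank_layer_of_evalData M E hle h hj hgr hq hidx
  have hφ : 0 < Nat.totient M := Nat.totient_pos.mpr (Nat.pos_of_ne_zero (NeZero.ne M))
  exact FiniteDimensional.of_finrank_pos (by omega)

end Layer

end Fermat.Agent.S48.helper9565
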