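/-
S48-HDEG3 (helper9565): the degree hypothesis `hdeg` in the EVAL1 vocabulary, ONE CALL from
generator-level facts.

For `F = ℚ̄(S) ⊆ ℚ̄((q))` generated by `q`-expansions of holomorphic functions (`S ⊆ qAlg i0`)
and an evaluation datum `helper2648.EvalData Γ jF i0 (holAlg i0 F) (holFun i0 F)` on the
canonical carrier of `helper5047_EvalDatum`, the degree `[F : ℚ̄(jF)] = [SL(2, ℤ) : Γ]` holds as
soon as every `SL(2, ℤ)`-translate of the function of every GENERATOR has at most exponential
growth at `i∞`.  No Galois theory, no degree of a layer, no hypothesis on `jF` beyond the datum.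
-/
import Fermat.Agent.S48.helper9565_HDegDirect
import Fermat.Agent.S48.helper5047_EvalDatum
import Fermat.Agent.S24.helper1944_Ev

set_option autoImplicit false

open UpperHalfPlane ModularCurve AlgebraicCurve IntermediateField
open scoped MatrixGroups Manifold

namespace Fermat.Agent.S48.helper9565

open Fermat.Agent.S24 Fermat.Agent.S24.helper24 Fermat.Agent.S24.helper580
open Fermat.Agent.S48.helper5047

/-- The analytic `j`-function has at most exponential growth at `i∞`. -/
theorem hasExpGrowth_jFun : helper167.HasExpGrowth jFun := by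
  have h := helper1944.hasExpGrowth_jFun_mulPt_smul (d := 1) one_pos (1 : SL(2, ℤ))
  have e : (fun τ : ℍ => jFun (helper1944.mulPt 1 ((1 : SL(2, ℤ)) • τ))) = jFun := by
    funext τ
    congr 1
    apply UpperHalfPlane.ext
    rw [helper1944.coe_mulPt one_pos, one_smul]
    simp
  rwa [e] at h

/-- `jFun` is `SL(2, ℤ)`-invariant, in the translate shape. -/
theorem hasExpGrowth_jFun_smul (g : SL(2, ℤ)) :
    helper167.HasExpGrowth (fun τ => jFun (g • τ)) := by
  have h := helper1944.hasExpGrowth_jFun_mulPt_smul (d := 1) one_pos g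
  have e : (fun τ : ℍ => jFun (helper1944.mulPt 1 (g • τ))) = fun τ => jFun (g • τ) := by
    funext τ
    congr 1
    apply UpperHalfPlane.ext
    rw [helper1944.coe_mulPt one_pos]
    simp
  rwa [e] at h

section Gen

variable (i0 : Kbar →+* ℂ) (F : IntermediateField Kbar (LaurentSeries Kbar))
  {S : Set (LaurentSeries Kbar)} {Γ : Subgroup SL(2, ℤ)} {jF : F}

/-- **(HDEG3)** `hdeg` from generator growth, when `jF` lies in the algebra generated by the
generators. -/
theorem finrank_j_of_gen_mem (hS : ∀ s ∈ S, s ∈ qAlg i0)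
    (hF : F = IntermediateField.adjoin Kbar S) [Γ.FiniteIndex]
    (hD : helper2648.EvalData Γ jF i0 (holAlg i0 F) (holFun i0 F))
    (hjS : (jF : LaurentSeries Kbar) ∈ Algebra.adjoin Kbar S)
    (hgr : ∀ s (hs : s ∈ S) (g : SL(2, ℤ)),
      helper167.HasExpGrowth (fun τ => qFun i0 ⟨s, hS s hs⟩ (g • τ))) :
    FiniteDimensional Kbar⟮jF⟯ F ∧ Module.finrank Kbar⟮jF⟯ F = Nat.card (SL(2, ℤ) ⧸ Γ) := by
  refine finrank_j_of_evalData_le hD F.val (genAlg F S) (genAlg_le_holAlg F hS) hjS
    (fun x => ?_) (fun a ha g => hasExpGrowth_holFun_genAlg i0 F hS hgr ⟨a, ha⟩ g)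
    (fun a ha => holFun_spec i0 F ⟨a, genAlg_le_holAlg F hS ha⟩)
  obtain ⟨a, b, hb, hab⟩ := exists_genAlg_frac F hF x
  have hb' : (b : F) ≠ 0 := fun h0 => hb (Subtype.ext h0)
  exact ⟨a, a.2, b, b.2, by rw [eq_div_iff hb', hab]⟩

/-- **(HDEG3), one-call form.** `hdeg` from generator growth: for `F = ℚ̄(S)`, `S ⊆ qAlg i0`,
with an evaluation datum for `Γ` on `(holAlg i0 F, holFun i0 F)`,
`[F : ℚ̄(jF)] = [SL(2, ℤ) : Γ]` as soon as the translates of the functions of the generators
have exponential growth. -/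
theorem finrank_j_of_gen (hS : ∀ s ∈ S, s ∈ qAlg i0)
    (hF : F = IntermediateField.adjoin Kbar S) [Γ.FiniteIndex]
    (hD : helper2648.EvalData Γ jF i0 (holAlg i0 F) (holFun i0 F))
    (hgr : ∀ s (hs : s ∈ S) (g : SL(2, ℤ)),
      helper167.HasExpGrowth (fun τ => qFun i0 ⟨s, hS s hs⟩ (g • τ))) :
    FiniteDimensional Kbar⟮jF⟯ F ∧ Module.finrank Kbar⟮jF⟯ F = Nat.card (SL(2, ℤ) ⧸ Γ) := by
  have hjq : (jF : LaurentSeries Kbar) ∈ qAlg i0 := hD.j_mem
  have hS' : ∀ s ∈ insert (jF : LaurentSeries Kbar) S, s ∈ qAlg i0 := by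
    intro s hs
    rcases Set.mem_insert_iff.mp hs with rfl | hs
    · exact hjq
    · exact hS s hs
  have hF' : F = IntermediateField.adjoin Kbar (insert (jF : LaurentSeries Kbar) S) := by
    apply le_antisymm
    · exact hF.le.trans (IntermediateField.adjoin.mono Kbar _ _ (Set.subset_insert _ _))
    · rw [IntermediateField.adjoin_le_iff]
      intro s hs
      rcases Set.mem_insert_iff.mp hs with rfl | hs
      · exact jF.2
      · exact hF.ge (IntermediateField.subset_adjoin Kbar S hs)
  refine finrank_j_of_gen_mem i0 F hS' hF' hD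
    (Algebra.subset_adjoin (Set.mem_insert _ _)) (fun s hs g => ?_)
  by_cases hsS : s ∈ S
  · exact hgr s hsS g
  · have hsj : s = (jF : LaurentSeries Kbar) := by
      rcases Set.mem_insert_iff.mp hs with h | h
      · exact h
      · exact absurd h hsS
    subst hsj
    have e1 : qFun i0 ⟨(jF : LaurentSeries Kbar), hS' _ hs⟩ = jFun := by
      have := hD.j_eval
      rw [← this]
      rfl
    rw [e1]
    exact hasExpGrowth_jFun_smul g

end Gen

end Fermat.Agent.S48.helper9565
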