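/-
S48-HDEG4 (helper9565): THE DEGREE OF THE `Γ₁(M)` FIELD OVER THE `j`-LINE, UNCONDITIONALLY.

`[F₁(M) : ℚ̄(j)] = [SL(2, ℤ) : ±Γ₁(M)]` for the carrier of record `helper7300.gamma1Field ℚ̄ M`,
`M ≥ 7`, i.e. the hypotheses `hfd`/`hdeg` of every place dictionary (LOCGEN, CUSPGEN, ANDIV,
M1-RAM) at the landed evaluation datum `helper5047.evalData_gamma1`:

  evaluation datum (EVAL1 + SEP1, landed)  +  growth of the generators at all cusps (GERM1)
    ⟹  degree (HDEG2/HDEG3: conjugate count, no Galois theory of the layer).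

By-product: the layer degree `[F₁(M) : F_M] = φ(M) / 2` (reverse tower law), again with no
Galois theory.
-/
import Fermat.Agent.S48.helper9565_HDegGen
import Fermat.Agent.S48.helper5047_Gamma1Inst
import Fermat.Agent.S48.helper1002_Gamma1Germ

set_option autoImplicit false

open UpperHalfPlane ModularCurve AlgebraicCurve IntermediateField CongruenceSubgroup
open scoped MatrixGroups Manifold

namespace Fermat.Agent.S48.helper9565

open Fermat.Agent.S24 Fermat.Agent.S24.helper24 Fermat.Agent.S24.helper580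
open Fermat.Agent.S48.helper5047 Fermat.Agent.S48.helper7300

section Growth

variable {K : Type*} [Field K] (i0 : K →+* ℂ) (M : ℕ) [NeZero M]

/-- The function of every generator of the `Γ₁(M)` field is a generator function in the sense
of GERM1. -/
theorem isGenFun_qFun_g1Set {s : LaurentSeries K} (hs : s ∈ g1Set K M) :
    helper1002.IsGenFun M (qFun i0 ⟨s, g1Set_subset_qAlg i0 M s hs⟩) := by
  rcases qFun_g1Set_cases i0 M hs with ⟨d, h1, h2, h⟩ | ⟨a, b, -, -, h⟩ |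
    ⟨a, b, c, e, -, -, h3, h4, h5, h6, h⟩
  · rw [h]
    exact Or.inl ⟨d, h1, h2, rfl⟩
  · rw [h]
    exact Or.inr (Or.inl ⟨a, b, rfl⟩)
  · rw [h]
    exact Or.inr (Or.inr ⟨a, b, c, e, h3, h4, h5, h6, rfl⟩)

/-- **Growth of the generators of the `Γ₁(M)` field at all cusps.** -/
theorem hasExpGrowth_qFun_g1Set {s : LaurentSeries K} (hs : s ∈ g1Set K M) (g : SL(2, ℤ)) :
    helper167.HasExpGrowth (fun τ => qFun i0 ⟨s, g1Set_subset_qAlg i0 M s hs⟩ (g • τ)) :=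
  (isGenFun_qFun_g1Set i0 M hs).hasExpGrowth_smul g

/-- Germs of the generators of the `Γ₁(M)` field at all cusps. -/
theorem exists_germ_qFun_g1Set {s : LaurentSeries K} (hs : s ∈ g1Set K M) (g : SL(2, ℤ)) :
    ∃ H : ℂ → ℂ, MeromorphicAt H 0 ∧ ∀ᶠ τ : ℍ in UpperHalfPlane.atImInfty,
      qFun i0 ⟨s, g1Set_subset_qAlg i0 M s hs⟩ (g • τ)
        = H (Function.Periodic.qParam (M : ℝ) (τ : ℂ)) :=
  (isGenFun_qFun_g1Set i0 M hs).exists_germ g

end Growth

section Bar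

variable (M : ℕ) [NeZero M]

/-- A subgroup containing `Γ₁(M)` has finite index. -/
theorem finiteIndex_of_Gamma1_le (Γ : Subgroup SL(2, ℤ)) (hΓ : Gamma1 M ≤ Γ) : Γ.FiniteIndex :=
  Subgroup.finiteIndex_of_le hΓ

/-- **(HDEG4), any datum.** `hdeg` for the `Γ₁(M)` field with ANY evaluation datum on the
canonical carrier `(holAlg, holFun)` (any `Γ` of finite index, any `jF`). -/
theorem hdeg_gamma1_of_evalData (i0 : Kbar →+* ℂ) {Γ : Subgroup SL(2, ℤ)} [Γ.FiniteIndex]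
    {jF : gamma1Field Kbar M}
    (hD : helper2648.EvalData Γ jF i0 (holAlg i0 (gamma1Field Kbar M))
      (holFun i0 (gamma1Field Kbar M))) :
    FiniteDimensional Kbar⟮jF⟯ (gamma1Field Kbar M) ∧
      Module.finrank Kbar⟮jF⟯ (gamma1Field Kbar M) = Nat.card (SL(2, ℤ) ⧸ Γ) :=
  finrank_j_of_gen i0 (gamma1Field Kbar M) (g1Set_subset_qAlg i0 M)
    (gamma1Field_eq_adjoin Kbar M) hD (fun _ hs g => hasExpGrowth_qFun_g1Set i0 M hs g)

/-- **(HDEG4)** `[F₁(M) : ℚ̄(j)] = [SL(2, ℤ) : ±Γ₁(M)]`, `M ≥ 7`: the hypotheses `hfd`, `hdeg` of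
the place dictionaries at the landed datum `helper5047.evalData_gamma1 M i0 hM Γ hΓ`
(the statement does not depend on the embedding `i0`). -/
theorem hdeg_gamma1 (hM : 7 ≤ M) (Γ : Subgroup SL(2, ℤ))
    (hΓ : ∀ g : SL(2, ℤ), g ∈ Γ ↔ (g ∈ Gamma1 M ∨ -g ∈ Gamma1 M)) :
    FiniteDimensional Kbar⟮jG1 Kbar M⟯ (gamma1Field Kbar M) ∧
      Module.finrank Kbar⟮jG1 Kbar M⟯ (gamma1Field Kbar M) = Nat.card (SL(2, ℤ) ⧸ Γ) := by
  have : Γ.FiniteIndex := finiteIndex_of_Gamma1_le M Γ (fun g hg => (hΓ g).mpr (Or.inl hg))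
  exact hdeg_gamma1_of_evalData M helper1944.kappa
    (evalData_gamma1 M helper1944.kappa hM Γ hΓ)

/-- `hfd` alone. -/
theorem finiteDimensional_gamma1 (hM : 7 ≤ M) (Γ : Subgroup SL(2, ℤ))
    (hΓ : ∀ g : SL(2, ℤ), g ∈ Γ ↔ (g ∈ Gamma1 M ∨ -g ∈ Gamma1 M)) :
    FiniteDimensional Kbar⟮jG1 Kbar M⟯ (gamma1Field Kbar M) :=
  (hdeg_gamma1 M hM Γ hΓ).1

/-- `hdeg` alone. -/
theorem finrank_gamma1 (hM : 7 ≤ M) (Γ : Subgroup SL(2, ℤ))
    (hΓ : ∀ g : SL(2, ℤ), g ∈ Γ ↔ (g ∈ Gamma1 M ∨ -g ∈ Gamma1 M)) :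
    Module.finrank Kbar⟮jG1 Kbar M⟯ (gamma1Field Kbar M) = Nat.card (SL(2, ℤ) ⧸ Γ) :=
  (hdeg_gamma1 M hM Γ hΓ).2

/-- `coeffEmb ℚ̄ jq = jqModC ℚ̄`. -/
theorem coeffEmb_jq_eq_jqModC : coeffEmb Kbar jq = jqModC Kbar := by
  rw [← jqModC_rat, coeffEmb, coeffMap_jqModC]

/-- **The layer degree, with no Galois theory**: `2 [F₁(M) : F_M] = φ(M)`, `M ≥ 7`, given the
index `2 [SL(2, ℤ) : ±Γ₁(M)] = φ(M) ψ(M)`. -/
theorem two_mul_finrank_layer_gamma1 (hM : 7 ≤ M) (Γ : Subgroup SL(2, ℤ))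
    (hΓ : ∀ g : SL(2, ℤ), g ∈ Γ ↔ (g ∈ Gamma1 M ∨ -g ∈ Gamma1 M))
    (hidx : 2 * Γ.index = Nat.totient M * dedekindPsi M) :
    2 * Module.finrank ↥(modularFunctionFieldBar M)
      ↥(extendScalars (modularFunctionFieldBar_le_gamma1FieldBar M)) = Nat.totient M := by
  have : Γ.FiniteIndex := finiteIndex_of_Gamma1_le M Γ (fun g hg => (hΓ g).mpr (Or.inl hg))
  have h1 := (hdeg_gamma1 M hM Γ hΓ).2
  have h2 := finrank_j_of_le M (gamma1FieldBar M) (modularFunctionFieldBar_le_gamma1FieldBar M)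
    (jG1 Kbar M) (coeffEmb_jq_eq_jqModC).symm
  rw [card_quotient_Gamma0] at h2
  have h3 : Nat.card (SL(2, ℤ) ⧸ Γ) = Γ.index := rfl
  have h4 : dedekindPsi M * (2 * Module.finrank ↥(modularFunctionFieldBar M)
      ↥(extendScalars (modularFunctionFieldBar_le_gamma1FieldBar M)))
        = dedekindPsi M * Nat.totient M := by
    have : 2 * (dedekindPsi M * Module.finrank ↥(modularFunctionFieldBar M)
        ↥(extendScalars (modularFunctionFieldBar_le_gamma1FieldBar M)))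
          = Nat.totient M * dedekindPsi M := by
      rw [← h2, ← hidx, ← h3, ← h1]
    linarith
  exact Nat.eq_of_mul_eq_mul_left (dedekindPsi_pos M) h4

/-- The layer `F₁(M) / F_M` is finite, `M ≥ 7`. -/
theorem finiteDimensional_layer_gamma1 (hM : 7 ≤ M) (Γ : Subgroup SL(2, ℤ))
    (hΓ : ∀ g : SL(2, ℤ), g ∈ Γ ↔ (g ∈ Gamma1 M ∨ -g ∈ Gamma1 M))
    (hidx : 2 * Γ.index = Nat.totient M * dedekindPsi M) :
    FiniteDimensional ↥(modularFunctionFieldBar M)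
      ↥(extendScalars (modularFunctionFieldBar_le_gamma1FieldBar M)) := by
  have h1 := two_mul_finrank_layer_gamma1 M hM Γ hΓ hidx
  have hφ : 0 < Nat.totient M := Nat.totient_pos.mpr (Nat.pos_of_ne_zero (NeZero.ne M))
  exact FiniteDimensional.of_finrank_pos (by omega)

end Bar

end Fermat.Agent.S48.helper9565
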