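import Fermat.Agent.S48.helper2122_DictCarrier
import Fermat.Agent.S48.helper9565_HDegGamma1
import Fermat.Agent.S48.helper288_RatioInst
import Fermat.Agent.S48.helper8098_RatFormDeg

/-!
# S48 / M3-INST1 (helper2122): the Kummer dictionary of the `Γ₁(M)` field of record

The carrier of (M2) is `E₁(M) = helper7300.gamma1FieldBar M = gamma1Field ℚ̄ M` and the evaluation
of record is `helper5047.gamma1Ev i0 M : E₁(M) →+* Mer`.  This file instantiates
`helper2122.multSpecG_carrier_gens` at this carrier: every generator-level input is a compiled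
theorem (EVAL1 `helper5047`, GERM1 / CINST `helper1002`, ANDIV `helper6324`, HDEG `helper9565`,
RATIO `helper288`, degree transfer `helper8098`), and what remains is

* the rational form of the field: `F₁ : IntermediateField ℚ (LaurentSeries ℚ)` containing the
  rational `Γ₀(M)` field, with `laurentBaseChange ℚ̄ F₁ = gamma1Field ℚ̄ M` and
  `laurentBaseChange ℂ F₁ = gamma1Field ℂ M`  (RATFORM, `helper8098.F1Q`);
* the instance `HasPrincipalDivisors ℚ̄ (gamma1Field ℚ̄ M)`  (PD1).

Main statements (`7 ≤ M`):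

* `relfinrank_layer_gamma1Bar` : `[F₁(M)_ℚ̄ : F_{M,ℚ̄}] = φ(M) / 2`, `relfinrank` form;
* `relrank_layer_gamma1C`      : the same over `ℂ` (through the rational form);
* `isRatioG_mem_gamma1C`       : the RATIO membership over `ℂ`;
* `multSpecG_gamma1Ev`         : **the multiplier relation of `gamma1Ev i0 M` is a Kummer
  dictionary** (`helper2756.MultSpecG`), i.e. the field `mult` of `helper2754.IsEvalDict`.
-/

set_option autoImplicit false

open ModularCurve AlgebraicCurve IntermediateField UpperHalfPlane CongruenceSubgroup Filter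
open scoped MatrixGroups Manifold Topology

noncomputable section

namespace Fermat.Agent.S48.helper2122

open Fermat.Agent.S24.helper580 (Hol Mer pull)
open Fermat.Agent.S24 Fermat.Agent.S29
open Fermat.Agent.S24.helper1704 (HasQ)
open Fermat.Agent.S48.helper5047 (qAlg qFun holAlg holFun holHom evMerC g1Set gamma1Ev jG1)
open Fermat.Agent.S48.helper7300 (gamma1Field gamma1FieldP phiZ)

local notation "Qb" => AlgebraicClosure ℚ

section Degree

variable (M : ℕ) [NeZero M]

omit [NeZero M] in
/-- `±Γ₁(M)` in the shape of the evaluation datum. -/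
theorem mem_pm_Gamma1_iff (g : SL(2, ℤ)) :
    g ∈ helper6324.pmSubgroup (Gamma1 M) ↔ (g ∈ Gamma1 M ∨ -g ∈ Gamma1 M) :=
  helper6324.mem_pmSubgroup

/-- `2 [SL(2, ℤ) : ±Γ₁(M)] = φ(M) ψ(M)`. -/
theorem two_mul_index_pm_Gamma1 (hM : 3 ≤ M) :
    2 * (helper6324.pmSubgroup (Gamma1 M)).index = Nat.totient M * dedekindPsi M :=
  helper288.two_mul_index_of_pm_Gamma1 M hM _ (helper6324.le_pmSubgroup _)
    (helper6324.neg_one_mem_pmSubgroup _) (fun _ hg => hg)

/-- **The layer degree over `ℚ̄`**, `relfinrank` form: `[F₁(M) : F_M] = φ(M) / 2`, `M ≥ 7`. -/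
theorem relfinrank_layer_gamma1Bar (hM : 7 ≤ M) :
    (laurentBaseChange Qb (modularFunctionFieldFull M)).relfinrank (gamma1Field Qb M)
      = Nat.totient M / 2 := by
  have h := helper9565.two_mul_finrank_layer_gamma1 M hM (helper6324.pmSubgroup (Gamma1 M))
    (mem_pm_Gamma1_iff M) (two_mul_index_pm_Gamma1 M (by omega))
  rw [IntermediateField.relfinrank_eq_finrank_of_le
    (helper7300.modularFunctionFieldBar_le_gamma1FieldBar M)]
  omega

variable {M}

/-- **The layer degree over `ℂ`**, through a rational form `F₁` of the `Γ₁(M)` field. -/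
theorem relfinrank_layer_gamma1C (hM : 7 ≤ M) {F₁ : IntermediateField ℚ (LaurentSeries ℚ)}
    (hfull : modularFunctionFieldFull M ≤ F₁)
    (hQ : laurentBaseChange Qb F₁ = gamma1Field Qb M)
    (hC : laurentBaseChange ℂ F₁ = gamma1Field ℂ M) :
    (laurentBaseChange ℂ (modularFunctionFieldFull M)).relfinrank (gamma1Field ℂ M)
      = Nat.totient M / 2 := by
  rw [← hC, helper8098.relfinrank_laurentBaseChange ℂ hfull,
    ← helper8098.relfinrank_laurentBaseChange Qb hfull, hQ]
  exact relfinrank_layer_gamma1Bar M hM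

/-- The layer degree over `ℂ`, `relrank` form (the hypothesis of the RATIO membership). -/
theorem relrank_layer_gamma1C (hM : 7 ≤ M) {F₁ : IntermediateField ℚ (LaurentSeries ℚ)}
    (hfull : modularFunctionFieldFull M ≤ F₁)
    (hQ : laurentBaseChange Qb F₁ = gamma1Field Qb M)
    (hC : laurentBaseChange ℂ F₁ = gamma1Field ℂ M) :
    (laurentBaseChange ℂ (modularFunctionFieldFull M)).relrank (gamma1Field ℂ M)
      = ((Nat.totient M / 2 : ℕ) : Cardinal) := by
  have hpos : 0 < Nat.totient M / 2 := by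
    obtain ⟨c, hc⟩ := (Nat.totient_even (by omega : 2 < M)).two_dvd
    have h0 : 0 < Nat.totient M := Nat.totient_pos.mpr (by omega)
    omega
  exact (Cardinal.toNat_eq_iff hpos.ne').mp (relfinrank_layer_gamma1C hM hfull hQ hC)

/-- **RATIO membership over `ℂ`**: every ratio of `q`-expansions of two modular forms of the
same weight on `Γ₁(M)` lies in the complex `Γ₁(M)` field. -/
theorem isRatioG_mem_gamma1C (hM : 7 ≤ M) {F₁ : IntermediateField ℚ (LaurentSeries ℚ)}
    (hfull : modularFunctionFieldFull M ≤ F₁)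
    (hQ : laurentBaseChange Qb F₁ = gamma1Field Qb M)
    (hC : laurentBaseChange ℂ F₁ = gamma1Field ℂ M) (x : LaurentSeries ℂ)
    (hx : helper288.IsRatioG ((Gamma1 M : Subgroup SL(2, ℤ)) : Subgroup (GL (Fin 2) ℝ)) x) :
    x ∈ gamma1Field ℂ M :=
  (helper288.isRatioG_iff_mem_gamma1Field M (by omega)
    (relrank_layer_gamma1C hM hfull hQ hC) x).mp hx

end Degree

section Dict

variable {M : ℕ} [NeZero M]

/-- **(INST1-b) The multiplier relation of the evaluation of record of the `Γ₁(M)` field is a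
Kummer dictionary**, `M ≥ 7`: the field `mult` of `helper2754.IsEvalDict` at
`E := helper7300.gamma1FieldBar M`, `evM := helper5047.gamma1Ev i0 M`.  Inputs: a rational form
`F₁` of the field (RATFORM) and the principal divisors of the field (PD1). -/
theorem multSpecG_gamma1Ev (hM : 7 ≤ M) (i0 : Qb →+* ℂ)
    {F₁ : IntermediateField ℚ (LaurentSeries ℚ)}
    (hfull : modularFunctionFieldFull M ≤ F₁)
    (hQ : laurentBaseChange Qb F₁ = gamma1Field Qb M)
    (hC : laurentBaseChange ℂ F₁ = gamma1Field ℂ M)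
    [HasPrincipalDivisors Qb (gamma1Field Qb M)]
    {n : ℕ} (hn : 0 < n) {ζ : ℂˣ} (hζ : IsPrimitiveRoot ζ n) :
    helper2756.MultSpecG Qb (Gamma1 M) n (MultMerG (Gamma1 M) (gamma1Ev i0 M) n ζ) := by
  have hj : jq ∈ F₁ := hfull (helper8395.jq_mem_full M)
  have hdeg := helper9565.hdeg_gamma1 M hM (helper6324.pmSubgroup (Gamma1 M))
    (mem_pm_Gamma1_iff M)
  have : FiniteDimensional Qb⟮jG1 Qb M⟯ (gamma1Field Qb M) := hdeg.1
  have hjS : coeffEmb ℂ jq ∈ g1Set ℂ M := by
    rw [coeffEmb_jq ℂ]
    exact helper5047.jqModC_mem_g1Set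
  have hjQ : HasQ 1 helper288.jFn (coeffEmb ℂ jq) := by
    rw [coeffEmb_jq ℂ]
    exact Fermat.Agent.S48.helper1704.hasQ_jFun
  exact multSpecG_carrier_gens (M := M) i0 hj
    (helper5047.g1Set_subset_qAlg (RingHom.id ℂ) M)
    (hC.trans (helper5047.gamma1Field_eq_adjoin ℂ M))
    (helper5047.g1Set_subset_qAlg i0 M) hQ.symm hjS hjQ
    (fun γ hγ s hs τ => helper5047.qFun_g1Set_smul (RingHom.id ℂ) M (Or.inl hγ) s hs τ)
    (fun s hs g => helper9565.hasExpGrowth_qFun_g1Set (RingHom.id ℂ) M hs g)
    (fun x hx => by rw [hC]; exact isRatioG_mem_gamma1C hM hfull hQ hC x hx)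
    (helper5047.gamma1Field_eq_adjoin Qb M) (jG1 Qb M) (coeffEmb_jq Qb).symm
    (helper5047.evalData_gamma1 M i0 hM (helper6324.pmSubgroup (Gamma1 M))
      (mem_pm_Gamma1_iff M))
    (fun s hs g => helper9565.exists_germ_qFun_g1Set i0 M hs g) hdeg.2 hn hζ

end Dict

end Fermat.Agent.S48.helper2122
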