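import Fermat.Agent.S29.helper587_FinCMer
import Fermat.Agent.S29.helper265_ValPlace
import Fermat.Agent.S29.helper3126_InvRoot
import Fermat.Agent.S24.helper167_SymmetricJ
import Fermat.Agent.S48.helper4027_TwistedGammaForm
import Fermat.Agent.S48.helper2122_SurjGen

/-!
# S48 / M3-FINC (helper2122): finiteness of the Kummer classes of a complex function field with
an analytic realisation, for an arbitrary subgroup `Γ ≤ SL(2, ℤ)` of finite index

Carrier-generic twin of the landed `S29/helper587_FinCInst` (which is `Γ₀(N)` / `FC N`):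

* `exists_uniform_growth` : a `Γ`-invariant function all of whose `SL(2, ℤ)`-translates have
  exponential growth at `i∞` has UNIFORM exponential growth (finitely many cusps);
* `exists_evC_eq_of_invariant` : (RATIO) ⟹ every `Γ`-invariant holomorphic function whose
  translates have exponential growth is the realisation of a function of the field
  (`H = (Δ^m H) / Δ^m`, a ratio of two modular forms of weight `12 m` on `Γ`);
* `ordDvd_of_forall_place_dvdG` : place orders divisible by `n` ⟹ analytic orders divisible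
  by `n` (landed VALPLACE, `helper265`);
* `finC_of_ratioIn` : **FINC (place form)** from (INV) + (RATIO) and a multiplicative set `A` of
  denominators with holomorphic realisations of exponential growth.
-/

set_option autoImplicit false

open UpperHalfPlane AlgebraicCurve ModularForm
open scoped MatrixGroups Manifold

noncomputable section

namespace Fermat.Agent.S48.helper2122

open Fermat.Agent.S24.helper580
open Fermat.Agent.S24

local notation "Δ" => ModularForm.discriminant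

/-! ## Uniform growth and invariant functions as ratios of forms -/

section Growth

variable {Γ : Subgroup SL(2, ℤ)} [Γ.FiniteIndex]

/-- A `Γ`-invariant function all of whose translates have exponential growth at `i∞` has uniform
exponential growth (there are finitely many cusps). -/
theorem exists_uniform_growth (H : ℍ → ℂ) (hinv : ∀ γ ∈ Γ, ∀ τ : ℍ, H (γ • τ) = H τ)
    (hgr : ∀ g : SL(2, ℤ), helper167.HasExpGrowth (fun τ => H (g • τ))) :
    ∃ (m : ℕ) (C : ℝ), ∀ (g : SL(2, ℤ)) (τ : ℍ), 1 ≤ τ.im →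
      ‖H (g • τ)‖ ≤ C * Real.exp (2 * Real.pi * m * τ.im) := by
  classical
  have : Fintype (SL(2, ℤ) ⧸ Γ) := Fintype.ofFinite _
  choose mx Cx hm hC hb using fun q : SL(2, ℤ) ⧸ Γ =>
    (hgr (Quotient.out q)⁻¹).exists_ge 0
  refine ⟨∑ q, mx q, 1 + ∑ q, Cx q, fun g τ hτ => ?_⟩
  set q : SL(2, ℤ) ⧸ Γ := ((g⁻¹ : SL(2, ℤ)) : SL(2, ℤ) ⧸ Γ) with hq
  set r : SL(2, ℤ) := Quotient.out q with hr
  have hmem : r⁻¹ * g⁻¹ ∈ Γ := by
    have h1 : ((r : SL(2, ℤ)) : SL(2, ℤ) ⧸ Γ) = ((g⁻¹ : SL(2, ℤ)) : SL(2, ℤ) ⧸ Γ) := by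
      rw [hr]
      exact QuotientGroup.out_eq' q
    exact QuotientGroup.eq.mp h1
  have hmem' : g * r ∈ Γ := by
    have := Γ.inv_mem hmem
    rwa [mul_inv_rev, inv_inv, inv_inv] at this
  have hHg : H (g • τ) = H (r⁻¹ • τ) := by
    have h2 : g • τ = (g * r) • (r⁻¹ • τ) := by
      rw [← mul_smul, mul_assoc, mul_inv_cancel, mul_one]
    rw [h2]
    exact hinv _ hmem' _
  have hy : 0 ≤ τ.im := by linarith
  have h1 : Cx q ≤ 1 + ∑ q, Cx q := by
    have := Finset.single_le_sum (f := Cx) (fun y _ => by linarith [hC y])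
      (Finset.mem_univ q)
    linarith
  have h2 : mx q ≤ ∑ q, mx q :=
    Finset.single_le_sum (f := mx) (fun y _ => Nat.zero_le _) (Finset.mem_univ q)
  rw [hHg]
  calc ‖H (r⁻¹ • τ)‖ ≤ Cx q * Real.exp (2 * Real.pi * mx q * τ.im) := hb q τ hτ
    _ ≤ (1 + ∑ q, Cx q) * Real.exp (2 * Real.pi * (∑ q, mx q : ℕ) * τ.im) :=
      mul_le_mul h1 (helper167.exp_growth_mono h2 hy) (Real.exp_pos _).le
        (by linarith [hC q])

/-- `Δ ^ m * H` as a modular form of weight `12 m` on `Γ`, for a `Γ`-invariant holomorphic `H`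
whose translates satisfy a uniform exponential bound of exponent `m`.  (The weight is written
`12 * m * 1` because the form is built by `helper4027.powForm` with exponent `1`.) -/
def discMulForm (Γ : Subgroup SL(2, ℤ)) [Γ.FiniteIndex] (m : ℕ) (H : ℍ → ℂ) (hH : MDiff H)
    (hinv : ∀ γ ∈ Γ, ∀ τ : ℍ, H (γ • τ) = H τ) (C : ℝ)
    (hb : ∀ (g : SL(2, ℤ)) (τ : ℍ), 1 ≤ τ.im →
      ‖H (g • τ)‖ ≤ C * Real.exp (2 * Real.pi * m * τ.im)) :
    ModularForm (Γ : Subgroup (GL (Fin 2) ℝ)) (12 * (m : ℤ) * ((1 : ℕ) : ℤ)) :=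
  helper4027.powForm Γ (12 * (m : ℤ)) 1 (fun τ => Δ τ ^ m * H τ) (fun _ => 1)
    (fun _ => one_pow 1) ((CuspForm.discriminant.holo'.pow m).mul hH)
    (fun γ z => by
      show Δ ((γ : SL(2, ℤ)) • z) ^ m * H ((γ : SL(2, ℤ)) • z)
        = 1 * denom (γ : SL(2, ℤ)) z ^ (12 * (m : ℤ)) * (Δ z ^ m * H z)
      rw [helper167.discriminant_smul_eq, hinv _ γ.2, mul_pow,
        ← zpow_natCast (denom (γ : SL(2, ℤ)) z ^ (12 : ℤ)) m, ← zpow_mul]
      ring)
    (fun g => by
      have hfun : (fun τ : ℍ => Δ τ ^ m * H τ) ∣[12 * (m : ℤ)] g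
          = fun τ => Δ τ ^ m * H (g • τ) := by
        ext τ
        rw [SL_slash_apply, helper167.discriminant_smul_eq, mul_pow,
          ← zpow_natCast (denom g τ ^ (12 : ℤ)) m, ← zpow_mul, zpow_neg]
        have hd : denom g τ ^ (12 * (m : ℤ)) ≠ 0 := zpow_ne_zero _ (denom_ne_zero g τ)
        field_simp
      rw [hfun]
      exact helper167.isBoundedAtImInfty_disc_pow_mul (f := fun τ => H (g • τ)) (hb g))

theorem discMulForm_apply (m : ℕ) (H : ℍ → ℂ) (hH : MDiff H)
    (hinv : ∀ γ ∈ Γ, ∀ τ : ℍ, H (γ • τ) = H τ) (C : ℝ)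
    (hb : ∀ (g : SL(2, ℤ)) (τ : ℍ), 1 ≤ τ.im →
      ‖H (g • τ)‖ ≤ C * Real.exp (2 * Real.pi * m * τ.im)) (τ : ℍ) :
    discMulForm Γ m H hH hinv C hb τ = Δ τ ^ m * H τ := by
  show (Δ τ ^ m * H τ) ^ 1 = _
  rw [pow_one]

variable {FC : Type*} [Field FC] [Algebra ℂ FC] {evC : FC →ₐ[ℂ] Mer}

/-- **(RATIO) ⟹ invariant functions of exponential growth lie in the field.** -/
theorem exists_evC_eq_of_invariant (hRC : RatioIn Γ evC) (H : Hol)
    (hinv : ∀ γ ∈ Γ, ∀ τ : ℍ, (H : ℍ → ℂ) (γ • τ) = (H : ℍ → ℂ) τ)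
    (hgr : ∀ g : SL(2, ℤ), helper167.HasExpGrowth (fun τ => (H : ℍ → ℂ) (g • τ))) :
    ∃ t : FC, evC t = algebraMap Hol Mer H := by
  obtain ⟨m, C, hb⟩ := exists_uniform_growth (Γ := Γ) (H : ℍ → ℂ) hinv hgr
  have hb1 : ∀ (g : SL(2, ℤ)) (τ : ℍ), 1 ≤ τ.im →
      ‖(1 : ℍ → ℂ) (g • τ)‖ ≤ 1 * Real.exp (2 * Real.pi * m * τ.im) := by
    intro g τ hτ
    rw [Pi.one_apply, norm_one, one_mul]
    apply Real.one_le_exp
    have := Real.pi_pos
    have : 0 ≤ τ.im := by linarith
    positivity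
  set G := discMulForm Γ m (H : ℍ → ℂ) H.2 hinv C hb with hG
  set E := discMulForm Γ m (1 : ℍ → ℂ) mdifferentiable_const (fun _ _ _ => rfl) 1 hb1 with hE
  have hE0 : E ≠ 0 := by
    intro h
    have := congrArg
      (fun f : ModularForm (Γ : Subgroup (GL (Fin 2) ℝ)) (12 * (m : ℤ) * ((1 : ℕ) : ℤ)) =>
        f UpperHalfPlane.I) h
    simp only [hE, discMulForm_apply, Pi.one_apply, mul_one, zero_apply] at this
    exact pow_ne_zero m (discriminant_ne_zero _) this
  obtain ⟨x, hx⟩ := hRC _ G E hE0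
  have hHol : formHol G = H * formHol E := by
    refine Hol.ext fun τ => ?_
    show G τ = (H : ℍ → ℂ) τ * E τ
    rw [hG, hE, discMulForm_apply, discMulForm_apply, Pi.one_apply, mul_one, mul_comm]
  have hEM : algebraMap Hol Mer (formHol E) ≠ 0 := by
    rw [Ne, ← map_zero (algebraMap Hol Mer)]
    exact fun h => formHol_ne_zero hE0 (IsFractionRing.injective Hol Mer h)
  refine ⟨x, ?_⟩
  rw [hHol, map_mul] at hx
  exact mul_right_cancel₀ hEM hx

end Growth

/-! ## Place orders and analytic orders -/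

section Ord

variable {FC : Type*} [Field FC] [Algebra ℂ FC] (evC : FC →ₐ[ℂ] Mer)

/-- The analytic order at `τ` of the realisation, as an integer valued function on `FC`. -/
def ordCG (τ : ℍ) (f : FC) : ℤ := (ordAt τ (evC f)).untopD 0

theorem coe_ordCG (τ : ℍ) {f : FC} (hf : f ≠ 0) :
    ((ordCG evC τ f : ℤ) : WithTop ℤ) = ordAt τ (evC f) := by
  have h : ordAt τ (evC f) ≠ ⊤ := ordAt_ne_top τ ((map_ne_zero evC).mpr hf)
  obtain ⟨m, hm⟩ := WithTop.ne_top_iff_exists.mp h
  rw [ordCG, ← hm]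
  rfl

/-- `f ↦ ord_τ (evC f)` is an integer order function on `FC`, trivial on `ℂ`. -/
theorem isIntOrder_ordCG (τ : ℍ) :
    Fermat.Agent.S29.helper265.IsIntOrder ℂ (ordCG evC τ) := by
  refine ⟨fun f g hf hg => ?_, fun f g hf hg hfg => ?_, fun c hc => ?_⟩
  · apply WithTop.coe_injective
    rw [coe_ordCG evC τ (mul_ne_zero hf hg), WithTop.coe_add, coe_ordCG evC τ hf,
      coe_ordCG evC τ hg, map_mul, (ordAt τ).map_mul]
  · have h := (ordAt τ).map_add (evC f) (evC g)
    rw [← map_add, ← coe_ordCG evC τ hf, ← coe_ordCG evC τ hg, ← coe_ordCG evC τ hfg,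
      ← WithTop.coe_min] at h
    exact WithTop.coe_le_coe.mp h
  · apply WithTop.coe_injective
    have hc' : algebraMap ℂ FC c ≠ 0 := by
      rw [Ne, map_eq_zero]; exact hc
    rw [coe_ordCG evC τ hc', AlgHom.commutes]
    exact ordAt_const τ hc

/-- Place orders divisible by `n` force analytic orders divisible by `n`. -/
theorem ordDvd_of_forall_place_dvdG {n : ℕ} {u : FC} (hu : u ≠ 0)
    (h : ∀ v : Place ℂ FC, (n : ℤ) ∣ v.ord u) (τ : ℍ) :
    Fermat.Agent.S29.helper587.OrdDvd n (ordAt τ (evC u)) := by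
  obtain ⟨m, hm⟩ := (isIntOrder_ordCG evC τ).dvd_of_forall_place_dvd hu h
  exact ⟨m, by rw [← coe_ordCG evC τ hu, hm]⟩

end Ord

/-! ## FINC -/

section FinC

variable {FC : Type*} [Field FC] [Algebra ℂ FC] {evC : FC →ₐ[ℂ] Mer}
  {Γ : Subgroup SL(2, ℤ)} [Γ.FiniteIndex]

/-- **FINC (place form), generic.**  Let `A` be a multiplicative set of elements of `FC` with
holomorphic realisations all of whose translates have exponential growth at `i∞`, such that every
element of `FC` has a nonzero denominator in `A`.  From (INV) and (RATIO): for `n ≠ 0` the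
functions all of whose orders are divisible by `n` fall into finitely many classes modulo
`n`-th powers. -/
theorem finC_of_ratioIn (hinv : InvG Γ evC) (hRC : RatioIn Γ evC) (A : Submonoid FC)
    (hA : ∀ a ∈ A, ∃ E : Hol, algebraMap Hol Mer E = evC a ∧
      ∀ g : SL(2, ℤ), helper167.HasExpGrowth (fun τ => (E : ℍ → ℂ) (g • τ)))
    (hden : ∀ f : FC, ∃ d ∈ A, d ≠ 0 ∧ f * d ∈ A) {n : ℕ} (hn : n ≠ 0) :
    ∃ T : Finset FC, ∀ u : FC, u ≠ 0 → (∀ v : Place ℂ FC, (n : ℤ) ∣ v.ord u) →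
      ∃ s ∈ T, ∃ t : FC, t ≠ 0 ∧ u = s * t ^ n := by
  have hinj := IsFractionRing.injective Hol Mer
  have : Group.FG ↥Γ := Subgroup.fg_of_index_ne_zero _
  obtain ⟨T, -, hT⟩ := Fermat.Agent.S29.helper587.finite_classes_of_mer Γ (evC : FC →+* Mer)
    (fun γ hγ f => hinv γ hγ f) A (fun a ha => (hA a ha).imp fun E hE => hE.1) hden hn
    (fun z hz h => Fermat.Agent.S29.helper2122.exists_mer_pow_eq (Nat.pos_of_ne_zero hn) z hz h)
    (by
      intro H hHinv ⟨a, ha, hpow⟩
      obtain ⟨E, hE, hEgr⟩ := hA a ha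
      -- function-level invariance
      have hfun_inv : ∀ γ ∈ Γ, ∀ τ : ℍ, (H : ℍ → ℂ) (γ • τ) = (H : ℍ → ℂ) τ := by
        intro γ hγ τ
        have h1 := hHinv γ hγ
        rw [pull_algebraMap] at h1
        have h2 : pullHol γ H = H := hinj h1
        exact congrFun (congrArg Subtype.val h2) τ
      -- function-level power identity
      have hpowfun : ∀ τ : ℍ, (H : ℍ → ℂ) τ ^ n = (E : ℍ → ℂ) τ := by
        intro τ
        have h1 : algebraMap Hol Mer (H ^ n) = algebraMap Hol Mer E := by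
          rw [map_pow, hE]
          exact hpow
        have h2 : H ^ n = E := hinj h1
        exact congrFun (congrArg Subtype.val h2) τ
      have hgrowth : ∀ g : SL(2, ℤ),
          helper167.HasExpGrowth (fun τ : ℍ => (H : ℍ → ℂ) (g • τ)) := fun g =>
        Fermat.Agent.S29.helper3126.hasExpGrowth_of_pow (Nat.pos_of_ne_zero hn)
          (fun τ => hpowfun (g • τ)) (hEgr g)
      obtain ⟨t, ht⟩ := exists_evC_eq_of_invariant hRC H hfun_inv hgrowth
      exact ⟨t, ht.symm⟩)
  exact ⟨T, fun u hu h => hT u hu (ordDvd_of_forall_place_dvdG evC hu h)⟩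

end FinC

end Fermat.Agent.S48.helper2122
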