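import Fermat.Agent.S48.helper5251_HeckeGamma1
import Fermat.Agent.S16.helper2138_HeckeHom

/-!
# The Hecke correspondences `T_p` and `⟨d⟩` on `Γ₁(M)` as abstract correspondences
(S48-HECKE1 (H6), helper5251)

`corrT1 hp h : Corr (Gamma1 M) (Option (Fin p))` and `corrDiamond δ hδ : Corr (Gamma1 M) Unit`
(the landed S16 structure `helper2138.Corr`), with positive determinants, such that the bundled
operators `heckeTCF`, `heckeT`, `diamondCF`, `diamond` are the corresponding coset sums.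
-/

set_option autoImplicit false

open CongruenceSubgroup UpperHalfPlane Matrix ModularForm
open scoped MatrixGroups ModularForm Manifold
open Fermat.Agent.S16.helper2138 (Corr)

namespace Fermat.Agent.S48.helper5251

noncomputable section

open Matrix.SpecialLinearGroup

lemma ratGL_injective : Function.Injective ratGL := by
  intro a b hab
  ext i j
  have h1 := congrArg (fun g : GL (Fin 2) ℝ => g i j) hab
  simp only [ratGL_apply] at h1
  exact_mod_cast h1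

lemma det_ratGL_alphaQ_mul (p : ℕ) [NeZero p] (x : SL(2, ℤ)) :
    ((ratGL (alphaQ p * mapGL ℚ x)).det : ℝˣ).val = p := by
  rw [ratGL_mul, map_mul, ratGL_mapGL, Matrix.SpecialLinearGroup.det_mapGL, mul_one,
    Matrix.GeneralLinearGroup.val_det_apply, Matrix.det_fin_two]
  simp

lemma mem_Gamma0up_of_mul_alphaQ (p : ℕ) [NeZero p] (g x : SL(2, ℤ))
    (h2 : mapGL ℚ g * alphaQ p = alphaQ p * mapGL ℚ x) : x ∈ Gamma0up p := by
  have h3 := congrArg (fun A : GL (Fin 2) ℚ => A 0 1) h2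
  simp [Matrix.mul_apply, Fin.sum_univ_two] at h3
  have h4 : x 0 1 = g 0 1 * p := by exact_mod_cast h3.symm
  exact mem_Gamma0up.mpr ⟨_, by rw [h4, mul_comm]⟩

variable {M : ℕ} {p : ℕ}

lemma conj_mem_Gamma1 {δ γ : SL(2, ℤ)} (hδ : δ ∈ Gamma0 M) (hγ : γ ∈ Gamma1 M) :
    δ * γ * δ⁻¹ ∈ Gamma1 M := by
  have hγ0 : γ ∈ Gamma0 M := Gamma1_in_Gamma0 M hγ
  have : Gamma0Map M (⟨δ, hδ⟩ * ⟨γ, hγ0⟩ * ⟨δ, hδ⟩⁻¹ : Gamma0 M) = 1 := by
    rw [map_mul, map_mul, Gamma0Map_eq_one_of_mem_Gamma1 ⟨γ, hγ0⟩ hγ, mul_one, ← map_mul,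
      mul_inv_cancel, map_one]
  simpa using mem_Gamma1_of_Gamma0Map _ this

/-- The Hecke correspondence `T_p` on `Γ₁(M)`, `p ∤ M` prime: the `p + 1` cosets
`Γ₁(M) α h_i`. -/
def corrT1 (hp : p.Prime) (h : Nat.Coprime p M) : Corr (Gamma1 M) (Option (Fin p)) :=
  haveI : NeZero p := ⟨hp.ne_zero⟩
  { α := fun i => ratGL (alphaQ p * mapGL ℚ (hRep p M h i))
    ex := fun i γ => by
      obtain ⟨j, hj⟩ := exists_rep hp h (hRep p M h i * (γ : SL(2, ℤ)))
      have hy1 : hRep p M h i * (γ : SL(2, ℤ)) * (hRep p M h j)⁻¹ ∈ Gamma1 M :=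
        mul_mem (mul_mem (hRep_mem_Gamma1 p M h i) γ.2) (inv_mem (hRep_mem_Gamma1 p M h j))
      have hy'1 : conjAlpha p _ hj ∈ Gamma1 M := by
        have h3 := (Gamma1_mem M _).mp hy1
        refine mem_Gamma1_of ?_ ?_
        · rw [conjAlpha_apply_one_zero]
          push_cast
          rw [h3.2.2, mul_zero]
        · rw [conjAlpha_apply_one_one]
          exact h3.2.1
      refine ⟨j, ⟨conjAlpha p _ hj, hy'1⟩, ?_⟩
      have key : alphaQ p * mapGL ℚ (hRep p M h i) * mapGL ℚ (γ : SL(2, ℤ)) =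
          mapGL ℚ (conjAlpha p _ hj) * (alphaQ p * mapGL ℚ (hRep p M h j)) := by
        rw [← mul_assoc (mapGL ℚ (conjAlpha p _ hj)) (alphaQ p), ← alphaQ_mul_mapGL p _ hj,
          mul_assoc, mul_assoc, ← map_mul, ← map_mul, inv_mul_cancel_right]
      change ratGL (alphaQ p * mapGL ℚ (hRep p M h i)) * mapGL ℝ (γ : SL(2, ℤ)) =
        mapGL ℝ (conjAlpha p _ hj) * ratGL (alphaQ p * mapGL ℚ (hRep p M h j))
      rw [← ratGL_mapGL, ← ratGL_mapGL, ← ratGL_mul, ← ratGL_mul, key]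
    inj := fun i j g hg => by
      change mapGL ℝ (g : SL(2, ℤ)) * ratGL (alphaQ p * mapGL ℚ (hRep p M h i)) =
        ratGL (alphaQ p * mapGL ℚ (hRep p M h j)) at hg
      rw [← ratGL_mapGL, ← ratGL_mul] at hg
      have hq := ratGL_injective hg
      have h2 : mapGL ℚ (g : SL(2, ℤ)) * alphaQ p =
          alphaQ p * mapGL ℚ (hRep p M h j * (hRep p M h i)⁻¹) := by
        rw [map_mul, map_inv, ← mul_assoc, ← hq]
        group
      exact (rep_inj hp h (mem_Gamma0up_of_mul_alphaQ p _ _ h2)).symm }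

lemma corrT1_α [NeZero p] (hp : p.Prime) (h : Nat.Coprime p M) (i : Option (Fin p)) :
    (corrT1 hp h).α i = ratGL (alphaQ p * mapGL ℚ (hRep p M h i)) := rfl

lemma corrT1_det_pos (hp : p.Prime) (h : Nat.Coprime p M) (i : Option (Fin p)) :
    0 < ((corrT1 hp h).α i).det.val := by
  have : NeZero p := ⟨hp.ne_zero⟩
  rw [corrT1_α, det_ratGL_alphaQ_mul]
  exact_mod_cast hp.pos

/-- The diamond correspondence on `Γ₁(M)`: the single coset `Γ₁(M) δ`, `δ ∈ Γ₀(M)`. -/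
def corrDiamond (δ : SL(2, ℤ)) (hδ : δ ∈ Gamma0 M) : Corr (Gamma1 M) Unit where
  α _ := mapGL ℝ δ
  ex _ γ := ⟨(), ⟨δ * γ * δ⁻¹, conj_mem_Gamma1 hδ γ.2⟩, by
    rw [← map_mul, ← map_mul, inv_mul_cancel_right]⟩
  inj _ _ _ _ := rfl

lemma corrDiamond_α (δ : SL(2, ℤ)) (hδ : δ ∈ Gamma0 M) (i : Unit) :
    (corrDiamond δ hδ).α i = mapGL ℝ δ := rfl

lemma corrDiamond_det_pos (δ : SL(2, ℤ)) (hδ : δ ∈ Gamma0 M) (i : Unit) :
    0 < ((corrDiamond δ hδ).α i).det.val := by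
  rw [corrDiamond_α, Matrix.SpecialLinearGroup.det_mapGL]
  simp

variable [NeZero M] {k : ℤ}

/-- `T_p f` is the coset sum of the correspondence `corrT1` (cusp forms). -/
theorem coe_heckeTCF_eq_corr (hp : p.Prime) (h : Nat.Coprime p M) (f : CuspForm (Gamma1 M) k) :
    (⇑(heckeTCF hp h f) : ℍ → ℂ) = ∑ i, (f : ℍ → ℂ) ∣[k] (corrT1 hp h).α i := rfl

/-- `T_p f` is the coset sum of the correspondence `corrT1` (modular forms). -/
theorem coe_heckeT_eq_corr (hp : p.Prime) (h : Nat.Coprime p M) (f : ModularForm (Gamma1 M) k) :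
    (⇑(heckeT hp h f) : ℍ → ℂ) = ∑ i, (f : ℍ → ℂ) ∣[k] (corrT1 hp h).α i := rfl

/-- `⟨d⟩ f` is the coset sum of the correspondence `corrDiamond` (cusp forms). -/
theorem coe_diamondCF_eq_corr (d : (ZMod M)ˣ) (f : CuspForm (Gamma1 M) k) :
    (⇑(diamondCF d f) : ℍ → ℂ) =
      ∑ i, (f : ℍ → ℂ) ∣[k] (corrDiamond (diamRep M d) (diamRep_mem_Gamma0 d)).α i := by
  rw [coe_diamondCF]
  simp only [Finset.univ_unique, Finset.sum_singleton, corrDiamond_α]
  rfl

/-- `⟨d⟩ f` is the coset sum of the correspondence `corrDiamond` (modular forms). -/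
theorem coe_diamond_eq_corr (d : (ZMod M)ˣ) (f : ModularForm (Gamma1 M) k) :
    (⇑(diamond d f) : ℍ → ℂ) =
      ∑ i, (f : ℍ → ℂ) ∣[k] (corrDiamond (diamRep M d) (diamRep_mem_Gamma0 d)).α i := by
  rw [coe_diamond]
  simp only [Finset.univ_unique, Finset.sum_singleton, corrDiamond_α]
  rfl

end

end Fermat.Agent.S48.helper5251
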