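/-
S48 (Deligne–Serre) blueprint, PART II — captain helper8231: the `Γ₁` machine.

`Stmt_Mach LevelOK` (Part I) is reduced to ONE existential interface, `Stmt_KummerMod LevelOK`:
for every level `M` with `LevelOK M` and every prime `ℓ` there is a Galois module `P` (the Kummer
module of the `Γ₁(M)` function field at `ℓ`: classes of functions whose divisor is divisible by
`ℓ`, modulo `ℓ`-th powers) with Hecke operators `T p` and diamond operators `D p`, satisfying
(U), (ES) `σ² - T_p σ + p ⟨p⟩ = 0` and (OCC) occurrence of every weight-two eigensystem with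
nebentypus.  The passage `Stmt_KummerMod → Stmt_Mach` is the abstract block E with diamonds
(MID + DIM2 + generator-Chebotarev, `helper7447_RepDiamond`).

Default level condition: `LevelOK23 M := 2 ∣ M ∨ 3 ∣ M` (the machine is run over the `t₂`- or
`t₃`-line: for every prime `p ∤ M` there is `r ∈ {2, 3}` with `r ∣ M`, `r ≠ p`), and the auxiliary
level of `Stmt_Res` is `B = 2N` or `3N` (`hlevel23`); the endgame glues (Part I, `Stmt_Glue`).
-/
import Fermat.Agent.S48.helper8231_Spec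
import Fermat.Agent.S29.helper2187_MidOp

set_option autoImplicit false

namespace Fermat.Agent.S48.helper8231

open CongruenceSubgroup Polynomial
open scoped MatrixGroups ModularForm TensorProduct

/-- (KMOD) the Kummer module of `Γ₁(M)` at `ℓ`: Galois action with open stabilisers, Hecke and
diamond operators commuting with it, (U), (ES) and (OCC).
Conventions ((D1)–(D5) of chat #188): nebentypus through the LOWER-RIGHT entry, `T p` is the
operator with `a_n(T_p g) = a_{pn} + p ψ(p) a_{n/p}` on weight-two forms of nebentypus `ψ`, and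
`D p` is the diamond operator `⟨p⟩` (eigenvalue `ψ(p)`). -/
def Stmt_KummerMod (LevelOK : ℕ → Prop) : Prop :=
  ∀ (M : ℕ) [NeZero M], LevelOK M → ∀ ℓ : ℕ, ℓ.Prime →
    ∃ (P : Type) (_ : AddCommGroup P) (r : GQ →* Module.End ℤ P)
      (T D : Nat.Primes → Module.End ℤ P),
      Fermat.Agent.S29.helper2187.OpenStab r ∧
      (∀ (p : Nat.Primes) (σ : GQ) (y : P), T p (r σ y) = r σ (T p y)) ∧
      (∀ (p : Nat.Primes) (σ : GQ) (y : P), D p (r σ y) = r σ (D p y)) ∧
      -- (U)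
      (∀ p : ℕ, p.Prime → ¬ p ∣ M * ℓ →
        ∀ A : ValuationSubring (AlgebraicClosure ℚ), A.LiesOverPrime p →
          ∀ τ ∈ A.inertiaSubgroupIn ℚ, ∀ y : P, r τ y = y) ∧
      -- (ES)
      (∀ (p : ℕ) (hp : p.Prime), ¬ p ∣ M * ℓ →
        ∀ A : ValuationSubring (AlgebraicClosure ℚ), A.LiesOverPrime p →
          ∀ σ : GQ, A.IsFrobeniusAt σ p →
            ∀ y : P, r σ (r σ y) - T ⟨p, hp⟩ (r σ y) + p • D ⟨p, hp⟩ y = 0) ∧
      -- (OCC)
      (∀ (ψ : DirichletCharacter ℂ M) (g : CuspForm (Gamma1 M) 2) (b : ℕ → ℂ),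
        IsEigen2 M ψ g b →
        (∀ p : ℕ, p.Prime → ¬ p ∣ M → IsIntegral ℤ (b p)) ∧
        ∀ (κ : Type) [Field κ] [IsAlgClosed κ] [CharP κ ℓ] (φ : Zc →+* κ),
          Function.Surjective φ →
          ∃ x : κ ⊗[ℤ] P, x ≠ 0 ∧ ∀ p : Nat.Primes, ¬ (p : ℕ) ∣ M * ℓ →
            ∀ tb tψ : Zc, (tb : ℂ) = b p → (tψ : ℂ) = ψ ((p : ℕ) : ZMod M) →
              (T p).baseChange κ x = φ tb • x ∧ (D p).baseChange κ x = φ tψ • x)

/-- (E-REP) the abstract block E with diamonds: `Stmt_KummerMod → Stmt_Mach`. -/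
def Stmt_MachOfKummerMod (LevelOK : ℕ → Prop) : Prop :=
  Stmt_KummerMod LevelOK → Stmt_Mach LevelOK

/-- The default level condition of the `Γ₁` machine. -/
def LevelOK23 (M : ℕ) : Prop := 2 ∣ M ∨ 3 ∣ M

/-- The auxiliary levels `B = 2N`, `3N`. -/
theorem hlevel23 : ∀ N : ℕ, 5 ≤ N → ∀ p : ℕ, p.Prime → ¬ p ∣ N →
    ∃ B : ℕ, N ∣ B ∧ ¬ p ∣ B ∧ ∀ ℓ : ℕ, ℓ.Prime → LevelOK23 (B * ℓ) := by
  intro N _ p hp hpN
  by_cases h2 : p = 2
  · refine ⟨N * 3, dvd_mul_right N 3, ?_, fun ℓ _ => Or.inr ?_⟩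
    · intro hdvd
      rcases (Nat.Prime.dvd_mul hp).mp hdvd with h | h
      · exact hpN h
      · rw [h2] at h
        omega
    · exact Dvd.dvd.mul_right (dvd_mul_left 3 N) ℓ
  · refine ⟨N * 2, dvd_mul_right N 2, ?_, fun ℓ _ => Or.inl ?_⟩
    · intro hdvd
      rcases (Nat.Prime.dvd_mul hp).mp hdvd with h | h
      · exact hpN h
      · exact h2 ((Nat.prime_dvd_prime_iff_eq hp Nat.prime_two).mp h)
    · exact Dvd.dvd.mul_right (dvd_mul_left 2 N) ℓ

/-- (RES) from (CONG), (E-REP) and (KMOD) at the default level condition. -/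
theorem res_of_kummerMod (hC : Stmt_Cong) (hE : Stmt_MachOfKummerMod LevelOK23)
    (hK : Stmt_KummerMod LevelOK23) : Stmt_Res :=
  res_of LevelOK23 hlevel23 hC (hE hK)

/-- The frozen statement S48 from the open interfaces of Parts I and II. -/
theorem result_of_all (hW : Stmt_Reduce) (hA : Stmt_Arith)
    (h1 : Stmt_BddLift) (h2 : Stmt_Exact) (h3 : Stmt_Glue) (h4 : Stmt_Irred)
    (hC : Stmt_Cong) (hE : Stmt_MachOfKummerMod LevelOK23) (hK : Stmt_KummerMod LevelOK23)
    (N : ℕ) [NeZero N] (ε : DirichletCharacter ℂ N) (f : CuspForm (Gamma1 N) 1)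
    (hf₁ : ModularFormClass.qCoeff f 1 = 1)
    (hT : ∀ p : ℕ, p.Prime → ¬ p ∣ N → ∀ n : ℕ,
        ModularFormClass.qCoeff f (p * n) +
            ε (p : ZMod N) * (if p ∣ n then ModularFormClass.qCoeff f (n / p) else 0) =
          ModularFormClass.qCoeff f p * ModularFormClass.qCoeff f n) :
    ∃ ρ : GQ →* GL (Fin 2) ℂ, GaloisFactorsThroughFiniteLevel ρ ∧
      (Deformation.matrixRepresentation ρ).IsIrreducible ∧
      ∀ p : ℕ, p.Prime → ¬ p ∣ N →
        ∀ A : ValuationSubring (AlgebraicClosure ℚ), A.LiesOverPrime p →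
          (∀ σ ∈ A.inertiaSubgroupIn ℚ, ρ σ = 1) ∧
          ∀ σ : GQ, A.IsFrobeniusAt σ p →
            ((ρ σ : GL (Fin 2) ℂ) : Matrix (Fin 2) (Fin 2) ℂ).trace = ModularFormClass.qCoeff f p ∧
            ((ρ σ : GL (Fin 2) ℂ) : Matrix (Fin 2) (Fin 2) ℂ).det = ε (p : ZMod N) :=
  result_of hW hA (res_of_kummerMod hC hE hK) (endgame_of h1 h2 h3 h4) N ε f hf₁ hT

end Fermat.Agent.S48.helper8231
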