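/-
S48 (Deligne–Serre) blueprint, PART III — captain helper8231: pointwise (two-variable) forms of the
machine interfaces of Part II.

Part II states the `Γ₁` machine for all primes `ℓ` at every level `M` with `LevelOK M`.  The
residual step (`res_of`) only uses the machine at the pairs `(M, ℓ) = (B ℓ, ℓ)` with `ℓ` large, so
the machine may restrict BOTH variables.  This file gives the pointwise Props

* `KummerModAt M ℓ` : the body of `Stmt_KummerMod` at one pair `(M, ℓ)`;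
* `MachAt M ℓ`      : the body of `Stmt_Mach` at one pair `(M, ℓ)`;
* `Stmt_ERep`       : `KummerModAt M ℓ → MachAt M ℓ` for every `M` and every prime `ℓ`
                      (the abstract block E with diamonds; no level condition at all);
* `Stmt_KummerMod2 L2` : `KummerModAt M ℓ` whenever `L2 M ℓ`;

and the compiled assemblies `res_of2`, `result_of_all2` for ANY two-variable level condition `L2`
which holds at `(B ℓ, ℓ)` for all large primes `ℓ` and a suitable multiple `B` of `N` prime to `p`.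
`LevelBig` is a default choice (`M = B ℓ`, `ℓ ∤ B`, `7 ≤ ℓ`, `10 ≤ B`, `2 ∣ B ∨ 3 ∣ B`).
-/
import Fermat.Agent.S48.helper8231_SpecMach

set_option autoImplicit false

namespace Fermat.Agent.S48.helper8231

open CongruenceSubgroup Polynomial
open scoped MatrixGroups ModularForm TensorProduct

/-- The body of `Stmt_KummerMod` at one pair `(M, ℓ)`. -/
def KummerModAt (M : ℕ) [NeZero M] (ℓ : ℕ) : Prop :=
  ∃ (P : Type) (_ : AddCommGroup P) (r : GQ →* Module.End ℤ P)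
    (T D : Nat.Primes → Module.End ℤ P),
    Fermat.Agent.S29.helper2187.OpenStab r ∧
    (∀ (p : Nat.Primes) (σ : GQ) (y : P), T p (r σ y) = r σ (T p y)) ∧
    (∀ (p : Nat.Primes) (σ : GQ) (y : P), D p (r σ y) = r σ (D p y)) ∧
    -- (U)
    (∀ p : ℕ, p.Prime → ¬ p ∣ M * ℓ →
      ∀ A : ValuationSubring (AlgebraicClosure ℚ), A.LiesOverPrime p →
        ∀ τ ∈ A.inertiaSubgroupIn ℚ, ∀ y : P, r τ y = y) ∧
    -- (ES)
    (∀ (p : ℕ) (hp : p.Prime), ¬ p ∣ M * ℓ →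
      ∀ A : ValuationSubring (AlgebraicClosure ℚ), A.LiesOverPrime p →
        ∀ σ : GQ, A.IsFrobeniusAt σ p →
          ∀ y : P, r σ (r σ y) - T ⟨p, hp⟩ (r σ y) + p • D ⟨p, hp⟩ y = 0) ∧
    -- (OCC)
    (∀ (ψ : DirichletCharacter ℂ M) (g : CuspForm (Gamma1 M) 2) (b : ℕ → ℂ),
      IsEigen2 M ψ g b →
      (∀ p : ℕ, p.Prime → ¬ p ∣ M → IsIntegral ℤ (b p)) ∧
      ∀ (κ : Type) [Field κ] [IsAlgClosed κ] [CharP κ ℓ] (φ : Zc →+* κ),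
        Function.Surjective φ →
        ∃ x : κ ⊗[ℤ] P, x ≠ 0 ∧ ∀ p : Nat.Primes, ¬ (p : ℕ) ∣ M * ℓ →
          ∀ tb tψ : Zc, (tb : ℂ) = b p → (tψ : ℂ) = ψ ((p : ℕ) : ZMod M) →
            (T p).baseChange κ x = φ tb • x ∧ (D p).baseChange κ x = φ tψ • x)

/-- The body of `Stmt_Mach` at one pair `(M, ℓ)`. -/
def MachAt (M : ℕ) [NeZero M] (ℓ : ℕ) : Prop :=
  ∀ (ψ : DirichletCharacter ℂ M) (g : CuspForm (Gamma1 M) 2) (b : ℕ → ℂ),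
    IsEigen2 M ψ g b →
    ∀ (κ : Type) [Field κ] [CharP κ ℓ] (φ : Zc →+* κ),
      ∃ ρ : ResidualGaloisRep κ, ∀ p : ℕ, p.Prime → ¬ p ∣ M * ℓ →
        ρ.IsUnramifiedAt p ∧
        ∀ A : ValuationSubring (AlgebraicClosure ℚ), A.LiesOverPrime p →
          ∀ σ : GQ, A.IsFrobeniusAt σ p →
            ∃ t δ : Zc, (t : ℂ) = b p ∧ (δ : ℂ) = (p : ℂ) * ψ (p : ZMod M) ∧
              LinearMap.charpoly (ρ.ρ σ) = X ^ 2 - C (φ t) * X + C (φ δ)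

/-- (E-REP), pointwise: the abstract block E with diamonds. -/
def Stmt_ERep : Prop :=
  ∀ (M : ℕ) [NeZero M] (ℓ : ℕ), ℓ.Prime → KummerModAt M ℓ → MachAt M ℓ

/-- (KMOD), two-variable level condition. -/
def Stmt_KummerMod2 (L2 : ℕ → ℕ → Prop) : Prop :=
  ∀ (M : ℕ) [NeZero M] (ℓ : ℕ), ℓ.Prime → L2 M ℓ → KummerModAt M ℓ

theorem stmt_KummerMod_iff (LevelOK : ℕ → Prop) :
    Stmt_KummerMod LevelOK ↔ Stmt_KummerMod2 (fun M _ => LevelOK M) :=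
  ⟨fun h M _ ℓ hℓ hM => h M hM ℓ hℓ, fun h M _ hM ℓ hℓ => h M ℓ hℓ hM⟩

theorem stmt_Mach_iff (LevelOK : ℕ → Prop) :
    Stmt_Mach LevelOK ↔ ∀ (M : ℕ) [NeZero M] (ℓ : ℕ), ℓ.Prime → LevelOK M → MachAt M ℓ :=
  ⟨fun h M _ ℓ hℓ hM ψ g b hg κ _ _ φ => h M ψ g b hM hg ℓ hℓ κ φ,
    fun h M _ ψ g b hM hg ℓ hℓ κ _ _ φ => h M ℓ hℓ hM ψ g b hg κ φ⟩

/-- The pointwise (E-REP) gives the Part II form for every level condition. -/
theorem machOfKummerMod_of_eRep (hE : Stmt_ERep) (LevelOK : ℕ → Prop) :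
    Stmt_MachOfKummerMod LevelOK := fun hK =>
  (stmt_Mach_iff LevelOK).mpr fun M _ ℓ hℓ hM => hE M ℓ hℓ (hK M hM ℓ hℓ)

/-- (RES) from (CONG), (E-REP) and (KMOD) for a two-variable level condition `L2` which holds at
`(B ℓ, ℓ)` for all large primes `ℓ`. -/
theorem res_of2 (L2 : ℕ → ℕ → Prop)
    (hlevel : ∀ N : ℕ, 5 ≤ N → ∀ p : ℕ, p.Prime → ¬ p ∣ N →
      ∃ B : ℕ, N ∣ B ∧ ¬ p ∣ B ∧ ∃ ℓ₁ : ℕ, ∀ ℓ : ℕ, ℓ.Prime → ℓ₁ ≤ ℓ → L2 (B * ℓ) ℓ)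
    (hC : Stmt_Cong) (hE : Stmt_ERep) (hK : Stmt_KummerMod2 L2) : Stmt_Res := by
  intro N _ ε f h h5 hdep hint p hp hpN
  obtain ⟨B, hNB, hpB, ℓ₁, hlev⟩ := hlevel N h5 p hp hpN
  have hB : B ≠ 0 := fun h => hpB (h ▸ dvd_zero p)
  refine ⟨B, hNB, hpB, ?_⟩
  obtain ⟨ℓ₀, hℓ₀⟩ := hC N ε f h h5 hdep hint B hNB hB
  have hsub : {ℓ : ℕ | ℓ.Prime} \ (Finset.range (max ℓ₀ ℓ₁) : Set ℕ) ⊆
      {ℓ : ℕ | ℓ.Prime ∧ HasResidualRep B (fun q => ModularFormClass.qCoeff f q)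
        (fun q => ε (q : ZMod N)) ℓ} := by
    rintro ℓ ⟨hℓ, hℓr⟩
    have hle : max ℓ₀ ℓ₁ ≤ ℓ := by
      by_contra hcon
      exact hℓr (by simpa [Finset.mem_range] using not_le.mp hcon)
    refine ⟨hℓ, ?_⟩
    intro κ _ _ φ
    obtain ⟨ψ, g, b, hg, hcong⟩ := hℓ₀ ℓ hℓ (le_trans (le_max_left _ _) hle) κ φ
    have : NeZero (B * ℓ) := ⟨mul_ne_zero hB hℓ.ne_zero⟩
    obtain ⟨ρ, hρ⟩ := hE (B * ℓ) ℓ hℓ
      (hK (B * ℓ) ℓ hℓ (hlev ℓ hℓ (le_trans (le_max_right _ _) hle))) ψ g b hg κ φ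
    refine ⟨ρ, ?_⟩
    intro q hq hqBℓ
    have hq' : ¬ q ∣ B * ℓ * ℓ := by
      intro hdvd
      rcases (Nat.Prime.dvd_mul hq).mp hdvd with h | h
      · exact hqBℓ h
      · exact hqBℓ (dvd_mul_of_dvd_right h B)
    obtain ⟨hunr, hfrob⟩ := hρ q hq hq'
    refine ⟨hunr, ?_⟩
    intro A hA σ hσ
    obtain ⟨t', δ', ht', hδ', hcp⟩ := hfrob A hA σ hσ
    obtain ⟨h1, h2⟩ := hcong q hq hqBℓ
    obtain ⟨t, ht, htt⟩ := h1 t' ht'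
    obtain ⟨δ, hδ, hδδ⟩ := h2 δ' hδ'
    exact ⟨t, δ, ht, hδ, by rw [hcp, htt, hδδ]⟩
  exact (Nat.infinite_setOf_prime.diff (Finset.finite_toSet _)).mono hsub

/-- A default two-variable level condition: `M = B ℓ` with `ℓ ∤ B`, `7 ≤ ℓ`, `10 ≤ B` and
`2 ∣ B ∨ 3 ∣ B`. -/
def LevelBig (M ℓ : ℕ) : Prop :=
  ∃ B : ℕ, M = B * ℓ ∧ ¬ ℓ ∣ B ∧ 7 ≤ ℓ ∧ 10 ≤ B ∧ (2 ∣ B ∨ 3 ∣ B)

/-- The auxiliary levels `B = 2N`, `3N` satisfy `LevelBig (B ℓ) ℓ` for all large `ℓ`. -/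
theorem hlevelBig : ∀ N : ℕ, 5 ≤ N → ∀ p : ℕ, p.Prime → ¬ p ∣ N →
    ∃ B : ℕ, N ∣ B ∧ ¬ p ∣ B ∧ ∃ ℓ₁ : ℕ, ∀ ℓ : ℕ, ℓ.Prime → ℓ₁ ≤ ℓ → LevelBig (B * ℓ) ℓ := by
  intro N h5 p hp hpN
  have key : ∀ B : ℕ, 10 ≤ B → (2 ∣ B ∨ 3 ∣ B) →
      ∃ ℓ₁ : ℕ, ∀ ℓ : ℕ, ℓ.Prime → ℓ₁ ≤ ℓ → LevelBig (B * ℓ) ℓ := by
    intro B hB h23
    refine ⟨B + 7, fun ℓ _ hle => ⟨B, rfl, ?_, by omega, hB, h23⟩⟩
    intro hdvd
    have := Nat.le_of_dvd (by omega) hdvd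
    omega
  by_cases h2 : p = 2
  · refine ⟨N * 3, dvd_mul_right N 3, ?_, key (N * 3) (by omega) (Or.inr (dvd_mul_left 3 N))⟩
    intro hdvd
    rcases (Nat.Prime.dvd_mul hp).mp hdvd with h | h
    · exact hpN h
    · rw [h2] at h
      omega
  · refine ⟨N * 2, dvd_mul_right N 2, ?_, key (N * 2) (by omega) (Or.inl (dvd_mul_left 2 N))⟩
    intro hdvd
    rcases (Nat.Prime.dvd_mul hp).mp hdvd with h | h
    · exact hpN h
    · exact h2 ((Nat.prime_dvd_prime_iff_eq hp Nat.prime_two).mp h)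

/-- The frozen statement S48 from the open interfaces, two-variable level form. -/
theorem result_of_all2 (L2 : ℕ → ℕ → Prop)
    (hlevel : ∀ N : ℕ, 5 ≤ N → ∀ p : ℕ, p.Prime → ¬ p ∣ N →
      ∃ B : ℕ, N ∣ B ∧ ¬ p ∣ B ∧ ∃ ℓ₁ : ℕ, ∀ ℓ : ℕ, ℓ.Prime → ℓ₁ ≤ ℓ → L2 (B * ℓ) ℓ)
    (hW : Stmt_Reduce) (hA : Stmt_Arith)
    (h1 : Stmt_BddLift) (h2 : Stmt_Exact) (h3 : Stmt_Glue) (h4 : Stmt_Irred)
    (hC : Stmt_Cong) (hE : Stmt_ERep) (hK : Stmt_KummerMod2 L2)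
    (N : ℕ) [NeZero N] (ε : DirichletCharacter ℂ N) (f : CuspForm (Gamma1 N) 1)
    (hf₁ : ModularFormClass.qCoeff f 1 = 1)
    (hT : ∀ p : ℕ, p.Prime → ¬ p ∣ N → ∀ n : ℕ,
        ModularFormClass.qCoeff f (p * n) +
            ε (p : ZMod N) * (if p ∣ n then ModularFormClass.qCoeff f (n / p) else 0) =
          ModularFormClass.qCoeff f p * ModularFormClass.qCoeff f n) :
    ∃ ρ : GQ →* GL (Fin 2) ℂ, GaloisFactorsThroughFiniteLevel ρ ∧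
      (Deformation.matrixRepresentation ρ).IsIrreducible ∧
      ∀ p : ℕ, p.Prime → ¬ p ∣ N →
        ∀ A : ValuationSubring (AlgebraicClosure ℚ), A.LiesOverPrime p →
          (∀ σ ∈ A.inertiaSubgroupIn ℚ, ρ σ = 1) ∧
          ∀ σ : GQ, A.IsFrobeniusAt σ p →
            ((ρ σ : GL (Fin 2) ℂ) : Matrix (Fin 2) (Fin 2) ℂ).trace = ModularFormClass.qCoeff f p ∧
            ((ρ σ : GL (Fin 2) ℂ) : Matrix (Fin 2) (Fin 2) ℂ).det = ε (p : ZMod N) :=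
  result_of hW hA (res_of2 L2 hlevel hC hE hK) (endgame_of h1 h2 h3 h4) N ε f hf₁ hT

end Fermat.Agent.S48.helper8231
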