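import Mathlib
import Fermat.Agent.S29.helper5875_EigenOccur

/-!
# S48 (machine half, M3 occurrence): eigen-functionals on a lattice WITHOUT commutativity

The landed `S29.helper5875.exists_eigen_functional_of_lattice` needs a COMMUTATIVE algebra `A` of
operators which is finite over `ℤ` (for `Γ₀(N)` this was the frozen S22).  For `Γ₁(M)` with
Hecke operators and diamonds neither input is available off the shelf.  Here both are removed:

* `exists_eigen_addMonoidHom_of_family` : `L` a finitely generated abelian group, `e : L →+ ℂ` a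
  nonzero additive map, `τ i : L →+ L` ANY family of endomorphisms (no commutation relation
  among them) with `e (τ i x) = a i * e x`.  Then every `a i` is an algebraic integer
  (`isIntegral_of_family`) and for every ring homomorphism `ψ` from the algebraic integers to a
  field `κ` there is a nonzero `w : L →+ κ` with `w (τ i x) = ψ (a i) * w x`.
* `exists_eigen_functional_of_family` : the same for a finitely generated lattice `L` of
  functionals on a complex vector space `V`, stable under transposition by a family of operators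
  `T i`, and a common eigenvector `v` of the `T i` on which `L` does not vanish identically
  (drop-in replacement of `exists_eigen_functional_of_lattice`; integrality of the eigenvalues
  is a THEOREM, `isIntegral_eigenvalue_of_lattice`, not an input).

Proof: `e (L) ⊆ ℂ` is a finitely generated subgroup stable under multiplication by every `a i`,
hence a finite faithful module over the commutative ring `ℤ[a i : i] ⊆ ℂ`; apply the landed
`S29.helper5875.exists_eigen_addMonoidHom` to it and pull back along `e`.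
-/

set_option autoImplicit false

namespace Fermat.Agent.S48.helper9143

open Fermat.Agent.S29.helper5875

section Core

variable {L : Type*} [AddCommGroup L]

/-- The image of `e`, as a subgroup of `ℂ`. -/
private theorem range_fg [Module.Finite ℤ L] (e : L →+ ℂ) :
    (LinearMap.range e.toIntLinearMap).FG := by
  have h := (Module.Finite.fg_top (R := ℤ) (M := L)).map e.toIntLinearMap
  rwa [Submodule.map_top] at h

private theorem exists_apply_ne_zero (e : L →+ ℂ) (he : e ≠ 0) : ∃ x0 : L, e x0 ≠ 0 := by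
  by_contra hcon
  apply he
  ext x
  by_contra hx
  exact hcon ⟨x, hx⟩

/-- **Integrality of the eigenvalues of a family of endomorphisms of a finitely generated
abelian group on a nonzero `ℂ`-valued eigen-functional.** -/
theorem isIntegral_of_family [Module.Finite ℤ L]
    (e : L →+ ℂ) (he : e ≠ 0)
    {I : Type*} (τ : I → L →+ L) (a : I → ℂ)
    (hτ : ∀ (i : I) (x : L), e (τ i x) = a i * e x) (i : I) : IsIntegral ℤ (a i) := by
  classical
  let M0 : Submodule ℤ ℂ := LinearMap.range e.toIntLinearMap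
  obtain ⟨x0, hx0⟩ := exists_apply_ne_zero e he
  have hM0ne : M0 ≠ ⊥ := by
    intro h
    have : e x0 ∈ M0 := ⟨x0, rfl⟩
    rw [h, Submodule.mem_bot] at this
    exact hx0 this
  refine isIntegral_of_smul_mem_submodule (R := ℤ) (A := ℂ) (M := ℂ) M0 hM0ne (range_fg e) (a i)
    ?_
  rintro n ⟨x, rfl⟩
  exact ⟨τ i x, hτ i x⟩

/-- **Eigen-occurrence for a family of endomorphisms, no commutativity.**  See the module
docstring. -/
theorem exists_eigen_addMonoidHom_of_family [Module.Finite ℤ L]
    (e : L →+ ℂ) (he : e ≠ 0)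
    {I : Type*} (τ : I → L →+ L) (a : I → ℂ)
    (hτ : ∀ (i : I) (x : L), e (τ i x) = a i * e x)
    {κ : Type*} [Field κ] (ψ : integralClosure ℤ ℂ →+* κ) :
    ∃ w : L →+ κ, w ≠ 0 ∧ ∀ (i : I) (hi : IsIntegral ℤ (a i)) (x : L),
      w (τ i x) = ψ ⟨a i, hi⟩ * w x := by
  classical
  -- the image of `e`, a finitely generated subgroup of `ℂ`
  let M0 : Submodule ℤ ℂ := LinearMap.range e.toIntLinearMap
  have hM0mem : ∀ x : L, e x ∈ M0 := fun x => ⟨x, rfl⟩
  obtain ⟨x0, hx0⟩ := exists_apply_ne_zero e he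
  have hstab : ∀ (i : I), ∀ m ∈ M0, a i * m ∈ M0 := by
    rintro i m ⟨x, rfl⟩
    exact ⟨τ i x, hτ i x⟩
  have hint : ∀ i, IsIntegral ℤ (a i) := isIntegral_of_family e he τ a hτ
  -- the commutative ring generated by the `a i`
  let R : Subalgebra ℤ ℂ := Algebra.adjoin ℤ (Set.range a)
  have hRstab : ∀ r ∈ R, ∀ m ∈ M0, r * m ∈ M0 := by
    intro r hr
    induction hr using Algebra.adjoin_induction with
    | mem y hy =>
      obtain ⟨i, rfl⟩ := hy
      exact hstab i
    | algebraMap n =>
      intro m hm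
      have : (algebraMap ℤ ℂ n) * m = n • m := by
        rw [Algebra.smul_def]
      rw [this]
      exact M0.smul_mem n hm
    | add y z _ _ hy hz =>
      intro m hm
      rw [add_mul]
      exact M0.add_mem (hy m hm) (hz m hm)
    | mul y z _ _ hy hz =>
      intro m hm
      rw [mul_assoc]
      exact hy _ (hz m hm)
  have hRint : R ≤ integralClosure ℤ ℂ :=
    Algebra.adjoin_le (by rintro _ ⟨i, rfl⟩; exact hint i)
  -- `M0` as a module over `R`
  let M : Submodule R ℂ :=
    { carrier := M0
      add_mem' := fun ha hb => M0.add_mem ha hb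
      zero_mem' := M0.zero_mem
      smul_mem' := fun r m hm => hRstab r r.2 m hm }
  have hMmem : ∀ x : L, e x ∈ M := hM0mem
  let e' : L →+ M :=
    { toFun := fun x => ⟨e x, hMmem x⟩
      map_zero' := Subtype.ext (map_zero e)
      map_add' := fun x y => Subtype.ext (map_add e x y) }
  have he'surj : Function.Surjective e' := by
    rintro ⟨m, x, rfl⟩
    exact ⟨x, rfl⟩
  have hfinZ : Module.Finite ℤ M :=
    Module.Finite.of_surjective e'.toIntLinearMap he'surj
  have hfin : Module.Finite R M := Module.Finite.of_restrictScalars_finite ℤ R M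
  have hfaith : ∀ r : R, (∀ m : M, r • m = 0) → r = 0 := by
    intro r hr
    have h1 := congrArg (Subtype.val) (hr (e' x0))
    have h2 : (r : ℂ) * e x0 = 0 := h1
    rcases mul_eq_zero.mp h2 with h | h
    · exact Subtype.ext h
    · exact absurd h hx0
  let lam : R →+* κ := ψ.comp (Subalgebra.inclusion hRint).toRingHom
  obtain ⟨w', hw'0, hw'⟩ := exists_eigen_addMonoidHom (R := R) (M := M) hfaith lam
  refine ⟨w'.comp e', ?_, ?_⟩
  · intro h
    apply hw'0
    ext m
    obtain ⟨x, rfl⟩ := he'surj m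
    have := congrArg (fun f : L →+ κ => f x) h
    simpa using this
  · intro i hi x
    have hai : a i ∈ R := Algebra.subset_adjoin ⟨i, rfl⟩
    have h1 : e' (τ i x) = (⟨a i, hai⟩ : R) • e' x := Subtype.ext (hτ i x)
    have h2 : lam ⟨a i, hai⟩ = ψ ⟨a i, hi⟩ := rfl
    rw [AddMonoidHom.comp_apply, h1, hw', h2, AddMonoidHom.comp_apply]

/-- The same with the eigenvalues given as algebraic integers. -/
theorem exists_eigen_addMonoidHom_of_family' [Module.Finite ℤ L]
    (e : L →+ ℂ) (he : e ≠ 0)
    {I : Type*} (τ : I → L →+ L) (a : I → ℂ)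
    (hτ : ∀ (i : I) (x : L), e (τ i x) = a i * e x)
    {κ : Type*} [Field κ] (ψ : integralClosure ℤ ℂ →+* κ) :
    ∃ w : L →+ κ, w ≠ 0 ∧ ∀ (i : I) (t : integralClosure ℤ ℂ), (t : ℂ) = a i → ∀ x : L,
      w (τ i x) = ψ t * w x := by
  obtain ⟨w, hw0, hw⟩ := exists_eigen_addMonoidHom_of_family e he τ a hτ ψ
  refine ⟨w, hw0, fun i t ht x => ?_⟩
  have hint := isIntegral_of_family e he τ a hτ i
  have : t = ⟨a i, hint⟩ := Subtype.ext ht
  rw [this]
  exact hw i hint x

end Core

section Lattice

variable {V : Type*} [AddCommGroup V] [Module ℂ V]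

/-- Evaluation at `v` on a lattice of functionals. -/
def evalHom (L : Submodule ℤ (V →ₗ[ℂ] ℂ)) (v : V) : L →+ ℂ where
  toFun φ := (φ : V →ₗ[ℂ] ℂ) v
  map_zero' := by simp
  map_add' φ φ' := by simp

/-- Transposition by an operator stabilising the lattice. -/
def transposeHom (L : Submodule ℤ (V →ₗ[ℂ] ℂ)) (T : Module.End ℂ V)
    (hstab : ∀ φ ∈ L, φ ∘ₗ T ∈ L) : L →+ L where
  toFun φ := ⟨(φ : V →ₗ[ℂ] ℂ) ∘ₗ T, hstab φ φ.2⟩
  map_zero' := Subtype.ext (by simp)
  map_add' φ φ' := Subtype.ext (by simp [LinearMap.add_comp])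

theorem evalHom_ne_zero (L : Submodule ℤ (V →ₗ[ℂ] ℂ)) (v : V) (hv : ∃ φ ∈ L, φ v ≠ 0) :
    evalHom L v ≠ 0 := by
  obtain ⟨φ, hφ, hφv⟩ := hv
  intro h
  exact hφv (congrArg (fun f : L →+ ℂ => f ⟨φ, hφ⟩) h)

theorem evalHom_transposeHom (L : Submodule ℤ (V →ₗ[ℂ] ℂ)) (T : Module.End ℂ V)
    (hstab : ∀ φ ∈ L, φ ∘ₗ T ∈ L) (v : V) (a : ℂ) (hev : T v = a • v) (x : L) :
    evalHom L v (transposeHom L T hstab x) = a * evalHom L v x := by
  show (x : V →ₗ[ℂ] ℂ) (T v) = a * (x : V →ₗ[ℂ] ℂ) v
  rw [hev, map_smul, smul_eq_mul]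

/-- **Integrality of Hecke-type eigenvalues from a stable lattice of functionals** (no rational
structure, no commutativity): if a finitely generated lattice `L` of functionals on `V` is
stable under transposition by `T` and does not vanish identically on the eigenvector `v`, then
the eigenvalue of `T` on `v` is an algebraic integer. -/
theorem isIntegral_eigenvalue_of_lattice
    (L : Submodule ℤ (V →ₗ[ℂ] ℂ)) (hLfg : L.FG)
    (T : Module.End ℂ V) (hstab : ∀ φ ∈ L, φ ∘ₗ T ∈ L)
    (v : V) (hv : ∃ φ ∈ L, φ v ≠ 0) (a : ℂ) (hev : T v = a • v) : IsIntegral ℤ a := by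
  have : Module.Finite ℤ L := Module.Finite.iff_fg.2 hLfg
  exact isIntegral_of_family (evalHom L v) (evalHom_ne_zero L v hv)
    (fun _ : Unit => transposeHom L T hstab) (fun _ => a)
    (fun _ x => evalHom_transposeHom L T hstab v a hev x) ()

/-- **Eigen-occurrence on a lattice of functionals, for a family of operators, no commutativity,
no finiteness of a Hecke algebra.**  `L` is a finitely generated `ℤ`-lattice of functionals on
`V`, stable under `φ ↦ φ ∘ T i`; `v` is a common eigenvector of the `T i` with eigenvalues `a i`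
on which some element of `L` does not vanish.  Then for every ring homomorphism `ψ` from the
algebraic integers to a field `κ` there is a nonzero additive `w : L →+ κ` with
`w (φ ∘ T i) = ψ (a i) * w φ`. -/
theorem exists_eigen_functional_of_family
    (L : Submodule ℤ (V →ₗ[ℂ] ℂ)) (hLfg : L.FG)
    {I : Type*} (T : I → Module.End ℂ V)
    (hstab : ∀ i, ∀ φ ∈ L, φ ∘ₗ T i ∈ L)
    (v : V) (hv : ∃ φ ∈ L, φ v ≠ 0) (a : I → ℂ) (hev : ∀ i, T i v = a i • v)
    {κ : Type*} [Field κ] (ψ : integralClosure ℤ ℂ →+* κ) :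
    ∃ w : L →+ κ, w ≠ 0 ∧
      ∀ (i : I) (hi : IsIntegral ℤ (a i)) (φ : V →ₗ[ℂ] ℂ) (hφ : φ ∈ L),
        w ⟨φ ∘ₗ T i, hstab i φ hφ⟩ = ψ ⟨a i, hi⟩ * w ⟨φ, hφ⟩ := by
  have : Module.Finite ℤ L := Module.Finite.iff_fg.2 hLfg
  obtain ⟨w, hw0, hw⟩ := exists_eigen_addMonoidHom_of_family (evalHom L v)
    (evalHom_ne_zero L v hv) (fun i => transposeHom L (T i) (hstab i)) a
    (fun i x => evalHom_transposeHom L (T i) (hstab i) v (a i) (hev i) x) ψ
  exact ⟨w, hw0, fun i hi φ hφ => hw i hi ⟨φ, hφ⟩⟩

/-- The same with the eigenvalues given as algebraic integers (the shape of the conclusion of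
`S29.helper5875.exists_eigen_functional_of_lattice`, indexed by the family). -/
theorem exists_eigen_functional_of_family'
    (L : Submodule ℤ (V →ₗ[ℂ] ℂ)) (hLfg : L.FG)
    {I : Type*} (T : I → Module.End ℂ V)
    (hstab : ∀ i, ∀ φ ∈ L, φ ∘ₗ T i ∈ L)
    (v : V) (hv : ∃ φ ∈ L, φ v ≠ 0) (a : I → ℂ) (hev : ∀ i, T i v = a i • v)
    {κ : Type*} [Field κ] (ψ : integralClosure ℤ ℂ →+* κ) :
    ∃ w : L →+ κ, w ≠ 0 ∧
      ∀ (i : I) (t : integralClosure ℤ ℂ), (t : ℂ) = a i →
        ∀ (φ : V →ₗ[ℂ] ℂ) (hφ : φ ∈ L),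
          w ⟨φ ∘ₗ T i, hstab i φ hφ⟩ = ψ t * w ⟨φ, hφ⟩ := by
  obtain ⟨w, hw0, hw⟩ := exists_eigen_functional_of_family L hLfg T hstab v hv a hev ψ
  refine ⟨w, hw0, fun i t ht φ hφ => ?_⟩
  have hint := isIntegral_eigenvalue_of_lattice L hLfg (T i) (hstab i) v hv (a i) (hev i)
  have : t = ⟨a i, hint⟩ := Subtype.ext ht
  rw [this]
  exact hw i hint φ hφ

end Lattice

end Fermat.Agent.S48.helper9143
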