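/-
S48 (Deligne–Serre) blueprint, machine half — Spec (M3) OCCURRENCE and the acceptance test
`kummerMod_of` of the machine Specs (sub-architect helper2754).

`helper8231.KummerModAt M ℓ` (Spec Parts II–III) is reduced to TWO Props on ONE Galois–Hecke
module `m : GalHecke` per pair `(M, ℓ)`:

* `IsUES M ℓ m`  (owners M1 + M2): open stabilisers, Galois-equivariance of `T p`, `D p`,
  (U) trivial inertia and (ES) `σ² - T_p σ + p ⟨p⟩ = 0` on `J[ℓ]`, at the primes `p ∤ M ℓ`;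
* `HasPeriodKummer M ℓ m` (owner M3): the period lattice `L` of `S₂(Γ₁(M))` with the transposes
  `τ p`, `δ p` of `T_p`, `⟨p⟩`, and the Kummer map `ι : L^∨ → J`, killed by `ℓ`, with kernel
  `ℓ L^∨`, intertwining `τ p`, `δ p` with `T p`, `D p`.

Compiled here:
* `occ_of_periodKummer` : `HasPeriodKummer M ℓ m → IsOcc M ℓ m` (eigen-functional on the lattice
  without commutativity = `helper9143`; transport to `κ ⊗ J[ℓ]` = landed S29 `helper1590`);
* `kummerModAt_of`      : `IsUES M ℓ m → HasPeriodKummer M ℓ m → KummerModAt M ℓ` (Part III);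
* `kummerMod2_of`       : the two-variable acceptance test `… → Stmt_KummerMod2 L2`;
* `kummerMod_of`        : `(∀ M ℓ, ∃ m, IsUES M ℓ m ∧ HasPeriodKummer M ℓ m) → Stmt_KummerMod`;
* `HasPerLattice M ℓ tT tD` (PER) and `HasKummerMap M ℓ m tT tD` (K5): the two halves of (PK),
  tied by transfer operators `tT p`, `tD p` on `Hom(Γ₁(M), ℤ)`; `hasPeriodKummer_of`;
* `kummerMod_of_three` : (PER) + `∃ m, IsUES ∧ HasKummerMap` ⟹ `Stmt_KummerMod`.

Conventions ((D1)–(D5) of the machine thread, = `helper8231.IsEigen2`): nebentypus through the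
LOWER-RIGHT entry; `T p` is the operator with `a_n(T_p g) = a_{pn} + p ψ(p) a_{n/p}`; `D p = ⟨p⟩`
has eigenvalue `ψ p`; on functions `T_p u = ∏_b u∘[1,b;0,p] · (⟨p⟩u)∘[p,0;0,1]`.
-/
import Fermat.Agent.S48.helper8231_SpecLevel
import Fermat.Agent.S48.helper9143_EigenFunctional
import Fermat.Agent.S29.helper1590_OccAssembly
import Fermat.Prelude.Def_ModularCurve_PeriodMap
import Fermat.Agent.S48.helper5251_HeckeGamma1Corr
import Fermat.Agent.S48.helper4325_CorrGamma1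

set_option autoImplicit false

open scoped TensorProduct
open CongruenceSubgroup Polynomial

noncomputable section

namespace Fermat.Agent.S48.helper2754

open Fermat.Agent.S48.helper8231

local notation "Qb" => AlgebraicClosure ℚ

/-! ## Galois–Hecke modules -/

/-- A Galois–Hecke module: an abelian group `J` with a `ℤ`-linear action `r` of `Gal(ℚ̄/ℚ)` and
two families of endomorphisms `T p`, `D p` indexed by the primes.
(For level `M`: `J = Pic⁰` of the `ℚ̄`-function field of `X₁(M)` or its `ℓ`-torsion, `r` the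
Galois action, `T p` the Hecke operator and `D p` the diamond `⟨p⟩` on classes.) -/
structure GalHecke where
  /-- the underlying abelian group -/
  J : Type
  /-- its group structure -/
  [acg : AddCommGroup J]
  /-- the Galois action -/
  r : GQ →* Module.End ℤ J
  /-- the Hecke operators -/
  T : Nat.Primes → Module.End ℤ J
  /-- the diamond operators `⟨p⟩` -/
  D : Nat.Primes → Module.End ℤ J

attribute [instance] GalHecke.acg

section Torsion

variable {J : Type} [AddCommGroup J] (ℓ : ℕ)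

/-- Every endomorphism preserves the `ℓ`-torsion. -/
theorem torsionBy_stable (f : Module.End ℤ J) :
    ∀ y ∈ Submodule.torsionBy ℤ J (ℓ : ℤ), f y ∈ Submodule.torsionBy ℤ J (ℓ : ℤ) := by
  intro y hy
  rw [Submodule.mem_torsionBy_iff] at hy ⊢
  rw [← map_zsmul, hy, map_zero]

/-- The restriction of an endomorphism to the `ℓ`-torsion. -/
def torsRestrict (f : Module.End ℤ J) : Module.End ℤ (Submodule.torsionBy ℤ J (ℓ : ℤ)) :=
  f.restrict (torsionBy_stable ℓ f)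

theorem coe_torsRestrict (f : Module.End ℤ J) (y : Submodule.torsionBy ℤ J (ℓ : ℤ)) :
    ((torsRestrict ℓ f y : Submodule.torsionBy ℤ J (ℓ : ℤ)) : J) = f (y : J) := rfl

theorem nsmul_eq_zero_of_mem_torsionBy {y : J} (hy : y ∈ Submodule.torsionBy ℤ J (ℓ : ℤ)) :
    ℓ • y = 0 := by
  rw [Submodule.mem_torsionBy_iff] at hy
  rw [← natCast_zsmul]
  exact hy

/-- The restriction of a representation to the `ℓ`-torsion. -/
def torsRep (r : GQ →* Module.End ℤ J) : GQ →* Module.End ℤ (Submodule.torsionBy ℤ J (ℓ : ℤ)) where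
  toFun σ := torsRestrict ℓ (r σ)
  map_one' := by
    apply LinearMap.ext
    intro y
    apply Subtype.ext
    rw [coe_torsRestrict, map_one]
    rfl
  map_mul' σ τ := by
    apply LinearMap.ext
    intro y
    apply Subtype.ext
    rw [coe_torsRestrict, map_mul]
    rfl

theorem coe_torsRep (r : GQ →* Module.End ℤ J) (σ : GQ)
    (y : Submodule.torsionBy ℤ J (ℓ : ℤ)) :
    ((torsRep ℓ r σ y : Submodule.torsionBy ℤ J (ℓ : ℤ)) : J) = r σ (y : J) := rfl

end Torsion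

/-- (UES) for a Galois–Hecke module at level `M` and torsion exponent `ℓ`: open stabilisers,
Galois-equivariance of the operators, (U) and (ES with diamonds) on the `ℓ`-torsion, at all
primes `p ∤ M ℓ`.  [Owners: M1 (`Stmt_KF1`) + M2.] -/
structure IsUES (M ℓ : ℕ) (m : GalHecke) : Prop where
  /-- every `ℓ`-torsion point is defined over a number field -/
  openStab : ∀ y : m.J, ℓ • y = 0 →
    ∃ L : IntermediateField ℚ Qb, FiniteDimensional ℚ L ∧
      ∀ σ : GQ, (∀ z ∈ L, σ z = z) → m.r σ y = y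
  /-- the Hecke operators `T p`, `p ∤ M ℓ`, commute with the Galois action on the `ℓ`-torsion -/
  commT : ∀ p : Nat.Primes, ¬ (p : ℕ) ∣ M * ℓ → ∀ (σ : GQ) (y : m.J), ℓ • y = 0 →
    m.T p (m.r σ y) = m.r σ (m.T p y)
  /-- the diamond operators `D p`, `p ∤ M ℓ`, commute with the Galois action on the `ℓ`-torsion -/
  commD : ∀ p : Nat.Primes, ¬ (p : ℕ) ∣ M * ℓ → ∀ (σ : GQ) (y : m.J), ℓ • y = 0 →
    m.D p (m.r σ y) = m.r σ (m.D p y)
  /-- (U) inertia at `p ∤ M ℓ` acts trivially on the `ℓ`-torsion -/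
  unr : ∀ p : ℕ, p.Prime → ¬ p ∣ M * ℓ →
    ∀ A : ValuationSubring Qb, A.LiesOverPrime p →
      ∀ τ ∈ A.inertiaSubgroupIn ℚ, ∀ y : m.J, ℓ • y = 0 → m.r τ y = y
  /-- (ES) `σ² - T_p σ + p ⟨p⟩ = 0` on the `ℓ`-torsion for every Frobenius `σ` at `p ∤ M ℓ` -/
  es : ∀ (p : ℕ) (hp : p.Prime), ¬ p ∣ M * ℓ →
    ∀ A : ValuationSubring Qb, A.LiesOverPrime p →
      ∀ σ : GQ, A.IsFrobeniusAt σ p → ∀ y : m.J, ℓ • y = 0 →
        m.r σ (m.r σ y) - m.T ⟨p, hp⟩ (m.r σ y) + p • m.D ⟨p, hp⟩ y = 0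

/-- (OCC) for a Galois–Hecke module at level `M` and torsion exponent `ℓ`: for every weight-two
eigenvector `g` on `Γ₁(M)` with nebentypus `ψ` and eigenvalues `b p`, the `b p` (`p ∤ M`) are
algebraic integers and the eigensystem `(b p, ψ p)_{p ∤ M ℓ}` occurs in `κ ⊗ J[ℓ]` for every
field `κ` of characteristic `ℓ` and every `φ : ℤ̄ → κ`. -/
def IsOcc (M ℓ : ℕ) (m : GalHecke) : Prop :=
  ∀ (ψ : DirichletCharacter ℂ M) (g : CuspForm (Gamma1 M) 2) (b : ℕ → ℂ), IsEigen2 M ψ g b →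
    (∀ p : ℕ, p.Prime → ¬ p ∣ M → IsIntegral ℤ (b p)) ∧
    ∀ (κ : Type) [Field κ] [CharP κ ℓ] (φ : Zc →+* κ),
      ∃ x : κ ⊗[ℤ] (Submodule.torsionBy ℤ m.J (ℓ : ℤ)), x ≠ 0 ∧
        ∀ p : Nat.Primes, ¬ (p : ℕ) ∣ M * ℓ →
          ∀ t d : Zc, (t : ℂ) = b p → (d : ℂ) = ψ ((p : ℕ) : ZMod M) →
            (torsRestrict ℓ (m.T p)).baseChange κ x = φ t • x ∧
            (torsRestrict ℓ (m.D p)).baseChange κ x = φ d • x

/-! ## (OCC) from the period lattice and the Kummer map -/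

/-- (PK) The period–Kummer datum for a Galois–Hecke module at level `M`, exponent `ℓ`:
a finite free `ℤ`-module `L` (the period lattice of `S₂(Γ₁(M))`: the `ℤ`-span of the period
functionals `g ↦ ∫_γ g`, `γ ∈ Γ₁(M)`) with
* `per y g` the value of `y` on `g`, separating;
* operators `τ p` (all `p ∤ M`) and `δ p` (`p ∤ M ℓ`), the transposes of `T_p`, `⟨p⟩`: they
  multiply `per · g` by `b p`, `ψ p` when `g` is an eigenvector as in `IsEigen2`;
* the Kummer map `ι : L^∨ → J`, killed by `ℓ`, with kernel inside `ℓ L^∨`, intertwining the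
  transposes of `τ p`, `δ p` with `T p`, `D p` for `p ∤ M ℓ`.
[Suppliers: PER `helper3284` + HECKE1 `helper5251` + EIG2OP `helper2754_Eigen2Op` (first three
clauses); K5G `helper2756.exists_k5G` composed with `helper3284.toPar` (last three), from the
analytic Kummer dictionary `MultSpecG` + `OpRel` + M2's `ClassOp`.] -/
def HasPeriodKummer (M ℓ : ℕ) (m : GalHecke) : Prop :=
  ∃ (L : Type) (_ : AddCommGroup L) (_ : Module.Free ℤ L) (_ : Module.Finite ℤ L)
    (per : L →+ (CuspForm (Gamma1 M) 2 → ℂ))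
    (τ δ : Nat.Primes → Module.End ℤ L) (ι : Module.Dual ℤ L →+ m.J),
    (∀ g : CuspForm (Gamma1 M) 2, g ≠ 0 → ∃ y : L, per y g ≠ 0) ∧
    (∀ (ψ : DirichletCharacter ℂ M) (g : CuspForm (Gamma1 M) 2) (b : ℕ → ℂ),
      IsEigen2 M ψ g b → ∀ p : Nat.Primes, ¬ (p : ℕ) ∣ M → ∀ y : L,
        per (τ p y) g = b p * per y g) ∧
    (∀ (ψ : DirichletCharacter ℂ M) (g : CuspForm (Gamma1 M) 2) (b : ℕ → ℂ),
      IsEigen2 M ψ g b → ∀ p : Nat.Primes, ¬ (p : ℕ) ∣ M * ℓ → ∀ y : L,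
        per (δ p y) g = ψ ((p : ℕ) : ZMod M) * per y g) ∧
    (∀ f : Module.Dual ℤ L, ℓ • ι f = 0) ∧
    (∀ f : Module.Dual ℤ L, ι f = 0 → ∃ f' : Module.Dual ℤ L, f = ℓ • f') ∧
    (∀ p : Nat.Primes, ¬ (p : ℕ) ∣ M * ℓ → ∀ f : Module.Dual ℤ L,
      ι (f ∘ₗ τ p) = m.T p (ι f) ∧ ι (f ∘ₗ δ p) = m.D p (ι f))

/-- **(OCC) from the period–Kummer datum.** -/
theorem occ_of_periodKummer (M ℓ : ℕ) (hℓ : ℓ.Prime) (m : GalHecke)
    (h : HasPeriodKummer M ℓ m) : IsOcc M ℓ m := by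
  obtain ⟨L, _, _, _, per, τ, δ, ι, hsep, heigT, heigD, hιℓ, hker, hequiv⟩ := h
  intro ψ g b hg
  classical
  have : Fact ℓ.Prime := ⟨hℓ⟩
  -- the evaluation at `g`
  let ev : L →+ ℂ := (Pi.evalAddMonoidHom (fun _ : CuspForm (Gamma1 M) 2 => ℂ) g).comp per
  have hev : ∀ y, ev y = per y g := fun _ => rfl
  have hev0 : ev ≠ 0 := by
    obtain ⟨y, hy⟩ := hsep g hg.1
    intro h0
    apply hy
    rw [← hev, h0]
    rfl
  constructor
  · -- integrality of `b p`, `p ∤ M`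
    intro p hp hpM
    let I₀ : Type := {q : Nat.Primes // ¬ (q : ℕ) ∣ M}
    exact helper9143.isIntegral_of_family ev hev0
      (fun i : I₀ => (τ i.1).toAddMonoidHom) (fun i : I₀ => b ((i.1 : Nat.Primes) : ℕ))
      (fun i y => heigT ψ g b hg i.1 i.2 y) (⟨⟨p, hp⟩, hpM⟩ : I₀)
  · intro κ _ _ φ
    -- the index set: good primes, Hecke (`false`) or diamond (`true`)
    let I : Type := {p : Nat.Primes // ¬ (p : ℕ) ∣ M * ℓ} × Bool
    have hIM : ∀ i : I, ¬ ((i.1.1 : Nat.Primes) : ℕ) ∣ M := fun i hdvd =>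
      i.1.2 (Dvd.dvd.mul_right hdvd ℓ)
    let τI : I → Module.End ℤ L := fun i => if i.2 then δ i.1.1 else τ i.1.1
    let aI : I → ℂ := fun i => if i.2 then ψ (((i.1.1 : Nat.Primes) : ℕ) : ZMod M)
      else b ((i.1.1 : Nat.Primes) : ℕ)
    have hrel : ∀ i y, ev ((τI i).toAddMonoidHom y) = aI i * ev y := by
      rintro ⟨⟨p, hp⟩, c⟩ y
      cases c
      · exact heigT ψ g b hg p (hIM ⟨⟨p, hp⟩, false⟩) y
      · exact heigD ψ g b hg p hp y
    have hint : ∀ i, IsIntegral ℤ (aI i) :=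
      helper9143.isIntegral_of_family ev hev0 (fun i => (τI i).toAddMonoidHom) aI hrel
    obtain ⟨w, hw0, hw⟩ := helper9143.exists_eigen_addMonoidHom_of_family ev hev0
      (fun i => (τI i).toAddMonoidHom) aI hrel φ
    let TI : I → Module.End ℤ m.J := fun i => if i.2 then m.D i.1.1 else m.T i.1.1
    let cI : I → κ := fun i => φ ⟨aI i, hint i⟩
    obtain ⟨x, hx0, hx⟩ := Fermat.Agent.S29.helper1590.exists_eigenvector_of_functional (κ := κ)
      ℓ ι hιℓ hker τI TI (fun i => torsionBy_stable ℓ (TI i))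
      (fun i f => by
        obtain ⟨⟨p, hp⟩, c⟩ := i
        cases c
        · exact (hequiv p hp f).1
        · exact (hequiv p hp f).2)
      cI w hw0 (fun i y => hw i (hint i) y)
    refine ⟨x, hx0, fun p hp t d ht hd => ⟨?_, ?_⟩⟩
    · have h1 := hx (⟨⟨p, hp⟩, false⟩ : I)
      have h2 : cI (⟨⟨p, hp⟩, false⟩ : I) = φ t := by
        simp only [cI]
        congr 1
        exact Subtype.ext ht.symm
      rw [h2] at h1
      exact h1
    · have h1 := hx (⟨⟨p, hp⟩, true⟩ : I)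
      have h2 : cI (⟨⟨p, hp⟩, true⟩ : I) = φ d := by
        simp only [cI]
        congr 1
        exact Subtype.ext hd.symm
      rw [h2] at h1
      exact h1

/-! ## The two halves of (PK): the period lattice and the Kummer map -/

/-- (PER) The period lattice of `S₂(Γ₁(M))` with its transposed Hecke and diamond operators,
relative to transfer operators `tT p`, `tD p` on `Hom(Γ₁(M), ℤ)`
(intended: `tT p = (corrT1 M p).op ℤ`, the coset transfer over `{[1,j;0,p], γ_p [p,0;0,1]}`, and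
`tD p = ` composition with conjugation by `γ_p ∈ Γ₀(M)`, lower-right entry `p`):
`L` finite free, `per` separating, `τ p` / `δ p` act on `per · g` through `b p` / `ψ p` for
`IsEigen2` eigenvectors, `toPar : L^∨ → Λ` (`Λ` = integral parabolic homs, `toPar f = f ∘ perHom`)
is saturated at `ℓ` and intertwines transposition by `τ p`, `δ p` with `tT p`, `tD p`.
[Suppliers: PER `helper3284` (P5)–(P9), CORR1 `helper4325`, HECKE1 `helper5251`,
EIG2OP `helper2754_Eigen2Op`.] -/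
def HasPerLattice (M ℓ : ℕ)
    (tT tD : Nat.Primes → (Additive (Gamma1 M) →+ ℤ) → (Additive (Gamma1 M) →+ ℤ)) : Prop :=
  ∃ (L : Type) (_ : AddCommGroup L) (_ : Module.Free ℤ L) (_ : Module.Finite ℤ L)
    (per : L →+ (CuspForm (Gamma1 M) 2 → ℂ))
    (τ δ : Nat.Primes → Module.End ℤ L)
    (toPar : Module.Dual ℤ L →+ ↥(ModularCurve.Period.parabolicHoms ℤ (Gamma1 M) ℤ)),
    (∀ g : CuspForm (Gamma1 M) 2, g ≠ 0 → ∃ y : L, per y g ≠ 0) ∧
    (∀ (ψ : DirichletCharacter ℂ M) (g : CuspForm (Gamma1 M) 2) (b : ℕ → ℂ),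
      IsEigen2 M ψ g b → ∀ p : Nat.Primes, ¬ (p : ℕ) ∣ M → ∀ y : L,
        per (τ p y) g = b p * per y g) ∧
    (∀ (ψ : DirichletCharacter ℂ M) (g : CuspForm (Gamma1 M) 2) (b : ℕ → ℂ),
      IsEigen2 M ψ g b → ∀ p : Nat.Primes, ¬ (p : ℕ) ∣ M * ℓ → ∀ y : L,
        per (δ p y) g = ψ ((p : ℕ) : ZMod M) * per y g) ∧
    (∀ f : Module.Dual ℤ L,
      (∃ μ : ↥(ModularCurve.Period.parabolicHoms ℤ (Gamma1 M) ℤ), toPar f = ℓ • μ) →
        ∃ f' : Module.Dual ℤ L, f = ℓ • f') ∧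
    (∀ p : Nat.Primes, ¬ (p : ℕ) ∣ M * ℓ → ∀ f : Module.Dual ℤ L,
      ((toPar (f ∘ₗ τ p) : ↥(ModularCurve.Period.parabolicHoms ℤ (Gamma1 M) ℤ)) :
          Additive (Gamma1 M) →+ ℤ) =
        tT p ((toPar f : ↥(ModularCurve.Period.parabolicHoms ℤ (Gamma1 M) ℤ)) :
          Additive (Gamma1 M) →+ ℤ) ∧
      ((toPar (f ∘ₗ δ p) : ↥(ModularCurve.Period.parabolicHoms ℤ (Gamma1 M) ℤ)) :
          Additive (Gamma1 M) →+ ℤ) =
        tD p ((toPar f : ↥(ModularCurve.Period.parabolicHoms ℤ (Gamma1 M) ℤ)) :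
          Additive (Gamma1 M) →+ ℤ))

/-- (K5) The Kummer map of a Galois–Hecke module at level `M`, exponent `ℓ`, relative to the
transfer operators `tT p`, `tD p`: an additive map `ι₀ : Λ → J` from the integral parabolic homs
of `Γ₁(M)`, killed by `ℓ`, with kernel inside `ℓ Λ`, intertwining `tT p`, `tD p` with `T p`,
`D p` for `p ∤ M ℓ`.
[Supplier: `helper2756.exists_k5G` from the analytic Kummer dictionary `MultSpecG` (TH2–TH4),
`OpRel` (TH5) for `(Tf p, tT p)`, `(Df p, tD p)` and M2's `ClassOp`.] -/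
def HasKummerMap (M ℓ : ℕ) (m : GalHecke)
    (tT tD : Nat.Primes → (Additive (Gamma1 M) →+ ℤ) → (Additive (Gamma1 M) →+ ℤ)) : Prop :=
  ∃ ι₀ : ↥(ModularCurve.Period.parabolicHoms ℤ (Gamma1 M) ℤ) →+ m.J,
    (∀ μ, ℓ • ι₀ μ = 0) ∧
    (∀ μ, ι₀ μ = 0 → ∃ ν : ↥(ModularCurve.Period.parabolicHoms ℤ (Gamma1 M) ℤ), μ = ℓ • ν) ∧
    ∀ p : Nat.Primes, ¬ (p : ℕ) ∣ M * ℓ →
      ∀ μ μ' : ↥(ModularCurve.Period.parabolicHoms ℤ (Gamma1 M) ℤ),
        ((μ' : Additive (Gamma1 M) →+ ℤ) = tT p (μ : Additive (Gamma1 M) →+ ℤ) →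
          ι₀ μ' = m.T p (ι₀ μ)) ∧
        ((μ' : Additive (Gamma1 M) →+ ℤ) = tD p (μ : Additive (Gamma1 M) →+ ℤ) →
          ι₀ μ' = m.D p (ι₀ μ))

/-- **(PK) from (PER) and (K5)**, for any transfer operators. -/
theorem hasPeriodKummer_of (M ℓ : ℕ) (m : GalHecke)
    (tT tD : Nat.Primes → (Additive (Gamma1 M) →+ ℤ) → (Additive (Gamma1 M) →+ ℤ))
    (h₁ : HasPerLattice M ℓ tT tD) (h₂ : HasKummerMap M ℓ m tT tD) :
    HasPeriodKummer M ℓ m := by
  obtain ⟨L, i1, i2, i3, per, τ, δ, toPar, hsep, heigT, heigD, hsat, htr⟩ := h₁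
  obtain ⟨ι₀, hι₀ℓ, hι₀ker, hι₀eq⟩ := h₂
  refine ⟨L, i1, i2, i3, per, τ, δ, ι₀.comp toPar, hsep, heigT, heigD, ?_, ?_, ?_⟩
  · intro f
    exact hι₀ℓ (toPar f)
  · intro f hf
    exact hsat f (hι₀ker (toPar f) hf)
  · intro p hp f
    obtain ⟨h1, h2⟩ := htr p hp f
    exact ⟨(hι₀eq p hp (toPar f) (toPar (f ∘ₗ τ p))).1 h1,
      (hι₀eq p hp (toPar f) (toPar (f ∘ₗ δ p))).2 h2⟩

/-! ## The literal transfer operators (conventions (D1), (D2)) -/

/-- **The transfer of `T_p` on `Hom(Γ₁(M), A)`** — THE operator of record is CORR1's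
`helper4325.tT M A p` (landed `helper4325_CorrGamma1`): the coset transfer `(corrT1 M p hp δ hδ).op A`
over the `p + 1` cosets `Γ₁(M) [1,j;0,p]` (`j mod p`) and `Γ₁(M) δ [p,0;0,1]` (`δ ∈ Γ₀(M)` with
LOWER-RIGHT entry `≡ p`; independent of `δ`), i.e. the `T_p` with
`a_n(T_p g) = a_{pn} + p ψ(p) a_{n/p}`; the identity if `p ∣ M`.
(It equals `(helper5251.corrT1 hp h).op A` of HECKE1: `helper4325.tT_eq_hecke1`.) -/
abbrev transT (M : ℕ) (A : Type) [AddCommGroup A] :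
    Nat.Primes → (Additive (Gamma1 M) →+ A) → (Additive (Gamma1 M) →+ A) :=
  helper4325.tT M A

/-- **The transfer of the diamond `⟨p⟩` on `Hom(Γ₁(M), A)`** — THE operator of record is CORR1's
`helper4325.tD M A p`: `φ ↦ φ ∘ (conjugation by δ)` for any `δ ∈ Γ₀(M)` with LOWER-RIGHT entry
`≡ p`; the identity if `p ∣ M`. -/
abbrev transD (M : ℕ) (A : Type) [AddCommGroup A] :
    Nat.Primes → (Additive (Gamma1 M) →+ A) → (Additive (Gamma1 M) →+ A) :=
  helper4325.tD M A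

theorem transT_eq_tT (M : ℕ) (A : Type) [AddCommGroup A] : transT M A = helper4325.tT M A := rfl

theorem transD_eq_tD (M : ℕ) (A : Type) [AddCommGroup A] : transD M A = helper4325.tD M A := rfl

/-- **(KMOD) at one pair `(M, ℓ)` for the literal transfer operators** — the three targets of
the machine: `IsUES M ℓ m` (M1 + M2), `HasPerLattice M ℓ (transT M ℤ) (transD M ℤ)` (PER) and
`HasKummerMap M ℓ m (transT M ℤ) (transD M ℤ)` (Kummer dictionary + TH5 + M2's class operators). -/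
def KummerTargets (M : ℕ) [NeZero M] (ℓ : ℕ) (m : GalHecke) : Prop :=
  IsUES M ℓ m ∧ HasPerLattice M ℓ (transT M ℤ) (transD M ℤ) ∧
    HasKummerMap M ℓ m (transT M ℤ) (transD M ℤ)

/-! ## The acceptance test: `Stmt_KummerMod` from (UES) and (PK) -/

/-- **(KMOD) at one pair `(M, ℓ)` from (UES) and (OCC)** (`helper8231.KummerModAt`, Spec
Part III): `P := J[ℓ]` with the restricted action and operators (zero at the bad primes). -/
theorem kummerModAt_of_occ (M : ℕ) [NeZero M] (ℓ : ℕ) (m : GalHecke)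
    (hU : IsUES M ℓ m) (hO : IsOcc M ℓ m) : KummerModAt M ℓ := by
  classical
  -- the operators on the `ℓ`-torsion (zero at the bad primes)
  let TP : Nat.Primes → Module.End ℤ (Submodule.torsionBy ℤ m.J (ℓ : ℤ)) := fun p =>
    if (p : ℕ) ∣ M * ℓ then 0 else torsRestrict ℓ (m.T p)
  let DP : Nat.Primes → Module.End ℤ (Submodule.torsionBy ℤ m.J (ℓ : ℤ)) := fun p =>
    if (p : ℕ) ∣ M * ℓ then 0 else torsRestrict ℓ (m.D p)
  refine ⟨Submodule.torsionBy ℤ m.J (ℓ : ℤ), inferInstance, torsRep ℓ m.r, TP, DP,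
    ?_, ?_, ?_, ?_, ?_, ?_⟩
  · intro y
    obtain ⟨L, hL, hLy⟩ := hU.openStab (y : m.J) (nsmul_eq_zero_of_mem_torsionBy ℓ y.2)
    exact ⟨L, hL, fun σ hσ => Subtype.ext (hLy σ hσ)⟩
  · intro p σ y
    by_cases hp : (p : ℕ) ∣ M * ℓ
    · simp only [TP, if_pos hp, LinearMap.zero_apply, map_zero]
    · simp only [TP, if_neg hp]
      exact Subtype.ext (hU.commT p hp σ (y : m.J) (nsmul_eq_zero_of_mem_torsionBy ℓ y.2))
  · intro p σ y
    by_cases hp : (p : ℕ) ∣ M * ℓ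
    · simp only [DP, if_pos hp, LinearMap.zero_apply, map_zero]
    · simp only [DP, if_neg hp]
      exact Subtype.ext (hU.commD p hp σ (y : m.J) (nsmul_eq_zero_of_mem_torsionBy ℓ y.2))
  · intro p hp hpMℓ A hA τ hτ y
    exact Subtype.ext
      (hU.unr p hp hpMℓ A hA τ hτ (y : m.J) (nsmul_eq_zero_of_mem_torsionBy ℓ y.2))
  · intro p hp hpMℓ A hA σ hσ y
    have hT' : TP ⟨p, hp⟩ = torsRestrict ℓ (m.T ⟨p, hp⟩) := if_neg hpMℓ
    have hD' : DP ⟨p, hp⟩ = torsRestrict ℓ (m.D ⟨p, hp⟩) := if_neg hpMℓ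
    rw [hT', hD']
    exact Subtype.ext
      (hU.es p hp hpMℓ A hA σ hσ (y : m.J) (nsmul_eq_zero_of_mem_torsionBy ℓ y.2))
  · intro ψ g b hg
    obtain ⟨hint, hocc⟩ := hO ψ g b hg
    refine ⟨hint, ?_⟩
    intro κ _ _ _ φ _
    obtain ⟨x, hx0, hx⟩ := hocc κ φ
    refine ⟨x, hx0, fun p hp tb tψ htb htψ => ?_⟩
    have hT' : TP p = torsRestrict ℓ (m.T p) := if_neg hp
    have hD' : DP p = torsRestrict ℓ (m.D p) := if_neg hp
    rw [hT', hD']
    exact hx p hp tb tψ htb htψ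

/-- **(KMOD) at one pair `(M, ℓ)` from (UES) and the period–Kummer datum.** -/
theorem kummerModAt_of (M : ℕ) [NeZero M] (ℓ : ℕ) (hℓ : ℓ.Prime) (m : GalHecke)
    (hU : IsUES M ℓ m) (hPK : HasPeriodKummer M ℓ m) : KummerModAt M ℓ :=
  kummerModAt_of_occ M ℓ m hU (occ_of_periodKummer M ℓ hℓ m hPK)

/-- **(KMOD) at one pair `(M, ℓ)` from (UES), (PER) and (K5)**: the three-owner form. -/
theorem kummerModAt_of_three (M : ℕ) [NeZero M] (ℓ : ℕ) (hℓ : ℓ.Prime) (m : GalHecke)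
    (tT tD : Nat.Primes → (Additive (Gamma1 M) →+ ℤ) → (Additive (Gamma1 M) →+ ℤ))
    (hU : IsUES M ℓ m) (hPer : HasPerLattice M ℓ tT tD) (hK : HasKummerMap M ℓ m tT tD) :
    KummerModAt M ℓ :=
  kummerModAt_of M ℓ hℓ m hU (hasPeriodKummer_of M ℓ m tT tD hPer hK)

/-- **(KMOD) at one pair `(M, ℓ)` from the three targets.** -/
theorem kummerModAt_of_targets (M : ℕ) [NeZero M] (ℓ : ℕ) (hℓ : ℓ.Prime) (m : GalHecke)
    (h : KummerTargets M ℓ m) : KummerModAt M ℓ :=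
  kummerModAt_of_three M ℓ hℓ m (transT M ℤ) (transD M ℤ) h.1 h.2.1 h.2.2

/-- **The acceptance test of the machine Specs, two-variable level form** (Spec Part III):
M1 + M2 supply `IsUES`, M3 supplies `HasPeriodKummer`, for ONE module `m` per `(M, ℓ)`. -/
theorem kummerMod2_of (L2 : ℕ → ℕ → Prop)
    (h : ∀ (M : ℕ) [NeZero M] (ℓ : ℕ), ℓ.Prime → L2 M ℓ →
      ∃ m : GalHecke, IsUES M ℓ m ∧ HasPeriodKummer M ℓ m) :
    Stmt_KummerMod2 L2 := fun M _ ℓ hℓ hL => by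
  obtain ⟨m, hU, hPK⟩ := h M ℓ hℓ hL
  exact kummerModAt_of M ℓ hℓ m hU hPK

/-- **(KMOD) from (UES) and (OCC)**, one-variable level form (Spec Part II). -/
theorem kummerMod_of_occ (LevelOK : ℕ → Prop)
    (h : ∀ (M : ℕ) [NeZero M] (ℓ : ℕ), LevelOK M → ℓ.Prime →
      ∃ m : GalHecke, IsUES M ℓ m ∧ IsOcc M ℓ m) :
    Stmt_KummerMod LevelOK := fun M _ hlev ℓ hℓ => by
  obtain ⟨m, hU, hO⟩ := h M ℓ hlev hℓ
  exact kummerModAt_of_occ M ℓ m hU hO

/-- **(KMOD) from (UES) and the period–Kummer datum** — the acceptance test of the machine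
Specs: M1 + M2 supply `IsUES`, M3 supplies `HasPeriodKummer`, for ONE module `m` per `(M, ℓ)`. -/
theorem kummerMod_of (LevelOK : ℕ → Prop)
    (h : ∀ (M : ℕ) [NeZero M] (ℓ : ℕ), LevelOK M → ℓ.Prime →
      ∃ m : GalHecke, IsUES M ℓ m ∧ HasPeriodKummer M ℓ m) :
    Stmt_KummerMod LevelOK :=
  kummerMod_of_occ LevelOK fun M _ ℓ hlev hℓ => by
    obtain ⟨m, hU, hPK⟩ := h M ℓ hlev hℓ
    exact ⟨m, hU, occ_of_periodKummer M ℓ hℓ m hPK⟩

/-- **(KMOD) from (UES), (PER) and (K5)**: the three-owner form.  `tT M ℓ p`, `tD M ℓ p` are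
the transfer operators on `Hom(Γ₁(M), ℤ)` (any functions: they only tie (PER) to (K5)). -/
theorem kummerMod_of_three (LevelOK : ℕ → Prop)
    (tT tD : ∀ M : ℕ, Nat.Primes → (Additive (Gamma1 M) →+ ℤ) → (Additive (Gamma1 M) →+ ℤ))
    (hPer : ∀ (M : ℕ) [NeZero M] (ℓ : ℕ), LevelOK M → ℓ.Prime →
      HasPerLattice M ℓ (tT M) (tD M))
    (h : ∀ (M : ℕ) [NeZero M] (ℓ : ℕ), LevelOK M → ℓ.Prime →
      ∃ m : GalHecke, IsUES M ℓ m ∧ HasKummerMap M ℓ m (tT M) (tD M)) :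
    Stmt_KummerMod LevelOK :=
  kummerMod_of LevelOK fun M _ ℓ hlev hℓ => by
    obtain ⟨m, hU, hK⟩ := h M ℓ hlev hℓ
    exact ⟨m, hU, hasPeriodKummer_of M ℓ m (tT M) (tD M) (hPer M ℓ hlev hℓ) hK⟩

end Fermat.Agent.S48.helper2754
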