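import Fermat.Agent.S48.helper2756_K5Gen
import Fermat.Agent.S48.helper2754_SpecM3

/-!
# S48 (M3): `HasKummerMap` of the M3 Spec from the analytic Kummer dictionary

`helper2754.HasKummerMap M ℓ m tT tD` (the (K5) half of the period–Kummer datum of
`helper2754_SpecM3`) is `helper2756.exists_k5G` for the subgroup `Γ₁(M)`, the modulus `ℓ` and the
two families of operator pairs `(Tf p, TJ p)`, `(Df p, DJ p)`:

* `MultSpecG ℚ̄ (Gamma1 M) ℓ Mult`            -- the analytic dictionary (TH2)–(TH4);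
* `OpRel ℚ̄ (Gamma1 M) ℓ Mult (Tf p) (tT p)`   -- (TH5) for `T_p` (and `(Df p, tD p)` for `⟨p⟩`);
* `ClassOp ℚ̄ ℓ (Tf p) (TJ p)`                 -- the algebraic side (M2).

The Galois–Hecke module `m` may be `Pic⁰` itself (`hasKummerMap_pic0`), its `ℓ`-torsion
(`hasKummerMap_torsionBy`), or any group `m.J` with an injective additive map `j : m.J → Pic⁰`
whose image contains the `ℓ`-torsion and which intertwines `m.T p`, `m.D p` with `TJ p`, `DJ p`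
on the `ℓ`-torsion (`hasKummerMap_of_embedding`).
-/

set_option autoImplicit false

namespace Fermat.Agent.S48.helper2756

open ModularCurve AlgebraicCurve CongruenceSubgroup
open Fermat.Agent.S29.helper8217
open Fermat.Agent.S48.helper2754 (GalHecke HasKummerMap)
open scoped MatrixGroups

local notation "Qb" => AlgebraicClosure ℚ

section KummerMap

variable {F : Type} [Field F] [Algebra Qb F] [HasPrincipalDivisors Qb F]

/-- **(K5) half of (PK), general form.**  `j : m.J →+ Pic⁰(F)` injective, with image containing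
the `ℓ`-torsion, intertwining `m.T p`, `m.D p` with the class operators `TJ p`, `DJ p` on the
`ℓ`-torsion. -/
theorem hasKummerMap_of_embedding (M ℓ : ℕ) (hℓ : ℓ ≠ 0)
    {Mult : F → (Additive (Gamma1 M) →+ ℤ) → Prop}
    (hM : MultSpecG Qb (Gamma1 M) ℓ Mult)
    (m : GalHecke) (j : m.J →+ Pic0 Qb F) (hj : Function.Injective j)
    (hjt : ∀ x : Pic0 Qb F, ℓ • x = 0 → ∃ y : m.J, j y = x)
    (Tf Df : Nat.Primes → F → F) (TJ DJ : Nat.Primes → Pic0 Qb F → Pic0 Qb F)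
    (tT tD : Nat.Primes → (Additive (Gamma1 M) →+ ℤ) → (Additive (Gamma1 M) →+ ℤ))
    (hopT : ∀ p : Nat.Primes, ¬ (p : ℕ) ∣ M * ℓ → OpRel Qb (Gamma1 M) ℓ Mult (Tf p) (tT p))
    (hclT : ∀ p : Nat.Primes, ¬ (p : ℕ) ∣ M * ℓ → ClassOp Qb ℓ (Tf p) (TJ p))
    (hjT : ∀ p : Nat.Primes, ¬ (p : ℕ) ∣ M * ℓ → ∀ y : m.J, ℓ • y = 0 →
      j (m.T p y) = TJ p (j y))
    (hopD : ∀ p : Nat.Primes, ¬ (p : ℕ) ∣ M * ℓ → OpRel Qb (Gamma1 M) ℓ Mult (Df p) (tD p))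
    (hclD : ∀ p : Nat.Primes, ¬ (p : ℕ) ∣ M * ℓ → ClassOp Qb ℓ (Df p) (DJ p))
    (hjD : ∀ p : Nat.Primes, ¬ (p : ℕ) ∣ M * ℓ → ∀ y : m.J, ℓ • y = 0 →
      j (m.D p y) = DJ p (j y)) :
    HasKummerMap M ℓ m tT tD := by
  classical
  obtain ⟨ι, -, hιℓ, hker, heq⟩ := exists_k5G hℓ hM
  -- lift `ι` through `j`
  choose s hs using fun μ : ↥(Period.parabolicHoms ℤ (Gamma1 M) ℤ) => hjt (ι μ) (hιℓ μ)
  let ι₀ : ↥(Period.parabolicHoms ℤ (Gamma1 M) ℤ) →+ m.J :=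
    { toFun := s
      map_zero' := hj (by rw [hs, map_zero, map_zero])
      map_add' := fun μ ν => hj (by rw [hs, map_add, map_add, hs, hs]) }
  have hι₀ : ∀ μ, j (ι₀ μ) = ι μ := hs
  have htors : ∀ μ, ℓ • ι₀ μ = 0 := fun μ => hj (by rw [map_nsmul, hι₀, hιℓ, map_zero])
  refine ⟨ι₀, htors, ?_, ?_⟩
  · intro μ hμ
    have h0 : ι μ = 0 := by rw [← hι₀, hμ, map_zero]
    exact (hker μ).1 h0
  · intro p hp μ μ'
    refine ⟨fun h => hj ?_, fun h => hj ?_⟩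
    · rw [hι₀, hjT p hp _ (htors μ), hι₀]
      exact heq (Tf p) (tT p) (TJ p) (hopT p hp) (hclT p hp) μ μ' h
    · rw [hι₀, hjD p hp _ (htors μ), hι₀]
      exact heq (Df p) (tD p) (DJ p) (hopD p hp) (hclD p hp) μ μ' h

/-- **(K5) half of (PK) for `m.J = Pic⁰(F)`.** -/
theorem hasKummerMap_pic0 (M ℓ : ℕ) (hℓ : ℓ ≠ 0)
    {Mult : F → (Additive (Gamma1 M) →+ ℤ) → Prop}
    (hM : MultSpecG Qb (Gamma1 M) ℓ Mult)
    (r : Fermat.Agent.S48.helper8231.GQ →* Module.End ℤ (Pic0 Qb F))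
    (TJ DJ : Nat.Primes → Module.End ℤ (Pic0 Qb F))
    (Tf Df : Nat.Primes → F → F)
    (tT tD : Nat.Primes → (Additive (Gamma1 M) →+ ℤ) → (Additive (Gamma1 M) →+ ℤ))
    (hopT : ∀ p : Nat.Primes, ¬ (p : ℕ) ∣ M * ℓ → OpRel Qb (Gamma1 M) ℓ Mult (Tf p) (tT p))
    (hclT : ∀ p : Nat.Primes, ¬ (p : ℕ) ∣ M * ℓ → ClassOp Qb ℓ (Tf p) (TJ p))
    (hopD : ∀ p : Nat.Primes, ¬ (p : ℕ) ∣ M * ℓ → OpRel Qb (Gamma1 M) ℓ Mult (Df p) (tD p))
    (hclD : ∀ p : Nat.Primes, ¬ (p : ℕ) ∣ M * ℓ → ClassOp Qb ℓ (Df p) (DJ p)) :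
    HasKummerMap M ℓ { J := Pic0 Qb F, r := r, T := TJ, D := DJ } tT tD :=
  hasKummerMap_of_embedding M ℓ hℓ hM { J := Pic0 Qb F, r := r, T := TJ, D := DJ }
    (AddMonoidHom.id _) Function.injective_id (fun x _ => ⟨x, rfl⟩) Tf Df
    (fun p => TJ p) (fun p => DJ p) tT tD hopT hclT (fun _ _ _ _ => rfl) hopD hclD
    (fun _ _ _ _ => rfl)

/-- **(K5) half of (PK) for `m.J = Pic⁰(F)[ℓ]`** (`Submodule.torsionBy ℤ (Pic0 ℚ̄ F) ℓ`), with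
operators `T p`, `D p` on the torsion compatible with class operators `TJ p`, `DJ p` on
`Pic⁰(F)`. -/
theorem hasKummerMap_torsionBy (M ℓ : ℕ) (hℓ : ℓ ≠ 0)
    {Mult : F → (Additive (Gamma1 M) →+ ℤ) → Prop}
    (hM : MultSpecG Qb (Gamma1 M) ℓ Mult)
    (r : Fermat.Agent.S48.helper8231.GQ →*
      Module.End ℤ (Submodule.torsionBy ℤ (Pic0 Qb F) (ℓ : ℤ)))
    (T D : Nat.Primes → Module.End ℤ (Submodule.torsionBy ℤ (Pic0 Qb F) (ℓ : ℤ)))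
    (Tf Df : Nat.Primes → F → F) (TJ DJ : Nat.Primes → Pic0 Qb F → Pic0 Qb F)
    (tT tD : Nat.Primes → (Additive (Gamma1 M) →+ ℤ) → (Additive (Gamma1 M) →+ ℤ))
    (hopT : ∀ p : Nat.Primes, ¬ (p : ℕ) ∣ M * ℓ → OpRel Qb (Gamma1 M) ℓ Mult (Tf p) (tT p))
    (hclT : ∀ p : Nat.Primes, ¬ (p : ℕ) ∣ M * ℓ → ClassOp Qb ℓ (Tf p) (TJ p))
    (hT : ∀ p : Nat.Primes, ¬ (p : ℕ) ∣ M * ℓ →
      ∀ y : Submodule.torsionBy ℤ (Pic0 Qb F) (ℓ : ℤ), ((T p y : _) : Pic0 Qb F) = TJ p y)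
    (hopD : ∀ p : Nat.Primes, ¬ (p : ℕ) ∣ M * ℓ → OpRel Qb (Gamma1 M) ℓ Mult (Df p) (tD p))
    (hclD : ∀ p : Nat.Primes, ¬ (p : ℕ) ∣ M * ℓ → ClassOp Qb ℓ (Df p) (DJ p))
    (hD : ∀ p : Nat.Primes, ¬ (p : ℕ) ∣ M * ℓ →
      ∀ y : Submodule.torsionBy ℤ (Pic0 Qb F) (ℓ : ℤ), ((D p y : _) : Pic0 Qb F) = DJ p y) :
    HasKummerMap M ℓ
      { J := Submodule.torsionBy ℤ (Pic0 Qb F) (ℓ : ℤ), r := r, T := T, D := D } tT tD :=
  hasKummerMap_of_embedding M ℓ hℓ hM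
    { J := Submodule.torsionBy ℤ (Pic0 Qb F) (ℓ : ℤ), r := r, T := T, D := D }
    (Submodule.torsionBy ℤ (Pic0 Qb F) (ℓ : ℤ)).subtype.toAddMonoidHom
    Subtype.val_injective
    (fun x hx => ⟨⟨x, by
      rw [Submodule.mem_torsionBy_iff, natCast_zsmul]
      exact hx⟩, rfl⟩)
    Tf Df TJ DJ tT tD hopT hclT (fun p hp y _ => hT p hp y) hopD hclD (fun p hp y _ => hD p hp y)

end KummerMap

end Fermat.Agent.S48.helper2756
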