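import Fermat.Agent.S48.helper3284_PeriodBridge1
import Fermat.Agent.S48.helper2754_SpecM3

/-!
# S48 (M3), (PER): `HasPerLattice M ℓ (tT M ℤ) (tD M ℤ)` is a theorem (helper3284)

The period half of the period–Kummer datum of the M3 Spec (`helper2754.HasPerLattice`), for the
CORR1 transfer operators `helper4325.tT M ℤ p`, `helper4325.tD M ℤ p` (total in the prime `p`):

* `L` = the period lattice `perLattice (Gamma_le_Gamma1 M)` of `S₂(Γ₁(M))` (finite free);
* `per y g = y g`, separating by the injectivity of the period map;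
* `τ p`, `δ p` = transposition by `T_p`, `⟨p⟩` (`helper5251.heckeTCF`, `diamondCF`), acting on
  `per · g` through `b p`, `ψ p` for an `IsEigen2` form;
* `toPar : L^∨ → Hom_par(Γ₁(M), ℤ)`, saturated, intertwining the transposes with `tT p`, `tD p`.
-/

set_option autoImplicit false

open ModularCurve ModularCurve.Period CongruenceSubgroup UpperHalfPlane
open Matrix.SpecialLinearGroup
open scoped MatrixGroups ModularForm Manifold

namespace Fermat.Agent.S48.helper3284

open Fermat.Agent.S16.helper2138 (Corr)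
open Fermat.Agent.S48.helper8231 (IsEigen2 Zc)

noncomputable section

section PerLattice

variable (M : ℕ) [NeZero M]

/-- The period lattice of `S₂(Γ₁(M))`. -/
abbrev perLattice1 : Submodule ℤ (CuspForm (Gamma1 M) 2 →ₗ[ℂ] ℂ) :=
  perLattice (Gamma_le_Gamma1 M)

/-- The transposed Hecke operator on the period lattice of `Γ₁(M)`: `φ ↦ φ ∘ T_p` for `p ∤ M`,
the identity for `p ∣ M`. -/
def tauLat (p : Nat.Primes) : Module.End ℤ (perLattice1 M) :=
  if hp : (p : ℕ) ∣ M then 1
  else perTrans (Gamma_le_Gamma1 M)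
    (helper5251.heckeTCF p.2 ((Nat.Prime.coprime_iff_not_dvd p.2).mpr hp))
    (perFun_comp_heckeTCF_mem p.2 ((Nat.Prime.coprime_iff_not_dvd p.2).mpr hp))

/-- The transposed diamond operator on the period lattice of `Γ₁(M)`: `φ ↦ φ ∘ ⟨p⟩` for
`p ∤ M`, the identity for `p ∣ M`. -/
def deltaLat (p : Nat.Primes) : Module.End ℤ (perLattice1 M) :=
  if hp : (p : ℕ) ∣ M then 1
  else perTrans (Gamma_le_Gamma1 M)
    (helper5251.diamondCF (ZMod.unitOfCoprime (p : ℕ)
      ((Nat.Prime.coprime_iff_not_dvd p.2).mpr hp)))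
    (perFun_comp_diamondCF_mem _)

variable {M}

theorem coe_tauLat (p : Nat.Primes) (hp : ¬ (p : ℕ) ∣ M) (y : perLattice1 M) :
    ((tauLat M p y : perLattice1 M) : CuspForm (Gamma1 M) 2 →ₗ[ℂ] ℂ) =
      (y : CuspForm (Gamma1 M) 2 →ₗ[ℂ] ℂ) ∘ₗ
        helper5251.heckeTCF p.2 ((Nat.Prime.coprime_iff_not_dvd p.2).mpr hp) := by
  rw [tauLat, dif_neg hp]
  rfl

theorem coe_deltaLat (p : Nat.Primes) (hp : ¬ (p : ℕ) ∣ M) (y : perLattice1 M) :
    ((deltaLat M p y : perLattice1 M) : CuspForm (Gamma1 M) 2 →ₗ[ℂ] ℂ) =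
      (y : CuspForm (Gamma1 M) 2 →ₗ[ℂ] ℂ) ∘ₗ
        helper5251.diamondCF (ZMod.unitOfCoprime (p : ℕ)
          ((Nat.Prime.coprime_iff_not_dvd p.2).mpr hp)) := by
  rw [deltaLat, dif_neg hp]
  rfl

/-- The evaluation pairing of the period lattice with cusp forms. -/
def perEval (M : ℕ) [NeZero M] : perLattice1 M →+ (CuspForm (Gamma1 M) 2 → ℂ) where
  toFun y g := (y : CuspForm (Gamma1 M) 2 →ₗ[ℂ] ℂ) g
  map_zero' := rfl
  map_add' _ _ := rfl

theorem perEval_apply (y : perLattice1 M) (g : CuspForm (Gamma1 M) 2) :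
    perEval M y g = (y : CuspForm (Gamma1 M) 2 →ₗ[ℂ] ℂ) g := rfl

/-- **(PER) of the M3 Spec is a theorem**: the period lattice of `S₂(Γ₁(M))` with the transposes
of `T_p`, `⟨p⟩` and the restriction map `toPar` to the integral parabolic homomorphisms is a
period-lattice datum for the CORR1 transfer operators `helper4325.tT M ℤ p`,
`helper4325.tD M ℤ p`, for every `ℓ`. -/
theorem hasPerLattice (M : ℕ) [NeZero M] (ℓ : ℕ) :
    helper2754.HasPerLattice M ℓ (helper4325.tT M ℤ) (helper4325.tD M ℤ) := by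
  have hΓ := Gamma_le_Gamma1 M
  have hfin : Module.Finite ℤ (perLattice1 M) := Module.Finite.iff_fg.2 (perLattice_fg hΓ)
  have hfree : Module.Free ℤ (perLattice1 M) := inferInstance
  refine ⟨perLattice1 M, inferInstance, hfree, hfin, perEval M, tauLat M, deltaLat M, toPar hΓ,
    ?_, ?_, ?_, ?_, ?_⟩
  · -- separation
    intro g hg
    by_contra hcon
    push Not at hcon
    exact hg (perLattice_sep hΓ g fun φ hφ => hcon ⟨φ, hφ⟩)
  · -- `τ p` multiplies `per · g` by `b p`
    intro ψ g b hE p hp y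
    have h : Nat.Coprime (p : ℕ) M := (Nat.Prime.coprime_iff_not_dvd p.2).mpr hp
    rw [perEval_apply, perEval_apply, coe_tauLat p hp, LinearMap.comp_apply,
      heckeTCF_eq_smul_of_isEigen2 hE p.2 h, map_smul, smul_eq_mul]
  · -- `δ p` multiplies `per · g` by `ψ p`
    intro ψ g b hE p hp y
    have hpM : ¬ (p : ℕ) ∣ M := fun hdvd => hp (Dvd.dvd.mul_right hdvd ℓ)
    rw [perEval_apply, perEval_apply, coe_deltaLat p hpM, LinearMap.comp_apply,
      diamondCF_eq_smul_of_isEigen2 hE, map_smul, smul_eq_mul, ZMod.coe_unitOfCoprime]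
  · -- saturation
    intro f hf
    exact exists_eq_nsmul_of_toPar hΓ f hf
  · -- the transposes correspond to the transfers
    intro p hp f
    have hpM : ¬ (p : ℕ) ∣ M := fun hdvd => hp (Dvd.dvd.mul_right hdvd ℓ)
    have h : Nat.Coprime (p : ℕ) M := (Nat.Prime.coprime_iff_not_dvd p.2).mpr hpM
    have : Fact (p : ℕ).Prime := ⟨p.2⟩
    have hδ := helper4325.Gamma0Map_deltaP M (p : ℕ) hpM
    constructor
    · rw [helper4325.tT_eq p hpM (helper4325.deltaP M (p : ℕ) hpM) hδ]
      change _ = (helper4325.corrT1 M (p : ℕ) hpM _ hδ).op ℤ _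
      have h1 : tauLat M p = perTrans hΓ (helper5251.heckeTCF p.2 h)
          (perFun_comp_of_corr_mem hΓ (helper4325.corrT1 M (p : ℕ) hpM _ hδ)
            (corrT1_pos hpM _ hδ) (helper5251.heckeTCF p.2 h)
            (coe_heckeTCF_eq_sum_corrT1 hpM _ hδ p.2 h)) := by
        rw [tauLat, dif_neg hpM]
      rw [h1]
      exact toPar_comp_perTrans hΓ (helper4325.corrT1 M (p : ℕ) hpM _ hδ)
        (corrT1_pos hpM _ hδ) (helper5251.heckeTCF p.2 h)
        (coe_heckeTCF_eq_sum_corrT1 hpM _ hδ p.2 h) f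
    · rw [helper4325.tD_eq p hpM (helper4325.deltaP M (p : ℕ) hpM) hδ]
      change _ = (helper4325.corrD M (helper4325.deltaP M (p : ℕ) hpM)).op ℤ _
      have hd : Gamma0Map M (helper4325.deltaP M (p : ℕ) hpM) =
          ((ZMod.unitOfCoprime (p : ℕ) h : (ZMod M)ˣ) : ZMod M) := by
        rw [ZMod.coe_unitOfCoprime]
        exact hδ
      have h1 : deltaLat M p = perTrans hΓ (helper5251.diamondCF (ZMod.unitOfCoprime (p : ℕ) h))
          (perFun_comp_of_corr_mem hΓ (helper4325.corrD M (helper4325.deltaP M (p : ℕ) hpM))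
            (corrD_pos _) (helper5251.diamondCF (ZMod.unitOfCoprime (p : ℕ) h))
            (coe_diamondCF_eq_sum_corrD _ _ hd)) := by
        rw [deltaLat, dif_neg hpM]
      rw [h1]
      exact toPar_comp_perTrans hΓ (helper4325.corrD M (helper4325.deltaP M (p : ℕ) hpM))
        (corrD_pos _) (helper5251.diamondCF (ZMod.unitOfCoprime (p : ℕ) h))
        (coe_diamondCF_eq_sum_corrD _ _ hd) f

/-- **(PER) in the vocabulary of the M3 Spec**: the second component of
`helper2754.KummerTargets M ℓ m` (the operators of record `helper2754.transT M ℤ`,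
`helper2754.transD M ℤ` are CORR1's `helper4325.tT M ℤ`, `helper4325.tD M ℤ`). -/
theorem hasPerLattice_trans (M : ℕ) [NeZero M] (ℓ : ℕ) :
    helper2754.HasPerLattice M ℓ (helper2754.transT M ℤ) (helper2754.transD M ℤ) :=
  hasPerLattice M ℓ

/-- `helper2754.KummerTargets` from its two remaining components (UES) and (K5). -/
theorem kummerTargets_of (M : ℕ) [NeZero M] (ℓ : ℕ) (m : helper2754.GalHecke)
    (h₁ : helper2754.IsUES M ℓ m)
    (h₂ : helper2754.HasKummerMap M ℓ m (helper2754.transT M ℤ) (helper2754.transD M ℤ)) :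
    helper2754.KummerTargets M ℓ m :=
  ⟨h₁, hasPerLattice_trans M ℓ, h₂⟩

end PerLattice

end

end Fermat.Agent.S48.helper3284
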