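import Fermat.Agent.S48.helper6431_SpecM2
import Fermat.Agent.S48.helper2754_SpecM3
import Fermat.Agent.S48.helper8231_SpecLevel

/-!
# S48, machine half: the pointwise acceptance test `kummerModAt_of` and the (UES) half of (M2)

* `kummerModAt_of_ues_occ`, `kummerModAt_of` : the pointwise forms (one pair `(M, ℓ)`) of
  `helper2754.kummerMod_of_occ`, `helper2754.kummerMod_of`, concluding
  `helper8231.KummerModAt M ℓ` (the body of `Stmt_KummerMod2`).
* `galHecke G N H` : the Galois–Hecke module `(Pic⁰ ℚ̄ E, galJ, TFam, DFam)` of the Spec (M2).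
* `isUES_galHecke` : `helper2754.IsUES M ℓ (galHecke G (M * ℓ) H)` from the leaf Props of (M2):
  finite level, (U) and (ES).
* `classOp_T`, `classOp_D` : the two facts (M3) consumes from (M2), for the same module.
* `kummerModAt_of_leaves` : `KummerModAt M ℓ` from the (M2) leaves and the (M3) Prop
  `HasPeriodKummer M ℓ (galHecke G (M * ℓ) H)`.
-/

set_option autoImplicit false

open scoped TensorProduct
open CongruenceSubgroup AlgebraicCurve

noncomputable section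

namespace Fermat.Agent.S48.helper6431

open Fermat.Agent.S48.helper8231 (KummerModAt IsEigen2 Zc)
open Fermat.Agent.S48.helper2754 (GalHecke IsUES IsOcc HasPeriodKummer torsRestrict torsRep
  coe_torsRestrict coe_torsRep nsmul_eq_zero_of_mem_torsionBy occ_of_periodKummer)
open Fermat.Agent.S29.helper8217

local notation "Qb" => AlgebraicClosure ℚ

/-! ### The pointwise acceptance test -/

/-- **(KMOD) at one pair `(M, ℓ)` from (UES) and (OCC)** — pointwise form of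
`helper2754.kummerMod_of_occ`. -/
theorem kummerModAt_of_ues_occ (M : ℕ) [NeZero M] (ℓ : ℕ) (m : GalHecke)
    (hU : IsUES M ℓ m) (hO : IsOcc M ℓ m) : KummerModAt M ℓ := by
  classical
  let TP : Nat.Primes → Module.End ℤ (Submodule.torsionBy ℤ m.J (ℓ : ℤ)) := fun p =>
    if (p : ℕ) ∣ M * ℓ then 0 else torsRestrict ℓ (m.T p)
  let DP : Nat.Primes → Module.End ℤ (Submodule.torsionBy ℤ m.J (ℓ : ℤ)) := fun p =>
    if (p : ℕ) ∣ M * ℓ then 0 else torsRestrict ℓ (m.D p)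
  refine ⟨Submodule.torsionBy ℤ m.J (ℓ : ℤ), inferInstance, torsRep ℓ m.r, TP, DP,
    ?_, ?_, ?_, ?_, ?_, ?_⟩
  · intro y
    obtain ⟨L, hL, hLy⟩ := hU.openStab (y : m.J) (nsmul_eq_zero_of_mem_torsionBy ℓ y.2)
    exact ⟨L, hL, fun σ hσ => Subtype.ext (hLy σ hσ)⟩
  · intro p σ y
    by_cases hp : (p : ℕ) ∣ M * ℓ
    · simp only [TP, if_pos hp, LinearMap.zero_apply, map_zero]
    · simp only [TP, if_neg hp]
      exact Subtype.ext (hU.commT p hp σ (y : m.J) (nsmul_eq_zero_of_mem_torsionBy ℓ y.2))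
  · intro p σ y
    by_cases hp : (p : ℕ) ∣ M * ℓ
    · simp only [DP, if_pos hp, LinearMap.zero_apply, map_zero]
    · simp only [DP, if_neg hp]
      exact Subtype.ext (hU.commD p hp σ (y : m.J) (nsmul_eq_zero_of_mem_torsionBy ℓ y.2))
  · intro p hp hpMℓ A hA τ hτ y
    exact Subtype.ext
      (hU.unr p hp hpMℓ A hA τ hτ (y : m.J) (nsmul_eq_zero_of_mem_torsionBy ℓ y.2))
  · intro p hp hpMℓ A hA σ hσ y
    have hT' : TP ⟨p, hp⟩ = torsRestrict ℓ (m.T ⟨p, hp⟩) := if_neg hpMℓ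
    have hD' : DP ⟨p, hp⟩ = torsRestrict ℓ (m.D ⟨p, hp⟩) := if_neg hpMℓ
    rw [hT', hD']
    exact Subtype.ext
      (hU.es p hp hpMℓ A hA σ hσ (y : m.J) (nsmul_eq_zero_of_mem_torsionBy ℓ y.2))
  · intro ψ g b hg
    obtain ⟨hint, hocc⟩ := hO ψ g b hg
    refine ⟨hint, ?_⟩
    intro κ _ _ _ φ _
    obtain ⟨x, hx0, hx⟩ := hocc κ φ
    refine ⟨x, hx0, fun p hp tb tψ htb htψ => ?_⟩
    have hT' : TP p = torsRestrict ℓ (m.T p) := if_neg hp
    have hD' : DP p = torsRestrict ℓ (m.D p) := if_neg hp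
    rw [hT', hD']
    exact hx p hp tb tψ htb htψ

/-- **(KMOD) at one pair `(M, ℓ)` from (UES) and the period–Kummer datum** — the pointwise
acceptance test of the machine Specs. -/
theorem kummerModAt_of (M : ℕ) [NeZero M] (ℓ : ℕ) (hℓ : ℓ.Prime) (m : GalHecke)
    (hU : IsUES M ℓ m) (hPK : HasPeriodKummer M ℓ m) : KummerModAt M ℓ :=
  kummerModAt_of_ues_occ M ℓ m hU (occ_of_periodKummer M ℓ hℓ m hPK)

/-! ### The Galois–Hecke module of (M2) -/

section Module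

variable {E : IntermediateField Qb (LaurentSeries Qb)} [HasPrincipalDivisors Qb E]
  (G : CoeffGal E)

/-- The Galois–Hecke module of the field `E` with the Hecke–diamond layers at the primes not
dividing `N`: `J = Pic⁰ ℚ̄ E`, `r = galJ G`, `T = TFam N H`, `D = DFam N H`. -/
def galHecke (N : ℕ) (H : ∀ q : Nat.Primes, ¬ (q : ℕ) ∣ N → HeckeDiamondAt G q) : GalHecke where
  J := Pic0 Qb E
  r := galJ G
  T := TFam N H
  D := DFam N H

/-- **(UES) for the module of (M2)**, from the leaf Props: finite level of the elements of `E`,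
(U) at every prime `p ∤ M ℓ`, and (ES) for every Hecke–diamond layer. -/
theorem isUES_galHecke (hlev : ∀ x : E, FiniteLevel (x : LaurentSeries Qb)) (M ℓ : ℕ)
    (hℓ : ℓ ≠ 0) (H : ∀ q : Nat.Primes, ¬ (q : ℕ) ∣ M * ℓ → HeckeDiamondAt G q)
    (hU : ∀ p : ℕ, p.Prime → ¬ p ∣ M * ℓ → StmtU G ℓ p)
    (hES : ∀ (q : Nat.Primes) (hq : ¬ (q : ℕ) ∣ M * ℓ),
      haveI : NeZero (q : ℕ) := ⟨q.2.ne_zero⟩; StmtES ℓ (H q hq)) :
    IsUES M ℓ (galHecke G (M * ℓ) H) where
  openStab y hy := openStab_galJ G hlev hℓ y hy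
  commT p hp σ y hy := commT_Fam (M * ℓ) H hℓ p hp σ y hy
  commD p hp σ y _ := commD_Fam (M * ℓ) H p hp σ y
  unr p hp hpMℓ A hA τ hτ y hy := unr_Fam (hU p hp hpMℓ) A hA τ hτ y hy
  es p hp hpMℓ A hA σ hσ y hy :=
    es_Fam (M * ℓ) H hℓ ⟨p, hp⟩ hpMℓ (hES ⟨p, hp⟩ hpMℓ) A hA σ hσ y hy

/-- The first fact (M3) consumes from (M2): `T_q` preserves `n`-Kummer functions and induces
`(galHecke G N H).T q` on Kummer classes. -/
theorem classOp_T (N : ℕ) (H : ∀ q : Nat.Primes, ¬ (q : ℕ) ∣ N → HeckeDiamondAt G q)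
    (q : Nat.Primes) (hq : ¬ (q : ℕ) ∣ N) {n : ℕ} (hn : n ≠ 0) (u : E)
    (hu : IsKummer Qb n u) :
    haveI : NeZero (q : ℕ) := ⟨q.2.ne_zero⟩
    IsKummer Qb n ((H q hq).T u) ∧
      kummerClass Qb n ((H q hq).T u) = (galHecke G N H).T q (kummerClass Qb n u) :=
  TFam_kummerClass N H q hq hn u hu

/-- The second fact (M3) consumes from (M2): `⟨q⟩` preserves `n`-Kummer functions and induces
`(galHecke G N H).D q` on Kummer classes. -/
theorem classOp_D (N : ℕ) (H : ∀ q : Nat.Primes, ¬ (q : ℕ) ∣ N → HeckeDiamondAt G q)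
    (q : Nat.Primes) (hq : ¬ (q : ℕ) ∣ N) (n : ℕ) (u : E) (hu : IsKummer Qb n u) :
    haveI : NeZero (q : ℕ) := ⟨q.2.ne_zero⟩
    IsKummer Qb n ((H q hq).D u) ∧
      kummerClass Qb n ((H q hq).D u) = (galHecke G N H).D q (kummerClass Qb n u) :=
  DFam_kummerClass N H q hq n u hu

/-- **(KMOD) at `(M, ℓ)` from the leaves**: the (M2) leaves (finite level, the Hecke–diamond
layers, (U), (ES)) and the (M3) Prop `HasPeriodKummer` for the same module. -/
theorem kummerModAt_of_leaves (M : ℕ) [NeZero M] (ℓ : ℕ) (hℓ : ℓ.Prime)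
    (hlev : ∀ x : E, FiniteLevel (x : LaurentSeries Qb))
    (H : ∀ q : Nat.Primes, ¬ (q : ℕ) ∣ M * ℓ → HeckeDiamondAt G q)
    (hU : ∀ p : ℕ, p.Prime → ¬ p ∣ M * ℓ → StmtU G ℓ p)
    (hES : ∀ (q : Nat.Primes) (hq : ¬ (q : ℕ) ∣ M * ℓ),
      haveI : NeZero (q : ℕ) := ⟨q.2.ne_zero⟩; StmtES ℓ (H q hq))
    (hPK : HasPeriodKummer M ℓ (galHecke G (M * ℓ) H)) : KummerModAt M ℓ :=
  kummerModAt_of M ℓ hℓ (galHecke G (M * ℓ) H)
    (isUES_galHecke G hlev M ℓ hℓ.ne_zero H hU hES) hPK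

end Module

end Fermat.Agent.S48.helper6431
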