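/-
S48 (Deligne–Serre), machine half — the TOP of (M3) (sub-architect helper2754).

Leaf (L-H) of the (M2) plan (`helper6431_KummerMod.kummerModAt_of_leaves`):
`HasPeriodKummer M ℓ (helper6431.galHecke G (M * ℓ) H)` for the Galois–Hecke module of the
`Γ₁(M)`-field `E` with its Hecke–diamond layers `H q` (`q ∤ M ℓ`).

It is reduced here to ONE Prop on the field `E`:

* `HasKummerDict G M ℓ H` : the analytic Kummer dictionary of `E` at the modulus `ℓ`
  (`helper2756.MultSpecG`, (TH2)–(TH4)) together with (TH5) for the function-level operators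
  `(H q).T`, `(H q).D` of (M2) against the transfer operators `transT M ℤ q`, `transD M ℤ q`
  (`= helper4325.tT`, `tD`) on `Hom(Γ₁(M), ℤ)`.

Everything else is a theorem on main: the period lattice (`helper3284.hasPerLattice`), the (K5)
map (`helper2756.hasKummerMap_pic0`), the class operators (`helper6431.classOp_T`, `classOp_D`),
the eigen-functional (`helper9143`).

* `hasKummerMap_of_dict`    : (KDICT) ⟹ `HasKummerMap M ℓ (galHecke G (M ℓ) H) transT transD`;
* `hasPeriodKummer_of_dict` : (KDICT) ⟹ `HasPeriodKummer M ℓ (galHecke G (M ℓ) H)`  [= (L-H)];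
* `kummerModAt_of_dict`     : the (M2) leaves + (KDICT) ⟹ `helper8231.KummerModAt M ℓ`.
-/
import Fermat.Agent.S48.helper6431_KummerMod
import Fermat.Agent.S48.helper3284_PerLattice1
import Fermat.Agent.S48.helper2756_KummerMapM3

set_option autoImplicit false

open CongruenceSubgroup AlgebraicCurve

noncomputable section

namespace Fermat.Agent.S48.helper2754

open Fermat.Agent.S48.helper6431 (CoeffGal HeckeDiamond HeckeDiamondAt galHecke FiniteLevel
  StmtU StmtES)
open Fermat.Agent.S48.helper8231 (KummerModAt)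
open Fermat.Agent.S29.helper8217

local notation "Qb" => AlgebraicClosure ℚ

section Top

variable {E : IntermediateField Qb (LaurentSeries Qb)} [HasPrincipalDivisors Qb E]
  (G : CoeffGal E)

/-- **(KDICT) The analytic Kummer dictionary of the field `E` at level `M`, modulus `ℓ`, with
(TH5) for the Hecke–diamond layers `H q` of (M2).**
There is a relation `Mult u ψ` ("the function `u` has an analytic `ℓ`-th root on `ℍ` whose
multiplier under `Γ₁(M)` is `γ ↦ ζ_ℓ ^ ψ γ`") which is a Kummer dictionary in the sense of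
`helper2756.MultSpecG` ((TH4) `surj`, (TH2) `mul`/`triv`, (TH3) `inj`) and such that, for every
prime `q ∤ M ℓ`, the function-level operators `(H q).T`, `(H q).D` transform the multiplier by
the transfer operators `transT M ℤ q`, `transD M ℤ q` ((TH5), `helper2756.OpRel`). -/
def HasKummerDict (M ℓ : ℕ)
    (H : ∀ q : Nat.Primes, ¬ (q : ℕ) ∣ M * ℓ → HeckeDiamondAt G q) : Prop :=
  ∃ Mult : E → (Additive (Gamma1 M) →+ ℤ) → Prop,
    helper2756.MultSpecG Qb (Gamma1 M) ℓ Mult ∧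
    ∀ (q : Nat.Primes) (hq : ¬ (q : ℕ) ∣ M * ℓ),
      haveI : NeZero (q : ℕ) := ⟨q.2.ne_zero⟩
      helper2756.OpRel Qb (Gamma1 M) ℓ Mult (H q hq).T (transT M ℤ q) ∧
      helper2756.OpRel Qb (Gamma1 M) ℓ Mult (⇑(H q hq).D) (transD M ℤ q)

/-- **(K5) for the module of (M2) from (KDICT).** -/
theorem hasKummerMap_of_dict (M ℓ : ℕ) (hℓ : ℓ ≠ 0)
    (H : ∀ q : Nat.Primes, ¬ (q : ℕ) ∣ M * ℓ → HeckeDiamondAt G q)
    (h : HasKummerDict G M ℓ H) :
    HasKummerMap M ℓ (galHecke G (M * ℓ) H) (transT M ℤ) (transD M ℤ) := by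
  classical
  obtain ⟨Mult, hM, hop⟩ := h
  let Tf : Nat.Primes → E → E := fun q =>
    haveI : NeZero (q : ℕ) := ⟨q.2.ne_zero⟩
    if hq : ¬ (q : ℕ) ∣ M * ℓ then (H q hq).T else id
  let Df : Nat.Primes → E → E := fun q =>
    haveI : NeZero (q : ℕ) := ⟨q.2.ne_zero⟩
    if hq : ¬ (q : ℕ) ∣ M * ℓ then ⇑(H q hq).D else id
  have hTf : ∀ (q : Nat.Primes) (hq : ¬ (q : ℕ) ∣ M * ℓ),
      Tf q = @HeckeDiamond.T E _ G (q : ℕ) ⟨q.2.ne_zero⟩ (H q hq) := fun q hq => dif_pos hq
  have hDf : ∀ (q : Nat.Primes) (hq : ¬ (q : ℕ) ∣ M * ℓ),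
      Df q = ⇑(@HeckeDiamond.D E _ G (q : ℕ) ⟨q.2.ne_zero⟩ (H q hq)) := fun q hq => dif_pos hq
  exact helper2756.hasKummerMap_pic0 M ℓ hℓ hM (helper6431.galJ G)
    (helper6431.TFam (M * ℓ) H) (helper6431.DFam (M * ℓ) H) Tf Df (transT M ℤ) (transD M ℤ)
    (fun q hq => by rw [hTf q hq]; exact (hop q hq).1)
    (fun q hq u hu => by
      rw [hTf q hq]; exact helper6431.classOp_T G (M * ℓ) H q hq hℓ u hu)
    (fun q hq => by rw [hDf q hq]; exact (hop q hq).2)
    (fun q hq u hu => by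
      rw [hDf q hq]; exact helper6431.classOp_D G (M * ℓ) H q hq ℓ u hu)

/-- **Leaf (L-H) of the (M2) plan from (KDICT)**: the period–Kummer datum of the Galois–Hecke
module of `E`.  The period lattice is `helper3284.hasPerLattice` (a theorem). -/
theorem hasPeriodKummer_of_dict (M : ℕ) [NeZero M] (ℓ : ℕ) (hℓ : ℓ ≠ 0)
    (H : ∀ q : Nat.Primes, ¬ (q : ℕ) ∣ M * ℓ → HeckeDiamondAt G q)
    (h : HasKummerDict G M ℓ H) :
    HasPeriodKummer M ℓ (galHecke G (M * ℓ) H) :=
  hasPeriodKummer_of M ℓ (galHecke G (M * ℓ) H) (transT M ℤ) (transD M ℤ)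
    (helper3284.hasPerLattice M ℓ) (hasKummerMap_of_dict G M ℓ hℓ H h)

/-- **(KMOD) at `(M, ℓ)` from the (M2) leaves and (KDICT)** — the machine at one pair
`(M, ℓ)` with every (M3) input except the dictionary discharged. -/
theorem kummerModAt_of_dict (M : ℕ) [NeZero M] (ℓ : ℕ) (hℓ : ℓ.Prime)
    (hlev : ∀ x : E, FiniteLevel (x : LaurentSeries Qb))
    (H : ∀ q : Nat.Primes, ¬ (q : ℕ) ∣ M * ℓ → HeckeDiamondAt G q)
    (hU : ∀ p : ℕ, p.Prime → ¬ p ∣ M * ℓ → StmtU G ℓ p)
    (hES : ∀ (q : Nat.Primes) (hq : ¬ (q : ℕ) ∣ M * ℓ),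
      haveI : NeZero (q : ℕ) := ⟨q.2.ne_zero⟩; StmtES ℓ (H q hq))
    (hK : HasKummerDict G M ℓ H) : KummerModAt M ℓ :=
  helper6431.kummerModAt_of_leaves G M ℓ hℓ hlev H hU hES
    (hasPeriodKummer_of_dict G M ℓ hℓ.ne_zero H hK)

end Top

end Fermat.Agent.S48.helper2754
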