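/-
S48 (Deligne–Serre), machine half — (M3), second level: the Kummer dictionary (KDICT) of
`helper2754_M3Top` from an analytic evaluation of the `Γ₁(M)`-field (sub-architect helper2754).

`HasKummerDict G M ℓ H` is reduced to ONE evaluation `evM : E →+* Mer` (`Mer` = the landed field
of meromorphic functions on `ℍ`, `S24.helper580`) with three properties (`IsEvalDict`):

* `mult`  : `helper2756.MultSpecG ℚ̄ (Gamma1 M) ℓ (helper2122.MultMerG (Gamma1 M) evM ℓ ζ)`
            — (TH2)–(TH4) for the multiplier relation of record  [instance of `helper2122` /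
            `helper2756.multSpecG_of_leaves`];
* `normT` : `evM ((H q).T u) = cpMerT1 hq δ hδ (evM u)` — the analytic norm formula: the
            evaluation of the multiplicative Hecke operator is the coset product
            `(h ∘ δ)(q z) ∏_j h((z + j) / q)`  [(EVNORM-T)];
* `normD` : `evM ((H q).D u) = pull δ (evM u)` — the diamond is the pull-back by `δ ∈ Γ₀(M)` with
            lower-right entry `≡ q`  [(EVNORM-D)].

(TH5) is then `helper4325.opRel_tT_surjGen`, `opRel_tD_surjGen`.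

The file also fixes the statement of the `q`-expansion property of an evaluation (`EvQ`, the
conclusion of `helper5047.exists_hasQ_frac` verbatim) and the generic form `Stmt_EvNormT` of
(EVNORM-T): for ANY field `E ⊆ ℚ̄((q))` and ANY evaluation with `EvQ`, the `q`-expansion formula
`T u = V_p(D u) · U_p(∏_b u(ζ^b q))` and `evM ∘ D = pull δ ∘ evM` give the coset-product formula.
-/
import Fermat.Agent.S48.helper2754_M3Top
import Fermat.Agent.S48.helper4325_OpRelSpec2122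
import Fermat.Agent.S24.helper1704_QDict

set_option autoImplicit false

open CongruenceSubgroup AlgebraicCurve ModularCurve UpperHalfPlane
open scoped MatrixGroups

noncomputable section

namespace Fermat.Agent.S48.helper2754

open Fermat.Agent.S48.helper6431 (CoeffGal HeckeDiamond HeckeDiamondAt galHecke)
open Fermat.Agent.S29.helper8217
open Fermat.Agent.S29.helper7964 (tw uOp)
open Fermat.Agent.S24.helper580 (Hol Mer pull)
open Fermat.Agent.S24.helper1704 (HasQ)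

local notation "Qb" => AlgebraicClosure ℚ

/-! ## The `q`-expansion property of an evaluation -/

/-- **(EVQ)** The evaluation `evM : E → Mer` is compatible with `q`-expansions along
`i0 : ℚ̄ → ℂ`: every element `y` of `E` is a quotient of two holomorphic functions `a / b` on `ℍ`
having `q`-expansions `A`, `B` at `i∞` (in the sense of the landed `S24.helper1704.HasQ 1`) with
`y · B = A` coefficientwise.  (Verbatim the conclusion of `helper5047.exists_hasQ_frac`.) -/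
def EvQ {E : IntermediateField Qb (LaurentSeries Qb)} (i0 : Qb →+* ℂ) (evM : E →+* Mer) : Prop :=
  ∀ y : E, ∃ a b : Hol, b ≠ 0 ∧ ∃ A B : LaurentSeries ℂ,
    HasQ 1 (a : ℍ → ℂ) A ∧ HasQ 1 (b : ℍ → ℂ) B ∧
      coeffMap i0 (y : LaurentSeries Qb) * B = A ∧
      evM y * algebraMap Hol Mer b = algebraMap Hol Mer a

/-- **(EVNORM-T), generic form.**  For every subfield `E ⊆ ℚ̄((q))` with an evaluation `evM`
satisfying (EVQ), every prime `p ∤ M`, every `δ ∈ Γ₀(M)` with lower-right entry `≡ p`, every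
automorphism `D` of `E` realised by the pull-back along `δ`, and every operator `T` on `E` with
the `q`-expansion `T u = V_p(D u) · U_p(∏_{b < p} u(ζ^b q))`:
`evM (T u) = cpMerT1 hp δ hδ (evM u)`, the coset product
`(h ∘ δ)(p z) ∏_{j mod p} h((z + j) / p)` of `h = evM u`. -/
def Stmt_EvNormT : Prop :=
  ∀ (E : IntermediateField Qb (LaurentSeries Qb)) (i0 : Qb →+* ℂ) (evM : E →+* Mer),
    EvQ i0 evM →
    ∀ (M p : ℕ) [Fact p.Prime] [NeZero p] (hp : ¬ p ∣ M) (δ : Gamma0 M)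
      (hδ : Gamma0Map M δ = (p : ZMod M)) (D : E ≃ₐ[Qb] E) (T : E → E),
      (∀ u : E, evM (D u) = pull (δ : SL(2, ℤ)) (evM u)) →
      (∀ ζ : Qbˣ, IsPrimitiveRoot (ζ : Qb) p → ∀ u : E,
        ((T u : E) : LaurentSeries Qb) =
          qExpand Qb p ((D u : E) : LaurentSeries Qb) *
            uOp p (∏ b ∈ Finset.range p, tw (ζ ^ b) (u : LaurentSeries Qb))) →
      ∀ u : E, evM (T u) = helper4325.cpMerT1 hp δ hδ (evM u)

section Dict

variable {E : IntermediateField Qb (LaurentSeries Qb)} [HasPrincipalDivisors Qb E]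
  (G : CoeffGal E)

/-- **(EVDICT)** An evaluation `evM : E → Mer` carrying the Kummer dictionary of `E` at level
`M`, modulus `ℓ`, for the Hecke–diamond layers `H q` of (M2). -/
structure IsEvalDict (M ℓ : ℕ)
    (H : ∀ q : Nat.Primes, ¬ (q : ℕ) ∣ M * ℓ → HeckeDiamondAt G q)
    (evM : E →+* Mer) (ζ : ℂˣ) : Prop where
  /-- (TH2)–(TH4): the multiplier relation of `evM` is a Kummer dictionary -/
  mult : helper2756.MultSpecG Qb (Gamma1 M) ℓ (helper2122.MultMerG (Gamma1 M) evM ℓ ζ)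
  /-- (EVNORM-T): the evaluation of `T_q u` is the coset product of the evaluation of `u` -/
  normT : ∀ (q : Nat.Primes) (hq : ¬ (q : ℕ) ∣ M * ℓ),
    haveI : NeZero (q : ℕ) := ⟨q.2.ne_zero⟩
    haveI : Fact (q : ℕ).Prime := ⟨q.2⟩
    ∃ (hqM : ¬ (q : ℕ) ∣ M) (δ : Gamma0 M) (hδ : Gamma0Map M δ = ((q : ℕ) : ZMod M)),
      ∀ u : E, IsKummer Qb ℓ u → evM ((H q hq).T u) = helper4325.cpMerT1 hqM δ hδ (evM u)
  /-- (EVNORM-D): the evaluation of `⟨q⟩ u` is the pull-back of the evaluation of `u` -/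
  normD : ∀ (q : Nat.Primes) (hq : ¬ (q : ℕ) ∣ M * ℓ),
    haveI : NeZero (q : ℕ) := ⟨q.2.ne_zero⟩
    ∃ (δ : Gamma0 M) (_ : Gamma0Map M δ = ((q : ℕ) : ZMod M)),
      ∀ u : E, IsKummer Qb ℓ u → evM ((H q hq).D u) = pull (δ : SL(2, ℤ)) (evM u)

/-- **(KDICT) from an evaluation** (`IsEvalDict`). -/
theorem hasKummerDict_of_eval (M ℓ : ℕ)
    (H : ∀ q : Nat.Primes, ¬ (q : ℕ) ∣ M * ℓ → HeckeDiamondAt G q)
    (evM : E →+* Mer) (ζ : ℂˣ) (h : IsEvalDict G M ℓ H evM ζ) : HasKummerDict G M ℓ H := by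
  refine ⟨helper2122.MultMerG (Gamma1 M) evM ℓ ζ, h.mult, fun q hq => ?_⟩
  haveI : Fact (q : ℕ).Prime := ⟨q.2⟩
  have hqM : ¬ (q : ℕ) ∣ M := fun hd => hq (Dvd.dvd.mul_right hd ℓ)
  constructor
  · obtain ⟨hqM', δ, hδ, hn⟩ := h.normT q hq
    exact helper4325.opRel_tT_surjGen evM ℓ ζ q hqM' δ hδ _ hn
  · obtain ⟨δ, hδ, hn⟩ := h.normD q hq
    exact helper4325.opRel_tD_surjGen evM ℓ ζ q hqM δ hδ _ hn

/-- **(EVDICT) from its three suppliers**: the dictionary instance (`mult`), the generic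
(EVNORM-T) applied to the `q`-expansion `T_q` of the layers `H q`, and (EVNORM-D) on all of
`E`. -/
theorem isEvalDict_of (hT : Stmt_EvNormT) (M ℓ : ℕ)
    (H : ∀ q : Nat.Primes, ¬ (q : ℕ) ∣ M * ℓ → HeckeDiamondAt G q)
    (i0 : Qb →+* ℂ) (evM : E →+* Mer) (ζ : ℂˣ) (hQ : EvQ i0 evM)
    (hmult : helper2756.MultSpecG Qb (Gamma1 M) ℓ (helper2122.MultMerG (Gamma1 M) evM ℓ ζ))
    (hD : ∀ (q : Nat.Primes) (hq : ¬ (q : ℕ) ∣ M * ℓ),
      haveI : NeZero (q : ℕ) := ⟨q.2.ne_zero⟩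
      ∃ (δ : Gamma0 M) (_ : Gamma0Map M δ = ((q : ℕ) : ZMod M)),
        ∀ u : E, evM ((H q hq).D u) = pull (δ : SL(2, ℤ)) (evM u)) :
    IsEvalDict G M ℓ H evM ζ where
  mult := hmult
  normT q hq := by
    haveI : NeZero (q : ℕ) := ⟨q.2.ne_zero⟩
    haveI : Fact (q : ℕ).Prime := ⟨q.2⟩
    have hqM : ¬ (q : ℕ) ∣ M := fun hd => hq (Dvd.dvd.mul_right hd ℓ)
    obtain ⟨δ, hδ, hDq⟩ := hD q hq
    exact ⟨hqM, δ, hδ, fun u _ =>
      hT E i0 evM hQ M (q : ℕ) hqM δ hδ (H q hq).D (H q hq).T hDq (H q hq).T_q u⟩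
  normD q hq := by
    obtain ⟨δ, hδ, hDq⟩ := hD q hq
    exact ⟨δ, hδ, fun u _ => hDq u⟩

/-- **(KMOD) at `(M, ℓ)` from the (M2) leaves and the evaluation**: the whole (M3) half of the
machine from `Stmt_EvNormT`, one evaluation with (EVQ), its dictionary instance and
(EVNORM-D). -/
theorem hasPeriodKummer_of_eval (hT : Stmt_EvNormT) (M : ℕ) [NeZero M] (ℓ : ℕ) (hℓ : ℓ ≠ 0)
    (H : ∀ q : Nat.Primes, ¬ (q : ℕ) ∣ M * ℓ → HeckeDiamondAt G q)
    (i0 : Qb →+* ℂ) (evM : E →+* Mer) (ζ : ℂˣ) (hQ : EvQ i0 evM)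
    (hmult : helper2756.MultSpecG Qb (Gamma1 M) ℓ (helper2122.MultMerG (Gamma1 M) evM ℓ ζ))
    (hD : ∀ (q : Nat.Primes) (hq : ¬ (q : ℕ) ∣ M * ℓ),
      haveI : NeZero (q : ℕ) := ⟨q.2.ne_zero⟩
      ∃ (δ : Gamma0 M) (_ : Gamma0Map M δ = ((q : ℕ) : ZMod M)),
        ∀ u : E, evM ((H q hq).D u) = pull (δ : SL(2, ℤ)) (evM u)) :
    HasPeriodKummer M ℓ (galHecke G (M * ℓ) H) :=
  hasPeriodKummer_of_dict G M ℓ hℓ H
    (hasKummerDict_of_eval G M ℓ H evM ζ (isEvalDict_of G hT M ℓ H i0 evM ζ hQ hmult hD))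

end Dict

end Fermat.Agent.S48.helper2754
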