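/-
S48 (Deligne–Serre), machine half — (M3), instance level: the leaf (L-H) of (M2) at the carrier
of record `E1 M = helper7300.gamma1FieldBar M` with the evaluation of record
`helper5047.gamma1Ev i0 M` (sub-architect helper2754).

`hasPeriodKummer_gamma1` is `helper2754.hasPeriodKummer_of_eval` at `E := gamma1FieldBar M`,
`evM := helper5047.gamma1Ev i0 M`; (EVQ) is `helper5047.gamma1Ev_hasQ_frac`.  What remains is
exactly three inputs, each a named hypothesis:

* `hT    : Stmt_EvNormT`                      — (EVNORM-T), generic;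
* `hmult : MultSpecG ℚ̄ (Gamma1 M) ℓ (MultMerG (Gamma1 M) (gamma1Ev i0 M) ℓ ζ)` — (INST1);
* `hD    : gamma1Ev i0 M ((H q).D u) = pull δ (gamma1Ev i0 M u)`               — (EVNORM-D).
-/
import Fermat.Agent.S48.helper2754_M3Dict
import Fermat.Agent.S48.helper5047_Gamma1Inst

set_option autoImplicit false

open CongruenceSubgroup AlgebraicCurve ModularCurve UpperHalfPlane
open scoped MatrixGroups

noncomputable section

namespace Fermat.Agent.S48.helper2754

open Fermat.Agent.S48.helper6431 (CoeffGal HeckeDiamond HeckeDiamondAt galHecke)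
open Fermat.Agent.S48.helper7300 (gamma1FieldBar)
open Fermat.Agent.S48.helper5047 (gamma1Ev)
open Fermat.Agent.S24.helper580 (Hol Mer pull)

local notation "Qb" => AlgebraicClosure ℚ

/-- **(EVQ) for the evaluation of record** of the `Γ₁(M)` field over `ℚ̄`. -/
theorem evQ_gamma1Ev (i0 : Qb →+* ℂ) (M : ℕ) [NeZero M] :
    EvQ (E := gamma1FieldBar M) i0 (gamma1Ev i0 M) :=
  fun y => helper5047.gamma1Ev_hasQ_frac i0 M y

/-- **The leaf (L-H) of (M2) at the carrier of record**, from (EVNORM-T), the dictionary instance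
(INST1) and (EVNORM-D) for the evaluation of record `helper5047.gamma1Ev i0 M`. -/
theorem hasPeriodKummer_gamma1 (hT : Stmt_EvNormT) (M : ℕ) [NeZero M] (ℓ : ℕ) (hℓ : ℓ ≠ 0)
    [HasPrincipalDivisors Qb (gamma1FieldBar M)] (G : CoeffGal (gamma1FieldBar M))
    (H : ∀ q : Nat.Primes, ¬ (q : ℕ) ∣ M * ℓ → HeckeDiamondAt G q)
    (i0 : Qb →+* ℂ) (ζ : ℂˣ)
    (hmult : helper2756.MultSpecG Qb (Gamma1 M) ℓ
      (helper2122.MultMerG (Gamma1 M) (gamma1Ev i0 M) ℓ ζ))
    (hD : ∀ (q : Nat.Primes) (hq : ¬ (q : ℕ) ∣ M * ℓ),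
      haveI : NeZero (q : ℕ) := ⟨q.2.ne_zero⟩
      ∃ (δ : Gamma0 M) (_ : Gamma0Map M δ = ((q : ℕ) : ZMod M)),
        ∀ u : gamma1FieldBar M,
          gamma1Ev i0 M ((H q hq).D u) = pull (δ : SL(2, ℤ)) (gamma1Ev i0 M u)) :
    HasPeriodKummer M ℓ (galHecke G (M * ℓ) H) :=
  hasPeriodKummer_of_eval G hT M ℓ hℓ H i0 (gamma1Ev i0 M) ζ (evQ_gamma1Ev i0 M) hmult hD

end Fermat.Agent.S48.helper2754
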