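/-
helper4325 — S48, leaf M3-CORR1 (board #2295): the Hecke and diamond correspondences on `Γ₁(M)`.

The landed S16 module `helper2138_HeckeHom` defines abstract Hecke correspondences
`Corr Γ ι` on a subgroup `Γ ≤ SL(2,ℤ)` (coset representatives `α i` with
`α i * γ = g i γ * α (σ γ i)`), the coset-transfer operator `Corr.op` on `Hom(Γ, A)` and the
instance `corrT N l` on `Γ₀(N)`.  The restriction of `corrT M p` to `Γ₁(M)` is *not* a
correspondence on `Γ₁(M)` (the elements `g x γ` leave `Γ₁(M)` at the coset `∞`).  This file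
provides the correct ones, with the conventions (D1), (D2) of the S48 machine:

* (D1) the diamond `⟨d⟩` is induced by an element `δ ∈ Γ₀(M)` with LOWER-RIGHT entry `≡ d`;
* (D2) `T_p` is given by the cosets `[[1,j],[0,p]]` (`j mod p`) and `δ_p * [[p,0],[0,1]]`, where
  `δ_p ∈ Γ₀(M)` has lower-right entry `≡ p`.

Contents.

* Part A (any `Γ`, any correspondence): `Corr.op` preserves parabolic homomorphisms
  (`Corr.op_isParabolicHom`), the transfer preserves characters trivial on parabolic elements,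
  `Corr.op` commutes with conjugations permuting the cosets (`Corr.op_comp_conj`), and does not
  depend on the choice of the representatives inside their `Γ`-cosets (`Corr.op_eq_of_rep`).
* Part B: `Γ₁(M)` inside `Γ₀(M)`: membership through the lower-right entry, the conjugation
  action of `Γ₀(M)` on `Γ₁(M)`, existence of elements of `Γ₀(M)` with prescribed lower-right
  residue.
* Part C: the diamond correspondence `corrD M δ` and the diamond operator `diamondHom`.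
* Part D: the Hecke correspondence `corrT1 M p hp δ hδ` on `Γ₁(M)` and `heckeHomT1`;
  compatibility with the landed `heckeHomT` on `Γ₀(M)` under restriction; independence of `δ`;
  commutation with the diamonds; preservation of parabolic homs.
* Part E: the multiplicative form on functions on the upper half plane
  (`tmulT1 w z = w (δ • (p z)) * ∏_j w ((z + j) / p)`) and the Hecke-equivariance of multipliers.
-/
import Mathlib
import Fermat.Agent.S16.helper2138_HeckeHom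
import Fermat.Agent.S29.helper2982_MultHecke
import Fermat.Agent.S29.helper7638_HeckeTransfer

set_option autoImplicit false

open CongruenceSubgroup Matrix.SpecialLinearGroup UpperHalfPlane ModularCurve.Period
open scoped MatrixGroups

namespace Fermat.Agent.S48.helper4325

open Fermat.Agent.S16.helper2138

/-! ## Part A: generic facts on correspondences -/

section Generic

variable {Γ : Subgroup SL(2, ℤ)} {ι : Type} [Fintype ι] (C : Corr Γ ι)

/-- The coset permutation of a power is the iterate of the coset permutation. -/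
theorem sigma_pow (γ : Γ) (n : ℕ) (i : ι) : C.σ (γ ^ n) i = (C.σ γ)^[n] i := by
  induction n generalizing i with
  | zero => simp [Corr.σ_one]
  | succ n ih =>
    rw [pow_succ, Corr.σ_mul, ih, Function.iterate_succ_apply']

/-- The value of an additive character on `g i (γ ^ n)` is the sum of its values along the orbit
segment of `i` of length `n`. -/
theorem map_g_pow {A : Type*} [AddCommGroup A] (φ : Additive Γ →+ A) (γ : Γ) (n : ℕ) (i : ι) :
    φ (Additive.ofMul (C.g i (γ ^ n))) =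
      ∑ t ∈ Finset.range n, φ (Additive.ofMul (C.g ((C.σ γ)^[t] i) γ)) := by
  induction n with
  | zero => simp [Corr.g_one]
  | succ n ih =>
    rw [pow_succ, Corr.g_mul, ofMul_mul, map_add, ih, Finset.sum_range_succ, sigma_pow]

/-- The trace of `mapGL ℝ g` is the (cast of the) integral trace. -/
theorem trace_mapGL (g : SL(2, ℤ)) :
    ((mapGL ℝ g : GL (Fin 2) ℝ) : Matrix (Fin 2) (Fin 2) ℝ).trace =
      (((g : Matrix (Fin 2) (Fin 2) ℤ).trace : ℤ) : ℝ) := by
  rw [Matrix.trace_fin_two, Matrix.trace_fin_two]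
  simp

/-- If `γ` fixes the coset `i`, then `g i γ` is `GL₂(ℝ)`-conjugate to `γ`; in particular it has
the same trace. -/
theorem trace_g_of_sigma_eq (γ : Γ) (i : ι) (h : C.σ γ i = i) :
    ((C.g i γ : SL(2, ℤ)) : Matrix (Fin 2) (Fin 2) ℤ).trace =
      ((γ : SL(2, ℤ)) : Matrix (Fin 2) (Fin 2) ℤ).trace := by
  have hrel := C.rel i γ
  rw [h] at hrel
  have hconj : mapGL ℝ (C.g i γ : SL(2, ℤ)) =
      C.α i * mapGL ℝ (γ : SL(2, ℤ)) * (C.α i)⁻¹ := by
    rw [hrel, mul_inv_cancel_right]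
  have htrace : ((mapGL ℝ (C.g i γ : SL(2, ℤ)) : GL (Fin 2) ℝ) :
      Matrix (Fin 2) (Fin 2) ℝ).trace =
      ((mapGL ℝ (γ : SL(2, ℤ)) : GL (Fin 2) ℝ) : Matrix (Fin 2) (Fin 2) ℝ).trace := by
    rw [hconj, Units.val_mul, Units.val_mul, Matrix.trace_mul_comm, ← mul_assoc,
      ← Units.val_mul, inv_mul_cancel, Units.val_one, one_mul]
  rw [trace_mapGL, trace_mapGL] at htrace
  exact Int.cast_injective htrace

/-- A sum over a finite type vanishes as soon as it vanishes along every cycle of a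
permutation (additive form of the landed `helper7638.prod_eq_one_of_cycle_prod`). -/
theorem sum_eq_zero_of_cycle_sum {X : Type*} [Fintype X] {A : Type*} [AddCommMonoid A]
    (σ : Equiv.Perm X) (Φ : X → A)
    (h : ∀ x : X, ∑ i ∈ Finset.range (Function.minimalPeriod σ x), Φ (σ^[i] x) = 0) :
    ∑ x : X, Φ x = 0 := by
  have := Fermat.Agent.S29.helper7638.prod_eq_one_of_cycle_prod (M := Multiplicative A) σ
    (fun x => Multiplicative.ofAdd (Φ x)) (fun x => by
      rw [← ofAdd_sum, h x]; rfl)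
  rw [← ofAdd_sum] at this
  exact Multiplicative.ofAdd.injective this

/-- **Parabolic homomorphisms are preserved by every correspondence.**  If `φ : Γ → A` vanishes
on all elements of trace `± 2`, so does its coset transfer `C.op A φ`. -/
theorem op_isParabolicHom {A : Type*} [AddCommGroup A] (φ : Additive Γ →+ A)
    (hφ : IsParabolicHom Γ φ) : IsParabolicHom Γ (C.op A φ) := by
  intro γ hγ
  rw [Corr.op_apply]
  refine sum_eq_zero_of_cycle_sum (C.σEquiv γ) (fun i => φ (Additive.ofMul (C.g i γ)))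
    fun i => ?_
  have hiter : ∀ t : ℕ, ((C.σEquiv γ : Equiv.Perm ι))^[t] i = (C.σ γ)^[t] i := fun t => rfl
  simp only [hiter]
  rw [← map_g_pow]
  apply hφ
  have hfix : C.σ (γ ^ Function.minimalPeriod (C.σEquiv γ) i) i = i := by
    rw [sigma_pow]
    exact Function.iterate_minimalPeriod (f := (C.σEquiv γ)) (x := i)
  rw [trace_g_of_sigma_eq C _ i hfix, Subgroup.coe_pow, Matrix.SpecialLinearGroup.coe_pow]
  exact Fermat.Agent.S29.helper7638.trace_pow_sq_eq_four _ (γ : SL(2, ℤ)).2 hγ _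

/-- `Corr.op` restricted to the parabolic homs. -/
theorem op_mem_parabolicHoms (R : Type*) [Semiring R] {A : Type*} [AddCommGroup A] [Module R A]
    {φ : Additive Γ →+ A} (hφ : φ ∈ parabolicHoms R Γ A) :
    C.op A φ ∈ parabolicHoms R Γ A :=
  op_isParabolicHom C φ hφ


/-- **Commutation of `Corr.op` with a conjugation.**  Let `θ` be an automorphism of `Γ` (with
inverse `θ'`) induced by conjugation with `ε ∈ GL₂(ℝ)`, and assume that `ε` permutes the cosets
`Γ α i`.  Then `C.op` commutes with composition by `θ`.  (Generalises the landed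
`Corr.op_conj`, which is stated for involutions.) -/
theorem op_comp_conj (θ θ' : Γ →* Γ) (hθ' : ∀ γ, θ (θ' γ) = γ) (ε : GL (Fin 2) ℝ)
    (hε : ∀ γ : Γ, mapGL ℝ ((θ γ : Γ) : SL(2, ℤ)) = ε * mapGL ℝ (γ : SL(2, ℤ)) * ε⁻¹)
    (hα : ∀ i, ∃ (j : ι) (τ : Γ), ε * C.α i * ε⁻¹ = mapGL ℝ (τ : SL(2, ℤ)) * C.α j)
    (A : Type*) [AddCommGroup A] (φ : Additive Γ →+ A) :
    C.op A (φ.comp (MonoidHom.toAdditive θ)) = (C.op A φ).comp (MonoidHom.toAdditive θ) := by
  classical
  choose π τ hπ using hα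
  have c2 : ∀ x : Γ, ε⁻¹ * mapGL ℝ (x : SL(2, ℤ)) * ε = mapGL ℝ ((θ' x : Γ) : SL(2, ℤ)) := by
    intro x
    have h := hε (θ' x)
    rw [hθ'] at h
    rw [h]; group
  have hπinj : Function.Injective π := by
    intro i i' hii
    have h1 := hπ i
    have h2 := hπ i'
    rw [← hii] at h2
    have e1 : C.α i = ε⁻¹ * (mapGL ℝ ((τ i : Γ) : SL(2, ℤ)) * C.α (π i)) * ε := by
      rw [← h1]; group
    have e2 : C.α i' = ε⁻¹ * (mapGL ℝ ((τ i' : Γ) : SL(2, ℤ)) * C.α (π i)) * ε := by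
      rw [← h2]; group
    have h3 : mapGL ℝ (((θ' (τ i' * (τ i)⁻¹) : Γ)) : SL(2, ℤ)) * C.α i = C.α i' := by
      rw [← c2, Subgroup.coe_mul, map_mul, Subgroup.coe_inv, map_inv, e2]
      rw [e1]
      group
    exact C.inj _ _ _ h3
  have hπbij : Function.Bijective π := Finite.injective_iff_bijective.mp hπinj
  let πe : ι ≃ ι := Equiv.ofBijective π hπbij
  have key : ∀ (i : ι) (γ : Γ),
      C.g (π i) (θ γ) = (τ i)⁻¹ * θ (C.g i γ) * τ (C.σ γ i) := by
    intro i γ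
    have hrel := C.rel i γ
    have H : C.α (π i) * mapGL ℝ ((θ γ : Γ) : SL(2, ℤ)) =
        mapGL ℝ ((((τ i)⁻¹ * θ (C.g i γ) * τ (C.σ γ i) : Γ)) : SL(2, ℤ)) *
          C.α (π (C.σ γ i)) := by
      have e1 : C.α (π i) = (mapGL ℝ ((τ i : Γ) : SL(2, ℤ)))⁻¹ * (ε * C.α i * ε⁻¹) := by
        rw [hπ i]; group
      have e3 : mapGL ℝ ((τ (C.σ γ i) : Γ) : SL(2, ℤ)) * C.α (π (C.σ γ i)) =
          ε * C.α (C.σ γ i) * ε⁻¹ := (hπ _).symm
      rw [Subgroup.coe_mul, Subgroup.coe_mul, map_mul, map_mul, Subgroup.coe_inv, map_inv,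
        mul_assoc, mul_assoc, e3, hε (C.g i γ), hε γ, e1]
      have e4 : ε * C.α i * ε⁻¹ * (ε * mapGL ℝ (γ : SL(2, ℤ)) * ε⁻¹) =
          ε * (C.α i * mapGL ℝ (γ : SL(2, ℤ))) * ε⁻¹ := by group
      rw [mul_assoc, e4, hrel]
      group
    exact (C.uniq H).2.symm
  refine AddMonoidHom.ext fun γ => ?_
  obtain ⟨γ, rfl⟩ := Additive.ofMul.surjective γ
  show ∑ i, φ (Additive.ofMul (θ (C.g i γ))) = ∑ i, φ (Additive.ofMul (C.g i (θ γ)))
  rw [← Equiv.sum_comp πe (fun i => φ (Additive.ofMul (C.g i (θ γ))))]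
  have hterm : ∀ i, φ (Additive.ofMul (C.g (πe i) (θ γ))) =
      φ (Additive.ofMul (θ (C.g i γ))) + (φ (Additive.ofMul (τ (C.σ γ i)))
        - φ (Additive.ofMul (τ i))) := by
    intro i
    show φ (Additive.ofMul (C.g (π i) (θ γ))) = _
    rw [key i γ, ofMul_mul, ofMul_mul, ofMul_inv, map_add, map_add, map_neg]
    abel
  rw [Finset.sum_congr rfl (fun i _ => hterm i), Finset.sum_add_distrib,
    Finset.sum_sub_distrib]
  have hperm : ∑ i, φ (Additive.ofMul (τ (C.σ γ i))) = ∑ i, φ (Additive.ofMul (τ i)) :=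
    Equiv.sum_comp (C.σEquiv γ) (fun i => φ (Additive.ofMul (τ i)))
  rw [hperm, sub_self, add_zero]

/-- Changing the representatives inside their left `Γ`-cosets changes neither the coset
permutation nor (up to the expected conjugation) the `Γ`-components. -/
theorem sigma_g_of_rep (C C' : Corr Γ ι) (τ : ι → Γ)
    (h : ∀ i, C'.α i = mapGL ℝ (τ i : SL(2, ℤ)) * C.α i) (i : ι) (γ : Γ) :
    C'.σ γ i = C.σ γ i ∧ C'.g i γ = τ i * C.g i γ * (τ (C.σ γ i))⁻¹ := by
  have H : C'.α i * mapGL ℝ (γ : SL(2, ℤ)) =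
      mapGL ℝ (((τ i * C.g i γ * (τ (C.σ γ i))⁻¹ : Γ)) : SL(2, ℤ)) * C'.α (C.σ γ i) := by
    rw [h i, h (C.σ γ i), mul_assoc, C.rel i γ, Subgroup.coe_mul, Subgroup.coe_mul, map_mul,
      map_mul, Subgroup.coe_inv, map_inv]
    group
  obtain ⟨h1, h2⟩ := C'.uniq H
  exact ⟨h1.symm, h2.symm⟩

/-- **`Corr.op` does not depend on the choice of the coset representatives.** -/
theorem op_eq_of_rep (C C' : Corr Γ ι) (τ : ι → Γ)
    (h : ∀ i, C'.α i = mapGL ℝ (τ i : SL(2, ℤ)) * C.α i)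
    (A : Type*) [AddCommGroup A] (φ : Additive Γ →+ A) : C'.op A φ = C.op A φ := by
  refine AddMonoidHom.ext fun γ => ?_
  obtain ⟨γ, rfl⟩ := Additive.ofMul.surjective γ
  rw [Corr.op_apply, Corr.op_apply]
  have hterm : ∀ i, φ (Additive.ofMul (C'.g i γ)) =
      φ (Additive.ofMul (C.g i γ)) + (φ (Additive.ofMul (τ i))
        - φ (Additive.ofMul (τ (C.σ γ i)))) := by
    intro i
    rw [(sigma_g_of_rep C C' τ h i γ).2, ofMul_mul, ofMul_mul, ofMul_inv, map_add, map_add,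
      map_neg]
    abel
  rw [Finset.sum_congr rfl (fun i _ => hterm i), Finset.sum_add_distrib,
    Finset.sum_sub_distrib]
  have hperm : ∑ i, φ (Additive.ofMul (τ (C.σ γ i))) = ∑ i, φ (Additive.ofMul (τ i)) :=
    Equiv.sum_comp (C.σEquiv γ) (fun i => φ (Additive.ofMul (τ i)))
  rw [hperm, sub_self, add_zero]

/-- **`Corr.op` only depends on the set of left cosets `Γ α i`.**  If every representative of
`C'` lies in the left `Γ`-coset of a representative of `C` and `C` has at most as many cosets as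
`C'`, then the two coset transfers agree (the index types may differ). -/
theorem op_eq_of_cosets {ι' : Type} [Fintype ι'] (C : Corr Γ ι) (C' : Corr Γ ι')
    (hcard : Fintype.card ι ≤ Fintype.card ι')
    (h : ∀ j : ι', ∃ (i : ι) (u : Γ), C'.α j = mapGL ℝ (u : SL(2, ℤ)) * C.α i)
    (A : Type*) [AddCommGroup A] (φ : Additive Γ →+ A) : C'.op A φ = C.op A φ := by
  classical
  choose f u hu using h
  have hinj : Function.Injective f := by
    intro j j' hjj
    have h1 := hu j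
    have h2 := hu j'
    rw [← hjj] at h2
    have h3 : mapGL ℝ (((u j' * (u j)⁻¹ : Γ)) : SL(2, ℤ)) * C'.α j = C'.α j' := by
      rw [h1, h2, Subgroup.coe_mul, Subgroup.coe_inv, map_mul, map_inv]
      group
    exact C'.inj _ _ _ h3
  have hbij : Function.Bijective f :=
    (Fintype.bijective_iff_injective_and_card f).mpr
      ⟨hinj, le_antisymm (Fintype.card_le_of_injective f hinj) hcard⟩
  let e : ι' ≃ ι := Equiv.ofBijective f hbij
  have key : ∀ (j : ι') (γ : Γ),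
      C'.g j γ = u j * C.g (f j) γ * (u (C'.σ γ j))⁻¹ := by
    intro j γ
    have H : C.α (f j) * mapGL ℝ (γ : SL(2, ℤ)) =
        mapGL ℝ ((((u j)⁻¹ * C'.g j γ * u (C'.σ γ j) : Γ)) : SL(2, ℤ)) *
          C.α (f (C'.σ γ j)) := by
      have e1 : C.α (f j) = (mapGL ℝ ((u j : Γ) : SL(2, ℤ)))⁻¹ * C'.α j := by
        rw [hu j]; group
      have e2 := C'.rel j γ
      have e3 := hu (C'.σ γ j)
      rw [e1, mul_assoc, e2, e3, Subgroup.coe_mul, Subgroup.coe_mul, Subgroup.coe_inv, map_mul,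
        map_mul, map_inv]
      group
    obtain ⟨-, h2⟩ := C.uniq H
    rw [← h2]; group
  refine AddMonoidHom.ext fun γ => ?_
  obtain ⟨γ, rfl⟩ := Additive.ofMul.surjective γ
  rw [Corr.op_apply, Corr.op_apply]
  have hterm : ∀ j, φ (Additive.ofMul (C'.g j γ)) =
      φ (Additive.ofMul (C.g (f j) γ)) + (φ (Additive.ofMul (u j))
        - φ (Additive.ofMul (u (C'.σ γ j)))) := by
    intro j
    rw [key j γ, ofMul_mul, ofMul_mul, ofMul_inv, map_add, map_add, map_neg]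
    abel
  rw [Finset.sum_congr rfl (fun j _ => hterm j), Finset.sum_add_distrib,
    Finset.sum_sub_distrib]
  have hperm : ∑ j, φ (Additive.ofMul (u (C'.σ γ j))) = ∑ j, φ (Additive.ofMul (u j)) :=
    Equiv.sum_comp (C'.σEquiv γ) (fun j => φ (Additive.ofMul (u j)))
  rw [hperm, sub_self, add_zero]
  exact Equiv.sum_comp e (fun i => φ (Additive.ofMul (C.g i γ)))

end Generic

/-! ## Part B: `Γ₁(M)` inside `Γ₀(M)` -/

section Gamma1

variable {M : ℕ}

/-- Membership in `Γ₁(M)` through the lower row. -/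
theorem mem_Gamma1_iff {g : SL(2, ℤ)} :
    g ∈ Gamma1 M ↔ g ∈ Gamma0 M ∧ ((g 1 1 : ℤ) : ZMod M) = 1 := by
  rw [Gamma1_mem, Gamma0_mem]
  constructor
  · rintro ⟨-, h11, h10⟩
    exact ⟨h10, h11⟩
  · rintro ⟨h10, h11⟩
    refine ⟨?_, h11, h10⟩
    have hdet := g.det_coe
    rw [Matrix.det_fin_two] at hdet
    have := congrArg (Int.cast : ℤ → ZMod M) hdet
    push_cast at this
    rw [h10, h11] at this
    simpa using this

/-- `Γ₁(M) → Γ₀(M)`. -/
def incl (M : ℕ) : Gamma1 M →* Gamma0 M := Subgroup.inclusion (Gamma1_in_Gamma0 M)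

@[simp] theorem coe_incl (γ : Gamma1 M) : ((incl M γ : Gamma0 M) : SL(2, ℤ)) = γ := rfl

theorem Gamma0Map_apply (δ : Gamma0 M) :
    Gamma0Map M δ = (((δ : SL(2, ℤ)) 1 1 : ℤ) : ZMod M) := rfl

/-- An element of `Γ₀(M)` lies in `Γ₁(M)` iff its lower-right entry is `≡ 1`. -/
theorem coe_mem_Gamma1_iff (δ : Gamma0 M) : (δ : SL(2, ℤ)) ∈ Gamma1 M ↔ Gamma0Map M δ = 1 := by
  rw [mem_Gamma1_iff, Gamma0Map_apply]
  exact ⟨fun h => h.2, fun h => ⟨δ.2, h⟩⟩

@[simp] theorem Gamma0Map_incl (γ : Gamma1 M) : Gamma0Map M (incl M γ) = 1 :=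
  (coe_mem_Gamma1_iff _).mp γ.2

theorem Gamma0Map_mul_inv (δ : Gamma0 M) : Gamma0Map M δ * Gamma0Map M δ⁻¹ = 1 := by
  rw [← map_mul, mul_inv_cancel, map_one]

theorem Gamma0Map_inv_mul (δ : Gamma0 M) : Gamma0Map M δ⁻¹ * Gamma0Map M δ = 1 := by
  rw [← map_mul, inv_mul_cancel, map_one]

theorem isUnit_Gamma0Map (δ : Gamma0 M) : IsUnit (Gamma0Map M δ) :=
  IsUnit.of_mul_eq_one _ (Gamma0Map_mul_inv δ)

/-- Lifting an element of `Γ₀(M)` with lower-right entry `≡ 1` to `Γ₁(M)`. -/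
def toGamma1 (δ : Gamma0 M) (h : Gamma0Map M δ = 1) : Gamma1 M :=
  ⟨(δ : SL(2, ℤ)), (coe_mem_Gamma1_iff δ).mpr h⟩

@[simp] theorem incl_toGamma1 (δ : Gamma0 M) (h : Gamma0Map M δ = 1) :
    incl M (toGamma1 δ h) = δ := rfl

@[simp] theorem coe_toGamma1 (δ : Gamma0 M) (h : Gamma0Map M δ = 1) :
    ((toGamma1 δ h : Gamma1 M) : SL(2, ℤ)) = δ := rfl

theorem Gamma0Map_conj (δ : Gamma0 M) (γ : Gamma1 M) :
    Gamma0Map M (δ * incl M γ * δ⁻¹) = 1 := by
  rw [map_mul, map_mul, Gamma0Map_incl, mul_one, Gamma0Map_mul_inv]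

/-- Conjugation by `δ ∈ Γ₀(M)` as an endomorphism of `Γ₁(M)`: `γ ↦ δ γ δ⁻¹`. -/
def conjHom (M : ℕ) (δ : Gamma0 M) : Gamma1 M →* Gamma1 M where
  toFun γ := toGamma1 (δ * incl M γ * δ⁻¹) (Gamma0Map_conj δ γ)
  map_one' := by
    apply Subtype.ext
    simp
  map_mul' γ γ' := by
    apply Subtype.ext
    simp [mul_assoc]

@[simp] theorem coe_conjHom (δ : Gamma0 M) (γ : Gamma1 M) :
    ((conjHom M δ γ : Gamma1 M) : SL(2, ℤ)) =
      (δ : SL(2, ℤ)) * (γ : SL(2, ℤ)) * (δ : SL(2, ℤ))⁻¹ := rfl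

theorem incl_conjHom (δ : Gamma0 M) (γ : Gamma1 M) :
    incl M (conjHom M δ γ) = δ * incl M γ * δ⁻¹ := rfl

theorem conjHom_mul (δ δ' : Gamma0 M) (γ : Gamma1 M) :
    conjHom M (δ * δ') γ = conjHom M δ (conjHom M δ' γ) := by
  apply Subtype.ext
  simp [mul_assoc]

theorem conjHom_one (γ : Gamma1 M) : conjHom M 1 γ = γ := by
  apply Subtype.ext
  simp

theorem conjHom_inv_conjHom (δ : Gamma0 M) (γ : Gamma1 M) :
    conjHom M δ⁻¹ (conjHom M δ γ) = γ := by
  rw [← conjHom_mul, inv_mul_cancel, conjHom_one]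

theorem conjHom_conjHom_inv (δ : Gamma0 M) (γ : Gamma1 M) :
    conjHom M δ (conjHom M δ⁻¹ γ) = γ := by
  rw [← conjHom_mul, mul_inv_cancel, conjHom_one]

/-- Conjugation by an element of `Γ₁(M)` (viewed in `Γ₀(M)`) is the inner automorphism. -/
theorem conjHom_incl (η γ : Gamma1 M) : conjHom M (incl M η) γ = η * γ * η⁻¹ := by
  apply Subtype.ext
  simp

/-- Elements of `Γ₀(M)` with prescribed lower-right residue: every integer prime to `M` is the
lower-right entry of an element of `Γ₀(M)` (with lower-left entry `M`). -/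
theorem exists_Gamma0Map_eq (M : ℕ) {d : ℤ} (hd : IsCoprime (M : ℤ) d) :
    ∃ δ : Gamma0 M, Gamma0Map M δ = (d : ZMod M) := by
  obtain ⟨g, h10, h11⟩ := hd.exists_SL2_row 1
  refine ⟨⟨g, ?_⟩, ?_⟩
  · rw [Gamma0_mem, h10]
    simp
  · rw [Gamma0Map_apply]
    show (((g 1 1 : ℤ)) : ZMod M) = _
    rw [h11]

/-- For a prime `p ∤ M` there is `δ ∈ Γ₀(M)` with lower-right entry `≡ p`. -/
theorem exists_Gamma0Map_eq_prime (M : ℕ) {p : ℕ} (hp : p.Prime) (hpM : ¬ p ∣ M) :
    ∃ δ : Gamma0 M, Gamma0Map M δ = (p : ZMod M) := by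
  have hcop : IsCoprime (M : ℤ) (p : ℤ) :=
    Nat.isCoprime_iff_coprime.mpr ((Nat.Prime.coprime_iff_not_dvd hp).mpr hpM).symm
  obtain ⟨δ, hδ⟩ := exists_Gamma0Map_eq M hcop
  exact ⟨δ, by rw [hδ]; simp⟩

/-- Every unit of `ZMod M` is the lower-right residue of an element of `Γ₀(M)`. -/
theorem exists_Gamma0Map_eq_unit (M : ℕ) [NeZero M] (u : (ZMod M)ˣ) :
    ∃ δ : Gamma0 M, Gamma0Map M δ = (u : ZMod M) := by
  have hcop : IsCoprime (M : ℤ) (((u : ZMod M).val : ℕ) : ℤ) :=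
    Nat.isCoprime_iff_coprime.mpr (ZMod.val_coe_unit_coprime u).symm
  obtain ⟨δ, hδ⟩ := exists_Gamma0Map_eq M hcop
  exact ⟨δ, by rw [hδ]; simp⟩

end Gamma1

/-! ## Part C: the diamond correspondence -/

section Diamond

variable {M : ℕ}

theorem mapGL_conjHom (δ : Gamma0 M) (γ : Gamma1 M) :
    mapGL ℝ ((conjHom M δ γ : Gamma1 M) : SL(2, ℤ)) =
      mapGL ℝ (δ : SL(2, ℤ)) * mapGL ℝ (γ : SL(2, ℤ)) * (mapGL ℝ (δ : SL(2, ℤ)))⁻¹ := by
  rw [coe_conjHom, map_mul, map_mul, map_inv]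

/-- The diamond correspondence on `Γ₁(M)` attached to `δ ∈ Γ₀(M)`: the single coset
`Γ₁(M) δ`. -/
noncomputable def corrD (M : ℕ) (δ : Gamma0 M) : Corr (Gamma1 M) Unit where
  α := fun _ => mapGL ℝ (δ : SL(2, ℤ))
  ex := fun _ γ => ⟨(), conjHom M δ γ, by rw [mapGL_conjHom, inv_mul_cancel_right]⟩
  inj := fun _ _ _ _ => rfl

@[simp] theorem corrD_α (δ : Gamma0 M) (u : Unit) :
    (corrD M δ).α u = mapGL ℝ (δ : SL(2, ℤ)) := rfl

/-- The `Γ₁(M)`-component of the diamond correspondence is the conjugation `γ ↦ δ γ δ⁻¹`. -/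
theorem corrD_g (δ : Gamma0 M) (u : Unit) (γ : Gamma1 M) :
    (corrD M δ).g u γ = conjHom M δ γ := by
  have H : (corrD M δ).α u * mapGL ℝ (γ : SL(2, ℤ)) =
      mapGL ℝ ((conjHom M δ γ : Gamma1 M) : SL(2, ℤ)) * (corrD M δ).α u := by
    rw [corrD_α, mapGL_conjHom, inv_mul_cancel_right]
  exact ((corrD M δ).uniq H).2.symm

/-- **The diamond operator** on `Hom(Γ₁(M), A)` attached to `δ ∈ Γ₀(M)` (convention (D1): it
is `⟨d⟩` for `d ≡` the lower-right entry of `δ`): `φ ↦ φ ∘ (γ ↦ δ γ δ⁻¹)`. -/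
noncomputable def diamondHom (M : ℕ) (δ : Gamma0 M) (A : Type*) [AddCommGroup A]
    (φ : Additive (Gamma1 M) →+ A) : Additive (Gamma1 M) →+ A :=
  (corrD M δ).op A φ

theorem diamondHom_apply (δ : Gamma0 M) (A : Type*) [AddCommGroup A]
    (φ : Additive (Gamma1 M) →+ A) (γ : Gamma1 M) :
    diamondHom M δ A φ (Additive.ofMul γ) = φ (Additive.ofMul (conjHom M δ γ)) := by
  rw [diamondHom, Corr.op_apply, Fintype.sum_unique, corrD_g]

theorem diamondHom_eq_comp (δ : Gamma0 M) (A : Type*) [AddCommGroup A]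
    (φ : Additive (Gamma1 M) →+ A) :
    diamondHom M δ A φ = φ.comp (MonoidHom.toAdditive (conjHom M δ)) := by
  refine AddMonoidHom.ext fun γ => ?_
  obtain ⟨γ, rfl⟩ := Additive.ofMul.surjective γ
  rw [diamondHom_apply]
  rfl

theorem diamondHom_add (δ : Gamma0 M) (A : Type*) [AddCommGroup A]
    (φ ψ : Additive (Gamma1 M) →+ A) :
    diamondHom M δ A (φ + ψ) = diamondHom M δ A φ + diamondHom M δ A ψ :=
  Corr.op_add _ A φ ψ

/-- Homomorphisms to an abelian group are invariant under inner automorphisms. -/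
theorem map_conj_eq {A : Type*} [AddCommGroup A] (φ : Additive (Gamma1 M) →+ A)
    (η γ : Gamma1 M) : φ (Additive.ofMul (η * γ * η⁻¹)) = φ (Additive.ofMul γ) := by
  rw [ofMul_mul, ofMul_mul, ofMul_inv, map_add, map_add, map_neg]
  abel

/-- The diamond operator of an element of `Γ₁(M)` is trivial. -/
theorem diamondHom_of_Gamma0Map_eq_one (δ : Gamma0 M) (hδ : Gamma0Map M δ = 1)
    (A : Type*) [AddCommGroup A] (φ : Additive (Gamma1 M) →+ A) :
    diamondHom M δ A φ = φ := by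
  refine AddMonoidHom.ext fun γ => ?_
  obtain ⟨γ, rfl⟩ := Additive.ofMul.surjective γ
  rw [diamondHom_apply]
  have h : conjHom M δ γ = toGamma1 δ hδ * γ * (toGamma1 δ hδ)⁻¹ := by
    rw [← conjHom_incl]
    rfl
  rw [h, map_conj_eq]

@[simp] theorem diamondHom_one (A : Type*) [AddCommGroup A] (φ : Additive (Gamma1 M) →+ A) :
    diamondHom M 1 A φ = φ :=
  diamondHom_of_Gamma0Map_eq_one 1 (map_one _) A φ

/-- Composition of diamond operators. -/
theorem diamondHom_mul (δ δ' : Gamma0 M) (A : Type*) [AddCommGroup A]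
    (φ : Additive (Gamma1 M) →+ A) :
    diamondHom M (δ * δ') A φ = diamondHom M δ' A (diamondHom M δ A φ) := by
  refine AddMonoidHom.ext fun γ => ?_
  obtain ⟨γ, rfl⟩ := Additive.ofMul.surjective γ
  rw [diamondHom_apply, diamondHom_apply, diamondHom_apply, conjHom_mul]

/-- **The diamond operator only depends on the lower-right residue.** -/
theorem diamondHom_congr (δ δ' : Gamma0 M) (h : Gamma0Map M δ = Gamma0Map M δ')
    (A : Type*) [AddCommGroup A] (φ : Additive (Gamma1 M) →+ A) :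
    diamondHom M δ A φ = diamondHom M δ' A φ := by
  have h1 : Gamma0Map M (δ⁻¹ * δ') = 1 := by
    rw [map_mul, ← h, Gamma0Map_inv_mul]
  have h2 : δ' = δ * (δ⁻¹ * δ') := by group
  rw [h2, diamondHom_mul, diamondHom_of_Gamma0Map_eq_one _ h1]

/-- The diamond operators commute. -/
theorem diamondHom_comm (δ δ' : Gamma0 M) (A : Type*) [AddCommGroup A]
    (φ : Additive (Gamma1 M) →+ A) :
    diamondHom M δ A (diamondHom M δ' A φ) = diamondHom M δ' A (diamondHom M δ A φ) := by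
  rw [← diamondHom_mul, ← diamondHom_mul]
  exact diamondHom_congr _ _ (by rw [map_mul, map_mul, mul_comm]) A φ

theorem diamondHom_inv_diamondHom (δ : Gamma0 M) (A : Type*) [AddCommGroup A]
    (φ : Additive (Gamma1 M) →+ A) :
    diamondHom M δ⁻¹ A (diamondHom M δ A φ) = φ := by
  rw [← diamondHom_mul, mul_inv_cancel, diamondHom_one]

theorem diamondHom_diamondHom_inv (δ : Gamma0 M) (A : Type*) [AddCommGroup A]
    (φ : Additive (Gamma1 M) →+ A) :
    diamondHom M δ A (diamondHom M δ⁻¹ A φ) = φ := by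
  rw [← diamondHom_mul, inv_mul_cancel, diamondHom_one]

/-- The diamond operators preserve parabolic homomorphisms. -/
theorem diamondHom_isParabolicHom (δ : Gamma0 M) {A : Type*} [AddCommGroup A]
    (φ : Additive (Gamma1 M) →+ A) (hφ : IsParabolicHom (Gamma1 M) φ) :
    IsParabolicHom (Gamma1 M) (diamondHom M δ A φ) :=
  op_isParabolicHom _ φ hφ

/-- Compatibility with a change of coefficients. -/
theorem diamondHom_comp (δ : Gamma0 M) {A B : Type*} [AddCommGroup A] [AddCommGroup B]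
    (f : A →+ B) (φ : Additive (Gamma1 M) →+ A) :
    diamondHom M δ B (f.comp φ) = f.comp (diamondHom M δ A φ) :=
  Corr.op_comp _ f φ

/-- Restrictions of homomorphisms on `Γ₀(M)` are fixed by the diamonds. -/
theorem diamondHom_restrict (δ : Gamma0 M) (A : Type*) [AddCommGroup A]
    (ψ : Additive (Gamma0 M) →+ A) :
    diamondHom M δ A (ψ.comp (MonoidHom.toAdditive (incl M))) =
      ψ.comp (MonoidHom.toAdditive (incl M)) := by
  refine AddMonoidHom.ext fun γ => ?_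
  obtain ⟨γ, rfl⟩ := Additive.ofMul.surjective γ
  rw [diamondHom_apply]
  show ψ (Additive.ofMul (incl M (conjHom M δ γ))) = ψ (Additive.ofMul (incl M γ))
  rw [incl_conjHom, ofMul_mul, ofMul_mul, ofMul_inv, map_add, map_add, map_neg]
  abel

/-- The diamond operator as an `R`-linear endomorphism. -/
noncomputable def diamondLin (M : ℕ) (δ : Gamma0 M) (R : Type*) [Semiring R] (A : Type*)
    [AddCommGroup A] [Module R A] :
    (Additive (Gamma1 M) →+ A) →ₗ[R] (Additive (Gamma1 M) →+ A) :=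
  (corrD M δ).opLin R A

@[simp] theorem diamondLin_apply (δ : Gamma0 M) (R : Type*) [Semiring R] (A : Type*)
    [AddCommGroup A] [Module R A] (φ : Additive (Gamma1 M) →+ A) :
    diamondLin M δ R A φ = diamondHom M δ A φ := rfl

/-- The multiplicative transform of the diamond correspondence: `w ↦ w ∘ δ`. -/
theorem tmul_corrD (δ : Gamma0 M) {V : Type*} [CommMonoid V] (w : ℍ → V) (z : ℍ) :
    Fermat.Agent.S29.helper2982.tmul (corrD M δ) w z = w (δ • z) := by
  rw [Fermat.Agent.S29.helper2982.tmul_apply, Fintype.prod_unique]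
  rfl

/-- The multiplicative transfer of a character along the diamond correspondence. -/
theorem transfer_corrD (δ : Gamma0 M) {V : Type*} [CommMonoid V] (χ : Gamma1 M →* V)
    (γ : Gamma1 M) :
    Fermat.Agent.S29.helper2982.transfer (corrD M δ) χ γ = χ (conjHom M δ γ) := by
  rw [Fermat.Agent.S29.helper2982.transfer_apply, Fintype.prod_unique, corrD_g]

/-- If `w` has the multiplier system `χ` on `Γ₁(M)`, then `w ∘ δ` has the multiplier system
`χ ∘ (γ ↦ δ γ δ⁻¹)`. -/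
theorem comp_smul_of_multiplier (δ : Gamma0 M) {V : Type*} [CommMonoid V] (w : ℍ → V)
    (χ : Gamma1 M →* V) (hw : ∀ (γ : Gamma1 M) (z : ℍ), w (γ • z) = χ γ * w z)
    (γ : Gamma1 M) (z : ℍ) :
    w (δ • (γ • z)) = χ (conjHom M δ γ) * w (δ • z) := by
  have h := Fermat.Agent.S29.helper2982.tmul_smul (corrD M δ) w χ hw γ z
  rwa [tmul_corrD, tmul_corrD, transfer_corrD] at h

end Diamond

/-! ## Part D: the Hecke correspondence `T_p` on `Γ₁(M)` -/

section HeckeGamma1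

variable (M p : ℕ) [Fact p.Prime] (hp : ¬ p ∣ M)

/-- The twisting elements: `δ` at the coset `∞`, `1` at the finite cosets. -/
def cT (δ : Gamma0 M) (x : OnePoint (ZMod p)) : Gamma0 M := x.elim δ (fun _ => 1)

omit [Fact p.Prime] in
@[simp] theorem cT_infty (δ : Gamma0 M) : cT M p δ OnePoint.infty = δ := rfl

omit [Fact p.Prime] in
@[simp] theorem cT_coe (δ : Gamma0 M) (j : ZMod p) : cT M p δ (j : OnePoint (ZMod p)) = 1 := rfl

variable {M p}

omit [Fact p.Prime] in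
/-- `d(c x) * e(x) = p` in `ZMod M`. -/
theorem Gamma0Map_cT_mul {δ : Gamma0 M} (hδ : Gamma0Map M δ = (p : ZMod M))
    (x : OnePoint (ZMod p)) :
    Gamma0Map M (cT M p δ x) * ((eT p x : ℤ) : ZMod M) = (p : ZMod M) := by
  induction x using OnePoint.rec with
  | infty => rw [cT_infty, eT_infty, hδ, Int.cast_one, mul_one]
  | coe j => rw [cT_coe, eT_coe, map_one, one_mul, Int.cast_natCast]

omit [Fact p.Prime] in
theorem isUnit_eT {δ : Gamma0 M} (hδ : Gamma0Map M δ = (p : ZMod M))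
    (x : OnePoint (ZMod p)) : IsUnit (((eT p x : ℤ) : ZMod M)) := by
  induction x using OnePoint.rec with
  | infty => rw [eT_infty, Int.cast_one]; exact isUnit_one
  | coe j =>
    rw [eT_coe, Int.cast_natCast, ← hδ]
    exact isUnit_Gamma0Map δ

/-- **Key residue computation.**  The twisted `Γ₀(M)`-component
`c x * g x η * (c (σ η x))⁻¹` of the correspondence `T_p` has the same lower-right residue as
`η`. -/
theorem Gamma0Map_twist {δ : Gamma0 M} (hδ : Gamma0Map M δ = (p : ZMod M))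
    (x : OnePoint (ZMod p)) (η : Gamma0 M) :
    Gamma0Map M (cT M p δ x * (corrT M p hp).g x η *
      (cT M p δ ((corrT M p hp).σ η x))⁻¹) = Gamma0Map M η := by
  have h1 := corrT_d_rel M p hp x η
  have h2 := Gamma0Map_cT_mul hδ x
  have h3 := Gamma0Map_cT_mul hδ ((corrT M p hp).σ η x)
  have hu := isUnit_eT hδ ((corrT M p hp).σ η x)
  have h4 : Gamma0Map M (cT M p δ x) * Gamma0Map M ((corrT M p hp).g x η) =
      Gamma0Map M η * Gamma0Map M (cT M p δ ((corrT M p hp).σ η x)) := by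
    apply hu.mul_right_cancel
    rw [mul_assoc, Gamma0Map_apply ((corrT M p hp).g x η), h1, mul_assoc, h3,
      ← Gamma0Map_apply η, mul_left_comm, h2]
  rw [map_mul, map_mul, h4, mul_assoc, Gamma0Map_mul_inv, mul_one]

/-- The coset relation of the twisted representatives, for an arbitrary `η ∈ Γ₀(M)`. -/
theorem twist_rel (δ : Gamma0 M) (x : OnePoint (ZMod p)) (η : Gamma0 M) :
    mapGL ℝ ((cT M p δ x : Gamma0 M) : SL(2, ℤ)) * repT p x * mapGL ℝ (η : SL(2, ℤ)) =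
      mapGL ℝ (((cT M p δ x * (corrT M p hp).g x η *
        (cT M p δ ((corrT M p hp).σ η x))⁻¹ : Gamma0 M)) : SL(2, ℤ)) *
        (mapGL ℝ ((cT M p δ ((corrT M p hp).σ η x) : Gamma0 M) : SL(2, ℤ)) *
          repT p ((corrT M p hp).σ η x)) := by
  have hrel := (corrT M p hp).rel x η
  rw [corrT_α, corrT_α] at hrel
  rw [mul_assoc, hrel, Subgroup.coe_mul, Subgroup.coe_mul, Subgroup.coe_inv, map_mul, map_mul,
    map_inv]
  group

variable (M p)

/-- **The Hecke correspondence `T_p` on `Γ₁(M)`** (`p ∤ M` prime), convention (D2): the cosets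
`Γ₁(M) [[1, j], [0, p]]` (`j mod p`) and `Γ₁(M) δ [[p, 0], [0, 1]]`, where `δ ∈ Γ₀(M)` has
lower-right entry `≡ p mod M`. -/
noncomputable def corrT1 (δ : Gamma0 M) (hδ : Gamma0Map M δ = (p : ZMod M)) :
    Corr (Gamma1 M) (OnePoint (ZMod p)) where
  α := fun x => mapGL ℝ ((cT M p δ x : Gamma0 M) : SL(2, ℤ)) * repT p x
  ex := fun x γ => ⟨(corrT M p hp).σ (incl M γ) x,
    toGamma1 _ ((Gamma0Map_twist hp hδ x (incl M γ)).trans (Gamma0Map_incl γ)),
    twist_rel hp δ x (incl M γ)⟩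
  inj := fun x y h H => by
    refine (corrT M p hp).inj x y ((cT M p δ y)⁻¹ * incl M h * cT M p δ x) ?_
    have H' := inv_mul_eq_of_eq_mul H
    rw [corrT_α, corrT_α, ← H', Subgroup.coe_mul, Subgroup.coe_mul, Subgroup.coe_inv, map_mul,
      map_mul, map_inv, coe_incl]
    group

variable {M p}

@[simp] theorem corrT1_α (δ : Gamma0 M) (hδ : Gamma0Map M δ = (p : ZMod M))
    (x : OnePoint (ZMod p)) :
    (corrT1 M p hp δ hδ).α x = mapGL ℝ ((cT M p δ x : Gamma0 M) : SL(2, ℤ)) * repT p x := rfl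

theorem corrT1_α_infty (δ : Gamma0 M) (hδ : Gamma0Map M δ = (p : ZMod M)) :
    (corrT1 M p hp δ hδ).α OnePoint.infty =
      mapGL ℝ (δ : SL(2, ℤ)) * ModularForm.heckeDiagMatrix p := rfl

theorem corrT1_α_coe (δ : Gamma0 M) (hδ : Gamma0Map M δ = (p : ZMod M)) (j : ZMod p) :
    (corrT1 M p hp δ hδ).α (j : OnePoint (ZMod p)) = ModularForm.heckeMatrix p j.val := by
  rw [corrT1_α, cT_coe, repT_coe, OneMemClass.coe_one, map_one, one_mul]

/-- The coset permutation and the `Γ₁(M)`-component of `corrT1` in terms of the landed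
correspondence `corrT M p` on `Γ₀(M)`. -/
theorem corrT1_σ_g (δ : Gamma0 M) (hδ : Gamma0Map M δ = (p : ZMod M))
    (x : OnePoint (ZMod p)) (γ : Gamma1 M) :
    (corrT1 M p hp δ hδ).σ γ x = (corrT M p hp).σ (incl M γ) x ∧
      (corrT1 M p hp δ hδ).g x γ =
        toGamma1 (cT M p δ x * (corrT M p hp).g x (incl M γ) *
          (cT M p δ ((corrT M p hp).σ (incl M γ) x))⁻¹)
          ((Gamma0Map_twist hp hδ x (incl M γ)).trans (Gamma0Map_incl γ)) := by
  have H : (corrT1 M p hp δ hδ).α x * mapGL ℝ (γ : SL(2, ℤ)) =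
      mapGL ℝ ((toGamma1 (cT M p δ x * (corrT M p hp).g x (incl M γ) *
          (cT M p δ ((corrT M p hp).σ (incl M γ) x))⁻¹)
          ((Gamma0Map_twist hp hδ x (incl M γ)).trans (Gamma0Map_incl γ)) : Gamma1 M) :
            SL(2, ℤ)) * (corrT1 M p hp δ hδ).α ((corrT M p hp).σ (incl M γ) x) :=
    twist_rel hp δ x (incl M γ)
  obtain ⟨h1, h2⟩ := (corrT1 M p hp δ hδ).uniq H
  exact ⟨h1.symm, h2.symm⟩

theorem corrT1_σ (δ : Gamma0 M) (hδ : Gamma0Map M δ = (p : ZMod M))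
    (x : OnePoint (ZMod p)) (γ : Gamma1 M) :
    (corrT1 M p hp δ hδ).σ γ x = (corrT M p hp).σ (incl M γ) x :=
  (corrT1_σ_g hp δ hδ x γ).1

theorem incl_corrT1_g (δ : Gamma0 M) (hδ : Gamma0Map M δ = (p : ZMod M))
    (x : OnePoint (ZMod p)) (γ : Gamma1 M) :
    incl M ((corrT1 M p hp δ hδ).g x γ) =
      cT M p δ x * (corrT M p hp).g x (incl M γ) *
        (cT M p δ ((corrT M p hp).σ (incl M γ) x))⁻¹ := by
  rw [(corrT1_σ_g hp δ hδ x γ).2, incl_toGamma1]

variable (M p)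

/-- **The Hecke operator `T_p` on `Hom(Γ₁(M), A)`** (`p ∤ M` prime), as the coset transfer of
`corrT1`.  It does not depend on `δ` (`heckeHomT1_congr`). -/
noncomputable def heckeHomT1 (δ : Gamma0 M) (hδ : Gamma0Map M δ = (p : ZMod M)) (A : Type*)
    [AddCommGroup A] (φ : Additive (Gamma1 M) →+ A) : Additive (Gamma1 M) →+ A :=
  (corrT1 M p hp δ hδ).op A φ

variable {M p}

theorem heckeHomT1_apply (δ : Gamma0 M) (hδ : Gamma0Map M δ = (p : ZMod M)) (A : Type*)
    [AddCommGroup A] (φ : Additive (Gamma1 M) →+ A) (γ : Gamma1 M) :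
    heckeHomT1 M p hp δ hδ A φ (Additive.ofMul γ) =
      ∑ x, φ (Additive.ofMul ((corrT1 M p hp δ hδ).g x γ)) :=
  Corr.op_apply _ A φ γ

theorem heckeHomT1_add (δ : Gamma0 M) (hδ : Gamma0Map M δ = (p : ZMod M)) (A : Type*)
    [AddCommGroup A] (φ ψ : Additive (Gamma1 M) →+ A) :
    heckeHomT1 M p hp δ hδ A (φ + ψ) =
      heckeHomT1 M p hp δ hδ A φ + heckeHomT1 M p hp δ hδ A ψ :=
  Corr.op_add _ A φ ψ

theorem heckeHomT1_comp (δ : Gamma0 M) (hδ : Gamma0Map M δ = (p : ZMod M)) {A B : Type*}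
    [AddCommGroup A] [AddCommGroup B] (f : A →+ B) (φ : Additive (Gamma1 M) →+ A) :
    heckeHomT1 M p hp δ hδ B (f.comp φ) = f.comp (heckeHomT1 M p hp δ hδ A φ) :=
  Corr.op_comp _ f φ

/-- `T_p` preserves parabolic homomorphisms. -/
theorem heckeHomT1_isParabolicHom (δ : Gamma0 M) (hδ : Gamma0Map M δ = (p : ZMod M))
    {A : Type*} [AddCommGroup A] (φ : Additive (Gamma1 M) →+ A)
    (hφ : IsParabolicHom (Gamma1 M) φ) :
    IsParabolicHom (Gamma1 M) (heckeHomT1 M p hp δ hδ A φ) :=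
  op_isParabolicHom _ φ hφ

/-- `T_p` as an `R`-linear endomorphism of `Hom(Γ₁(M), A)`. -/
noncomputable def heckeLinT1 (δ : Gamma0 M) (hδ : Gamma0Map M δ = (p : ZMod M)) (R : Type*)
    [Semiring R] (A : Type*) [AddCommGroup A] [Module R A] :
    (Additive (Gamma1 M) →+ A) →ₗ[R] (Additive (Gamma1 M) →+ A) :=
  (corrT1 M p hp δ hδ).opLin R A

@[simp] theorem heckeLinT1_apply (δ : Gamma0 M) (hδ : Gamma0Map M δ = (p : ZMod M)) (R : Type*)
    [Semiring R] (A : Type*) [AddCommGroup A] [Module R A] (φ : Additive (Gamma1 M) →+ A) :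
    heckeLinT1 hp δ hδ R A φ = heckeHomT1 M p hp δ hδ A φ := rfl

/-- **Compatibility with the landed `T_p` on `Γ₀(M)`**: `T_p` of the restriction to `Γ₁(M)` of
a homomorphism on `Γ₀(M)` is the restriction of `heckeHomT M p`. -/
theorem heckeHomT1_restrict (δ : Gamma0 M) (hδ : Gamma0Map M δ = (p : ZMod M)) (A : Type*)
    [AddCommGroup A] (ψ : Additive (Gamma0 M) →+ A) :
    heckeHomT1 M p hp δ hδ A (ψ.comp (MonoidHom.toAdditive (incl M))) =
      (heckeHomT M p hp A ψ).comp (MonoidHom.toAdditive (incl M)) := by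
  refine AddMonoidHom.ext fun γ => ?_
  obtain ⟨γ, rfl⟩ := Additive.ofMul.surjective γ
  rw [heckeHomT1_apply]
  show ∑ x, ψ (Additive.ofMul (incl M ((corrT1 M p hp δ hδ).g x γ))) =
    heckeHomT M p hp A ψ (Additive.ofMul (incl M γ))
  rw [heckeHomT_apply]
  have hterm : ∀ x, ψ (Additive.ofMul (incl M ((corrT1 M p hp δ hδ).g x γ))) =
      ψ (Additive.ofMul ((corrT M p hp).g x (incl M γ))) +
        (ψ (Additive.ofMul (cT M p δ x)) -
          ψ (Additive.ofMul (cT M p δ ((corrT M p hp).σ (incl M γ) x)))) := by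
    intro x
    rw [incl_corrT1_g, ofMul_mul, ofMul_mul, ofMul_inv, map_add, map_add, map_neg]
    abel
  rw [Finset.sum_congr rfl (fun x _ => hterm x), Finset.sum_add_distrib,
    Finset.sum_sub_distrib]
  have hperm : ∑ x, ψ (Additive.ofMul (cT M p δ ((corrT M p hp).σ (incl M γ) x))) =
      ∑ x, ψ (Additive.ofMul (cT M p δ x)) :=
    Equiv.sum_comp ((corrT M p hp).σEquiv (incl M γ)) (fun x => ψ (Additive.ofMul (cT M p δ x)))
  rw [hperm, sub_self, add_zero]

/-- **`T_p` on `Hom(Γ₁(M), A)` does not depend on the choice of `δ`.** -/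
theorem heckeHomT1_congr (δ δ' : Gamma0 M) (hδ : Gamma0Map M δ = (p : ZMod M))
    (hδ' : Gamma0Map M δ' = (p : ZMod M)) (A : Type*) [AddCommGroup A]
    (φ : Additive (Gamma1 M) →+ A) :
    heckeHomT1 M p hp δ hδ A φ = heckeHomT1 M p hp δ' hδ' A φ := by
  have hτ : ∀ x : OnePoint (ZMod p), Gamma0Map M (cT M p δ x * (cT M p δ' x)⁻¹) = 1 := by
    intro x
    induction x using OnePoint.rec with
    | infty => rw [cT_infty, cT_infty, map_mul, hδ, ← hδ', Gamma0Map_mul_inv]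
    | coe j => rw [cT_coe, cT_coe, inv_one, mul_one, map_one]
  refine op_eq_of_rep (corrT1 M p hp δ' hδ') (corrT1 M p hp δ hδ)
    (fun x => toGamma1 _ (hτ x)) (fun x => ?_) A φ
  rw [corrT1_α, corrT1_α, coe_toGamma1, Subgroup.coe_mul, Subgroup.coe_inv, map_mul, map_inv]
  group

/-- **`T_p` commutes with the diamond operators.** -/
theorem heckeHomT1_diamondHom (δ : Gamma0 M) (hδ : Gamma0Map M δ = (p : ZMod M))
    (ε : Gamma0 M) (A : Type*) [AddCommGroup A] (φ : Additive (Gamma1 M) →+ A) :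
    heckeHomT1 M p hp δ hδ A (diamondHom M ε A φ) =
      diamondHom M ε A (heckeHomT1 M p hp δ hδ A φ) := by
  rw [diamondHom_eq_comp, diamondHom_eq_comp]
  refine op_comp_conj (corrT1 M p hp δ hδ) (conjHom M ε) (conjHom M ε⁻¹)
    (fun γ => conjHom_conjHom_inv ε γ) (mapGL ℝ (ε : SL(2, ℤ))) (fun γ => mapGL_conjHom ε γ)
    (fun x => ?_) A φ
  have hmem : Gamma0Map M (ε * (cT M p δ x * (corrT M p hp).g x ε⁻¹ *
      (cT M p δ ((corrT M p hp).σ ε⁻¹ x))⁻¹)) = 1 := by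
    rw [map_mul, Gamma0Map_twist hp hδ x ε⁻¹, Gamma0Map_mul_inv]
  refine ⟨(corrT M p hp).σ ε⁻¹ x, toGamma1 _ hmem, ?_⟩
  have h := twist_rel hp δ x ε⁻¹
  rw [Subgroup.coe_inv, map_inv] at h
  rw [corrT1_α, corrT1_α, coe_toGamma1, Subgroup.coe_mul, map_mul]
  calc mapGL ℝ (ε : SL(2, ℤ)) * (mapGL ℝ ((cT M p δ x : Gamma0 M) : SL(2, ℤ)) * repT p x) *
        (mapGL ℝ (ε : SL(2, ℤ)))⁻¹
      = mapGL ℝ (ε : SL(2, ℤ)) * (mapGL ℝ ((cT M p δ x : Gamma0 M) : SL(2, ℤ)) * repT p x *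
          (mapGL ℝ (ε : SL(2, ℤ)))⁻¹) := by group
    _ = _ := by rw [h]; exact (mul_assoc _ _ _).symm

variable (M p)

/-- A chosen element of `Γ₀(M)` with lower-right entry `≡ p`. -/
noncomputable def deltaP : Gamma0 M :=
  Classical.choose (exists_Gamma0Map_eq_prime M (Fact.out : p.Prime) hp)

theorem Gamma0Map_deltaP : Gamma0Map M (deltaP M p hp) = (p : ZMod M) :=
  Classical.choose_spec (exists_Gamma0Map_eq_prime M (Fact.out : p.Prime) hp)

/-- **The Hecke operator `T_p` on `Hom(Γ₁(M), A)`** with a chosen `δ_p`. -/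
noncomputable def heckeT1 (A : Type*) [AddCommGroup A] (φ : Additive (Gamma1 M) →+ A) :
    Additive (Gamma1 M) →+ A :=
  heckeHomT1 M p hp (deltaP M p hp) (Gamma0Map_deltaP M p hp) A φ

variable {M p}

theorem heckeT1_eq (δ : Gamma0 M) (hδ : Gamma0Map M δ = (p : ZMod M)) (A : Type*)
    [AddCommGroup A] (φ : Additive (Gamma1 M) →+ A) :
    heckeT1 M p hp A φ = heckeHomT1 M p hp δ hδ A φ :=
  heckeHomT1_congr hp _ _ _ hδ A φ

end HeckeGamma1

/-! ### The operators as total functions of the prime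

`tT M A p`, `tD M A p : Hom(Γ₁(M), A) → Hom(Γ₁(M), A)` for `p : Nat.Primes` (the identity at the
primes dividing `M`), the shape in which the transfer operators enter the M3 Spec. -/

section Total

variable (M : ℕ) (A : Type*) [AddCommGroup A]

/-- **`T_p` on `Hom(Γ₁(M), A)` as a total function of the prime** (identity at `p ∣ M`). -/
noncomputable def tT (p : Nat.Primes) (φ : Additive (Gamma1 M) →+ A) : Additive (Gamma1 M) →+ A :=
  haveI : Fact (p : ℕ).Prime := ⟨p.2⟩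
  if h : (p : ℕ) ∣ M then φ else heckeT1 M (p : ℕ) h A φ

/-- **The diamond `⟨p⟩` on `Hom(Γ₁(M), A)` as a total function of the prime** (identity at
`p ∣ M`). -/
noncomputable def tD (p : Nat.Primes) (φ : Additive (Gamma1 M) →+ A) : Additive (Gamma1 M) →+ A :=
  haveI : Fact (p : ℕ).Prime := ⟨p.2⟩
  if h : (p : ℕ) ∣ M then φ else diamondHom M (deltaP M (p : ℕ) h) A φ

variable {M A}

theorem tT_eq (p : Nat.Primes) [Fact (p : ℕ).Prime] (hp : ¬ (p : ℕ) ∣ M) (δ : Gamma0 M)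
    (hδ : Gamma0Map M δ = ((p : ℕ) : ZMod M)) (φ : Additive (Gamma1 M) →+ A) :
    tT M A p φ = heckeHomT1 M (p : ℕ) hp δ hδ A φ := by
  rw [tT, dif_neg hp]
  exact heckeT1_eq hp δ hδ A φ

theorem tT_eq_heckeT1 (p : Nat.Primes) [Fact (p : ℕ).Prime] (hp : ¬ (p : ℕ) ∣ M)
    (φ : Additive (Gamma1 M) →+ A) : tT M A p φ = heckeT1 M (p : ℕ) hp A φ := by
  rw [tT, dif_neg hp]

theorem tD_eq (p : Nat.Primes) (hp : ¬ (p : ℕ) ∣ M) (δ : Gamma0 M)
    (hδ : Gamma0Map M δ = ((p : ℕ) : ZMod M)) (φ : Additive (Gamma1 M) →+ A) :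
    tD M A p φ = diamondHom M δ A φ := by
  haveI : Fact (p : ℕ).Prime := ⟨p.2⟩
  rw [tD, dif_neg hp]
  exact diamondHom_congr _ _ ((Gamma0Map_deltaP M (p : ℕ) hp).trans hδ.symm) A φ

theorem tT_of_dvd (p : Nat.Primes) (hp : (p : ℕ) ∣ M) (φ : Additive (Gamma1 M) →+ A) :
    tT M A p φ = φ := by
  rw [tT, dif_pos hp]

theorem tD_of_dvd (p : Nat.Primes) (hp : (p : ℕ) ∣ M) (φ : Additive (Gamma1 M) →+ A) :
    tD M A p φ = φ := by
  rw [tD, dif_pos hp]

theorem tT_isParabolicHom (p : Nat.Primes) (φ : Additive (Gamma1 M) →+ A)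
    (hφ : IsParabolicHom (Gamma1 M) φ) : IsParabolicHom (Gamma1 M) (tT M A p φ) := by
  haveI : Fact (p : ℕ).Prime := ⟨p.2⟩
  by_cases hp : (p : ℕ) ∣ M
  · rw [tT_of_dvd p hp]; exact hφ
  · rw [tT_eq_heckeT1 p hp]
    exact heckeHomT1_isParabolicHom hp _ _ φ hφ

theorem tD_isParabolicHom (p : Nat.Primes) (φ : Additive (Gamma1 M) →+ A)
    (hφ : IsParabolicHom (Gamma1 M) φ) : IsParabolicHom (Gamma1 M) (tD M A p φ) := by
  haveI : Fact (p : ℕ).Prime := ⟨p.2⟩
  by_cases hp : (p : ℕ) ∣ M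
  · rw [tD_of_dvd p hp]; exact hφ
  · rw [tD_eq p hp _ (Gamma0Map_deltaP M (p : ℕ) hp)]
    exact diamondHom_isParabolicHom _ φ hφ

theorem tT_mem_parabolicHoms (R : Type*) [Semiring R] [Module R A] (p : Nat.Primes)
    {φ : Additive (Gamma1 M) →+ A} (hφ : φ ∈ parabolicHoms R (Gamma1 M) A) :
    tT M A p φ ∈ parabolicHoms R (Gamma1 M) A :=
  tT_isParabolicHom p φ hφ

theorem tD_mem_parabolicHoms (R : Type*) [Semiring R] [Module R A] (p : Nat.Primes)
    {φ : Additive (Gamma1 M) →+ A} (hφ : φ ∈ parabolicHoms R (Gamma1 M) A) :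
    tD M A p φ ∈ parabolicHoms R (Gamma1 M) A :=
  tD_isParabolicHom p φ hφ

theorem tT_add (p : Nat.Primes) (φ ψ : Additive (Gamma1 M) →+ A) :
    tT M A p (φ + ψ) = tT M A p φ + tT M A p ψ := by
  haveI : Fact (p : ℕ).Prime := ⟨p.2⟩
  by_cases hp : (p : ℕ) ∣ M
  · rw [tT_of_dvd p hp, tT_of_dvd p hp, tT_of_dvd p hp]
  · rw [tT_eq_heckeT1 p hp, tT_eq_heckeT1 p hp, tT_eq_heckeT1 p hp]
    exact heckeHomT1_add hp _ _ A φ ψ

theorem tD_add (p : Nat.Primes) (φ ψ : Additive (Gamma1 M) →+ A) :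
    tD M A p (φ + ψ) = tD M A p φ + tD M A p ψ := by
  haveI : Fact (p : ℕ).Prime := ⟨p.2⟩
  by_cases hp : (p : ℕ) ∣ M
  · rw [tD_of_dvd p hp, tD_of_dvd p hp, tD_of_dvd p hp]
  · rw [tD_eq p hp _ (Gamma0Map_deltaP M (p : ℕ) hp), tD_eq p hp _ (Gamma0Map_deltaP M (p : ℕ) hp),
      tD_eq p hp _ (Gamma0Map_deltaP M (p : ℕ) hp)]
    exact diamondHom_add _ A φ ψ

/-- `tT` and `tD` commute (at all primes). -/
theorem tT_tD_comm (p q : Nat.Primes) (φ : Additive (Gamma1 M) →+ A) :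
    tT M A p (tD M A q φ) = tD M A q (tT M A p φ) := by
  haveI : Fact (p : ℕ).Prime := ⟨p.2⟩
  haveI : Fact (q : ℕ).Prime := ⟨q.2⟩
  by_cases hq : (q : ℕ) ∣ M
  · rw [tD_of_dvd q hq, tD_of_dvd q hq]
  · by_cases hp : (p : ℕ) ∣ M
    · rw [tT_of_dvd p hp, tT_of_dvd p hp]
    · rw [tD_eq q hq _ (Gamma0Map_deltaP M (q : ℕ) hq),
        tD_eq q hq _ (Gamma0Map_deltaP M (q : ℕ) hq), tT_eq_heckeT1 p hp, tT_eq_heckeT1 p hp]
      exact heckeHomT1_diamondHom hp _ _ _ A φ

/-- The diamonds `tD` commute with each other. -/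
theorem tD_tD_comm (p q : Nat.Primes) (φ : Additive (Gamma1 M) →+ A) :
    tD M A p (tD M A q φ) = tD M A q (tD M A p φ) := by
  haveI : Fact (p : ℕ).Prime := ⟨p.2⟩
  haveI : Fact (q : ℕ).Prime := ⟨q.2⟩
  by_cases hq : (q : ℕ) ∣ M
  · rw [tD_of_dvd q hq, tD_of_dvd q hq]
  · by_cases hp : (p : ℕ) ∣ M
    · rw [tD_of_dvd p hp, tD_of_dvd p hp]
    · rw [tD_eq q hq _ (Gamma0Map_deltaP M (q : ℕ) hq),
        tD_eq q hq _ (Gamma0Map_deltaP M (q : ℕ) hq),
        tD_eq p hp _ (Gamma0Map_deltaP M (p : ℕ) hp),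
        tD_eq p hp _ (Gamma0Map_deltaP M (p : ℕ) hp)]
      exact diamondHom_comm _ _ A φ

end Total

/-! ## Part E: the multiplicative form on functions on the upper half plane -/

section Mult

open Fermat.Agent.S29.helper2982
open ModularForm (heckeMatrix heckeDiagMatrix)

variable {M : ℕ}

/-- Invariance of `w ∘ δ` under `Γ₁(M)` for a `Γ₁(M)`-invariant `w` and `δ ∈ Γ₀(M)`. -/
theorem comp_smul_invariant (δ : Gamma0 M) {V : Type*} [CommMonoid V] (w : ℍ → V)
    (hw : ∀ (γ : Gamma1 M) (z : ℍ), w (γ • z) = w z) (γ : Gamma1 M) (z : ℍ) :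
    w (δ • (γ • z)) = w (δ • z) := by
  have h := comp_smul_of_multiplier δ w (1 : Gamma1 M →* V)
    (fun γ z => by rw [hw, MonoidHom.one_apply, one_mul]) γ z
  rwa [MonoidHom.one_apply, one_mul] at h

/-- For a `Γ₁(M)`-invariant function `w`, the function `w ∘ δ` (`δ ∈ Γ₀(M)`) only depends on the
lower-right residue of `δ`. -/
theorem comp_smul_congr (δ δ' : Gamma0 M) (h : Gamma0Map M δ = Gamma0Map M δ') {V : Type*}
    (w : ℍ → V) (hw : ∀ (γ : Gamma1 M) (z : ℍ), w (γ • z) = w z) (z : ℍ) :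
    w (δ • z) = w (δ' • z) := by
  have h1 : Gamma0Map M (δ * δ'⁻¹) = 1 := by
    rw [map_mul, h, Gamma0Map_mul_inv]
  have h2 : δ • z = toGamma1 (δ * δ'⁻¹) h1 • (δ' • z) := by
    have h3 : (toGamma1 (δ * δ'⁻¹) h1 • (δ' • z) : ℍ) = (δ * δ'⁻¹) • (δ' • z) := rfl
    rw [h3, smul_smul, inv_mul_cancel_right]
  rw [h2, hw]

variable {p : ℕ} [Fact p.Prime] (hp : ¬ p ∣ M)

/-- **The multiplicative Hecke transform `T_p` for `Γ₁(M)`** on functions on `ℍ`:
`tmulT1 p δ w z = w (δ • (p z)) * ∏_{j mod p} w ((z + j) / p)`, where `δ ∈ Γ₀(M)` has lower-right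
entry `≡ p` (so that `w ∘ δ = ⟨p⟩ w`). -/
noncomputable def tmulT1 (p : ℕ) [Fact p.Prime] (δ : Gamma0 M) {V : Type*} [CommMonoid V]
    (w : ℍ → V) (z : ℍ) : V :=
  haveI : NeZero p := ⟨(Fact.out : p.Prime).ne_zero⟩
  w (δ • (heckeDiagMatrix p • z)) * ∏ j : ZMod p, w (heckeMatrix p j.val • z)

theorem tmul_corrT1 (δ : Gamma0 M) (hδ : Gamma0Map M δ = (p : ZMod M)) {V : Type*}
    [CommMonoid V] (w : ℍ → V) (z : ℍ) :
    tmul (corrT1 M p hp δ hδ) w z = tmulT1 p δ w z := by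
  have : NeZero p := ⟨(Fact.out : p.Prime).ne_zero⟩
  rw [tmul_apply, tmulT1]
  have hα : ∀ x : OnePoint (ZMod p),
      (corrT1 M p hp δ hδ).α x • z = cT M p δ x • (repT p x • z) := by
    intro x
    rw [corrT1_α, mul_smul]
    rfl
  simp only [hα]
  refine (Fintype.prod_option
    (fun x : Option (ZMod p) => w (cT M p δ x • (repT p x • z)))).trans ?_
  congr 1
  refine Finset.prod_congr rfl fun j _ => ?_
  show w ((1 : Gamma0 M) • (heckeMatrix p j.val • z)) = _
  rw [one_smul]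

/-- **Hecke-equivariance of the multiplier map for `T_p` on `Γ₁(M)`**, multiplicative form: if
`w (γ z) = χ γ * w z` on `Γ₁(M)`, then `tmulT1 p δ w` has the multiplier system
`transfer (corrT1 M p hp δ hδ) χ`. -/
theorem tmulT1_smul (δ : Gamma0 M) (hδ : Gamma0Map M δ = (p : ZMod M)) {V : Type*}
    [CommMonoid V] (w : ℍ → V) (χ : Gamma1 M →* V)
    (hw : ∀ (γ : Gamma1 M) (z : ℍ), w (γ • z) = χ γ * w z) (γ : Gamma1 M) (z : ℍ) :
    tmulT1 p δ w (γ • z) = transfer (corrT1 M p hp δ hδ) χ γ * tmulT1 p δ w z := by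
  rw [← tmul_corrT1 hp δ hδ, ← tmul_corrT1 hp δ hδ]
  exact tmul_smul _ w χ hw γ z

/-- Exponential form over `ℤ`: the multiplier exponent of `tmulT1 p δ w` is
`heckeHomT1 M p hp δ hδ ℤ φ`. -/
theorem tmulT1_smul_zpow (δ : Gamma0 M) (hδ : Gamma0Map M δ = (p : ZMod M)) (w : ℍ → ℂ)
    (ζ : ℂ) (hζ : ζ ≠ 0) (φ : Additive (Gamma1 M) →+ ℤ)
    (hw : ∀ (γ : Gamma1 M) (z : ℍ), w (γ • z) = ζ ^ φ (Additive.ofMul γ) * w z)
    (γ : Gamma1 M) (z : ℍ) :
    tmulT1 p δ w (γ • z) =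
      ζ ^ heckeHomT1 M p hp δ hδ ℤ φ (Additive.ofMul γ) * tmulT1 p δ w z := by
  rw [← tmul_corrT1 hp δ hδ, ← tmul_corrT1 hp δ hδ]
  exact tmul_smul_zpow_complex _ w ζ hζ φ hw γ z

/-- Exponential form over `ZMod n` (`ζ ^ n = 1`): the multiplier exponent of `tmulT1 p δ w` is
`heckeHomT1 M p hp δ hδ (ZMod n) φ`. -/
theorem tmulT1_smul_zmod (δ : Gamma0 M) (hδ : Gamma0Map M δ = (p : ZMod M)) (n : ℕ) [NeZero n]
    {V : Type*} [CommMonoid V] (w : ℍ → V) (ζ : V) (hζ : ζ ^ n = 1)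
    (φ : Additive (Gamma1 M) →+ ZMod n)
    (hw : ∀ (γ : Gamma1 M) (z : ℍ), w (γ • z) = ζ ^ (φ (Additive.ofMul γ)).val * w z)
    (γ : Gamma1 M) (z : ℍ) :
    tmulT1 p δ w (γ • z) =
      ζ ^ (heckeHomT1 M p hp δ hδ (ZMod n) φ (Additive.ofMul γ)).val * tmulT1 p δ w z := by
  rw [← tmul_corrT1 hp δ hδ, ← tmul_corrT1 hp δ hδ]
  exact tmul_smul_zmod _ n w ζ hζ φ hw γ z

include hp in
/-- `Γ₁(M)`-invariant functions have `Γ₁(M)`-invariant multiplicative Hecke transforms. -/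
theorem tmulT1_invariant (δ : Gamma0 M) (hδ : Gamma0Map M δ = (p : ZMod M)) {V : Type*}
    [CommMonoid V] (w : ℍ → V) (hw : ∀ (γ : Gamma1 M) (z : ℍ), w (γ • z) = w z)
    (γ : Gamma1 M) (z : ℍ) :
    tmulT1 p δ w (γ • z) = tmulT1 p δ w z := by
  rw [← tmul_corrT1 hp δ hδ, ← tmul_corrT1 hp δ hδ]
  exact tmul_invariant _ w hw γ z

/-- On `Γ₁(M)`-invariant functions, `tmulT1 p δ` does not depend on `δ`. -/
theorem tmulT1_congr (δ δ' : Gamma0 M) (h : Gamma0Map M δ = Gamma0Map M δ') {V : Type*}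
    [CommMonoid V] (w : ℍ → V) (hw : ∀ (γ : Gamma1 M) (z : ℍ), w (γ • z) = w z) (z : ℍ) :
    tmulT1 p δ w z = tmulT1 p δ' w z := by
  rw [tmulT1, tmulT1, comp_smul_congr δ δ' h w hw]

theorem tmulT1_mul (δ : Gamma0 M) {V : Type*} [CommMonoid V] (w w' : ℍ → V) (z : ℍ) :
    tmulT1 p δ (fun z => w z * w' z) z = tmulT1 p δ w z * tmulT1 p δ w' z := by
  have : NeZero p := ⟨(Fact.out : p.Prime).ne_zero⟩
  simp only [tmulT1, Finset.prod_mul_distrib]
  exact mul_mul_mul_comm _ _ _ _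

theorem tmulT1_pow (δ : Gamma0 M) {V : Type*} [CommMonoid V] (w : ℍ → V) (n : ℕ) (z : ℍ) :
    tmulT1 p δ (fun z => w z ^ n) z = tmulT1 p δ w z ^ n := by
  have : NeZero p := ⟨(Fact.out : p.Prime).ne_zero⟩
  simp only [tmulT1, Finset.prod_pow, mul_pow]

theorem tmulT1_inv (δ : Gamma0 M) {V : Type*} [DivisionCommMonoid V] (w : ℍ → V) (z : ℍ) :
    tmulT1 p δ (fun z => (w z)⁻¹) z = (tmulT1 p δ w z)⁻¹ := by
  have : NeZero p := ⟨(Fact.out : p.Prime).ne_zero⟩
  simp only [tmulT1, Finset.prod_inv_distrib, mul_inv]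

theorem tmulT1_div (δ : Gamma0 M) {V : Type*} [DivisionCommMonoid V] (w w' : ℍ → V) (z : ℍ) :
    tmulT1 p δ (fun z => w z / w' z) z = tmulT1 p δ w z / tmulT1 p δ w' z := by
  have : NeZero p := ⟨(Fact.out : p.Prime).ne_zero⟩
  simp only [tmulT1, Finset.prod_div_distrib]
  rw [div_mul_div_comm]

/-- `tmulT1 p δ c = c ^ (p + 1)` on constants. -/
theorem tmulT1_const (δ : Gamma0 M) {V : Type*} [CommMonoid V] (c : V) (z : ℍ) :
    tmulT1 p δ (fun _ => c) z = c ^ (p + 1) := by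
  have : NeZero p := ⟨(Fact.out : p.Prime).ne_zero⟩
  simp only [tmulT1, Finset.prod_const, Finset.card_univ, ZMod.card, pow_succ']

end Mult

end Fermat.Agent.S48.helper4325
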