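/-
helper4325 — S48 (M3), the analytic side (TH5) of the operators `T_p` and `⟨d⟩` on `Γ₁(M)`.

Input: the correspondences `corrT1`, `corrD` on `Γ₁(M)` (`helper4325_CorrGamma1`) and the landed
generic coset product on meromorphic functions (`S29/helper2982_MultHeckeMer`: `cpMer580`,
`exists_root_cpMer580`, `transfer_zpowChar`).

Output, in the vocabulary `Mer`, `pull` of the landed S24 package `helper580_HolMer`:

* `cpMerT1 hp δ hδ : Mer →* Mer`, the coset product `h ↦ (h ∘ δ)(p z) * ∏_j h((z + j) / p)` of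
  `T_p` for `Γ₁(M)`, its identification on fractions of holomorphic functions from a
  cross-multiplied pointwise identity (`cpMerT1_eq_of_cross`), and its invariance properties;
* `multMer_heckeT1` : **(TH5) for `T_p`**: if `u` has a meromorphic `n`-th root with multiplier
  `γ ↦ ζ ^ ψ γ` under `Γ₁(M)` and `ev v = cpMerT1 (ev u)`, then `v` has a meromorphic `n`-th root
  with multiplier `γ ↦ ζ ^ (heckeHomT1 ψ) γ`;
* `multMer_diamond` : **(TH5) for the diamonds**: if `ev v = (ev u) ∘ δ`, `δ ∈ Γ₀(M)`, then `v`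
  has a meromorphic `n`-th root with multiplier `γ ↦ ζ ^ (diamondHom M δ ψ) γ`.

The two theorems are stated with the multiplier relation written out (`∃ W : Mer, W ^ n = ev u ∧
∀ γ, pull γ W = ζ ^ ψ γ * W`), which is the body of `helper2122.MultMerG (Gamma1 M) ev n ζ u ψ`.
-/
import Mathlib
import Fermat.Agent.S48.helper4325_CorrGamma1
import Fermat.Agent.S29.helper2982_MultHeckeMer

set_option autoImplicit false

open CongruenceSubgroup Matrix.SpecialLinearGroup UpperHalfPlane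
open scoped MatrixGroups

namespace Fermat.Agent.S48.helper4325

open Fermat.Agent.S16.helper2138 Fermat.Agent.S29.helper2982
open Fermat.Agent.S24.helper580 (Mer Hol pull pull_pull)

section HeckeMer

variable {M p : ℕ} [Fact p.Prime] (hp : ¬ p ∣ M)

theorem corrT1_det_pos (δ : Gamma0 M) (hδ : Gamma0Map M δ = (p : ZMod M))
    (x : OnePoint (ZMod p)) : 0 < ((corrT1 M p hp δ hδ).α x).det.val := by
  rw [corrT1_α]
  exact det_mapGL_mul_pos (corrT_det_pos M p hp x) _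

/-- **The coset product of `T_p` for `Γ₁(M)` on meromorphic functions on `ℍ`**:
`h ↦ (h ∘ δ)(p z) * ∏_{j mod p} h((z + j) / p)`. -/
noncomputable def cpMerT1 (δ : Gamma0 M) (hδ : Gamma0Map M δ = (p : ZMod M)) : Mer →* Mer :=
  cpMer580 (corrT1 M p hp δ hδ) (corrT1_det_pos hp δ hδ)

/-- Identification of `cpMerT1` on a fraction `a / b` of holomorphic functions: it is `c / d` as
soon as `c · T(b) = d · T(a)` pointwise, where `T f z = f (δ • (p z)) * ∏_j f ((z + j) / p)`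
(`tmulT1`). -/
theorem cpMerT1_eq_of_cross (δ : Gamma0 M) (hδ : Gamma0Map M δ = (p : ZMod M))
    (a b c d : ↥Hol) (hb : b ≠ 0) (hd : d ≠ 0)
    (hcross : ∀ z, (c : ℍ → ℂ) z * tmulT1 p δ (b : ℍ → ℂ) z =
      (d : ℍ → ℂ) z * tmulT1 p δ (a : ℍ → ℂ) z) :
    cpMerT1 hp δ hδ (algebraMap ↥Hol Mer a / algebraMap ↥Hol Mer b) =
      algebraMap ↥Hol Mer c / algebraMap ↥Hol Mer d :=
  cpMer580_eq_of_cross _ _ a b c d hb hd (fun z => by
    rw [tmul_corrT1, tmul_corrT1]; exact hcross z)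

/-- `cpMerT1` of a holomorphic function is the holomorphic function `tmulT1`. -/
theorem cpMerT1_algebraMap (δ : Gamma0 M) (hδ : Gamma0Map M δ = (p : ZMod M)) (a c : ↥Hol)
    (hc : ∀ z, (c : ℍ → ℂ) z = tmulT1 p δ (a : ℍ → ℂ) z) :
    cpMerT1 hp δ hδ (algebraMap ↥Hol Mer a) = algebraMap ↥Hol Mer c := by
  have h := cpMerT1_eq_of_cross hp δ hδ a 1 c 1 one_ne_zero one_ne_zero (fun z => by
    have h1 : tmulT1 p δ ((1 : ↥Hol) : ℍ → ℂ) z = 1 := by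
      have h2 : ((1 : ↥Hol) : ℍ → ℂ) = fun _ => (1 : ℂ) := rfl
      rw [h2, tmulT1_const, one_pow]
    have h3 : ((1 : ↥Hol) : ℍ → ℂ) z = 1 := rfl
    rw [h1, h3, mul_one, one_mul, hc z])
  rwa [map_one, div_one, div_one] at h

/-- **(R-hecke) for `T_p` on `Γ₁(M)`**: an `n`-th root with multiplier `χ` is sent to an `n`-th
root of the coset product with multiplier `transfer (corrT1 ..) χ`. -/
theorem exists_root_cpMerT1 (δ : Gamma0 M) (hδ : Gamma0Map M δ = (p : ZMod M)) {n : ℕ}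
    {u h : Mer} (hh : h ^ n = u) {χ : Gamma1 M →* ℂˣ}
    (hχ : ∀ γ : Gamma1 M, pull (γ : SL(2, ℤ)) h = algebraMap ℂ Mer ((χ γ : ℂˣ) : ℂ) * h) :
    ∃ H : Mer, H ^ n = cpMerT1 hp δ hδ u ∧
      ∀ γ : Gamma1 M, pull (γ : SL(2, ℤ)) H =
        algebraMap ℂ Mer ((transfer (corrT1 M p hp δ hδ) χ γ : ℂˣ) : ℂ) * H :=
  exists_root_cpMer580 _ _ hh hχ

/-- The coset product of a `Γ₁(M)`-invariant meromorphic function is `Γ₁(M)`-invariant. -/
theorem pull_cpMerT1_of_invariant (δ : Gamma0 M) (hδ : Gamma0Map M δ = (p : ZMod M)) {u : Mer}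
    (hu : ∀ γ : Gamma1 M, pull (γ : SL(2, ℤ)) u = u) (γ : Gamma1 M) :
    pull (γ : SL(2, ℤ)) (cpMerT1 hp δ hδ u) = cpMerT1 hp δ hδ u := by
  obtain ⟨H, hH, hHγ⟩ := exists_root_cpMerT1 hp δ hδ (n := 1) (u := u) (h := u) (pow_one u)
    (χ := 1) (fun γ => by rw [hu γ, MonoidHom.one_apply, Units.val_one, map_one, one_mul])
  rw [pow_one] at hH
  have h := hHγ γ
  rwa [transfer_one, MonoidHom.one_apply, Units.val_one, map_one, one_mul, hH] at h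

/-- **(TH5) for `T_p` on `Γ₁(M)`.**  If `u` has a meromorphic `n`-th root with multiplier
`γ ↦ ζ ^ ψ γ` under `Γ₁(M)` and the analytic realisation of `v` is the coset product of that of
`u`, then `v` has a meromorphic `n`-th root with multiplier `γ ↦ ζ ^ (T_p ψ) γ`, where
`T_p ψ = heckeHomT1 M p hp δ hδ ℤ ψ`. -/
theorem multMer_heckeT1 {F : Type*} [Semiring F] (evM : F →+* Mer) (n : ℕ) (ζ : ℂˣ)
    (δ : Gamma0 M) (hδ : Gamma0Map M δ = (p : ZMod M)) {u v : F}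
    (hev : evM v = cpMerT1 hp δ hδ (evM u)) {ψ : Additive (Gamma1 M) →+ ℤ}
    (h : ∃ W : Mer, W ^ n = evM u ∧ ∀ γ : Gamma1 M, pull (γ : SL(2, ℤ)) W =
      algebraMap ℂ Mer (((ζ ^ ψ (Additive.ofMul γ) : ℂˣ) : ℂ)) * W) :
    ∃ W : Mer, W ^ n = evM v ∧ ∀ γ : Gamma1 M, pull (γ : SL(2, ℤ)) W =
      algebraMap ℂ Mer
        (((ζ ^ (heckeHomT1 M p hp δ hδ ℤ ψ) (Additive.ofMul γ) : ℂˣ) : ℂ)) * W := by
  obtain ⟨W, hW, hγ⟩ := h
  obtain ⟨H, hH, hHγ⟩ := exists_root_cpMerT1 hp δ hδ (n := n) hW (χ := zpowChar ζ ψ)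
    (fun γ => hγ γ)
  refine ⟨H, by rw [hH, hev], fun γ => ?_⟩
  have h1 := hHγ γ
  rw [transfer_zpowChar] at h1
  exact h1

/-- (TH5) for `T_p` with the chosen `δ_p` (`heckeT1`): the hypothesis may use any `δ`. -/
theorem multMer_heckeT1' {F : Type*} [Semiring F] (evM : F →+* Mer) (n : ℕ) (ζ : ℂˣ)
    (δ : Gamma0 M) (hδ : Gamma0Map M δ = (p : ZMod M)) {u v : F}
    (hev : evM v = cpMerT1 hp δ hδ (evM u)) {ψ : Additive (Gamma1 M) →+ ℤ}
    (h : ∃ W : Mer, W ^ n = evM u ∧ ∀ γ : Gamma1 M, pull (γ : SL(2, ℤ)) W =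
      algebraMap ℂ Mer (((ζ ^ ψ (Additive.ofMul γ) : ℂˣ) : ℂ)) * W) :
    ∃ W : Mer, W ^ n = evM v ∧ ∀ γ : Gamma1 M, pull (γ : SL(2, ℤ)) W =
      algebraMap ℂ Mer
        (((ζ ^ (heckeT1 M p hp ℤ ψ) (Additive.ofMul γ) : ℂˣ) : ℂ)) * W := by
  rw [heckeT1_eq hp δ hδ]
  exact multMer_heckeT1 hp evM n ζ δ hδ hev h

end HeckeMer

section DiamondMer

variable {M : ℕ}

theorem corrD_det_pos (δ : Gamma0 M) (u : Unit) : 0 < ((corrD M δ).α u).det.val :=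
  det_mapGL_pos _

/-- **(TH5) for the diamond operators on `Γ₁(M)`.**  If `u` has a meromorphic `n`-th root with
multiplier `γ ↦ ζ ^ ψ γ` under `Γ₁(M)` and the analytic realisation of `v` is that of `u`
composed with `δ ∈ Γ₀(M)`, then `v` has a meromorphic `n`-th root with multiplier
`γ ↦ ζ ^ (⟨δ⟩ ψ) γ`, where `⟨δ⟩ ψ = diamondHom M δ ℤ ψ = ψ ∘ (γ ↦ δ γ δ⁻¹)`. -/
theorem multMer_diamond {F : Type*} [Semiring F] (evM : F →+* Mer) (n : ℕ) (ζ : ℂˣ)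
    (δ : Gamma0 M) {u v : F} (hev : evM v = pull (δ : SL(2, ℤ)) (evM u))
    {ψ : Additive (Gamma1 M) →+ ℤ}
    (h : ∃ W : Mer, W ^ n = evM u ∧ ∀ γ : Gamma1 M, pull (γ : SL(2, ℤ)) W =
      algebraMap ℂ Mer (((ζ ^ ψ (Additive.ofMul γ) : ℂˣ) : ℂ)) * W) :
    ∃ W : Mer, W ^ n = evM v ∧ ∀ γ : Gamma1 M, pull (γ : SL(2, ℤ)) W =
      algebraMap ℂ Mer
        (((ζ ^ (diamondHom M δ ℤ ψ) (Additive.ofMul γ) : ℂˣ) : ℂ)) * W := by
  obtain ⟨W, hW, hγ⟩ := h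
  refine ⟨pull (δ : SL(2, ℤ)) W, by rw [← map_pow, hW, hev], fun γ => ?_⟩
  have h1 : (δ : SL(2, ℤ)) * (γ : SL(2, ℤ)) =
      ((conjHom M δ γ : Gamma1 M) : SL(2, ℤ)) * (δ : SL(2, ℤ)) := by
    rw [coe_conjHom, inv_mul_cancel_right]
  rw [diamondHom_apply, pull_pull, h1, ← pull_pull, hγ, map_mul, AlgEquiv.commutes]

/-- The pullback by `δ ∈ Γ₀(M)` of a `Γ₁(M)`-invariant meromorphic function is
`Γ₁(M)`-invariant. -/
theorem pull_pull_of_invariant (δ : Gamma0 M) {u : Mer}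
    (hu : ∀ γ : Gamma1 M, pull (γ : SL(2, ℤ)) u = u) (γ : Gamma1 M) :
    pull (γ : SL(2, ℤ)) (pull (δ : SL(2, ℤ)) u) = pull (δ : SL(2, ℤ)) u := by
  have h1 : (δ : SL(2, ℤ)) * (γ : SL(2, ℤ)) =
      ((conjHom M δ γ : Gamma1 M) : SL(2, ℤ)) * (δ : SL(2, ℤ)) := by
    rw [coe_conjHom, inv_mul_cancel_right]
  rw [pull_pull, h1, ← pull_pull, hu]

/-- On `Γ₁(M)`-invariant meromorphic functions the pullback by `δ ∈ Γ₀(M)` only depends on the
lower-right residue of `δ`. -/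
theorem pull_congr_of_invariant (δ δ' : Gamma0 M) (h : Gamma0Map M δ = Gamma0Map M δ') {u : Mer}
    (hu : ∀ γ : Gamma1 M, pull (γ : SL(2, ℤ)) u = u) :
    pull (δ : SL(2, ℤ)) u = pull (δ' : SL(2, ℤ)) u := by
  have h1 : Gamma0Map M (δ * δ'⁻¹) = 1 := by
    rw [map_mul, h, Gamma0Map_mul_inv]
  have h2 : (δ : SL(2, ℤ)) = ((toGamma1 (δ * δ'⁻¹) h1 : Gamma1 M) : SL(2, ℤ)) * (δ' : SL(2, ℤ)) := by
    rw [coe_toGamma1, Subgroup.coe_mul, Subgroup.coe_inv, inv_mul_cancel_right]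
  rw [h2, ← pull_pull, hu]

end DiamondMer

/-! ### The total operators `tT`, `tD` (the shape of the M3 Spec) -/

section TotalMer

variable {M : ℕ}

/-- (TH5) for `tT M ℤ p` (`p ∤ M`): the analytic hypothesis may use any `δ` with lower-right
entry `≡ p`. -/
theorem multMer_tT {F : Type*} [Semiring F] (evM : F →+* Mer) (n : ℕ) (ζ : ℂˣ) (p : Nat.Primes)
    [Fact (p : ℕ).Prime] (hp : ¬ (p : ℕ) ∣ M) (δ : Gamma0 M)
    (hδ : Gamma0Map M δ = ((p : ℕ) : ZMod M)) {u v : F}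
    (hev : evM v = cpMerT1 hp δ hδ (evM u)) {ψ : Additive (Gamma1 M) →+ ℤ}
    (h : ∃ W : Mer, W ^ n = evM u ∧ ∀ γ : Gamma1 M, pull (γ : SL(2, ℤ)) W =
      algebraMap ℂ Mer (((ζ ^ ψ (Additive.ofMul γ) : ℂˣ) : ℂ)) * W) :
    ∃ W : Mer, W ^ n = evM v ∧ ∀ γ : Gamma1 M, pull (γ : SL(2, ℤ)) W =
      algebraMap ℂ Mer (((ζ ^ (tT M ℤ p ψ) (Additive.ofMul γ) : ℂˣ) : ℂ)) * W := by
  rw [tT_eq p hp δ hδ]
  exact multMer_heckeT1 hp evM n ζ δ hδ hev h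

/-- (TH5) for `tD M ℤ p` (`p ∤ M`): the analytic hypothesis may use any `δ ∈ Γ₀(M)` with
lower-right entry `≡ p`. -/
theorem multMer_tD {F : Type*} [Semiring F] (evM : F →+* Mer) (n : ℕ) (ζ : ℂˣ) (p : Nat.Primes)
    (hp : ¬ (p : ℕ) ∣ M) (δ : Gamma0 M) (hδ : Gamma0Map M δ = ((p : ℕ) : ZMod M)) {u v : F}
    (hev : evM v = pull (δ : SL(2, ℤ)) (evM u)) {ψ : Additive (Gamma1 M) →+ ℤ}
    (h : ∃ W : Mer, W ^ n = evM u ∧ ∀ γ : Gamma1 M, pull (γ : SL(2, ℤ)) W =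
      algebraMap ℂ Mer (((ζ ^ ψ (Additive.ofMul γ) : ℂˣ) : ℂ)) * W) :
    ∃ W : Mer, W ^ n = evM v ∧ ∀ γ : Gamma1 M, pull (γ : SL(2, ℤ)) W =
      algebraMap ℂ Mer (((ζ ^ (tD M ℤ p ψ) (Additive.ofMul γ) : ℂˣ) : ℂ)) * W := by
  rw [tD_eq p hp δ hδ]
  exact multMer_diamond evM n ζ δ hev h

end TotalMer

end Fermat.Agent.S48.helper4325
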