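/-
helper4765 — S48 (M2-TP backup, design "NORM FORMS"): the multiplicative Hecke operator with
diamond on `Γ₁(M)`-forms, as a modular form, and its `q`-expansion.

For `G` a modular form of weight `k` on `Γ₁(M)`, a prime `p ∤ M` and `γ_p ∈ Γ₀(M)` with lower-right
entry `≡ p mod M`, the NORM FORM is
`N G (τ) = ((G ∣ γ_p) ∣ [[p,0],[0,1]]) (τ) * ∏_{j mod p} (G ∣ [[1,j],[0,p]]) (τ)`
       `= p^(k-1-p) * (G ∣ γ_p)(p τ) * ∏_{j mod p} G((τ + j)/p)`.
-/
import Mathlib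
import Fermat.Prelude.Def_ModularForm_HeckeOperator
import Fermat.Prelude.Sol.S_ModularFormClass_isBoundedAt_heckeU
import Fermat.Agent.S16.helper2138_HeckeHom

set_option autoImplicit false

open UpperHalfPlane CongruenceSubgroup Matrix.SpecialLinearGroup ModularForm
open scoped MatrixGroups ModularForm Manifold

namespace Fermat.Agent.S48.helper4765

noncomputable section

open Fermat.Agent.S16.helper2138

/-! ## Lower-right entry mod `M` -/

/-- the lower-right entry of `A`, mod `M`. -/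
def dM (M : ℕ) (A : SL(2, ℤ)) : ZMod M := ((A 1 1 : ℤ) : ZMod M)

theorem dM_one (M : ℕ) : dM M 1 = 1 := by simp [dM]

theorem dM_mul {M : ℕ} {A : SL(2, ℤ)} (hA : A ∈ Gamma0 M) (B : SL(2, ℤ)) :
    dM M (A * B) = dM M A * dM M B := by
  have h0 : ((A 1 0 : ℤ) : ZMod M) = 0 := Gamma0_mem.mp hA
  have h : (A * B) 1 1 = A 1 0 * B 0 1 + A 1 1 * B 1 1 := by
    rw [Matrix.SpecialLinearGroup.coe_mul, Matrix.mul_apply, Fin.sum_univ_two]
  unfold dM
  rw [h]
  push_cast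
  rw [h0, zero_mul, zero_add]

theorem mem_Gamma1_of_dM {M : ℕ} {A : SL(2, ℤ)} (hA : A ∈ Gamma0 M) (h1 : dM M A = 1) :
    A ∈ Gamma1 M := by
  have h0 : ((A 1 0 : ℤ) : ZMod M) = 0 := Gamma0_mem.mp hA
  rw [Gamma1_mem]
  refine ⟨?_, h1, h0⟩
  have hdet := congrArg (Int.cast : ℤ → ZMod M) (det_SL A)
  push_cast at hdet
  rw [h0, mul_zero, sub_zero] at hdet
  unfold dM at h1
  rw [h1, mul_one] at hdet
  exact hdet

theorem dM_of_mem_Gamma1 {M : ℕ} {A : SL(2, ℤ)} (hA : A ∈ Gamma1 M) : dM M A = 1 :=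
  ((Gamma1_mem M A).mp hA).2.1

theorem dM_inv {M : ℕ} {A : SL(2, ℤ)} (hA : A ∈ Gamma0 M) : dM M A * dM M A⁻¹ = 1 := by
  rw [← dM_mul hA, mul_inv_cancel, dM_one]

/-- The slash of a `Γ₁(M)`-invariant function by an element of `Γ₀(M)` only depends on the
lower-right entry mod `M`. -/
theorem slash_eq_of_dM_eq {M : ℕ} {k : ℤ} {G : ℍ → ℂ}
    (hG : ∀ γ ∈ Gamma1 M, G ∣[k] mapGL ℝ γ = G) {A B : SL(2, ℤ)} (hA : A ∈ Gamma0 M)
    (hB : B ∈ Gamma0 M) (h : dM M A = dM M B) : G ∣[k] mapGL ℝ A = G ∣[k] mapGL ℝ B := by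
  have hAB : A * B⁻¹ ∈ Gamma1 M := by
    refine mem_Gamma1_of_dM (mul_mem hA (inv_mem hB)) ?_
    rw [dM_mul hA, h, dM_inv hB]
  have hA' : A = (A * B⁻¹) * B := by group
  rw [hA', map_mul, SlashAction.slash_mul, hG _ hAB]

/-- A `Γ₁(M)`-invariant function slashed by an element of `Γ₀(M)` is again `Γ₁(M)`-invariant. -/
theorem slash_Gamma0_invariant {M : ℕ} {k : ℤ} {G : ℍ → ℂ}
    (hG : ∀ γ ∈ Gamma1 M, G ∣[k] mapGL ℝ γ = G) {A : SL(2, ℤ)} (hA : A ∈ Gamma0 M)
    (γ : SL(2, ℤ)) (hγ : γ ∈ Gamma1 M) :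
    (G ∣[k] mapGL ℝ A) ∣[k] mapGL ℝ γ = G ∣[k] mapGL ℝ A := by
  have hγ0 : γ ∈ Gamma0 M := Gamma1_in_Gamma0 M hγ
  rw [← SlashAction.slash_mul, ← map_mul]
  refine slash_eq_of_dM_eq hG (mul_mem hA hγ0) hA ?_
  rw [dM_mul hA, dM_of_mem_Gamma1 hγ, mul_one]


/-! ## The coset product (norm function) -/

section Norm

variable (M : ℕ) (k : ℤ) (p : ℕ)

/-- the `Γ₀(M)`-twist in front of the representative `repT p x`: `γ_p` at `∞`, `1` at `j`. -/
def hx (γp : SL(2, ℤ)) (x : OnePoint (ZMod p)) : SL(2, ℤ) := x.elim γp (fun _ => 1)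

@[simp] theorem hx_infty (γp : SL(2, ℤ)) : hx p γp OnePoint.infty = γp := rfl
@[simp] theorem hx_coe (γp : SL(2, ℤ)) (j : ZMod p) : hx p γp (j : OnePoint (ZMod p)) = 1 := rfl

theorem hx_mem {γp : SL(2, ℤ)} (hγp : γp ∈ Gamma0 M) (x : OnePoint (ZMod p)) :
    hx p γp x ∈ Gamma0 M := by
  induction x using OnePoint.rec with
  | infty => exact hγp
  | coe j => exact one_mem _

theorem dM_hx_mul_eT {γp : SL(2, ℤ)} (hd : dM M γp = (p : ZMod M)) (x : OnePoint (ZMod p)) :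
    dM M (hx p γp x) * ((eT p x : ℤ) : ZMod M) = (p : ZMod M) := by
  induction x using OnePoint.rec with
  | infty => simp [hd]
  | coe j => simp [dM_one]

variable [Fact p.Prime]

theorem isUnit_eT (hpM : ¬ p ∣ M) (x : OnePoint (ZMod p)) : IsUnit ((eT p x : ℤ) : ZMod M) := by
  induction x using OnePoint.rec with
  | infty => simp
  | coe j =>
    simp only [eT_coe, Int.cast_natCast]
    rw [ZMod.isUnit_iff_coprime]
    exact (Nat.Prime.coprime_iff_not_dvd (Fact.out : p.Prime)).mpr hpM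

/-- one factor of the coset product. -/
def normFactor (γp : SL(2, ℤ)) (G : ℍ → ℂ) (x : OnePoint (ZMod p)) : ℍ → ℂ :=
  (G ∣[k] mapGL ℝ (hx p γp x)) ∣[k] repT p x

/-- The coset product `∏_x (G ∣ h_x) ∣ α_x` over `x ∈ ℙ¹(𝔽_p)`, `α_∞ = [[p,0],[0,1]]`,
`α_j = [[1,j],[0,p]]`, `h_∞ = γ_p`, `h_j = 1`. -/
def normFun (γp : SL(2, ℤ)) (G : ℍ → ℂ) : ℍ → ℂ :=
  ∏ x : OnePoint (ZMod p), normFactor k p γp G x

theorem card_onePoint : (Finset.univ : Finset (OnePoint (ZMod p))).card = p + 1 := by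
  rw [Finset.card_univ]
  have : Fintype.card (OnePoint (ZMod p)) = Fintype.card (Option (ZMod p)) := rfl
  rw [this, Fintype.card_option, ZMod.card]

variable {M k p}

theorem normFactor_slash (hpM : ¬ p ∣ M) {G : ℍ → ℂ}
    (hG : ∀ γ ∈ Gamma1 M, G ∣[k] mapGL ℝ γ = G) {γp : SL(2, ℤ)} (hγp : γp ∈ Gamma0 M)
    (hd : dM M γp = (p : ZMod M)) (δ : Gamma0 M) (x : OnePoint (ZMod p)) :
    normFactor k p γp G x ∣[k] mapGL ℝ (δ : SL(2, ℤ)) =
      normFactor k p γp (G ∣[k] mapGL ℝ (δ : SL(2, ℤ))) ((corrT M p hpM).σ δ x) := by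
  set C := corrT M p hpM with hC
  have hrel := C.rel x δ
  rw [corrT_α, corrT_α] at hrel
  unfold normFactor
  rw [← SlashAction.slash_mul, ← SlashAction.slash_mul, ← SlashAction.slash_mul,
    ← SlashAction.slash_mul, hrel, ← mul_assoc, ← mul_assoc, ← map_mul, ← map_mul,
    SlashAction.slash_mul, SlashAction.slash_mul]
  congr 1
  refine slash_eq_of_dM_eq hG (mul_mem (hx_mem M p hγp x) (C.g x δ).2)
    (mul_mem δ.2 (hx_mem M p hγp _)) ?_
  rw [dM_mul (hx_mem M p hγp x), dM_mul δ.2]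
  have h1 := corrT_d_rel M p hpM x δ
  have h2 := dM_hx_mul_eT M p hd x
  have h3 := dM_hx_mul_eT M p hd (C.σ δ x)
  have hu := isUnit_eT M p hpM (C.σ δ x)
  apply hu.mul_right_cancel
  unfold dM at h1 h2 h3 ⊢
  rw [mul_assoc, h1, mul_assoc, h3, ← mul_assoc, mul_comm _ ((((δ : SL(2, ℤ)) 1 1 : ℤ) : ZMod M)),
    mul_assoc, h2]


/-- **Diamond covariance of the coset product**: for `δ ∈ Γ₀(M)`,
`(N G) ∣ δ = N (G ∣ δ)`. -/
theorem normFun_slash (hpM : ¬ p ∣ M) {G : ℍ → ℂ}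
    (hG : ∀ γ ∈ Gamma1 M, G ∣[k] mapGL ℝ γ = G) {γp : SL(2, ℤ)} (hγp : γp ∈ Gamma0 M)
    (hd : dM M γp = (p : ZMod M)) {δ : SL(2, ℤ)} (hδ : δ ∈ Gamma0 M) :
    normFun k p γp G ∣[k * ((p : ℤ) + 1)] mapGL ℝ δ = normFun k p γp (G ∣[k] mapGL ℝ δ) := by
  have hk : k * ((p : ℤ) + 1) = k * ((Finset.univ : Finset (OnePoint (ZMod p))).card : ℤ) := by
    rw [card_onePoint p]; push_cast; ring
  unfold normFun
  rw [hk, ModularForm.prod_slash]
  have hdet : |(mapGL ℝ δ).det.val| = 1 := by simp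
  rw [hdet, one_zpow, one_smul,
    ← Equiv.prod_comp ((corrT M p hpM).σEquiv ⟨δ, hδ⟩) (normFactor k p γp (G ∣[k] mapGL ℝ δ))]
  refine Finset.prod_congr rfl fun x _ => ?_
  exact normFactor_slash hpM hG hγp hd ⟨δ, hδ⟩ x

theorem normFun_slash_Gamma1 (hpM : ¬ p ∣ M) {G : ℍ → ℂ}
    (hG : ∀ γ ∈ Gamma1 M, G ∣[k] mapGL ℝ γ = G) {γp : SL(2, ℤ)} (hγp : γp ∈ Gamma0 M)
    (hd : dM M γp = (p : ZMod M)) {δ : SL(2, ℤ)} (hδ : δ ∈ Gamma1 M) :
    normFun k p γp G ∣[k * ((p : ℤ) + 1)] mapGL ℝ δ = normFun k p γp G := by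
  rw [normFun_slash hpM hG hγp hd (Gamma1_in_Gamma0 M hδ), hG δ hδ]

theorem mapGL_real_eq_map_rat (γ : SL(2, ℤ)) :
    mapGL ℝ γ = Matrix.GeneralLinearGroup.map (Rat.castHom ℝ) (mapGL ℚ γ) := by
  ext i j
  simp

omit [Fact p.Prime] in
theorem exists_rat_eq (γp : SL(2, ℤ)) (x : OnePoint (ZMod p)) :
    ∃ g : GL (Fin 2) ℚ, mapGL ℝ (hx p γp x) * repT p x =
      Matrix.GeneralLinearGroup.map (Rat.castHom ℝ) g := by
  obtain ⟨r, hr⟩ : ∃ r : GL (Fin 2) ℚ, repT p x = Matrix.GeneralLinearGroup.map (Rat.castHom ℝ) r := by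
    induction x using OnePoint.rec with
    | infty =>
      exact P2MW.S_ModularFormClass_isBoundedAt_heckeU.ModularForm.S06W2.exists_heckeDiagMatrix_eq_map p
    | coe j =>
      exact P2MW.S_ModularFormClass_isBoundedAt_heckeU.ModularForm.S06W2.exists_heckeMatrix_eq_map p _
  exact ⟨mapGL ℚ (hx p γp x) * r, by rw [map_mul, ← mapGL_real_eq_map_rat, hr]⟩


/-! ## The bundled forms -/

theorem slash_eq_of_mem_Gamma1 [NeZero M] (G : ModularForm (Gamma1 M) k) (γ : SL(2, ℤ))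
    (hγ : γ ∈ Gamma1 M) : ⇑G ∣[k] mapGL ℝ γ = ⇑G :=
  SlashInvariantFormClass.slash_action_eq G _ (Subgroup.mem_map_of_mem _ hγ)

/-- The diamond translate `G ∣ γ` (`γ ∈ Γ₀(M)`) of a `Γ₁(M)`-form, as a `Γ₁(M)`-form. -/
def diamondForm [NeZero M] (G : ModularForm (Gamma1 M) k) (γ : SL(2, ℤ)) (hγ : γ ∈ Gamma0 M) :
    ModularForm (Gamma1 M) k where
  toFun := ⇑G ∣[k] mapGL ℝ γ
  slash_action_eq' A hA := by
    obtain ⟨δ, hδ, rfl⟩ := Subgroup.mem_map.mp hA
    exact slash_Gamma0_invariant (slash_eq_of_mem_Gamma1 G) hγ δ hδ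
  holo' := (ModularFormClass.holo G).slash k _
  bdd_at_cusps' {c} hc := by
    have h := P2MW.S_ModularFormClass_isBoundedAt_heckeU.ModularForm.S06W2.isBoundedAt_slash_ratCast
      G (mapGL ℚ γ) hc
    rwa [← mapGL_real_eq_map_rat] at h

@[simp] theorem coe_diamondForm [NeZero M] (G : ModularForm (Gamma1 M) k) (γ : SL(2, ℤ))
    (hγ : γ ∈ Gamma0 M) : ⇑(diamondForm G γ hγ) = ⇑G ∣[k] mapGL ℝ γ := rfl

/-- **(N1) The norm form**: `N G = ∏_x (G ∣ h_x) ∣ α_x`, a modular form of weight `k (p + 1)` on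
`Γ₁(M)`. -/
def normForm [NeZero M] (hpM : ¬ p ∣ M) (γp : SL(2, ℤ)) (hγp : γp ∈ Gamma0 M)
    (hd : dM M γp = (p : ZMod M)) (G : ModularForm (Gamma1 M) k) :
    ModularForm (Gamma1 M) (k * ((p : ℤ) + 1)) where
  toFun := normFun k p γp G
  slash_action_eq' A hA := by
    obtain ⟨δ, hδ, rfl⟩ := Subgroup.mem_map.mp hA
    exact normFun_slash_Gamma1 hpM (slash_eq_of_mem_Gamma1 G) hγp hd hδ
  holo' := by
    unfold normFun normFactor
    exact MDifferentiable.prod fun x _ => (((ModularFormClass.holo G).slash k _).slash k _)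
  bdd_at_cusps' {c} hc g hg := by
    have hk : k * ((p : ℤ) + 1) = k * ((Finset.univ : Finset (OnePoint (ZMod p))).card : ℤ) := by
      rw [card_onePoint p]; push_cast; ring
    unfold normFun
    rw [hk, ModularForm.prod_slash, IsBoundedAtImInfty, Filter.BoundedAtFilter]
    apply Asymptotics.IsBigO.const_smul_left
    rw [show (1 : ℍ → ℝ) = (fun τ ↦ ∏ _x : OnePoint (ZMod p), (1 : ℝ)) by ext; simp,
      Finset.prod_fn]
    refine Asymptotics.IsBigO.finsetProd fun x _ => ?_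
    obtain ⟨r, hr⟩ := exists_rat_eq (p := p) γp x
    have h := P2MW.S_ModularFormClass_isBoundedAt_heckeU.ModularForm.S06W2.isBoundedAt_slash_ratCast
      G r hc g hg
    rw [← hr, SlashAction.slash_mul] at h
    exact h

@[simp] theorem coe_normForm [NeZero M] (hpM : ¬ p ∣ M) (γp : SL(2, ℤ)) (hγp : γp ∈ Gamma0 M)
    (hd : dM M γp = (p : ZMod M)) (G : ModularForm (Gamma1 M) k) :
    ⇑(normForm hpM γp hγp hd G) = normFun k p γp G := rfl

omit [Fact p.Prime] in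
/-- existence of `γ_p ∈ Γ₀(M)` with lower-right entry `p` (for `p` coprime to `M`). -/
theorem exists_gammaP (hcop : Nat.Coprime p M) :
    ∃ γp : SL(2, ℤ), γp ∈ Gamma0 M ∧ dM M γp = (p : ZMod M) := by
  have h := Int.gcd_eq_gcd_ab (p : ℤ) (M : ℤ)
  have hg : Int.gcd (p : ℤ) (M : ℤ) = 1 := by
    rw [Int.gcd_natCast_natCast]
    exact hcop
  rw [hg] at h
  have hdet : (!![Int.gcdA p M, -Int.gcdB p M; (M : ℤ), (p : ℤ)]).det = 1 := by
    rw [Matrix.det_fin_two_of]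
    push_cast at h
    linarith
  let γ : SL(2, ℤ) := ⟨!![Int.gcdA p M, -Int.gcdB p M; (M : ℤ), (p : ℤ)], hdet⟩
  have h10 : γ 1 0 = (M : ℤ) := rfl
  have h11 : γ 1 1 = (p : ℤ) := rfl
  refine ⟨γ, ?_, ?_⟩
  · rw [Gamma0_mem, h10]
    simp
  · unfold dM
    rw [h11]
    simp

theorem slash_eq_zero {k : ℤ} {f : ℍ → ℂ} {g : GL (Fin 2) ℝ} (h : f ∣[k] g = 0) : f = 0 := by
  have h1 := congrArg (fun F : ℍ → ℂ => F ∣[k] g⁻¹) h
  simp only [← SlashAction.slash_mul, mul_inv_cancel, SlashAction.slash_one,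
    SlashAction.zero_slash] at h1
  exact h1

theorem normForm_ne_zero [NeZero M] (hpM : ¬ p ∣ M) (γp : SL(2, ℤ)) (hγp : γp ∈ Gamma0 M)
    (hd : dM M γp = (p : ZMod M)) {G : ModularForm (Gamma1 M) k} (hG : G ≠ 0) :
    normForm hpM γp hγp hd G ≠ 0 := by
  intro h0
  apply hG
  have h1 : normFun k p γp G = 0 := by
    rw [← coe_normForm hpM γp hγp hd G, h0]
    rfl
  unfold normFun at h1
  obtain ⟨x, -, hx0⟩ := (UpperHalfPlane.prod_eq_zero_iff
    (fun x _ => ((ModularFormClass.holo G).slash k _).slash k _)).mp h1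
  have h2 : (G : ℍ → ℂ) = 0 := slash_eq_zero (slash_eq_zero hx0)
  exact DFunLike.coe_injective h2

theorem diamondForm_ne_zero [NeZero M] {G : ModularForm (Gamma1 M) k} (hG : G ≠ 0) (γ : SL(2, ℤ))
    (hγ : γ ∈ Gamma0 M) : diamondForm G γ hγ ≠ 0 := by
  intro h0
  apply hG
  have h1 : (G : ℍ → ℂ) ∣[k] mapGL ℝ γ = 0 := by
    rw [← coe_diamondForm G γ hγ, h0]
    rfl
  exact DFunLike.coe_injective (slash_eq_zero h1)

end Norm


/-! ## Absolutely convergent power series in `q` -/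

section QSeries

/-- `A` converges absolutely at `z`, with sum `s`. -/
def PSumAt (A : PowerSeries ℂ) (z s : ℂ) : Prop :=
  Summable (fun n : ℕ => ‖A.coeff n * z ^ n‖) ∧ HasSum (fun n : ℕ => A.coeff n * z ^ n) s

theorem PSumAt.mul {A B : PowerSeries ℂ} {z s t : ℂ} (hA : PSumAt A z s) (hB : PSumAt B z t) :
    PSumAt (A * B) z (s * t) := by
  have hterm : ∀ n : ℕ, (A * B).coeff n * z ^ n =
      ∑ kl ∈ Finset.HasAntidiagonal.antidiagonal n,
        (A.coeff kl.1 * z ^ kl.1) * (B.coeff kl.2 * z ^ kl.2) := by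
    intro n
    rw [PowerSeries.coeff_mul, Finset.sum_mul]
    refine Finset.sum_congr rfl fun kl hkl => ?_
    rw [← Finset.HasAntidiagonal.mem_antidiagonal.mp hkl, pow_add]
    ring
  have hsum := summable_norm_sum_mul_antidiagonal_of_summable_norm hA.1 hB.1
  constructor
  · simp_rw [hterm]
    exact hsum
  · have h := tsum_mul_tsum_eq_tsum_sum_antidiagonal_of_summable_norm hA.1 hB.1
    rw [hA.2.tsum_eq, hB.2.tsum_eq] at h
    simp_rw [hterm]
    rw [h]
    exact hsum.of_norm.hasSum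

theorem PSumAt.one (z : ℂ) : PSumAt 1 z 1 := by
  have h : ∀ n : ℕ, n ∉ ({0} : Finset ℕ) → (1 : PowerSeries ℂ).coeff n * z ^ n = 0 := by
    intro n hn
    rw [PowerSeries.coeff_one, if_neg (by simpa using hn), zero_mul]
  constructor
  · have h' : ∀ n : ℕ, n ∉ ({0} : Finset ℕ) → ‖(1 : PowerSeries ℂ).coeff n * z ^ n‖ = 0 := by
      intro n hn
      rw [h n hn, norm_zero]
    have hs : HasSum (fun n : ℕ => ‖(1 : PowerSeries ℂ).coeff n * z ^ n‖)
        (∑ n ∈ ({0} : Finset ℕ), ‖(1 : PowerSeries ℂ).coeff n * z ^ n‖) :=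
      hasSum_sum_of_ne_finset_zero h'
    exact hs.summable
  · have hs : HasSum (fun n : ℕ => (1 : PowerSeries ℂ).coeff n * z ^ n)
        (∑ n ∈ ({0} : Finset ℕ), (1 : PowerSeries ℂ).coeff n * z ^ n) :=
      hasSum_sum_of_ne_finset_zero h
    simpa using hs

theorem PSumAt.prod {ι : Type*} (s : Finset ι) (A : ι → PowerSeries ℂ) (z : ℂ) (v : ι → ℂ)
    (h : ∀ i ∈ s, PSumAt (A i) z (v i)) : PSumAt (∏ i ∈ s, A i) z (∏ i ∈ s, v i) := by
  classical
  induction s using Finset.induction_on with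
  | empty =>
    rw [Finset.prod_empty, Finset.prod_empty]
    exact PSumAt.one z
  | insert i t hi IH =>
    rw [Finset.prod_insert hi, Finset.prod_insert hi]
    exact (h i (Finset.mem_insert_self i t)).mul (IH fun j hj => h j (Finset.mem_insert_of_mem hj))

theorem PSumAt.rescale {A : PowerSeries ℂ} {c z s : ℂ} (h : PSumAt A (c * z) s) :
    PSumAt (PowerSeries.rescale c A) z s := by
  have hterm : ∀ n : ℕ, (PowerSeries.rescale c A).coeff n * z ^ n = A.coeff n * (c * z) ^ n := by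
    intro n
    rw [PowerSeries.coeff_rescale, mul_pow]
    ring
  unfold PSumAt
  simp_rw [hterm]
  exact h

theorem PSumAt.const_mul {A : PowerSeries ℂ} {z s : ℂ} (c : ℂ) (h : PSumAt A z s) :
    PSumAt (PowerSeries.C c * A) z (c * s) := by
  have hterm : ∀ n : ℕ, (PowerSeries.C c * A).coeff n * z ^ n = c * (A.coeff n * z ^ n) := by
    intro n
    rw [PowerSeries.coeff_C_mul, mul_assoc]
  unfold PSumAt
  simp_rw [hterm]
  constructor
  · have e : (fun n : ℕ => ‖c * (A.coeff n * z ^ n)‖) = fun n : ℕ => ‖c‖ * ‖A.coeff n * z ^ n‖ :=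
      funext fun n => norm_mul _ _
    rw [e]
    exact h.1.mul_left _
  · exact h.2.mul_left c

/-- `F` is given on all of `ℍ` by the convergent power series `A` in `q = exp (2πiτ)`. -/
def HasQPS (F : ℍ → ℂ) (A : PowerSeries ℂ) : Prop :=
  ∀ τ : ℍ, HasSum (fun n : ℕ => A.coeff n * Function.Periodic.qParam 1 (τ : ℂ) ^ n) (F τ)

theorem HasQPS.pSumAt {F : ℍ → ℂ} {A : PowerSeries ℂ} (h : HasQPS F A) (τ : ℍ) :
    PSumAt A (Function.Periodic.qParam 1 (τ : ℂ)) (F τ) := by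
  refine ⟨?_, h τ⟩
  have him : 0 < ((τ : ℂ) / 2).im := by
    have : ((τ : ℂ) / 2).im = τ.im / 2 := by
      rw [show ((τ : ℂ) / 2) = (τ : ℂ) * ((1 / 2 : ℝ) : ℂ) by push_cast; ring, Complex.im_mul_ofReal]
      simp; ring
    rw [this]
    exact half_pos τ.im_pos
  set w := Function.Periodic.qParam 1 ((τ : ℂ) / 2) with hw
  have hw2 : Function.Periodic.qParam 1 (τ : ℂ) = w ^ 2 := by
    rw [hw]
    unfold Function.Periodic.qParam
    rw [← Complex.exp_nat_mul]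
    congr 1
    push_cast
    ring
  have hw1 : ‖w‖ < 1 := Function.Periodic.norm_qParam_lt_one one_pos him
  obtain ⟨C, hC⟩ : ∃ C : ℝ, ∀ n : ℕ, ‖A.coeff n * w ^ n‖ ≤ C := by
    have h0 := (h ⟨(τ : ℂ) / 2, him⟩).summable.tendsto_atTop_zero
    obtain ⟨C, hC⟩ := h0.norm.bddAbove_range
    exact ⟨C, fun n => hC (Set.mem_range_self n)⟩
  refine Summable.of_nonneg_of_le (fun n => norm_nonneg _) (fun n => ?_)
    ((summable_geometric_of_lt_one (norm_nonneg w) hw1).mul_left C)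
  have e : A.coeff n * (w ^ 2) ^ n = (A.coeff n * w ^ n) * w ^ n := by ring
  rw [hw2, e, norm_mul, norm_pow]
  exact mul_le_mul_of_nonneg_right (hC n) (pow_nonneg (norm_nonneg _) _)

theorem HasQPS.mul {F F' : ℍ → ℂ} {A B : PowerSeries ℂ} (h : HasQPS F A) (h' : HasQPS F' B) :
    HasQPS (fun τ => F τ * F' τ) (A * B) :=
  fun τ => ((h.pSumAt τ).mul (h'.pSumAt τ)).2

theorem HasQPS.const_mul {F : ℍ → ℂ} {A : PowerSeries ℂ} (c : ℂ) (h : HasQPS F A) :
    HasQPS (fun τ => c * F τ) (PowerSeries.C c * A) :=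
  fun τ => ((h.pSumAt τ).const_mul c).2

theorem HasQPS.congr {F F' : ℍ → ℂ} {A : PowerSeries ℂ} (h : HasQPS F A) (hF : ∀ τ, F' τ = F τ) :
    HasQPS F' A := fun τ => by rw [hF τ]; exact h τ


/-- `U_p` on power series: `(U_p A).coeff n = A.coeff (p n)`. -/
def Up (p : ℕ) (A : PowerSeries ℂ) : PowerSeries ℂ := PowerSeries.mk fun n => A.coeff (p * n)

@[simp] theorem coeff_Up (p : ℕ) (A : PowerSeries ℂ) (n : ℕ) : (Up p A).coeff n = A.coeff (p * n) :=
  PowerSeries.coeff_mk _ _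

/-- the product of the `p` twists `A(ζ^j q)`, `j mod p`. -/
def twProd (p : ℕ) [NeZero p] (ζ : ℂ) (A : PowerSeries ℂ) : PowerSeries ℂ :=
  ∏ j : ZMod p, PowerSeries.rescale (ζ ^ j.val) A

theorem rescale_twProd {p : ℕ} [Fact p.Prime] {ζ : ℂ} (hζ : ζ ^ p = 1) (A : PowerSeries ℂ) :
    PowerSeries.rescale ζ (twProd p ζ A) = twProd p ζ A := by
  unfold twProd
  rw [map_prod]
  rw [← Equiv.prod_comp (Equiv.addRight (1 : ZMod p))
    (fun j : ZMod p => PowerSeries.rescale (ζ ^ j.val) A)]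
  refine Finset.prod_congr rfl fun j _ => ?_
  rw [PowerSeries.rescale_rescale, Equiv.coe_addRight, ← pow_succ]
  congr 2
  have hp1 : Fact (1 < p) := ⟨(Fact.out : p.Prime).one_lt⟩
  rw [ZMod.val_add, ZMod.val_one, ← pow_mod_orderOf ζ (j.val + 1), ← pow_mod_orderOf ζ ((j.val + 1) % p)]
  congr 1
  exact (Nat.mod_mod_of_dvd _ (orderOf_dvd_of_pow_eq_one hζ)).symm

theorem coeff_twProd_of_not_dvd {p : ℕ} [Fact p.Prime] {ζ : ℂ} (hζ : IsPrimitiveRoot ζ p)
    (A : PowerSeries ℂ) {m : ℕ} (hm : ¬ p ∣ m) : (twProd p ζ A).coeff m = 0 := by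
  have h := congrArg (PowerSeries.coeff m) (rescale_twProd hζ.pow_eq_one A)
  rw [PowerSeries.coeff_rescale] at h
  have h1 : ζ ^ m ≠ 1 := fun h1 => hm ((hζ.pow_eq_one_iff_dvd m).mp h1)
  have h2 : (ζ ^ m - 1) * (twProd p ζ A).coeff m = 0 := by rw [sub_mul, h, one_mul, sub_self]
  exact (mul_eq_zero.mp h2).resolve_left (sub_ne_zero.mpr h1)

theorem qParam_heckeDiag {p : ℕ} (hp : p ≠ 0) (τ : ℍ) :
    Function.Periodic.qParam 1 ((heckeDiagMatrix p • τ : ℍ) : ℂ) =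
      Function.Periodic.qParam 1 (τ : ℂ) ^ p := by
  rw [coe_heckeDiagMatrix_smul hp]
  unfold Function.Periodic.qParam
  rw [← Complex.exp_nat_mul]
  congr 1
  push_cast
  ring

theorem qParam_p_pow {p : ℕ} (hp : p ≠ 0) (τ : ℍ) :
    Function.Periodic.qParam p (τ : ℂ) ^ p = Function.Periodic.qParam 1 (τ : ℂ) := by
  have hpC : (p : ℂ) ≠ 0 := by exact_mod_cast hp
  unfold Function.Periodic.qParam
  rw [← Complex.exp_nat_mul]
  congr 1
  push_cast
  field_simp

theorem qParam_heckeMatrix {p : ℕ} (hp : p ≠ 0) (j : ℕ) (τ : ℍ) :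
    Function.Periodic.qParam 1 ((heckeMatrix p j • τ : ℍ) : ℂ) =
      Complex.exp (2 * Real.pi * Complex.I / p) ^ j * Function.Periodic.qParam p (τ : ℂ) := by
  have hpC : (p : ℂ) ≠ 0 := by exact_mod_cast hp
  rw [coe_heckeMatrix_smul hp, ← Complex.exp_nat_mul]
  unfold Function.Periodic.qParam
  rw [← Complex.exp_add]
  congr 1
  push_cast
  field_simp
  ring

theorem HasQPS.comp_diag {F : ℍ → ℂ} {A : PowerSeries ℂ} (h : HasQPS F A) {p : ℕ} (hp : p ≠ 0) :
    HasQPS (fun τ => F (heckeDiagMatrix p • τ)) (PowerSeries.expand p hp A) := by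
  intro τ
  have h1 := h (heckeDiagMatrix p • τ)
  have hq : Function.Periodic.qParam 1 ((heckeDiagMatrix p • τ : ℍ) : ℂ) =
      Function.Periodic.qParam 1 (τ : ℂ) ^ p := by
    rw [coe_heckeDiagMatrix_smul hp]
    unfold Function.Periodic.qParam
    rw [← Complex.exp_nat_mul]
    congr 1
    push_cast
    ring
  rw [hq] at h1
  have hinj : Function.Injective (fun n : ℕ => p * n) := mul_right_injective₀ hp
  refine (hinj.hasSum_iff ?_).mp ?_
  · intro m hm
    rw [PowerSeries.coeff_expand_of_not_dvd, zero_mul]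
    rintro ⟨n, rfl⟩
    exact hm ⟨n, rfl⟩
  · have e : ((fun m : ℕ => (PowerSeries.expand p hp A).coeff m *
        Function.Periodic.qParam 1 (τ : ℂ) ^ m) ∘ fun n : ℕ => p * n) =
        fun n : ℕ => A.coeff n * (Function.Periodic.qParam 1 (τ : ℂ) ^ p) ^ n := by
      funext n
      simp only [Function.comp_apply]
      rw [PowerSeries.coeff_expand_mul, pow_mul]
    rw [e]
    exact h1

theorem HasQPS.comp_shift {F : ℍ → ℂ} {A : PowerSeries ℂ} (h : HasQPS F A) (p : ℕ) [Fact p.Prime] :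
    HasQPS (fun τ => ∏ j : ZMod p, F (heckeMatrix p j.val • τ))
      (Up p (twProd p (Complex.exp (2 * Real.pi * Complex.I / p)) A)) := by
  have hp : p ≠ 0 := (Fact.out : p.Prime).ne_zero
  have hpC : (p : ℂ) ≠ 0 := by exact_mod_cast hp
  set ζ : ℂ := Complex.exp (2 * Real.pi * Complex.I / p) with hζdef
  have hζ : IsPrimitiveRoot ζ p := Complex.isPrimitiveRoot_exp p hp
  intro τ
  set Q : ℂ := Function.Periodic.qParam p (τ : ℂ) with hQ
  have hQp : Q ^ p = Function.Periodic.qParam 1 (τ : ℂ) := by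
    rw [hQ]
    unfold Function.Periodic.qParam
    rw [← Complex.exp_nat_mul]
    congr 1
    push_cast
    field_simp
  -- each factor as a power series in `Q`
  have hfac : ∀ j : ZMod p, PSumAt (PowerSeries.rescale (ζ ^ j.val) A) Q
      (F (heckeMatrix p j.val • τ)) := by
    intro j
    apply PSumAt.rescale
    have hq : Function.Periodic.qParam 1 ((heckeMatrix p j.val • τ : ℍ) : ℂ) = ζ ^ j.val * Q := by
      rw [coe_heckeMatrix_smul hp, hQ, hζdef, ← Complex.exp_nat_mul]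
      unfold Function.Periodic.qParam
      rw [← Complex.exp_add]
      congr 1
      push_cast
      field_simp
      ring
    rw [← hq]
    exact h.pSumAt _
  have hprod := PSumAt.prod Finset.univ (fun j : ZMod p => PowerSeries.rescale (ζ ^ j.val) A) Q
    (fun j : ZMod p => F (heckeMatrix p j.val • τ)) (fun j _ => hfac j)
  have h1 : HasSum (fun m : ℕ => (twProd p ζ A).coeff m * Q ^ m)
      (∏ j : ZMod p, F (heckeMatrix p j.val • τ)) := hprod.2
  have hinj : Function.Injective (fun n : ℕ => p * n) := mul_right_injective₀ hp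
  have h2 := (hinj.hasSum_iff (f := fun m : ℕ => (twProd p ζ A).coeff m * Q ^ m) ?_).mpr h1
  · have e : ((fun m : ℕ => (twProd p ζ A).coeff m * Q ^ m) ∘ fun n : ℕ => p * n) =
        fun n : ℕ => (Up p (twProd p ζ A)).coeff n * Function.Periodic.qParam 1 (τ : ℂ) ^ n := by
      funext n
      simp only [Function.comp_apply]
      rw [coeff_Up, pow_mul, hQp]
    rw [e] at h2
    exact h2
  · intro m hm
    rw [coeff_twProd_of_not_dvd hζ, zero_mul]
    rintro ⟨n, rfl⟩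
    exact hm ⟨n, rfl⟩

end QSeries

/-! ## (N2) The `q`-expansion of the norm form -/

section QExp

variable {M : ℕ} {k : ℤ} {p : ℕ} [Fact p.Prime]

/-- pointwise formula for the coset product. -/
theorem normFun_apply (γp : SL(2, ℤ)) (G : ℍ → ℂ) (τ : ℍ) :
    normFun k p γp G τ =
      ((p : ℂ) ^ (k - 1) * (G ∣[k] mapGL ℝ γp) (heckeDiagMatrix p • τ)) *
        ∏ j : ZMod p, ((p : ℂ)⁻¹ * G (heckeMatrix p j.val • τ)) := by
  have hp : p ≠ 0 := (Fact.out : p.Prime).ne_zero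
  unfold normFun
  rw [Finset.prod_apply]
  have h1 : ∏ x : OnePoint (ZMod p), normFactor k p γp G x τ =
      normFactor k p γp G OnePoint.infty τ *
        ∏ j : ZMod p, normFactor k p γp G (j : OnePoint (ZMod p)) τ :=
    Fintype.prod_option (fun x : Option (ZMod p) => normFactor k p γp G x τ)
  rw [h1]
  congr 1
  · unfold normFactor
    rw [hx_infty, repT_infty, slash_heckeDiagMatrix_apply k hp]
  · refine Finset.prod_congr rfl fun j _ => ?_
    unfold normFactor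
    rw [hx_coe, repT_coe, map_one, SlashAction.slash_one, slash_heckeMatrix_apply k hp]

/-- **Function-level `q`-expansion of the coset product.** -/
theorem HasQPS.normFun {G : ℍ → ℂ} {A A' : PowerSeries ℂ} (γp : SL(2, ℤ)) (h : HasQPS G A)
    (h' : HasQPS (G ∣[k] mapGL ℝ γp) A') :
    HasQPS (normFun k p γp G)
      (PowerSeries.C ((p : ℂ) ^ (k - 1) * ((p : ℂ)⁻¹) ^ p) *
        (PowerSeries.expand p (Fact.out : p.Prime).ne_zero A' *
          Up p (twProd p (Complex.exp (2 * Real.pi * Complex.I / p)) A))) := by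
  have hp : p ≠ 0 := (Fact.out : p.Prime).ne_zero
  have h1 := ((h'.comp_diag hp).mul (h.comp_shift p)).const_mul ((p : ℂ) ^ (k - 1) * ((p : ℂ)⁻¹) ^ p)
  refine h1.congr fun τ => ?_
  rw [normFun_apply, Finset.prod_mul_distrib, Finset.prod_const, Finset.card_univ, ZMod.card]
  ring

variable [NeZero M]

theorem one_mem_strictPeriods_Gamma1 (M : ℕ) :
    (1 : ℝ) ∈ (Gamma1 M : Subgroup (GL (Fin 2) ℝ)).strictPeriods := by
  rw [strictPeriods_Gamma1]
  exact AddSubgroup.mem_zmultiples 1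

theorem hasQPS_modularForm (G : ModularForm (Gamma1 M) k) : HasQPS G (qExpansion 1 G) :=
  fun τ => ModularForm.hasSum_qExpansion G one_pos (one_mem_strictPeriods_Gamma1 M) τ

omit [NeZero M] in
theorem qExpansion_eq_of_hasQPS (G : ModularForm (Gamma1 M) k) {A : PowerSeries ℂ}
    (h : HasQPS G A) : qExpansion 1 G = A := by
  ext n
  exact (ModularFormClass.qExpansion_coeff_unique one_pos (one_mem_strictPeriods_Gamma1 M)
    (f := G) (c := fun n => A.coeff n) (fun τ => by simpa using h τ) n).symm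

/-- **(N2) `q`-expansion of the norm form.** -/
theorem qExpansion_normForm (hpM : ¬ p ∣ M) (γp : SL(2, ℤ)) (hγp : γp ∈ Gamma0 M)
    (hd : dM M γp = (p : ZMod M)) (G : ModularForm (Gamma1 M) k) :
    qExpansion 1 (normForm hpM γp hγp hd G) =
      PowerSeries.C ((p : ℂ) ^ (k - 1) * ((p : ℂ)⁻¹) ^ p) *
        (PowerSeries.expand p (Fact.out : p.Prime).ne_zero (qExpansion 1 (diamondForm G γp hγp)) *
          Up p (twProd p (Complex.exp (2 * Real.pi * Complex.I / p)) (qExpansion 1 G))) := by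
  apply qExpansion_eq_of_hasQPS
  rw [coe_normForm]
  exact HasQPS.normFun γp (hasQPS_modularForm G) (hasQPS_modularForm (diamondForm G γp hγp))

end QExp

end

end Fermat.Agent.S48.helper4765
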