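/-
helper4765 — S48 (M2-TP, design "NORM FORMS"): the bridge between the FORMAL multiplicative Hecke
operator with diamond
`heckeMulD p ζ x x' = x'(q^p) * U_p (∏_{b<p} x(ζ^b q))`
on Laurent series and the ANALYTIC coset product
`τ ↦ g(pτ) * ∏_{j mod p} f((τ + j)/p)`
on functions on the upper half plane, in the Laurent dictionary `HasQ` of the landed
`S24/helper1704_QDict`.
-/
import Fermat.Agent.S48.helper4765_NormForm
import Fermat.Agent.S24.helper1704_QDict
import Fermat.Agent.S29.helper7964_FormalES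
import Fermat.Agent.S29.helper7964_FormalESVal

set_option autoImplicit false

open UpperHalfPlane CongruenceSubgroup Matrix.SpecialLinearGroup ModularForm
open scoped MatrixGroups ModularForm Manifold

namespace Fermat.Agent.S48.helper4765

noncomputable section

open Fermat.Agent.S29.helper7964 Fermat.Agent.S24.helper1704 ModularCurve

/-! ## Formal side: the product of twists and the operator `heckeMulD` -/

section Formal

variable {K : Type*} [Field K]

/-- reindexing a product over the powers of a primitive root. -/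
theorem prod_range_pow_eq_of_primitive {R : Type*} [CommRing R] [IsDomain R] {α : Type*}
    [CommMonoid α] {p : ℕ} {ζ ζ' : R} (hζ : IsPrimitiveRoot ζ p) (hζ' : IsPrimitiveRoot ζ' p)
    (f : R → α) : ∏ b ∈ Finset.range p, f (ζ ^ b) = ∏ b ∈ Finset.range p, f (ζ' ^ b) := by
  have key : ∀ ξ : R, IsPrimitiveRoot ξ p →
      ∏ b ∈ Finset.range p, f (ξ ^ b) = ((Polynomial.nthRoots p (1 : R)).map f).prod := by
    intro ξ hξ
    rw [hξ.nthRoots_eq (one_pow p), Multiset.map_map, Finset.prod_eq_multiset_prod,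
      Finset.range_val]
    congr 1
    refine Multiset.map_congr rfl fun b _ => ?_
    simp
  rw [key ζ hζ, key ζ' hζ']

/-- the product of the `p` twists `L(ζ^b q)`, `b < p`. -/
def twP (p : ℕ) (ζ : Kˣ) (L : LaurentSeries K) : LaurentSeries K :=
  ∏ b ∈ Finset.range p, tw (ζ ^ b) L

theorem twP_mul (p : ℕ) (ζ : Kˣ) (L L' : LaurentSeries K) :
    twP p ζ (L * L') = twP p ζ L * twP p ζ L' := by
  unfold twP
  rw [← Finset.prod_mul_distrib]
  exact Finset.prod_congr rfl fun b _ => tw_mul _ _ _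

theorem twP_eq_of_primitive {p : ℕ} {ζ ζ' : Kˣ} (hζ : IsPrimitiveRoot (ζ : K) p)
    (hζ' : IsPrimitiveRoot (ζ' : K) p) (L : LaurentSeries K) : twP p ζ L = twP p ζ' L := by
  classical
  let f : K → LaurentSeries K := fun c => if h : IsUnit c then tw h.unit L else 0
  have hf : ∀ (ξ : Kˣ) (b : ℕ), f ((ξ : K) ^ b) = tw (ξ ^ b) L := by
    intro ξ b
    have hu : IsUnit ((ξ : K) ^ b) := by
      rw [← Units.val_pow_eq_pow_val]
      exact (ξ ^ b).isUnit
    simp only [f, dif_pos hu]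
    congr 1
    apply Units.ext
    rw [IsUnit.unit_spec, Units.val_pow_eq_pow_val]
  unfold twP
  have h1 := prod_range_pow_eq_of_primitive hζ hζ' f
  simp only [hf] at h1
  exact h1

theorem tw_twP {p : ℕ} {ζ : Kˣ} (hζ : ζ ^ p = 1) (L : LaurentSeries K) :
    tw ζ (twP p ζ L) = twP p ζ L := by
  by_cases hL : L = 0
  · subst hL
    have h0 : ∀ c : Kˣ, tw c (0 : LaurentSeries K) = 0 := fun c => (twRingHom c).map_zero
    unfold twP
    rw [← twRingHom_apply, map_prod]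
    refine Finset.prod_congr rfl fun b _ => ?_
    rw [twRingHom_apply, h0, h0]
  · unfold twP
    rw [← twRingHom_apply, map_prod]
    simp only [twRingHom_apply, tw_tw, ← pow_succ']
    have h1 := Finset.prod_range_succ' (fun b => tw (ζ ^ b) L) p
    have h2 := Finset.prod_range_succ (fun b => tw (ζ ^ b) L) p
    rw [h1] at h2
    simp only [hζ, pow_zero, tw_one] at h2
    exact mul_right_cancel₀ hL h2

theorem coeff_twP_of_not_dvd {p : ℕ} {ζ : Kˣ} (hζ : IsPrimitiveRoot (ζ : K) p)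
    (L : LaurentSeries K) {n : ℤ} (hn : ¬ (p : ℤ) ∣ n) : (twP p ζ L).coeff n = 0 := by
  have hζu : IsPrimitiveRoot ζ p := IsPrimitiveRoot.coe_units_iff.mp hζ
  have h := congrArg (fun X : LaurentSeries K => X.coeff n) (tw_twP hζu.pow_eq_one L)
  simp only [tw_coeff] at h
  have h1 : ((ζ ^ n : Kˣ) : K) ≠ 1 := by
    intro h1
    apply hn
    rw [← hζu.zpow_eq_one_iff_dvd]
    exact Units.ext h1
  have h2 : (((ζ ^ n : Kˣ) : K) - 1) * (twP p ζ L).coeff n = 0 := by
    rw [sub_mul, h, one_mul, sub_self]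
  exact (mul_eq_zero.mp h2).resolve_left (sub_ne_zero.mpr h1)

variable (p : ℕ) [NeZero p]

theorem qExpand_uOp_twP {ζ : Kˣ} (hζ : IsPrimitiveRoot (ζ : K) p) (L : LaurentSeries K) :
    qExpand K p (uOp p (twP p ζ L)) = twP p ζ L :=
  qExpand_uOp p _ fun _ hk => coeff_twP_of_not_dvd hζ L hk

theorem uOp_twP_mul {ζ : Kˣ} (hζ : IsPrimitiveRoot (ζ : K) p) (L L' : LaurentSeries K) :
    uOp p (twP p ζ (L * L')) = uOp p (twP p ζ L) * uOp p (twP p ζ L') := by
  have h : twP p ζ (L * L') = qExpand K p (uOp p (twP p ζ L) * uOp p (twP p ζ L')) := by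
    rw [map_mul, qExpand_uOp_twP p hζ, qExpand_uOp_twP p hζ, twP_mul]
  rw [h, uOp_qExpand]

/-- The formal multiplicative Hecke operator with diamond:
`heckeMulD p ζ x x' = x'(q^p) * U_p (∏_{b<p} x(ζ^b q))` (`x' = ⟨p⟩ x`). -/
def heckeMulD (ζ : Kˣ) (x x' : LaurentSeries K) : LaurentSeries K :=
  qExpand K p x' * uOp p (twP p ζ x)

theorem heckeMulD_mul {ζ : Kˣ} (hζ : IsPrimitiveRoot (ζ : K) p) (x y x' y' : LaurentSeries K) :
    heckeMulD p ζ (x * y) (x' * y') = heckeMulD p ζ x x' * heckeMulD p ζ y y' := by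
  unfold heckeMulD
  rw [map_mul, uOp_twP_mul p hζ]
  ring

theorem heckeMulD_eq_of_primitive {ζ ζ' : Kˣ} (hζ : IsPrimitiveRoot (ζ : K) p)
    (hζ' : IsPrimitiveRoot (ζ' : K) p) (x x' : LaurentSeries K) :
    heckeMulD p ζ x x' = heckeMulD p ζ' x x' := by
  unfold heckeMulD
  rw [twP_eq_of_primitive hζ hζ']

theorem heckeMulD_def (ζ : Kˣ) (x x' : LaurentSeries K) :
    heckeMulD p ζ x x' =
      qExpand K p x' * uOp p (∏ b ∈ Finset.range p, tw (ζ ^ b) x) := rfl

/-- coefficientwise ring homomorphisms commute with the formal Hecke operator with diamond. -/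
theorem coeffMap_heckeMulD {K L : Type*} [Field K] [Field L] (f : K →+* L) (p : ℕ) [NeZero p]
    (ζ : Kˣ) (x x' : LaurentSeries K) :
    coeffMap f (heckeMulD p ζ x x') =
      heckeMulD p (Units.map (f : K →* L) ζ) (coeffMap f x) (coeffMap f x') := by
  unfold heckeMulD twP
  rw [map_mul, coeffMap_qExpand, coeffMap_uOp, map_prod]
  congr 2
  refine Finset.prod_congr rfl fun b _ => ?_
  rw [coeffMap_tw, map_pow]

end Formal

/-! ## `ofPowerSeries` versus the formal operations -/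

section OfPS

open HahnSeries

variable {K : Type*} [Field K]

theorem ofPS_coeff_nat (P : PowerSeries K) (m : ℕ) :
    (ofPowerSeries ℤ K P).coeff (m : ℤ) = P.coeff m :=
  HahnSeries.ofPowerSeries_apply_coeff P m

theorem ofPS_coeff_neg (P : PowerSeries K) {k : ℤ} (hk : k < 0) :
    (ofPowerSeries ℤ K P).coeff k = 0 := by
  rw [HahnSeries.ofPowerSeries_apply]
  refine HahnSeries.embDomain_of_notMem_range ?_
  rintro ⟨m, rfl⟩
  exact absurd hk (not_lt.mpr (Int.natCast_nonneg m))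

theorem ofPS_expand {p : ℕ} [NeZero p] (hp : p ≠ 0) (P : PowerSeries K) :
    ofPowerSeries ℤ K (PowerSeries.expand p hp P) = qExpand K p (ofPowerSeries ℤ K P) := by
  ext n
  by_cases hdvd : (p : ℤ) ∣ n
  · obtain ⟨k, rfl⟩ := hdvd
    rw [qExpand_coeff_mul]
    rcases lt_or_ge k 0 with hk | hk
    · rw [ofPS_coeff_neg _ hk, ofPS_coeff_neg]
      exact mul_neg_of_pos_of_neg (by exact_mod_cast Nat.pos_of_ne_zero hp) hk
    · lift k to ℕ using hk
      rw [ofPS_coeff_nat, show ((p : ℤ) * (k : ℤ)) = ((p * k : ℕ) : ℤ) by push_cast; ring,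
        ofPS_coeff_nat, PowerSeries.coeff_expand_mul]
  · rw [qExpand_coeff_of_not_dvd p _ hdvd]
    rcases lt_or_ge n 0 with hn | hn
    · exact ofPS_coeff_neg _ hn
    · lift n to ℕ using hn
      rw [ofPS_coeff_nat, PowerSeries.coeff_expand_of_not_dvd]
      intro h
      exact hdvd (Int.natCast_dvd_natCast.mpr h)

theorem ofPS_rescale (c : Kˣ) (P : PowerSeries K) :
    ofPowerSeries ℤ K (PowerSeries.rescale (c : K) P) = tw c (ofPowerSeries ℤ K P) := by
  ext n
  rw [tw_coeff]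
  rcases lt_or_ge n 0 with hn | hn
  · rw [ofPS_coeff_neg _ hn, ofPS_coeff_neg _ hn, mul_zero]
  · lift n to ℕ using hn
    rw [ofPS_coeff_nat, ofPS_coeff_nat, PowerSeries.coeff_rescale, zpow_natCast,
      Units.val_pow_eq_pow_val]

theorem prod_zmod_val {α : Type*} [CommMonoid α] (p : ℕ) [NeZero p] (f : ℕ → α) :
    ∏ j : ZMod p, f j.val = ∏ b ∈ Finset.range p, f b := by
  obtain ⟨n, rfl⟩ := Nat.exists_eq_succ_of_ne_zero (NeZero.ne p)
  exact Fin.prod_univ_eq_prod_range f (n + 1)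

theorem ofPS_twProd_complex (p : ℕ) [NeZero p] (ζ : ℂˣ) (P : PowerSeries ℂ) :
    ofPowerSeries ℤ ℂ (twProd p (ζ : ℂ) P) = twP p ζ (ofPowerSeries ℤ ℂ P) := by
  unfold twProd twP
  rw [map_prod, ← prod_zmod_val p (fun b => tw (ζ ^ b) (ofPowerSeries ℤ ℂ P))]
  refine Finset.prod_congr rfl fun j _ => ?_
  rw [← ofPS_rescale, Units.val_pow_eq_pow_val]

theorem ofPS_Up (p : ℕ) [NeZero p] (P : PowerSeries ℂ) :
    ofPowerSeries ℤ ℂ (Up p P) = uOp p (ofPowerSeries ℤ ℂ P) := by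
  ext n
  rw [uOp_coeff]
  rcases lt_or_ge n 0 with hn | hn
  · rw [ofPS_coeff_neg _ hn, ofPS_coeff_neg]
    exact mul_neg_of_pos_of_neg (by exact_mod_cast Nat.pos_of_ne_zero (NeZero.ne p)) hn
  · lift n to ℕ using hn
    rw [ofPS_coeff_nat, show ((p : ℤ) * (n : ℤ)) = ((p * n : ℕ) : ℤ) by push_cast; ring,
      ofPS_coeff_nat, coeff_Up]


theorem prod_single_const {ι : Type*} (s : Finset ι) (a : ℤ) (u : ι → K) :
    ∏ b ∈ s, (single a (u b) : LaurentSeries K) = single ((s.card : ℤ) * a) (∏ b ∈ s, u b) := by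
  classical
  induction s using Finset.induction_on with
  | empty => simp
  | insert i t hi IH =>
    rw [Finset.prod_insert hi, Finset.prod_insert hi, IH, single_mul_single,
      Finset.card_insert_of_notMem hi]
    congr 1
    push_cast
    ring_nf

/-- the algebra behind the `q`-expansion of `∏_j f((τ+j)/p)` for `f` with a pole at `∞`. -/
theorem shift_series_eq (p : ℕ) [NeZero p] (ζ : ℂˣ) (M : ℕ) (Q₀ : PowerSeries ℂ)
    (L : LaurentSeries ℂ) (hM : ofPowerSeries ℤ ℂ Q₀ = single (M : ℤ) 1 * L) :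
    single (-(M : ℤ)) 1 * ofPowerSeries ℤ ℂ
        (PowerSeries.C ((((∏ b ∈ Finset.range p, ζ ^ b : ℂˣ) : ℂ)) ^ M)⁻¹ *
          Up p (twProd p (ζ : ℂ) Q₀)) = uOp p (twP p ζ L) := by
  set ε : ℂˣ := ∏ b ∈ Finset.range p, ζ ^ b with hε
  have h1 : twP p ζ (single (M : ℤ) (1 : ℂ)) = single ((p : ℤ) * M) ((ε : ℂ) ^ M) := by
    unfold twP
    simp only [tw_single, mul_one]
    rw [prod_single_const, Finset.card_range]
    congr 1
    rw [hε, Units.coe_prod, ← Finset.prod_pow]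
    refine Finset.prod_congr rfl fun b _ => ?_
    rw [zpow_natCast, Units.val_pow_eq_pow_val]
  have h2 : ofPowerSeries ℤ ℂ (twProd p (ζ : ℂ) Q₀) =
      single ((p : ℤ) * M) ((ε : ℂ) ^ M) * twP p ζ L := by
    rw [ofPS_twProd_complex, hM, twP_mul, h1]
  have h3 : uOp p (single ((p : ℤ) * M) ((ε : ℂ) ^ M) * twP p ζ L) =
      single (M : ℤ) ((ε : ℂ) ^ M) * uOp p (twP p ζ L) := by
    ext n
    rw [uOp_coeff]
    have e1 : (p : ℤ) * n = (p : ℤ) * (n - M) + (p : ℤ) * M := by ring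
    have e2 : n = (n - M) + M := by ring
    rw [e1, coeff_single_mul_add]
    conv_rhs => rw [e2, coeff_single_mul_add, uOp_coeff]
  have hεne : ((ε : ℂ) ^ M) ≠ 0 := pow_ne_zero _ ε.ne_zero
  rw [map_mul, ofPowerSeries_C, ofPS_Up, h2, h3, HahnSeries.C_apply, ← mul_assoc, ← mul_assoc,
    single_mul_single, single_mul_single]
  have e3 : (-(M : ℤ) + 0 + (M : ℤ)) = 0 := by ring
  have e4 : (1 : ℂ) * ((ε : ℂ) ^ M)⁻¹ * (ε : ℂ) ^ M = 1 := by
    rw [one_mul, inv_mul_cancel₀ hεne]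
  rw [e3, e4, single_zero_one, one_mul]

end OfPS

/-! ## The analytic bridge in the `HasQ` dictionary -/

section Bridge

open HahnSeries

theorem hasQPS_of_isNice {F : ℍ → ℂ} (hF : IsNice 1 F) : HasQPS F (qExpansion 1 F) := fun τ => by
  simpa using UpperHalfPlane.hasSum_qExpansion one_pos hF.per hF.hol hF.bdd τ

theorem hasQ_of_hasQPS {f : ℍ → ℂ} (hol : MDiff f) {M : ℕ} {P : PowerSeries ℂ}
    (h : HasQPS (fun τ => qf 1 τ ^ M * f τ) P) :
    HasQ 1 f (single (-(M : ℤ)) 1 * ofPowerSeries ℤ ℂ P) := by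
  have h1 := hasQ_of_hasSum one_pos hol (M := M) (c := fun n => P.coeff n) (d := 1) one_pos
    (fun τ => by simpa [qf] using h τ)
  have e : (PowerSeries.mk fun m => if 1 ∣ m then (fun n => P.coeff n) (m / 1) else 0) = P := by
    ext m
    simp
  rwa [e] at h1

/-- `g ↦ g(pτ)` corresponds to `q ↦ q^p`. -/
theorem hasQ_comp_heckeDiag {g : ℍ → ℂ} {L' : LaurentSeries ℂ} (hg : HasQ 1 g L') (p : ℕ)
    [NeZero p] : HasQ 1 (fun z => g (heckeDiagMatrix p • z)) (qExpand ℂ p L') := by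
  have hp : p ≠ 0 := NeZero.ne p
  have hgol := hg.mdiff one_pos
  obtain ⟨M, hnice, hM⟩ := hg
  have h2 := (hasQPS_of_isNice hnice).comp_diag hp
  have h3 : HasQPS (fun τ => qf 1 τ ^ (p * M) * g (heckeDiagMatrix p • τ))
      (PowerSeries.expand p hp (qExpansion 1 (qf 1 ^ M * g))) := by
    refine h2.congr fun τ => ?_
    simp only [Pi.mul_apply, Pi.pow_apply, qf_apply]
    rw [qParam_heckeDiag hp, ← pow_mul]
  have hol : MDiff (fun z => g (heckeDiagMatrix p • z)) :=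
    hgol.comp (mdifferentiable_smul (det_heckeDiagMatrix_pos p))
  have h4 := hasQ_of_hasQPS hol h3
  rw [ofPS_expand hp, hM, map_mul, qExpand_single, ← mul_assoc, single_mul_single] at h4
  have e3 : (-((p * M : ℕ) : ℤ) + (p : ℤ) * (M : ℤ)) = 0 := by push_cast; ring
  rw [e3, one_mul, single_zero_one, one_mul] at h4
  exact h4


theorem prod_qParam_heckeMatrix (p : ℕ) [Fact p.Prime] (τ : ℍ) :
    ∏ j : ZMod p, Function.Periodic.qParam 1 ((heckeMatrix p j.val • τ : ℍ) : ℂ) =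
      (∏ b ∈ Finset.range p, Complex.exp (2 * Real.pi * Complex.I / p) ^ b) *
        Function.Periodic.qParam 1 (τ : ℂ) := by
  have hp : p ≠ 0 := (Fact.out : p.Prime).ne_zero
  simp_rw [qParam_heckeMatrix hp]
  rw [Finset.prod_mul_distrib, Finset.prod_const, Finset.card_univ, ZMod.card, qParam_p_pow hp,
    prod_zmod_val p (fun b => Complex.exp (2 * Real.pi * Complex.I / p) ^ b)]

/-- `f ↦ ∏_{j mod p} f((τ + j)/p)` corresponds to `L ↦ U_p (∏_{b<p} L(ζ^b q))`. -/
theorem hasQ_comp_heckeShift {f : ℍ → ℂ} {L : LaurentSeries ℂ} (hf : HasQ 1 f L) (p : ℕ)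
    [Fact p.Prime] {ζ : ℂˣ} (hζ : IsPrimitiveRoot (ζ : ℂ) p) :
    HasQ 1 (fun z => ∏ j : ZMod p, f (heckeMatrix p j.val • z)) (uOp p (twP p ζ L)) := by
  have hp : p ≠ 0 := (Fact.out : p.Prime).ne_zero
  have hfol := hf.mdiff one_pos
  obtain ⟨M, hnice, hM⟩ := hf
  have hζ₀ : IsPrimitiveRoot (Complex.exp (2 * Real.pi * Complex.I / p)) p :=
    Complex.isPrimitiveRoot_exp p hp
  set ζ₀ : ℂˣ := Units.mk0 (Complex.exp (2 * Real.pi * Complex.I / p)) (Complex.exp_ne_zero _)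
    with hζ₀def
  have hζ₀val : (ζ₀ : ℂ) = Complex.exp (2 * Real.pi * Complex.I / p) := rfl
  set ε : ℂˣ := ∏ b ∈ Finset.range p, ζ₀ ^ b with hε
  have hεval : (ε : ℂ) = ∏ b ∈ Finset.range p, Complex.exp (2 * Real.pi * Complex.I / p) ^ b := by
    rw [hε, Units.coe_prod]
    refine Finset.prod_congr rfl fun b _ => ?_
    rw [Units.val_pow_eq_pow_val, hζ₀val]
  have h2 := (hasQPS_of_isNice hnice).comp_shift p
  have h3 : HasQPS (fun τ => qf 1 τ ^ M * ∏ j : ZMod p, f (heckeMatrix p j.val • τ))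
      (PowerSeries.C (((ε : ℂ)) ^ M)⁻¹ * Up p (twProd p (ζ₀ : ℂ) (qExpansion 1 (qf 1 ^ M * f)))) := by
    refine (h2.const_mul (((ε : ℂ)) ^ M)⁻¹).congr fun τ => ?_
    simp only [Pi.mul_apply, Pi.pow_apply, qf_apply]
    rw [Finset.prod_mul_distrib, Finset.prod_pow, prod_qParam_heckeMatrix, ← hεval, mul_pow,
      ← mul_assoc, ← mul_assoc, inv_mul_cancel₀ (pow_ne_zero _ ε.ne_zero), one_mul]
  have hol : MDiff (fun z => ∏ j : ZMod p, f (heckeMatrix p j.val • z)) := by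
    have e : (fun z => ∏ j : ZMod p, f (heckeMatrix p j.val • z)) =
        ∏ j : ZMod p, (fun z => f (heckeMatrix p j.val • z)) := by
      ext z
      rw [Finset.prod_apply]
    rw [e]
    exact MDifferentiable.prod fun j _ =>
      hfol.comp (mdifferentiable_smul (det_heckeMatrix_pos p j.val))
  have h4 := hasQ_of_hasQPS hol h3
  rw [hε, shift_series_eq p ζ₀ M _ L hM, twP_eq_of_primitive (ζ := ζ₀) (ζ' := ζ) hζ₀ hζ] at h4
  exact h4

/-- **The coset product in the Laurent dictionary**: if `f` has expansion `L` and `g` has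
expansion `L'` then `τ ↦ g(pτ) * ∏_{j mod p} f((τ+j)/p)` has expansion `heckeMulD p ζ L L'`. -/
theorem hasQ_heckeMulD {f g : ℍ → ℂ} {L L' : LaurentSeries ℂ} (hf : HasQ 1 f L) (hg : HasQ 1 g L')
    (p : ℕ) [Fact p.Prime] {ζ : ℂˣ} (hζ : IsPrimitiveRoot (ζ : ℂ) p) :
    HasQ 1 (fun z => g (heckeDiagMatrix p • z) * ∏ j : ZMod p, f (heckeMatrix p j.val • z))
      (heckeMulD p ζ L L') :=
  HasQ.mul one_pos (hasQ_comp_heckeDiag hg p) (hasQ_comp_heckeShift hf p hζ)


/-- **The ev-bridge (cross-multiplied form)**: if `u = a/b`, `u' = a'/b'` (`u' = ⟨p⟩u`) and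
`T = c/d` on the level of Laurent expansions, with `T = heckeMulD p ζ u u'`, then pointwise
`c * (coset product of b) = d * (coset product of a)`. -/
theorem cross_of_hasQ {a b c d a' b' : ℍ → ℂ} {A B C D A' B' U U' : LaurentSeries ℂ}
    (ha : HasQ 1 a A) (hb : HasQ 1 b B) (hc : HasQ 1 c C) (hd : HasQ 1 d D)
    (ha' : HasQ 1 a' A') (hb' : HasQ 1 b' B') (hU : U * B = A) (hU' : U' * B' = A')
    (p : ℕ) [Fact p.Prime] {ζ : ℂˣ} (hζ : IsPrimitiveRoot (ζ : ℂ) p)
    (hT : heckeMulD p ζ U U' * D = C) (z : ℍ) :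
    c z * (b' (heckeDiagMatrix p • z) * ∏ j : ZMod p, b (heckeMatrix p j.val • z)) =
      d z * (a' (heckeDiagMatrix p • z) * ∏ j : ZMod p, a (heckeMatrix p j.val • z)) := by
  have h1 := HasQ.mul one_pos hc (hasQ_heckeMulD hb hb' p hζ)
  have h2 := HasQ.mul one_pos hd (hasQ_heckeMulD ha ha' p hζ)
  have e : D * heckeMulD p ζ A A' = C * heckeMulD p ζ B B' := by
    rw [← hU, ← hU', heckeMulD_mul p hζ, ← hT]
    ring
  rw [e] at h2
  exact congrFun (HasQ.eq_of_eq one_pos h1 h2) z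

end Bridge

/-! ## (N3) The norm form in the Laurent dictionary -/

section Forms

open HahnSeries

variable {M : ℕ} [NeZero M] {k : ℤ} {p : ℕ} [Fact p.Prime]

theorem hasQ_modularForm (G : ModularForm (Gamma1 M) k) :
    HasQ 1 G (ofPowerSeries ℤ ℂ (qExpansion 1 G)) := by
  have h : HasQPS (fun τ => qf 1 τ ^ 0 * G τ) (qExpansion 1 G) :=
    (hasQPS_modularForm G).congr fun τ => by rw [pow_zero, one_mul]
  have h1 := hasQ_of_hasQPS (ModularFormClass.holo G) h
  simpa using h1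

/-- **(N3)** the `q`-expansion of the norm form is the formal Hecke operator with diamond, for
every primitive `p`-th root of unity `ζ`. -/
theorem ofPS_qExpansion_normForm (hpM : ¬ p ∣ M) (γp : SL(2, ℤ)) (hγp : γp ∈ Gamma0 M)
    (hd : dM M γp = (p : ZMod M)) (G : ModularForm (Gamma1 M) k) {ζ : ℂˣ}
    (hζ : IsPrimitiveRoot (ζ : ℂ) p) :
    ofPowerSeries ℤ ℂ (qExpansion 1 (normForm hpM γp hγp hd G)) =
      HahnSeries.C ((p : ℂ) ^ (k - 1) * ((p : ℂ)⁻¹) ^ p) *
        heckeMulD p ζ (ofPowerSeries ℤ ℂ (qExpansion 1 G))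
          (ofPowerSeries ℤ ℂ (qExpansion 1 (diamondForm G γp hγp))) := by
  have hp : p ≠ 0 := (Fact.out : p.Prime).ne_zero
  have hζ₀ : IsPrimitiveRoot (Complex.exp (2 * Real.pi * Complex.I / p)) p :=
    Complex.isPrimitiveRoot_exp p hp
  set ζ₀ : ℂˣ := Units.mk0 (Complex.exp (2 * Real.pi * Complex.I / p)) (Complex.exp_ne_zero _)
    with hζ₀def
  have hζ₀val : Complex.exp (2 * Real.pi * Complex.I / p) = (ζ₀ : ℂ) := rfl
  rw [qExpansion_normForm, map_mul (ofPowerSeries ℤ ℂ), ofPowerSeries_C,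
    map_mul (ofPowerSeries ℤ ℂ), ofPS_expand hp, ofPS_Up, hζ₀val,
    ofPS_twProd_complex, heckeMulD_eq_of_primitive p hζ (ζ' := ζ₀) (by rw [← hζ₀val]; exact hζ₀)]
  rfl

/-- **(N3), ratio form**: the formal Hecke operator with diamond maps ratios of `Γ₁(M)`-forms to
ratios of `Γ₁(M)`-forms (numerator and denominator = the norm forms). -/
theorem heckeMulD_ratio (hpM : ¬ p ∣ M) (γp : SL(2, ℤ)) (hγp : γp ∈ Gamma0 M)
    (hd : dM M γp = (p : ZMod M)) (G H : ModularForm (Gamma1 M) k) {x x' : LaurentSeries ℂ}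
    (hx : x * ofPowerSeries ℤ ℂ (qExpansion 1 H) = ofPowerSeries ℤ ℂ (qExpansion 1 G))
    (hx' : x' * ofPowerSeries ℤ ℂ (qExpansion 1 (diamondForm H γp hγp)) =
      ofPowerSeries ℤ ℂ (qExpansion 1 (diamondForm G γp hγp)))
    {ζ : ℂˣ} (hζ : IsPrimitiveRoot (ζ : ℂ) p) :
    heckeMulD p ζ x x' * ofPowerSeries ℤ ℂ (qExpansion 1 (normForm hpM γp hγp hd H)) =
      ofPowerSeries ℤ ℂ (qExpansion 1 (normForm hpM γp hγp hd G)) := by
  rw [ofPS_qExpansion_normForm hpM γp hγp hd H hζ, ofPS_qExpansion_normForm hpM γp hγp hd G hζ,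
    ← hx, ← hx', heckeMulD_mul p hζ]
  ring

end Forms

end

end Fermat.Agent.S48.helper4765
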