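import Mathlib
import Fermat.Prelude.Def_ModularCurve_ArithmeticGalois
import Fermat.Prelude.Def_AlgebraicCurve_Correspondence
import Fermat.Prelude.Def_FLTPrelim_Ramification
import Fermat.Prelude.Def_EllipticCurve_FrobeniusTrace
import Fermat.Agent.S29.helper8217_KummerClass
import Fermat.Agent.S29.helper7964_FormalES

/-!
# S48, machine half (M2): the Kummer module of a function field with diamond Hecke operators

Architect's Spec (helper6431).  Everything is GENERIC in a subfield
`E : IntermediateField ℚ̄ (LaurentSeries ℚ̄)` carrying a coefficientwise Galois action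
`G : CoeffGal E`; the Jacobian is `Pic0 ℚ̄ E`.  Nothing here names `Γ₁(M)`: the concrete
instance is the `Γ₁(M)` field of A2 with its coefficientwise action.

Contents.

* `CoeffGal E`: a coefficientwise action of `Gal(ℚ̄/ℚ)` on `E` (`CoeffGal.ofRat` for a `ℚ`-form).
* `HeckeDiamond E G p`: THE CONTRACT between (M2) [relation] and (M3) [occurrence]: a diamond
  `D : E ≃ₐ[ℚ̄] E` commuting with Galois, a function-level operator `T` with the `q`-expansion
  `T u = (D u)(q ^ p) * U_p (∏_{b < p} u(ζ ^ b q))`, and a class-level operator `Tcl` with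
  `kummerClass (T u) = Tcl (kummerClass u)`.  Exports for (M3): `HeckeDiamond.T_kummer`,
  `HeckeDiamond.D_kummer` (the two `ClassOp` facts).
* `StmtU`, `StmtES`: (U) and (ES) on `n`-torsion classes, in the shapes produced by the
  field-generic port of `S29/helper405_UnrES` (M2-UES); `stmtES_of_kummer` (element form).
* `galJ`, `TFam`, `DFam` and the theorems `openStab_galJ`, `commT_Fam`, `commD_Fam`, `unr_Fam`,
  `es_Fam`: the five fields of the (UES) interface of the machine, field by field.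
-/

set_option autoImplicit false
set_option linter.style.haveILetI false
set_option linter.unusedSectionVars false

noncomputable section

namespace Fermat.Agent.S48.helper6431

open ModularCurve AlgebraicCurve HahnSeries
open Fermat.Agent.S29.helper7964 (tw uOp tw_coeff uOp_coeff)
open Fermat.Agent.S29.helper8217

local notation "Qb" => AlgebraicClosure ℚ

/-- The absolute Galois group of `ℚ`. -/
abbrev GQ : Type := AlgebraicClosure ℚ ≃ₐ[ℚ] AlgebraicClosure ℚ

/-! ### Formal lemmas on coefficient maps -/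

section Formal

variable {R S : Type*} [CommRing R] [CommRing S]

theorem coeffMap_tw' (f : R →+* S) (c : Rˣ) (u : LaurentSeries R) :
    coeffMap f (tw c u) = tw (Units.map (f : R →* S) c) (coeffMap f u) := by
  ext n
  rw [coeffMap_coeff, tw_coeff, tw_coeff, coeffMap_coeff, map_mul, ← map_zpow, Units.coe_map]
  rfl

theorem coeffMap_uOp' (f : R →+* S) (ℓ : ℕ) [NeZero ℓ] (u : LaurentSeries R) :
    coeffMap f (uOp ℓ u) = uOp ℓ (coeffMap f u) := by
  ext n
  rw [coeffMap_coeff, uOp_coeff, uOp_coeff, coeffMap_coeff]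

theorem coeffMap_qExpand' (f : R →+* S) (n : ℕ) [NeZero n] (x : LaurentSeries R) :
    coeffMap f (qExpand R n x) = qExpand S n (coeffMap f x) := by
  ext k
  by_cases hk : (n : ℤ) ∣ k
  · obtain ⟨m, rfl⟩ := hk
    rw [coeffMap_coeff, qExpand_coeff_mul, qExpand_coeff_mul, coeffMap_coeff]
  · rw [coeffMap_coeff, qExpand_coeff_of_not_dvd n _ hk, qExpand_coeff_of_not_dvd n _ hk,
      map_zero]

end Formal

/-! ### Coefficientwise Galois actions -/

/-- A coefficientwise action of `Gal(ℚ̄/ℚ)` on the subfield `E ⊆ ℚ̄((q))`: a homomorphism to the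
semilinear automorphisms of `E` acting on `q`-expansions coefficient by coefficient.
(It is unique if it exists, and exists iff `E` is stable under the coefficientwise action.) -/
structure CoeffGal (E : IntermediateField Qb (LaurentSeries Qb)) where
  /-- the action -/
  gal : GQ →* SemilinearAut Qb E
  /-- it is coefficientwise -/
  coe_smul : ∀ (σ : GQ) (x : E),
    ((gal σ • x : E) : LaurentSeries Qb) = coeffMap (σ : Qb →+* Qb) (x : LaurentSeries Qb)

/-- The Prelude action on the base change of a `ℚ`-form. -/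
def CoeffGal.ofRat (F₁ : IntermediateField ℚ (LaurentSeries ℚ)) :
    CoeffGal (laurentBaseChange Qb F₁) where
  gal := arithmeticGalois F₁
  coe_smul _ _ := rfl

/-- `x` has coefficients in a finite extension of `ℚ`, as seen by the Galois action. -/
def FiniteLevel (x : LaurentSeries Qb) : Prop :=
  ∃ L : IntermediateField ℚ Qb, FiniteDimensional ℚ L ∧
    ∀ σ : GQ, (∀ z ∈ L, σ z = z) → coeffMap (σ : Qb →+* Qb) x = x

theorem finiteLevel_algebraMap (a : Qb) : FiniteLevel (algebraMap Qb (LaurentSeries Qb) a) := by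
  have ha : IsIntegral ℚ a := ((AlgebraicClosure.isAlgebraic ℚ).isAlgebraic a).isIntegral
  refine ⟨IntermediateField.adjoin ℚ {a}, IntermediateField.adjoin.finiteDimensional ha,
    fun σ hσ => ?_⟩
  rw [coeffMap_algebraMap]
  exact congrArg _ (hσ a (IntermediateField.mem_adjoin_simple_self ℚ a))

theorem FiniteLevel.add {x y : LaurentSeries Qb} (hx : FiniteLevel x) (hy : FiniteLevel y) :
    FiniteLevel (x + y) := by
  obtain ⟨L₁, hL₁, h₁⟩ := hx
  obtain ⟨L₂, hL₂, h₂⟩ := hy
  refine ⟨L₁ ⊔ L₂, IntermediateField.finiteDimensional_sup L₁ L₂, fun σ hσ => ?_⟩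
  rw [map_add, h₁ σ fun z hz => hσ z ((le_sup_left : L₁ ≤ L₁ ⊔ L₂) hz),
    h₂ σ fun z hz => hσ z ((le_sup_right : L₂ ≤ L₁ ⊔ L₂) hz)]

theorem FiniteLevel.mul {x y : LaurentSeries Qb} (hx : FiniteLevel x) (hy : FiniteLevel y) :
    FiniteLevel (x * y) := by
  obtain ⟨L₁, hL₁, h₁⟩ := hx
  obtain ⟨L₂, hL₂, h₂⟩ := hy
  refine ⟨L₁ ⊔ L₂, IntermediateField.finiteDimensional_sup L₁ L₂, fun σ hσ => ?_⟩
  rw [map_mul, h₁ σ fun z hz => hσ z ((le_sup_left : L₁ ≤ L₁ ⊔ L₂) hz),
    h₂ σ fun z hz => hσ z ((le_sup_right : L₂ ≤ L₁ ⊔ L₂) hz)]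

theorem FiniteLevel.neg {x : LaurentSeries Qb} (hx : FiniteLevel x) : FiniteLevel (-x) := by
  obtain ⟨L, hL, h⟩ := hx
  exact ⟨L, hL, fun σ hσ => by rw [map_neg, h σ hσ]⟩

theorem FiniteLevel.inv {x : LaurentSeries Qb} (hx : FiniteLevel x) : FiniteLevel x⁻¹ := by
  obtain ⟨L, hL, h⟩ := hx
  exact ⟨L, hL, fun σ hσ => by rw [map_inv₀, h σ hσ]⟩

/-- Every element of a field generated over `ℚ̄` by series of finite level has finite level. -/
theorem finiteLevel_of_mem_adjoin {S : Set (LaurentSeries Qb)} (hS : ∀ s ∈ S, FiniteLevel s)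
    {x : LaurentSeries Qb} (hx : x ∈ IntermediateField.adjoin Qb S) : FiniteLevel x := by
  induction hx using IntermediateField.adjoin_induction with
  | mem y hy => exact hS y hy
  | algebraMap a => exact finiteLevel_algebraMap a
  | add x y _ _ hx hy => exact hx.add hy
  | inv x _ hx => exact hx.inv
  | mul x y _ _ hx hy => exact hx.mul hy

/-- Every element of the base change of a `ℚ`-form has finite level. -/
theorem finiteLevel_of_mem_laurentBaseChange (F₁ : IntermediateField ℚ (LaurentSeries ℚ))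
    {x : LaurentSeries Qb} (hx : x ∈ laurentBaseChange Qb F₁) : FiniteLevel x := by
  rw [mem_laurentBaseChange_iff] at hx
  induction hx using Subfield.closure_induction with
  | mem y hy =>
      rcases hy with ⟨a, rfl⟩ | ⟨z, _, rfl⟩
      · exact finiteLevel_algebraMap a
      · exact ⟨⊥, inferInstance, fun σ _ => coeffMap_coeffEmb σ z⟩
  | one => exact ⟨⊥, inferInstance, fun σ _ => map_one _⟩
  | add x y _ _ hx hy => exact hx.add hy
  | neg x _ hx => exact hx.neg
  | inv x _ hx => exact hx.inv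
  | mul x y _ _ hx hy => exact hx.mul hy

/-! ### The contract `HeckeDiamond` between (M2) and (M3) -/

section Contract

variable (E : IntermediateField Qb (LaurentSeries Qb)) [HasPrincipalDivisors Qb E]
  (G : CoeffGal E)

/-- **The Hecke–diamond layer at `p`** of the function field `E`:

* `D` : the diamond `⟨p⟩` as a `ℚ̄`-automorphism of `E`, commuting with the coefficientwise Galois
  action (`D_gal`);
* `T` : the multiplicative Hecke operator on functions, with `q`-expansion
  `T u = (D u)(q ^ p) * U_p (∏_{b < p} u(ζ ^ b q))` (`T_q`);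
* `Tcl` : the Hecke operator on divisor classes, compatible with `T` on Kummer functions
  (`T_kummer`).

This is the only interface between the relation side (M2: (U), (ES)) and the occurrence side
(M3): both are stated for these operators. -/
structure HeckeDiamond (p : ℕ) [NeZero p] where
  /-- the diamond `⟨p⟩` on functions -/
  D : E ≃ₐ[Qb] E
  /-- the multiplicative Hecke operator on functions -/
  T : E → E
  /-- the Hecke operator on divisor classes -/
  Tcl : Pic0 Qb E →+ Pic0 Qb E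
  D_gal : ∀ (σ : GQ) (x : E), D (G.gal σ • x) = G.gal σ • D x
  T_q : ∀ ζ : Qbˣ, IsPrimitiveRoot (ζ : Qb) p → ∀ u : E,
    ((T u : E) : LaurentSeries Qb) =
      qExpand Qb p ((D u : E) : LaurentSeries Qb) *
        uOp p (∏ b ∈ Finset.range p, tw (ζ ^ b) (u : LaurentSeries Qb))
  T_kummer : ∀ n : ℕ, n ≠ 0 → ∀ u : E, IsKummer Qb n u →
    IsKummer Qb n (T u) ∧ kummerClass Qb n (T u) = Tcl (kummerClass Qb n u)

namespace HeckeDiamond

variable {E G} {p : ℕ} [NeZero p] (H : HeckeDiamond E G p)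

/-- The diamond on divisor classes. -/
def Dcl : Pic0 Qb E →+ Pic0 Qb E :=
  DistribSMul.toAddMonoidHom (Pic0 Qb E) (SemilinearAut.ofAlgAut H.D)

theorem Dcl_apply (x : Pic0 Qb E) : H.Dcl x = SemilinearAut.ofAlgAut H.D • x := rfl

/-- The diamond on classes is induced by the diamond on functions. -/
theorem Dcl_kummerClass (n : ℕ) (u : E) :
    H.Dcl (kummerClass Qb n u) = kummerClass Qb n (H.D u) := by
  rw [Dcl_apply, smul_kummerClass]
  rfl

/-- The diamond preserves Kummer functions and induces `Dcl` on Kummer classes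
(the `ClassOp` fact of (M3) for the diamond). -/
theorem D_kummer (n : ℕ) (u : E) (hu : IsKummer Qb n u) :
    IsKummer Qb n (H.D u) ∧ kummerClass Qb n (H.D u) = H.Dcl (kummerClass Qb n u) :=
  ⟨(isKummer_smul_iff (SemilinearAut.ofAlgAut H.D)).mpr hu, (H.Dcl_kummerClass n u).symm⟩

/-- On torsion classes, `Dcl` is the Prelude action of the algebra automorphism `D`. -/
theorem Dcl_eq_smul {n : ℕ} (hn : n ≠ 0) (x : Pic0 Qb E) (hx : n • x = 0) :
    H.Dcl x = H.D • x := by
  have hxt : x ∈ Pic0.torsion Qb E n :=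
    Pic0.mem_torsion.mpr (by rw [natCast_zsmul]; exact hx)
  obtain ⟨u, -, rfl⟩ := exists_kummerClass_eq hn hxt
  rw [Dcl_kummerClass, algEquiv_smul_kummerClass]

/-- The diamond commutes with the Galois action, in the group of semilinear automorphisms. -/
theorem ofAlgAut_mul_gal (σ : GQ) :
    SemilinearAut.ofAlgAut H.D * G.gal σ = G.gal σ * SemilinearAut.ofAlgAut H.D := by
  apply Subtype.ext
  apply Prod.ext
  · apply RingEquiv.ext
    intro x
    exact H.D_gal σ x
  · show (1 : RingAut Qb) * (G.gal σ).val.2 = (G.gal σ).val.2 * 1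
    rw [one_mul, mul_one]

/-- The diamond on classes commutes with the Galois action. -/
theorem gal_Dcl (σ : GQ) (x : Pic0 Qb E) : G.gal σ • H.Dcl x = H.Dcl (G.gal σ • x) := by
  rw [Dcl_apply, Dcl_apply, ← mul_smul, ← mul_smul, H.ofAlgAut_mul_gal σ]

/-- `ℚ̄` contains a primitive `p`-th root of unity, as a unit. -/
theorem exists_primitiveRoot_unit (p : ℕ) [NeZero p] :
    ∃ ζ : Qbˣ, IsPrimitiveRoot (ζ : Qb) p := by
  obtain ⟨z, hz⟩ := HasEnoughRootsOfUnity.exists_primitiveRoot Qb p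
  exact ⟨(hz.isUnit (NeZero.ne p)).unit, hz⟩

/-- The function-level Hecke operator commutes with the coefficientwise Galois action. -/
theorem gal_T (σ : GQ) (u : E) : H.T (G.gal σ • u) = G.gal σ • H.T u := by
  obtain ⟨ζ, hζ⟩ := exists_primitiveRoot_unit p
  have hζ' : IsPrimitiveRoot ((Units.map ((σ : Qb →+* Qb) : Qb →* Qb) ζ : Qbˣ) : Qb) p := by
    rw [Units.coe_map]
    exact hζ.map_of_injective (f := (σ : Qb →+* Qb)) σ.injective
  apply Subtype.ext
  have h1 := H.T_q _ hζ' (G.gal σ • u)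
  have h2 := G.coe_smul σ (H.T u)
  have h3 : ((H.D (G.gal σ • u) : E) : LaurentSeries Qb)
      = coeffMap (σ : Qb →+* Qb) ((H.D u : E) : LaurentSeries Qb) := by
    rw [H.D_gal σ u]
    exact G.coe_smul σ (H.D u)
  have h4 := G.coe_smul σ u
  rw [h1, h2, h3, h4, H.T_q ζ hζ u, map_mul, coeffMap_qExpand', coeffMap_uOp', map_prod]
  congr 2
  refine Finset.prod_congr rfl fun b _ => ?_
  rw [coeffMap_tw', map_pow]

/-- The class-level Hecke operator commutes with the Galois action on torsion classes. -/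
theorem gal_Tcl {n : ℕ} (hn : n ≠ 0) (σ : GQ) (x : Pic0 Qb E) (hx : n • x = 0) :
    G.gal σ • H.Tcl x = H.Tcl (G.gal σ • x) := by
  have hxt : x ∈ Pic0.torsion Qb E n :=
    Pic0.mem_torsion.mpr (by rw [natCast_zsmul]; exact hx)
  obtain ⟨u, hu, rfl⟩ := exists_kummerClass_eq hn hxt
  have hgu : IsKummer Qb n (G.gal σ • u) := (isKummer_smul_iff (G.gal σ)).mpr hu
  rw [← (H.T_kummer n hn u hu).2, smul_kummerClass, smul_kummerClass, ← H.gal_T σ u,
    (H.T_kummer n hn _ hgu).2]

end HeckeDiamond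

end Contract

/-! ### (U) and (ES) on torsion classes -/

section Relation

variable {E : IntermediateField Qb (LaurentSeries Qb)} [HasPrincipalDivisors Qb E]
  (G : CoeffGal E)

/-- **(U)** at the prime `p`, on `n`-torsion classes: inertia at every place over `p` acts
trivially. -/
def StmtU (n p : ℕ) : Prop :=
  ∀ A : ValuationSubring Qb, A.LiesOverPrime p → ∀ τ ∈ A.inertiaSubgroupIn ℚ,
    ∀ x : Pic0 Qb E, n • x = 0 → G.gal τ • x = x

variable {G}

/-- **(ES)** at the prime `p`, on `n`-torsion classes: every Frobenius `σ` at every place over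
`p` satisfies `σ² - σ T_p + p ⟨p⟩ = 0` (`T_p` applied BEFORE `σ`). -/
def StmtES (n : ℕ) {p : ℕ} [NeZero p] (H : HeckeDiamond E G p) : Prop :=
  ∀ A : ValuationSubring Qb, A.LiesOverPrime p → ∀ σ : GQ, A.IsFrobeniusAt σ p →
    ∀ x : Pic0 Qb E, n • x = 0 →
      G.gal σ • G.gal σ • x - G.gal σ • H.Tcl x + p • H.Dcl x = 0

/-- (ES) from its form on Kummer functions (the output shape of M2-UES):
`σσ[u] - σ[T u] + p [D u] = 0` for every `n`-Kummer function `u`. -/
theorem stmtES_of_kummer {n : ℕ} (hn : n ≠ 0) {p : ℕ} [NeZero p] (H : HeckeDiamond E G p)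
    (h : ∀ A : ValuationSubring Qb, A.LiesOverPrime p → ∀ σ : GQ, A.IsFrobeniusAt σ p →
      ∀ u : E, IsKummer Qb n u →
        G.gal σ • G.gal σ • kummerClass Qb n u - G.gal σ • kummerClass Qb n (H.T u)
          + p • kummerClass Qb n (H.D u) = 0) :
    StmtES n H := by
  intro A hA σ hσ x hx
  have hxt : x ∈ Pic0.torsion Qb E n :=
    Pic0.mem_torsion.mpr (by rw [natCast_zsmul]; exact hx)
  obtain ⟨u, hu, rfl⟩ := exists_kummerClass_eq hn hxt
  rw [← (H.T_kummer n hn u hu).2, H.Dcl_kummerClass]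
  exact h A hA σ hσ u hu

/-- (ES) from its operator form with the Prelude action of `D` on classes (the second output
shape of M2-UES). -/
theorem stmtES_of_smul {n : ℕ} (hn : n ≠ 0) {p : ℕ} [NeZero p] (H : HeckeDiamond E G p)
    (h : ∀ A : ValuationSubring Qb, A.LiesOverPrime p → ∀ σ : GQ, A.IsFrobeniusAt σ p →
      ∀ x : Pic0 Qb E, n • x = 0 →
        G.gal σ • G.gal σ • x - G.gal σ • H.Tcl x + p • (H.D • x) = 0) :
    StmtES n H := by
  intro A hA σ hσ x hx
  rw [H.Dcl_eq_smul hn x hx]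
  exact h A hA σ hσ x hx

end Relation

/-! ### The Galois–Hecke module: the five (UES) facts -/

section Module

variable {E : IntermediateField Qb (LaurentSeries Qb)} [HasPrincipalDivisors Qb E]
  (G : CoeffGal E)

/-- The Galois action on the Jacobian, as `ℤ`-linear maps. -/
def galJ : GQ →* Module.End ℤ (Pic0 Qb E) where
  toFun σ := (DistribSMul.toAddMonoidHom (Pic0 Qb E) (G.gal σ)).toIntLinearMap
  map_one' := by
    ext x
    show G.gal 1 • x = x
    rw [map_one, one_smul]
  map_mul' σ τ := by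
    ext x
    show G.gal (σ * τ) • x = G.gal σ • G.gal τ • x
    rw [map_mul, mul_smul]

theorem galJ_apply (σ : GQ) (x : Pic0 Qb E) : galJ G σ x = G.gal σ • x := rfl

/-- **Open stabilisers** on `l`-torsion classes (`l ≠ 0`), for a field all of whose elements have
finite level.  Only Kummer functions are used (no place-by-place argument). -/
theorem openStab_galJ (hlev : ∀ x : E, FiniteLevel (x : LaurentSeries Qb)) {l : ℕ} (hl : l ≠ 0)
    (y : Pic0 Qb E) (hy : l • y = 0) :
    ∃ L : IntermediateField ℚ Qb, FiniteDimensional ℚ L ∧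
      ∀ σ : GQ, (∀ z ∈ L, σ z = z) → galJ G σ y = y := by
  have hyt : y ∈ Pic0.torsion Qb E l :=
    Pic0.mem_torsion.mpr (by rw [natCast_zsmul]; exact hy)
  obtain ⟨u, hu, rfl⟩ := exists_kummerClass_eq hl hyt
  obtain ⟨L, hL, h⟩ := hlev u
  refine ⟨L, hL, fun σ hσ => ?_⟩
  rw [galJ_apply, smul_kummerClass]
  congr 1
  apply Subtype.ext
  rw [G.coe_smul]
  exact h σ hσ

/-- The Hecke–diamond layer at a prime number. -/
abbrev HeckeDiamondAt (q : Nat.Primes) : Type _ :=
  @HeckeDiamond E _ G (q : ℕ) ⟨q.2.ne_zero⟩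

variable {G}

/-- The family `q ↦ T_q` on the Jacobian (`0` at the primes dividing `N`). -/
def TFam (N : ℕ) (H : ∀ q : Nat.Primes, ¬ (q : ℕ) ∣ N → HeckeDiamondAt G q)
    (q : Nat.Primes) : Module.End ℤ (Pic0 Qb E) :=
  haveI : NeZero (q : ℕ) := ⟨q.2.ne_zero⟩
  if hq : ¬ (q : ℕ) ∣ N then (H q hq).Tcl.toIntLinearMap else 0

/-- The family `q ↦ ⟨q⟩` on the Jacobian (`0` at the primes dividing `N`). -/
def DFam (N : ℕ) (H : ∀ q : Nat.Primes, ¬ (q : ℕ) ∣ N → HeckeDiamondAt G q)
    (q : Nat.Primes) : Module.End ℤ (Pic0 Qb E) :=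
  haveI : NeZero (q : ℕ) := ⟨q.2.ne_zero⟩
  if hq : ¬ (q : ℕ) ∣ N then (H q hq).Dcl.toIntLinearMap else 0

variable (N : ℕ) (H : ∀ q : Nat.Primes, ¬ (q : ℕ) ∣ N → HeckeDiamondAt G q)

theorem TFam_apply (q : Nat.Primes) (hq : ¬ (q : ℕ) ∣ N) (x : Pic0 Qb E) :
    TFam N H q x = (haveI : NeZero (q : ℕ) := ⟨q.2.ne_zero⟩; (H q hq).Tcl x) := by
  rw [TFam, dif_pos hq]
  rfl

theorem DFam_apply (q : Nat.Primes) (hq : ¬ (q : ℕ) ∣ N) (x : Pic0 Qb E) :
    DFam N H q x = (haveI : NeZero (q : ℕ) := ⟨q.2.ne_zero⟩; (H q hq).Dcl x) := by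
  rw [DFam, dif_pos hq]
  rfl

/-- The two `ClassOp` facts of (M3) for the families: `T_q`. -/
theorem TFam_kummerClass (q : Nat.Primes) (hq : ¬ (q : ℕ) ∣ N) {n : ℕ} (hn : n ≠ 0) (u : E)
    (hu : IsKummer Qb n u) :
    haveI : NeZero (q : ℕ) := ⟨q.2.ne_zero⟩
    IsKummer Qb n ((H q hq).T u) ∧
      kummerClass Qb n ((H q hq).T u) = TFam N H q (kummerClass Qb n u) := by
  haveI : NeZero (q : ℕ) := ⟨q.2.ne_zero⟩
  rw [TFam_apply N H q hq]
  exact (H q hq).T_kummer n hn u hu

/-- The two `ClassOp` facts of (M3) for the families: `⟨q⟩`. -/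
theorem DFam_kummerClass (q : Nat.Primes) (hq : ¬ (q : ℕ) ∣ N) (n : ℕ) (u : E)
    (hu : IsKummer Qb n u) :
    haveI : NeZero (q : ℕ) := ⟨q.2.ne_zero⟩
    IsKummer Qb n ((H q hq).D u) ∧
      kummerClass Qb n ((H q hq).D u) = DFam N H q (kummerClass Qb n u) := by
  haveI : NeZero (q : ℕ) := ⟨q.2.ne_zero⟩
  rw [DFam_apply N H q hq]
  exact (H q hq).D_kummer n u hu

/-- (commT) The Hecke operators at the good primes commute with Galois on `l`-torsion. -/
theorem commT_Fam {l : ℕ} (hl : l ≠ 0) (q : Nat.Primes) (hq : ¬ (q : ℕ) ∣ N) (σ : GQ)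
    (y : Pic0 Qb E) (hy : l • y = 0) :
    TFam N H q (galJ G σ y) = galJ G σ (TFam N H q y) := by
  haveI : NeZero (q : ℕ) := ⟨q.2.ne_zero⟩
  rw [TFam_apply N H q hq, TFam_apply N H q hq, galJ_apply, galJ_apply]
  exact ((H q hq).gal_Tcl hl σ y hy).symm

/-- (commD) The diamonds at the good primes commute with Galois. -/
theorem commD_Fam (q : Nat.Primes) (hq : ¬ (q : ℕ) ∣ N) (σ : GQ) (y : Pic0 Qb E) :
    DFam N H q (galJ G σ y) = galJ G σ (DFam N H q y) := by
  haveI : NeZero (q : ℕ) := ⟨q.2.ne_zero⟩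
  rw [DFam_apply N H q hq, DFam_apply N H q hq, galJ_apply, galJ_apply]
  exact ((H q hq).gal_Dcl σ y).symm

/-- (U) in the shape of the (UES) interface. -/
theorem unr_Fam {l p : ℕ} (hU : StmtU G l p) (A : ValuationSubring Qb)
    (hA : A.LiesOverPrime p) (τ : GQ) (hτ : τ ∈ A.inertiaSubgroupIn ℚ) (y : Pic0 Qb E)
    (hy : l • y = 0) : galJ G τ y = y :=
  hU A hA τ hτ y hy

/-- **(ES)** in the shape of the (UES) interface:
`r σ (r σ y) - T_q (r σ y) + q • ⟨q⟩ y = 0` on `l`-torsion. -/
theorem es_Fam {l : ℕ} (hl : l ≠ 0) (q : Nat.Primes) (hq : ¬ (q : ℕ) ∣ N)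
    (hES : haveI : NeZero (q : ℕ) := ⟨q.2.ne_zero⟩; StmtES l (H q hq))
    (A : ValuationSubring Qb) (hA : A.LiesOverPrime (q : ℕ)) (σ : GQ)
    (hσ : A.IsFrobeniusAt σ (q : ℕ)) (y : Pic0 Qb E) (hy : l • y = 0) :
    galJ G σ (galJ G σ y) - TFam N H q (galJ G σ y) + (q : ℕ) • DFam N H q y = 0 := by
  haveI : NeZero (q : ℕ) := ⟨q.2.ne_zero⟩
  rw [TFam_apply N H q hq, DFam_apply N H q hq, galJ_apply, galJ_apply,
    ← (H q hq).gal_Tcl hl σ y hy]
  exact hES A hA σ hσ y hy

end Module

end Fermat.Agent.S48.helper6431
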