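/-
helper4765 — S48 (M3, leaf EVNORM = `hnormT` of `helper2756.hasKummerMap_galHecke`):
the ANALYTIC meaning of the formula-defined multiplicative Hecke operator.

If `evM : E →+* Mer` is an analytic model of a field `E` of Laurent series (every element is a
fraction of holomorphic functions with the expected Laurent expansions, `hfrac` = the EVAL1 fact
`helper5047.gamma1Ev_hasQ_frac` verbatim), `u' ∈ E` is the diamond of `u` analytically
(`evM u' = pull δ (evM u)`), and `t ∈ E` has the expansion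
`t = u'(q^p) * U_p (∏_{b<p} u(ζ^b q))` (the field `T_q` of `helper6431.HeckeDiamond`), then
`evM t = cpMerT1 hp δ hδ (evM u)`: the coset product of `T_p` on `Γ₁(M)` (landed
`helper4325_OpRelGamma1`).
-/
import Fermat.Agent.S48.helper4765_HeckeQBridge
import Fermat.Agent.S48.helper4325_OpRelGamma1
import Fermat.Agent.S48.helper6431_SpecM2

set_option autoImplicit false
set_option linter.style.haveILetI false

open UpperHalfPlane CongruenceSubgroup Matrix.SpecialLinearGroup ModularForm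
open scoped MatrixGroups ModularForm Manifold

namespace Fermat.Agent.S48.helper4765

noncomputable section

open Fermat.Agent.S29.helper7964 Fermat.Agent.S24.helper1704 ModularCurve
open Fermat.Agent.S24.helper580 (Mer Hol pull pullHol pull_algebraMap pullHol_apply)
open Fermat.Agent.S16.helper2138 Fermat.Agent.S29.helper2982
open Fermat.Agent.S48.helper4325

section Cross

variable {M p : ℕ} [Fact p.Prime]

/-- `tmulT1 p δ f` is holomorphic for holomorphic `f`. -/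
theorem mdiff_tmulT1 (hp : ¬ p ∣ M) (δ : Gamma0 M) (hδ : Gamma0Map M δ = (p : ZMod M))
    {f : ℍ → ℂ} (hf : MDiff f) : MDiff (tmulT1 p δ f) := by
  have h := mdiff_tmul (corrT1 M p hp δ hδ) (corrT1_det_pos hp δ hδ) hf
  have e : tmul (corrT1 M p hp δ hδ) f = tmulT1 p δ f := funext fun z => tmul_corrT1 hp δ hδ f z
  rwa [e] at h

/-- **Replacing the diamond side.**  From the cross identity with an auxiliary fraction `a'/b'`
at the `p z` slot and `a'/b' = (a ∘ δ)/(b ∘ δ)`, the cross identity for `tmulT1 p δ`. -/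
theorem cross_tmulT1 (hp : ¬ p ∣ M) (δ : Gamma0 M) (hδ : Gamma0Map M δ = (p : ZMod M))
    (a b c d a' b' : ↥Hol) (hb' : b' ≠ 0)
    (hdia : ∀ w : ℍ, (a' : ℍ → ℂ) w * (b : ℍ → ℂ) (δ • w) = (b' : ℍ → ℂ) w * (a : ℍ → ℂ) (δ • w))
    (hcross : ∀ z : ℍ,
      (c : ℍ → ℂ) z * ((b' : ℍ → ℂ) (heckeDiagMatrix p • z) *
          ∏ j : ZMod p, (b : ℍ → ℂ) (heckeMatrix p j.val • z)) =
        (d : ℍ → ℂ) z * ((a' : ℍ → ℂ) (heckeDiagMatrix p • z) *
          ∏ j : ZMod p, (a : ℍ → ℂ) (heckeMatrix p j.val • z)))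
    (z : ℍ) :
    (c : ℍ → ℂ) z * tmulT1 p δ (b : ℍ → ℂ) z = (d : ℍ → ℂ) z * tmulT1 p δ (a : ℍ → ℂ) z := by
  haveI : NeZero p := ⟨(Fact.out : p.Prime).ne_zero⟩
  set Y : ℍ → ℂ := fun z => (b' : ℍ → ℂ) (heckeDiagMatrix p • z) with hY
  set X : ℍ → ℂ := (c : ℍ → ℂ) * tmulT1 p δ (b : ℍ → ℂ) - (d : ℍ → ℂ) * tmulT1 p δ (a : ℍ → ℂ)
    with hX
  have hYd : MDiff Y := b'.2.comp (mdifferentiable_smul (det_heckeDiagMatrix_pos p))
  have hXd : MDiff X :=
    (c.2.mul (mdiff_tmulT1 hp δ hδ b.2)).sub (d.2.mul (mdiff_tmulT1 hp δ hδ a.2))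
  have hYX : Y * X = 0 := by
    funext z
    simp only [hY, hX, Pi.mul_apply, Pi.sub_apply, Pi.zero_apply, tmulT1]
    linear_combination ((b : ℍ → ℂ) (δ • (heckeDiagMatrix p • z))) * hcross z +
      ((d : ℍ → ℂ) z * ∏ j : ZMod p, (a : ℍ → ℂ) (heckeMatrix p j.val • z)) *
        hdia (heckeDiagMatrix p • z)
  have hY0 : Y ≠ 0 := by
    intro h0
    apply hb'
    apply Subtype.ext
    funext w
    have h1 := congrFun h0 ((heckeDiagMatrix p)⁻¹ • w)
    simpa [hY, smul_smul] using h1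
  rcases (UpperHalfPlane.mul_eq_zero_iff hYd hXd).mp hYX with h | h
  · exact absurd h hY0
  · have h1 := congrFun h z
    simp only [hX, Pi.mul_apply, Pi.sub_apply, Pi.zero_apply] at h1
    exact sub_eq_zero.mp h1

end Cross

section Ev

variable {K : Type*} [Field K] {E : IntermediateField K (LaurentSeries K)}
variable {M p : ℕ} [Fact p.Prime]

/-- **EVNORM, generic core.**  `evM t = cpMerT1 hp δ hδ (evM u)` for `t = heckeMulD p ζ u u'`
and `evM u' = pull δ (evM u)`. -/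
theorem evM_heckeMulD (i0 : K →+* ℂ) (evM : E →+* Mer)
    (hfrac : ∀ y : E, ∃ a b : ↥Hol, b ≠ 0 ∧ ∃ A B : LaurentSeries ℂ,
      HasQ 1 (a : ℍ → ℂ) A ∧ HasQ 1 (b : ℍ → ℂ) B ∧
        coeffMap i0 (y : LaurentSeries K) * B = A ∧
        evM y * algebraMap ↥Hol Mer b = algebraMap ↥Hol Mer a)
    (hp : ¬ p ∣ M) (δ : Gamma0 M) (hδ : Gamma0Map M δ = (p : ZMod M))
    {ζ : Kˣ} (hζ : IsPrimitiveRoot (ζ : K) p) (u u' t : E)
    (hD : evM u' = pull (δ : SL(2, ℤ)) (evM u))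
    (hT : (t : LaurentSeries K) = heckeMulD p ζ (u : LaurentSeries K) (u' : LaurentSeries K)) :
    evM t = cpMerT1 hp δ hδ (evM u) := by
  haveI : NeZero p := ⟨(Fact.out : p.Prime).ne_zero⟩
  obtain ⟨a, b, hb, A, B, hA, hB, hAB, hev⟩ := hfrac u
  obtain ⟨a', b', hb', A', B', hA', hB', hAB', hev'⟩ := hfrac u'
  obtain ⟨c, d, hd, C, D, hC, hDq, hCD, hevt⟩ := hfrac t
  have hinj : Function.Injective (algebraMap ↥Hol Mer) := IsFractionRing.injective ↥Hol Mer
  have hne : ∀ {f : ↥Hol}, f ≠ 0 → algebraMap ↥Hol Mer f ≠ 0 := fun {f} hf h =>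
    hf (hinj (h.trans (map_zero _).symm))
  have hu : evM u = algebraMap ↥Hol Mer a / algebraMap ↥Hol Mer b := eq_div_of_mul_eq (hne hb) hev
  have hu' : evM u' = algebraMap ↥Hol Mer a' / algebraMap ↥Hol Mer b' :=
    eq_div_of_mul_eq (hne hb') hev'
  have ht : evM t = algebraMap ↥Hol Mer c / algebraMap ↥Hol Mer d := eq_div_of_mul_eq (hne hd) hevt
  -- the diamond relation on numerators and denominators
  have hpb : pullHol (δ : SL(2, ℤ)) b ≠ 0 := fun h => hb (by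
    have := (pullHol (δ : SL(2, ℤ))).injective (h.trans (map_zero _).symm); exact this)
  have hdia : a' * pullHol (δ : SL(2, ℤ)) b = b' * pullHol (δ : SL(2, ℤ)) a := by
    apply hinj
    have h1 : algebraMap ↥Hol Mer a' / algebraMap ↥Hol Mer b' =
        algebraMap ↥Hol Mer (pullHol (δ : SL(2, ℤ)) a) /
          algebraMap ↥Hol Mer (pullHol (δ : SL(2, ℤ)) b) := by
      rw [← hu', hD, hu, map_div₀, pull_algebraMap, pull_algebraMap]
    rw [div_eq_div_iff (hne hb') (hne hpb)] at h1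
    rw [map_mul, map_mul, h1, mul_comm]
  rw [ht, hu]
  symm
  apply cpMerT1_eq_of_cross hp δ hδ a b c d hb hd
  refine cross_tmulT1 hp δ hδ a b c d a' b' hb' (fun w => ?_) (fun z => ?_)
  · have h2 := congrFun (congrArg Subtype.val hdia) w
    exact h2
  · have hζ' : IsPrimitiveRoot ((Units.map (i0 : K →* ℂ) ζ : ℂˣ) : ℂ) p := by
      rw [Units.coe_map]
      exact hζ.map_of_injective i0.injective
    refine cross_of_hasQ hA hB hC hDq hA' hB' hAB hAB' p hζ' ?_ z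
    rw [← coeffMap_heckeMulD, ← hT]
    exact hCD

end Ev

/-! ## The leaf `hnormT` for the Hecke–diamond layers of (M2) -/

section M2

open Fermat.Agent.S29.helper8217 AlgebraicCurve
open Fermat.Agent.S48.helper6431 (CoeffGal HeckeDiamond HeckeDiamondAt)

local notation "Qb" => AlgebraicClosure ℚ

variable {E : IntermediateField Qb (LaurentSeries Qb)} [HasPrincipalDivisors Qb E]
  {G : CoeffGal E}

/-- A primitive `p`-th root of unity in `ℚ̄`, as a unit. -/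
theorem exists_primitiveRoot_Qb (p : ℕ) (hp : p ≠ 0) :
    ∃ ζ : Qbˣ, IsPrimitiveRoot (ζ : Qb) p := by
  haveI : NeZero p := ⟨hp⟩
  haveI : NeZero (p : Qb) := ⟨Nat.cast_ne_zero.mpr hp⟩
  obtain ⟨z, hz⟩ := HasEnoughRootsOfUnity.exists_primitiveRoot Qb p
  exact ⟨(hz.isUnit hp).unit, by rw [IsUnit.unit_spec]; exact hz⟩

/-- **EVNORM for one layer.**  For a Hecke–diamond layer `Hp` of (M2) at a prime `p ∤ M` and
`δ ∈ Γ₀(M)` with lower-right entry `≡ p`: if the diamond of `u` is analytically the pull-back by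
`δ`, then `Hp.T u` is analytically the coset product `cpMerT1` of `u`. -/
theorem evM_T_eq_cpMerT1 {M p : ℕ} [Fact p.Prime] [NeZero p] (Hp : HeckeDiamond E G p)
    (i0 : Qb →+* ℂ) (evM : E →+* Mer)
    (hfrac : ∀ y : E, ∃ a b : ↥Hol, b ≠ 0 ∧ ∃ A B : LaurentSeries ℂ,
      HasQ 1 (a : ℍ → ℂ) A ∧ HasQ 1 (b : ℍ → ℂ) B ∧
        coeffMap i0 (y : LaurentSeries Qb) * B = A ∧
        evM y * algebraMap ↥Hol Mer b = algebraMap ↥Hol Mer a)
    (hp : ¬ p ∣ M) (δ : Gamma0 M) (hδ : Gamma0Map M δ = (p : ZMod M)) (u : E)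
    (hD : evM (Hp.D u) = pull (δ : SL(2, ℤ)) (evM u)) :
    evM (Hp.T u) = cpMerT1 hp δ hδ (evM u) := by
  obtain ⟨ζ, hζ⟩ := exists_primitiveRoot_Qb p (NeZero.ne p)
  exact evM_heckeMulD i0 evM hfrac hp δ hδ hζ u (Hp.D u) (Hp.T u) hD (Hp.T_q ζ hζ u)

/-- **(EVNORM-T), generic form = `helper2754.Stmt_EvNormT` with its definitions unfolded,
VERBATIM** (`EvQ i0 evM` is the first hypothesis): for every subfield `E ⊆ ℚ̄((q))` with an
evaluation `evM` compatible with `q`-expansions, every prime `p ∤ M`, every `δ ∈ Γ₀(M)` with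
lower-right entry `≡ p`, every automorphism `D` of `E` realised by the pull-back along `δ`, and
every operator `T` on `E` with the `q`-expansion `T u = V_p(D u) · U_p(∏_{b < p} u(ζ^b q))`:
`evM (T u) = cpMerT1 hp δ hδ (evM u)`. -/
theorem evNormT_generic :
    ∀ (E : IntermediateField Qb (LaurentSeries Qb)) (i0 : Qb →+* ℂ) (evM : E →+* Mer),
      (∀ y : E, ∃ a b : ↥Hol, b ≠ 0 ∧ ∃ A B : LaurentSeries ℂ,
        HasQ 1 (a : ℍ → ℂ) A ∧ HasQ 1 (b : ℍ → ℂ) B ∧
          coeffMap i0 (y : LaurentSeries Qb) * B = A ∧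
          evM y * algebraMap ↥Hol Mer b = algebraMap ↥Hol Mer a) →
      ∀ (M p : ℕ) [Fact p.Prime] [NeZero p] (hp : ¬ p ∣ M) (δ : Gamma0 M)
        (hδ : Gamma0Map M δ = (p : ZMod M)) (D : E ≃ₐ[Qb] E) (T : E → E),
        (∀ u : E, evM (D u) = pull (δ : SL(2, ℤ)) (evM u)) →
        (∀ ζ : Qbˣ, IsPrimitiveRoot (ζ : Qb) p → ∀ u : E,
          ((T u : E) : LaurentSeries Qb) =
            qExpand Qb p ((D u : E) : LaurentSeries Qb) *
              uOp p (∏ b ∈ Finset.range p, tw (ζ ^ b) (u : LaurentSeries Qb))) →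
        ∀ u : E, evM (T u) = Fermat.Agent.S48.helper4325.cpMerT1 hp δ hδ (evM u) := by
  intro E i0 evM hQ M p _ _ hp δ hδ D T hD hT u
  obtain ⟨ζ, hζ⟩ := exists_primitiveRoot_Qb p (NeZero.ne p)
  exact evM_heckeMulD i0 evM hQ hp δ hδ hζ u (D u) (T u) (hD u) (hT ζ hζ u)

/-- A prime is nonzero (the instance argument of `helper6431.HeckeDiamond`). -/
local instance neZeroPrimesEv (p : Nat.Primes) : NeZero (p : ℕ) := ⟨p.2.ne_zero⟩

/-- **EVNORM = the hypothesis `hnormT` of `helper2756.hasKummerMap_galHecke`, VERBATIM**, from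
the EVAL1 fraction fact (`helper5047.gamma1Ev_hasQ_frac` / `exists_hasQ_frac` shape) and the
hypothesis `hnormD` of the same theorem (VERBATIM). -/
theorem hnormT_of_hnormD (M ℓ : ℕ)
    (H : ∀ q : Nat.Primes, ¬ (q : ℕ) ∣ M * ℓ → HeckeDiamondAt G q)
    (i0 : Qb →+* ℂ) {evM : E →+* Mer}
    (hfrac : ∀ y : E, ∃ a b : ↥Hol, b ≠ 0 ∧ ∃ A B : LaurentSeries ℂ,
      HasQ 1 (a : ℍ → ℂ) A ∧ HasQ 1 (b : ℍ → ℂ) B ∧
        coeffMap i0 (y : LaurentSeries Qb) * B = A ∧
        evM y * algebraMap ↥Hol Mer b = algebraMap ↥Hol Mer a)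
    (hnormD : ∀ (p : Nat.Primes) (hpl : ¬ (p : ℕ) ∣ M * ℓ),
      ∃ δ : Gamma0 M, Gamma0Map M δ = ((p : ℕ) : ZMod M) ∧ ∀ u : E, IsKummer Qb ℓ u →
        evM ((H p hpl).D u) = pull (δ : SL(2, ℤ)) (evM u)) :
    ∀ (p : Nat.Primes) (hp : ¬ (p : ℕ) ∣ M) (hpl : ¬ (p : ℕ) ∣ M * ℓ),
      ∃ (δ : Gamma0 M) (hδ : Gamma0Map M δ = ((p : ℕ) : ZMod M)), ∀ u : E, IsKummer Qb ℓ u →
        evM ((H p hpl).T u)
          = @Fermat.Agent.S48.helper4325.cpMerT1 M (p : ℕ) ⟨p.2⟩ hp δ hδ (evM u) := by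
  intro p hp hpl
  obtain ⟨δ, hδ, hD⟩ := hnormD p hpl
  haveI : Fact (p : ℕ).Prime := ⟨p.2⟩
  exact ⟨δ, hδ, fun u hu =>
    evM_T_eq_cpMerT1 (H p hpl) i0 evM hfrac hp δ hδ u (hD u hu)⟩

end M2

end

end Fermat.Agent.S48.helper4765
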