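import Fermat.Agent.S48.helper5047_Gamma1Inst

/-!
# S48-M3-EVNORMD (helper5047): the analytic meaning of the diamond operators on the `Γ₁(M)` field

Carrier `F := helper7300.gamma1Field K M` (any field `K`, `i0 : K →+* ℂ`), evaluation
`gamma1Ev i0 M : F →+* Mer` of `helper5047_Gamma1Inst`.

* `gamma1Ev_gen_pull` : for `δ ∈ Γ₀(M)` and `n ≡ δ₁₁ mod M`, the evaluation of
  `gen K phiZ (u ^ n) (v ^ n)` is the pull-back by `δ` of the evaluation of `gen K phiZ u v`.
* `gamma1Ev_diamond` : **any** ring endomorphism `D` of `F` fixing `K` and the `Γ₀(M)`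
  generators and acting on the normalised differences by `gen u v ↦ gen (u ^ n) (v ^ n)`
  satisfies `gamma1Ev (D x) = pull δ (gamma1Ev x)` for all `x`.
* `diaEv i0 M hδ : F ≃ₐ[K] F` : the diamond operator defined through the evaluation
  (`gamma1Ev_diaEv`), with its action on generators (`coe_diaEv_gen`), on the `Γ₀(M)` field
  (`diaEv_of_mem_fullC`), composition (`diaEv_mul_apply`) and dependence on `δ₁₁ mod M`
  (`diaEv_congr`).
-/

set_option autoImplicit false

open UpperHalfPlane ModularCurve CongruenceSubgroup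
open scoped MatrixGroups Manifold

namespace Fermat.Agent.S48.helper5047

open Fermat.Agent.S24 Fermat.Agent.S24.helper1704
open Fermat.Agent.S24.helper580 Fermat.Agent.S48.helper7300 Fermat.Agent.S48.helper9025
open ModularForm EisensteinSeries

local notation "Δ" => ModularForm.discriminant

noncomputable section

/-! ## Generic: ring homomorphisms out of `K(S)` -/

/-- Two ring homomorphisms from `K(S)` to a field which agree on `K` and on `S` are equal. -/
theorem ringHom_ext_adjoin {K L R : Type*} [Field K] [Field L] [Algebra K L] [Field R]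
    {S : Set L} (φ₁ φ₂ : IntermediateField.adjoin K S →+* R)
    (hc : ∀ c : K, φ₁ (algebraMap K _ c) = φ₂ (algebraMap K _ c))
    (hS : ∀ s (hs : s ∈ S), φ₁ ⟨s, IntermediateField.subset_adjoin K S hs⟩
      = φ₂ ⟨s, IntermediateField.subset_adjoin K S hs⟩) : φ₁ = φ₂ := by
  refine RingHom.ext fun x => ?_
  obtain ⟨x, hx⟩ := x
  induction hx using IntermediateField.adjoin_induction with
  | mem x hx => exact hS x hx
  | algebraMap c => exact hc c
  | add x y hx hy h1 h2 =>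
      have e : (⟨x + y, add_mem hx hy⟩ : IntermediateField.adjoin K S) = ⟨x, hx⟩ + ⟨y, hy⟩ := rfl
      rw [e, map_add, map_add, h1, h2]
  | inv x hx h1 =>
      have e : (⟨x⁻¹, inv_mem hx⟩ : IntermediateField.adjoin K S) = (⟨x, hx⟩)⁻¹ := rfl
      rw [e, map_inv₀, map_inv₀, h1]
  | mul x y hx hy h1 h2 =>
      have e : (⟨x * y, mul_mem hx hy⟩ : IntermediateField.adjoin K S) = ⟨x, hx⟩ * ⟨y, hy⟩ := rfl
      rw [e, map_mul, map_mul, h1, h2]

theorem pull_algebraMap_eq {g : SL(2, ℤ)} {a b : Hol}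
    (h : ∀ τ, (a : ℍ → ℂ) (g • τ) = (b : ℍ → ℂ) τ) :
    pull g (algebraMap Hol Mer a) = algebraMap Hol Mer b := by
  rw [pull_algebraMap]
  congr 1
  exact Hol.ext fun τ => by rw [pullHol_apply]; exact h τ

/-! ## The diamond law of the holomorphic generators -/

section Fun

variable (M : ℕ) [NeZero M]

theorem hFun_smul_of_mem_Gamma0 (a b : ℤ) {g : SL(2, ℤ)} (hg : g ∈ Gamma0 M) (τ : ℍ) :
    hFun M a b (g • τ) = hFun M (a * g 1 1) (b * g 1 1) τ := by
  have hd : denom g τ ≠ 0 := denom_ne_zero g τ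
  have hΔ : Δ τ ≠ 0 := discriminant_ne_zero τ
  rw [hFun_apply, hFun_apply, Fermat.Agent.S24.helper288.E4_smul, E6_smul,
    Fermat.Agent.S24.helper288.discriminant_smul, helper2648.divD_smul M a b hg τ]
  have e4 : denom g τ ^ (4 : ℤ) = denom g τ ^ 4 := by norm_cast
  have e6 : denom g τ ^ (6 : ℤ) = denom g τ ^ 6 := by norm_cast
  have e12 : denom g τ ^ (12 : ℤ) = denom g τ ^ 12 := by norm_cast
  rw [e4, e6, e12]
  field_simp

theorem hFun_congr {a a' b b' : ℤ} (ha : (M : ℤ) ∣ a' - a) (hb : (M : ℤ) ∣ b' - b) :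
    hFun M a' b' = hFun M a b := by
  funext τ
  rw [hFun_apply, hFun_apply, divD_congr M ha hb]

end Fun

/-! ## Evaluation of explicit elements -/

section Dia

variable {K : Type*} [Field K] (i0 : K →+* ℂ) (M : ℕ) [NeZero M]

theorem gamma1Ev_injective : Function.Injective (gamma1Ev i0 M) := (gamma1Ev i0 M).injective

/-- The evaluation of an element whose series is the `q`-expansion of `f`. -/
theorem gamma1Ev_eq_of_hasQ {x : gamma1Field K M} {f : ℍ → ℂ}
    (hf : HasQ 1 f (coeffMap i0 (x : LaurentSeries K))) :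
    gamma1Ev i0 M x = algebraMap Hol Mer ⟨f, hf.mdiff one_pos⟩ :=
  (gamma1Ev_coe i0 M (⟨x, ⟨f, hf⟩⟩ : holAlg i0 (gamma1Field K M))).trans
    (congrArg _ (Subtype.ext (holFun_eq i0 _ hf)))

/-- `j - 1728` as an element of the `Γ₁(M)` field. -/
def jSub (K : Type*) [Field K] (M : ℕ) [NeZero M] : gamma1Field K M :=
  jG1 K M - algebraMap K (gamma1Field K M) 1728

theorem coe_jSub : ((jSub K M : gamma1Field K M) : LaurentSeries K)
    = jqModC K - algebraMap K (LaurentSeries K) 1728 := rfl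

theorem jSub_ne_zero : jSub K M ≠ 0 := fun h =>
  jq_sub_ne_zero (K := K) 1728 (congrArg (fun z : gamma1Field K M => (z : LaurentSeries K)) h)

theorem hasQ_jSub : HasQ 1 (fun τ => Fermat.Agent.S24.helper1644.jFun τ - 1728)
    (coeffMap i0 ((jSub K M : gamma1Field K M) : LaurentSeries K)) := by
  have h := (helper1704.hasQ_jFun_coeffMap i0).sub one_pos (HasQ.const 1 (1728 : ℂ))
  rw [coe_jSub, map_sub, coeffMap_algebraMap_general, map_ofNat, algebraMap_laurentSeries_eq_single]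
  exact h

theorem pull_gamma1Ev_jSub (g : SL(2, ℤ)) :
    pull g (gamma1Ev i0 M (jSub K M)) = gamma1Ev i0 M (jSub K M) := by
  rw [gamma1Ev_eq_of_hasQ i0 M (hasQ_jSub i0 M)]
  apply pull_algebraMap_eq
  intro τ
  show Fermat.Agent.S24.helper1644.jFun (g • τ) - 1728 = Fermat.Agent.S24.helper1644.jFun τ - 1728
  rw [show Fermat.Agent.S24.helper1644.jFun (g • τ) = Fermat.Agent.S24.helper1644.jFun τ from
    Fermat.Agent.S24.helper288.jFn_smul g τ]

/-- The `Γ₀(M)` generators are fixed by `pull δ`, `δ ∈ Γ₀(M)`. -/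
theorem pull_gamma1Ev_jd {δ : SL(2, ℤ)} (hδ : δ ∈ Gamma0 M) {d : ℕ} [NeZero d] (hd : d ∣ M)
    {x : gamma1Field K M} (hx : (x : LaurentSeries K) = qExpand K d (jqModC K)) :
    pull δ (gamma1Ev i0 M x) = gamma1Ev i0 M x := by
  have h : HasQ 1 (jdFun d) (coeffMap i0 (x : LaurentSeries K)) := by
    rw [hx]; exact hasQ_jdFun i0 d
  rw [gamma1Ev_eq_of_hasQ i0 M h]
  apply pull_algebraMap_eq
  intro τ
  exact jdFun_smul M (Nat.pos_of_ne_zero (NeZero.ne d)) hd hδ τ

include i0 in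
/-- Powers of non-trivial `M`-th roots of unity with exponent prime to `M`. -/
theorem zpow_root {u : K} (hu : u ^ M = 1) (hu1 : u ≠ 1) {n : ℤ} (hn : IsCoprime n (M : ℤ)) :
    (u ^ n) ^ M = 1 ∧ u ^ n ≠ 1 := by
  refine ⟨by rw [← zpow_natCast, ← zpow_mul, mul_comm, zpow_mul, zpow_natCast, hu, one_zpow], ?_⟩
  obtain ⟨a, hua, ha⟩ := exists_zpow_eq i0 M hu
  have hun : i0 (u ^ n) = zetaM M ^ (a * n) := by rw [map_zpow₀, hua, ← zpow_mul]
  refine ne_one_of_not_dvd i0 M hun fun hdvd => ha hu1 ?_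
  exact (hn.symm).dvd_of_dvd_mul_right hdvd

theorem isCoprime_of_dvd_sub {δ : SL(2, ℤ)} (hδ : δ ∈ Gamma0 M) {n : ℤ}
    (hn : (M : ℤ) ∣ n - δ 1 1) : IsCoprime n (M : ℤ) := by
  have h1 : IsCoprime (δ 1 1) (M : ℤ) := helper2648.isCoprime_entry M hδ
  obtain ⟨k, hk⟩ := hn
  have h2 : n = δ 1 1 + (M : ℤ) * k := by linarith
  rw [h2]
  exact (IsCoprime.add_mul_left_left_iff).mpr h1

/-- **The diamond law on the evaluation**: `gen (u ^ n) (v ^ n)` evaluates to the pull-back by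
`δ ∈ Γ₀(M)` of the evaluation of `gen u v`, `n ≡ δ₁₁ mod M`. -/
theorem gamma1Ev_gen_pull {δ : SL(2, ℤ)} (hδ : δ ∈ Gamma0 M) {n : ℤ}
    (hn : (M : ℤ) ∣ n - δ 1 1) {u v : K} (hu : u ^ M = 1) (hu1 : u ≠ 1) (hv : v ^ M = 1)
    (hv1 : v ≠ 1) {x y : gamma1Field K M} (hx : (x : LaurentSeries K) = gen K phiZ u v)
    (hy : (y : LaurentSeries K) = gen K phiZ (u ^ n) (v ^ n)) :
    gamma1Ev i0 M y = pull δ (gamma1Ev i0 M x) := by
  obtain ⟨a, hua, ha⟩ := exists_zpow_eq i0 M hu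
  obtain ⟨b, hvb, hb⟩ := exists_zpow_eq i0 M hv
  have hcop := isCoprime_of_dvd_sub M hδ hn
  have han : ¬ (M : ℤ) ∣ a * n := fun hdvd => ha hu1 ((hcop.symm).dvd_of_dvd_mul_right hdvd)
  have hbn : ¬ (M : ℤ) ∣ b * n := fun hdvd => hb hv1 ((hcop.symm).dvd_of_dvd_mul_right hdvd)
  have hun : i0 (u ^ n) = zetaM M ^ (a * n) := by rw [map_zpow₀, hua, ← zpow_mul]
  have hvn : i0 (v ^ n) = zetaM M ^ (b * n) := by rw [map_zpow₀, hvb, ← zpow_mul]
  have hx' : HasQ 1 (hFun M a b)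
      (coeffMap i0 ((jSub K M * x : gamma1Field K M) : LaurentSeries K)) := by
    have e : ((jSub K M * x : gamma1Field K M) : LaurentSeries K) = hGen K u v := by
      rw [hGen, ← hx]; rfl
    rw [e]
    exact hasQ_hGen i0 M hua hvb (ha hu1) (hb hv1)
  have hy' : HasQ 1 (hFun M (a * n) (b * n))
      (coeffMap i0 ((jSub K M * y : gamma1Field K M) : LaurentSeries K)) := by
    have e : ((jSub K M * y : gamma1Field K M) : LaurentSeries K) = hGen K (u ^ n) (v ^ n) := by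
      rw [hGen, ← hy]; rfl
    rw [e]
    exact hasQ_hGen i0 M hun hvn han hbn
  have key : gamma1Ev i0 M (jSub K M * y) = pull δ (gamma1Ev i0 M (jSub K M * x)) := by
    rw [gamma1Ev_eq_of_hasQ i0 M hx', gamma1Ev_eq_of_hasQ i0 M hy']
    symm
    apply pull_algebraMap_eq
    intro τ
    show hFun M a b (δ • τ) = hFun M (a * n) (b * n) τ
    rw [hFun_smul_of_mem_Gamma0 M a b hδ τ]
    refine congrFun (hFun_congr M ?_ ?_).symm τ
    · rw [← mul_sub]; exact Dvd.dvd.mul_left hn a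
    · rw [← mul_sub]; exact Dvd.dvd.mul_left hn b
  rw [map_mul, map_mul, map_mul, pull_gamma1Ev_jSub] at key
  exact mul_left_cancel₀
    ((map_ne_zero_iff _ (gamma1Ev_injective i0 M)).mpr (jSub_ne_zero (K := K) (M := M))) key

/-- **EVNORM-D, generic in the diamond.** Any ring endomorphism `D` of the `Γ₁(M)` field which
fixes the constants and the `Γ₀(M)` generators and acts on the normalised differences by
`gen u v ↦ gen (u ^ n) (v ^ n)`, `n ≡ δ₁₁ mod M`, `δ ∈ Γ₀(M)`, is the pull-back by `δ` on the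
evaluation. -/
theorem gamma1Ev_diamond {δ : SL(2, ℤ)} (hδ : δ ∈ Gamma0 M)
    (D : gamma1Field K M →+* gamma1Field K M)
    (hc : ∀ c : K, D (algebraMap K (gamma1Field K M) c) = algebraMap K (gamma1Field K M) c)
    (hj : ∀ (d : ℕ) [NeZero d] (hd : d ∣ M),
      D ⟨qExpand K d (jqModC K), qExpand_jqModC_mem_gamma1FieldP K phiZ M hd⟩
        = ⟨qExpand K d (jqModC K), qExpand_jqModC_mem_gamma1FieldP K phiZ M hd⟩)
    (n : ℤ) (hn : (M : ℤ) ∣ n - δ 1 1)
    (hgen : ∀ (u v : K) (hu : u ^ M = 1) (hu1 : u ≠ 1) (hv : v ^ M = 1) (hv1 : v ≠ 1),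
      ((D ⟨gen K phiZ u v, gen_mem phiZ hu hu1 hv hv1⟩ : gamma1Field K M) : LaurentSeries K)
        = gen K phiZ (u ^ n) (v ^ n))
    (x : gamma1Field K M) : gamma1Ev i0 M (D x) = pull δ (gamma1Ev i0 M x) := by
  have key : (gamma1Ev i0 M).comp D
      = ((pull δ : Mer ≃ₐ[ℂ] Mer) : Mer →+* Mer).comp (gamma1Ev i0 M) := by
    refine ringHom_ext_adjoin (K := K) (S := divisorExpansionsC K M ∪ gamma1Gens K phiZ M)
      _ _ (fun c => ?_) (fun s hs => ?_)
    · show gamma1Ev i0 M (D (algebraMap K (gamma1Field K M) c))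
        = pull δ (gamma1Ev i0 M (algebraMap K (gamma1Field K M) c))
      rw [hc, gamma1Ev_algebraMap, AlgEquiv.commutes]
    · rcases hs with ⟨d, hne, hd, rfl⟩ | ⟨u, v, hu, hu1, hv, hv1, rfl⟩
      · have := hne
        show gamma1Ev i0 M (D ⟨qExpand K d (jqModC K), _⟩)
          = pull δ (gamma1Ev i0 M ⟨qExpand K d (jqModC K), _⟩)
        rw [hj d hd, pull_gamma1Ev_jd i0 M hδ hd rfl]
      · exact gamma1Ev_gen_pull i0 M hδ hn hu hu1 hv hv1 rfl (hgen u v hu hu1 hv hv1)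
  exact congrArg (fun φ : gamma1Field K M →+* Mer => φ x) key

/-- `ℕ`-exponent form of `gamma1Ev_diamond` (the shape of A2-GAL's `diamondP_gen`). -/
theorem gamma1Ev_diamond_nat {δ : SL(2, ℤ)} (hδ : δ ∈ Gamma0 M)
    (D : gamma1Field K M →+* gamma1Field K M)
    (hc : ∀ c : K, D (algebraMap K (gamma1Field K M) c) = algebraMap K (gamma1Field K M) c)
    (hj : ∀ (d : ℕ) [NeZero d] (hd : d ∣ M),
      D ⟨qExpand K d (jqModC K), qExpand_jqModC_mem_gamma1FieldP K phiZ M hd⟩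
        = ⟨qExpand K d (jqModC K), qExpand_jqModC_mem_gamma1FieldP K phiZ M hd⟩)
    (n : ℕ) (hn : ((n : ℤ) : ZMod M) = ((δ 1 1 : ℤ) : ZMod M))
    (hgen : ∀ (u v : K) (hu : u ^ M = 1) (hu1 : u ≠ 1) (hv : v ^ M = 1) (hv1 : v ≠ 1),
      ((D ⟨gen K phiZ u v, gen_mem phiZ hu hu1 hv hv1⟩ : gamma1Field K M) : LaurentSeries K)
        = gen K phiZ (u ^ n) (v ^ n))
    (x : gamma1Field K M) : gamma1Ev i0 M (D x) = pull δ (gamma1Ev i0 M x) := by
  refine gamma1Ev_diamond i0 M hδ D hc hj (n : ℤ) ?_ (fun u v hu hu1 hv hv1 => ?_) x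
  · have h := (ZMod.intCast_eq_intCast_iff_dvd_sub (δ 1 1) (n : ℤ) M).mp hn.symm
    exact h
  · rw [zpow_natCast, zpow_natCast]
    exact hgen u v hu hu1 hv hv1

end Dia

end

end Fermat.Agent.S48.helper5047
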