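/-
S48 (Deligne–Serre), machine half — (M3), final form: the hypothesis `hM3` of
`helper6431.stmt_KummerMod2_of'` from exactly ONE Prop (sub-architect helper2754).

* `stmt_EvNormT : Stmt_EvNormT` — (EVNORM-T) is CLOSED: `helper4765.evNormT_generic`.
* (EVNORM-D) is CLOSED: a diamond in the sense of `helper6431.IsDiamond M q D` is the pull-back
  by any `δ ∈ Γ₀(M)` with lower-right entry `≡ q` on the evaluation of record
  (`gamma1Ev_isDiamond`, one call of `helper5047.gamma1Ev_diamond_nat`).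
* `Stmt_MultGamma1` — (INST1), the one remaining Prop: the multiplier dictionary of the carrier
  of record `E1 M = helper7300.gamma1FieldBar M` for the evaluation of record
  `helper5047.gamma1Ev i0 M`.

(PER) is `helper3284.hasPerLattice`, (K5) is `helper2756.hasKummerMap_pic0`, (TH5) is
`helper4325.opRel_tT_surjGen / opRel_tD_surjGen` (all inside `hasPeriodKummer_of_eval`).
-/
import Fermat.Agent.S48.helper2754_M3Inst
import Fermat.Agent.S48.helper6431_TP1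
import Fermat.Agent.S48.helper5047_Gamma1Dia
import Fermat.Agent.S48.helper4765_EvNorm

set_option autoImplicit false

open CongruenceSubgroup AlgebraicCurve ModularCurve UpperHalfPlane
open scoped MatrixGroups

noncomputable section

namespace Fermat.Agent.S48.helper2754

open Fermat.Agent.S48.helper6431 (CoeffGal HeckeDiamond HeckeDiamondAt galHecke E1 G1 IsDiamond)
open Fermat.Agent.S48.helper8231 (Stmt_KummerMod2 LevelBig)
open Fermat.Agent.S48.helper5047 (gamma1Ev)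
open Fermat.Agent.S24.helper580 (Hol Mer pull)

local notation "Qb" => AlgebraicClosure ℚ

/-- **(EVNORM-T)** is a theorem (`helper4765.evNormT_generic`). -/
theorem stmt_EvNormT : Stmt_EvNormT := helper4765.evNormT_generic

/-- `j(q^d)`, `d ∣ M`, lies in the `Γ₀(M)` field over `ℚ̄`. -/
theorem qExpand_jqModC_mem_bar (M d : ℕ) [NeZero d] (hd : d ∣ M) :
    qExpand Qb d (jqModC Qb) ∈ modularFunctionFieldBar M := by
  rw [modularFunctionFieldBar, helper7300.laurentBaseChange_full_eq, modularFunctionFieldFullC]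
  exact IntermediateField.subset_adjoin Qb _ ⟨d, inferInstance, hd, rfl⟩

/-- **(EVNORM-D) for the diamonds of record.**  A diamond `⟨q⟩` of the `Γ₁(M)` field (in the
sense of `helper6431.IsDiamond`) is, on the evaluation of record, the pull-back by any
`δ ∈ Γ₀(M)` with lower-right entry `≡ q mod M`. -/
theorem gamma1Ev_isDiamond (i0 : Qb →+* ℂ) (M q : ℕ) [NeZero M] (D : E1 M ≃ₐ[Qb] E1 M)
    (hD : IsDiamond M q D) (δ : Gamma0 M) (hδ : Gamma0Map M δ = (q : ZMod M)) (u : E1 M) :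
    gamma1Ev i0 M (D u) = pull (δ : SL(2, ℤ)) (gamma1Ev i0 M u) := by
  refine helper5047.gamma1Ev_diamond_nat i0 M δ.2 (D : E1 M →+* E1 M) (fun c => D.commutes c)
    (fun d _ hd => hD.1 _ (qExpand_jqModC_mem_bar M d hd)) q ?_
    (fun u v hu hu1 hv hv1 => hD.2 u v hu hu1 hv hv1) u
  rw [Int.cast_natCast, ← hδ]
  rfl

/-- **(INST1)** The multiplier dictionary of the carrier of record: for every level `M` and
modulus `ℓ` of `LevelBig` there are an embedding `i0 : ℚ̄ → ℂ` and a root of unity `ζ` such that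
the multiplier relation of the evaluation of record `helper5047.gamma1Ev i0 M` is a Kummer
dictionary (`helper2756.MultSpecG`: (TH2) injectivity, (TH3) triviality, (TH4) surjectivity). -/
def Stmt_MultGamma1 : Prop :=
  ∀ (M : ℕ) [NeZero M] [HasPrincipalDivisors Qb (E1 M)] (ℓ : ℕ), ℓ.Prime → LevelBig M ℓ →
    ∃ (i0 : Qb →+* ℂ) (ζ : ℂˣ),
      helper2756.MultSpecG Qb (Gamma1 M) ℓ
        (helper2122.MultMerG (Gamma1 M) (gamma1Ev i0 M) ℓ ζ)

/-- (EVNORM-D) in the shape of `hasPeriodKummer_of_eval`, for layers whose diamonds are the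
diamonds of record. -/
theorem evNormD_of_isDiamond (M : ℕ) [NeZero M] [HasPrincipalDivisors Qb (E1 M)] (ℓ : ℕ)
    (H : ∀ q : Nat.Primes, ¬ (q : ℕ) ∣ M * ℓ → HeckeDiamondAt (G1 M) q)
    (hH : ∀ (q : Nat.Primes) (hq : ¬ (q : ℕ) ∣ M * ℓ),
      haveI : NeZero (q : ℕ) := ⟨q.2.ne_zero⟩; IsDiamond M (q : ℕ) (H q hq).D)
    (i0 : Qb →+* ℂ) (q : Nat.Primes) (hq : ¬ (q : ℕ) ∣ M * ℓ) :
    haveI : NeZero (q : ℕ) := ⟨q.2.ne_zero⟩
    ∃ (δ : Gamma0 M) (_ : Gamma0Map M δ = ((q : ℕ) : ZMod M)),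
      ∀ u : E1 M, gamma1Ev i0 M ((H q hq).D u) = pull (δ : SL(2, ℤ)) (gamma1Ev i0 M u) := by
  have hqM : ¬ (q : ℕ) ∣ M := fun hd => hq (Dvd.dvd.mul_right hd ℓ)
  obtain ⟨δ, hδ⟩ := helper4325.exists_Gamma0Map_eq_prime M q.2 hqM
  exact ⟨δ, hδ, fun u => gamma1Ev_isDiamond i0 M (q : ℕ) _ (hH q hq) δ hδ u⟩

/-- **(KDICT) at the carrier of record** from (INST1): the Kummer dictionary
`HasKummerDict (G1 M) M ℓ H` for every family of Hecke–diamond layers whose diamonds are the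
diamonds of record. -/
theorem stmt_Dict_of (hmult : Stmt_MultGamma1) :
    ∀ (M : ℕ) [NeZero M] [HasPrincipalDivisors Qb (E1 M)] (ℓ : ℕ), ℓ.Prime →
      LevelBig M ℓ → ∀ H : ∀ q : Nat.Primes, ¬ (q : ℕ) ∣ M * ℓ → HeckeDiamondAt (G1 M) q,
        (∀ (q : Nat.Primes) (hq : ¬ (q : ℕ) ∣ M * ℓ),
          haveI : NeZero (q : ℕ) := ⟨q.2.ne_zero⟩; IsDiamond M (q : ℕ) (H q hq).D) →
        HasKummerDict (G1 M) M ℓ H := by
  intro M _ _ ℓ hℓ hL H hH
  obtain ⟨i0, ζ, hm⟩ := hmult M ℓ hℓ hL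
  exact hasKummerDict_of_eval (G1 M) M ℓ H (gamma1Ev i0 M) ζ
    (isEvalDict_of (G1 M) stmt_EvNormT M ℓ H i0 (gamma1Ev i0 M) ζ (evQ_gamma1Ev i0 M) hm
      (evNormD_of_isDiamond M ℓ H hH i0))

/-- **(M3), final form** = the hypothesis `hM3` of `helper6431.stmt_KummerMod2_of'`, from
(INST1) alone. -/
theorem stmt_M3_of (hmult : Stmt_MultGamma1) :
    ∀ (M : ℕ) [NeZero M] [HasPrincipalDivisors Qb (E1 M)] (ℓ : ℕ), ℓ.Prime →
      LevelBig M ℓ → ∀ H : ∀ q : Nat.Primes, ¬ (q : ℕ) ∣ M * ℓ → HeckeDiamondAt (G1 M) q,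
        (∀ (q : Nat.Primes) (hq : ¬ (q : ℕ) ∣ M * ℓ),
          haveI : NeZero (q : ℕ) := ⟨q.2.ne_zero⟩; IsDiamond M (q : ℕ) (H q hq).D) →
        HasPeriodKummer M ℓ (galHecke (G1 M) (M * ℓ) H) := by
  intro M _ _ ℓ hℓ hL H hH
  exact hasPeriodKummer_of_dict (G1 M) M ℓ hℓ.ne_zero H (stmt_Dict_of hmult M ℓ hℓ hL H hH)

/-- **`Stmt_KummerMod2 LevelBig` from the leaf Props of (M1), (M2) and the one Prop of (M3)**
(acceptance test of the (M2)/(M3) seam: `helper6431.stmt_KummerMod2_of'` with `hM3` filled). -/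
theorem stmt_KummerMod2_of_m3
    (hJ : ∀ (M : ℕ) [NeZero M], (2 ∣ M ∨ 3 ∣ M) → 70 ≤ M → helper6431.Stmt_J1 M)
    (hTA : helper8782.Stmt_TowerA)
    (hI : ∀ (M : ℕ) [NeZero M], (2 ∣ M ∨ 3 ∣ M) → 70 ≤ M → ∀ (p : ℕ) [Fact p.Prime]
      (hpM : ¬ p ∣ M) (A : ValuationSubring Qb) (hA : A.LiesOverPrime p),
      helper8782.Stmt_IgusaGamma1 M p hpM A hA)
    (hR2 : ∀ (M : ℕ) [NeZero M], 70 ≤ M → ∀ h2M : 2 ∣ M, helper8782.Stmt_RamTwo M h2M)
    (hR3 : ∀ (M : ℕ) [NeZero M], 70 ≤ M → ∀ h3M : 3 ∣ M, helper8782.Stmt_RamThree M h3M)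
    (hDia : ∀ (M : ℕ) [NeZero M], (2 ∣ M ∨ 3 ∣ M) → 70 ≤ M → ∀ q : Nat.Primes,
      ¬ (q : ℕ) ∣ M → ∃ D : E1 M ≃ₐ[Qb] E1 M, IsDiamond M (q : ℕ) D)
    (hCov : ∀ (M : ℕ) [NeZero M], (2 ∣ M ∨ 3 ∣ M) → 70 ≤ M → ∀ q : Nat.Primes,
      ¬ (q : ℕ) ∣ M → ∀ D : E1 M ≃ₐ[Qb] E1 M, IsDiamond M (q : ℕ) D →
        haveI : NeZero (q : ℕ) := ⟨q.2.ne_zero⟩; helper6431.Stmt_Cover1 M (q : ℕ) D)
    (hmult : Stmt_MultGamma1) :
    Stmt_KummerMod2 LevelBig :=
  helper6431.stmt_KummerMod2_of' hJ hTA hI hR2 hR3 hDia hCov (stmt_M3_of hmult)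

end Fermat.Agent.S48.helper2754
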