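import Fermat.Agent.S48.helper7300_Gamma1Field
import Fermat.Agent.S48.helper8098_RatFormDeg

/-!
# S48-A2-RATFORM, part 4 (helper8098): the rational form `F1Q` of the `Γ₁(M)` field

`helper7300.gamma1FieldP L P M ⊆ L((q))` is the `Γ₁(M)` function field with constant field `L`
(normaliser `P`).  Here:

* `F1Q P M : IntermediateField ℚ (LaurentSeries ℚ)` := the series with rational coefficients
  lying in the `Γ₁(M)` field over `ℚ̄`;
* `laurentBaseChange_F1Q` : for EVERY field `L ⊇ ℚ` containing a primitive `M`-th root of unity,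
  `laurentBaseChange L (F1Q P M) = gamma1FieldP L P M`;
  so all the Prelude / landed machinery for `laurentBaseChange L F₀` (arithmetic Galois action,
  `Pic0`, places, Hecke correspondences, coefficient descent) applies to the `Γ₁(M)` field;
* `ratPoints_gamma1FieldP` : `ratPoints L (gamma1FieldP L P M) = F1Q P M` for every such `L`;
* `full_le_F1Q`, `F1Q_mono`, `relfinrank_gamma1FieldP`, `finrank_adjoin_simple_gamma1FieldP`
  (degrees over the `Γ₀(M)` field and over the `j`-line do not depend on `L`),
* `f1qEquiv` : the identification as an `L`-algebra isomorphism, equivariant for the two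
  arithmetic Galois actions (`f1qEquiv_arithmeticGalois_smul`).
-/

set_option autoImplicit false

noncomputable section

namespace Fermat.Agent.S48.helper8098

open ModularCurve HahnSeries IntermediateField Polynomial
open Fermat.Agent.S48.helper7300

/-! ## The cyclotomic field as a Galois number field (default `ℚ`-algebra structure) -/

section Cyclo

variable (M : ℕ) [NeZero M]

theorem isGalois_cyclotomicField_rat : IsGalois ℚ (CyclotomicField M ℚ) := by
  have h1 := CyclotomicField.isCyclotomicExtension M ℚ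
  have h : @IsGalois ℚ _ (CyclotomicField M ℚ) _ (CyclotomicField.algebra M ℚ) :=
    @IsCyclotomicExtension.isGalois {M} ℚ (CyclotomicField M ℚ) _ _
      (CyclotomicField.algebra M ℚ) _
  exact h

theorem exists_isPrimitiveRoot_cyclotomicField_rat :
    ∃ z : CyclotomicField M ℚ, IsPrimitiveRoot z M := by
  have h1 := CyclotomicField.isCyclotomicExtension M ℚ
  exact ⟨_, @IsCyclotomicExtension.zeta_spec M _ ℚ (CyclotomicField M ℚ) _ _
    (CyclotomicField.algebra M ℚ) _⟩

theorem nonempty_cyclotomicField_ringHom {L : Type*} [Field L] [CharZero L] {z : L}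
    (hz : IsPrimitiveRoot z M) : Nonempty (CyclotomicField M ℚ →+* L) := by
  have h1 := CyclotomicField.isCyclotomicExtension M ℚ
  have h2 := @IsCyclotomicExtension.isSplittingField_X_pow_sub_one M _ ℚ (CyclotomicField M ℚ)
    _ _ (CyclotomicField.algebra M ℚ) _
  have h3 : ((X ^ M - 1 : ℚ[X]).map (algebraMap ℚ L)).Splits := by
    have := X_pow_sub_one_splits hz
    simpa using this
  exact ⟨(@IsSplittingField.lift L ℚ (CyclotomicField M ℚ) _ _ _ (CyclotomicField.algebra M ℚ) _
    (X ^ M - 1 : ℚ[X]) h2 h3).toRingHom⟩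

/-- An algebraically closed field of characteristic zero has primitive roots of unity. -/
theorem exists_isPrimitiveRoot_of_isAlgClosed (L : Type*) [Field L] [CharZero L] [IsAlgClosed L] :
    ∃ z : L, IsPrimitiveRoot z M :=
  HasEnoughRootsOfUnity.exists_primitiveRoot L M

end Cyclo

/-! ## Generic: the identification of two equal intermediate fields

(Stated for variables and proved by `subst`, so that the kernel never has to compare the two
carriers.) -/

section EquivOfEq

variable {K E : Type*} [Field K] [Field E] [Algebra K E] {S T : IntermediateField K E}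

theorem coe_equivOfEq_apply (h : S = T) (x : ↥S) :
    ((IntermediateField.equivOfEq h x : ↥T) : E) = (x : E) := by
  subst h
  rfl

theorem coe_equivOfEq_symm_apply (h : S = T) (x : ↥T) :
    (((IntermediateField.equivOfEq h).symm x : ↥S) : E) = (x : E) := by
  subst h
  rfl

end EquivOfEq

/-! ## The rational form -/

section F1Q

variable (P : PowerSeries ℤ) (M : ℕ)

/-- **The rational form of the `Γ₁(M)` function field**: the Laurent series with rational
coefficients which lie in the `Γ₁(M)` field over `ℚ̄`. -/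
def F1Q : IntermediateField ℚ (LaurentSeries ℚ) :=
  ratPoints (AlgebraicClosure ℚ) (gamma1FieldP (AlgebraicClosure ℚ) P M)

variable {P M} in
theorem mem_F1Q_iff {y : LaurentSeries ℚ} :
    y ∈ F1Q P M ↔ coeffEmb (AlgebraicClosure ℚ) y ∈ gamma1FieldP (AlgebraicClosure ℚ) P M :=
  mem_ratPoints_iff

/-- The rational `Γ₀(M)` field is contained in the rational `Γ₁(M)` field. -/
theorem full_le_F1Q : modularFunctionFieldFull M ≤ F1Q P M :=
  laurentBaseChange_le_iff.mp (laurentBaseChange_le_gamma1FieldP (AlgebraicClosure ℚ) P M)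

variable {M} in
/-- Monotonicity in the level. -/
theorem F1Q_mono {M' : ℕ} (h : M ∣ M') : F1Q P M ≤ F1Q P M' :=
  ratPoints_mono (gamma1FieldP_mono P h)

variable [NeZero M]

/-- Key step: over a Galois number field `K` containing a primitive `M`-th root of unity, the
rational points of the `Γ₁(M)` field over `K` generate the `Γ₁(M)` field over every `L ⊇ K`. -/
theorem laurentBaseChange_ratPoints_gamma1FieldP {K : Type*} [Field K] [NumberField K]
    [IsGalois ℚ K] {L : Type*} [Field L] [Algebra ℚ L] (ι : K →+* L) {z : K}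
    (hz : IsPrimitiveRoot z M) :
    laurentBaseChange L (ratPoints K (gamma1FieldP K P M)) = gamma1FieldP L P M := by
  have h := laurentBaseChange_ratPoints_eq_adjoin_coeffMap ι
    (gamma1FieldP K P M : Set (LaurentSeries K))
    (fun s hs σ => coeffMap_mem_gamma1FieldP P _ hs)
  rw [IntermediateField.adjoin_self] at h
  rw [h, ← gamma1FieldP_eq_adjoin_image P ι hz]

/-- `F1Q` computed from the cyclotomic field. -/
theorem ratPoints_cyclotomicField_eq_F1Q :
    ratPoints (CyclotomicField M ℚ) (gamma1FieldP (CyclotomicField M ℚ) P M) = F1Q P M := by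
  have hgal := isGalois_cyclotomicField_rat M
  obtain ⟨z, hz⟩ := exists_isPrimitiveRoot_cyclotomicField_rat M
  obtain ⟨z₀, hz₀⟩ := exists_isPrimitiveRoot_of_isAlgClosed M (AlgebraicClosure ℚ)
  obtain ⟨ι₀⟩ := nonempty_cyclotomicField_ringHom M hz₀
  exact (ratPoints_eq_of_laurentBaseChange_eq
    (laurentBaseChange_ratPoints_gamma1FieldP P M ι₀ hz)).symm

/-- **The `Γ₁(M)` field over `L` is the base change of its rational form**, for every field
`L ⊇ ℚ` containing a primitive `M`-th root of unity. -/
theorem laurentBaseChange_F1Q (L : Type*) [Field L] [Algebra ℚ L]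
    (hL : ∃ z : L, IsPrimitiveRoot z M) :
    laurentBaseChange L (F1Q P M) = gamma1FieldP L P M := by
  have hgal := isGalois_cyclotomicField_rat M
  obtain ⟨z, hz⟩ := exists_isPrimitiveRoot_cyclotomicField_rat M
  obtain ⟨w, hw⟩ := hL
  have : CharZero L := algebraRat.charZero L
  obtain ⟨ι⟩ := nonempty_cyclotomicField_ringHom M hw
  rw [← ratPoints_cyclotomicField_eq_F1Q]
  exact laurentBaseChange_ratPoints_gamma1FieldP P M ι hz

/-- Algebraically closed coefficients. -/
theorem laurentBaseChange_F1Q_of_isAlgClosed (L : Type*) [Field L] [Algebra ℚ L] [IsAlgClosed L] :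
    laurentBaseChange L (F1Q P M) = gamma1FieldP L P M := by
  have : CharZero L := algebraRat.charZero L
  exact laurentBaseChange_F1Q P M L (exists_isPrimitiveRoot_of_isAlgClosed M L)

/-- Over `ℚ̄`: the carrier of the Kummer module. -/
theorem laurentBaseChange_F1Q_bar :
    laurentBaseChange (AlgebraicClosure ℚ) (F1Q P M) = gamma1FieldP (AlgebraicClosure ℚ) P M :=
  laurentBaseChange_F1Q_of_isAlgClosed P M (AlgebraicClosure ℚ)

/-- Over `ℂ`. -/
theorem laurentBaseChange_F1Q_complex :
    laurentBaseChange ℂ (F1Q P M) = gamma1FieldP ℂ P M :=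
  laurentBaseChange_F1Q_of_isAlgClosed P M ℂ

/-- The rational points of the `Γ₁(M)` field over any `L` with a primitive `M`-th root of
unity are `F1Q`. -/
theorem ratPoints_gamma1FieldP (L : Type*) [Field L] [Algebra ℚ L]
    (hL : ∃ z : L, IsPrimitiveRoot z M) :
    ratPoints L (gamma1FieldP L P M) = F1Q P M :=
  ratPoints_eq_of_laurentBaseChange_eq (laurentBaseChange_F1Q P M L hL)

variable {P M} in
/-- Membership transfer. -/
theorem coeffEmb_mem_gamma1FieldP (L : Type*) [Field L] [Algebra ℚ L]
    (hL : ∃ z : L, IsPrimitiveRoot z M) {y : LaurentSeries ℚ} (hy : y ∈ F1Q P M) :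
    coeffEmb L y ∈ gamma1FieldP L P M := by
  rw [← laurentBaseChange_F1Q P M L hL]
  exact coeffEmb_mem_laurentBaseChange L hy

variable {P M} in
theorem mem_F1Q_iff_of_isPrimitiveRoot (L : Type*) [Field L] [Algebra ℚ L]
    (hL : ∃ z : L, IsPrimitiveRoot z M) {y : LaurentSeries ℚ} :
    y ∈ F1Q P M ↔ coeffEmb L y ∈ gamma1FieldP L P M := by
  rw [← ratPoints_gamma1FieldP P M L hL, mem_ratPoints_iff]

/-! ### Degrees do not depend on the field of coefficients -/

/-- The degree of the `Γ₁(M)` field over the `Γ₀(M)` field is the same over every `L`. -/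
theorem relfinrank_gamma1FieldP (L : Type*) [Field L] [Algebra ℚ L]
    (hL : ∃ z : L, IsPrimitiveRoot z M) :
    (laurentBaseChange L (modularFunctionFieldFull M)).relfinrank (gamma1FieldP L P M) =
      (modularFunctionFieldFull M).relfinrank (F1Q P M) := by
  rw [← laurentBaseChange_F1Q P M L hL]
  exact relfinrank_laurentBaseChange L (full_le_F1Q P M)

/-- The degree of the `Γ₁(M)` field over a simple subextension `L(y)`, `y` rational (for
instance `y = j`), is the rational degree. -/
theorem finrank_adjoin_simple_gamma1FieldP (L : Type*) [Field L] [Algebra ℚ L]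
    (hL : ∃ z : L, IsPrimitiveRoot z M) {y : LaurentSeries ℚ} (hy : y ∈ F1Q P M) :
    Module.finrank
        L⟮(⟨coeffEmb L y, coeffEmb_mem_gamma1FieldP L hL hy⟩ : ↥(gamma1FieldP L P M))⟯
        ↥(gamma1FieldP L P M) =
      (ℚ⟮y⟯).relfinrank (F1Q P M) := by
  rw [finrank_adjoin_simple_eq_relfinrank]
  show (L⟮coeffEmb L y⟯).relfinrank (gamma1FieldP L P M) = _
  rw [← laurentBaseChange_F1Q P M L hL, ← laurentBaseChange_adjoin_simple]
  exact relfinrank_laurentBaseChange L (IntermediateField.adjoin_simple_le_iff.mpr hy)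

/-- Transfer of the degree over a rational simple subextension between two fields of
coefficients (for instance from `ℂ` to `ℚ̄`). -/
theorem finrank_adjoin_simple_gamma1FieldP_congr (L L' : Type*) [Field L] [Algebra ℚ L]
    [Field L'] [Algebra ℚ L'] (hL : ∃ z : L, IsPrimitiveRoot z M)
    (hL' : ∃ z : L', IsPrimitiveRoot z M) {y : LaurentSeries ℚ} (hy : y ∈ F1Q P M) :
    Module.finrank
        L⟮(⟨coeffEmb L y, coeffEmb_mem_gamma1FieldP L hL hy⟩ : ↥(gamma1FieldP L P M))⟯
        ↥(gamma1FieldP L P M) =
      Module.finrank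
        L'⟮(⟨coeffEmb L' y, coeffEmb_mem_gamma1FieldP L' hL' hy⟩ : ↥(gamma1FieldP L' P M))⟯
        ↥(gamma1FieldP L' P M) := by
  rw [finrank_adjoin_simple_gamma1FieldP P M L hL hy,
    finrank_adjoin_simple_gamma1FieldP P M L' hL' hy]

/-- Finiteness of the `Γ₁(M)` field over a rational simple subextension is decided at the
rational level. -/
theorem finiteDimensional_adjoin_simple_gamma1FieldP_iff (L : Type*) [Field L] [Algebra ℚ L]
    (hL : ∃ z : L, IsPrimitiveRoot z M) {y : LaurentSeries ℚ} (hy : y ∈ F1Q P M) :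
    FiniteDimensional
        L⟮(⟨coeffEmb L y, coeffEmb_mem_gamma1FieldP L hL hy⟩ : ↥(gamma1FieldP L P M))⟯
        ↥(gamma1FieldP L P M) ↔
      0 < (ℚ⟮y⟯).relfinrank (F1Q P M) := by
  rw [finiteDimensional_adjoin_simple_iff]
  show 0 < (L⟮coeffEmb L y⟯).relfinrank (gamma1FieldP L P M) ↔ _
  rw [← laurentBaseChange_F1Q P M L hL, ← laurentBaseChange_adjoin_simple,
    relfinrank_laurentBaseChange L (IntermediateField.adjoin_simple_le_iff.mpr hy)]

/-- Finiteness over a rational simple subextension, transferred between two fields of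
coefficients. -/
theorem finiteDimensional_adjoin_simple_gamma1FieldP_congr (L L' : Type*) [Field L]
    [Algebra ℚ L] [Field L'] [Algebra ℚ L'] (hL : ∃ z : L, IsPrimitiveRoot z M)
    (hL' : ∃ z : L', IsPrimitiveRoot z M) {y : LaurentSeries ℚ} (hy : y ∈ F1Q P M) :
    FiniteDimensional
        L⟮(⟨coeffEmb L y, coeffEmb_mem_gamma1FieldP L hL hy⟩ : ↥(gamma1FieldP L P M))⟯
        ↥(gamma1FieldP L P M) ↔
    FiniteDimensional
        L'⟮(⟨coeffEmb L' y, coeffEmb_mem_gamma1FieldP L' hL' hy⟩ : ↥(gamma1FieldP L' P M))⟯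
        ↥(gamma1FieldP L' P M) := by
  rw [finiteDimensional_adjoin_simple_gamma1FieldP_iff P M L hL hy,
    finiteDimensional_adjoin_simple_gamma1FieldP_iff P M L' hL' hy]

/-! ### The identification as an isomorphism, and the arithmetic Galois actions -/

/-- The identification `laurentBaseChange L (F1Q P M) ≃ gamma1FieldP L P M` (identity on
series). -/
def f1qEquiv (L : Type*) [Field L] [Algebra ℚ L] (hL : ∃ z : L, IsPrimitiveRoot z M) :
    ↥(laurentBaseChange L (F1Q P M)) ≃ₐ[L] ↥(gamma1FieldP L P M) :=
  IntermediateField.equivOfEq (laurentBaseChange_F1Q P M L hL)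

@[simp]
theorem coe_f1qEquiv (L : Type*) [Field L] [Algebra ℚ L] (hL : ∃ z : L, IsPrimitiveRoot z M)
    (x : ↥(laurentBaseChange L (F1Q P M))) :
    ((f1qEquiv P M L hL x : ↥(gamma1FieldP L P M)) : LaurentSeries L) = (x : LaurentSeries L) :=
  coe_equivOfEq_apply (laurentBaseChange_F1Q P M L hL) x

@[simp]
theorem coe_f1qEquiv_symm (L : Type*) [Field L] [Algebra ℚ L]
    (hL : ∃ z : L, IsPrimitiveRoot z M) (x : ↥(gamma1FieldP L P M)) :
    (((f1qEquiv P M L hL).symm x : ↥(laurentBaseChange L (F1Q P M))) : LaurentSeries L) =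
      (x : LaurentSeries L) :=
  coe_equivOfEq_symm_apply (laurentBaseChange_F1Q P M L hL) x

/-- The identification is equivariant for the Prelude arithmetic Galois action on
`laurentBaseChange L (F1Q P M)` and `helper7300.gamma1Galois`. -/
theorem f1qEquiv_arithmeticGalois_smul (L : Type*) [Field L] [Algebra ℚ L]
    (hL : ∃ z : L, IsPrimitiveRoot z M) (σ : L ≃ₐ[ℚ] L) (x : ↥(laurentBaseChange L (F1Q P M))) :
    f1qEquiv P M L hL (arithmeticGalois (F1Q P M) σ • x) =
      gamma1Galois P M σ • f1qEquiv P M L hL x := by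
  apply Subtype.ext
  rw [coe_gamma1Galois_smul, coe_f1qEquiv, coe_f1qEquiv, coe_arithmeticGalois_smul]

end F1Q

end Fermat.Agent.S48.helper8098
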