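import Fermat.Agent.S48.helper2122_DictGamma1
import Fermat.Agent.S48.helper2754_M3Final
import Fermat.Agent.S48.helper8098_Gamma1Rat

/-!
# S48 / M3-INST1 (helper2122): `helper2754.Stmt_MultGamma1`

The second (and last) Prop of the (M3) half of the machine (`helper2754_M3Final`): the multiplier
dictionary of the carrier of record `E1 M = helper7300.gamma1FieldBar M` for the evaluation of
record `helper5047.gamma1Ev i0 M`.

* `exists_primitiveRoot_units` : a primitive `n`-th root of unity in `ℂˣ`;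
* `stmt_MultGamma1_of_ratForm` : `Stmt_MultGamma1` from the rational form of the `Γ₁(M)` field
  (RATFORM: for every `M ≥ 7` a field `F₁ ≤ ℚ((q))` containing the rational `Γ₀(M)` field whose
  base changes to `ℚ̄` and to `ℂ` are the `Γ₁(M)` fields);
* `hasRatForm` : the rational form is `helper8098.F1Q phiZ M`;
* `multSpecG_gamma1Ev_F1Q` : the dictionary of `gamma1Ev i0 M` for every `M ≥ 7`, every embedding
  `i0`, every modulus `n > 0` and every primitive `n`-th root of unity `ζ`;
* `stmt_MultGamma1` : **`helper2754.Stmt_MultGamma1`**, unconditionally.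
-/

set_option autoImplicit false

open ModularCurve AlgebraicCurve IntermediateField UpperHalfPlane CongruenceSubgroup
open scoped MatrixGroups

noncomputable section

namespace Fermat.Agent.S48.helper2122

open Fermat.Agent.S48.helper5047 (gamma1Ev)
open Fermat.Agent.S48.helper7300 (gamma1Field gamma1FieldBar)

local notation "Qb" => AlgebraicClosure ℚ

/-- A primitive `n`-th root of unity in `ℂˣ`. -/
theorem exists_primitiveRoot_units {n : ℕ} (hn : n ≠ 0) : ∃ ζ : ℂˣ, IsPrimitiveRoot ζ n := by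
  have hz := Complex.isPrimitiveRoot_exp n hn
  refine ⟨(hz.isUnit hn).unit, IsPrimitiveRoot.coe_units_iff.mp ?_⟩
  rw [IsUnit.unit_spec]
  exact hz

/-- **(RATFORM)** the rational form of the `Γ₁(M)` field, in the shape consumed by the
dictionary: a field `F₁ ≤ ℚ((q))` containing the rational `Γ₀(M)` field, whose base changes to
`ℚ̄` and to `ℂ` are the `Γ₁(M)` fields. -/
def HasRatForm (M : ℕ) : Prop :=
  ∃ F₁ : IntermediateField ℚ (LaurentSeries ℚ),
    modularFunctionFieldFull M ≤ F₁ ∧ laurentBaseChange Qb F₁ = gamma1Field Qb M ∧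
      laurentBaseChange ℂ F₁ = gamma1Field ℂ M

/-- **(INST1) from the rational form.** -/
theorem stmt_MultGamma1_of_ratForm (hR : ∀ M : ℕ, 7 ≤ M → HasRatForm M) :
    helper2754.Stmt_MultGamma1 := by
  intro M _ _ ℓ hℓ hL
  obtain ⟨B, rfl, -, h7, h10, -⟩ := hL
  have hM : 7 ≤ B * ℓ := by nlinarith
  obtain ⟨F₁, hfull, hQ, hC⟩ := hR (B * ℓ) hM
  obtain ⟨ζ, hζ⟩ := exists_primitiveRoot_units hℓ.ne_zero
  exact ⟨Fermat.Agent.S24.helper1944.kappa, ζ, multSpecG_gamma1Ev hM Fermat.Agent.S24.helper1944.kappa hfull hQ hC hℓ.pos hζ⟩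

/-- The rational form of the `Γ₁(M)` field is `helper8098.F1Q phiZ M`. -/
theorem hasRatForm (M : ℕ) [NeZero M] : HasRatForm M :=
  ⟨helper8098.F1Q helper7300.phiZ M, helper8098.full_le_F1Q helper7300.phiZ M,
    helper8098.laurentBaseChange_F1Q_bar helper7300.phiZ M,
    helper8098.laurentBaseChange_F1Q_complex helper7300.phiZ M⟩

/-- **The multiplier relation of the evaluation of record of the `Γ₁(M)` field is a Kummer
dictionary**, for every `M ≥ 7`, every embedding `i0 : ℚ̄ → ℂ`, every modulus `n > 0` and every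
primitive `n`-th root of unity `ζ`. -/
theorem multSpecG_gamma1Ev_F1Q {M : ℕ} [NeZero M] (hM : 7 ≤ M) (i0 : Qb →+* ℂ)
    [HasPrincipalDivisors Qb (gamma1Field Qb M)]
    {n : ℕ} (hn : 0 < n) {ζ : ℂˣ} (hζ : IsPrimitiveRoot ζ n) :
    helper2756.MultSpecG Qb (Gamma1 M) n (MultMerG (Gamma1 M) (gamma1Ev i0 M) n ζ) := by
  obtain ⟨F₁, hfull, hQ, hC⟩ := hasRatForm M
  exact multSpecG_gamma1Ev hM i0 hfull hQ hC hn hζ

/-- **(INST1) `helper2754.Stmt_MultGamma1`**: the one Prop of the (M3) half of the machine. -/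
theorem stmt_MultGamma1 : helper2754.Stmt_MultGamma1 :=
  stmt_MultGamma1_of_ratForm fun M hM =>
    haveI : NeZero M := ⟨by omega⟩
    hasRatForm M

end Fermat.Agent.S48.helper2122
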