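import Fermat.Agent.S48.helper2122_DescGen
import Fermat.Agent.S48.helper2122_FinCGen

/-!
# S48 / M3-SURJ (helper2122): (TH4) for the base-change carrier of an arbitrary `ℚ`-form

`F₀ : IntermediateField ℚ (LaurentSeries ℚ)` containing `jq`, `F = laurentBaseChange ℚ̄ F₀`,
`FC = laurentBaseChange ℂ F₀` finite over `ℂ(j)`, `evC : FC →ₐ[ℂ] Mer` an analytic realisation.

`surj_baseChange` : from the instance-level inputs

* (INV)    `InvG Γ evC`,
* (RATIO)  `RatioIn Γ evC` (e.g. `ratioIn_of_series`),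
* (A)      a multiplicative set of denominators with holomorphic realisations of exponential
           growth at all cusps,
* (CPLACE) `CPlaceDvd hj evC n`,
* (ANDIV)  `AnDivG Γ' (evC ∘ bcG) n` for a group `Γ' ⊆ ±Γ` (e.g. `anDivG_of_pair`),

every integral parabolic homomorphism `ψ` of `Γ` is the multiplier of an `n`-Kummer function of
`F` (all the generic glue — twisted root, FINC, descent `ℂ → ℚ̄` — is done here).
-/

set_option autoImplicit false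

open ModularCurve AlgebraicCurve IntermediateField UpperHalfPlane
open scoped MatrixGroups

noncomputable section

namespace Fermat.Agent.S48.helper2122

open Fermat.Agent.S24.helper580 (Hol Mer)
open Fermat.Agent.S24 Fermat.Agent.S29

/-- **(DESC) for the base-change carrier**, from (INV), (RATIO), (A) and (CPLACE). -/
theorem descG_baseChange (Γ : Subgroup SL(2, ℤ)) [Γ.FiniteIndex]
    (i0 : AlgebraicClosure ℚ →+* ℂ) {F₀ : IntermediateField ℚ (LaurentSeries ℚ)} (hj : jq ∈ F₀)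
    [FiniteDimensional ℂ⟮helper8395.jL ℂ F₀ hj⟯ (laurentBaseChange ℂ F₀)]
    (evC : laurentBaseChange ℂ F₀ →ₐ[ℂ] Mer) (hinv : InvG Γ evC) (hRC : RatioIn Γ evC)
    (A : Submonoid (laurentBaseChange ℂ F₀))
    (hA : ∀ a ∈ A, ∃ E : Hol, algebraMap Hol Mer E = evC a ∧
      ∀ g : SL(2, ℤ), helper167.HasExpGrowth (fun τ => (E : ℍ → ℂ) (g • τ)))
    (hden : ∀ f : laurentBaseChange ℂ F₀, ∃ d ∈ A, d ≠ 0 ∧ f * d ∈ A)
    (n : ℕ) (hCP : CPlaceDvd hj evC n) : DescG (bcG i0 F₀) evC n :=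
  descG_of i0 hj evC n hCP (fun hn => finC_of_ratioIn hinv hRC A hA hden hn)

/-- **(TH4ₙ) for the base-change carrier.** -/
theorem surj_baseChange (Γ : Subgroup SL(2, ℤ)) [Γ.FiniteIndex]
    {Γ' : Subgroup SL(2, ℤ)} (hΓ' : ∀ g ∈ Γ', g ∈ Γ ∨ -g ∈ Γ)
    (i0 : AlgebraicClosure ℚ →+* ℂ) {F₀ : IntermediateField ℚ (LaurentSeries ℚ)} (hj : jq ∈ F₀)
    [FiniteDimensional ℂ⟮helper8395.jL ℂ F₀ hj⟯ (laurentBaseChange ℂ F₀)]
    (evC : laurentBaseChange ℂ F₀ →ₐ[ℂ] Mer) (hinv : InvG Γ evC) (hRC : RatioIn Γ evC)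
    (A : Submonoid (laurentBaseChange ℂ F₀))
    (hA : ∀ a ∈ A, ∃ E : Hol, algebraMap Hol Mer E = evC a ∧
      ∀ g : SL(2, ℤ), helper167.HasExpGrowth (fun τ => (E : ℍ → ℂ) (g • τ)))
    (hden : ∀ f : laurentBaseChange ℂ F₀, ∃ d ∈ A, d ≠ 0 ∧ f * d ∈ A)
    {n : ℕ} (hn : 0 < n) (hCP : CPlaceDvd hj evC n)
    (hAD : AnDivG Γ' ((evC : laurentBaseChange ℂ F₀ →+* Mer).comp (bcG i0 F₀)) n)
    {ζ : ℂˣ} (hζ : ζ ^ n = 1) (ψ : Additive ↥Γ →+ ℤ)
    (hψ : ψ ∈ Period.parabolicHoms ℤ Γ ℤ) :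
    ∃ u : laurentBaseChange (AlgebraicClosure ℚ) F₀,
      helper8217.IsKummer (AlgebraicClosure ℚ) n u ∧
      MultMerG Γ ((evC : laurentBaseChange ℂ F₀ →+* Mer).comp (bcG i0 F₀)) n ζ u ψ :=
  surjG hinv hRC (descG_baseChange Γ i0 hj evC hinv hRC A hA hden n hCP) hΓ' hAD hn hζ ψ hψ

end Fermat.Agent.S48.helper2122
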