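import Fermat.Agent.S18.helper2675_VertInst
import Fermat.Agent.S18.helper1267_ModelBase
import Fermat.Agent.S18.helper508_GaussBridge
import Fermat.Agent.S18.helper1733_GaussOrtho

/-!
# S48, block B (tower over the `Γ₀` field): the base of the tower

Two adapters on landed S18 files, for the tower step `F_M ⊆ E` (`E` the `Γ₁(M)` layer):

* `resDatum_model` : the residue datum `helper648.ResDatum` of the landed number-field model
  `helper1267.model` of `F_M` (one call of `helper2675.resDatumGauss`);
* `gaussSubring_comap_inclusion` : for ANY field `E` of `q`-series over `L` containing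
  `L · F_N` all of whose nonzero elements are normalisable, the formal Gauss valuation subring
  `helper8991.gaussSubring` of `E` restricts on `L · F_N` to the chain ring
  `helper508.gaussValuationSubring` (`= helper897.gaussO = helper1267.OLevel`);
  `gaussRed_inclusion` : its reduction map restricts to `helper508.gaussResidue`.
-/

set_option autoImplicit false
set_option synthInstance.maxHeartbeats 400000
set_option linter.unusedSectionVars false

noncomputable section

namespace Fermat.Agent.S48.helper2675

open ModularCurve IntermediateField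
open Fermat.Agent.S18
open Fermat.Agent.Lib

local notation "Qb" => AlgebraicClosure ℚ

section Base

variable (N : ℕ) [NeZero N] (K0 : IntermediateField ℚ Qb) (ℓ : ℕ) [Fact ℓ.Prime]
  (hℓN : ¬ ℓ ∣ N) (A : ValuationSubring Qb) (hA : A.LiesOverPrime ℓ)

/-- **The residue datum of the landed model of `F_N`** at the number-field level `K0`:
`κ = k0(j̄)`, `Fκ = modularFunctionFieldFullC k0 N` (`k0` the residue field of `A ∩ K0`),
`red = helper508.gaussResidue`. -/
def resDatum_model [FiniteDimensional ℚ K0] (ϖ ζ : ↥(helper4661.levelRing A K0))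
    (U h : helper1267.FLevel N K0) (θ : helper1267.Amb N) :
    helper648.ResDatum (helper1267.model N K0 ℓ hℓN A hA ϖ ζ U h θ) :=
  haveI : Finite (IsLocalRing.ResidueField ↥(helper4661.levelRing A K0)) :=
    helper6879.finite_residueField_layer A K0 (Fact.out : ℓ.Prime).ne_zero hA
  helper2675.resDatumGauss N ℓ hℓN (helper4661.levelRing A K0)
    (helper1267.natCast_mem_nonunits_levelRing K0 ℓ A hA)
    (helper1267.model N K0 ℓ hℓN A hA ϖ ζ U h θ) (RingEquiv.refl _) (fun _ => Iff.rfl) rfl
    (fun a => ⟨a, rfl⟩) (fun c => ⟨c, rfl⟩)

end Base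

section Comap

variable (N : ℕ) [NeZero N] (ℓ : ℕ) [Fact ℓ.Prime] (hℓN : ¬ ℓ ∣ N)
variable {L : Type*} [Field L] [Algebra ℚ L] (A : ValuationSubring L)
  (hA : (ℓ : L) ∈ A.nonunits)
variable (E : IntermediateField L (LaurentSeries L))
  (hE : ∀ f : LaurentSeries L, f ∈ E → f ≠ 0 →
    helper8991.IsNormalizable A (IsLocalRing.residue A) f)
  (hle : laurentBaseChange L (modularFunctionFieldFull N) ≤ E)

/-- The inclusion `L · F_N → E` as a ring homomorphism. -/
abbrev inclE : ↥(laurentBaseChange L (modularFunctionFieldFull N)) →+* ↥E :=
  (IntermediateField.inclusion hle).toRingHom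

theorem inclE_coe (f : ↥(laurentBaseChange L (modularFunctionFieldFull N))) :
    ((inclE N E hle f : ↥E) : LaurentSeries L) = (f : LaurentSeries L) := rfl

include hℓN hA in
/-- **The formal Gauss ring of `E` restricts to the Gauss ring of the chain on `L · F_N`.** -/
theorem gaussSubring_comap_inclusion :
    (helper8991.gaussSubring A (IsLocalRing.residue A) E hE).comap (inclE N E hle) =
      helper508.gaussValuationSubring N ℓ hℓN A hA := by
  rw [← helper508.gaussF_eq_gaussValuationSubring N ℓ hℓN A hA (IsLocalRing.residue A)
    IsLocalRing.residue_surjective]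
  ext f
  rfl

include hℓN hA in
theorem mem_gaussSubring_inclusion_iff
    (f : ↥(laurentBaseChange L (modularFunctionFieldFull N))) :
    inclE N E hle f ∈ helper8991.gaussSubring A (IsLocalRing.residue A) E hE ↔
      f ∈ helper508.gaussValuationSubring N ℓ hℓN A hA := by
  rw [← gaussSubring_comap_inclusion N ℓ hℓN A hA E hE hle]
  rfl

include hℓN hA in
/-- **The reduction map of `E` restricts to the residue map of the chain.** -/
theorem gaussRed_inclusion (f : ↥(laurentBaseChange L (modularFunctionFieldFull N)))
    (hf : f ∈ helper508.gaussValuationSubring N ℓ hℓN A hA)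
    (hf' : inclE N E hle f ∈ helper8991.gaussSubring A (IsLocalRing.residue A) E hE) :
    helper8991.gaussRed A (IsLocalRing.residue A) E hE ⟨inclE N E hle f, hf'⟩ =
      ((helper508.gaussResidue N ℓ hℓN A hA ⟨f, hf⟩ :
        ↥(modularFunctionFieldFullC (IsLocalRing.ResidueField A) N)) :
          LaurentSeries (IsLocalRing.ResidueField A)) := by
  have hf'' : f ∈ helper8991.gaussF A (IsLocalRing.residue A) N := hf'
  rw [← helper1733.gaussFRed_eq_gaussResidue N ℓ hℓN A hA f hf hf'']
  rfl

end Comap

end Fermat.Agent.S48.helper2675
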