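import Fermat.Agent.S48.helper6839_TowerFinal
import Fermat.Agent.S48.helper2675_BaseRes
import Fermat.Agent.S18.helper1622_HLineInst
import Fermat.Agent.S37.helper4799_TwoChartGeneric

/-!
# S48, block M1: the BASE hypotheses of the tower step, for the landed `Γ₀` model, on three lines

`helper6839.tower_kummer_res` / `tower_gauss_res` (the tower form of the S18 track-B machine)
consume, for the base field `F` of the layer, the Gauss data on a line `t`, transcendence and
finiteness of `F / K0(t)`, a constant `c0` prime to `ϖ` and the residue data of the Gauss place.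

* `BaseData K0 ϖ t O c0` : these hypotheses, bundled;
* `BaseData.tower_kummer`, `BaseData.tower_gauss` : the two theorems of `helper6839_TowerFinal`
  with the base binders replaced by one `BaseData`;
* `BaseData.withLine`, `BaseData.lineTwo`, `BaseData.lineThree` : change of line (generic), for
  a Hauptmodul `τ` with `t * τ ^ 2 = (τ + 256) ^ 3` resp. `t * τ ^ 3 = (τ + 27) * (τ + 243) ^ 3`;
* `baseData_jline`, `baseData_two`, `baseData_three` : the base data of the landed model
  `helper1267.FLevel N K0` with its Gauss ring `helper1267.OLevel`, on the `j`-line (residue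
  characteristic `≥ 5`, `c0 = -1728`), on the `t₂`-line (`2 ∣ N`, residue characteristic `≠ 2`,
  `c0 = 64`) and on the `t₃`-line (`3 ∣ N`, residue characteristic `≠ 3`, `c0 = 27`).
-/

set_option autoImplicit false
set_option synthInstance.maxHeartbeats 400000
set_option linter.unusedSectionVars false
set_option linter.style.haveILetI false

noncomputable section

namespace Fermat.Agent.S48.helper2675

open Module Polynomial
open Fermat.Agent.S18
open Fermat.Agent.S18.helper3578 (GaussData KData)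

/-- **The BASE hypotheses of the tower step**, bundled: Gauss data of the base field `F` on the
line `t`, transcendence and finiteness, a constant `c0` prime to `ϖ`, and the residue data of
the Gauss place (`red` onto `Fκ`, separable over `κ ∋ red A0, red t`, of degree at least
`[F : K0(t)]`). -/
structure BaseData (K0 : Type) {A0 F : Type} [CommRing A0] [Field K0] [Field F] [Algebra A0 F]
    [Algebra K0 F] (ϖ : A0) (t : F) (O : ValuationSubring F) (c0 : A0) where
  irr : Irreducible ϖ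
  gauss : GaussData ϖ t O
  transc : Transcendental K0 t
  finite : FiniteDimensional ↥(IntermediateField.adjoin K0 ({t} : Set F)) F
  c0_not_dvd : ¬ ϖ ∣ c0
  κ : Type
  Fκ : Type
  [fieldκ : Field κ]
  [fieldF : Field Fκ]
  [alg : Algebra κ Fκ]
  [sep : Algebra.IsSeparable κ Fκ]
  red : ↥O →+* Fκ
  red_surj : Function.Surjective red
  red_base : ∀ a : A0, red ⟨algebraMap A0 F a, gauss.le a⟩ ∈ Set.range (algebraMap κ Fκ)
  red_coord : red ⟨t, gauss.t_mem⟩ ∈ Set.range (algebraMap κ Fκ)
  finrank_le : finrank ↥(IntermediateField.adjoin K0 ({t} : Set F)) F ≤ finrank κ Fκ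

attribute [instance] BaseData.fieldκ BaseData.fieldF BaseData.alg BaseData.sep

section Consumers

variable (D : KData) {F : Type} [Field F] [Algebra D.K0 F] [Algebra D.A0 F]
  [IsScalarTower D.A0 D.K0 F] [Algebra F D.F0] [IsScalarTower D.K0 F D.F0]
  [IsScalarTower D.A0 F D.F0]

/-- **The tower Kummer step from bundled base data** (`helper6839.tower_kummer_res`). -/
theorem BaseData.tower_kummer {t : F} {O : ValuationSubring F} {c0 : D.A0}
    (B : BaseData D.K0 D.ϖ t O c0) (m : ℕ)
    (ht : algebraMap F D.F0 t = D.t) (hO : D.O.comap (algebraMap F D.F0) = O)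
    (pb : PowerBasis F D.F0) (hpb : IsIntegral ↥O pb.gen)
    (hdisc : (Algebra.discr F pb.basis)⁻¹ ∈ O)
    (hgenθ : Algebra.adjoin D.F0 ({D.θ} : Set D.L0) = ⊤)
    (hconstL : ∀ z : D.L0, IsAlgebraic D.K0 z → z ∈ Set.range (algebraMap D.K0 D.L0))
    (hm : IsUnit (m : D.A0)) (hζ : IsPrimitiveRoot D.ζ m) (hU : D.U ∈ D.O) (hU' : D.U⁻¹ ∈ D.O)
    (hh : D.h ∈ D.O) (hhU : D.h ^ m - D.U ∈ D.O.nonunits)
    (hθ : D.θ ^ m = algebraMap D.F0 D.L0 D.U)
    (bar : helper648.BarDatum D c0) :
    D.Good m ∧ Nonempty (helper648.Facts D c0) ∧ ∃ V : D.F0, V ^ m = D.U :=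
  haveI := B.finite
  helper6839.tower_kummer_res D m ht hO B.irr B.gauss B.transc c0 B.c0_not_dvd B.red B.red_surj
    B.red_base B.red_coord B.finrank_le pb hpb hdisc hgenθ hconstL hm hζ hU hU' hh hhU hθ bar

/-- **Igusa for the upper field from bundled base data** (`helper6839.tower_gauss_res`): the
valuation subring `D.O` over `O` is the integral closure of `O`, it is the Gauss place of
`D.F0`, and `D` has a residue datum. -/
theorem BaseData.tower_gauss {t : F} {O : ValuationSubring F} {c0 : D.A0}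
    (B : BaseData D.K0 D.ϖ t O c0)
    (ht : algebraMap F D.F0 t = D.t) (hO : D.O.comap (algebraMap F D.F0) = O)
    (hconst : ∀ z : D.F0, IsAlgebraic D.K0 z → z ∈ Set.range (algebraMap D.K0 D.F0))
    (pb : PowerBasis F D.F0) (hpb : IsIntegral ↥O pb.gen)
    (hdisc : (Algebra.discr F pb.basis)⁻¹ ∈ O)
    (bar : helper648.BarDatum (helper6839.layer D F t O) c0) :
    (∀ x : D.F0, x ∈ D.O ↔ IsIntegral ↥O x) ∧ GaussData D.ϖ D.t D.O ∧
      Nonempty (helper648.ResDatum D) :=
  haveI := B.finite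
  helper6839.tower_gauss_res D ht hO B.irr B.gauss B.transc hconst c0 B.c0_not_dvd B.red
    B.red_surj B.red_base B.red_coord B.finrank_le pb hpb hdisc bar

end Consumers

section LineChange

variable {A0 K0 F : Type} [CommRing A0] [IsDomain A0] [IsDiscreteValuationRing A0]
  [Field K0] [CharZero K0] [Algebra A0 K0] [IsFractionRing A0 K0] [Field F] [Algebra K0 F]
  [Algebra A0 F] [IsScalarTower A0 K0 F]

/-- The base field as a model with trivial upper layer (`L0 := F0`, `m = 1`). -/
abbrev triv (K0 : Type) {A0 F : Type} [CommRing A0] [IsDomain A0] [IsDiscreteValuationRing A0]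
    [Field K0] [CharZero K0] [Algebra A0 K0] [IsFractionRing A0 K0] [Field F] [Algebra K0 F]
    [Algebra A0 F] [IsScalarTower A0 K0 F] (ϖ : A0) (t : F) (O : ValuationSubring F) : KData :=
  { A0 := A0, K0 := K0, F0 := F, L0 := F, ϖ := ϖ, t := t, O := O, ζ := 1, U := 1, h := 1,
    θ := 1 }

variable {ϖ : A0} {t : F} {O : ValuationSubring F} {c0 : A0}

/-- The trivial model of a base field with base data and no new constants is good. -/
theorem triv_good (B : BaseData K0 ϖ t O c0)
    (hconst : ∀ z : F, IsAlgebraic K0 z → z ∈ Set.range (algebraMap K0 F)) :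
    (triv K0 ϖ t O).Good 1 where
  irr := B.irr
  gauss := B.gauss
  transc := B.transc
  finite := B.finite
  const := hconst
  unit_m := by
    show IsUnit ((1 : ℕ) : A0)
    rw [Nat.cast_one]
    exact isUnit_one
  prim_root := IsPrimitiveRoot.one
  U_mem := O.one_mem
  U_inv_mem := by
    show (1 : F)⁻¹ ∈ O
    rw [inv_one]
    exact O.one_mem
  h_mem := O.one_mem
  h_pow := by
    show (1 : F) ^ 1 - 1 ∈ O.nonunits
    rw [pow_one, sub_self, O.mem_nonunits_iff, map_zero]
    exact zero_lt_one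
  θ_pow := by
    show (1 : F) ^ 1 = algebraMap F F 1
    rw [pow_one, map_one]

/-- The residue datum of the trivial model. -/
def BaseData.resTriv (B : BaseData K0 ϖ t O c0) : helper648.ResDatum (triv K0 ϖ t O) where
  κ := B.κ
  Fκ := B.Fκ
  red := B.red
  red_surj := B.red_surj
  red_base := fun a _ => B.red_base a
  red_coord := fun _ => B.red_coord
  finrank_le := B.finrank_le

/-- **Change of line** for base data: if `t * τ ^ r = P(τ)` with `P ∈ A0[X]` monic of degree
`> r` and `P(0)` prime to `ϖ`, the base data on the `t`-line give base data on the `τ`-line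
(for any constant `c1` prime to `ϖ`). -/
def BaseData.withLine (B : BaseData K0 ϖ t O c0)
    (hconst : ∀ z : F, IsAlgebraic K0 z → z ∈ Set.range (algebraMap K0 F))
    (τ : F) (P : A0[X]) (hP : P.Monic) (r : ℕ) (hr : r < P.natDegree)
    (hP0 : ¬ ϖ ∣ P.coeff 0) (hrel : t * τ ^ r = aeval τ P) (c1 : A0) (hc1 : ¬ ϖ ∣ c1) :
    BaseData K0 ϖ τ O c1 :=
  have hD : (triv K0 ϖ t O).Good 1 := triv_good B hconst
  have hD' : (helper648.withLine (triv K0 ϖ t O) τ).Good 1 :=
    helper648.good_withLine (triv K0 ϖ t O) 1 hD τ P hP r hr (Or.inr hP0) hrel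
  { irr := B.irr
    gauss := hD'.gauss
    transc := hD'.transc
    finite := hD'.finite
    c0_not_dvd := hc1
    κ := (B.resTriv.withLine hD τ P hP r hr (Or.inr hP0) hrel).κ
    Fκ := (B.resTriv.withLine hD τ P hP r hr (Or.inr hP0) hrel).Fκ
    red := (B.resTriv.withLine hD τ P hP r hr (Or.inr hP0) hrel).red
    red_surj := (B.resTriv.withLine hD τ P hP r hr (Or.inr hP0) hrel).red_surj
    red_base := fun a => (B.resTriv.withLine hD τ P hP r hr (Or.inr hP0) hrel).red_base a _
    red_coord := (B.resTriv.withLine hD τ P hP r hr (Or.inr hP0) hrel).red_coord _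
    finrank_le := (B.resTriv.withLine hD τ P hP r hr (Or.inr hP0) hrel).finrank_le }

/-- **The Hauptmodul line of level two** (`t * τ ^ 2 = (τ + 256) ^ 3`, residue characteristic
`≠ 2`): base data on the `τ`-line with `c0 = 64`. -/
def BaseData.lineTwo (B : BaseData K0 ϖ t O c0)
    (hconst : ∀ z : F, IsAlgebraic K0 z → z ∈ Set.range (algebraMap K0 F))
    (τ : F) (h2 : ¬ ϖ ∣ 2) (hrel : t * τ ^ 2 = (τ + 256) ^ 3) : BaseData K0 ϖ τ O 64 :=
  have hprime : Prime ϖ := B.irr.prime
  B.withLine hconst τ ((X + C 256) ^ 3) ((monic_X_add_C 256).pow 3) 2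
    (by
      rw [(monic_X_add_C (256 : A0)).natDegree_pow, natDegree_X_add_C]
      norm_num)
    (by
      rw [coeff_zero_eq_eval_zero, eval_pow, eval_add, eval_X, eval_C, zero_add]
      intro h
      apply h2
      have e : (256 : A0) ^ 3 = 2 ^ 24 := by norm_num
      rw [e] at h
      exact hprime.dvd_of_dvd_pow h)
    (by rw [hrel, map_pow, map_add, aeval_X, aeval_C, map_ofNat])
    64
    (by
      intro h
      apply h2
      have e : (64 : A0) = 2 ^ 6 := by norm_num
      rw [e] at h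
      exact hprime.dvd_of_dvd_pow h)

/-- **The Hauptmodul line of level three** (`t * τ ^ 3 = (τ + 27) * (τ + 243) ^ 3`, residue
characteristic `≠ 3`): base data on the `τ`-line with `c0 = 27`. -/
def BaseData.lineThree (B : BaseData K0 ϖ t O c0)
    (hconst : ∀ z : F, IsAlgebraic K0 z → z ∈ Set.range (algebraMap K0 F))
    (τ : F) (h3 : ¬ ϖ ∣ 3) (hrel : t * τ ^ 3 = (τ + 27) * (τ + 243) ^ 3) :
    BaseData K0 ϖ τ O 27 :=
  have hprime : Prime ϖ := B.irr.prime
  B.withLine hconst τ ((X + C 27) * (X + C 243) ^ 3)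
    ((monic_X_add_C 27).mul ((monic_X_add_C 243).pow 3)) 3
    (by
      rw [(monic_X_add_C (27 : A0)).natDegree_mul ((monic_X_add_C 243).pow 3),
        (monic_X_add_C (243 : A0)).natDegree_pow, natDegree_X_add_C, natDegree_X_add_C]
      norm_num)
    (by
      rw [coeff_zero_eq_eval_zero, eval_mul, eval_pow, eval_add, eval_X, eval_C, zero_add,
        eval_add, eval_X, eval_C, zero_add]
      intro h
      apply h3
      have e : (27 : A0) * 243 ^ 3 = 3 ^ 18 := by norm_num
      rw [e] at h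
      exact hprime.dvd_of_dvd_pow h)
    (by
      rw [hrel, map_mul, map_pow, map_add, map_add, aeval_X, aeval_C, aeval_C, map_ofNat,
        map_ofNat])
    27
    (by
      intro h
      apply h3
      have e : (27 : A0) = 3 ^ 3 := by norm_num
      rw [e] at h
      exact hprime.dvd_of_dvd_pow h)

end LineChange

/-! ### The builder form (`helper1267.mkKData`) -/

section Builder

variable {A0 K0 F E Ω : Type} [CommRing A0] [IsDomain A0] [IsDiscreteValuationRing A0]
  [Field K0] [CharZero K0] [Algebra A0 K0] [IsFractionRing A0 K0]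
  [Field F] [Algebra K0 F] [Algebra A0 F] [IsScalarTower A0 K0 F]
  [Field E] [Algebra K0 E] [Algebra A0 E] [IsScalarTower A0 K0 E]
  [Algebra F E] [IsScalarTower K0 F E] [IsScalarTower A0 F E]
  [Field Ω] [Algebra E Ω]

/-- **The tower Kummer step for a model built by `helper1267.mkKData`** over a layer `E / F`:
`F` a base field with base data on the line `t`, `E = F[y]` a layer with unit discriminant,
`O'` a valuation subring of `E` over `O`, `U` a unit of `O'` with residual `m`-th root `h`,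
`θ ∈ Ω` with `θ ^ m = U`, no new constants in `E(θ)`, and the geometric datum of the model.
Then `U` is an `m`-th power in `E`. -/
theorem BaseData.tower_kummer_mk {ϖ : A0} {t : F} {O : ValuationSubring F} {c0 : A0}
    (B : BaseData K0 ϖ t O c0) (O' : ValuationSubring E)
    (hO : O'.comap (algebraMap F E) = O) (ζ : A0) (U h : E) (θ : Ω) (m : ℕ)
    (pb : PowerBasis F E) (hpb : IsIntegral ↥O pb.gen)
    (hdisc : (Algebra.discr F pb.basis)⁻¹ ∈ O)
    (hconst : ∀ z ∈ IntermediateField.adjoin E ({θ} : Set Ω), ∀ p : K0[X], p ≠ 0 →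
      eval₂ ((algebraMap E Ω).comp (algebraMap K0 E)) z p = 0 →
      ∃ c : K0, z = algebraMap E Ω (algebraMap K0 E c))
    (hm : IsUnit (m : A0)) (hζ : IsPrimitiveRoot ζ m) (hU : U ∈ O') (hU' : U⁻¹ ∈ O')
    (hh : h ∈ O') (hhU : h ^ m - U ∈ O'.nonunits) (hθ : θ ^ m = algebraMap E Ω U)
    (bar : helper648.BarDatum
      (helper1267.mkKData A0 K0 E Ω ϖ (algebraMap F E t) O' ζ U h θ) c0) :
    (helper1267.mkKData A0 K0 E Ω ϖ (algebraMap F E t) O' ζ U h θ).Good m ∧
      ∃ V : E, V ^ m = U := by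
  have hm0 : m ≠ 0 := by
    rintro rfl
    rw [Nat.cast_zero] at hm
    exact not_isUnit_zero hm
  have hgenθ := helper1267.mkKData_algebra_adjoin_θ (K0 := K0) ϖ (algebraMap F E t) O' ζ U h θ
    hm0 hθ
  have hconstL : ∀ z : (helper1267.mkKData A0 K0 E Ω ϖ (algebraMap F E t) O' ζ U h θ).L0,
      IsAlgebraic (helper1267.mkKData A0 K0 E Ω ϖ (algebraMap F E t) O' ζ U h θ).K0 z →
      z ∈ Set.range (algebraMap
        (helper1267.mkKData A0 K0 E Ω ϖ (algebraMap F E t) O' ζ U h θ).K0
        (helper1267.mkKData A0 K0 E Ω ϖ (algebraMap F E t) O' ζ U h θ).L0) := by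
    intro z hz
    obtain ⟨p, hp0, hp⟩ := hz
    have h1 := congrArg (helper1267.mkKData_incl (K0 := K0) ϖ (algebraMap F E t) O' ζ U h θ) hp
    rw [map_zero, aeval_def, hom_eval₂] at h1
    obtain ⟨c, hc⟩ := hconst _
      (helper1267.mkKData_incl_mem (K0 := K0) ϖ (algebraMap F E t) O' ζ U h θ z) p hp0 h1
    exact ⟨c, (helper1267.mkKData_incl_injective (K0 := K0) ϖ (algebraMap F E t) O' ζ U h θ
      hc).symm⟩
  letI i1 : Algebra (helper1267.mkKData A0 K0 E Ω ϖ (algebraMap F E t) O' ζ U h θ).K0 F :=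
    inferInstanceAs (Algebra K0 F)
  letI i2 : Algebra (helper1267.mkKData A0 K0 E Ω ϖ (algebraMap F E t) O' ζ U h θ).A0 F :=
    inferInstanceAs (Algebra A0 F)
  haveI i3 : IsScalarTower (helper1267.mkKData A0 K0 E Ω ϖ (algebraMap F E t) O' ζ U h θ).A0
      (helper1267.mkKData A0 K0 E Ω ϖ (algebraMap F E t) O' ζ U h θ).K0 F :=
    inferInstanceAs (IsScalarTower A0 K0 F)
  letI i4 : Algebra F (helper1267.mkKData A0 K0 E Ω ϖ (algebraMap F E t) O' ζ U h θ).F0 :=
    inferInstanceAs (Algebra F E)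
  haveI i5 : IsScalarTower (helper1267.mkKData A0 K0 E Ω ϖ (algebraMap F E t) O' ζ U h θ).K0 F
      (helper1267.mkKData A0 K0 E Ω ϖ (algebraMap F E t) O' ζ U h θ).F0 :=
    inferInstanceAs (IsScalarTower K0 F E)
  haveI i6 : IsScalarTower (helper1267.mkKData A0 K0 E Ω ϖ (algebraMap F E t) O' ζ U h θ).A0 F
      (helper1267.mkKData A0 K0 E Ω ϖ (algebraMap F E t) O' ζ U h θ).F0 :=
    inferInstanceAs (IsScalarTower A0 F E)
  have B' : BaseData (helper1267.mkKData A0 K0 E Ω ϖ (algebraMap F E t) O' ζ U h θ).K0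
      (helper1267.mkKData A0 K0 E Ω ϖ (algebraMap F E t) O' ζ U h θ).ϖ t O c0 := B
  obtain ⟨hgood, -, V, hV⟩ :=
    @BaseData.tower_kummer (helper1267.mkKData A0 K0 E Ω ϖ (algebraMap F E t) O' ζ U h θ) F _
      i1 i2 i3 i4 i5 i6 t O c0 B' m rfl hO pb hpb hdisc hgenθ hconstL hm hζ hU hU' hh hhU (Subtype.ext hθ) bar
  exact ⟨hgood, V, hV⟩

end Builder

/-! ### The landed `Γ₀` model -/

section Concrete

open ModularCurve IntermediateField
open Fermat.Agent.Lib
open Fermat.Agent.S18.helper1267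

local notation "Qb" => AlgebraicClosure ℚ

variable (N : ℕ) [NeZero N] (K0 : IntermediateField ℚ Qb)

/-- `K0` is algebraically closed in the level-`K0` function field (a field of `q`-series over
`K0`). -/
theorem const_FLevel (z : FLevel N K0) (hz : IsAlgebraic ↥K0 z) :
    z ∈ Set.range (algebraMap ↥K0 (FLevel N K0)) := by
  have h1 : IsAlgebraic ↥K0 ((z : FLevel N K0) : LaurentSeries ↥K0) :=
    hz.algHom (laurentBaseChange ↥K0 (modularFunctionFieldFull N)).val
  obtain ⟨c, hc⟩ := Fermat.Agent.S37.helper4799.laurent_eq_algebraMap_of_isAlgebraic _ h1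
  exact ⟨c, Subtype.ext hc.symm⟩

variable (ℓ : ℕ) [Fact ℓ.Prime] (hℓN : ¬ ℓ ∣ N) (A : ValuationSubring Qb)
  (hA : A.LiesOverPrime ℓ)

/-- Base data of the landed model on the `j`-line, for any constant `c0` prime to `ϖ`. -/
def baseData_jline_of [FiniteDimensional ℚ K0] (ϖ : ↥(helper4661.levelRing A K0))
    (hϖ : Irreducible ϖ) (c0 : ↥(helper4661.levelRing A K0)) (hc0 : ¬ ϖ ∣ c0) :
    BaseData ↥K0 ϖ (helper897.jF N ↥K0) (OLevel N K0 ℓ hℓN A hA) c0 :=
  haveI : IsDiscreteValuationRing ↥(helper4661.levelRing A K0) :=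
    isDiscreteValuationRing_levelRing K0 ℓ A hA
  { irr := hϖ
    gauss := helper897.gaussData N ℓ hℓN (helper4661.levelRing A K0)
      (natCast_mem_nonunits_levelRing K0 ℓ A hA) ϖ (Irreducible.maximalIdeal_eq hϖ)
    transc := helper897.transcendental_jF N
    finite := helper897.finiteDimensional_adjoin_jF N ℓ hℓN (helper4661.levelRing A K0)
      (natCast_mem_nonunits_levelRing K0 ℓ A hA)
    c0_not_dvd := hc0
    κ := (resDatum_model N K0 ℓ hℓN A hA ϖ 1 1 1 1).κ
    Fκ := (resDatum_model N K0 ℓ hℓN A hA ϖ 1 1 1 1).Fκ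
    red := (resDatum_model N K0 ℓ hℓN A hA ϖ 1 1 1 1).red
    red_surj := (resDatum_model N K0 ℓ hℓN A hA ϖ 1 1 1 1).red_surj
    red_base := fun a => (resDatum_model N K0 ℓ hℓN A hA ϖ 1 1 1 1).red_base a _
    red_coord := (resDatum_model N K0 ℓ hℓN A hA ϖ 1 1 1 1).red_coord _
    finrank_le := (resDatum_model N K0 ℓ hℓN A hA ϖ 1 1 1 1).finrank_le }

include hA in
/-- A uniformiser of `A ∩ K0` does not divide a numeral prime to the residue
characteristic. -/
theorem not_dvd_ofNat_levelRing {ϖ : ↥(helper4661.levelRing A K0)} (hϖ : Irreducible ϖ)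
    (n : ℕ) [n.AtLeastTwo] (hn : ¬ ℓ ∣ n) :
    ¬ ϖ ∣ (OfNat.ofNat n : ↥(helper4661.levelRing A K0)) := by
  have h := not_dvd_natCast_levelRing K0 ℓ A hA hϖ hn
  exact h

/-- **Base data of the landed model on the `j`-line** (residue characteristic `≥ 5`,
`c0 = -1728`). -/
def baseData_jline [FiniteDimensional ℚ K0] (ϖ : ↥(helper4661.levelRing A K0))
    (hϖ : Irreducible ϖ) (h6 : ¬ ℓ ∣ 6) :
    BaseData ↥K0 ϖ (helper897.jF N ↥K0) (OLevel N K0 ℓ hℓN A hA) (-1728) :=
  baseData_jline_of N K0 ℓ hℓN A hA ϖ hϖ (-1728) (by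
    have h1728 : ¬ ℓ ∣ 1728 := by
      intro h
      have hℓ : ℓ.Prime := Fact.out
      have e : (1728 : ℕ) = 2 ^ 6 * 3 ^ 3 := by norm_num
      rw [e] at h
      rcases (Nat.Prime.dvd_mul hℓ).mp h with h' | h'
      · exact h6 (Dvd.dvd.mul_right (hℓ.dvd_of_dvd_pow h') 3)
      · exact h6 (Dvd.dvd.mul_left (hℓ.dvd_of_dvd_pow h') 2)
    intro hd
    exact not_dvd_ofNat_levelRing K0 ℓ A hA hϖ 1728 h1728 ((dvd_neg).mp hd))

/-- **Base data of the landed model on the `t₂`-line** (`2 ∣ N`, residue characteristic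
`≠ 2`, `c0 = 64`). -/
def baseData_two [FiniteDimensional ℚ K0] (ϖ : ↥(helper4661.levelRing A K0))
    (hϖ : Irreducible ϖ) (h2N : 2 ∣ N) (hℓ2 : ℓ ≠ 2) :
    BaseData ↥K0 ϖ (helper1622.t2L ↥K0 N h2N) (OLevel N K0 ℓ hℓN A hA) 64 :=
  haveI : IsDiscreteValuationRing ↥(helper4661.levelRing A K0) :=
    isDiscreteValuationRing_levelRing K0 ℓ A hA
  haveI : IsScalarTower ↥(helper4661.levelRing A K0) ↥K0 (FLevel N K0) :=
    isScalarTower_levelRing N K0 A
  (baseData_jline_of N K0 ℓ hℓN A hA ϖ hϖ 1 (fun h => hϖ.not_isUnit (isUnit_of_dvd_one h))).lineTwo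
    (const_FLevel N K0) (helper1622.t2L ↥K0 N h2N)
    (not_dvd_ofNat_levelRing K0 ℓ A hA hϖ 2 (fun h =>
      hℓ2 ((Nat.prime_dvd_prime_iff_eq Fact.out Nat.prime_two).mp h)))
    (helper1622.subtype_rel_two _ (helper897.jF N ↥K0) (helper1622.t2L ↥K0 N h2N) rfl rfl)

/-- **Base data of the landed model on the `t₃`-line** (`3 ∣ N`, residue characteristic
`≠ 3`, `c0 = 27`). -/
def baseData_three [FiniteDimensional ℚ K0] (ϖ : ↥(helper4661.levelRing A K0))
    (hϖ : Irreducible ϖ) (h3N : 3 ∣ N) (hℓ3 : ℓ ≠ 3) :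
    BaseData ↥K0 ϖ (helper1622.t3L ↥K0 N h3N) (OLevel N K0 ℓ hℓN A hA) 27 :=
  haveI : IsDiscreteValuationRing ↥(helper4661.levelRing A K0) :=
    isDiscreteValuationRing_levelRing K0 ℓ A hA
  haveI : IsScalarTower ↥(helper4661.levelRing A K0) ↥K0 (FLevel N K0) :=
    isScalarTower_levelRing N K0 A
  (baseData_jline_of N K0 ℓ hℓN A hA ϖ hϖ 1
      (fun h => hϖ.not_isUnit (isUnit_of_dvd_one h))).lineThree
    (const_FLevel N K0) (helper1622.t3L ↥K0 N h3N)
    (not_dvd_ofNat_levelRing K0 ℓ A hA hϖ 3 (fun h =>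
      hℓ3 ((Nat.prime_dvd_prime_iff_eq Fact.out Nat.prime_three).mp h)))
    (helper1622.subtype_rel_three _ (helper897.jF N ↥K0) (helper1622.t3L ↥K0 N h3N) rfl rfl)

/-- **The tower Kummer step over the landed `Γ₀` model**, on any line `τ` with base data (one of
`baseData_jline`, `baseData_two`, `baseData_three`), for a model built by `helper1267.mkKData`
on a layer `E` of the level-`K0` function field `FLevel N K0`. -/
theorem tower_kummer_level [FiniteDimensional ℚ K0] {ϖ : ↥(helper4661.levelRing A K0)}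
    {τ : FLevel N K0} {c0 : ↥(helper4661.levelRing A K0)}
    (B : BaseData ↥K0 ϖ τ (OLevel N K0 ℓ hℓN A hA) c0)
    {E Ω : Type} [Field E] [Algebra ↥K0 E] [Algebra ↥(helper4661.levelRing A K0) E]
    [IsScalarTower ↥(helper4661.levelRing A K0) ↥K0 E] [Algebra (FLevel N K0) E]
    [IsScalarTower ↥K0 (FLevel N K0) E] [IsScalarTower ↥(helper4661.levelRing A K0) (FLevel N K0) E]
    [Field Ω] [Algebra E Ω]
    (O' : ValuationSubring E)
    (hO : O'.comap (algebraMap (FLevel N K0) E) = OLevel N K0 ℓ hℓN A hA)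
    (ζ : ↥(helper4661.levelRing A K0)) (U h : E) (θ : Ω) (m : ℕ)
    (pb : PowerBasis (FLevel N K0) E) (hpb : IsIntegral ↥(OLevel N K0 ℓ hℓN A hA) pb.gen)
    (hdisc : (Algebra.discr (FLevel N K0) pb.basis)⁻¹ ∈ OLevel N K0 ℓ hℓN A hA)
    (hconst : ∀ z ∈ IntermediateField.adjoin E ({θ} : Set Ω), ∀ p : (↥K0)[X], p ≠ 0 →
      eval₂ ((algebraMap E Ω).comp (algebraMap ↥K0 E)) z p = 0 →
      ∃ c : ↥K0, z = algebraMap E Ω (algebraMap ↥K0 E c))
    (hm : ¬ ℓ ∣ m) (hζ : IsPrimitiveRoot ζ m) (hU : U ∈ O') (hU' : U⁻¹ ∈ O')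
    (hh : h ∈ O') (hhU : h ^ m - U ∈ O'.nonunits) (hθ : θ ^ m = algebraMap E Ω U) :
    haveI : IsDiscreteValuationRing ↥(helper4661.levelRing A K0) :=
      isDiscreteValuationRing_levelRing K0 ℓ A hA
    ∀ _ : helper648.BarDatum
      (helper1267.mkKData ↥(helper4661.levelRing A K0) ↥K0 E Ω ϖ
        (algebraMap (FLevel N K0) E τ) O' ζ U h θ) c0,
    ∃ V : E, V ^ m = U := by
  haveI : IsDiscreteValuationRing ↥(helper4661.levelRing A K0) :=
    isDiscreteValuationRing_levelRing K0 ℓ A hA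
  haveI : IsScalarTower ↥(helper4661.levelRing A K0) ↥K0 (FLevel N K0) :=
    isScalarTower_levelRing N K0 A
  intro bar
  exact (B.tower_kummer_mk O' hO ζ U h θ m pb hpb hdisc hconst
    (isUnit_natCast_levelRing K0 ℓ A hA hm) hζ hU hU' hh hhU hθ bar).2

end Concrete

end Fermat.Agent.S48.helper2675
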