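import Fermat.Agent.S18.helper1581_VertChart

/-!
# S48, block B (tower over the `Γ₀` field): the vertical unit discriminant of the BASE layer

The tower step for clause (c) (`helper3552.vertF_tower`, `E = F[y]` over `F`) consumes the
clause (c) of the lower layer `F / K(τ)` in the `VertF` shape, at the `F`-level:

  `∃ ι c dp, (∀ i, IsIntegral A[τ] (c i)) ∧ discr_{K(τ)} c = dp(τ) ∧ ∃ i, ¬ ϖ ∣ dp.coeff i`
  (`c` a `K(τ)`-basis of `F`).

This file supplies it from the Gauss data and the residue data of `F` alone (no Kummer layer):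

* `baseVert_of_gaussData` : chart `τ = t`;
* `baseVert_inv_of_gaussData` : chart `τ = t⁻¹`;
* `baseVert_of_resDatum` : both charts for the base field `D.F0` of a good model with a residue
  datum `helper648.ResDatum D` (whatever the upper layer `D.L0` is).

Proof: the landed VERT theorem `helper1581.exists_basis_discr_of_gaussData` with the trivial
Kummer layer `L0 := F0`, `m := 1`, `θ = U = ζ = 1`.
-/

set_option autoImplicit false
set_option synthInstance.maxHeartbeats 400000
set_option linter.unusedSectionVars false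
set_option linter.style.haveILetI false

noncomputable section

namespace Fermat.Agent.S48.helper2675

open Module Polynomial
open Fermat.Agent.S18
open Fermat.Agent.S18.helper3578 (GaussData KData)

section Base

variable {A0 K0 F0 : Type*} [CommRing A0] [IsDomain A0] [IsIntegrallyClosed A0] [Field K0]
  [Algebra A0 K0] [IsFractionRing A0 K0] [Field F0] [Algebra K0 F0] [Algebra A0 F0]
  [IsScalarTower A0 K0 F0]

/-- **Clause (c) of the base layer, chart `t`**, in the `hF` shape of the tower step:
a `K0(t)`-basis of `F0`, integral over `A0[t]`, with discriminant `dp(t)`, `dp ∈ A0[X]` with a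
coefficient prime to `ϖ`. -/
theorem baseVert_of_gaussData {ϖ : A0} {t : F0} {O : ValuationSubring F0}
    (hG : GaussData ϖ t O) (htr : Transcendental K0 t)
    [FiniteDimensional ↥(IntermediateField.adjoin K0 ({t} : Set F0)) F0]
    {κ Fκ : Type*} [Field κ] [Field Fκ] [Algebra κ Fκ] [Algebra.IsSeparable κ Fκ]
    (red : O →+* Fκ) (hred : Function.Surjective red)
    (hRA : ∀ a : A0, red ⟨algebraMap A0 F0 a, hG.le a⟩ ∈ Set.range (algebraMap κ Fκ))
    (hRt : red ⟨t, hG.t_mem⟩ ∈ Set.range (algebraMap κ Fκ))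
    (hR3 : finrank ↥(IntermediateField.adjoin K0 ({t} : Set F0)) F0 ≤ finrank κ Fκ) :
    ∃ (ι : Type) (_ : Fintype ι) (_ : DecidableEq ι)
      (c : Basis ι ↥(IntermediateField.adjoin K0 ({t} : Set F0)) F0) (dp : A0[X]),
      (∀ i, IsIntegral ↥(Algebra.adjoin A0 ({t} : Set F0)) (c i)) ∧
      algebraMap ↥(IntermediateField.adjoin K0 ({t} : Set F0)) F0
        (Algebra.discr ↥(IntermediateField.adjoin K0 ({t} : Set F0)) c) = aeval t dp ∧
      ∃ i, ¬ ϖ ∣ dp.coeff i := by
  have htA : Transcendental A0 t := htr.restrictScalars (IsFractionRing.injective A0 K0)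
  letI := helper403.algebraAdjoinSimple (A := A0) (K := K0) t
  haveI := helper403.isFractionRing_adjoinSimple (A := A0) (K := K0) t
  haveI := helper403.isScalarTower_adjoinSimple (A := A0) (K := K0) t
  haveI : IsIntegrallyClosed ↥(Algebra.adjoin A0 ({t} : Set F0)) :=
    helper403.isIntegrallyClosed_adjoin t htA
  have hgen : finrank F0 F0 = (minpoly F0 (1 : F0)).natDegree := by
    have h1 : (X - 1 : F0[X]) = X - C 1 := by simp
    rw [Module.finrank_self, minpoly.one, h1, natDegree_X_sub_C]
  obtain ⟨ι, hFin, hDec, c, d, hint, hcd, hnd⟩ :=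
    helper1581.exists_basis_discr_of_gaussData (K0 := K0) (L0 := F0) hG t rfl
      (K := ↥(IntermediateField.adjoin K0 ({t} : Set F0))) red hred hRA hRt hR3
      1 one_pos (by simp) 1 IsPrimitiveRoot.one 1 1 (by simp) O.one_mem
      (by rw [inv_one]; exact O.one_mem) hgen
  have hd : helper403.polyEquivAdjoin t htA ((helper403.polyEquivAdjoin t htA).symm d) = d :=
    (helper403.polyEquivAdjoin t htA).apply_symm_apply d
  refine ⟨ι, hFin, hDec, c, (helper403.polyEquivAdjoin t htA).symm d, hint, ?_, ?_⟩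
  · rw [← helper403.polyEquivAdjoin_coe t htA, hd, hcd]
    exact helper403.algebraAdjoinSimple_coe (A := A0) (K := K0) t d
  · by_contra hall
    apply hnd
    have hall' : ∀ i, ϖ ∣ ((helper403.polyEquivAdjoin t htA).symm d).coeff i := by
      intro i
      by_contra hi
      exact hall ⟨i, hi⟩
    have h := (helper403.algebraMap_dvd_polyEquivAdjoin_iff t htA ϖ
      ((helper403.polyEquivAdjoin t htA).symm d)).mpr hall'
    rwa [hd] at h

/-- **Clause (c) of the base layer, chart `t⁻¹`** (same residue data as for the chart `t`). -/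
theorem baseVert_inv_of_gaussData {ϖ : A0} {t : F0} {O : ValuationSubring F0}
    (hG : GaussData ϖ t O) (htr : Transcendental K0 t)
    [FiniteDimensional ↥(IntermediateField.adjoin K0 ({t} : Set F0)) F0]
    {κ Fκ : Type*} [Field κ] [Field Fκ] [Algebra κ Fκ] [Algebra.IsSeparable κ Fκ]
    (red : O →+* Fκ) (hred : Function.Surjective red)
    (hRA : ∀ a : A0, red ⟨algebraMap A0 F0 a, hG.le a⟩ ∈ Set.range (algebraMap κ Fκ))
    (hRt : red ⟨t, hG.t_mem⟩ ∈ Set.range (algebraMap κ Fκ))
    (hR3 : finrank ↥(IntermediateField.adjoin K0 ({t} : Set F0)) F0 ≤ finrank κ Fκ) :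
    ∃ (ι : Type) (_ : Fintype ι) (_ : DecidableEq ι)
      (c : Basis ι ↥(IntermediateField.adjoin K0 ({t⁻¹} : Set F0)) F0) (dp : A0[X]),
      (∀ i, IsIntegral ↥(Algebra.adjoin A0 ({t⁻¹} : Set F0)) (c i)) ∧
      algebraMap ↥(IntermediateField.adjoin K0 ({t⁻¹} : Set F0)) F0
        (Algebra.discr ↥(IntermediateField.adjoin K0 ({t⁻¹} : Set F0)) c) = aeval t⁻¹ dp ∧
      ∃ i, ¬ ϖ ∣ dp.coeff i := by
  have hG1 := helper4364.gaussData_inv hG
  have ht0 : t ≠ 0 := helper4364.GaussData_t_ne_zero hG
  haveI : FiniteDimensional ↥(IntermediateField.adjoin K0 ({t⁻¹} : Set F0)) F0 :=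
    helper403.finiteDimensional_adjoinSimple_inv t
  have hRt1 : red ⟨t⁻¹, hG1.t_mem⟩ ∈ Set.range (algebraMap κ Fκ) := by
    obtain ⟨a, ha⟩ := hRt
    have h1 : (⟨t, hG.t_mem⟩ : O) * ⟨t⁻¹, hG1.t_mem⟩ = 1 :=
      Subtype.ext (mul_inv_cancel₀ ht0)
    have h2 := congrArg red h1
    rw [map_mul, map_one, ← ha] at h2
    exact ⟨a⁻¹, by rw [map_inv₀, eq_inv_of_mul_eq_one_right h2]⟩
  have hR31 : finrank ↥(IntermediateField.adjoin K0 ({t⁻¹} : Set F0)) F0 ≤ finrank κ Fκ := by
    rw [helper403.adjoinSimple_inv]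
    exact hR3
  exact baseVert_of_gaussData hG1 (helper403.transcendental_inv htr) red hred hRA hRt1 hR31

end Base

section KDataBase

/-- **Clause (c) for the base field of a good model with a residue datum**, on both charts
`τ ∈ {t, t⁻¹}`, at the `F0`-level (the upper layer `D.L0` plays no role): the hypothesis `hF`
of the tower step `helper3552.vertF_tower` with `A := D.A0`, `K := D.K0`, `F := D.F0`. -/
theorem baseVert_of_resDatum (D : KData) {m : ℕ} (hg : D.Good m) (R : helper648.ResDatum D)
    [FiniteDimensional ↥(IntermediateField.adjoin D.K0 ({D.t} : Set D.F0)) D.F0]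
    (τ : D.F0) (hτ : τ = D.t ∨ τ = D.t⁻¹) :
    ∃ (ι : Type) (_ : Fintype ι) (_ : DecidableEq ι)
      (c : Basis ι ↥(IntermediateField.adjoin D.K0 ({τ} : Set D.F0)) D.F0) (dp : D.A0[X]),
      (∀ i, IsIntegral ↥(Algebra.adjoin D.A0 ({τ} : Set D.F0)) (c i)) ∧
      algebraMap ↥(IntermediateField.adjoin D.K0 ({τ} : Set D.F0)) D.F0
        (Algebra.discr ↥(IntermediateField.adjoin D.K0 ({τ} : Set D.F0)) c) = aeval τ dp ∧
      ∃ i, ¬ D.ϖ ∣ dp.coeff i := by
  rcases hτ with rfl | rfl
  · exact baseVert_of_gaussData hg.gauss hg.transc R.red R.red_surj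
      (fun a => R.red_base a _) (R.red_coord _) R.finrank_le
  · exact baseVert_inv_of_gaussData hg.gauss hg.transc R.red R.red_surj
      (fun a => R.red_base a _) (R.red_coord _) R.finrank_le

/-- Finiteness descends along the tower: if `L` is finite over `K(tL)`, `tL` the image of
`t ∈ F`, then `F` is finite over `K(t)`. -/
theorem finiteDimensional_adjoin_of_algebraMap {K F L : Type*} [Field K] [Field F] [Field L]
    [Algebra K F] [Algebra F L] [Algebra K L] [IsScalarTower K F L] (t : F)
    [h : FiniteDimensional ↥(IntermediateField.adjoin K ({algebraMap F L t} : Set L)) L] :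
    FiniteDimensional ↥(IntermediateField.adjoin K ({t} : Set F)) F := by
  let f : F →ₐ[K] L := IsScalarTower.toAlgHom K F L
  have hmap : (IntermediateField.adjoin K ({t} : Set F)).map f =
      IntermediateField.adjoin K ({algebraMap F L t} : Set L) := by
    rw [IntermediateField.adjoin_map, Set.image_singleton]
    rfl
  let e : ↥(IntermediateField.adjoin K ({algebraMap F L t} : Set L)) ≃+*
      ↥(IntermediateField.adjoin K ({t} : Set F)) :=
    ((IntermediateField.equivMap (IntermediateField.adjoin K ({t} : Set F)) f).trans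
      (IntermediateField.equivOfEq hmap)).symm.toRingEquiv
  haveI : FiniteDimensional ↥(IntermediateField.adjoin K ({t} : Set F)) L := by
    refine Module.Finite.of_equiv_equiv
      (A₁ := ↥(IntermediateField.adjoin K ({algebraMap F L t} : Set L))) (B₁ := L) e
      (RingEquiv.refl L) ?_
    ext x
    obtain ⟨y, rfl⟩ := e.symm.surjective x
    simp only [RingHom.coe_comp, Function.comp_apply, RingHom.coe_coe, RingEquiv.refl_apply,
      RingEquiv.apply_symm_apply]
    rfl
  exact FiniteDimensional.left ↥(IntermediateField.adjoin K ({t} : Set F)) F L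

/-- **BASE-VERT in the unbundled shape** (`helper6839`'s (2b) of the `B-TOWER` chain): clause (c)
for the base field `D.F0` of ANY good model (`D.L0` arbitrary, e.g. the trivial-Kummer model
`D1` whose top field is the next layer), from unbundled residue data of the Gauss place. -/
theorem base_vertF (D : KData) {m : ℕ} (hg : D.Good m)
    {κ Fκ : Type*} [Field κ] [Field Fκ] [Algebra κ Fκ] [Algebra.IsSeparable κ Fκ]
    (red : ↥D.O →+* Fκ) (hred : Function.Surjective red)
    (hRA : ∀ a : D.A0, red ⟨algebraMap D.A0 D.F0 a, hg.gauss.le a⟩ ∈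
      Set.range (algebraMap κ Fκ))
    (hRt : red ⟨D.t, hg.gauss.t_mem⟩ ∈ Set.range (algebraMap κ Fκ))
    (hR3 : Module.finrank ↥(IntermediateField.adjoin D.K0 ({D.t} : Set D.F0)) D.F0 ≤
      Module.finrank κ Fκ)
    (τ : D.F0) (hτ : τ = D.t ∨ τ = D.t⁻¹) :
    ∃ (ι : Type) (_ : Fintype ι) (_ : DecidableEq ι)
      (c : Module.Basis ι ↥(IntermediateField.adjoin D.K0 ({τ} : Set D.F0)) D.F0)
      (dp : D.A0[X]),
      (∀ i, IsIntegral ↥(Algebra.adjoin D.A0 ({τ} : Set D.F0)) (c i)) ∧
      algebraMap ↥(IntermediateField.adjoin D.K0 ({τ} : Set D.F0)) D.F0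
        (Algebra.discr ↥(IntermediateField.adjoin D.K0 ({τ} : Set D.F0)) c) = aeval τ dp ∧
      ∃ i, ¬ D.ϖ ∣ dp.coeff i := by
  haveI : FiniteDimensional
      ↥(IntermediateField.adjoin D.K0 ({algebraMap D.F0 D.L0 D.t} : Set D.L0)) D.L0 := hg.finite
  haveI : FiniteDimensional ↥(IntermediateField.adjoin D.K0 ({D.t} : Set D.F0)) D.F0 :=
    finiteDimensional_adjoin_of_algebraMap (K := D.K0) (L := D.L0) D.t
  rcases hτ with rfl | rfl
  · exact baseVert_of_gaussData hg.gauss hg.transc red hred hRA hRt hR3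
  · exact baseVert_inv_of_gaussData hg.gauss hg.transc red hred hRA hRt hR3

/-- The same from a bundled residue datum (no finiteness instance needed). -/
theorem base_vertF_of_resDatum (D : KData) {m : ℕ} (hg : D.Good m) (R : helper648.ResDatum D)
    (τ : D.F0) (hτ : τ = D.t ∨ τ = D.t⁻¹) :
    ∃ (ι : Type) (_ : Fintype ι) (_ : DecidableEq ι)
      (c : Module.Basis ι ↥(IntermediateField.adjoin D.K0 ({τ} : Set D.F0)) D.F0)
      (dp : D.A0[X]),
      (∀ i, IsIntegral ↥(Algebra.adjoin D.A0 ({τ} : Set D.F0)) (c i)) ∧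
      algebraMap ↥(IntermediateField.adjoin D.K0 ({τ} : Set D.F0)) D.F0
        (Algebra.discr ↥(IntermediateField.adjoin D.K0 ({τ} : Set D.F0)) c) = aeval τ dp ∧
      ∃ i, ¬ D.ϖ ∣ dp.coeff i :=
  base_vertF D hg R.red R.red_surj (fun a => R.red_base a _) (R.red_coord _) R.finrank_le τ hτ

end KDataBase

end Fermat.Agent.S48.helper2675
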