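import Mathlib

/-!
# S48, machine node B (tower step), leaf (T2) RESLIFT

Abstract, Mathlib-only residue lift for a unit-discriminant layer.

Setting: `O` a valuation subring of a field `F0`, `E / F0` finite separable, `O'` a valuation
subring of `E` which is the integral closure of `O` in `E` (i.e. `O` has a unique extension to
`E`), `y ∈ E` integral over `O` with `E = F0(y)` and `P'(y)` a unit of `O'`, where `P` is the
minimal polynomial of `y`.

* `mem_adjoin_of_unit_derivative` : `O' = O[y]`;
* `separable_resPoly`, `irreducible_resPoly` : the reduction `P̄` of `P` along a surjection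
  `red : O →+* Fκ` onto a field is separable and irreducible;
* `redLift : O' →+* AdjoinRoot P̄`, surjective, compatible with `red` on `O`, `y ↦ root`;
* `finrank_resField` : `[AdjoinRoot P̄ : Fκ] = [E : F0]`.
-/

set_option autoImplicit false

noncomputable section

namespace Fermat.Agent.S48.helper2720

open Polynomial

section Basic

variable {F0 E : Type*} [Field F0] [Field E] [Algebra F0 E]
variable (O : ValuationSubring F0)

/-- The minimal polynomial over the fraction field is the image of the one over `O`. -/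
theorem minpoly_eq_map {y : E} (hy : IsIntegral ↥O y) :
    minpoly F0 y = (minpoly ↥O y).map (algebraMap ↥O F0) :=
  minpoly.isIntegrallyClosed_eq_field_fractions' F0 hy

theorem aeval_derivative_minpoly {y : E} (hy : IsIntegral ↥O y) :
    aeval y (derivative (minpoly F0 y)) = aeval y (derivative (minpoly ↥O y)) := by
  rw [minpoly_eq_map O hy, derivative_map, aeval_map_algebraMap]

/-- Elements of `F0` integral over `O` lie in `O`. -/
theorem mem_of_isIntegral_algebraMap {c : F0} (h : IsIntegral ↥O (algebraMap F0 E c)) : c ∈ O := by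
  have h1 : IsIntegral ↥O c :=
    (isIntegral_algebraMap_iff (algebraMap F0 E).injective).mp h
  obtain ⟨z, hz⟩ := IsIntegrallyClosed.isIntegral_iff.mp h1
  rw [← hz]
  exact z.2

/-- Elements of `Algebra.adjoin O {y}` are integral over `O`. -/
theorem isIntegral_of_mem_adjoin {y : E} (hy : IsIntegral ↥O y) {x : E}
    (hx : x ∈ Algebra.adjoin ↥O ({y} : Set E)) : IsIntegral ↥O x := by
  have h1 : Algebra.adjoin ↥O ({y} : Set E) ≤ integralClosure ↥O E := by
    apply Algebra.adjoin_le
    intro z hz
    rw [Set.mem_singleton_iff] at hz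
    rw [hz]
    exact hy
  exact h1 hx

end Basic

section Adjoin

variable {F0 E : Type*} [Field F0] [Field E] [Algebra F0 E] [FiniteDimensional F0 E]
  [Algebra.IsSeparable F0 E]
variable (O : ValuationSubring F0) (O' : ValuationSubring E)

/-- **(R1)** If `O'` is the integral closure of `O` in `E = F0(y)`, `y` is integral over `O` and
`P'(y)` is a unit of `O'`, then `O' = O[y]`. -/
theorem mem_adjoin_of_unit_derivative (hO' : ∀ x : E, x ∈ O' ↔ IsIntegral ↥O x)
    {y : E} (hy : IsIntegral ↥O y) (hgen : IntermediateField.adjoin F0 ({y} : Set E) = ⊤)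
    (hunit : (aeval y (derivative (minpoly F0 y)))⁻¹ ∈ O')
    {x : E} (hx : x ∈ O') : x ∈ Algebra.adjoin ↥O ({y} : Set E) := by
  classical
  have hyF : IsIntegral F0 y := hy.tower_top
  -- the power basis of `E` over `F0` with generator `y`
  let e : ↥(IntermediateField.adjoin F0 ({y} : Set E)) ≃ₐ[F0] E :=
    (IntermediateField.equivOfEq hgen).trans IntermediateField.topEquiv
  let pb : PowerBasis F0 E := (IntermediateField.adjoin.powerBasis hyF).map e
  have hpb : pb.gen = y := by
    simp [pb, e]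
  set w : E := aeval y (derivative (minpoly F0 y)) with hw
  have hw0 : w ≠ 0 := by
    have h3 : (minpoly F0 y).Separable := Algebra.IsSeparable.isSeparable F0 y
    exact h3.aeval_derivative_ne_zero (minpoly.aeval F0 y)
  -- the norms of `w` and of `w⁻¹` lie in `O`
  have hwint : IsIntegral ↥O w := by
    rw [hw, aeval_derivative_minpoly O hy]
    refine isIntegral_of_mem_adjoin O hy ?_
    rw [Algebra.adjoin_singleton_eq_range_aeval]
    exact ⟨_, rfl⟩
  have hwinv : IsIntegral ↥O w⁻¹ := (hO' _).mp hunit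
  have hn1 : Algebra.norm F0 w ∈ O :=
    mem_of_isIntegral_algebraMap (E := E) O
      ((isIntegral_algebraMap_iff (algebraMap F0 E).injective).mpr
        (Algebra.isIntegral_norm F0 hwint))
  have hn2 : Algebra.norm F0 w⁻¹ ∈ O :=
    mem_of_isIntegral_algebraMap (E := E) O
      ((isIntegral_algebraMap_iff (algebraMap F0 E).injective).mpr
        (Algebra.isIntegral_norm F0 hwinv))
  have hn12 : Algebra.norm F0 w * Algebra.norm F0 w⁻¹ = 1 := by
    rw [← map_mul, mul_inv_cancel₀ hw0, map_one]
  -- the discriminant is a unit of `O`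
  set d : F0 := Algebra.discr F0 pb.basis with hd
  set sg : F0 := (-1) ^ (Module.finrank F0 E * (Module.finrank F0 E - 1) / 2) with hsg
  have hsg2 : sg * sg = 1 := by
    rw [hsg, ← mul_pow]
    simp
  have hdeq : d = sg * Algebra.norm F0 w := by
    rw [hd, Algebra.discr_powerBasis_eq_norm, hpb]
  have hdmul : d * (sg * Algebra.norm F0 w⁻¹) = 1 := by
    rw [hdeq]
    calc sg * Algebra.norm F0 w * (sg * Algebra.norm F0 w⁻¹)
        = (sg * sg) * (Algebra.norm F0 w * Algebra.norm F0 w⁻¹) := by ring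
      _ = 1 := by rw [hsg2, hn12, one_mul]
  have hdinv : d⁻¹ ∈ O := by
    rw [inv_eq_of_mul_eq_one_right hdmul]
    exact O.mul_mem _ _ (pow_mem (neg_mem O.one_mem) _) hn2
  have hd0 : d ≠ 0 := by
    intro h0
    rw [h0, zero_mul] at hdmul
    exact zero_ne_one hdmul
  -- Mathlib: `d • x ∈ O[y]`
  have hxint : IsIntegral ↥O x := (hO' x).mp hx
  have hpbint : IsIntegral ↥O pb.gen := by rw [hpb]; exact hy
  have hmem := Algebra.discr_mul_isIntegral_mem_adjoin (R := ↥O) (K := F0) hpbint hxint
  rw [hpb] at hmem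
  have hx2 : x = (⟨d⁻¹, hdinv⟩ : ↥O) • (d • x) := by
    rw [Subring.smul_def, smul_smul, inv_mul_cancel₀ hd0, one_smul]
  rw [hx2]
  exact Subalgebra.smul_mem _ hmem _

end Adjoin

section Residue

variable {F0 E : Type*} [Field F0] [Field E] [Algebra F0 E] [FiniteDimensional F0 E]
  [Algebra.IsSeparable F0 E]
variable (O : ValuationSubring F0) (O' : ValuationSubring E)
variable {Fκ : Type*} [Field Fκ] (red : ↥O →+* Fκ)

/-- The reduction along `red` of the minimal polynomial of `y` over `O`. -/
def resPoly (y : E) : Fκ[X] := (minpoly ↥O y).map red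

omit [FiniteDimensional F0 E] [Algebra.IsSeparable F0 E] in
theorem resPoly_monic {y : E} (hy : IsIntegral ↥O y) : (resPoly O red y).Monic :=
  (minpoly.monic hy).map red

omit [FiniteDimensional F0 E] [Algebra.IsSeparable F0 E] in
theorem natDegree_resPoly {y : E} (hy : IsIntegral ↥O y) :
    (resPoly O red y).natDegree = (minpoly ↥O y).natDegree :=
  (minpoly.monic hy).natDegree_map red

omit [FiniteDimensional F0 E] [Algebra.IsSeparable F0 E] in
theorem resPoly_ne_zero {y : E} (hy : IsIntegral ↥O y) : resPoly O red y ≠ 0 :=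
  (resPoly_monic O red hy).ne_zero

omit [FiniteDimensional F0 E] [Algebra.IsSeparable F0 E] in
theorem resPoly_dvd (y : E) : resPoly O red y ∣ (minpoly ↥O y).map red := dvd_rfl

/-- The inclusion `O → O'`. -/
def toO' (hO' : ∀ x : E, x ∈ O' ↔ IsIntegral ↥O x) : ↥O →+* ↥O' :=
  RingHom.codRestrict ((algebraMap F0 E).comp O.subtype) O'
    (fun c => (hO' _).mpr (isIntegral_algebraMap (R := ↥O) (A := E) (x := c)))

omit [FiniteDimensional F0 E] [Algebra.IsSeparable F0 E] in
theorem coe_toO' (hO' : ∀ x : E, x ∈ O' ↔ IsIntegral ↥O x) (c : ↥O) :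
    ((toO' O O' hO' c : ↥O') : E) = algebraMap F0 E (c : F0) := rfl

/-- Evaluation at `y`, as a ring hom `O[X] → O'`. -/
def evalO' (hO' : ∀ x : E, x ∈ O' ↔ IsIntegral ↥O x) {y : E} (hy : IsIntegral ↥O y) :
    (↥O)[X] →+* ↥O' :=
  eval₂RingHom (toO' O O' hO') ⟨y, (hO' y).mpr hy⟩

omit [FiniteDimensional F0 E] [Algebra.IsSeparable F0 E] in
theorem coe_evalO' (hO' : ∀ x : E, x ∈ O' ↔ IsIntegral ↥O x) {y : E} (hy : IsIntegral ↥O y)
    (G : (↥O)[X]) : ((evalO' O O' hO' hy G : ↥O') : E) = aeval y G := by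
  have h1 : ((evalO' O O' hO' hy G : ↥O') : E)
      = O'.subtype (eval₂ (toO' O O' hO') ⟨y, (hO' y).mpr hy⟩ G) := rfl
  rw [h1, Polynomial.hom_eval₂]
  rfl

omit [FiniteDimensional F0 E] [Algebra.IsSeparable F0 E] in
/-- Elements of `O` killed by `red` are non-units of `O'`. -/
theorem toO'_mem_maximalIdeal (hO' : ∀ x : E, x ∈ O' ↔ IsIntegral ↥O x) {c : ↥O}
    (hc : red c = 0) : toO' O O' hO' c ∈ IsLocalRing.maximalIdeal ↥O' := by
  rw [IsLocalRing.mem_maximalIdeal, mem_nonunits_iff]
  intro hu
  obtain ⟨v, hv⟩ := hu.exists_right_inv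
  have h1 : algebraMap F0 E (c : F0) * (v : E) = 1 := by
    have := congrArg (Subtype.val) hv
    simpa [coe_toO'] using this
  have hc0 : (c : F0) ≠ 0 := by
    intro h0
    rw [h0, map_zero, zero_mul] at h1
    exact zero_ne_one h1
  have h2 : (v : E) = algebraMap F0 E (c : F0)⁻¹ := by
    rw [map_inv₀]
    exact eq_inv_of_mul_eq_one_right h1
  have h3 : (c : F0)⁻¹ ∈ O := by
    apply mem_of_isIntegral_algebraMap (E := E) O
    rw [← h2]
    exact (hO' _).mp v.2
  have h4 : c * (⟨(c : F0)⁻¹, h3⟩ : ↥O) = 1 := Subtype.ext (mul_inv_cancel₀ hc0)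
  have h5 := congrArg red h4
  rw [map_mul, hc, zero_mul, map_one] at h5
  exact zero_ne_one h5

omit [FiniteDimensional F0 E] [Algebra.IsSeparable F0 E] in
/-- Polynomials killed by `red` take non-unit values at `y`. -/
theorem evalO'_mem_maximalIdeal (hO' : ∀ x : E, x ∈ O' ↔ IsIntegral ↥O x) {y : E}
    (hy : IsIntegral ↥O y) {G : (↥O)[X]} (hG : G.map red = 0) :
    evalO' O O' hO' hy G ∈ IsLocalRing.maximalIdeal ↥O' := by
  have h1 : evalO' O O' hO' hy G
      = ∑ i ∈ Finset.range (G.natDegree + 1),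
          toO' O O' hO' (G.coeff i) * (⟨y, (hO' y).mpr hy⟩ : ↥O') ^ i :=
    Polynomial.eval₂_eq_sum_range _ _
  rw [h1]
  refine Ideal.sum_mem _ (fun i _ => Ideal.mul_mem_right _ _ ?_)
  apply toO'_mem_maximalIdeal O O' red hO'
  have h2 := congrArg (fun q => q.coeff i) hG
  simpa [coeff_map] using h2

/-- **(R2a)** The reduced minimal polynomial is separable. -/
theorem separable_resPoly (hO' : ∀ x : E, x ∈ O' ↔ IsIntegral ↥O x)
    {y : E} (hy : IsIntegral ↥O y) (hgen : IntermediateField.adjoin F0 ({y} : Set E) = ⊤)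
    (hunit : (aeval y (derivative (minpoly F0 y)))⁻¹ ∈ O') :
    (resPoly O red y).Separable := by
  have hyF : IsIntegral F0 y := hy.tower_top
  have hw0 : aeval y (derivative (minpoly F0 y)) ≠ 0 :=
    (Algebra.IsSeparable.isSeparable F0 y).aeval_derivative_ne_zero (minpoly.aeval F0 y)
  have hmem := mem_adjoin_of_unit_derivative O O' hO' hy hgen hunit hunit
  rw [Algebra.adjoin_singleton_eq_range_aeval] at hmem
  obtain ⟨B, hB⟩ := hmem
  have hB' : aeval y B = (aeval y (derivative (minpoly F0 y)))⁻¹ := hB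
  have hroot : aeval y (derivative (minpoly ↥O y) * B - 1) = 0 := by
    rw [map_sub, map_mul, map_one, hB', ← aeval_derivative_minpoly O hy, mul_inv_cancel₀ hw0,
      sub_self]
  obtain ⟨A, hA⟩ := minpoly.isIntegrallyClosed_dvd hy hroot
  have hA' := congrArg (Polynomial.map red) hA
  rw [Polynomial.map_sub, Polynomial.map_mul, Polynomial.map_one, Polynomial.map_mul,
    ← derivative_map] at hA'
  rw [separable_def]
  refine ⟨-(A.map red), B.map red, ?_⟩
  have : derivative (resPoly O red y) * B.map red = 1 + resPoly O red y * A.map red := by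
    unfold resPoly
    rw [← hA']
    ring
  rw [mul_comm (B.map red), this]
  ring

omit [FiniteDimensional F0 E] [Algebra.IsSeparable F0 E] in
theorem natDegree_resPoly_pos {y : E} (hy : IsIntegral ↥O y) :
    0 < (resPoly O red y).natDegree := by
  rw [natDegree_resPoly O red hy]
  exact minpoly.natDegree_pos hy

private theorem dvd_of_isUnit (hO' : ∀ x : E, x ∈ O' ↔ IsIntegral ↥O x)
    {y : E} (hy : IsIntegral ↥O y) (hgen : IntermediateField.adjoin F0 ({y} : Set E) = ⊤)
    (hunit : (aeval y (derivative (minpoly F0 y)))⁻¹ ∈ O')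
    {a b : (↥O)[X]} (hab : (a * b - minpoly ↥O y).map red = 0)
    (ha : IsUnit (evalO' O O' hO' hy a)) : resPoly O red y ∣ b.map red := by
  obtain ⟨v, hv⟩ := ha.exists_left_inv
  have hv' : (v : E) * aeval y a = 1 := by
    have := congrArg Subtype.val hv
    simpa [coe_evalO'] using this
  have hmem := mem_adjoin_of_unit_derivative O O' hO' hy hgen hunit v.2
  rw [Algebra.adjoin_singleton_eq_range_aeval] at hmem
  obtain ⟨H, hH⟩ := hmem
  have hH' : aeval y H = (v : E) := hH
  have hroot : aeval y (b - H * (a * b - minpoly ↥O y)) = 0 := by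
    rw [map_sub, map_mul, map_sub, map_mul, minpoly.aeval, sub_zero, hH', ← mul_assoc, hv',
      one_mul, sub_self]
  obtain ⟨C, hC⟩ := minpoly.isIntegrallyClosed_dvd hy hroot
  have hC' := congrArg (Polynomial.map red) hC
  rw [Polynomial.map_sub, Polynomial.map_mul, hab, mul_zero, sub_zero, Polynomial.map_mul]
    at hC'
  exact ⟨C.map red, hC'⟩

/-- **(R2b)** The reduced minimal polynomial is irreducible (`O'` is local). -/
theorem irreducible_resPoly (hred : Function.Surjective red)
    (hO' : ∀ x : E, x ∈ O' ↔ IsIntegral ↥O x)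
    {y : E} (hy : IsIntegral ↥O y) (hgen : IntermediateField.adjoin F0 ({y} : Set E) = ⊤)
    (hunit : (aeval y (derivative (minpoly F0 y)))⁻¹ ∈ O') :
    Irreducible (resPoly O red y) := by
  have hsep := separable_resPoly O O' red hO' hy hgen hunit
  have hne := resPoly_ne_zero O red hy
  rw [irreducible_iff]
  refine ⟨fun hu => ?_, ?_⟩
  · have h1 := natDegree_eq_zero_of_isUnit hu
    have h2 := natDegree_resPoly_pos O red hy
    omega
  · intro a b hab
    have hcop : IsCoprime a b := by
      rw [hab] at hsep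
      exact hsep.isCoprime
    obtain ⟨u, v, huv⟩ := hcop
    obtain ⟨a', rfl⟩ := Polynomial.map_surjective red hred a
    obtain ⟨b', rfl⟩ := Polynomial.map_surjective red hred b
    obtain ⟨u', rfl⟩ := Polynomial.map_surjective red hred u
    obtain ⟨v', rfl⟩ := Polynomial.map_surjective red hred v
    have h1 : (a' * b' - minpoly ↥O y).map red = 0 := by
      rw [Polynomial.map_sub, Polynomial.map_mul, ← hab]
      exact sub_self _
    have h1' : (b' * a' - minpoly ↥O y).map red = 0 := by
      rw [mul_comm]; exact h1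
    have h2 : (u' * a' + v' * b' - 1).map red = 0 := by
      rw [Polynomial.map_sub, Polynomial.map_add, Polynomial.map_mul, Polynomial.map_mul,
        Polynomial.map_one, huv, sub_self]
    have h3 := evalO'_mem_maximalIdeal O O' red hO' hy h2
    have hor : IsUnit (evalO' O O' hO' hy a') ∨ IsUnit (evalO' O O' hO' hy b') := by
      by_contra hcon
      rw [not_or] at hcon
      have ha : evalO' O O' hO' hy a' ∈ IsLocalRing.maximalIdeal ↥O' :=
        (IsLocalRing.mem_maximalIdeal _).mpr hcon.1
      have hb : evalO' O O' hO' hy b' ∈ IsLocalRing.maximalIdeal ↥O' :=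
        (IsLocalRing.mem_maximalIdeal _).mpr hcon.2
      have h4 : evalO' O O' hO' hy (u' * a' + v' * b') ∈ IsLocalRing.maximalIdeal ↥O' := by
        rw [map_add, map_mul, map_mul]
        exact Ideal.add_mem _ (Ideal.mul_mem_left _ _ ha) (Ideal.mul_mem_left _ _ hb)
      have h5 : (1 : ↥O') ∈ IsLocalRing.maximalIdeal ↥O' := by
        have h := Ideal.sub_mem _ h4 h3
        rw [← map_sub] at h
        have e : u' * a' + v' * b' - (u' * a' + v' * b' - 1) = 1 := by ring
        rwa [e, map_one] at h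
      exact (Ideal.ne_top_iff_one _).mp (IsLocalRing.maximalIdeal.isMaximal ↥O').ne_top h5
    rcases hor with ha | hb
    · -- `P̄ ∣ b`, so `a` is a unit
      obtain ⟨c, hc⟩ := dvd_of_isUnit O O' red hO' hy hgen hunit h1 ha
      left
      have hb0 : b'.map red ≠ 0 := by
        intro h0
        rw [h0, mul_zero] at hab
        exact hne hab
      have h6 : b'.map red * (a'.map red * c) = b'.map red * 1 := by
        rw [mul_one]
        conv_rhs => rw [hc, hab]
        ring
      exact IsUnit.of_mul_eq_one _ (mul_left_cancel₀ hb0 h6)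
    · obtain ⟨c, hc⟩ := dvd_of_isUnit O O' red hO' hy hgen hunit h1' hb
      right
      have ha0 : a'.map red ≠ 0 := by
        intro h0
        rw [h0, zero_mul] at hab
        exact hne hab
      have h6 : a'.map red * (b'.map red * c) = a'.map red * 1 := by
        rw [mul_one]
        conv_rhs => rw [hc, hab]
        ring
      exact IsUnit.of_mul_eq_one _ (mul_left_cancel₀ ha0 h6)

/-- The inclusion `O' → O[y]` given by (R1). -/
def toAdjoin (hO' : ∀ x : E, x ∈ O' ↔ IsIntegral ↥O x)
    {y : E} (hy : IsIntegral ↥O y) (hgen : IntermediateField.adjoin F0 ({y} : Set E) = ⊤)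
    (hunit : (aeval y (derivative (minpoly F0 y)))⁻¹ ∈ O') :
    ↥O' →+* ↥(Algebra.adjoin ↥O ({y} : Set E)) :=
  RingHom.codRestrict O'.subtype (Algebra.adjoin ↥O ({y} : Set E))
    (fun x => mem_adjoin_of_unit_derivative O O' hO' hy hgen hunit x.2)

/-- **(R3)** The residue map of the layer: `O' = O[y] ≃ O[X]/(P) → Fκ[X]/(P̄)`. -/
def redLift (hO' : ∀ x : E, x ∈ O' ↔ IsIntegral ↥O x)
    {y : E} (hy : IsIntegral ↥O y) (hgen : IntermediateField.adjoin F0 ({y} : Set E) = ⊤)
    (hunit : (aeval y (derivative (minpoly F0 y)))⁻¹ ∈ O') :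
    ↥O' →+* AdjoinRoot (resPoly O red y) :=
  (AdjoinRoot.map red (minpoly ↥O y) (resPoly O red y) (resPoly_dvd O red y)).comp
    (((minpoly.equivAdjoin hy).symm : ↥(Algebra.adjoin ↥O ({y} : Set E)) →+*
        AdjoinRoot (minpoly ↥O y)).comp
      (toAdjoin O O' hO' hy hgen hunit))

/-- `redLift` extends `red`. -/
theorem redLift_algebraMap (hO' : ∀ x : E, x ∈ O' ↔ IsIntegral ↥O x)
    {y : E} (hy : IsIntegral ↥O y) (hgen : IntermediateField.adjoin F0 ({y} : Set E) = ⊤)
    (hunit : (aeval y (derivative (minpoly F0 y)))⁻¹ ∈ O') (c : ↥O)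
    (hc : algebraMap F0 E (c : F0) ∈ O') :
    redLift O O' red hO' hy hgen hunit ⟨algebraMap F0 E (c : F0), hc⟩
      = AdjoinRoot.of (resPoly O red y) (red c) := by
  have h1 : toAdjoin O O' hO' hy hgen hunit ⟨algebraMap F0 E (c : F0), hc⟩
      = algebraMap ↥O ↥(Algebra.adjoin ↥O ({y} : Set E)) c := Subtype.ext rfl
  have h2 : (minpoly.equivAdjoin hy).symm (algebraMap ↥O ↥(Algebra.adjoin ↥O ({y} : Set E)) c)
      = algebraMap ↥O (AdjoinRoot (minpoly ↥O y)) c := AlgEquiv.commutes _ c
  change AdjoinRoot.map red (minpoly ↥O y) (resPoly O red y) (resPoly_dvd O red y)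
    ((minpoly.equivAdjoin hy).symm (toAdjoin O O' hO' hy hgen hunit ⟨_, hc⟩)) = _
  rw [h1, h2, AdjoinRoot.algebraMap_eq, AdjoinRoot.map_of]

/-- `redLift` sends `y` to the root. -/
theorem redLift_gen (hO' : ∀ x : E, x ∈ O' ↔ IsIntegral ↥O x)
    {y : E} (hy : IsIntegral ↥O y) (hgen : IntermediateField.adjoin F0 ({y} : Set E) = ⊤)
    (hunit : (aeval y (derivative (minpoly F0 y)))⁻¹ ∈ O') (hyO' : y ∈ O') :
    redLift O O' red hO' hy hgen hunit ⟨y, hyO'⟩ = AdjoinRoot.root (resPoly O red y) := by
  have h1 : (minpoly.equivAdjoin hy).symm (toAdjoin O O' hO' hy hgen hunit ⟨y, hyO'⟩)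
      = AdjoinRoot.root (minpoly ↥O y) := by
    rw [AlgEquiv.symm_apply_eq]
    apply Subtype.ext
    simp [toAdjoin]
  change AdjoinRoot.map red (minpoly ↥O y) (resPoly O red y) (resPoly_dvd O red y)
    ((minpoly.equivAdjoin hy).symm (toAdjoin O O' hO' hy hgen hunit ⟨_, hyO'⟩)) = _
  rw [h1, AdjoinRoot.map_root]

omit [FiniteDimensional F0 E] [Algebra.IsSeparable F0 E] in
theorem adjoinRootMap_mk (y : E) (g : (↥O)[X]) :
    AdjoinRoot.map red (minpoly ↥O y) (resPoly O red y) (resPoly_dvd O red y) (AdjoinRoot.mk (minpoly ↥O y) g)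
      = AdjoinRoot.mk (resPoly O red y) (g.map red) := by
  induction g using Polynomial.induction_on' with
  | add p q hp hq => rw [map_add, map_add, hp, hq, Polynomial.map_add, map_add]
  | monomial n a =>
    rw [← C_mul_X_pow_eq_monomial, map_mul, map_pow, AdjoinRoot.mk_C, AdjoinRoot.mk_X,
      map_mul, map_pow, AdjoinRoot.map_of, AdjoinRoot.map_root, Polynomial.map_mul,
      Polynomial.map_pow, Polynomial.map_C, Polynomial.map_X, map_mul, map_pow,
      AdjoinRoot.mk_C, AdjoinRoot.mk_X]

/-- `redLift` is surjective. -/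
theorem redLift_surjective (hred : Function.Surjective red)
    (hO' : ∀ x : E, x ∈ O' ↔ IsIntegral ↥O x)
    {y : E} (hy : IsIntegral ↥O y) (hgen : IntermediateField.adjoin F0 ({y} : Set E) = ⊤)
    (hunit : (aeval y (derivative (minpoly F0 y)))⁻¹ ∈ O') :
    Function.Surjective (redLift O O' red hO' hy hgen hunit) := by
  intro z
  induction z using AdjoinRoot.induction_on with
  | ih g =>
    obtain ⟨g', rfl⟩ := Polynomial.map_surjective red hred g
    -- the element of `O'` is `g'(y)`
    have hmem : ((minpoly.equivAdjoin hy) (AdjoinRoot.mk (minpoly ↥O y) g') : E) ∈ O' :=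
      (hO' _).mpr (isIntegral_of_mem_adjoin O hy (Subtype.property _))
    refine ⟨⟨_, hmem⟩, ?_⟩
    have h1 : toAdjoin O O' hO' hy hgen hunit ⟨_, hmem⟩
        = (minpoly.equivAdjoin hy) (AdjoinRoot.mk (minpoly ↥O y) g') := Subtype.ext rfl
    change AdjoinRoot.map red (minpoly ↥O y) (resPoly O red y) (resPoly_dvd O red y)
      ((minpoly.equivAdjoin hy).symm (toAdjoin O O' hO' hy hgen hunit ⟨_, hmem⟩)) = _
    rw [h1, AlgEquiv.symm_apply_apply, adjoinRootMap_mk]

omit [FiniteDimensional F0 E] [Algebra.IsSeparable F0 E] in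
/-- **(R3, degree)** `[Fκ[X]/(P̄) : Fκ] = [E : F0]`. -/
theorem finrank_resField {y : E} (hy : IsIntegral ↥O y)
    (hgen : IntermediateField.adjoin F0 ({y} : Set E) = ⊤) :
    Module.finrank Fκ (AdjoinRoot (resPoly O red y)) = Module.finrank F0 E := by
  have hyF : IsIntegral F0 y := hy.tower_top
  have h1 : Module.finrank Fκ (AdjoinRoot (resPoly O red y)) = (resPoly O red y).natDegree := by
    rw [(AdjoinRoot.powerBasis (resPoly_ne_zero O red hy)).finrank, AdjoinRoot.powerBasis_dim]
  have h2 : (minpoly F0 y).natDegree = (minpoly ↥O y).natDegree := by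
    rw [minpoly_eq_map O hy]
    exact (minpoly.monic hy).natDegree_map _
  have h3 : Module.finrank F0 ↥(IntermediateField.adjoin F0 ({y} : Set E))
      = (minpoly F0 y).natDegree := IntermediateField.adjoin.finrank hyF
  have h4 : Module.finrank F0 ↥(IntermediateField.adjoin F0 ({y} : Set E))
      = Module.finrank F0 E := by
    rw [hgen]
    exact IntermediateField.finrank_top'
  rw [h1, natDegree_resPoly O red hy, ← h2, ← h3, h4]

omit [FiniteDimensional F0 E] [Algebra.IsSeparable F0 E] in
/-- **(R3, separability)** `Fκ[X]/(P̄)` is separable over `Fκ` when `P̄` is separable and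
irreducible. -/
theorem isSeparable_resField {y : E} (hy : IsIntegral ↥O y)
    [Fact (Irreducible (resPoly O red y))] (hsep : (resPoly O red y).Separable) :
    Algebra.IsSeparable Fκ (AdjoinRoot (resPoly O red y)) := by
  have hroot : IsSeparable Fκ (AdjoinRoot.root (resPoly O red y)) := by
    unfold IsSeparable
    rw [AdjoinRoot.minpoly_root (resPoly_ne_zero O red hy), (resPoly_monic O red hy).leadingCoeff,
      inv_one, map_one, mul_one]
    exact hsep
  have hle : Algebra.adjoin Fκ ({AdjoinRoot.root (resPoly O red y)} : Set _)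
      ≤ (separableClosure Fκ (AdjoinRoot (resPoly O red y))).toSubalgebra := by
    apply Algebra.adjoin_le
    intro z hz
    rw [Set.mem_singleton_iff] at hz
    rw [hz]
    exact mem_separableClosure_iff.mpr hroot
  rw [AdjoinRoot.adjoinRoot_eq_top] at hle
  exact ⟨fun x => mem_separableClosure_iff.mp (hle Algebra.mem_top)⟩

end Residue

section Tower

variable {K0 F0 E : Type*} [Field K0] [Field F0] [Field E] [Algebra K0 F0] [Algebra F0 E]
  [Algebra K0 E] [IsScalarTower K0 F0 E]

/-- `[E : K0(t)] = [F0 : K0(t)] * [E : F0]`, with `K0(t)` taken inside `E` on the left and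
inside `F0` on the right. -/
theorem finrank_adjoin_tower (t : F0) :
    Module.finrank ↥(IntermediateField.adjoin K0 ({algebraMap F0 E t} : Set E)) E
      = Module.finrank ↥(IntermediateField.adjoin K0 ({t} : Set F0)) F0 * Module.finrank F0 E := by
  classical
  let f : F0 →ₐ[K0] E := IsScalarTower.toAlgHom K0 F0 E
  have hmap : (IntermediateField.adjoin K0 ({t} : Set F0)).map f
      = IntermediateField.adjoin K0 ({algebraMap F0 E t} : Set E) := by
    rw [IntermediateField.adjoin_map, Set.image_singleton]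
    rfl
  let i : ↥(IntermediateField.adjoin K0 ({t} : Set F0)) ≃+*
      ↥(IntermediateField.adjoin K0 ({algebraMap F0 E t} : Set E)) :=
    ((IntermediateField.equivMap (IntermediateField.adjoin K0 ({t} : Set F0)) f).trans
      (IntermediateField.equivOfEq hmap)).toRingEquiv
  have h1 : Module.finrank ↥(IntermediateField.adjoin K0 ({t} : Set F0)) F0 * Module.finrank F0 E
      = Module.finrank ↥(IntermediateField.adjoin K0 ({t} : Set F0)) E :=
    Module.finrank_mul_finrank _ F0 E
  have h2 : Module.finrank ↥(IntermediateField.adjoin K0 ({t} : Set F0)) E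
      = Module.finrank ↥(IntermediateField.adjoin K0 ({algebraMap F0 E t} : Set E)) E :=
    Algebra.finrank_eq_of_equiv_equiv i (RingEquiv.refl E) (by ext x; rfl)
  rw [← h2, ← h1]

omit [Algebra K0 E] [IsScalarTower K0 F0 E] in
/-- Surjectivity of `p ↦ p(y)` gives `F0(y) = ⊤`. -/
theorem adjoin_eq_top_of_aeval_surjective {y : E} (h : ∀ g : E, ∃ p : F0[X], aeval y p = g) :
    IntermediateField.adjoin F0 ({y} : Set E) = ⊤ := by
  apply IntermediateField.adjoin_eq_top_of_algebra
  rw [Algebra.adjoin_singleton_eq_range_aeval, eq_top_iff]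
  intro g _
  exact h g

end Tower

section Package

variable {K0 F0 E : Type*} [Field K0] [Field F0] [Field E] [Algebra K0 F0] [Algebra F0 E]
  [Algebra K0 E] [IsScalarTower K0 F0 E] [FiniteDimensional F0 E] [Algebra.IsSeparable F0 E]
variable (O : ValuationSubring F0) (O' : ValuationSubring E)
variable {κ Fκ : Type*} [Field κ] [Field Fκ] [Algebra κ Fκ] (red : ↥O →+* Fκ)

omit [FiniteDimensional F0 E] [Algebra.IsSeparable F0 E] in
/-- **(R4, degree)** The degree inequality of `helper648.ResDatum` passes to the layer. -/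
theorem finrank_le_resField (t : F0)
    (hfin : Module.finrank ↥(IntermediateField.adjoin K0 ({t} : Set F0)) F0 ≤ Module.finrank κ Fκ)
    {y : E} (hy : IsIntegral ↥O y) (hgen : IntermediateField.adjoin F0 ({y} : Set E) = ⊤) :
    Module.finrank ↥(IntermediateField.adjoin K0 ({algebraMap F0 E t} : Set E)) E
      ≤ Module.finrank κ (AdjoinRoot (resPoly O red y)) := by
  rw [finrank_adjoin_tower (K0 := K0) (E := E) t,
    ← Module.finrank_mul_finrank κ Fκ (AdjoinRoot (resPoly O red y)),
    finrank_resField O red hy hgen]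
  exact Nat.mul_le_mul_right _ hfin

omit [Algebra K0 F0] [Algebra K0 E] [IsScalarTower K0 F0 E] in
/-- **(R4, base)** `redLift` of an element of `O` whose residue lies in `κ` lies in `κ`. -/
theorem redLift_mem_range (hO' : ∀ x : E, x ∈ O' ↔ IsIntegral ↥O x)
    {y : E} (hy : IsIntegral ↥O y) (hgen : IntermediateField.adjoin F0 ({y} : Set E) = ⊤)
    (hunit : (aeval y (derivative (minpoly F0 y)))⁻¹ ∈ O') (c : ↥O)
    (hc : algebraMap F0 E (c : F0) ∈ O') (hcκ : red c ∈ Set.range (algebraMap κ Fκ)) :
    redLift O O' red hO' hy hgen hunit ⟨algebraMap F0 E (c : F0), hc⟩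
      ∈ Set.range (algebraMap κ (AdjoinRoot (resPoly O red y))) := by
  obtain ⟨a, ha⟩ := hcκ
  refine ⟨a, ?_⟩
  rw [redLift_algebraMap, ← ha, AdjoinRoot.algebraMap_eq']
  rfl

/-- **(T2) RESLIFT, packaged.**  Residue data for the unit-discriminant layer `E = F0(y)` over a
valuation subring `O` of `F0` whose integral closure in `E` is a valuation subring `O'`: a field
`Fκ'`, separable over `κ`, a surjection `red' : O' → Fκ'` extending `red` on `O` (so residues of
elements of `O` lying in `κ` stay in `κ`), with `[E : K0(t)] ≤ [Fκ' : κ]`.  These are exactly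
the fields of `helper648.ResDatum` for the model with `F0 := E`. -/
theorem exists_resLift {κ Fκ : Type} [Field κ] [Field Fκ] [Algebra κ Fκ]
    [Algebra.IsSeparable κ Fκ] (red : ↥O →+* Fκ) (hred : Function.Surjective red)
    (hO' : ∀ x : E, x ∈ O' ↔ IsIntegral ↥O x)
    {y : E} (hy : IsIntegral ↥O y) (hgen : IntermediateField.adjoin F0 ({y} : Set E) = ⊤)
    (hunit : (aeval y (derivative (minpoly F0 y)))⁻¹ ∈ O') (t : F0)
    (hfin : Module.finrank ↥(IntermediateField.adjoin K0 ({t} : Set F0)) F0
      ≤ Module.finrank κ Fκ) :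
    ∃ (Fκ' : Type) (_ : Field Fκ') (_ : Algebra κ Fκ') (_ : Algebra.IsSeparable κ Fκ')
      (red' : ↥O' →+* Fκ'), Function.Surjective red' ∧
      (∀ (c : ↥O) (hc : algebraMap F0 E (c : F0) ∈ O'),
        red c ∈ Set.range (algebraMap κ Fκ) →
          red' ⟨algebraMap F0 E (c : F0), hc⟩ ∈ Set.range (algebraMap κ Fκ')) ∧
      Module.finrank ↥(IntermediateField.adjoin K0 ({algebraMap F0 E t} : Set E)) E
        ≤ Module.finrank κ Fκ' := by
  have : Fact (Irreducible (resPoly O red y)) :=
    ⟨irreducible_resPoly O O' red hred hO' hy hgen hunit⟩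
  have : Algebra.IsSeparable Fκ (AdjoinRoot (resPoly O red y)) :=
    isSeparable_resField O red hy (separable_resPoly O O' red hO' hy hgen hunit)
  have : Algebra.IsSeparable κ (AdjoinRoot (resPoly O red y)) :=
    Algebra.IsSeparable.trans κ Fκ (AdjoinRoot (resPoly O red y))
  exact ⟨AdjoinRoot (resPoly O red y), inferInstance, inferInstance, inferInstance,
    redLift O O' red hO' hy hgen hunit,
    redLift_surjective O O' red hred hO' hy hgen hunit,
    fun c hc hcκ => redLift_mem_range O O' red hO' hy hgen hunit c hc hcκ,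
    finrank_le_resField O red t hfin hy hgen⟩

end Package

section PowerBasisForm

variable {F0 E : Type*} [Field F0] [Field E] [Algebra F0 E] [FiniteDimensional F0 E]
  [Algebra.IsSeparable F0 E]
variable (O : ValuationSubring F0) (O' : ValuationSubring E)

omit [Algebra.IsSeparable F0 E] in
/-- An integral element whose norm is a unit of `O` has an integral inverse. -/
theorem isIntegral_inv_of_norm_inv_mem {w : E} (hw : IsIntegral ↥O w) (hw0 : w ≠ 0)
    (hN : (Algebra.norm F0 w)⁻¹ ∈ O) : IsIntegral ↥O w⁻¹ := by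
  have hwF : IsIntegral F0 w := hw.tower_top
  set a0 : ↥O := (minpoly ↥O w).coeff 0 with ha0
  have hcoeff : (minpoly F0 w).coeff 0 = (a0 : F0) := by
    rw [minpoly_eq_map O hw, coeff_map]
    rfl
  set r := Module.finrank ↥(IntermediateField.adjoin F0 ({w} : Set E)) E with hr
  have hr0 : 0 < r := Module.finrank_pos
  obtain ⟨b, hb⟩ : ∃ b : F0, b = (-1) ^ (minpoly F0 w).natDegree * (a0 : F0) := ⟨_, rfl⟩
  have hnorm : Algebra.norm F0 w = b ^ r := by
    rw [hb, Algebra.norm_eq_norm_adjoin F0 w, ← IntermediateField.adjoin.powerBasis_gen hwF,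
      Algebra.PowerBasis.norm_gen_eq_coeff_zero_minpoly,
      IntermediateField.adjoin.powerBasis_gen hwF, IntermediateField.minpoly_gen,
      IntermediateField.adjoin.powerBasis_dim, hcoeff]
  have hbO : b ∈ O := by
    rw [hb]
    exact O.mul_mem _ _ (pow_mem (neg_mem O.one_mem) _) a0.2
  have hN0 : Algebra.norm F0 w ≠ 0 := Algebra.norm_ne_zero_iff.mpr hw0
  have hb0 : b ≠ 0 := by
    intro h
    rw [hnorm, h, zero_pow hr0.ne'] at hN0
    exact hN0 rfl
  have hbinv : b⁻¹ ∈ O := by
    have h1 : b⁻¹ = b ^ (r - 1) * (b ^ r)⁻¹ := by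
      have h2 : b ^ r = b ^ (r - 1) * b := by
        rw [← pow_succ, Nat.sub_add_cancel hr0]
      rw [h2, mul_inv, ← mul_assoc, mul_inv_cancel₀ (pow_ne_zero _ hb0), one_mul]
    rw [h1, ← hnorm]
    exact O.mul_mem _ _ (pow_mem hbO _) hN
  have hsg : ((-1 : F0) ^ (minpoly F0 w).natDegree) * ((-1 : F0) ^ (minpoly F0 w).natDegree) = 1 := by
    rw [← mul_pow]
    simp
  have ha0b : (a0 : F0) = (-1) ^ (minpoly F0 w).natDegree * b := by
    rw [hb, ← mul_assoc, hsg, one_mul]
  have ha00 : (a0 : F0) ≠ 0 := by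
    intro h
    rw [hb, h, mul_zero] at hb0
    exact hb0 rfl
  have ha0inv : (a0 : F0)⁻¹ ∈ O := by
    have h1 : (a0 : F0)⁻¹ = (-1) ^ (minpoly F0 w).natDegree * b⁻¹ := by
      apply inv_eq_of_mul_eq_one_right
      rw [ha0b]
      calc (-1) ^ (minpoly F0 w).natDegree * b * ((-1) ^ (minpoly F0 w).natDegree * b⁻¹)
          = ((-1) ^ (minpoly F0 w).natDegree * (-1) ^ (minpoly F0 w).natDegree) * (b * b⁻¹) := by
            ring
        _ = 1 := by rw [hsg, mul_inv_cancel₀ hb0, one_mul]
    rw [h1]
    exact O.mul_mem _ _ (pow_mem (neg_mem O.one_mem) _) hbinv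
  -- the relation `q(w) * w + a0 = 0`
  have hrel : aeval w (divX (minpoly ↥O w)) * w + algebraMap F0 E (a0 : F0) = 0 := by
    have h := minpoly.aeval ↥O w
    have h2 : aeval w (divX (minpoly ↥O w) * X + C a0) = 0 := by
      rw [ha0, divX_mul_X_add]
      exact h
    rw [map_add, map_mul, aeval_X, aeval_C] at h2
    exact h2
  have hinv : w⁻¹ = (⟨-(a0 : F0)⁻¹, neg_mem ha0inv⟩ : ↥O) • aeval w (divX (minpoly ↥O w)) := by
    rw [Subring.smul_def, Algebra.smul_def]
    have h3 : aeval w (divX (minpoly ↥O w)) = -algebraMap F0 E (a0 : F0) * w⁻¹ := by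
      have h4 : aeval w (divX (minpoly ↥O w)) * w = -algebraMap F0 E (a0 : F0) :=
        eq_neg_of_add_eq_zero_left hrel
      rw [← h4, mul_assoc, mul_inv_cancel₀ hw0, mul_one]
    rw [h3, map_neg, map_inv₀]
    have h5 : algebraMap F0 E (a0 : F0) ≠ 0 := fun h =>
      ha00 ((map_eq_zero (algebraMap F0 E)).mp h)
    field_simp
  rw [hinv]
  refine IsIntegral.smul _ (isIntegral_of_mem_adjoin O hw ?_)
  rw [Algebra.adjoin_singleton_eq_range_aeval]
  exact ⟨_, rfl⟩

omit [FiniteDimensional F0 E] [Algebra.IsSeparable F0 E] in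
/-- `pb.gen` generates `E` as a field. -/
theorem adjoin_gen_eq_top (pb : PowerBasis F0 E) :
    IntermediateField.adjoin F0 ({pb.gen} : Set E) = ⊤ :=
  IntermediateField.adjoin_eq_top_of_algebra F0 _ pb.adjoin_gen_eq_top

/-- **Adapter (unit discriminant form).**  If the discriminant of the power basis is a unit of
`O` and `O'` is the integral closure of `O`, then `P'(y)` is a unit of `O'`. -/
theorem inv_derivative_mem_of_discr (hO' : ∀ x : E, x ∈ O' ↔ IsIntegral ↥O x)
    (pb : PowerBasis F0 E) (hpb : IsIntegral ↥O pb.gen)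
    (hdisc : (Algebra.discr F0 pb.basis)⁻¹ ∈ O) :
    (aeval pb.gen (derivative (minpoly F0 pb.gen)))⁻¹ ∈ O' := by
  set w : E := aeval pb.gen (derivative (minpoly F0 pb.gen)) with hw
  have hw0 : w ≠ 0 :=
    (Algebra.IsSeparable.isSeparable F0 pb.gen).aeval_derivative_ne_zero
      (minpoly.aeval F0 pb.gen)
  have hwint : IsIntegral ↥O w := by
    rw [hw, aeval_derivative_minpoly O hpb]
    refine isIntegral_of_mem_adjoin O hpb ?_
    rw [Algebra.adjoin_singleton_eq_range_aeval]
    exact ⟨_, rfl⟩
  set sg : F0 := (-1) ^ (Module.finrank F0 E * (Module.finrank F0 E - 1) / 2) with hsg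
  have hsg2 : sg * sg = 1 := by
    rw [hsg, ← mul_pow]
    simp
  have hdeq : Algebra.discr F0 pb.basis = sg * Algebra.norm F0 w := by
    rw [Algebra.discr_powerBasis_eq_norm]
  have hN : (Algebra.norm F0 w)⁻¹ = sg * (Algebra.discr F0 pb.basis)⁻¹ := by
    rw [hdeq, mul_inv, ← mul_assoc]
    have : sg * sg⁻¹ = 1 := by
      have hsg0 : sg ≠ 0 := by
        intro h
        rw [h, zero_mul] at hsg2
        exact zero_ne_one hsg2
      exact mul_inv_cancel₀ hsg0
    rw [this, one_mul]
  refine (hO' _).mpr (isIntegral_inv_of_norm_inv_mem O hwint hw0 ?_)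
  rw [hN]
  exact O.mul_mem _ _ (pow_mem (neg_mem O.one_mem) _) hdisc

end PowerBasisForm

end Fermat.Agent.S48.helper2720
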