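import Mathlib
import Fermat.Prelude.Def_FLTPrelim_Modularity
import Fermat.Prelude.Def_ModularForm_HeckeOperator
import Fermat.Prelude.Thm_UpperHalfPlane_qCoeff_heckeU
import Fermat.Prelude.Thm_UpperHalfPlane_qCoeff_heckeT
import Fermat.Prelude.Thm_ModularForm_periodic_heckeU_comp_ofComplex
import Fermat.Prelude.Thm_ModularForm_periodic_heckeT_comp_ofComplex
import Fermat.Prelude.Thm_ModularForm_mdifferentiable_heckeU
import Fermat.Prelude.Thm_ModularForm_mdifferentiable_heckeT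
import Fermat.Prelude.Thm_ModularForm_isBoundedAtImInfty_heckeU
import Fermat.Prelude.Thm_ModularForm_isBoundedAtImInfty_heckeT
import Fermat.Prelude.Thm_UpperHalfPlane_eq_of_forall_qCoeff_eq
import Fermat.Prelude.Thm_ModularFormClass_heckeT_heckeU_comm
import Fermat.Prelude.Thm_ModularFormClass_heckeU_heckeU_comm

/-!
# Hecke operators `T_p` and diamond operators on `Γ₁(M)` (S48-HECKE1, helper5251)

Mathlib-only infrastructure (plus the Prelude `qCoeff`):

* `sumSlashMF`, `sumSlashCF`: a finite sum of rational translates of a modular (cusp) form for an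
  arithmetic group `Γ` which is `Γ`-invariant is again a modular (cusp) form for `Γ`.
-/

set_option autoImplicit false

open CongruenceSubgroup UpperHalfPlane Matrix ModularForm
open scoped MatrixGroups ModularForm Manifold

namespace Fermat.Agent.S48.helper5251

noncomputable section

/-- The image in `GL(2, ℝ)` of a rational matrix. -/
abbrev ratGL (g : GL (Fin 2) ℚ) : GL (Fin 2) ℝ := g.map (Rat.castHom ℝ)

lemma ratGL_mul (g h : GL (Fin 2) ℚ) : ratGL (g * h) = ratGL g * ratGL h := map_mul _ g h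

lemma ratGL_apply (g : GL (Fin 2) ℚ) (i j : Fin 2) : ratGL g i j = ((g i j : ℚ) : ℝ) := rfl

lemma ratGL_mapGL (γ : SL(2, ℤ)) :
    ratGL (Matrix.SpecialLinearGroup.mapGL ℚ γ) = Matrix.SpecialLinearGroup.mapGL ℝ γ := by
  ext i j
  simp [Matrix.SpecialLinearGroup.mapGL]

section general

variable {Γ : Subgroup (GL (Fin 2) ℝ)} {k : ℤ}

/-- Rational matrices preserve the set of cusps of an arithmetic group. -/
lemma isCusp_ratGL_smul [Γ.IsArithmetic] (g : GL (Fin 2) ℚ) {c : OnePoint ℝ} (hc : IsCusp c Γ) :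
    IsCusp (ratGL g • c) Γ := by
  rw [Subgroup.IsArithmetic.isCusp_iff_isCusp_SL2Z, isCusp_SL2Z_iff] at hc ⊢
  obtain ⟨c₀, rfl⟩ := hc
  refine ⟨g • c₀, ?_⟩
  rw [← Rat.coe_castHom, OnePoint.map_smul]

lemma isBoundedAt_sum {ι : Type*} (s : Finset ι) (c : OnePoint ℝ) (F : ι → ℍ → ℂ)
    (h : ∀ i ∈ s, c.IsBoundedAt (F i) k) : c.IsBoundedAt (∑ i ∈ s, F i) k := by
  classical
  induction s using Finset.induction_on with
  | empty =>
    intro g _
    simpa using zero_form_isBoundedAtImInfty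
  | insert i t hi IH =>
    rw [Finset.sum_insert hi]
    exact (h i (Finset.mem_insert_self i t)).add (IH fun j hj => h j (Finset.mem_insert_of_mem hj))

lemma isZeroAt_sum {ι : Type*} (s : Finset ι) (c : OnePoint ℝ) (F : ι → ℍ → ℂ)
    (h : ∀ i ∈ s, c.IsZeroAt (F i) k) : c.IsZeroAt (∑ i ∈ s, F i) k := by
  classical
  induction s using Finset.induction_on with
  | empty =>
    intro g _
    simpa using! Filter.zero_zeroAtFilter _
  | insert i t hi IH =>
    rw [Finset.sum_insert hi]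
    exact (h i (Finset.mem_insert_self i t)).add (IH fun j hj => h j (Finset.mem_insert_of_mem hj))

/-- A `Γ`-invariant finite sum of rational translates of a modular form for an arithmetic group
`Γ` is a modular form for `Γ`. -/
def sumSlashMF [Γ.IsArithmetic] {ι : Type} [Fintype ι] (f : ModularForm Γ k)
    (β : ι → GL (Fin 2) ℚ)
    (hinv : ∀ γ ∈ Γ, (∑ i, (f : ℍ → ℂ) ∣[k] ratGL (β i)) ∣[k] γ =
      ∑ i, (f : ℍ → ℂ) ∣[k] ratGL (β i)) : ModularForm Γ k where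
  toFun := ∑ i, (f : ℍ → ℂ) ∣[k] ratGL (β i)
  slash_action_eq' := hinv
  holo' := by
    change MDiff (∑ i, (f : ℍ → ℂ) ∣[k] ratGL (β i))
    exact MDifferentiable.sum fun i _ => f.holo'.slash k _
  bdd_at_cusps' {c} hc := by
    refine isBoundedAt_sum _ c _ fun i _ => ?_
    rw [← OnePoint.IsBoundedAt.smul_iff]
    exact f.bdd_at_cusps' (isCusp_ratGL_smul (β i) hc)

@[simp] lemma coe_sumSlashMF [Γ.IsArithmetic] {ι : Type} [Fintype ι] (f : ModularForm Γ k)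
    (β : ι → GL (Fin 2) ℚ) (hinv) :
    ⇑(sumSlashMF f β hinv) = ∑ i, (f : ℍ → ℂ) ∣[k] ratGL (β i) := by
  rfl

/-- A `Γ`-invariant finite sum of rational translates of a cusp form for an arithmetic group
`Γ` is a cusp form for `Γ`. -/
def sumSlashCF [Γ.IsArithmetic] {ι : Type} [Fintype ι] (f : CuspForm Γ k)
    (β : ι → GL (Fin 2) ℚ)
    (hinv : ∀ γ ∈ Γ, (∑ i, (f : ℍ → ℂ) ∣[k] ratGL (β i)) ∣[k] γ =
      ∑ i, (f : ℍ → ℂ) ∣[k] ratGL (β i)) : CuspForm Γ k where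
  toFun := ∑ i, (f : ℍ → ℂ) ∣[k] ratGL (β i)
  slash_action_eq' := hinv
  holo' := by
    change MDiff (∑ i, (f : ℍ → ℂ) ∣[k] ratGL (β i))
    exact MDifferentiable.sum fun i _ => f.holo'.slash k _
  zero_at_cusps' {c} hc := by
    refine isZeroAt_sum _ c _ fun i _ => ?_
    rw [← OnePoint.IsZeroAt.smul_iff]
    exact f.zero_at_cusps' (isCusp_ratGL_smul (β i) hc)

@[simp] lemma coe_sumSlashCF [Γ.IsArithmetic] {ι : Type} [Fintype ι] (f : CuspForm Γ k)
    (β : ι → GL (Fin 2) ℚ) (hinv) :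
    ⇑(sumSlashCF f β hinv) = ∑ i, (f : ℍ → ℂ) ∣[k] ratGL (β i) := by
  rfl

end general

/-! ### Matrices -/

section matrices

open Matrix.SpecialLinearGroup

/-- `Γ⁰(p)`: the subgroup of `SL(2, ℤ)` of matrices whose upper right entry is divisible by `p`. -/
def Gamma0up (p : ℕ) : Subgroup SL(2, ℤ) where
  carrier := {x | (p : ℤ) ∣ x 0 1}
  one_mem' := by simp
  mul_mem' := by
    intro x y hx hy
    change (p : ℤ) ∣ x 0 1 at hx
    change (p : ℤ) ∣ y 0 1 at hy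
    change (p : ℤ) ∣ (x * y) 0 1
    rw [Matrix.SpecialLinearGroup.coe_mul, Matrix.mul_apply, Fin.sum_univ_two]
    exact dvd_add (Dvd.dvd.mul_left hy _) (Dvd.dvd.mul_right hx _)
  inv_mem' := by
    intro x hx
    change (p : ℤ) ∣ x 0 1 at hx
    change (p : ℤ) ∣ (x⁻¹) 0 1
    rw [Matrix.SpecialLinearGroup.SL2_inv_expl]
    simpa using hx

lemma mem_Gamma0up {p : ℕ} {x : SL(2, ℤ)} : x ∈ Gamma0up p ↔ (p : ℤ) ∣ x 0 1 := Iff.rfl

/-- The upper unipotent matrix `[[1, j], [0, 1]]`. -/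
def hFin (j : ℤ) : SL(2, ℤ) := ⟨!![1, j; 0, 1], by simp [Matrix.det_fin_two]⟩

/-- Bezout coefficient `a` with `p * a - M * b = 1`. -/
def bezA (p M : ℕ) : ℤ := Int.gcdA p M

/-- Bezout coefficient `b` with `p * a - M * b = 1`. -/
def bezB (p M : ℕ) : ℤ := -Int.gcdB p M

lemma bez {p M : ℕ} (h : Nat.Coprime p M) : (p : ℤ) * bezA p M - M * bezB p M = 1 := by
  have := Int.gcd_eq_gcd_ab p M
  rw [Int.gcd_natCast_natCast, h] at this
  simp only [bezA, bezB]
  push_cast at this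
  linarith

/-- The coset representative at infinity, `[[p a, b], [M, 1]]`. -/
def hInf (p M : ℕ) (h : Nat.Coprime p M) : SL(2, ℤ) :=
  ⟨!![p * bezA p M, bezB p M; M, 1], by simp [Matrix.det_fin_two]; linarith [bez h]⟩

/-- The diamond matrix `[[a, b], [M, p]] ∈ Γ₀(M)` with lower right entry `p`. -/
def diamP (p M : ℕ) (h : Nat.Coprime p M) : SL(2, ℤ) :=
  ⟨!![bezA p M, bezB p M; M, p], by simp [Matrix.det_fin_two]; linarith [bez h]⟩

/-- The `p + 1` coset representatives. -/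
def hRep (p M : ℕ) (h : Nat.Coprime p M) : Option (Fin p) → SL(2, ℤ)
  | none => hInf p M h
  | some j => hFin (j : ℕ)

lemma mem_Gamma1_of {M : ℕ} {x : SL(2, ℤ)} (h10 : ((x 1 0 : ℤ) : ZMod M) = 0)
    (h11 : ((x 1 1 : ℤ) : ZMod M) = 1) : x ∈ Gamma1 M := by
  rw [Gamma1_mem]
  refine ⟨?_, h11, h10⟩
  have hdet := x.det_coe
  rw [Matrix.det_fin_two] at hdet
  have := congrArg (Int.cast : ℤ → ZMod M) hdet
  push_cast at this
  rw [h10, h11] at this
  simpa using this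

lemma hRep_mem_Gamma1 (p M : ℕ) (h : Nat.Coprime p M) (i : Option (Fin p)) :
    hRep p M h i ∈ Gamma1 M := by
  cases i with
  | none => exact mem_Gamma1_of (by simp [hRep, hInf]) (by simp [hRep, hInf])
  | some j => exact mem_Gamma1_of (by simp [hRep, hFin]) (by simp [hRep, hFin])

lemma mul_inv_apply_zero_one (x y : SL(2, ℤ)) :
    (x * y⁻¹) 0 1 = x 0 1 * y 0 0 - x 0 0 * y 0 1 := by
  rw [Matrix.SpecialLinearGroup.coe_mul, Matrix.mul_apply, Fin.sum_univ_two,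
    Matrix.SpecialLinearGroup.coe_inv, Matrix.adjugate_fin_two]
  simp
  ring

@[simp] lemma hFin_apply_zero_zero (j : ℤ) : (hFin j) 0 0 = 1 := rfl
@[simp] lemma hFin_apply_zero_one (j : ℤ) : (hFin j) 0 1 = j := rfl
@[simp] lemma hFin_apply_one_zero (j : ℤ) : (hFin j) 1 0 = 0 := rfl
@[simp] lemma hFin_apply_one_one (j : ℤ) : (hFin j) 1 1 = 1 := rfl

section
variable {p M : ℕ} (h : Nat.Coprime p M)
@[simp] lemma hInf_apply_zero_zero : (hInf p M h) 0 0 = p * bezA p M := rfl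
@[simp] lemma hInf_apply_zero_one : (hInf p M h) 0 1 = bezB p M := rfl
@[simp] lemma hInf_apply_one_zero : (hInf p M h) 1 0 = M := rfl
@[simp] lemma hInf_apply_one_one : (hInf p M h) 1 1 = 1 := rfl
@[simp] lemma diamP_apply_zero_zero : (diamP p M h) 0 0 = bezA p M := rfl
@[simp] lemma diamP_apply_zero_one : (diamP p M h) 0 1 = bezB p M := rfl
@[simp] lemma diamP_apply_one_zero : (diamP p M h) 1 0 = M := rfl
@[simp] lemma diamP_apply_one_one : (diamP p M h) 1 1 = p := rfl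
end

lemma mul_hFin_inv_apply_zero_one (x : SL(2, ℤ)) (j : ℤ) :
    (x * (hFin j)⁻¹) 0 1 = x 0 1 - j * x 0 0 := by
  rw [mul_inv_apply_zero_one]
  simp
  ring

lemma mul_hInf_inv_apply_zero_one {p M : ℕ} (h : Nat.Coprime p M) (x : SL(2, ℤ)) :
    (x * (hInf p M h)⁻¹) 0 1 = p * (bezA p M * x 0 1) - bezB p M * x 0 0 := by
  rw [mul_inv_apply_zero_one]
  simp
  ring

lemma not_dvd_bezB {p M : ℕ} (hp : p.Prime) (h : Nat.Coprime p M) : ¬ (p : ℤ) ∣ bezB p M := by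
  intro hb
  have h1 : (p : ℤ) ∣ 1 := by
    rw [← bez h]
    exact dvd_sub (dvd_mul_right _ _) (Dvd.dvd.mul_left hb _)
  have := Int.natAbs_dvd_natAbs.mpr h1
  simp only [Int.natAbs_natCast, Int.natAbs_one, Nat.dvd_one] at this
  exact hp.one_lt.ne' this

/-- Every element of `SL(2, ℤ)` lies in a coset `Γ⁰(p) h_i`. -/
lemma exists_rep {p M : ℕ} (hp : p.Prime) (h : Nat.Coprime p M) (x : SL(2, ℤ)) :
    ∃ i, x * (hRep p M h i)⁻¹ ∈ Gamma0up p := by
  have := Fact.mk hp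
  by_cases hx : (p : ℤ) ∣ x 0 0
  · refine ⟨none, ?_⟩
    rw [mem_Gamma0up]
    change (p : ℤ) ∣ (x * (hInf p M h)⁻¹) 0 1
    rw [mul_hInf_inv_apply_zero_one]
    exact dvd_sub (dvd_mul_right _ _) (Dvd.dvd.mul_left hx _)
  · have hx0 : ((x 0 0 : ℤ) : ZMod p) ≠ 0 := by
      rwa [Ne, ZMod.intCast_zmod_eq_zero_iff_dvd]
    let t : ZMod p := ((x 0 1 : ℤ) : ZMod p) * ((x 0 0 : ℤ) : ZMod p)⁻¹
    refine ⟨some ⟨t.val, ZMod.val_lt t⟩, ?_⟩
    rw [mem_Gamma0up]
    change (p : ℤ) ∣ (x * (hFin ((t.val : ℕ) : ℤ))⁻¹) 0 1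
    rw [mul_hFin_inv_apply_zero_one, ← ZMod.intCast_zmod_eq_zero_iff_dvd]
    push_cast
    rw [ZMod.natCast_zmod_val]
    simp only [t]
    rw [mul_assoc, inv_mul_cancel₀ hx0, mul_one, sub_self]

/-- The cosets `Γ⁰(p) h_i` are pairwise distinct. -/
lemma rep_inj {p M : ℕ} (hp : p.Prime) (h : Nat.Coprime p M) {i j : Option (Fin p)}
    (hij : hRep p M h i * (hRep p M h j)⁻¹ ∈ Gamma0up p) : i = j := by
  rw [mem_Gamma0up] at hij
  cases i with
  | none =>
    cases j with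
    | none => rfl
    | some j =>
      exfalso
      change (p : ℤ) ∣ (hInf p M h * (hFin ((j : ℕ) : ℤ))⁻¹) 0 1 at hij
      rw [mul_hFin_inv_apply_zero_one] at hij
      apply not_dvd_bezB hp h
      have h2 : (p : ℤ) ∣ (j : ℕ) * (hInf p M h) 0 0 := by
        simp only [hInf]
        simp
        exact Dvd.dvd.mul_left (dvd_mul_right _ _) _
      have h3 := dvd_add hij h2
      simpa [hInf] using h3
  | some i =>
    cases j with
    | none =>
      exfalso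
      change (p : ℤ) ∣ (hFin ((i : ℕ) : ℤ) * (hInf p M h)⁻¹) 0 1 at hij
      rw [mul_hInf_inv_apply_zero_one] at hij
      apply not_dvd_bezB hp h
      have h2 : (p : ℤ) ∣ p * (bezA p M * (hFin ((i : ℕ) : ℤ)) 0 1) := dvd_mul_right _ _
      have h3 := dvd_sub h2 hij
      simpa [hFin] using h3
    | some j =>
      change (p : ℤ) ∣ (hFin ((i : ℕ) : ℤ) * (hFin ((j : ℕ) : ℤ))⁻¹) 0 1 at hij
      rw [mul_hFin_inv_apply_zero_one] at hij
      have h3 : (p : ℤ) ∣ (i : ℕ) - (j : ℕ) := by simpa [hFin] using hij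
      have h4 : ((i : ℕ) : ℤ) ≡ (j : ℕ) [ZMOD p] := (Int.modEq_iff_dvd.mpr (by
        have := dvd_neg.mpr h3
        simpa using this))
      have h5 : (i : ℕ) ≡ (j : ℕ) [MOD p] := Int.natCast_modEq_iff.mp h4
      have h6 : (i : ℕ) = (j : ℕ) := Nat.ModEq.eq_of_lt_of_lt h5 i.2 j.2
      exact congrArg some (Fin.ext h6)

/-- Conjugation by `α = diag(1, p)` on `Γ⁰(p)`: `[[a, b], [c, d]] ↦ [[a, b / p], [p c, d]]`. -/
def conjAlpha (p : ℕ) (x : SL(2, ℤ)) (hx : x ∈ Gamma0up p) : SL(2, ℤ) :=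
  ⟨!![x 0 0, (mem_Gamma0up.mp hx).choose; p * x 1 0, x 1 1], by
    have hc := (mem_Gamma0up.mp hx).choose_spec
    have hdet := x.det_coe
    rw [Matrix.det_fin_two] at hdet
    rw [Matrix.det_fin_two]
    simp only [Matrix.of_apply, Matrix.cons_val', Matrix.cons_val_zero, Matrix.cons_val_one,
      Matrix.empty_val', Matrix.cons_val_fin_one]
    calc x 0 0 * x 1 1 - (mem_Gamma0up.mp hx).choose * (p * x 1 0)
        = x 0 0 * x 1 1 - (p * (mem_Gamma0up.mp hx).choose) * x 1 0 := by ring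
      _ = 1 := by rw [← hc]; exact hdet⟩

@[simp] lemma conjAlpha_apply_zero_zero (p : ℕ) (x : SL(2, ℤ)) (hx : x ∈ Gamma0up p) :
    (conjAlpha p x hx) 0 0 = x 0 0 := rfl

lemma conjAlpha_apply_zero_one (p : ℕ) (x : SL(2, ℤ)) (hx : x ∈ Gamma0up p) :
    p * (conjAlpha p x hx) 0 1 = x 0 1 := (mem_Gamma0up.mp hx).choose_spec.symm

@[simp] lemma conjAlpha_apply_one_zero (p : ℕ) (x : SL(2, ℤ)) (hx : x ∈ Gamma0up p) :
    (conjAlpha p x hx) 1 0 = p * x 1 0 := rfl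

@[simp] lemma conjAlpha_apply_one_one (p : ℕ) (x : SL(2, ℤ)) (hx : x ∈ Gamma0up p) :
    (conjAlpha p x hx) 1 1 = x 1 1 := rfl

lemma mapGL_rat_apply (x : SL(2, ℤ)) (i j : Fin 2) :
    (mapGL ℚ x : GL (Fin 2) ℚ) i j = ((x i j : ℤ) : ℚ) := by
  simp [mapGL]

/-- `α = diag(1, p)` as a rational matrix. -/
def alphaQ (p : ℕ) [NeZero p] : GL (Fin 2) ℚ :=
  .mkOfDetNeZero !![1, 0; 0, (p : ℚ)] (by simp [Matrix.det_fin_two, NeZero.ne p])

/-- `δ = diag(p, 1)` as a rational matrix. -/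
def deltaQ (p : ℕ) [NeZero p] : GL (Fin 2) ℚ :=
  .mkOfDetNeZero !![(p : ℚ), 0; 0, 1] (by simp [Matrix.det_fin_two, NeZero.ne p])

@[simp] lemma alphaQ_coe (p : ℕ) [NeZero p] :
    (alphaQ p : Matrix (Fin 2) (Fin 2) ℚ) = !![1, 0; 0, (p : ℚ)] := rfl

@[simp] lemma deltaQ_coe (p : ℕ) [NeZero p] :
    (deltaQ p : Matrix (Fin 2) (Fin 2) ℚ) = !![(p : ℚ), 0; 0, 1] := rfl

lemma alphaQ_mul_mapGL (p : ℕ) [NeZero p] (x : SL(2, ℤ)) (hx : x ∈ Gamma0up p) :
    alphaQ p * mapGL ℚ x = mapGL ℚ (conjAlpha p x hx) * alphaQ p := by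
  have hc := conjAlpha_apply_zero_one p x hx
  have hc' : (p : ℚ) * (((conjAlpha p x hx) 0 1 : ℤ) : ℚ) = ((x 0 1 : ℤ) : ℚ) := by
    exact_mod_cast congrArg (Int.cast : ℤ → ℚ) hc
  ext i j
  fin_cases i <;> fin_cases j <;>
    simp [Matrix.mul_apply, Fin.sum_univ_two]
  · rw [← hc']; ring
  · ring

lemma alphaQ_mul_hInf (p M : ℕ) [NeZero p] (h : Nat.Coprime p M) :
    alphaQ p * mapGL ℚ (hInf p M h) = mapGL ℚ (diamP p M h) * deltaQ p := by
  ext i j
  fin_cases i <;> fin_cases j <;>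
    simp [Matrix.mul_apply, Fin.sum_univ_two]
  all_goals ring

end matrices

/-! ### The Hecke operator on functions -/

section heckeFun

open Matrix.SpecialLinearGroup

variable {k : ℤ}

lemma slash_ratGL_mul (F : ℍ → ℂ) (a b : GL (Fin 2) ℚ) :
    F ∣[k] ratGL (a * b) = (F ∣[k] ratGL a) ∣[k] ratGL b := by
  rw [ratGL_mul, SlashAction.slash_mul]

lemma slash_ratGL_mapGL (F : ℍ → ℂ) (γ : SL(2, ℤ)) :
    F ∣[k] ratGL (mapGL ℚ γ) = F ∣[k] γ := by
  rw [ratGL_mapGL]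
  rfl

lemma Gamma0Map_eq_one_of_mem_Gamma1 {M : ℕ} (A : Gamma0 M) (h : (A : SL(2, ℤ)) ∈ Gamma1 M) :
    Gamma0Map M A = 1 := ((Gamma1_mem M A).mp h).2.1

lemma mem_Gamma1_of_Gamma0Map {M : ℕ} (A : Gamma0 M) (h : Gamma0Map M A = 1) :
    (A : SL(2, ℤ)) ∈ Gamma1 M := mem_Gamma1_of (Gamma0_mem.mp A.2) h

/-- The weight `k` Hecke operator `T_p` on functions: the sum of the translates by the `p + 1`
coset representatives `α h_i`, `α = diag(1, p)`. -/
def heckeFun (k : ℤ) (p M : ℕ) [NeZero p] (h : Nat.Coprime p M) (F : ℍ → ℂ) : ℍ → ℂ :=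
  ∑ i : Option (Fin p), F ∣[k] ratGL (alphaQ p * mapGL ℚ (hRep p M h i))

/-- Key lemma: for a `Γ₁(M)`-invariant function `F` and `δ ∈ Γ₀(M)` we have
`(T_p F) ∣ δ = T_p (F ∣ δ)`. For `δ ∈ Γ₁(M)` this is the invariance of `T_p F`. -/
theorem heckeFun_slash {p M : ℕ} [NeZero p] (hp : p.Prime) (h : Nat.Coprime p M) (F : ℍ → ℂ)
    (hF : ∀ γ ∈ Gamma1 M, F ∣[k] γ = F) (δ : SL(2, ℤ)) (hδ : δ ∈ Gamma0 M) :
    (heckeFun k p M h F) ∣[k] δ = heckeFun k p M h (F ∣[k] δ) := by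
  classical
  choose σ hσ using fun i => exists_rep hp h (hRep p M h i * δ)
  -- `σ` is injective, hence bijective
  have hσinj : Function.Injective σ := by
    intro i i' hii'
    apply rep_inj hp h
    have h1 := hσ i
    have h2 := hσ i'
    rw [hii'] at h1
    have h3 := (Gamma0up p).mul_mem h1 ((Gamma0up p).inv_mem h2)
    have h4 : hRep p M h i * δ * (hRep p M h (σ i'))⁻¹ *
        (hRep p M h i' * δ * (hRep p M h (σ i'))⁻¹)⁻¹ = hRep p M h i * (hRep p M h i')⁻¹ := by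
      group
    rwa [h4] at h3
  have hσbij : Function.Bijective σ := Finite.injective_iff_bijective.mp hσinj
  -- the termwise identity
  have key : ∀ i, (F ∣[k] ratGL (alphaQ p * mapGL ℚ (hRep p M h i))) ∣[k] δ =
      (F ∣[k] δ) ∣[k] ratGL (alphaQ p * mapGL ℚ (hRep p M h (σ i))) := by
    intro i
    set y : SL(2, ℤ) := hRep p M h i * δ * (hRep p M h (σ i))⁻¹ with hy
    have hyp : y ∈ Gamma0up p := hσ i
    set y' : SL(2, ℤ) := conjAlpha p y hyp with hy'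
    -- `y` and `y'` lie in `Γ₀(M)` with the same character as `δ`
    have hi0 : hRep p M h i ∈ Gamma0 M := Gamma1_in_Gamma0 M (hRep_mem_Gamma1 p M h i)
    have hs0 : hRep p M h (σ i) ∈ Gamma0 M := Gamma1_in_Gamma0 M (hRep_mem_Gamma1 p M h (σ i))
    have hy0 : y ∈ Gamma0 M := (Gamma0 M).mul_mem ((Gamma0 M).mul_mem hi0 hδ) ((Gamma0 M).inv_mem hs0)
    have hy'0 : y' ∈ Gamma0 M := by
      rw [Gamma0_mem] at hy0 ⊢
      rw [hy', conjAlpha_apply_one_zero]
      push_cast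
      rw [hy0, mul_zero]
    have hchar : Gamma0Map M ⟨y', hy'0⟩ = Gamma0Map M ⟨δ, hδ⟩ := by
      have e1 : Gamma0Map M ⟨y', hy'0⟩ = Gamma0Map M ⟨y, hy0⟩ := by
        change (((y' 1 1 : ℤ)) : ZMod M) = ((y 1 1 : ℤ) : ZMod M)
        rw [hy', conjAlpha_apply_one_one]
      have e2 : (⟨y, hy0⟩ : Gamma0 M) = ⟨hRep p M h i, hi0⟩ * ⟨δ, hδ⟩ * ⟨hRep p M h (σ i), hs0⟩⁻¹ := by
        ext1
        simp [hy]
      have e3 : Gamma0Map M ⟨hRep p M h i, hi0⟩ = 1 :=
        Gamma0Map_eq_one_of_mem_Gamma1 _ (hRep_mem_Gamma1 p M h i)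
      have e4 : Gamma0Map M (⟨hRep p M h (σ i), hs0⟩⁻¹ : Gamma0 M) = 1 := by
        have := Gamma0Map_eq_one_of_mem_Gamma1 (⟨hRep p M h (σ i), hs0⟩⁻¹ : Gamma0 M)
          (by simpa using (Gamma1 M).inv_mem (hRep_mem_Gamma1 p M h (σ i)))
        exact this
      rw [e1, e2, map_mul, map_mul, e3, e4, one_mul, mul_one]
    -- `g = y' δ⁻¹ ∈ Γ₁(M)`
    set g : SL(2, ℤ) := y' * δ⁻¹ with hg
    have hg1 : g ∈ Gamma1 M := by
      have : Gamma0Map M (⟨y', hy'0⟩ * ⟨δ, hδ⟩⁻¹ : Gamma0 M) = 1 := by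
        rw [map_mul, hchar, ← map_mul, mul_inv_cancel, map_one]
      simpa [hg] using mem_Gamma1_of_Gamma0Map _ this
    -- the matrix identity
    have e1 : mapGL ℚ g * mapGL ℚ δ = mapGL ℚ y' := by
      rw [← map_mul, hg, inv_mul_cancel_right]
    have e2 : mapGL ℚ y * mapGL ℚ (hRep p M h (σ i)) = mapGL ℚ (hRep p M h i) * mapGL ℚ δ := by
      rw [← map_mul, ← map_mul, hy, inv_mul_cancel_right]
    have e3 : alphaQ p * mapGL ℚ (hRep p M h i) * mapGL ℚ δ =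
        mapGL ℚ g * mapGL ℚ δ * (alphaQ p * mapGL ℚ (hRep p M h (σ i))) := by
      rw [mul_assoc, ← e2, ← mul_assoc, alphaQ_mul_mapGL p y hyp, e1, mul_assoc]
    calc (F ∣[k] ratGL (alphaQ p * mapGL ℚ (hRep p M h i))) ∣[k] δ
        = F ∣[k] ratGL (alphaQ p * mapGL ℚ (hRep p M h i) * mapGL ℚ δ) := by
          rw [slash_ratGL_mul F (alphaQ p * mapGL ℚ (hRep p M h i)) (mapGL ℚ δ), slash_ratGL_mapGL]
      _ = F ∣[k] ratGL (mapGL ℚ g * mapGL ℚ δ * (alphaQ p * mapGL ℚ (hRep p M h (σ i)))) := by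
          rw [e3]
      _ = ((F ∣[k] g) ∣[k] δ) ∣[k] ratGL (alphaQ p * mapGL ℚ (hRep p M h (σ i))) := by
          rw [slash_ratGL_mul F (mapGL ℚ g * mapGL ℚ δ) (alphaQ p * mapGL ℚ (hRep p M h (σ i))),
            slash_ratGL_mul F (mapGL ℚ g) (mapGL ℚ δ), slash_ratGL_mapGL, slash_ratGL_mapGL]
      _ = (F ∣[k] δ) ∣[k] ratGL (alphaQ p * mapGL ℚ (hRep p M h (σ i))) := by
          rw [hF g hg1]
  unfold heckeFun
  rw [SlashAction.sum_slash]
  simp_rw [key]
  exact Function.Bijective.sum_comp hσbij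
    (fun j => (F ∣[k] δ) ∣[k] ratGL (alphaQ p * mapGL ℚ (hRep p M h j)))

end heckeFun

/-! ### Bundled diamond and Hecke operators on `Γ₁(M)` -/

section bundled

open Matrix.SpecialLinearGroup

variable {M : ℕ} {k : ℤ}

/-- `Γ₁(M)`-invariance of the underlying function of a (slash invariant, modular, cusp) form. -/
lemma slash_eq_of_mem_Gamma1 {F : Type*} [FunLike F ℍ ℂ] [SlashInvariantFormClass F (Gamma1 M) k]
    (f : F) (γ : SL(2, ℤ)) (hγ : γ ∈ Gamma1 M) : (f : ℍ → ℂ) ∣[k] γ = f :=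
  SlashInvariantForm.slash_action_eqn f (mapGL ℝ γ) (Subgroup.mem_map_of_mem _ hγ)

/-- For a `Γ₁(M)`-invariant function `F` and `δ ∈ Γ₀(M)`, `F ∣ δ` is again `Γ₁(M)`-invariant. -/
lemma slash_Gamma0_invariant (F : ℍ → ℂ) (hF : ∀ γ ∈ Gamma1 M, F ∣[k] γ = F) (δ : SL(2, ℤ))
    (hδ : δ ∈ Gamma0 M) (γ : SL(2, ℤ)) (hγ : γ ∈ Gamma1 M) : (F ∣[k] δ) ∣[k] γ = F ∣[k] δ := by
  have hγ0 : γ ∈ Gamma0 M := Gamma1_in_Gamma0 M hγ
  have h1 : δ * γ * δ⁻¹ ∈ Gamma1 M := by
    have : Gamma0Map M (⟨δ, hδ⟩ * ⟨γ, hγ0⟩ * ⟨δ, hδ⟩⁻¹ : Gamma0 M) = 1 := by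
      rw [map_mul, map_mul, Gamma0Map_eq_one_of_mem_Gamma1 ⟨γ, hγ0⟩ hγ, mul_one, ← map_mul,
        mul_inv_cancel, map_one]
    simpa using mem_Gamma1_of_Gamma0Map _ this
  calc (F ∣[k] δ) ∣[k] γ = F ∣[k] (δ * γ) := (SlashAction.slash_mul k δ γ F).symm
    _ = F ∣[k] (δ * γ * δ⁻¹ * δ) := by rw [inv_mul_cancel_right]
    _ = (F ∣[k] (δ * γ * δ⁻¹)) ∣[k] δ := SlashAction.slash_mul k _ δ F
    _ = F ∣[k] δ := by rw [hF _ h1]

/-- For a `Γ₁(M)`-invariant function `F`, the translate `F ∣ δ` by `δ ∈ Γ₀(M)` only depends on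
the lower right entry of `δ` modulo `M`. -/
lemma slash_Gamma0_congr (F : ℍ → ℂ) (hF : ∀ γ ∈ Gamma1 M, F ∣[k] γ = F) (δ δ' : SL(2, ℤ))
    (hδ : δ ∈ Gamma0 M) (hδ' : δ' ∈ Gamma0 M)
    (h : ((δ 1 1 : ℤ) : ZMod M) = ((δ' 1 1 : ℤ) : ZMod M)) : F ∣[k] δ = F ∣[k] δ' := by
  have h1 : δ * δ'⁻¹ ∈ Gamma1 M := by
    have : Gamma0Map M (⟨δ, hδ⟩ * ⟨δ', hδ'⟩⁻¹ : Gamma0 M) = 1 := by
      have e : Gamma0Map M ⟨δ, hδ⟩ = Gamma0Map M ⟨δ', hδ'⟩ := h
      rw [map_mul, e, ← map_mul, mul_inv_cancel, map_one]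
    simpa using mem_Gamma1_of_Gamma0Map _ this
  calc F ∣[k] δ = F ∣[k] (δ * δ'⁻¹ * δ') := by rw [inv_mul_cancel_right]
    _ = (F ∣[k] (δ * δ'⁻¹)) ∣[k] δ' := SlashAction.slash_mul k _ δ' F
    _ = F ∣[k] δ' := by rw [hF _ h1]

/-- A matrix `[[a, b], [M, d']] ∈ Γ₀(M)` whose lower right entry reduces to `d` modulo `M`. -/
def diamRep (M : ℕ) (d : (ZMod M)ˣ) : SL(2, ℤ) :=
  diamP (d : ZMod M).val M (ZMod.val_coe_unit_coprime d)

lemma diamRep_mem_Gamma0 (d : (ZMod M)ˣ) : diamRep M d ∈ Gamma0 M := by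
  rw [Gamma0_mem]
  simp [diamRep]

lemma diamRep_apply_one_one [NeZero M] (d : (ZMod M)ˣ) :
    (((diamRep M d) 1 1 : ℤ) : ZMod M) = d := by
  simp [diamRep]

lemma diamP_mem_Gamma0 {p : ℕ} (h : Nat.Coprime p M) : diamP p M h ∈ Gamma0 M := by
  rw [Gamma0_mem]
  simp

variable [NeZero M]

/-- The translate `f ∣ δ` of a modular form on `Γ₁(M)` by `δ ∈ Γ₀(M)`. -/
def slashMF (δ : SL(2, ℤ)) (hδ : δ ∈ Gamma0 M) (f : ModularForm (Gamma1 M) k) :
    ModularForm (Gamma1 M) k where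
  toFun := (f : ℍ → ℂ) ∣[k] δ
  slash_action_eq' := by
    rintro _ ⟨γ, hγ, rfl⟩
    exact slash_Gamma0_invariant f (slash_eq_of_mem_Gamma1 f) δ hδ γ hγ
  holo' := by
    change MDiff ((f : ℍ → ℂ) ∣[k] (mapGL ℝ δ))
    exact f.holo'.slash k _
  bdd_at_cusps' {c} hc := by
    change c.IsBoundedAt ((f : ℍ → ℂ) ∣[k] (mapGL ℝ δ)) k
    rw [← OnePoint.IsBoundedAt.smul_iff]
    have := isCusp_ratGL_smul (mapGL ℚ δ) hc
    rw [ratGL_mapGL] at this
    exact f.bdd_at_cusps' this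

@[simp] lemma coe_slashMF (δ : SL(2, ℤ)) (hδ : δ ∈ Gamma0 M) (f : ModularForm (Gamma1 M) k) :
    ⇑(slashMF δ hδ f) = (f : ℍ → ℂ) ∣[k] δ := rfl

/-- The translate `f ∣ δ` of a cusp form on `Γ₁(M)` by `δ ∈ Γ₀(M)`. -/
def slashCF (δ : SL(2, ℤ)) (hδ : δ ∈ Gamma0 M) (f : CuspForm (Gamma1 M) k) :
    CuspForm (Gamma1 M) k where
  toFun := (f : ℍ → ℂ) ∣[k] δ
  slash_action_eq' := by
    rintro _ ⟨γ, hγ, rfl⟩
    exact slash_Gamma0_invariant f (slash_eq_of_mem_Gamma1 f) δ hδ γ hγ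
  holo' := by
    change MDiff ((f : ℍ → ℂ) ∣[k] (mapGL ℝ δ))
    exact f.holo'.slash k _
  zero_at_cusps' {c} hc := by
    change c.IsZeroAt ((f : ℍ → ℂ) ∣[k] (mapGL ℝ δ)) k
    rw [← OnePoint.IsZeroAt.smul_iff]
    have := isCusp_ratGL_smul (mapGL ℚ δ) hc
    rw [ratGL_mapGL] at this
    exact f.zero_at_cusps' this

@[simp] lemma coe_slashCF (δ : SL(2, ℤ)) (hδ : δ ∈ Gamma0 M) (f : CuspForm (Gamma1 M) k) :
    ⇑(slashCF δ hδ f) = (f : ℍ → ℂ) ∣[k] δ := rfl

/-- The diamond operator `⟨d⟩` on modular forms for `Γ₁(M)`: `⟨d⟩ f = f ∣ γ` for any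
`γ ∈ Γ₀(M)` whose lower right entry is `≡ d` modulo `M`. -/
def diamond (d : (ZMod M)ˣ) : ModularForm (Gamma1 M) k →ₗ[ℂ] ModularForm (Gamma1 M) k where
  toFun f := slashMF (diamRep M d) (diamRep_mem_Gamma0 d) f
  map_add' f g := by
    ext τ
    simp [SlashAction.add_slash]
  map_smul' c f := by
    ext τ
    simp [ModularForm.SL_smul_slash]

/-- The diamond operator `⟨d⟩` on cusp forms for `Γ₁(M)`. -/
def diamondCF (d : (ZMod M)ˣ) : CuspForm (Gamma1 M) k →ₗ[ℂ] CuspForm (Gamma1 M) k where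
  toFun f := slashCF (diamRep M d) (diamRep_mem_Gamma0 d) f
  map_add' f g := by
    ext τ
    simp [SlashAction.add_slash]
  map_smul' c f := by
    ext τ
    simp [ModularForm.SL_smul_slash]

lemma coe_diamond (d : (ZMod M)ˣ) (f : ModularForm (Gamma1 M) k) :
    ⇑(diamond d f) = (f : ℍ → ℂ) ∣[k] diamRep M d := rfl

lemma coe_diamondCF (d : (ZMod M)ˣ) (f : CuspForm (Gamma1 M) k) :
    ⇑(diamondCF d f) = (f : ℍ → ℂ) ∣[k] diamRep M d := rfl

/-- For `γ ∈ Γ₀(M)` with lower right entry `≡ d`, `f ∣ γ = ⟨d⟩ f`. -/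
theorem slash_eq_diamond (f : ModularForm (Gamma1 M) k) (γ : SL(2, ℤ)) (hγ : γ ∈ Gamma0 M)
    (d : (ZMod M)ˣ) (hd : ((γ 1 1 : ℤ) : ZMod M) = d) :
    (f : ℍ → ℂ) ∣[k] γ = ⇑(diamond d f) := by
  rw [coe_diamond]
  exact slash_Gamma0_congr f (slash_eq_of_mem_Gamma1 f) γ (diamRep M d) hγ (diamRep_mem_Gamma0 d)
    (by rw [hd, diamRep_apply_one_one])

/-- For `γ ∈ Γ₀(M)` with lower right entry `≡ d`, `f ∣ γ = ⟨d⟩ f` (cusp forms). -/
theorem slash_eq_diamondCF (f : CuspForm (Gamma1 M) k) (γ : SL(2, ℤ)) (hγ : γ ∈ Gamma0 M)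
    (d : (ZMod M)ˣ) (hd : ((γ 1 1 : ℤ) : ZMod M) = d) :
    (f : ℍ → ℂ) ∣[k] γ = ⇑(diamondCF d f) := by
  rw [coe_diamondCF]
  exact slash_Gamma0_congr f (slash_eq_of_mem_Gamma1 f) γ (diamRep M d) hγ (diamRep_mem_Gamma0 d)
    (by rw [hd, diamRep_apply_one_one])

@[simp] theorem diamond_one (f : ModularForm (Gamma1 M) k) : diamond (1 : (ZMod M)ˣ) f = f := by
  apply DFunLike.coe_injective
  rw [← slash_eq_diamond f 1 (Subgroup.one_mem _) 1 (by simp)]
  exact SlashAction.slash_one k _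

@[simp] theorem diamondCF_one (f : CuspForm (Gamma1 M) k) : diamondCF (1 : (ZMod M)ˣ) f = f := by
  apply DFunLike.coe_injective
  rw [← slash_eq_diamondCF f 1 (Subgroup.one_mem _) 1 (by simp)]
  exact SlashAction.slash_one k _

theorem diamond_mul (d e : (ZMod M)ˣ) (f : ModularForm (Gamma1 M) k) :
    diamond (d * e) f = diamond d (diamond e f) := by
  apply DFunLike.coe_injective
  rw [coe_diamond d, coe_diamond e, ← SlashAction.slash_mul]
  refine (slash_eq_diamond f (diamRep M e * diamRep M d)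
    (Subgroup.mul_mem _ (diamRep_mem_Gamma0 e) (diamRep_mem_Gamma0 d)) (d * e) ?_).symm
  have h1 : Gamma0Map M (⟨diamRep M e, diamRep_mem_Gamma0 e⟩ * ⟨diamRep M d, diamRep_mem_Gamma0 d⟩)
      = (e : ZMod M) * d := by
    rw [map_mul]
    congr 1
    · exact diamRep_apply_one_one e
    · exact diamRep_apply_one_one d
  rw [Units.val_mul, mul_comm]
  exact h1

theorem diamondCF_mul (d e : (ZMod M)ˣ) (f : CuspForm (Gamma1 M) k) :
    diamondCF (d * e) f = diamondCF d (diamondCF e f) := by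
  apply DFunLike.coe_injective
  rw [coe_diamondCF d, coe_diamondCF e, ← SlashAction.slash_mul]
  refine (slash_eq_diamondCF f (diamRep M e * diamRep M d)
    (Subgroup.mul_mem _ (diamRep_mem_Gamma0 e) (diamRep_mem_Gamma0 d)) (d * e) ?_).symm
  have h1 : Gamma0Map M (⟨diamRep M e, diamRep_mem_Gamma0 e⟩ * ⟨diamRep M d, diamRep_mem_Gamma0 d⟩)
      = (e : ZMod M) * d := by
    rw [map_mul]
    congr 1
    · exact diamRep_apply_one_one e
    · exact diamRep_apply_one_one d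
  rw [Units.val_mul, mul_comm]
  exact h1

end bundled

/-! ### Comparison with the Prelude function-level operators -/

section compare

open Matrix.SpecialLinearGroup

variable {k : ℤ}

lemma ratGL_alphaQ_mul_hFin (p : ℕ) [NeZero p] (j : ℕ) :
    ratGL (alphaQ p * mapGL ℚ (hFin (j : ℤ))) = ModularForm.heckeMatrix p j := by
  apply Units.ext
  rw [ModularForm.val_heckeMatrix (NeZero.ne p)]
  ext a b
  fin_cases a <;> fin_cases b <;>
    simp [Matrix.mul_apply, Fin.sum_univ_two]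

lemma ratGL_deltaQ (p : ℕ) [NeZero p] : ratGL (deltaQ p) = ModularForm.heckeDiagMatrix p := by
  apply Units.ext
  rw [ModularForm.val_heckeDiagMatrix (NeZero.ne p)]
  ext a b
  fin_cases a <;> fin_cases b <;> simp

/-- The coset sum `T_p F` in terms of the Prelude operator `heckeU` and the diagonal matrix. -/
theorem heckeFun_eq {p M : ℕ} [NeZero p] (h : Nat.Coprime p M) (F : ℍ → ℂ) :
    heckeFun k p M h F = ModularForm.heckeU k p F +
      (F ∣[k] diamP p M h) ∣[k] ModularForm.heckeDiagMatrix p := by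
  unfold heckeFun
  rw [Fintype.sum_option, add_comm]
  congr 1
  · rw [ModularForm.heckeU_def, ← Fin.sum_univ_eq_sum_range (fun j => F ∣[k] ModularForm.heckeMatrix p j)]
    refine Finset.sum_congr rfl fun j _ => ?_
    change F ∣[k] ratGL (alphaQ p * mapGL ℚ (hFin ((j : ℕ) : ℤ))) = _
    rw [ratGL_alphaQ_mul_hFin]
  · change F ∣[k] ratGL (alphaQ p * mapGL ℚ (hInf p M h)) = _
    rw [alphaQ_mul_hInf, slash_ratGL_mul, slash_ratGL_mapGL, ratGL_deltaQ]

lemma heckeFun_add {p M : ℕ} [NeZero p] (h : Nat.Coprime p M) (F G : ℍ → ℂ) :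
    heckeFun k p M h (F + G) = heckeFun k p M h F + heckeFun k p M h G := by
  simp only [heckeFun, SlashAction.add_slash, Finset.sum_add_distrib]

lemma heckeFun_smul {p M : ℕ} [NeZero p] (h : Nat.Coprime p M) (c : ℂ) (F : ℍ → ℂ) :
    heckeFun k p M h (c • F) = c • heckeFun k p M h F := by
  rw [heckeFun_eq, heckeFun_eq, ModularForm.heckeU_smul, ModularForm.SL_smul_slash,
    ModularForm.smul_slash, ModularForm.σ_heckeDiagMatrix, ContinuousAlgEquiv.refl_apply, smul_add]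

end compare

/-! ### The bundled Hecke operators -/

section hecke

open Matrix.SpecialLinearGroup

variable {M : ℕ} [NeZero M] {k : ℤ} {p : ℕ}

/-- The Hecke operator `T_p` (`p ∤ M` prime) on modular forms for `Γ₁(M)`. -/
def heckeT (hp : p.Prime) (h : Nat.Coprime p M) :
    ModularForm (Gamma1 M) k →ₗ[ℂ] ModularForm (Gamma1 M) k :=
  haveI : NeZero p := ⟨hp.ne_zero⟩
  { toFun := fun f =>
      sumSlashMF f (fun i : Option (Fin p) => alphaQ p * mapGL ℚ (hRep p M h i)) (by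
        rintro _ ⟨γ, hγ, rfl⟩
        have := heckeFun_slash hp h f (slash_eq_of_mem_Gamma1 f) γ (Gamma1_in_Gamma0 M hγ)
        rw [slash_eq_of_mem_Gamma1 f γ hγ] at this
        exact this)
    map_add' := fun f g => by
      apply DFunLike.coe_injective
      exact heckeFun_add h f g
    map_smul' := fun c f => by
      apply DFunLike.coe_injective
      exact heckeFun_smul h c f }

/-- The Hecke operator `T_p` (`p ∤ M` prime) on cusp forms for `Γ₁(M)`. -/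
def heckeTCF (hp : p.Prime) (h : Nat.Coprime p M) :
    CuspForm (Gamma1 M) k →ₗ[ℂ] CuspForm (Gamma1 M) k :=
  haveI : NeZero p := ⟨hp.ne_zero⟩
  { toFun := fun f =>
      sumSlashCF f (fun i : Option (Fin p) => alphaQ p * mapGL ℚ (hRep p M h i)) (by
        rintro _ ⟨γ, hγ, rfl⟩
        have := heckeFun_slash hp h f (slash_eq_of_mem_Gamma1 f) γ (Gamma1_in_Gamma0 M hγ)
        rw [slash_eq_of_mem_Gamma1 f γ hγ] at this
        exact this)
    map_add' := fun f g => by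
      apply DFunLike.coe_injective
      exact heckeFun_add h f g
    map_smul' := fun c f => by
      apply DFunLike.coe_injective
      exact heckeFun_smul h c f }

/-- `T_p f` as the sum over the `p + 1` cosets `α h_i`. -/
theorem coe_heckeT_eq_sum [NeZero p] (hp : p.Prime) (h : Nat.Coprime p M)
    (f : ModularForm (Gamma1 M) k) :
    ⇑(heckeT hp h f) =
      ∑ i : Option (Fin p), (f : ℍ → ℂ) ∣[k] ratGL (alphaQ p * mapGL ℚ (hRep p M h i)) := rfl

theorem coe_heckeTCF_eq_sum [NeZero p] (hp : p.Prime) (h : Nat.Coprime p M)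
    (f : CuspForm (Gamma1 M) k) :
    ⇑(heckeTCF hp h f) =
      ∑ i : Option (Fin p), (f : ℍ → ℂ) ∣[k] ratGL (alphaQ p * mapGL ℚ (hRep p M h i)) := rfl

/-- `T_p f = U_p f + (⟨p⟩ f) ∣ diag(p, 1)` in terms of the Prelude function-level operators. -/
theorem coe_heckeT (hp : p.Prime) (h : Nat.Coprime p M) (f : ModularForm (Gamma1 M) k) :
    ⇑(heckeT hp h f) = ModularForm.heckeU k p f +
      (⇑(diamond (ZMod.unitOfCoprime p h) f)) ∣[k] ModularForm.heckeDiagMatrix p := by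
  have : NeZero p := ⟨hp.ne_zero⟩
  rw [coe_heckeT_eq_sum hp h f]
  change heckeFun k p M h f = _
  rw [heckeFun_eq, slash_eq_diamond f (diamP p M h) (diamP_mem_Gamma0 h) (ZMod.unitOfCoprime p h)
    (by simp)]

theorem coe_heckeTCF (hp : p.Prime) (h : Nat.Coprime p M) (f : CuspForm (Gamma1 M) k) :
    ⇑(heckeTCF hp h f) = ModularForm.heckeU k p f +
      (⇑(diamondCF (ZMod.unitOfCoprime p h) f)) ∣[k] ModularForm.heckeDiagMatrix p := by
  have : NeZero p := ⟨hp.ne_zero⟩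
  rw [coe_heckeTCF_eq_sum hp h f]
  change heckeFun k p M h f = _
  rw [heckeFun_eq, slash_eq_diamondCF f (diamP p M h) (diamP_mem_Gamma0 h) (ZMod.unitOfCoprime p h)
    (by simp)]

end hecke

/-! ### `q`-expansions -/

section qexp

open ModularFormClass

variable {k : ℤ}

/-- The function `τ ↦ p^(k-1) F(p τ)` in terms of the Prelude operators. -/
lemma slash_heckeDiagMatrix_eq_sub (k : ℤ) (p : ℕ) (F : ℍ → ℂ) :
    F ∣[k] ModularForm.heckeDiagMatrix p = ModularForm.heckeT k p F - ModularForm.heckeU k p F := by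
  rw [ModularForm.heckeT_eq_heckeU_add, add_sub_cancel_left]

lemma analyticAt_cuspFunction_heckeU {F : ℍ → ℂ}
    (hper : Function.Periodic (F ∘ UpperHalfPlane.ofComplex) 1) (hhol : MDiff F)
    (hbdd : IsBoundedAtImInfty F) (k : ℤ) (p : ℕ) :
    AnalyticAt ℂ (cuspFunction 1 (ModularForm.heckeU k p F)) 0 :=
  analyticAt_cuspFunction_zero one_pos (ModularForm.periodic_heckeU_comp_ofComplex hper k p)
    (ModularForm.mdifferentiable_heckeU hhol k p) (ModularForm.isBoundedAtImInfty_heckeU hbdd k p)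

lemma analyticAt_cuspFunction_heckeT {F : ℍ → ℂ}
    (hper : Function.Periodic (F ∘ UpperHalfPlane.ofComplex) 1) (hhol : MDiff F)
    (hbdd : IsBoundedAtImInfty F) (k : ℤ) (p : ℕ) :
    AnalyticAt ℂ (cuspFunction 1 (ModularForm.heckeT k p F)) 0 :=
  analyticAt_cuspFunction_zero one_pos (ModularForm.periodic_heckeT_comp_ofComplex hper k p)
    (ModularForm.mdifferentiable_heckeT hhol k p) (ModularForm.isBoundedAtImInfty_heckeT hbdd k p)

lemma analyticAt_cuspFunction_slash_heckeDiagMatrix {F : ℍ → ℂ}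
    (hper : Function.Periodic (F ∘ UpperHalfPlane.ofComplex) 1) (hhol : MDiff F)
    (hbdd : IsBoundedAtImInfty F) (k : ℤ) (p : ℕ) :
    AnalyticAt ℂ (cuspFunction 1 (F ∣[k] ModularForm.heckeDiagMatrix p)) 0 := by
  have hT := analyticAt_cuspFunction_heckeT hper hhol hbdd k p
  have hU := analyticAt_cuspFunction_heckeU hper hhol hbdd k p
  rw [slash_heckeDiagMatrix_eq_sub, cuspFunction_sub hT.continuousAt hU.continuousAt]
  exact hT.sub hU

/-- The `q`-coefficients of `τ ↦ p^(k-1) F(p τ)`. -/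
theorem qCoeff_slash_heckeDiagMatrix {F : ℍ → ℂ}
    (hper : Function.Periodic (F ∘ UpperHalfPlane.ofComplex) 1) (hhol : MDiff F)
    (hbdd : IsBoundedAtImInfty F) (k : ℤ) {p : ℕ} (hp : p ≠ 0) (n : ℕ) :
    qCoeff (F ∣[k] ModularForm.heckeDiagMatrix p) n =
      (p : ℂ) ^ (k - 1) * (if p ∣ n then qCoeff F (n / p) else 0) := by
  have hT := analyticAt_cuspFunction_heckeT hper hhol hbdd k p
  have hU := analyticAt_cuspFunction_heckeU hper hhol hbdd k p
  have h1 := UpperHalfPlane.qCoeff_heckeT hper hhol hbdd k hp n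
  have h2 := UpperHalfPlane.qCoeff_heckeU hper hhol hbdd k hp n
  unfold qCoeff at h1 h2 ⊢
  rw [slash_heckeDiagMatrix_eq_sub, qExpansion_sub hT hU, map_sub, h1, h2,
    ModularForm.coeffHeckeT_eq_coeffHeckeU_add, add_sub_cancel_left]
  split_ifs <;> simp

/-- The `q`-coefficients of `U_p F + (τ ↦ p^(k-1) G(p τ))`. -/
theorem qCoeff_heckeU_add_slash {F G : ℍ → ℂ}
    (hFper : Function.Periodic (F ∘ UpperHalfPlane.ofComplex) 1) (hFhol : MDiff F)
    (hFbdd : IsBoundedAtImInfty F)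
    (hGper : Function.Periodic (G ∘ UpperHalfPlane.ofComplex) 1) (hGhol : MDiff G)
    (hGbdd : IsBoundedAtImInfty G) (k : ℤ) {p : ℕ} (hp : p ≠ 0) (n : ℕ) :
    qCoeff (ModularForm.heckeU k p F + G ∣[k] ModularForm.heckeDiagMatrix p) n =
      qCoeff F (p * n) + (p : ℂ) ^ (k - 1) * (if p ∣ n then qCoeff G (n / p) else 0) := by
  have h1 := UpperHalfPlane.qCoeff_heckeU hFper hFhol hFbdd k hp n
  have h2 := qCoeff_slash_heckeDiagMatrix hGper hGhol hGbdd k hp n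
  unfold qCoeff at h1 h2 ⊢
  rw [qExpansion_add (analyticAt_cuspFunction_heckeU hFper hFhol hFbdd k p)
    (analyticAt_cuspFunction_slash_heckeDiagMatrix hGper hGhol hGbdd k p), map_add, h1, h2,
    ModularForm.coeffHeckeU_apply, mul_comm n p]

variable {M : ℕ} [NeZero M] {p : ℕ}

omit [NeZero M] in
lemma periodic_of_Gamma1 {F : Type*} [FunLike F ℍ ℂ] [SlashInvariantFormClass F (Gamma1 M) k]
    (f : F) : Function.Periodic ((f : ℍ → ℂ) ∘ UpperHalfPlane.ofComplex) 1 :=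
  SlashInvariantFormClass.periodic_comp_ofComplex f (by simp [AddSubgroup.mem_zmultiples])

/-- **The action of `T_p` on `q`-expansions** (modular forms on `Γ₁(M)`, `p ∤ M`):
`a_n(T_p f) = a_{pn}(f) + p^(k-1) a_{n/p}(⟨p⟩ f)`. -/
theorem qCoeff_heckeT (hp : p.Prime) (h : Nat.Coprime p M) (f : ModularForm (Gamma1 M) k)
    (n : ℕ) :
    qCoeff (heckeT hp h f) n = qCoeff f (p * n) +
      (p : ℂ) ^ (k - 1) *
        (if p ∣ n then qCoeff (diamond (ZMod.unitOfCoprime p h) f) (n / p) else 0) := by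
  rw [coe_heckeT]
  exact qCoeff_heckeU_add_slash (periodic_of_Gamma1 f) (ModularFormClass.holo f)
    (ModularFormClass.bdd_at_infty f) (periodic_of_Gamma1 _) (ModularFormClass.holo _)
    (ModularFormClass.bdd_at_infty _) k hp.ne_zero n

/-- **The action of `T_p` on `q`-expansions** (cusp forms on `Γ₁(M)`, `p ∤ M`):
`a_n(T_p f) = a_{pn}(f) + p^(k-1) a_{n/p}(⟨p⟩ f)`. -/
theorem qCoeff_heckeTCF (hp : p.Prime) (h : Nat.Coprime p M) (f : CuspForm (Gamma1 M) k)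
    (n : ℕ) :
    qCoeff (heckeTCF hp h f) n = qCoeff f (p * n) +
      (p : ℂ) ^ (k - 1) *
        (if p ∣ n then qCoeff (diamondCF (ZMod.unitOfCoprime p h) f) (n / p) else 0) := by
  rw [coe_heckeTCF]
  exact qCoeff_heckeU_add_slash (periodic_of_Gamma1 f) (ModularFormClass.holo f)
    (ModularFormClass.bdd_at_infty f) (periodic_of_Gamma1 _) (ModularFormClass.holo _)
    (ModularFormClass.bdd_at_infty _) k hp.ne_zero n

/-- Pointwise formula for `T_p`. -/
theorem heckeT_apply (hp : p.Prime) (h : Nat.Coprime p M) (f : ModularForm (Gamma1 M) k)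
    (τ : ℍ) :
    heckeT hp h f τ = (p : ℂ)⁻¹ * ∑ j ∈ Finset.range p, f (ModularForm.heckeMatrix p j • τ) +
      (p : ℂ) ^ (k - 1) *
        diamond (ZMod.unitOfCoprime p h) f (ModularForm.heckeDiagMatrix p • τ) := by
  rw [coe_heckeT, Pi.add_apply, ModularForm.heckeU_apply k hp.ne_zero,
    ModularForm.slash_heckeDiagMatrix_apply k hp.ne_zero]

theorem heckeTCF_apply (hp : p.Prime) (h : Nat.Coprime p M) (f : CuspForm (Gamma1 M) k)
    (τ : ℍ) :
    heckeTCF hp h f τ = (p : ℂ)⁻¹ * ∑ j ∈ Finset.range p, f (ModularForm.heckeMatrix p j • τ) +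
      (p : ℂ) ^ (k - 1) *
        diamondCF (ZMod.unitOfCoprime p h) f (ModularForm.heckeDiagMatrix p • τ) := by
  rw [coe_heckeTCF, Pi.add_apply, ModularForm.heckeU_apply k hp.ne_zero,
    ModularForm.slash_heckeDiagMatrix_apply k hp.ne_zero]

end qexp

/-! ### Commutation relations and the nebentypus form -/

section commute

open ModularFormClass

variable {M : ℕ} [NeZero M] {k : ℤ} {p q : ℕ}

/-- `T_p` commutes with the diamond operators. -/
theorem heckeT_diamond (hp : p.Prime) (h : Nat.Coprime p M) (d : (ZMod M)ˣ)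
    (f : ModularForm (Gamma1 M) k) :
    heckeT hp h (diamond d f) = diamond d (heckeT hp h f) := by
  have : NeZero p := ⟨hp.ne_zero⟩
  apply DFunLike.coe_injective
  rw [coe_diamond, coe_heckeT_eq_sum hp h f, coe_heckeT_eq_sum hp h (diamond d f), coe_diamond]
  exact (heckeFun_slash hp h f (slash_eq_of_mem_Gamma1 f) (diamRep M d)
    (diamRep_mem_Gamma0 d)).symm

/-- `T_p` commutes with the diamond operators (cusp forms). -/
theorem heckeTCF_diamondCF (hp : p.Prime) (h : Nat.Coprime p M) (d : (ZMod M)ˣ)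
    (f : CuspForm (Gamma1 M) k) :
    heckeTCF hp h (diamondCF d f) = diamondCF d (heckeTCF hp h f) := by
  have : NeZero p := ⟨hp.ne_zero⟩
  apply DFunLike.coe_injective
  rw [coe_diamondCF, coe_heckeTCF_eq_sum hp h f, coe_heckeTCF_eq_sum hp h (diamondCF d f),
    coe_diamondCF]
  exact (heckeFun_slash hp h f (slash_eq_of_mem_Gamma1 f) (diamRep M d)
    (diamRep_mem_Gamma0 d)).symm

omit [NeZero M] in
/-- `q`-coefficients of a scalar multiple. -/
lemma qCoeff_smul_of_Gamma1 {F : Type*} [FunLike F ℍ ℂ] [ModularFormClass F (Gamma1 M) k]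
    (c : ℂ) (f : F) (n : ℕ) : qCoeff (c • (f : ℍ → ℂ)) n = c * qCoeff f n := by
  unfold qCoeff
  rw [qExpansion_smul (ModularFormClass.analyticAt_cuspFunction_zero f one_pos
    (by simp [AddSubgroup.mem_zmultiples])) c]
  simp

/-- If `f ∣ γ = χ(γ₁₁) f` for all `γ ∈ Γ₀(M)` then `⟨d⟩ f = χ(d) f`. -/
theorem diamond_eq_smul_of_nebentypus (f : ModularForm (Gamma1 M) k) (χ : ZMod M → ℂ)
    (hχ : ∀ γ ∈ Gamma0 M, (f : ℍ → ℂ) ∣[k] γ = χ ((γ 1 1 : ℤ) : ZMod M) • (f : ℍ → ℂ))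
    (d : (ZMod M)ˣ) : diamond d f = χ d • f := by
  apply DFunLike.coe_injective
  rw [coe_diamond, hχ _ (diamRep_mem_Gamma0 d), diamRep_apply_one_one]
  rfl

theorem diamondCF_eq_smul_of_nebentypus (f : CuspForm (Gamma1 M) k) (χ : ZMod M → ℂ)
    (hχ : ∀ γ ∈ Gamma0 M, (f : ℍ → ℂ) ∣[k] γ = χ ((γ 1 1 : ℤ) : ZMod M) • (f : ℍ → ℂ))
    (d : (ZMod M)ˣ) : diamondCF d f = χ d • f := by
  apply DFunLike.coe_injective
  rw [coe_diamondCF, hχ _ (diamRep_mem_Gamma0 d), diamRep_apply_one_one]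
  rfl

/-- **Nebentypus form of the `q`-expansion formula**: if `f ∣ γ = χ(γ₁₁) f` for all
`γ ∈ Γ₀(M)`, then `a_n(T_p f) = a_{pn}(f) + p^(k-1) χ(p) a_{n/p}(f)`. -/
theorem qCoeff_heckeT_of_nebentypus (hp : p.Prime) (h : Nat.Coprime p M)
    (f : ModularForm (Gamma1 M) k) (χ : ZMod M → ℂ)
    (hχ : ∀ γ ∈ Gamma0 M, (f : ℍ → ℂ) ∣[k] γ = χ ((γ 1 1 : ℤ) : ZMod M) • (f : ℍ → ℂ))
    (n : ℕ) :
    qCoeff (heckeT hp h f) n = qCoeff f (p * n) +
      (p : ℂ) ^ (k - 1) * χ (p : ZMod M) * (if p ∣ n then qCoeff f (n / p) else 0) := by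
  rw [qCoeff_heckeT, diamond_eq_smul_of_nebentypus f χ hχ, ZMod.coe_unitOfCoprime]
  split_ifs
  · have : ⇑(χ (p : ZMod M) • f) = χ (p : ZMod M) • (f : ℍ → ℂ) := rfl
    rw [this, qCoeff_smul_of_Gamma1]
    ring
  · simp

theorem qCoeff_heckeTCF_of_nebentypus (hp : p.Prime) (h : Nat.Coprime p M)
    (f : CuspForm (Gamma1 M) k) (χ : ZMod M → ℂ)
    (hχ : ∀ γ ∈ Gamma0 M, (f : ℍ → ℂ) ∣[k] γ = χ ((γ 1 1 : ℤ) : ZMod M) • (f : ℍ → ℂ))
    (n : ℕ) :
    qCoeff (heckeTCF hp h f) n = qCoeff f (p * n) +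
      (p : ℂ) ^ (k - 1) * χ (p : ZMod M) * (if p ∣ n then qCoeff f (n / p) else 0) := by
  rw [qCoeff_heckeTCF, diamondCF_eq_smul_of_nebentypus f χ hχ, ZMod.coe_unitOfCoprime]
  split_ifs
  · have : ⇑(χ (p : ZMod M) • f) = χ (p : ZMod M) • (f : ℍ → ℂ) := rfl
    rw [this, qCoeff_smul_of_Gamma1]
    ring
  · simp

/-- Weight one: the left hand side of the frozen Hecke relation is `a_n(T_p f)`. -/
theorem qCoeff_heckeTCF_weight_one_of_nebentypus (hp : p.Prime) (h : Nat.Coprime p M)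
    (f : CuspForm (Gamma1 M) 1) (χ : ZMod M → ℂ)
    (hχ : ∀ γ ∈ Gamma0 M, (f : ℍ → ℂ) ∣[(1 : ℤ)] γ = χ ((γ 1 1 : ℤ) : ZMod M) • (f : ℍ → ℂ))
    (n : ℕ) :
    qCoeff (heckeTCF hp h f) n = qCoeff f (p * n) +
      χ (p : ZMod M) * (if p ∣ n then qCoeff f (n / p) else 0) := by
  rw [qCoeff_heckeTCF_of_nebentypus hp h f χ hχ]
  simp

/-- Weight two: the left hand side of the Hecke relation with nebentypus is `a_n(T_p f)`. -/
theorem qCoeff_heckeTCF_weight_two_of_nebentypus (hp : p.Prime) (h : Nat.Coprime p M)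
    (f : CuspForm (Gamma1 M) 2) (χ : ZMod M → ℂ)
    (hχ : ∀ γ ∈ Gamma0 M, (f : ℍ → ℂ) ∣[(2 : ℤ)] γ = χ ((γ 1 1 : ℤ) : ZMod M) • (f : ℍ → ℂ))
    (n : ℕ) :
    qCoeff (heckeTCF hp h f) n = qCoeff f (p * n) +
      (p : ℂ) * χ (p : ZMod M) * (if p ∣ n then qCoeff f (n / p) else 0) := by
  rw [qCoeff_heckeTCF_of_nebentypus hp h f χ hχ]
  norm_num

/-- `T_p` preserves the nebentypus (function-level form). -/
theorem heckeT_nebentypus (hp : p.Prime) (h : Nat.Coprime p M)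
    (f : ModularForm (Gamma1 M) k) (χ : ZMod M → ℂ)
    (hχ : ∀ γ ∈ Gamma0 M, (f : ℍ → ℂ) ∣[k] γ = χ ((γ 1 1 : ℤ) : ZMod M) • (f : ℍ → ℂ)) :
    ∀ γ ∈ Gamma0 M, (⇑(heckeT hp h f) : ℍ → ℂ) ∣[k] γ =
      χ ((γ 1 1 : ℤ) : ZMod M) • (⇑(heckeT hp h f) : ℍ → ℂ) := by
  have : NeZero p := ⟨hp.ne_zero⟩
  intro γ hγ
  rw [coe_heckeT_eq_sum hp h f]
  change (heckeFun k p M h f) ∣[k] γ = χ ((γ 1 1 : ℤ) : ZMod M) • heckeFun k p M h f
  rw [heckeFun_slash hp h f (slash_eq_of_mem_Gamma1 f) γ hγ, hχ γ hγ, heckeFun_smul]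

/-- `T_p` preserves the nebentypus (cusp forms, function-level form). -/
theorem heckeTCF_nebentypus (hp : p.Prime) (h : Nat.Coprime p M)
    (f : CuspForm (Gamma1 M) k) (χ : ZMod M → ℂ)
    (hχ : ∀ γ ∈ Gamma0 M, (f : ℍ → ℂ) ∣[k] γ = χ ((γ 1 1 : ℤ) : ZMod M) • (f : ℍ → ℂ)) :
    ∀ γ ∈ Gamma0 M, (⇑(heckeTCF hp h f) : ℍ → ℂ) ∣[k] γ =
      χ ((γ 1 1 : ℤ) : ZMod M) • (⇑(heckeTCF hp h f) : ℍ → ℂ) := by
  have : NeZero p := ⟨hp.ne_zero⟩
  intro γ hγ
  rw [coe_heckeTCF_eq_sum hp h f]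
  change (heckeFun k p M h f) ∣[k] γ = χ ((γ 1 1 : ℤ) : ZMod M) • heckeFun k p M h f
  rw [heckeFun_slash hp h f (slash_eq_of_mem_Gamma1 f) γ hγ, hχ γ hγ, heckeFun_smul]

/-- An eigenvector of `T_p` with nebentypus `χ` satisfies the Hecke relation on
`q`-coefficients. -/
theorem hecke_relation_of_eigen (hp : p.Prime) (h : Nat.Coprime p M)
    (g : CuspForm (Gamma1 M) k) (χ : ZMod M → ℂ)
    (hχ : ∀ γ ∈ Gamma0 M, (g : ℍ → ℂ) ∣[k] γ = χ ((γ 1 1 : ℤ) : ZMod M) • (g : ℍ → ℂ))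
    (b : ℂ) (hb : heckeTCF hp h g = b • g) (n : ℕ) :
    qCoeff g (p * n) +
      (p : ℂ) ^ (k - 1) * χ (p : ZMod M) * (if p ∣ n then qCoeff g (n / p) else 0) =
      b * qCoeff g n := by
  rw [← qCoeff_heckeTCF_of_nebentypus hp h g χ hχ, hb]
  have : ⇑(b • g) = b • (g : ℍ → ℂ) := rfl
  rw [this, qCoeff_smul_of_Gamma1]

/-- Weight two form of `hecke_relation_of_eigen` (the shape of the `T_p`-clause of an eigenform
with nebentypus). -/
theorem hecke_relation_of_eigen_weight_two (hp : p.Prime) (h : Nat.Coprime p M)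
    (g : CuspForm (Gamma1 M) 2) (χ : ZMod M → ℂ)
    (hχ : ∀ γ ∈ Gamma0 M, (g : ℍ → ℂ) ∣[(2 : ℤ)] γ = χ ((γ 1 1 : ℤ) : ZMod M) • (g : ℍ → ℂ))
    (b : ℂ) (hb : heckeTCF hp h g = b • g) (n : ℕ) :
    qCoeff g (p * n) + (p : ℂ) * χ (p : ZMod M) * (if p ∣ n then qCoeff g (n / p) else 0) =
      b * qCoeff g n := by
  have := hecke_relation_of_eigen hp h g χ hχ b hb n
  have e : (p : ℂ) ^ ((2 : ℤ) - 1) = p := by norm_num
  rw [e] at this
  exact this

lemma heckeDiagMatrix_comm (p q : ℕ) :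
    ModularForm.heckeDiagMatrix p * ModularForm.heckeDiagMatrix q =
      ModularForm.heckeDiagMatrix q * ModularForm.heckeDiagMatrix p := by
  rcases eq_or_ne p 0 with rfl | hp
  · simp
  rcases eq_or_ne q 0 with rfl | hq
  · simp
  apply Units.ext
  rw [Units.val_mul, Units.val_mul, ModularForm.val_heckeDiagMatrix hp,
    ModularForm.val_heckeDiagMatrix hq]
  ext a b
  fin_cases a <;> fin_cases b <;> simp [Matrix.mul_apply, Fin.sum_univ_two, mul_comm]

lemma slash_heckeDiagMatrix_comm (k : ℤ) (p q : ℕ) (F : ℍ → ℂ) :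
    (F ∣[k] ModularForm.heckeDiagMatrix q) ∣[k] ModularForm.heckeDiagMatrix p =
      (F ∣[k] ModularForm.heckeDiagMatrix p) ∣[k] ModularForm.heckeDiagMatrix q := by
  rw [← SlashAction.slash_mul, ← SlashAction.slash_mul, heckeDiagMatrix_comm]

omit [NeZero M] in
/-- `U_p` commutes with `τ ↦ q^(k-1) g(q τ)` for coprime `p`, `q`. -/
lemma heckeU_slash_heckeDiagMatrix {F : Type*} [FunLike F ℍ ℂ] [ModularFormClass F (Gamma1 M) k]
    (g : F) (hpq : Nat.Coprime p q) :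
    ModularForm.heckeU k p ((g : ℍ → ℂ) ∣[k] ModularForm.heckeDiagMatrix q) =
      (ModularForm.heckeU k p g) ∣[k] ModularForm.heckeDiagMatrix q := by
  have hΓ : (1 : ℝ) ∈ ((Gamma1 M : Subgroup SL(2, ℤ)) : Subgroup (GL (Fin 2) ℝ)).strictPeriods := by
    simp [AddSubgroup.mem_zmultiples]
  rw [slash_heckeDiagMatrix_eq_sub, slash_heckeDiagMatrix_eq_sub, ModularForm.heckeU_sub,
    ← ModularFormClass.heckeT_heckeU_comm g hΓ hpq.symm,
    ModularFormClass.heckeU_heckeU_comm g hΓ p q]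

/-- Expansion of `T_p T_q f` into four function-level terms. -/
lemma coe_heckeT_heckeT (hp : p.Prime) (hq : q.Prime) (h : Nat.Coprime p M)
    (h' : Nat.Coprime q M) (hpq : Nat.Coprime p q) (f : ModularForm (Gamma1 M) k) :
    ⇑(heckeT hp h (heckeT hq h' f)) =
      ModularForm.heckeU k p (ModularForm.heckeU k q f) +
      (ModularForm.heckeU k p (diamond (ZMod.unitOfCoprime q h') f)) ∣[k]
        ModularForm.heckeDiagMatrix q +
      (ModularForm.heckeU k q (diamond (ZMod.unitOfCoprime p h) f)) ∣[k]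
        ModularForm.heckeDiagMatrix p +
      ((⇑(diamond (ZMod.unitOfCoprime q h') (diamond (ZMod.unitOfCoprime p h) f))) ∣[k]
        ModularForm.heckeDiagMatrix q) ∣[k] ModularForm.heckeDiagMatrix p := by
  rw [coe_heckeT hp h, ← heckeT_diamond hq h', coe_heckeT hq h' f,
    coe_heckeT hq h' (diamond _ f), ModularForm.heckeU_add, SlashAction.add_slash,
    heckeU_slash_heckeDiagMatrix _ hpq]
  abel

/-- **The Hecke operators `T_p`, `T_q` on `Γ₁(M)` commute.** -/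
theorem heckeT_comm (hp : p.Prime) (hq : q.Prime) (h : Nat.Coprime p M) (h' : Nat.Coprime q M)
    (f : ModularForm (Gamma1 M) k) :
    heckeT hp h (heckeT hq h' f) = heckeT hq h' (heckeT hp h f) := by
  rcases eq_or_ne p q with rfl | hne
  · rfl
  have hpq : Nat.Coprime p q := (Nat.coprime_primes hp hq).mpr hne
  have hΓ : (1 : ℝ) ∈ ((Gamma1 M : Subgroup SL(2, ℤ)) : Subgroup (GL (Fin 2) ℝ)).strictPeriods := by
    simp [AddSubgroup.mem_zmultiples]
  have e1 := ModularFormClass.heckeU_heckeU_comm f hΓ p q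
  have e2 : diamond (ZMod.unitOfCoprime q h') (diamond (ZMod.unitOfCoprime p h) f) =
      diamond (ZMod.unitOfCoprime p h) (diamond (ZMod.unitOfCoprime q h') f) := by
    rw [← diamond_mul, ← diamond_mul, mul_comm]
  apply DFunLike.coe_injective
  rw [coe_heckeT_heckeT hp hq h h' hpq, coe_heckeT_heckeT hq hp h' h hpq.symm, e1, e2,
    slash_heckeDiagMatrix_comm k p q]
  abel

theorem commute_heckeT (hp : p.Prime) (hq : q.Prime) (h : Nat.Coprime p M)
    (h' : Nat.Coprime q M) :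
    Commute (heckeT (k := k) hp h) (heckeT (k := k) hq h') :=
  LinearMap.ext fun f => heckeT_comm hp hq h h' f

/-- Expansion of `T_p T_q f` into four function-level terms (cusp forms). -/
lemma coe_heckeTCF_heckeTCF (hp : p.Prime) (hq : q.Prime) (h : Nat.Coprime p M)
    (h' : Nat.Coprime q M) (hpq : Nat.Coprime p q) (f : CuspForm (Gamma1 M) k) :
    ⇑(heckeTCF hp h (heckeTCF hq h' f)) =
      ModularForm.heckeU k p (ModularForm.heckeU k q f) +
      (ModularForm.heckeU k p (diamondCF (ZMod.unitOfCoprime q h') f)) ∣[k]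
        ModularForm.heckeDiagMatrix q +
      (ModularForm.heckeU k q (diamondCF (ZMod.unitOfCoprime p h) f)) ∣[k]
        ModularForm.heckeDiagMatrix p +
      ((⇑(diamondCF (ZMod.unitOfCoprime q h') (diamondCF (ZMod.unitOfCoprime p h) f))) ∣[k]
        ModularForm.heckeDiagMatrix q) ∣[k] ModularForm.heckeDiagMatrix p := by
  rw [coe_heckeTCF hp h, ← heckeTCF_diamondCF hq h', coe_heckeTCF hq h' f,
    coe_heckeTCF hq h' (diamondCF _ f), ModularForm.heckeU_add, SlashAction.add_slash,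
    heckeU_slash_heckeDiagMatrix _ hpq]
  abel

/-- **The Hecke operators `T_p`, `T_q` on cusp forms for `Γ₁(M)` commute.** -/
theorem heckeTCF_comm (hp : p.Prime) (hq : q.Prime) (h : Nat.Coprime p M)
    (h' : Nat.Coprime q M) (f : CuspForm (Gamma1 M) k) :
    heckeTCF hp h (heckeTCF hq h' f) = heckeTCF hq h' (heckeTCF hp h f) := by
  rcases eq_or_ne p q with rfl | hne
  · rfl
  have hpq : Nat.Coprime p q := (Nat.coprime_primes hp hq).mpr hne
  have hΓ : (1 : ℝ) ∈ ((Gamma1 M : Subgroup SL(2, ℤ)) : Subgroup (GL (Fin 2) ℝ)).strictPeriods := by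
    simp [AddSubgroup.mem_zmultiples]
  have e1 := ModularFormClass.heckeU_heckeU_comm f hΓ p q
  have e2 : diamondCF (ZMod.unitOfCoprime q h') (diamondCF (ZMod.unitOfCoprime p h) f) =
      diamondCF (ZMod.unitOfCoprime p h) (diamondCF (ZMod.unitOfCoprime q h') f) := by
    rw [← diamondCF_mul, ← diamondCF_mul, mul_comm]
  apply DFunLike.coe_injective
  rw [coe_heckeTCF_heckeTCF hp hq h h' hpq, coe_heckeTCF_heckeTCF hq hp h' h hpq.symm, e1, e2,
    slash_heckeDiagMatrix_comm k p q]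
  abel

theorem commute_heckeTCF (hp : p.Prime) (hq : q.Prime) (h : Nat.Coprime p M)
    (h' : Nat.Coprime q M) :
    Commute (heckeTCF (k := k) hp h) (heckeTCF (k := k) hq h') :=
  LinearMap.ext fun f => heckeTCF_comm hp hq h h' f

theorem commute_heckeT_diamond (hp : p.Prime) (h : Nat.Coprime p M) (d : (ZMod M)ˣ) :
    Commute (heckeT (k := k) hp h) (diamond (k := k) d) :=
  LinearMap.ext fun f => heckeT_diamond hp h d f

theorem commute_heckeTCF_diamondCF (hp : p.Prime) (h : Nat.Coprime p M) (d : (ZMod M)ˣ) :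
    Commute (heckeTCF (k := k) hp h) (diamondCF (k := k) d) :=
  LinearMap.ext fun f => heckeTCF_diamondCF hp h d f

theorem commute_diamond (d e : (ZMod M)ˣ) :
    Commute (diamond (k := k) d) (diamond (k := k) e) :=
  LinearMap.ext fun f => by
    change diamond d (diamond e f) = diamond e (diamond d f)
    rw [← diamond_mul, ← diamond_mul, mul_comm]

theorem commute_diamondCF (d e : (ZMod M)ˣ) :
    Commute (diamondCF (k := k) d) (diamondCF (k := k) e) :=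
  LinearMap.ext fun f => by
    change diamondCF d (diamondCF e f) = diamondCF e (diamondCF d f)
    rw [← diamondCF_mul, ← diamondCF_mul, mul_comm]

end commute


end

end Fermat.Agent.S48.helper5251
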