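/-
S48, machine half M3 (occurrence) — EIG2OP (helper2754).

The hypothesis `helper8231.IsEigen2 M ψ g b` of the `Γ₁` machine (nebentypus through the
lower-right entry + the Hecke relation on `q`-coefficients) in OPERATOR form, for the landed
Hecke operators `helper5251.heckeTCF` and diamond operators `helper5251.diamondCF` on
`CuspForm (Gamma1 M) 2`:

* `diamondCF_eq_smul_of_isEigen2`     : `⟨d⟩ g = ψ d • g`;
* `diamondCF_prime_eq_smul_of_isEigen2`: `⟨p⟩ g = ψ p • g` (the unit `ZMod.unitOfCoprime p _`);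
* `heckeTCF_eq_smul_of_isEigen2`      : `T_p g = b p • g` for every prime `p ∤ M`
  (`q`-expansion principle);
* `isEigen2_iff_operator`             : the equivalence with the operator form.

These are the eigen-equations consumed by the period side of occurrence
(`helper3284.perFun_comp_of_corr`, `helper9143.exists_eigen_functional_of_family'`).
-/
import Fermat.Agent.S48.helper8231_Spec
import Fermat.Agent.S48.helper5251_HeckeGamma1
import Fermat.Prelude.Thm_UpperHalfPlane_eq_of_forall_qCoeff_eq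

set_option autoImplicit false

open CongruenceSubgroup UpperHalfPlane
open scoped MatrixGroups ModularForm

namespace Fermat.Agent.S48.helper2754

open Fermat.Agent.S48.helper8231 Fermat.Agent.S48

variable {M : ℕ} [NeZero M]

/-- The diamond operators act on an `IsEigen2` eigenvector through its nebentypus. -/
theorem diamondCF_eq_smul_of_isEigen2 {ψ : DirichletCharacter ℂ M}
    {g : CuspForm (Gamma1 M) 2} {b : ℕ → ℂ} (h : IsEigen2 M ψ g b) (d : (ZMod M)ˣ) :
    helper5251.diamondCF d g = ψ (d : ZMod M) • g :=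
  helper5251.diamondCF_eq_smul_of_nebentypus g (fun x => ψ x) h.2.1 d

/-- The diamond operator `⟨p⟩` at a prime `p ∤ M`. -/
theorem diamondCF_prime_eq_smul_of_isEigen2 {ψ : DirichletCharacter ℂ M}
    {g : CuspForm (Gamma1 M) 2} {b : ℕ → ℂ} (h : IsEigen2 M ψ g b) {p : ℕ}
    (hpM : Nat.Coprime p M) :
    helper5251.diamondCF (ZMod.unitOfCoprime p hpM) g = ψ (p : ZMod M) • g := by
  rw [diamondCF_eq_smul_of_isEigen2 h, ZMod.coe_unitOfCoprime]

/-- **`T_p g = b p • g`** for an `IsEigen2` eigenvector and every prime `p ∤ M`. -/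
theorem heckeTCF_eq_smul_of_isEigen2 {ψ : DirichletCharacter ℂ M}
    {g : CuspForm (Gamma1 M) 2} {b : ℕ → ℂ} (h : IsEigen2 M ψ g b) {p : ℕ} (hp : p.Prime)
    (hpM : Nat.Coprime p M) :
    helper5251.heckeTCF hp hpM g = b p • g := by
  apply DFunLike.coe_injective
  apply UpperHalfPlane.eq_of_forall_qCoeff_eq
    (helper5251.periodic_of_Gamma1 (helper5251.heckeTCF hp hpM g))
    (ModularFormClass.holo (helper5251.heckeTCF hp hpM g))
    (ModularFormClass.bdd_at_infty (helper5251.heckeTCF hp hpM g))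
    (helper5251.periodic_of_Gamma1 (b p • g))
    (ModularFormClass.holo (b p • g))
    (ModularFormClass.bdd_at_infty (b p • g))
  intro n
  rw [helper5251.qCoeff_heckeTCF_weight_two_of_nebentypus hp hpM g (fun x => ψ x) h.2.1 n]
  have hcoe : ⇑(b p • g) = b p • (g : ℍ → ℂ) := rfl
  rw [hcoe, helper5251.qCoeff_smul_of_Gamma1]
  exact h.2.2 p hp ((Nat.Prime.coprime_iff_not_dvd hp).1 hpM) n

/-- `IsEigen2` is equivalent to its operator form: `g ≠ 0`, nebentypus `ψ` on `Γ₀(M)`, and
`T_p g = b p • g` for every prime `p ∤ M`. -/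
theorem isEigen2_iff_operator (ψ : DirichletCharacter ℂ M) (g : CuspForm (Gamma1 M) 2)
    (b : ℕ → ℂ) :
    IsEigen2 M ψ g b ↔
      g ≠ 0 ∧
      (∀ γ : SL(2, ℤ), γ ∈ Gamma0 M → (⇑g) ∣[(2 : ℤ)] γ = ψ ((γ 1 1 : ℤ) : ZMod M) • (⇑g)) ∧
      ∀ (p : ℕ) (hp : p.Prime) (hpM : Nat.Coprime p M), helper5251.heckeTCF hp hpM g = b p • g := by
  constructor
  · intro h
    exact ⟨h.1, h.2.1, fun p hp hpM => heckeTCF_eq_smul_of_isEigen2 h hp hpM⟩
  · rintro ⟨h0, hneb, hT⟩
    refine ⟨h0, hneb, fun p hp hpM n => ?_⟩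
    have hcop : Nat.Coprime p M := (Nat.Prime.coprime_iff_not_dvd hp).2 hpM
    exact helper5251.hecke_relation_of_eigen_weight_two hp hcop g (fun x => ψ x) hneb (b p)
      (hT p hp hcop) n

end Fermat.Agent.S48.helper2754
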