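import Fermat.Agent.S31.helper2756_K5JZero

/-!
# S48 (M3): the Kummer dictionary `Λ / n ↪ Pic⁰(F)[n]` for an ARBITRARY function field `F / K`
and an ARBITRARY subgroup `Γ ≤ SL₂(ℤ)`, equivariant for ARBITRARY operator pairs

This is the carrier-generic port of the landed `S31/helper2756_K5JZero` (which is hard-wired to
`N`, `Gamma0 N`, `modularFunctionFieldBar N`, `heckeFun`, `heckeHomT`, `heckeOperatorBar`).

* `Λ = parabolicHoms ℤ Γ ℤ` (integral parabolic homomorphisms `Γ → ℤ`);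
* `F / K` any function field in the Prelude sense with `HasPrincipalDivisors K F`
  (for S48: the `Γ₁(M)`-field over `ℚ̄`);
* `Mult u ψ` : "the function `u` has an analytic `n`-th root on `ℍ` whose multiplier under `Γ`
  is `γ ↦ ζ_n ^ ψ γ`" (any relation with the closed properties below).

`MultSpecG` = (TH2ₙ)–(TH4ₙ) (`surj`, `mul`, `inj`, `triv`); there is NO operator field.  Operators
enter through two separate hypotheses, so that `T_p`, the diamonds `⟨d⟩`, `U_q`, `W`, … are all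
served by the same theorem:

* `OpRel K Γ n Mult Tf t`  : the function-level operator `Tf : F → F` transforms the multiplier by
  `t` (the analytic side, = (TH5ₙ) for ONE operator);
* `ClassOp K n Tf TJ`      : `Tf` preserves `n`-Kummer functions and induces `TJ` on Kummer classes
  (the algebraic side).

Output: `kummerCorrG : KummerCorr n (RelG K Γ n Mult)` (hence the whole API of the landed
`S31/helper2756_K5`: `iota`, `iota_eq_zero_iff`, `nsmul_iota`, `Compat.add/mul/aeval`, …),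
`compatG`, `exists_k5G`, `exists_eq_nsmul_of_killsG`, and the weak twins (`MultSpecWG`,
`kummerRelG`, `relCompatG`, `exists_finset_testG`, `exists_eq_nsmul_of_kills_weakG`) which do not
need (TH3ₙ).  Nothing depends on `n` being prime.
-/

set_option autoImplicit false

namespace Fermat.Agent.S48.helper2756

open ModularCurve AlgebraicCurve
open Fermat.Agent.S29.helper8217
open Fermat.Agent.S31.helper2756 (KummerCorr KummerRel RelCompat exists_eq_nsmul_of_forall_dvd)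
open scoped MatrixGroups

section Generic

variable (K : Type*) {F : Type*} [Field K] [Field F] [Algebra K F] [HasPrincipalDivisors K F]
variable (Γ : Subgroup SL(2, ℤ)) (n : ℕ)

/-- The closed interface between the analytic Kummer dictionary at modulus `n` and (K5), for an
arbitrary function field `F / K` and an arbitrary subgroup `Γ`.  `Mult u ψ` stands for: "`u` has
an analytic `n`-th root with multiplier `γ ↦ ζ_n ^ ψ γ` under `Γ`". -/
structure MultSpecG (Mult : F → (Additive Γ →+ ℤ) → Prop) : Prop where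
  /-- (TH4ₙ) every integral parabolic hom is a multiplier -/
  surj : ∀ ψ ∈ Period.parabolicHoms ℤ Γ ℤ, ∃ u : F, IsKummer K n u ∧ Mult u ψ
  /-- (TH2ₙ) multipliers multiply -/
  mul : ∀ {u u' : F} {ψ ψ' : Additive Γ →+ ℤ},
    IsKummer K n u → IsKummer K n u' → Mult u ψ → Mult u' ψ' → Mult (u * u') (ψ + ψ')
  /-- (TH3ₙ) a trivial multiplier forces the Kummer class to vanish -/
  inj : ∀ {u : F} {φ : Additive Γ →+ ℤ},
    IsKummer K n u → Mult u (n • φ) → kummerClass K n u = 0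
  /-- (TH2ₙ) a function with vanishing Kummer class has trivial multiplier -/
  triv : ∀ {u : F} {ψ : Additive Γ →+ ℤ},
    IsKummer K n u → Mult u ψ → kummerClass K n u = 0 → ∀ γ : Additive Γ, (n : ℤ) ∣ ψ γ

/-- The weak interface: (TH2ₙ) + (TH4ₙ), no (TH3ₙ). -/
structure MultSpecWG (Mult : F → (Additive Γ →+ ℤ) → Prop) : Prop where
  /-- (TH4ₙ) every integral parabolic hom is a multiplier -/
  surj : ∀ ψ ∈ Period.parabolicHoms ℤ Γ ℤ, ∃ u : F, IsKummer K n u ∧ Mult u ψ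
  /-- (TH2ₙ) multipliers multiply -/
  mul : ∀ {u u' : F} {ψ ψ' : Additive Γ →+ ℤ},
    IsKummer K n u → IsKummer K n u' → Mult u ψ → Mult u' ψ' → Mult (u * u') (ψ + ψ')
  /-- (TH2ₙ) inverses -/
  inv : ∀ {u : F} {ψ : Additive Γ →+ ℤ}, IsKummer K n u → Mult u ψ → Mult u⁻¹ (-ψ)
  /-- (TH2ₙ) the constant function `1` has the trivial multiplier -/
  one : Mult 1 0
  /-- (TH2ₙ) a function with vanishing Kummer class has trivial multiplier -/
  triv : ∀ {u : F} {ψ : Additive Γ →+ ℤ},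
    IsKummer K n u → Mult u ψ → kummerClass K n u = 0 → ∀ γ : Additive Γ, (n : ℤ) ∣ ψ γ

/-- **(TH5ₙ) for ONE operator, analytic side.**  The function-level operator `Tf` transforms the
multiplier by `t`. -/
def OpRel (Mult : F → (Additive Γ →+ ℤ) → Prop) (Tf : F → F)
    (t : (Additive Γ →+ ℤ) → (Additive Γ →+ ℤ)) : Prop :=
  ∀ ⦃u : F⦄ ⦃ψ : Additive Γ →+ ℤ⦄, IsKummer K n u → Mult u ψ → Mult (Tf u) (t ψ)

/-- **The algebraic side of an operator.**  `Tf` preserves `n`-Kummer functions and induces `TJ`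
on Kummer classes. -/
def ClassOp (Tf : F → F) (TJ : Pic0 K F → Pic0 K F) : Prop :=
  ∀ ⦃u : F⦄, IsKummer K n u → IsKummer K n (Tf u) ∧ kummerClass K n (Tf u) = TJ (kummerClass K n u)

/-- The correspondence relation on `Λ × Pic⁰(F)` induced by a multiplier relation. -/
def RelG (Mult : F → (Additive Γ →+ ℤ) → Prop)
    (ψ : ↥(Period.parabolicHoms ℤ Γ ℤ)) (x : Pic0 K F) : Prop :=
  ∃ u : F, IsKummer K n u ∧ Mult u (ψ : Additive Γ →+ ℤ) ∧ kummerClass K n u = x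

variable {K Γ n}

/-- Function-level constructor of `MultSpecG`: `inj`/`triv` stated through `u = c * w ^ n` with
`c` without zeros and poles. -/
theorem MultSpecG.of_fun (hn : n ≠ 0) {Mult : F → (Additive Γ →+ ℤ) → Prop}
    (surj : ∀ ψ ∈ Period.parabolicHoms ℤ Γ ℤ, ∃ u : F, IsKummer K n u ∧ Mult u ψ)
    (mul : ∀ {u u' : F} {ψ ψ' : Additive Γ →+ ℤ},
      IsKummer K n u → IsKummer K n u' → Mult u ψ → Mult u' ψ' → Mult (u * u') (ψ + ψ'))
    (inj : ∀ {u : F} {φ : Additive Γ →+ ℤ}, IsKummer K n u → Mult u (n • φ) →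
      ∃ w c : F, w ≠ 0 ∧ c ≠ 0 ∧ (∀ v : Place K F, v.ord c = 0) ∧ u = c * w ^ n)
    (triv : ∀ {w c : F} {ψ : Additive Γ →+ ℤ}, w ≠ 0 → c ≠ 0 →
      (∀ v : Place K F, v.ord c = 0) → Mult (c * w ^ n) ψ → ∀ γ : Additive Γ, (n : ℤ) ∣ ψ γ) :
    MultSpecG K Γ n Mult where
  surj := surj
  mul := mul
  inj := fun hu hM => (kummerClass_eq_zero_iff hn hu).2 (inj hu hM)
  triv := fun hu hM h0 => by
    obtain ⟨w, c, hw, hc, hcv, rfl⟩ := (kummerClass_eq_zero_iff hn hu).1 h0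
    exact triv hw hc hcv hM

/-- Function-level constructor of `MultSpecWG`. -/
theorem MultSpecWG.of_fun (hn : n ≠ 0) {Mult : F → (Additive Γ →+ ℤ) → Prop}
    (surj : ∀ ψ ∈ Period.parabolicHoms ℤ Γ ℤ, ∃ u : F, IsKummer K n u ∧ Mult u ψ)
    (mul : ∀ {u u' : F} {ψ ψ' : Additive Γ →+ ℤ},
      IsKummer K n u → IsKummer K n u' → Mult u ψ → Mult u' ψ' → Mult (u * u') (ψ + ψ'))
    (inv : ∀ {u : F} {ψ : Additive Γ →+ ℤ}, IsKummer K n u → Mult u ψ → Mult u⁻¹ (-ψ))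
    (one : Mult 1 0)
    (triv : ∀ {w c : F} {ψ : Additive Γ →+ ℤ}, w ≠ 0 → c ≠ 0 →
      (∀ v : Place K F, v.ord c = 0) → Mult (c * w ^ n) ψ → ∀ γ : Additive Γ, (n : ℤ) ∣ ψ γ) :
    MultSpecWG K Γ n Mult where
  surj := surj
  mul := mul
  inv := inv
  one := one
  triv := fun hu hM h0 => by
    obtain ⟨w, c, hw, hc, hcv, rfl⟩ := (kummerClass_eq_zero_iff hn hu).1 h0
    exact triv hw hc hcv hM

/-- A strong dictionary whose relation is closed under inverses and contains `(1, 0)` is a weak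
one. -/
theorem MultSpecG.toW {Mult : F → (Additive Γ →+ ℤ) → Prop} (hM : MultSpecG K Γ n Mult)
    (inv : ∀ {u : F} {ψ : Additive Γ →+ ℤ}, IsKummer K n u → Mult u ψ → Mult u⁻¹ (-ψ))
    (one : Mult 1 0) : MultSpecWG K Γ n Mult where
  surj := hM.surj
  mul := hM.mul
  inv := inv
  one := one
  triv := hM.triv

/-! ### The strong correspondence -/

/-- **The Kummer correspondence on `Pic⁰(F)` at modulus `n`.** -/
theorem kummerCorrG (hn : n ≠ 0) {Mult : F → (Additive Γ →+ ℤ) → Prop}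
    (hM : MultSpecG K Γ n Mult) : KummerCorr n (RelG K Γ n Mult) where
  total ψ := by
    obtain ⟨u, hu, hMu⟩ := hM.surj ψ ψ.2
    exact ⟨_, u, hu, hMu, rfl⟩
  add := by
    rintro ψ ψ' x x' ⟨u, hu, hMu, rfl⟩ ⟨u', hu', hMu', rfl⟩
    exact ⟨u * u', hu.mul hu', hM.mul hu hu' hMu hMu', kummerClass_mul hu hu'⟩
  zero_of_nsmul := by
    rintro φ x ⟨u, hu, hMu, rfl⟩
    have hMu' : Mult u (n • (φ : Additive Γ →+ ℤ)) := by
      rwa [Submodule.coe_smul_of_tower] at hMu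
    exact hM.inj hu hMu'
  ker := by
    rintro ψ ⟨u, hu, hMu, h0⟩
    exact exists_eq_nsmul_of_forall_dvd hn ψ (hM.triv hu hMu h0)

/-- An operator pair `(t, TJ)` with a function-level operator `Tf` between them maps the relation
to itself. -/
theorem relG_op {Mult : F → (Additive Γ →+ ℤ) → Prop} {Tf : F → F}
    {t : (Additive Γ →+ ℤ) → (Additive Γ →+ ℤ)} {TJ : Pic0 K F → Pic0 K F}
    (hop : OpRel K Γ n Mult Tf t) (hcl : ClassOp K n Tf TJ)
    (ψ ψ' : ↥(Period.parabolicHoms ℤ Γ ℤ))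
    (hψ' : (ψ' : Additive Γ →+ ℤ) = t (ψ : Additive Γ →+ ℤ))
    (x : Pic0 K F) (hx : RelG K Γ n Mult ψ x) : RelG K Γ n Mult ψ' (TJ x) := by
  obtain ⟨u, hu, hMu, rfl⟩ := hx
  obtain ⟨hk, hT⟩ := hcl hu
  refine ⟨Tf u, hk, ?_, hT⟩
  rw [hψ']
  exact hop hu hMu

/-- **Compatibility of an operator pair with `ι`.**  If `t'` (an endomorphism of `Λ`) restricts
`t`, `Tf` transforms multipliers by `t` and induces `TJ` on classes, then `ι ∘ t' = TJ ∘ ι`. -/
theorem compatG (hn : n ≠ 0) {Mult : F → (Additive Γ →+ ℤ) → Prop}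
    (hM : MultSpecG K Γ n Mult) {Tf : F → F} {t : (Additive Γ →+ ℤ) → (Additive Γ →+ ℤ)}
    {TJ : Module.End ℤ (Pic0 K F)}
    (hop : OpRel K Γ n Mult Tf t) (hcl : ClassOp K n Tf TJ)
    (t' : Module.End ℤ ↥(Period.parabolicHoms ℤ Γ ℤ))
    (ht' : ∀ ψ, ((t' ψ : ↥(Period.parabolicHoms ℤ Γ ℤ)) : Additive Γ →+ ℤ)
      = t (ψ : Additive Γ →+ ℤ)) :
    (kummerCorrG hn hM).Compat t' TJ :=
  fun ψ => (kummerCorrG hn hM).iota_eq_of
    (relG_op hop hcl ψ (t' ψ) (ht' ψ) _ ((kummerCorrG hn hM).iota_spec ψ))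

/-- **(K5), generic.**  For every `n ≠ 0` there is an additive map `ι : Λ → Pic⁰(F)` with
`n • ι ψ = 0`, kernel exactly `n • Λ`, realised by Kummer functions (`RelG`), and equivariant
for every operator pair `(t', TJ)` given by `OpRel` + `ClassOp`. -/
theorem exists_k5G (hn : n ≠ 0) {Mult : F → (Additive Γ →+ ℤ) → Prop}
    (hM : MultSpecG K Γ n Mult) :
    ∃ ι : ↥(Period.parabolicHoms ℤ Γ ℤ) →+ Pic0 K F,
      (∀ ψ, RelG K Γ n Mult ψ (ι ψ)) ∧
      (∀ ψ, n • ι ψ = 0) ∧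
      (∀ ψ, ι ψ = 0 ↔ ∃ φ : ↥(Period.parabolicHoms ℤ Γ ℤ), ψ = n • φ) ∧
      (∀ (Tf : F → F) (t : (Additive Γ →+ ℤ) → (Additive Γ →+ ℤ)) (TJ : Pic0 K F → Pic0 K F),
        OpRel K Γ n Mult Tf t → ClassOp K n Tf TJ →
        ∀ ψ ψ' : ↥(Period.parabolicHoms ℤ Γ ℤ),
          (ψ' : Additive Γ →+ ℤ) = t (ψ : Additive Γ →+ ℤ) → ι ψ' = TJ (ι ψ)) := by
  have h := kummerCorrG hn hM
  refine ⟨h.iota, h.iota_spec, h.nsmul_iota, h.iota_eq_zero_iff, ?_⟩
  intro Tf t TJ hop hcl ψ ψ' hψ'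
  exact h.iota_eq_of (relG_op hop hcl ψ ψ' hψ' _ (h.iota_spec ψ))

/-- **Consumer form.**  If `(x, X)` is a compatible pair of operators on `Λ` and `Pic⁰(F)` and `X`
kills the `n`-torsion of `Pic⁰(F)`, then `x` maps `Λ` into `n • Λ`. -/
theorem exists_eq_nsmul_of_killsG (hn : n ≠ 0) {Mult : F → (Additive Γ →+ ℤ) → Prop}
    (hM : MultSpecG K Γ n Mult)
    {x : Module.End ℤ ↥(Period.parabolicHoms ℤ Γ ℤ)} {X : Module.End ℤ (Pic0 K F)}
    (hx : (kummerCorrG hn hM).Compat x X) (hkill : ∀ y : Pic0 K F, n • y = 0 → X y = 0)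
    (ψ : ↥(Period.parabolicHoms ℤ Γ ℤ)) :
    ∃ φ : ↥(Period.parabolicHoms ℤ Γ ℤ), x ψ = n • φ :=
  (kummerCorrG hn hM).exists_eq_nsmul_of_compat hx hkill ψ

/-- `ι` is injective modulo `n`: two lattice elements with the same class differ by `n • Λ`. -/
theorem iota_injective_modG (hn : n ≠ 0) {Mult : F → (Additive Γ →+ ℤ) → Prop}
    (hM : MultSpecG K Γ n Mult) (ψ ψ' : ↥(Period.parabolicHoms ℤ Γ ℤ)) :
    (kummerCorrG hn hM).iota ψ = (kummerCorrG hn hM).iota ψ' ↔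
      ∃ φ : ↥(Period.parabolicHoms ℤ Γ ℤ), ψ - ψ' = n • φ :=
  (kummerCorrG hn hM).iota_eq_iota_iff ψ ψ'

/-! ### The weak correspondence (no (TH3ₙ)) -/

/-- **The weak Kummer correspondence on `Pic⁰(F)` at modulus `n`.** -/
theorem kummerRelG (hn : n ≠ 0) {Mult : F → (Additive Γ →+ ℤ) → Prop}
    (hM : MultSpecWG K Γ n Mult) : KummerRel n (RelG K Γ n Mult) where
  total ψ := by
    obtain ⟨u, hu, hMu⟩ := hM.surj ψ ψ.2
    exact ⟨_, u, hu, hMu, rfl⟩
  add := by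
    rintro ψ ψ' x x' ⟨u, hu, hMu, rfl⟩ ⟨u', hu', hMu', rfl⟩
    exact ⟨u * u', hu.mul hu', hM.mul hu hu' hMu hMu', kummerClass_mul hu hu'⟩
  neg := by
    rintro ψ x ⟨u, hu, hMu, rfl⟩
    exact ⟨u⁻¹, hu.inv, hM.inv hu hMu, kummerClass_inv hu⟩
  zero := ⟨1, isKummer_one n, hM.one, kummerClass_one n⟩
  tors := by
    rintro ψ x ⟨u, hu, hMu, rfl⟩
    have := zsmul_kummerClass (K := K) n u
    rwa [natCast_zsmul] at this
  ker := by
    rintro ψ ⟨u, hu, hMu, h0⟩
    exact exists_eq_nsmul_of_forall_dvd hn ψ (hM.triv hu hMu h0)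

/-- An operator pair respects the weak correspondence. -/
theorem relCompatG {Mult : F → (Additive Γ →+ ℤ) → Prop} {Tf : F → F}
    {t : (Additive Γ →+ ℤ) → (Additive Γ →+ ℤ)} {TJ : Module.End ℤ (Pic0 K F)}
    (hop : OpRel K Γ n Mult Tf t) (hcl : ClassOp K n Tf TJ)
    (t' : Module.End ℤ ↥(Period.parabolicHoms ℤ Γ ℤ))
    (ht' : ∀ ψ, ((t' ψ : ↥(Period.parabolicHoms ℤ Γ ℤ)) : Additive Γ →+ ℤ)
      = t (ψ : Additive Γ →+ ℤ)) :
    RelCompat (RelG K Γ n Mult) t' TJ :=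
  fun ψ x hx => relG_op hop hcl ψ (t' ψ) (ht' ψ) x hx

/-- **(K5), weak consumer form with a finite test set.** -/
theorem exists_finset_testG [Module.Finite ℤ ↥(Period.parabolicHoms ℤ Γ ℤ)] (hn : n ≠ 0)
    {Mult : F → (Additive Γ →+ ℤ) → Prop} (hM : MultSpecWG K Γ n Mult) :
    ∃ S : Finset (Pic0 K F), (∀ y ∈ S, n • y = 0) ∧
      ∀ (x : Module.End ℤ ↥(Period.parabolicHoms ℤ Γ ℤ)) (X : Module.End ℤ (Pic0 K F)),
        RelCompat (RelG K Γ n Mult) x X → (∀ y ∈ S, X y = 0) →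
          ∀ ψ : ↥(Period.parabolicHoms ℤ Γ ℤ),
            ∃ φ : ↥(Period.parabolicHoms ℤ Γ ℤ), x ψ = n • φ :=
  (kummerRelG hn hM).exists_finset_test

/-- Weak consumer form without the test set: `X` kills all of `Pic⁰(F)[n]`. -/
theorem exists_eq_nsmul_of_kills_weakG (hn : n ≠ 0) {Mult : F → (Additive Γ →+ ℤ) → Prop}
    (hM : MultSpecWG K Γ n Mult)
    {x : Module.End ℤ ↥(Period.parabolicHoms ℤ Γ ℤ)} {X : Module.End ℤ (Pic0 K F)}
    (hx : RelCompat (RelG K Γ n Mult) x X) (hkill : ∀ y : Pic0 K F, n • y = 0 → X y = 0)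
    (ψ : ↥(Period.parabolicHoms ℤ Γ ℤ)) :
    ∃ φ : ↥(Period.parabolicHoms ℤ Γ ℤ), x ψ = n • φ :=
  (kummerRelG hn hM).exists_eq_nsmul_of_relCompat hx hkill ψ

/-! ### Operator calculus: `OpRel` and `ClassOp` compose -/

theorem OpRel.comp {Mult : F → (Additive Γ →+ ℤ) → Prop} {Tf Tf' : F → F}
    {t t' : (Additive Γ →+ ℤ) → (Additive Γ →+ ℤ)} {TJ : Pic0 K F → Pic0 K F}
    (h : OpRel K Γ n Mult Tf t) (h' : OpRel K Γ n Mult Tf' t') (hcl : ClassOp K n Tf' TJ) :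
    OpRel K Γ n Mult (Tf ∘ Tf') (t ∘ t') :=
  fun _ _ hu hM => h (hcl hu).1 (h' hu hM)

theorem ClassOp.comp {Tf Tf' : F → F} {TJ TJ' : Pic0 K F → Pic0 K F}
    (h : ClassOp K n Tf TJ) (h' : ClassOp K n Tf' TJ') :
    ClassOp K n (Tf ∘ Tf') (TJ ∘ TJ') := fun u hu => by
  obtain ⟨hk', hT'⟩ := h' hu
  obtain ⟨hk, hT⟩ := h hk'
  exact ⟨hk, by rw [Function.comp_apply, Function.comp_apply, hT, hT']⟩

omit [HasPrincipalDivisors K F] in
theorem opRel_id {Mult : F → (Additive Γ →+ ℤ) → Prop} : OpRel K Γ n Mult id id :=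
  fun _ _ _ hM => hM

theorem classOp_id : ClassOp K n (id : F → F) id := fun _ hu => ⟨hu, rfl⟩

/-- A field automorphism-like operator: if `Tf` is multiplicative the class operator is unique. -/
theorem ClassOp.unique {Tf : F → F} {TJ TJ' : Pic0 K F → Pic0 K F}
    (h : ClassOp K n Tf TJ) (h' : ClassOp K n Tf TJ') {u : F} (hu : IsKummer K n u) :
    TJ (kummerClass K n u) = TJ' (kummerClass K n u) := by
  rw [← (h hu).2, ← (h' hu).2]

end Generic

/-! ### The landed `Γ₀(N)` dictionary is an instance -/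

section Instance

open CongruenceSubgroup Fermat.Agent.S16.helper2138

variable {N : ℕ} [NeZero N] {n : ℕ}

/-- The landed `MultSpec N n Mult` gives the generic `MultSpecG`. -/
theorem multSpecG_of_multSpec
    [HasPrincipalDivisors (AlgebraicClosure ℚ) (modularFunctionFieldBar N)]
    {Mult : modularFunctionFieldBar N → (Additive (Gamma0 N) →+ ℤ) → Prop}
    (hM : Fermat.Agent.S31.helper2756.MultSpec N n Mult) :
    MultSpecG (AlgebraicClosure ℚ) (Gamma0 N) n Mult where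
  surj := hM.surj
  mul := hM.mul
  inj := hM.inj
  triv := hM.triv

/-- The Hecke clause of the landed `MultSpec` is an `OpRel`. -/
theorem opRel_hecke_of_multSpec
    [HasPrincipalDivisors (AlgebraicClosure ℚ) (modularFunctionFieldBar N)]
    {Mult : modularFunctionFieldBar N → (Additive (Gamma0 N) →+ ℤ) → Prop}
    (hM : Fermat.Agent.S31.helper2756.MultSpec N n Mult)
    (ℓ : ℕ) [Fact ℓ.Prime] [NeZero ℓ] (hℓN : ¬ ℓ ∣ N) :
    OpRel (AlgebraicClosure ℚ) (Gamma0 N) n Mult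
      (heckeFun (L := AlgebraicClosure ℚ) N ℓ) (heckeHomT N ℓ hℓN ℤ) :=
  fun _ _ hu hMu => hM.hecke ℓ hℓN hu hMu

end Instance

end Fermat.Agent.S48.helper2756
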