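import Fermat.Agent.S48.helper2756_K5Gen
import Fermat.Agent.S48.helper2122_SurjGen
import Fermat.Agent.S29.helper36_FunctionFieldL

/-!
# S48 (M3): `MultSpecG` for the concrete multiplier relation `helper2122.MultMerG`

The dictionary of record of the `Γ₁(M)` occurrence machine is

    MultSpecG K Γ n Mult     with     Mult := helper2122.MultMerG Γ evM n ζ

(`S48/helper2756_K5Gen` for the abstract interface, `S48/helper2122_SurjGen` for the relation
"`u` has a meromorphic `n`-th root on `ℍ` with multiplier `γ ↦ ζ ^ ψ γ` under `Γ`" and its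
closure properties `multMerG_one`, `MultMerG.mul`, `MultMerG.inv`).  This file is the glue
between the two (carrier-generic port of the landed `S31/helper2756_MultMer`); no new analysis.

For every modulus `n ≠ 0`:

* more closure: `multMerG_div`, `multMerG_pow`, `multMerG_down` (tower rule, modulus
  `n * m` ⟹ modulus `n`), `multMerG_restrict` (smaller group), `multMerG_congr_ev`;
* (TH2ₙ, `triv`) `multMerG_dvd_of_eq_mul_pow` : a function `c * w ^ n` with `evM c` a constant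
  function has trivial multiplier (any base field `K`);
* (TH3ₙ, `inj`)  `multMerG_exists_eq_pow` from (INVROOT) in the root form, and
  `multMerG_exists_eq_pow_of_desc` from the two hypotheses of
  `helper4027.exists_eq_pow_of_multiplier` (`hInvMer` over `ℂ` + `hRootDesc`);
* (TH5ₙ) `opRel_of_cp` : `OpRel` for ONE operator from its analytic coset-product form, and
  `opRel_of_pull` for an operator which is a pull-back by an element normalising `Γ`;
* the assemblies `multSpecG_multMerG` / `multSpecWG_multMerG` / `exists_k5G_multMerG` (any `K`),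
  and the instance of record over `ℚ̄`, from the leaf `Prop`s of `helper2122_SurjGen`:
  `multSpecG_of_leaves` / `multSpecWG_of_leaves` / `exists_k5G_of_leaves`.
-/

set_option autoImplicit false

namespace Fermat.Agent.S48.helper2756

open ModularCurve AlgebraicCurve UpperHalfPlane
open Fermat.Agent.S24 Fermat.Agent.S29.helper8217
open Fermat.Agent.S48.helper2122 (MultMerG multMerG_one InvG RatioIn DescG AnDivG surjG)
open scoped MatrixGroups

section Concrete

variable {F : Type*} [Field F] {evM : F →+* helper580.Mer} {Γ : Subgroup SL(2, ℤ)} {n : ℕ}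
  {ζ : ℂˣ}

theorem multMerG_div {u u' : F} {ψ ψ' : Additive Γ →+ ℤ}
    (h : MultMerG Γ evM n ζ u ψ) (h' : MultMerG Γ evM n ζ u' ψ') :
    MultMerG Γ evM n ζ (u / u') (ψ - ψ') := by
  rw [div_eq_mul_inv, sub_eq_add_neg]
  exact h.mul h'.inv

theorem multMerG_pow {u : F} {ψ : Additive Γ →+ ℤ} (h : MultMerG Γ evM n ζ u ψ) (m : ℕ) :
    MultMerG Γ evM n ζ (u ^ m) (m • ψ) := by
  induction m with
  | zero => rw [pow_zero, zero_nsmul]; exact multMerG_one
  | succ m ih => rw [pow_succ, succ_nsmul]; exact ih.mul h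

/-- The root of a multiplier relation is nonzero as soon as `u ≠ 0`. -/
theorem multMerG_exists_root_ne_zero (hn : n ≠ 0) {u : F} {ψ : Additive Γ →+ ℤ} (hu : u ≠ 0)
    (h : MultMerG Γ evM n ζ u ψ) :
    ∃ W : helper580.Mer, W ≠ 0 ∧ W ^ n = evM u ∧
      ∀ γ : Γ, helper580.pull (γ : SL(2, ℤ)) W
        = algebraMap ℂ helper580.Mer (((ζ ^ ψ (Additive.ofMul γ) : ℂˣ) : ℂ)) * W := by
  obtain ⟨W, hW, hγ⟩ := h
  refine ⟨W, ?_, hW, hγ⟩
  rintro rfl
  rw [zero_pow hn] at hW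
  exact (map_ne_zero evM).mpr hu hW.symm

/-- **(TH2ₙ, `triv`), any base field.**  A function of the shape `c * w ^ n` with `evM c` a
constant function has trivial multiplier: `n ∣ ψ γ`.  Only the `Γ`-invariance of the evaluation
is used.  (`helper2122.MultMerG.dvd_of_eq_mul_pow` is the case `c = algebraMap ℚ̄ F a`.) -/
theorem multMerG_dvd_of_eq_mul_pow (hn : n ≠ 0) (hζ : IsPrimitiveRoot ζ n)
    (hinv : ∀ γ ∈ Γ, ∀ x : F, helper580.pull γ (evM x) = evM x)
    {w c : F} {ψ : Additive Γ →+ ℤ} (hw : w ≠ 0) (hc : c ≠ 0)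
    (hcc : ∃ a : ℂ, evM c = algebraMap ℂ helper580.Mer a)
    (h : MultMerG Γ evM n ζ (c * w ^ n) ψ) (γ : Additive Γ) : (n : ℤ) ∣ ψ γ := by
  obtain ⟨W, hW, hγ⟩ := h
  obtain ⟨a, ha⟩ := hcc
  have ha0 : a ≠ 0 := by
    rintro rfl
    rw [map_zero] at ha
    exact (map_ne_zero evM).mpr hc ha
  obtain ⟨d, hd⟩ := IsAlgClosed.exists_pow_nat_eq a (Nat.pos_of_ne_zero hn)
  have hd0 : d ≠ 0 := by
    rintro rfl
    rw [zero_pow hn] at hd
    exact ha0 hd.symm
  set t : helper580.Mer := algebraMap ℂ helper580.Mer d * evM w with ht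
  have ht0 : t ≠ 0 :=
    mul_ne_zero ((map_ne_zero (algebraMap ℂ helper580.Mer)).mpr hd0) ((map_ne_zero evM).mpr hw)
  have hpow : W ^ n = t ^ n := by
    rw [hW, ht, mul_pow, ← map_pow (algebraMap ℂ helper580.Mer), hd, map_mul, map_pow, ha]
  obtain ⟨ζ', -, hWζ⟩ := Fermat.Agent.S29.helper2122.exists_const_mul_of_pow_eq
    (Nat.pos_of_ne_zero hn) ht0 hpow
  have hW0 : W ≠ 0 := by
    rintro rfl
    rw [zero_pow hn] at hpow
    exact pow_ne_zero n ht0 hpow.symm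
  obtain ⟨g, rfl⟩ : ∃ g : Γ, Additive.ofMul g = γ := ⟨Additive.toMul γ, rfl⟩
  have hinvW : helper580.pull (g : SL(2, ℤ)) W = W := by
    rw [hWζ, ht, map_mul, map_mul, AlgEquiv.commutes, AlgEquiv.commutes, hinv _ g.2 w]
  have h1 := hγ g
  rw [hinvW] at h1
  have h2 : algebraMap ℂ helper580.Mer (((ζ ^ ψ (Additive.ofMul g) : ℂˣ) : ℂ)) = 1 := by
    have h3 : (algebraMap ℂ helper580.Mer (((ζ ^ ψ (Additive.ofMul g) : ℂˣ) : ℂ)) - 1) * W
        = 0 := by
      rw [sub_mul, one_mul, ← h1, sub_self]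
    rcases mul_eq_zero.mp h3 with h4 | h4
    · exact sub_eq_zero.mp h4
    · exact absurd h4 hW0
  have h5 : (((ζ ^ ψ (Additive.ofMul g) : ℂˣ) : ℂ)) = 1 := by
    apply (algebraMap ℂ helper580.Mer).injective
    rw [h2, map_one]
  have h6 : ζ ^ ψ (Additive.ofMul g) = 1 := Units.ext h5
  exact (hζ.zpow_eq_one_iff_dvd _).mp h6

/-- A multiplier of the form `ζ ^ (n • φ)` is trivial: the root is `Γ`-invariant. -/
theorem multMerG_exists_invariant_root (hζ : ζ ^ n = 1) {u : F} {φ : Additive Γ →+ ℤ}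
    (h : MultMerG Γ evM n ζ u (n • φ)) :
    ∃ W : helper580.Mer, W ^ n = evM u ∧ ∀ γ ∈ Γ, helper580.pull γ W = W := by
  obtain ⟨W, hW, hγ⟩ := h
  refine ⟨W, hW, fun γ hγm => ?_⟩
  have h1 := hγ ⟨γ, hγm⟩
  have h2 : ζ ^ (n • φ) (Additive.ofMul (⟨γ, hγm⟩ : Γ)) = 1 := by
    rw [AddMonoidHom.smul_apply, nsmul_eq_mul, zpow_mul, zpow_natCast, hζ, one_zpow]
  rw [h2, Units.val_one, map_one, one_mul] at h1
  exact h1

/-- **(TH3ₙ, `inj`) from (INVROOT), root form.**  If `Γ`-invariant meromorphic `n`-th roots of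
elements of `evM F` lie in `evM F`, then a function with multiplier `ζ ^ (n • φ)` is an `n`-th
power in `F`. -/
theorem multMerG_exists_eq_pow (hn : n ≠ 0) (hζ : ζ ^ n = 1)
    (hroot : ∀ W : helper580.Mer, (∀ γ ∈ Γ, helper580.pull γ W = W) →
      ∀ u : F, W ^ n = evM u → ∃ t : F, W = evM t)
    {u : F} {φ : Additive Γ →+ ℤ} (hu : u ≠ 0) (h : MultMerG Γ evM n ζ u (n • φ)) :
    ∃ t : F, t ≠ 0 ∧ u = t ^ n := by
  obtain ⟨W, hW, hinv⟩ := multMerG_exists_invariant_root hζ h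
  obtain ⟨t, ht⟩ := hroot W hinv u hW
  have hut : u = t ^ n := by
    apply evM.injective
    rw [map_pow, ← ht, hW]
  refine ⟨t, ?_, hut⟩
  rintro rfl
  rw [zero_pow hn] at hut
  exact hu hut

/-- **(INVROOT) over the base field from (INVROOT) over `ℂ` and descent of roots** (the two
hypotheses of `helper4027.exists_eq_pow_of_multiplier`, i.e. the outputs of
`helper4027.invRoot_mer_of_ratioIn` and `helper4027.rootDesc_laurent`): `bc : F →+* FC` the
extension of constants, `evC` the evaluation of `FC`. -/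
theorem hroot_of_desc {FC : Type*} [Field FC] {bc : F →+* FC} {evC : FC →+* helper580.Mer}
    (hInvMer : ∀ w : helper580.Mer, (∀ γ ∈ Γ, helper580.pull γ w = w) →
      ∀ x : FC, w ^ n = evC x → ∃ t : FC, w = evC t)
    (hRootDesc : ∀ (x : FC) (f : F), x ^ n = bc f → ∃ t : F, bc t = x) :
    ∀ W : helper580.Mer, (∀ γ ∈ Γ, helper580.pull γ W = W) →
      ∀ u : F, W ^ n = (evC.comp bc) u → ∃ t : F, W = (evC.comp bc) t := by
  intro W hinv u hW
  obtain ⟨x, hx⟩ := hInvMer W hinv (bc u) hW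
  have hxn : x ^ n = bc u := by
    apply evC.injective
    rw [map_pow, ← hx, hW]
    rfl
  obtain ⟨t, ht⟩ := hRootDesc x u hxn
  exact ⟨t, by rw [hx, ← ht]; rfl⟩

/-- **Tower rule (down).**  A multiplier at modulus `n * m` w.r.t. `ζ'` is a multiplier at
modulus `n` w.r.t. `ζ = ζ' ^ m` (replace the root `W` by `W ^ m`). -/
theorem multMerG_down {m : ℕ} {ζ' : ℂˣ} (hζ' : ζ' ^ m = ζ) {u : F} {ψ : Additive Γ →+ ℤ}
    (h : MultMerG Γ evM (n * m) ζ' u ψ) : MultMerG Γ evM n ζ u ψ := by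
  obtain ⟨W, hW, hγ⟩ := h
  refine ⟨W ^ m, by rw [← pow_mul, mul_comm, hW], fun γ => ?_⟩
  rw [map_pow, hγ γ, mul_pow, ← map_pow, ← Units.val_pow_eq_pow_val, ← zpow_natCast
    (ζ' ^ ψ (Additive.ofMul γ)) m, ← zpow_mul, mul_comm (ψ (Additive.ofMul γ)) (m : ℤ),
    zpow_mul, zpow_natCast, hζ']

/-- **Change of the evaluation.**  Pointwise equal evaluations have the same multiplier relation
(used to pass between `evM` and a composite such as `evC ∘ bc`). -/
theorem multMerG_congr_ev {evM' : F →+* helper580.Mer} (hev : ∀ x : F, evM' x = evM x)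
    {u : F} {ψ : Additive Γ →+ ℤ} (h : MultMerG Γ evM n ζ u ψ) : MultMerG Γ evM' n ζ u ψ := by
  obtain ⟨W, hW, hγ⟩ := h
  exact ⟨W, by rw [hW, hev], hγ⟩

/-- Restriction to a smaller group. -/
theorem multMerG_restrict {Γ' : Subgroup SL(2, ℤ)} (hΓ : Γ' ≤ Γ) {u : F}
    {ψ : Additive Γ →+ ℤ} (h : MultMerG Γ evM n ζ u ψ) :
    MultMerG Γ' evM n ζ u
      (ψ.comp (MonoidHom.toAdditive (Subgroup.inclusion hΓ))) := by
  obtain ⟨W, hW, hγ⟩ := h
  exact ⟨W, hW, fun γ => hγ (Subgroup.inclusion hΓ γ)⟩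

end Concrete

section Operators

variable {K : Type*} {F : Type*} [Field K] [Field F] [Algebra K F]
  {evM : F →+* helper580.Mer} {Γ : Subgroup SL(2, ℤ)} {n : ℕ} {ζ : ℂˣ}

/-- **(TH5ₙ) for one operator, from its analytic coset-product form.**  `Tf : F → F` is the
function-level operator (e.g. the multiplicative Hecke operator `u ↦ Norm (u(q^p))`, a diamond),
`CP : Mer → Mer` its analytic coset product, `t` the transfer on homomorphisms:

* `hnorm` : `evM (Tf u) = CP (evM u)` on `n`-Kummer functions (the analytic norm formula);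
* `hpow`  : `CP (W ^ n) = CP W ^ n`;
* `htr`   : if `W` has multiplier `ζ ^ ψ` then `CP W` has multiplier `ζ ^ (t ψ)`.  -/
theorem opRel_of_cp {Tf : F → F} {t : (Additive Γ →+ ℤ) → (Additive Γ →+ ℤ)}
    (CP : helper580.Mer → helper580.Mer)
    (hpow : ∀ W : helper580.Mer, CP (W ^ n) = CP W ^ n)
    (hnorm : ∀ u : F, IsKummer K n u → evM (Tf u) = CP (evM u))
    (htr : ∀ (W : helper580.Mer) (ψ : Additive Γ →+ ℤ),
      (∀ γ : Γ, helper580.pull (γ : SL(2, ℤ)) W
        = algebraMap ℂ helper580.Mer (((ζ ^ ψ (Additive.ofMul γ) : ℂˣ) : ℂ)) * W) →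
      ∀ γ : Γ, helper580.pull (γ : SL(2, ℤ)) (CP W)
        = algebraMap ℂ helper580.Mer (((ζ ^ (t ψ) (Additive.ofMul γ) : ℂˣ) : ℂ)) * CP W) :
    OpRel K Γ n (MultMerG Γ evM n ζ) Tf t := by
  rintro u ψ hu ⟨W, hW, hγ⟩
  exact ⟨CP W, by rw [← hpow, hW, hnorm u hu], htr W ψ hγ⟩

/-- **(TH5ₙ), unfolded form ⟹ `OpRel`.**  The wrapper for an operator whose multiplier transfer
is proved directly on roots. -/
theorem opRel_of_root {Tf : F → F} {t : (Additive Γ →+ ℤ) → (Additive Γ →+ ℤ)}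
    (h : ∀ (u : F) (ψ : Additive Γ →+ ℤ), IsKummer K n u → ∀ W : helper580.Mer, W ^ n = evM u →
      (∀ γ : Γ, helper580.pull (γ : SL(2, ℤ)) W
        = algebraMap ℂ helper580.Mer (((ζ ^ ψ (Additive.ofMul γ) : ℂˣ) : ℂ)) * W) →
      ∃ W' : helper580.Mer, W' ^ n = evM (Tf u) ∧
        ∀ γ : Γ, helper580.pull (γ : SL(2, ℤ)) W'
          = algebraMap ℂ helper580.Mer (((ζ ^ (t ψ) (Additive.ofMul γ) : ℂˣ) : ℂ)) * W') :
    OpRel K Γ n (MultMerG Γ evM n ζ) Tf t := by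
  rintro u ψ hu ⟨W, hW, hγ⟩
  exact h u ψ hu W hW hγ

/-- **(TH5ₙ) for a field automorphism commuting with the evaluation up to a pull-back**
(diamonds, Atkin–Lehner, any `δ` normalising `Γ`): if `evM (Tf u) = pull δ (evM u)` and
`δ γ δ⁻¹`-conjugation is encoded by `c : Γ → Γ` with `pull γ ∘ pull δ = pull δ ∘ pull (c γ)`,
then the multiplier transforms by `ψ ↦ ψ ∘ c`. -/
theorem opRel_of_pull {Tf : F → F} (δ : SL(2, ℤ)) (c : Γ →* Γ)
    (hc : ∀ (γ : Γ) (W : helper580.Mer),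
      helper580.pull (γ : SL(2, ℤ)) (helper580.pull δ W)
        = helper580.pull δ (helper580.pull ((c γ : Γ) : SL(2, ℤ)) W))
    (hnorm : ∀ u : F, IsKummer K n u → evM (Tf u) = helper580.pull δ (evM u)) :
    OpRel K Γ n (MultMerG Γ evM n ζ) Tf (fun ψ => ψ.comp (MonoidHom.toAdditive c)) := by
  rintro u ψ hu ⟨W, hW, hγ⟩
  refine ⟨helper580.pull δ W, by rw [← map_pow, hW, hnorm u hu], fun γ => ?_⟩
  rw [hc γ W, hγ (c γ), map_mul, AlgEquiv.commutes]
  rfl

end Operators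

section Assembly

variable {K : Type*} {F : Type*} [Field K] [Field F] [Algebra K F] [HasPrincipalDivisors K F]
  {evM : F →+* helper580.Mer} {Γ : Subgroup SL(2, ℤ)} {n : ℕ} {ζ : ℂˣ}

/-- **(g3), generic, strong form**: `MultSpecG K Γ n (MultMerG Γ evM n ζ)` from

* `hinv`   : the evaluation is `Γ`-invariant;
* `hconst` : functions without zeros and poles evaluate to constants;
* `hroot`  : (INVROOT) `Γ`-invariant `n`-th roots of elements of `evM F` lie in `evM F`;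
* `hsurj`  : (TH4ₙ), verbatim. -/
theorem multSpecG_multMerG (hn : n ≠ 0) (hζ : IsPrimitiveRoot ζ n)
    (hinv : ∀ γ ∈ Γ, ∀ x : F, helper580.pull γ (evM x) = evM x)
    (hconst : ∀ c : F, c ≠ 0 → (∀ v : Place K F, v.ord c = 0) →
      ∃ a : ℂ, evM c = algebraMap ℂ helper580.Mer a)
    (hroot : ∀ W : helper580.Mer, (∀ γ ∈ Γ, helper580.pull γ W = W) →
      ∀ u : F, W ^ n = evM u → ∃ t : F, W = evM t)
    (hsurj : ∀ ψ ∈ Period.parabolicHoms ℤ Γ ℤ,
      ∃ u : F, IsKummer K n u ∧ MultMerG Γ evM n ζ u ψ) :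
    MultSpecG K Γ n (MultMerG Γ evM n ζ) :=
  MultSpecG.of_fun hn hsurj (fun _ _ h h' => h.mul h')
    (fun hu h => by
      obtain ⟨t, ht0, ht⟩ := multMerG_exists_eq_pow hn hζ.pow_eq_one hroot hu.ne_zero h
      exact ⟨t, 1, ht0, one_ne_zero, fun v => v.ord_one, by rw [one_mul, ht]⟩)
    (fun hw hc hcv h => multMerG_dvd_of_eq_mul_pow hn hζ hinv hw hc (hconst _ hc hcv) h)

/-- **(g3), generic, weak form** (no (INVROOT)). -/
theorem multSpecWG_multMerG (hn : n ≠ 0) (hζ : IsPrimitiveRoot ζ n)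
    (hinv : ∀ γ ∈ Γ, ∀ x : F, helper580.pull γ (evM x) = evM x)
    (hconst : ∀ c : F, c ≠ 0 → (∀ v : Place K F, v.ord c = 0) →
      ∃ a : ℂ, evM c = algebraMap ℂ helper580.Mer a)
    (hsurj : ∀ ψ ∈ Period.parabolicHoms ℤ Γ ℤ,
      ∃ u : F, IsKummer K n u ∧ MultMerG Γ evM n ζ u ψ) :
    MultSpecWG K Γ n (MultMerG Γ evM n ζ) :=
  MultSpecWG.of_fun hn hsurj (fun _ _ h h' => h.mul h') (fun _ h => h.inv) multMerG_one
    (fun hw hc hcv h => multMerG_dvd_of_eq_mul_pow hn hζ hinv hw hc (hconst _ hc hcv) h)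

omit [HasPrincipalDivisors K F] in
/-- `hconst` from the usual package: the constants of `F` are `K`, and the evaluation of a
constant is a constant function. -/
theorem hconst_of_algebra
    (hev : ∀ a : K, ∃ z : ℂ, evM (algebraMap K F a) = algebraMap ℂ helper580.Mer z)
    (hK : ∀ c : F, (∀ v : Place K F, v.ord c = 0) → ∃ a : K, c = algebraMap K F a) :
    ∀ c : F, c ≠ 0 → (∀ v : Place K F, v.ord c = 0) →
      ∃ a : ℂ, evM c = algebraMap ℂ helper580.Mer a := by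
  intro c _ hcv
  obtain ⟨a, rfl⟩ := hK c hcv
  exact hev a

omit [HasPrincipalDivisors K F] in
/-- `hconst` when `K` is algebraically closed of characteristic zero and `F` is finite over a
simple extension `K(x)` (the landed constants lemma `S29.helper36`). -/
theorem hconst_of_finite [IsAlgClosed K] [CharZero K] (x : F)
    [FiniteDimensional (IntermediateField.adjoin K {x}) F]
    (hev : ∀ a : K, ∃ z : ℂ, evM (algebraMap K F a) = algebraMap ℂ helper580.Mer z) :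
    ∀ c : F, c ≠ 0 → (∀ v : Place K F, v.ord c = 0) →
      ∃ a : ℂ, evM c = algebraMap ℂ helper580.Mer a :=
  hconst_of_algebra hev fun _ hcv =>
    Fermat.Agent.S29.helper36.exists_algebraMap_eq_of_ord_nonneg x fun v => (hcv v).ge

/-- **(K5) for the concrete relation**: the injective, operator-equivariant map
`Λ / n → Pic⁰(F)[n]`. -/
theorem exists_k5G_multMerG (hn : n ≠ 0) (hζ : IsPrimitiveRoot ζ n)
    (hinv : ∀ γ ∈ Γ, ∀ x : F, helper580.pull γ (evM x) = evM x)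
    (hconst : ∀ c : F, c ≠ 0 → (∀ v : Place K F, v.ord c = 0) →
      ∃ a : ℂ, evM c = algebraMap ℂ helper580.Mer a)
    (hroot : ∀ W : helper580.Mer, (∀ γ ∈ Γ, helper580.pull γ W = W) →
      ∀ u : F, W ^ n = evM u → ∃ t : F, W = evM t)
    (hsurj : ∀ ψ ∈ Period.parabolicHoms ℤ Γ ℤ,
      ∃ u : F, IsKummer K n u ∧ MultMerG Γ evM n ζ u ψ) :
    ∃ ι : ↥(Period.parabolicHoms ℤ Γ ℤ) →+ Pic0 K F,
      (∀ ψ, RelG K Γ n (MultMerG Γ evM n ζ) ψ (ι ψ)) ∧
      (∀ ψ, n • ι ψ = 0) ∧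
      (∀ ψ, ι ψ = 0 ↔ ∃ φ : ↥(Period.parabolicHoms ℤ Γ ℤ), ψ = n • φ) ∧
      (∀ (Tf : F → F) (t : (Additive Γ →+ ℤ) → (Additive Γ →+ ℤ)) (TJ : Pic0 K F → Pic0 K F),
        OpRel K Γ n (MultMerG Γ evM n ζ) Tf t → ClassOp K n Tf TJ →
        ∀ ψ ψ' : ↥(Period.parabolicHoms ℤ Γ ℤ),
          (ψ' : Additive Γ →+ ℤ) = t (ψ : Additive Γ →+ ℤ) → ι ψ' = TJ (ι ψ)) :=
  exists_k5G hn (multSpecG_multMerG hn hζ hinv hconst hroot hsurj)

end Assembly

/-! ## The instance of record over `ℚ̄`, from the leaf `Prop`s -/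

section Leaves

variable {F : Type*} [Field F] [Algebra (AlgebraicClosure ℚ) F]
  [HasPrincipalDivisors (AlgebraicClosure ℚ) F]
  {FC : Type*} [Field FC] [Algebra ℂ FC]
  {Γ : Subgroup SL(2, ℤ)} {n : ℕ} {ζ : ℂˣ}
  {bc : F →+* FC} {evC : FC →ₐ[ℂ] helper580.Mer}

omit [Algebra (AlgebraicClosure ℚ) F] [HasPrincipalDivisors (AlgebraicClosure ℚ) F] in
/-- `Γ`-invariance of the composite evaluation from (INV). -/
theorem hinv_of_invG (hinv : InvG Γ evC) :
    ∀ γ ∈ Γ, ∀ x : F, helper580.pull γ (((evC : FC →+* helper580.Mer).comp bc) x)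
      = ((evC : FC →+* helper580.Mer).comp bc) x :=
  fun γ hγ x => hinv γ hγ (bc x)

omit [HasPrincipalDivisors (AlgebraicClosure ℚ) F] in
/-- The evaluation of a constant of `ℚ̄` is a constant function, when `bc` is semilinear over an
embedding `emb : ℚ̄ →+* ℂ`. -/
theorem hev_of_semilinear (emb : AlgebraicClosure ℚ →+* ℂ)
    (hbc : ∀ a : AlgebraicClosure ℚ, bc (algebraMap (AlgebraicClosure ℚ) F a)
      = algebraMap ℂ FC (emb a)) :
    ∀ a : AlgebraicClosure ℚ, ∃ z : ℂ,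
      ((evC : FC →+* helper580.Mer).comp bc) (algebraMap (AlgebraicClosure ℚ) F a)
        = algebraMap ℂ helper580.Mer z :=
  fun a => ⟨emb a, by
    show evC (bc (algebraMap (AlgebraicClosure ℚ) F a)) = _
    rw [hbc a, AlgHom.commutes]⟩

/-- **THE INSTANCE OF RECORD (strong form).**  `MultSpecG ℚ̄ Γ n (MultMerG Γ (evC ∘ bc) n ζ)` from
the leaf `Prop`s:

* (INV), (RATIO), (DESC), (ANDIV) of `helper2122_SurjGen` (⟹ `surj`, by `helper2122.surjG`);
* `hev`   : constants of `ℚ̄` evaluate to constant functions (`hev_of_semilinear`);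
* `x`     : `F` is finite over `ℚ̄(x)` (⟹ functions without zeros and poles are constants);
* `hInvMer`, `hRootDesc` : (INVROOT) over `ℂ` and descent of roots (`helper4027`) (⟹ `inj`). -/
theorem multSpecG_of_leaves [Γ.FiniteIndex] (hinv : InvG Γ evC) (hRC : RatioIn Γ evC)
    (hDC : DescG bc evC n) {Γ' : Subgroup SL(2, ℤ)} (hΓ' : ∀ g ∈ Γ', g ∈ Γ ∨ -g ∈ Γ)
    (hAD : AnDivG Γ' ((evC : FC →+* helper580.Mer).comp bc) n)
    (hn : n ≠ 0) (hζ : IsPrimitiveRoot ζ n)
    (hev : ∀ a : AlgebraicClosure ℚ, ∃ z : ℂ,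
      ((evC : FC →+* helper580.Mer).comp bc) (algebraMap (AlgebraicClosure ℚ) F a)
        = algebraMap ℂ helper580.Mer z)
    (x : F) [FiniteDimensional (IntermediateField.adjoin (AlgebraicClosure ℚ) {x}) F]
    (hInvMer : ∀ w : helper580.Mer, (∀ γ ∈ Γ, helper580.pull γ w = w) →
      ∀ y : FC, w ^ n = evC y → ∃ t : FC, w = evC t)
    (hRootDesc : ∀ (y : FC) (f : F), y ^ n = bc f → ∃ t : F, bc t = y) :
    MultSpecG (AlgebraicClosure ℚ) Γ n
      (MultMerG Γ ((evC : FC →+* helper580.Mer).comp bc) n ζ) :=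
  multSpecG_multMerG hn hζ (hinv_of_invG hinv) (hconst_of_finite x hev)
    (hroot_of_desc (evC := (evC : FC →+* helper580.Mer)) hInvMer hRootDesc)
    (fun ψ hψ => surjG hinv hRC hDC hΓ' hAD (Nat.pos_of_ne_zero hn) hζ.pow_eq_one ψ hψ)

/-- **THE INSTANCE OF RECORD (weak form, no (INVROOT)).** -/
theorem multSpecWG_of_leaves [Γ.FiniteIndex] (hinv : InvG Γ evC) (hRC : RatioIn Γ evC)
    (hDC : DescG bc evC n) {Γ' : Subgroup SL(2, ℤ)} (hΓ' : ∀ g ∈ Γ', g ∈ Γ ∨ -g ∈ Γ)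
    (hAD : AnDivG Γ' ((evC : FC →+* helper580.Mer).comp bc) n)
    (hn : n ≠ 0) (hζ : IsPrimitiveRoot ζ n)
    (hev : ∀ a : AlgebraicClosure ℚ, ∃ z : ℂ,
      ((evC : FC →+* helper580.Mer).comp bc) (algebraMap (AlgebraicClosure ℚ) F a)
        = algebraMap ℂ helper580.Mer z)
    (x : F) [FiniteDimensional (IntermediateField.adjoin (AlgebraicClosure ℚ) {x}) F] :
    MultSpecWG (AlgebraicClosure ℚ) Γ n
      (MultMerG Γ ((evC : FC →+* helper580.Mer).comp bc) n ζ) :=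
  multSpecWG_multMerG hn hζ (hinv_of_invG hinv) (hconst_of_finite x hev)
    (fun ψ hψ => surjG hinv hRC hDC hΓ' hAD (Nat.pos_of_ne_zero hn) hζ.pow_eq_one ψ hψ)

/-- **(K5) for the instance of record**: the injective map `Λ / n → Pic⁰(F)[n]`, equivariant for
every operator pair given as `OpRel` + `ClassOp`. -/
theorem exists_k5G_of_leaves [Γ.FiniteIndex] (hinv : InvG Γ evC) (hRC : RatioIn Γ evC)
    (hDC : DescG bc evC n) {Γ' : Subgroup SL(2, ℤ)} (hΓ' : ∀ g ∈ Γ', g ∈ Γ ∨ -g ∈ Γ)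
    (hAD : AnDivG Γ' ((evC : FC →+* helper580.Mer).comp bc) n)
    (hn : n ≠ 0) (hζ : IsPrimitiveRoot ζ n)
    (hev : ∀ a : AlgebraicClosure ℚ, ∃ z : ℂ,
      ((evC : FC →+* helper580.Mer).comp bc) (algebraMap (AlgebraicClosure ℚ) F a)
        = algebraMap ℂ helper580.Mer z)
    (x : F) [FiniteDimensional (IntermediateField.adjoin (AlgebraicClosure ℚ) {x}) F]
    (hInvMer : ∀ w : helper580.Mer, (∀ γ ∈ Γ, helper580.pull γ w = w) →
      ∀ y : FC, w ^ n = evC y → ∃ t : FC, w = evC t)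
    (hRootDesc : ∀ (y : FC) (f : F), y ^ n = bc f → ∃ t : F, bc t = y) :
    ∃ ι : ↥(Period.parabolicHoms ℤ Γ ℤ) →+ Pic0 (AlgebraicClosure ℚ) F,
      (∀ ψ, RelG (AlgebraicClosure ℚ) Γ n
        (MultMerG Γ ((evC : FC →+* helper580.Mer).comp bc) n ζ) ψ (ι ψ)) ∧
      (∀ ψ, n • ι ψ = 0) ∧
      (∀ ψ, ι ψ = 0 ↔ ∃ φ : ↥(Period.parabolicHoms ℤ Γ ℤ), ψ = n • φ) ∧
      (∀ (Tf : F → F) (t : (Additive Γ →+ ℤ) → (Additive Γ →+ ℤ))
        (TJ : Pic0 (AlgebraicClosure ℚ) F → Pic0 (AlgebraicClosure ℚ) F),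
        OpRel (AlgebraicClosure ℚ) Γ n
          (MultMerG Γ ((evC : FC →+* helper580.Mer).comp bc) n ζ) Tf t →
        ClassOp (AlgebraicClosure ℚ) n Tf TJ →
        ∀ ψ ψ' : ↥(Period.parabolicHoms ℤ Γ ℤ),
          (ψ' : Additive Γ →+ ℤ) = t (ψ : Additive Γ →+ ℤ) → ι ψ' = TJ (ι ψ)) :=
  exists_k5G hn (multSpecG_of_leaves hinv hRC hDC hΓ' hAD hn hζ hev x hInvMer hRootDesc)

end Leaves

end Fermat.Agent.S48.helper2756
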