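import Mathlib
import Fermat.Agent.S48.helper288_RatioGamma1
import Fermat.Agent.S48.helper7300_Gamma1Field
import Fermat.Agent.S37.helper1588_FFKDegree

/-!
# S48 / M3: the degree of the `Γ₁(M)` function field over the `j`-line (`hdeg` glue)

For every field `L` of characteristic zero: from the relative degree
`[F₁(M)_L : F_{M,L}] = φ(M) / 2` (A2-GAL) and the landed `[F_{M,L} : L(j)] = ψ(M)`
(S28 / S37 `helper1588.relrank_laurentBaseChange`):

`[F₁(M)_L : L(j)] = φ(M) ψ(M) / 2 = [SL(2, ℤ) : ± Γ₁(M)]`,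

in the `relrank` form, in the `finrank L⟮j⟯ F` form for `j` an element of the field, and with the
right-hand side as `Nat.card (SL(2, ℤ) ⧸ H)` for any subgroup `H = ± Γ₁(M)`
(the `hdeg` hypothesis of the place dictionaries LOCGEN / ANDIV / CPLACE).
-/

set_option autoImplicit false

open ModularCurve IntermediateField CongruenceSubgroup
open scoped MatrixGroups

noncomputable section

namespace Fermat.Agent.S48.helper288

open Fermat.Agent.S48.helper7300 (gamma1FieldP gamma1Over)

section Deg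

variable (L : Type) [Field L] [Algebra ℚ L] (P : PowerSeries ℤ) (M : ℕ) [NeZero M]

omit [NeZero M] in
/-- `relrank` form of the A2-GAL degree. -/
theorem relrank_full_gamma1FieldP_eq_rank :
    (laurentBaseChange L (modularFunctionFieldFull M)).relrank (gamma1FieldP L P M)
      = Module.rank ↥(laurentBaseChange L (modularFunctionFieldFull M)) ↥(gamma1Over L P M) :=
  IntermediateField.relrank_eq_rank_of_le
    (Fermat.Agent.S48.helper7300.laurentBaseChange_le_gamma1FieldP L P M)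

omit [NeZero M] in
/-- from the `finrank` form of the A2-GAL degree to the `relrank` form. -/
theorem relrank_full_gamma1FieldP_of_finrank (hM : 3 ≤ M)
    (hdeg : Module.finrank ↥(laurentBaseChange L (modularFunctionFieldFull M))
      ↥(gamma1Over L P M) = Nat.totient M / 2) :
    (laurentBaseChange L (modularFunctionFieldFull M)).relrank (gamma1FieldP L P M)
      = ((Nat.totient M / 2 : ℕ) : Cardinal) := by
  have hpos : 0 < Nat.totient M / 2 := by
    obtain ⟨c, hc⟩ := (Nat.totient_even (by omega : 2 < M)).two_dvd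
    have h0 : 0 < Nat.totient M := Nat.totient_pos.mpr (by omega)
    omega
  rw [relrank_full_gamma1FieldP_eq_rank]
  exact (Cardinal.toNat_eq_iff hpos.ne').mp hdeg

/-- **`[F₁(M)_L : L(j)] = φ(M) ψ(M) / 2`, `relrank` form.** -/
theorem relrank_j_gamma1FieldP (hM : 3 ≤ M)
    (hdeg : (laurentBaseChange L (modularFunctionFieldFull M)).relrank (gamma1FieldP L P M)
      = ((Nat.totient M / 2 : ℕ) : Cardinal)) :
    (L⟮jqModC L⟯).relrank (gamma1FieldP L P M)
      = ((Nat.totient M * dedekindPsi M / 2 : ℕ) : Cardinal) := by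
  have h1 : L⟮jqModC L⟯ ≤ laurentBaseChange L (modularFunctionFieldFull M) := by
    rw [IntermediateField.adjoin_simple_le_iff,
      Fermat.Agent.S48.helper7300.laurentBaseChange_full_eq]
    exact jqModC_mem_full L M
  have h2 := Fermat.Agent.S48.helper7300.laurentBaseChange_le_gamma1FieldP L P M
  rw [← IntermediateField.relrank_mul_relrank h1 h2,
    Fermat.Agent.S37.helper1588.relrank_laurentBaseChange L M, hdeg, totient_mul_psi_div_two M hM]
  push_cast
  rfl

/-- **`[F₁(M)_L : L(j)] = φ(M) ψ(M) / 2`**, for `j` as an element of the field. -/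
theorem rank_j_gamma1FieldP (hM : 3 ≤ M)
    (hdeg : (laurentBaseChange L (modularFunctionFieldFull M)).relrank (gamma1FieldP L P M)
      = ((Nat.totient M / 2 : ℕ) : Cardinal))
    (jE : gamma1FieldP L P M) (hjE : (jE : LaurentSeries L) = jqModC L) :
    Module.rank L⟮jE⟯ ↥(gamma1FieldP L P M)
      = ((Nat.totient M * dedekindPsi M / 2 : ℕ) : Cardinal) := by
  rw [Fermat.Agent.S37.helper1588.rank_adjoin_simple_eq_relrank, hjE]
  exact relrank_j_gamma1FieldP L P M hM hdeg

theorem finiteDimensional_j_gamma1FieldP (hM : 3 ≤ M)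
    (hdeg : (laurentBaseChange L (modularFunctionFieldFull M)).relrank (gamma1FieldP L P M)
      = ((Nat.totient M / 2 : ℕ) : Cardinal))
    (jE : gamma1FieldP L P M) (hjE : (jE : LaurentSeries L) = jqModC L) :
    FiniteDimensional L⟮jE⟯ ↥(gamma1FieldP L P M) :=
  have : Module.Free L⟮jE⟯ ↥(gamma1FieldP L P M) := Module.Free.of_divisionRing _ _
  Module.finite_of_rank_eq_nat (rank_j_gamma1FieldP L P M hM hdeg jE hjE)

theorem finrank_j_gamma1FieldP (hM : 3 ≤ M)
    (hdeg : (laurentBaseChange L (modularFunctionFieldFull M)).relrank (gamma1FieldP L P M)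
      = ((Nat.totient M / 2 : ℕ) : Cardinal))
    (jE : gamma1FieldP L P M) (hjE : (jE : LaurentSeries L) = jqModC L) :
    Module.finrank L⟮jE⟯ ↥(gamma1FieldP L P M) = Nat.totient M * dedekindPsi M / 2 :=
  Module.finrank_eq_of_rank_eq (rank_j_gamma1FieldP L P M hM hdeg jE hjE)

end Deg

/-! ### The index of `± Γ₁(M)` -/

/-- `[SL(2, ℤ) : H] = φ(M) ψ(M) / 2` for `H = ± Γ₁(M)` (carrier-free). -/
theorem index_pm_Gamma1 (M : ℕ) [NeZero M] (hM : 3 ≤ M) (H : Subgroup SL(2, ℤ))
    (hle : Gamma1 M ≤ H) (hneg : (-1 : SL(2, ℤ)) ∈ H)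
    (hH : ∀ g ∈ H, g ∈ Gamma1 M ∨ -g ∈ Gamma1 M) :
    H.index = Nat.totient M * dedekindPsi M / 2 := by
  have h := two_mul_index_of_pm_Gamma1 M hM H hle hneg hH
  omega

theorem card_quotient_pm_Gamma1 (M : ℕ) [NeZero M] (hM : 3 ≤ M) (H : Subgroup SL(2, ℤ))
    (hle : Gamma1 M ≤ H) (hneg : (-1 : SL(2, ℤ)) ∈ H)
    (hH : ∀ g ∈ H, g ∈ Gamma1 M ∨ -g ∈ Gamma1 M) :
    Nat.card (SL(2, ℤ) ⧸ H) = Nat.totient M * dedekindPsi M / 2 :=
  index_pm_Gamma1 M hM H hle hneg hH

/-- **`hdeg` in the shape of the place dictionaries**: `[F₁(M)_L : L(j)] = [SL(2, ℤ) : ± Γ₁(M)]`. -/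
theorem finrank_j_gamma1FieldP_eq_card (L : Type) [Field L] [Algebra ℚ L] (P : PowerSeries ℤ)
    (M : ℕ) [NeZero M] (hM : 3 ≤ M)
    (hdeg : (laurentBaseChange L (modularFunctionFieldFull M)).relrank (gamma1FieldP L P M)
      = ((Nat.totient M / 2 : ℕ) : Cardinal))
    (jE : gamma1FieldP L P M) (hjE : (jE : LaurentSeries L) = jqModC L)
    (H : Subgroup SL(2, ℤ)) (hle : Gamma1 M ≤ H) (hneg : (-1 : SL(2, ℤ)) ∈ H)
    (hH : ∀ g ∈ H, g ∈ Gamma1 M ∨ -g ∈ Gamma1 M) :
    Module.finrank L⟮jE⟯ ↥(gamma1FieldP L P M) = Nat.card (SL(2, ℤ) ⧸ H) := by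
  rw [finrank_j_gamma1FieldP L P M hM hdeg jE hjE, card_quotient_pm_Gamma1 M hM H hle hneg hH]

end Fermat.Agent.S48.helper288
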