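import Mathlib
import Fermat.Agent.S48.helper288_RatioGamma1

/-!
# S48 / M3: RATIO1 for the `ℚ`-form carrier `FC = laurentBaseChange ℂ F₁`

The machine half of S48 is `F₀`-generic: the `Γ₁(M)` function field is given by its `ℚ`-form
`F₁ : IntermediateField ℚ (LaurentSeries ℚ)` (the rational points of the field generated by the
`Γ₀(M)` generators and the ratios of differences of `℘`-division values), the complex field is
`FC = laurentBaseChange ℂ F₁`.  This file states the RATIO1 squeeze for that carrier: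

if `modularFunctionFieldFull M ≤ F₁`, every rational point of `F₁` is (after `ℚ → ℂ`) a ratio of
`q`-expansions of two modular forms of the same weight on `Γ₁(M)`, and `FC` has degree
`φ(M) ψ(M) / 2` over `ℂ(j)` (resp. `φ(M) / 2` over the complex `Γ₀(M)` field), then EVERY such
ratio lies in `FC`.
-/

set_option autoImplicit false

open ModularCurve IntermediateField CongruenceSubgroup
open scoped MatrixGroups

noncomputable section

namespace Fermat.Agent.S48.helper288

/-- monotonicity of `laurentBaseChange` (the Prelude version is private). -/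
theorem laurentBaseChange_mono288 (L : Type*) [Field L] [Algebra ℚ L]
    {F₀ F₁ : IntermediateField ℚ (LaurentSeries ℚ)} (h : F₀ ≤ F₁) :
    laurentBaseChange L F₀ ≤ laurentBaseChange L F₁ :=
  IntermediateField.adjoin.mono L _ _ (Set.image_mono h)

/-- if the rational points of `F₁` are `Γ₁(M)`-ratios, so is every element of the complex
field `laurentBaseChange ℂ F₁`. -/
theorem isRatioG_of_mem_laurentBaseChange (M : ℕ) (F₁ : IntermediateField ℚ (LaurentSeries ℚ))
    (hgen : ∀ y ∈ F₁, IsRatioG (G1 M) (coeffEmb ℂ y)) {x : LaurentSeries ℂ}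
    (hx : x ∈ laurentBaseChange ℂ F₁) : IsRatioG (G1 M) x := by
  have hle : laurentBaseChange ℂ F₁ ≤ ratioInterG (G1 M) (h1G1 M) := by
    rw [laurentBaseChange, IntermediateField.adjoin_le_iff]
    rintro _ ⟨y, hy, rfl⟩
    exact hgen y hy
  exact hle hx

/-- **(R4), `ℚ`-form carrier.** -/
theorem mem_laurentBaseChange_of_isRatioG (M : ℕ) [NeZero M] (hM : 3 ≤ M)
    (F₁ : IntermediateField ℚ (LaurentSeries ℚ)) (hFM : modularFunctionFieldFull M ≤ F₁)
    (hgen : ∀ y ∈ F₁, IsRatioG (G1 M) (coeffEmb ℂ y))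
    (hdeg : (ℂ⟮jqModC ℂ⟯).relrank (laurentBaseChange ℂ F₁)
      = ((Nat.totient M * dedekindPsi M / 2 : ℕ) : Cardinal))
    {x : LaurentSeries ℂ} (hx : IsRatioG (G1 M) x) : x ∈ laurentBaseChange ℂ F₁ :=
  ratio_Gamma1_le M hM (laurentBaseChange ℂ F₁)
    (laurentBaseChange_mono288 ℂ hFM (Fermat.Agent.S29.helper36.jqModC_mem_laurentBaseChange ℂ M))
    (fun _ hy => isRatioG_of_mem_laurentBaseChange M F₁ hgen hy) hdeg hx

/-- **(R5), `ℚ`-form carrier**: degree `φ(M) / 2` over the complex `Γ₀(M)` field. -/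
theorem mem_laurentBaseChange_of_isRatioG_of_relrank_full (M : ℕ) [NeZero M] (hM : 3 ≤ M)
    (F₁ : IntermediateField ℚ (LaurentSeries ℚ)) (hFM : modularFunctionFieldFull M ≤ F₁)
    (hgen : ∀ y ∈ F₁, IsRatioG (G1 M) (coeffEmb ℂ y))
    (hdeg : (laurentBaseChange ℂ (modularFunctionFieldFull M)).relrank (laurentBaseChange ℂ F₁)
      = ((Nat.totient M / 2 : ℕ) : Cardinal))
    {x : LaurentSeries ℂ} (hx : IsRatioG (G1 M) x) : x ∈ laurentBaseChange ℂ F₁ :=
  ratio_Gamma1_le_of_relrank_full M hM (laurentBaseChange ℂ F₁)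
    (laurentBaseChange_mono288 ℂ hFM)
    (fun _ hy => isRatioG_of_mem_laurentBaseChange M F₁ hgen hy) hdeg hx

/-- rank of `B` over the simple extension generated by `x : B`, as a relative rank in the
ambient field. -/
theorem rank_adjoin_simple_eq_relrank288 {K E : Type*} [Field K] [Field E] [Algebra K E]
    (B : IntermediateField K E) (x : B) :
    Module.rank K⟮x⟯ B = (K⟮(x : E)⟯).relrank B := by
  have h : (K⟮(x : E)⟯).comap B.val = K⟮x⟯ := by
    ext y
    show (y : E) ∈ K⟮(x : E)⟯ ↔ y ∈ K⟮x⟯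
    rw [← IntermediateField.lift_adjoin_simple]
    exact IntermediateField.mem_lift y
  rw [← h, IntermediateField.rank_comap, IntermediateField.fieldRange_val]

/-- **(R4), `ℚ`-form carrier, `finrank` form** (the shape a degree theorem over `ℂ(j)` is
usually exported in): `[FC : ℂ(j)]` finite and equal to `φ(M) ψ(M) / 2`. -/
theorem mem_laurentBaseChange_of_isRatioG_of_finrank (M : ℕ) [NeZero M] (hM : 3 ≤ M)
    (F₁ : IntermediateField ℚ (LaurentSeries ℚ)) (hFM : modularFunctionFieldFull M ≤ F₁)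
    (hgen : ∀ y ∈ F₁, IsRatioG (G1 M) (coeffEmb ℂ y))
    (jF : laurentBaseChange ℂ F₁) (hjF : (jF : LaurentSeries ℂ) = jqModC ℂ)
    [FiniteDimensional ℂ⟮jF⟯ (laurentBaseChange ℂ F₁)]
    (hdeg : Module.finrank ℂ⟮jF⟯ (laurentBaseChange ℂ F₁) = Nat.totient M * dedekindPsi M / 2)
    {x : LaurentSeries ℂ} (hx : IsRatioG (G1 M) x) : x ∈ laurentBaseChange ℂ F₁ := by
  refine mem_laurentBaseChange_of_isRatioG M hM F₁ hFM hgen ?_ hx
  have h1 : Module.rank ℂ⟮jF⟯ (laurentBaseChange ℂ F₁)
      = (ℂ⟮(jF : LaurentSeries ℂ)⟯).relrank (laurentBaseChange ℂ F₁) :=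
    rank_adjoin_simple_eq_relrank288 (laurentBaseChange ℂ F₁) jF
  rw [← hjF, ← h1, ← Module.finrank_eq_rank, hdeg]

end Fermat.Agent.S48.helper288
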