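import Mathlib
import Fermat.Agent.S48.helper288_RatioQForm
import Fermat.Agent.S48.helper288_RatioInst
import Fermat.Agent.S48.helper288_DegGamma1
import Fermat.Agent.S48.helper8098_RatFormDeg
import Fermat.Agent.S48.helper8098_Gamma1Rat

/-!
# S48 / M3: the RATIO membership `hmem` from the degree over the `j`-line at ANY coefficient field

The multiplier dictionary for `Γ₁(M)` (`helper2122.multSpecG_carrier_gens`) takes two hypotheses
on the `ℚ`-form `F₁` of the `Γ₁(M)` field: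

* `hmem : ∀ x, IsRatioG Γ₁(M) x → x ∈ laurentBaseChange ℂ F₁`  (RATIO, complex side);
* `hdeg : Module.finrank ℚ̄⟮j⟯ (laurentBaseChange ℚ̄ F₁) = Nat.card (SL(2, ℤ) ⧸ ±Γ₁(M))`.

This file proves that the first follows from the second: the degree over the `j`-line does not
depend on the field of coefficients (`helper8098.finrank_adjoin_simple_laurentBaseChange_congr`),
so `[laurentBaseChange ℂ F₁ : ℂ(j)] = φ(M) ψ(M) / 2`, which is the hypothesis of the RATIO1
squeeze `mem_laurentBaseChange_of_isRatioG_of_finrank`.  The generators of the carrier are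
ratios of modular forms by (I4) (`isRatioG_of_mem_gamma1Field`).
-/

set_option autoImplicit false

open ModularCurve IntermediateField CongruenceSubgroup
open scoped MatrixGroups

noncomputable section

namespace Fermat.Agent.S48.helper288

open Fermat.Agent.S48.helper7300 (gamma1Field)

/-- `coeffEmb L jq = jqModC L`. -/
theorem coeffEmb_jq288 (L : Type*) [Field L] [Algebra ℚ L] : coeffEmb L jq = jqModC L :=
  map_jqModC (algebraMap ℚ L)

/-- **The degree over the `j`-line at the complex numbers from the degree at any field `L`**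
(numeric form). -/
theorem finrank_j_complex_of_finrank (F₁ : IntermediateField ℚ (LaurentSeries ℚ)) (hj : jq ∈ F₁)
    (L : Type*) [Field L] [Algebra ℚ L]
    (jE : laurentBaseChange L F₁) (hjE : (jE : LaurentSeries L) = coeffEmb L jq)
    [hfin : FiniteDimensional L⟮jE⟯ (laurentBaseChange L F₁)] {d : ℕ}
    (hdeg : Module.finrank L⟮jE⟯ (laurentBaseChange L F₁) = d) :
    FiniteDimensional
        ℂ⟮(⟨coeffEmb ℂ jq, coeffEmb_mem_laurentBaseChange ℂ hj⟩ : laurentBaseChange ℂ F₁)⟯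
        (laurentBaseChange ℂ F₁) ∧
      Module.finrank
        ℂ⟮(⟨coeffEmb ℂ jq, coeffEmb_mem_laurentBaseChange ℂ hj⟩ : laurentBaseChange ℂ F₁)⟯
        (laurentBaseChange ℂ F₁) = d := by
  obtain rfl : jE = ⟨coeffEmb L jq, coeffEmb_mem_laurentBaseChange L hj⟩ := Subtype.ext hjE
  exact ⟨(Fermat.Agent.S48.helper8098.finiteDimensional_adjoin_simple_laurentBaseChange_congr
      L ℂ hj).mp hfin,
    (Fermat.Agent.S48.helper8098.finrank_adjoin_simple_laurentBaseChange_congr ℂ L hj).trans hdeg⟩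

/-- **(HM1) `hmem` from the degree over the `j`-line at any coefficient field `L`** (for
instance `L = ℚ̄`, the `hdeg` of the place dictionaries), for a `ℚ`-form `F₁` of the carrier:
`F_M ≤ F₁`, `laurentBaseChange ℂ F₁ ≤ gamma1Field ℂ M`. -/
theorem hmem_of_finrank (M : ℕ) [NeZero M] (hM : 3 ≤ M)
    (F₁ : IntermediateField ℚ (LaurentSeries ℚ)) (hFM : modularFunctionFieldFull M ≤ F₁)
    (hC : laurentBaseChange ℂ F₁ ≤ gamma1Field ℂ M) (hj : jq ∈ F₁)
    (L : Type*) [Field L] [Algebra ℚ L]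
    (jE : laurentBaseChange L F₁) (hjE : (jE : LaurentSeries L) = coeffEmb L jq)
    [FiniteDimensional L⟮jE⟯ (laurentBaseChange L F₁)]
    (hdeg : Module.finrank L⟮jE⟯ (laurentBaseChange L F₁)
      = Nat.totient M * dedekindPsi M / 2)
    (x : LaurentSeries ℂ) (hx : IsRatioG (G1 M) x) : x ∈ laurentBaseChange ℂ F₁ := by
  obtain ⟨hfinC, hdegC⟩ := finrank_j_complex_of_finrank F₁ hj L jE hjE hdeg
  exact mem_laurentBaseChange_of_isRatioG_of_finrank M hM F₁ hFM
    (fun y hy => isRatioG_of_mem_gamma1Field M (hC (coeffEmb_mem_laurentBaseChange ℂ hy)))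
    ⟨coeffEmb ℂ jq, coeffEmb_mem_laurentBaseChange ℂ hj⟩ (coeffEmb_jq288 ℂ) hdegC hx

/-- **(HM2) `hmem` from `hdeg` in the shape of the place dictionaries**: the degree is the
index of a subgroup `H = ±Γ₁(M)`. -/
theorem hmem_of_finrank_eq_card (M : ℕ) [NeZero M] (hM : 3 ≤ M)
    (F₁ : IntermediateField ℚ (LaurentSeries ℚ)) (hFM : modularFunctionFieldFull M ≤ F₁)
    (hC : laurentBaseChange ℂ F₁ ≤ gamma1Field ℂ M) (hj : jq ∈ F₁)
    (L : Type*) [Field L] [Algebra ℚ L]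
    (jE : laurentBaseChange L F₁) (hjE : (jE : LaurentSeries L) = coeffEmb L jq)
    [FiniteDimensional L⟮jE⟯ (laurentBaseChange L F₁)]
    (H : Subgroup SL(2, ℤ)) (hle : Gamma1 M ≤ H) (hneg : (-1 : SL(2, ℤ)) ∈ H)
    (hH : ∀ g ∈ H, g ∈ Gamma1 M ∨ -g ∈ Gamma1 M)
    (hdeg : Module.finrank L⟮jE⟯ (laurentBaseChange L F₁) = Nat.card (SL(2, ℤ) ⧸ H))
    (x : LaurentSeries ℂ)
    (hx : IsRatioG ((Gamma1 M : Subgroup SL(2, ℤ)) : Subgroup (GL (Fin 2) ℝ)) x) :
    x ∈ laurentBaseChange ℂ F₁ :=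
  hmem_of_finrank M hM F₁ hFM hC hj L jE hjE
    (hdeg.trans (card_quotient_pm_Gamma1 M hM H hle hneg hH)) x hx

/-- **(HM3) the same at a carrier `E` given with an equation `E = laurentBaseChange L F₁`**
(the binders of `helper2122.multSpecG_carrier_gens`). -/
theorem hmem_of_finrank_eq_card_carrier (M : ℕ) [NeZero M] (hM : 3 ≤ M)
    (F₁ : IntermediateField ℚ (LaurentSeries ℚ)) (hFM : modularFunctionFieldFull M ≤ F₁)
    (hC : laurentBaseChange ℂ F₁ ≤ gamma1Field ℂ M) (hj : jq ∈ F₁)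
    (L : Type*) [Field L] [Algebra ℚ L]
    {E : IntermediateField L (LaurentSeries L)} (hE : E = laurentBaseChange L F₁)
    (jE : E) (hjE : (jE : LaurentSeries L) = coeffEmb L jq)
    [FiniteDimensional L⟮jE⟯ E]
    (H : Subgroup SL(2, ℤ)) (hle : Gamma1 M ≤ H) (hneg : (-1 : SL(2, ℤ)) ∈ H)
    (hH : ∀ g ∈ H, g ∈ Gamma1 M ∨ -g ∈ Gamma1 M)
    (hdeg : Module.finrank L⟮jE⟯ E = Nat.card (SL(2, ℤ) ⧸ H))
    (x : LaurentSeries ℂ)
    (hx : IsRatioG ((Gamma1 M : Subgroup SL(2, ℤ)) : Subgroup (GL (Fin 2) ℝ)) x) :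
    x ∈ laurentBaseChange ℂ F₁ := by
  subst hE
  exact hmem_of_finrank_eq_card M hM F₁ hFM hC hj L jE hjE H hle hneg hH hdeg x hx

/-! ### The complex `relrank` form of the degree (the `hdeg` binder of the Hecke cover TP1) -/

/-- the complex degree over the `j`-line in `relrank` form, from the degree at any field `L`. -/
theorem relrank_j_complex_of_finrank (F₁ : IntermediateField ℚ (LaurentSeries ℚ)) (hj : jq ∈ F₁)
    (L : Type*) [Field L] [Algebra ℚ L]
    (jE : laurentBaseChange L F₁) (hjE : (jE : LaurentSeries L) = coeffEmb L jq)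
    [FiniteDimensional L⟮jE⟯ (laurentBaseChange L F₁)] {d : ℕ}
    (hdeg : Module.finrank L⟮jE⟯ (laurentBaseChange L F₁) = d) :
    (ℂ⟮jqModC ℂ⟯).relrank (laurentBaseChange ℂ F₁) = (d : Cardinal) := by
  obtain ⟨hfinC, hdegC⟩ := finrank_j_complex_of_finrank F₁ hj L jE hjE hdeg
  have h1 := rank_adjoin_simple_eq_relrank288 (laurentBaseChange ℂ F₁)
    (⟨coeffEmb ℂ jq, coeffEmb_mem_laurentBaseChange ℂ hj⟩ : laurentBaseChange ℂ F₁)
  rw [← coeffEmb_jq288 ℂ, ← h1, ← Module.finrank_eq_rank, hdegC]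

/-- **(HD1) the `hdeg` binder of `helper5404.nqDeg_of_ratForm` / `heckeDiamondOfRatForm`** (complex
`relrank` over the `j`-line `= φ(M) ψ(M) / 2`) **from the `hdeg` of the place dictionaries**
(`finrank` over the `j`-line at a field `L`, e.g. `ℚ̄`, `= [SL(2, ℤ) : ±Γ₁(M)]`). -/
theorem relrank_j_complex_of_finrank_eq_card (M : ℕ) [NeZero M] (hM : 3 ≤ M)
    (F₁ : IntermediateField ℚ (LaurentSeries ℚ)) (hj : jq ∈ F₁)
    {EC : IntermediateField ℂ (LaurentSeries ℂ)} (hC : laurentBaseChange ℂ F₁ = EC)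
    (L : Type*) [Field L] [Algebra ℚ L]
    {E : IntermediateField L (LaurentSeries L)} (hE : laurentBaseChange L F₁ = E)
    (jE : E) (hjE : (jE : LaurentSeries L) = coeffEmb L jq)
    [FiniteDimensional L⟮jE⟯ E]
    (H : Subgroup SL(2, ℤ)) (hle : Gamma1 M ≤ H) (hneg : (-1 : SL(2, ℤ)) ∈ H)
    (hH : ∀ g ∈ H, g ∈ Gamma1 M ∨ -g ∈ Gamma1 M)
    (hdeg : Module.finrank L⟮jE⟯ E = Nat.card (SL(2, ℤ) ⧸ H)) :
    (ℂ⟮jqModC ℂ⟯).relrank EC = ((Nat.totient M * dedekindPsi M / 2 : ℕ) : Cardinal) := by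
  subst hC hE
  exact relrank_j_complex_of_finrank F₁ hj L jE hjE
    (hdeg.trans (card_quotient_pm_Gamma1 M hM H hle hneg hH))

/-! ### The carrier of record: `F₁ := helper8098.F1Q phiZ M`, `E := helper7300.gamma1FieldBar M` -/

section Record

open Fermat.Agent.S48.helper7300 (gamma1FieldBar phiZ)
open Fermat.Agent.S48.helper8098 (F1Q)

/-- `j ∈ F1Q P M`. -/
theorem jq_mem_F1Q (P : PowerSeries ℤ) (M : ℕ) [NeZero M] : jq ∈ F1Q P M :=
  Fermat.Agent.S48.helper8098.full_le_F1Q P M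
    (by rw [← modularFunctionFieldFullC_rat]; exact jqModC_mem_full ℚ M)

/-- **(HM4) `hmem` at the rational form of record**, from the `hdeg` of the place dictionaries
at the carrier of record over `ℚ̄` (the binders `jE hjE hdeg` of
`helper2122.multSpecG_carrier_gens` at `E := gamma1FieldBar M`, `F₀ := F1Q phiZ M`). -/
theorem hmem_F1Q (M : ℕ) [NeZero M] (hM : 3 ≤ M)
    (jE : gamma1FieldBar M)
    (hjE : (jE : LaurentSeries (AlgebraicClosure ℚ)) = coeffEmb (AlgebraicClosure ℚ) jq)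
    [FiniteDimensional (AlgebraicClosure ℚ)⟮jE⟯ (gamma1FieldBar M)]
    (H : Subgroup SL(2, ℤ)) (hle : Gamma1 M ≤ H) (hneg : (-1 : SL(2, ℤ)) ∈ H)
    (hH : ∀ g ∈ H, g ∈ Gamma1 M ∨ -g ∈ Gamma1 M)
    (hdeg : Module.finrank (AlgebraicClosure ℚ)⟮jE⟯ (gamma1FieldBar M)
      = Nat.card (SL(2, ℤ) ⧸ H))
    (x : LaurentSeries ℂ)
    (hx : IsRatioG ((Gamma1 M : Subgroup SL(2, ℤ)) : Subgroup (GL (Fin 2) ℝ)) x) :
    x ∈ laurentBaseChange ℂ (F1Q phiZ M) :=
  hmem_of_finrank_eq_card_carrier M hM (F1Q phiZ M)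
    (Fermat.Agent.S48.helper8098.full_le_F1Q phiZ M)
    (Fermat.Agent.S48.helper8098.laurentBaseChange_F1Q_complex phiZ M).le
    (jq_mem_F1Q phiZ M) (AlgebraicClosure ℚ)
    (Fermat.Agent.S48.helper8098.laurentBaseChange_F1Q_bar phiZ M).symm
    jE hjE H hle hneg hH hdeg x hx

/-- **(HM5) RATIO for the carrier of record, from the `ℚ̄`-side `hdeg`**: the complex `Γ₁(M)`
field `gamma1Field ℂ M` is exactly the set of ratios of `q`-expansions of modular forms of equal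
weight on `Γ₁(M)`. -/
theorem isRatioG_iff_mem_gamma1Field_of_hdeg (M : ℕ) [NeZero M] (hM : 3 ≤ M)
    (jE : gamma1FieldBar M)
    (hjE : (jE : LaurentSeries (AlgebraicClosure ℚ)) = coeffEmb (AlgebraicClosure ℚ) jq)
    [FiniteDimensional (AlgebraicClosure ℚ)⟮jE⟯ (gamma1FieldBar M)]
    (H : Subgroup SL(2, ℤ)) (hle : Gamma1 M ≤ H) (hneg : (-1 : SL(2, ℤ)) ∈ H)
    (hH : ∀ g ∈ H, g ∈ Gamma1 M ∨ -g ∈ Gamma1 M)
    (hdeg : Module.finrank (AlgebraicClosure ℚ)⟮jE⟯ (gamma1FieldBar M)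
      = Nat.card (SL(2, ℤ) ⧸ H))
    (x : LaurentSeries ℂ) : IsRatioG (G1 M) x ↔ x ∈ gamma1Field ℂ M :=
  ⟨fun hx => by
      have h := hmem_F1Q M hM jE hjE H hle hneg hH hdeg x hx
      rwa [Fermat.Agent.S48.helper8098.laurentBaseChange_F1Q_complex phiZ M] at h,
    fun hx => isRatioG_of_mem_gamma1Field M hx⟩

/-- **(HD2) the complex `hdeg` of the Hecke cover** (`helper5404.nqDeg_of_ratForm`,
`heckeDiamondOfRatForm` at `EC := gamma1Field ℂ M`) **from the `ℚ̄`-side `hdeg`**. -/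
theorem relrank_j_gamma1Field_complex_of_hdeg (M : ℕ) [NeZero M] (hM : 3 ≤ M)
    (jE : gamma1FieldBar M)
    (hjE : (jE : LaurentSeries (AlgebraicClosure ℚ)) = coeffEmb (AlgebraicClosure ℚ) jq)
    [FiniteDimensional (AlgebraicClosure ℚ)⟮jE⟯ (gamma1FieldBar M)]
    (H : Subgroup SL(2, ℤ)) (hle : Gamma1 M ≤ H) (hneg : (-1 : SL(2, ℤ)) ∈ H)
    (hH : ∀ g ∈ H, g ∈ Gamma1 M ∨ -g ∈ Gamma1 M)
    (hdeg : Module.finrank (AlgebraicClosure ℚ)⟮jE⟯ (gamma1FieldBar M)
      = Nat.card (SL(2, ℤ) ⧸ H)) :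
    (ℂ⟮jqModC ℂ⟯).relrank (gamma1Field ℂ M)
      = ((Nat.totient M * dedekindPsi M / 2 : ℕ) : Cardinal) :=
  relrank_j_complex_of_finrank_eq_card M hM (F1Q phiZ M) (jq_mem_F1Q phiZ M)
    (Fermat.Agent.S48.helper8098.laurentBaseChange_F1Q_complex phiZ M) (AlgebraicClosure ℚ)
    (Fermat.Agent.S48.helper8098.laurentBaseChange_F1Q_bar phiZ M) jE hjE H hle hneg hH hdeg

end Record

end Fermat.Agent.S48.helper288
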