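import Mathlib
import Fermat.Agent.S48.helper288_RatioHmem
import Fermat.Agent.S48.helper9565_HDegGamma1

/-!
# S48 / M3: RATIO for `Γ₁(M)` — the unconditional statements (`M ≥ 7`)

`helper9565.hdeg_gamma1` (HDEG4, landed): `[F₁(M)_ℚ̄ : ℚ̄(j)] = [SL(2, ℤ) : ±Γ₁(M)]` for the carrier
of record, `M ≥ 7`, with no Galois theory of the layer.  Combined with `helper288_RatioHmem`
(the degree over the `j`-line does not depend on the field of coefficients + the RATIO1 squeeze):

* `hmem_F1Q_uncond` : every ratio of `q`-expansions of modular forms of equal weight on `Γ₁(M)`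
  lies in `laurentBaseChange ℂ (F1Q phiZ M)`  (the `hmem` of the multiplier dictionary);
* `isRatioG_iff_mem_gamma1Field_uncond` : `IsRatioG (G1 M) x ↔ x ∈ gamma1Field ℂ M`;
* `relrank_j_gamma1Field_complex` : `[F₁(M)_ℂ : ℂ(j)] = φ(M) ψ(M) / 2`  (the `hdeg` of the Hecke
  cover TP1);
* `relrank_full_gamma1Field_complex`, `finrank_gamma1Over_complex` : the layer degree
  `[F₁(M)_ℂ : F_{M,ℂ}] = φ(M) / 2`.
-/

set_option autoImplicit false

open ModularCurve IntermediateField CongruenceSubgroup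
open scoped MatrixGroups

noncomputable section

namespace Fermat.Agent.S48.helper288

open Fermat.Agent.S48.helper7300 (gamma1Field gamma1FieldBar gamma1Over phiZ)
open Fermat.Agent.S48.helper8098 (F1Q)

/-- The subgroup `±Γ₁(M)` of `SL(2, ℤ)` (carrier `{g | g ∈ Γ₁(M) ∨ -g ∈ Γ₁(M)}`), as the
normaliser-free spelling `Γ₁(M) ⊔ ⟨-1⟩`. -/
def pmG1 (M : ℕ) : Subgroup SL(2, ℤ) where
  carrier := {g | g ∈ Gamma1 M ∨ -g ∈ Gamma1 M}
  mul_mem' := by
    rintro g g' (hg | hg) (hg' | hg')
    · exact Or.inl ((Gamma1 M).mul_mem hg hg')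
    · refine Or.inr ?_
      have := (Gamma1 M).mul_mem hg hg'
      rwa [mul_neg] at this
    · refine Or.inr ?_
      have := (Gamma1 M).mul_mem hg hg'
      rwa [neg_mul] at this
    · refine Or.inl ?_
      have := (Gamma1 M).mul_mem hg hg'
      rwa [neg_mul_neg] at this
  one_mem' := Or.inl (Gamma1 M).one_mem
  inv_mem' := by
    rintro g (hg | hg)
    · exact Or.inl ((Gamma1 M).inv_mem hg)
    · refine Or.inr ?_
      have := (Gamma1 M).inv_mem hg
      rwa [inv_neg] at this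

theorem mem_pmG1 {M : ℕ} {g : SL(2, ℤ)} : g ∈ pmG1 M ↔ g ∈ Gamma1 M ∨ -g ∈ Gamma1 M := Iff.rfl

theorem le_pmG1 (M : ℕ) : Gamma1 M ≤ pmG1 M := fun _ hg => Or.inl hg

theorem neg_one_mem_pmG1 (M : ℕ) : (-1 : SL(2, ℤ)) ∈ pmG1 M :=
  Or.inr (by rw [neg_neg]; exact (Gamma1 M).one_mem)

section Uncond

variable (M : ℕ) [NeZero M]

/-- **(U1) `hmem`, unconditional**: every `Γ₁(M)`-ratio lies in the complex base change of the
rational form of record. -/
theorem hmem_F1Q_uncond (hM : 7 ≤ M) (x : LaurentSeries ℂ)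
    (hx : IsRatioG ((Gamma1 M : Subgroup SL(2, ℤ)) : Subgroup (GL (Fin 2) ℝ)) x) :
    x ∈ laurentBaseChange ℂ (F1Q phiZ M) := by
  obtain ⟨hfd, hdeg⟩ := Fermat.Agent.S48.helper9565.hdeg_gamma1 M hM (pmG1 M) (fun _ => mem_pmG1)
  exact hmem_F1Q M (by omega) (Fermat.Agent.S48.helper5047.jG1 (AlgebraicClosure ℚ) M)
    (coeffEmb_jq288 (AlgebraicClosure ℚ)).symm (pmG1 M) (le_pmG1 M) (neg_one_mem_pmG1 M)
    (fun _ hg => hg) hdeg x hx

/-- **(U2) RATIO for `Γ₁(M)`, unconditional**: the complex `Γ₁(M)` field of record is exactly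
the set of ratios of `q`-expansions of two modular forms of the same weight on `Γ₁(M)`. -/
theorem isRatioG_iff_mem_gamma1Field_uncond (hM : 7 ≤ M) (x : LaurentSeries ℂ) :
    IsRatioG (G1 M) x ↔ x ∈ gamma1Field ℂ M := by
  obtain ⟨hfd, hdeg⟩ := Fermat.Agent.S48.helper9565.hdeg_gamma1 M hM (pmG1 M) (fun _ => mem_pmG1)
  exact isRatioG_iff_mem_gamma1Field_of_hdeg M (by omega)
    (Fermat.Agent.S48.helper5047.jG1 (AlgebraicClosure ℚ) M)
    (coeffEmb_jq288 (AlgebraicClosure ℚ)).symm (pmG1 M) (le_pmG1 M) (neg_one_mem_pmG1 M)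
    (fun _ hg => hg) hdeg x

/-- **(U3) `[F₁(M)_ℂ : ℂ(j)] = φ(M) ψ(M) / 2`, unconditional** (`relrank` form: the `hdeg` binder
of `helper5404.nqDeg_of_ratForm` / `heckeDiamondOfRatForm` at `EC := gamma1Field ℂ M`). -/
theorem relrank_j_gamma1Field_complex (hM : 7 ≤ M) :
    (ℂ⟮jqModC ℂ⟯).relrank (gamma1Field ℂ M)
      = ((Nat.totient M * dedekindPsi M / 2 : ℕ) : Cardinal) := by
  obtain ⟨hfd, hdeg⟩ := Fermat.Agent.S48.helper9565.hdeg_gamma1 M hM (pmG1 M) (fun _ => mem_pmG1)
  exact relrank_j_gamma1Field_complex_of_hdeg M (by omega)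
    (Fermat.Agent.S48.helper5047.jG1 (AlgebraicClosure ℚ) M)
    (coeffEmb_jq288 (AlgebraicClosure ℚ)).symm (pmG1 M) (le_pmG1 M) (neg_one_mem_pmG1 M)
    (fun _ hg => hg) hdeg

/-- **(U4) the layer degree `[F₁(M)_ℂ : F_{M,ℂ}] = φ(M) / 2`, unconditional** (`relrank` form: the
`hdeg` of (I5) / (R5), with no Galois theory of the layer). -/
theorem relrank_full_gamma1Field_complex (hM : 7 ≤ M) :
    (laurentBaseChange ℂ (modularFunctionFieldFull M)).relrank (gamma1Field ℂ M)
      = ((Nat.totient M / 2 : ℕ) : Cardinal) := by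
  have h1 : ℂ⟮jqModC ℂ⟯ ≤ laurentBaseChange ℂ (modularFunctionFieldFull M) := by
    rw [IntermediateField.adjoin_simple_le_iff,
      Fermat.Agent.S48.helper7300.laurentBaseChange_full_eq]
    exact jqModC_mem_full ℂ M
  have h2 := Fermat.Agent.S48.helper7300.laurentBaseChange_le_gamma1FieldP ℂ phiZ M
  have h3 := IntermediateField.relrank_mul_relrank h1 h2
  rw [Fermat.Agent.S37.helper1588.relrank_laurentBaseChange ℂ M,
    relrank_j_gamma1Field_complex M hM, totient_mul_psi_div_two M (by omega)] at h3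
  have hψ : (dedekindPsi M : Cardinal) ≠ 0 := by
    exact_mod_cast (Fermat.Agent.S48.helper9565.dedekindPsi_pos M).ne'
  have hlt : (laurentBaseChange ℂ (modularFunctionFieldFull M)).relrank (gamma1Field ℂ M)
      < Cardinal.aleph0 := by
    have hprod : (dedekindPsi M : Cardinal)
        * (laurentBaseChange ℂ (modularFunctionFieldFull M)).relrank (gamma1Field ℂ M)
          < Cardinal.aleph0 := by
      rw [h3]
      exact Cardinal.natCast_lt_aleph0
    rcases Cardinal.mul_lt_aleph0_iff.mp hprod with h | h | h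
    · exact absurd h hψ
    · rw [h]
      exact Cardinal.aleph0_pos
    · exact h.2
  obtain ⟨n, hn⟩ := Cardinal.lt_aleph0.mp hlt
  rw [hn] at h3 ⊢
  have h4 : dedekindPsi M * n = dedekindPsi M * (Nat.totient M / 2) := by
    exact_mod_cast h3
  rw [Nat.eq_of_mul_eq_mul_left (Fermat.Agent.S48.helper9565.dedekindPsi_pos M) h4]

/-- **(U5) the layer degree over every field with a primitive `M`-th root of unity**
(`relfinrank` form). -/
theorem relfinrank_full_gamma1FieldP_uncond (hM : 7 ≤ M) (L : Type*) [Field L] [Algebra ℚ L]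
    (hL : ∃ z : L, IsPrimitiveRoot z M) :
    (laurentBaseChange L (modularFunctionFieldFull M)).relfinrank
      (Fermat.Agent.S48.helper7300.gamma1FieldP L phiZ M) = Nat.totient M / 2 := by
  rw [Fermat.Agent.S48.helper8098.relfinrank_gamma1FieldP phiZ M L hL,
    ← Fermat.Agent.S48.helper8098.relfinrank_gamma1FieldP phiZ M ℂ
      ⟨_, Complex.isPrimitiveRoot_exp M (NeZero.ne M)⟩]
  show Cardinal.toNat ((laurentBaseChange ℂ (modularFunctionFieldFull M)).relrank
    (gamma1Field ℂ M)) = _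
  rw [relrank_full_gamma1Field_complex M hM, Cardinal.toNat_natCast]

/-- **(U6) `Module.finrank F_{M,L} (gamma1Over L phiZ M) = φ(M) / 2`, unconditional** (the shape
(D4)/(D5) of the A2-GAL degree), for every field `L ⊇ ℚ` with a primitive `M`-th root of
unity: `ℚ(ζ_M)` and every number field containing it, `ℚ̄`, `ℂ`. -/
theorem finrank_gamma1Over_uncond (hM : 7 ≤ M) (L : Type*) [Field L] [Algebra ℚ L]
    (hL : ∃ z : L, IsPrimitiveRoot z M) :
    Module.finrank ↥(laurentBaseChange L (modularFunctionFieldFull M)) ↥(gamma1Over L phiZ M)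
      = Nat.totient M / 2 :=
  (IntermediateField.relfinrank_eq_finrank_of_le
    (Fermat.Agent.S48.helper7300.laurentBaseChange_le_gamma1FieldP L phiZ M)).symm.trans
    (relfinrank_full_gamma1FieldP_uncond M hM L hL)

/-- the layer is finite. -/
theorem finiteDimensional_gamma1Over_uncond (hM : 7 ≤ M) (L : Type*) [Field L] [Algebra ℚ L]
    (hL : ∃ z : L, IsPrimitiveRoot z M) :
    FiniteDimensional ↥(laurentBaseChange L (modularFunctionFieldFull M))
      ↥(gamma1Over L phiZ M) := by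
  refine Module.finite_of_finrank_pos ?_
  rw [finrank_gamma1Over_uncond M hM L hL]
  obtain ⟨c, hc⟩ := (Nat.totient_even (by omega : 2 < M)).two_dvd
  have h0 : 0 < Nat.totient M := Nat.totient_pos.mpr (by omega)
  omega

end Uncond

end Fermat.Agent.S48.helper288
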