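import Fermat.Agent.S48.helper3284_PeriodEigen1
import Fermat.Agent.S48.helper4325_CorrGamma1

/-!
# S48-M3-PEREIG1, part 2 (helper3284): the period side meets CORR1

The bridge between the period side on the HECKE1 carrier (`helper5251.heckeTCF`, `diamondCF`)
and the correspondences of the multiplicative side (`helper4325.corrT1`, `corrD`, i.e. the
transfers `helper4325.heckeHomT1`, `diamondHom` on `Hom(Γ₁(M), A)`).

* `coe_heckeTCF_eq_sum_corrT1` : `T_p f` is the coset sum of `helper4325.corrT1 M p hp δ hδ`;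
* `coe_diamondCF_eq_sum_corrD` : `⟨d⟩ f` is the coset sum of `helper4325.corrD M δ` (`δ ≡ d`);
* `perMap_heckeTCF`, `perMap_diamondCF` : the period map of `Γ₁(M)` intertwines `T_p`, `⟨d⟩` on
  cusp forms with `heckeHomT1`, `diamondHom` on `Hom(Γ₁(M), ℂ)`;
* `heckeHomT1_eq_op_corrT1`    : the two `T_p`-transfers (CORR1 and HECKE1 (H6)) agree;
* `exists_eigen_parabolicHom_Gamma1_hom` : occurrence of the eigensystem of an `IsEigen2` form in
  `κ ⊗ Hom_par(Γ₁(M), ℤ)` for `heckeHomT1` and `diamondHom`.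
-/

set_option autoImplicit false

open ModularCurve ModularCurve.Period CongruenceSubgroup UpperHalfPlane
open Matrix.SpecialLinearGroup
open scoped MatrixGroups ModularForm Manifold

namespace Fermat.Agent.S48.helper3284

open Fermat.Agent.S16.helper2138 (Corr)
open Fermat.Agent.S48.helper8231 (IsEigen2 Zc)
open P2MW.S_ModularForm_heckeT_slash_eq_self_of_mem_Gamma0.ModularForm.HeckeSlashInvariance
  (heckeU_eq_sum_zmod)

noncomputable section

section Bridge

variable {M : ℕ} [NeZero M] {p : ℕ} [Fact p.Prime] (hp : ¬ p ∣ M)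

omit [NeZero M] in
/-- Positivity of the determinants of the CORR1 representatives of `T_p`. -/
theorem corrT1_pos (δ : Gamma0 M) (hδ : Gamma0Map M δ = (p : ZMod M))
    (x : OnePoint (ZMod p)) : 0 < ((helper4325.corrT1 M p hp δ hδ).α x).det.val := by
  rw [helper4325.corrT1_α, map_mul, det_mapGL, one_mul]
  induction x using OnePoint.rec with
  | infty => exact ModularForm.det_heckeDiagMatrix_pos p
  | coe j => exact ModularForm.det_heckeMatrix_pos p j.val

omit [NeZero M] in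
/-- Positivity of the determinant of the CORR1 representative of a diamond operator. -/
theorem corrD_pos (δ : Gamma0 M) (x : Unit) : 0 < ((helper4325.corrD M δ).α x).det.val := by
  rw [helper4325.corrD_α, det_mapGL]
  exact one_pos

/-- **(B1)** `T_p f` is the coset sum of the CORR1 correspondence `helper4325.corrT1`
(cosets `Γ₁(M) [[1, j], [0, p]]` and `Γ₁(M) δ [[p, 0], [0, 1]]`, `δ ∈ Γ₀(M)`, `δ ≡ p`). -/
theorem coe_heckeTCF_eq_sum_corrT1 (δ : Gamma0 M) (hδ : Gamma0Map M δ = (p : ZMod M))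
    (hp' : p.Prime) (h : Nat.Coprime p M) (f : CuspForm (Gamma1 M) 2) :
    (⇑(helper5251.heckeTCF hp' h f) : ℍ → ℂ) =
      ∑ x, (f : ℍ → ℂ) ∣[(2 : ℤ)] (helper4325.corrT1 M p hp δ hδ).α x := by
  rw [helper5251.coe_heckeTCF]
  refine ((Fintype.sum_option (fun x : Option (ZMod p) =>
    (f : ℍ → ℂ) ∣[(2 : ℤ)] (helper4325.corrT1 M p hp δ hδ).α x)).trans ?_).symm
  rw [add_comm]
  congr 1
  · rw [heckeU_eq_sum_zmod]
    refine Finset.sum_congr rfl fun j _ => ?_
    exact congrArg (fun A : GL (Fin 2) ℝ => (f : ℍ → ℂ) ∣[(2 : ℤ)] A)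
      (helper4325.corrT1_α_coe hp δ hδ j)
  · change (f : ℍ → ℂ) ∣[(2 : ℤ)]
      (mapGL ℝ (δ : SL(2, ℤ)) * ModularForm.heckeDiagMatrix p) = _
    rw [SlashAction.slash_mul]
    congr 1
    exact helper5251.slash_eq_diamondCF f δ δ.2 (ZMod.unitOfCoprime p h)
      (by rw [ZMod.coe_unitOfCoprime]; exact hδ)

/-- **(B2)** `⟨d⟩ f` is the coset sum of the CORR1 diamond correspondence `helper4325.corrD M δ`
for any `δ ∈ Γ₀(M)` with lower-right entry `≡ d`. -/
theorem coe_diamondCF_eq_sum_corrD (δ : Gamma0 M) (d : (ZMod M)ˣ) (hδ : Gamma0Map M δ = d)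
    (f : CuspForm (Gamma1 M) 2) :
    (⇑(helper5251.diamondCF d f) : ℍ → ℂ) =
      ∑ x, (f : ℍ → ℂ) ∣[(2 : ℤ)] (helper4325.corrD M δ).α x := by
  rw [Fintype.sum_unique, ← helper5251.slash_eq_diamondCF f δ δ.2 d hδ]
  rfl

/-- **The period map of `Γ₁(M)` is `T_p`-equivariant**: it intertwines `T_p` on weight-two cusp
forms with the CORR1 transfer `heckeHomT1` on `Hom(Γ₁(M), ℂ)`. -/
theorem perMap_heckeTCF (δ : Gamma0 M) (hδ : Gamma0Map M δ = (p : ZMod M))
    (hp' : p.Prime) (h : Nat.Coprime p M) (f : CuspForm (Gamma1 M) 2) :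
    perMap (Gamma1 M) (helper5251.heckeTCF hp' h f) =
      helper4325.heckeHomT1 M p hp δ hδ ℂ (perMap (Gamma1 M) f) :=
  perMap_eq_op (Gamma_le_Gamma1 M) (helper4325.corrT1 M p hp δ hδ) (corrT1_pos hp δ hδ) f _
    (coe_heckeTCF_eq_sum_corrT1 hp δ hδ hp' h f)

omit [Fact p.Prime] in
/-- **The period map of `Γ₁(M)` is diamond-equivariant**: it intertwines `⟨d⟩` on weight-two cusp
forms with the CORR1 transfer `diamondHom` on `Hom(Γ₁(M), ℂ)`. -/
theorem perMap_diamondCF (δ : Gamma0 M) (d : (ZMod M)ˣ) (hδ : Gamma0Map M δ = d)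
    (f : CuspForm (Gamma1 M) 2) :
    perMap (Gamma1 M) (helper5251.diamondCF d f) =
      helper4325.diamondHom M δ ℂ (perMap (Gamma1 M) f) :=
  perMap_eq_op (Gamma_le_Gamma1 M) (helper4325.corrD M δ) (corrD_pos δ) f _
    (coe_diamondCF_eq_sum_corrD δ d hδ f)

variable {ψ : DirichletCharacter ℂ M} {g : CuspForm (Gamma1 M) 2} {b : ℕ → ℂ}

omit [Fact p.Prime] in
/-- **Occurrence of a weight-two eigensystem with nebentypus in the parabolic cohomology of
`Γ₁(M)`, for the CORR1 transfers.**  Let `g` satisfy `IsEigen2 M ψ g b`, `κ` be a field and `φ` a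
ring homomorphism from the algebraic integers to `κ`.  Then there is a NONZERO additive character
`c : Γ₁(M) → κ`, a `κ`-linear combination of INTEGRAL parabolic homomorphisms, with
`heckeHomT1 M p hp δ hδ κ c = φ (b p) • c` for all primes `p ∤ M` and
`diamondHom M δ κ c = φ (ψ d) • c` for all `δ ∈ Γ₀(M)` with lower-right entry `≡ d`. -/
theorem exists_eigen_parabolicHom_Gamma1_hom (hE : IsEigen2 M ψ g b)
    {κ : Type*} [Field κ] (φ : Zc →+* κ) :
    ∃ c : Additive (Gamma1 M) →+ κ, c ≠ 0 ∧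
      (∃ (n : ℕ) (lam : Fin n → Additive (Gamma1 M) →+ ℤ) (k : Fin n → κ),
        (∀ i, lam i ∈ parabolicHoms ℤ (Gamma1 M) ℤ) ∧
          c = ∑ i, k i • (Int.castAddHom κ).comp (lam i)) ∧
      (∀ (q : ℕ) [Fact q.Prime] (hq : ¬ q ∣ M) (δ : Gamma0 M)
        (hδ : Gamma0Map M δ = (q : ZMod M)) (tb : Zc), (tb : ℂ) = b q →
          helper4325.heckeHomT1 M q hq δ hδ κ c = φ tb • c) ∧
      (∀ (δ : Gamma0 M) (d : (ZMod M)ˣ), Gamma0Map M δ = d → ∀ tψ : Zc, (tψ : ℂ) = ψ d →
          helper4325.diamondHom M δ κ c = φ tψ • c) := by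
  obtain ⟨c, hc0, hdec, -, -, hop⟩ := exists_eigen_parabolicHom_Gamma1 hE φ
  refine ⟨c, hc0, hdec, ?_, ?_⟩
  · intro q _ hq δ hδ tb htb
    have hq' : q.Prime := Fact.out
    have h : Nat.Coprime q M := (Nat.Prime.coprime_iff_not_dvd hq').mpr hq
    refine hop (helper4325.corrT1 M q hq δ hδ) (corrT1_pos hq δ hδ) (helper5251.heckeTCF hq' h)
      (heckeTCF_mem_heckeAlg1 hq' h) (coe_heckeTCF_eq_sum_corrT1 hq δ hδ hq' h) tb ?_
    rw [htb]
    exact heckeTCF_eq_smul_of_isEigen2 hE hq' h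
  · intro δ d hδ tψ htψ
    refine hop (helper4325.corrD M δ) (corrD_pos δ) (helper5251.diamondCF d)
      (diamondCF_mem_heckeAlg1 d) (coe_diamondCF_eq_sum_corrD δ d hδ) tψ ?_
    rw [htψ]
    exact diamondCF_eq_smul_of_isEigen2 hE d

end Bridge

end

end Fermat.Agent.S48.helper3284
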