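import Fermat.Agent.S48.helper3284_PeriodGamma
import Fermat.Agent.S48.helper5251_HeckeGamma1Corr
import Fermat.Agent.S48.helper8231_Spec

/-!
# S48-M3-PEREIG1 (helper3284): the period side at `Γ₁(M)` on the HECKE1 carrier

The `Γ₁(M)` instance of `helper3284_PeriodGamma` for the landed Hecke and diamond operators
`helper5251.heckeTCF`, `helper5251.diamondCF` on `CuspForm (Gamma1 M) 2` and their landed
correspondences `helper5251.corrT1`, `helper5251.corrDiamond`, in the vocabulary of the S48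
blueprint (`helper8231.IsEigen2`).

* `cuspForm_Gamma1_ext_qCoeff`   : the `q`-expansion principle on `CuspForm (Gamma1 M) k`;
* `heckeTCF_eq_smul_of_isEigen2`, `diamondCF_eq_smul_of_isEigen2` : (E1) an `IsEigen2` form is an
  eigenvector of every `T_p` (`p ∤ M`) and every diamond operator, as operator equations;
* `Corr_op_eq_of_reps`           : (E3) the transfer `Corr.op` only depends on the cosets
  (with reindexing of the cosets);
* `heckeAlg1`, `heckeAlg1_comm`, `perLattice_comp_heckeTCF_mem`, `perLattice_comp_diamondCF_mem`,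
  `perLattice_comp_heckeAlg1_mem` : (E4) the Hecke algebra of `Γ₁(M)` is commutative and the
  period lattice of `Γ₁(M)` is stable under its transposes;
* `exists_eigen_parabolicHom_Gamma1` : (E5) occurrence of the eigensystem of an `IsEigen2` form
  in `κ ⊗ Hom_par(Γ₁(M), ℤ)`, for `T_p` and the diamonds simultaneously.
-/

set_option autoImplicit false

open ModularCurve ModularCurve.Period CongruenceSubgroup UpperHalfPlane
open Matrix.SpecialLinearGroup
open scoped MatrixGroups ModularForm Manifold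

namespace Fermat.Agent.S48.helper3284

open Fermat.Agent.S16.helper2138 (Corr)
open Fermat.Agent.S48.helper5251
open Fermat.Agent.S48.helper8231 (IsEigen2 Zc)

noncomputable section

/-! ### (E1) eigen-equations from the `q`-expansion form -/

section Eigen

variable {M : ℕ} [NeZero M]

/-- The `q`-expansion principle on `CuspForm (Gamma1 M) k`. -/
theorem cuspForm_Gamma1_ext_qCoeff {k : ℤ} (f g : CuspForm (Gamma1 M) k)
    (h : ∀ n : ℕ, ModularFormClass.qCoeff f n = ModularFormClass.qCoeff g n) : f = g := by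
  apply DFunLike.coe_injective
  exact UpperHalfPlane.eq_of_forall_qCoeff_eq (periodic_of_Gamma1 f) (ModularFormClass.holo f)
    (ModularFormClass.bdd_at_infty f) (periodic_of_Gamma1 g) (ModularFormClass.holo g)
    (ModularFormClass.bdd_at_infty g) h

variable {ψ : DirichletCharacter ℂ M} {g : CuspForm (Gamma1 M) 2} {b : ℕ → ℂ}

/-- **(E1), Hecke operators.**  A form satisfying `IsEigen2 M ψ g b` is an eigenvector of
`T_p` with eigenvalue `b p`, for every prime `p ∤ M`. -/
theorem heckeTCF_eq_smul_of_isEigen2 (hE : IsEigen2 M ψ g b) {p : ℕ} (hp : p.Prime)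
    (h : Nat.Coprime p M) : heckeTCF hp h g = b p • g := by
  apply cuspForm_Gamma1_ext_qCoeff
  intro n
  rw [qCoeff_heckeTCF_weight_two_of_nebentypus hp h g (fun x => ψ x) hE.2.1 n,
    hE.2.2 p hp ((Nat.Prime.coprime_iff_not_dvd hp).mp h) n]
  have h1 : ⇑(b p • g) = b p • (g : ℍ → ℂ) := rfl
  rw [h1, qCoeff_smul_of_Gamma1]

/-- **(E1), diamond operators.**  A form satisfying `IsEigen2 M ψ g b` is an eigenvector of
`⟨d⟩` with eigenvalue `ψ d`. -/
theorem diamondCF_eq_smul_of_isEigen2 (hE : IsEigen2 M ψ g b) (d : (ZMod M)ˣ) :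
    diamondCF d g = ψ d • g :=
  diamondCF_eq_smul_of_nebentypus g (fun x => ψ x) hE.2.1 d

end Eigen

/-! ### (E3) the transfer only depends on the cosets -/

section Reps

/-- **(E3)** The coset transfer `Corr.op` only depends on the cosets `Γ α_i`: two correspondences
whose representatives differ by left multiplication by elements of `Γ` (and a reindexing) have
the same transfer on `Hom(Γ, A)`. -/
theorem Corr_op_eq_of_reps {Γ : Subgroup SL(2, ℤ)} {ι ι' : Type} [Fintype ι] [Fintype ι']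
    (C : Corr Γ ι) (C' : Corr Γ ι') (e : ι ≃ ι') (u : ι → Γ)
    (hu : ∀ i, C'.α (e i) = mapGL ℝ ((u i : Γ) : SL(2, ℤ)) * C.α i)
    (A : Type*) [AddCommGroup A] (φ : Additive Γ →+ A) : C'.op A φ = C.op A φ := by
  refine AddMonoidHom.ext fun γ' => ?_
  obtain ⟨γ, rfl⟩ := Additive.ofMul.surjective γ'
  rw [Corr.op_apply, Corr.op_apply]
  have key : ∀ i, C'.g (e i) γ = u i * C.g i γ * (u (C.σ γ i))⁻¹ := by
    intro i
    have H : C'.α (e i) * mapGL ℝ (γ : SL(2, ℤ)) =
        mapGL ℝ ((u i * C.g i γ * (u (C.σ γ i))⁻¹ : Γ) : SL(2, ℤ)) * C'.α (e (C.σ γ i)) := by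
      rw [hu i, hu (C.σ γ i), mul_assoc, C.rel i γ]
      simp only [Subgroup.coe_mul, Subgroup.coe_inv, map_mul, map_inv]
      group
    exact (C'.uniq H).2.symm
  rw [← Equiv.sum_comp e]
  have h1 : ∀ i, φ (Additive.ofMul (C'.g (e i) γ)) =
      φ (Additive.ofMul (u i)) + φ (Additive.ofMul (C.g i γ)) -
        φ (Additive.ofMul (u (C.σ γ i))) := by
    intro i
    rw [key i, ofMul_mul, ofMul_mul, ofMul_inv, map_add, map_add, map_neg, sub_eq_add_neg]
  rw [Finset.sum_congr rfl fun i _ => h1 i, Finset.sum_sub_distrib, Finset.sum_add_distrib]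
  have h2 : ∑ i, φ (Additive.ofMul (u (C.σ γ i))) = ∑ i, φ (Additive.ofMul (u i)) :=
    Equiv.sum_comp (C.σEquiv γ) (fun i => φ (Additive.ofMul (u i)))
  rw [h2]
  abel

end Reps

/-! ### (E4) the Hecke algebra of `Γ₁(M)` and the period lattice -/

section HeckeAlgebra

variable (M : ℕ) [NeZero M]

/-- The generators of the weight-two Hecke algebra of `Γ₁(M)`: the `T_p` (`p ∤ M` prime) and the
diamond operators. -/
def heckeGen1 : Set (Module.End ℂ (CuspForm (Gamma1 M) 2)) :=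
  {T | (∃ (p : ℕ) (hp : p.Prime) (h : Nat.Coprime p M), T = heckeTCF hp h) ∨
    ∃ d : (ZMod M)ˣ, T = diamondCF d}

/-- The weight-two Hecke algebra of `Γ₁(M)` over `ℤ`, generated by the `T_p` (`p ∤ M`) and the
diamond operators. -/
def heckeAlg1 : Subalgebra ℤ (Module.End ℂ (CuspForm (Gamma1 M) 2)) :=
  Algebra.adjoin ℤ (heckeGen1 M)

variable {M}

theorem heckeTCF_mem_heckeGen1 {p : ℕ} (hp : p.Prime) (h : Nat.Coprime p M) :
    heckeTCF hp h ∈ heckeGen1 M := Or.inl ⟨p, hp, h, rfl⟩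

theorem diamondCF_mem_heckeGen1 (d : (ZMod M)ˣ) : diamondCF d ∈ heckeGen1 M := Or.inr ⟨d, rfl⟩

theorem heckeTCF_mem_heckeAlg1 {p : ℕ} (hp : p.Prime) (h : Nat.Coprime p M) :
    heckeTCF hp h ∈ heckeAlg1 M := Algebra.subset_adjoin (heckeTCF_mem_heckeGen1 hp h)

theorem diamondCF_mem_heckeAlg1 (d : (ZMod M)ˣ) : diamondCF d ∈ heckeAlg1 M :=
  Algebra.subset_adjoin (diamondCF_mem_heckeGen1 d)

theorem heckeGen1_comm : ∀ S ∈ heckeGen1 M, ∀ T ∈ heckeGen1 M, S * T = T * S := by
  rintro S (⟨p, hp, h, rfl⟩ | ⟨d, rfl⟩) T (⟨q, hq, h', rfl⟩ | ⟨e, rfl⟩)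
  · exact (commute_heckeTCF hp hq h h').eq
  · exact (commute_heckeTCF_diamondCF hp h e).eq
  · exact (commute_heckeTCF_diamondCF hq h' d).eq.symm
  · exact (commute_diamondCF d e).eq

/-- The Hecke algebra of `Γ₁(M)` is commutative. -/
theorem heckeAlg1_comm (S T : heckeAlg1 M) : S * T = T * S :=
  isMulCommutative_iff.mp (Algebra.isMulCommutative_adjoin ℤ heckeGen1_comm) S T

/-- **(E4)** transposition by `T_p` maps the period functionals of `Γ₁(M)` into the period
lattice. -/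
theorem perFun_comp_heckeTCF_mem {p : ℕ} (hp : p.Prime) (h : Nat.Coprime p M) (γ : Gamma1 M) :
    perFun (Gamma_le_Gamma1 M) γ ∘ₗ heckeTCF hp h ∈ perLattice (Gamma_le_Gamma1 M) :=
  perFun_comp_of_corr_mem (Gamma_le_Gamma1 M) (corrT1 hp h) (corrT1_det_pos hp h) (heckeTCF hp h)
    (coe_heckeTCF_eq_corr hp h) γ

/-- **(E4)** transposition by `⟨d⟩` maps the period functionals of `Γ₁(M)` into the period
lattice. -/
theorem perFun_comp_diamondCF_mem (d : (ZMod M)ˣ) (γ : Gamma1 M) :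
    perFun (Gamma_le_Gamma1 M) γ ∘ₗ diamondCF d ∈ perLattice (Gamma_le_Gamma1 M) :=
  perFun_comp_of_corr_mem (Gamma_le_Gamma1 M) (corrDiamond (diamRep M d) (diamRep_mem_Gamma0 d))
    (corrDiamond_det_pos _ _) (diamondCF d) (coe_diamondCF_eq_corr d) γ

theorem perFun_comp_heckeGen1_mem :
    ∀ T ∈ heckeGen1 M, ∀ γ : Gamma1 M,
      perFun (Gamma_le_Gamma1 M) γ ∘ₗ T ∈ perLattice (Gamma_le_Gamma1 M) := by
  rintro T (⟨p, hp, h, rfl⟩ | ⟨d, rfl⟩) γ
  · exact perFun_comp_heckeTCF_mem hp h γ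
  · exact perFun_comp_diamondCF_mem d γ

/-- **(E4)** the period lattice of `Γ₁(M)` is stable under transposition by the Hecke algebra. -/
theorem perLattice_comp_heckeAlg1_mem :
    ∀ T ∈ heckeAlg1 M, ∀ φ ∈ perLattice (Gamma_le_Gamma1 M),
      φ ∘ₗ T ∈ perLattice (Gamma_le_Gamma1 M) :=
  fun _ hT _ hφ => perLattice_comp_mem_adjoin (Gamma_le_Gamma1 M) perFun_comp_heckeGen1_mem hT hφ

theorem perLattice_comp_heckeTCF_mem {p : ℕ} (hp : p.Prime) (h : Nat.Coprime p M) :
    ∀ φ ∈ perLattice (Gamma_le_Gamma1 M),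
      φ ∘ₗ heckeTCF hp h ∈ perLattice (Gamma_le_Gamma1 M) :=
  perLattice_comp_heckeAlg1_mem _ (heckeTCF_mem_heckeAlg1 hp h)

theorem perLattice_comp_diamondCF_mem (d : (ZMod M)ˣ) :
    ∀ φ ∈ perLattice (Gamma_le_Gamma1 M),
      φ ∘ₗ diamondCF d ∈ perLattice (Gamma_le_Gamma1 M) :=
  perLattice_comp_heckeAlg1_mem _ (diamondCF_mem_heckeAlg1 d)

/-- The Hecke algebra of `Γ₁(M)` is a finite `ℤ`-module. -/
theorem heckeAlg1_finite : Module.Finite ℤ (heckeAlg1 M) :=
  finite_of_stable_perLattice (Gamma_le_Gamma1 M) (heckeAlg1 M) perLattice_comp_heckeAlg1_mem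

variable {ψ : DirichletCharacter ℂ M} {g : CuspForm (Gamma1 M) 2} {b : ℕ → ℂ}

/-- An `IsEigen2` form is a common eigenvector of the whole Hecke algebra. -/
theorem exists_smul_of_isEigen2 (hE : IsEigen2 M ψ g b) :
    ∀ T ∈ heckeAlg1 M, ∃ c : ℂ, T g = c • g := by
  intro T hT
  induction hT using Algebra.adjoin_induction with
  | mem x hx =>
    rcases hx with ⟨p, hp, h, rfl⟩ | ⟨d, rfl⟩
    · exact ⟨b p, heckeTCF_eq_smul_of_isEigen2 hE hp h⟩
    · exact ⟨ψ d, diamondCF_eq_smul_of_isEigen2 hE d⟩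
  | algebraMap r =>
    refine ⟨(r : ℂ), ?_⟩
    rw [Module.algebraMap_end_apply]
    exact (Int.cast_smul_eq_zsmul ℂ r g).symm
  | add x y _ _ hx hy =>
    obtain ⟨c, hc⟩ := hx
    obtain ⟨c', hc'⟩ := hy
    exact ⟨c + c', by rw [LinearMap.add_apply, hc, hc', add_smul]⟩
  | mul x y _ _ hx hy =>
    obtain ⟨c, hc⟩ := hx
    obtain ⟨c', hc'⟩ := hy
    exact ⟨c' * c, by rw [Module.End.mul_apply, hc', map_smul, hc, smul_smul]⟩

/-- **Integrality of the Hecke eigenvalues from the period lattice** (by-product; the copy of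
record is `helper8468.isIntegral_of_isEigen2`). -/
theorem isIntegral_of_isEigen2_perLattice (hE : IsEigen2 M ψ g b) {p : ℕ} (hp : p.Prime)
    (h : Nat.Coprime p M) : IsIntegral ℤ (b p) :=
  isIntegral_of_stable_perLattice (Gamma_le_Gamma1 M) (heckeAlg1 M) perLattice_comp_heckeAlg1_mem
    hE.1 (exists_smul_of_isEigen2 hE) (heckeTCF_mem_heckeAlg1 hp h)
    (heckeTCF_eq_smul_of_isEigen2 hE hp h)

/-! ### (E5) occurrence of the eigensystem in `κ ⊗ Hom_par(Γ₁(M), ℤ)` -/

/-- **(E5) Occurrence of a weight-two eigensystem with nebentypus in the parabolic cohomology of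
`Γ₁(M)`.**  Let `g` satisfy `IsEigen2 M ψ g b`, `κ` be a field and `φ` a ring homomorphism from
the algebraic integers to `κ`.  Then there is a NONZERO additive character `c : Γ₁(M) → κ`, a
`κ`-linear combination of INTEGRAL parabolic homomorphisms, which is an eigenvector of the coset
transfers of all `T_p` (`p ∤ M`; eigenvalue `φ (b p)`) and of all diamond operators (eigenvalue
`φ (ψ d)`).  The last clause is the representative-free form: ANY correspondence `C` whose coset
sum is an element `T` of the Hecke algebra with `T g = a • g` satisfies `C.op κ c = φ a • c`. -/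
theorem exists_eigen_parabolicHom_Gamma1 (hE : IsEigen2 M ψ g b)
    {κ : Type*} [Field κ] (φ : Zc →+* κ) :
    ∃ c : Additive (Gamma1 M) →+ κ, c ≠ 0 ∧
      (∃ (n : ℕ) (lam : Fin n → Additive (Gamma1 M) →+ ℤ) (k : Fin n → κ),
        (∀ i, lam i ∈ parabolicHoms ℤ (Gamma1 M) ℤ) ∧
          c = ∑ i, k i • (Int.castAddHom κ).comp (lam i)) ∧
      (∀ (p : ℕ) (hp : p.Prime) (h : Nat.Coprime p M) (tb : Zc), (tb : ℂ) = b p →
        (corrT1 hp h).op κ c = φ tb • c) ∧
      (∀ (d : (ZMod M)ˣ) (tψ : Zc), (tψ : ℂ) = ψ d →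
        (corrDiamond (diamRep M d) (diamRep_mem_Gamma0 d)).op κ c = φ tψ • c) ∧
      ∀ {ι : Type} [Fintype ι] (C : Corr (Gamma1 M) ι) (_hpos : ∀ i, 0 < (C.α i).det.val)
        (T : Module.End ℂ (CuspForm (Gamma1 M) 2)) (_hT : T ∈ heckeAlg1 M)
        (_hTC : ∀ f : CuspForm (Gamma1 M) 2,
          ((T f : CuspForm (Gamma1 M) 2) : ℍ → ℂ) = ∑ i, (f : ℍ → ℂ) ∣[(2 : ℤ)] (C.α i))
        (a : Zc), T g = (a : ℂ) • g → C.op κ c = φ a • c := by
  obtain ⟨c, hc0, hdec, hop⟩ := exists_eigen_parabolicHom (Gamma_le_Gamma1 M) (heckeAlg1 M)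
    heckeAlg1_comm perLattice_comp_heckeAlg1_mem g hE.1 (exists_smul_of_isEigen2 hE) φ
  refine ⟨c, hc0, hdec, ?_, ?_, ?_⟩
  · intro p hp h tb htb
    refine hop (corrT1 hp h) (corrT1_det_pos hp h) (heckeTCF hp h) (heckeTCF_mem_heckeAlg1 hp h)
      (coe_heckeTCF_eq_corr hp h) tb ?_
    rw [htb]
    exact heckeTCF_eq_smul_of_isEigen2 hE hp h
  · intro d tψ htψ
    refine hop (corrDiamond (diamRep M d) (diamRep_mem_Gamma0 d)) (corrDiamond_det_pos _ _)
      (diamondCF d) (diamondCF_mem_heckeAlg1 d) (coe_diamondCF_eq_corr d) tψ ?_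
    rw [htψ]
    exact diamondCF_eq_smul_of_isEigen2 hE d
  · intro ι _ C hpos T hT hTC a ha
    exact hop C hpos T hT hTC a ha

end HeckeAlgebra

end

end Fermat.Agent.S48.helper3284
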