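import Fermat.Agent.S21.helper21_Primitive
import Fermat.Agent.S21.helper376_Parabolic
import Fermat.Agent.S21.helper81_Injective
import Fermat.Agent.S21.helper2438_ParabolicFinite
import Fermat.Agent.S16.helper262_PeriodTelescope
import Fermat.Agent.S16.helper2138_HeckeHom
import Fermat.Agent.S29.helper5875_EigenOccur

/-!
# S48-M3-PER (helper3284): the weight-two period map for a congruence subgroup `Γ ⊇ Γ(N)`

Generic-`Γ` port of the landed `Γ₀(N)` pieces of S21 (equivariant primitive, parabolic vanishing,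
injectivity), of the S29 period lattice and of the S16 telescoping identity.  Everything is stated
for a subgroup `Γ ≤ SL(2, ℤ)` with `Gamma N ≤ Γ` (`N ≠ 0`), in particular for `Γ = Gamma1 M`,
and for cusp forms `f : CuspForm (Γ.map (mapGL ℝ)) 2` (for `Γ = Gamma1 M` this is literally the
Mathlib type `CuspForm (Gamma1 M) 2`).

* `exists_primitive`          : (P1) an equivariant primitive with limits at all cusps;
* `perMap`, `perMapLin`       : (P2) the period map `f ↦ (γ ↦ F (γ • z) - F z)`, `ℂ`-linear;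
* `perMap_mem_parabolicHoms`  : (P3) periods of trace `±2` elements vanish;
* `eq_zero_of_perMap_eq_zero` : (P4) the period map is injective (also: purely imaginary periods
                                 force `f = 0`);
* `perLattice`, `perHom`      : (P5) the `ℤ`-lattice of period functionals: finitely generated,
                                 separating, `perHom` kills trace `±2` elements;
* `perMap_eq_sum_of_reps`, `perMap_eq_op` : (P6) equivariance for coset sums / an abstract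
                                 `S16.helper2138.Corr Γ ι`.
-/

set_option autoImplicit false

open ModularCurve ModularCurve.Period CongruenceSubgroup UpperHalfPlane Filter Topology
open Matrix.SpecialLinearGroup
open scoped MatrixGroups ModularForm Manifold Real

namespace Fermat.Agent.S48.helper3284

/-- `F` is an equivariant primitive of `f` along `Γ`, normalised at `i∞`, with limits at all
cusps (the Prelude predicate `ModularCurve.HasEquivariantPrimitive` with `Gamma0 N` replaced by an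
arbitrary subgroup `Γ`). -/
def HasPrimitive (Γ : Subgroup SL(2, ℤ)) (f F : ℍ → ℂ) : Prop :=
  (∀ τ : ℍ, HasDerivAt (F ∘ ofComplex) (f τ) (τ : ℂ)) ∧
    Tendsto F atImInfty (𝓝 0) ∧
    IsEquivariantPrimitive Γ F ∧
    ∀ δ : SL(2, ℤ), ∃ L : ℂ, Tendsto (fun w : ℍ => F (δ • w)) atImInfty (𝓝 L)

section Basic

variable {Γ : Subgroup SL(2, ℤ)} {N : ℕ}

/-- A subgroup containing `Gamma N` (`N ≠ 0`) has finite index. -/
theorem finiteIndex_of_Gamma_le [NeZero N] (hΓ : Gamma N ≤ Γ) : Γ.FiniteIndex :=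
  Subgroup.finiteIndex_of_le hΓ

/-- Conjugates of `T ^ N` lie in every subgroup containing `Gamma N`. -/
theorem conj_T_pow_mem (hΓ : Gamma N ≤ Γ) (δ : SL(2, ℤ)) :
    δ * ModularGroup.T ^ (N : ℤ) * δ⁻¹ ∈ Γ := by
  have h1 : ModularGroup.T ^ (N : ℤ) ∈ Gamma N := by
    simpa using ModularGroup_T_pow_mem_Gamma (N : ℤ) (N : ℤ) dvd_rfl
  exact hΓ ((Gamma_normal N).conj_mem _ h1 δ)

variable (f : CuspForm (Γ.map (mapGL ℝ)) 2)

theorem slash_mem (γ : SL(2, ℤ)) (hγ : γ ∈ Γ) : (f : ℍ → ℂ) ∣[(2 : ℤ)] γ = f :=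
  SlashInvariantForm.slash_action_eqn f _ ⟨γ, hγ, rfl⟩

theorem mdiff_slash (δ : SL(2, ℤ)) : MDiff ((f : ℍ → ℂ) ∣[(2 : ℤ)] δ) :=
  (CuspFormClass.holo f).slash 2 (mapGL ℝ δ)

theorem isZeroAtImInfty_slash [Γ.FiniteIndex] (δ : SL(2, ℤ)) :
    IsZeroAtImInfty ((f : ℍ → ℂ) ∣[(2 : ℤ)] δ) := by
  have hc : IsCusp (mapGL ℝ δ • OnePoint.infty) (Γ.map (mapGL ℝ)) :=
    (Subgroup.IsArithmetic.isCusp_iff_isCusp_SL2Z _).mpr (isCusp_SL2Z_iff'.mpr ⟨δ, rfl⟩)
  exact CuspFormClass.zero_at_cusps f hc (mapGL ℝ δ) rfl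

theorem slash_T_pow (hΓ : Gamma N ≤ Γ) (δ : SL(2, ℤ)) :
    ((f : ℍ → ℂ) ∣[(2 : ℤ)] δ) ∣[(2 : ℤ)] (ModularGroup.T ^ (N : ℤ))
      = (f : ℍ → ℂ) ∣[(2 : ℤ)] δ := by
  rw [← SlashAction.slash_mul]
  have h : δ * ModularGroup.T ^ (N : ℤ) = (δ * ModularGroup.T ^ (N : ℤ) * δ⁻¹) * δ := by group
  rw [h, SlashAction.slash_mul, slash_mem f _ (conj_T_pow_mem hΓ δ)]

theorem slash_vadd (hΓ : Gamma N ≤ Γ) (δ : SL(2, ℤ)) (w : ℍ) :
    ((f : ℍ → ℂ) ∣[(2 : ℤ)] δ) ((N : ℝ) +ᵥ w) = ((f : ℍ → ℂ) ∣[(2 : ℤ)] δ) w := by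
  have h := congrFun (slash_T_pow f hΓ δ) w
  rw [ModularForm.SL_slash_apply] at h
  have h1 : ModularGroup.T ^ (N : ℤ) • w = (N : ℝ) +ᵥ w := by
    have := modular_T_zpow_smul w (N : ℤ)
    rw [this]
    simp
  have h2 : UpperHalfPlane.denom ((ModularGroup.T ^ (N : ℤ) : SL(2, ℤ)) : GL (Fin 2) ℝ) (w : ℂ)
      = 1 := by
    have h3 : ((ModularGroup.T ^ (N : ℤ) : SL(2, ℤ)) : Matrix (Fin 2) (Fin 2) ℤ) 1 0 = 0 := by
      rw [ModularGroup.coe_T_zpow]; rfl
    have h4 : ((ModularGroup.T ^ (N : ℤ) : SL(2, ℤ)) : Matrix (Fin 2) (Fin 2) ℤ) 1 1 = 1 := by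
      rw [ModularGroup.coe_T_zpow]; rfl
    rw [ModularGroup.denom_apply, h3, h4]
    simp
  rw [h1, h2] at h
  rw [← h]
  simp

theorem periodic_slash (hΓ : Gamma N ≤ Γ) (δ : SL(2, ℤ)) :
    Function.Periodic (((f : ℍ → ℂ) ∣[(2 : ℤ)] δ) ∘ ofComplex) (N : ℝ) := by
  intro w
  by_cases hw : 0 < w.im
  · have hw' : 0 < (w + ((N : ℝ) : ℂ)).im := by simpa using hw
    have hpt : (⟨w + ((N : ℝ) : ℂ), hw'⟩ : ℍ) = (N : ℝ) +ᵥ (⟨w, hw⟩ : ℍ) := by
      apply UpperHalfPlane.ext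
      simp [add_comm]
    rw [Function.comp_apply, Function.comp_apply, ofComplex_apply_of_im_pos hw',
      ofComplex_apply_of_im_pos hw, hpt, slash_vadd f hΓ δ ⟨w, hw⟩]
  · have hw1 : w.im ≤ 0 := not_lt.mp hw
    have hw' : (w + ((N : ℝ) : ℂ)).im ≤ 0 := by simpa using hw1
    rw [Function.comp_apply, Function.comp_apply, ofComplex_apply_of_im_nonpos hw',
      ofComplex_apply_of_im_nonpos hw1]

/-- **(P1)** every weight-two cusp form on `Γ ⊇ Γ(N)` has an equivariant primitive, normalised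
at `i∞` and with limits at all cusps. -/
theorem exists_primitive [NeZero N] (hΓ : Gamma N ≤ Γ) :
    ∃ F : ℍ → ℂ, HasPrimitive Γ f F := by
  have : Γ.FiniteIndex := finiteIndex_of_Gamma_le hΓ
  have hN : (0 : ℝ) < (N : ℝ) := by exact_mod_cast Nat.pos_of_ne_zero (NeZero.ne N)
  have hper1 : Function.Periodic ((f : ℍ → ℂ) ∘ ofComplex) (N : ℝ) := by
    have := periodic_slash f hΓ 1
    rwa [SlashAction.slash_one] at this
  have hzero : IsZeroAtImInfty (f : ℍ → ℂ) := by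
    have := isZeroAtImInfty_slash f 1
    rwa [SlashAction.slash_one] at this
  obtain ⟨F, hF1, hF2⟩ := Fermat.Agent.S21.helper21.exists_primitive_of_periodic hN hper1
    (CuspFormClass.holo f) hzero
  refine ⟨F, hF1, hF2, ?_, ?_⟩
  · intro γ
    refine ⟨F ((γ : SL(2, ℤ)) • UpperHalfPlane.I) - F UpperHalfPlane.I, fun z => ?_⟩
    have hD : ∀ τ : ℍ, HasDerivAt
        ((fun w : ℍ => F ((γ : SL(2, ℤ)) • w) - F w) ∘ ofComplex) 0 (τ : ℂ) := by
      intro τ
      have h1 := Fermat.Agent.S21.helper21.hasDerivAt_comp_smul hF1 (γ : SL(2, ℤ)) τ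
      rw [slash_mem f γ γ.2] at h1
      have h2 := h1.sub (hF1 τ)
      rw [sub_self] at h2
      exact h2
    exact Fermat.Agent.S21.helper21.eq_of_hasDerivAt_zero hD z UpperHalfPlane.I
  · intro δ
    obtain ⟨Φ, hΦ1, hΦ2⟩ := Fermat.Agent.S21.helper21.exists_primitive_of_periodic hN
      (periodic_slash f hΓ δ) (mdiff_slash f δ) (isZeroAtImInfty_slash f δ)
    refine ⟨F (δ • UpperHalfPlane.I) - Φ UpperHalfPlane.I, ?_⟩
    have hD : ∀ τ : ℍ, HasDerivAt ((fun w : ℍ => F (δ • w) - Φ w) ∘ ofComplex) 0 (τ : ℂ) := by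
      intro τ
      have h1 := Fermat.Agent.S21.helper21.hasDerivAt_comp_smul hF1 δ τ
      have h2 := h1.sub (hΦ1 τ)
      rw [sub_self] at h2
      exact h2
    have hconst : ∀ w : ℍ, Φ w + (F (δ • UpperHalfPlane.I) - Φ UpperHalfPlane.I) = F (δ • w) := by
      intro w
      have := Fermat.Agent.S21.helper21.eq_of_hasDerivAt_zero hD w UpperHalfPlane.I
      linear_combination -this
    have h3 := hΦ2.add_const (F (δ • UpperHalfPlane.I) - Φ UpperHalfPlane.I)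
    rw [zero_add] at h3
    exact h3.congr hconst

end Basic

section PerMap

variable (Γ : Subgroup SL(2, ℤ))

open Classical in
/-- **(P2)** the period map of a weight-two cusp form on `Γ`: `γ ↦ F (γ • z) - F z` for any
primitive `F` of `f` (see `perMap_apply_of_hasDerivAt`). -/
noncomputable def perMap (f : CuspForm (Γ.map (mapGL ℝ)) 2) : Additive Γ →+ ℂ :=
  if h : ∃ F : ℍ → ℂ, HasPrimitive Γ f F then h.choose_spec.2.2.1.periodHom else 0

variable {Γ} {N : ℕ} [NeZero N]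

/-- The period map is computed by ANY primitive of `f` on `ℍ`, at ANY base point. -/
theorem perMap_apply_of_hasDerivAt (hΓ : Gamma N ≤ Γ) (f : CuspForm (Γ.map (mapGL ℝ)) 2)
    {F : ℍ → ℂ} (hF : ∀ τ : ℍ, HasDerivAt (F ∘ ofComplex) (f τ) (τ : ℂ)) (γ : Γ) (z : ℍ) :
    perMap Γ f (Additive.ofMul γ) = F ((γ : SL(2, ℤ)) • z) - F z := by
  classical
  have h : ∃ F : ℍ → ℂ, HasPrimitive Γ f F := exists_primitive f hΓ
  have hdef : perMap Γ f = h.choose_spec.2.2.1.periodHom := dif_pos h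
  set F₀ := h.choose with hF₀
  have hF₀' : HasPrimitive Γ f F₀ := h.choose_spec
  have h1 : perMap Γ f (Additive.ofMul γ) = F₀ ((γ : SL(2, ℤ)) • z) - F₀ z := by
    rw [hdef, IsEquivariantPrimitive.periodHom_apply]
    exact (hF₀'.2.2.1.sub_eq_period γ z).symm
  have hD : ∀ τ : ℍ, HasDerivAt ((fun w : ℍ => F w - F₀ w) ∘ ofComplex) 0 (τ : ℂ) := by
    intro τ
    have h2 := (hF τ).sub (hF₀'.1 τ)
    rw [sub_self] at h2
    exact h2
  have hc := Fermat.Agent.S21.helper21.eq_of_hasDerivAt_zero hD ((γ : SL(2, ℤ)) • z) z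
  rw [h1]
  linear_combination -hc

/-- The period map through an equivariant primitive. -/
theorem perMap_apply_of_primitive (hΓ : Gamma N ≤ Γ) {f : CuspForm (Γ.map (mapGL ℝ)) 2}
    {F : ℍ → ℂ} (hF : HasPrimitive Γ f F) (γ : Γ) (z : ℍ) :
    perMap Γ f (Additive.ofMul γ) = F ((γ : SL(2, ℤ)) • z) - F z :=
  perMap_apply_of_hasDerivAt hΓ f hF.1 γ z

theorem perMap_add (hΓ : Gamma N ≤ Γ) (f g : CuspForm (Γ.map (mapGL ℝ)) 2) :
    perMap Γ (f + g) = perMap Γ f + perMap Γ g := by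
  obtain ⟨F, hF⟩ := exists_primitive f hΓ
  obtain ⟨G, hG⟩ := exists_primitive g hΓ
  refine AddMonoidHom.ext fun γ => ?_
  obtain ⟨γ, rfl⟩ := Additive.ofMul.surjective γ
  have hFG : ∀ τ : ℍ, HasDerivAt ((fun w : ℍ => F w + G w) ∘ ofComplex) ((f + g) τ) (τ : ℂ) :=
    fun τ => (hF.1 τ).add (hG.1 τ)
  rw [AddMonoidHom.add_apply, perMap_apply_of_hasDerivAt hΓ (f + g) hFG γ UpperHalfPlane.I,
    perMap_apply_of_primitive hΓ hF γ UpperHalfPlane.I,
    perMap_apply_of_primitive hΓ hG γ UpperHalfPlane.I]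
  ring

theorem perMap_smul (hΓ : Gamma N ≤ Γ) (c : ℂ) (f : CuspForm (Γ.map (mapGL ℝ)) 2) :
    perMap Γ (c • f) = c • perMap Γ f := by
  obtain ⟨F, hF⟩ := exists_primitive f hΓ
  refine AddMonoidHom.ext fun γ => ?_
  obtain ⟨γ, rfl⟩ := Additive.ofMul.surjective γ
  have hcF : ∀ τ : ℍ, HasDerivAt ((fun w : ℍ => c * F w) ∘ ofComplex) ((c • f) τ) (τ : ℂ) :=
    fun τ => (hF.1 τ).const_mul c
  rw [AddMonoidHom.smul_apply, perMap_apply_of_hasDerivAt hΓ (c • f) hcF γ UpperHalfPlane.I,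
    perMap_apply_of_primitive hΓ hF γ UpperHalfPlane.I, smul_eq_mul]
  ring

/-- **(P2)** the period map as a `ℂ`-linear map. -/
noncomputable def perMapLin (hΓ : Gamma N ≤ Γ) :
    CuspForm (Γ.map (mapGL ℝ)) 2 →ₗ[ℂ] (Additive Γ →+ ℂ) where
  toFun := perMap Γ
  map_add' := perMap_add hΓ
  map_smul' := perMap_smul hΓ

@[simp] theorem perMapLin_apply (hΓ : Gamma N ≤ Γ) (f : CuspForm (Γ.map (mapGL ℝ)) 2) :
    perMapLin hΓ f = perMap Γ f := rfl

end PerMap

section Parabolic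

variable {Γ : Subgroup SL(2, ℤ)} {N : ℕ} [NeZero N]

/-- The period of a trace `±2` element vanishes. -/
theorem perMap_apply_eq_zero_of_trace (hΓ : Gamma N ≤ Γ) (f : CuspForm (Γ.map (mapGL ℝ)) 2)
    (γ : Γ) (hγ : ((γ : SL(2, ℤ)) : Matrix (Fin 2) (Fin 2) ℤ).trace ^ 2 = 4) :
    perMap Γ f (Additive.ofMul γ) = 0 := by
  obtain ⟨F, hF⟩ := exists_primitive f hΓ
  obtain ⟨δ, hδ⟩ := Fermat.Agent.S21.helper376.exists_conj_lowerLeft_eq_zero (γ : SL(2, ℤ)) hγ
  obtain ⟨L, hL⟩ := hF.2.2.2 δ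
  set g : SL(2, ℤ) := δ⁻¹ * γ * δ with hg
  have hper : ∀ z : ℍ, F ((γ : SL(2, ℤ)) • z) - F z = perMap Γ f (Additive.ofMul γ) :=
    fun z => (perMap_apply_of_primitive hΓ hF γ z).symm
  have hsmul : ∀ w : ℍ, (γ : SL(2, ℤ)) • (δ • w) = δ • (g • w) := by
    intro w
    rw [hg, ← mul_smul, ← mul_smul]
    congr 1
    group
  have htend : Tendsto (fun w : ℍ => g • w) atImInfty atImInfty := by
    have := UpperHalfPlane.tendsto_smul_atImInfty (g := (g : GL (Fin 2) ℝ)) (by simp [hδ])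
    exact this
  have h1 : Tendsto (fun w : ℍ => F (δ • (g • w))) atImInfty (𝓝 L) := hL.comp htend
  have h2 : Tendsto (fun w : ℍ => F (δ • (g • w)) - F (δ • w)) atImInfty (𝓝 (L - L)) :=
    h1.sub hL
  have h3 : (fun w : ℍ => F (δ • (g • w)) - F (δ • w))
      = fun _ => perMap Γ f (Additive.ofMul γ) := by
    funext w
    rw [← hsmul w]
    exact hper (δ • w)
  rw [h3, sub_self] at h2
  exact tendsto_nhds_unique tendsto_const_nhds h2

/-- **(P3)** the period map takes values in the parabolic homomorphisms. -/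
theorem perMap_mem_parabolicHoms (hΓ : Gamma N ≤ Γ) (f : CuspForm (Γ.map (mapGL ℝ)) 2) :
    perMap Γ f ∈ parabolicHoms ℂ Γ ℂ := by
  rw [mem_parabolicHoms_iff]
  intro γ hγ
  exact perMap_apply_eq_zero_of_trace hΓ f γ hγ

end Parabolic

section Injective

open Function
open scoped ComplexConjugate

local notation "𝕢" => Periodic.qParam

variable {Γ : Subgroup SL(2, ℤ)} {N : ℕ}

open Fermat.Agent.S21.helper81 (expK expK_mdiff expK_bdd tendsto_vadd_atImInfty
  const_of_exp_const)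

/-- The key periodicity: if `K` has constant periods along `Γ ⊇ Γ(N)` and limits at all cusps,
then `K (δ • (N +ᵥ w)) = K (δ • w)`. -/
theorem K_periodic (hΓ : Gamma N ≤ Γ) (K : ℍ → ℂ)
    (hper : ∀ γ : Γ, ∃ c : ℂ, ∀ z : ℍ, K ((γ : SL(2, ℤ)) • z) - K z = c)
    (hlim : ∀ δ : SL(2, ℤ), ∃ L : ℂ, Tendsto (fun w : ℍ => K (δ • w)) atImInfty (𝓝 L))
    (δ : SL(2, ℤ)) (w : ℍ) : K (δ • ((N : ℝ) +ᵥ w)) = K (δ • w) := by
  obtain ⟨c, hc⟩ := hper ⟨_, conj_T_pow_mem hΓ δ⟩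
  obtain ⟨L, hL⟩ := hlim δ
  have key : ∀ w : ℍ, K (δ • ((N : ℝ) +ᵥ w)) - K (δ • w) = c := by
    intro w
    have := hc (δ • w)
    rw [← this]
    congr 2
    simp only
    rw [← mul_smul, inv_mul_cancel_right, mul_smul, modular_T_zpow_smul]
    simp
  have h1 : Tendsto (fun w : ℍ => K (δ • ((N : ℝ) +ᵥ w)) - K (δ • w)) atImInfty (𝓝 (L - L)) :=
    (hL.comp (tendsto_vadd_atImInfty N)).sub hL
  have h2 : Tendsto (fun w : ℍ => K (δ • ((N : ℝ) +ᵥ w)) - K (δ • w)) atImInfty (𝓝 c) := by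
    simp_rw [key]; exact tendsto_const_nhds
  have hc0 : c = 0 := by
    have := tendsto_nhds_unique h2 h1
    simpa using this
  have := key w
  rw [hc0] at this
  exact sub_eq_zero.mp this

theorem expK_periodic (hΓ : Gamma N ≤ Γ) (K : ℍ → ℂ)
    (hper : ∀ γ : Γ, ∃ c : ℂ, ∀ z : ℍ, K ((γ : SL(2, ℤ)) • z) - K z = c)
    (hlim : ∀ δ : SL(2, ℤ), ∃ L : ℂ, Tendsto (fun w : ℍ => K (δ • w)) atImInfty (𝓝 L))
    (δ : SL(2, ℤ)) : Periodic (expK K δ ∘ ofComplex) ((N : ℝ) : ℂ) := by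
  intro w
  by_cases hw : 0 < Complex.im w
  · have hw' : 0 < Complex.im (w + ((N : ℝ) : ℂ)) := by simp [hw]
    simp only [comp_apply, ofComplex_apply_of_im_pos hw', ofComplex_apply_of_im_pos hw]
    have e : (⟨w + ((N : ℝ) : ℂ), hw'⟩ : ℍ) = (N : ℝ) +ᵥ (⟨w, hw⟩ : ℍ) := by
      ext
      simp [add_comm]
    rw [e, expK, expK, K_periodic hΓ K hper hlim δ]
  · have hw1 : Complex.im w ≤ 0 := not_lt.mp hw
    have hw' : Complex.im (w + ((N : ℝ) : ℂ)) ≤ 0 := by simpa using hw1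
    simp only [comp_apply]
    rw [ofComplex_apply_of_im_nonpos hw', ofComplex_apply_of_im_nonpos hw1]

/-- Main lemma: a holomorphic `K` on `ℍ` with constant purely imaginary periods along `Γ ⊇ Γ(N)`
and limits at all cusps has `exp ∘ K` constant. -/
theorem expK_const [NeZero N] (hΓ : Gamma N ≤ Γ) (K : ℍ → ℂ) (hK : MDiff K)
    (hper : ∀ γ : Γ, ∃ c : ℂ, c.re = 0 ∧ ∀ z : ℍ, K ((γ : SL(2, ℤ)) • z) - K z = c)
    (hlim : ∀ δ : SL(2, ℤ), ∃ L : ℂ, Tendsto (fun w : ℍ => K (δ • w)) atImInfty (𝓝 L)) :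
    ∃ C : ℂ, ∀ z : ℍ, Complex.exp (K z) = C := by
  have hfi : Γ.FiniteIndex := finiteIndex_of_Gamma_le hΓ
  have hper' : ∀ γ : Γ, ∃ c : ℂ, ∀ z : ℍ, K ((γ : SL(2, ℤ)) • z) - K z = c :=
    fun γ => let ⟨c, _, hc⟩ := hper γ; ⟨c, hc⟩
  have hN : (0 : ℝ) < (N : ℝ) := by exact_mod_cast Nat.pos_of_ne_zero (NeZero.ne N)
  -- cusp functions
  set φ : SL(2, ℤ) → ℂ → ℂ := fun δ => cuspFunction (N : ℝ) (expK K δ) with hφ
  have hφ_diff : ∀ δ, DifferentiableOn ℂ (φ δ) (Metric.ball 0 1) := fun δ =>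
    differentiableOn_cuspFunction_ball hN (expK_periodic hΓ K hper' hlim δ) (expK_mdiff K hK δ)
      (expK_bdd K δ (hlim δ))
  have hφ_eq : ∀ δ (w : ℍ), φ δ (𝕢 (N : ℝ) w) = expK K δ w := fun δ w =>
    eq_cuspFunction w hN.ne' (expK_periodic hΓ K hper' hlim δ)
  -- norm invariance
  have hnorm : ∀ (γ : Γ) (z : ℍ),
      ‖Complex.exp (K ((γ : SL(2, ℤ)) • z))‖ = ‖Complex.exp (K z)‖ := by
    intro γ z
    obtain ⟨c, hc0, hc⟩ := hper γ
    have : K ((γ : SL(2, ℤ)) • z) = K z + c := by rw [← hc z]; ring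
    rw [this, Complex.norm_exp, Complex.norm_exp, Complex.add_re, hc0, add_zero]
  -- radius
  set r : ℝ := Real.exp (-Real.pi / N) with hr
  have hr0 : 0 ≤ r := (Real.exp_pos _).le
  have hr1 : r < 1 := by
    rw [hr, Real.exp_lt_one_iff]
    exact div_neg_of_neg_of_pos (neg_lt_zero.mpr Real.pi_pos) hN
  -- finite quotient
  have : Finite (SL(2, ℤ) ⧸ Γ) := Subgroup.finite_quotient_of_finiteIndex
  have := Fintype.ofFinite (SL(2, ℤ) ⧸ Γ)
  set rep : SL(2, ℤ) ⧸ Γ → SL(2, ℤ) := fun q => (Quotient.out q)⁻¹ with hrep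
  -- maxima on closed ball
  have hmax : ∀ q : SL(2, ℤ) ⧸ Γ, ∃ x ∈ Metric.closedBall (0 : ℂ) r,
      ∀ y ∈ Metric.closedBall (0 : ℂ) r, ‖φ (rep q) y‖ ≤ ‖φ (rep q) x‖ := by
    intro q
    have hcont : ContinuousOn (fun y => ‖φ (rep q) y‖) (Metric.closedBall (0 : ℂ) r) :=
      ((hφ_diff (rep q)).continuousOn.mono (Metric.closedBall_subset_ball hr1)).norm
    obtain ⟨x, hx, hxmax⟩ :=
      (isCompact_closedBall (0 : ℂ) r).exists_isMaxOn ⟨0, by simp [hr0]⟩ hcont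
    exact ⟨x, hx, fun y hy => hxmax hy⟩
  choose x hx hxmax using hmax
  obtain ⟨q₀, -, hq₀⟩ := Finset.exists_max_image Finset.univ (fun q => ‖φ (rep q) (x q)‖)
    ⟨((1 : SL(2, ℤ)) : SL(2, ℤ) ⧸ Γ), Finset.mem_univ _⟩
  -- global bound
  have hbound : ∀ z : ℍ, ‖Complex.exp (K z)‖ ≤ ‖φ (rep q₀) (x q₀)‖ := by
    intro z
    obtain ⟨g, hg⟩ := ModularGroup.exists_one_half_le_im_smul z
    obtain ⟨h, hh⟩ := QuotientGroup.mk_out_eq_mul Γ g
    have hz : z = ((h : SL(2, ℤ))) • (rep (g : SL(2, ℤ) ⧸ Γ) • (g • z)) := by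
      rw [hrep]
      simp only
      rw [hh, ← mul_smul, ← mul_smul]
      simp
    have hq : 𝕢 (N : ℝ) ((g • z : ℍ) : ℂ) ∈ Metric.closedBall (0 : ℂ) r := by
      rw [mem_closedBall_zero_iff, Periodic.norm_qParam, hr]
      apply Real.exp_le_exp.mpr
      rw [div_le_div_iff_of_pos_right hN]
      have : (1 : ℝ) / 2 ≤ ((g • z : ℍ) : ℂ).im := hg
      nlinarith [Real.pi_pos]
    calc ‖Complex.exp (K z)‖
        = ‖Complex.exp (K (rep (g : SL(2, ℤ) ⧸ Γ) • (g • z)))‖ := by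
          conv_lhs => rw [hz]
          exact hnorm h _
      _ = ‖φ (rep (g : SL(2, ℤ) ⧸ Γ)) (𝕢 (N : ℝ) ((g • z : ℍ) : ℂ))‖ := by
          rw [hφ_eq]; rfl
      _ ≤ ‖φ (rep (g : SL(2, ℤ) ⧸ Γ)) (x _)‖ := hxmax _ _ hq
      _ ≤ ‖φ (rep q₀) (x q₀)‖ := hq₀ _ (Finset.mem_univ _)
  -- apply the maximum principle to `φ (rep q₀)`
  have hconst : Set.EqOn (φ (rep q₀)) (Function.const ℂ (φ (rep q₀) 0)) (Metric.ball 0 1) := by
    refine Complex.eq_const_of_exists_le (hφ_diff (rep q₀)) hr0 hr1 (fun z hz => ?_)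
    rcases eq_or_ne z 0 with rfl | hz0
    · exact ⟨0, by simp [hr0], le_rfl⟩
    · refine ⟨x q₀, hx q₀, ?_⟩
      have him : 0 < (Periodic.invQParam (N : ℝ) z).im :=
        Periodic.im_invQParam_pos_of_norm_lt_one hN (mem_ball_zero_iff.mp hz) hz0
      have e : φ (rep q₀) z = expK K (rep q₀) ⟨_, him⟩ := by
        rw [← hφ_eq]
        congr 1
        exact (Periodic.qParam_right_inv hN.ne' hz0).symm
      rw [e]
      exact hbound _
  refine ⟨φ (rep q₀) 0, fun z => ?_⟩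
  have hz : z = rep q₀ • ((rep q₀)⁻¹ • z) := by rw [← mul_smul]; simp
  have hb : 𝕢 (N : ℝ) (((rep q₀)⁻¹ • z : ℍ) : ℂ) ∈ Metric.ball (0 : ℂ) 1 := by
    rw [mem_ball_zero_iff]
    exact Periodic.norm_qParam_lt_one hN (UpperHalfPlane.im_pos _)
  have := hconst hb
  rw [hφ_eq] at this
  conv_lhs => rw [hz]
  exact this

/-- A holomorphic `K` on `ℍ` with constant purely imaginary periods along `Γ ⊇ Γ(N)` and limits
at all cusps is constant. -/
theorem const_of_re_invariant [NeZero N] (hΓ : Gamma N ≤ Γ) (K : ℍ → ℂ) (hK : MDiff K)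
    (hper : ∀ γ : Γ, ∃ c : ℂ, c.re = 0 ∧ ∀ z : ℍ, K ((γ : SL(2, ℤ)) • z) - K z = c)
    (hlim : ∀ δ : SL(2, ℤ), ∃ L : ℂ, Tendsto (fun w : ℍ => K (δ • w)) atImInfty (𝓝 L)) :
    ∀ z w : ℍ, K z = K w := by
  obtain ⟨C, hC⟩ := expK_const hΓ K hK hper hlim
  exact const_of_exp_const K hK C hC

variable [NeZero N]

theorem mdiff_of_primitive {f F : ℍ → ℂ} (hF : HasPrimitive Γ f F) : MDiff F :=
  fun τ => UpperHalfPlane.mdifferentiableAt_iff.mpr (hF.1 τ).differentiableAt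

theorem eq_zero_of_const (f : CuspForm (Γ.map (mapGL ℝ)) 2) (F : ℍ → ℂ)
    (hF : HasPrimitive Γ f F) (hconst : ∀ z w : ℍ, F z = F w) : f = 0 := by
  ext τ
  have h1 := hF.1 τ
  have h2 : (F ∘ ofComplex) = fun _ => F UpperHalfPlane.I := by
    funext y; exact hconst _ _
  rw [h2] at h1
  have := h1.unique (hasDerivAt_const _ _)
  simpa using this

/-- **(P4), strong form**: a weight-two cusp form on `Γ ⊇ Γ(N)` all of whose periods are purely
imaginary vanishes. -/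
theorem eq_zero_of_perMap_re_eq_zero (hΓ : Gamma N ≤ Γ) (f : CuspForm (Γ.map (mapGL ℝ)) 2)
    (h : ∀ γ : Γ, (perMap Γ f (Additive.ofMul γ)).re = 0) : f = 0 := by
  obtain ⟨F, hF⟩ := exists_primitive f hΓ
  apply eq_zero_of_const f F hF
  apply const_of_re_invariant hΓ F (mdiff_of_primitive hF)
  · intro γ
    exact ⟨perMap Γ f (Additive.ofMul γ), h γ,
      fun z => (perMap_apply_of_primitive hΓ hF γ z).symm⟩
  · exact hF.2.2.2

/-- **(P4)** the period map is injective: a weight-two cusp form on `Γ ⊇ Γ(N)` with vanishing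
periods is zero. -/
theorem eq_zero_of_perMap_eq_zero (hΓ : Gamma N ≤ Γ) (f : CuspForm (Γ.map (mapGL ℝ)) 2)
    (h : perMap Γ f = 0) : f = 0 :=
  eq_zero_of_perMap_re_eq_zero hΓ f fun γ => by rw [h]; rfl

theorem perMapLin_injective (hΓ : Gamma N ≤ Γ) : Function.Injective (perMapLin hΓ) := by
  rw [injective_iff_map_eq_zero]
  intro f hf
  exact eq_zero_of_perMap_eq_zero hΓ f hf

end Injective

section Equivariance

variable {Γ : Subgroup SL(2, ℤ)} {N : ℕ} [NeZero N]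

open Fermat.Agent.S16.helper262 (hasDerivAt_comp_glsmul)

/-- **(P6), rep-agnostic form.**  If `β x ∘ γ = g x ∘ β (s x)` as Möbius maps for a permutation
`s`, and `f' = ∑ x, f ∣[2] β x`, then `perMap Γ f' γ = ∑ x, perMap Γ f (g x)`. -/
theorem perMap_eq_sum_of_reps (hΓ : Gamma N ≤ Γ) {X : Type*} [Fintype X]
    (β : X → GL (Fin 2) ℝ) (hβ : ∀ x, 0 < (β x).det.val)
    (s : Equiv.Perm X) (γ : Γ) (g : X → Γ)
    (hrel : ∀ (x : X) (z : ℍ),
      β x • ((γ : SL(2, ℤ)) • z) = ((g x : Γ) : SL(2, ℤ)) • (β (s x) • z))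
    (f f' : CuspForm (Γ.map (mapGL ℝ)) 2)
    (hf' : ∀ τ : ℍ, f' τ = ∑ x, ((f : ℍ → ℂ) ∣[(2 : ℤ)] (β x)) τ) :
    perMap Γ f' (Additive.ofMul γ) = ∑ x, perMap Γ f (Additive.ofMul (g x)) := by
  obtain ⟨F, hF⟩ := exists_primitive f hΓ
  have hD : ∀ τ : ℍ, HasDerivAt ((fun w : ℍ => ∑ x, F (β x • w)) ∘ ofComplex) (f' τ)
      (τ : ℂ) := by
    intro τ
    have h1 : HasDerivAt (fun z : ℂ => ∑ x, ((fun w : ℍ => F (β x • w)) ∘ ofComplex) z)
        (∑ x, ((f : ℍ → ℂ) ∣[(2 : ℤ)] β x) τ) (τ : ℂ) :=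
      HasDerivAt.fun_sum fun x _ => hasDerivAt_comp_glsmul hF.1 (β x) (hβ x) τ
    rw [← hf' τ] at h1
    exact h1
  rw [perMap_apply_of_hasDerivAt hΓ f' hD γ UpperHalfPlane.I]
  have h6 : ∑ x, F (β x • UpperHalfPlane.I) = ∑ x, F (β (s x) • UpperHalfPlane.I) :=
    (Equiv.sum_comp s (fun x => F (β x • UpperHalfPlane.I))).symm
  have h7 : ∀ x, F (β x • ((γ : SL(2, ℤ)) • UpperHalfPlane.I)) - F (β (s x) • UpperHalfPlane.I)
      = perMap Γ f (Additive.ofMul (g x)) := by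
    intro x
    rw [hrel x UpperHalfPlane.I, perMap_apply_of_primitive hΓ hF (g x)]
  rw [h6, ← Finset.sum_sub_distrib]
  exact Finset.sum_congr rfl fun x _ => h7 x

/-- **(P6), matrix form**: the coset relation is an identity in `GL(2, ℝ)` and `s` is any
bijection. -/
theorem perMap_eq_sum_of_reps_mul (hΓ : Gamma N ≤ Γ) {X : Type*} [Fintype X]
    (β : X → GL (Fin 2) ℝ) (hβ : ∀ x, 0 < (β x).det.val)
    (s : X → X) (hs : Function.Bijective s) (γ : Γ) (g : X → Γ)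
    (hrel : ∀ x, β x * mapGL ℝ (γ : SL(2, ℤ)) = mapGL ℝ ((g x : Γ) : SL(2, ℤ)) * β (s x))
    (f f' : CuspForm (Γ.map (mapGL ℝ)) 2)
    (hf' : (f' : ℍ → ℂ) = ∑ x, (f : ℍ → ℂ) ∣[(2 : ℤ)] (β x)) :
    perMap Γ f' (Additive.ofMul γ) = ∑ x, perMap Γ f (Additive.ofMul (g x)) := by
  refine perMap_eq_sum_of_reps hΓ β hβ (Equiv.ofBijective s hs) γ g (fun x z => ?_) f f'
    (fun τ => ?_)
  · have h1 : ((γ : SL(2, ℤ)) • z : ℍ) = mapGL ℝ (γ : SL(2, ℤ)) • z := rfl
    have h2 : (((g x : Γ) : SL(2, ℤ)) • (β (s x) • z) : ℍ)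
        = mapGL ℝ ((g x : Γ) : SL(2, ℤ)) • (β (s x) • z) := rfl
    rw [Equiv.ofBijective_apply, h1, h2, ← mul_smul, ← mul_smul, hrel x]
  · rw [hf', Finset.sum_apply]

open Fermat.Agent.S16.helper2138 (Corr)

/-- **(P6), correspondence form**: if `f'` is the coset sum `∑ i, f ∣[2] C.α i` of an abstract
Hecke correspondence `C` on `Γ` (landed S16 `helper2138.Corr`), then the period map of `f'` is the
coset transfer `C.op` of the period map of `f`. -/
theorem perMap_eq_op (hΓ : Gamma N ≤ Γ) {ι : Type} [Fintype ι] (C : Corr Γ ι)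
    (hpos : ∀ i, 0 < (C.α i).det.val) (f f' : CuspForm (Γ.map (mapGL ℝ)) 2)
    (hf' : (f' : ℍ → ℂ) = ∑ i, (f : ℍ → ℂ) ∣[(2 : ℤ)] (C.α i)) :
    perMap Γ f' = C.op ℂ (perMap Γ f) := by
  refine AddMonoidHom.ext fun γ' => ?_
  obtain ⟨γ, rfl⟩ := Additive.ofMul.surjective γ'
  rw [Corr.op_apply]
  exact perMap_eq_sum_of_reps_mul hΓ C.α hpos (C.σ γ) (C.σEquiv γ).bijective γ
    (fun i => C.g i γ) (fun i => C.rel i γ) f f' hf'

end Equivariance

section Lattice

variable {Γ : Subgroup SL(2, ℤ)} {N : ℕ} [NeZero N] (hΓ : Gamma N ≤ Γ)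

/-- The period functional `f ↦ perMap Γ f γ` on weight-two cusp forms. -/
noncomputable def perFun (γ : Γ) : CuspForm (Γ.map (mapGL ℝ)) 2 →ₗ[ℂ] ℂ where
  toFun f := perMap Γ f (Additive.ofMul γ)
  map_add' f g := by rw [perMap_add hΓ]; rfl
  map_smul' c f := by rw [perMap_smul hΓ]; rfl

@[simp] theorem perFun_apply (γ : Γ) (f : CuspForm (Γ.map (mapGL ℝ)) 2) :
    perFun hΓ γ f = perMap Γ f (Additive.ofMul γ) := rfl

theorem perFun_mul (γ δ : Γ) : perFun hΓ (γ * δ) = perFun hΓ γ + perFun hΓ δ := by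
  ext f
  simp only [perFun_apply, LinearMap.add_apply, ofMul_mul, map_add]

theorem perFun_one : perFun hΓ (1 : Γ) = 0 := by
  ext f
  simp only [perFun_apply, ofMul_one, map_zero, LinearMap.zero_apply]

theorem perFun_inv (γ : Γ) : perFun hΓ γ⁻¹ = -perFun hΓ γ := by
  ext f
  simp only [perFun_apply, ofMul_inv, map_neg, LinearMap.neg_apply]

/-- The period functional of a trace `±2` element vanishes. -/
theorem perFun_eq_zero_of_trace (γ : Γ)
    (hγ : ((γ : SL(2, ℤ)) : Matrix (Fin 2) (Fin 2) ℤ).trace ^ 2 = 4) : perFun hΓ γ = 0 := by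
  ext f
  exact perMap_apply_eq_zero_of_trace hΓ f γ hγ

/-- **(P5)** the period lattice: the `ℤ`-span of the period functionals. -/
noncomputable def perLattice : Submodule ℤ (CuspForm (Γ.map (mapGL ℝ)) 2 →ₗ[ℂ] ℂ) :=
  Submodule.span ℤ (Set.range (perFun hΓ))

theorem perFun_mem_perLattice (γ : Γ) : perFun hΓ γ ∈ perLattice hΓ :=
  Submodule.subset_span ⟨γ, rfl⟩

/-- The period lattice is finitely generated, because `Γ` is. -/
theorem perLattice_fg : (perLattice hΓ).FG := by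
  classical
  have hfi : Γ.FiniteIndex := finiteIndex_of_Gamma_le hΓ
  obtain ⟨S, hS⟩ := Group.fg_def.mp (Fermat.Agent.S21.helper2438.fg_of_finiteIndex Γ)
  have key : ∀ γ ∈ Subgroup.closure (S : Set Γ),
      perFun hΓ γ ∈ Submodule.span ℤ (perFun hΓ '' (S : Set Γ)) := by
    intro γ hγ
    induction hγ using Subgroup.closure_induction with
    | mem x hx => exact Submodule.subset_span ⟨x, hx, rfl⟩
    | one => rw [perFun_one]; exact Submodule.zero_mem _
    | mul x y _ _ hx hy => rw [perFun_mul]; exact Submodule.add_mem _ hx hy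
    | inv x _ hx => rw [perFun_inv]; exact Submodule.neg_mem _ hx
  have h : perLattice hΓ = Submodule.span ℤ (perFun hΓ '' (S : Set Γ)) := by
    apply le_antisymm
    · refine Submodule.span_le.mpr ?_
      rintro _ ⟨γ, rfl⟩
      exact key γ (by rw [hS]; trivial)
    · exact Submodule.span_mono (Set.image_subset_range _ _)
  rw [h]
  exact Submodule.fg_span ((S.finite_toSet).image _)

/-- The period lattice separates cusp forms (injectivity of the period map). -/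
theorem perLattice_sep (f : CuspForm (Γ.map (mapGL ℝ)) 2)
    (h : ∀ φ ∈ perLattice hΓ, φ f = 0) : f = 0 := by
  apply eq_zero_of_perMap_eq_zero hΓ f
  refine AddMonoidHom.ext fun γ => ?_
  exact h _ (perFun_mem_perLattice hΓ (Additive.toMul γ))

/-- Transposition by an operator which maps the generators into the lattice preserves the
lattice. -/
theorem perLattice_comp_mem_of_gen {T : Module.End ℂ (CuspForm (Γ.map (mapGL ℝ)) 2)}
    (hT : ∀ γ : Γ, perFun hΓ γ ∘ₗ T ∈ perLattice hΓ)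
    {φ : CuspForm (Γ.map (mapGL ℝ)) 2 →ₗ[ℂ] ℂ} (hφ : φ ∈ perLattice hΓ) :
    φ ∘ₗ T ∈ perLattice hΓ := by
  have hle : perLattice hΓ ≤ Submodule.comap
      ((LinearMap.lcomp ℤ ℂ T).restrictScalars ℤ) (perLattice hΓ) := by
    refine Submodule.span_le.mpr ?_
    rintro _ ⟨γ, rfl⟩
    exact hT γ
  exact hle hφ

/-- The period lattice is stable under transposition by the `ℤ`-algebra generated by a set of
operators each of which maps the generators into the lattice. -/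
theorem perLattice_comp_mem_adjoin {G : Set (Module.End ℂ (CuspForm (Γ.map (mapGL ℝ)) 2))}
    (hG : ∀ T ∈ G, ∀ γ : Γ, perFun hΓ γ ∘ₗ T ∈ perLattice hΓ)
    {T : Module.End ℂ (CuspForm (Γ.map (mapGL ℝ)) 2)} (hT : T ∈ Algebra.adjoin ℤ G)
    {φ : CuspForm (Γ.map (mapGL ℝ)) 2 →ₗ[ℂ] ℂ} (hφ : φ ∈ perLattice hΓ) :
    φ ∘ₗ T ∈ perLattice hΓ := by
  induction hT using Algebra.adjoin_induction generalizing φ with
  | mem x hx => exact perLattice_comp_mem_of_gen hΓ (hG x hx) hφ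
  | algebraMap r =>
    have h : φ ∘ₗ (algebraMap ℤ (Module.End ℂ (CuspForm (Γ.map (mapGL ℝ)) 2)) r) = r • φ := by
      ext f
      simp
    rw [h]
    exact Submodule.smul_mem _ r hφ
  | add x y _ _ hx hy =>
    rw [LinearMap.comp_add]
    exact Submodule.add_mem _ (hx hφ) (hy hφ)
  | mul x y _ _ hx hy =>
    rw [Module.End.mul_eq_comp, ← LinearMap.comp_assoc]
    exact hy (hx hφ)

open Fermat.Agent.S16.helper2138 (Corr)

/-- An operator given by the coset sum of a correspondence transposes the period functionals by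
the coset transfer. -/
theorem perFun_comp_of_corr {ι : Type} [Fintype ι] (C : Corr Γ ι)
    (hpos : ∀ i, 0 < (C.α i).det.val) (T : Module.End ℂ (CuspForm (Γ.map (mapGL ℝ)) 2))
    (hT : ∀ f : CuspForm (Γ.map (mapGL ℝ)) 2,
      ((T f : CuspForm (Γ.map (mapGL ℝ)) 2) : ℍ → ℂ) = ∑ i, (f : ℍ → ℂ) ∣[(2 : ℤ)] (C.α i))
    (γ : Γ) : perFun hΓ γ ∘ₗ T = ∑ i, perFun hΓ (C.g i γ) := by
  ext f
  rw [LinearMap.comp_apply, perFun_apply, LinearMap.sum_apply,
    perMap_eq_op hΓ C hpos f (T f) (hT f), Corr.op_apply]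
  rfl

theorem perFun_comp_of_corr_mem {ι : Type} [Fintype ι] (C : Corr Γ ι)
    (hpos : ∀ i, 0 < (C.α i).det.val) (T : Module.End ℂ (CuspForm (Γ.map (mapGL ℝ)) 2))
    (hT : ∀ f : CuspForm (Γ.map (mapGL ℝ)) 2,
      ((T f : CuspForm (Γ.map (mapGL ℝ)) 2) : ℍ → ℂ) = ∑ i, (f : ℍ → ℂ) ∣[(2 : ℤ)] (C.α i))
    (γ : Γ) : perFun hΓ γ ∘ₗ T ∈ perLattice hΓ := by
  rw [perFun_comp_of_corr hΓ C hpos T hT γ]
  exact Submodule.sum_mem _ fun i _ => perFun_mem_perLattice hΓ _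

/-- The tautological homomorphism `Γ → perLattice`, `γ ↦ (f ↦ perMap Γ f γ)`. -/
noncomputable def perHom : Additive Γ →+ perLattice hΓ where
  toFun γ := ⟨perFun hΓ (Additive.toMul γ), perFun_mem_perLattice hΓ _⟩
  map_zero' := Subtype.ext (perFun_one hΓ)
  map_add' _ _ := Subtype.ext (perFun_mul hΓ _ _)

@[simp] theorem coe_perHom (γ : Γ) :
    ((perHom hΓ (Additive.ofMul γ) : perLattice hΓ) : CuspForm (Γ.map (mapGL ℝ)) 2 →ₗ[ℂ] ℂ)
      = perFun hΓ γ := rfl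

/-- `perHom` kills trace `±2` elements. -/
theorem perHom_eq_zero_of_trace (γ : Γ)
    (hγ : ((γ : SL(2, ℤ)) : Matrix (Fin 2) (Fin 2) ℤ).trace ^ 2 = 4) :
    perHom hΓ (Additive.ofMul γ) = 0 :=
  Subtype.ext (perFun_eq_zero_of_trace hΓ γ hγ)

/-- Every element of the period lattice is a period functional `perHom γ`. -/
theorem exists_perHom_eq (y : perLattice hΓ) : ∃ γ : Additive Γ, perHom hΓ γ = y := by
  have key : ∀ φ ∈ perLattice hΓ, ∃ γ : Additive Γ,
      ((perHom hΓ γ : perLattice hΓ) : CuspForm (Γ.map (mapGL ℝ)) 2 →ₗ[ℂ] ℂ) = φ := by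
    intro φ hφ
    induction hφ using Submodule.span_induction with
    | mem x hx =>
      obtain ⟨γ, rfl⟩ := hx
      exact ⟨Additive.ofMul γ, rfl⟩
    | zero => exact ⟨0, by rw [map_zero]; rfl⟩
    | add x y _ _ hx hy =>
      obtain ⟨a, ha⟩ := hx
      obtain ⟨b, hb⟩ := hy
      exact ⟨a + b, by rw [map_add, Submodule.coe_add, ha, hb]⟩
    | smul n x _ hx =>
      obtain ⟨a, ha⟩ := hx
      exact ⟨n • a, by rw [map_zsmul, Submodule.coe_smul, ha]⟩
  obtain ⟨γ, hγ⟩ := key y y.2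
  exact ⟨γ, Subtype.ext hγ⟩

/-- A nonzero additive functional on the period lattice restricts to a nonzero character of
`Γ`. -/
theorem comp_perHom_ne_zero {B : Type*} [AddCommGroup B] (w : perLattice hΓ →+ B) (hw : w ≠ 0) :
    w.comp (perHom hΓ) ≠ 0 := by
  intro h0
  apply hw
  refine AddMonoidHom.ext fun φ => ?_
  obtain ⟨γ, rfl⟩ := exists_perHom_eq hΓ φ
  exact DFunLike.congr_fun h0 γ

/-- Every character of `Γ` that factors through the period lattice is a linear combination of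
INTEGRAL parabolic homomorphisms. -/
theorem exists_integral_decomp {κ : Type*} [Ring κ] (w : perLattice hΓ →+ κ) :
    ∃ (n : ℕ) (lam : Fin n → Additive Γ →+ ℤ) (k : Fin n → κ),
      (∀ i, lam i ∈ parabolicHoms ℤ Γ ℤ) ∧
        w.comp (perHom hΓ) = ∑ i, k i • (Int.castAddHom κ).comp (lam i) := by
  classical
  have : Module.Finite ℤ (perLattice hΓ) := Module.Finite.iff_fg.2 (perLattice_fg hΓ)
  have : Module.Free ℤ (perLattice hΓ) := inferInstance
  let b := Module.finBasis ℤ (perLattice hΓ)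
  refine ⟨_, fun i => (b.coord i).toAddMonoidHom.comp (perHom hΓ), fun i => w (b i), ?_, ?_⟩
  · intro i γ hγ
    show b.coord i (perHom hΓ (Additive.ofMul γ)) = 0
    rw [perHom_eq_zero_of_trace hΓ γ hγ, map_zero]
  · refine AddMonoidHom.ext fun γ => ?_
    rw [AddMonoidHom.comp_apply, AddMonoidHom.finsetSum_apply]
    conv_lhs => rw [← b.sum_repr (perHom hΓ γ)]
    rw [map_sum]
    refine Finset.sum_congr rfl fun i _ => ?_
    rw [map_zsmul, zsmul_eq_mul]
    simp only [AddMonoidHom.smul_apply, AddMonoidHom.comp_apply, Int.coe_castAddHom,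
      LinearMap.toAddMonoidHom_coe, Module.Basis.coord_apply, smul_eq_mul]
    exact (Int.cast_commute _ _).eq

end Lattice

section Occurrence

open Fermat.Agent.S16.helper2138 (Corr)

/-- A `ℤ`-algebra of operators on a complex vector space which stabilises (by transposition) a
finitely generated separating `ℤ`-lattice of functionals is a finite `ℤ`-module. -/
theorem finite_of_stable_lattice {V : Type*} [AddCommGroup V] [Module ℂ V]
    (A : Subalgebra ℤ (Module.End ℂ V)) (L : Submodule ℤ (V →ₗ[ℂ] ℂ)) (hLfg : L.FG)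
    (hsep : ∀ v : V, (∀ φ ∈ L, φ v = 0) → v = 0)
    (hstab : ∀ T ∈ A, ∀ φ ∈ L, φ ∘ₗ T ∈ L) : Module.Finite ℤ A := by
  have hfin : Module.Finite ℤ L := Module.Finite.iff_fg.2 hLfg
  have hfree : Module.Free ℤ L := inferInstance
  have hfin2 : Module.Finite ℤ (L →ₗ[ℤ] L) := Module.Finite.linearMap ℤ ℤ L L
  let ρ : A →ₗ[ℤ] (L →ₗ[ℤ] L) :=
    { toFun := fun T =>
        { toFun := fun φ => ⟨(φ : V →ₗ[ℂ] ℂ) ∘ₗ (T : Module.End ℂ V), hstab T T.2 φ φ.2⟩
          map_add' := fun φ φ' => by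
            apply Subtype.ext
            simp [LinearMap.add_comp]
          map_smul' := fun n φ => by
            apply Subtype.ext
            ext x
            simp }
      map_add' := fun S T => by
        ext φ : 1
        apply Subtype.ext
        simp [LinearMap.comp_add]
      map_smul' := fun n T => by
        ext φ : 1
        apply Subtype.ext
        ext x
        simp }
  have hρ : ∀ (T : A) (φ : L), ((ρ T φ : L) : V →ₗ[ℂ] ℂ) =
      (φ : V →ₗ[ℂ] ℂ) ∘ₗ (T : Module.End ℂ V) := fun _ _ => rfl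
  have hinj : Function.Injective ρ := by
    intro S T hST
    apply Subtype.ext
    ext v
    rw [← sub_eq_zero]
    apply hsep
    intro φ hφ
    have h1 := congrArg (fun F : L →ₗ[ℤ] L => ((F ⟨φ, hφ⟩ : L) : V →ₗ[ℂ] ℂ) v) hST
    simp only [hρ, LinearMap.comp_apply] at h1
    rw [map_sub, h1, sub_self]
  exact Module.Finite.of_injective ρ hinj

variable {Γ : Subgroup SL(2, ℤ)} {N : ℕ} [NeZero N] (hΓ : Gamma N ≤ Γ)

/-- A commutative-or-not `ℤ`-algebra of operators on `S₂(Γ)` which stabilises the period lattice is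
a finite `ℤ`-module. -/
theorem finite_of_stable_perLattice
    (A : Subalgebra ℤ (Module.End ℂ (CuspForm (Γ.map (mapGL ℝ)) 2)))
    (hstab : ∀ T ∈ A, ∀ φ ∈ perLattice hΓ, φ ∘ₗ T ∈ perLattice hΓ) : Module.Finite ℤ A :=
  finite_of_stable_lattice A (perLattice hΓ) (perLattice_fg hΓ) (perLattice_sep hΓ) hstab

/-- Eigenvalues of operators stabilising the period lattice are algebraic integers. -/
theorem isIntegral_of_stable_perLattice
    (A : Subalgebra ℤ (Module.End ℂ (CuspForm (Γ.map (mapGL ℝ)) 2)))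
    (hstab : ∀ T ∈ A, ∀ φ ∈ perLattice hΓ, φ ∘ₗ T ∈ perLattice hΓ)
    {g : CuspForm (Γ.map (mapGL ℝ)) 2} (hg : g ≠ 0) (hev : ∀ T ∈ A, ∃ c : ℂ, T g = c • g)
    {T : Module.End ℂ (CuspForm (Γ.map (mapGL ℝ)) 2)} (hT : T ∈ A) {c : ℂ} (hc : T g = c • g) :
    IsIntegral ℤ c := by
  have hfin : Module.Finite ℤ A := finite_of_stable_perLattice hΓ A hstab
  have h := Fermat.Agent.S29.helper5875.isIntegral_eigenCharacter A g hg hev ⟨T, hT⟩
  rwa [Fermat.Agent.S29.helper5875.eigenCharacter_eq A g hg hev ⟨T, hT⟩ hc] at h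

/-- **Eigen-functional on the period lattice of `Γ ⊇ Γ(N)`**: for a commutative `ℤ`-algebra `A`
of operators on `S₂(Γ)` stabilising the period lattice, a common eigenvector `g ≠ 0`, and a ring
homomorphism `ψ` from the algebraic integers to a field `κ`, there is a nonzero additive
functional `w` on the period lattice with `w (φ ∘ T) = ψ a * w φ` whenever `T g = a • g`. -/
theorem exists_eigen_functional
    (A : Subalgebra ℤ (Module.End ℂ (CuspForm (Γ.map (mapGL ℝ)) 2)))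
    (hcomm : ∀ S T : A, S * T = T * S)
    (hstab : ∀ T ∈ A, ∀ φ ∈ perLattice hΓ, φ ∘ₗ T ∈ perLattice hΓ)
    (g : CuspForm (Γ.map (mapGL ℝ)) 2) (hg : g ≠ 0) (hev : ∀ T ∈ A, ∃ c : ℂ, T g = c • g)
    {κ : Type*} [Field κ] (ψ : integralClosure ℤ ℂ →+* κ) :
    ∃ w : perLattice hΓ →+ κ, w ≠ 0 ∧
      ∀ (T : Module.End ℂ (CuspForm (Γ.map (mapGL ℝ)) 2)) (hT : T ∈ A)
        (a : integralClosure ℤ ℂ), T g = (a : ℂ) • g →
        ∀ (φ : CuspForm (Γ.map (mapGL ℝ)) 2 →ₗ[ℂ] ℂ) (hφ : φ ∈ perLattice hΓ),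
          w ⟨φ ∘ₗ T, hstab T hT φ hφ⟩ = ψ a * w ⟨φ, hφ⟩ := by
  have hfin : Module.Finite ℤ A := finite_of_stable_perLattice hΓ A hstab
  exact Fermat.Agent.S29.helper5875.exists_eigen_functional_of_lattice A hcomm (perLattice hΓ)
    (perLattice_fg hΓ) (perLattice_sep hΓ) hstab g hg hev ψ

/-- **Occurrence of an eigensystem in `Hom_par(Γ, κ)`** (generic-`Γ` form of
`S29.helper5875.exists_eigen_parabolicHom`).  Let `Γ ⊇ Γ(N)`, `A` a commutative `ℤ`-algebra of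
operators on `S₂(Γ)` stabilising the period lattice, `g ≠ 0` a common eigenvector, `κ` any field
and `ψ` a ring homomorphism from the algebraic integers to `κ`.  Then there is a NONZERO additive
character `c : Γ → κ`, a `κ`-linear combination of INTEGRAL parabolic homomorphisms, such that for
every `T ∈ A` which is the coset sum of a correspondence `C` and has eigenvalue `a` on `g`,
the coset transfer satisfies `C.op κ c = ψ a • c`. -/
theorem exists_eigen_parabolicHom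
    (A : Subalgebra ℤ (Module.End ℂ (CuspForm (Γ.map (mapGL ℝ)) 2)))
    (hcomm : ∀ S T : A, S * T = T * S)
    (hstab : ∀ T ∈ A, ∀ φ ∈ perLattice hΓ, φ ∘ₗ T ∈ perLattice hΓ)
    (g : CuspForm (Γ.map (mapGL ℝ)) 2) (hg : g ≠ 0) (hev : ∀ T ∈ A, ∃ c : ℂ, T g = c • g)
    {κ : Type*} [Field κ] (ψ : integralClosure ℤ ℂ →+* κ) :
    ∃ c : Additive Γ →+ κ, c ≠ 0 ∧
      (∃ (n : ℕ) (lam : Fin n → Additive Γ →+ ℤ) (k : Fin n → κ),
        (∀ i, lam i ∈ parabolicHoms ℤ Γ ℤ) ∧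
          c = ∑ i, k i • (Int.castAddHom κ).comp (lam i)) ∧
      ∀ {ι : Type} [Fintype ι] (C : Corr Γ ι) (_hpos : ∀ i, 0 < (C.α i).det.val)
        (T : Module.End ℂ (CuspForm (Γ.map (mapGL ℝ)) 2)) (_hT : T ∈ A)
        (_hTC : ∀ f : CuspForm (Γ.map (mapGL ℝ)) 2,
          ((T f : CuspForm (Γ.map (mapGL ℝ)) 2) : ℍ → ℂ) = ∑ i, (f : ℍ → ℂ) ∣[(2 : ℤ)] (C.α i))
        (a : integralClosure ℤ ℂ), T g = (a : ℂ) • g → C.op κ c = ψ a • c := by
  obtain ⟨w, hw0, hw⟩ := exists_eigen_functional hΓ A hcomm hstab g hg hev ψ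
  refine ⟨w.comp (perHom hΓ), comp_perHom_ne_zero hΓ w hw0, exists_integral_decomp hΓ w, ?_⟩
  intro ι _ C hpos T hT hTC a ha
  refine AddMonoidHom.ext fun γ' => ?_
  obtain ⟨γ, rfl⟩ := Additive.ofMul.surjective γ'
  rw [Corr.op_apply]
  have h1 := hw T hT a ha (perFun hΓ γ) (perFun_mem_perLattice hΓ γ)
  have h2 : ∀ (h : perFun hΓ γ ∘ₗ T ∈ perLattice hΓ),
      w ⟨_, h⟩ = ∑ i, w (perHom hΓ (Additive.ofMul (C.g i γ))) := by
    intro h
    rw [← map_sum]
    congr 1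
    apply Subtype.ext
    rw [AddSubmonoidClass.coe_finsetSum]
    exact perFun_comp_of_corr hΓ C hpos T hTC γ
  rw [h2] at h1
  exact h1

/-! ### Adapters for the occurrence assembly (generic-`Γ` forms of `S29.helper1590_OccJZero`) -/

/-- Transposition by an operator stabilising the period lattice, as an endomorphism of the
lattice: `φ ↦ φ ∘ T`. -/
noncomputable def perTrans (T : Module.End ℂ (CuspForm (Γ.map (mapGL ℝ)) 2))
    (hT : ∀ γ : Γ, perFun hΓ γ ∘ₗ T ∈ perLattice hΓ) : Module.End ℤ (perLattice hΓ) where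
  toFun φ := ⟨(φ : CuspForm (Γ.map (mapGL ℝ)) 2 →ₗ[ℂ] ℂ) ∘ₗ T,
    perLattice_comp_mem_of_gen hΓ hT φ.2⟩
  map_add' φ φ' := by
    apply Subtype.ext
    simp [LinearMap.add_comp]
  map_smul' n φ := by
    apply Subtype.ext
    ext x
    simp

theorem coe_perTrans (T : Module.End ℂ (CuspForm (Γ.map (mapGL ℝ)) 2))
    (hT : ∀ γ : Γ, perFun hΓ γ ∘ₗ T ∈ perLattice hΓ) (φ : perLattice hΓ) :
    ((perTrans hΓ T hT φ : perLattice hΓ) : CuspForm (Γ.map (mapGL ℝ)) 2 →ₗ[ℂ] ℂ) =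
      (φ : CuspForm (Γ.map (mapGL ℝ)) 2 →ₗ[ℂ] ℂ) ∘ₗ T := rfl

/-- Transposition of a period functional by a coset-sum operator is the coset transfer. -/
theorem perTrans_perHom {ι : Type} [Fintype ι] (C : Corr Γ ι)
    (hpos : ∀ i, 0 < (C.α i).det.val) (T : Module.End ℂ (CuspForm (Γ.map (mapGL ℝ)) 2))
    (hTC : ∀ f : CuspForm (Γ.map (mapGL ℝ)) 2,
      ((T f : CuspForm (Γ.map (mapGL ℝ)) 2) : ℍ → ℂ) = ∑ i, (f : ℍ → ℂ) ∣[(2 : ℤ)] (C.α i))
    (γ : Γ) :
    perTrans hΓ T (perFun_comp_of_corr_mem hΓ C hpos T hTC) (perHom hΓ (Additive.ofMul γ)) =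
      ∑ i, perHom hΓ (Additive.ofMul (C.g i γ)) := by
  apply Subtype.ext
  rw [AddSubmonoidClass.coe_finsetSum, coe_perTrans]
  exact perFun_comp_of_corr hΓ C hpos T hTC γ

/-- A functional on the period lattice restricts to an integral parabolic homomorphism. -/
noncomputable def toPar : Module.Dual ℤ (perLattice hΓ) →+ ↥(parabolicHoms ℤ Γ ℤ) where
  toFun φ := ⟨φ.toAddMonoidHom.comp (perHom hΓ), fun γ hγ => by
    show φ (perHom hΓ (Additive.ofMul γ)) = 0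
    rw [perHom_eq_zero_of_trace hΓ γ hγ, map_zero]⟩
  map_zero' := Subtype.ext (AddMonoidHom.ext fun _ => rfl)
  map_add' _ _ := Subtype.ext (AddMonoidHom.ext fun _ => rfl)

theorem toPar_apply (φ : Module.Dual ℤ (perLattice hΓ)) (γ : Additive Γ) :
    ((toPar hΓ φ : ↥(parabolicHoms ℤ Γ ℤ)) : Additive Γ →+ ℤ) γ = φ (perHom hΓ γ) := rfl

/-- `toPar` intertwines transposition by a coset-sum operator with the coset transfer. -/
theorem toPar_comp_perTrans {ι : Type} [Fintype ι] (C : Corr Γ ι)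
    (hpos : ∀ i, 0 < (C.α i).det.val) (T : Module.End ℂ (CuspForm (Γ.map (mapGL ℝ)) 2))
    (hTC : ∀ f : CuspForm (Γ.map (mapGL ℝ)) 2,
      ((T f : CuspForm (Γ.map (mapGL ℝ)) 2) : ℍ → ℂ) = ∑ i, (f : ℍ → ℂ) ∣[(2 : ℤ)] (C.α i))
    (φ : Module.Dual ℤ (perLattice hΓ)) :
    ((toPar hΓ (φ ∘ₗ perTrans hΓ T (perFun_comp_of_corr_mem hΓ C hpos T hTC)) :
        ↥(parabolicHoms ℤ Γ ℤ)) : Additive Γ →+ ℤ) =
      C.op ℤ ((toPar hΓ φ : ↥(parabolicHoms ℤ Γ ℤ)) : Additive Γ →+ ℤ) := by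
  refine AddMonoidHom.ext fun γ' => ?_
  obtain ⟨γ, rfl⟩ := Additive.ofMul.surjective γ'
  rw [Corr.op_apply, toPar_apply, LinearMap.comp_apply, perTrans_perHom hΓ C hpos T hTC γ,
    map_sum]
  rfl

/-- If `toPar φ` is divisible by `n` in the parabolic lattice, then `φ` is divisible by `n`. -/
theorem exists_eq_nsmul_of_toPar {n : ℕ} (φ : Module.Dual ℤ (perLattice hΓ))
    (h : ∃ μ : ↥(parabolicHoms ℤ Γ ℤ), toPar hΓ φ = n • μ) :
    ∃ φ' : Module.Dual ℤ (perLattice hΓ), φ = n • φ' := by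
  classical
  obtain ⟨μ, hμ⟩ := h
  have hdvd : ∀ y : perLattice hΓ, (n : ℤ) ∣ φ y := by
    intro y
    obtain ⟨γ, rfl⟩ := exists_perHom_eq hΓ y
    have h1 := congrArg
      (fun ψ : ↥(parabolicHoms ℤ Γ ℤ) => (ψ : Additive Γ →+ ℤ) γ) hμ
    simp only [toPar_apply, Submodule.coe_smul_of_tower, AddMonoidHom.smul_apply,
      nsmul_eq_mul] at h1
    exact ⟨_, h1⟩
  have hfin : Module.Finite ℤ (perLattice hΓ) := Module.Finite.iff_fg.2 (perLattice_fg hΓ)
  have hfree : Module.Free ℤ (perLattice hΓ) := inferInstance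
  let b := Module.Free.chooseBasis ℤ (perLattice hΓ)
  refine ⟨b.constr ℤ fun j => φ (b j) / (n : ℤ), ?_⟩
  apply b.ext
  intro j
  rw [LinearMap.smul_apply, Module.Basis.constr_basis, nsmul_eq_mul]
  exact (Int.mul_ediv_cancel' (hdvd (b j))).symm

end Occurrence

section Gamma1

/-- `Γ(M) ≤ Γ₁(M)`. -/
theorem Gamma_le_Gamma1 (M : ℕ) : Gamma M ≤ Gamma1 M := by
  intro γ hγ
  rw [Gamma_mem] at hγ
  rw [Gamma1_mem]
  exact ⟨hγ.1, hγ.2.2.2, hγ.2.2.1⟩

/-- `Γ(M) ≤ Γ₀(M)`. -/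
theorem Gamma_le_Gamma0 (M : ℕ) : Gamma M ≤ Gamma0 M :=
  (Gamma_le_Gamma1 M).trans (Gamma1_in_Gamma0 M)

/-- The type of weight-two cusp forms used in this file, at `Γ = Gamma1 M`, is the Mathlib type
`CuspForm (Gamma1 M) 2`. -/
example (M : ℕ) : CuspForm ((Gamma1 M).map (mapGL ℝ)) 2 = CuspForm (Gamma1 M) 2 := rfl

/-- **The period map of `Γ₁(M)` is injective** (instance of `perMapLin_injective`). -/
theorem perMapLin_Gamma1_injective (M : ℕ) [NeZero M] :
    Function.Injective (perMapLin (Gamma_le_Gamma1 M)) :=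
  perMapLin_injective (Gamma_le_Gamma1 M)

end Gamma1

end Fermat.Agent.S48.helper3284
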