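/-
S48, machine half, leaf S48-M1-ORBITDISC (helper3552): the abstract seam between the Galois
layer of the `Γ₁(M)` field (diamond automorphisms, conjugates of a generator with pairwise
unit differences at the Gauss place) and the layer hypotheses `(pb, hpb, hdisc)` of the tower
step `helper6839.tower_kummer`.  Mathlib only, no carrier.

* `orbit_facts` : from `n ≥ [E : F]` automorphisms `σ i` of `E / F` whose values on `y` lie in a
  valuation subring `O'` of `E` and have pairwise unit differences, with `O'` lying over the
  valuation subring `O` of `F`:  `E / F` is Galois, `E = F(y)`, the minimal polynomial of `y` is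
  `∏ (X - σ i y)`, `y` is integral over `O` and `P'(y)` is a unit of `O'`.
* `exists_powerBasis_unitDiscr_of_orbit` : the power-basis form: `∃ pb, pb.gen = y`, `y` integral
  over `O`, and the discriminant of `pb` is a unit of `O`.
-/
import Mathlib

set_option autoImplicit false
set_option linter.style.haveILetI false

noncomputable section

namespace Fermat.Agent.S48.helper3552

open Polynomial Module

section OrbitDisc

variable {F E : Type*} [Field F] [Field E] [Algebra F E]

/-- A product of elements whose inverses lie in a valuation subring has its inverse there. -/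
theorem inv_multiset_prod_mem (O' : ValuationSubring E) (s : Multiset E)
    (h : ∀ a ∈ s, a⁻¹ ∈ O') : (s.prod)⁻¹ ∈ O' := by
  induction s using Multiset.induction with
  | empty =>
    rw [Multiset.prod_zero, inv_one]
    exact one_mem _
  | cons a s ih =>
    rw [Multiset.prod_cons, mul_inv]
    exact mul_mem (h a (Multiset.mem_cons_self a s))
      (ih fun b hb => h b (Multiset.mem_cons_of_mem hb))

/-- The coefficients of `∏ (X - a)`, `a` ranging over a multiset of elements of a valuation
subring, lie in the valuation subring. -/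
theorem coeff_multiset_prod_X_sub_C_mem (O' : ValuationSubring E) (s : Multiset E)
    (h : ∀ a ∈ s, a ∈ O') (k : ℕ) : ((s.map fun a => X - C a).prod).coeff k ∈ O' := by
  have h1 : (s.map fun a => X - C a).prod ∈ Polynomial.liftsRing O'.subtype := by
    refine Subring.multiset_prod_mem _ _ fun q hq => ?_
    obtain ⟨a, ha, rfl⟩ := Multiset.mem_map.mp hq
    refine ⟨X - C ⟨a, h a ha⟩, ?_⟩
    simp
  have h2 := (Polynomial.lifts_iff_coeff_lifts _).mp ((Polynomial.lifts_iff_liftsRing _ _).mpr h1) k
  obtain ⟨c, hc⟩ := h2
  rw [← hc]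
  exact c.2

variable [FiniteDimensional F E]

/-- **Orbit facts.** Let `σ i` (`i : ι`, at least `[E : F]` indices) be automorphisms of `E / F`
and `y : E` such that the conjugates `σ i y` lie in a valuation subring `O'` of `E` and have
pairwise unit differences in `O'`, where `O'` lies over the valuation subring `O` of `F`.
Then `E / F` is Galois with group `{σ i}`, `E = F(y)`, the minimal polynomial of `y` over `F`
is `∏ (X - σ i y)`, it has coefficients in `O` (so `y` is integral over `O`), and its derivative
at each conjugate is a unit of `O'`. -/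
theorem orbit_facts (O : ValuationSubring F) (O' : ValuationSubring E)
    (hO : O'.comap (algebraMap F E) = O) {ι : Type*} [Fintype ι] (σ : ι → E ≃ₐ[F] E) (y : E)
    (hcard : Module.finrank F E ≤ Fintype.card ι) (hint : ∀ i, σ i y ∈ O')
    (hunit : ∀ i j, i ≠ j → σ i y - σ j y ≠ 0 ∧ (σ i y - σ j y)⁻¹ ∈ O') :
    IsGalois F E ∧ Function.Bijective σ ∧ IntermediateField.adjoin F ({y} : Set E) = ⊤ ∧
      (minpoly F y).map (algebraMap F E) = ∏ i, (X - C (σ i y)) ∧
      (∀ k, (minpoly F y).coeff k ∈ O) ∧ IsIntegral ↥O y ∧
      ∀ τ : E ≃ₐ[F] E, (τ (aeval y (derivative (minpoly F y))))⁻¹ ∈ O' := by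
  classical
  -- the values are pairwise distinct, hence `σ` is injective
  have hyinj : Function.Injective fun i => σ i y := by
    intro i j hij
    by_contra hne
    exact (hunit i j hne).1 (sub_eq_zero.mpr hij)
  have hσinj : Function.Injective σ := fun i j hij => hyinj (by simp only [hij])
  have hle : Fintype.card ι ≤ Fintype.card (E ≃ₐ[F] E) := Fintype.card_le_of_injective σ hσinj
  have hcardG : Fintype.card (E ≃ₐ[F] E) = Module.finrank F E :=
    le_antisymm AlgEquiv.card_le (hcard.trans hle)
  have hcardι : Fintype.card ι = Fintype.card (E ≃ₐ[F] E) :=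
    le_antisymm hle (hcardG.le.trans hcard)
  have hcardι' : Fintype.card ι = Module.finrank F E := hcardι.trans hcardG
  haveI hGal : IsGalois F E :=
    IsGalois.of_card_aut_eq_finrank F E (by rw [Nat.card_eq_fintype_card, hcardG])
  have hσbij : Function.Bijective σ :=
    (Fintype.bijective_iff_injective_and_card σ).mpr ⟨hσinj, hcardι⟩
  -- the minimal polynomial and its roots
  have hyint : IsIntegral F y := IsIntegral.of_finite F y
  have hmonic : ((minpoly F y).map (algebraMap F E)).Monic := (minpoly.monic hyint).map _
  have hroot : ∀ i, aeval (σ i y) (minpoly F y) = 0 := fun i => by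
    have h1 : aeval ((σ i : E →ₐ[F] E) y) (minpoly F y) = (σ i : E →ₐ[F] E) (aeval y (minpoly F y)) :=
      Polynomial.aeval_algHom_apply _ _ _
    rw [minpoly.aeval, map_zero] at h1
    exact h1
  set S : Multiset E := (Finset.univ : Finset ι).val.map (fun i => σ i y) with hS
  have hSnodup : S.Nodup := Multiset.Nodup.map hyinj Finset.univ.nodup
  have hScard : Multiset.card S = Fintype.card ι := by
    rw [hS, Multiset.card_map]
    rfl
  have hmemS : ∀ i, σ i y ∈ S := fun i =>
    Multiset.mem_map.mpr ⟨i, Finset.mem_univ_val i, rfl⟩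
  have hSle : S ≤ ((minpoly F y).map (algebraMap F E)).roots := by
    rw [Multiset.le_iff_subset hSnodup]
    intro a ha
    obtain ⟨i, -, rfl⟩ := Multiset.mem_map.mp ha
    rw [Polynomial.mem_roots hmonic.ne_zero, Polynomial.IsRoot.def, Polynomial.eval_map_algebraMap]
    exact hroot i
  have hdeg1 : (minpoly F y).natDegree ≤ Module.finrank F E := minpoly.natDegree_le y
  have hrcard : Multiset.card ((minpoly F y).map (algebraMap F E)).roots ≤ Multiset.card S := by
    calc Multiset.card ((minpoly F y).map (algebraMap F E)).roots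
        ≤ ((minpoly F y).map (algebraMap F E)).natDegree := Polynomial.card_roots' _
      _ = (minpoly F y).natDegree := Polynomial.natDegree_map _
      _ ≤ Module.finrank F E := hdeg1
      _ ≤ Fintype.card ι := hcard
      _ = Multiset.card S := hScard.symm
  have hroots : ((minpoly F y).map (algebraMap F E)).roots = S :=
    (Multiset.eq_of_le_of_card_le hSle hrcard).symm
  have hnat : (minpoly F y).natDegree = Module.finrank F E := by
    refine le_antisymm hdeg1 ?_
    calc Module.finrank F E ≤ Fintype.card ι := hcard
      _ = Multiset.card S := hScard.symm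
      _ = Multiset.card ((minpoly F y).map (algebraMap F E)).roots := by rw [hroots]
      _ ≤ ((minpoly F y).map (algebraMap F E)).natDegree := Polynomial.card_roots' _
      _ = (minpoly F y).natDegree := Polynomial.natDegree_map _
  have hprodS : (S.map fun a => X - C a).prod = (minpoly F y).map (algebraMap F E) := by
    have h1 := Polynomial.prod_multiset_X_sub_C_of_monic_of_roots_card_eq hmonic (by
      rw [hroots, hScard, Polynomial.natDegree_map, hnat, hcardι'])
    rwa [hroots] at h1
  have hprod : (minpoly F y).map (algebraMap F E) = ∏ i, (X - C (σ i y)) := by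
    rw [← hprodS, hS, Multiset.map_map]
    rfl
  -- generation
  have htop : IntermediateField.adjoin F ({y} : Set E) = ⊤ :=
    (Field.primitive_element_iff_minpoly_natDegree_eq F y).mpr hnat
  -- coefficients
  have hcoef : ∀ k, (minpoly F y).coeff k ∈ O := by
    intro k
    rw [← hO, ValuationSubring.mem_comap, ← Polynomial.coeff_map, ← hprodS]
    exact coeff_multiset_prod_X_sub_C_mem O' S (fun a ha => by
      obtain ⟨i, -, rfl⟩ := Multiset.mem_map.mp ha
      exact hint i) k
  have hyO : IsIntegral ↥O y := by
    have hlifts : minpoly F y ∈ Polynomial.lifts (algebraMap ↥O F) := by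
      rw [Polynomial.lifts_iff_coeff_lifts]
      intro k
      exact ⟨⟨_, hcoef k⟩, rfl⟩
    obtain ⟨q, hq, -, hqm⟩ :=
      Polynomial.lifts_and_natDegree_eq_and_monic hlifts (minpoly.monic hyint)
    refine ⟨q, hqm, ?_⟩
    have h1 : eval₂ (algebraMap ↥O E) y q =
        eval₂ (algebraMap F E) y (q.map (algebraMap ↥O F)) := by
      rw [Polynomial.eval₂_map]
      rfl
    rw [h1, hq]
    exact minpoly.aeval F y
  refine ⟨hGal, hσbij, htop, hprod, hcoef, hyO, fun τ => ?_⟩
  -- the derivative at a conjugate
  obtain ⟨i, rfl⟩ := hσbij.2 τ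
  have h1 : σ i (aeval y (derivative (minpoly F y))) =
      eval (σ i y) (derivative ((S.map fun a => X - C a).prod)) := by
    have h2 : (σ i : E →ₐ[F] E) (aeval y (derivative (minpoly F y))) =
        aeval ((σ i : E →ₐ[F] E) y) (derivative (minpoly F y)) :=
      (Polynomial.aeval_algHom_apply _ _ _).symm
    rw [hprodS, Polynomial.derivative_map, Polynomial.eval_map_algebraMap]
    exact h2
  rw [h1, Polynomial.eval_multiset_prod_X_sub_C_derivative (hmemS i)]
  refine inv_multiset_prod_mem O' _ fun b hb => ?_
  obtain ⟨a, ha, rfl⟩ := Multiset.mem_map.mp hb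
  obtain ⟨hne, haS⟩ := (Multiset.Nodup.mem_erase_iff hSnodup).mp ha
  obtain ⟨j, -, rfl⟩ := Multiset.mem_map.mp haS
  have hij : i ≠ j := fun h => hne (by rw [h])
  exact (hunit i j hij).2

/-- **S48-M1-ORBITDISC.** The layer hypotheses `(pb, hpb, hdisc)` of the tower step from an
orbit of automorphisms: if `n ≥ [E : F]` automorphisms `σ i` of `E / F` move `y` to elements of
a valuation subring `O'` of `E` with pairwise unit differences, and `O'` lies over the valuation
subring `O` of `F`, then `E = F[y]` has a power basis generated by `y`, `y` is integral over `O`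
and the discriminant of the power basis is a unit of `O`. -/
theorem exists_powerBasis_unitDiscr_of_orbit (O : ValuationSubring F) (O' : ValuationSubring E)
    (hO : O'.comap (algebraMap F E) = O) {ι : Type*} [Fintype ι] (σ : ι → E ≃ₐ[F] E) (y : E)
    (hcard : Module.finrank F E ≤ Fintype.card ι) (hint : ∀ i, σ i y ∈ O')
    (hunit : ∀ i j, i ≠ j → σ i y - σ j y ≠ 0 ∧ (σ i y - σ j y)⁻¹ ∈ O') :
    ∃ pb : PowerBasis F E, pb.gen = y ∧ IsIntegral ↥O pb.gen ∧
      (Algebra.discr F pb.basis)⁻¹ ∈ O := by
  classical
  obtain ⟨hGal, -, htop, -, -, hyO, hder⟩ := orbit_facts O O' hO σ y hcard hint hunit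
  haveI := hGal
  have hyint : IsIntegral F y := IsIntegral.of_finite F y
  let e' : ↥(IntermediateField.adjoin F ({y} : Set E)) ≃ₐ[F] E :=
    (IntermediateField.equivOfEq htop).trans IntermediateField.topEquiv
  let pb : PowerBasis F E := (IntermediateField.adjoin.powerBasis hyint).map e'
  have hgen : pb.gen = y := rfl
  refine ⟨pb, hgen, hgen ▸ hyO, ?_⟩
  rw [← hO, ValuationSubring.mem_comap, map_inv₀, Algebra.discr_powerBasis_eq_norm F pb, map_mul,
    map_pow, map_neg, map_one, Algebra.norm_eq_prod_automorphisms, mul_inv, ← inv_pow,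
    inv_neg_one, ← Finset.prod_inv_distrib]
  refine mul_mem (pow_mem (neg_mem (one_mem _)) _) (prod_mem fun τ _ => ?_)
  rw [hgen]
  exact hder τ

/-- A unit of a valuation subring is nonzero with inverse in the valuation subring. -/
theorem ne_zero_and_inv_mem_of_isUnit (O' : ValuationSubring E) {u : ↥O'} (hu : IsUnit u) :
    (u : E) ≠ 0 ∧ (u : E)⁻¹ ∈ O' := by
  obtain ⟨v, hv⟩ := hu.exists_right_inv
  have h1 : (u : E) * (v : E) = 1 := by
    have := congrArg (fun w : ↥O' => (w : E)) hv
    simpa using this
  have h0 : (u : E) ≠ 0 := left_ne_zero_of_mul_eq_one h1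
  refine ⟨h0, ?_⟩
  rw [inv_eq_of_mul_eq_one_right h1]
  exact v.2

/-- **S48-M1-ORBITDISC, `IsUnit` form** (the shape produced by a reduction map on `O'`, e.g.
`helper8991.isUnit_iff_gaussRed_ne_zero`): the differences of the conjugates are units of the
ring `↥O'`. -/
theorem exists_powerBasis_unitDiscr_of_orbit_isUnit (O : ValuationSubring F)
    (O' : ValuationSubring E) (hO : O'.comap (algebraMap F E) = O) {ι : Type*} [Fintype ι]
    (σ : ι → E ≃ₐ[F] E) (y : E) (hcard : Module.finrank F E ≤ Fintype.card ι)
    (hint : ∀ i, σ i y ∈ O')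
    (hunit : ∀ i j, i ≠ j → IsUnit ((⟨σ i y, hint i⟩ : ↥O') - ⟨σ j y, hint j⟩)) :
    ∃ pb : PowerBasis F E, pb.gen = y ∧ IsIntegral ↥O pb.gen ∧
      (Algebra.discr F pb.basis)⁻¹ ∈ O :=
  exists_powerBasis_unitDiscr_of_orbit O O' hO σ y hcard hint fun i j hij =>
    ne_zero_and_inv_mem_of_isUnit O' (hunit i j hij)

end OrbitDisc

end Fermat.Agent.S48.helper3552
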