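/-
S48, machine half, leaf S48-M1-LAYERINST (helper3552): the finite-level layer instance on the
number-field layer model of `helper1267_LayerModel`.

For two `ℚ`-forms `F₀ ≤ F₁ ≤ ℚ((q))` and a number field `K0 ≤ ℚ̄`, with `F := K0 · F₀`,
`E := K0 · F₁` (`ELevel`), and the `q`-expansion Gauss ring `gaussLayer` of `E` at `A ∩ K0`:
from

* (H1) finitely many ring endomorphisms `τ i` of `E` fixing `F` pointwise, at least `[E : F]`
  of them,
* (H2) `(A ∩ K0)`-integral models `Y i` of the conjugates `τ i y`,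
* (H3) with pairwise distinct reductions,

the layer `E / F` has a power basis generated by `y`, `y` is integral over the Gauss ring `O` of
`F` and the discriminant of the power basis is a unit of `O`: the hypotheses `(pb, hpb, hdisc)`
of `helper6839.tower_kummer_res` / `tower_gauss_res` at the model `helper1267.model1`.
-/
import Fermat.Agent.S48.helper1267_LayerModel
import Fermat.Agent.S48.helper3552_OrbitDisc

set_option autoImplicit false
set_option synthInstance.maxHeartbeats 400000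
set_option linter.style.haveILetI false

open Polynomial IntermediateField ModularCurve

namespace Fermat.Agent.S48.helper3552

open Fermat.Agent.S18
open Fermat.Agent.S48.helper1267 (ELevel towerIncl algTower gaussLayer gaussLayerRed FgForm
  coeffMap_mem_gaussLayer gaussLayerRed_coeffMap isUnit_iff_gaussLayerRed_ne_zero)

noncomputable section

local notation "Qb" => AlgebraicClosure ℚ

section LayerInst

variable (F₁ : IntermediateField ℚ (LaurentSeries ℚ)) (K0 : IntermediateField ℚ Qb)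
  (A : ValuationSubring Qb) (hfg : FgForm F₁)

/-- **(H2) + (H3) ⟹ membership and unit differences.** A family of elements of the layer field
with `(A ∩ K0)`-integral `q`-expansions whose reductions are pairwise distinct: the elements lie
in the Gauss ring of the layer and their pairwise differences are units of it. -/
theorem layer_mem_and_unit {ι : Type*} (y : ι → ELevel F₁ K0)
    (Y : ι → LaurentSeries ↥(helper4661.levelRing A K0))
    (hY : ∀ i, coeffMap (helper4661.levelRing A K0).subtype (Y i) = (y i : LaurentSeries ↥K0))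
    (hred : ∀ i j, i ≠ j →
      coeffMap (IsLocalRing.residue ↥(helper4661.levelRing A K0)) (Y i) ≠
        coeffMap (IsLocalRing.residue ↥(helper4661.levelRing A K0)) (Y j)) :
    (∀ i, y i ∈ gaussLayer F₁ K0 A hfg) ∧
      ∀ i j, i ≠ j → y i - y j ≠ 0 ∧ (y i - y j)⁻¹ ∈ gaussLayer F₁ K0 A hfg := by
  refine ⟨fun i => ?_, fun i j hij => ?_⟩
  · have hy : coeffMap (helper4661.levelRing A K0).subtype (Y i) ∈ laurentBaseChange ↥K0 F₁ := by
      rw [hY i]
      exact (y i).2
    have h1 := coeffMap_mem_gaussLayer F₁ K0 A hfg (Y i) hy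
    have e : (⟨coeffMap (helper4661.levelRing A K0).subtype (Y i), hy⟩ : ELevel F₁ K0) = y i :=
      Subtype.ext (hY i)
    rwa [e] at h1
  · have hD : coeffMap (helper4661.levelRing A K0).subtype (Y i - Y j) =
        ((y i - y j : ELevel F₁ K0) : LaurentSeries ↥K0) := by
      rw [map_sub, hY i, hY j]
      rfl
    have hDmem : coeffMap (helper4661.levelRing A K0).subtype (Y i - Y j) ∈
        laurentBaseChange ↥K0 F₁ := by
      rw [hD]
      exact (y i - y j).2
    have hu : IsUnit (⟨⟨coeffMap (helper4661.levelRing A K0).subtype (Y i - Y j), hDmem⟩,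
        coeffMap_mem_gaussLayer F₁ K0 A hfg (Y i - Y j) hDmem⟩ : ↥(gaussLayer F₁ K0 A hfg)) := by
      rw [isUnit_iff_gaussLayerRed_ne_zero, gaussLayerRed_coeffMap, map_sub]
      exact sub_ne_zero.mpr (hred i j hij)
    obtain ⟨h0, hinv⟩ := ne_zero_and_inv_mem_of_isUnit _ hu
    have e : (⟨coeffMap (helper4661.levelRing A K0).subtype (Y i - Y j), hDmem⟩ :
        ELevel F₁ K0) = y i - y j := Subtype.ext hD
    rw [← e]
    exact ⟨h0, hinv⟩

variable (F₀ : IntermediateField ℚ (LaurentSeries ℚ)) (h01 : F₀ ≤ F₁)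

/-- A ring endomorphism of the layer field `K0 · F₁` fixing `K0 · F₀` pointwise, as an
automorphism of the layer `K0 · F₁ / K0 · F₀` (finite-dimensional). -/
def layerAut
    (hfin : @Module.Finite (ELevel F₀ K0) (ELevel F₁ K0) _ _ (algTower F₁ K0 F₀ h01).toModule)
    (τ : ELevel F₁ K0 →+* ELevel F₁ K0)
    (hτ : ∀ x : ELevel F₀ K0, τ (towerIncl F₁ K0 F₀ h01 x) = towerIncl F₁ K0 F₀ h01 x) :
    letI := algTower F₁ K0 F₀ h01
    ELevel F₁ K0 ≃ₐ[ELevel F₀ K0] ELevel F₁ K0 :=
  letI := algTower F₁ K0 F₀ h01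
  letI : Module (ELevel F₀ K0) (ELevel F₁ K0) := Algebra.toModule
  haveI : FiniteDimensional (ELevel F₀ K0) (ELevel F₁ K0) := hfin
  AlgEquiv.ofBijective ({ τ with commutes' := hτ } : ELevel F₁ K0 →ₐ[ELevel F₀ K0] ELevel F₁ K0)
    (Algebra.IsAlgebraic.algHom_bijective _)

theorem layerAut_apply
    (hfin : @Module.Finite (ELevel F₀ K0) (ELevel F₁ K0) _ _ (algTower F₁ K0 F₀ h01).toModule)
    (τ : ELevel F₁ K0 →+* ELevel F₁ K0)
    (hτ : ∀ x : ELevel F₀ K0, τ (towerIncl F₁ K0 F₀ h01 x) = towerIncl F₁ K0 F₀ h01 x)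
    (x : ELevel F₁ K0) : layerAut F₁ K0 F₀ h01 hfin τ hτ x = τ x := rfl

/-- **S48-M1-LAYERINST, orbit facts.** In the situation of the file header: the layer
`K0 · F₁ / K0 · F₀` is Galois, generated by `y`, the minimal polynomial of `y` is
`∏ (X - τ i y)` with coefficients in the Gauss ring `O` of the base, `y` is integral over `O`,
and the derivative of the minimal polynomial at every conjugate of `y` is a unit of the Gauss
ring of the layer. -/
theorem layer_orbit_facts (O : ValuationSubring (ELevel F₀ K0))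
    (hO : (gaussLayer F₁ K0 A hfg).comap (towerIncl F₁ K0 F₀ h01) = O)
    (hfin : @Module.Finite (ELevel F₀ K0) (ELevel F₁ K0) _ _ (algTower F₁ K0 F₀ h01).toModule)
    {ι : Type} [Fintype ι] (τ : ι → (ELevel F₁ K0 →+* ELevel F₁ K0))
    (hτ : ∀ i (x : ELevel F₀ K0), τ i (towerIncl F₁ K0 F₀ h01 x) = towerIncl F₁ K0 F₀ h01 x)
    (y : ELevel F₁ K0)
    (hcard : @Module.finrank (ELevel F₀ K0) (ELevel F₁ K0) _ _ (algTower F₁ K0 F₀ h01).toModule ≤
      Fintype.card ι)
    (Y : ι → LaurentSeries ↥(helper4661.levelRing A K0))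
    (hY : ∀ i, coeffMap (helper4661.levelRing A K0).subtype (Y i) =
      ((τ i y : ELevel F₁ K0) : LaurentSeries ↥K0))
    (hred : ∀ i j, i ≠ j →
      coeffMap (IsLocalRing.residue ↥(helper4661.levelRing A K0)) (Y i) ≠
        coeffMap (IsLocalRing.residue ↥(helper4661.levelRing A K0)) (Y j)) :
    letI := algTower F₁ K0 F₀ h01
    IsGalois (ELevel F₀ K0) (ELevel F₁ K0) ∧
      IntermediateField.adjoin (ELevel F₀ K0) ({y} : Set (ELevel F₁ K0)) = ⊤ ∧
      (minpoly (ELevel F₀ K0) y).map (algebraMap (ELevel F₀ K0) (ELevel F₁ K0)) =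
        ∏ i, (X - C (τ i y)) ∧
      (∀ k, (minpoly (ELevel F₀ K0) y).coeff k ∈ O) ∧
      @IsIntegral ↥O (ELevel F₁ K0) _ _ (Algebra.ofSubsemiring O) y ∧
      ∀ σ : ELevel F₁ K0 ≃ₐ[ELevel F₀ K0] ELevel F₁ K0,
        (σ (aeval y (derivative (minpoly (ELevel F₀ K0) y))))⁻¹ ∈ gaussLayer F₁ K0 A hfg := by
  letI := algTower F₁ K0 F₀ h01
  letI : Module (ELevel F₀ K0) (ELevel F₁ K0) := Algebra.toModule
  haveI : FiniteDimensional (ELevel F₀ K0) (ELevel F₁ K0) := hfin
  obtain ⟨hint, hunit⟩ := layer_mem_and_unit F₁ K0 A hfg (fun i => τ i y) Y hY hred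
  obtain ⟨hGal, -, htop, hprod, hcoef, hyO, hder⟩ :=
    orbit_facts O (gaussLayer F₁ K0 A hfg) hO
      (fun i => layerAut F₁ K0 F₀ h01 hfin (τ i) (hτ i)) y hcard hint hunit
  exact ⟨hGal, htop, hprod, hcoef, hyO, hder⟩

/-- **S48-M1-LAYERINST.** The layer hypotheses `(pb, hpb, hdisc)` of the tower step at the
number-field layer model: a power basis of `K0 · F₁ / K0 · F₀` generated by `y`, with `y`
integral over the Gauss ring `O` of the base and unit discriminant. -/
theorem exists_powerBasis_layer (O : ValuationSubring (ELevel F₀ K0))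
    (hO : (gaussLayer F₁ K0 A hfg).comap (towerIncl F₁ K0 F₀ h01) = O)
    (hfin : @Module.Finite (ELevel F₀ K0) (ELevel F₁ K0) _ _ (algTower F₁ K0 F₀ h01).toModule)
    {ι : Type} [Fintype ι] (τ : ι → (ELevel F₁ K0 →+* ELevel F₁ K0))
    (hτ : ∀ i (x : ELevel F₀ K0), τ i (towerIncl F₁ K0 F₀ h01 x) = towerIncl F₁ K0 F₀ h01 x)
    (y : ELevel F₁ K0)
    (hcard : @Module.finrank (ELevel F₀ K0) (ELevel F₁ K0) _ _ (algTower F₁ K0 F₀ h01).toModule ≤
      Fintype.card ι)
    (Y : ι → LaurentSeries ↥(helper4661.levelRing A K0))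
    (hY : ∀ i, coeffMap (helper4661.levelRing A K0).subtype (Y i) =
      ((τ i y : ELevel F₁ K0) : LaurentSeries ↥K0))
    (hred : ∀ i j, i ≠ j →
      coeffMap (IsLocalRing.residue ↥(helper4661.levelRing A K0)) (Y i) ≠
        coeffMap (IsLocalRing.residue ↥(helper4661.levelRing A K0)) (Y j)) :
    letI := algTower F₁ K0 F₀ h01
    ∃ pb : PowerBasis (ELevel F₀ K0) (ELevel F₁ K0), pb.gen = y ∧
      @IsIntegral ↥O (ELevel F₁ K0) _ _ (Algebra.ofSubsemiring O) pb.gen ∧
      (Algebra.discr (ELevel F₀ K0) pb.basis)⁻¹ ∈ O := by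
  letI := algTower F₁ K0 F₀ h01
  letI : Module (ELevel F₀ K0) (ELevel F₁ K0) := Algebra.toModule
  haveI : FiniteDimensional (ELevel F₀ K0) (ELevel F₁ K0) := hfin
  obtain ⟨hint, hunit⟩ := layer_mem_and_unit F₁ K0 A hfg (fun i => τ i y) Y hY hred
  exact exists_powerBasis_unitDiscr_of_orbit O (gaussLayer F₁ K0 A hfg) hO
    (fun i => layerAut F₁ K0 F₀ h01 hfin (τ i) (hτ i)) y hcard hint hunit

end LayerInst

end

end Fermat.Agent.S48.helper3552
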