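/-
S48, machine half, leaf S48-B-TOWERDISC (helper3552) = (T3) VERT-LAYER of S48-B-TOWER.

Mathlib only.

* `discr_smulTower` (TD1): the exact tower formula for discriminants,
  `discr R (b.smulTower c) = discr R b ^ card κ * norm R (discr S c)`.
* `exists_basis_discr_not_dvd_tower` (TD2): the "(c)-shape" (a basis of integral elements whose
  discriminant lies in `P` and is prime to `lam`) lifts from `L / K` to `M = L[y]` as soon as the
  discriminant of the power basis divides, inside the integral elements, an element of `P`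
  prime to `lam`.
* `exists_basis_discr_not_dvd_tower_of_derivative` (TD2'): the same with the hypothesis in
  Euler form (`P'(y)` divides an element of `P` prime to `lam`).
-/
import Mathlib

set_option autoImplicit false

namespace Fermat.Agent.S48.helper3552

open Module Matrix
open scoped Kronecker

section TD1

variable {R S T : Type*} [CommRing R] [CommRing S] [CommRing T] [Algebra R S] [Algebra S T]
  [Algebra R T] [IsScalarTower R S T]
variable {ι κ : Type*} [Fintype ι] [Fintype κ] [DecidableEq ι] [DecidableEq κ]

omit [Fintype κ] [DecidableEq κ] in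
/-- `Tr (b i * (x * b k))` through the trace matrix and the matrix of left multiplication. -/
theorem trace_mul_mul_basis (b : Basis ι R S) (x : S) (i k : ι) :
    Algebra.trace R S (b i * (x * b k)) =
      ∑ s, Algebra.traceMatrix R b i s * Algebra.leftMulMatrix b x s k := by
  have h : x * b k = ∑ s, Algebra.leftMulMatrix b x s k • b s := by
    conv_lhs => rw [← b.sum_repr (x * b k)]
    refine Finset.sum_congr rfl fun s _ => ?_
    rw [Algebra.leftMulMatrix_eq_repr_mul]
  rw [h, Finset.mul_sum, map_sum]
  refine Finset.sum_congr rfl fun s _ => ?_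
  rw [mul_smul_comm, map_smul, smul_eq_mul, mul_comm, Algebra.traceMatrix_apply,
    Algebra.traceForm_apply]

omit [DecidableEq κ] in
/-- The trace matrix of a tower basis, entrywise. -/
theorem traceMatrix_smulTower_apply (b : Basis ι R S) (c : Basis κ S T) (i k : ι) (j l : κ) :
    Algebra.traceMatrix R (b.smulTower c) (i, j) (k, l) =
      ∑ s, Algebra.traceMatrix R b i s *
        Algebra.leftMulMatrix b (Algebra.traceMatrix S c j l) s k := by
  rw [Algebra.traceMatrix_apply, Algebra.traceForm_apply, Basis.smulTower_apply,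
    Basis.smulTower_apply, smul_mul_smul_comm, ← Algebra.trace_trace_of_basis b c, map_smul,
    smul_eq_mul, ← trace_mul_mul_basis, Algebra.traceMatrix_apply, Algebra.traceForm_apply]
  congr 1
  ring

/-- **(TD1) Tower formula for discriminants.** -/
theorem discr_smulTower (b : Basis ι R S) (c : Basis κ S T) :
    Algebra.discr R (b.smulTower c) =
      Algebra.discr R b ^ Fintype.card κ * Algebra.norm R (Algebra.discr S c) := by
  classical
  set G := Algebra.traceMatrix R b with hG
  set t := Algebra.traceMatrix S c with ht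
  set ρ : S →+* Matrix ι ι R := (Algebra.leftMulMatrix b).toRingHom with hρ
  have key : Algebra.traceMatrix R (b.smulTower c) =
      (G ⊗ₖ (1 : Matrix κ κ R)) *
        Matrix.reindex (Equiv.prodComm κ ι) (Equiv.prodComm κ ι)
          (Matrix.comp κ κ ι ι R (t.map ρ)) := by
    ext ⟨i, j⟩ ⟨k, l⟩
    rw [traceMatrix_smulTower_apply, Matrix.mul_apply, Fintype.sum_prod_type]
    refine Finset.sum_congr rfl fun s _ => ?_
    rw [Finset.sum_eq_single j]
    · simp [Matrix.kroneckerMap_apply, Matrix.comp_apply, hρ, hG, ht]
    · intro j' _ hj'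
      simp [Matrix.kroneckerMap_apply, Ne.symm hj']
    · intro h
      exact absurd (Finset.mem_univ j) h
  rw [Algebra.discr_def, key, Matrix.det_mul, Matrix.det_kronecker, Matrix.det_one, one_pow,
    mul_one, Matrix.det_reindex_self, ← Matrix.det_det, Algebra.discr_def, Algebra.discr_def,
    Algebra.norm_eq_matrix_det b]
  rfl

end TD1

section TD2

variable {P K L M : Type*} [CommRing P] [IsIntegrallyClosed P]
  [Field K] [Field L] [Field M]
  [Algebra P K] [IsFractionRing P K] [Algebra K L] [Algebra P L] [IsScalarTower P K L]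
  [Algebra L M] [Algebra K M] [Algebra P M] [IsScalarTower K L M] [IsScalarTower P L M]

/-- **(TD2), general basis.** `P` an integrally closed domain with fraction field `K`, `lam` a
prime element of `P`, `L / K` with a basis of `P`-integral elements whose discriminant is (the
image of) `d ∈ P`, `lam ∤ d`; `M / L` with a basis `c₂` of `P`-integral elements whose
discriminant divides, inside the `P`-integral elements of `L`, an element `s ∈ P` with
`lam ∤ s`.  Then `M / K` has a basis of `P`-integral elements whose discriminant is the image of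
an element of `P` prime to `lam` (the tower basis `b i • c₂ j`, with discriminant
`d ^ #κ * N_{L/K}(disc_L c₂)`). -/
theorem exists_basis_discr_not_dvd_tower_basis (lam : P) (hlam : Prime lam)
    (hc : ∃ (ι : Type) (_ : Fintype ι) (_ : DecidableEq ι) (c : Module.Basis ι K L) (d : P),
      (∀ i, IsIntegral P (c i)) ∧ Algebra.discr K c = algebraMap P K d ∧ ¬ lam ∣ d)
    {κ : Type} [Fintype κ] [DecidableEq κ] (c₂ : Module.Basis κ L M)
    (hc₂ : ∀ j, IsIntegral P (c₂ j))
    (hunit : ∃ (u : L) (s : P), IsIntegral P u ∧ ¬ lam ∣ s ∧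
      u * Algebra.discr L c₂ = algebraMap P L s) :
    ∃ (ι : Type) (_ : Fintype ι) (_ : DecidableEq ι) (c : Module.Basis ι K M) (d : P),
      (∀ i, IsIntegral P (c i)) ∧ Algebra.discr K c = algebraMap P K d ∧ ¬ lam ∣ d := by
  classical
  obtain ⟨ι, hFin, hDec, b, d0, hbint, hdisc, hd0⟩ := hc
  obtain ⟨u, s, hu, hs, hus⟩ := hunit
  have hfinKL : Module.Finite K L := Module.Finite.of_basis b
  have hfinLM : Module.Finite L M := Module.Finite.of_basis c₂
  -- the discriminant of the upper basis is integral over `P`
  have hDint : IsIntegral P (Algebra.discr L c₂) := Algebra.discr_isIntegral L hc₂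
  -- its norm to `K` lies in `P`
  obtain ⟨d1, hd1⟩ := IsIntegrallyClosed.isIntegral_iff.mp
    (Algebra.isIntegral_norm K hDint)
  obtain ⟨e, he⟩ := IsIntegrallyClosed.isIntegral_iff.mp (Algebra.isIntegral_norm K hu)
  -- `d1` divides a power of `s`
  have hdvd : d1 ∣ s ^ Module.finrank K L := by
    refine ⟨e, ?_⟩
    apply IsFractionRing.injective P K
    rw [map_pow, map_mul, hd1, he, mul_comm, ← map_mul, hus, IsScalarTower.algebraMap_apply P K L,
      Algebra.norm_algebraMap]
  have hd1' : ¬ lam ∣ d1 := fun h => hs (hlam.dvd_of_dvd_pow (h.trans hdvd))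
  refine ⟨ι × κ, inferInstance, inferInstance, b.smulTower c₂,
    d0 ^ Fintype.card κ * d1, ?_, ?_, ?_⟩
  · rintro ⟨i, j⟩
    rw [Basis.smulTower_apply, Algebra.smul_def]
    refine IsIntegral.mul ?_ (hc₂ j)
    have h1 : IsIntegral P (b i) := hbint i
    exact h1.map (IsScalarTower.toAlgHom P L M)
  · rw [discr_smulTower, hdisc, map_mul, map_pow, hd1]
  · intro h
    rcases hlam.dvd_or_dvd h with h1 | h1
    · exact hd0 (hlam.dvd_of_dvd_pow h1)
    · exact hd1' h1

/-- **(TD2) The (c)-shape lifts along a simple layer with unit discriminant.**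
As `exists_basis_discr_not_dvd_tower_basis`, for `M = L[y]` with `y` integral over `P` and the
power basis `1, y, …, y ^ (n - 1)`. -/
theorem exists_basis_discr_not_dvd_tower (lam : P) (hlam : Prime lam)
    (hc : ∃ (ι : Type) (_ : Fintype ι) (_ : DecidableEq ι) (c : Module.Basis ι K L) (d : P),
      (∀ i, IsIntegral P (c i)) ∧ Algebra.discr K c = algebraMap P K d ∧ ¬ lam ∣ d)
    (pb : PowerBasis L M) (hgen : IsIntegral P pb.gen)
    (hunit : ∃ (u : L) (s : P), IsIntegral P u ∧ ¬ lam ∣ s ∧
      u * Algebra.discr L pb.basis = algebraMap P L s) :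
    ∃ (ι : Type) (_ : Fintype ι) (_ : DecidableEq ι) (c : Module.Basis ι K M) (d : P),
      (∀ i, IsIntegral P (c i)) ∧ Algebra.discr K c = algebraMap P K d ∧ ¬ lam ∣ d := by
  classical
  refine exists_basis_discr_not_dvd_tower_basis lam hlam hc pb.basis (fun j => ?_) hunit
  rw [PowerBasis.coe_basis]
  exact hgen.pow _

/-- **(TD2') Euler form.** The same with the unit condition on `P'(y)` (`P` the minimal
polynomial of `y` over `L`): `P'(y)` divides, inside the `P`-integral elements of `M`, an
element `s ∈ P` with `lam ∤ s`. -/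
theorem exists_basis_discr_not_dvd_tower_of_derivative [Algebra.IsSeparable L M]
    (lam : P) (hlam : Prime lam)
    (hc : ∃ (ι : Type) (_ : Fintype ι) (_ : DecidableEq ι) (c : Module.Basis ι K L) (d : P),
      (∀ i, IsIntegral P (c i)) ∧ Algebra.discr K c = algebraMap P K d ∧ ¬ lam ∣ d)
    (pb : PowerBasis L M) (hgen : IsIntegral P pb.gen)
    (hunit : ∃ (u : M) (s : P), IsIntegral P u ∧ ¬ lam ∣ s ∧
      u * Polynomial.aeval pb.gen (Polynomial.derivative (minpoly L pb.gen)) =
        algebraMap P M s) :
    ∃ (ι : Type) (_ : Fintype ι) (_ : DecidableEq ι) (c : Module.Basis ι K M) (d : P),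
      (∀ i, IsIntegral P (c i)) ∧ Algebra.discr K c = algebraMap P K d ∧ ¬ lam ∣ d := by
  obtain ⟨u, s, hu, hs, hus⟩ := hunit
  have hfinLM : Module.Finite L M := pb.finite
  refine exists_basis_discr_not_dvd_tower lam hlam hc pb hgen
    ⟨(-1) ^ (pb.dim * (pb.dim - 1) / 2) * Algebra.norm L u, s ^ Module.finrank L M, ?_, ?_, ?_⟩
  · refine IsIntegral.mul ?_ (Algebra.isIntegral_norm L hu)
    exact (IsIntegral.neg isIntegral_one).pow _
  · exact fun h => hs (hlam.dvd_of_dvd_pow h)
  · rw [Algebra.discr_powerBasis_eq_norm, PowerBasis.finrank pb]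
    have h2 : Algebra.norm L u *
        Algebra.norm L (Polynomial.aeval pb.gen (Polynomial.derivative (minpoly L pb.gen))) =
        algebraMap P L s ^ pb.dim := by
      rw [← map_mul, hus, IsScalarTower.algebraMap_apply P L M, Algebra.norm_algebraMap,
        PowerBasis.finrank pb]
    have h3 : ((-1 : L) ^ (pb.dim * (pb.dim - 1) / 2)) *
        ((-1 : L) ^ (pb.dim * (pb.dim - 1) / 2)) = 1 := by
      rw [← mul_pow]
      simp
    rw [map_pow]
    calc (-1) ^ (pb.dim * (pb.dim - 1) / 2) * Algebra.norm L u *
          ((-1) ^ (pb.dim * (pb.dim - 1) / 2) *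
            Algebra.norm L (Polynomial.aeval pb.gen (Polynomial.derivative (minpoly L pb.gen))))
        = ((-1 : L) ^ (pb.dim * (pb.dim - 1) / 2) * (-1 : L) ^ (pb.dim * (pb.dim - 1) / 2)) *
          (Algebra.norm L u * Algebra.norm L
            (Polynomial.aeval pb.gen (Polynomial.derivative (minpoly L pb.gen)))) := by ring
      _ = algebraMap P L s ^ pb.dim := by rw [h3, one_mul, h2]

end TD2

end Fermat.Agent.S48.helper3552
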