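/-
S48, machine half, leaf S48-B-TOWERDISC (helper3552), part 2: the tower step for clause (c)
(vertical unit discriminant) in the shapes of the landed S18 track-B interface
(`helper3578.KData.VertF`).

* `vertF_tower` (TD3): the `VertF τ` shape lifts from `F / K(τ)` to `E / K(τ)`, `E = F[y]` a
  simple layer whose power-basis discriminant divides, inside the `A[τ]`-integral elements, a
  primitive polynomial in `τ` (more generally: any basis of `A[τ]`-integral elements of `E / F`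
  with that property, `vertF_tower_basis`).
* `exists_mul_eq_aeval_of_gaussData` : the unit hypothesis from `GaussData` of the LOWER field
  (`x ≠ 0`, `x⁻¹ ∈ O`).
* `vertF_tower_of_gaussData` : the two combined.
-/
import Mathlib
import Fermat.Agent.S18.helper3578_SpecB
import Fermat.Agent.S18.helper403_ChartBase
import Fermat.Agent.S18.helper4364_GaussInv
import Fermat.Agent.S48.helper3552_TowerDisc

set_option autoImplicit false
set_option linter.style.haveILetI false
set_option linter.unusedSectionVars false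

noncomputable section

namespace Fermat.Agent.S48.helper3552

open Module Polynomial
open Fermat.Agent.S18
open Fermat.Agent.S18.helper3578 (GaussData KData)

section VertFTower

variable {A K F E : Type*} [CommRing A] [IsDomain A] [IsIntegrallyClosed A] [Field K]
  [Algebra A K] [IsFractionRing A K] [Field F] [Algebra K F] [Algebra A F] [IsScalarTower A K F]
  [Field E] [Algebra F E] [Algebra K E] [Algebra A E] [IsScalarTower K F E] [IsScalarTower A F E]

/-- **(TD3), general basis.** The `VertF τ` shape lifts along a layer `E / F` with a basis of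
`A[τ]`-integral elements whose discriminant divides, inside the `A[τ]`-integral elements of `F`,
a polynomial in `τ` with a coefficient prime to `ϖ`. -/
theorem vertF_tower_basis (ϖ : A) (hϖ : Prime ϖ) (τ : F) (hτ : Transcendental A τ)
    (hF : ∃ (ι : Type) (_ : Fintype ι) (_ : DecidableEq ι)
      (c : Basis ι ↥(IntermediateField.adjoin K ({τ} : Set F)) F) (dp : A[X]),
      (∀ i, IsIntegral ↥(Algebra.adjoin A ({τ} : Set F)) (c i)) ∧
      algebraMap ↥(IntermediateField.adjoin K ({τ} : Set F)) F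
        (Algebra.discr ↥(IntermediateField.adjoin K ({τ} : Set F)) c) = aeval τ dp ∧
      ∃ i, ¬ ϖ ∣ dp.coeff i)
    {κ : Type} [Fintype κ] [DecidableEq κ] (c₂ : Basis κ F E)
    (hc₂ : ∀ j, IsIntegral ↥(Algebra.adjoin A ({τ} : Set F)) (c₂ j))
    (hunit : ∃ (u : F) (sp : A[X]), IsIntegral ↥(Algebra.adjoin A ({τ} : Set F)) u ∧
      (∃ i, ¬ ϖ ∣ sp.coeff i) ∧ u * Algebra.discr F c₂ = aeval τ sp) :
    ∃ (ι : Type) (_ : Fintype ι) (_ : DecidableEq ι)
      (c : Basis ι ↥(IntermediateField.adjoin K ({τ} : Set F)) E) (dp : A[X]),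
      (∀ i, IsIntegral ↥(Algebra.adjoin A ({τ} : Set F)) (c i)) ∧
      algebraMap ↥(IntermediateField.adjoin K ({τ} : Set F)) F
        (Algebra.discr ↥(IntermediateField.adjoin K ({τ} : Set F)) c) = aeval τ dp ∧
      ∃ i, ¬ ϖ ∣ dp.coeff i := by
  letI := helper403.algebraAdjoinSimple (A := A) (K := K) τ
  haveI := helper403.isFractionRing_adjoinSimple (A := A) (K := K) τ
  haveI := helper403.isScalarTower_adjoinSimple (A := A) (K := K) τ
  haveI : IsIntegrallyClosed ↥(Algebra.adjoin A ({τ} : Set F)) :=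
    helper403.isIntegrallyClosed_adjoin τ hτ
  have hlam : Prime (algebraMap A ↥(Algebra.adjoin A ({τ} : Set F)) ϖ) :=
    helper403.prime_algebraMap_adjoin hϖ τ hτ
  obtain ⟨ι, hFin, hDec, c, dp, hint, hdisc, hprim⟩ := hF
  obtain ⟨u, sp, hu, hsp, hus⟩ := hunit
  have hnd : ∀ q : A[X], (∃ i, ¬ ϖ ∣ q.coeff i) →
      ¬ algebraMap A ↥(Algebra.adjoin A ({τ} : Set F)) ϖ ∣ helper403.polyEquivAdjoin τ hτ q := by
    intro q hq h
    obtain ⟨i, hi⟩ := hq
    exact hi ((helper403.algebraMap_dvd_polyEquivAdjoin_iff τ hτ ϖ q).mp h i)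
  obtain ⟨ι', hFin', hDec', c', d', hint', hdisc', hnd'⟩ :=
    exists_basis_discr_not_dvd_tower_basis
      (P := ↥(Algebra.adjoin A ({τ} : Set F)))
      (K := ↥(IntermediateField.adjoin K ({τ} : Set F))) (L := F) (M := E)
      (algebraMap A ↥(Algebra.adjoin A ({τ} : Set F)) ϖ) hlam
      ⟨ι, hFin, hDec, c, helper403.polyEquivAdjoin τ hτ dp, hint, Subtype.ext hdisc,
        hnd dp hprim⟩
      c₂ hc₂ ⟨u, helper403.polyEquivAdjoin τ hτ sp, hu, hnd sp hsp, hus⟩
  refine ⟨ι', hFin', hDec', c', (helper403.polyEquivAdjoin τ hτ).symm d', hint', ?_, ?_⟩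
  · rw [hdisc']
    have h1 : ((helper403.polyEquivAdjoin τ hτ ((helper403.polyEquivAdjoin τ hτ).symm d') :
        ↥(Algebra.adjoin A ({τ} : Set F))) : F) = aeval τ ((helper403.polyEquivAdjoin τ hτ).symm d') :=
      helper403.polyEquivAdjoin_coe τ hτ _
    rw [AlgEquiv.apply_symm_apply] at h1
    exact h1
  · by_contra hcon
    have hcon' : ∀ i, ϖ ∣ ((helper403.polyEquivAdjoin τ hτ).symm d').coeff i := fun i => by
      by_contra h
      exact hcon ⟨i, h⟩
    apply hnd'
    have h2 := (helper403.algebraMap_dvd_polyEquivAdjoin_iff τ hτ ϖ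
      ((helper403.polyEquivAdjoin τ hτ).symm d')).mpr hcon'
    rwa [AlgEquiv.apply_symm_apply] at h2

/-- **(TD3)** The `VertF τ` shape lifts along a simple layer `E = F[y]`, `y` integral over
`A[τ]`, whose power-basis discriminant divides, inside the `A[τ]`-integral elements of `F`, a
polynomial in `τ` with a coefficient prime to `ϖ`. -/
theorem vertF_tower (ϖ : A) (hϖ : Prime ϖ) (τ : F) (hτ : Transcendental A τ)
    (hF : ∃ (ι : Type) (_ : Fintype ι) (_ : DecidableEq ι)
      (c : Basis ι ↥(IntermediateField.adjoin K ({τ} : Set F)) F) (dp : A[X]),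
      (∀ i, IsIntegral ↥(Algebra.adjoin A ({τ} : Set F)) (c i)) ∧
      algebraMap ↥(IntermediateField.adjoin K ({τ} : Set F)) F
        (Algebra.discr ↥(IntermediateField.adjoin K ({τ} : Set F)) c) = aeval τ dp ∧
      ∃ i, ¬ ϖ ∣ dp.coeff i)
    (pb : PowerBasis F E) (hgen : IsIntegral ↥(Algebra.adjoin A ({τ} : Set F)) pb.gen)
    (hunit : ∃ (u : F) (sp : A[X]), IsIntegral ↥(Algebra.adjoin A ({τ} : Set F)) u ∧
      (∃ i, ¬ ϖ ∣ sp.coeff i) ∧ u * Algebra.discr F pb.basis = aeval τ sp) :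
    ∃ (ι : Type) (_ : Fintype ι) (_ : DecidableEq ι)
      (c : Basis ι ↥(IntermediateField.adjoin K ({τ} : Set F)) E) (dp : A[X]),
      (∀ i, IsIntegral ↥(Algebra.adjoin A ({τ} : Set F)) (c i)) ∧
      algebraMap ↥(IntermediateField.adjoin K ({τ} : Set F)) F
        (Algebra.discr ↥(IntermediateField.adjoin K ({τ} : Set F)) c) = aeval τ dp ∧
      ∃ i, ¬ ϖ ∣ dp.coeff i := by
  classical
  refine vertF_tower_basis ϖ hϖ τ hτ hF pb.basis (fun j => ?_) hunit
  rw [PowerBasis.coe_basis]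
  exact hgen.pow _

end VertFTower

section Gauss

variable {A0 F0 : Type*} [CommRing A0] [Field F0] [Algebra A0 F0]
variable {ϖ : A0} {t : F0} {O : ValuationSubring F0}

/-- The unit hypothesis of `vertF_tower` from the Gauss data of the lower field: a unit `x` of
the Gauss place divides, inside the `A0[t]`-integral elements, a primitive polynomial in `t`. -/
theorem exists_mul_eq_aeval_of_gaussData (hG : GaussData ϖ t O) {x : F0} (hx0 : x ≠ 0)
    (hx : x⁻¹ ∈ O) :
    ∃ (u : F0) (sp : A0[X]), IsIntegral ↥(Algebra.adjoin A0 ({t} : Set F0)) u ∧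
      (∃ i, ¬ ϖ ∣ sp.coeff i) ∧ u * x = aeval t sp := by
  obtain ⟨s, hs, hint⟩ := hG.int x⁻¹ hx
  exact ⟨aeval t s * x⁻¹, s, hint, hs, by rw [mul_assoc, inv_mul_cancel₀ hx0, mul_one]⟩

end Gauss

section InvChart

variable {A F E : Type*} [CommRing A] [Field F] [Algebra A F] [Field E] [Algebra F E]

/-- An element of `A[t]` becomes an element of `A[t⁻¹]` after multiplication by a high power of
`t⁻¹`. -/
theorem exists_forall_inv_pow_mul_mem_adjoin_inv (t : F) (ht : t ≠ 0) {x : F}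
    (hx : x ∈ Algebra.adjoin A ({t} : Set F)) :
    ∃ d : ℕ, ∀ e, d ≤ e → t⁻¹ ^ e * x ∈ Algebra.adjoin A ({t⁻¹} : Set F) := by
  rw [Algebra.adjoin_singleton_eq_range_aeval] at hx
  obtain ⟨q, rfl⟩ := hx
  refine ⟨q.natDegree, fun e he => ?_⟩
  show t⁻¹ ^ e * aeval t q ∈ Algebra.adjoin A ({t⁻¹} : Set F)
  rw [aeval_eq_sum_range, Finset.mul_sum]
  refine Subalgebra.sum_mem _ fun i hi => ?_
  have hie : i ≤ e := (Nat.lt_succ_iff.mp (Finset.mem_range.mp hi)).trans he
  have h1 : t⁻¹ ^ e * q.coeff i • t ^ i = algebraMap A F (q.coeff i) * t⁻¹ ^ (e - i) := by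
    rw [Algebra.smul_def, ← Nat.sub_add_cancel hie, pow_add, Nat.add_sub_cancel]
    have h2 : t⁻¹ ^ i * t ^ i = 1 := by
      rw [← mul_pow, inv_mul_cancel₀ ht, one_pow]
    calc t⁻¹ ^ (e - i) * t⁻¹ ^ i * (algebraMap A F (q.coeff i) * t ^ i)
        = algebraMap A F (q.coeff i) * t⁻¹ ^ (e - i) * (t⁻¹ ^ i * t ^ i) := by ring
      _ = algebraMap A F (q.coeff i) * t⁻¹ ^ (e - i) := by rw [h2, mul_one]
  rw [h1]
  exact Subalgebra.mul_mem _ (Subalgebra.algebraMap_mem _ _)
    (Subalgebra.pow_mem _ (Algebra.self_mem_adjoin_singleton A t⁻¹) _)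

/-- **Change of chart for integral elements**: if `y` is integral over `A[t]`, then
`t⁻¹ ^ k * y` is integral over `A[t⁻¹]` for some `k`. -/
theorem exists_isIntegral_inv_pow_mul (t : F) (ht : t ≠ 0) (y : E)
    (hy : IsIntegral ↥(Algebra.adjoin A ({t} : Set F)) y) :
    ∃ k : ℕ, IsIntegral ↥(Algebra.adjoin A ({t⁻¹} : Set F)) (algebraMap F E (t⁻¹ ^ k) * y) := by
  classical
  obtain ⟨p, hpm, hp0⟩ := hy
  set N := p.natDegree with hN
  choose d hd using fun i : ℕ =>
    exists_forall_inv_pow_mul_mem_adjoin_inv (A := A) t ht (p.coeff i).2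
  set k := (Finset.range N).sup d with hk
  have hkd : ∀ i : Fin N, d i ≤ k * (N - i) := by
    intro i
    have h1 : d i ≤ k := Finset.le_sup (f := d) (Finset.mem_range.mpr i.2)
    have h2 : 1 ≤ N - (i : ℕ) := by have := i.2; omega
    calc d i ≤ k := h1
      _ = k * 1 := (mul_one k).symm
      _ ≤ k * (N - i) := Nat.mul_le_mul_left k h2
  let b : Fin N → ↥(Algebra.adjoin A ({t⁻¹} : Set F)) := fun i =>
    ⟨t⁻¹ ^ (k * (N - i)) * ((p.coeff i : ↥(Algebra.adjoin A ({t} : Set F))) : F),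
      hd i _ (hkd i)⟩
  refine ⟨k, X ^ N + ∑ i : Fin N, C (b i) * X ^ (i : ℕ),
    monic_X_pow_add (degree_sum_fin_lt b), ?_⟩
  -- the original equation
  have h0 : y ^ N + ∑ i ∈ Finset.range N,
      algebraMap F E ((p.coeff i : ↥(Algebra.adjoin A ({t} : Set F))) : F) * y ^ i = 0 := by
    have h1 := hp0
    rw [hpm.as_sum, eval₂_add, eval₂_X_pow, eval₂_finsetSum] at h1
    rw [← h1, hN]
    congr 1
    refine Finset.sum_congr rfl fun i _ => ?_
    rw [eval₂_mul, eval₂_C, eval₂_X_pow]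
    rfl
  rw [eval₂_add, eval₂_X_pow, eval₂_finsetSum]
  have h2 : ∀ i : Fin N, eval₂ (algebraMap ↥(Algebra.adjoin A ({t⁻¹} : Set F)) E)
      (algebraMap F E (t⁻¹ ^ k) * y) (C (b i) * X ^ (i : ℕ)) =
      algebraMap F E (t⁻¹ ^ (k * N)) *
        (algebraMap F E ((p.coeff i : ↥(Algebra.adjoin A ({t} : Set F))) : F) * y ^ (i : ℕ)) := by
    intro i
    rw [eval₂_mul, eval₂_C, eval₂_X_pow]
    have h3 : algebraMap ↥(Algebra.adjoin A ({t⁻¹} : Set F)) E (b i) =
        algebraMap F E (t⁻¹ ^ (k * (N - i)) *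
          ((p.coeff i : ↥(Algebra.adjoin A ({t} : Set F))) : F)) := rfl
    have h4 : k * N = k * (N - i) + k * i := by
      rw [← Nat.mul_add, Nat.sub_add_cancel i.2.le]
    rw [h3, h4, pow_add, mul_pow, map_mul, map_mul, map_pow, map_pow, map_pow, pow_mul]
    ring
  rw [Finset.sum_congr rfl fun i _ => h2 i, ← Finset.mul_sum,
    Fin.sum_univ_eq_sum_range
      (fun i => algebraMap F E ((p.coeff i : ↥(Algebra.adjoin A ({t} : Set F))) : F) * y ^ i) N,
    mul_pow, ← map_pow, ← pow_mul, ← mul_add, h0, mul_zero]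

end InvChart

section Combined

variable {A K F E : Type*} [CommRing A] [IsDomain A] [IsIntegrallyClosed A] [Field K]
  [Algebra A K] [IsFractionRing A K] [Field F] [Algebra K F] [Algebra A F] [IsScalarTower A K F]
  [Field E] [Algebra F E] [Algebra K E] [Algebra A E] [IsScalarTower K F E] [IsScalarTower A F E]

/-- **(TD3) with the unit hypothesis discharged by `GaussData`** of the lower field `F`
(only the Gauss place of `F` is used, never one of `E`): if the discriminant of the power basis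
of `E = F[y]` is a unit of the Gauss place `O` of `F`, the `VertF τ` shape lifts from `F` to
`E`. -/
theorem vertF_tower_of_gaussData {ϖ : A} (hϖ : Prime ϖ) {τ : F} (hτ : Transcendental A τ)
    {O : ValuationSubring F} (hG : GaussData ϖ τ O)
    (hF : ∃ (ι : Type) (_ : Fintype ι) (_ : DecidableEq ι)
      (c : Basis ι ↥(IntermediateField.adjoin K ({τ} : Set F)) F) (dp : A[X]),
      (∀ i, IsIntegral ↥(Algebra.adjoin A ({τ} : Set F)) (c i)) ∧
      algebraMap ↥(IntermediateField.adjoin K ({τ} : Set F)) F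
        (Algebra.discr ↥(IntermediateField.adjoin K ({τ} : Set F)) c) = aeval τ dp ∧
      ∃ i, ¬ ϖ ∣ dp.coeff i)
    (pb : PowerBasis F E) (hgen : IsIntegral ↥(Algebra.adjoin A ({τ} : Set F)) pb.gen)
    (hd0 : Algebra.discr F pb.basis ≠ 0) (hd : (Algebra.discr F pb.basis)⁻¹ ∈ O) :
    ∃ (ι : Type) (_ : Fintype ι) (_ : DecidableEq ι)
      (c : Basis ι ↥(IntermediateField.adjoin K ({τ} : Set F)) E) (dp : A[X]),
      (∀ i, IsIntegral ↥(Algebra.adjoin A ({τ} : Set F)) (c i)) ∧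
      algebraMap ↥(IntermediateField.adjoin K ({τ} : Set F)) F
        (Algebra.discr ↥(IntermediateField.adjoin K ({τ} : Set F)) c) = aeval τ dp ∧
      ∃ i, ¬ ϖ ∣ dp.coeff i :=
  vertF_tower ϖ hϖ τ hτ hF pb hgen (exists_mul_eq_aeval_of_gaussData hG hd0 hd)

/-- **(TD3) on the chart at infinity**, from the SAME generator: if `E = F[y]` with `y` integral
over `A[t]` and power-basis discriminant a unit of the Gauss place `O` of `F`, then the
`VertF t⁻¹` shape lifts from `F` to `E` as well (basis `(t⁻¹ ^ k * y) ^ j`, `k` large). -/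
theorem vertF_tower_inv_of_gaussData {ϖ : A} (hϖ : Prime ϖ) {t : F} (ht : Transcendental A t)
    {O : ValuationSubring F} (hG : GaussData ϖ t O)
    (hF : ∃ (ι : Type) (_ : Fintype ι) (_ : DecidableEq ι)
      (c : Basis ι ↥(IntermediateField.adjoin K ({t⁻¹} : Set F)) F) (dp : A[X]),
      (∀ i, IsIntegral ↥(Algebra.adjoin A ({t⁻¹} : Set F)) (c i)) ∧
      algebraMap ↥(IntermediateField.adjoin K ({t⁻¹} : Set F)) F
        (Algebra.discr ↥(IntermediateField.adjoin K ({t⁻¹} : Set F)) c) = aeval t⁻¹ dp ∧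
      ∃ i, ¬ ϖ ∣ dp.coeff i)
    (pb : PowerBasis F E) (hgen : IsIntegral ↥(Algebra.adjoin A ({t} : Set F)) pb.gen)
    (hd0 : Algebra.discr F pb.basis ≠ 0) (hd : (Algebra.discr F pb.basis)⁻¹ ∈ O) :
    ∃ (ι : Type) (_ : Fintype ι) (_ : DecidableEq ι)
      (c : Basis ι ↥(IntermediateField.adjoin K ({t⁻¹} : Set F)) E) (dp : A[X]),
      (∀ i, IsIntegral ↥(Algebra.adjoin A ({t⁻¹} : Set F)) (c i)) ∧
      algebraMap ↥(IntermediateField.adjoin K ({t⁻¹} : Set F)) F
        (Algebra.discr ↥(IntermediateField.adjoin K ({t⁻¹} : Set F)) c) = aeval t⁻¹ dp ∧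
      ∃ i, ¬ ϖ ∣ dp.coeff i := by
  classical
  have ht0 : t ≠ 0 := helper4364.GaussData_t_ne_zero hG
  obtain ⟨k, hk⟩ := exists_isIntegral_inv_pow_mul (A := A) t ht0 pb.gen hgen
  let w : Fin pb.dim → F := fun j => (t⁻¹ ^ k) ^ (j : ℕ)
  have hw0 : ∀ j, w j ≠ 0 := fun j => pow_ne_zero _ (pow_ne_zero _ (inv_ne_zero ht0))
  have hw : ∀ j, IsUnit (w j) := fun j => IsUnit.mk0 _ (hw0 j)
  let c₂ : Basis (Fin pb.dim) F E := pb.basis.isUnitSMul hw
  have hc₂ : ∀ j, c₂ j = (algebraMap F E (t⁻¹ ^ k) * pb.gen) ^ (j : ℕ) := by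
    intro j
    rw [Basis.isUnitSMul_apply, PowerBasis.coe_basis, Algebra.smul_def, mul_pow, map_pow]
  have hc₂int : ∀ j, IsIntegral ↥(Algebra.adjoin A ({t⁻¹} : Set F)) (c₂ j) := fun j => by
    rw [hc₂]
    exact hk.pow _
  have hfun : (c₂ : Fin pb.dim → E) =
      Matrix.mulVec ((Matrix.diagonal w).map (algebraMap F E)) (pb.basis : Fin pb.dim → E) := by
    funext j
    rw [Basis.isUnitSMul_apply, Matrix.diagonal_map (map_zero _), Matrix.mulVec_diagonal,
      Algebra.smul_def]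
  have hdisc : Algebra.discr F c₂ = (∏ j, w j) ^ 2 * Algebra.discr F pb.basis := by
    rw [hfun, Algebra.discr_of_matrix_mulVec, Matrix.det_diagonal]
  have hprod0 : (∏ j, w j) ≠ 0 := Finset.prod_ne_zero_iff.mpr fun j _ => hw0 j
  have hdc0 : Algebra.discr F c₂ ≠ 0 := by
    rw [hdisc]
    exact mul_ne_zero (pow_ne_zero _ hprod0) hd0
  have hwinv : ∀ j, (w j)⁻¹ ∈ O := by
    intro j
    have h1 : (w j)⁻¹ = (t ^ k) ^ (j : ℕ) := by
      simp only [w]
      rw [inv_pow, ← inv_pow, inv_inv]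
    rw [h1]
    exact pow_mem (pow_mem hG.t_mem _) _
  have hdcinv : (Algebra.discr F c₂)⁻¹ ∈ O := by
    rw [hdisc, mul_inv, ← inv_pow, ← Finset.prod_inv_distrib]
    exact mul_mem (pow_mem (prod_mem fun j _ => hwinv j) _) hd
  exact vertF_tower_basis ϖ hϖ t⁻¹ (helper403.transcendental_inv ht) hF c₂ hc₂int
    (exists_mul_eq_aeval_of_gaussData (helper4364.gaussData_inv hG) hdc0 hdcinv)

end Combined

section KDataLevel

variable (D : KData) {m : ℕ}

/-- **(TD3) at the level of a model** (`helper3578.KData`): for a good model whose top field is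
a simple layer `L0 = F0[y]` over the base function field, `y` integral over `A0[t]`, with
power-basis discriminant a unit of the Gauss place `D.O` of `F0`, clause (c) `D.VertF τ` on both
charts `τ = t`, `τ = t⁻¹` follows from the same clause for `F0` itself over `K0(τ)`. -/
theorem kdata_vertF_of_tower (hg : D.Good m) (τ : D.F0) (hτ : τ = D.t ∨ τ = D.t⁻¹)
    (hF : ∃ (ι : Type) (_ : Fintype ι) (_ : DecidableEq ι)
      (c : Basis ι ↥(IntermediateField.adjoin D.K0 ({τ} : Set D.F0)) D.F0) (dp : D.A0[X]),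
      (∀ i, IsIntegral ↥(Algebra.adjoin D.A0 ({τ} : Set D.F0)) (c i)) ∧
      algebraMap ↥(IntermediateField.adjoin D.K0 ({τ} : Set D.F0)) D.F0
        (Algebra.discr ↥(IntermediateField.adjoin D.K0 ({τ} : Set D.F0)) c) = aeval τ dp ∧
      ∃ i, ¬ D.ϖ ∣ dp.coeff i)
    (pb : PowerBasis D.F0 D.L0)
    (hgen : IsIntegral ↥(Algebra.adjoin D.A0 ({D.t} : Set D.F0)) pb.gen)
    (hd0 : Algebra.discr D.F0 pb.basis ≠ 0) (hd : (Algebra.discr D.F0 pb.basis)⁻¹ ∈ D.O) :
    D.VertF τ := by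
  have hϖ : Prime D.ϖ := hg.irr.prime
  have htr : Transcendental D.A0 D.t :=
    hg.transc.restrictScalars (IsFractionRing.injective D.A0 D.K0)
  rcases hτ with rfl | rfl
  · exact vertF_tower_of_gaussData (K := D.K0) hϖ htr hg.gauss hF pb hgen hd0 hd
  · exact vertF_tower_inv_of_gaussData (K := D.K0) hϖ htr hg.gauss hF pb hgen hd0 hd

/-- Both charts at once: the two `VertF` clauses of `helper3578.KData.Supply` for a simple layer
over a base field satisfying them. -/
theorem kdata_vertF_both_of_tower (hg : D.Good m)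
    (hF : ∀ τ : D.F0, (τ = D.t ∨ τ = D.t⁻¹) →
      ∃ (ι : Type) (_ : Fintype ι) (_ : DecidableEq ι)
      (c : Basis ι ↥(IntermediateField.adjoin D.K0 ({τ} : Set D.F0)) D.F0) (dp : D.A0[X]),
      (∀ i, IsIntegral ↥(Algebra.adjoin D.A0 ({τ} : Set D.F0)) (c i)) ∧
      algebraMap ↥(IntermediateField.adjoin D.K0 ({τ} : Set D.F0)) D.F0
        (Algebra.discr ↥(IntermediateField.adjoin D.K0 ({τ} : Set D.F0)) c) = aeval τ dp ∧
      ∃ i, ¬ D.ϖ ∣ dp.coeff i)
    (pb : PowerBasis D.F0 D.L0)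
    (hgen : IsIntegral ↥(Algebra.adjoin D.A0 ({D.t} : Set D.F0)) pb.gen)
    (hd0 : Algebra.discr D.F0 pb.basis ≠ 0) (hd : (Algebra.discr D.F0 pb.basis)⁻¹ ∈ D.O) :
    D.VertF D.t ∧ D.VertF D.t⁻¹ :=
  ⟨kdata_vertF_of_tower D hg D.t (Or.inl rfl) (hF D.t (Or.inl rfl)) pb hgen hd0 hd,
    kdata_vertF_of_tower D hg D.t⁻¹ (Or.inr rfl) (hF D.t⁻¹ (Or.inr rfl)) pb hgen hd0 hd⟩

end KDataLevel

end Fermat.Agent.S48.helper3552
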