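/-
S48, machine half, leaf S48-B-TOWERDISC (helper3552), part 3: the tower step for clause (c)
with a generator which is only integral over the Gauss valuation ring `O` of the lower field
(request (2a) of the T4 owner, `kdata_vertF_of_tower_O`).

* `isIntegral_adjoin_of_isIntegral_adjoin_algebraMap` : integrality over `A[τ_L] ⊆ L` is
  integrality over `A[τ] ⊆ F` (the converse of the transport inside `helper3578.vert_transport`).
* `vertF_tower_scaled_of_gaussData` : the `VertF τ` shape lifts from `F` to `E = F[y]` as soon as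
  SOME multiple `a • y`, `a` a unit of the Gauss place of `F`, is integral over `A[τ]` and the
  power-basis discriminant is a unit of the Gauss place.
* `kdata_vertF_of_tower_O` : model form; the generator is only assumed integral over `D.O`, on
  both charts `τ = t`, `τ = t⁻¹`, and no non-vanishing hypothesis on the discriminant.
-/
import Mathlib
import Fermat.Agent.S18.helper2759_KummerGlobal
import Fermat.Agent.S48.helper3552_TowerVert

set_option autoImplicit false
set_option linter.style.haveILetI false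
set_option linter.unusedSectionVars false

noncomputable section

namespace Fermat.Agent.S48.helper3552

open Module Polynomial
open Fermat.Agent.S18
open Fermat.Agent.S18.helper3578 (GaussData KData)

section Bridge

variable {A F L : Type*} [CommRing A] [Field F] [Field L] [Algebra A F] [Algebra F L]
  [Algebra A L] [IsScalarTower A F L]

/-- Integrality over the chart ring `A[τ_L] ⊆ L` (`τ_L` the image of `τ ∈ F`) is integrality
over `A[τ] ⊆ F`. -/
theorem isIntegral_adjoin_of_isIntegral_adjoin_algebraMap (τ : F) {y : L}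
    (h : IsIntegral ↥(Algebra.adjoin A ({algebraMap F L τ} : Set L)) y) :
    IsIntegral ↥(Algebra.adjoin A ({τ} : Set F)) y := by
  classical
  have hmapA : (Algebra.adjoin A ({τ} : Set F)).map (IsScalarTower.toAlgHom A F L) =
      Algebra.adjoin A ({algebraMap F L τ} : Set L) := by
    rw [AlgHom.map_adjoin_singleton]
    rfl
  let g : ↥(Algebra.adjoin A ({τ} : Set F)) →+*
      ↥(Algebra.adjoin A ({algebraMap F L τ} : Set L)) :=
    { toFun := fun x => ⟨algebraMap F L (x : F), by
        rw [← hmapA]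
        exact ⟨x, x.2, rfl⟩⟩
      map_one' := Subtype.ext (map_one _)
      map_mul' := fun x y => Subtype.ext (map_mul _ _ _)
      map_zero' := Subtype.ext (map_zero _)
      map_add' := fun x y => Subtype.ext (map_add _ _ _) }
  have hg : Function.Surjective g := by
    rintro ⟨x, hx⟩
    have hx' := hx
    rw [← hmapA] at hx'
    obtain ⟨x', hx'', hxx⟩ := hx'
    exact ⟨⟨x', hx''⟩, Subtype.ext hxx⟩
  obtain ⟨p, hp, hp0⟩ := h
  obtain ⟨q, hq, -, hqm⟩ := Polynomial.lifts_and_natDegree_eq_and_monic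
    ((Polynomial.mem_lifts _).mpr (Polynomial.map_surjective g hg p)) hp
  refine ⟨q, hqm, ?_⟩
  have h1 : eval₂ (algebraMap ↥(Algebra.adjoin A ({τ} : Set F)) L) y q =
      eval₂ (algebraMap ↥(Algebra.adjoin A ({algebraMap F L τ} : Set L)) L) y (q.map g) := by
    rw [Polynomial.eval₂_map]
    rfl
  rw [h1, hq]
  exact hp0

end Bridge

section Scaled

variable {A K F E : Type*} [CommRing A] [IsDomain A] [IsIntegrallyClosed A] [Field K]
  [Algebra A K] [IsFractionRing A K] [Field F] [Algebra K F] [Algebra A F] [IsScalarTower A K F]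
  [Field E] [Algebra F E] [Algebra K E] [Algebra A E] [IsScalarTower K F E] [IsScalarTower A F E]

/-- **(TD3) for a rescaled generator.** If `E = F[y]`, some multiple `a • y` with `a` a unit of
the Gauss place `O` of `F` is integral over `A[τ]`, and the power-basis discriminant of `y` is a
unit of `O`, then the `VertF τ` shape lifts from `F` to `E` (basis `(a • y) ^ j`). -/
theorem vertF_tower_scaled_of_gaussData {ϖ : A} (hϖ : Prime ϖ) {τ : F}
    (hτ : Transcendental A τ) {O : ValuationSubring F} (hG : GaussData ϖ τ O)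
    (hF : ∃ (ι : Type) (_ : Fintype ι) (_ : DecidableEq ι)
      (c : Basis ι ↥(IntermediateField.adjoin K ({τ} : Set F)) F) (dp : A[X]),
      (∀ i, IsIntegral ↥(Algebra.adjoin A ({τ} : Set F)) (c i)) ∧
      algebraMap ↥(IntermediateField.adjoin K ({τ} : Set F)) F
        (Algebra.discr ↥(IntermediateField.adjoin K ({τ} : Set F)) c) = aeval τ dp ∧
      ∃ i, ¬ ϖ ∣ dp.coeff i)
    (pb : PowerBasis F E) (a : F) (ha0 : a ≠ 0) (ha : a⁻¹ ∈ O)
    (hgen : IsIntegral ↥(Algebra.adjoin A ({τ} : Set F)) (algebraMap F E a * pb.gen))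
    (hd0 : Algebra.discr F pb.basis ≠ 0) (hd : (Algebra.discr F pb.basis)⁻¹ ∈ O) :
    ∃ (ι : Type) (_ : Fintype ι) (_ : DecidableEq ι)
      (c : Basis ι ↥(IntermediateField.adjoin K ({τ} : Set F)) E) (dp : A[X]),
      (∀ i, IsIntegral ↥(Algebra.adjoin A ({τ} : Set F)) (c i)) ∧
      algebraMap ↥(IntermediateField.adjoin K ({τ} : Set F)) F
        (Algebra.discr ↥(IntermediateField.adjoin K ({τ} : Set F)) c) = aeval τ dp ∧
      ∃ i, ¬ ϖ ∣ dp.coeff i := by
  classical
  let w : Fin pb.dim → F := fun j => a ^ (j : ℕ)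
  have hw0 : ∀ j, w j ≠ 0 := fun j => pow_ne_zero _ ha0
  have hw : ∀ j, IsUnit (w j) := fun j => IsUnit.mk0 _ (hw0 j)
  let c₂ : Basis (Fin pb.dim) F E := pb.basis.isUnitSMul hw
  have hc₂ : ∀ j, c₂ j = (algebraMap F E a * pb.gen) ^ (j : ℕ) := by
    intro j
    rw [Basis.isUnitSMul_apply, PowerBasis.coe_basis, Algebra.smul_def, mul_pow, map_pow]
  have hc₂int : ∀ j, IsIntegral ↥(Algebra.adjoin A ({τ} : Set F)) (c₂ j) := fun j => by
    rw [hc₂]
    exact hgen.pow _
  have hfun : (c₂ : Fin pb.dim → E) =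
      Matrix.mulVec ((Matrix.diagonal w).map (algebraMap F E)) (pb.basis : Fin pb.dim → E) := by
    funext j
    rw [Basis.isUnitSMul_apply, Matrix.diagonal_map (map_zero _), Matrix.mulVec_diagonal,
      Algebra.smul_def]
  have hdisc : Algebra.discr F c₂ = (∏ j, w j) ^ 2 * Algebra.discr F pb.basis := by
    rw [hfun, Algebra.discr_of_matrix_mulVec, Matrix.det_diagonal]
  have hprod0 : (∏ j, w j) ≠ 0 := Finset.prod_ne_zero_iff.mpr fun j _ => hw0 j
  have hdc0 : Algebra.discr F c₂ ≠ 0 := by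
    rw [hdisc]
    exact mul_ne_zero (pow_ne_zero _ hprod0) hd0
  have hwinv : ∀ j, (w j)⁻¹ ∈ O := by
    intro j
    have h1 : (w j)⁻¹ = a⁻¹ ^ (j : ℕ) := by
      simp only [w]
      rw [inv_pow]
    rw [h1]
    exact pow_mem ha _
  have hdcinv : (Algebra.discr F c₂)⁻¹ ∈ O := by
    rw [hdisc, mul_inv, ← inv_pow, ← Finset.prod_inv_distrib]
    exact mul_mem (pow_mem (prod_mem fun j _ => hwinv j) _) hd
  exact vertF_tower_basis ϖ hϖ τ hτ hF c₂ hc₂int
    (exists_mul_eq_aeval_of_gaussData hG hdc0 hdcinv)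

end Scaled

section KDataLevelO

variable (D : KData) {m : ℕ}

/-- **(TD3) at the level of a model, generator integral over the Gauss ring only**: for a good
model whose top field is a simple layer `L0 = F0[y]`, `y` integral over the Gauss valuation ring
`D.O` of `F0`, with power-basis discriminant a unit of `D.O`, clause (c) `D.VertF τ` on either
chart `τ = t`, `τ = t⁻¹` follows from the same clause for `F0` itself over `K0(τ)`. -/
theorem kdata_vertF_of_tower_O (hg : D.Good m) (τ : D.F0) (hτ : τ = D.t ∨ τ = D.t⁻¹)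
    (hF : ∃ (ι : Type) (_ : Fintype ι) (_ : DecidableEq ι)
      (c : Basis ι ↥(IntermediateField.adjoin D.K0 ({τ} : Set D.F0)) D.F0) (dp : D.A0[X]),
      (∀ i, IsIntegral ↥(Algebra.adjoin D.A0 ({τ} : Set D.F0)) (c i)) ∧
      algebraMap ↥(IntermediateField.adjoin D.K0 ({τ} : Set D.F0)) D.F0
        (Algebra.discr ↥(IntermediateField.adjoin D.K0 ({τ} : Set D.F0)) c) = aeval τ dp ∧
      ∃ i, ¬ D.ϖ ∣ dp.coeff i)
    (pb : PowerBasis D.F0 D.L0) (hgen : IsIntegral ↥D.O pb.gen)
    (hd : (Algebra.discr D.F0 pb.basis)⁻¹ ∈ D.O) :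
    D.VertF τ := by
  have hϖ : Prime D.ϖ := hg.irr.prime
  have htr : Transcendental D.A0 D.t :=
    hg.transc.restrictScalars (IsFractionRing.injective D.A0 D.K0)
  have hGτ : GaussData D.ϖ τ D.O := by
    rcases hτ with rfl | rfl
    · exact hg.gauss
    · exact helper4364.gaussData_inv hg.gauss
  have hτtr : Transcendental D.A0 τ := by
    rcases hτ with rfl | rfl
    · exact htr
    · exact helper403.transcendental_inv htr
  obtain ⟨s, hs1, hs2⟩ := helper2759.exists_unit_mul_isIntegral hGτ (x := pb.gen) hgen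
  have ha0 : aeval τ s ≠ 0 := by
    intro h
    rw [h, map_zero] at hs1
    exact zero_ne_one hs1
  have ha : (aeval τ s)⁻¹ ∈ D.O := by
    rw [← ValuationSubring.valuation_le_one_iff, map_inv₀, hs1, inv_one]
  have hd0 : Algebra.discr D.F0 pb.basis ≠ 0 := by
    haveI : FiniteDimensional D.F0 D.L0 := pb.finite
    haveI : CharZero D.F0 := charZero_of_injective_algebraMap (algebraMap D.K0 D.F0).injective
    haveI : Algebra.IsSeparable D.F0 D.L0 := Algebra.IsAlgebraic.isSeparable_of_perfectField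
    exact Algebra.discr_not_zero_of_basis D.F0 pb.basis
  have hint : IsIntegral ↥(Algebra.adjoin D.A0 ({τ} : Set D.F0))
      (algebraMap D.F0 D.L0 (aeval τ s) * pb.gen) := by
    have h1 := isIntegral_adjoin_of_isIntegral_adjoin_algebraMap (A := D.A0) τ hs2
    rwa [Polynomial.aeval_algebraMap_apply] at h1
  exact vertF_tower_scaled_of_gaussData (K := D.K0) hϖ hτtr hGτ hF pb (aeval τ s) ha0 ha hint
    hd0 hd

/-- Both charts at once. -/
theorem kdata_vertF_both_of_tower_O (hg : D.Good m)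
    (hF : ∀ τ : D.F0, (τ = D.t ∨ τ = D.t⁻¹) →
      ∃ (ι : Type) (_ : Fintype ι) (_ : DecidableEq ι)
      (c : Basis ι ↥(IntermediateField.adjoin D.K0 ({τ} : Set D.F0)) D.F0) (dp : D.A0[X]),
      (∀ i, IsIntegral ↥(Algebra.adjoin D.A0 ({τ} : Set D.F0)) (c i)) ∧
      algebraMap ↥(IntermediateField.adjoin D.K0 ({τ} : Set D.F0)) D.F0
        (Algebra.discr ↥(IntermediateField.adjoin D.K0 ({τ} : Set D.F0)) c) = aeval τ dp ∧
      ∃ i, ¬ D.ϖ ∣ dp.coeff i)
    (pb : PowerBasis D.F0 D.L0) (hgen : IsIntegral ↥D.O pb.gen)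
    (hd : (Algebra.discr D.F0 pb.basis)⁻¹ ∈ D.O) :
    D.VertF D.t ∧ D.VertF D.t⁻¹ :=
  ⟨kdata_vertF_of_tower_O D hg D.t (Or.inl rfl) (hF D.t (Or.inl rfl)) pb hgen hd,
    kdata_vertF_of_tower_O D hg D.t⁻¹ (Or.inr rfl) (hF D.t⁻¹ (Or.inr rfl)) pb hgen hd⟩

/-- The chart-level form (`helper3578.KData.VertAt`, everything inside `L0`) on both charts:
the two (c)-hypotheses of `helper3578.Stmt_DNChart` / `helper648.oneComp_of_vert_bar`. -/
theorem kdata_vertAt_both_of_tower_O (hg : D.Good m)
    (hF : ∀ τ : D.F0, (τ = D.t ∨ τ = D.t⁻¹) →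
      ∃ (ι : Type) (_ : Fintype ι) (_ : DecidableEq ι)
      (c : Basis ι ↥(IntermediateField.adjoin D.K0 ({τ} : Set D.F0)) D.F0) (dp : D.A0[X]),
      (∀ i, IsIntegral ↥(Algebra.adjoin D.A0 ({τ} : Set D.F0)) (c i)) ∧
      algebraMap ↥(IntermediateField.adjoin D.K0 ({τ} : Set D.F0)) D.F0
        (Algebra.discr ↥(IntermediateField.adjoin D.K0 ({τ} : Set D.F0)) c) = aeval τ dp ∧
      ∃ i, ¬ D.ϖ ∣ dp.coeff i)
    (pb : PowerBasis D.F0 D.L0) (hgen : IsIntegral ↥D.O pb.gen)
    (hd : (Algebra.discr D.F0 pb.basis)⁻¹ ∈ D.O) :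
    D.VertAt D.tL ∧ D.VertAt D.tL⁻¹ := by
  obtain ⟨h0, h1⟩ := kdata_vertF_both_of_tower_O D hg hF pb hgen hd
  refine ⟨D.vertAt_of_vertF D.t h0, ?_⟩
  have h := D.vertAt_of_vertF D.t⁻¹ h1
  rwa [map_inv₀] at h

end KDataLevelO

end Fermat.Agent.S48.helper3552
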