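/-
S48, leaf F0 (nebentypus / V_p-lemma), group-theoretic half.

`Gamma1(N)` and its conjugate by `diag(p, 1)` generate (at least) every element of
`Gamma0(N)[1/p]` which is congruent to `[[1, *], [0, 1]]` modulo `N`; in particular the
unipotent matrices `[[1, p^(-m)], [0, 1]]`.  Deduced from the `Gamma0` generation theorem
`Fermat.Agent.S41.helper5755.deltaQ_induction` by a normal-closure argument.
-/
import Mathlib
import Fermat.Agent.S41.helper5755_Generation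

set_option autoImplicit false

namespace Fermat.Agent.S48.helper3685

open Matrix MatrixGroups
open Fermat.Agent.S41.helper5755

/-! ### entries of inverses in `SL(2, R)` -/

section entries

variable {R : Type*} [CommRing R]

theorem sl_inv_00 (g : SL(2, R)) : (g⁻¹) 0 0 = g 1 1 := by
  rw [Matrix.SpecialLinearGroup.SL2_inv_expl g]; rfl

theorem sl_inv_01 (g : SL(2, R)) : (g⁻¹) 0 1 = -g 0 1 := by
  rw [Matrix.SpecialLinearGroup.SL2_inv_expl g]; rfl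

theorem sl_inv_10 (g : SL(2, R)) : (g⁻¹) 1 0 = -g 1 0 := by
  rw [Matrix.SpecialLinearGroup.SL2_inv_expl g]; rfl

theorem sl_inv_11 (g : SL(2, R)) : (g⁻¹) 1 1 = g 0 0 := by
  rw [Matrix.SpecialLinearGroup.SL2_inv_expl g]; rfl

end entries

/-! ### `Gamma1(N)` inside `Gamma0(N)` -/

section gamma1

variable {N : ℕ}

theorem zmod_det (γ : SL(2, ℤ)) :
    ((γ 0 0 : ℤ) : ZMod N) * ((γ 1 1 : ℤ) : ZMod N)
      - ((γ 0 1 : ℤ) : ZMod N) * ((γ 1 0 : ℤ) : ZMod N) = 1 := by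
  have h := congrArg (Int.cast : ℤ → ZMod N) (sl_det γ)
  push_cast at h
  exact h

theorem gamma1_of {γ : SL(2, ℤ)} (h0 : γ ∈ CongruenceSubgroup.Gamma0 N)
    (h1 : ((γ 1 1 : ℤ) : ZMod N) = 1) : γ ∈ CongruenceSubgroup.Gamma1 N := by
  rw [CongruenceSubgroup.Gamma0_mem] at h0
  rw [CongruenceSubgroup.Gamma1_mem]
  refine ⟨?_, h1, h0⟩
  have h := zmod_det (N := N) γ
  rw [h0, h1] at h
  linear_combination h

theorem gamma0_of_gamma1 {γ : SL(2, ℤ)} (h : γ ∈ CongruenceSubgroup.Gamma1 N) :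
    γ ∈ CongruenceSubgroup.Gamma0 N := by
  rw [CongruenceSubgroup.Gamma1_mem] at h
  rw [CongruenceSubgroup.Gamma0_mem]
  exact h.2.2

theorem gamma1_11 {γ : SL(2, ℤ)} (h : γ ∈ CongruenceSubgroup.Gamma1 N) :
    ((γ 1 1 : ℤ) : ZMod N) = 1 := by
  rw [CongruenceSubgroup.Gamma1_mem] at h
  exact h.2.1

theorem gamma1_00 {γ : SL(2, ℤ)} (h : γ ∈ CongruenceSubgroup.Gamma1 N) :
    ((γ 0 0 : ℤ) : ZMod N) = 1 := by
  rw [CongruenceSubgroup.Gamma1_mem] at h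
  exact h.1

theorem gamma0_10 {γ : SL(2, ℤ)} (h : γ ∈ CongruenceSubgroup.Gamma0 N) :
    ((γ 1 0 : ℤ) : ZMod N) = 0 := by
  rw [CongruenceSubgroup.Gamma0_mem] at h
  exact h

/-- On `Gamma0(N)` the lower right entry modulo `N` is multiplicative. -/
theorem gamma0_mul_11 {a : SL(2, ℤ)} (ha : a ∈ CongruenceSubgroup.Gamma0 N) (b : SL(2, ℤ)) :
    (((a * b) 1 1 : ℤ) : ZMod N) = ((a 1 1 : ℤ) : ZMod N) * ((b 1 1 : ℤ) : ZMod N) := by
  rw [sl_mul_11]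
  push_cast
  rw [gamma0_10 ha]
  ring

/-- On `Gamma0(N)`, `a_00 * a_11 = 1` modulo `N`. -/
theorem gamma0_00_mul_11 {a : SL(2, ℤ)} (ha : a ∈ CongruenceSubgroup.Gamma0 N) :
    ((a 0 0 : ℤ) : ZMod N) * ((a 1 1 : ℤ) : ZMod N) = 1 := by
  have h := zmod_det (N := N) a
  rw [gamma0_10 ha] at h
  linear_combination h

theorem gamma0_inv_11 (a : SL(2, ℤ)) :
    (((a⁻¹) 1 1 : ℤ) : ZMod N) = ((a 0 0 : ℤ) : ZMod N) := by
  rw [sl_inv_11]

/-- Two elements of `Gamma0(N)` with the same lower right entry modulo `N` differ by an element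
of `Gamma1(N)`. -/
theorem mul_inv_mem_gamma1 {γ c : SL(2, ℤ)} (hγ : γ ∈ CongruenceSubgroup.Gamma0 N)
    (hc : c ∈ CongruenceSubgroup.Gamma0 N)
    (h : ((γ 1 1 : ℤ) : ZMod N) = ((c 1 1 : ℤ) : ZMod N)) :
    γ * c⁻¹ ∈ CongruenceSubgroup.Gamma1 N := by
  refine gamma1_of (Subgroup.mul_mem _ hγ (Subgroup.inv_mem _ hc)) ?_
  rw [gamma0_mul_11 hγ, gamma0_inv_11, h, mul_comm]
  exact gamma0_00_mul_11 hc

/-- `Gamma0(N)` normalises `Gamma1(N)`. -/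
theorem conj_mem_gamma1 {c γ : SL(2, ℤ)} (hc : c ∈ CongruenceSubgroup.Gamma0 N)
    (hγ : γ ∈ CongruenceSubgroup.Gamma1 N) : c * γ * c⁻¹ ∈ CongruenceSubgroup.Gamma1 N := by
  have hγ0 := gamma0_of_gamma1 hγ
  refine gamma1_of (Subgroup.mul_mem _ (Subgroup.mul_mem _ hc hγ0) (Subgroup.inv_mem _ hc)) ?_
  rw [gamma0_mul_11 (Subgroup.mul_mem _ hc hγ0), gamma0_mul_11 hc, gamma0_inv_11, gamma1_11 hγ,
    mul_one, mul_comm]
  exact gamma0_00_mul_11 hc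

/-- A product of an element of `Gamma0(N)` with lower right entry `u` and one with lower right
entry `v`, `u * v = 1` modulo `N`, lies in `Gamma1(N)`. -/
theorem mul_mem_gamma1 {a b : SL(2, ℤ)} (ha : a ∈ CongruenceSubgroup.Gamma0 N)
    (hb : b ∈ CongruenceSubgroup.Gamma0 N)
    (h : ((a 1 1 : ℤ) : ZMod N) * ((b 1 1 : ℤ) : ZMod N) = 1) :
    a * b ∈ CongruenceSubgroup.Gamma1 N := by
  refine gamma1_of (Subgroup.mul_mem _ ha hb) ?_
  rw [gamma0_mul_11 ha, h]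

end gamma1

/-! ### the two copies of `Gamma1(N)` and the group they generate -/

/-- The image of `Gamma1(N)` in `SL(2, ℚ)`. -/
def gamma1Q (N : ℕ) : Subgroup SL(2, ℚ) := (CongruenceSubgroup.Gamma1 N).map mapQ

/-- The conjugate of (the image of) `Gamma1(N)` by `diag(q, 1)`. -/
def gamma1Qc (N q : ℕ) (hq : q ≠ 0) : Subgroup SL(2, ℚ) := (gamma1Q N).map (conjD q hq)

/-- The subgroup of `SL(2, ℚ)` generated by `Gamma1(N)` and its `diag(q, 1)`-conjugate. -/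
def gen1 (N q : ℕ) (hq : q ≠ 0) : Subgroup SL(2, ℚ) := gamma1Q N ⊔ gamma1Qc N q hq

theorem mapQ_mem_gen1 {N q : ℕ} (hq : q ≠ 0) {γ : SL(2, ℤ)}
    (hγ : γ ∈ CongruenceSubgroup.Gamma1 N) : mapQ γ ∈ gen1 N q hq :=
  (le_sup_left : gamma1Q N ≤ gen1 N q hq) (Subgroup.mem_map_of_mem _ hγ)

theorem conjD_mapQ_mem_gen1 {N q : ℕ} (hq : q ≠ 0) {γ : SL(2, ℤ)}
    (hγ : γ ∈ CongruenceSubgroup.Gamma1 N) : conjD q hq (mapQ γ) ∈ gen1 N q hq :=
  (le_sup_right : gamma1Qc N q hq ≤ gen1 N q hq)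
    (Subgroup.mem_map_of_mem _ (Subgroup.mem_map_of_mem _ hγ))

/-! ### the congruence invariant -/

/-- The matrices of `SL(2, ℚ)` with entries in `ℤ[1/q]` which are congruent to
`[[1, *], [0, 1]]` modulo `N` (phrased with a common denominator `q ^ k`). -/
def congSub (N q : ℕ) : Subgroup SL(2, ℚ) where
  carrier := {x | ∃ (k : ℕ) (A B C D : ℤ), x 0 0 * (q : ℚ) ^ k = A ∧ x 0 1 * (q : ℚ) ^ k = B ∧
    x 1 0 * (q : ℚ) ^ k = C ∧ x 1 1 * (q : ℚ) ^ k = D ∧ (N : ℤ) ∣ C ∧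
    (N : ℤ) ∣ A - (q : ℤ) ^ k ∧ (N : ℤ) ∣ D - (q : ℤ) ^ k}
  one_mem' := by
    refine ⟨0, 1, 0, 0, 1, ?_, ?_, ?_, ?_, dvd_zero _, ?_, ?_⟩ <;> simp
  mul_mem' := by
    rintro x y ⟨k, A, B, C, D, hA, hB, hC, hD, hNC, hNA, hND⟩
      ⟨k', A', B', C', D', hA', hB', hC', hD', hNC', hNA', hND'⟩
    refine ⟨k + k', A * A' + B * C', A * B' + B * D', C * A' + D * C', C * B' + D * D',
      ?_, ?_, ?_, ?_, ?_, ?_, ?_⟩
    · rw [sl_mul_00]; push_cast; rw [← hA, ← hB, ← hA', ← hC']; ring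
    · rw [sl_mul_01]; push_cast; rw [← hA, ← hB, ← hB', ← hD']; ring
    · rw [sl_mul_10]; push_cast; rw [← hC, ← hD, ← hA', ← hC']; ring
    · rw [sl_mul_11]; push_cast; rw [← hC, ← hD, ← hB', ← hD']; ring
    · exact dvd_add (Dvd.dvd.mul_right hNC _) (Dvd.dvd.mul_left hNC' _)
    · have h : A * A' + B * C' - (q : ℤ) ^ (k + k')
          = (A - (q : ℤ) ^ k) * A' + (q : ℤ) ^ k * (A' - (q : ℤ) ^ k') + B * C' := by ring
      rw [h]
      exact dvd_add (dvd_add (Dvd.dvd.mul_right hNA _) (Dvd.dvd.mul_left hNA' _))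
        (Dvd.dvd.mul_left hNC' _)
    · have h : C * B' + D * D' - (q : ℤ) ^ (k + k')
          = C * B' + (D - (q : ℤ) ^ k) * D' + (q : ℤ) ^ k * (D' - (q : ℤ) ^ k') := by ring
      rw [h]
      exact dvd_add (dvd_add (Dvd.dvd.mul_right hNC _) (Dvd.dvd.mul_right hND _))
        (Dvd.dvd.mul_left hND' _)
  inv_mem' := by
    rintro x ⟨k, A, B, C, D, hA, hB, hC, hD, hNC, hNA, hND⟩
    refine ⟨k, D, -B, -C, A, ?_, ?_, ?_, ?_, (dvd_neg).2 hNC, hND, hNA⟩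
    · rw [sl_inv_00]; exact hD
    · rw [sl_inv_01]; push_cast; rw [← hB]; ring
    · rw [sl_inv_10]; push_cast; rw [← hC]; ring
    · rw [sl_inv_11]; exact hA

theorem mapQ_mem_congSub {N : ℕ} (q : ℕ) {γ : SL(2, ℤ)}
    (hγ : γ ∈ CongruenceSubgroup.Gamma1 N) : mapQ γ ∈ congSub N q := by
  refine ⟨0, γ 0 0, γ 0 1, γ 1 0, γ 1 1, ?_, ?_, ?_, ?_, ?_, ?_, ?_⟩
  · rw [mapQ_apply, pow_zero, mul_one]
  · rw [mapQ_apply, pow_zero, mul_one]
  · rw [mapQ_apply, pow_zero, mul_one]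
  · rw [mapQ_apply, pow_zero, mul_one]
  · exact (ZMod.intCast_zmod_eq_zero_iff_dvd _ _).1 (gamma0_10 (gamma0_of_gamma1 hγ))
  · rw [pow_zero, ← ZMod.intCast_zmod_eq_zero_iff_dvd]; push_cast; rw [gamma1_00 hγ, sub_self]
  · rw [pow_zero, ← ZMod.intCast_zmod_eq_zero_iff_dvd]; push_cast; rw [gamma1_11 hγ, sub_self]

theorem conjD_mapQ_mem_congSub {N q : ℕ} (hq : q ≠ 0) {γ : SL(2, ℤ)}
    (hγ : γ ∈ CongruenceSubgroup.Gamma1 N) : conjD q hq (mapQ γ) ∈ congSub N q := by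
  have hq0 : (q : ℚ) ≠ 0 := Nat.cast_ne_zero.2 hq
  have h10 : (N : ℤ) ∣ γ 1 0 :=
    (ZMod.intCast_zmod_eq_zero_iff_dvd _ _).1 (gamma0_10 (gamma0_of_gamma1 hγ))
  have h00 : (N : ℤ) ∣ γ 0 0 - 1 := by
    rw [← ZMod.intCast_zmod_eq_zero_iff_dvd]; push_cast; rw [gamma1_00 hγ, sub_self]
  have h11 : (N : ℤ) ∣ γ 1 1 - 1 := by
    rw [← ZMod.intCast_zmod_eq_zero_iff_dvd]; push_cast; rw [gamma1_11 hγ, sub_self]
  refine ⟨1, q * γ 0 0, q * q * γ 0 1, γ 1 0, q * γ 1 1, ?_, ?_, ?_, ?_, h10, ?_, ?_⟩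
  · rw [conjD_00, mapQ_apply]; push_cast; ring
  · rw [conjD_01, mapQ_apply]; push_cast; ring
  · rw [conjD_10, mapQ_apply]; field_simp
  · rw [conjD_11, mapQ_apply]; push_cast; ring
  · have h : (q : ℤ) * γ 0 0 - (q : ℤ) ^ 1 = q * (γ 0 0 - 1) := by ring
    rw [h]; exact Dvd.dvd.mul_left h00 _
  · have h : (q : ℤ) * γ 1 1 - (q : ℤ) ^ 1 = q * (γ 1 1 - 1) := by ring
    rw [h]; exact Dvd.dvd.mul_left h11 _

theorem gen1_le_congSub (N : ℕ) {q : ℕ} (hq : q ≠ 0) : gen1 N q hq ≤ congSub N q := by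
  refine sup_le ?_ ?_
  · rintro _ ⟨γ, hγ, rfl⟩
    exact mapQ_mem_congSub q hγ
  · rintro _ ⟨_, ⟨γ, hγ, rfl⟩, rfl⟩
    exact conjD_mapQ_mem_congSub hq hγ

theorem e12_mem_congSub (N : ℕ) {q : ℕ} {x : ℚ} (hx : x ∈ zInv q) : e12 x ∈ congSub N q := by
  obtain ⟨k, m, hx⟩ := hx
  refine ⟨k, (q : ℤ) ^ k, m, 0, (q : ℤ) ^ k, ?_, hx, ?_, ?_, dvd_zero _, ?_, ?_⟩
  · show (1 : ℚ) * (q : ℚ) ^ k = ((q : ℤ) ^ k : ℤ); push_cast; ring
  · show (0 : ℚ) * (q : ℚ) ^ k = ((0 : ℤ) : ℚ); push_cast; ring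
  · show (1 : ℚ) * (q : ℚ) ^ k = ((q : ℤ) ^ k : ℤ); push_cast; ring
  · rw [sub_self]; exact dvd_zero _
  · rw [sub_self]; exact dvd_zero _

/-- An integral matrix of `Gamma0(N)` lying in `congSub` is in `Gamma1(N)`. -/
theorem gamma1_of_mapQ_mem_congSub {N q : ℕ} (hNq : Nat.Coprime N q) {γ : SL(2, ℤ)}
    (h0 : γ ∈ CongruenceSubgroup.Gamma0 N) (h : mapQ γ ∈ congSub N q) :
    γ ∈ CongruenceSubgroup.Gamma1 N := by
  obtain ⟨k, A, B, C, D, -, -, -, hD, -, -, hND⟩ := h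
  refine gamma1_of h0 ?_
  have hD' : D = γ 1 1 * (q : ℤ) ^ k := by
    rw [mapQ_apply] at hD
    exact_mod_cast hD.symm
  have hcop : IsCoprime (N : ℤ) ((q : ℤ) ^ k) :=
    IsCoprime.pow_right (Nat.isCoprime_iff_coprime.2 hNq)
  have h1 : (N : ℤ) ∣ (γ 1 1 - 1) * (q : ℤ) ^ k := by
    have h2 : (γ 1 1 - 1) * (q : ℤ) ^ k = D - (q : ℤ) ^ k := by rw [hD']; ring
    rw [h2]; exact hND
  have h3 : (N : ℤ) ∣ γ 1 1 - 1 := hcop.dvd_of_dvd_mul_right h1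
  have h4 := (ZMod.intCast_zmod_eq_zero_iff_dvd _ _).2 h3
  push_cast at h4
  linear_combination h4

/-! ### representatives of `Gamma0(N) / Gamma1(N)` adapted to `diag(p, 1)` -/

/-- Every class of `Gamma0(N)` modulo `Gamma1(N)` has a representative `c0` with upper right
entry divisible by `p`, which is the `diag(p, 1)`-conjugate of another element `c1` of
`Gamma0(N)` in the same class. -/
theorem exists_rep {N p : ℕ} (hp : p.Prime) (hNp : Nat.Coprime N p) {γ : SL(2, ℤ)}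
    (hγ : γ ∈ CongruenceSubgroup.Gamma0 N) :
    ∃ c0 c1 : SL(2, ℤ), c0 ∈ CongruenceSubgroup.Gamma0 N ∧ c1 ∈ CongruenceSubgroup.Gamma0 N ∧
      (p : ℤ) ∣ c0 0 1 ∧ ((c0 1 1 : ℤ) : ZMod N) = ((γ 1 1 : ℤ) : ZMod N) ∧
      ((c1 1 1 : ℤ) : ZMod N) = ((γ 1 1 : ℤ) : ZMod N) ∧
      mapQ c0 = conjD p hp.ne_zero (mapQ c1) := by
  have hpp : Prime (p : ℤ) := Nat.prime_iff_prime_int.1 hp
  have hNp' : IsCoprime (N : ℤ) (p : ℤ) := Nat.isCoprime_iff_coprime.2 hNp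
  -- `d = γ_11` is coprime to `N`
  have hdN : IsCoprime (γ 1 1) (N : ℤ) := by
    obtain ⟨e, he⟩ := gamma0_dvd hγ
    refine ⟨γ 0 0, -(γ 0 1 * e), ?_⟩
    have h := sl_det γ
    rw [he] at h
    linear_combination h
  -- choose `d' ≡ d` modulo `N` prime to `p`
  obtain ⟨d', hd'N, hd'p, hd'⟩ : ∃ d' : ℤ, IsCoprime d' (N : ℤ) ∧ ¬ (p : ℤ) ∣ d' ∧
      ((d' : ℤ) : ZMod N) = ((γ 1 1 : ℤ) : ZMod N) := by
    by_cases h : (p : ℤ) ∣ γ 1 1
    · refine ⟨γ 1 1 + N, ?_, ?_, ?_⟩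
      · obtain ⟨u, v, huv⟩ := hdN
        exact ⟨u, v - u, by linear_combination huv⟩
      · intro h2
        have h3 : (p : ℤ) ∣ (N : ℤ) := by
          have h4 : (N : ℤ) = (γ 1 1 + N) - γ 1 1 := by ring
          rw [h4]; exact dvd_sub h2 h
        exact hpp.not_isUnit (hNp'.symm.isUnit_of_dvd' dvd_rfl h3)
      · push_cast; simp
    · exact ⟨γ 1 1, hdN, h, rfl⟩
  have hd'p' : IsCoprime d' (p : ℤ) := by
    rw [isCoprime_comm]
    exact (Prime.coprime_iff_not_dvd hpp).2 hd'p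
  obtain ⟨a', t, hat⟩ : IsCoprime d' ((N : ℤ) * p) := IsCoprime.mul_right hd'N hd'p'
  refine ⟨mk2 a' (-((p : ℤ) * t)) N d' (by linear_combination hat),
    mk2 a' (-t) ((N : ℤ) * p) d' (by linear_combination hat),
    gamma0_of_dvd (by rw [mk2_10]), gamma0_of_dvd (by rw [mk2_10]; exact Dvd.intro _ rfl),
    ?_, ?_, ?_, ?_⟩
  · rw [mk2_01]; exact (dvd_neg).2 (Dvd.intro _ rfl)
  · rw [mk2_11]; exact hd'
  · rw [mk2_11]; exact hd'
  · have hp0 : (p : ℚ) ≠ 0 := Nat.cast_ne_zero.2 hp.ne_zero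
    apply sl_ext
    · rw [conjD_00, mapQ_apply, mapQ_apply, mk2_00, mk2_00]
    · rw [conjD_01, mapQ_apply, mapQ_apply, mk2_01, mk2_01]; push_cast; ring
    · rw [conjD_10, mapQ_apply, mapQ_apply, mk2_10, mk2_10]; push_cast; field_simp
    · rw [conjD_11, mapQ_apply, mapQ_apply, mk2_11, mk2_11]

/-! ### the normal-closure argument -/

/-- Integral elements of `Gamma0(N)` with upper right entry divisible by `p` normalise the group
generated by `Gamma1(N)` and its `diag(p, 1)`-conjugate. -/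
theorem conj_mem_gen1 {N p : ℕ} (hp : p ≠ 0) {c0 : SL(2, ℤ)}
    (h0 : c0 ∈ CongruenceSubgroup.Gamma0 N) (hp01 : (p : ℤ) ∣ c0 0 1) {κ : SL(2, ℚ)}
    (hκ : κ ∈ gen1 N p hp) : mapQ c0 * κ * (mapQ c0)⁻¹ ∈ gen1 N p hp := by
  have hp0 : (p : ℚ) ≠ 0 := Nat.cast_ne_zero.2 hp
  -- `c0` is the `diag(p, 1)`-conjugate of an element `c1` of `Gamma0(N)`
  obtain ⟨b', hb'⟩ := hp01
  have hdet : c0 0 0 * c0 1 1 - b' * ((p : ℤ) * c0 1 0) = 1 := by
    have h := sl_det c0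
    rw [hb'] at h
    linear_combination h
  obtain ⟨c1, hc1, hc01⟩ : ∃ c1 : SL(2, ℤ), c1 ∈ CongruenceSubgroup.Gamma0 N ∧
      mapQ c0 = conjD p hp (mapQ c1) := by
    refine ⟨mk2 (c0 0 0) b' ((p : ℤ) * c0 1 0) (c0 1 1) hdet, gamma0_of_dvd ?_, ?_⟩
    · rw [mk2_10]; exact Dvd.dvd.mul_left (gamma0_dvd h0) _
    · apply sl_ext
      · rw [conjD_00, mapQ_apply, mapQ_apply, mk2_00]
      · rw [conjD_01, mapQ_apply, mapQ_apply, mk2_01, hb']; push_cast; ring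
      · rw [conjD_10, mapQ_apply, mapQ_apply, mk2_10]; push_cast; field_simp
      · rw [conjD_11, mapQ_apply, mapQ_apply, mk2_11]
  have hle : gen1 N p hp ≤ (gen1 N p hp).comap (MulAut.conj (mapQ c0)).toMonoidHom := by
    refine sup_le ?_ ?_
    · rintro _ ⟨γ, hγ, rfl⟩
      rw [Subgroup.mem_comap]
      show MulAut.conj (mapQ c0) (mapQ γ) ∈ gen1 N p hp
      rw [MulAut.conj_apply, ← map_mul, ← map_inv, ← map_mul]
      exact mapQ_mem_gen1 hp (conj_mem_gamma1 h0 hγ)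
    · rintro _ ⟨_, ⟨γ, hγ, rfl⟩, rfl⟩
      rw [Subgroup.mem_comap]
      show MulAut.conj (mapQ c0) (conjD p hp (mapQ γ)) ∈ gen1 N p hp
      rw [MulAut.conj_apply, hc01, ← map_mul, ← map_inv, ← map_mul, ← map_mul, ← map_inv,
        ← map_mul]
      exact conjD_mapQ_mem_gen1 hp (conj_mem_gamma1 hc1 hγ)
  have h := hle hκ
  rw [Subgroup.mem_comap] at h
  have h2 : (MulAut.conj (mapQ c0)).toMonoidHom κ = mapQ c0 * κ * (mapQ c0)⁻¹ :=
    MulAut.conj_apply _ _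
  rw [h2] at h
  exact h

/-- Every element of `Gamma0(N)[1/p]` is the product of an element of the group generated by
`Gamma1(N)` and its `diag(p, 1)`-conjugate and an integral element of `Gamma0(N)`. -/
theorem exists_decomp {N p : ℕ} (hp : p.Prime) (hNp : Nat.Coprime N p) {x : SL(2, ℚ)}
    (hx : x ∈ deltaQ N p) :
    ∃ κ ∈ gen1 N p hp.ne_zero, ∃ c0 : SL(2, ℤ), c0 ∈ CongruenceSubgroup.Gamma0 N ∧
      (p : ℤ) ∣ c0 0 1 ∧ x = κ * mapQ c0 := by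
  refine deltaQ_induction hp hNp (P := fun x => ∃ κ ∈ gen1 N p hp.ne_zero, ∃ c0 : SL(2, ℤ),
    c0 ∈ CongruenceSubgroup.Gamma0 N ∧ (p : ℤ) ∣ c0 0 1 ∧ x = κ * mapQ c0) ?_ ?_ ?_ hx
  · intro γ hγ
    obtain ⟨c0, c1, hc0, -, hp0, h0, -, -⟩ := exists_rep hp hNp hγ
    refine ⟨mapQ (γ * c0⁻¹), mapQ_mem_gen1 _ (mul_inv_mem_gamma1 hγ hc0 h0.symm), c0, hc0, hp0, ?_⟩
    rw [← map_mul, inv_mul_cancel_right]
  · intro γ hγ
    obtain ⟨c0, c1, hc0, hc1, hp0, -, h1, h01⟩ := exists_rep hp hNp hγ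
    refine ⟨conjD p hp.ne_zero (mapQ (γ * c1⁻¹)),
      conjD_mapQ_mem_gen1 _ (mul_inv_mem_gamma1 hγ hc1 h1.symm), c0, hc0, hp0, ?_⟩
    rw [h01, ← map_mul, ← map_mul, inv_mul_cancel_right]
  · rintro x y - - ⟨κ, hκ, c, hc, hpc, rfl⟩ ⟨κ', hκ', c', hc', hpc', rfl⟩
    refine ⟨κ * (mapQ c * κ' * (mapQ c)⁻¹),
      Subgroup.mul_mem _ hκ (conj_mem_gen1 hp.ne_zero hc hpc hκ'), c * c',
      Subgroup.mul_mem _ hc hc', ?_, ?_⟩
    · rw [sl_mul_01]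
      exact dvd_add (Dvd.dvd.mul_left hpc' _) (Dvd.dvd.mul_right hpc _)
    · rw [map_mul]; group

/-- **Generation for `Gamma1`.** An element of `Gamma0(N)[1/p]` which is congruent to
`[[1, *], [0, 1]]` modulo `N` lies in the group generated by `Gamma1(N)` and its conjugate by
`diag(p, 1)`. -/
theorem mem_gen1_of_mem_congSub {N p : ℕ} (hp : p.Prime) (hNp : Nat.Coprime N p) {x : SL(2, ℚ)}
    (hx : x ∈ deltaQ N p) (hx' : x ∈ congSub N p) : x ∈ gen1 N p hp.ne_zero := by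
  obtain ⟨κ, hκ, c0, hc0, -, rfl⟩ := exists_decomp hp hNp hx
  have h1 : mapQ c0 ∈ congSub N p := by
    have h2 := Subgroup.mul_mem _ (Subgroup.inv_mem _ (gen1_le_congSub N hp.ne_zero hκ)) hx'
    rwa [inv_mul_cancel_left] at h2
  exact Subgroup.mul_mem _ hκ
    (mapQ_mem_gen1 _ (gamma1_of_mapQ_mem_congSub hNp hc0 h1))

/-- The unipotent matrices `[[1, x], [0, 1]]`, `x ∈ ℤ[1/p]`, lie in the group generated by
`Gamma1(N)` and its conjugate by `diag(p, 1)`. -/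
theorem e12_mem_gen1 {N p : ℕ} (hp : p.Prime) (hNp : Nat.Coprime N p) {x : ℚ}
    (hx : x ∈ zInv p) : e12 x ∈ gen1 N p hp.ne_zero :=
  mem_gen1_of_mem_congSub hp hNp (e12_mem_deltaQ N hx) (e12_mem_congSub N hx)

theorem e12_inv_pow_mem_gen1 {N p : ℕ} (hp : p.Prime) (hNp : Nat.Coprime N p) (m : ℕ) :
    e12 (((p : ℚ) ^ m)⁻¹) ∈ gen1 N p hp.ne_zero :=
  e12_mem_gen1 hp hNp (inv_pow_mem_zInv hp.ne_zero m)

end Fermat.Agent.S48.helper3685
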