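/-
S48, leaf F0: the nebentypus of a weight one form satisfying the Hecke relations
(`V_p`-lemma).
-/
import Mathlib
import Fermat.Prelude.Def_FLTPrelim_Modularity
import Fermat.Prelude.Def_ModularForm_HeckeOperator
import Fermat.Prelude.Thm_ModularFormClass_qCoeff_heckeT
import Fermat.Prelude.Thm_ModularFormClass_qCoeff_heckeU
import Fermat.Prelude.Thm_UpperHalfPlane_eq_of_forall_qCoeff_eq
import Fermat.Prelude.Thm_UpperHalfPlane_qExpansion_coeff_nat_mul
import Fermat.Prelude.Thm_ModularForm_periodic_heckeT_comp_ofComplex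
import Fermat.Prelude.Thm_ModularForm_periodic_heckeU_comp_ofComplex
import Fermat.Prelude.Thm_ModularForm_mdifferentiable_heckeT
import Fermat.Prelude.Thm_ModularForm_mdifferentiable_heckeU
import Fermat.Prelude.Thm_ModularForm_isBoundedAtImInfty_heckeT
import Fermat.Prelude.Thm_ModularForm_isBoundedAtImInfty_heckeU
import Fermat.Prelude.Sol.S_ModularForm_heckeT_slash_eq_self_of_mem_Gamma0
import Fermat.Agent.S48.helper3685_Gen1

set_option autoImplicit false

namespace Fermat.Agent.S48.helper3685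

open Matrix MatrixGroups UpperHalfPlane ModularForm CongruenceSubgroup
open scoped ModularForm Manifold
open Fermat.Agent.S41.helper5755

/-! ### the stabiliser of a function under the slash action -/

/-- The stabiliser of `g : ℍ → ℂ` under the weight `k` slash action of `GL(2, ℝ)`. -/
def slashStab (k : ℤ) (g : ℍ → ℂ) : Subgroup (GL (Fin 2) ℝ) where
  carrier := {γ | g ∣[k] γ = g}
  one_mem' := SlashAction.slash_one k g
  mul_mem' := by
    intro a b ha hb
    show g ∣[k] (a * b) = g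
    rw [SlashAction.slash_mul, show g ∣[k] a = g from ha]
    exact hb
  inv_mem' := by
    intro a ha
    show g ∣[k] a⁻¹ = g
    have h : (g ∣[k] a) ∣[k] a⁻¹ = g := by
      rw [← SlashAction.slash_mul, mul_inv_cancel, SlashAction.slash_one]
    rw [show g ∣[k] a = g from ha] at h
    exact h

theorem mem_slashStab {k : ℤ} {g : ℍ → ℂ} {γ : GL (Fin 2) ℝ} :
    γ ∈ slashStab k g ↔ g ∣[k] γ = g := Iff.rfl

/-- `SL(2, ℚ) → GL(2, ℝ)`. -/
noncomputable abbrev mapR : SL(2, ℚ) →* GL (Fin 2) ℝ := Matrix.SpecialLinearGroup.mapGL ℝ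

theorem mapR_apply (x : SL(2, ℚ)) (i j : Fin 2) :
    (mapR x : GL (Fin 2) ℝ) i j = ((x i j : ℚ) : ℝ) := by
  simp [mapR]

theorem mapR_mapQ (γ : SL(2, ℤ)) :
    mapR (mapQ γ) = (Matrix.SpecialLinearGroup.mapGL ℝ γ : GL (Fin 2) ℝ) := by
  ext i j
  rw [mapR_apply, mapQ_apply]
  simp

theorem mapR_conjD_mul {p : ℕ} (hp : p ≠ 0) (γ : SL(2, ℤ)) :
    mapR (conjD p hp (mapQ γ)) * heckeDiagMatrix p
      = heckeDiagMatrix p * (Matrix.SpecialLinearGroup.mapGL ℝ γ : GL (Fin 2) ℝ) := by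
  have hp0 : (p : ℝ) ≠ 0 := Nat.cast_ne_zero.2 hp
  ext i j
  fin_cases i <;> fin_cases j <;>
    simp [Matrix.mul_apply, Fin.sum_univ_two, val_heckeDiagMatrix hp, mapQ_apply] <;>
    field_simp

theorem mapR_e12 (x : ℚ) :
    mapR (e12 x) = Matrix.GeneralLinearGroup.upperRightHom ((x : ℚ) : ℝ) := by
  ext i j
  rw [mapR_apply]
  fin_cases i <;> fin_cases j <;> simp [e12]

/-! ### the `V_p`-lemma -/

/-- A function on the upper half plane which is invariant (weight `k`) under `Gamma1(N)` and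
under its conjugate by `diag(p, 1)` has all the strict periods `p ^ (-m)`. -/
theorem inv_pow_mem_strictPeriods_slashStab (k : ℤ) {N p : ℕ} (hp : p.Prime)
    (hNp : Nat.Coprime N p) (g : ℍ → ℂ)
    (h1 : ∀ γ ∈ Gamma1 N, g ∣[k] (Matrix.SpecialLinearGroup.mapGL ℝ γ : GL (Fin 2) ℝ) = g)
    (h2 : ∀ γ ∈ Gamma1 N, (g ∣[k] heckeDiagMatrix p) ∣[k]
      (Matrix.SpecialLinearGroup.mapGL ℝ γ : GL (Fin 2) ℝ) = g ∣[k] heckeDiagMatrix p)
    (m : ℕ) : (((p : ℝ) ^ m)⁻¹ : ℝ) ∈ (slashStab k g).strictPeriods := by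
  have hle : gen1 N p hp.ne_zero ≤ (slashStab k g).comap mapR := by
    refine sup_le ?_ ?_
    · rintro _ ⟨γ, hγ, rfl⟩
      rw [Subgroup.mem_comap, mapR_mapQ, mem_slashStab]
      exact h1 γ hγ
    · rintro _ ⟨_, ⟨γ, hγ, rfl⟩, rfl⟩
      rw [Subgroup.mem_comap, mem_slashStab]
      have h3 : mapR (conjD p hp.ne_zero (mapQ γ))
          = heckeDiagMatrix p * (Matrix.SpecialLinearGroup.mapGL ℝ γ : GL (Fin 2) ℝ)
            * (heckeDiagMatrix p)⁻¹ := by
        rw [← mapR_conjD_mul hp.ne_zero γ, mul_inv_cancel_right]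
      rw [h3, SlashAction.slash_mul, SlashAction.slash_mul, h2 γ hγ, ← SlashAction.slash_mul,
        mul_inv_cancel, SlashAction.slash_one]
  have h4 := hle (e12_inv_pow_mem_gen1 hp hNp m)
  rw [Subgroup.mem_comap, mapR_e12] at h4
  rw [Subgroup.mem_strictPeriods_iff]
  convert h4 using 2
  push_cast
  rfl

/-- **`V_p`-lemma.** A holomorphic function on the upper half plane, zero at `i∞`, which is
invariant (weight `k`) under `Gamma1(N)` and whose translate by `diag(p, 1)` (`p` a prime not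
dividing `N`) is again invariant under `Gamma1(N)`, vanishes identically. -/
theorem vp_lemma (k : ℤ) {N p : ℕ} (hp : p.Prime) (hNp : Nat.Coprime N p) (g : ℍ → ℂ)
    (hhol : MDiff g) (hzero : IsZeroAtImInfty g)
    (h1 : ∀ γ ∈ Gamma1 N, g ∣[k] (Matrix.SpecialLinearGroup.mapGL ℝ γ : GL (Fin 2) ℝ) = g)
    (h2 : ∀ γ ∈ Gamma1 N, (g ∣[k] heckeDiagMatrix p) ∣[k]
      (Matrix.SpecialLinearGroup.mapGL ℝ γ : GL (Fin 2) ℝ) = g ∣[k] heckeDiagMatrix p) :
    g = 0 := by
  let G : SlashInvariantForm (slashStab k g) k :=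
    { toFun := g, slash_action_eq' := fun γ hγ => hγ }
  have hper : ∀ m : ℕ, Function.Periodic (g ∘ ofComplex) ((((p : ℝ) ^ m)⁻¹ : ℝ) : ℂ) := fun m =>
    SlashInvariantFormClass.periodic_comp_ofComplex G
      (inv_pow_mem_strictPeriods_slashStab k hp hNp g h1 h2 m)
  have hbdd : IsBoundedAtImInfty g := hzero.isBoundedAtImInfty
  have hper1 : Function.Periodic (g ∘ ofComplex) 1 := by simpa using hper 0
  rw [← qExpansion_eq_zero_iff one_pos hper1 hhol hbdd]
  ext n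
  rw [map_zero]
  rcases Nat.eq_zero_or_pos n with rfl | hn
  · rw [qExpansion_coeff_zero one_pos (analyticAt_cuspFunction_zero one_pos hper1 hhol hbdd) hper1]
    exact hzero.valueAtInfty_eq_zero
  · have hpos : (0 : ℝ) < ((p : ℝ) ^ n)⁻¹ := by
      have : (0 : ℝ) < (p : ℝ) := by exact_mod_cast hp.pos
      positivity
    have h := UpperHalfPlane.qExpansion_coeff_nat_mul hpos (hper n) hhol hbdd (M := p ^ n)
      (pow_pos hp.pos n) n
    have hM : ((p ^ n : ℕ) : ℝ) * ((p : ℝ) ^ n)⁻¹ = 1 := by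
      have : (p : ℝ) ≠ 0 := by exact_mod_cast hp.ne_zero
      push_cast
      field_simp
    rw [hM] at h
    rw [h, if_neg]
    exact Nat.not_dvd_of_pos_of_lt hn (Nat.lt_pow_self hp.one_lt)

/-! ### the Hecke operator `T_p` on `Gamma1(N)` (with the diamond twist) -/

section twisted

open P2MW.S_ModularForm_heckeT_slash_eq_self_of_mem_Gamma0.ModularForm.HeckeSlashInvariance
open scoped OnePoint

variable {N p : ℕ} [Fact p.Prime]

/-- The family `(f, …, f, f')` indexed by `ℙ¹(𝔽_p)`: `f'` at `∞`, `f` elsewhere. -/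
def twF (f f' : ℍ → ℂ) (x : OnePoint (ZMod p)) : ℍ → ℂ := x.elim f' (fun _ => f)

theorem twisted_eq_sum (k : ℤ) (f f' : ℍ → ℂ) :
    heckeU k p f + f' ∣[k] heckeDiagMatrix p
      = ∑ x : OnePoint (ZMod p), twF f f' x ∣[k] heckeRep p x := by
  rw [heckeU_eq_sum_zmod, add_comm]
  exact (Fintype.sum_option (fun x : OnePoint (ZMod p) ↦ twF f f' x ∣[k] heckeRep p x)).symm

theorem twF_slash (k : ℤ) (f f' : ℍ → ℂ)
    (hf : ∀ γ ∈ Gamma1 N, f ∣[k] (Matrix.SpecialLinearGroup.mapGL ℝ γ : GL (Fin 2) ℝ) = f)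
    (hf' : ∀ γ ∈ Gamma1 N, f' ∣[k] (Matrix.SpecialLinearGroup.mapGL ℝ γ : GL (Fin 2) ℝ) = f')
    (hup : ∀ γ ∈ Gamma0 N, ((γ 1 1 : ℤ) : ZMod N) = (p : ZMod N) →
      f ∣[k] (Matrix.SpecialLinearGroup.mapGL ℝ γ : GL (Fin 2) ℝ) = f')
    (hdown : ∀ γ ∈ Gamma0 N, ((γ 1 1 : ℤ) : ZMod N) * (p : ZMod N) = 1 →
      f' ∣[k] (Matrix.SpecialLinearGroup.mapGL ℝ γ : GL (Fin 2) ℝ) = f)
    (g : SL(2, ℤ)) (hg : g ∈ Gamma1 N) (g' : SL(2, ℤ)) (hg' : g' ∈ Gamma0 N)
    (x x' : OnePoint (ZMod p))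
    (hmul : heckeRep p x * Matrix.SpecialLinearGroup.mapGL ℝ g
      = Matrix.SpecialLinearGroup.mapGL ℝ g' * heckeRep p x') :
    twF f f' x ∣[k] (Matrix.SpecialLinearGroup.mapGL ℝ g' : GL (Fin 2) ℝ) = twF f f' x' := by
  have hp0 : p ≠ 0 := (Fact.out : p.Prime).ne_zero
  have e00 := congrArg (fun M : GL (Fin 2) ℝ => (M : Matrix (Fin 2) (Fin 2) ℝ) 0 0) hmul
  have e11 := congrArg (fun M : GL (Fin 2) ℝ => (M : Matrix (Fin 2) (Fin 2) ℝ) 1 1) hmul
  induction x using OnePoint.rec with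
  | infty =>
    induction x' using OnePoint.rec with
    | infty =>
      simp [Matrix.mul_apply, Fin.sum_univ_two, val_heckeDiagMatrix hp0] at e11
      have h11 : ((g' 1 1 : ℤ) : ZMod N) = 1 := by rw [← e11]; exact gamma1_11 hg
      exact hf' g' (gamma1_of hg' h11)
    | coe j' =>
      simp [-ZMod.natCast_val, Matrix.mul_apply, Fin.sum_univ_two, val_heckeDiagMatrix hp0,
        val_heckeMatrix hp0] at e00
      have e00' : (p : ℤ) * g 0 0 = g' 0 0 := by exact_mod_cast e00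
      have h00 : ((g' 0 0 : ℤ) : ZMod N) = (p : ZMod N) := by
        rw [← e00']; push_cast; rw [gamma1_00 hg, mul_one]
      have h := gamma0_00_mul_11 hg'
      rw [h00] at h
      exact hdown g' hg' (by rw [mul_comm]; exact h)
  | coe j =>
    induction x' using OnePoint.rec with
    | infty =>
      simp [-ZMod.natCast_val, Matrix.mul_apply, Fin.sum_univ_two, val_heckeDiagMatrix hp0,
        val_heckeMatrix hp0] at e11
      have e11' : (p : ℤ) * g 1 1 = g' 1 1 := by exact_mod_cast e11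
      have h11 : ((g' 1 1 : ℤ) : ZMod N) = (p : ZMod N) := by
        rw [← e11']; push_cast; rw [gamma1_11 hg, mul_one]
      exact hup g' hg' h11
    | coe j' =>
      simp [-ZMod.natCast_val, Matrix.mul_apply, Fin.sum_univ_two, val_heckeMatrix hp0] at e00
      have e00' : g 0 0 + (j.val : ℤ) * g 1 0 = g' 0 0 := by exact_mod_cast e00
      have h00 : ((g' 0 0 : ℤ) : ZMod N) = 1 := by
        rw [← e00']; push_cast
        rw [gamma1_00 hg, gamma0_10 (gamma0_of_gamma1 hg), mul_zero, add_zero]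
      have h := gamma0_00_mul_11 hg'
      rw [h00, one_mul] at h
      exact hf g' (gamma1_of hg' h)

/-- **`T_p` preserves `Gamma1(N)`-invariance.** If `f` is invariant under `Gamma1(N)` and `f'`
is its translate by the diamond operator `⟨p⟩`, then `U_p f + f' | diag(p, 1)` is invariant
under `Gamma1(N)`. -/
theorem twisted_slash (k : ℤ) (hpN : ¬ p ∣ N) (f f' : ℍ → ℂ)
    (hf : ∀ γ ∈ Gamma1 N, f ∣[k] (Matrix.SpecialLinearGroup.mapGL ℝ γ : GL (Fin 2) ℝ) = f)
    (hf' : ∀ γ ∈ Gamma1 N, f' ∣[k] (Matrix.SpecialLinearGroup.mapGL ℝ γ : GL (Fin 2) ℝ) = f')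
    (hup : ∀ γ ∈ Gamma0 N, ((γ 1 1 : ℤ) : ZMod N) = (p : ZMod N) →
      f ∣[k] (Matrix.SpecialLinearGroup.mapGL ℝ γ : GL (Fin 2) ℝ) = f')
    (hdown : ∀ γ ∈ Gamma0 N, ((γ 1 1 : ℤ) : ZMod N) * (p : ZMod N) = 1 →
      f' ∣[k] (Matrix.SpecialLinearGroup.mapGL ℝ γ : GL (Fin 2) ℝ) = f)
    (g : SL(2, ℤ)) (hg : g ∈ Gamma1 N) :
    (heckeU k p f + f' ∣[k] heckeDiagMatrix p) ∣[k]
        (Matrix.SpecialLinearGroup.mapGL ℝ g : GL (Fin 2) ℝ)
      = heckeU k p f + f' ∣[k] heckeDiagMatrix p := by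
  have hcN : (N : ℤ) ∣ g 1 0 := gamma0_dvd (gamma0_of_gamma1 hg)
  rw [twisted_eq_sum, SlashAction.sum_slash]
  calc ∑ x : OnePoint (ZMod p), (twF f f' x ∣[k] heckeRep p x) ∣[k]
          (Matrix.SpecialLinearGroup.mapGL ℝ g : GL (Fin 2) ℝ)
      = ∑ x : OnePoint (ZMod p),
          twF f f' (redMatrix p g • x) ∣[k] heckeRep p (redMatrix p g • x) := by
        refine Finset.sum_congr rfl fun x _ ↦ ?_
        obtain ⟨g', hg', hmul⟩ := heckeRep_mul hpN g hcN x
        rw [← SlashAction.slash_mul, hmul, SlashAction.slash_mul,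
          twF_slash k f f' hf hf' hup hdown g hg g' (gamma0_of_dvd hg') x _ hmul]
    _ = ∑ x : OnePoint (ZMod p), twF f f' x ∣[k] heckeRep p x :=
        Equiv.sum_comp (MulAction.toPerm (redMatrix p g))
          (fun x ↦ twF f f' x ∣[k] heckeRep p x)

end twisted

/-! ### from the coefficient relations to the nebentypus -/

section main

open ModularFormClass

variable {N : ℕ} [NeZero N]

omit [NeZero N] in
theorem one_mem_strictPeriods_Gamma1 :
    (1 : ℝ) ∈ ((Gamma1 N : Subgroup SL(2, ℤ)) : Subgroup (GL (Fin 2) ℝ)).strictPeriods := by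
  rw [strictPeriods_Gamma1]
  exact AddSubgroup.mem_zmultiples 1

/-- The coefficient relation at `p` as an identity of functions:
`U_p f + c • (f | diag(p, 1)) = a_p • f`. -/
theorem heckeU_add_smul_eq (k : ℤ) {p : ℕ} (hp : p ≠ 0) (f : CuspForm (Gamma1 N) k) (c : ℂ)
    (hT : ∀ n : ℕ, qCoeff f (p * n)
        + c * (if p ∣ n then (p : ℂ) ^ (k - 1) * qCoeff f (n / p) else 0)
      = qCoeff f p * qCoeff f n) :
    heckeU k p ⇑f + c • ((⇑f : ℍ → ℂ) ∣[k] heckeDiagMatrix p) = qCoeff f p • (⇑f : ℍ → ℂ) := by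
  have h1 := one_mem_strictPeriods_Gamma1 (N := N)
  have hperF : Function.Periodic ((⇑f : ℍ → ℂ) ∘ ofComplex) 1 := by
    simpa using SlashInvariantFormClass.periodic_comp_ofComplex f h1
  have hholF : MDiff (⇑f : ℍ → ℂ) := CuspFormClass.holo f
  have hbddF : IsBoundedAtImInfty (⇑f : ℍ → ℂ) := (CuspFormClass.zero_at_infty f).isBoundedAtImInfty
  have hD : (⇑f : ℍ → ℂ) ∣[k] heckeDiagMatrix p = heckeT k p ⇑f - heckeU k p ⇑f := by
    rw [heckeT_eq_heckeU_add, add_sub_cancel_left]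
  rw [hD]
  -- the three functions
  have perA := ModularForm.periodic_heckeU_comp_ofComplex hperF k p
  have perB := ModularForm.periodic_heckeT_comp_ofComplex hperF k p
  have holA := ModularForm.mdifferentiable_heckeU hholF k p
  have holB := ModularForm.mdifferentiable_heckeT hholF k p
  have bddA := ModularForm.isBoundedAtImInfty_heckeU hbddF k p
  have bddB := ModularForm.isBoundedAtImInfty_heckeT hbddF k p
  have perBA : Function.Periodic ((heckeT k p ⇑f - heckeU k p ⇑f) ∘ ofComplex) 1 := perB.sub perA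
  have holBA : MDiff (heckeT k p ⇑f - heckeU k p ⇑f) := holB.sub holA
  have bddBA : IsBoundedAtImInfty (heckeT k p ⇑f - heckeU k p ⇑f) := by
    have := bddB.add bddA.neg
    rwa [← sub_eq_add_neg] at this
  have perC : Function.Periodic ((c • (heckeT k p ⇑f - heckeU k p ⇑f)) ∘ ofComplex) 1 :=
    perBA.smul c
  have holC : MDiff (c • (heckeT k p ⇑f - heckeU k p ⇑f)) := holBA.const_smul c
  have bddC : IsBoundedAtImInfty (c • (heckeT k p ⇑f - heckeU k p ⇑f)) := bddBA.smul c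
  have anF := analyticAt_cuspFunction_zero one_pos hperF hholF hbddF
  have anA := analyticAt_cuspFunction_zero one_pos perA holA bddA
  have anB := analyticAt_cuspFunction_zero one_pos perB holB bddB
  have anBA := analyticAt_cuspFunction_zero one_pos perBA holBA bddBA
  have anC := analyticAt_cuspFunction_zero one_pos perC holC bddC
  refine UpperHalfPlane.eq_of_forall_qCoeff_eq (perA.add perC) (holA.add holC) (bddA.add bddC)
    (hperF.smul _) (hholF.const_smul _) (hbddF.smul _) fun n => ?_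
  have hU := ModularFormClass.qCoeff_heckeU f h1 hp n
  have hTT := ModularFormClass.qCoeff_heckeT f h1 hp n
  rw [ModularForm.coeffHeckeU_apply] at hU
  rw [ModularForm.coeffHeckeT_apply] at hTT
  unfold ModularFormClass.qCoeff at hU hTT hT ⊢
  rw [qExpansion_add anA anC, qExpansion_smul anBA, qExpansion_sub anB anA, qExpansion_smul anF]
  simp only [map_add, map_sub, PowerSeries.coeff_smul, smul_eq_mul]
  rw [hU, hTT, ← hT n, mul_comm n p]
  ring

/-- **Diamond operators from the coefficient relations.** Let `f` be a cusp form of weight `k`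
on `Gamma1(N)` and `p` a prime not dividing `N` such that
`a(pn) + c p^(k-1) a(n/p) = a(p) a(n)` for all `n`.  Then every `σ ∈ Gamma0(N)` with lower right
entry `≡ p` modulo `N` acts on `f` by the scalar `c`. -/
theorem slash_eq_smul_of_coeff (k : ℤ) {p : ℕ} (hp : p.Prime) (hpN : ¬ p ∣ N)
    (f : CuspForm (Gamma1 N) k) (c : ℂ)
    (hT : ∀ n : ℕ, qCoeff f (p * n)
        + c * (if p ∣ n then (p : ℂ) ^ (k - 1) * qCoeff f (n / p) else 0)
      = qCoeff f p * qCoeff f n)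
    (σ : SL(2, ℤ)) (hσ : σ ∈ Gamma0 N) (hσp : ((σ 1 1 : ℤ) : ZMod N) = (p : ZMod N)) :
    (⇑f : ℍ → ℂ) ∣[k] (Matrix.SpecialLinearGroup.mapGL ℝ σ : GL (Fin 2) ℝ)
      = c • (⇑f : ℍ → ℂ) := by
  have : Fact p.Prime := ⟨hp⟩
  have hNp : Nat.Coprime N p := ((Nat.Prime.coprime_iff_not_dvd hp).2 hpN).symm
  set F : ℍ → ℂ := ⇑f with hF
  set F' : ℍ → ℂ := F ∣[k] (Matrix.SpecialLinearGroup.mapGL ℝ σ : GL (Fin 2) ℝ) with hF'
  -- invariance properties
  have hf : ∀ γ ∈ Gamma1 N, F ∣[k] (Matrix.SpecialLinearGroup.mapGL ℝ γ : GL (Fin 2) ℝ) = F :=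
    fun γ hγ => SlashInvariantFormClass.slash_action_eq f _ (Subgroup.mem_map_of_mem _ hγ)
  have hf' : ∀ γ ∈ Gamma1 N,
      F' ∣[k] (Matrix.SpecialLinearGroup.mapGL ℝ γ : GL (Fin 2) ℝ) = F' := by
    intro γ hγ
    have h : σ * γ = (σ * γ * σ⁻¹) * σ := by group
    rw [hF', ← SlashAction.slash_mul, ← map_mul, h, map_mul, SlashAction.slash_mul,
      hf _ (conj_mem_gamma1 hσ hγ)]
  have hup : ∀ γ ∈ Gamma0 N, ((γ 1 1 : ℤ) : ZMod N) = (p : ZMod N) →
      F ∣[k] (Matrix.SpecialLinearGroup.mapGL ℝ γ : GL (Fin 2) ℝ) = F' := by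
    intro γ hγ h
    have h' : γ = (γ * σ⁻¹) * σ := by group
    rw [hF', h', map_mul, SlashAction.slash_mul,
      hf _ (mul_inv_mem_gamma1 hγ hσ (h.trans hσp.symm))]
  have hdown : ∀ γ ∈ Gamma0 N, ((γ 1 1 : ℤ) : ZMod N) * (p : ZMod N) = 1 →
      F' ∣[k] (Matrix.SpecialLinearGroup.mapGL ℝ γ : GL (Fin 2) ℝ) = F := by
    intro γ hγ h
    rw [hF', ← SlashAction.slash_mul, ← map_mul]
    exact hf _ (mul_mem_gamma1 hσ hγ (by rw [hσp, mul_comm]; exact h))
  -- the Hecke operator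
  have hTinv := twisted_slash k hpN F F' hf hf' hup hdown
  have hid := heckeU_add_smul_eq k hp.ne_zero f c hT
  -- the function `g = F' - c • F`
  set g : ℍ → ℂ := F' + (-c) • F with hg
  have hσD : ∀ a : ℂ, UpperHalfPlane.σ (heckeDiagMatrix p) a = a := by
    intro a; rw [ModularForm.σ_heckeDiagMatrix]; rfl
  have hgD : g ∣[k] heckeDiagMatrix p
      = (heckeU k p F + F' ∣[k] heckeDiagMatrix p) + (-(qCoeff f p)) • F := by
    rw [hg, SlashAction.add_slash, ModularForm.smul_slash, hσD]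
    have h3 : (-c) • F ∣[k] heckeDiagMatrix p = heckeU k p F + (-(qCoeff f p)) • F := by
      have h4 : c • F ∣[k] heckeDiagMatrix p = qCoeff f p • F - heckeU k p F := by
        rw [← hid, add_sub_cancel_left]
      rw [_root_.neg_smul, h4, _root_.neg_smul]
      abel
    rw [h3]
    abel
  have hσγ : ∀ (γ : SL(2, ℤ)) (a : ℂ),
      UpperHalfPlane.σ (Matrix.SpecialLinearGroup.mapGL ℝ γ : GL (Fin 2) ℝ) a = a := by
    intro γ a
    rw [UpperHalfPlane.σ, if_pos (by simp)]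
    rfl
  have h1 : ∀ γ ∈ Gamma1 N,
      g ∣[k] (Matrix.SpecialLinearGroup.mapGL ℝ γ : GL (Fin 2) ℝ) = g := by
    intro γ hγ
    rw [hg, SlashAction.add_slash, ModularForm.smul_slash, hσγ, hf' γ hγ, hf γ hγ]
  have h2 : ∀ γ ∈ Gamma1 N, (g ∣[k] heckeDiagMatrix p) ∣[k]
      (Matrix.SpecialLinearGroup.mapGL ℝ γ : GL (Fin 2) ℝ) = g ∣[k] heckeDiagMatrix p := by
    intro γ hγ
    rw [hgD, SlashAction.add_slash, ModularForm.smul_slash, hσγ, hTinv γ hγ, hf γ hγ]
  have hholF : MDiff F := CuspFormClass.holo f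
  have hhol : MDiff g := (hholF.slash k _).add (hholF.const_smul _)
  have hzero : IsZeroAtImInfty g :=
    (CuspFormClass.zero_at_infty_slash f σ).add ((CuspFormClass.zero_at_infty f).smul (-c))
  have hg0 := vp_lemma k hp hNp g hhol hzero h1 h2
  have h5 : F' = g - (-c) • F := by rw [hg, add_sub_cancel_right]
  rw [h5, hg0, zero_sub, _root_.neg_smul, neg_neg]

/-- **Nebentypus from the Hecke relations (hypotheses of the frozen statement S48).**  A weight
one cusp form on `Gamma1(N)` whose `q`-coefficients satisfy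
`a(pn) + ε(p) a(n/p) = a(p) a(n)` for all primes `p ∤ N` has nebentypus `ε`:
`f | γ = ε(d) f` for every `γ = [[a, b], [c, d]] ∈ Gamma0(N)`. -/
theorem nebentypus_of_hecke_relations (N : ℕ) [NeZero N] (ε : DirichletCharacter ℂ N)
    (f : CuspForm (Gamma1 N) 1)
    (hT : ∀ p : ℕ, p.Prime → ¬ p ∣ N → ∀ n : ℕ,
        ModularFormClass.qCoeff f (p * n) +
            ε (p : ZMod N) * (if p ∣ n then ModularFormClass.qCoeff f (n / p) else 0) =
          ModularFormClass.qCoeff f p * ModularFormClass.qCoeff f n)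
    (γ : SL(2, ℤ)) (hγ : γ ∈ Gamma0 N) :
    (⇑f : ℍ → ℂ) ∣[(1 : ℤ)] (Matrix.SpecialLinearGroup.mapGL ℝ γ : GL (Fin 2) ℝ)
      = ε ((γ 1 1 : ℤ) : ZMod N) • (⇑f : ℍ → ℂ) := by
  have hunit : IsUnit (((γ 1 1 : ℤ) : ZMod N)) :=
    IsUnit.of_mul_eq_one _ (by rw [mul_comm]; exact gamma0_00_mul_11 hγ)
  obtain ⟨p, hpgt, hp, hpd⟩ := Nat.forall_exists_prime_gt_and_eq_mod hunit N
  have hpN : ¬ p ∣ N := Nat.not_dvd_of_pos_of_lt (NeZero.pos N) hpgt
  have h := slash_eq_smul_of_coeff 1 hp hpN f (ε (p : ZMod N))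
    (fun n => by simpa using hT p hp hpN n) γ hγ hpd.symm
  rw [hpd] at h
  exact h

/-- The nebentypus character is odd. -/
theorem nebentypus_neg_one (N : ℕ) [NeZero N] (ε : DirichletCharacter ℂ N)
    (f : CuspForm (Gamma1 N) 1) (hf₁ : ModularFormClass.qCoeff f 1 = 1)
    (hT : ∀ p : ℕ, p.Prime → ¬ p ∣ N → ∀ n : ℕ,
        ModularFormClass.qCoeff f (p * n) +
            ε (p : ZMod N) * (if p ∣ n then ModularFormClass.qCoeff f (n / p) else 0) =
          ModularFormClass.qCoeff f p * ModularFormClass.qCoeff f n) :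
    ε (-1) = -1 := by
  have hmem : (-1 : SL(2, ℤ)) ∈ Gamma0 N := by
    rw [Gamma0_mem]; simp
  have h := nebentypus_of_hecke_relations N ε f hT (-1) hmem
  -- `f ≠ 0`
  have hne : (⇑f : ℍ → ℂ) ≠ 0 := by
    intro h0
    unfold ModularFormClass.qCoeff at hf₁
    rw [h0, qExpansion_zero] at hf₁
    simp at hf₁
  obtain ⟨τ, hτ⟩ := Function.ne_iff.1 hne
  have h2 := congrFun h τ
  have h3 : ((⇑f : ℍ → ℂ) ∣[(1 : ℤ)] (Matrix.SpecialLinearGroup.mapGL ℝ (-1 : SL(2, ℤ)) :
      GL (Fin 2) ℝ)) τ = -(f τ) := by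
    show ((⇑f : ℍ → ℂ) ∣[(1 : ℤ)] (-1 : SL(2, ℤ))) τ = -(f τ)
    rw [ModularForm.SL_slash_apply, ModularGroup.SL_neg_smul, one_smul]
    simp [UpperHalfPlane.denom]
  rw [h3] at h2
  have h5 : (((-1 : SL(2, ℤ)) 1 1 : ℤ) : ZMod N) = -1 := by simp
  rw [h5, Pi.smul_apply, smul_eq_mul] at h2
  have h6 : (ε (-1) + 1) * f τ = 0 := by linear_combination -h2
  rcases mul_eq_zero.1 h6 with h7 | h7
  · linear_combination h7
  · exact absurd h7 hτ

end main

end Fermat.Agent.S48.helper3685
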