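/-
S48, leaf F0 (NEBEN): `Fermat.Agent.S48.helper8231.Stmt_Neben`, verbatim.
The Hecke relations of the frozen statement force nebentypus `ε` (`V_p`-lemma).
-/
import Fermat.Agent.S48.helper8231_Spec
import Fermat.Agent.S48.helper3685_Nebentypus

set_option autoImplicit false

namespace Fermat.Agent.S48.helper3685

/-- (F0, NEBEN) the Hecke relations force nebentypus `ε`. -/
theorem stmt_Neben : Fermat.Agent.S48.helper8231.Stmt_Neben := by
  intro N _ ε f h γ hγ
  exact nebentypus_of_hecke_relations N ε f h.2 γ hγ

/-- The nebentypus character of a weight one eigenform is odd. -/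
theorem neben_odd (N : ℕ) [NeZero N] (ε : DirichletCharacter ℂ N)
    (f : CuspForm (CongruenceSubgroup.Gamma1 N) 1)
    (h : Fermat.Agent.S48.helper8231.IsWt1Eigen N ε f) : ε (-1) = -1 :=
  nebentypus_neg_one N ε f h.1 h.2

end Fermat.Agent.S48.helper3685
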