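import Mathlib
import Fermat.Agent.S29.helper3191_EisChar

/-!
# The weight-3 Eisenstein multiplier `B_ψ` (helper3960, S48 leaf F1-(E))

For a Dirichlet character `ψ` modulo `N` we consider the full-lattice sum

  `B_ψ(z) = ((-2πi)^3)⁻¹ * ∑_{(c,d) ∈ ℤ²} ψ(c) (c z + d)⁻³`.

It is holomorphic on `ℍ`, every `SL(2,ℤ)`-slash is bounded at `i∞`, it satisfies
`B_ψ ∣[3] γ = ψ(d_γ) • B_ψ` for `γ ∈ Γ₀(N)`, and for odd `ψ` its `q`-expansion is
`∑_{n ≥ 1} (∑_{c ∣ n} ψ(c) (n/c)²) qⁿ` (no Gauss sum, no `L`-value; `ψ` need not be primitive).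
-/

set_option autoImplicit false

open ModularForm EisensteinSeries Filter Topology Complex CongruenceSubgroup
open UpperHalfPlane hiding I
open scoped MatrixGroups Manifold Real

namespace Fermat.Agent.S48.helper3960

open Fermat.Agent.S29.helper3191

noncomputable section

variable {N : ℕ}

/-- The weight on `ℤ²` attached to a Dirichlet character: `(c, d) ↦ ψ(c)`. -/
def psiW (ψ : DirichletCharacter ℂ N) : (Fin 2 → ℤ) → ℂ := fun v ↦ ψ ((v 0 : ℤ) : ZMod N)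

lemma norm_psiW_le (ψ : DirichletCharacter ℂ N) (v : Fin 2 → ℤ) : ‖psiW ψ v‖ ≤ 1 :=
  DirichletCharacter.norm_le_one ψ _

/-- The Eisenstein multiplier `B_ψ`. -/
def eisPsi (ψ : DirichletCharacter ℂ N) : ℍ → ℂ :=
  fun z ↦ ((-2 * π * I) ^ 3)⁻¹ * wEis (psiW ψ) 3 z

lemma eisPsi_eq_smul (ψ : DirichletCharacter ℂ N) :
    eisPsi ψ = ((-2 * π * I) ^ 3)⁻¹ • wEis (psiW ψ) 3 := rfl

theorem eisPsi_mdifferentiable (ψ : DirichletCharacter ℂ N) : MDiff (eisPsi ψ) := by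
  rw [eisPsi_eq_smul]
  exact (wEis_mdifferentiable (norm_psiW_le ψ) (le_refl 3)).const_smul _

theorem eisPsi_slash_isBoundedAtImInfty (ψ : DirichletCharacter ℂ N) (A : SL(2, ℤ)) :
    IsBoundedAtImInfty (eisPsi ψ ∣[(3 : ℤ)] A) := by
  rw [eisPsi_eq_smul, SL_smul_slash]
  exact (wEis_slash_isBoundedAtImInfty (norm_psiW_le ψ) (le_refl 3) A).const_smul_left _

lemma psiW_vecMulEquiv_symm (ψ : DirichletCharacter ℂ N) {γ : SL(2, ℤ)} (hγ : γ ∈ Gamma0 N)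
    (v : Fin 2 → ℤ) :
    psiW ψ ((vecMulEquiv γ).symm v) = ψ ((γ 1 1 : ℤ) : ZMod N) * psiW ψ v := by
  have h0 : ((γ 1 0 : ℤ) : ZMod N) = 0 := Gamma0_mem.mp hγ
  have hv : ((vecMulEquiv γ).symm v) 0 = v 0 * γ 1 1 - v 1 * γ 1 0 := by
    rw [vecMulEquiv_symm_apply]
    simp [Matrix.vecMul, dotProduct, Fin.sum_univ_two, Matrix.SpecialLinearGroup.coe_inv,
      Matrix.adjugate_fin_two]
    ring
  unfold psiW
  rw [hv, Int.cast_sub, Int.cast_mul, Int.cast_mul, h0, mul_zero, sub_zero, map_mul, mul_comm]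

theorem eisPsi_slash (ψ : DirichletCharacter ℂ N) {γ : SL(2, ℤ)} (hγ : γ ∈ Gamma0 N) :
    eisPsi ψ ∣[(3 : ℤ)] γ = ψ ((γ 1 1 : ℤ) : ZMod N) • eisPsi ψ := by
  rw [eisPsi_eq_smul, SL_smul_slash, wEis_slash, smul_comm]
  congr 1
  ext z
  simp only [wEis, Pi.smul_apply, smul_eq_mul, psiW_vecMulEquiv_symm ψ hγ, mul_assoc]
  rw [tsum_mul_left]

theorem eisPsi_slash_Gamma1 (ψ : DirichletCharacter ℂ N) {γ : SL(2, ℤ)} (hγ : γ ∈ Gamma1 N) :
    eisPsi ψ ∣[(3 : ℤ)] γ = eisPsi ψ := by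
  rw [eisPsi_slash ψ (Gamma1_in_Gamma0 N hγ), ((Gamma1_mem N γ).mp hγ).2.1, map_one, one_smul]

/-! ## The `q`-expansion -/

lemma psi_zero_of_odd (ψ : DirichletCharacter ℂ N) (hodd : ψ (-1) = -1) : ψ 0 = 0 := by
  have hN : N ≠ 1 := by
    rintro rfl
    have h1 : (-1 : ZMod 1) = 1 := Subsingleton.elim _ _
    rw [h1, map_one] at hodd
    norm_num at hodd
  have : Nontrivial (ZMod N) := ZMod.nontrivial_iff.mpr hN
  exact MulChar.map_zero ψ

/-- The sum of the Eisenstein summands over the row `c`. -/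
def rowSum (z : ℍ) (c : ℤ) : ℂ := ∑' d : ℤ, eisSummand 3 ![c, d] z

lemma summable_psi_prod (ψ : DirichletCharacter ℂ N) (z : ℍ) :
    Summable fun x : ℤ × ℤ ↦ ψ ((x.1 : ℤ) : ZMod N) * eisSummand 3 ![x.1, x.2] z := by
  have h := (finTwoArrowEquiv ℤ).symm.summable_iff.mpr
    (wEis_summable (norm_psiW_le ψ) (le_refl 3) z)
  refine h.congr fun x ↦ ?_
  simp [psiW, finTwoArrowEquiv_symm_apply]

lemma wEis_psi_eq (ψ : DirichletCharacter ℂ N) (z : ℍ) :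
    wEis (psiW ψ) 3 z = ∑' c : ℤ, ψ ((c : ℤ) : ZMod N) * rowSum z c := by
  have h1 : wEis (psiW ψ) 3 z =
      ∑' x : ℤ × ℤ, ψ ((x.1 : ℤ) : ZMod N) * eisSummand 3 ![x.1, x.2] z := by
    unfold wEis
    rw [← (finTwoArrowEquiv ℤ).symm.tsum_eq]
    refine tsum_congr fun x ↦ ?_
    simp [psiW, finTwoArrowEquiv_symm_apply]
  rw [h1, Summable.tsum_prod (summable_psi_prod ψ z)]
  refine tsum_congr fun c ↦ ?_
  dsimp only
  rw [rowSum, tsum_mul_left]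

lemma rowSum_neg (z : ℍ) (c : ℤ) : rowSum z (-c) = -rowSum z c := by
  unfold rowSum
  rw [← tsum_comp_neg, ← tsum_neg]
  refine tsum_congr fun d ↦ ?_
  have h3 : Odd (-3 : ℤ) := ⟨-2, by norm_num⟩
  have := h3.neg_zpow ((c : ℂ) * (z : ℂ) + (d : ℂ))
  simp only [eisSummand, Matrix.cons_val_zero, Matrix.cons_val_one, Int.cast_neg]
  rw [← this]
  congr 1
  ring

lemma summable_psi_rowSum (ψ : DirichletCharacter ℂ N) (z : ℍ) :
    Summable fun c : ℤ ↦ ψ ((c : ℤ) : ZMod N) * rowSum z c := by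
  have h := (summable_psi_prod ψ z).prod
  refine h.congr fun c ↦ ?_
  dsimp only
  rw [rowSum, tsum_mul_left]

lemma wEis_psi_eq_pnat (ψ : DirichletCharacter ℂ N) (hodd : ψ (-1) = -1) (z : ℍ) :
    wEis (psiW ψ) 3 z = 2 * ∑' c : ℕ+, ψ (((c : ℕ) : ℤ) : ZMod N) * rowSum z ((c : ℕ) : ℤ) := by
  rw [wEis_psi_eq, tsum_int_eq_zero_add_two_mul_tsum_pnat (f := fun c : ℤ ↦
    ψ ((c : ℤ) : ZMod N) * rowSum z c) ?_ (summable_psi_rowSum ψ z)]
  · simp only [Int.cast_zero, psi_zero_of_odd ψ hodd, zero_mul, zero_add, nsmul_eq_mul,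
      Nat.cast_ofNat]
  · intro c
    have h1 : ψ (((-c : ℤ) : ℤ) : ZMod N) = -ψ ((c : ℤ) : ZMod N) := by
      rw [Int.cast_neg, neg_eq_neg_one_mul, map_mul, hodd, neg_one_mul]
    simp only [h1, rowSum_neg, neg_mul_neg]

lemma rowSum_pnat (z : ℍ) (c : ℕ+) :
    rowSum z ((c : ℕ) : ℤ) = ((-2 * π * I) ^ 3 / 2) *
      ∑' n : ℕ+, (n : ℂ) ^ 2 * cexp (2 * π * I * z) ^ ((c : ℕ) * (n : ℕ)) := by
  have H := qExpansion_identity_pnat (k := 2) (by norm_num)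
    ⟨(c : ℂ) * (z : ℂ), by simpa using z.2⟩
  unfold rowSum
  have h1 : ∀ d : ℤ, eisSummand 3 ![((c : ℕ) : ℤ), d] z =
      1 / ((((⟨(c : ℂ) * (z : ℂ), by simpa using z.2⟩ : ℍ) : ℂ)) + d) ^ (2 + 1) := by
    intro d
    simp [eisSummand]
  rw [tsum_congr h1, H]
  congr 1
  refine tsum_congr fun n ↦ ?_
  congr 1
  rw [← Complex.exp_nat_mul, ← Complex.exp_nat_mul]
  congr 1
  push_cast
  ring

/-- The `n`-th `q`-expansion coefficient of `B_ψ`: `∑_{c * m = n} ψ(c) m²`. -/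
def eisCoeff (ψ : DirichletCharacter ℂ N) (n : ℕ) : ℂ :=
  ∑ x ∈ n.divisorsAntidiagonal, ψ ((x.1 : ℕ) : ZMod N) * (x.2 : ℂ) ^ 2

@[simp] lemma eisCoeff_zero (ψ : DirichletCharacter ℂ N) : eisCoeff ψ 0 = 0 := by
  simp [eisCoeff]

@[simp] lemma eisCoeff_one (ψ : DirichletCharacter ℂ N) : eisCoeff ψ 1 = 1 := by
  simp [eisCoeff]

lemma eisCoeff_eq_sum_divisors (ψ : DirichletCharacter ℂ N) (n : ℕ) :
    eisCoeff ψ n = ∑ c ∈ n.divisors, ψ ((c : ℕ) : ZMod N) * ((n / c : ℕ) : ℂ) ^ 2 :=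
  Nat.sum_divisorsAntidiagonal (fun c m ↦ ψ ((c : ℕ) : ZMod N) * (m : ℂ) ^ 2)

lemma eisCoeff_ringHomComp (ψ : DirichletCharacter ℂ N) (σ : ℂ →+* ℂ) (n : ℕ) :
    eisCoeff (ψ.ringHomComp σ) n = σ (eisCoeff ψ n) := by
  simp [eisCoeff, MulChar.ringHomComp_apply]

/-- The `q`-expansion of `B_ψ`, as a convergent sum. -/
theorem hasSum_eisPsi (ψ : DirichletCharacter ℂ N) (hodd : ψ (-1) = -1) (z : ℍ) :
    HasSum (fun m : ℕ ↦ eisCoeff ψ m • Function.Periodic.qParam 1 z ^ m) (eisPsi ψ z) := by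
  set q : ℂ := cexp (2 * π * I * z) with hq
  have hqn : ‖q‖ < 1 := norm_exp_two_pi_I_lt_one z
  let F : ℕ+ × ℕ+ → ℂ := fun x ↦
    ψ ((x.1 : ℕ) : ZMod N) * ((x.2 : ℂ) ^ 2 * q ^ ((x.1 : ℕ) * (x.2 : ℕ)))
  have hF : Summable F := by
    have hb := summable_prod_mul_pow (𝕜 := ℝ) 2 (r := ‖q‖) (by simpa using hqn)
    refine Summable.of_norm_bounded hb fun x ↦ ?_
    simp only [F, norm_mul, norm_pow, Complex.norm_natCast]
    have := DirichletCharacter.norm_le_one ψ ((x.1 : ℕ) : ZMod N)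
    exact mul_le_of_le_one_left (by positivity) this
  have hval : eisPsi ψ z = ∑' x : ℕ+ × ℕ+, F x := by
    rw [hF.tsum_prod]
    unfold eisPsi
    rw [wEis_psi_eq_pnat ψ hodd z]
    have hK : ((-2 * π * I) ^ 3 : ℂ) ≠ 0 := by
      apply pow_ne_zero
      simp [Real.pi_ne_zero, Complex.I_ne_zero]
    have e1 : ∀ c : ℕ+, ψ (((c : ℕ) : ℤ) : ZMod N) * rowSum z ((c : ℕ) : ℤ) =
        ((-2 * π * I) ^ 3 / 2) * ∑' n : ℕ+, F (c, n) := by
      intro c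
      rw [rowSum_pnat, Int.cast_natCast]
      simp only [F]
      rw [tsum_mul_left]
      ring
    rw [tsum_congr e1, tsum_mul_left]
    field_simp
  have h1 : HasSum F (eisPsi ψ z) := hval ▸ hF.hasSum
  have h2 : HasSum (F ∘ sigmaAntidiagonalEquivProd) (eisPsi ψ z) :=
    sigmaAntidiagonalEquivProd.hasSum_iff.mpr h1
  have h3 : HasSum (fun e : ℕ+ ↦ eisCoeff ψ e * q ^ (e : ℕ)) (eisPsi ψ z) := by
    refine HasSum.sigma h2 fun e ↦ ?_
    have := hasSum_fintype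
      (fun x : ((e : ℕ).divisorsAntidiagonal) ↦ (F ∘ sigmaAntidiagonalEquivProd) ⟨e, x⟩)
    convert this using 1
    rw [eisCoeff, Finset.sum_mul, ← Finset.sum_coe_sort]
    refine Finset.sum_congr rfl fun x _ ↦ ?_
    have hx := (Nat.mem_divisorsAntidiagonal.mp x.2).1
    simp only [F, Function.comp, sigmaAntidiagonalEquivProd, divisorsAntidiagonalFactors,
      Equiv.coe_fn_mk, PNat.mk_coe]
    rw [hx]
    ring
  have h4 := (PNat.coe_injective.hasSum_iff (f := fun m : ℕ ↦ eisCoeff ψ m * q ^ m) ?_).mp h3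
  · convert h4 using 2 with m
    simp [Function.Periodic.qParam, hq]
  · intro m hm
    have : m = 0 := by
      by_contra h0
      exact hm ⟨⟨m, Nat.pos_of_ne_zero h0⟩, rfl⟩
    subst this
    simp

/-! ## `B_ψ` as a modular form on `Γ₁(N)` -/

lemma gamma1_le_SL (N : ℕ) :
    ((Gamma1 N : Subgroup SL(2, ℤ)) : Subgroup (GL (Fin 2) ℝ)) ≤ 𝒮ℒ :=
  Subgroup.map_le_range _ _

/-- `B_ψ` as a modular form of weight `3` on `Γ₁(N)`. -/
def eisPsiMF (ψ : DirichletCharacter ℂ N) : ModularForm (Gamma1 N) 3 where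
  toFun := eisPsi ψ
  slash_action_eq' γ hγ := by
    obtain ⟨γ', hγ', rfl⟩ := hγ
    exact eisPsi_slash_Gamma1 ψ hγ'
  holo' := eisPsi_mdifferentiable ψ
  bdd_at_cusps' {c} hc := by
    rw [OnePoint.isBoundedAt_iff_forall_SL2Z (hc.mono (gamma1_le_SL N))]
    intro A _
    exact eisPsi_slash_isBoundedAtImInfty ψ A

@[simp] lemma coe_eisPsiMF (ψ : DirichletCharacter ℂ N) : (eisPsiMF ψ : ℍ → ℂ) = eisPsi ψ := rfl

theorem eisPsi_qExpansion_coeff (ψ : DirichletCharacter ℂ N) (hodd : ψ (-1) = -1) (m : ℕ) :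
    (qExpansion 1 (eisPsi ψ)).coeff m = eisCoeff ψ m :=
  (ModularFormClass.qExpansion_coeff_unique (f := eisPsiMF ψ) one_pos (by simp)
    (hasSum_eisPsi ψ hodd) m).symm

theorem eisPsi_qExpansion (ψ : DirichletCharacter ℂ N) (hodd : ψ (-1) = -1) :
    qExpansion 1 (eisPsi ψ) = PowerSeries.mk (eisCoeff ψ) := by
  ext m
  rw [eisPsi_qExpansion_coeff ψ hodd, PowerSeries.coeff_mk]

/-- Conjugating the character conjugates the `q`-expansion of `B_ψ`. -/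
theorem eisPsi_qExpansion_map (ψ : DirichletCharacter ℂ N) (hodd : ψ (-1) = -1) (σ : ℂ →+* ℂ) :
    qExpansion 1 (eisPsi (ψ.ringHomComp σ)) = (qExpansion 1 (eisPsi ψ)).map σ := by
  have hodd' : (ψ.ringHomComp σ) (-1) = -1 := by
    rw [MulChar.ringHomComp_apply, hodd, map_neg, map_one]
  ext m
  rw [eisPsi_qExpansion_coeff _ hodd', PowerSeries.coeff_map, eisPsi_qExpansion_coeff ψ hodd,
    eisCoeff_ringHomComp]

theorem eisPsi_qExpansion_ne_zero (ψ : DirichletCharacter ℂ N) (hodd : ψ (-1) = -1) :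
    qExpansion 1 (eisPsi ψ) ≠ 0 := by
  intro h
  have := eisPsi_qExpansion_coeff ψ hodd 1
  rw [h] at this
  simp at this

theorem eisPsi_ne_zero (ψ : DirichletCharacter ℂ N) (hodd : ψ (-1) = -1) : eisPsi ψ ≠ 0 := by
  intro h
  apply eisPsi_qExpansion_ne_zero ψ hodd
  rw [h]
  exact UpperHalfPlane.qExpansion_zero 1

end

end Fermat.Agent.S48.helper3960
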