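import Mathlib
import Fermat.Agent.S24.helper580_HolMer
import Fermat.Agent.S24.helper167_SymmetricJ
import Fermat.Agent.S29.helper8319_PthRoot
import Fermat.Agent.S29.helper6855_DescentCanon

set_option autoImplicit false

/-!
# S48 / M3-INVROOT (helper4027): an invariant analytic root lies in the function field

Generic-`Γ` form of (TH3) of the analytic Kummer dictionary (landed for `Γ₀(N)` as
`S29/helper3126_InvRoot`, `S29/helper288.exists_evMer_eq_of_invariant`).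

`Γ ≤ SL(2, ℤ)` of finite index, `E` a field with an evaluation `ev : E → Mer` into the field of
meromorphic functions on the upper half plane (`S24.helper580.Mer`).  The only input on `E` is

* `(R)` every ratio of two modular forms of the same weight on `Γ` is an evaluation
  (`ev x * [D] = [G]`).

Results:

* `formOfFun`, `exists_uniform_growth`, `discMulForm`, `deltaPowForm` : a holomorphic `Γ`-invariant function all
  of whose `SL(2, ℤ)`-translates have exponential growth becomes a modular form on `Γ` after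
  multiplication by a power of `Δ`;
* `invRoot_hol` (I1) : a holomorphic `Γ`-invariant `n`-th root of a function of exponential growth
  is an evaluation;
* `invRootG` (I1') : the same in the shape `InvRootG Γ ev A n` of the finiteness leaf;
* `invRoot_mer` (I2) : a meromorphic `Γ`-invariant `n`-th root of an evaluation is an evaluation;
* `exists_root_of_invariant`, `hroot_of_invRoot`, `exists_eq_pow_of_multiplier` (I3) : the descent
  to the field over the small constant field, abstractly in `bc : F → FC`; `hroot_of_invRoot` is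
  the hypothesis `hroot` of the multiplier dictionary (the `inj` field);
* `bcLaurent`, `rootDesc_laurent`, `invRoot_descent` : the same for
  `F = laurentBaseChange K F₀`, `FC = laurentBaseChange ℂ F₀`, `K ⊆ ℂ` algebraically closed
  (landed `helper6855.exists_descent_of_pow_eq`).
-/

open UpperHalfPlane ModularForm CongruenceSubgroup Filter Topology
open scoped MatrixGroups Manifold Real

namespace Fermat.Agent.S48.helper4027

open Fermat.Agent.S24 Fermat.Agent.S24.helper580 Fermat.Agent.S24.helper167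

noncomputable section

/-! ## Modular forms on `Γ` from invariant functions -/

/-- A holomorphic function with weight-`k` slash invariance under `Γ`, all of whose
`SL(2, ℤ)`-slashes are bounded at `i∞`, is a modular form on `Γ`. -/
def formOfFun (Γ : Subgroup SL(2, ℤ)) [Γ.FiniteIndex] (k : ℤ) (h : ℍ → ℂ) (hol : MDiff h)
    (htr : ∀ γ ∈ Γ, h ∣[k] γ = h)
    (hbd : ∀ g : SL(2, ℤ), IsBoundedAtImInfty (h ∣[k] g)) :
    ModularForm (Γ : Subgroup (GL (Fin 2) ℝ)) k where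
  toFun := h
  slash_action_eq' := by
    rintro γ ⟨γ₀, hγ₀, rfl⟩
    exact htr γ₀ hγ₀
  holo' := hol
  bdd_at_cusps' := by
    intro c hc'
    rw [Subgroup.IsArithmetic.isCusp_iff_isCusp_SL2Z] at hc'
    rw [OnePoint.isBoundedAt_iff_forall_SL2Z hc']
    intro g _
    exact hbd g

@[simp] lemma formOfFun_apply (Γ : Subgroup SL(2, ℤ)) [Γ.FiniteIndex] (k : ℤ) (h : ℍ → ℂ)
    (hol : MDiff h) (htr : ∀ γ ∈ Γ, h ∣[k] γ = h)
    (hbd : ∀ g : SL(2, ℤ), IsBoundedAtImInfty (h ∣[k] g)) (z : ℍ) :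
    formOfFun Γ k h hol htr hbd z = h z := rfl

/-- A modular form as an element of the ring `Hol` of holomorphic functions on `ℍ`. -/
def formHol {𝒢 : Subgroup (GL (Fin 2) ℝ)} {k : ℤ} (f : ModularForm 𝒢 k) : Hol :=
  ⟨⇑f, f.holo'⟩

@[simp] lemma formHol_apply {𝒢 : Subgroup (GL (Fin 2) ℝ)} {k : ℤ} (f : ModularForm 𝒢 k)
    (z : ℍ) : (formHol f : ℍ → ℂ) z = f z := rfl

lemma formHol_ne_zero {𝒢 : Subgroup (GL (Fin 2) ℝ)} {k : ℤ} {f : ModularForm 𝒢 k}
    (hf : f ≠ 0) : formHol f ≠ 0 := by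
  intro h
  apply hf
  ext z
  exact congrFun (congrArg Subtype.val h) z

/-- A root of a function of exponential growth has exponential growth. -/
theorem hasExpGrowth_of_pow_eq {f h : ℍ → ℂ} {p : ℕ} (hp : p ≠ 0)
    (hpow : ∀ τ : ℍ, h τ ^ p = f τ) (hf : HasExpGrowth f) : HasExpGrowth h := by
  obtain ⟨m, C, hC⟩ := hf
  refine ⟨m, max C 1, fun τ hτ => ?_⟩
  have hE : 1 ≤ Real.exp (2 * Real.pi * m * τ.im) := by
    apply Real.one_le_exp
    have := Real.pi_pos
    positivity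
  have hmax : 1 ≤ max C 1 * Real.exp (2 * Real.pi * m * τ.im) :=
    one_le_mul_of_one_le_of_one_le (le_max_right _ _) hE
  rcases le_or_gt ‖h τ‖ 1 with h1 | h1
  · exact h1.trans hmax
  · calc ‖h τ‖ ≤ ‖h τ‖ ^ p := le_self_pow₀ h1.le hp
      _ = ‖f τ‖ := by rw [← norm_pow, hpow τ]
      _ ≤ C * Real.exp (2 * Real.pi * m * τ.im) := hC τ hτ
      _ ≤ max C 1 * Real.exp (2 * Real.pi * m * τ.im) :=
          mul_le_mul_of_nonneg_right (le_max_left _ _) (Real.exp_pos _).le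

/-- For a function invariant under a finite-index `Γ`, the exponential growth of its
`SL(2, ℤ)`-translates is uniform in the exponent. -/
theorem exists_uniform_growth (Γ : Subgroup SL(2, ℤ)) [Γ.FiniteIndex] (H : ℍ → ℂ)
    (hinv : ∀ γ ∈ Γ, ∀ τ : ℍ, H (γ • τ) = H τ)
    (hgrowth : ∀ g : SL(2, ℤ), HasExpGrowth (fun τ => H (g • τ))) :
    ∃ m : ℕ, ∀ g : SL(2, ℤ), ∃ C : ℝ, ∀ τ : ℍ, 1 ≤ τ.im →
      ‖H (g • τ)‖ ≤ C * Real.exp (2 * Real.pi * m * τ.im) := by
  classical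
  have : Finite (SL(2, ℤ) ⧸ Γ) := Subgroup.finite_quotient_of_finiteIndex
  let _ := Fintype.ofFinite (SL(2, ℤ) ⧸ Γ)
  have hg' : ∀ g : SL(2, ℤ), ∃ (m : ℕ) (C : ℝ), 1 ≤ C ∧
      ∀ τ : ℍ, 1 ≤ τ.im → ‖H (g • τ)‖ ≤ C * Real.exp (2 * Real.pi * m * τ.im) := by
    intro g
    obtain ⟨m, C, -, hC, h⟩ := (hgrowth g).exists_ge 0
    exact ⟨m, C, hC, h⟩
  choose mm CC hCC hmC using hg'
  refine ⟨Finset.univ.sup (fun q : SL(2, ℤ) ⧸ Γ => mm (q.out)⁻¹), fun g => ?_⟩
  set q : SL(2, ℤ) ⧸ Γ := QuotientGroup.mk g⁻¹ with hq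
  have hmem : g * q.out ∈ Γ := by
    have h1 : (QuotientGroup.mk q.out : SL(2, ℤ) ⧸ Γ) = QuotientGroup.mk g⁻¹ :=
      QuotientGroup.out_eq' q
    have h2 := QuotientGroup.eq.mp h1.symm
    simpa using h2
  refine ⟨CC (q.out)⁻¹, fun τ hτ => ?_⟩
  have h3 : g • τ = (g * q.out) • ((q.out)⁻¹ • τ) := by
    rw [← mul_smul, mul_assoc, mul_inv_cancel, mul_one]
  rw [h3, hinv _ hmem]
  have hy : 0 ≤ τ.im := by linarith
  calc ‖H ((q.out)⁻¹ • τ)‖
      ≤ CC (q.out)⁻¹ * Real.exp (2 * Real.pi * mm (q.out)⁻¹ * τ.im) := hmC _ τ hτ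
    _ ≤ CC (q.out)⁻¹ * Real.exp (2 * Real.pi *
          (Finset.univ.sup (fun q : SL(2, ℤ) ⧸ Γ => mm (q.out)⁻¹) : ℕ) * τ.im) :=
        mul_le_mul_of_nonneg_left
          (exp_growth_mono (Finset.le_sup (f := fun q : SL(2, ℤ) ⧸ Γ => mm (q.out)⁻¹)
            (Finset.mem_univ q)) hy)
          (le_trans zero_le_one (hCC _))

/-- Slash of `Δ ^ m * H` by `SL(2, ℤ)` in weight `12 m`. -/
lemma disc_pow_mul_slash (m : ℕ) (H : ℍ → ℂ) (g : SL(2, ℤ)) :
    (fun τ => discriminant τ ^ m * H τ) ∣[12 * (m : ℤ)] g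
      = fun τ => discriminant τ ^ m * H (g • τ) := by
  ext τ
  rw [SL_slash_apply, discriminant_smul_eq]
  have hd : denom g τ ≠ 0 := denom_ne_zero g τ
  rw [mul_pow, ← zpow_natCast (denom g τ ^ (12 : ℤ)) m, ← zpow_mul, zpow_neg]
  field_simp

/-- **`Δ ^ m * H` as a modular form on `Γ`**, for a holomorphic `Γ`-invariant `H` whose
`SL(2, ℤ)`-translates have exponential growth of exponent at most `m`. -/
def discMulForm (Γ : Subgroup SL(2, ℤ)) [Γ.FiniteIndex] (m : ℕ) (H : ℍ → ℂ) (hol : MDiff H)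
    (hinv : ∀ γ ∈ Γ, ∀ τ : ℍ, H (γ • τ) = H τ)
    (hm : ∀ g : SL(2, ℤ), ∃ C : ℝ, ∀ τ : ℍ, 1 ≤ τ.im →
      ‖H (g • τ)‖ ≤ C * Real.exp (2 * Real.pi * m * τ.im)) :
    ModularForm (Γ : Subgroup (GL (Fin 2) ℝ)) (12 * (m : ℤ)) :=
  formOfFun Γ (12 * (m : ℤ)) (fun τ => discriminant τ ^ m * H τ)
    ((CuspForm.discriminant.holo'.pow m).mul hol)
    (fun γ hγ => by
      rw [disc_pow_mul_slash]
      funext τ
      rw [hinv γ hγ])
    (fun g => by
      rw [disc_pow_mul_slash]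
      obtain ⟨C, hC⟩ := hm g
      exact isBoundedAtImInfty_disc_pow_mul hC)

lemma discMulForm_apply (Γ : Subgroup SL(2, ℤ)) [Γ.FiniteIndex] (m : ℕ) (H : ℍ → ℂ)
    (hol : MDiff H) (hinv : ∀ γ ∈ Γ, ∀ τ : ℍ, H (γ • τ) = H τ)
    (hm : ∀ g : SL(2, ℤ), ∃ C : ℝ, ∀ τ : ℍ, 1 ≤ τ.im →
      ‖H (g • τ)‖ ≤ C * Real.exp (2 * Real.pi * m * τ.im)) (z : ℍ) :
    discMulForm Γ m H hol hinv hm z = discriminant z ^ m * H z := rfl

/-- `Δ ^ m` as a modular form of weight `12 m` on `Γ` (value `Δ ^ m * 1`). -/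
def deltaPowForm (Γ : Subgroup SL(2, ℤ)) [Γ.FiniteIndex] (m : ℕ) :
    ModularForm (Γ : Subgroup (GL (Fin 2) ℝ)) (12 * (m : ℤ)) :=
  discMulForm Γ m (fun _ => 1) mdifferentiable_const (fun _ _ _ => rfl)
    (fun _ => ⟨1, fun τ _ => by
      rw [norm_one, one_mul]
      apply Real.one_le_exp
      have := Real.pi_pos
      have := τ.im_pos
      positivity⟩)

lemma deltaPowForm_apply (Γ : Subgroup SL(2, ℤ)) [Γ.FiniteIndex] (m : ℕ) (z : ℍ) :
    deltaPowForm Γ m z = discriminant z ^ m * 1 := rfl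

lemma deltaPowForm_ne_zero (Γ : Subgroup SL(2, ℤ)) [Γ.FiniteIndex] (m : ℕ) :
    deltaPowForm Γ m ≠ 0 := by
  intro h
  have := congrArg
    (fun f : ModularForm (Γ : Subgroup (GL (Fin 2) ℝ)) (12 * (m : ℤ)) => f UpperHalfPlane.I) h
  simp only [deltaPowForm_apply, mul_one, _root_.zero_apply] at this
  exact pow_ne_zero m (discriminant_ne_zero _) this

/-! ## (I1) Holomorphic invariant roots -/

section InvRoot

variable {E : Type*} [Field E] {Φ : Type*} [FunLike Φ E Mer] [RingHomClass Φ E Mer]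

/-- **(R)** Every ratio of two modular forms of the same weight on `Γ` is an evaluation:
for `G, D ∈ M_k(Γ)`, `D ≠ 0`, there is `x : E` with `ev x * [D] = [G]` in `Mer`. -/
def RatioInG (Γ : Subgroup SL(2, ℤ)) (ev : Φ) : Prop :=
  ∀ (k : ℤ) (G D : ModularForm (Γ : Subgroup (GL (Fin 2) ℝ)) k), D ≠ 0 →
    ∃ x : E, ev x * algebraMap Hol Mer (formHol D) = algebraMap Hol Mer (formHol G)

/-- Function-level invariance from invariance in `Mer`. -/
lemma apply_smul_of_pull_eq {Γ : Subgroup SL(2, ℤ)} (H : Hol)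
    (hinv : ∀ γ ∈ Γ, pull γ (algebraMap Hol Mer H) = algebraMap Hol Mer H) :
    ∀ γ ∈ Γ, ∀ τ : ℍ, (H : ℍ → ℂ) (γ • τ) = (H : ℍ → ℂ) τ := by
  intro γ hγ τ
  have h1 := hinv γ hγ
  rw [pull_algebraMap] at h1
  have h2 := IsFractionRing.injective Hol Mer h1
  have h3 := congrArg (fun F : Hol => (F : ℍ → ℂ) τ) h2
  simpa using h3

omit [Field E] [RingHomClass Φ E Mer] in
/-- **(I1) INVROOT, holomorphic form.**  A holomorphic `Γ`-invariant function `H` on `ℍ` whose
`n`-th power `f` has exponential growth at all cusps (all `SL(2, ℤ)`-translates of `f` have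
exponential growth at `i∞`) is an evaluation, provided every ratio of modular forms on `Γ` is. -/
theorem invRoot_hol (Γ : Subgroup SL(2, ℤ)) [Γ.FiniteIndex] (ev : Φ) (hRatio : RatioInG Γ ev)
    {n : ℕ} (hn : n ≠ 0) (H f : Hol)
    (hinv : ∀ γ ∈ Γ, pull γ (algebraMap Hol Mer H) = algebraMap Hol Mer H)
    (hpow : H ^ n = f)
    (hgrowth : ∀ g : SL(2, ℤ), HasExpGrowth (fun τ : ℍ => (f : ℍ → ℂ) (g • τ))) :
    ∃ t : E, algebraMap Hol Mer H = ev t := by
  have hinj := IsFractionRing.injective Hol Mer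
  have hinvF := apply_smul_of_pull_eq H hinv
  have hgH : ∀ g : SL(2, ℤ), HasExpGrowth (fun τ : ℍ => (H : ℍ → ℂ) (g • τ)) := by
    intro g
    refine hasExpGrowth_of_pow_eq hn (fun τ => ?_) (hgrowth g)
    have h1 := congrArg (fun F : Hol => (F : ℍ → ℂ) (g • τ)) hpow
    simpa using h1
  obtain ⟨m, hm⟩ := exists_uniform_growth Γ (H : ℍ → ℂ) hinvF hgH
  obtain ⟨x, hx⟩ := hRatio (12 * (m : ℤ)) (discMulForm Γ m (H : ℍ → ℂ) H.2 hinvF hm)
    (deltaPowForm Γ m) (deltaPowForm_ne_zero Γ m)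
  have hD0 : algebraMap Hol Mer (formHol (deltaPowForm Γ m)) ≠ 0 :=
    (map_ne_zero_iff _ hinj).mpr (formHol_ne_zero (deltaPowForm_ne_zero Γ m))
  have hGD : formHol (discMulForm Γ m (H : ℍ → ℂ) H.2 hinvF hm)
      = formHol (deltaPowForm Γ m) * H := Hol.ext fun τ => by
    show discriminant τ ^ m * (H : ℍ → ℂ) τ = discriminant τ ^ m * 1 * (H : ℍ → ℂ) τ
    rw [mul_one]
  refine ⟨x, ?_⟩
  rw [hGD, map_mul, mul_comm (ev x)] at hx
  exact (mul_left_cancel₀ hD0 hx).symm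

omit [Field E] [RingHomClass Φ E Mer] in
/-- **(I1') INVROOT in the shape of the finiteness leaf** (`InvRootG Γ ev A n`): a holomorphic
`Γ`-invariant `n`-th root of the evaluation of an element of `A` is an evaluation.  `hgrowthA` is
the growth clause of the analytic field datum (all `SL(2, ℤ)`-translates of the evaluations of
elements of `A` have exponential growth). -/
theorem invRootG (Γ : Subgroup SL(2, ℤ)) [Γ.FiniteIndex] (ev : Φ) (hRatio : RatioInG Γ ev)
    {S : Type*} [SetLike S E] (A : S)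
    (hgrowthA : ∀ a ∈ A, ∀ f : Hol, ev a = algebraMap Hol Mer f →
      ∀ g : SL(2, ℤ), HasExpGrowth (fun τ : ℍ => (f : ℍ → ℂ) (g • τ)))
    {n : ℕ} (hn : n ≠ 0) :
    ∀ H : Hol, (∀ γ ∈ Γ, pull γ (algebraMap Hol Mer H) = algebraMap Hol Mer H) →
      (∃ a ∈ A, algebraMap Hol Mer H ^ n = ev a) → ∃ t : E, algebraMap Hol Mer H = ev t := by
  rintro H hinv ⟨a, ha, hHa⟩
  have h1 : ev a = algebraMap Hol Mer (H ^ n) := by rw [map_pow, hHa]
  exact invRoot_hol Γ ev hRatio hn H (H ^ n) hinv rfl (hgrowthA a ha (H ^ n) h1)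

/-! ## (I2) Meromorphic invariant roots -/

/-- Roots of unity of a field `M` lie in the image of any algebraically closed subfield. -/
theorem exists_map_eq_of_pow_eq_one' {k M : Type*} [Field k] [IsAlgClosed k] [Field M]
    (φ : k →+* M) {n : ℕ} (hn : n ≠ 0) {q : M} (hq : q ^ n = 1) :
    ∃ ζ : k, ζ ^ n = 1 ∧ q = φ ζ := by
  have hmonic : (Polynomial.X ^ n - Polynomial.C 1 : Polynomial k).Monic :=
    Polynomial.monic_X_pow_sub_C (1 : k) hn
  have hs := (IsAlgClosed.splits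
    (Polynomial.X ^ n - Polynomial.C 1 : Polynomial k)).eq_prod_roots_of_monic hmonic
  have h2 := congrArg (Polynomial.eval₂RingHom φ q) hs
  rw [map_sub, map_pow, Polynomial.coe_eval₂RingHom, Polynomial.eval₂_X, Polynomial.eval₂_C,
    map_one, hq, sub_self, ← Polynomial.coe_eval₂RingHom, map_multiset_prod,
    Multiset.map_map] at h2
  obtain ⟨x, hx, hx0⟩ := Multiset.prod_eq_zero_iff.mp h2.symm |> Multiset.mem_map.mp
  have hroot : x ^ n = 1 := by
    have h3 := (Polynomial.mem_roots hmonic.ne_zero).mp hx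
    rw [Polynomial.IsRoot.def, Polynomial.eval_sub, Polynomial.eval_pow, Polynomial.eval_X,
      Polynomial.eval_C] at h3
    exact sub_eq_zero.mp h3
  refine ⟨x, hroot, ?_⟩
  rw [Function.comp_apply, Polynomial.coe_eval₂RingHom, Polynomial.eval₂_sub, Polynomial.eval₂_X,
    Polynomial.eval₂_C] at hx0
  exact sub_eq_zero.mp hx0

/-- A meromorphic function on `ℍ` whose `n`-th power is holomorphic is holomorphic. -/
theorem exists_hol_of_pow_eq {n : ℕ} (hn : n ≠ 0) (W : Mer) (f : Hol)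
    (hW : W ^ n = algebraMap Hol Mer f) : ∃ H : Hol, W = algebraMap Hol Mer H := by
  by_cases hW0 : W = 0
  · exact ⟨0, by rw [hW0, map_zero]⟩
  obtain ⟨m, rfl⟩ := Nat.exists_eq_succ_of_ne_zero hn
  have hord : ∀ z : ℍ, ∃ k : ℕ,
      analyticOrderAt ((f : ℍ → ℂ) ∘ ofComplex) (z : ℂ) = (((m + 1) * k : ℕ) : ℕ∞) := by
    intro z
    have h1 : ordAt z (W ^ (m + 1)) = (m + 1) • ordAt z W := AddValuation.map_pow _ _ _
    obtain ⟨l, hl⟩ := WithTop.ne_top_iff_exists.mp (ordAt_ne_top z hW0)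
    rw [hW, ordAt_algebraMap_eq_analyticOrderAt, ← hl] at h1
    have hne : analyticOrderAt ((f : ℍ → ℂ) ∘ ofComplex) (z : ℂ) ≠ ⊤ := by
      intro htop
      rw [htop] at h1
      exact WithTop.coe_ne_top (a := (m + 1) • l) (by rw [WithTop.coe_nsmul]; exact h1.symm)
    obtain ⟨k, hk⟩ := ENat.ne_top_iff_exists.mp hne
    rw [← hk] at h1 ⊢
    have h2 : ((k : ℤ) : WithTop ℤ) = (((m + 1) • l : ℤ) : WithTop ℤ) := by
      rw [WithTop.coe_nsmul, ← h1]
      rfl
    have h3 : (k : ℤ) = (m + 1) • l := WithTop.coe_injective h2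
    have h4 : (k : ℤ) = ((m : ℤ) + 1) * l := by
      rw [h3, nsmul_eq_mul]
      push_cast
      ring
    have hl0 : 0 ≤ l := by
      by_contra hneg
      have hneg' : l < 0 := not_le.mp hneg
      have : ((m : ℤ) + 1) * l < 0 := mul_neg_of_pos_of_neg (by positivity) hneg'
      have hk0 : (0 : ℤ) ≤ k := Int.natCast_nonneg k
      omega
    obtain ⟨l', rfl⟩ := Int.eq_ofNat_of_zero_le hl0
    refine ⟨l', ?_⟩
    have : k = (m + 1) * l' := by exact_mod_cast h4
    rw [this]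
  obtain ⟨c, hc, hcn⟩ := Fermat.Agent.S29.helper8319.exists_root_UHP f.2 hn hord
  have hcpow : (⟨c, hc⟩ : Hol) ^ (m + 1) = f := Hol.ext fun τ => hcn τ
  have hcm : algebraMap Hol Mer ⟨c, hc⟩ ≠ 0 := by
    intro h0
    have h1 : W ^ (m + 1) = 0 := by rw [hW, ← hcpow, map_pow, h0, zero_pow hn]
    exact hW0 ((pow_eq_zero_iff hn).mp h1)
  have hq : (W / algebraMap Hol Mer ⟨c, hc⟩) ^ (m + 1) = 1 := by
    rw [div_pow, hW, ← map_pow, hcpow]
    exact div_self (by rw [← hcpow, map_pow]; exact pow_ne_zero _ hcm)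
  obtain ⟨ζ, -, hζ⟩ := exists_map_eq_of_pow_eq_one' (algebraMap ℂ Mer) hn hq
  refine ⟨algebraMap ℂ Hol ζ * ⟨c, hc⟩, ?_⟩
  rw [map_mul, ← IsScalarTower.algebraMap_apply ℂ Hol Mer, ← hζ, div_mul_cancel₀ _ hcm]

/-- **(I2) INVROOT, meromorphic form.**  `A ⊆ E` a multiplicatively closed set of elements with
holomorphic `Γ`-invariant evaluations such that every element of `E` is a quotient of elements
of `A`.  If holomorphic invariant roots of evaluations of elements of `A` are evaluations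
(`hInvRoot`, the output of `invRootG`), then every `Γ`-invariant meromorphic function `w` on `ℍ`
whose `n`-th power is an evaluation is an evaluation.
(Generic twin of `S29.helper288.exists_evMer_eq_of_invariant`.) -/
theorem invRoot_mer (Γ : Subgroup SL(2, ℤ)) (ev : Φ)
    {S : Type*} [SetLike S E] [SubmonoidClass S E] (A : S)
    (hol : ∀ a ∈ A, ∃ f : Hol, ev a = algebraMap Hol Mer f)
    (frac : ∀ x : E, ∃ a ∈ A, ∃ b ∈ A, b ≠ 0 ∧ x = a / b)
    (inv : ∀ a ∈ A, ∀ γ ∈ Γ, pull γ (ev a) = ev a)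
    {n : ℕ} (hn : n ≠ 0)
    (hInvRoot : ∀ H : Hol, (∀ γ ∈ Γ, pull γ (algebraMap Hol Mer H) = algebraMap Hol Mer H) →
      (∃ a ∈ A, algebraMap Hol Mer H ^ n = ev a) → ∃ t : E, algebraMap Hol Mer H = ev t)
    (w : Mer) (hinv : ∀ γ ∈ Γ, pull γ w = w) (x : E) (hw : w ^ n = ev x) :
    ∃ t : E, w = ev t := by
  obtain ⟨a, ha, b, hb, hb0, rfl⟩ := frac x
  obtain ⟨m, rfl⟩ := Nat.exists_eq_succ_of_ne_zero hn
  have hbm : ev b ≠ 0 := (map_ne_zero ev).mpr hb0
  have hmem : a * b ^ m ∈ A := mul_mem ha (pow_mem hb m)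
  have hWn : (w * ev b) ^ (m + 1) = ev (a * b ^ m) := by
    rw [mul_pow, hw, map_div₀, map_mul, map_pow, pow_succ]
    field_simp
  obtain ⟨f, hf⟩ := hol _ hmem
  obtain ⟨H, hH⟩ := exists_hol_of_pow_eq hn (w * ev b) f (by rw [hWn, hf])
  have hHinv : ∀ γ ∈ Γ, pull γ (algebraMap Hol Mer H) = algebraMap Hol Mer H := by
    intro γ hγ
    rw [← hH, map_mul, hinv γ hγ, inv b hb γ hγ]
  obtain ⟨t, ht⟩ := hInvRoot H hHinv ⟨a * b ^ m, hmem, by rw [← hH, hWn]⟩
  refine ⟨t / b, ?_⟩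
  rw [map_div₀, ← ht, ← hH, mul_div_cancel_right₀ _ hbm]

/-- **(I1) + (I2)**: from `(R)` and the analytic field datum (`hol`, `frac`, `inv`, `growth`),
every `Γ`-invariant meromorphic `n`-th root of an evaluation is an evaluation. -/
theorem invRoot_mer_of_ratioIn (Γ : Subgroup SL(2, ℤ)) [Γ.FiniteIndex] (ev : Φ)
    (hRatio : RatioInG Γ ev)
    {S : Type*} [SetLike S E] [SubmonoidClass S E] (A : S)
    (hol : ∀ a ∈ A, ∃ f : Hol, ev a = algebraMap Hol Mer f)
    (frac : ∀ x : E, ∃ a ∈ A, ∃ b ∈ A, b ≠ 0 ∧ x = a / b)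
    (inv : ∀ a ∈ A, ∀ γ ∈ Γ, pull γ (ev a) = ev a)
    (hgrowthA : ∀ a ∈ A, ∀ f : Hol, ev a = algebraMap Hol Mer f →
      ∀ g : SL(2, ℤ), HasExpGrowth (fun τ : ℍ => (f : ℍ → ℂ) (g • τ)))
    {n : ℕ} (hn : n ≠ 0)
    (w : Mer) (hinv : ∀ γ ∈ Γ, pull γ w = w) (x : E) (hw : w ^ n = ev x) :
    ∃ t : E, w = ev t :=
  invRoot_mer Γ ev A hol frac inv hn (invRootG Γ ev hRatio A hgrowthA hn) w hinv x hw

end InvRoot

/-! ## (I3) Descent to an algebraically closed subfield -/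

section Descent

open ModularCurve

/-- **(TH3), abstract descent form.**  `bc : F → FC` the extension of constants, `ev` the
evaluation of `FC`.  If invariant meromorphic roots of evaluations are evaluations over `FC`
(`hInvMer`, the output of `invRoot_mer`) and roots of elements of `F` in `FC` come from `F`
(`hRootDesc`), then an invariant meromorphic `n`-th root `w` of `ev (bc f)` is `ev (bc t)` with
`t ^ n = f`. -/
theorem exists_root_of_invariant {F FC : Type*} [Field F] [Field FC] (bc : F →+* FC)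
    {Φ : Type*} [FunLike Φ FC Mer] [RingHomClass Φ FC Mer] (ev : Φ) (Γ : Subgroup SL(2, ℤ))
    {n : ℕ}
    (hInvMer : ∀ w : Mer, (∀ γ ∈ Γ, pull γ w = w) → ∀ x : FC, w ^ n = ev x → ∃ t : FC, w = ev t)
    (hRootDesc : ∀ (x : FC) (f : F), x ^ n = bc f → ∃ t : F, bc t = x)
    (w : Mer) (hinv : ∀ γ ∈ Γ, pull γ w = w) (f : F) (hw : w ^ n = ev (bc f)) :
    ∃ t : F, w = ev (bc t) ∧ t ^ n = f := by
  obtain ⟨x, hx⟩ := hInvMer w hinv (bc f) hw
  have hxn : x ^ n = bc f := by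
    apply (RingHomClass.toRingHom ev).injective
    show ev (x ^ n) = ev (bc f)
    rw [map_pow, ← hx, hw]
  obtain ⟨t, ht⟩ := hRootDesc x f hxn
  refine ⟨t, by rw [ht, hx], ?_⟩
  apply bc.injective
  rw [map_pow, ht, hxn]

/-- **(TH3) for a multiplier**, consumer form (the `inj` field of the multiplier relation):
if `u : F` has a meromorphic `n`-th root `W` whose multiplier under `Γ` is `γ ↦ ζ ^ (n • φ) γ`
with `ζ ^ n = 1`, then `u` is an `n`-th power in `F`. -/
theorem exists_eq_pow_of_multiplier {F FC : Type*} [Field F] [Field FC] (bc : F →+* FC)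
    {Φ : Type*} [FunLike Φ FC Mer] [RingHomClass Φ FC Mer] (ev : Φ) (Γ : Subgroup SL(2, ℤ))
    {n : ℕ}
    (hInvMer : ∀ w : Mer, (∀ γ ∈ Γ, pull γ w = w) → ∀ x : FC, w ^ n = ev x → ∃ t : FC, w = ev t)
    (hRootDesc : ∀ (x : FC) (f : F), x ^ n = bc f → ∃ t : F, bc t = x)
    (ζ : ℂˣ) (hζ : ζ ^ n = 1) (φ : Additive Γ →+ ℤ) (u : F) (W : Mer) (hW : W ^ n = ev (bc u))
    (hmult : ∀ γ : Γ, pull (γ : SL(2, ℤ)) W
      = algebraMap ℂ Mer (((ζ ^ (n • φ) (Additive.ofMul γ) : ℂˣ) : ℂ)) * W) :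
    ∃ t : F, u = t ^ n ∧ W = ev (bc t) := by
  have hinv : ∀ γ ∈ Γ, pull γ W = W := by
    intro γ hγ
    have h1 := hmult ⟨γ, hγ⟩
    have h2 : ζ ^ (n • φ) (Additive.ofMul (⟨γ, hγ⟩ : Γ)) = 1 := by
      rw [AddMonoidHom.smul_apply, nsmul_eq_mul, zpow_mul, zpow_natCast, hζ, one_zpow]
    rw [h2, Units.val_one, map_one, one_mul] at h1
    exact h1
  obtain ⟨t, ht, htn⟩ := exists_root_of_invariant bc ev Γ hInvMer hRootDesc W hinv u hW
  exact ⟨t, htn.symm, ht⟩

/-- **(TH3) in the shape `hroot` of the multiplier dictionary** (`MultSpecG … (MultMerG evM Γ n ζ)`):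
`evM = ev ∘ bc` the evaluation of the field `F` over the small constant field. -/
theorem hroot_of_invRoot {F FC : Type*} [Field F] [Field FC] (bc : F →+* FC)
    {Φ : Type*} [FunLike Φ FC Mer] [RingHomClass Φ FC Mer] (ev : Φ) (Γ : Subgroup SL(2, ℤ))
    {n : ℕ}
    (hInvMer : ∀ w : Mer, (∀ γ ∈ Γ, pull γ w = w) → ∀ x : FC, w ^ n = ev x → ∃ t : FC, w = ev t)
    (hRootDesc : ∀ (x : FC) (f : F), x ^ n = bc f → ∃ t : F, bc t = x)
    (evM : F →+* Mer) (hev : ∀ u : F, evM u = ev (bc u)) :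
    ∀ W : Mer, (∀ γ : Γ, pull (γ : SL(2, ℤ)) W = W) →
      ∀ u : F, W ^ n = evM u → ∃ t : F, W = evM t := by
  intro W hW u hu
  obtain ⟨t, ht, -⟩ := exists_root_of_invariant bc ev Γ hInvMer hRootDesc W
    (fun γ hγ => hW ⟨γ, hγ⟩) u (by rw [hu, hev])
  exact ⟨t, by rw [ht, hev]⟩

variable (F₀ : IntermediateField ℚ (LaurentSeries ℚ))
  {K : Type*} [Field K] [Algebra ℚ K] [IsAlgClosed K]

/-- Extension of constants `K → ℂ` on the base changes of a `ℚ`-form `F₀`. -/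
def bcLaurent (ι : K →+* ℂ) : laurentBaseChange K F₀ →+* laurentBaseChange ℂ F₀ where
  toFun x := ⟨coeffMap ι (x : LaurentSeries K),
    Fermat.Agent.S29.helper6961.coeffMap_mem_laurentBaseChange_of_mem F₀ ι x.2⟩
  map_one' := Subtype.ext (map_one _)
  map_mul' _ _ := Subtype.ext (map_mul _ _ _)
  map_zero' := Subtype.ext (map_zero _)
  map_add' _ _ := Subtype.ext (map_add _ _ _)

omit [IsAlgClosed K] in
theorem coe_bcLaurent (ι : K →+* ℂ) (x : laurentBaseChange K F₀) :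
    ((bcLaurent F₀ ι x : laurentBaseChange ℂ F₀) : LaurentSeries ℂ)
      = coeffMap ι (x : LaurentSeries K) := rfl

/-- **Descent of roots** for the base changes of a `ℚ`-form (landed
`helper6855.exists_descent_of_pow_eq`): an `n`-th root in `laurentBaseChange ℂ F₀` of an element
coming from `laurentBaseChange K F₀` comes from `laurentBaseChange K F₀`. -/
theorem rootDesc_laurent [Algebra K ℂ] {n : ℕ} (hn : n ≠ 0)
    (x : laurentBaseChange ℂ F₀) (f : laurentBaseChange K F₀)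
    (h : x ^ n = bcLaurent F₀ (algebraMap K ℂ) f) :
    ∃ t : laurentBaseChange K F₀, bcLaurent F₀ (algebraMap K ℂ) t = x := by
  have h1 : (x : LaurentSeries ℂ) ^ n = coeffMap (algebraMap K ℂ) (f : LaurentSeries K) := by
    have := congrArg (fun y : laurentBaseChange ℂ F₀ => (y : LaurentSeries ℂ)) h
    simpa [coe_bcLaurent] using this
  obtain ⟨w₀, hw₀, hw⟩ := Fermat.Agent.S29.helper6855.exists_descent_of_pow_eq F₀ hn
    (f : LaurentSeries K) x.2 h1
  exact ⟨⟨w₀, hw₀⟩, Subtype.ext hw⟩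

/-- **(I3) INVROOT over `K`** (`K ⊆ ℂ` algebraically closed, e.g. `ℚ̄`), for the base changes of
a `ℚ`-form `F₀`: a `Γ`-invariant meromorphic `n`-th root of the evaluation of an element `f` of
`laurentBaseChange K F₀` is the evaluation of an `n`-th root of `f` in `laurentBaseChange K F₀`. -/
theorem invRoot_descent [Algebra K ℂ]
    {Φ : Type*} [FunLike Φ (laurentBaseChange ℂ F₀) Mer]
    [RingHomClass Φ (laurentBaseChange ℂ F₀) Mer] (ev : Φ) (Γ : Subgroup SL(2, ℤ))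
    {n : ℕ} (hn : n ≠ 0)
    (hInvMer : ∀ w : Mer, (∀ γ ∈ Γ, pull γ w = w) →
      ∀ x : laurentBaseChange ℂ F₀, w ^ n = ev x → ∃ t : laurentBaseChange ℂ F₀, w = ev t)
    (w : Mer) (hinv : ∀ γ ∈ Γ, pull γ w = w) (f : laurentBaseChange K F₀)
    (hw : w ^ n = ev (bcLaurent F₀ (algebraMap K ℂ) f)) :
    ∃ t : laurentBaseChange K F₀, w = ev (bcLaurent F₀ (algebraMap K ℂ) t) ∧ t ^ n = f :=
  exists_root_of_invariant (bcLaurent F₀ (algebraMap K ℂ)) ev Γ hInvMer
    (fun x f h => rootDesc_laurent F₀ hn x f h) w hinv f hw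

end Descent

end

end Fermat.Agent.S48.helper4027
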