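import Fermat.Agent.S48.helper2122_SurjCarrier
import Fermat.Agent.S48.helper2756_MultMerGen
import Fermat.Agent.S48.helper4027_InvRootGen
import Fermat.Agent.S24.helper1704_QDict

/-!
# S48 / M3 (helper4027): the leaves of the Kummer dictionary at the base-change carrier

`F₀ : IntermediateField ℚ (LaurentSeries ℚ)` containing `jq`, `F = laurentBaseChange ℚ̄ F₀`,
`FC = laurentBaseChange ℂ F₀`, `evC : FC →ₐ[ℂ] Mer` an analytic realisation, `Γ ≤ SL(2, ℤ)` of
finite index, `bc = helper2122.bcG i0 F₀`.  Pure glue, in the binder shapes of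
`helper2122.surj_baseChange`, so that the instance owners feed ONE list of facts
((INV), (RATIO), (A) = `A`/`hA`/`hden`, (CPLACE), (ANDIV), finiteness over `j`):

* `invMer_of_denominators` : the hypothesis `hInvMer` of `helper2756.multSpecG_of_leaves`
  (INVROOT over `ℂ`, (I1) + (I2)) from (INV), (RATIO), (A);
* `rootDesc_bcG`           : the hypothesis `hRootDesc` of `helper2756.multSpecG_of_leaves` for
  `bc = helper2122.bcG i0 F₀`, verbatim (descent of roots `ℂ → ℚ̄`);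
* `hroot_baseChange`       : the hypothesis `hroot` of `helper2756.multSpecG_multMerG` for
  `evM = evC ∘ bcG i0 F₀`, verbatim;
* `multSpecG_baseChange`   : `MultSpecG ℚ̄ Γ n (MultMerG Γ (evC ∘ bcG i0 F₀) n ζ)` in ONE call;
* `exists_k5G_baseChange`  : the injective operator-equivariant map `Λ / n → Pic⁰(F)[n]`;
* `multSpecG_congr_carrier`, `multSpecG_multMerG_congr_carrier` : `MultSpecG` along an EQUALITY
  of intermediate fields (the carrier of record is only propositionally a base change);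
* `multSpecG_carrier`      : `MultSpecG ℚ̄ Γ n (MultMerG Γ evM n ζ)` for ANY carrier
  `E = laurentBaseChange ℚ̄ F₀` and ANY evaluation `evM : E →+* Mer` compatible with `evC`;
* `eq_of_hasQ_frac`, `hevM_of_hasQ_frac` : the compatibility `hevM` of two evaluations from
  `q`-expansion fraction witnesses (the EVAL1 shapes `exists_hasQ_frac` / `exists_hasQ_fracC`);
* `multSpecG_of_carriers`  : the same with ALL instance facts stated on carriers of record
  `EC = laurentBaseChange ℂ F₀`, `E = laurentBaseChange ℚ̄ F₀` (no base-change vocabulary in the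
  hypotheses besides the two equalities).
-/

set_option autoImplicit false

open ModularCurve AlgebraicCurve IntermediateField UpperHalfPlane
open scoped MatrixGroups

noncomputable section

namespace Fermat.Agent.S48.helper4027

open Fermat.Agent.S24.helper580 (Hol Mer pull)
open Fermat.Agent.S24 Fermat.Agent.S29

/-! ## (I1) + (I2) in the binder shapes of `surj_baseChange` -/

section InvMer

variable {FC : Type*} [Field FC] [Algebra ℂ FC]

/-- **INVROOT over `ℂ`** from (INV), (RATIO) and a multiplicative set `A` of denominators with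
holomorphic realisations of exponential growth at all cusps (the hypotheses `hinv`, `hRC`, `hA`,
`hden` of `helper2122.surj_baseChange`, verbatim): a `Γ`-invariant meromorphic `n`-th root of a
realisation is a realisation.  This is `hInvMer` of `helper2756.multSpecG_of_leaves`. -/
theorem invMer_of_denominators (Γ : Subgroup SL(2, ℤ)) [Γ.FiniteIndex]
    (evC : FC →ₐ[ℂ] Mer) (hinv : helper2122.InvG Γ evC) (hRC : helper2122.RatioIn Γ evC)
    (A : Submonoid FC)
    (hA : ∀ a ∈ A, ∃ E : Hol, algebraMap Hol Mer E = evC a ∧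
      ∀ g : SL(2, ℤ), helper167.HasExpGrowth (fun τ => (E : ℍ → ℂ) (g • τ)))
    (hden : ∀ f : FC, ∃ d ∈ A, d ≠ 0 ∧ f * d ∈ A)
    {n : ℕ} (hn : n ≠ 0) :
    ∀ w : Mer, (∀ γ ∈ Γ, pull γ w = w) → ∀ y : FC, w ^ n = evC y → ∃ t : FC, w = evC t := by
  intro w hw x hx
  refine invRoot_mer_of_ratioIn Γ evC hRC A (fun a ha => ?_) (fun y => ?_)
    (fun a _ γ hγ => hinv γ hγ a) (fun a ha f hf g => ?_) hn w hw x hx
  · obtain ⟨E, hE, -⟩ := hA a ha
    exact ⟨E, hE.symm⟩
  · obtain ⟨d, hd, hd0, hyd⟩ := hden y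
    exact ⟨y * d, hyd, d, hd, hd0, (mul_div_cancel_right₀ y hd0).symm⟩
  · obtain ⟨E, hE, hgr⟩ := hA a ha
    have hEf : E = f := IsFractionRing.injective Hol Mer (by rw [hE, hf])
    subst hEf
    exact hgr g

end InvMer

/-! ## The leaves for `bc = bcG i0 F₀` -/

section Carrier

variable (Γ : Subgroup SL(2, ℤ)) [Γ.FiniteIndex]
  (i0 : AlgebraicClosure ℚ →+* ℂ) (F₀ : IntermediateField ℚ (LaurentSeries ℚ))

omit [Γ.FiniteIndex] in
/-- **Descent of roots `ℂ → ℚ̄` for `helper2122.bcG`** (`hRootDesc` of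
`helper2756.multSpecG_of_leaves`, verbatim): an `n`-th root in `laurentBaseChange ℂ F₀` of an
element coming from `laurentBaseChange ℚ̄ F₀` comes from `laurentBaseChange ℚ̄ F₀`. -/
theorem rootDesc_bcG {n : ℕ} (hn : n ≠ 0) :
    ∀ (y : laurentBaseChange ℂ F₀) (f : laurentBaseChange (AlgebraicClosure ℚ) F₀),
      y ^ n = helper2122.bcG i0 F₀ f →
      ∃ t : laurentBaseChange (AlgebraicClosure ℚ) F₀, helper2122.bcG i0 F₀ t = y := by
  letI : Algebra (AlgebraicClosure ℚ) ℂ := i0.toAlgebra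
  exact fun y f h => rootDesc_laurent F₀ hn y f h

variable {F₀}

/-- **`hroot` of `helper2756.multSpecG_multMerG`, verbatim, at the base-change carrier**:
a `Γ`-invariant meromorphic `n`-th root of the realisation of a function of
`F = laurentBaseChange ℚ̄ F₀` is the realisation of a function of `F`. -/
theorem hroot_baseChange (evC : laurentBaseChange ℂ F₀ →ₐ[ℂ] Mer)
    (hinv : helper2122.InvG Γ evC) (hRC : helper2122.RatioIn Γ evC)
    (A : Submonoid (laurentBaseChange ℂ F₀))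
    (hA : ∀ a ∈ A, ∃ E : Hol, algebraMap Hol Mer E = evC a ∧
      ∀ g : SL(2, ℤ), helper167.HasExpGrowth (fun τ => (E : ℍ → ℂ) (g • τ)))
    (hden : ∀ f : laurentBaseChange ℂ F₀, ∃ d ∈ A, d ≠ 0 ∧ f * d ∈ A)
    {n : ℕ} (hn : n ≠ 0) :
    ∀ W : Mer, (∀ γ ∈ Γ, pull γ W = W) →
      ∀ u : laurentBaseChange (AlgebraicClosure ℚ) F₀,
        W ^ n = ((evC : laurentBaseChange ℂ F₀ →+* Mer).comp (helper2122.bcG i0 F₀)) u →
        ∃ t : laurentBaseChange (AlgebraicClosure ℚ) F₀,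
          W = ((evC : laurentBaseChange ℂ F₀ →+* Mer).comp (helper2122.bcG i0 F₀)) t :=
  helper2756.hroot_of_desc (evC := (evC : laurentBaseChange ℂ F₀ →+* Mer))
    (invMer_of_denominators Γ evC hinv hRC A hA hden hn) (rootDesc_bcG i0 F₀ hn)

/-- **The multiplier dictionary at the base-change carrier, in ONE call**: `MultSpecG`
(TH2–TH4) for the multiplier relation of `evC ∘ bcG i0 F₀`, from the instance-level inputs of
`helper2122.surj_baseChange` (plus finiteness of `F` over `ℚ̄(j)`). -/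
theorem multSpecG_baseChange {Γ' : Subgroup SL(2, ℤ)} (hΓ' : ∀ g ∈ Γ', g ∈ Γ ∨ -g ∈ Γ)
    (hj : jq ∈ F₀)
    [FiniteDimensional ℂ⟮helper8395.jL ℂ F₀ hj⟯ (laurentBaseChange ℂ F₀)]
    [FiniteDimensional (AlgebraicClosure ℚ)⟮helper8395.jL (AlgebraicClosure ℚ) F₀ hj⟯
      (laurentBaseChange (AlgebraicClosure ℚ) F₀)]
    [HasPrincipalDivisors (AlgebraicClosure ℚ) (laurentBaseChange (AlgebraicClosure ℚ) F₀)]
    (evC : laurentBaseChange ℂ F₀ →ₐ[ℂ] Mer)
    (hinv : helper2122.InvG Γ evC) (hRC : helper2122.RatioIn Γ evC)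
    (A : Submonoid (laurentBaseChange ℂ F₀))
    (hA : ∀ a ∈ A, ∃ E : Hol, algebraMap Hol Mer E = evC a ∧
      ∀ g : SL(2, ℤ), helper167.HasExpGrowth (fun τ => (E : ℍ → ℂ) (g • τ)))
    (hden : ∀ f : laurentBaseChange ℂ F₀, ∃ d ∈ A, d ≠ 0 ∧ f * d ∈ A)
    {n : ℕ} (hn : 0 < n) (hCP : helper2122.CPlaceDvd hj evC n)
    (hAD : helper2122.AnDivG Γ'
      ((evC : laurentBaseChange ℂ F₀ →+* Mer).comp (helper2122.bcG i0 F₀)) n)
    {ζ : ℂˣ} (hζ : IsPrimitiveRoot ζ n) :
    helper2756.MultSpecG (AlgebraicClosure ℚ) Γ n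
      (helper2122.MultMerG Γ
        ((evC : laurentBaseChange ℂ F₀ →+* Mer).comp (helper2122.bcG i0 F₀)) n ζ) :=
  helper2756.multSpecG_of_leaves hinv hRC
    (helper2122.descG_baseChange Γ i0 hj evC hinv hRC A hA hden n hCP) hΓ' hAD hn.ne' hζ
    (helper2756.hev_of_semilinear i0 (helper2122.bcG_algebraMap i0 F₀))
    (helper8395.jL (AlgebraicClosure ℚ) F₀ hj)
    (invMer_of_denominators Γ evC hinv hRC A hA hden hn.ne') (rootDesc_bcG i0 F₀ hn.ne')

/-- **(K5) at the base-change carrier**: the injective, operator-equivariant map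
`Λ / n → Pic⁰(F)[n]`, `Λ` the integral parabolic homomorphisms of `Γ`. -/
theorem exists_k5G_baseChange {Γ' : Subgroup SL(2, ℤ)} (hΓ' : ∀ g ∈ Γ', g ∈ Γ ∨ -g ∈ Γ)
    (hj : jq ∈ F₀)
    [FiniteDimensional ℂ⟮helper8395.jL ℂ F₀ hj⟯ (laurentBaseChange ℂ F₀)]
    [FiniteDimensional (AlgebraicClosure ℚ)⟮helper8395.jL (AlgebraicClosure ℚ) F₀ hj⟯
      (laurentBaseChange (AlgebraicClosure ℚ) F₀)]
    [HasPrincipalDivisors (AlgebraicClosure ℚ) (laurentBaseChange (AlgebraicClosure ℚ) F₀)]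
    (evC : laurentBaseChange ℂ F₀ →ₐ[ℂ] Mer)
    (hinv : helper2122.InvG Γ evC) (hRC : helper2122.RatioIn Γ evC)
    (A : Submonoid (laurentBaseChange ℂ F₀))
    (hA : ∀ a ∈ A, ∃ E : Hol, algebraMap Hol Mer E = evC a ∧
      ∀ g : SL(2, ℤ), helper167.HasExpGrowth (fun τ => (E : ℍ → ℂ) (g • τ)))
    (hden : ∀ f : laurentBaseChange ℂ F₀, ∃ d ∈ A, d ≠ 0 ∧ f * d ∈ A)
    {n : ℕ} (hn : 0 < n) (hCP : helper2122.CPlaceDvd hj evC n)
    (hAD : helper2122.AnDivG Γ'
      ((evC : laurentBaseChange ℂ F₀ →+* Mer).comp (helper2122.bcG i0 F₀)) n)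
    {ζ : ℂˣ} (hζ : IsPrimitiveRoot ζ n) :
    ∃ ι : ↥(Period.parabolicHoms ℤ Γ ℤ) →+
        Pic0 (AlgebraicClosure ℚ) (laurentBaseChange (AlgebraicClosure ℚ) F₀),
      (∀ ψ, n • ι ψ = 0) ∧
      (∀ ψ, ι ψ = 0 ↔ ∃ φ : ↥(Period.parabolicHoms ℤ Γ ℤ), ψ = n • φ) ∧
      (∀ (Tf : laurentBaseChange (AlgebraicClosure ℚ) F₀ →
            laurentBaseChange (AlgebraicClosure ℚ) F₀)
          (t : (Additive Γ →+ ℤ) → (Additive Γ →+ ℤ))
          (TJ : Pic0 (AlgebraicClosure ℚ) (laurentBaseChange (AlgebraicClosure ℚ) F₀) →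
            Pic0 (AlgebraicClosure ℚ) (laurentBaseChange (AlgebraicClosure ℚ) F₀)),
        helper2756.OpRel (AlgebraicClosure ℚ) Γ n
          (helper2122.MultMerG Γ
            ((evC : laurentBaseChange ℂ F₀ →+* Mer).comp (helper2122.bcG i0 F₀)) n ζ) Tf t →
        helper2756.ClassOp (AlgebraicClosure ℚ) n Tf TJ →
        ∀ ψ ψ' : ↥(Period.parabolicHoms ℤ Γ ℤ),
          (ψ' : Additive Γ →+ ℤ) = t (ψ : Additive Γ →+ ℤ) → ι ψ' = TJ (ι ψ)) := by
  obtain ⟨ι, -, h1, h2, h3⟩ := helper2756.exists_k5G hn.ne'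
    (multSpecG_baseChange Γ i0 hΓ' hj evC hinv hRC A hA hden hn hCP hAD hζ)
  exact ⟨ι, h1, h2, h3⟩

end Carrier

/-! ## Change of carrier

The dictionary is proved on `laurentBaseChange ℚ̄ F₀`; the machine runs on a carrier of record
`E` (e.g. `helper7300.gamma1FieldBar M`) which is only PROPOSITIONALLY equal to it.  The
multiplier dictionary does not see the difference. -/

section Transport

variable {K : Type*} {L : Type*} [Field K] [Field L] [Algebra K L]

/-- **`MultSpecG` along an equality of intermediate fields**, for two multiplier relations which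
agree on equal elements. -/
theorem multSpecG_congr_carrier {E E' : IntermediateField K L} (h : E = E')
    [HasPrincipalDivisors K E] [HasPrincipalDivisors K E']
    {Γ : Subgroup SL(2, ℤ)} {n : ℕ}
    {Mult : E → (Additive Γ →+ ℤ) → Prop} {Mult' : E' → (Additive Γ →+ ℤ) → Prop}
    (hMult : ∀ (u : E) (u' : E') (ψ : Additive Γ →+ ℤ), (u : L) = (u' : L) →
      (Mult u ψ ↔ Mult' u' ψ))
    (hM : helper2756.MultSpecG K Γ n Mult) : helper2756.MultSpecG K Γ n Mult' := by
  subst h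
  have hMM : Mult = Mult' := by
    funext u ψ
    exact propext (hMult u u ψ rfl)
  subst hMM
  exact hM

/-- **`MultSpecG` of the concrete multiplier relation along an equality of intermediate fields**,
for two evaluations which agree on equal elements. -/
theorem multSpecG_multMerG_congr_carrier {E E' : IntermediateField K L} (h : E = E')
    [HasPrincipalDivisors K E] [HasPrincipalDivisors K E']
    {Γ : Subgroup SL(2, ℤ)} {n : ℕ} {ζ : ℂˣ} (evM : E →+* Mer) (evM' : E' →+* Mer)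
    (hev : ∀ (u : E) (u' : E'), (u : L) = (u' : L) → evM u = evM' u')
    (hM : helper2756.MultSpecG K Γ n (helper2122.MultMerG Γ evM n ζ)) :
    helper2756.MultSpecG K Γ n (helper2122.MultMerG Γ evM' n ζ) := by
  refine multSpecG_congr_carrier h (fun u u' ψ huu' => ?_) hM
  have h1 : evM u = evM' u' := hev u u' huu'
  constructor
  · rintro ⟨W, hW, hmult⟩
    exact ⟨W, by rw [hW, h1], hmult⟩
  · rintro ⟨W, hW, hmult⟩
    exact ⟨W, by rw [hW, h1], hmult⟩

end Transport

/-! ## Compatibility of two evaluations from `q`-expansion fraction witnesses -/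

section EvalCompat

open Fermat.Agent.S24.helper1704 (HasQ)

/-- Two meromorphic functions which are quotients of holomorphic functions with `q`-expansions
`A / B = L = A' / B'` are equal (the `q`-expansion principle for fractions). -/
theorem eq_of_hasQ_frac {L : LaurentSeries ℂ} {w w' : Mer}
    (h : ∃ a b : Hol, b ≠ 0 ∧ ∃ A B : LaurentSeries ℂ,
      HasQ 1 (a : ℍ → ℂ) A ∧ HasQ 1 (b : ℍ → ℂ) B ∧ L * B = A ∧
        w * algebraMap Hol Mer b = algebraMap Hol Mer a)
    (h' : ∃ a b : Hol, b ≠ 0 ∧ ∃ A B : LaurentSeries ℂ,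
      HasQ 1 (a : ℍ → ℂ) A ∧ HasQ 1 (b : ℍ → ℂ) B ∧ L * B = A ∧
        w' * algebraMap Hol Mer b = algebraMap Hol Mer a) : w = w' := by
  obtain ⟨a, b, hb, A, B, hA, hB, hAB, hw⟩ := h
  obtain ⟨a', b', hb', A', B', hA', hB', hAB', hw'⟩ := h'
  have h1 : A * B' = A' * B := by rw [← hAB, ← hAB']; ring
  have h2 : (a : ℍ → ℂ) * (b' : ℍ → ℂ) = (a' : ℍ → ℂ) * (b : ℍ → ℂ) :=
    (hA.mul one_pos hB').eq_of_eq one_pos (h1 ▸ hA'.mul one_pos hB)
  have h3 : a * b' = a' * b := Hol.ext fun τ => congrFun h2 τ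
  have hinj := IsFractionRing.injective Hol Mer
  have hbm : algebraMap Hol Mer b ≠ 0 := fun h0 => hb (hinj (h0.trans (map_zero _).symm))
  have hbm' : algebraMap Hol Mer b' ≠ 0 := fun h0 => hb' (hinj (h0.trans (map_zero _).symm))
  rw [eq_div_of_mul_eq hbm hw, eq_div_of_mul_eq hbm' hw', div_eq_div_iff hbm hbm', ← map_mul,
    ← map_mul, h3]

/-- **The hypothesis `hevM` of `multSpecG_carrier` / `multSpecG_of_carriers`** from fraction
witnesses for the two evaluations (the shapes of `helper5047.exists_hasQ_frac` for `evM` and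
`helper5047.exists_hasQ_fracC` for `evC`, verbatim). -/
theorem hevM_of_hasQ_frac {K : Type*} [Field K] (i0 : K →+* ℂ)
    {E : Type*} [Field E] (cE : E → LaurentSeries K) (evM : E → Mer)
    {EC : Type*} [Field EC] (cC : EC → LaurentSeries ℂ) (evC : EC → Mer)
    (hM : ∀ x : E, ∃ a b : Hol, b ≠ 0 ∧ ∃ A B : LaurentSeries ℂ,
      HasQ 1 (a : ℍ → ℂ) A ∧ HasQ 1 (b : ℍ → ℂ) B ∧ coeffMap i0 (cE x) * B = A ∧
        evM x * algebraMap Hol Mer b = algebraMap Hol Mer a)
    (hC : ∀ y : EC, ∃ a b : Hol, b ≠ 0 ∧ ∃ A B : LaurentSeries ℂ,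
      HasQ 1 (a : ℍ → ℂ) A ∧ HasQ 1 (b : ℍ → ℂ) B ∧ cC y * B = A ∧
        evC y * algebraMap Hol Mer b = algebraMap Hol Mer a) :
    ∀ (x : E) (y : EC), cC y = coeffMap i0 (cE x) → evM x = evC y := by
  intro x y hxy
  refine eq_of_hasQ_frac (L := coeffMap i0 (cE x)) (hM x) ?_
  rw [← hxy]
  exact hC y

end EvalCompat

section CarrierOfRecord

variable (Γ : Subgroup SL(2, ℤ)) [Γ.FiniteIndex]
  (i0 : AlgebraicClosure ℚ →+* ℂ) {F₀ : IntermediateField ℚ (LaurentSeries ℚ)}

/-- **The multiplier dictionary on a carrier of record.**  `E` any intermediate field equal to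
`laurentBaseChange ℚ̄ F₀` and `evM : E →+* Mer` any evaluation compatible with `evC`
(`evM x = evC y` whenever `y` is the coefficientwise image of `x` under `i0`): from the
instance-level inputs of `helper2122.surj_baseChange` for `evC`, the multiplier relation of `evM`
satisfies `MultSpecG` (TH2–TH4). -/
theorem multSpecG_carrier {Γ' : Subgroup SL(2, ℤ)} (hΓ' : ∀ g ∈ Γ', g ∈ Γ ∨ -g ∈ Γ)
    (hj : jq ∈ F₀)
    [FiniteDimensional ℂ⟮helper8395.jL ℂ F₀ hj⟯ (laurentBaseChange ℂ F₀)]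
    [FiniteDimensional (AlgebraicClosure ℚ)⟮helper8395.jL (AlgebraicClosure ℚ) F₀ hj⟯
      (laurentBaseChange (AlgebraicClosure ℚ) F₀)]
    (evC : laurentBaseChange ℂ F₀ →ₐ[ℂ] Mer)
    (hinv : helper2122.InvG Γ evC) (hRC : helper2122.RatioIn Γ evC)
    (A : Submonoid (laurentBaseChange ℂ F₀))
    (hA : ∀ a ∈ A, ∃ E : Hol, algebraMap Hol Mer E = evC a ∧
      ∀ g : SL(2, ℤ), helper167.HasExpGrowth (fun τ => (E : ℍ → ℂ) (g • τ)))
    (hden : ∀ f : laurentBaseChange ℂ F₀, ∃ d ∈ A, d ≠ 0 ∧ f * d ∈ A)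
    {n : ℕ} (hn : 0 < n) (hCP : helper2122.CPlaceDvd hj evC n)
    (hAD : helper2122.AnDivG Γ'
      ((evC : laurentBaseChange ℂ F₀ →+* Mer).comp (helper2122.bcG i0 F₀)) n)
    {ζ : ℂˣ} (hζ : IsPrimitiveRoot ζ n)
    (E : IntermediateField (AlgebraicClosure ℚ) (LaurentSeries (AlgebraicClosure ℚ)))
    (hE : E = laurentBaseChange (AlgebraicClosure ℚ) F₀)
    [HasPrincipalDivisors (AlgebraicClosure ℚ) E] (evM : E →+* Mer)
    (hevM : ∀ (x : E) (y : laurentBaseChange ℂ F₀),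
      (y : LaurentSeries ℂ) = coeffMap i0 (x : LaurentSeries (AlgebraicClosure ℚ)) →
      evM x = evC y) :
    helper2756.MultSpecG (AlgebraicClosure ℚ) Γ n (helper2122.MultMerG Γ evM n ζ) := by
  haveI : HasPrincipalDivisors (AlgebraicClosure ℚ)
      (laurentBaseChange (AlgebraicClosure ℚ) F₀) :=
    helper2122.hasPrincipalDivisors_G (AlgebraicClosure ℚ) F₀ hj
  refine multSpecG_multMerG_congr_carrier hE.symm
    ((evC : laurentBaseChange ℂ F₀ →+* Mer).comp (helper2122.bcG i0 F₀)) evM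
    (fun u u' huu' => ?_)
    (multSpecG_baseChange Γ i0 hΓ' hj evC hinv hRC A hA hden hn hCP hAD hζ)
  refine (hevM u' (helper2122.bcG i0 F₀ u) ?_).symm
  rw [helper2122.coe_bcG, huu']

/-- **The multiplier dictionary on carriers of record, at BOTH levels.**  `EC` (over `ℂ`) and `E`
(over `ℚ̄`) any intermediate fields equal to the base changes of a `ℚ`-form `F₀ ∋ jq`
(e.g. `helper7300.gamma1Field ℂ M`, `helper7300.gamma1FieldBar M`, `F₀ = helper8098.F1Q …`), with
their own `j`-functions `jC`, `jE` and evaluations `evC : EC →ₐ[ℂ] Mer`, `evM : E →+* Mer`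
compatible with the coefficientwise map of `i0`.  All instance facts are stated on `EC`, `E`
themselves: (INV), (RATIO), (A), (CPLACE) for `evC`, (ANDIV) for `evM`, finiteness over `j`. -/
theorem multSpecG_of_carriers {Γ' : Subgroup SL(2, ℤ)} (hΓ' : ∀ g ∈ Γ', g ∈ Γ ∨ -g ∈ Γ)
    (hj : jq ∈ F₀)
    (EC : IntermediateField ℂ (LaurentSeries ℂ)) (hEC : EC = laurentBaseChange ℂ F₀)
    (jC : EC) (hjC : (jC : LaurentSeries ℂ) = jqModC ℂ) [FiniteDimensional ℂ⟮jC⟯ EC]
    (evC : EC →ₐ[ℂ] Mer)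
    (hinv : helper2122.InvG Γ evC) (hRC : helper2122.RatioIn Γ evC)
    (A : Submonoid EC)
    (hA : ∀ a ∈ A, ∃ H : Hol, algebraMap Hol Mer H = evC a ∧
      ∀ g : SL(2, ℤ), helper167.HasExpGrowth (fun τ => (H : ℍ → ℂ) (g • τ)))
    (hden : ∀ f : EC, ∃ d ∈ A, d ≠ 0 ∧ f * d ∈ A)
    {n : ℕ} (hn : 0 < n)
    (hCP : ∀ (v : Place ℂ EC) (c : ℂ), 0 < v.ord (jC - algebraMap ℂ EC c) →
      c ≠ 0 → c ≠ 1728 → ∀ u : EC, u ≠ 0 → ∀ W : Mer, W ^ n = evC u → (n : ℤ) ∣ v.ord u)
    (E : IntermediateField (AlgebraicClosure ℚ) (LaurentSeries (AlgebraicClosure ℚ)))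
    (hE : E = laurentBaseChange (AlgebraicClosure ℚ) F₀)
    (jE : E) (hjE : (jE : LaurentSeries (AlgebraicClosure ℚ)) = jqModC (AlgebraicClosure ℚ))
    [FiniteDimensional (AlgebraicClosure ℚ)⟮jE⟯ E]
    [HasPrincipalDivisors (AlgebraicClosure ℚ) E] (evM : E →+* Mer)
    (hevM : ∀ (x : E) (y : EC),
      (y : LaurentSeries ℂ) = coeffMap i0 (x : LaurentSeries (AlgebraicClosure ℚ)) →
      evM x = evC y)
    (hAD : helper2122.AnDivG Γ' evM n)
    {ζ : ℂˣ} (hζ : IsPrimitiveRoot ζ n) :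
    helper2756.MultSpecG (AlgebraicClosure ℚ) Γ n (helper2122.MultMerG Γ evM n ζ) := by
  subst hEC
  subst hE
  obtain rfl : jC = helper8395.jL ℂ F₀ hj :=
    Subtype.ext (hjC.trans (helper2122.coeffEmb_jq ℂ).symm)
  obtain rfl : jE = helper8395.jL (AlgebraicClosure ℚ) F₀ hj :=
    Subtype.ext (hjE.trans (helper2122.coeffEmb_jq (AlgebraicClosure ℚ)).symm)
  have hevM' : evM = (evC : laurentBaseChange ℂ F₀ →+* Mer).comp (helper2122.bcG i0 F₀) :=
    RingHom.ext fun x => hevM x (helper2122.bcG i0 F₀ x) (helper2122.coe_bcG i0 F₀ x)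
  rw [hevM'] at hAD
  exact multSpecG_carrier Γ i0 hΓ' hj evC hinv hRC A hA hden hn hCP hAD hζ _ rfl evM hevM

end CarrierOfRecord

end Fermat.Agent.S48.helper4027

end
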