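import Mathlib
import Fermat.Prelude.Def_GaloisRep_Residual

/-!
# S48-E1: semisimplification and matrix form of a two-dimensional representation

For a group `Γ`, a field `κ` and a representation `ρ : Γ →* Module.End κ V` on a space with a
basis indexed by `Fin 2`, we construct a matrix representation `r : Γ →* GL (Fin 2) κ` which

* has the same characteristic polynomials as `ρ`,
* is trivial wherever `ρ` is,
* is semisimple in the elementary sense used by the bounded-image lemma: every line stable under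
  all `r σ` has a complementary stable line.

If `ρ` has no stable line, `r` is the matrix of `ρ` in the basis; if `ρ` has a stable line with
character `χ₁`, then `r = diag(χ₁, det ρ / χ₁)`.

The last section specialises to the Prelude structure `ResidualGaloisRep`.
-/

set_option autoImplicit false
set_option linter.unusedSectionVars false

namespace Fermat.Agent.S48.helper4236

open Polynomial Matrix

section general

variable {Γ : Type*} [Group Γ] {κ : Type*} [Field κ] {V : Type*} [AddCommGroup V] [Module κ V]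
  [Module.Finite κ V]

/-- The matrix representation attached to `ρ` and a basis. -/
noncomputable def matHom (b : Module.Basis (Fin 2) κ V) (ρ : Γ →* Module.End κ V) :
    Γ →* GL (Fin 2) κ :=
  (((LinearMap.toMatrixAlgEquiv b : Module.End κ V ≃ₐ[κ] Matrix (Fin 2) (Fin 2) κ) :
      Module.End κ V →* Matrix (Fin 2) (Fin 2) κ).comp ρ).toHomUnits

theorem matHom_val (b : Module.Basis (Fin 2) κ V) (ρ : Γ →* Module.End κ V) (σ : Γ) :
    ((matHom b ρ σ : GL (Fin 2) κ) : Matrix (Fin 2) (Fin 2) κ) = LinearMap.toMatrix b b (ρ σ) :=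
  rfl

theorem matHom_charpoly (b : Module.Basis (Fin 2) κ V) (ρ : Γ →* Module.End κ V) (σ : Γ) :
    ((matHom b ρ σ : GL (Fin 2) κ) : Matrix (Fin 2) (Fin 2) κ).charpoly =
      LinearMap.charpoly (ρ σ) := by
  rw [matHom_val, LinearMap.charpoly_toMatrix]

theorem matHom_eq_one (b : Module.Basis (Fin 2) κ V) (ρ : Γ →* Module.End κ V) (σ : Γ)
    (h : ρ σ = 1) : matHom b ρ σ = 1 := by
  apply Units.ext
  rw [matHom_val, h]
  exact LinearMap.toMatrix_one b

theorem toMatrix_mulVec_equivFun (b : Module.Basis (Fin 2) κ V) (f : Module.End κ V) (x : V) :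
    (LinearMap.toMatrix b b f).mulVec (b.equivFun x) = b.equivFun (f x) := by
  have h := LinearMap.toMatrix_mulVec_repr b b f x
  simpa [Module.Basis.equivFun_apply] using h

/-- An eigenvalue of a `2 × 2` matrix satisfies its characteristic equation. -/
theorem eigen_mul_trace (M : Matrix (Fin 2) (Fin 2) κ) (v : Fin 2 → κ) (hv : v ≠ 0) (c : κ)
    (h : M.mulVec v = c • v) : c * M.trace = c * c + M.det := by
  have h0 := congrFun h 0
  have h1 := congrFun h 1
  simp only [Matrix.mulVec, dotProduct, Fin.sum_univ_two, Pi.smul_apply, smul_eq_mul] at h0 h1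
  rw [Matrix.trace_fin_two, Matrix.det_fin_two]
  by_cases hv0 : v 0 = 0
  · have hv1 : v 1 ≠ 0 := by
      intro hv1
      apply hv
      ext i
      fin_cases i
      · exact hv0
      · exact hv1
    apply mul_right_cancel₀ hv1
    linear_combination (c - M 0 0) * h1 + M 1 0 * h0
  · apply mul_right_cancel₀ hv0
    linear_combination (c - M 1 1) * h0 + M 0 1 * h1

theorem eq_of_smul_eq {x : V} (hx : x ≠ 0) {a c : κ} (h : a • x = c • x) : a = c := by
  have h2 : (a - c) • x = 0 := by rw [sub_smul, h, sub_self]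
  rcases smul_eq_zero.mp h2 with h0 | h0
  · exact sub_eq_zero.mp h0
  · exact absurd h0 hx

/-- The character by which `ρ` acts on a stable line. -/
noncomputable def lineChar (ρ : Γ →* Module.End κ V) (x : V) (hx : x ≠ 0)
    (h : ∀ σ : Γ, ∃ c : κ, ρ σ x = c • x) : Γ →* κ where
  toFun σ := (h σ).choose
  map_one' := by
    have h1 : ρ 1 x = (h 1).choose • x := (h 1).choose_spec
    generalize (h 1).choose = c at h1 ⊢
    rw [map_one, Module.End.one_apply] at h1
    apply eq_of_smul_eq hx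
    rw [one_smul]
    exact h1.symm
  map_mul' σ τ := by
    have h1 : ρ (σ * τ) x = (h (σ * τ)).choose • x := (h (σ * τ)).choose_spec
    have h2 : ρ σ x = (h σ).choose • x := (h σ).choose_spec
    have h3 : ρ τ x = (h τ).choose • x := (h τ).choose_spec
    generalize (h (σ * τ)).choose = c at h1 ⊢
    generalize (h σ).choose = c₁ at h2 ⊢
    generalize (h τ).choose = c₂ at h3 ⊢
    rw [map_mul, Module.End.mul_apply, h3, map_smul, h2, smul_smul] at h1
    apply eq_of_smul_eq hx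
    rw [← h1, mul_comm]

theorem lineChar_spec (ρ : Γ →* Module.End κ V) (x : V) (hx : x ≠ 0)
    (h : ∀ σ : Γ, ∃ c : κ, ρ σ x = c • x) (σ : Γ) : ρ σ x = lineChar ρ x hx h σ • x :=
  (h σ).choose_spec

theorem lineChar_eq (ρ : Γ →* Module.End κ V) (x : V) (hx : x ≠ 0)
    (h : ∀ σ : Γ, ∃ c : κ, ρ σ x = c • x) (σ : Γ) (c : κ) (hc : ρ σ x = c • x) :
    lineChar ρ x hx h σ = c := by
  apply eq_of_smul_eq hx
  rw [← lineChar_spec ρ x hx h σ, hc]

theorem char_mul_inv (χ : Γ →* κ) (σ : Γ) : χ σ * χ σ⁻¹ = 1 := by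
  rw [← map_mul, mul_inv_cancel, map_one]

/-- The second character `det ρ / χ₁`. -/
noncomputable def quotChar (ρ : Γ →* Module.End κ V) (χ₁ : Γ →* κ) : Γ →* κ where
  toFun σ := LinearMap.det (ρ σ) * χ₁ σ⁻¹
  map_one' := by simp
  map_mul' σ τ := by
    rw [map_mul, map_mul, _root_.mul_inv_rev, map_mul]
    ring

theorem quotChar_apply (ρ : Γ →* Module.End κ V) (χ₁ : Γ →* κ) (σ : Γ) :
    quotChar ρ χ₁ σ = LinearMap.det (ρ σ) * χ₁ σ⁻¹ := rfl

/-- The diagonal representation with characters `χ₁`, `χ₂`. -/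
noncomputable def diagHom (χ₁ χ₂ : Γ →* κ) : Γ →* GL (Fin 2) κ :=
  (((Matrix.diagonalRingHom (Fin 2) κ : (Fin 2 → κ) →+* Matrix (Fin 2) (Fin 2) κ) :
      (Fin 2 → κ) →* Matrix (Fin 2) (Fin 2) κ).comp
    (MonoidHom.pi (fun i : Fin 2 => (![χ₁, χ₂] i : Γ →* κ)))).toHomUnits

theorem diagHom_val (χ₁ χ₂ : Γ →* κ) (σ : Γ) :
    ((diagHom χ₁ χ₂ σ : GL (Fin 2) κ) : Matrix (Fin 2) (Fin 2) κ) =
      Matrix.diagonal ![χ₁ σ, χ₂ σ] := by
  change Matrix.diagonal (fun i : Fin 2 => (![χ₁, χ₂] i) σ) = _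
  congr 1
  ext i
  fin_cases i <;> rfl

theorem diagHom_mulVec (χ₁ χ₂ : Γ →* κ) (σ : Γ) (w : Fin 2 → κ) :
    ((diagHom χ₁ χ₂ σ : GL (Fin 2) κ) : Matrix (Fin 2) (Fin 2) κ).mulVec w =
      ![χ₁ σ * w 0, χ₂ σ * w 1] := by
  rw [diagHom_val]
  ext i
  fin_cases i <;> simp [Matrix.mulVec_diagonal]

/-- Elementary semisimplicity of a matrix representation: every stable line has a complementary
stable line (the hypothesis `hss` of the bounded-image lemma). -/
def IsSemisimpleMat (r : Γ →* GL (Fin 2) κ) : Prop :=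
  ∀ v : Fin 2 → κ, v ≠ 0 →
    (∀ σ : Γ, ∃ c : κ, ((r σ : GL (Fin 2) κ) : Matrix (Fin 2) (Fin 2) κ).mulVec v = c • v) →
    ∃ w : Fin 2 → κ, v 0 * w 1 - v 1 * w 0 ≠ 0 ∧
      ∀ σ : Γ, ∃ c : κ, ((r σ : GL (Fin 2) κ) : Matrix (Fin 2) (Fin 2) κ).mulVec w = c • w

theorem isSemisimpleMat_diagHom (χ₁ χ₂ : Γ →* κ) : IsSemisimpleMat (diagHom χ₁ χ₂) := by
  intro v hv _
  by_cases hv1 : v 1 = 0
  · have hv0 : v 0 ≠ 0 := by
      intro hv0
      apply hv
      ext i
      fin_cases i
      · exact hv0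
      · exact hv1
    refine ⟨![0, 1], by simpa using hv0, fun σ => ⟨χ₂ σ, ?_⟩⟩
    rw [diagHom_mulVec]
    ext i
    fin_cases i <;> simp
  · refine ⟨![1, 0], by simpa using hv1, fun σ => ⟨χ₁ σ, ?_⟩⟩
    rw [diagHom_mulVec]
    ext i
    fin_cases i <;> simp

theorem isSemisimpleMat_matHom (b : Module.Basis (Fin 2) κ V) (ρ : Γ →* Module.End κ V)
    (hirr : ¬ ∃ x : V, x ≠ 0 ∧ ∀ σ : Γ, ∃ c : κ, ρ σ x = c • x) :
    IsSemisimpleMat (matHom b ρ) := by
  intro v hv hst
  exfalso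
  apply hirr
  refine ⟨b.equivFun.symm v, ?_, fun σ => ?_⟩
  · intro h0
    apply hv
    have h1 := congrArg b.equivFun h0
    rwa [LinearEquiv.apply_symm_apply, map_zero] at h1
  · obtain ⟨c, hc⟩ := hst σ
    refine ⟨c, ?_⟩
    apply b.equivFun.injective
    rw [← toMatrix_mulVec_equivFun, LinearEquiv.apply_symm_apply, map_smul,
      LinearEquiv.apply_symm_apply, ← matHom_val]
    exact hc

theorem diagHom_charpoly (b : Module.Basis (Fin 2) κ V) (ρ : Γ →* Module.End κ V) (x : V)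
    (hx : x ≠ 0) (h : ∀ σ : Γ, ∃ c : κ, ρ σ x = c • x) (σ : Γ) :
    ((diagHom (lineChar ρ x hx h) (quotChar ρ (lineChar ρ x hx h)) σ : GL (Fin 2) κ) :
        Matrix (Fin 2) (Fin 2) κ).charpoly = LinearMap.charpoly (ρ σ) := by
  set χ := lineChar ρ x hx h with hχ
  set M := LinearMap.toMatrix b b (ρ σ) with hM
  have hv : b.equivFun x ≠ 0 := by
    intro h0
    apply hx
    have h1 := congrArg b.equivFun.symm h0
    rwa [LinearEquiv.symm_apply_apply, map_zero] at h1
  have heig : M.mulVec (b.equivFun x) = χ σ • b.equivFun x := by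
    rw [hM, toMatrix_mulVec_equivFun, lineChar_spec ρ x hx h σ, map_smul]
  have h1 := eigen_mul_trace M (b.equivFun x) hv (χ σ) heig
  have hdet : M.det = LinearMap.det (ρ σ) := LinearMap.det_toMatrix b (ρ σ)
  have hinv := char_mul_inv χ σ
  rw [← LinearMap.charpoly_toMatrix (ρ σ) b, ← hM, Matrix.charpoly_fin_two, Matrix.charpoly_fin_two,
    diagHom_val, Matrix.trace_fin_two, Matrix.det_fin_two]
  simp only [Matrix.diagonal_apply_eq, Matrix.cons_val_zero, Matrix.cons_val_one, ne_eq,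
    zero_ne_one, one_ne_zero, not_false_eq_true, Matrix.diagonal_apply_ne, mul_zero, sub_zero]
  rw [quotChar_apply, ← hdet]
  have htr : M.trace = χ σ + M.det * χ σ⁻¹ := by
    have h2 : χ σ⁻¹ * (χ σ * M.trace) = χ σ⁻¹ * (χ σ * χ σ + M.det) := by rw [h1]
    have h3 : χ σ⁻¹ * χ σ = 1 := by rw [mul_comm]; exact hinv
    calc M.trace = (χ σ⁻¹ * χ σ) * M.trace := by rw [h3, one_mul]
      _ = χ σ⁻¹ * (χ σ * χ σ + M.det) := by rw [mul_assoc, h2]
      _ = (χ σ⁻¹ * χ σ) * χ σ + M.det * χ σ⁻¹ := by ring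
      _ = χ σ + M.det * χ σ⁻¹ := by rw [h3, one_mul]
  have hdet2 : χ σ * (M.det * χ σ⁻¹) = M.det := by
    calc χ σ * (M.det * χ σ⁻¹) = (χ σ * χ σ⁻¹) * M.det := by ring
      _ = M.det := by rw [hinv, one_mul]
  rw [htr, hdet2]

/-- **Semisimplification in matrix form.** -/
theorem exists_semisimple_matHom (b : Module.Basis (Fin 2) κ V) (ρ : Γ →* Module.End κ V) :
    ∃ r : Γ →* GL (Fin 2) κ,
      (∀ σ : Γ, ρ σ = 1 → r σ = 1) ∧
      (∀ σ : Γ, ((r σ : GL (Fin 2) κ) : Matrix (Fin 2) (Fin 2) κ).charpoly =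
        LinearMap.charpoly (ρ σ)) ∧
      IsSemisimpleMat r := by
  by_cases hst : ∃ x : V, x ≠ 0 ∧ ∀ σ : Γ, ∃ c : κ, ρ σ x = c • x
  · obtain ⟨x, hx, h⟩ := hst
    refine ⟨diagHom (lineChar ρ x hx h) (quotChar ρ (lineChar ρ x hx h)), fun σ hσ => ?_,
      fun σ => diagHom_charpoly b ρ x hx h σ, isSemisimpleMat_diagHom _ _⟩
    have h1 : lineChar ρ x hx h σ = 1 := by
      apply lineChar_eq
      rw [hσ, Module.End.one_apply, one_smul]
    have h2 : lineChar ρ x hx h σ⁻¹ = 1 := by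
      have := char_mul_inv (lineChar ρ x hx h) σ
      rwa [h1, one_mul] at this
    apply Units.ext
    rw [diagHom_val, quotChar_apply, h1, h2, hσ]
    simp only [map_one, mul_one, Units.val_one]
    rw [← Matrix.diagonal_one]
    congr 1
    ext i
    fin_cases i <;> rfl
  · exact ⟨matHom b ρ, fun σ hσ => matHom_eq_one b ρ σ hσ, fun σ => matHom_charpoly b ρ σ,
      isSemisimpleMat_matHom b ρ hst⟩

end general

section corollaries

variable {Γ : Type*} [Group Γ] {κ : Type*} [Field κ]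

/-- The semisimplicity hypothesis in the subgroup form consumed by the bounded-image lemma. -/
theorem IsSemisimpleMat.range {r : Γ →* GL (Fin 2) κ} (h : IsSemisimpleMat r) :
    ∀ v : Fin 2 → κ, v ≠ 0 →
      (∀ g ∈ r.range, ∃ c : κ, (g : Matrix (Fin 2) (Fin 2) κ).mulVec v = c • v) →
      ∃ w : Fin 2 → κ, v 0 * w 1 - v 1 * w 0 ≠ 0 ∧
        ∀ g ∈ r.range, ∃ c : κ, (g : Matrix (Fin 2) (Fin 2) κ).mulVec w = c • w := by
  intro v hv hst
  obtain ⟨w, hw, hw'⟩ := h v hv (fun σ => hst (r σ) ⟨σ, rfl⟩)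
  refine ⟨w, hw, ?_⟩
  rintro g ⟨σ, rfl⟩
  exact hw' σ

/-- Trace and determinant of a `2 × 2` matrix read off from its characteristic polynomial. -/
theorem trace_det_of_charpoly_eq (M : Matrix (Fin 2) (Fin 2) κ) (a d : κ)
    (h : M.charpoly = X ^ 2 - C a * X + C d) : M.trace = a ∧ M.det = d := by
  rw [Matrix.charpoly_fin_two] at h
  have h1 := congrArg (fun p : κ[X] => p.coeff 1) h
  have h0 := congrArg (fun p : κ[X] => p.coeff 0) h
  simp only [coeff_add, coeff_sub, coeff_X_pow, coeff_C_mul, coeff_X_one, coeff_C_zero,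
    coeff_X_zero, coeff_C_succ, mul_one, mul_zero] at h1 h0
  norm_num at h1 h0
  exact ⟨h1, h0⟩

end corollaries

section residual

local notation "Γℚ" => (AlgebraicClosure ℚ ≃ₐ[ℚ] AlgebraicClosure ℚ)

/-- A representation of `Γℚ` of finite level has finite range. -/
theorem finite_range_of_finiteLevel {M : Type} [Group M] (r : Γℚ →* M)
    (h : GaloisFactorsThroughFiniteLevel r) : (Set.range r).Finite := by
  classical
  obtain ⟨L, hL, hr⟩ := h
  let res : Γℚ → (L →ₐ[ℚ] AlgebraicClosure ℚ) := fun σ => (σ : AlgebraicClosure ℚ →ₐ[ℚ] AlgebraicClosure ℚ).comp L.val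
  have hres : ∀ σ τ : Γℚ, res σ = res τ → r σ = r τ := by
    intro σ τ hστ
    have h1 : r (σ⁻¹ * τ) = 1 := by
      apply hr
      intro x hx
      have h2 := DFunLike.congr_fun hστ ⟨x, hx⟩
      change σ x = τ x at h2
      change σ⁻¹ (τ x) = x
      rw [← h2]
      exact σ.symm_apply_apply x
    rw [map_mul, map_inv] at h1
    exact inv_mul_eq_one.mp h1
  let g : (L →ₐ[ℚ] AlgebraicClosure ℚ) → M := fun f =>
    if hf : ∃ σ : Γℚ, res σ = f then r hf.choose else 1
  have hg : ∀ σ : Γℚ, r σ = g (res σ) := by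
    intro σ
    have hf : ∃ τ : Γℚ, res τ = res σ := ⟨σ, rfl⟩
    change r σ = if hf : ∃ τ : Γℚ, res τ = res σ then r hf.choose else 1
    rw [dif_pos hf]
    exact (hres _ _ hf.choose_spec).symm
  have hfin : Finite (L →ₐ[ℚ] AlgebraicClosure ℚ) := Finite.of_fintype _
  apply (Set.finite_range g).subset
  rintro _ ⟨σ, rfl⟩
  exact ⟨res σ, (hg σ).symm⟩

variable {κ : Type} [Field κ]

/-- **S48-E1.** Semisimplification, in matrix form, of a Prelude residual Galois representation: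
same characteristic polynomials, kernel at least as large, every stable line has a stable
complement. -/
theorem exists_matrix_semisimplification (ρ : ResidualGaloisRep κ) :
    ∃ r : Γℚ →* GL (Fin 2) κ,
      (∀ σ : Γℚ, ρ.ρ σ = 1 → r σ = 1) ∧
      (∀ σ : Γℚ, ((r σ : GL (Fin 2) κ) : Matrix (Fin 2) (Fin 2) κ).charpoly =
        LinearMap.charpoly (ρ.ρ σ)) ∧
      (∀ v : Fin 2 → κ, v ≠ 0 →
        (∀ σ : Γℚ, ∃ c : κ,
          ((r σ : GL (Fin 2) κ) : Matrix (Fin 2) (Fin 2) κ).mulVec v = c • v) →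
        ∃ w : Fin 2 → κ, v 0 * w 1 - v 1 * w 0 ≠ 0 ∧
          ∀ σ : Γℚ, ∃ c : κ,
            ((r σ : GL (Fin 2) κ) : Matrix (Fin 2) (Fin 2) κ).mulVec w = c • w) :=
  exists_semisimple_matHom (Module.finBasisOfFinrankEq κ ρ.V ρ.finrank_eq) ρ.ρ

/-- **S48-E1, packaged form**: the matrix semisimplification with everything the endgame uses:
finite level, finite range, unramifiedness inherited from `ρ`, trace and determinant read off
from the characteristic polynomial of `ρ`, and semisimplicity of the image in the subgroup form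
of the bounded-image lemma. -/
theorem exists_matrix_semisimplification' (ρ : ResidualGaloisRep κ) :
    ∃ r : Γℚ →* GL (Fin 2) κ,
      GaloisFactorsThroughFiniteLevel r ∧
      (Set.range r).Finite ∧
      (∀ σ : Γℚ, ρ.ρ σ = 1 → r σ = 1) ∧
      (∀ q : ℕ, ρ.IsUnramifiedAt q →
        ∀ A : ValuationSubring (AlgebraicClosure ℚ), A.LiesOverPrime q →
          ∀ σ ∈ A.inertiaSubgroupIn ℚ, r σ = 1) ∧
      (∀ σ : Γℚ, ((r σ : GL (Fin 2) κ) : Matrix (Fin 2) (Fin 2) κ).charpoly =
        LinearMap.charpoly (ρ.ρ σ)) ∧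
      (∀ (σ : Γℚ) (a d : κ), LinearMap.charpoly (ρ.ρ σ) = X ^ 2 - C a * X + C d →
        ((r σ : GL (Fin 2) κ) : Matrix (Fin 2) (Fin 2) κ).trace = a ∧
        ((r σ : GL (Fin 2) κ) : Matrix (Fin 2) (Fin 2) κ).det = d) ∧
      (∀ v : Fin 2 → κ, v ≠ 0 →
        (∀ g ∈ r.range, ∃ c : κ, (g : Matrix (Fin 2) (Fin 2) κ).mulVec v = c • v) →
        ∃ w : Fin 2 → κ, v 0 * w 1 - v 1 * w 0 ≠ 0 ∧
          ∀ g ∈ r.range, ∃ c : κ, (g : Matrix (Fin 2) (Fin 2) κ).mulVec w = c • w) := by
  obtain ⟨r, h1, hcp, hss⟩ := exists_matrix_semisimplification ρ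
  have hfl : GaloisFactorsThroughFiniteLevel r := by
    obtain ⟨L, hL, hρ⟩ := ρ.factorsThroughFiniteLevel
    exact ⟨L, hL, fun σ hσ => h1 σ (hρ σ hσ)⟩
  refine ⟨r, hfl, finite_range_of_finiteLevel r hfl, h1,
    fun q hq A hA σ hσ => h1 σ (hq A hA σ hσ), hcp,
    fun σ a d h => trace_det_of_charpoly_eq _ a d ((hcp σ).trans h),
    IsSemisimpleMat.range hss⟩

end residual

end Fermat.Agent.S48.helper4236
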