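import Fermat.Agent.S48.helper8231_Spec
import Fermat.Agent.S48.helper4236_Semisimplify

/-!
# S48: proof of the Spec statement `Stmt_SemiSimp`

`Fermat.Agent.S48.helper8231.Stmt_SemiSimp`: every Prelude residual Galois representation has a
matrix form `r : GQ →* GL (Fin 2) κ` with the same characteristic polynomials, kernel not
smaller, and which either has no common eigenvector or is diagonal.
-/

set_option autoImplicit false

namespace Fermat.Agent.S48.helper4236

open Polynomial Matrix

/-- General-group form of the Spec statement `Stmt_SemiSimp`. -/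
theorem exists_irreducible_or_diagonal {Γ : Type*} [Group Γ] {κ : Type*} [Field κ] {V : Type*}
    [AddCommGroup V] [Module κ V] [Module.Finite κ V] (b : Module.Basis (Fin 2) κ V)
    (ρ : Γ →* Module.End κ V) :
    ∃ r : Γ →* GL (Fin 2) κ,
      (∀ σ : Γ, ((r σ : GL (Fin 2) κ) : Matrix (Fin 2) (Fin 2) κ).charpoly =
        LinearMap.charpoly (ρ σ)) ∧
      (∀ σ : Γ, ρ σ = 1 → r σ = 1) ∧
      ((∀ v : Fin 2 → κ, v ≠ 0 → ∃ σ : Γ, ∀ c : κ,
          ((r σ : GL (Fin 2) κ) : Matrix (Fin 2) (Fin 2) κ).mulVec v ≠ c • v) ∨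
        (∀ σ : Γ, ∃ x y : κ,
          ((r σ : GL (Fin 2) κ) : Matrix (Fin 2) (Fin 2) κ) = Matrix.diagonal ![x, y])) := by
  by_cases hst : ∃ x : V, x ≠ 0 ∧ ∀ σ : Γ, ∃ c : κ, ρ σ x = c • x
  · obtain ⟨x, hx, h⟩ := hst
    refine ⟨diagHom (lineChar ρ x hx h) (quotChar ρ (lineChar ρ x hx h)),
      fun σ => diagHom_charpoly b ρ x hx h σ, fun σ hσ => ?_,
      Or.inr fun σ => ⟨_, _, diagHom_val _ _ σ⟩⟩
    have h1 : lineChar ρ x hx h σ = 1 := by
      apply lineChar_eq
      rw [hσ, Module.End.one_apply, one_smul]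
    have h2 : lineChar ρ x hx h σ⁻¹ = 1 := by
      have := char_mul_inv (lineChar ρ x hx h) σ
      rwa [h1, one_mul] at this
    apply Units.ext
    rw [diagHom_val, quotChar_apply, h1, h2, hσ]
    simp only [map_one, mul_one, Units.val_one]
    rw [← Matrix.diagonal_one]
    congr 1
    ext i
    fin_cases i <;> rfl
  · refine ⟨matHom b ρ, fun σ => matHom_charpoly b ρ σ, fun σ hσ => matHom_eq_one b ρ σ hσ,
      Or.inl fun v hv => ?_⟩
    by_contra hcon
    apply hst
    refine ⟨b.equivFun.symm v, ?_, fun σ => ?_⟩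
    · intro h0
      apply hv
      have h1 := congrArg b.equivFun h0
      rwa [LinearEquiv.apply_symm_apply, map_zero] at h1
    · have hσ : ∃ c : κ,
          ((matHom b ρ σ : GL (Fin 2) κ) : Matrix (Fin 2) (Fin 2) κ).mulVec v = c • v := by
        by_contra hσ
        apply hcon
        exact ⟨σ, fun c hc => hσ ⟨c, hc⟩⟩
      obtain ⟨c, hc⟩ := hσ
      refine ⟨c, ?_⟩
      apply b.equivFun.injective
      rw [← toMatrix_mulVec_equivFun, LinearEquiv.apply_symm_apply, map_smul,
        LinearEquiv.apply_symm_apply, ← matHom_val]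
      exact hc

/-- **The Spec statement `Stmt_SemiSimp`.** -/
theorem stmt_SemiSimp : Fermat.Agent.S48.helper8231.Stmt_SemiSimp := by
  intro κ _ ρ
  exact exists_irreducible_or_diagonal (Module.finBasisOfFinrankEq κ ρ.V ρ.finrank_eq) ρ.ρ

end Fermat.Agent.S48.helper4236
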