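import Mathlib

/-!
# S48-F7C: consumer form of the lift of a finite-group representation to characteristic zero

`A` is a carrier of algebraic integers inside an algebraically closed field `K`
(for example `A = integralClosure ℤ ℂ`, `K = ℂ`), `m` a maximal ideal of `A`, `G` a finite group
whose order is invertible in `A ⧸ m`, and `ρbar : G →* GL (Fin n) (A ⧸ m)`.
Then there is `ρ : G →* GL (Fin n) K` such that every `charpoly (ρ g)` is the image of a
polynomial `p` over `A` whose reduction modulo `m` is `charpoly (ρbar g)`.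

The lifting statement F7 itself (for a valuation subring of `K`) is consumed as a hypothesis
`LiftStmt`, in the exact shape of board row 2001.
-/

set_option autoImplicit false

namespace Fermat.Agent.S48.helper4314

open Polynomial Matrix

/-- F7 in the owner's shape (board row 2001) for a fixed valuation subring, group and size. -/
def LiftStmt {K : Type*} [Field K] (R : ValuationSubring K) (G : Type*) [Group G] (n : ℕ) :
    Prop :=
  ∀ ρbar : G →* GL (Fin n) (IsLocalRing.ResidueField R),
    ∃ (ρ : G →* GL (Fin n) R) (P : GL (Fin n) (IsLocalRing.ResidueField R)),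
      ∀ g, Matrix.GeneralLinearGroup.map (IsLocalRing.residue R) (ρ g) = P * ρbar g * P⁻¹

/-- A root of the characteristic polynomial of a matrix of finite order is a root of unity. -/
theorem pow_eq_one_of_isRoot_charpoly {K : Type*} [Field K] {n : ℕ}
    (M : Matrix (Fin n) (Fin n) K) {N : ℕ} (hM : M ^ N = 1) {μ : K}
    (hμ : M.charpoly.IsRoot μ) : μ ^ N = 1 := by
  have h0 : (Matrix.scalar (Fin n) μ - M).det = 0 := by
    rw [← Matrix.eval_charpoly]; exact hμ
  obtain ⟨v, hv, hv0⟩ := Matrix.exists_mulVec_eq_zero_iff.mpr h0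
  have h1 : M *ᵥ v = μ • v := by
    have h := hv0
    rw [Matrix.sub_mulVec, sub_eq_zero] at h
    rw [← h]
    ext i
    simp [Matrix.mulVec, dotProduct, Matrix.scalar_apply, Matrix.diagonal_apply]
  have h2 : ∀ k : ℕ, (M ^ k) *ᵥ v = μ ^ k • v := by
    intro k
    induction k with
    | zero => simp
    | succ k ih =>
      rw [pow_succ, ← Matrix.mulVec_mulVec, h1, Matrix.mulVec_smul, ih, smul_smul, pow_succ,
        mul_comm]
  have h3 := h2 N
  rw [hM, Matrix.one_mulVec] at h3
  by_contra hne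
  apply hv
  have h4 : (μ ^ N - 1) • v = 0 := by rw [sub_smul, one_smul, ← h3, sub_self]
  exact (smul_eq_zero.mp h4).resolve_left (sub_ne_zero.mpr hne)

/-- A product of linear factors with roots in the range of `f` is the image of a polynomial. -/
theorem exists_map_eq_prod_X_sub_C {A K : Type*} [CommRing A] [Field K] (f : A →+* K)
    (s : Multiset K) (hs : ∀ μ ∈ s, μ ∈ f.range) :
    ∃ p : A[X], p.map f = (s.map (fun μ => X - C μ)).prod := by
  induction s using Multiset.induction_on with
  | empty => exact ⟨1, by simp⟩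
  | cons μ s ih =>
    obtain ⟨p, hp⟩ := ih (fun x hx => hs x (Multiset.mem_cons_of_mem hx))
    obtain ⟨a, ha⟩ := hs μ (Multiset.mem_cons_self μ s)
    exact ⟨(X - C a) * p, by simp [hp, ha]⟩

/-- The characteristic polynomial of a matrix of finite order over an algebraically closed
field has coefficients in any carrier containing the algebraic integers. -/
theorem exists_map_eq_charpoly_of_pow_eq_one {A K : Type*} [CommRing A] [Field K]
    [IsAlgClosed K] [Algebra A K]
    (hint : ∀ z : K, IsIntegral ℤ z → z ∈ (algebraMap A K).range) {n : ℕ}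
    (M : Matrix (Fin n) (Fin n) K) {N : ℕ} (hN : 0 < N) (hM : M ^ N = 1) :
    ∃ p : A[X], p.map (algebraMap A K) = M.charpoly := by
  have hsplit := IsAlgClosed.splits M.charpoly
  rw [hsplit.eq_prod_roots_of_monic M.charpoly_monic]
  apply exists_map_eq_prod_X_sub_C
  intro μ hμ
  apply hint
  have hroot : M.charpoly.IsRoot μ := (Polynomial.mem_roots M.charpoly_monic.ne_zero).mp hμ
  have hpow := pow_eq_one_of_isRoot_charpoly M hM hroot
  refine ⟨X ^ N - 1, ?_, ?_⟩
  · simpa using monic_X_pow_sub_C (1 : ℤ) hN.ne'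
  · simp [hpow]

/-- **F7C, hypothesis-passing form.** -/
theorem exists_lift_charpoly_of_liftStmt {A K : Type*} [CommRing A] [Field K] [IsAlgClosed K]
    [Algebra A K] (hinj : Function.Injective (algebraMap A K))
    (hint : ∀ z : K, IsIntegral ℤ z → z ∈ (algebraMap A K).range)
    (m : Ideal A) [m.IsMaximal] {G : Type*} [Group G] [Finite G]
    (hG : (Nat.card G : A ⧸ m) ≠ 0) {n : ℕ}
    (hF7 : ∀ R : ValuationSubring K, (Nat.card G : IsLocalRing.ResidueField R) ≠ 0 →
      LiftStmt R G n)
    (ρbar : G →* GL (Fin n) (A ⧸ m)) :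
    ∃ ρ : G →* GL (Fin n) K, ∀ g, ∃ p : A[X],
      p.map (algebraMap A K) = (ρ g : Matrix (Fin n) (Fin n) K).charpoly ∧
      p.map (Ideal.Quotient.mk m) = (ρbar g : Matrix (Fin n) (Fin n) (A ⧸ m)).charpoly := by
  classical
  -- a valuation subring of `K` dominating `A` at `m`
  let e : A →+* (algebraMap A K).range := (algebraMap A K).rangeRestrict
  have he : Function.Surjective e := (algebraMap A K).rangeRestrict_surjective
  have hI : Ideal.map e m ≠ ⊤ := by
    intro htop
    have h1 : (1 : (algebraMap A K).range) ∈ Ideal.map e m := by rw [htop]; trivial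
    obtain ⟨x, hx, hx1⟩ := (Ideal.mem_map_iff_of_surjective e he).mp h1
    have hx1' : algebraMap A K x = algebraMap A K 1 := by
      have := congrArg Subtype.val hx1
      simpa [e] using this
    have : x = 1 := hinj hx1'
    exact (Ideal.IsMaximal.ne_top ‹m.IsMaximal›) ((Ideal.eq_top_iff_one m).mpr (this ▸ hx))
  obtain ⟨V, hle, hnon⟩ := Ideal.image_subset_nonunits_valuationSubring (Ideal.map e m) hI
  have hmemV : ∀ a : A, algebraMap A K a ∈ V := fun a => hle ⟨a, rfl⟩
  have hnonV : ∀ a ∈ m, algebraMap A K a ∈ V.nonunits := fun a ha =>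
    hnon ⟨e a, Ideal.mem_map_of_mem e ha, rfl⟩
  let φ : A →+* V := (algebraMap A K).codRestrict V hmemV
  have hφm : ∀ a ∈ m, φ a ∈ IsLocalRing.maximalIdeal V := by
    intro a ha
    obtain ⟨h', h⟩ := V.mem_nonunits_iff_exists_mem_maximalIdeal.mp (hnonV a ha)
    exact h
  let ι : A ⧸ m →+* IsLocalRing.ResidueField V :=
    Ideal.Quotient.lift m ((IsLocalRing.residue V).comp φ) (fun a ha => by
      simpa using (IsLocalRing.residue_eq_zero_iff _).mpr (hφm a ha))
  let _ : Field (A ⧸ m) := Ideal.Quotient.field m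
  have hι : Function.Injective ι := ι.injective
  have hG' : (Nat.card G : IsLocalRing.ResidueField V) ≠ 0 := by
    intro h
    apply hG
    apply hι
    rw [map_natCast, h, map_zero]
  obtain ⟨ρ, P, hρ⟩ := hF7 V hG' ((Matrix.GeneralLinearGroup.map ι).comp ρbar)
  refine ⟨(Matrix.GeneralLinearGroup.map V.subtype).comp ρ, fun g => ?_⟩
  have hMK : (((Matrix.GeneralLinearGroup.map V.subtype).comp ρ) g : Matrix (Fin n) (Fin n) K)
      = (ρ g : Matrix (Fin n) (Fin n) V).map V.subtype := rfl
  have hpow : (((Matrix.GeneralLinearGroup.map V.subtype).comp ρ) g : Matrix (Fin n) (Fin n) K)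
      ^ Nat.card G = 1 := by
    have h1 : (((Matrix.GeneralLinearGroup.map V.subtype).comp ρ) g) ^ Nat.card G = 1 := by
      rw [← map_pow, pow_card_eq_one', map_one]
    have h2 := congrArg Units.val h1
    simpa using h2
  obtain ⟨p, hp⟩ := exists_map_eq_charpoly_of_pow_eq_one hint _ Nat.card_pos hpow
  refine ⟨p, hp, ?_⟩
  have h1 : p.map φ = (ρ g : Matrix (Fin n) (Fin n) V).charpoly := by
    apply Polynomial.map_injective V.subtype Subtype.val_injective
    rw [Polynomial.map_map, ← Matrix.charpoly_map, ← hMK, ← hp]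
    rfl
  have h2 : (p.map φ).map (IsLocalRing.residue V)
      = ((ρbar g : Matrix (Fin n) (Fin n) (A ⧸ m)).charpoly).map ι := by
    rw [h1, ← Matrix.charpoly_map, ← Matrix.charpoly_map]
    have h3 : (ρ g : Matrix (Fin n) (Fin n) V).map (IsLocalRing.residue V)
        = ((Matrix.GeneralLinearGroup.map (IsLocalRing.residue V) (ρ g) :
            GL (Fin n) (IsLocalRing.ResidueField V)) :
            Matrix (Fin n) (Fin n) (IsLocalRing.ResidueField V)) := rfl
    have h4 : (ρbar g : Matrix (Fin n) (Fin n) (A ⧸ m)).map ι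
        = (((Matrix.GeneralLinearGroup.map ι).comp ρbar) g :
            Matrix (Fin n) (Fin n) (IsLocalRing.ResidueField V)) := rfl
    rw [h3, h4, hρ g, Units.val_mul, Units.val_mul, Matrix.coe_units_inv,
      Matrix.charpoly_units_conj]
  have h5 : (p.map φ).map (IsLocalRing.residue V) = (p.map (Ideal.Quotient.mk m)).map ι := by
    rw [Polynomial.map_map, Polynomial.map_map]
    congr 1
  exact Polynomial.map_injective ι hι (h5.symm.trans h2)

/-- Trace read off a polynomial lifting the characteristic polynomial. -/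
theorem map_trace_of_map_eq_charpoly {R S : Type*} [CommRing R] [CommRing S] (f : R →+* S)
    {n : ℕ} (p : R[X]) (M : Matrix (Fin n) (Fin n) S) (h : p.map f = M.charpoly) :
    f (if n = 0 then 0 else -(p.coeff (n - 1))) = M.trace := by
  rcases Nat.eq_zero_or_pos n with hn | hn
  · subst hn
    simp [Matrix.trace]
  · have : Nonempty (Fin n) := ⟨⟨0, hn⟩⟩
    rw [if_neg hn.ne', Matrix.trace_eq_neg_charpoly_coeff, ← h, Polynomial.coeff_map, map_neg,
      Fintype.card_fin]

/-- Determinant read off a polynomial lifting the characteristic polynomial. -/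
theorem map_det_of_map_eq_charpoly {R S : Type*} [CommRing R] [CommRing S] (f : R →+* S)
    {n : ℕ} (p : R[X]) (M : Matrix (Fin n) (Fin n) S) (h : p.map f = M.charpoly) :
    f ((-1) ^ n * p.coeff 0) = M.det := by
  rw [Matrix.det_eq_sign_charpoly_coeff, ← h, Polynomial.coeff_map, map_mul, map_pow, map_neg,
    map_one, Fintype.card_fin]

/-- **F7C, trace/determinant form (hypothesis-passing).** -/
theorem exists_lift_trace_det_of_liftStmt {A K : Type*} [CommRing A] [Field K] [IsAlgClosed K]
    [Algebra A K] (hinj : Function.Injective (algebraMap A K))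
    (hint : ∀ z : K, IsIntegral ℤ z → z ∈ (algebraMap A K).range)
    (m : Ideal A) [m.IsMaximal] {G : Type*} [Group G] [Finite G]
    (hG : (Nat.card G : A ⧸ m) ≠ 0) {n : ℕ}
    (hF7 : ∀ R : ValuationSubring K, (Nat.card G : IsLocalRing.ResidueField R) ≠ 0 →
      LiftStmt R G n)
    (ρbar : G →* GL (Fin n) (A ⧸ m)) :
    ∃ ρ : G →* GL (Fin n) K, ∀ g, ∃ t d : A,
      algebraMap A K t = (ρ g : Matrix (Fin n) (Fin n) K).trace ∧
      Ideal.Quotient.mk m t = (ρbar g : Matrix (Fin n) (Fin n) (A ⧸ m)).trace ∧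
      algebraMap A K d = (ρ g : Matrix (Fin n) (Fin n) K).det ∧
      Ideal.Quotient.mk m d = (ρbar g : Matrix (Fin n) (Fin n) (A ⧸ m)).det := by
  obtain ⟨ρ, hρ⟩ := exists_lift_charpoly_of_liftStmt hinj hint m hG hF7 ρbar
  refine ⟨ρ, fun g => ?_⟩
  obtain ⟨p, hp1, hp2⟩ := hρ g
  exact ⟨_, _, map_trace_of_map_eq_charpoly _ p _ hp1, map_trace_of_map_eq_charpoly _ p _ hp2,
    map_det_of_map_eq_charpoly _ p _ hp1, map_det_of_map_eq_charpoly _ p _ hp2⟩

/-- **F7C for the carrier `integralClosure ℤ ℂ` (hypothesis-passing).** -/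
theorem exists_lift_charpoly_complex_of_liftStmt (m : Ideal (integralClosure ℤ ℂ)) [m.IsMaximal]
    {G : Type*} [Group G] [Finite G] (hG : (Nat.card G : integralClosure ℤ ℂ ⧸ m) ≠ 0) {n : ℕ}
    (hF7 : ∀ R : ValuationSubring ℂ, (Nat.card G : IsLocalRing.ResidueField R) ≠ 0 →
      LiftStmt R G n)
    (ρbar : G →* GL (Fin n) (integralClosure ℤ ℂ ⧸ m)) :
    ∃ ρ : G →* GL (Fin n) ℂ, ∀ g, ∃ p : (integralClosure ℤ ℂ)[X],
      p.map (algebraMap (integralClosure ℤ ℂ) ℂ) = (ρ g : Matrix (Fin n) (Fin n) ℂ).charpoly ∧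
      p.map (Ideal.Quotient.mk m)
        = (ρbar g : Matrix (Fin n) (Fin n) (integralClosure ℤ ℂ ⧸ m)).charpoly :=
  exists_lift_charpoly_of_liftStmt Subtype.val_injective (fun z hz => ⟨⟨z, hz⟩, rfl⟩) m hG hF7 ρbar

/-- **F7C for the carrier `integralClosure ℤ ℂ`, trace/determinant form (hypothesis-passing).** -/
theorem exists_lift_trace_det_complex_of_liftStmt (m : Ideal (integralClosure ℤ ℂ))
    [m.IsMaximal] {G : Type*} [Group G] [Finite G]
    (hG : (Nat.card G : integralClosure ℤ ℂ ⧸ m) ≠ 0) {n : ℕ}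
    (hF7 : ∀ R : ValuationSubring ℂ, (Nat.card G : IsLocalRing.ResidueField R) ≠ 0 →
      LiftStmt R G n)
    (ρbar : G →* GL (Fin n) (integralClosure ℤ ℂ ⧸ m)) :
    ∃ ρ : G →* GL (Fin n) ℂ, ∀ g, ∃ t d : integralClosure ℤ ℂ,
      (t : ℂ) = (ρ g : Matrix (Fin n) (Fin n) ℂ).trace ∧
      Ideal.Quotient.mk m t = (ρbar g : Matrix (Fin n) (Fin n) (integralClosure ℤ ℂ ⧸ m)).trace ∧
      (d : ℂ) = (ρ g : Matrix (Fin n) (Fin n) ℂ).det ∧
      Ideal.Quotient.mk m d = (ρbar g : Matrix (Fin n) (Fin n) (integralClosure ℤ ℂ ⧸ m)).det :=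
  exists_lift_trace_det_of_liftStmt Subtype.val_injective (fun z hz => ⟨⟨z, hz⟩, rfl⟩) m hG hF7 ρbar

end Fermat.Agent.S48.helper4314
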