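import Fermat.Agent.S48.helper4464_LiftNoCompletion
import Fermat.Agent.S48.helper4314_LiftComplex

/-!
# S48-F7C: consumer form of the lift, hypothesis-free

Instantiates `helper4314_LiftComplex` with the lifting theorem F7
(`helper4464.exists_lift_of_card_ne_zero`).
-/

set_option autoImplicit false

namespace Fermat.Agent.S48.helper4314

open Polynomial Matrix

/-- F7 (helper4464) in the `LiftStmt` shape. -/
theorem liftStmt_of_card_ne_zero {K : Type*} [Field K] [IsAlgClosed K] (R : ValuationSubring K)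
    {G : Type*} [Group G] [Finite G] (hG : (Nat.card G : IsLocalRing.ResidueField R) ≠ 0)
    (n : ℕ) : LiftStmt R G n :=
  fun ρbar => Fermat.Agent.S48.helper4464.exists_lift_of_card_ne_zero R hG ρbar

/-- **F7C.** `A` a carrier of algebraic integers in an algebraically closed field `K`, `m` a
maximal ideal of `A`, `G` a finite group of order prime to the residue characteristic: every
`ρbar : G →* GL (Fin n) (A ⧸ m)` has a lift `ρ : G →* GL (Fin n) K` whose characteristic
polynomials have coefficients in `A` and reduce modulo `m` to those of `ρbar`. -/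
theorem exists_lift_charpoly {A K : Type*} [CommRing A] [Field K] [IsAlgClosed K]
    [Algebra A K] (hinj : Function.Injective (algebraMap A K))
    (hint : ∀ z : K, IsIntegral ℤ z → z ∈ (algebraMap A K).range)
    (m : Ideal A) [m.IsMaximal] {G : Type*} [Group G] [Finite G]
    (hG : (Nat.card G : A ⧸ m) ≠ 0) {n : ℕ} (ρbar : G →* GL (Fin n) (A ⧸ m)) :
    ∃ ρ : G →* GL (Fin n) K, ∀ g, ∃ p : A[X],
      p.map (algebraMap A K) = (ρ g : Matrix (Fin n) (Fin n) K).charpoly ∧
      p.map (Ideal.Quotient.mk m) = (ρbar g : Matrix (Fin n) (Fin n) (A ⧸ m)).charpoly :=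
  exists_lift_charpoly_of_liftStmt hinj hint m hG
    (fun R hR => liftStmt_of_card_ne_zero R hR n) ρbar

/-- **F7C, trace/determinant form.** -/
theorem exists_lift_trace_det {A K : Type*} [CommRing A] [Field K] [IsAlgClosed K]
    [Algebra A K] (hinj : Function.Injective (algebraMap A K))
    (hint : ∀ z : K, IsIntegral ℤ z → z ∈ (algebraMap A K).range)
    (m : Ideal A) [m.IsMaximal] {G : Type*} [Group G] [Finite G]
    (hG : (Nat.card G : A ⧸ m) ≠ 0) {n : ℕ} (ρbar : G →* GL (Fin n) (A ⧸ m)) :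
    ∃ ρ : G →* GL (Fin n) K, ∀ g, ∃ t d : A,
      algebraMap A K t = (ρ g : Matrix (Fin n) (Fin n) K).trace ∧
      Ideal.Quotient.mk m t = (ρbar g : Matrix (Fin n) (Fin n) (A ⧸ m)).trace ∧
      algebraMap A K d = (ρ g : Matrix (Fin n) (Fin n) K).det ∧
      Ideal.Quotient.mk m d = (ρbar g : Matrix (Fin n) (Fin n) (A ⧸ m)).det :=
  exists_lift_trace_det_of_liftStmt hinj hint m hG
    (fun R hR => liftStmt_of_card_ne_zero R hR n) ρbar

/-- **F7C for `Zbar = integralClosure ℤ ℂ`.** -/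
theorem exists_lift_charpoly_complex (m : Ideal (integralClosure ℤ ℂ)) [m.IsMaximal]
    {G : Type*} [Group G] [Finite G] (hG : (Nat.card G : integralClosure ℤ ℂ ⧸ m) ≠ 0) {n : ℕ}
    (ρbar : G →* GL (Fin n) (integralClosure ℤ ℂ ⧸ m)) :
    ∃ ρ : G →* GL (Fin n) ℂ, ∀ g, ∃ p : (integralClosure ℤ ℂ)[X],
      p.map (algebraMap (integralClosure ℤ ℂ) ℂ) = (ρ g : Matrix (Fin n) (Fin n) ℂ).charpoly ∧
      p.map (Ideal.Quotient.mk m)
        = (ρbar g : Matrix (Fin n) (Fin n) (integralClosure ℤ ℂ ⧸ m)).charpoly :=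
  exists_lift_charpoly_complex_of_liftStmt m hG (fun R hR => liftStmt_of_card_ne_zero R hR n) ρbar

/-- **F7C for `Zbar = integralClosure ℤ ℂ`, trace/determinant form.** -/
theorem exists_lift_trace_det_complex (m : Ideal (integralClosure ℤ ℂ)) [m.IsMaximal]
    {G : Type*} [Group G] [Finite G] (hG : (Nat.card G : integralClosure ℤ ℂ ⧸ m) ≠ 0) {n : ℕ}
    (ρbar : G →* GL (Fin n) (integralClosure ℤ ℂ ⧸ m)) :
    ∃ ρ : G →* GL (Fin n) ℂ, ∀ g, ∃ t d : integralClosure ℤ ℂ,
      (t : ℂ) = (ρ g : Matrix (Fin n) (Fin n) ℂ).trace ∧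
      Ideal.Quotient.mk m t = (ρbar g : Matrix (Fin n) (Fin n) (integralClosure ℤ ℂ ⧸ m)).trace ∧
      (d : ℂ) = (ρ g : Matrix (Fin n) (Fin n) ℂ).det ∧
      Ideal.Quotient.mk m d = (ρbar g : Matrix (Fin n) (Fin n) (integralClosure ℤ ℂ ⧸ m)).det :=
  exists_lift_trace_det_complex_of_liftStmt m hG
    (fun R hR => liftStmt_of_card_ne_zero R hR n) ρbar

end Fermat.Agent.S48.helper4314
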