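import Fermat.Agent.S48.helper8231_Spec
import Fermat.Agent.S48.helper4314_LiftZbar

/-!
# S48: the Spec leaf `Stmt_Lift` (lift to characteristic zero, consumer form)

`stmt_Lift : helper8231.Stmt_Lift`: a finite subgroup of `GL₂(Zc ⧸ 𝔪)` of order prime to the
residue characteristic lifts injectively to `GL₂(ℂ)` with traces and determinants in `Zc`
reducing correctly.  It is `exists_lift_trace_det_complex` (F7C) for `ρbar := G.subtype`, plus
injectivity of the lift.
-/

set_option autoImplicit false

namespace Fermat.Agent.S48.helper4314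

open Polynomial Matrix

/-- A `2 × 2` matrix of finite order `m` (with `m ≠ 0` in the coefficient domain), trace `2` and
determinant `1` is the identity. -/
theorem eq_one_of_trace_det_of_pow {κ : Type*} [CommRing κ] [IsDomain κ]
    (M : Matrix (Fin 2) (Fin 2) κ) (m : ℕ) (hm : (m : κ) ≠ 0) (hpow : M ^ m = 1)
    (htr : M.trace = 2) (hdet : M.det = 1) : M = 1 := by
  have hCH : M * M - 2 * M + 1 = 0 := by
    have h := Matrix.aeval_self_charpoly M
    rw [Matrix.charpoly_fin_two, htr, hdet] at h
    have h2 : (aeval M) (X ^ 2 - C (2 : κ) * X + C (1 : κ)) = M * M - 2 * M + 1 := by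
      simp only [map_add, map_sub, map_mul, map_pow, aeval_X, map_one, map_ofNat]
      rw [pow_two]
    rw [h2] at h
    exact h
  have hν : (M - 1) * (M - 1) = 0 := by
    have : (M - 1) * (M - 1) = M * M - 2 * M + 1 := by noncomm_ring
    rw [this, hCH]
  have key : ∀ ν : Matrix (Fin 2) (Fin 2) κ, ν * ν = 0 →
      ∀ k : ℕ, (1 + ν) ^ k = 1 + (k : κ) • ν := by
    intro ν hν' k
    induction k with
    | zero => simp
    | succ k ih =>
      rw [pow_succ, ih, add_mul, one_mul, mul_add, mul_one, smul_mul_assoc, hν', smul_zero,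
        add_zero]
      push_cast
      rw [add_smul, one_smul]
      abel
  have hM : M = 1 + (M - 1) := by abel
  have h1 := key (M - 1) hν m
  rw [← hM, hpow] at h1
  have h0 : (m : κ) • (M - 1) = 0 := by
    have := h1.symm
    simpa using this
  have hz : M - 1 = 0 := by
    ext i j
    have hij := congrFun (congrFun h0 i) j
    simp only [Matrix.smul_apply, smul_eq_mul, Matrix.zero_apply] at hij
    rcases mul_eq_zero.mp hij with h | h
    · exact absurd h hm
    · simpa using h
  exact sub_eq_zero.mp hz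

/-- **The Spec leaf `Stmt_Lift`.** -/
theorem stmt_Lift : Fermat.Agent.S48.helper8231.Stmt_Lift := by
  intro 𝔪 _ G _ hcard
  obtain ⟨ρ, hρ⟩ := exists_lift_trace_det_complex 𝔪 (G := G) hcard (n := 2) G.subtype
  refine ⟨ρ, ?_, fun g => ?_⟩
  · rw [injective_iff_map_eq_one]
    intro g hg
    obtain ⟨t, d, ht, ht', hd, hd'⟩ := hρ g
    rw [hg] at ht hd
    have ht2 : t = 2 := by
      apply Subtype.ext
      rw [ht]
      have h1 : ((1 : GL (Fin 2) ℂ) : Matrix (Fin 2) (Fin 2) ℂ).trace = 2 := by
        simp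
      rw [h1]
      rfl
    have hd1 : d = 1 := by
      apply Subtype.ext
      rw [hd]
      simp
    have htr : ((G.subtype g : GL (Fin 2) (helper8231.Zc ⧸ 𝔪)) :
        Matrix (Fin 2) (Fin 2) (helper8231.Zc ⧸ 𝔪)).trace = 2 := by
      rw [← ht', ht2]; exact map_ofNat _ 2
    have hdet : ((G.subtype g : GL (Fin 2) (helper8231.Zc ⧸ 𝔪)) :
        Matrix (Fin 2) (Fin 2) (helper8231.Zc ⧸ 𝔪)).det = 1 := by
      rw [← hd', hd1]; simp
    have hpow : ((G.subtype g : GL (Fin 2) (helper8231.Zc ⧸ 𝔪)) :
        Matrix (Fin 2) (Fin 2) (helper8231.Zc ⧸ 𝔪)) ^ Nat.card G = 1 := by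
      have h1 : (G.subtype g) ^ Nat.card G = 1 := by
        rw [← map_pow, pow_card_eq_one', map_one]
      have h2 := congrArg Units.val h1
      rwa [Units.val_pow_eq_pow_val, Units.val_one] at h2
    have h1 := eq_one_of_trace_det_of_pow _ (Nat.card G) hcard hpow htr hdet
    apply Subtype.ext
    apply Units.ext
    exact h1
  · obtain ⟨t, d, ht, ht', hd, hd'⟩ := hρ g
    exact ⟨t, d, ht, hd, ht', hd'⟩

end Fermat.Agent.S48.helper4314
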