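/-
helper4325 — S48 (M3): bridge between the two presentations of the Hecke and diamond
correspondences on `Γ₁(M)`.

* period side: the landed `helper5251.corrT1 hp h : Corr (Gamma1 M) (Option (Fin p))` and
  `helper5251.corrDiamond δ hδ` (HECKE1 (H6): the coset sums of `heckeTCF`, `diamondCF`);
* multiplicative side: `helper4325.corrT1 M p hp δ hδ : Corr (Gamma1 M) (OnePoint (ZMod p))` and
  `corrD M δ` (`helper4325_CorrGamma1`), with the transfers `heckeHomT1`, `diamondHom`, `tT`, `tD`.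

Both describe the same cosets, hence the same coset-transfer operators on `Hom(Γ₁(M), A)`:
`hecke1_op_eq`, `tT_eq_hecke1`, `hecke1_diamond_op_eq`, `tD_eq_hecke1`.
-/
import Fermat.Agent.S48.helper4325_CorrGamma1
import Fermat.Agent.S48.helper5251_HeckeGamma1Corr

set_option autoImplicit false

open CongruenceSubgroup Matrix.SpecialLinearGroup UpperHalfPlane
open scoped MatrixGroups

namespace Fermat.Agent.S48.helper4325

open Fermat.Agent.S16.helper2138

theorem ratGL_alphaQ (p : ℕ) [NeZero p] :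
    Fermat.Agent.S48.helper5251.ratGL (Fermat.Agent.S48.helper5251.alphaQ p) =
      ModularForm.heckeMatrix p 0 := by
  apply Units.ext
  rw [ModularForm.val_heckeMatrix (NeZero.ne p)]
  ext a b
  fin_cases a <;> fin_cases b <;> simp

variable {M : ℕ}

/-- **The HECKE1 correspondence `helper5251.corrT1` and `corrT1` have the same transfer** on
`Hom(Γ₁(M), A)` (same `p + 1` cosets of `Γ₁(M) diag(1, p) Γ₁(M)`). -/
theorem hecke1_op_eq {p : ℕ} [Fact p.Prime] (hp : p.Prime) (h : Nat.Coprime p M)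
    (hpM : ¬ p ∣ M) (δ : Gamma0 M) (hδ : Gamma0Map M δ = (p : ZMod M)) (A : Type*)
    [AddCommGroup A] (φ : Additive (Gamma1 M) →+ A) :
    (Fermat.Agent.S48.helper5251.corrT1 hp h).op A φ = heckeHomT1 M p hpM δ hδ A φ := by
  have : NeZero p := ⟨hp.ne_zero⟩
  refine op_eq_of_cosets (corrT1 M p hpM δ hδ) (Fermat.Agent.S48.helper5251.corrT1 hp h) ?_
    (fun i => ?_) A φ
  · show Fintype.card (Option (ZMod p)) ≤ Fintype.card (Option (Fin p))
    rw [Fintype.card_option, Fintype.card_option, ZMod.card, Fintype.card_fin]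
  · let γ : Gamma1 M := ⟨Fermat.Agent.S48.helper5251.hRep p M h i,
      Fermat.Agent.S48.helper5251.hRep_mem_Gamma1 p M h i⟩
    refine ⟨(corrT1 M p hpM δ hδ).σ γ ((0 : ZMod p) : OnePoint (ZMod p)),
      (corrT1 M p hpM δ hδ).g ((0 : ZMod p) : OnePoint (ZMod p)) γ, ?_⟩
    rw [← (corrT1 M p hpM δ hδ).rel, Fermat.Agent.S48.helper5251.corrT1_α,
      Fermat.Agent.S48.helper5251.ratGL_mul, Fermat.Agent.S48.helper5251.ratGL_mapGL, ratGL_alphaQ,
      corrT1_α_coe, ZMod.val_zero]

/-- The total operator `tT M A p` is the transfer of the HECKE1 correspondence. -/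
theorem tT_eq_hecke1 (p : Nat.Primes) (h : Nat.Coprime (p : ℕ) M) (A : Type*)
    [AddCommGroup A] (φ : Additive (Gamma1 M) →+ A) :
    tT M A p φ = (Fermat.Agent.S48.helper5251.corrT1 p.2 h).op A φ := by
  haveI : Fact (p : ℕ).Prime := ⟨p.2⟩
  have hpM : ¬ (p : ℕ) ∣ M := (Nat.Prime.coprime_iff_not_dvd p.2).mp h
  rw [tT_eq p hpM _ (Gamma0Map_deltaP M (p : ℕ) hpM)]
  exact (hecke1_op_eq p.2 h hpM _ _ A φ).symm

/-- The HECKE1 diamond correspondence `helper5251.corrDiamond δ hδ` has the transfer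
`diamondHom M ⟨δ, hδ⟩`. -/
theorem hecke1_diamond_op_eq (δ : SL(2, ℤ)) (hδ : δ ∈ Gamma0 M) (A : Type*) [AddCommGroup A]
    (φ : Additive (Gamma1 M) →+ A) :
    (Fermat.Agent.S48.helper5251.corrDiamond δ hδ).op A φ = diamondHom M ⟨δ, hδ⟩ A φ :=
  op_eq_of_rep (corrD M ⟨δ, hδ⟩) (Fermat.Agent.S48.helper5251.corrDiamond δ hδ) (fun _ => 1)
    (fun _ => by
      rw [Fermat.Agent.S48.helper5251.corrDiamond_α, corrD_α, OneMemClass.coe_one, map_one,
        one_mul]) A φ

/-- The total operator `tD M A p` is the transfer of the HECKE1 diamond correspondence at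
`diamRep M d`, for every unit `d` with `d = p` in `ZMod M`. -/
theorem tD_eq_hecke1 [NeZero M] (p : Nat.Primes) (hpM : ¬ (p : ℕ) ∣ M) (d : (ZMod M)ˣ)
    (hd : (d : ZMod M) = ((p : ℕ) : ZMod M)) (A : Type*) [AddCommGroup A]
    (φ : Additive (Gamma1 M) →+ A) :
    tD M A p φ = (Fermat.Agent.S48.helper5251.corrDiamond
      (Fermat.Agent.S48.helper5251.diamRep M d)
      (Fermat.Agent.S48.helper5251.diamRep_mem_Gamma0 d)).op A φ := by
  rw [hecke1_diamond_op_eq]
  refine tD_eq p hpM _ ?_ φ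
  rw [Gamma0Map_apply]
  exact (Fermat.Agent.S48.helper5251.diamRep_apply_one_one d).trans hd

/-- Same with the unit `ZMod.unitOfCoprime p h`. -/
theorem tD_eq_hecke1' [NeZero M] (p : Nat.Primes) (h : Nat.Coprime (p : ℕ) M) (A : Type*)
    [AddCommGroup A] (φ : Additive (Gamma1 M) →+ A) :
    tD M A p φ = (Fermat.Agent.S48.helper5251.corrDiamond
      (Fermat.Agent.S48.helper5251.diamRep M (ZMod.unitOfCoprime (p : ℕ) h))
      (Fermat.Agent.S48.helper5251.diamRep_mem_Gamma0 _)).op A φ :=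
  tD_eq_hecke1 p ((Nat.Prime.coprime_iff_not_dvd p.2).mp h) _
    (ZMod.coe_unitOfCoprime (p : ℕ) h) A φ

end Fermat.Agent.S48.helper4325
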