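/-
helper4325 — S48 (M3): the two `OpRel` theorems (TH5) for `T_p` and the diamonds on `Γ₁(M)`, on
the multiplier relation `helper2122.MultMerG Γ evM n ζ` of `helper2122_SurjGen` (the relation of
record of the M3 map), in the `OpRel` vocabulary of `helper2756_K5Gen`.

Twin of `helper4325_OpRelSpec` (which uses `helper2756.MultMerG`); both relations have the same
body, and both files are one-line consequences of `multMer_heckeT1` / `multMer_diamond`.
-/
import Fermat.Agent.S48.helper4325_OpRelGamma1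
import Fermat.Agent.S48.helper2756_K5Gen
import Fermat.Agent.S48.helper2122_SurjGen

set_option autoImplicit false

open CongruenceSubgroup Matrix.SpecialLinearGroup UpperHalfPlane
open scoped MatrixGroups

namespace Fermat.Agent.S48.helper4325

open AlgebraicCurve
open Fermat.Agent.S48.helper2756 (OpRel)
open Fermat.Agent.S29.helper8217 (IsKummer)
open Fermat.Agent.S24.helper580 (Mer pull)

variable {F : Type*} [Field F] [Algebra (AlgebraicClosure ℚ) F]
  (evM : F →+* Mer) (n : ℕ) (ζ : ℂˣ) {M : ℕ}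

/-- **(TH5) for `T_p` on `Γ₁(M)`**, on `helper2122.MultMerG`. -/
theorem opRel_heckeT1_surjGen {p : ℕ} [Fact p.Prime] (hp : ¬ p ∣ M) (δ : Gamma0 M)
    (hδ : Gamma0Map M δ = (p : ZMod M)) (Tf : F → F)
    (hnorm : ∀ u : F, IsKummer (AlgebraicClosure ℚ) n u →
      evM (Tf u) = cpMerT1 hp δ hδ (evM u)) :
    OpRel (AlgebraicClosure ℚ) (Gamma1 M) n
      (Fermat.Agent.S48.helper2122.MultMerG (Gamma1 M) evM n ζ) Tf
      (heckeHomT1 M p hp δ hδ ℤ) :=
  fun _ _ hu hM => multMer_heckeT1 hp evM n ζ δ hδ (hnorm _ hu) hM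

/-- (TH5) for `T_p` with the chosen `δ_p` on the homomorphism side (`heckeT1 M p hp ℤ`). -/
theorem opRel_heckeT1_surjGen' {p : ℕ} [Fact p.Prime] (hp : ¬ p ∣ M) (δ : Gamma0 M)
    (hδ : Gamma0Map M δ = (p : ZMod M)) (Tf : F → F)
    (hnorm : ∀ u : F, IsKummer (AlgebraicClosure ℚ) n u →
      evM (Tf u) = cpMerT1 hp δ hδ (evM u)) :
    OpRel (AlgebraicClosure ℚ) (Gamma1 M) n
      (Fermat.Agent.S48.helper2122.MultMerG (Gamma1 M) evM n ζ) Tf (heckeT1 M p hp ℤ) :=
  fun _ _ hu hM => multMer_heckeT1' hp evM n ζ δ hδ (hnorm _ hu) hM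

/-- **(TH5) for the diamond operators on `Γ₁(M)`**, on `helper2122.MultMerG`. -/
theorem opRel_diamond_surjGen (δ : Gamma0 M) (Df : F → F)
    (hnorm : ∀ u : F, IsKummer (AlgebraicClosure ℚ) n u →
      evM (Df u) = pull (δ : SL(2, ℤ)) (evM u)) :
    OpRel (AlgebraicClosure ℚ) (Gamma1 M) n
      (Fermat.Agent.S48.helper2122.MultMerG (Gamma1 M) evM n ζ) Df (diamondHom M δ ℤ) :=
  fun _ _ hu hM => multMer_diamond evM n ζ δ (hnorm _ hu) hM

/-- (TH5) for the total operator `tT M ℤ p` (`p ∤ M`), on `helper2122.MultMerG`. -/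
theorem opRel_tT_surjGen (p : Nat.Primes) [Fact (p : ℕ).Prime] (hp : ¬ (p : ℕ) ∣ M)
    (δ : Gamma0 M) (hδ : Gamma0Map M δ = ((p : ℕ) : ZMod M)) (Tf : F → F)
    (hnorm : ∀ u : F, IsKummer (AlgebraicClosure ℚ) n u →
      evM (Tf u) = cpMerT1 hp δ hδ (evM u)) :
    OpRel (AlgebraicClosure ℚ) (Gamma1 M) n
      (Fermat.Agent.S48.helper2122.MultMerG (Gamma1 M) evM n ζ) Tf (tT M ℤ p) :=
  fun _ _ hu hM => multMer_tT evM n ζ p hp δ hδ (hnorm _ hu) hM

/-- (TH5) for the total operator `tD M ℤ p` (`p ∤ M`), on `helper2122.MultMerG`. -/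
theorem opRel_tD_surjGen (p : Nat.Primes) (hp : ¬ (p : ℕ) ∣ M) (δ : Gamma0 M)
    (hδ : Gamma0Map M δ = ((p : ℕ) : ZMod M)) (Df : F → F)
    (hnorm : ∀ u : F, IsKummer (AlgebraicClosure ℚ) n u →
      evM (Df u) = pull (δ : SL(2, ℤ)) (evM u)) :
    OpRel (AlgebraicClosure ℚ) (Gamma1 M) n
      (Fermat.Agent.S48.helper2122.MultMerG (Gamma1 M) evM n ζ) Df (tD M ℤ p) :=
  fun _ _ hu hM => multMer_tD evM n ζ p hp δ hδ (hnorm _ hu) hM

end Fermat.Agent.S48.helper4325
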