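/-
helper4325 — S48 (M3): the transfer operators of record of the M3 Spec (`helper2754.transT`,
`helper2754.transD`) are the operators `tT`, `tD` of `helper4325_CorrGamma1` (by definition since
the Spec revision importing `helper4325_CorrGamma1`), and equal the transfers of the landed
HECKE1 correspondences `helper5251.corrT1`, `helper5251.corrDiamond`; (TH5) for `T_p` and the
diamonds in terms of them (`multMer_transT`, `multMer_transD`: the multiplier relation written
out, i.e. the body of `helper2122.MultMerG (Gamma1 M) evM n ζ u ψ`).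
-/
import Fermat.Agent.S48.helper4325_CorrBridge
import Fermat.Agent.S48.helper4325_OpRelGamma1
import Fermat.Agent.S48.helper2754_SpecM3

set_option autoImplicit false

open CongruenceSubgroup Matrix.SpecialLinearGroup UpperHalfPlane
open scoped MatrixGroups

namespace Fermat.Agent.S48.helper4325

open Fermat.Agent.S16.helper2138
open Fermat.Agent.S48.helper2754 (transT transD)
open Fermat.Agent.S24.helper580 (Mer pull)

/-- **The transfer of record `transT` is `tT`** (since the Spec revision that makes `transT` an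
abbreviation of `tT` this is a definitional equality). -/
theorem transT_eq_tT (M : ℕ) (A : Type) [AddCommGroup A] (p : Nat.Primes)
    (φ : Additive (Gamma1 M) →+ A) : transT M A p φ = tT M A p φ := rfl

/-- **The transfer of record `transD` is `tD`.** -/
theorem transD_eq_tD (M : ℕ) (A : Type) [AddCommGroup A] (p : Nat.Primes)
    (φ : Additive (Gamma1 M) →+ A) : transD M A p φ = tD M A p φ := rfl

/-- `transT` is the transfer of the landed HECKE1 correspondence `helper5251.corrT1`. -/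
theorem transT_eq_hecke1 (M : ℕ) (A : Type) [AddCommGroup A] (p : Nat.Primes)
    (h : Nat.Coprime (p : ℕ) M) (φ : Additive (Gamma1 M) →+ A) :
    transT M A p φ = (Fermat.Agent.S48.helper5251.corrT1 p.2 h).op A φ :=
  tT_eq_hecke1 p h A φ

/-- `transD` is the transfer of the landed HECKE1 diamond correspondence at `diamRep M p`. -/
theorem transD_eq_hecke1 (M : ℕ) [NeZero M] (A : Type) [AddCommGroup A] (p : Nat.Primes)
    (h : Nat.Coprime (p : ℕ) M) (φ : Additive (Gamma1 M) →+ A) :
    transD M A p φ = (Fermat.Agent.S48.helper5251.corrDiamond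
      (Fermat.Agent.S48.helper5251.diamRep M (ZMod.unitOfCoprime (p : ℕ) h))
      (Fermat.Agent.S48.helper5251.diamRep_mem_Gamma0 _)).op A φ :=
  tD_eq_hecke1' p h A φ

theorem transT_eq_tT_fun (M : ℕ) (A : Type) [AddCommGroup A] (p : Nat.Primes) :
    transT M A p = tT M A p :=
  funext (transT_eq_tT M A p)

theorem transD_eq_tD_fun (M : ℕ) (A : Type) [AddCommGroup A] (p : Nat.Primes) :
    transD M A p = tD M A p :=
  funext (transD_eq_tD M A p)

/-- `transT` in terms of `corrT1` with an arbitrary `δ` (lower-right entry `≡ p`). -/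
theorem transT_eq_heckeHomT1 (M : ℕ) (A : Type) [AddCommGroup A] (p : Nat.Primes)
    [Fact (p : ℕ).Prime] (hp : ¬ (p : ℕ) ∣ M) (δ : Gamma0 M)
    (hδ : Gamma0Map M δ = ((p : ℕ) : ZMod M)) (φ : Additive (Gamma1 M) →+ A) :
    transT M A p φ = heckeHomT1 M (p : ℕ) hp δ hδ A φ := by
  rw [transT_eq_tT, tT_eq p hp δ hδ]

/-- `transD` in terms of `diamondHom` with an arbitrary `δ` (lower-right entry `≡ p`). -/
theorem transD_eq_diamondHom (M : ℕ) (A : Type) [AddCommGroup A] (p : Nat.Primes)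
    (hp : ¬ (p : ℕ) ∣ M) (δ : Gamma0 M) (hδ : Gamma0Map M δ = ((p : ℕ) : ZMod M))
    (φ : Additive (Gamma1 M) →+ A) :
    transD M A p φ = diamondHom M δ A φ := by
  rw [transD_eq_tD, tD_eq p hp δ hδ]

/-- `transT` preserves parabolic homomorphisms. -/
theorem transT_isParabolicHom (M : ℕ) (A : Type) [AddCommGroup A] (p : Nat.Primes)
    (φ : Additive (Gamma1 M) →+ A) (hφ : ModularCurve.Period.IsParabolicHom (Gamma1 M) φ) :
    ModularCurve.Period.IsParabolicHom (Gamma1 M) (transT M A p φ) := by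
  rw [transT_eq_tT]
  exact tT_isParabolicHom p φ hφ

/-- `transD` preserves parabolic homomorphisms. -/
theorem transD_isParabolicHom (M : ℕ) (A : Type) [AddCommGroup A] (p : Nat.Primes)
    (φ : Additive (Gamma1 M) →+ A) (hφ : ModularCurve.Period.IsParabolicHom (Gamma1 M) φ) :
    ModularCurve.Period.IsParabolicHom (Gamma1 M) (transD M A p φ) := by
  rw [transD_eq_tD]
  exact tD_isParabolicHom p φ hφ

/-- **(TH5) for `transT M ℤ p`** (`p ∤ M`), multiplier relation written out: if `u` has a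
meromorphic `n`-th root with multiplier `γ ↦ ζ ^ ψ γ` under `Γ₁(M)` and the analytic realisation
of `v` is the coset product `cpMerT1 hp δ hδ` of that of `u` (any `δ ∈ Γ₀(M)` with lower-right
entry `≡ p`), then `v` has a meromorphic `n`-th root with multiplier `γ ↦ ζ ^ (transT M ℤ p ψ) γ`. -/
theorem multMer_transT {M : ℕ} {F : Type*} [Semiring F] (evM : F →+* Mer) (n : ℕ) (ζ : ℂˣ)
    (p : Nat.Primes) [Fact (p : ℕ).Prime] (hp : ¬ (p : ℕ) ∣ M) (δ : Gamma0 M)
    (hδ : Gamma0Map M δ = ((p : ℕ) : ZMod M)) {u v : F}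
    (hev : evM v = cpMerT1 hp δ hδ (evM u)) {ψ : Additive (Gamma1 M) →+ ℤ}
    (h : ∃ W : Mer, W ^ n = evM u ∧ ∀ γ : Gamma1 M, pull (γ : SL(2, ℤ)) W =
      algebraMap ℂ Mer (((ζ ^ ψ (Additive.ofMul γ) : ℂˣ) : ℂ)) * W) :
    ∃ W : Mer, W ^ n = evM v ∧ ∀ γ : Gamma1 M, pull (γ : SL(2, ℤ)) W =
      algebraMap ℂ Mer (((ζ ^ (transT M ℤ p ψ) (Additive.ofMul γ) : ℂˣ) : ℂ)) * W := by
  rw [transT_eq_tT]
  exact multMer_tT evM n ζ p hp δ hδ hev h

/-- **(TH5) for `transD M ℤ p`** (`p ∤ M`), multiplier relation written out: if the analytic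
realisation of `v` is that of `u` composed with `δ ∈ Γ₀(M)` (lower-right entry `≡ p`), then the
multiplier transforms by `transD M ℤ p`. -/
theorem multMer_transD {M : ℕ} {F : Type*} [Semiring F] (evM : F →+* Mer) (n : ℕ)
    (ζ : ℂˣ) (p : Nat.Primes) (hp : ¬ (p : ℕ) ∣ M) (δ : Gamma0 M)
    (hδ : Gamma0Map M δ = ((p : ℕ) : ZMod M)) {u v : F}
    (hev : evM v = pull (δ : SL(2, ℤ)) (evM u)) {ψ : Additive (Gamma1 M) →+ ℤ}
    (h : ∃ W : Mer, W ^ n = evM u ∧ ∀ γ : Gamma1 M, pull (γ : SL(2, ℤ)) W =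
      algebraMap ℂ Mer (((ζ ^ ψ (Additive.ofMul γ) : ℂˣ) : ℂ)) * W) :
    ∃ W : Mer, W ^ n = evM v ∧ ∀ γ : Gamma1 M, pull (γ : SL(2, ℤ)) W =
      algebraMap ℂ Mer (((ζ ^ (transD M ℤ p ψ) (Additive.ofMul γ) : ℂˣ) : ℂ)) * W := by
  rw [transD_eq_tD]
  exact multMer_tD evM n ζ p hp δ hδ hev h

end Fermat.Agent.S48.helper4325
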