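/-
helper4325 — S48 (M3): the two `OpRel` theorems (TH5) for the transfer operators OF RECORD
`helper2754.transT M ℤ p`, `helper2754.transD M ℤ p`, on the multiplier relation of record
`helper2122.MultMerG (Gamma1 M) evM n ζ`, in the `OpRel` vocabulary of the landed
`helper2756_K5Gen` — the (TH5) inputs of `HasKummerMap M ℓ m (transT M ℤ) (transD M ℤ)`.
-/
import Fermat.Agent.S48.helper4325_TransBridge
import Fermat.Agent.S48.helper4325_OpRelSpec2122

set_option autoImplicit false

open CongruenceSubgroup Matrix.SpecialLinearGroup UpperHalfPlane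
open scoped MatrixGroups

namespace Fermat.Agent.S48.helper4325

open AlgebraicCurve
open Fermat.Agent.S48.helper2756 (OpRel)
open Fermat.Agent.S48.helper2754 (transT transD)
open Fermat.Agent.S29.helper8217 (IsKummer)
open Fermat.Agent.S24.helper580 (Mer pull)

variable {F : Type*} [Field F] [Algebra (AlgebraicClosure ℚ) F]
  (evM : F →+* Mer) (n : ℕ) (ζ : ℂˣ) {M : ℕ}

/-- **(TH5) for `transT M ℤ p`** (`p ∤ M`): if the function-level operator `Tf` is realised
analytically by the coset product `cpMerT1 hp δ hδ` on `n`-Kummer functions (any `δ ∈ Γ₀(M)` with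
lower-right entry `≡ p`), then it transforms the multiplier by `transT M ℤ p`. -/
theorem opRel_transT_surjGen (p : Nat.Primes) [Fact (p : ℕ).Prime] (hp : ¬ (p : ℕ) ∣ M)
    (δ : Gamma0 M) (hδ : Gamma0Map M δ = ((p : ℕ) : ZMod M)) (Tf : F → F)
    (hnorm : ∀ u : F, IsKummer (AlgebraicClosure ℚ) n u →
      evM (Tf u) = cpMerT1 hp δ hδ (evM u)) :
    OpRel (AlgebraicClosure ℚ) (Gamma1 M) n
      (Fermat.Agent.S48.helper2122.MultMerG (Gamma1 M) evM n ζ) Tf (transT M ℤ p) :=
  fun _ _ hu hM => multMer_transT evM n ζ p hp δ hδ (hnorm _ hu) hM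

/-- **(TH5) for `transD M ℤ p`** (`p ∤ M`): if the function-level operator `Df` is realised
analytically by the pull-back along `δ ∈ Γ₀(M)` (lower-right entry `≡ p`) on `n`-Kummer
functions, then it transforms the multiplier by `transD M ℤ p`. -/
theorem opRel_transD_surjGen (p : Nat.Primes) (hp : ¬ (p : ℕ) ∣ M) (δ : Gamma0 M)
    (hδ : Gamma0Map M δ = ((p : ℕ) : ZMod M)) (Df : F → F)
    (hnorm : ∀ u : F, IsKummer (AlgebraicClosure ℚ) n u →
      evM (Df u) = pull (δ : SL(2, ℤ)) (evM u)) :
    OpRel (AlgebraicClosure ℚ) (Gamma1 M) n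
      (Fermat.Agent.S48.helper2122.MultMerG (Gamma1 M) evM n ζ) Df (transD M ℤ p) :=
  fun _ _ hu hM => multMer_transD evM n ζ p hp δ hδ (hnorm _ hu) hM

end Fermat.Agent.S48.helper4325
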