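import Mathlib
import Fermat.Agent.S48.helper182_Gamma1Inst
import Fermat.Agent.S48.helper7300_Gamma1Field
import Fermat.Agent.S48.helper9025_DivForms
import Fermat.Agent.S48.helper5047_Gamma1Eval

/-!
# S48-A2-GAL, instance on the carrier of record (helper4364; backup of "helper182 file 3")

The diamond operators on `helper7300.gamma1Field L M = gamma1FieldP L phiZ M ⊆ L((q))`, for any
field `L` of characteristic zero with an embedding `ι : L →+* ℂ`, as an instance of the generic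
engine of `helper182_Gamma1Galois` (`DiamondStable`, `diamond`).

* `diaRel_gen` : over `ℂ`, the diamond relation maps `gen ℂ phiZ (ζ^a) (ζ^b)` to
  `gen ℂ phiZ (ζ^(a γ₁₁)) (ζ^(b γ₁₁))` (`F = E₄ · D_{a,b}`, `H = E₆`, weight `6`);
* `diamondStable_gamma1Gens` : `DiamondStable ι M (gamma1Gens L phiZ M)`;
* `gamma1FieldP_eq_gamma1Gen` : the carrier is the generic field of `helper182`;
* `diamondP ι M : (ZMod M)ˣ →* (gamma1Field L M ≃ₐ[L] gamma1Field L M)` with
  `diamondP_gen` (`gen u v ↦ gen (u^d) (v^d)`), `diamondP_of_mem_base`,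
  `mem_base_iff_diamondP_fixed`, `diamondP_neg_one`.
-/

set_option autoImplicit false
set_option linter.unusedSectionVars false

open UpperHalfPlane ModularForm CongruenceSubgroup ModularCurve IntermediateField
open scoped MatrixGroups ModularForm

namespace Fermat.Agent.S48.helper4364

noncomputable section

open Fermat.Agent.S28.helper1448 (ιC ιC_injective IsMF)
open Fermat.Agent.S48.helper182 (G1 dd IsMF1 DiaRel DiamondStable gamma1Gen)
open Fermat.Agent.S48.helper7300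
open Fermat.Agent.S48.helper9025 (divD zetaM)
open EisensteinSeries

/-! ## (D0) The diamond relation on the generators over `ℂ` -/

section Complex

variable (M : ℕ) [NeZero M]

theorem isMF1_divD (a b : ℤ) : IsMF1 M 2 ⇑(divD M a b) := ⟨divD M a b, rfl⟩

theorem isMF1_E6 : IsMF1 M 6 ⇑E₆ := IsMF1.of_isMF (IsMF.of_levelOne M E₆)

theorem isMF1_E4 : IsMF1 M 4 ⇑E₄ := IsMF1.of_isMF (IsMF.of_levelOne M E₄)

theorem isMF1_E4_mul_divD (a b : ℤ) : IsMF1 M 6 (⇑E₄ * ⇑(divD M a b)) :=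
  ((isMF1_E4 M).mul (isMF1_divD M a b)).cast (by norm_num)

theorem coe_E6_ne_zero : (⇑E₆ : ℍ → ℂ) ≠ 0 := by
  intro h
  have h1 : qExpansion 1 ⇑E₆ = 0 := ((isMF1_E6 1).qExpansion_eq_zero_iff).mpr h
  rw [helper5047.qExpansion_E6_eq] at h1
  have h2 := congrArg PowerSeries.constantCoeff h1
  rw [constantCoeff_zSer, constantCoeff_eisenstein6, map_zero] at h2
  simp at h2

/-- Level-one forms are invariant under the full modular group. -/
theorem slash_levelOne {k : ℤ} (f : ModularForm 𝒮ℒ k) (γ : SL(2, ℤ)) : ⇑f ∣[k] γ = ⇑f :=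
  f.slash_action_eq' _ ⟨γ, rfl⟩

/-- The `q`-expansion identity behind the generator `gen ℂ phiZ (ζ^a) (ζ^b)`:
`Q(E₆) · gen = Q(E₄ · D_{a,b})`. -/
theorem qExpansion_E6_mul_gen {a b : ℤ} (ha : ¬ (M : ℤ) ∣ a) (hb : ¬ (M : ℤ) ∣ b) :
    ιC (qExpansion 1 ⇑E₆) * gen ℂ phiZ (zetaM M ^ a) (zetaM M ^ b)
      = ιC (qExpansion 1 (⇑E₄ * ⇑(divD M a b))) := by
  rw [(isMF1_E4 M).qExpansion_mul (isMF1_divD M a b), helper9025.qExpansion_divD M ha hb,
    helper5047.mk_dCoeff_eq_dSer, ← helper5047.zSer_phiZ_mul_qExpansion_E6, gen, ← map_mul]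
  congr 1
  ring

/-- **(D0)** The diamond relation on the generators: for `γ ∈ Γ₀(M)`,
`⟨γ⟩ gen (ζ^a) (ζ^b) = gen (ζ^(a γ₁₁)) (ζ^(b γ₁₁))`. -/
theorem diaRel_gen {γ : SL(2, ℤ)} (hγ : γ ∈ Gamma0 M) {a b : ℤ}
    (ha : ¬ (M : ℤ) ∣ a) (hb : ¬ (M : ℤ) ∣ b) :
    DiaRel M γ (gen ℂ phiZ (zetaM M ^ a) (zetaM M ^ b))
      (gen ℂ phiZ (zetaM M ^ (a * γ 1 1)) (zetaM M ^ (b * γ 1 1))) := by
  have ha' := helper182.not_dvd_mul_of_mem_Gamma0 hγ ha
  have hb' := helper182.not_dvd_mul_of_mem_Gamma0 hγ hb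
  refine ⟨6, ⇑E₄ * ⇑(divD M a b), ⇑E₆, isMF1_E4_mul_divD M a b, isMF1_E6 M, coe_E6_ne_zero,
    qExpansion_E6_mul_gen M ha hb, ?_⟩
  have h1 : (⇑E₆ : ℍ → ℂ) ∣[(6 : ℤ)] γ = ⇑E₆ := slash_levelOne E₆ γ
  have h2 : (⇑E₄ * ⇑(divD M a b) : ℍ → ℂ) ∣[(6 : ℤ)] γ
      = ⇑E₄ * ⇑(divD M (a * γ 1 1) (b * γ 1 1)) := by
    have h3 : (⇑E₄ * ⇑(divD M a b) : ℍ → ℂ) ∣[(4 : ℤ) + 2] γ
        = (⇑E₄ ∣[(4 : ℤ)] γ) * (⇑(divD M a b) ∣[(2 : ℤ)] γ) :=
      ModularForm.mul_slash_SL2 4 2 γ _ _
    rw [show (6 : ℤ) = 4 + 2 by norm_num, h3, slash_levelOne E₄ γ, helper9025.divD_slash M a b hγ]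
  rw [h1, h2]
  exact qExpansion_E6_mul_gen M ha' hb'

end Complex

/-! ## Generic transport of automorphisms along an equality of intermediate fields -/

section Transport

variable {L X : Type*} [Field L] [Field X] [Algebra L X]

/-- Transport of an automorphism along an equality of intermediate fields. -/
def autOfEq {E E' : IntermediateField L X} (h : E = E') (D : E' ≃ₐ[L] E') : E ≃ₐ[L] E :=
  ((IntermediateField.equivOfEq h).trans D).trans (IntermediateField.equivOfEq h.symm)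

theorem coe_autOfEq {E E' : IntermediateField L X} (h : E = E') (D : E' ≃ₐ[L] E') (x : E) :
    ((autOfEq h D x : E) : X) = ((D ⟨(x : X), h.le x.2⟩ : E') : X) := by
  subst h
  rfl

theorem autOfEq_one {E E' : IntermediateField L X} (h : E = E') :
    autOfEq h (1 : E' ≃ₐ[L] E') = 1 := by
  subst h
  rfl

theorem autOfEq_mul {E E' : IntermediateField L X} (h : E = E') (D D' : E' ≃ₐ[L] E') :
    autOfEq h (D * D') = autOfEq h D * autOfEq h D' := by
  subst h
  rfl

theorem autOfEq_injective {E E' : IntermediateField L X} (h : E = E') :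
    Function.Injective (autOfEq (L := L) h) := by
  subst h
  intro D D' hDD
  exact hDD

end Transport

/-! ## (D1) The generators of the carrier are permuted by the diamonds -/

section Roots

variable {L : Type*} [Field L] {M : ℕ}

/-- Exponents of an `M`-th root of unity only matter modulo `M`. -/
theorem pow_eq_pow_of_natCast_eq {u : L} (hu : u ^ M = 1) {m n : ℕ}
    (h : (m : ZMod M) = (n : ZMod M)) : u ^ m = u ^ n := by
  rw [pow_eq_pow_mod m hu, pow_eq_pow_mod n hu]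
  congr 1
  exact (ZMod.natCast_eq_natCast_iff' m n M).mp h

end Roots

section Field

variable {L : Type*} [Field L] [Algebra ℚ L] (ι : L →+* ℂ) (M : ℕ) [NeZero M]

/-- `ζ^(a γ₁₁) = (ζ^a)^n` for the natural representative `n` of `γ₁₁ mod M`. -/
theorem zetaM_zpow_mul (a : ℤ) (γ : SL(2, ℤ)) :
    zetaM M ^ (a * γ 1 1) = (zetaM M ^ a) ^ (dd M γ).val := by
  have h1 : (M : ℤ) ∣ γ 1 1 - ((dd M γ).val : ℤ) := by
    rw [← ZMod.intCast_zmod_eq_zero_iff_dvd]
    push_cast
    rw [ZMod.natCast_zmod_val, sub_eq_zero]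
    rfl
  have h2 : zetaM M ^ (a * (γ 1 1 - ((dd M γ).val : ℤ))) = 1 :=
    (helper9025.zetaM_zpow_eq_one_iff (NeZero.ne M) _).mpr (Dvd.dvd.mul_left h1 a)
  have h3 : a * γ 1 1 = a * ((dd M γ).val : ℤ) + a * (γ 1 1 - ((dd M γ).val : ℤ)) := by ring
  rw [h3, zpow_add₀ (helper9025.zetaM_ne_zero M), h2, mul_one, zpow_mul, zpow_natCast]

/-- The diamond relation on the image over `ℂ` of a generator `gen L phiZ u v`. -/
theorem diaRel_coeffMap_gen {γ : SL(2, ℤ)} (hγ : γ ∈ Gamma0 M) {u v : L} (hu : u ^ M = 1)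
    (hu1 : u ≠ 1) (hv : v ^ M = 1) (hv1 : v ≠ 1) :
    DiaRel M γ (coeffMap ι (gen L phiZ u v))
      (coeffMap ι (gen L phiZ (u ^ (dd M γ).val) (v ^ (dd M γ).val))) := by
  obtain ⟨a, hua, ha⟩ := helper5047.exists_zpow_eq ι M hu
  obtain ⟨b, hvb, hb⟩ := helper5047.exists_zpow_eq ι M hv
  rw [coeffMap_gen_field, coeffMap_gen_field, map_pow, map_pow, hua, hvb, ← zetaM_zpow_mul,
    ← zetaM_zpow_mul]
  exact diaRel_gen M hγ (ha hu1) (hb hv1)

include ι in
/-- The power of a non-trivial `M`-th root of unity by a diamond exponent is non-trivial. -/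
theorem pow_dd_val_ne_one {γ : SL(2, ℤ)} (hγ : γ ∈ Gamma0 M) {u : L} (hu : u ^ M = 1)
    (hu1 : u ≠ 1) : u ^ (dd M γ).val ≠ 1 := by
  obtain ⟨a, hua, ha⟩ := helper5047.exists_zpow_eq ι M hu
  intro h
  have h1 : zetaM M ^ (a * γ 1 1) = 1 := by
    rw [zetaM_zpow_mul, ← hua, ← map_pow, h, map_one]
  exact helper182.not_dvd_mul_of_mem_Gamma0 hγ (ha hu1)
    ((helper9025.zetaM_zpow_eq_one_iff (NeZero.ne M) _).mp h1)

/-- **(D1)** The generator set of the carrier is permuted by the diamonds. -/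
theorem diamondStable_gamma1Gens : DiamondStable ι M (gamma1Gens L phiZ M) := by
  rintro γ hγ s ⟨u, v, hu, hu1, hv, hv1, rfl⟩
  refine ⟨gen L phiZ (u ^ (dd M γ).val) (v ^ (dd M γ).val),
    ⟨u ^ (dd M γ).val, v ^ (dd M γ).val, ?_, pow_dd_val_ne_one ι M hγ hu hu1, ?_,
      pow_dd_val_ne_one ι M hγ hv hv1, rfl⟩, diaRel_coeffMap_gen ι M hγ hu hu1 hv hv1⟩
  · rw [← pow_mul, mul_comm, pow_mul, hu, one_pow]
  · rw [← pow_mul, mul_comm, pow_mul, hv, one_pow]

omit [NeZero M] in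
/-- The carrier of record is the generic field of `helper182` on the generator set. -/
theorem gamma1FieldP_eq_gamma1Gen (P : PowerSeries ℤ) :
    gamma1FieldP L P M = gamma1Gen L M (gamma1Gens L P M) := by
  rw [gamma1FieldP_eq_sup, gamma1Gen, adjoin_union, ← laurentBaseChange_full_eq,
    IntermediateField.adjoin_self]

/-! ## (D2) The diamond operators on the carrier -/

/-- **The diamond operators** on the `Γ₁(M)` field `gamma1Field L M ⊆ L((q))`. -/
def diamondP : (ZMod M)ˣ →* (gamma1Field L M ≃ₐ[L] gamma1Field L M) where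
  toFun d := autOfEq (gamma1FieldP_eq_gamma1Gen (L := L) M phiZ)
    (helper182.diamond (diamondStable_gamma1Gens ι M) d)
  map_one' := by rw [map_one, autOfEq_one]
  map_mul' d d' := by rw [map_mul, autOfEq_mul]

theorem diamondP_apply (d : (ZMod M)ˣ) :
    diamondP ι M d = autOfEq (gamma1FieldP_eq_gamma1Gen (L := L) M phiZ)
      (helper182.diamond (diamondStable_gamma1Gens ι M) d) :=
  rfl

theorem coe_diamondP (d : (ZMod M)ˣ) (x : gamma1Field L M) :
    ((diamondP ι M d x : gamma1Field L M) : LaurentSeries L)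
      = ((helper182.diamond (diamondStable_gamma1Gens ι M) d
          ⟨(x : LaurentSeries L), (gamma1FieldP_eq_gamma1Gen (L := L) M phiZ).le x.2⟩ :
            gamma1Gen L M (gamma1Gens L phiZ M)) : LaurentSeries L) := by
  rw [diamondP_apply, coe_autOfEq]

/-- **The analytic meaning of `⟨d⟩` on all of the carrier** (transport of
`helper182.diamond_spec`): if `coeffMap ι x = Q(F)/Q(H)` with `F`, `H` forms of equal weight on
`Γ₁(M)`, then `coeffMap ι (⟨d⟩ x) = Q(F∣γ)/Q(H∣γ)` for every `γ ∈ Γ₀(M)` with `γ₁₁ ≡ d`. -/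
theorem diamondP_spec (d : (ZMod M)ˣ) {γ : SL(2, ℤ)} (hγ : γ ∈ Gamma0 M)
    (hd : dd M γ = (d : ZMod M)) (x : gamma1Field L M) :
    DiaRel M γ (coeffMap ι (x : LaurentSeries L))
      (coeffMap ι ((diamondP ι M d x : gamma1Field L M) : LaurentSeries L)) := by
  rw [coe_diamondP]
  exact helper182.diamond_spec (diamondStable_gamma1Gens ι M) d hγ hd
    ⟨(x : LaurentSeries L), (gamma1FieldP_eq_gamma1Gen (L := L) M phiZ).le x.2⟩

/-- **Generator law**: `⟨d⟩ gen u v = gen (u^d) (v^d)`. -/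
theorem diamondP_gen (d : (ZMod M)ˣ) {u v : L} (hu : u ^ M = 1) (hu1 : u ≠ 1) (hv : v ^ M = 1)
    (hv1 : v ≠ 1) :
    ((diamondP ι M d ⟨gen L phiZ u v, gen_mem phiZ hu hu1 hv hv1⟩ : gamma1Field L M) :
        LaurentSeries L)
      = gen L phiZ (u ^ (d : ZMod M).val) (v ^ (d : ZMod M).val) := by
  rw [coe_diamondP]
  have h := diaRel_coeffMap_gen ι M (helper182.diaRep_mem d) hu hu1 hv hv1
  rw [helper182.dd_diaRep] at h
  exact helper182.diamond_eq_of_diaRel _ d (helper182.diaRep_mem d) (helper182.dd_diaRep d) _ h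

/-- The diamonds fix the function field of `X₀(M)`. -/
theorem diamondP_of_mem_base (d : (ZMod M)ˣ) (x : gamma1Field L M)
    (hx : (x : LaurentSeries L) ∈ laurentBaseChange L (modularFunctionFieldFull M)) :
    diamondP ι M d x = x := by
  apply Subtype.ext
  rw [coe_diamondP]
  exact congrArg Subtype.val (helper182.diamond_of_mem_base (diamondStable_gamma1Gens ι M) d
    ⟨(x : LaurentSeries L), (gamma1FieldP_eq_gamma1Gen (L := L) M phiZ).le x.2⟩ hx)

/-- **Fixed field of the diamonds** = the function field of `X₀(M)` over `L`. -/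
theorem mem_base_iff_diamondP_fixed (x : gamma1Field L M) :
    (x : LaurentSeries L) ∈ laurentBaseChange L (modularFunctionFieldFull M) ↔
      ∀ d : (ZMod M)ˣ, diamondP ι M d x = x := by
  refine ⟨fun hx d => diamondP_of_mem_base ι M d x hx, fun hfix => ?_⟩
  refine (helper182.mem_base_iff_diamond_fixed (diamondStable_gamma1Gens ι M)
    ⟨(x : LaurentSeries L), (gamma1FieldP_eq_gamma1Gen (L := L) M phiZ).le x.2⟩).mpr fun d => ?_
  apply Subtype.ext
  have h := congrArg Subtype.val (hfix d)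
  rw [coe_diamondP] at h
  exact h

omit [NeZero M] in
/-- An `L`-automorphism of the carrier fixing the `Γ₀(M)` generators and the `Γ₁(M)` generators is
the identity. -/
theorem eq_one_of_gens (D : gamma1Field L M ≃ₐ[L] gamma1Field L M)
    (hbase : ∀ x : gamma1Field L M,
      (x : LaurentSeries L) ∈ laurentBaseChange L (modularFunctionFieldFull M) → D x = x)
    (hgen : ∀ (u v : L) (hu : u ^ M = 1) (hu1 : u ≠ 1) (hv : v ^ M = 1) (hv1 : v ≠ 1),
      (D ⟨gen L phiZ u v, gen_mem phiZ hu hu1 hv hv1⟩ : LaurentSeries L) = gen L phiZ u v) :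
    D = 1 := by
  have key : (D : gamma1Field L M →ₐ[L] gamma1Field L M) = AlgHom.id L _ := by
    refine IntermediateField.algHom_ext_of_eq_adjoin L (s := divisorExpansionsC L M ∪
      gamma1Gens L phiZ M) rfl ?_
    rintro x (hx | ⟨u, v, hu, hu1, hv, hv1, rfl⟩)
    · apply hbase
      rw [laurentBaseChange_full_eq]
      exact subset_adjoin L _ hx
    · exact Subtype.ext (hgen u v hu hu1 hv hv1)
  exact AlgEquiv.ext fun x => congrFun (congrArg DFunLike.coe key) x

/-- `⟨-1⟩ = 1`. -/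
theorem diamondP_neg_one : diamondP ι M (-1) = 1 := by
  refine eq_one_of_gens M _ (fun x hx => diamondP_of_mem_base ι M _ x hx) ?_
  intro u v hu hu1 hv hv1
  rw [diamondP_gen ι M (-1) hu hu1 hv hv1]
  have hpow : ∀ w : L, w ^ M = 1 → w ^ (((-1 : (ZMod M)ˣ) : ZMod M)).val = w⁻¹ := by
    intro w hw
    have h1 : w ^ ((((-1 : (ZMod M)ˣ) : ZMod M)).val + 1) = w ^ M := by
      apply pow_eq_pow_of_natCast_eq hw
      push_cast
      rw [ZMod.natCast_zmod_val, ZMod.natCast_self]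
      simp
    rw [pow_succ, hw] at h1
    exact eq_inv_of_mul_eq_one_left h1
  rw [hpow u hu, hpow v hv, gen_inv_left, gen_inv_right]

end Field

end

end Fermat.Agent.S48.helper4364
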