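import Mathlib

/-
S48 leaf F7 (route findings #2706 / #3041): LIFT WITHOUT COMPLETIONS.

Main results (all for an integrally closed local domain `R` with algebraically closed fraction
field `K`, e.g. a valuation subring of an algebraically closed field; `k = ResidueField R`):

* `exists_lift_of_card_ne_zero_general` / `exists_lift_of_card_ne_zero`:
  a representation `ρbar : G →* GL m k` of a finite group with `(Nat.card G : k) ≠ 0` lifts, up to
  conjugation by some `P : GL m k`, to `ρ : G →* GL m R`.
* `exists_lift_exact(_general)`: the lift can be chosen with `ρ g` reducing to `ρbar g` on the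
  nose (`P = 1`).
* `exists_lift_charpoly(_general)`, `exists_lift_trace_det(_general)`: charpoly / trace / det of
  the lift reduce to those of `ρbar`.
* `isAlgClosed_residueField`: `k` is algebraically closed.
* `exists_valuationSubring_charP`: a field of characteristic zero has a valuation subring of
  residue characteristic `l`, for every prime `l`.

Proof of the lift: `k^m` is a summand of the regular module `k[G]^m` (Maschke, explicit matrices
`S`, `Φ`); the projector is lifted to a `G`-equivariant matrix `A` over `R` by lifting entries;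
the characteristic polynomial of `A` splits over `R` (roots are integral), and the product of the
linear factors with root in the maximal ideal is coprime to the product of the others, so a
polynomial in `A` is an idempotent lifting the projector; its image is free with an explicit basis.
-/

namespace Fermat.Agent.S48.helper4464

open Polynomial Matrix

section Idem

variable {k B : Type*} [CommRing k] [Ring B] [Algebra k B]

/-- Evaluating a polynomial at an idempotent element of an algebra. -/
theorem aeval_idem {p : B} (hp : IsIdempotentElem p) (h : k[X]) :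
    aeval p h = h.eval 0 • (1 - p) + h.eval 1 • p := by
  induction h using Polynomial.induction_on' with
  | add f g hf hg => rw [map_add, hf, hg, eval_add, eval_add, add_smul, add_smul]; abel
  | monomial n a =>
    rw [aeval_monomial, eval_monomial, eval_monomial, one_pow, mul_one]
    cases n with
    | zero =>
      rw [pow_zero, pow_zero, mul_one, mul_one, ← smul_add, sub_add_cancel, Algebra.algebraMap_eq_smul_one]
    | succ n =>
      rw [hp.pow_succ_eq, zero_pow (Nat.succ_ne_zero n), mul_zero, zero_smul, zero_add,
        Algebra.smul_def]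

end Idem

section Split

variable {R : Type*} [CommRing R]

theorem isCoprime_prod_X_sub_C (s t : Multiset R) (h : ∀ a ∈ s, ∀ b ∈ t, IsUnit (a - b)) :
    IsCoprime (s.map (fun a => X - C a)).prod (t.map (fun a => X - C a)).prod := by
  induction s using Multiset.induction_on with
  | empty => rw [Multiset.map_zero, Multiset.prod_zero]; exact isCoprime_one_left
  | cons a s ih =>
    rw [Multiset.map_cons, Multiset.prod_cons]
    refine IsCoprime.mul_left ?_ (ih fun a' ha' => h a' (Multiset.mem_cons_of_mem ha'))
    have ha := h a (Multiset.mem_cons_self a s)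
    clear ih h
    induction t using Multiset.induction_on with
    | empty => rw [Multiset.map_zero, Multiset.prod_zero]; exact isCoprime_one_right
    | cons b t ih =>
      rw [Multiset.map_cons, Multiset.prod_cons]
      exact IsCoprime.mul_right
        (isCoprime_X_sub_C_of_isUnit_sub (ha b (Multiset.mem_cons_self b t)))
        (ih fun b' hb' => ha b' (Multiset.mem_cons_of_mem hb'))

theorem eval_map_prod_X_sub_C {k : Type*} [CommRing k] (π : R →+* k) (s : Multiset R) (x : k) :
    ((s.map (fun a => X - C a)).prod.map π).eval x = (s.map (fun a => x - π a)).prod := by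
  induction s using Multiset.induction_on with
  | empty => simp
  | cons a s ih =>
    rw [Multiset.map_cons, Multiset.prod_cons, Polynomial.map_mul, eval_mul, ih,
      Multiset.map_cons, Multiset.prod_cons]
    simp

theorem exists_multiset_eq_prod {K : Type*} [IsDomain R] [IsIntegrallyClosed R] [Field K]
    [Algebra R K] [IsFractionRing R K] [IsAlgClosed K] (P : R[X]) (hP : P.Monic) :
    ∃ s : Multiset R, P = (s.map (fun a => X - C a)).prod := by
  classical
  have hsplit := IsAlgClosed.splits (P.map (algebraMap R K))
  have hroots : ∀ r ∈ (P.map (algebraMap R K)).roots, ∃ a : R, algebraMap R K a = r := by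
    intro r hr
    have : IsIntegral R r := ⟨P, hP, by
      rw [← eval_map]
      exact (mem_roots'.mp hr).2⟩
    exact IsIntegrallyClosed.isIntegral_iff.mp this
  choose! g hg using hroots
  refine ⟨(P.map (algebraMap R K)).roots.map g, ?_⟩
  apply Polynomial.map_injective _ (IsFractionRing.injective R K)
  rw [Polynomial.map_multiset_prod, Multiset.map_map, Multiset.map_map]
  have h1 := hsplit.eq_prod_roots
  rw [(hP.map _).leadingCoeff, C_1, one_mul] at h1
  conv_lhs => rw [h1]
  congr 1
  apply Multiset.map_congr rfl
  intro r hr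
  simp [hg r hr]

end Split

section Lift

variable {R : Type*} [CommRing R] [IsLocalRing R]

theorem map_aeval_residue {ι : Type*} [Fintype ι] [DecidableEq ι] (A : Matrix ι ι R) (f : R[X]) :
    (aeval A f).map (IsLocalRing.residue R)
      = aeval (A.map (IsLocalRing.residue R)) (f.map (IsLocalRing.residue R)) := by
  have h : (algebraMap (IsLocalRing.ResidueField R) (Matrix ι ι (IsLocalRing.ResidueField R))).comp
      (IsLocalRing.residue R)
      = (IsLocalRing.residue R).mapMatrix.comp (algebraMap R (Matrix ι ι R)) := by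
    ext r i j
    by_cases hij : i = j <;> simp [Matrix.algebraMap_matrix_apply, hij]
  exact Polynomial.map_aeval_eq_aeval_map h f A

/-- Lifting an idempotent through the residue map of an integrally closed local domain with
algebraically closed fraction field: if `A` reduces to an idempotent, some polynomial in `A`
is an idempotent with the same reduction. -/
theorem exists_idempotent_lift {K : Type*} [IsDomain R] [IsIntegrallyClosed R] [Field K]
    [Algebra R K] [IsFractionRing R K] [IsAlgClosed K]
    {ι : Type*} [Fintype ι] [DecidableEq ι] (A : Matrix ι ι R)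
    (hA : IsIdempotentElem (A.map (IsLocalRing.residue R))) :
    ∃ E : Matrix ι ι R, IsIdempotentElem E ∧
      E.map (IsLocalRing.residue R) = A.map (IsLocalRing.residue R) ∧
      ∀ M : Matrix ι ι R, Commute M A → Commute M E := by
  classical
  obtain ⟨s, hs⟩ := exists_multiset_eq_prod (K := K) A.charpoly (Matrix.charpoly_monic A)
  have hχ : A.charpoly = ((s.filter (fun a => IsLocalRing.residue R a = 0)).map
        (fun a => X - C a)).prod *
      ((s.filter (fun a => ¬ IsLocalRing.residue R a = 0)).map (fun a => X - C a)).prod := by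
    rw [hs, ← Multiset.prod_add, ← Multiset.map_add, Multiset.filter_add_not]
  have hcop : IsCoprime ((s.filter (fun a => IsLocalRing.residue R a = 0)).map
        (fun a => X - C a)).prod
      ((s.filter (fun a => ¬ IsLocalRing.residue R a = 0)).map (fun a => X - C a)).prod := by
    apply isCoprime_prod_X_sub_C
    intro a ha b hb
    have ha0 : IsLocalRing.residue R a = 0 := (Multiset.mem_filter.mp ha).2
    have hb0 : IsLocalRing.residue R b ≠ 0 := (Multiset.mem_filter.mp hb).2
    have : IsUnit (IsLocalRing.residue R (a - b)) := by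
      rw [map_sub, ha0, zero_sub]
      exact (neg_ne_zero.mpr hb0).isUnit
    exact isUnit_of_map_unit (IsLocalRing.residue R) _ this
  have hP0 : (((s.filter (fun a => IsLocalRing.residue R a = 0)).map
        (fun a => X - C a)).prod.map (IsLocalRing.residue R)).eval 1 = 1 := by
    rw [eval_map_prod_X_sub_C]
    apply Multiset.prod_eq_one
    intro x hx
    obtain ⟨a, ha, rfl⟩ := Multiset.mem_map.mp hx
    rw [(Multiset.mem_filter.mp ha).2, sub_zero]
  have hP1 : (((s.filter (fun a => ¬ IsLocalRing.residue R a = 0)).map
        (fun a => X - C a)).prod.map (IsLocalRing.residue R)).eval 0 ≠ 0 := by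
    rw [eval_map_prod_X_sub_C]
    intro h0
    rw [Multiset.prod_eq_zero_iff] at h0
    obtain ⟨a, ha, h⟩ := Multiset.mem_map.mp h0
    rw [zero_sub, neg_eq_zero] at h
    exact (Multiset.mem_filter.mp ha).2 h
  generalize ((s.filter (fun a => IsLocalRing.residue R a = 0)).map
        (fun a => X - C a)).prod = P0 at hχ hcop hP0
  generalize ((s.filter (fun a => ¬ IsLocalRing.residue R a = 0)).map
        (fun a => X - C a)).prod = P1 at hχ hcop hP1
  obtain ⟨U, V, hUV⟩ := hcop
  have hCH : aeval (A.map (IsLocalRing.residue R)) (A.charpoly.map (IsLocalRing.residue R)) = 0 := by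
    rw [← Matrix.charpoly_map]
    exact Matrix.aeval_self_charpoly _
  refine ⟨aeval A (U * P0), ?_, ?_, ?_⟩
  · have h1 : aeval A (U * P0) + aeval A (V * P1) = 1 := by rw [← map_add, hUV, map_one]
    have h2 : aeval A (U * P0) * aeval A (V * P1) = 0 := by
      rw [← map_mul]
      have : U * P0 * (V * P1) = U * V * A.charpoly := by rw [hχ]; ring
      rw [this, map_mul, Matrix.aeval_self_charpoly, mul_zero]
    unfold IsIdempotentElem
    calc aeval A (U * P0) * aeval A (U * P0)
        = aeval A (U * P0) * (aeval A (U * P0) + aeval A (V * P1)) := by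
          rw [mul_add, h2, add_zero]
      _ = aeval A (U * P0) := by rw [h1, mul_one]
  · rw [map_aeval_residue, aeval_idem hA]
    have key := hCH
    rw [aeval_idem hA] at key
    generalize A.map (IsLocalRing.residue R) = p at hA key ⊢
    have hp1 : p * (1 - p) = 0 := by rw [mul_sub, mul_one, hA.eq, sub_self]
    have hp2 : (1 - p) * p = 0 := by rw [sub_mul, one_mul, hA.eq, sub_self]
    have hp3 : (1 - p) * (1 - p) = 1 - p := hA.one_sub.eq
    have e0 : eval 0 (A.charpoly.map (IsLocalRing.residue R)) • (1 - p) = 0 := by
      have := congrArg (fun M => (1 - p) * M) key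
      simpa only [mul_add, mul_smul_comm, hp2, hp3, smul_zero, add_zero, mul_zero] using this
    have e1 : eval 1 (A.charpoly.map (IsLocalRing.residue R)) • p = 0 := by
      have := congrArg (fun M => p * M) key
      simpa only [mul_add, mul_smul_comm, hp1, hA.eq, smul_zero, zero_add, mul_zero] using this
    rw [hχ, Polynomial.map_mul, eval_mul] at e0 e1
    rw [hP0, one_mul] at e1
    have e0' : eval 0 (P0.map (IsLocalRing.residue R)) • (1 - p) = 0 := by
      have := congrArg (fun M => (eval 0 (P1.map (IsLocalRing.residue R)))⁻¹ • M) e0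
      simp only [smul_zero] at this
      rwa [mul_comm, mul_smul, smul_smul, inv_mul_cancel₀ hP1, one_smul] at this
    have hUV' := congrArg (fun Q => eval 1 (Q.map (IsLocalRing.residue R))) hUV
    simp only [Polynomial.map_add, Polynomial.map_mul, eval_add, eval_mul, Polynomial.map_one,
      eval_one, hP0, mul_one] at hUV'
    rw [Polynomial.map_mul, eval_mul, eval_mul, mul_smul, e0', smul_zero, zero_add, hP0, mul_one,
      eq_sub_of_add_eq hUV', sub_smul, one_smul, mul_smul, e1, smul_zero, sub_zero]
  · intro M hM
    have hA' : A ∈ Subalgebra.centralizer R ({M} : Set (Matrix ι ι R)) := by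
      rw [Subalgebra.mem_centralizer_iff]
      intro g hg
      rw [Set.mem_singleton_iff.mp hg]
      exact hM.eq
    have h3 : aeval A (U * P0) ∈ Subalgebra.centralizer R ({M} : Set (Matrix ι ι R)) :=
      (Algebra.adjoin_le (Set.singleton_subset_iff.mpr hA'))
        (Polynomial.aeval_mem_adjoin_singleton R A)
    exact (Subalgebra.mem_centralizer_iff R).mp h3 M rfl

end Lift

section Basis

variable {R : Type*} [CommRing R] [IsLocalRing R]

theorem isUnit_of_map_residue_eq_one {n : Type*} [Fintype n] [DecidableEq n] (M : Matrix n n R)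
    (h : M.map (IsLocalRing.residue R) = 1) : IsUnit M := by
  rw [Matrix.isUnit_iff_isUnit_det]
  apply isUnit_of_map_unit (IsLocalRing.residue R)
  rw [RingHom.map_det, RingHom.mapMatrix_apply, h, det_one]
  exact isUnit_one

theorem isUnit_of_isUnit_map_residue {n : Type*} [Fintype n] [DecidableEq n] (M : Matrix n n R)
    (h : IsUnit (M.map (IsLocalRing.residue R))) : IsUnit M := by
  rw [Matrix.isUnit_iff_isUnit_det] at h ⊢
  apply isUnit_of_map_unit (IsLocalRing.residue R)
  rwa [RingHom.map_det, RingHom.mapMatrix_apply]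

theorem eq_zero_of_idempotent_of_map_residue_eq_zero {n : Type*} [Fintype n] [DecidableEq n]
    (F : Matrix n n R) (hF : IsIdempotentElem F) (h : F.map (IsLocalRing.residue R) = 0) :
    F = 0 := by
  have hu : IsUnit (1 - F) := by
    apply isUnit_of_map_residue_eq_one
    rw [Matrix.map_sub _ (map_sub _), h, sub_zero]
    exact Matrix.map_one _ (map_zero _) (map_one _)
  have h0 : F * (1 - F) = 0 := by rw [mul_sub, mul_one, hF.eq, sub_self]
  exact hu.mul_left_eq_zero.mp h0

theorem exists_map_residue_eq {a b : Type*} (M : Matrix a b (IsLocalRing.ResidueField R)) :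
    ∃ M' : Matrix a b R, M'.map (IsLocalRing.residue R) = M := by
  choose f hf using fun i j => IsLocalRing.residue_surjective (M i j)
  exact ⟨Matrix.of f, by ext i j; exact hf i j⟩

/-- The image of an idempotent matrix over a local ring has a basis lifting any given
"basis of the image of its reduction": matrix form. -/
theorem exists_basis_of_idempotent {ι n : Type*} [Fintype ι] [DecidableEq ι] [Fintype n]
    [DecidableEq n] (E : Matrix ι ι R) (hE : IsIdempotentElem E)
    (S : Matrix ι n (IsLocalRing.ResidueField R)) (Φ : Matrix n ι (IsLocalRing.ResidueField R))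
    (h1 : Φ * S = 1) (h2 : S * Φ = E.map (IsLocalRing.residue R)) :
    ∃ (B : Matrix ι n R) (C : Matrix n ι R), C * B = 1 ∧ B * C = E := by
  obtain ⟨S₁, hS₁⟩ := exists_map_residue_eq S
  obtain ⟨Φ₁, hΦ₁⟩ := exists_map_residue_eq Φ
  have hDmap : (Φ₁ * E * S₁).map (IsLocalRing.residue R) = 1 := by
    rw [Matrix.map_mul, Matrix.map_mul, hS₁, hΦ₁, ← h2, ← Matrix.mul_assoc, h1, Matrix.one_mul, h1]
  obtain ⟨Du, hDu⟩ := isUnit_of_map_residue_eq_one _ hDmap
  have hDi1 : (↑Du⁻¹ : Matrix n n R) * (Φ₁ * E * S₁) = 1 := by rw [← hDu]; exact Du.inv_mul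
  have hDimap : (↑Du⁻¹ : Matrix n n R).map (IsLocalRing.residue R) = 1 := by
    have := congrArg (fun M => M.map (IsLocalRing.residue R)) hDi1
    simp only [Matrix.map_mul] at this
    rw [← Matrix.map_mul, ← Matrix.map_mul, hDmap, Matrix.mul_one] at this
    rw [this]
    exact Matrix.map_one _ (map_zero _) (map_one _)
  generalize (↑Du⁻¹ : Matrix n n R) = Di at hDi1 hDimap
  refine ⟨E * S₁, Di * Φ₁ * E, ?_, ?_⟩
  · calc Di * Φ₁ * E * (E * S₁) = Di * (Φ₁ * (E * E) * S₁) := by simp only [Matrix.mul_assoc]
      _ = 1 := by rw [hE.eq, hDi1]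
  · have hEE' : E * (E * S₁ * (Di * Φ₁ * E)) = E * S₁ * (Di * Φ₁ * E) := by
      rw [← Matrix.mul_assoc E (E * S₁), ← Matrix.mul_assoc E E, hE.eq]
    have hE'E : E * S₁ * (Di * Φ₁ * E) * E = E * S₁ * (Di * Φ₁ * E) := by
      rw [Matrix.mul_assoc (E * S₁), Matrix.mul_assoc (Di * Φ₁), hE.eq]
    have hE'idem : E * S₁ * (Di * Φ₁ * E) * (E * S₁ * (Di * Φ₁ * E))
        = E * S₁ * (Di * Φ₁ * E) := by
      calc E * S₁ * (Di * Φ₁ * E) * (E * S₁ * (Di * Φ₁ * E))
          = E * S₁ * (Di * (Φ₁ * (E * E) * S₁) * (Di * Φ₁ * E)) := by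
            simp only [Matrix.mul_assoc]
        _ = E * S₁ * (Di * Φ₁ * E) := by rw [hE.eq, hDi1, Matrix.one_mul]
    have hE'map : (E * S₁ * (Di * Φ₁ * E)).map (IsLocalRing.residue R)
        = E.map (IsLocalRing.residue R) := by
      rw [Matrix.map_mul, Matrix.map_mul, Matrix.map_mul, Matrix.map_mul, hS₁, hΦ₁, hDimap,
        Matrix.one_mul, ← h2, Matrix.mul_assoc, Matrix.mul_assoc, ← Matrix.mul_assoc Φ S,
        h1, Matrix.one_mul, ← Matrix.mul_assoc Φ S, h1, Matrix.one_mul]
    generalize E * S₁ * (Di * Φ₁ * E) = E' at hEE' hE'E hE'idem hE'map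
    have hF : IsIdempotentElem (E - E') := by
      unfold IsIdempotentElem
      rw [sub_mul, mul_sub, mul_sub, hE.eq, hEE', hE'E, hE'idem, sub_self, sub_zero]
    have hFmap : (E - E').map (IsLocalRing.residue R) = 0 := by
      rw [Matrix.map_sub _ (map_sub _), hE'map, sub_self]
    exact (sub_eq_zero.mp (eq_zero_of_idempotent_of_map_residue_eq_zero _ hF hFmap)).symm

end Basis

section Regular

variable {G : Type*} [Group G] [DecidableEq G] {m : Type*} [DecidableEq m]
variable {α : Type*} [Semiring α]

/-- The matrix of left translation by `g` on `G × m`. -/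
def regMat (α : Type*) [Semiring α] (m : Type*) [DecidableEq m] (g : G) :
    Matrix (G × m) (G × m) α :=
  ((Equiv.mulLeft g⁻¹).prodCongr (Equiv.refl m)).toPEquiv.toMatrix

variable [Fintype G] [Fintype m]

theorem regMat_mul_apply {l : Type*} (g : G) (M : Matrix (G × m) l α) (a : G × m) (j : l) :
    (regMat α m g * M) a j = M (g⁻¹ * a.1, a.2) j := by
  rw [regMat, PEquiv.toMatrix_toPEquiv_mul]
  rfl

theorem mul_regMat_apply {l : Type*} (g : G) (M : Matrix l (G × m) α) (i : l) (b : G × m) :
    (M * regMat α m g) i b = M i (g * b.1, b.2) := by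
  have hb : ((Equiv.mulLeft g⁻¹).prodCongr (Equiv.refl m)).symm b = (g * b.1, b.2) := by
    apply Prod.ext <;> simp
  rw [regMat, PEquiv.mul_toMatrix_toPEquiv, Matrix.submatrix_apply, hb]
  rfl

omit [Fintype G] [Fintype m] in
theorem regMat_one : regMat α m (1 : G) = 1 := by
  have h : (Equiv.mulLeft (1 : G)⁻¹).prodCongr (Equiv.refl m) = Equiv.refl (G × m) := by
    ext a <;> simp
  rw [regMat, h, Equiv.toPEquiv_refl, PEquiv.toMatrix_refl]

theorem regMat_mul (g h : G) : regMat α m (g * h) = regMat α m g * regMat α m h := by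
  have e : (Equiv.mulLeft (g * h)⁻¹).prodCongr (Equiv.refl m)
      = ((Equiv.mulLeft g⁻¹).prodCongr (Equiv.refl m)).trans
        ((Equiv.mulLeft h⁻¹).prodCongr (Equiv.refl m)) := by
    ext a <;> simp [mul_assoc]
  rw [regMat, regMat, regMat, e, Equiv.toPEquiv_trans, PEquiv.toMatrix_trans]

omit [Fintype G] [Fintype m] in
theorem regMat_map {β : Type*} [Semiring β] (f : α →+* β) (g : G) :
    (regMat α m g).map f = regMat β m g := by
  rw [regMat, regMat, PEquiv.map_toMatrix]

end Regular

section Main

variable {R : Type*} [CommRing R] [IsLocalRing R]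

/-- **Lifting without completions.**  Let `R` be an integrally closed local domain whose fraction
field is algebraically closed (e.g. a valuation subring of an algebraically closed field) and `G`
a finite group whose order is invertible in the residue field.  Then every representation of `G`
over the residue field lifts, up to conjugation, to a representation over `R`. -/
theorem exists_lift_of_card_ne_zero_general {K : Type*} [IsDomain R] [IsIntegrallyClosed R]
    [Field K] [Algebra R K] [IsFractionRing R K] [IsAlgClosed K]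
    {G : Type*} [Group G] [Finite G] (hG : (Nat.card G : IsLocalRing.ResidueField R) ≠ 0)
    {m : Type*} [Fintype m] [DecidableEq m] (ρbar : G →* GL m (IsLocalRing.ResidueField R)) :
    ∃ (ρ : G →* GL m R) (P : GL m (IsLocalRing.ResidueField R)),
      ∀ g, Matrix.GeneralLinearGroup.map (IsLocalRing.residue R) (ρ g) = P * ρbar g * P⁻¹ := by
  classical
  have := Fintype.ofFinite G
  -- the two explicit matrices over the residue field
  let S : Matrix (G × m) m (IsLocalRing.ResidueField R) :=
    fun a j => (ρbar a.1⁻¹ : Matrix m m (IsLocalRing.ResidueField R)) a.2 j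
  let Φ : Matrix m (G × m) (IsLocalRing.ResidueField R) :=
    fun j a => (Nat.card G : IsLocalRing.ResidueField R)⁻¹ *
      (ρbar a.1 : Matrix m m (IsLocalRing.ResidueField R)) j a.2
  have hΦS : Φ * S = 1 := by
    ext j j'
    rw [Matrix.mul_apply, Fintype.sum_prod_type]
    have : ∀ h : G, ∑ i : m, Φ j (h, i) * S (h, i) j'
        = (Nat.card G : IsLocalRing.ResidueField R)⁻¹ *
          (1 : Matrix m m (IsLocalRing.ResidueField R)) j j' := by
      intro h
      have h1 : (ρbar h : Matrix m m (IsLocalRing.ResidueField R)) *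
          (ρbar h⁻¹ : Matrix m m (IsLocalRing.ResidueField R)) = 1 := by
        rw [← Units.val_mul, ← map_mul, mul_inv_cancel, map_one, Units.val_one]
      rw [← h1, Matrix.mul_apply, Finset.mul_sum]
      apply Finset.sum_congr rfl
      intro i _
      simp only [Φ, S, mul_assoc]
    rw [Finset.sum_congr rfl (fun h _ => this h), Finset.sum_const, Finset.card_univ,
      nsmul_eq_mul, ← Nat.card_eq_fintype_card, ← mul_assoc, mul_inv_cancel₀ hG, one_mul]
  -- lifting the averaged matrices
  have hc : ∃ c : G → Matrix m m R, ∀ x i j, IsLocalRing.residue R (c x i j)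
      = (Nat.card G : IsLocalRing.ResidueField R)⁻¹ *
        (ρbar x : Matrix m m (IsLocalRing.ResidueField R)) i j := by
    choose c hc using fun (x : G) (i j : m) => IsLocalRing.residue_surjective
      ((Nat.card G : IsLocalRing.ResidueField R)⁻¹ *
        (ρbar x : Matrix m m (IsLocalRing.ResidueField R)) i j)
    exact ⟨c, hc⟩
  obtain ⟨c, hc⟩ := hc
  let A : Matrix (G × m) (G × m) R := fun a b => c (a.1⁻¹ * b.1) a.2 b.2
  have hSΦ : S * Φ = A.map (IsLocalRing.residue R) := by
    ext a b
    rw [Matrix.mul_apply, Matrix.map_apply]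
    simp only [A, S, Φ]
    rw [hc, map_mul, Units.val_mul, Matrix.mul_apply, Finset.mul_sum]
    apply Finset.sum_congr rfl
    intro i _
    ring
  have hAidem : IsIdempotentElem (A.map (IsLocalRing.residue R)) := by
    rw [← hSΦ]
    unfold IsIdempotentElem
    rw [Matrix.mul_assoc, ← Matrix.mul_assoc Φ, hΦS, Matrix.one_mul]
  have hAT : ∀ g : G, Commute (regMat R m g) A := by
    intro g
    ext a b
    rw [regMat_mul_apply, mul_regMat_apply]
    simp only [A, _root_.mul_inv_rev, inv_inv, mul_assoc]
  obtain ⟨E, hE, hEmap, hEcomm⟩ := exists_idempotent_lift (K := K) A hAidem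
  obtain ⟨B, C, hCB, hBC⟩ := exists_basis_of_idempotent E hE S Φ hΦS (by rw [hSΦ, hEmap])
  have hCE : C * E = C := by rw [← hBC, ← Matrix.mul_assoc, hCB, Matrix.one_mul]
  have hEB : E * B = B := by rw [← hBC, Matrix.mul_assoc, hCB, Matrix.mul_one]
  let ρ₀ : G →* Matrix m m R :=
    { toFun := fun g => C * regMat R m g * B
      map_one' := by rw [regMat_one, Matrix.mul_one, hCB]
      map_mul' := fun g h => by
        calc C * regMat R m (g * h) * B
            = C * E * (regMat R m g * regMat R m h) * B := by rw [regMat_mul, hCE]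
          _ = C * (regMat R m g * E) * regMat R m h * B := by
            rw [(hEcomm _ (hAT g)).eq]; simp only [Matrix.mul_assoc]
          _ = C * regMat R m g * B * (C * regMat R m h * B) := by
            rw [← hBC]; simp only [Matrix.mul_assoc] }
  have hval : C.map (IsLocalRing.residue R) * S * (Φ * B.map (IsLocalRing.residue R)) = 1 := by
    rw [Matrix.mul_assoc, ← Matrix.mul_assoc S, hSΦ, ← hEmap, ← Matrix.map_mul, ← Matrix.map_mul,
      hEB, hCB]
    exact Matrix.map_one _ (map_zero _) (map_one _)
  refine ⟨ρ₀.toHomUnits, ⟨C.map (IsLocalRing.residue R) * S, Φ * B.map (IsLocalRing.residue R),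
    hval, mul_eq_one_comm.mp hval⟩, ?_⟩
  intro g
  apply Units.ext
  have hTS : regMat (IsLocalRing.ResidueField R) m g * S
      = S * (ρbar g : Matrix m m (IsLocalRing.ResidueField R)) := by
    ext a j
    rw [regMat_mul_apply, Matrix.mul_apply]
    simp only [S, _root_.mul_inv_rev, inv_inv]
    rw [map_mul, Units.val_mul, Matrix.mul_apply]
  show (C * regMat R m g * B).map (IsLocalRing.residue R)
    = C.map (IsLocalRing.residue R) * S * (ρbar g : Matrix m m (IsLocalRing.ResidueField R))
      * (Φ * B.map (IsLocalRing.residue R))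
  rw [Matrix.mul_assoc (C.map (IsLocalRing.residue R)) S, ← hTS,
    Matrix.mul_assoc (C.map (IsLocalRing.residue R)),
    Matrix.mul_assoc (regMat (IsLocalRing.ResidueField R) m g), ← Matrix.mul_assoc S, hSΦ, ← hEmap,
    ← regMat_map (IsLocalRing.residue R) g, ← Matrix.map_mul, ← Matrix.map_mul, ← Matrix.map_mul,
    hEB, Matrix.mul_assoc]

/-- Every element of `GL m k` lifts to `GL m R`. -/
theorem exists_GL_map_residue_eq {m : Type*} [Fintype m] [DecidableEq m]
    (P : GL m (IsLocalRing.ResidueField R)) :
    ∃ Q : GL m R, Matrix.GeneralLinearGroup.map (IsLocalRing.residue R) Q = P := by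
  obtain ⟨P₁, hP₁⟩ := exists_map_residue_eq (P : Matrix m m (IsLocalRing.ResidueField R))
  obtain ⟨Q, hQ⟩ := isUnit_of_isUnit_map_residue P₁ (by rw [hP₁]; exact P.isUnit)
  refine ⟨Q, Units.ext ?_⟩
  show (Q : Matrix m m R).map (IsLocalRing.residue R) = _
  rw [hQ, hP₁]

/-- **Exact lifting without completions**: the lift can be chosen to reduce to `ρbar` on the
nose. -/
theorem exists_lift_exact_general {K : Type*} [IsDomain R] [IsIntegrallyClosed R]
    [Field K] [Algebra R K] [IsFractionRing R K] [IsAlgClosed K]
    {G : Type*} [Group G] [Finite G] (hG : (Nat.card G : IsLocalRing.ResidueField R) ≠ 0)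
    {m : Type*} [Fintype m] [DecidableEq m] (ρbar : G →* GL m (IsLocalRing.ResidueField R)) :
    ∃ ρ : G →* GL m R, ∀ g,
      Matrix.GeneralLinearGroup.map (IsLocalRing.residue R) (ρ g) = ρbar g := by
  obtain ⟨ρ, P, h⟩ := exists_lift_of_card_ne_zero_general (K := K) hG ρbar
  obtain ⟨Q, hQ⟩ := exists_GL_map_residue_eq P
  refine ⟨(MulAut.conj Q⁻¹).toMonoidHom.comp ρ, fun g => ?_⟩
  show Matrix.GeneralLinearGroup.map (IsLocalRing.residue R) (Q⁻¹ * ρ g * Q⁻¹⁻¹) = ρbar g
  rw [inv_inv, map_mul, map_mul, map_inv, h g, hQ]
  group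

/-- Charpoly form of the lifting theorem: the characteristic polynomials of the lift reduce to
those of the residual representation. -/
theorem exists_lift_charpoly_general {K : Type*} [IsDomain R] [IsIntegrallyClosed R]
    [Field K] [Algebra R K] [IsFractionRing R K] [IsAlgClosed K]
    {G : Type*} [Group G] [Finite G] (hG : (Nat.card G : IsLocalRing.ResidueField R) ≠ 0)
    {m : Type*} [Fintype m] [DecidableEq m] (ρbar : G →* GL m (IsLocalRing.ResidueField R)) :
    ∃ ρ : G →* GL m R, ∀ g,
      (ρ g : Matrix m m R).charpoly.map (IsLocalRing.residue R)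
        = (ρbar g : Matrix m m (IsLocalRing.ResidueField R)).charpoly := by
  obtain ⟨ρ, P, h⟩ := exists_lift_of_card_ne_zero_general (K := K) hG ρbar
  refine ⟨ρ, fun g => ?_⟩
  have h2 : (ρ g : Matrix m m R).map (IsLocalRing.residue R)
      = (P : Matrix m m (IsLocalRing.ResidueField R)) *
        (ρbar g : Matrix m m (IsLocalRing.ResidueField R)) *
        ((P⁻¹ : GL m (IsLocalRing.ResidueField R)) : Matrix m m (IsLocalRing.ResidueField R)) :=
    congrArg Units.val (h g)
  rw [← Matrix.charpoly_map, h2, Matrix.coe_units_inv, Matrix.charpoly_units_conj]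

/-- Trace and determinant form of the lifting theorem. -/
theorem exists_lift_trace_det_general {K : Type*} [IsDomain R] [IsIntegrallyClosed R]
    [Field K] [Algebra R K] [IsFractionRing R K] [IsAlgClosed K]
    {G : Type*} [Group G] [Finite G] (hG : (Nat.card G : IsLocalRing.ResidueField R) ≠ 0)
    {m : Type*} [Fintype m] [DecidableEq m] (ρbar : G →* GL m (IsLocalRing.ResidueField R)) :
    ∃ ρ : G →* GL m R, ∀ g,
      IsLocalRing.residue R (ρ g : Matrix m m R).trace
          = (ρbar g : Matrix m m (IsLocalRing.ResidueField R)).trace ∧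
      IsLocalRing.residue R (ρ g : Matrix m m R).det
          = (ρbar g : Matrix m m (IsLocalRing.ResidueField R)).det := by
  obtain ⟨ρ, P, h⟩ := exists_lift_of_card_ne_zero_general (K := K) hG ρbar
  refine ⟨ρ, fun g => ?_⟩
  have h2 : (IsLocalRing.residue R).mapMatrix (ρ g : Matrix m m R)
      = (P : Matrix m m (IsLocalRing.ResidueField R)) *
        (ρbar g : Matrix m m (IsLocalRing.ResidueField R)) *
        ((P⁻¹ : GL m (IsLocalRing.ResidueField R)) : Matrix m m (IsLocalRing.ResidueField R)) :=
    congrArg Units.val (h g)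
  constructor
  · have ht : IsLocalRing.residue R (ρ g : Matrix m m R).trace
        = ((IsLocalRing.residue R).mapMatrix (ρ g : Matrix m m R)).trace := by
      simp [Matrix.trace, map_sum]
    rw [ht, h2, Matrix.trace_units_conj]
  · rw [RingHom.map_det, h2, Matrix.det_units_conj]

/-- The announced form: valuation subring of an algebraically closed field, `Fin n`. -/
theorem exists_lift_of_card_ne_zero {K : Type*} [Field K] [IsAlgClosed K] (R : ValuationSubring K)
    {G : Type*} [Group G] [Finite G] (hG : (Nat.card G : IsLocalRing.ResidueField R) ≠ 0) {n : ℕ}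
    (ρbar : G →* GL (Fin n) (IsLocalRing.ResidueField R)) :
    ∃ (ρ : G →* GL (Fin n) R) (P : GL (Fin n) (IsLocalRing.ResidueField R)),
      ∀ g, Matrix.GeneralLinearGroup.map (IsLocalRing.residue R) (ρ g) = P * ρbar g * P⁻¹ :=
  exists_lift_of_card_ne_zero_general (K := K) hG ρbar

theorem exists_lift_exact {K : Type*} [Field K] [IsAlgClosed K] (R : ValuationSubring K)
    {G : Type*} [Group G] [Finite G] (hG : (Nat.card G : IsLocalRing.ResidueField R) ≠ 0) {n : ℕ}
    (ρbar : G →* GL (Fin n) (IsLocalRing.ResidueField R)) :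
    ∃ ρ : G →* GL (Fin n) R, ∀ g,
      Matrix.GeneralLinearGroup.map (IsLocalRing.residue R) (ρ g) = ρbar g :=
  exists_lift_exact_general (K := K) hG ρbar

theorem exists_lift_charpoly {K : Type*} [Field K] [IsAlgClosed K] (R : ValuationSubring K)
    {G : Type*} [Group G] [Finite G] (hG : (Nat.card G : IsLocalRing.ResidueField R) ≠ 0) {n : ℕ}
    (ρbar : G →* GL (Fin n) (IsLocalRing.ResidueField R)) :
    ∃ ρ : G →* GL (Fin n) R, ∀ g,
      (ρ g : Matrix (Fin n) (Fin n) R).charpoly.map (IsLocalRing.residue R)
        = (ρbar g : Matrix (Fin n) (Fin n) (IsLocalRing.ResidueField R)).charpoly :=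
  exists_lift_charpoly_general (K := K) hG ρbar

theorem exists_lift_trace_det {K : Type*} [Field K] [IsAlgClosed K] (R : ValuationSubring K)
    {G : Type*} [Group G] [Finite G] (hG : (Nat.card G : IsLocalRing.ResidueField R) ≠ 0) {n : ℕ}
    (ρbar : G →* GL (Fin n) (IsLocalRing.ResidueField R)) :
    ∃ ρ : G →* GL (Fin n) R, ∀ g,
      IsLocalRing.residue R (ρ g : Matrix (Fin n) (Fin n) R).trace
          = (ρbar g : Matrix (Fin n) (Fin n) (IsLocalRing.ResidueField R)).trace ∧
      IsLocalRing.residue R (ρ g : Matrix (Fin n) (Fin n) R).det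
          = (ρbar g : Matrix (Fin n) (Fin n) (IsLocalRing.ResidueField R)).det :=
  exists_lift_trace_det_general (K := K) hG ρbar

end Main

section ResidueField

/-- The residue field of an integrally closed local domain with algebraically closed fraction
field is algebraically closed. -/
theorem isAlgClosed_residueField {R K : Type*} [CommRing R] [IsLocalRing R] [IsDomain R]
    [IsIntegrallyClosed R] [Field K] [Algebra R K] [IsFractionRing R K] [IsAlgClosed K] :
    IsAlgClosed (IsLocalRing.ResidueField R) := by
  apply IsAlgClosed.of_exists_root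
  intro p hp hirr
  have hlift : p ∈ Polynomial.lifts (IsLocalRing.residue R) :=
    (Polynomial.mem_lifts _).mpr
      (Polynomial.map_surjective _ IsLocalRing.residue_surjective p)
  obtain ⟨P, hPmap, hPdeg, hPmonic⟩ := Polynomial.lifts_and_degree_eq_and_monic hlift hp
  have hdeg : (P.map (algebraMap R K)).degree ≠ 0 := by
    rw [Polynomial.degree_map_eq_of_injective (IsFractionRing.injective R K), hPdeg]
    exact fun h0 => hirr.not_isUnit (Polynomial.isUnit_iff_degree_eq_zero.mpr h0)
  obtain ⟨r, hr⟩ := IsAlgClosed.exists_root _ hdeg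
  have hint : IsIntegral R r := ⟨P, hPmonic, by rw [← eval_map]; exact hr⟩
  obtain ⟨a, rfl⟩ := IsIntegrallyClosed.isIntegral_iff.mp hint
  have ha : P.eval a = 0 := by
    apply IsFractionRing.injective R K
    rw [map_zero, ← Polynomial.eval₂_at_apply, ← eval_map]
    exact hr
  refine ⟨IsLocalRing.residue R a, ?_⟩
  rw [← hPmap, eval_map, Polynomial.eval₂_at_apply, ha, map_zero]

theorem isAlgClosed_residueField_valuationSubring {K : Type*} [Field K] [IsAlgClosed K]
    (R : ValuationSubring K) : IsAlgClosed (IsLocalRing.ResidueField R) :=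
  isAlgClosed_residueField (K := K)

/-- In a field of characteristic zero, every prime number lies in the maximal ideal of some
valuation subring, i.e. there is a valuation subring of residue characteristic `l`. -/
theorem exists_valuationSubring_charP (K : Type*) [Field K] [CharZero K] {l : ℕ} (hl : l.Prime) :
    ∃ R : ValuationSubring K, CharP (IsLocalRing.ResidueField R) l := by
  let A : Subring K := (Int.castRingHom K).range
  have hlA : (l : K) ∈ A := ⟨(l : ℤ), by simp⟩
  have hI : Ideal.span {(⟨(l : K), hlA⟩ : A)} ≠ ⊤ := by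
    intro h
    rw [Ideal.span_singleton_eq_top] at h
    obtain ⟨⟨y, z, rfl⟩, hy⟩ := isUnit_iff_exists_inv.mp h
    have h1 : ((l : ℤ) * z : K) = 1 := by
      have := congrArg Subtype.val hy
      simpa using this
    have h2 : (l : ℤ) * z = 1 := by exact_mod_cast h1
    have h3 : (l : ℤ) ∣ 1 := Dvd.intro _ h2
    have h4 : l ∣ 1 := by exact_mod_cast h3
    exact hl.one_lt.ne' (Nat.dvd_one.mp h4)
  obtain ⟨B, -, hB⟩ := Ideal.image_subset_nonunits_valuationSubring _ hI
  refine ⟨B, (CharP.charP_iff_prime_eq_zero hl).mpr ?_⟩
  have hmem : (l : K) ∈ B.nonunits :=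
    hB ⟨⟨(l : K), hlA⟩, Ideal.subset_span rfl, rfl⟩
  obtain ⟨hlB, hmax⟩ := ValuationSubring.mem_nonunits_iff_exists_mem_maximalIdeal.mp hmem
  have : (l : IsLocalRing.ResidueField B) = IsLocalRing.residue B ⟨(l : K), hlB⟩ := by
    rw [← map_natCast (IsLocalRing.residue B)]
    rfl
  rw [this, IsLocalRing.residue_eq_zero_iff]
  exact hmax

end ResidueField

end Fermat.Agent.S48.helper4464
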