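/-
S48-M2-UES (helper5530): FIELD-GENERIC `(U)` + `(ES with diamond)` FROM THE KUMMER FORM AT `w = 1`.

This is the port of `S29/helper405_UnrES` (which is written for the `Γ₀(N)` function field
`modularFunctionFieldBar N` and the Prelude Hecke operator) to an ARBITRARY subfield
`E : IntermediateField ℚ̄ (LaurentSeries ℚ̄)` of `ℚ̄((q))` — e.g. the function field `F₁(M)` of
`X₁(M)` generated over the `Γ₀(M)` field by ratios of differences of Weierstrass division values —
together with a *diamond* automorphism `D` of `E` and a multiplicative Hecke operator `T` whose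
`q`-expansion is `(D u)(q ^ p) * U_p (∏_{b < p} u(ζ ^ b q))`.

Inputs (all hypotheses, nothing about `Γ₁` is imported):

* `KF1 E A n`        : the Kummer form at `w = 1` at the place `A` of `ℚ̄`
                       ("`U = a / b ≡ 1` at the Gauss valuation and `n ∣ div U` ⟹ `U = c V ^ n`");
* `HasNormalForm E A`: the Gauss normal form (free for fields generated by series with finitely
                       generated coefficients, `hasNormalForm_of_adjoin`);
* `gal`, `GalCoeff`  : the coefficientwise Galois action on `E` (`galOfStable` builds it from the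
                       stability of `E` under the coefficientwise action).

Outputs:

* `inertia_smul_eq_of_kf1`       : the inertia group at `A` acts trivially on `Pic⁰(E)[n]`;
* `frobenius_quadratic_of_kf1`   : `σ² [u] - σ [T u] + p [D u] = 0` for every Frobenius `σ` at
                                   `A ∣ p` and every `n`-Kummer function `u`;
* `frobenius_quadratic_pic0_of_kf1` : the operator form on `Pic⁰(E)[n]`.
-/
import Fermat.Agent.S29.helper8217_KummerClass
import Fermat.Agent.S29.helper7964_FormalES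
import Fermat.Agent.S18.helper8991_GaussInst
import Fermat.Agent.Lib.helper6879_ResidueQbar
import Fermat.Agent.Lib.helper7516_LaurentFrob
import Fermat.Prelude.Thm_ModularCurve_coeffMap_qExpand

set_option autoImplicit false
set_option synthInstance.maxHeartbeats 400000

noncomputable section

namespace Fermat.Agent.S48.helper5530

open ModularCurve AlgebraicCurve HahnSeries
open Fermat.Agent.S29.helper7964 (tw uOp tw_coeff uOp_coeff uOp_qExpand qExpand_uOp tw_one tw_mul)
open Fermat.Agent.S29.helper8217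

local notation "Qb" => AlgebraicClosure ℚ
local notation "GalQ" => (AlgebraicClosure ℚ ≃ₐ[ℚ] AlgebraicClosure ℚ)

/-! ### Formal lemmas on the multiplicative Hecke operator with a diamond -/

section Formal

variable {R S : Type*} [CommRing R] [CommRing S]

/-- The formal multiplicative Hecke operator with a diamond:
`v(q ^ ℓ) * U_ℓ (∏_{b < ℓ} u(ζ ^ b q))`, to be used with `v = ⟨ℓ⟩ u`. -/
def heckeMulD (ℓ : ℕ) [NeZero ℓ] (ζ : Rˣ) (u v : LaurentSeries R) : LaurentSeries R :=
  qExpand R ℓ v * uOp ℓ (∏ b ∈ Finset.range ℓ, tw (ζ ^ b) u)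

theorem coeffMap_tw (f : R →+* S) (c : Rˣ) (u : LaurentSeries R) :
    coeffMap f (tw c u) = tw (Units.map (f : R →* S) c) (coeffMap f u) := by
  ext n
  rw [coeffMap_coeff, tw_coeff, tw_coeff, coeffMap_coeff, map_mul, ← map_zpow, Units.coe_map]
  rfl

theorem coeffMap_uOp (f : R →+* S) (ℓ : ℕ) [NeZero ℓ] (u : LaurentSeries R) :
    coeffMap f (uOp ℓ u) = uOp ℓ (coeffMap f u) := by
  ext n
  rw [coeffMap_coeff, uOp_coeff, uOp_coeff, coeffMap_coeff]

theorem coeffMap_heckeMulD (f : R →+* S) (ℓ : ℕ) [NeZero ℓ] (ζ : Rˣ) (u v : LaurentSeries R) :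
    coeffMap f (heckeMulD ℓ ζ u v)
      = heckeMulD ℓ (Units.map (f : R →* S) ζ) (coeffMap f u) (coeffMap f v) := by
  rw [heckeMulD, heckeMulD, map_mul, coeffMap_qExpand, coeffMap_uOp, map_prod]
  congr 2
  refine Finset.prod_congr rfl fun b _ => ?_
  rw [coeffMap_tw, map_pow]

/-- In characteristic `ℓ` (where `ζ = 1`) the multiplicative Hecke operator with diamond is
`(u, v) ↦ v(q ^ ℓ) * Frob(u)`. -/
theorem heckeMulD_one_charP (k : Type*) [Field k] (ℓ : ℕ) [Fact ℓ.Prime] [CharP k ℓ]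
    (u v : LaurentSeries k) :
    heckeMulD ℓ (1 : kˣ) u v = qExpand k ℓ v * coeffMap (frobenius k ℓ) u := by
  rw [heckeMulD]
  congr 1
  have h1 : ∏ b ∈ Finset.range ℓ, tw ((1 : kˣ) ^ b) u = u ^ ℓ := by
    simp [tw_one]
  rw [h1, ← Fermat.Agent.Lib.helper7516.qExpand_coeffMap_frobenius ℓ u, uOp_qExpand]

/-- The product of the `ℓ` twists by the powers of a primitive `ℓ`-th root of unity is supported
on the multiples of `ℓ`. -/
theorem prod_tw_coeff_eq_zero {K : Type*} [Field K] (ℓ : ℕ) [NeZero ℓ] (ζ : Kˣ)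
    (hζ : IsPrimitiveRoot (ζ : K) ℓ) (u : LaurentSeries K) (k : ℤ) (hk : ¬ (ℓ : ℤ) ∣ k) :
    (∏ b ∈ Finset.range ℓ, tw (ζ ^ b) u).coeff k = 0 := by
  rcases eq_or_ne u 0 with rfl | hu
  · have h0 : ∏ b ∈ Finset.range ℓ, tw (ζ ^ b) (0 : LaurentSeries K) = 0 := by
      refine Finset.prod_eq_zero (i := 0) (Finset.mem_range.mpr (Nat.pos_of_ne_zero (NeZero.ne ℓ))) ?_
      ext n
      simp
    rw [h0, HahnSeries.coeff_zero]
  set P : LaurentSeries K := ∏ b ∈ Finset.range ℓ, tw (ζ ^ b) u with hP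
  have hζℓ : ζ ^ ℓ = 1 := Units.ext (by simpa using hζ.pow_eq_one)
  -- `tw ζ P = P`
  have htw : tw ζ P = P := by
    have h1 : tw ζ P = ∏ b ∈ Finset.range ℓ, tw (ζ ^ (b + 1)) u := by
      rw [hP, ← Fermat.Agent.S29.helper7964.twRingHom_apply, map_prod]
      refine Finset.prod_congr rfl fun b _ => ?_
      rw [Fermat.Agent.S29.helper7964.twRingHom_apply, Fermat.Agent.S29.helper7964.tw_tw,
        pow_succ']
    have h2 : (∏ b ∈ Finset.range ℓ, tw (ζ ^ (b + 1)) u) * tw (ζ ^ 0) u
        = P * tw (ζ ^ ℓ) u := by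
      rw [← Finset.prod_range_succ' (fun b => tw (ζ ^ b) u) ℓ,
        Finset.prod_range_succ (fun b => tw (ζ ^ b) u) ℓ]
    rw [hζℓ, pow_zero, tw_one] at h2
    rw [h1]
    exact mul_right_cancel₀ hu h2
  have h3 := congrArg (fun s : LaurentSeries K => s.coeff k) htw
  simp only [tw_coeff] at h3
  have h4 : ((ζ ^ k : Kˣ) : K) ≠ 1 := by
    intro h1
    apply hk
    have h5 : ((ζ : K)) ^ k = 1 := by
      rw [← Units.val_zpow_eq_zpow_val]
      exact h1
    exact (hζ.zpow_eq_one_iff_dvd k).mp h5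
  have h6 : (((ζ ^ k : Kˣ) : K) - 1) * P.coeff k = 0 := by
    rw [sub_mul, one_mul, h3, sub_self]
  rcases mul_eq_zero.mp h6 with h7 | h7
  · exact absurd (sub_eq_zero.mp h7) h4
  · exact h7

theorem uOp_mul_of_supported (ℓ : ℕ) [NeZero ℓ] (f g : LaurentSeries R)
    (hf : ∀ k : ℤ, ¬ (ℓ : ℤ) ∣ k → f.coeff k = 0)
    (hg : ∀ k : ℤ, ¬ (ℓ : ℤ) ∣ k → g.coeff k = 0) :
    uOp ℓ (f * g) = uOp ℓ f * uOp ℓ g := by
  have h1 := qExpand_uOp ℓ f hf
  have h2 := qExpand_uOp ℓ g hg
  calc uOp ℓ (f * g) = uOp ℓ (qExpand R ℓ (uOp ℓ f) * qExpand R ℓ (uOp ℓ g)) := by rw [h1, h2]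
    _ = uOp ℓ (qExpand R ℓ (uOp ℓ f * uOp ℓ g)) := by rw [map_mul]
    _ = uOp ℓ f * uOp ℓ g := uOp_qExpand ℓ _

/-- The formal multiplicative Hecke operator with diamond is multiplicative (for a primitive
root of unity over a field). -/
theorem heckeMulD_mul {K : Type*} [Field K] (ℓ : ℕ) [NeZero ℓ] (ζ : Kˣ)
    (hζ : IsPrimitiveRoot (ζ : K) ℓ) (u u' v v' : LaurentSeries K) :
    heckeMulD ℓ ζ (u * u') (v * v') = heckeMulD ℓ ζ u v * heckeMulD ℓ ζ u' v' := by
  have h1 : ∏ b ∈ Finset.range ℓ, tw (ζ ^ b) (u * u')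
      = (∏ b ∈ Finset.range ℓ, tw (ζ ^ b) u) * ∏ b ∈ Finset.range ℓ, tw (ζ ^ b) u' := by
    rw [← Finset.prod_mul_distrib]
    exact Finset.prod_congr rfl fun b _ => tw_mul _ _ _
  rw [heckeMulD, heckeMulD, heckeMulD, h1,
    uOp_mul_of_supported ℓ _ _ (prod_tw_coeff_eq_zero ℓ ζ hζ u) (prod_tw_coeff_eq_zero ℓ ζ hζ u'),
    map_mul]
  ring

end Formal

/-! ### Roots of unity in a place of `ℚ̄` -/

section Zeta

variable (A : ValuationSubring Qb)

/-- A place of `ℚ̄` contains a primitive `ℓ`-th root of unity, as a unit. -/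
theorem exists_unit_primitiveRoot (ℓ : ℕ) [NeZero ℓ] :
    ∃ ζ : Aˣ, IsPrimitiveRoot ((ζ : A) : Qb) ℓ := by
  have hℓ : ℓ ≠ 0 := NeZero.ne ℓ
  have : NeZero ((ℓ : ℕ) : Qb) := ⟨by exact_mod_cast hℓ⟩
  obtain ⟨ζ, hζ⟩ := IsAlgClosed.exists_root (Polynomial.cyclotomic ℓ Qb)
    (by
      rw [Polynomial.degree_cyclotomic]
      exact_mod_cast (Nat.totient_pos.mpr (Nat.pos_of_ne_zero hℓ)).ne')
  rw [Polynomial.isRoot_cyclotomic_iff] at hζ
  have hmem : ∀ z : Qb, z ^ ℓ = 1 → z ∈ A := by
    intro z hz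
    rcases A.mem_or_inv_mem z with h | h
    · exact h
    · have e : z = z⁻¹ ^ (ℓ - 1) := by
        have hz0 : z ≠ 0 := by
          rintro rfl
          rw [zero_pow hℓ] at hz
          exact zero_ne_one hz
        have h1 : z * z ^ (ℓ - 1) = 1 := by
          rw [← pow_succ', Nat.sub_add_cancel (Nat.one_le_iff_ne_zero.mpr hℓ), hz]
        rw [inv_pow]
        exact eq_inv_of_mul_eq_one_left h1
      rw [e]
      exact pow_mem h _
  have hζ1 : ζ ^ ℓ = 1 := hζ.pow_eq_one
  have hζi : (ζ⁻¹) ^ ℓ = 1 := by rw [inv_pow, hζ1, inv_one]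
  have hζ0 : ζ ≠ 0 := hζ.ne_zero hℓ
  refine ⟨⟨⟨ζ, hmem ζ hζ1⟩, ⟨ζ⁻¹, hmem ζ⁻¹ hζi⟩, Subtype.ext (mul_inv_cancel₀ hζ0),
    Subtype.ext (inv_mul_cancel₀ hζ0)⟩, hζ⟩

variable {A}

/-- A root of unity of order `ℓ` reduces to `1` in characteristic `ℓ`. -/
theorem residue_unit_eq_one {ℓ : ℕ} [Fact ℓ.Prime] [CharP (IsLocalRing.ResidueField A) ℓ]
    (ζ : Aˣ) (hζ : ((ζ : A) : Qb) ^ ℓ = 1) :
    Units.map (IsLocalRing.residue A : A →* IsLocalRing.ResidueField A) ζ = 1 := by
  apply Units.ext
  rw [Units.coe_map, Units.val_one]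
  have h1 : (ζ : A) ^ ℓ = 1 := Subtype.ext (by simpa using hζ)
  have h2 : (IsLocalRing.residue A (ζ : A)) ^ ℓ = 1 := by
    rw [← map_pow, h1, map_one]
  have h3 : frobenius (IsLocalRing.ResidueField A) ℓ (IsLocalRing.residue A (ζ : A))
      = frobenius (IsLocalRing.ResidueField A) ℓ 1 := by
    rw [frobenius_def, frobenius_def, h2, one_pow]
  exact frobenius_inj (IsLocalRing.ResidueField A) ℓ h3

end Zeta

/-! ### The coefficientwise Galois action on a stable subfield of `ℚ̄((q))` -/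

section Galois

variable (E : IntermediateField Qb (LaurentSeries Qb))

/-- `E` is stable under the coefficientwise action of `Gal(ℚ̄/ℚ)`. -/
def GalStable : Prop :=
  ∀ (σ : GalQ) (f : LaurentSeries Qb), f ∈ E → coeffMap (σ : Qb →+* Qb) f ∈ E

variable {E}

/-- The coefficientwise action of `σ` on a Galois-stable subfield, as a ring automorphism. -/
def galRingAut (hE : GalStable E) (σ : GalQ) : E ≃+* E where
  toFun x := ⟨coeffMap (σ : Qb →+* Qb) (x : LaurentSeries Qb), hE σ _ x.2⟩
  invFun x := ⟨coeffMap (σ.symm : Qb →+* Qb) (x : LaurentSeries Qb), hE σ.symm _ x.2⟩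
  left_inv x := Subtype.ext <| by
    show coeffMap (σ.symm : Qb →+* Qb) (coeffMap (σ : Qb →+* Qb) (x : LaurentSeries Qb))
      = (x : LaurentSeries Qb)
    rw [coeffMap_coeffMap,
      coeffMap_congr (g := RingHom.id Qb) (RingHom.ext fun a => σ.symm_apply_apply a)
        (x : LaurentSeries Qb),
      coeffMap_id]
  right_inv x := Subtype.ext <| by
    show coeffMap (σ : Qb →+* Qb) (coeffMap (σ.symm : Qb →+* Qb) (x : LaurentSeries Qb))
      = (x : LaurentSeries Qb)
    rw [coeffMap_coeffMap,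
      coeffMap_congr (g := RingHom.id Qb) (RingHom.ext fun a => σ.apply_symm_apply a)
        (x : LaurentSeries Qb),
      coeffMap_id]
  map_mul' x y :=
    Subtype.ext (map_mul (coeffMap (σ : Qb →+* Qb)) (x : LaurentSeries Qb) (y : LaurentSeries Qb))
  map_add' x y :=
    Subtype.ext (map_add (coeffMap (σ : Qb →+* Qb)) (x : LaurentSeries Qb) (y : LaurentSeries Qb))

theorem galRingAut_algebraMap (hE : GalStable E) (σ : GalQ) (a : Qb) :
    galRingAut hE σ (algebraMap Qb E a) = algebraMap Qb E (σ a) :=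
  Subtype.ext (coeffMap_algebraMap (σ : Qb →+* Qb) a)

/-- The coefficientwise Galois action on a Galois-stable subfield `E` of `ℚ̄((q))`, as a
homomorphism to the semilinear automorphisms of `E / ℚ̄` (the generic form of the Prelude's
`arithmeticGalois`). -/
def galOfStable (hE : GalStable E) : GalQ →* SemilinearAut Qb E where
  toFun σ := ⟨(galRingAut hE σ, σ.toRingEquiv), fun a => galRingAut_algebraMap hE σ a⟩
  map_one' := by
    refine Subtype.ext (Prod.ext (RingEquiv.ext fun x => Subtype.ext ?_) rfl)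
    show coeffMap ((1 : GalQ) : Qb →+* Qb) (x : LaurentSeries Qb) = (x : LaurentSeries Qb)
    rw [show ((1 : GalQ) : Qb →+* Qb) = RingHom.id Qb from RingHom.ext fun _ => rfl,
      coeffMap_id]
  map_mul' σ τ := by
    refine Subtype.ext (Prod.ext (RingEquiv.ext fun x => Subtype.ext ?_) rfl)
    show coeffMap ((σ * τ : GalQ) : Qb →+* Qb) (x : LaurentSeries Qb)
      = coeffMap (σ : Qb →+* Qb) (coeffMap (τ : Qb →+* Qb) (x : LaurentSeries Qb))
    rw [coeffMap_coeffMap]
    exact coeffMap_congr (RingHom.ext fun _ => rfl) _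

variable (E) in
/-- A homomorphism `gal` to the semilinear automorphisms of `E` *is* the coefficientwise Galois
action. -/
def GalCoeff (gal : GalQ →* SemilinearAut Qb E) : Prop :=
  ∀ (σ : GalQ) (x : E),
    ((gal σ • x : E) : LaurentSeries Qb) = coeffMap (σ : Qb →+* Qb) (x : LaurentSeries Qb)

theorem galCoeff_galOfStable (hE : GalStable E) : GalCoeff E (galOfStable hE) :=
  fun _ _ => rfl

end Galois

/-! ### Decomposition groups acting on integral series -/

section Decomp

variable {A : ValuationSubring Qb}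

/-- The restriction to `A` of an element of the decomposition group of `A`. -/
def decompHom (A : ValuationSubring Qb) (σ : GalQ) (hσ : σ ∈ A.decompositionSubgroup ℚ) :
    A →+* A :=
  (σ : Qb →+* Qb).restrict A A fun _ hx =>
    Fermat.Agent.Lib.helper6879.map_mem_of_mem_decompositionSubgroup hσ hx

theorem inc_decompHom (σ : GalQ) (hσ : σ ∈ A.decompositionSubgroup ℚ) (y : LaurentSeries A) :
    coeffMap A.subtype (coeffMap (decompHom A σ hσ) y)
      = coeffMap (σ : Qb →+* Qb) (coeffMap A.subtype y) := by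
  rw [coeffMap_coeffMap, coeffMap_coeffMap]
  exact coeffMap_congr (RingHom.ext fun _ => rfl) _

/-- Inertia does not change the reduction. -/
theorem red_decompHom_inertia (τ : GalQ) (hτ : τ ∈ A.inertiaSubgroupIn ℚ) (y : LaurentSeries A) :
    coeffMap (IsLocalRing.residue A) (coeffMap (decompHom A τ
      (Fermat.Agent.Lib.helper6879.mem_decompositionSubgroup_of_mem_inertiaSubgroupIn hτ)) y)
      = coeffMap (IsLocalRing.residue A) y := by
  rw [coeffMap_coeffMap]
  refine coeffMap_congr (RingHom.ext fun a => ?_) y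
  exact Fermat.Agent.Lib.helper6879.inertia_residue hτ a

/-- A Frobenius element acts on reductions by the coefficientwise Frobenius. -/
theorem red_decompHom_frobenius {p : ℕ} [Fact p.Prime] [CharP (IsLocalRing.ResidueField A) p]
    (σ : GalQ) (hσ : A.IsFrobeniusAt σ p) (y : LaurentSeries A) :
    coeffMap (IsLocalRing.residue A) (coeffMap (decompHom A σ hσ.mem_decompositionSubgroup) y)
      = coeffMap (frobenius (IsLocalRing.ResidueField A) p)
          (coeffMap (IsLocalRing.residue A) y) := by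
  rw [coeffMap_coeffMap, coeffMap_coeffMap]
  refine coeffMap_congr (RingHom.ext fun a => ?_) y
  exact Fermat.Agent.Lib.helper6879.IsFrobeniusAt_residue hσ a

theorem coeffMap_frobenius_ne_zero {p : ℕ} [Fact p.Prime]
    [CharP (IsLocalRing.ResidueField A) p]
    {z : LaurentSeries (IsLocalRing.ResidueField A)} (hz : z ≠ 0) :
    coeffMap (frobenius (IsLocalRing.ResidueField A) p) z ≠ 0 := by
  intro h0
  apply hz
  ext n
  have h1 := congrArg (fun s : LaurentSeries (IsLocalRing.ResidueField A) => s.coeff n) h0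
  simp only [coeffMap_coeff, HahnSeries.coeff_zero] at h1
  rw [HahnSeries.coeff_zero]
  exact (frobenius_inj (IsLocalRing.ResidueField A) p) (by rw [h1, map_zero])

end Decomp

/-! ### The Gauss ring at a place `A` of `ℚ̄`, with reductions -/

section Gauss

variable (A : ValuationSubring Qb)

/-- `GU A f r`: the Laurent series `f` over `ℚ̄` lies in the Gauss ring at `A` (it is a quotient
`ι X / ι Y` of two `A`-integral series with `red Y ≠ 0`) and `r = red X / red Y` is its
reduction. (Landed vocabulary: `f ∈ helper8991.gaussRing` and `gaussRho f = r`.) -/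
def GU (f : LaurentSeries Qb) (r : LaurentSeries (IsLocalRing.ResidueField A)) : Prop :=
  ∃ X Y : LaurentSeries A, coeffMap (IsLocalRing.residue A) Y ≠ 0 ∧
    f * coeffMap A.subtype Y = coeffMap A.subtype X ∧
    r * coeffMap (IsLocalRing.residue A) Y = coeffMap (IsLocalRing.residue A) X

variable {A}

theorem GU.of_inc (X : LaurentSeries A) :
    GU A (coeffMap A.subtype X) (coeffMap (IsLocalRing.residue A) X) :=
  ⟨X, 1, by simp, by simp, by simp⟩

theorem GU.one : GU A 1 1 := by
  have h := GU.of_inc (A := A) 1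
  rwa [map_one, map_one] at h

theorem GU.mul {f g : LaurentSeries Qb} {r s : LaurentSeries (IsLocalRing.ResidueField A)}
    (hf : GU A f r) (hg : GU A g s) : GU A (f * g) (r * s) := by
  obtain ⟨X, Y, hY, h, hr⟩ := hf
  obtain ⟨X', Y', hY', h', hs⟩ := hg
  refine ⟨X * X', Y * Y', ?_, ?_, ?_⟩
  · rw [map_mul]; exact mul_ne_zero hY hY'
  · rw [map_mul, map_mul, ← h, ← h']; ring
  · rw [map_mul, map_mul, ← hr, ← hs]; ring

theorem GU.pow {f : LaurentSeries Qb} {r : LaurentSeries (IsLocalRing.ResidueField A)}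
    (hf : GU A f r) (m : ℕ) : GU A (f ^ m) (r ^ m) := by
  induction m with
  | zero => rw [pow_zero, pow_zero]; exact GU.one
  | succ m ih => rw [pow_succ, pow_succ]; exact ih.mul hf

theorem GU.ne_zero {f : LaurentSeries Qb} {r : LaurentSeries (IsLocalRing.ResidueField A)}
    (hf : GU A f r) (hr : r ≠ 0) : f ≠ 0 := by
  obtain ⟨X, Y, hY, h, hrX⟩ := hf
  rintro rfl
  rw [zero_mul] at h
  have hX : coeffMap (IsLocalRing.residue A) X ≠ 0 := by
    rw [← hrX]; exact mul_ne_zero hr hY
  exact Fermat.Agent.S18.helper8991.inc_ne_zero A (IsLocalRing.residue A) hX h.symm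

theorem GU.inv {f : LaurentSeries Qb} {r : LaurentSeries (IsLocalRing.ResidueField A)}
    (hf : GU A f r) (hr : r ≠ 0) : GU A f⁻¹ r⁻¹ := by
  have hf0 := hf.ne_zero hr
  obtain ⟨X, Y, hY, h, hrX⟩ := hf
  have hX : coeffMap (IsLocalRing.residue A) X ≠ 0 := by
    rw [← hrX]; exact mul_ne_zero hr hY
  refine ⟨Y, X, hX, ?_, ?_⟩
  · rw [← h, ← mul_assoc, inv_mul_cancel₀ hf0, one_mul]
  · rw [← hrX, ← mul_assoc, inv_mul_cancel₀ hr, one_mul]

/-- The reduction is unique. -/
theorem GU.unique {f : LaurentSeries Qb} {r r' : LaurentSeries (IsLocalRing.ResidueField A)}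
    (hf : GU A f r) (hf' : GU A f r') : r = r' := by
  obtain ⟨X, Y, hY, h, hr⟩ := hf
  obtain ⟨X', Y', hY', h', hr'⟩ := hf'
  have h1 : X * Y' = X' * Y := by
    apply Fermat.Agent.S18.helper8991.inc_injective A
    rw [map_mul, map_mul, ← h, ← h']; ring
  have h2 := congrArg (coeffMap (IsLocalRing.residue A)) h1
  rw [map_mul, map_mul, ← hr, ← hr'] at h2
  have h3 : (r - r') * (coeffMap (IsLocalRing.residue A) Y * coeffMap (IsLocalRing.residue A) Y')
      = 0 := by
    linear_combination h2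
  rcases mul_eq_zero.mp h3 with h4 | h4
  · exact sub_eq_zero.mp h4
  · exact absurd h4 (mul_ne_zero hY hY')

/-- Multiplication by a unit constant of `A`. -/
theorem GU.of_C (a : A) :
    GU A (HahnSeries.C (a : Qb)) (HahnSeries.C (IsLocalRing.residue A a)) := by
  have h := GU.of_inc (A := A) (HahnSeries.C a)
  rwa [Fermat.Agent.S18.helper8991.inc_C, Fermat.Agent.S18.helper8991.red_C] at h

/-- The Gauss ring is stable under the decomposition group; on reductions an element `σ` acts
through any coefficient map `φ` of the residue field compatible with it. -/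
theorem GU.coeffMap_decomp (σ : GalQ) (hσ : σ ∈ A.decompositionSubgroup ℚ)
    (φ : IsLocalRing.ResidueField A →+* IsLocalRing.ResidueField A)
    (hφ : ∀ y : LaurentSeries A,
      coeffMap (IsLocalRing.residue A) (coeffMap (decompHom A σ hσ) y)
        = coeffMap φ (coeffMap (IsLocalRing.residue A) y))
    {f : LaurentSeries Qb} {r : LaurentSeries (IsLocalRing.ResidueField A)} (hf : GU A f r) :
    GU A (coeffMap (σ : Qb →+* Qb) f) (coeffMap φ r) := by
  obtain ⟨X, Y, hY, h, hr⟩ := hf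
  refine ⟨coeffMap (decompHom A σ hσ) X, coeffMap (decompHom A σ hσ) Y, ?_, ?_, ?_⟩
  · rw [hφ]
    intro h0
    apply hY
    have hinj : Function.Injective φ := φ.injective
    ext n
    have h1 := congrArg (fun s : LaurentSeries (IsLocalRing.ResidueField A) => s.coeff n) h0
    simp only [coeffMap_coeff, HahnSeries.coeff_zero] at h1
    rw [HahnSeries.coeff_zero, coeffMap_coeff]
    exact hinj (by rw [h1, map_zero])
  · rw [inc_decompHom, inc_decompHom, ← map_mul, h]
  · rw [hφ, hφ, ← map_mul, hr]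

theorem GU.coeffMap_inertia (τ : GalQ) (hτ : τ ∈ A.inertiaSubgroupIn ℚ)
    {f : LaurentSeries Qb} {r : LaurentSeries (IsLocalRing.ResidueField A)} (hf : GU A f r) :
    GU A (coeffMap (τ : Qb →+* Qb) f) r := by
  have h := GU.coeffMap_decomp τ
    (Fermat.Agent.Lib.helper6879.mem_decompositionSubgroup_of_mem_inertiaSubgroupIn hτ)
    (RingHom.id _) (fun y => by rw [red_decompHom_inertia τ hτ, coeffMap_id]) hf
  rwa [coeffMap_id] at h

theorem GU.coeffMap_frobenius {p : ℕ} [Fact p.Prime] [CharP (IsLocalRing.ResidueField A) p]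
    (σ : GalQ) (hσ : A.IsFrobeniusAt σ p)
    {f : LaurentSeries Qb} {r : LaurentSeries (IsLocalRing.ResidueField A)} (hf : GU A f r) :
    GU A (coeffMap (σ : Qb →+* Qb) f)
      (coeffMap (frobenius (IsLocalRing.ResidueField A) p) r) :=
  GU.coeffMap_decomp σ hσ.mem_decompositionSubgroup _
    (fun y => red_decompHom_frobenius σ hσ y) hf

/-- The formal multiplicative Hecke operator with diamond preserves the Gauss ring, with
reduction `s(q ^ p) * Frob(r)`. -/
theorem GU.heckeMulD {p : ℕ} [Fact p.Prime] [CharP (IsLocalRing.ResidueField A) p]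
    (ζ : Aˣ) (hζ : IsPrimitiveRoot ((ζ : A) : Qb) p)
    {f f' : LaurentSeries Qb} {r s : LaurentSeries (IsLocalRing.ResidueField A)}
    (hf : GU A f r) (hf' : GU A f' s) :
    GU A (heckeMulD p (Units.map (A.subtype : A →* Qb) ζ) f f')
      (qExpand (IsLocalRing.ResidueField A) p s
        * coeffMap (frobenius (IsLocalRing.ResidueField A) p) r) := by
  obtain ⟨X, Y, hY, h, hr⟩ := hf
  obtain ⟨X', Y', hY', h', hs⟩ := hf'
  have hζ' : IsPrimitiveRoot ((Units.map (A.subtype : A →* Qb) ζ : Qbˣ) : Qb) p := by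
    simpa using hζ
  have hredH : ∀ Z Z' : LaurentSeries A,
      coeffMap (IsLocalRing.residue A) (Fermat.Agent.S48.helper5530.heckeMulD p ζ Z Z')
        = qExpand (IsLocalRing.ResidueField A) p (coeffMap (IsLocalRing.residue A) Z')
          * coeffMap (frobenius (IsLocalRing.ResidueField A) p)
              (coeffMap (IsLocalRing.residue A) Z) := by
    intro Z Z'
    rw [coeffMap_heckeMulD, residue_unit_eq_one ζ hζ.pow_eq_one, heckeMulD_one_charP]
  refine ⟨Fermat.Agent.S48.helper5530.heckeMulD p ζ X X',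
    Fermat.Agent.S48.helper5530.heckeMulD p ζ Y Y', ?_, ?_, ?_⟩
  · rw [hredH]
    exact mul_ne_zero
      ((map_ne_zero_iff _ (qExpand_injective (R := IsLocalRing.ResidueField A) (N := p))).mpr hY')
      (coeffMap_frobenius_ne_zero hY)
  · rw [coeffMap_heckeMulD, coeffMap_heckeMulD, ← heckeMulD_mul p _ hζ', h, h']
  · rw [hredH, hredH, ← hr, ← hs, map_mul, map_mul]
    ring

end Gauss

/-! ### The Kummer form at `w = 1`, the normal form -/

section KummerForm

variable (E : IntermediateField Qb (LaurentSeries Qb))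

/-- **Kummer form at `w = 1`** for the field `E` at the place `A` of `ℚ̄` and the exponent `n`:
a function of `E` which is `≡ 1` at the Gauss valuation (a quotient of two `A`-integral series
with the same nonzero reduction) and whose divisor is divisible by `n` is a constant times an
`n`-th power. -/
def KF1 (A : ValuationSubring Qb) (n : ℕ) : Prop :=
  ∀ U : E, GU A (U : LaurentSeries Qb) 1 → (∀ P : Place Qb E, (n : ℤ) ∣ P.ord U) →
    ∃ (V : E) (c : Qb), U = algebraMap Qb E c * V ^ n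

/-- The two-function form of the Kummer form at `w = 1` (the shape of `helper3054.Stmt_KF0` at
`w = 1`, without the characteristic-`p` function field): two `A`-integral series OF `E` with
the same nonzero reduction whose quotient has divisor divisible by `n` differ by a constant
times an `n`-th power. -/
def KF1TwoFn (A : ValuationSubring Qb) (n : ℕ) : Prop :=
  ∀ (X Y : LaurentSeries A) (hX : coeffMap A.subtype X ∈ E) (hY : coeffMap A.subtype Y ∈ E),
    coeffMap (IsLocalRing.residue A) X = coeffMap (IsLocalRing.residue A) Y →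
    coeffMap (IsLocalRing.residue A) Y ≠ 0 →
    (∀ P : Place Qb E, (n : ℤ) ∣ P.ord (⟨_, hX⟩ : E) - P.ord (⟨_, hY⟩ : E)) →
    ∃ (V : E) (c : Qb), (⟨_, hX⟩ : E) = algebraMap Qb E c * V ^ n * ⟨_, hY⟩

/-- Every nonzero element of `E` is normalisable at `A` (a constant times a quotient of two
`A`-integral series with nonzero reductions; the two series need not lie in `E`). -/
def Normalizable (A : ValuationSubring Qb) : Prop :=
  ∀ f : LaurentSeries Qb, f ∈ E → f ≠ 0 →
    Fermat.Agent.S18.helper8991.IsNormalizable A (IsLocalRing.residue A) f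

/-- **Gauss normal form** for `E` at `A`: every nonzero element of `E` is a constant times a
quotient of two `A`-integral series OF `E` with nonzero reductions. -/
def HasNormalForm (A : ValuationSubring Qb) : Prop :=
  ∀ f : LaurentSeries Qb, f ∈ E → f ≠ 0 →
    ∃ (c : Qb) (X Y : LaurentSeries A), c ≠ 0 ∧
      coeffMap (IsLocalRing.residue A) X ≠ 0 ∧ coeffMap (IsLocalRing.residue A) Y ≠ 0 ∧
      coeffMap A.subtype X ∈ E ∧ coeffMap A.subtype Y ∈ E ∧
      f * coeffMap A.subtype Y = HahnSeries.C c * coeffMap A.subtype X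

variable {E} in
theorem HasNormalForm.normalizable {A : ValuationSubring Qb} (h : HasNormalForm E A) :
    Normalizable E A := by
  intro f hf hf0
  obtain ⟨c, X, Y, hc, hX, hY, -, -, hXY⟩ := h f hf hf0
  exact ⟨c, X, Y, hc, hX, hY, hXY⟩

/-- The Gauss normal form holds for every field generated over `ℚ̄` by series with finitely
generated coefficients (landed `helper8991.exists_normal_form_of_mem_adjoin`). -/
theorem hasNormalForm_of_adjoin (A : ValuationSubring Qb) {T : Set (LaurentSeries Qb)}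
    (hT : T ⊆ (Fermat.Agent.S18.helper8991.fgCoeff Qb : Set (LaurentSeries Qb)))
    (hE : E = IntermediateField.adjoin Qb T) : HasNormalForm E A := by
  intro f hf hf0
  rw [hE] at hf
  obtain ⟨c, X, Y, hc, hX, hY, hXm, hYm, h⟩ :=
    Fermat.Agent.S18.helper8991.exists_normal_form_of_mem_adjoin A (IsLocalRing.residue A) hT hf
      hf0
  have hle : (Algebra.adjoin Qb T : Set (LaurentSeries Qb)) ⊆ E := by
    rw [hE]
    exact IntermediateField.algebra_adjoin_le_adjoin Qb T
  exact ⟨c, X, Y, hc, hX, hY, hle hXm, hle hYm, h⟩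

variable {E} {A : ValuationSubring Qb}

theorem coe_algebraMap_inv_mul (c : Qb) (u : E) :
    (((algebraMap Qb E c)⁻¹ * u : E) : LaurentSeries Qb)
      = HahnSeries.C c⁻¹ * (u : LaurentSeries Qb) := by
  rw [← map_inv₀ (algebraMap Qb E) c, Fermat.Agent.S18.helper8991.C_eq_algebraMap]
  rfl

/-- A nonzero element of a normalisable field is a constant times a Gauss unit. -/
theorem exists_GU (hN : Normalizable E A) (u : E) (hu : u ≠ 0) :
    ∃ (c : Qb) (r : LaurentSeries (IsLocalRing.ResidueField A)), c ≠ 0 ∧ r ≠ 0 ∧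
      GU A (((algebraMap Qb E c)⁻¹ * u : E) : LaurentSeries Qb) r := by
  have hu0 : (u : LaurentSeries Qb) ≠ 0 := fun h => hu (Subtype.ext h)
  obtain ⟨c, X, Y, hc, hX, hY, h⟩ := hN u u.2 hu0
  refine ⟨c, coeffMap (IsLocalRing.residue A) X / coeffMap (IsLocalRing.residue A) Y, hc,
    div_ne_zero hX hY, X, Y, hY, ?_, div_mul_cancel₀ _ hY⟩
  rw [coe_algebraMap_inv_mul, mul_assoc, h, Fermat.Agent.S18.helper8991.C_inv_mul_C_mul hc]

/-- The Kummer form implies its two-function form. -/
theorem KF1.twoFn {n : ℕ} (h : KF1 E A n) : KF1TwoFn E A n := by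
  intro X Y hX hY hred hYne hord
  have hY0 : (⟨_, hY⟩ : E) ≠ 0 := fun h0 =>
    Fermat.Agent.S18.helper8991.inc_ne_zero A (IsLocalRing.residue A) hYne
      (congrArg (fun x : E => (x : LaurentSeries Qb)) h0)
  have hX0 : (⟨_, hX⟩ : E) ≠ 0 := fun h0 =>
    Fermat.Agent.S18.helper8991.inc_ne_zero A (IsLocalRing.residue A) (hred ▸ hYne)
      (congrArg (fun x : E => (x : LaurentSeries Qb)) h0)
  obtain ⟨U, hU⟩ : ∃ U : E, U = (⟨_, hX⟩ : E) * (⟨_, hY⟩ : E)⁻¹ := ⟨_, rfl⟩
  have hUY : U * (⟨_, hY⟩ : E) = ⟨_, hX⟩ := by rw [hU, inv_mul_cancel_right₀ hY0]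
  have hGU : GU A (U : LaurentSeries Qb) 1 :=
    ⟨X, Y, hYne, congrArg (fun x : E => (x : LaurentSeries Qb)) hUY, by rw [one_mul, hred]⟩
  have hordU : ∀ P : Place Qb E, (n : ℤ) ∣ P.ord U := by
    intro P
    have h1 : P.ord U = P.ord (⟨_, hX⟩ : E) - P.ord (⟨_, hY⟩ : E) := by
      rw [hU, P.ord_mul hX0 (inv_ne_zero hY0), P.ord_inv]; ring
    rw [h1]
    exact hord P
  obtain ⟨V, c, hV⟩ := h U hGU hordU
  exact ⟨V, c, by rw [← hUY, hV]⟩

/-- Conversely, with the Gauss normal form the two-function form implies the Kummer form. -/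
theorem kf1_of_twoFn (hN : HasNormalForm E A) {n : ℕ} (h : KF1TwoFn E A n) : KF1 E A n := by
  intro U hGU hord
  have hU0 : (U : LaurentSeries Qb) ≠ 0 := hGU.ne_zero one_ne_zero
  obtain ⟨c, X0, Y0, hc, hX0, hY0, hX0m, hY0m, h0⟩ := hN U U.2 hU0
  -- `U = C c * ι X0 / ι Y0`, and `GU (ι X0 / ι Y0) (red X0 / red Y0)`: so `C c` is a Gauss unit
  have hY0ne : coeffMap A.subtype Y0 ≠ 0 :=
    Fermat.Agent.S18.helper8991.inc_ne_zero A (IsLocalRing.residue A) hY0
  have hX0ne : coeffMap A.subtype X0 ≠ 0 :=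
    Fermat.Agent.S18.helper8991.inc_ne_zero A (IsLocalRing.residue A) hX0
  have hq : GU A ((U : LaurentSeries Qb) * coeffMap A.subtype Y0)
      (1 * coeffMap (IsLocalRing.residue A) Y0) := hGU.mul (GU.of_inc Y0)
  rw [h0, one_mul] at hq
  -- `GU (C c) (red Y0 / red X0)`
  have hC : GU A (HahnSeries.C c)
      (coeffMap (IsLocalRing.residue A) Y0 * (coeffMap (IsLocalRing.residue A) X0)⁻¹) := by
    have h1 := hq.mul ((GU.of_inc X0).inv hX0)
    rwa [mul_assoc, mul_inv_cancel₀ hX0ne, mul_one] at h1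
  -- hence `c ∈ A`
  have hcA : c ∈ A := by
    rcases A.mem_or_inv_mem c with hcA | hcA
    · exact hcA
    · -- `c⁻¹ ∈ A`: then `C c⁻¹` has an integral reduction which is a unit, so `c⁻¹` is a unit
      have hCi := hC.inv (mul_ne_zero hY0 (inv_ne_zero hX0))
      have hCi' := GU.of_C (A := A) ⟨c⁻¹, hcA⟩
      have e : (HahnSeries.C c : LaurentSeries Qb)⁻¹ = HahnSeries.C (c⁻¹) := by
        rw [eq_comm, ← mul_eq_one_iff_eq_inv₀ ((map_ne_zero _).mpr hc), ← map_mul,
          inv_mul_cancel₀ hc, map_one]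
      rw [e] at hCi
      have h2 := hCi'.unique hCi
      have h3 : IsLocalRing.residue A ⟨c⁻¹, hcA⟩ ≠ 0 := by
        intro h4
        rw [h4, map_zero] at h2
        exact (inv_ne_zero (mul_ne_zero hY0 (inv_ne_zero hX0))) h2.symm
      have h5 : IsUnit (⟨c⁻¹, hcA⟩ : A) := by
        by_contra hnu
        exact h3 ((IsLocalRing.residue_eq_zero_iff _).mpr
          ((IsLocalRing.mem_maximalIdeal _).mpr hnu))
      obtain ⟨v, hv⟩ := h5
      have h7 : ((v : A) : Qb) = c⁻¹ := by rw [hv]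
      have h8 : (((v⁻¹ : Aˣ) : A) : Qb) * ((v : A) : Qb) = 1 := by
        rw [← MulMemClass.coe_mul, Units.inv_mul]; rfl
      rw [h7] at h8
      have h9 : (((v⁻¹ : Aˣ) : A) : Qb) = c := (mul_inv_eq_one₀ hc).mp h8
      rw [← h9]
      exact SetLike.coe_mem _
  -- the integral series `X1 := C c * X0` of `E`
  obtain ⟨X1, hX1⟩ : ∃ X1 : LaurentSeries A, X1 = HahnSeries.C (⟨c, hcA⟩ : A) * X0 := ⟨_, rfl⟩
  have hX1inc : coeffMap A.subtype X1 = HahnSeries.C c * coeffMap A.subtype X0 := by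
    rw [hX1, map_mul, Fermat.Agent.S18.helper8991.inc_C]
  have hX1m : coeffMap A.subtype X1 ∈ E := by
    rw [hX1inc, Fermat.Agent.S18.helper8991.C_eq_algebraMap]
    exact mul_mem (E.algebraMap_mem c) hX0m
  have hUX1 : (U : LaurentSeries Qb) * coeffMap A.subtype Y0 = coeffMap A.subtype X1 := by
    rw [hX1inc, h0]
  have hred : coeffMap (IsLocalRing.residue A) X1 = coeffMap (IsLocalRing.residue A) Y0 := by
    have h1 : GU A (U : LaurentSeries Qb)
        (coeffMap (IsLocalRing.residue A) X1 / coeffMap (IsLocalRing.residue A) Y0) :=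
      ⟨X1, Y0, hY0, hUX1, div_mul_cancel₀ _ hY0⟩
    have h2 := h1.unique hGU
    rwa [div_eq_one_iff_eq hY0] at h2
  have hY0E : (⟨_, hY0m⟩ : E) ≠ 0 := fun h1 =>
    hY0ne (congrArg (fun x : E => (x : LaurentSeries Qb)) h1)
  have hUY : U * (⟨_, hY0m⟩ : E) = ⟨_, hX1m⟩ := Subtype.ext hUX1
  have hord' : ∀ P : Place Qb E,
      (n : ℤ) ∣ P.ord (⟨_, hX1m⟩ : E) - P.ord (⟨_, hY0m⟩ : E) := by
    intro P
    have hU0' : U ≠ 0 := fun h1 => hU0 (congrArg (fun x : E => (x : LaurentSeries Qb)) h1)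
    have h1 : P.ord (⟨_, hX1m⟩ : E) - P.ord (⟨_, hY0m⟩ : E) = P.ord U := by
      rw [← hUY, P.ord_mul hU0' hY0E]; ring
    rw [h1]
    exact hord P
  obtain ⟨V, c', hV⟩ := h X1 Y0 hX1m hY0m hred hY0 hord'
  refine ⟨V, c', ?_⟩
  apply mul_right_cancel₀ hY0E
  rw [hUY, hV]

end KummerForm

/-! ### (U): inertia acts trivially -/

section Main

variable {E : IntermediateField Qb (LaurentSeries Qb)} {A : ValuationSubring Qb}
  (gal : GalQ →* SemilinearAut Qb E) (hgal : GalCoeff E gal)

include hgal in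
/-- **(U), function form.** If the Kummer form `KF1 E A n` holds, then for every element `τ` of
the inertia group at `A` and every `n`-Kummer function `u` of `E`, the conjugate `τ u` is `u`
times a constant times an `n`-th power. -/
theorem inertia_smul_fn_of_kf1 (hN : Normalizable E A) {n : ℕ} (hKF : KF1 E A n)
    (τ : GalQ) (hτ : τ ∈ A.inertiaSubgroupIn ℚ) {u : E} (hu : IsKummer Qb n u) :
    ∃ (V : E) (c : Qb), gal τ • u = u * (algebraMap Qb E c * V ^ n) := by
  obtain ⟨c0, r, hc0, hr, hGU⟩ := exists_GU hN u hu.ne_zero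
  obtain ⟨g, hg⟩ : ∃ g : SemilinearAut Qb E, g = gal τ := ⟨_, rfl⟩
  rw [← hg]
  have hC0 : algebraMap Qb E c0 ≠ 0 := (map_ne_zero (algebraMap Qb E)).mpr hc0
  have hCi0 : (algebraMap Qb E c0)⁻¹ ≠ 0 := inv_ne_zero hC0
  obtain ⟨x, hx⟩ : ∃ x : E, x = (algebraMap Qb E c0)⁻¹ * u := ⟨_, rfl⟩
  rw [← hx] at hGU
  have hx0 : x ≠ 0 := by rw [hx]; exact mul_ne_zero hCi0 hu.ne_zero
  have hCv : ∀ v : Place Qb E, v.ord (algebraMap Qb E c0)⁻¹ = 0 := fun v => by
    rw [v.ord_inv, ord_algebraMap, neg_zero]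
  have hxK : IsKummer Qb n x := by
    refine ⟨hx0, fun v => ?_⟩
    rw [hx, v.ord_mul hCi0 hu.ne_zero, hCv v, zero_add]
    exact hu.2 v
  have hgxK : IsKummer Qb n (g • x) := (isKummer_smul_iff g).mpr hxK
  -- `W = g x / x` reduces to `1`
  have hGUg : GU A ((g • x : E) : LaurentSeries Qb) r := by
    rw [hg, hgal τ x]
    exact hGU.coeffMap_inertia τ hτ
  obtain ⟨W, hW⟩ : ∃ W : E, W = g • x * x⁻¹ := ⟨_, rfl⟩
  have hGUW : GU A (W : LaurentSeries Qb) 1 := by
    have h1 := hGUg.mul (hGU.inv hr)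
    rw [mul_inv_cancel₀ hr] at h1
    rw [hW]
    exact h1
  have hordW : ∀ P : Place Qb E, (n : ℤ) ∣ P.ord W := by
    intro P
    rw [hW, P.ord_mul hgxK.ne_zero (inv_ne_zero hx0), P.ord_inv]
    exact dvd_add (hgxK.2 P) ((hxK.2 P).neg_right)
  obtain ⟨V, c', hV⟩ := hKF W hGUW hordW
  have hgx : g • x = x * (algebraMap Qb E c' * V ^ n) := by
    rw [← hV, hW, mul_comm, inv_mul_cancel_right₀ hx0]
  -- back to `u = c0 * x`
  have hux : u = algebraMap Qb E c0 * x := by rw [hx, mul_inv_cancel_left₀ hC0]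
  have hgc : g • algebraMap Qb E c0 = algebraMap Qb E (SemilinearAut.baseAut g c0) :=
    SemilinearAut.smul_algebraMap g c0
  refine ⟨V, SemilinearAut.baseAut g c0 * c0⁻¹ * c', ?_⟩
  have hc0' : algebraMap Qb E c0 * algebraMap Qb E c0⁻¹ = 1 := by
    rw [← map_mul, mul_inv_cancel₀ hc0, map_one]
  calc g • u = g • algebraMap Qb E c0 * g • x := by rw [hux, smul_mul']
    _ = algebraMap Qb E (SemilinearAut.baseAut g c0) * (x * (algebraMap Qb E c' * V ^ n)) := by
        rw [hgc, hgx]
    _ = (algebraMap Qb E c0 * x) * (algebraMap Qb E (SemilinearAut.baseAut g c0)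
          * (algebraMap Qb E c0 * algebraMap Qb E c0⁻¹)⁻¹ * algebraMap Qb E c0⁻¹
          * algebraMap Qb E c' * V ^ n) := by
        rw [hc0', inv_one, mul_one]
        have h1 : algebraMap Qb E c0 * algebraMap Qb E c0⁻¹ = 1 := hc0'
        calc algebraMap Qb E (SemilinearAut.baseAut g c0) * (x * (algebraMap Qb E c' * V ^ n))
            = (algebraMap Qb E c0 * algebraMap Qb E c0⁻¹)
                * (algebraMap Qb E (SemilinearAut.baseAut g c0)
                  * (x * (algebraMap Qb E c' * V ^ n))) := by rw [h1, one_mul]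
          _ = _ := by ring
    _ = u * (algebraMap Qb E (SemilinearAut.baseAut g c0 * c0⁻¹ * c') * V ^ n) := by
        rw [hc0', inv_one, mul_one, ← hux, map_mul, map_mul]

variable [HasPrincipalDivisors Qb E]

include hgal in
/-- **(U)** If the Kummer form `KF1 E A n` holds, the inertia group at the place `A` acts
trivially on the `n`-torsion of `Pic⁰(E)`. -/
theorem inertia_smul_eq_of_kf1 (hN : Normalizable E A) {n : ℕ} (hn0 : n ≠ 0)
    (hKF : KF1 E A n) (τ : GalQ) (hτ : τ ∈ A.inertiaSubgroupIn ℚ) (x : Pic0 Qb E)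
    (hx : n • x = 0) : gal τ • x = x := by
  have hxt : x ∈ Pic0.torsion Qb E n :=
    Pic0.mem_torsion.mpr (by rw [natCast_zsmul]; exact hx)
  obtain ⟨u, hu, rfl⟩ := exists_kummerClass_eq hn0 hxt
  obtain ⟨V, c, hV⟩ := inertia_smul_fn_of_kf1 gal hgal hN hKF τ hτ hu
  have hgu : IsKummer Qb n (gal τ • u) := (isKummer_smul_iff (gal τ)).mpr hu
  have hVc : algebraMap Qb E c * V ^ n ≠ 0 := by
    intro h0
    rw [h0, mul_zero] at hV
    exact hgu.ne_zero hV
  have hc' : algebraMap Qb E c ≠ 0 := left_ne_zero_of_mul hVc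
  have hV0 : V ≠ 0 := fun h => by
    rw [h, zero_pow hn0, mul_zero] at hVc
    exact hVc rfl
  rw [smul_kummerClass]
  exact (kummerClass_eq_iff hn0 hgu hu).mpr
    ⟨V, algebraMap Qb E c, hV0, hc', fun v => ord_algebraMap v c, hV⟩

end Main

/-! ### (ES): the Eichler–Shimura relation with a diamond -/

section ES

variable {E : IntermediateField Qb (LaurentSeries Qb)} {A : ValuationSubring Qb}

/-- **(hD)** The diamond `D` preserves the units of the Gauss ring at `A` (automatic once the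
Gauss place has a unique extension to `E`, see `diamondGauss_of_map_mem`). -/
def DiamondGauss (D : E ≃ₐ[Qb] E) (A : ValuationSubring Qb) : Prop :=
  ∀ (x : E) (r : LaurentSeries (IsLocalRing.ResidueField A)), GU A (x : LaurentSeries Qb) r →
    r ≠ 0 → ∃ s : LaurentSeries (IsLocalRing.ResidueField A), s ≠ 0 ∧
      GU A ((D x : E) : LaurentSeries Qb) s

/-- If the diamond maps the Gauss ring of `E` into itself, it preserves its units. -/
theorem diamondGauss_of_map_mem (D : E ≃ₐ[Qb] E)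
    (h : ∀ (x : E) (r : LaurentSeries (IsLocalRing.ResidueField A)),
      GU A (x : LaurentSeries Qb) r →
      ∃ s : LaurentSeries (IsLocalRing.ResidueField A), GU A ((D x : E) : LaurentSeries Qb) s) :
    DiamondGauss D A := by
  intro x r hx hr
  have hx0 : x ≠ 0 := fun h0 => hx.ne_zero hr (by rw [h0]; rfl)
  obtain ⟨s, hs⟩ := h x r hx
  obtain ⟨s', hs'⟩ := h x⁻¹ r⁻¹ (hx.inv hr)
  refine ⟨s, ?_, hs⟩
  have h1 : GU A ((D x : E) * (D x⁻¹ : E) : LaurentSeries Qb) (s * s') := hs.mul hs'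
  have h2 : ((D x : E) : LaurentSeries Qb) * ((D x⁻¹ : E) : LaurentSeries Qb) = 1 := by
    have h3 : D x * D x⁻¹ = 1 := by rw [← _root_.map_mul, mul_inv_cancel₀ hx0, map_one]
    exact congrArg (fun y : E => (y : LaurentSeries Qb)) h3
  rw [h2] at h1
  have h4 := h1.unique GU.one
  intro hs0
  rw [hs0, zero_mul] at h4
  exact zero_ne_one h4

/-- **(hT)** `q`-expansion of the multiplicative Hecke operator `T` with diamond `D`:
`(T u)(q) = (D u)(q ^ p) * U_p (∏_{b < p} u(ζ ^ b q))` for every primitive `p`-th root of unity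
`ζ` (the `Stmt_NormQ` of S29 with the diamond inserted). -/
def HeckeQExp (p : ℕ) [NeZero p] (D : E ≃ₐ[Qb] E) (T : E → E) : Prop :=
  ∀ ζ : Qbˣ, IsPrimitiveRoot (ζ : Qb) p → ∀ u : E,
    ((T u : E) : LaurentSeries Qb)
      = heckeMulD p ζ (u : LaurentSeries Qb) ((D u : E) : LaurentSeries Qb)

theorem exists_unit_primitiveRoot_Qb (p : ℕ) [NeZero p] :
    ∃ ζ : Qbˣ, IsPrimitiveRoot (ζ : Qb) p := by
  obtain ⟨ζ, hζ⟩ := exists_unit_primitiveRoot (⊤ : ValuationSubring Qb) p
  exact ⟨Units.map ((⊤ : ValuationSubring Qb).subtype : (⊤ : ValuationSubring Qb) →* Qb) ζ,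
    by simpa using hζ⟩

/-- A multiplicative Hecke operator with the formal `q`-expansion is multiplicative. -/
theorem HeckeQExp.map_mul {p : ℕ} [NeZero p] {D : E ≃ₐ[Qb] E} {T : E → E}
    (hT : HeckeQExp p D T) (x y : E) : T (x * y) = T x * T y := by
  obtain ⟨ζ, hζ⟩ := exists_unit_primitiveRoot_Qb p
  apply Subtype.ext
  rw [hT ζ hζ (x * y), _root_.map_mul D x y]
  show heckeMulD p ζ ((x : LaurentSeries Qb) * (y : LaurentSeries Qb))
      (((D x : E) : LaurentSeries Qb) * ((D y : E) : LaurentSeries Qb))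
    = ((T x : E) : LaurentSeries Qb) * ((T y : E) : LaurentSeries Qb)
  rw [heckeMulD_mul p ζ hζ, ← hT ζ hζ x, ← hT ζ hζ y]

theorem tw_C {R : Type*} [CommRing R] (c : Rˣ) (a : R) :
    tw c (HahnSeries.C a : LaurentSeries R) = HahnSeries.C a := by
  ext n
  show ((c ^ n : Rˣ) : R) * (HahnSeries.single (0 : ℤ) a).coeff n
    = (HahnSeries.single (0 : ℤ) a).coeff n
  rw [HahnSeries.coeff_single]
  split_ifs with h
  · rw [h, zpow_zero, Units.val_one, one_mul]
  · rw [mul_zero]

theorem uOp_C {R : Type*} [CommRing R] (ℓ : ℕ) [NeZero ℓ] (a : R) :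
    uOp ℓ (HahnSeries.C a : LaurentSeries R) = HahnSeries.C a := by
  ext n
  show (HahnSeries.single (0 : ℤ) a).coeff ((ℓ : ℤ) * n) = (HahnSeries.single (0 : ℤ) a).coeff n
  rw [HahnSeries.coeff_single, HahnSeries.coeff_single]
  have hℓ : (ℓ : ℤ) ≠ 0 := by exact_mod_cast NeZero.ne ℓ
  by_cases h : n = 0
  · rw [h, mul_zero, if_pos rfl]
  · rw [if_neg h, if_neg (mul_ne_zero hℓ h)]

/-- The formal Hecke operator on constants: `c ↦ c ^ (ℓ + 1)`. -/
theorem heckeMulD_C {R : Type*} [CommRing R] (ℓ : ℕ) [NeZero ℓ] (ζ : Rˣ) (a : R) :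
    heckeMulD ℓ ζ (HahnSeries.C a : LaurentSeries R) (HahnSeries.C a)
      = HahnSeries.C (a ^ (ℓ + 1)) := by
  have h1 : ∏ b ∈ Finset.range ℓ, tw (ζ ^ b) (HahnSeries.C a : LaurentSeries R)
      = HahnSeries.C (a ^ ℓ) := by
    rw [Finset.prod_congr rfl fun b _ => tw_C (ζ ^ b) a, Finset.prod_const, Finset.card_range,
      ← map_pow]
  rw [heckeMulD, h1, uOp_C, qExpand_C, ← map_mul, pow_succ']

/-- A multiplicative Hecke operator with the formal `q`-expansion maps constants to
constants. -/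
theorem HeckeQExp.map_algebraMap {p : ℕ} [NeZero p] {D : E ≃ₐ[Qb] E} {T : E → E}
    (hT : HeckeQExp p D T) (c : Qb) :
    T (algebraMap Qb E c) = algebraMap Qb E (c ^ (p + 1)) := by
  obtain ⟨ζ, hζ⟩ := exists_unit_primitiveRoot_Qb p
  apply Subtype.ext
  rw [hT ζ hζ (algebraMap Qb E c), D.commutes]
  show heckeMulD p ζ (algebraMap Qb (LaurentSeries Qb) c) (algebraMap Qb (LaurentSeries Qb) c)
    = algebraMap Qb (LaurentSeries Qb) (c ^ (p + 1))
  rw [← Fermat.Agent.S18.helper8991.C_eq_algebraMap, ← Fermat.Agent.S18.helper8991.C_eq_algebraMap,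
    heckeMulD_C]

theorem isKummer_algEquiv (D : E ≃ₐ[Qb] E) {n : ℕ} {u : E} (hu : IsKummer Qb n u) :
    IsKummer Qb n (D u) := by
  have h := (isKummer_smul_iff (SemilinearAut.ofAlgAut D) (n := n) (u := u)).mpr hu
  rwa [SemilinearAut.ofAlgAut_smul] at h

variable (gal : GalQ →* SemilinearAut Qb E) (hgal : GalCoeff E gal)
  {p : ℕ} [Fact p.Prime] [CharP (IsLocalRing.ResidueField A) p]

include hgal in
/-- **(ES), function form for a Gauss unit.** For a Frobenius `σ` at `A ∣ p`, an `n`-Kummer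
function `x` of `E` which is a unit of the Gauss ring at `A` satisfies
`σ² x * (D x) ^ p = σ (T x) * (c * V ^ n)`. -/
theorem frobenius_quadratic_fn_of_GU_elt {n : ℕ} (hKF : KF1 E A n)
    {D : E ≃ₐ[Qb] E} {T : E → E} (hD : DiamondGauss D A) (hT : HeckeQExp p D T)
    (σ : GalQ) (hσ : A.IsFrobeniusAt σ p) {x : E} (hx : IsKummer Qb n x)
    (hTx : IsKummer Qb n (T x))
    {r : LaurentSeries (IsLocalRing.ResidueField A)} (hr : r ≠ 0)
    (hGU : GU A (x : LaurentSeries Qb) r) :
    ∃ (V : E) (c : Qb),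
      gal σ • gal σ • x * (D x) ^ p = gal σ • (T x) * (algebraMap Qb E c * V ^ n) := by
  obtain ⟨g, hg⟩ : ∃ g : SemilinearAut Qb E, g = gal σ := ⟨_, rfl⟩
  rw [← hg]
  have hFr : ∀ (y : E) (t : LaurentSeries (IsLocalRing.ResidueField A)),
      GU A (y : LaurentSeries Qb) t → GU A ((g • y : E) : LaurentSeries Qb)
        (coeffMap (frobenius (IsLocalRing.ResidueField A) p) t) := by
    intro y t hy
    rw [hg, hgal σ y]
    exact hy.coeffMap_frobenius σ hσ
  obtain ⟨s, hs, hGUD⟩ := hD x r hGU hr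
  obtain ⟨ζ, hζ⟩ := exists_unit_primitiveRoot A p
  -- the Hecke transform
  have hGUT : GU A ((T x : E) : LaurentSeries Qb)
      (qExpand (IsLocalRing.ResidueField A) p s
        * coeffMap (frobenius (IsLocalRing.ResidueField A) p) r) := by
    rw [hT (Units.map (A.subtype : A →* Qb) ζ) (by simpa using hζ) x]
    exact GU.heckeMulD ζ hζ hGU hGUD
  have hfr0 : coeffMap (frobenius (IsLocalRing.ResidueField A) p) r ≠ 0 :=
    coeffMap_frobenius_ne_zero hr
  have hffr0 : coeffMap (frobenius (IsLocalRing.ResidueField A) p)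
      (coeffMap (frobenius (IsLocalRing.ResidueField A) p) r) ≠ 0 :=
    coeffMap_frobenius_ne_zero hfr0
  have hGU2 := hFr _ _ (hFr x r hGU)
  have hGUgT := hFr _ _ hGUT
  -- the reduction of `g (T x)`
  have hredT : coeffMap (frobenius (IsLocalRing.ResidueField A) p)
        (qExpand (IsLocalRing.ResidueField A) p s
          * coeffMap (frobenius (IsLocalRing.ResidueField A) p) r)
      = s ^ p * coeffMap (frobenius (IsLocalRing.ResidueField A) p)
          (coeffMap (frobenius (IsLocalRing.ResidueField A) p) r) := by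
    rw [_root_.map_mul, coeffMap_qExpand,
      Fermat.Agent.Lib.helper7516.qExpand_coeffMap_frobenius p]
  rw [hredT] at hGUgT
  have hsp : s ^ p * coeffMap (frobenius (IsLocalRing.ResidueField A) p)
      (coeffMap (frobenius (IsLocalRing.ResidueField A) p) r) ≠ 0 :=
    mul_ne_zero (pow_ne_zero p hs) hffr0
  have hgx : IsKummer Qb n (g • x) := (isKummer_smul_iff g).mpr hx
  have hggx : IsKummer Qb n (g • g • x) := (isKummer_smul_iff g).mpr hgx
  have hDx : IsKummer Qb n (D x) := isKummer_algEquiv D hx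
  have hgTx : IsKummer Qb n (g • T x) := (isKummer_smul_iff g).mpr hTx
  have hNum : IsKummer Qb n (g • g • x * (D x) ^ p) := hggx.mul (hDx.pow p)
  obtain ⟨W, hW⟩ : ∃ W : E, W = g • g • x * (D x) ^ p * (g • T x)⁻¹ := ⟨_, rfl⟩
  have hGUW : GU A (W : LaurentSeries Qb) 1 := by
    have h1 := (hGU2.mul (hGUD.pow p)).mul (hGUgT.inv hsp)
    have h2 : coeffMap (frobenius (IsLocalRing.ResidueField A) p)
          (coeffMap (frobenius (IsLocalRing.ResidueField A) p) r) * s ^ p
        * (s ^ p * coeffMap (frobenius (IsLocalRing.ResidueField A) p)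
          (coeffMap (frobenius (IsLocalRing.ResidueField A) p) r))⁻¹ = 1 := by
      rw [mul_comm (coeffMap (frobenius (IsLocalRing.ResidueField A) p)
        (coeffMap (frobenius (IsLocalRing.ResidueField A) p) r)) (s ^ p)]
      exact mul_inv_cancel₀ hsp
    rw [h2] at h1
    rw [hW]
    exact h1
  have hordW : ∀ P : Place Qb E, (n : ℤ) ∣ P.ord W := by
    intro P
    rw [hW, P.ord_mul hNum.ne_zero (inv_ne_zero hgTx.ne_zero), P.ord_inv]
    exact dvd_add (hNum.2 P) ((hgTx.2 P).neg_right)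
  obtain ⟨V, c, hV⟩ := hKF W hGUW hordW
  refine ⟨V, c, ?_⟩
  rw [← hV, hW, mul_comm (g • T x), inv_mul_cancel_right₀ hgTx.ne_zero]

include hgal in
/-- **(ES), function form for a Gauss unit**, with `T` preserving all Kummer functions. -/
theorem frobenius_quadratic_fn_of_GU {n : ℕ} (hKF : KF1 E A n)
    {D : E ≃ₐ[Qb] E} {T : E → E} (hD : DiamondGauss D A) (hT : HeckeQExp p D T)
    (hTK : ∀ u : E, IsKummer Qb n u → IsKummer Qb n (T u))
    (σ : GalQ) (hσ : A.IsFrobeniusAt σ p) {x : E} (hx : IsKummer Qb n x)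
    {r : LaurentSeries (IsLocalRing.ResidueField A)} (hr : r ≠ 0)
    (hGU : GU A (x : LaurentSeries Qb) r) :
    ∃ (V : E) (c : Qb),
      gal σ • gal σ • x * (D x) ^ p = gal σ • (T x) * (algebraMap Qb E c * V ^ n) :=
  frobenius_quadratic_fn_of_GU_elt gal hgal hKF hD hT σ hσ hx (hTK x hx) hr hGU

variable [HasPrincipalDivisors Qb E]

include hgal in
/-- **(ES)** For a prime `p`, a place `A` of `ℚ̄` over `p` and a Frobenius element `σ` at `A`:
if the Kummer form `KF1 E A n` holds, then for the multiplicative Hecke operator `T` with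
diamond `D` and every `n`-Kummer function `u` of `E`,
`σ² [u] - σ [T u] + p [D u] = 0` in `Pic⁰(E)`. -/
theorem frobenius_quadratic_of_kf1_elt (hN : Normalizable E A) {n : ℕ} (hn0 : n ≠ 0)
    (hKF : KF1 E A n) {D : E ≃ₐ[Qb] E} {T : E → E} (hD : DiamondGauss D A)
    (hT : HeckeQExp p D T)
    (σ : GalQ) (hσ : A.IsFrobeniusAt σ p) {u : E} (hu : IsKummer Qb n u)
    (hTu : IsKummer Qb n (T u)) :
    gal σ • gal σ • kummerClass Qb n u - gal σ • kummerClass Qb n (T u)
      + p • kummerClass Qb n (D u) = 0 := by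
  obtain ⟨c0, r, hc0, hr, hGU⟩ := exists_GU hN u hu.ne_zero
  have hC0 : algebraMap Qb E c0 ≠ 0 := (map_ne_zero (algebraMap Qb E)).mpr hc0
  have hCi0 : (algebraMap Qb E c0)⁻¹ ≠ 0 := inv_ne_zero hC0
  have hCv : ∀ v : Place Qb E, v.ord (algebraMap Qb E c0)⁻¹ = 0 := fun v => by
    rw [v.ord_inv, ord_algebraMap, neg_zero]
  -- the normalised function
  obtain ⟨u', hu'def⟩ : ∃ u' : E, u' = (algebraMap Qb E c0)⁻¹ * u := ⟨_, rfl⟩
  rw [← hu'def] at hGU
  have hu' : IsKummer Qb n u' := by
    rw [hu'def]; exact (isKummer_of_ord_eq_zero n hCi0 hCv).mul hu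
  have hcl : kummerClass Qb n u' = kummerClass Qb n u := by
    rw [hu'def]; exact kummerClass_mul_of_ord_eq_zero hCi0 hCv hu
  -- `T` and `D` on the normalised function
  have hci : (algebraMap Qb E c0)⁻¹ = algebraMap Qb E c0⁻¹ := (map_inv₀ _ _).symm
  have hT1 : T u' = algebraMap Qb E (c0⁻¹ ^ (p + 1)) * T u := by
    rw [hu'def, hT.map_mul, hci, hT.map_algebraMap]
  have hk0T : algebraMap Qb E (c0⁻¹ ^ (p + 1)) ≠ 0 :=
    (map_ne_zero (algebraMap Qb E)).mpr (pow_ne_zero _ (inv_ne_zero hc0))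
  have hTu' : IsKummer Qb n (T u') := by
    rw [hT1]
    exact (isKummer_of_ord_eq_zero n hk0T (fun v => ord_algebraMap v _)).mul hTu
  have hTcl : kummerClass Qb n (T u') = kummerClass Qb n (T u) := by
    rw [hT1]
    exact kummerClass_mul_of_ord_eq_zero hk0T (fun v => ord_algebraMap v _) hTu
  have hDcl : kummerClass Qb n (D u') = kummerClass Qb n (D u) := by
    have hD1 : D u' = algebraMap Qb E c0⁻¹ * D u := by
      rw [hu'def, _root_.map_mul, hci, D.commutes]
    have hk0 : algebraMap Qb E c0⁻¹ ≠ 0 :=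
      (map_ne_zero (algebraMap Qb E)).mpr (inv_ne_zero hc0)
    rw [hD1]
    exact kummerClass_mul_of_ord_eq_zero hk0 (fun v => ord_algebraMap v _)
      (isKummer_algEquiv D hu)
  rw [← hcl, ← hTcl, ← hDcl]
  obtain ⟨V, c, hV⟩ :=
    frobenius_quadratic_fn_of_GU_elt gal hgal hKF hD hT σ hσ hu' hTu' hr hGU
  obtain ⟨g, hg⟩ : ∃ g : SemilinearAut Qb E, g = gal σ := ⟨_, rfl⟩
  rw [← hg] at hV ⊢
  have hgu : IsKummer Qb n (g • u') := (isKummer_smul_iff g).mpr hu'
  have hggu : IsKummer Qb n (g • g • u') := (isKummer_smul_iff g).mpr hgu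
  have hDu : IsKummer Qb n (D u') := isKummer_algEquiv D hu'
  have hgTu : IsKummer Qb n (g • T u') := (isKummer_smul_iff g).mpr hTu'
  have hW : IsKummer Qb n (g • g • u' * (D u') ^ p) := hggu.mul (hDu.pow p)
  have hVc : algebraMap Qb E c * V ^ n ≠ 0 := by
    intro h0
    rw [h0, mul_zero] at hV
    exact hW.ne_zero hV
  have hc' : algebraMap Qb E c ≠ 0 := left_ne_zero_of_mul hVc
  have hV0 : V ≠ 0 := fun h => by
    rw [h, zero_pow hn0, mul_zero] at hVc
    exact hVc rfl
  have hcls : kummerClass Qb n (g • g • u' * (D u') ^ p) = kummerClass Qb n (g • T u') :=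
    (kummerClass_eq_iff hn0 hW hgTu).mpr
      ⟨V, algebraMap Qb E c, hV0, hc', fun v => ord_algebraMap v c, hV⟩
  rw [kummerClass_mul hggu (hDu.pow p), kummerClass_pow hDu] at hcls
  rw [smul_kummerClass, smul_kummerClass, smul_kummerClass, ← hcls]
  abel

include hgal in
/-- **(ES)**, class form, with `T` preserving all Kummer functions. -/
theorem frobenius_quadratic_of_kf1 (hN : Normalizable E A) {n : ℕ} (hn0 : n ≠ 0)
    (hKF : KF1 E A n) {D : E ≃ₐ[Qb] E} {T : E → E} (hD : DiamondGauss D A)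
    (hT : HeckeQExp p D T) (hTK : ∀ u : E, IsKummer Qb n u → IsKummer Qb n (T u))
    (σ : GalQ) (hσ : A.IsFrobeniusAt σ p) {u : E} (hu : IsKummer Qb n u) :
    gal σ • gal σ • kummerClass Qb n u - gal σ • kummerClass Qb n (T u)
      + p • kummerClass Qb n (D u) = 0 :=
  frobenius_quadratic_of_kf1_elt gal hgal hN hn0 hKF hD hT σ hσ hu (hTK u hu)

include hgal in
/-- **(ES), operator form on `Pic⁰(E)[n]`**: for class-level operators `Tcl`, `Dcl` compatible
with `T`, `D` on Kummer classes, `σ² x - σ (Tcl x) + p • Dcl x = 0` for every `n`-torsion class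
`x` and every Frobenius `σ` at `A ∣ p`. -/
theorem frobenius_quadratic_pic0_of_kf1 (hN : Normalizable E A) {n : ℕ} (hn0 : n ≠ 0)
    (hKF : KF1 E A n) {D : E ≃ₐ[Qb] E} {T : E → E} (hD : DiamondGauss D A)
    (hT : HeckeQExp p D T) (hTK : ∀ u : E, IsKummer Qb n u → IsKummer Qb n (T u))
    (Tcl Dcl : Pic0 Qb E → Pic0 Qb E)
    (hTcl : ∀ u : E, IsKummer Qb n u → kummerClass Qb n (T u) = Tcl (kummerClass Qb n u))
    (hDcl : ∀ u : E, IsKummer Qb n u → kummerClass Qb n (D u) = Dcl (kummerClass Qb n u))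
    (σ : GalQ) (hσ : A.IsFrobeniusAt σ p) (x : Pic0 Qb E) (hx : n • x = 0) :
    gal σ • gal σ • x - gal σ • Tcl x + p • Dcl x = 0 := by
  have hxt : x ∈ Pic0.torsion Qb E n :=
    Pic0.mem_torsion.mpr (by rw [natCast_zsmul]; exact hx)
  obtain ⟨u, hu, rfl⟩ := exists_kummerClass_eq hn0 hxt
  rw [← hTcl u hu, ← hDcl u hu]
  exact frobenius_quadratic_of_kf1 gal hgal hN hn0 hKF hD hT hTK σ hσ hu

include hgal in
/-- **(ES), operator form with the natural action of the diamond on `Pic⁰(E)`.** -/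
theorem frobenius_quadratic_pic0_of_kf1' (hN : Normalizable E A) {n : ℕ} (hn0 : n ≠ 0)
    (hKF : KF1 E A n) {D : E ≃ₐ[Qb] E} {T : E → E} (hD : DiamondGauss D A)
    (hT : HeckeQExp p D T) (hTK : ∀ u : E, IsKummer Qb n u → IsKummer Qb n (T u))
    (Tcl : Pic0 Qb E → Pic0 Qb E)
    (hTcl : ∀ u : E, IsKummer Qb n u → kummerClass Qb n (T u) = Tcl (kummerClass Qb n u))
    (σ : GalQ) (hσ : A.IsFrobeniusAt σ p) (x : Pic0 Qb E) (hx : n • x = 0) :
    gal σ • gal σ • x - gal σ • Tcl x + p • (D • x) = 0 :=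
  frobenius_quadratic_pic0_of_kf1 gal hgal hN hn0 hKF hD hT hTK Tcl (fun y => D • y) hTcl
    (fun u _ => (algEquiv_smul_kummerClass D n u).symm) σ hσ x hx

end ES

/-! ## Bridges to the landed vocabulary

* the Gauss valuation subring `helper8991.gaussSubring` of `E` and its reduction `gaussRed`;
* the Prelude carrier `laurentBaseChange ℚ̄ F₀` with `arithmeticGalois F₀`. -/

section Bridges

open Fermat.Agent.S18.helper8991 (gaussSubring gaussRed gaussRed_eq gaussRed_mul_red)

variable {E : IntermediateField Qb (LaurentSeries Qb)} {A : ValuationSubring Qb}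

/-- `Normalizable E A` as soon as `E` is contained in a field generated by series with finitely
generated coefficients (the generators need not lie in `E`). -/
theorem normalizable_of_le_adjoin (A : ValuationSubring Qb) {T : Set (LaurentSeries Qb)}
    (hT : T ⊆ (Fermat.Agent.S18.helper8991.fgCoeff Qb : Set (LaurentSeries Qb)))
    (hE : E ≤ IntermediateField.adjoin Qb T) : Normalizable E A := fun _ hf hf0 =>
  Fermat.Agent.S18.helper8991.isNormalizable_of_mem_adjoin A (IsLocalRing.residue A) hT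
    (hE hf) hf0

/-- The predicate `GU` in terms of the landed Gauss valuation subring of `E` and its reduction
map: `GU A x r ↔ x ∈ gaussSubring ∧ gaussRed x = r`. -/
theorem gu_iff_gaussRed (hN : Normalizable E A) (x : E)
    (r : LaurentSeries (IsLocalRing.ResidueField A)) :
    GU A (x : LaurentSeries Qb) r ↔
      ∃ h : x ∈ gaussSubring A (IsLocalRing.residue A) E hN,
        gaussRed A (IsLocalRing.residue A) E hN ⟨x, h⟩ = r := by
  constructor
  · rintro ⟨X, Y, hY, h1, h2⟩
    have hmem : x ∈ gaussSubring A (IsLocalRing.residue A) E hN := ⟨X, Y, hY, h1⟩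
    refine ⟨hmem, ?_⟩
    rw [gaussRed_eq A (IsLocalRing.residue A) E hN ⟨x, hmem⟩ hY h1, ← h2,
      mul_div_cancel_right₀ _ hY]
  · rintro ⟨hmem, rfl⟩
    obtain ⟨X, Y, hY, h1⟩ := hmem
    exact ⟨X, Y, hY, h1,
      gaussRed_mul_red A (IsLocalRing.residue A) E hN ⟨x, ⟨X, Y, hY, h1⟩⟩ hY h1⟩

/-- The Kummer form `KF1` in the vocabulary of the landed Gauss valuation subring: every element
`U` of the Gauss ring of `E` at `A` with reduction `1` whose divisor is divisible by `n` is a
constant times an `n`-th power. -/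
theorem kf1_iff_gaussRed (hN : Normalizable E A) (n : ℕ) :
    KF1 E A n ↔
      ∀ U : ↥(gaussSubring A (IsLocalRing.residue A) E hN),
        gaussRed A (IsLocalRing.residue A) E hN U = 1 →
        (∀ P : Place Qb E, (n : ℤ) ∣ P.ord (U : E)) →
        ∃ (V : E) (c : Qb), (U : E) = algebraMap Qb E c * V ^ n := by
  constructor
  · intro h U hU hP
    exact h (U : E) ((gu_iff_gaussRed hN (U : E) 1).mpr ⟨U.2, hU⟩) hP
  · intro h U hU hP
    obtain ⟨hmem, hred⟩ := (gu_iff_gaussRed hN U 1).mp hU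
    exact h ⟨U, hmem⟩ hred hP

/-- `DiamondGauss` from stability of the Gauss valuation subring under `D`. -/
theorem diamondGauss_of_gaussSubring (hN : Normalizable E A) (D : E ≃ₐ[Qb] E)
    (h : ∀ x : E, x ∈ gaussSubring A (IsLocalRing.residue A) E hN →
      D x ∈ gaussSubring A (IsLocalRing.residue A) E hN) : DiamondGauss D A := by
  refine diamondGauss_of_map_mem D (fun x r hx => ?_)
  obtain ⟨hmem, -⟩ := (gu_iff_gaussRed hN x r).mp hx
  exact ⟨_, (gu_iff_gaussRed hN (D x) _).mpr ⟨h x hmem, rfl⟩⟩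

/-- `DiamondGauss` from UNIQUENESS of the Gauss valuation: if `D` fixes a set `S ⊆ E` pointwise
and the Gauss valuation subring of `E` is the only valuation subring of `E` with the same trace
on `S` (e.g. `S` = the `Γ₀`-subfield, over whose Gauss valuation there is only one valuation of
`E`), then `D` preserves Gauss units. -/
theorem diamondGauss_of_unique (hN : Normalizable E A) (D : E ≃ₐ[Qb] E) (S : Set E)
    (hS : ∀ x ∈ S, D x = x)
    (huniq : ∀ W : ValuationSubring E,
      (∀ x ∈ S, x ∈ W ↔ x ∈ gaussSubring A (IsLocalRing.residue A) E hN) →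
      W = gaussSubring A (IsLocalRing.residue A) E hN) : DiamondGauss D A := by
  have hW := huniq ((gaussSubring A (IsLocalRing.residue A) E hN).comap (D : E →+* E))
    (fun x hx => by
      rw [ValuationSubring.mem_comap]
      show D x ∈ _ ↔ _
      rw [hS x hx])
  refine diamondGauss_of_gaussSubring hN D (fun x hx => ?_)
  rw [← hW] at hx
  exact hx

/-- The Prelude coefficientwise Galois action on `laurentBaseChange ℚ̄ F₀` is a `GalCoeff`. -/
theorem galCoeff_arithmeticGalois (F₀ : IntermediateField ℚ (LaurentSeries ℚ)) :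
    GalCoeff (laurentBaseChange Qb F₀) (arithmeticGalois F₀) := fun _ _ => rfl

end Bridges

end Fermat.Agent.S48.helper5530
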