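/-
S48, machine block M2 — the Gauss normal form for the `Γ₁(M)` field (helper5530).

The generators of `helper7300.gamma1FieldP K P M` (the `j(q^d)`, `d ∣ M`, and the normalised
differences `P · (x(u) - x(v))` of `x`-coordinates of `M`-torsion points of the Tate curve) have
their coefficients in a finitely generated `ℤ`-module.  Hence, at EVERY place `A` of `ℚ̄`, every
nonzero element of the `Γ₁(M)` field over `ℚ̄` is a constant times a quotient of two `A`-integral
series of the field with nonzero reduction (`HasNormalForm`), which is the hypothesis under which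
the two forms `KF1TwoFn` / `KF1` of the Kummer statement are equivalent and the hypothesis
`Normalizable` of (U) and (ES) in `helper5530_UnrESGen`.
-/
import Fermat.Agent.S48.helper5530_UnrESGen
import Fermat.Agent.S48.helper7300_Gamma1Field

set_option autoImplicit false

noncomputable section

namespace Fermat.Agent.S48.helper5530

open ModularCurve HahnSeries
open Fermat.Agent.S18.helper8991 (fgCoeff)
open Fermat.Agent.S48.helper7300

local notation "Qb" => AlgebraicClosure ℚ

section FG

variable {K : Type*} [Field K]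

/-- A power series whose coefficients lie in a finitely generated `ℤ`-module has finitely
generated coefficients as a Laurent series. -/
theorem ofPowerSeries_mem_fgCoeff (f : PowerSeries K) (N : Submodule ℤ K) (hN : N.FG)
    (h : ∀ n : ℕ, PowerSeries.coeff n f ∈ N) :
    HahnSeries.ofPowerSeries ℤ K f ∈ fgCoeff K := by
  refine ⟨N, hN, fun n => ?_⟩
  rcases lt_or_ge n 0 with hn | hn
  · rw [ofPowerSeries_coeff_of_neg _ hn]
    exact zero_mem _
  · obtain ⟨m, rfl⟩ := Int.eq_ofNat_of_zero_le hn
    rw [HahnSeries.ofPowerSeries_apply_coeff]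
    exact h m

/-- Integral power series. -/
theorem ofPowerSeries_zSer_mem_fgCoeff (P : PowerSeries ℤ) :
    HahnSeries.ofPowerSeries ℤ K (zSer K P) ∈ fgCoeff K := by
  refine ofPowerSeries_mem_fgCoeff _ (Submodule.span ℤ {1}) (Submodule.fg_span_singleton 1)
    (fun n => ?_)
  rw [zSer, PowerSeries.coeff_map]
  have h : (Int.castRingHom K) (PowerSeries.coeff n P) = (PowerSeries.coeff n P) • (1 : K) := by
    simp
  rw [h]
  exact Submodule.smul_mem _ _ (Submodule.subset_span rfl)

/-- The `ℤ`-module spanned by `x(u)` and the powers `u^i`, `i < M`. -/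
def rootModule (M : ℕ) (u : K) : Submodule ℤ K :=
  Submodule.span ℤ (insert (xv u) ((fun i : ℕ => u ^ i) '' Set.Iio M))

theorem rootModule_fg (M : ℕ) (u : K) : (rootModule M u).FG :=
  Submodule.fg_span (Set.Finite.insert _ ((Set.finite_Iio M).image _))

theorem xv_mem_rootModule (M : ℕ) (u : K) : xv u ∈ rootModule M u :=
  Submodule.subset_span (Set.mem_insert _ _)

theorem pow_mem_rootModule {M : ℕ} (hM : M ≠ 0) {u : K} (hu : u ^ M = 1) (d : ℕ) :
    u ^ d ∈ rootModule M u := by
  rw [pow_eq_pow_mod d hu]
  exact Submodule.subset_span (Set.mem_insert_of_mem _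
    ⟨d % M, Nat.mod_lt d (Nat.pos_of_ne_zero hM), rfl⟩)

theorem inv_pow_mem_rootModule {M : ℕ} (hM : M ≠ 0) {u : K} (hu : u ^ M = 1) (d : ℕ) :
    Ring.inverse u ^ d ∈ rootModule M u := by
  have h1 : u * u ^ (M - 1) = 1 := by
    rw [← pow_succ', Nat.sub_add_cancel (Nat.pos_of_ne_zero hM), hu]
  have h2 : Ring.inverse u = u ^ (M - 1) := by
    rw [Ring.inverse_eq_inv']
    exact inv_eq_of_mul_eq_one_right h1
  rw [h2, ← pow_mul]
  exact pow_mem_rootModule hM hu _

theorem wpCoeff_mem_rootModule {M : ℕ} (hM : M ≠ 0) {u : K} (hu : u ^ M = 1) (n : ℕ) :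
    wpCoeff u n ∈ rootModule M u := by
  rw [wpCoeff]
  refine Submodule.sum_mem _ (fun d _ => ?_)
  have h : (d : K) * (u ^ d + Ring.inverse u ^ d - 2)
      = d • (u ^ d + Ring.inverse u ^ d - (2 : ℕ) • u ^ 0) := by
    rw [nsmul_eq_mul, nsmul_eq_mul, pow_zero, mul_one]
    norm_num
  rw [h]
  exact Submodule.smul_of_tower_mem _ d
    (Submodule.sub_mem _
      (Submodule.add_mem _ (pow_mem_rootModule hM hu d) (inv_pow_mem_rootModule hM hu d))
      (Submodule.smul_of_tower_mem _ 2 (pow_mem_rootModule hM hu 0)))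

/-- The Weierstrass series at a root of unity has finitely generated coefficients. -/
theorem ofPowerSeries_wpSer_mem_fgCoeff {M : ℕ} (hM : M ≠ 0) {u : K} (hu : u ^ M = 1) :
    HahnSeries.ofPowerSeries ℤ K (wpSer u) ∈ fgCoeff K := by
  refine ofPowerSeries_mem_fgCoeff _ (rootModule M u) (rootModule_fg M u) (fun n => ?_)
  by_cases hn : n = 0
  · subst hn
    rw [coeff_wpSer_zero]
    exact xv_mem_rootModule M u
  · rw [coeff_wpSer_of_ne_zero u hn]
    exact wpCoeff_mem_rootModule hM hu n

/-- The generators `P · (x(u) - x(v))` at roots of unity have finitely generated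
coefficients. -/
theorem gen_mem_fgCoeff (P : PowerSeries ℤ) {M : ℕ} (hM : M ≠ 0) {u v : K} (hu : u ^ M = 1)
    (hv : v ^ M = 1) : gen K P u v ∈ fgCoeff K := by
  rw [gen_def, dSer, map_sub]
  exact mul_mem (ofPowerSeries_zSer_mem_fgCoeff P)
    (sub_mem (ofPowerSeries_wpSer_mem_fgCoeff hM hu) (ofPowerSeries_wpSer_mem_fgCoeff hM hv))

theorem gamma1Gens_subset_fgCoeff (P : PowerSeries ℤ) (M : ℕ) [NeZero M] :
    gamma1Gens K P M ⊆ (fgCoeff K : Set (LaurentSeries K)) := by
  rintro x ⟨u, v, hu, -, hv, -, rfl⟩
  exact gen_mem_fgCoeff P (NeZero.ne M) hu hv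

/-- All the generators of the `Γ₁(M)` field have finitely generated coefficients. -/
theorem gamma1_generators_subset_fgCoeff (P : PowerSeries ℤ) (M : ℕ) [NeZero M] :
    divisorExpansionsC K M ∪ gamma1Gens K P M ⊆ (fgCoeff K : Set (LaurentSeries K)) :=
  Set.union_subset (Fermat.Agent.S18.helper8991.divisorExpansionsC_subset_fgCoeff M)
    (gamma1Gens_subset_fgCoeff P M)

end FG

section Instance

variable (P : PowerSeries ℤ) (M : ℕ) [NeZero M] (A : ValuationSubring Qb)

/-- **Gauss normal form for the `Γ₁(M)` field over `ℚ̄`** (any normaliser `P`, any place `A`). -/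
theorem hasNormalForm_gamma1FieldP : HasNormalForm (gamma1FieldP Qb P M) A :=
  hasNormalForm_of_adjoin _ A (gamma1_generators_subset_fgCoeff P M) rfl

/-- **Gauss normal form for `helper7300.gamma1FieldBar M`.** -/
theorem hasNormalForm_gamma1FieldBar : HasNormalForm (gamma1FieldBar M) A :=
  hasNormalForm_gamma1FieldP phiZ M A

theorem normalizable_gamma1FieldBar : Normalizable (gamma1FieldBar M) A :=
  (hasNormalForm_gamma1FieldBar M A).normalizable

/-- The same for any presentation `E` of the `Γ₁(M)` field (e.g. `laurentBaseChange ℚ̄` of its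
rational points). -/
theorem hasNormalForm_of_eq_gamma1FieldBar {E : IntermediateField Qb (LaurentSeries Qb)}
    (hE : E = gamma1FieldBar M) : HasNormalForm E A := by
  rw [hE]
  exact hasNormalForm_gamma1FieldBar M A

/-- For the `Γ₁(M)` field the two forms of the Kummer statement are equivalent. -/
theorem kf1_gamma1FieldBar_iff (n : ℕ) :
    KF1 (gamma1FieldBar M) A n ↔ KF1TwoFn (gamma1FieldBar M) A n :=
  ⟨KF1.twoFn, kf1_of_twoFn (hasNormalForm_gamma1FieldBar M A)⟩

end Instance

end Fermat.Agent.S48.helper5530
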