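/-
S48, machine half (M1): the CONCRETE diamond-orbit instance over `ℚ̄` for the abstract half
`helper886.stmt_IgusaGamma1_of_orbit` of the leaf (M1-IGUSA) of `helper8782_SpecM1`
(helper4600; leaf S48-M1-ORBIT-QB = the `L = ℚ̄` half of (2c) of the M1 plan).

* a Mathlib-only orbit kit: for a finite group `G` of `K`-automorphisms of `E`, an embedding
  `φ : E → L` and a subfield `E0` of `L` containing the images of the `G`-fixed elements, the
  orbit polynomial `∏_g (X - φ (g y))` has coefficients in `E0` (`coeff_orbitPoly_mem`), and if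
  the stabiliser of `y` is trivial then `φ x ∈ E0(φ y)` for every `x`
  (`map_mem_adjoin_of_orbit`, Lagrange interpolation: no Galois theory is used);
* `HasDiamonds M`: the diamond data of the carrier `helper7300.gamma1FieldBar M` (a
  homomorphism `(ℤ/M)ˣ → Aut`, its values on the generators `gen ℚ̄ phiZ u v`, fixed field
  `F̄_M`) — the three facts (D1)(D2)(D3) supplied by the diamond instance of A2-GAL;
* `exists_orbit_instance`: from `HasDiamonds M`, a place `A` over `p ∤ M` and `r ∣ M`,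
  `r ∈ {2, 3}`: the orbit of the `A`-integral generator `phiZ · (x(ζ) - x(ζ^(M/r)))` under the
  diamonds, with pairwise distinct reductions, invariant orbit polynomial and
  `E = F̄_M(y)` — exactly the orbit binders of `helper886.igusaDatum_of_orbit`;
* `igusaGamma1_of_int_of_diamonds`: `Stmt_IntGamma1 → Stmt_IgusaGamma1` given `HasDiamonds M`
  (normalisability of the carrier: landed `helper5530.normalizable_gamma1FieldBar`).
-/
import Fermat.Agent.S48.helper886_IgusaAbs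
import Fermat.Agent.S48.helper5530_Gamma1Normal

set_option autoImplicit false
set_option linter.style.haveILetI false

noncomputable section

namespace Fermat.Agent.S48.helper4600

open Polynomial ModularCurve IntermediateField
open Fermat.Agent.S48.helper7300 (gen phiZ gamma1FieldBar)

local notation "Qb" => AlgebraicClosure ℚ

section Orbit

variable {K E L : Type*} [Field K] [Field E] [Field L] [Algebra K E] [Algebra K L]

/-- The orbit polynomial `∏_{g ∈ G} (X - g y)` is invariant under `G`. -/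
theorem map_orbitPoly (G : Subgroup (E ≃ₐ[K] E)) [Fintype G] (y : E) (τ : G) :
    (∏ g : G, (X - C ((g : E ≃ₐ[K] E) y))).map (((τ : E ≃ₐ[K] E) : E →ₐ[K] E) : E →+* E) =
      ∏ g : G, (X - C ((g : E ≃ₐ[K] E) y)) := by
  rw [Polynomial.map_prod]
  refine Fintype.prod_equiv (Equiv.mulLeft τ) _ _ (fun g => ?_)
  rw [Polynomial.map_sub, Polynomial.map_X, Polynomial.map_C]
  rfl

/-- The Lagrange numerator `∑_g g(x) ∏_{h ≠ g} (X - h y)`. -/
def lagNum (G : Subgroup (E ≃ₐ[K] E)) [Fintype G] [DecidableEq G] (y x : E) : E[X] :=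
  ∑ g : G, C ((g : E ≃ₐ[K] E) x) * ∏ h ∈ Finset.univ.erase g, (X - C ((h : E ≃ₐ[K] E) y))

theorem map_lagNum (G : Subgroup (E ≃ₐ[K] E)) [Fintype G] [DecidableEq G] (y x : E) (τ : G) :
    (lagNum G y x).map (((τ : E ≃ₐ[K] E) : E →ₐ[K] E) : E →+* E) = lagNum G y x := by
  unfold lagNum
  rw [Polynomial.map_sum]
  refine Fintype.sum_equiv (Equiv.mulLeft τ) _ _ (fun g => ?_)
  rw [Polynomial.map_mul, Polynomial.map_C, Polynomial.map_prod]
  congr 1
  refine Finset.prod_bij (fun h _ => τ * h) ?_ ?_ ?_ ?_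
  · intro h hh
    rw [Finset.mem_erase] at hh ⊢
    exact ⟨fun h1 => hh.1 (mul_left_cancel h1), Finset.mem_univ _⟩
  · intro a _ b _ hab
    exact mul_left_cancel hab
  · intro b hb
    rw [Finset.mem_erase] at hb
    refine ⟨τ⁻¹ * b, ?_, by simp⟩
    rw [Finset.mem_erase]
    refine ⟨fun h1 => hb.1 ?_, Finset.mem_univ _⟩
    show b = τ * g
    rw [← h1]; simp
  · intro h _
    rw [Polynomial.map_sub, Polynomial.map_X, Polynomial.map_C]
    rfl

theorem eval_lagNum (G : Subgroup (E ≃ₐ[K] E)) [Fintype G] [DecidableEq G] (y x : E) :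
    (lagNum G y x).eval y =
      x * ∏ h ∈ Finset.univ.erase (1 : G), (y - (h : E ≃ₐ[K] E) y) := by
  unfold lagNum
  rw [Polynomial.eval_finsetSum, Finset.sum_eq_single (1 : G)]
  · rw [Polynomial.eval_mul, Polynomial.eval_C, Polynomial.eval_prod]
    congr 1
    refine Finset.prod_congr rfl (fun h _ => ?_)
    rw [Polynomial.eval_sub, Polynomial.eval_X, Polynomial.eval_C]
  · intro g _ hg
    rw [Polynomial.eval_mul, Polynomial.eval_prod]
    have h1 : (1 : G) ∈ Finset.univ.erase g := by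
      rw [Finset.mem_erase]
      exact ⟨fun h => hg h.symm, Finset.mem_univ _⟩
    rw [Finset.prod_eq_zero h1, mul_zero]
    rw [Polynomial.eval_sub, Polynomial.eval_X, Polynomial.eval_C]
    show y - (1 : E ≃ₐ[K] E) y = 0
    simp
  · intro h
    exact absurd (Finset.mem_univ _) h

/-- The value at `y` of a `G`-invariant polynomial lies in `E₀(y)`, if `G`-fixed elements
lie in `E₀`. -/
theorem map_eval_mem_adjoin (φ : E →ₐ[K] L) (E0 : IntermediateField K L)
    (G : Subgroup (E ≃ₐ[K] E))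
    (hfix : ∀ x : E, (∀ g ∈ G, g x = x) → φ x ∈ E0) (y : E) (Q : E[X])
    (hQ : ∀ τ : G, Q.map (((τ : E ≃ₐ[K] E) : E →ₐ[K] E) : E →+* E) = Q) :
    φ (Q.eval y) ∈ IntermediateField.adjoin K ((E0 : Set L) ∪ {φ y}) := by
  rw [Polynomial.eval_eq_sum_range, map_sum]
  refine sum_mem (fun n _ => ?_)
  rw [map_mul, map_pow]
  have hy : φ y ∈ IntermediateField.adjoin K ((E0 : Set L) ∪ {φ y}) :=
    IntermediateField.subset_adjoin K _ (Set.mem_union_right _ (Set.mem_singleton _))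
  refine mul_mem ?_ (pow_mem hy n)
  refine IntermediateField.subset_adjoin K _ (Set.mem_union_left _ (hfix _ (fun g hg => ?_)))
  have h1 := congrArg (fun R : E[X] => R.coeff n) (hQ ⟨g, hg⟩)
  simp only [Polynomial.coeff_map] at h1
  exact h1

/-- **Primitive element by Lagrange interpolation.**  If the elements of `E` fixed by the finite
group `G` are mapped into `E₀` by `φ`, and `y` has trivial stabiliser in `G`, then
`φ(E) ⊆ E₀(φ y)`. -/
theorem map_mem_adjoin_of_orbit (φ : E →ₐ[K] L) (E0 : IntermediateField K L)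
    (G : Subgroup (E ≃ₐ[K] E)) [Finite G]
    (hfix : ∀ x : E, (∀ g ∈ G, g x = x) → φ x ∈ E0) (y : E)
    (hy : ∀ g ∈ G, g ≠ 1 → g y ≠ y) (x : E) :
    φ x ∈ IntermediateField.adjoin K ((E0 : Set L) ∪ {φ y}) := by
  classical
  letI : Fintype G := Fintype.ofFinite G
  set D : E := ∏ h ∈ Finset.univ.erase (1 : G), (y - (h : E ≃ₐ[K] E) y) with hD
  have hD0 : D ≠ 0 := by
    rw [hD, Finset.prod_ne_zero_iff]
    intro h hh
    rw [Finset.mem_erase] at hh
    have h1 : ((h : E ≃ₐ[K] E)) ≠ 1 := fun h1 => hh.1 (Subtype.ext h1)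
    exact sub_ne_zero.mpr (fun h2 => hy h h.2 h1 h2.symm)
  have h1 : φ (x * D) ∈ IntermediateField.adjoin K ((E0 : Set L) ∪ {φ y}) := by
    rw [hD, ← eval_lagNum G y x]
    exact map_eval_mem_adjoin φ E0 G hfix y _ (map_lagNum G y x)
  have h2 : φ D ∈ IntermediateField.adjoin K ((E0 : Set L) ∪ {φ y}) := by
    have h3 : D = (lagNum G y 1).eval y := by rw [eval_lagNum, one_mul]
    rw [h3]
    exact map_eval_mem_adjoin φ E0 G hfix y _ (map_lagNum G y 1)
  have h3 : φ x = φ (x * D) / φ D := by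
    rw [map_mul, mul_div_cancel_right₀]
    exact (map_ne_zero φ).mpr hD0
  rw [h3]
  exact div_mem h1 h2

/-- The coefficients of the orbit polynomial are mapped into `E₀`. -/
theorem coeff_orbitPoly_mem (φ : E →ₐ[K] L) (E0 : IntermediateField K L)
    (G : Subgroup (E ≃ₐ[K] E)) [Fintype G]
    (hfix : ∀ x : E, (∀ g ∈ G, g x = x) → φ x ∈ E0) (y : E) (n : ℕ) :
    (∏ g : G, (X - C (φ ((g : E ≃ₐ[K] E) y)))).coeff n ∈ E0 := by
  have h1 : (∏ g : G, (X - C (φ ((g : E ≃ₐ[K] E) y)))) =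
      (∏ g : G, (X - C ((g : E ≃ₐ[K] E) y))).map (φ : E →+* L) := by
    rw [Polynomial.map_prod]
    refine Finset.prod_congr rfl (fun g _ => ?_)
    rw [Polynomial.map_sub, Polynomial.map_X, Polynomial.map_C]
    rfl
  rw [h1, Polynomial.coeff_map]
  refine hfix _ (fun g hg => ?_)
  have h2 := congrArg (fun R : E[X] => R.coeff n) (map_orbitPoly G y ⟨g, hg⟩)
  simp only [Polynomial.coeff_map] at h2
  exact h2

end Orbit

section Generic

/-- An automorphism of `F(S)` fixing `S` pointwise is the identity. -/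
theorem algEquiv_apply_eq_self_of_gens {F E : Type*} [Field F] [Field E] [Algebra F E]
    {s : Set E} (σ : ↥(adjoin F s) ≃ₐ[F] ↥(adjoin F s))
    (h : ∀ x (hx : x ∈ s), σ ⟨x, subset_adjoin F s hx⟩ = ⟨x, subset_adjoin F s hx⟩)
    (x : ↥(adjoin F s)) : σ x = x := by
  obtain ⟨x, hx⟩ := x
  induction hx using IntermediateField.adjoin_induction with
  | mem x hx => exact h x hx
  | algebraMap x => exact σ.commutes x
  | add x y hx hy ihx ihy =>
    have : (⟨x + y, add_mem hx hy⟩ : ↥(adjoin F s)) = ⟨x, hx⟩ + ⟨y, hy⟩ := rfl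
    rw [this, map_add, ihx, ihy]
  | inv x hx ihx =>
    have : (⟨x⁻¹, inv_mem hx⟩ : ↥(adjoin F s)) = (⟨x, hx⟩ : ↥(adjoin F s))⁻¹ := rfl
    rw [this, map_inv₀, ihx]
  | mul x y hx hy ihx ihy =>
    have : (⟨x * y, mul_mem hx hy⟩ : ↥(adjoin F s)) = ⟨x, hx⟩ * ⟨y, hy⟩ := rfl
    rw [this, map_mul, ihx, ihy]

/-- For `c` of order dividing `2` or `3`, a power of `c` with exponent prime to that order is
`c` or `c⁻¹`. -/
theorem pow_eq_self_or_inv {K : Type*} [Field K] {c : K} {r : ℕ} (hr : r = 2 ∨ r = 3)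
    (hc : c ^ r = 1) {n : ℕ} (hn : Nat.Coprime n r) : c ^ n = c ∨ c ^ n = c⁻¹ := by
  have h1 : c ^ n = c ^ (n % r) := pow_eq_pow_mod n hc
  rcases hr with rfl | rfl
  · left
    have h2 : n % 2 = 1 := by
      rcases Nat.mod_two_eq_zero_or_one n with h | h
      · exfalso
        have h3 : 2 ∣ n := Nat.dvd_of_mod_eq_zero h
        have h4 : 2 ∣ Nat.gcd n 2 := Nat.dvd_gcd h3 dvd_rfl
        rw [hn] at h4
        omega
      · exact h
    rw [h1, h2, pow_one]
  · have h2 : n % 3 = 1 ∨ n % 3 = 2 := by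
      have h3 : n % 3 ≠ 0 := by
        intro h
        have h3 : 3 ∣ n := Nat.dvd_of_mod_eq_zero h
        have h4 : 3 ∣ Nat.gcd n 3 := Nat.dvd_gcd h3 dvd_rfl
        rw [hn] at h4
        omega
      omega
    rcases h2 with h2 | h2
    · left; rw [h1, h2, pow_one]
    · right
      rw [h1, h2]
      have hc0 : c ≠ 0 := by
        rintro rfl
        simp at hc
      apply mul_left_cancel₀ hc0
      rw [mul_inv_cancel₀ hc0, ← pow_succ', hc]

end Generic

/-- **Diamond data** for the function field of `Γ₁(M)` over `ℚ̄` (supplier: A2-GAL): the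
diamond automorphisms, their values on the generators, and the fixed field `F̄_M`. -/
def HasDiamonds (M : ℕ) [NeZero M] : Prop :=
  ∃ dia : (ZMod M)ˣ →* (↥(gamma1FieldBar M) ≃ₐ[Qb] ↥(gamma1FieldBar M)),
    (∀ (d : (ZMod M)ˣ) (u v : Qb) (hu : u ^ M = 1) (hu1 : u ≠ 1) (hv : v ^ M = 1) (hv1 : v ≠ 1),
      ((dia d ⟨gen Qb phiZ u v, helper7300.gen_mem phiZ hu hu1 hv hv1⟩ :
          ↥(gamma1FieldBar M)) : LaurentSeries Qb) =
        gen Qb phiZ (u ^ (d : ZMod M).val) (v ^ (d : ZMod M).val)) ∧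
    (∀ (d : (ZMod M)ˣ) (x : ↥(gamma1FieldBar M)),
      (x : LaurentSeries Qb) ∈ modularFunctionFieldBar M → dia d x = x) ∧
    (∀ x : ↥(gamma1FieldBar M), (∀ d, dia d x = x) →
      (x : LaurentSeries Qb) ∈ modularFunctionFieldBar M)

section Diamonds

variable {M : ℕ} [NeZero M]
  (dia : (ZMod M)ˣ →* (↥(gamma1FieldBar M) ≃ₐ[Qb] ↥(gamma1FieldBar M)))

/-- `u ^ val(-1) = u⁻¹` for an `M`-th root of unity. -/
theorem pow_val_neg_one {u : Qb} (hu : u ^ M = 1) :
    u ^ ((-1 : (ZMod M)ˣ) : ZMod M).val = u⁻¹ := by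
  have h1 : (((((-1 : (ZMod M)ˣ) : ZMod M).val + 1 : ℕ)) : ZMod M) = 0 := by
    rw [Nat.cast_add, ZMod.natCast_zmod_val]
    simp
  obtain ⟨k, hk⟩ := (ZMod.natCast_eq_zero_iff _ _).mp h1
  have h2 : u ^ (((-1 : (ZMod M)ˣ) : ZMod M).val + 1) = 1 := by
    rw [hk, pow_mul, hu, one_pow]
  rw [pow_succ] at h2
  exact eq_inv_of_mul_eq_one_left h2

include dia in
/-- The diamond `⟨-1⟩` is trivial. -/
theorem dia_neg_one
    (hgen : ∀ (d : (ZMod M)ˣ) (u v : Qb) (hu : u ^ M = 1) (hu1 : u ≠ 1) (hv : v ^ M = 1)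
      (hv1 : v ≠ 1),
      ((dia d ⟨gen Qb phiZ u v, helper7300.gen_mem phiZ hu hu1 hv hv1⟩ :
          ↥(gamma1FieldBar M)) : LaurentSeries Qb) =
        gen Qb phiZ (u ^ (d : ZMod M).val) (v ^ (d : ZMod M).val))
    (hbase : ∀ (d : (ZMod M)ˣ) (x : ↥(gamma1FieldBar M)),
      (x : LaurentSeries Qb) ∈ modularFunctionFieldBar M → dia d x = x) :
    dia (-1) = 1 := by
  apply AlgEquiv.ext
  intro x
  show dia (-1) x = x
  refine algEquiv_apply_eq_self_of_gens (F := Qb)
    (s := divisorExpansionsC Qb M ∪ helper7300.gamma1Gens Qb phiZ M) (dia (-1)) ?_ x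
  rintro s (hs | hs)
  · refine hbase (-1) _ ?_
    show s ∈ laurentBaseChange Qb (modularFunctionFieldFull M)
    rw [helper7300.laurentBaseChange_full_eq]
    exact subset_adjoin Qb _ hs
  · obtain ⟨u, v, hu, hu1, hv, hv1, rfl⟩ := hs
    apply Subtype.ext
    refine (hgen (-1) u v hu hu1 hv hv1).trans ?_
    rw [pow_val_neg_one hu, pow_val_neg_one hv, helper7300.gen_inv_left,
      helper7300.gen_inv_right]

end Diamonds

section Main

variable (M : ℕ) [NeZero M]

/-- **The concrete diamond-orbit instance over `ℚ̄`** (the `L = ℚ̄` half of (2c)).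
For `r ∣ M`, `r ∈ {2, 3}`, a place `A` of `ℚ̄` over `p ∤ M`, and diamond data on the function
field `E` of `Γ₁(M)`: a finite family `σ i` of automorphisms of `E` fixing `F̄_M`, `A`-integral
series `Y i` with `σ i (Y i₀) = Y i` (the conjugates of the generator `P · (x(ζ) - x(c_r))`),
pairwise distinct reductions, orbit polynomial with coefficients in `F̄_M`, and
`E = F̄_M(Y i₀)`. -/
theorem exists_orbit_instance (p : ℕ) [Fact p.Prime] (hpM : ¬ p ∣ M)
    (A : ValuationSubring Qb) (hA : A.LiesOverPrime p) (h23 : 2 ∣ M ∨ 3 ∣ M)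
    (hD : HasDiamonds M) :
    ∃ (ι : Type) (_ : Fintype ι)
      (σ : ι → (↥(gamma1FieldBar M) ≃ₐ[Qb] ↥(gamma1FieldBar M)))
      (Y : ι → LaurentSeries A) (i0 : ι)
      (hY : ∀ i, coeffMap A.subtype (Y i) ∈ gamma1FieldBar M),
      (∀ i (x : ↥(gamma1FieldBar M)),
        (x : LaurentSeries Qb) ∈ modularFunctionFieldBar M → σ i x = x) ∧
      (∀ i, σ i ⟨coeffMap A.subtype (Y i0), hY i0⟩ = ⟨coeffMap A.subtype (Y i), hY i⟩) ∧
      (∀ i j, i ≠ j → coeffMap (IsLocalRing.residue A) (Y i) ≠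
        coeffMap (IsLocalRing.residue A) (Y j)) ∧
      (∀ n, (∏ i, (X - C (coeffMap A.subtype (Y i)))).coeff n ∈ modularFunctionFieldBar M) ∧
      gamma1FieldBar M = adjoin Qb ((modularFunctionFieldBar M : Set (LaurentSeries Qb)) ∪
        {coeffMap A.subtype (Y i0)}) := by
  classical
  obtain ⟨dia, hgen, hbase, hfix⟩ := hD
  obtain ⟨r, hr, hrM⟩ : ∃ r : ℕ, (r = 2 ∨ r = 3) ∧ r ∣ M := by
    rcases h23 with h | h
    · exact ⟨2, Or.inl rfl, h⟩
    · exact ⟨3, Or.inr rfl, h⟩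
  have hM0 : M ≠ 0 := NeZero.ne M
  have hr2 : 2 ≤ r := by rcases hr with rfl | rfl <;> norm_num
  have hM2 : 2 ≤ M := le_trans hr2 (Nat.le_of_dvd (Nat.pos_of_ne_zero hM0) hrM)
  haveI : NeZero ((M : ℕ) : Qb) := NeZero.charZero
  obtain ⟨ζ, hζ⟩ := HasEnoughRootsOfUnity.exists_primitiveRoot Qb M
  have hζM : ζ ^ M = 1 := hζ.pow_eq_one
  have hζ1 : ζ ≠ 1 := hζ.ne_one (by omega)
  have hζmM : ∀ m : ℕ, (ζ ^ m) ^ M = 1 := fun m => by
    rw [← pow_mul, mul_comm, pow_mul, hζM, one_pow]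
  -- the reference point `c = ζ^(M/r)` of order `r`
  set c : Qb := ζ ^ (M / r) with hc
  have hcr : c ^ r = 1 := by rw [hc, ← pow_mul, Nat.div_mul_cancel hrM, hζM]
  have hcM : c ^ M = 1 := hζmM _
  have hc1 : c ≠ 1 := by
    rw [hc]
    refine hζ.pow_ne_one_of_pos_of_lt ?_ ?_
    · exact (Nat.div_pos (Nat.le_of_dvd (Nat.pos_of_ne_zero hM0) hrM) (by omega)).ne'
    · exact Nat.div_lt_self (Nat.pos_of_ne_zero hM0) (by omega)
  -- exponents
  let nn : (ZMod M)ˣ → ℕ := fun d => (d : ZMod M).val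
  have hnn : ∀ d, Nat.Coprime (nn d) M := fun d => ZMod.val_coe_unit_coprime d
  have hnr : ∀ d, Nat.Coprime (nn d) r := fun d => Nat.Coprime.coprime_dvd_right hrM (hnn d)
  have hnlt : ∀ d, nn d < M := fun d => ZMod.val_lt _
  have hζn1 : ∀ d, ζ ^ nn d ≠ 1 := by
    intro d h
    have h1 := (hζ.pow_eq_one_iff_dvd _).mp h
    have h2 : M ∣ Nat.gcd (nn d) M := Nat.dvd_gcd h1 dvd_rfl
    rw [hnn d] at h2
    have := Nat.le_of_dvd one_pos h2
    omega
  -- the generator and its conjugates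
  let y1 : ↥(gamma1FieldBar M) :=
    ⟨gen Qb phiZ ζ c, helper7300.gen_mem phiZ hζM hζ1 hcM hc1⟩
  have key1 : ∀ d, ((dia d y1 : ↥(gamma1FieldBar M)) : LaurentSeries Qb) =
      gen Qb phiZ (ζ ^ nn d) c := by
    intro d
    refine (hgen d ζ c hζM hζ1 hcM hc1).trans ?_
    rcases pow_eq_self_or_inv hr hcr (hnr d) with h | h
    · rw [h]
    · rw [h, helper7300.gen_inv_right]
  -- integral models
  have hMA : IsUnit ((M : ℕ) : A) :=
    helper7300.isUnit_natCast_of_not_dvd A (Fact.out : p.Prime) hpM hA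
  let ζA : A := ⟨ζ, helper7300.mem_of_pow_eq_one A hM0 hζM⟩
  have hζAm : ∀ m : ℕ, ((ζA ^ m : A) : Qb) = ζ ^ m := fun m => by simp [ζA]
  have hζAM : ∀ m : ℕ, (ζA ^ m) ^ M = 1 := fun m => Subtype.ext (by
    rw [SubmonoidClass.coe_pow, hζAm]; exact hζmM m)
  have hζA1 : ∀ m : ℕ, ζ ^ m ≠ 1 → ζA ^ m ≠ 1 := fun m hm h => hm (by
    rw [← hζAm, h]; rfl)
  let cA : A := ζA ^ (M / r)
  have hcA1 : cA ≠ 1 := hζA1 _ hc1
  have hcAM : cA ^ M = 1 := hζAM _
  let YA : ℕ → LaurentSeries A := fun m => gen A phiZ (ζA ^ m) cA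
  have hinc : ∀ m : ℕ, ζ ^ m ≠ 1 → coeffMap A.subtype (YA m) = gen Qb phiZ (ζ ^ m) c := by
    intro m hm
    rw [helper7300.coeffMap_gen_of_pow_eq_one A.subtype phiZ hMA (hζAM m) (hζA1 m hm) hcAM hcA1]
    rfl
  set k := IsLocalRing.ResidueField A
  let ζb : k := IsLocalRing.residue A ζA
  let cb : k := ζb ^ (M / r)
  have hred : ∀ m : ℕ, ζ ^ m ≠ 1 →
      coeffMap (IsLocalRing.residue A) (YA m) = gen k phiZ (ζb ^ m) cb := by
    intro m hm
    rw [helper7300.coeffMap_gen_of_pow_eq_one (IsLocalRing.residue A) phiZ hMA (hζAM m)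
      (hζA1 m hm) hcAM hcA1, map_pow, map_pow]
  have hdist0 : ∀ m m' : ℕ, ζ ^ m ≠ 1 → ζ ^ m' ≠ 1 → ζ ^ m ≠ ζ ^ m' → ζ ^ m * ζ ^ m' ≠ 1 →
      coeffMap (IsLocalRing.residue A) (YA m) ≠ coeffMap (IsLocalRing.residue A) (YA m') := by
    intro m m' hm hm' hne hne' heq
    have h0 : gen k phiZ (ζb ^ m) (ζb ^ m') = 0 := by
      rw [← helper7300.gen_sub_gen phiZ (ζb ^ m) (ζb ^ m') cb, ← hred m hm, ← hred m' hm', heq,
        sub_self]
    have hb1 : ζb ^ m ≠ 1 := by
      have := helper7300.residue_ne_one_of_pow_eq_one hMA (hζAM m) (hζA1 m hm)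
      rwa [map_pow] at this
    have hb2 : ζb ^ m' ≠ 1 := by
      have := helper7300.residue_ne_one_of_pow_eq_one hMA (hζAM m') (hζA1 m' hm')
      rwa [map_pow] at this
    rcases (helper7300.gen_eq_zero_iff helper7300.constantCoeff_phiZ hb1 hb2).mp h0 with h | h
    · have hA' : ζA ^ m ≠ ζA ^ m' := fun h' => hne (by rw [← hζAm, ← hζAm, h'])
      have := helper7300.residue_ne_of_pow_eq_one hMA (hζAM m) (hζAM m') hA'
      rw [map_pow, map_pow] at this
      exact this h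
    · have hA' : ζA ^ (m + m') ≠ 1 := hζA1 _ (by rw [pow_add]; exact hne')
      have := helper7300.residue_ne_one_of_pow_eq_one hMA (hζAM (m + m')) hA'
      rw [map_pow, pow_add] at this
      exact this h
  -- the group and the index type
  let G : Subgroup (↥(gamma1FieldBar M) ≃ₐ[Qb] ↥(gamma1FieldBar M)) := dia.range
  haveI : Finite ↥G := Finite.of_surjective dia.rangeRestrict dia.rangeRestrict_surjective
  letI : Fintype ↥G := Fintype.ofFinite ↥G
  have hdG : ∀ g : ↥G, ∃ d, dia d = (g : ↥(gamma1FieldBar M) ≃ₐ[Qb] ↥(gamma1FieldBar M)) :=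
    fun g => MonoidHom.mem_range.mp g.2
  choose dOf hdOf using hdG
  have hneg : dia (-1) = 1 := dia_neg_one dia hgen hbase
  let Y : ↥G → LaurentSeries A := fun g => YA (nn (dOf g))
  have hYval : ∀ g : ↥G, coeffMap A.subtype (Y g) =
      (((g : ↥(gamma1FieldBar M) ≃ₐ[Qb] ↥(gamma1FieldBar M)) y1 : ↥(gamma1FieldBar M)) :
        LaurentSeries Qb) := by
    intro g
    rw [← hdOf g, key1]
    exact hinc _ (hζn1 _)
  have hY : ∀ g : ↥G, coeffMap A.subtype (Y g) ∈ gamma1FieldBar M := by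
    intro g
    rw [hYval]
    exact SetLike.coe_mem _
  have hYeq : ∀ g : ↥G, (⟨coeffMap A.subtype (Y g), hY g⟩ : ↥(gamma1FieldBar M)) =
      (g : ↥(gamma1FieldBar M) ≃ₐ[Qb] ↥(gamma1FieldBar M)) y1 := fun g => Subtype.ext (hYval g)
  have hdist : ∀ i j : ↥G, i ≠ j → coeffMap (IsLocalRing.residue A) (Y i) ≠
      coeffMap (IsLocalRing.residue A) (Y j) := by
    intro i j hij
    refine hdist0 _ _ (hζn1 _) (hζn1 _) ?_ ?_
    · intro h
      have h1 : nn (dOf i) = nn (dOf j) := hζ.pow_inj (hnlt _) (hnlt _) h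
      have h2 : dOf i = dOf j := Units.ext (ZMod.val_injective M h1)
      exact hij (Subtype.ext (by rw [← hdOf i, ← hdOf j, h2]))
    · intro h
      rw [← pow_add] at h
      have h1 : M ∣ nn (dOf i) + nn (dOf j) := (hζ.pow_eq_one_iff_dvd _).mp h
      have h2 : ((nn (dOf i) + nn (dOf j) : ℕ) : ZMod M) = 0 :=
        (ZMod.natCast_eq_zero_iff _ _).mpr h1
      rw [Nat.cast_add, ZMod.natCast_zmod_val, ZMod.natCast_zmod_val] at h2
      have h3 : dOf j = -1 * dOf i := by
        apply Units.ext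
        rw [Units.val_mul, Units.val_neg, Units.val_one, neg_one_mul]
        exact (eq_neg_of_add_eq_zero_right h2)
      exact hij (Subtype.ext (by rw [← hdOf i, ← hdOf j, h3, map_mul, hneg, one_mul]))
  -- fixed elements
  have hfix' : ∀ x : ↥(gamma1FieldBar M),
      (∀ g ∈ G, g x = x) → (gamma1FieldBar M).val x ∈ modularFunctionFieldBar M :=
    fun x hx => hfix x (fun d => hx _ ⟨d, rfl⟩)
  have hy1 : (gamma1FieldBar M).val y1 = coeffMap A.subtype (Y 1) := by
    rw [hYval]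
    rfl
  refine ⟨↥G, inferInstance, fun g => (g : ↥(gamma1FieldBar M) ≃ₐ[Qb] ↥(gamma1FieldBar M)), Y, 1,
    hY, ?_, ?_, hdist, ?_, ?_⟩
  · intro g x hx
    have h1 := hbase (dOf g) x hx
    rw [hdOf g] at h1
    exact h1
  · intro g
    show (g : ↥(gamma1FieldBar M) ≃ₐ[Qb] ↥(gamma1FieldBar M)) _ = _
    rw [hYeq, hYeq]
    rfl
  · intro n
    have h1 := coeff_orbitPoly_mem (gamma1FieldBar M).val (modularFunctionFieldBar M) G hfix' y1 n
    have h2 : (∏ g : ↥G, (X - C (coeffMap A.subtype (Y g)))) =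
        ∏ g : ↥G, (X - C ((gamma1FieldBar M).val
          ((g : ↥(gamma1FieldBar M) ≃ₐ[Qb] ↥(gamma1FieldBar M)) y1))) := by
      refine Finset.prod_congr rfl (fun g _ => ?_)
      rw [hYval]
      rfl
    rw [h2]
    exact h1
  · apply le_antisymm
    · intro x hx
      have h1 := map_mem_adjoin_of_orbit (gamma1FieldBar M).val (modularFunctionFieldBar M) G
        hfix' y1 ?_ ⟨x, hx⟩
      · rw [hy1] at h1
        exact h1
      · intro g hg hg1 hgy
        have hne : (⟨g, hg⟩ : ↥G) ≠ 1 := fun h => hg1 (congrArg Subtype.val h)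
        apply hdist ⟨g, hg⟩ 1 hne
        have h2 : coeffMap A.subtype (Y ⟨g, hg⟩) = coeffMap A.subtype (Y 1) := by
          rw [hYval, hYval]
          show ((g y1 : ↥(gamma1FieldBar M)) : LaurentSeries Qb) = _
          rw [hgy]
          rfl
        rw [Fermat.Agent.S18.helper8991.inc_injective A h2]
    · rw [adjoin_le_iff]
      rintro x (hx | hx)
      · exact helper7300.modularFunctionFieldBar_le_gamma1FieldBar M hx
      · rw [Set.mem_singleton_iff] at hx
        rw [hx]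
        exact hY 1

/-- **(M1-IGUSA) for `Γ₁(M)` from the integrality statement and the diamond data**:
`Stmt_IntGamma1 → Stmt_IgusaGamma1`, the diamond data being the only other input. -/
theorem igusaGamma1_of_int_of_diamonds (p : ℕ) [Fact p.Prime] (hpM : ¬ p ∣ M)
    (A : ValuationSubring Qb) (hA : A.LiesOverPrime p) (h23 : 2 ∣ M ∨ 3 ∣ M)
    (hD : HasDiamonds M)
    (hInt : helper8782.Stmt_IntGamma1 M p hpM A hA) :
    helper8782.Stmt_IgusaGamma1 M p hpM A hA := by
  obtain ⟨ι, _, σ, Y, i0, hY, hσ, hσY, hdist, hcoef, hgen⟩ :=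
    exists_orbit_instance M p hpM A hA h23 hD
  exact helper886.stmt_IgusaGamma1_of_orbit M p hpM A hA
    (helper5530.normalizable_gamma1FieldBar M A) hInt σ hσ Y i0 hY hσY hdist hcoef hgen

end Main

end Fermat.Agent.S48.helper4600
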