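/-
S48, machine half (M1): the diamond leaf `helper4600.HasDiamonds M` discharged by the diamond
instance `helper4364.diamondP` on the carrier of record, and the resulting unconditional wire
`Stmt_IntGamma1 → Stmt_IgusaGamma1` in the binder shape of the M1 plan (helper4600).
-/
import Fermat.Agent.S48.helper4600_OrbitQb
import Fermat.Agent.S48.helper4364_Gamma1Diamond

set_option autoImplicit false

namespace Fermat.Agent.S48.helper4600

open ModularCurve

local notation "Qb" => AlgebraicClosure ℚ

/-- **The diamond leaf**: the function field of `Γ₁(M)` over `ℚ̄` carries the diamond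
automorphisms, with the generator law and fixed field `F̄_M`. -/
theorem hasDiamonds (M : ℕ) [NeZero M] : HasDiamonds M := by
  have hAlg : Algebra.IsAlgebraic ℚ Qb := AlgebraicClosure.isAlgebraic ℚ
  obtain ⟨ι⟩ : Nonempty (Qb →+* ℂ) :=
    ⟨(IsAlgClosed.lift (R := ℚ) (S := Qb) (M := ℂ)).toRingHom⟩
  exact ⟨helper4364.diamondP ι M,
    fun d u v hu hu1 hv hv1 => helper4364.diamondP_gen ι M d hu hu1 hv hv1,
    fun d x hx => helper4364.diamondP_of_mem_base ι M d x hx,
    fun x hx => (helper4364.mem_base_iff_diamondP_fixed ι M x).mpr hx⟩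

/-- **(M1-IGUSA) for `Γ₁(M)` from the integrality statement**: `Stmt_IntGamma1 → Stmt_IgusaGamma1`
(binder shape of the M1 plan; the hypothesis `7 ≤ M` is not used). -/
theorem igusaGamma1_of_int (M : ℕ) [NeZero M] (p : ℕ) [Fact p.Prime] (hpM : ¬ p ∣ M)
    (A : ValuationSubring Qb) (hA : A.LiesOverPrime p) (h23 : 2 ∣ M ∨ 3 ∣ M) (_hM : 7 ≤ M)
    (hInt : helper8782.Stmt_IntGamma1 M p hpM A hA) :
    helper8782.Stmt_IgusaGamma1 M p hpM A hA :=
  igusaGamma1_of_int_of_diamonds M p hpM A hA h23 (hasDiamonds M) hInt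

end Fermat.Agent.S48.helper4600
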