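/-
helper4765 — S48 (M3-I): the generic (EVNORM-T) statement of the (M3) architect,
`helper2754.Stmt_EvNormT` (landed `helper2754_M3Dict`), is a theorem: it is
`helper4765.evNormT_generic` (`helper4765_EvNorm`) verbatim.
-/
import Fermat.Agent.S48.helper2754_M3Dict
import Fermat.Agent.S48.helper4765_EvNorm

set_option autoImplicit false

namespace Fermat.Agent.S48.helper4765

/-- **(M3-I) = (EVNORM-T), generic form**: for every subfield `E ⊆ ℚ̄((q))` with an evaluation
`evM` satisfying (EVQ), the `q`-expansion formula `T u = V_p(D u) · U_p(∏_b u(ζ^b q))` and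
`evM ∘ D = pull δ ∘ evM` give `evM (T u) = cpMerT1 hp δ hδ (evM u)`. -/
theorem stmt_EvNormT : Fermat.Agent.S48.helper2754.Stmt_EvNormT := evNormT_generic

end Fermat.Agent.S48.helper4765
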