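import Mathlib

set_option autoImplicit false

/-!
# Weight-one forms `W_{a,b} = ℘'(a/l) / (℘(a/l) - ℘(b/l))` on `Γ₁(l)` (S48, leaf F2-AN)

Abstract analytic packaging.  The input is a `DivData l`: the normalised division values
`X r s τ = (2πi)⁻² ℘((rτ+s)/l; ℤ+ℤτ)` and `Y r s τ = (2πi)⁻³ ℘'((rτ+s)/l; ℤ+ℤτ)` together with
the facts proved about them elsewhere (holomorphy in `τ`, the `SL(2,ℤ)` transformation law,
dependence on `(r,s)` mod `l`, parity, injectivity mod `±`, and the `q`-expansions).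
The output is the modular form `W_{a,b}` of weight one on `Γ₁(l)`, its diamond law, and the
`q`-expansion identity `qExp(W_{a,b}) * (X_a - X_b) = Y_a` in `ℂ⟦q⟧`.
-/

open Complex Filter Topology ModularForm CongruenceSubgroup Matrix Function
open UpperHalfPlane hiding I
open scoped MatrixGroups Manifold Real

namespace Fermat.Agent.S48.helper6076

noncomputable section

/-- Coefficients of the `q`-expansion of `(2πi)⁻² ℘(z)`, `u = exp(2πiz)`. -/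
def wpC (u : ℂ) (n : ℕ) : ℂ :=
  if n = 0 then 1 / 12 + u / (1 - u) ^ 2
  else ∑ d ∈ n.divisors, (d : ℂ) * (u ^ d + u⁻¹ ^ d - 2)

/-- Coefficients of the `q`-expansion of `(2πi)⁻³ ℘'(z)`, `u = exp(2πiz)`. -/
def wpC' (u : ℂ) (n : ℕ) : ℂ :=
  if n = 0 then u * (1 + u) / (1 - u) ^ 3
  else ∑ d ∈ n.divisors, (d : ℂ) ^ 2 * (u ^ d - u⁻¹ ^ d)

/-! ### Elementary estimates -/

lemma sum_divisors_le_sq (n : ℕ) : ∑ d ∈ n.divisors, (d : ℝ) ≤ (n : ℝ) ^ 2 := by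
  calc ∑ d ∈ n.divisors, (d : ℝ) ≤ ∑ _d ∈ n.divisors, (n : ℝ) :=
        Finset.sum_le_sum fun d hd => by exact_mod_cast Nat.divisor_le hd
    _ = n.divisors.card * (n : ℝ) := by simp
    _ ≤ (n : ℝ) * n := by
        gcongr
        exact_mod_cast Nat.card_divisors_le_self n
    _ = (n : ℝ) ^ 2 := by ring

lemma sum_divisors_sq_le_cube (n : ℕ) : ∑ d ∈ n.divisors, (d : ℝ) ^ 2 ≤ (n : ℝ) ^ 3 := by
  calc ∑ d ∈ n.divisors, (d : ℝ) ^ 2 ≤ ∑ _d ∈ n.divisors, (n : ℝ) ^ 2 :=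
        Finset.sum_le_sum fun d hd => by
          have : (d : ℝ) ≤ n := by exact_mod_cast Nat.divisor_le hd
          gcongr
    _ = n.divisors.card * (n : ℝ) ^ 2 := by simp
    _ ≤ (n : ℝ) * (n : ℝ) ^ 2 := by
        gcongr
        exact_mod_cast Nat.card_divisors_le_self n
    _ = (n : ℝ) ^ 3 := by ring

lemma natCast_sq_le_three_pow (n : ℕ) : (n : ℝ) ^ 2 ≤ 3 ^ n := by
  have h : ∀ m : ℕ, m ^ 2 ≤ 3 ^ m := by
    intro m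
    induction m with
    | zero => norm_num
    | succ k ih =>
      rcases Nat.lt_or_ge k 2 with hk | hk
      · interval_cases k <;> norm_num
      · have : (k + 1) ^ 2 ≤ 3 * k ^ 2 := by nlinarith
        calc (k + 1) ^ 2 ≤ 3 * k ^ 2 := this
          _ ≤ 3 * 3 ^ k := by omega
          _ = 3 ^ (k + 1) := by ring
  exact_mod_cast h n

lemma natCast_cube_le_three_pow (n : ℕ) : (n : ℝ) ^ 3 ≤ 3 ^ n := by
  have h : ∀ m : ℕ, m ^ 3 ≤ 3 ^ m := by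
    intro m
    induction m with
    | zero => norm_num
    | succ k ih =>
      rcases Nat.lt_or_ge k 3 with hk | hk
      · interval_cases k <;> norm_num
      · have : (k + 1) ^ 3 ≤ 3 * k ^ 3 := by nlinarith [mul_le_mul hk hk (by norm_num) (by positivity)]
        calc (k + 1) ^ 3 ≤ 3 * k ^ 3 := this
          _ ≤ 3 * 3 ^ k := by omega
          _ = 3 ^ (k + 1) := by ring
  exact_mod_cast h n

/-- Termwise bound: for `d ≤ n`, `‖u‖ ≤ 1`, `‖q‖ ≤ ρ‖u‖`: `‖u⁻¹ ^ d * q ^ n‖ ≤ ρ ^ n`. -/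
lemma norm_inv_pow_mul_pow_le {u q : ℂ} {ρ : ℝ} (hu0 : u ≠ 0) (hu : ‖u‖ ≤ 1)
    (hq : ‖q‖ ≤ ρ * ‖u‖) {d n : ℕ} (hdn : d ≤ n) : ‖u⁻¹ ^ d * q ^ n‖ ≤ ρ ^ n := by
  have hupos : 0 < ‖u‖ := norm_pos_iff.mpr hu0
  have hρ : 0 ≤ ρ := by
    by_contra! h
    have : ρ * ‖u‖ < 0 := mul_neg_of_neg_of_pos h hupos
    linarith [norm_nonneg q]
  rw [norm_mul, norm_pow, norm_pow, norm_inv]
  calc (‖u‖⁻¹) ^ d * ‖q‖ ^ n ≤ (‖u‖⁻¹) ^ d * (ρ * ‖u‖) ^ n := by gcongr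
    _ = ρ ^ n * ‖u‖ ^ (n - d) := by
        rw [mul_pow, ← Nat.sub_add_cancel hdn, pow_add ‖u‖ (n - d) d, Nat.sub_add_cancel hdn,
          inv_pow]
        field_simp
    _ ≤ ρ ^ n * 1 := by
        gcongr
        exact pow_le_one₀ (norm_nonneg u) hu
    _ = ρ ^ n := mul_one _

lemma norm_pow_mul_pow_le {u q : ℂ} {ρ : ℝ} (hu0 : u ≠ 0) (hu : ‖u‖ ≤ 1)
    (hq : ‖q‖ ≤ ρ * ‖u‖) (d n : ℕ) : ‖u ^ d * q ^ n‖ ≤ ρ ^ n := by
  have hupos : 0 < ‖u‖ := norm_pos_iff.mpr hu0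
  have hq' : ‖q‖ ≤ ρ := hq.trans (by
    have hρ : 0 ≤ ρ := by
      by_contra! h
      have : ρ * ‖u‖ < 0 := mul_neg_of_neg_of_pos h hupos
      linarith [norm_nonneg q]
    calc ρ * ‖u‖ ≤ ρ * 1 := by gcongr
      _ = ρ := mul_one _)
  rw [norm_mul, norm_pow, norm_pow]
  calc ‖u‖ ^ d * ‖q‖ ^ n ≤ 1 * ρ ^ n := by
        gcongr
        exact pow_le_one₀ (norm_nonneg u) hu
    _ = ρ ^ n := one_mul _

lemma norm_pow_le_of {u q : ℂ} {ρ : ℝ} (hu0 : u ≠ 0) (hu : ‖u‖ ≤ 1)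
    (hq : ‖q‖ ≤ ρ * ‖u‖) (n : ℕ) : ‖q ^ n‖ ≤ ρ ^ n := by
  simpa using norm_pow_mul_pow_le hu0 hu hq 0 n

/-- For `n ≥ 1`: `‖wpC u n * q ^ n‖ ≤ 4 (3ρ)^n`. -/
lemma norm_wpC_mul_le {u q : ℂ} {ρ : ℝ} (hu0 : u ≠ 0) (hu : ‖u‖ ≤ 1)
    (hq : ‖q‖ ≤ ρ * ‖u‖) {n : ℕ} (hn : n ≠ 0) : ‖wpC u n * q ^ n‖ ≤ 4 * (3 * ρ) ^ n := by
  have hρn : 0 ≤ ρ ^ n := (norm_nonneg _).trans (norm_pow_le_of hu0 hu hq n)
  rw [wpC, if_neg hn, Finset.sum_mul]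
  calc ‖∑ d ∈ n.divisors, (d : ℂ) * (u ^ d + u⁻¹ ^ d - 2) * q ^ n‖
      ≤ ∑ d ∈ n.divisors, ‖(d : ℂ) * (u ^ d + u⁻¹ ^ d - 2) * q ^ n‖ := norm_sum_le _ _
    _ ≤ ∑ d ∈ n.divisors, (d : ℝ) * (4 * ρ ^ n) := by
        refine Finset.sum_le_sum fun d hd => ?_
        have hdn : d ≤ n := Nat.divisor_le hd
        have e : (d : ℂ) * (u ^ d + u⁻¹ ^ d - 2) * q ^ n =
            (d : ℂ) * (u ^ d * q ^ n + u⁻¹ ^ d * q ^ n - 2 * q ^ n) := by ring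
        rw [e, norm_mul, Complex.norm_natCast]
        gcongr
        calc ‖u ^ d * q ^ n + u⁻¹ ^ d * q ^ n - 2 * q ^ n‖
            ≤ ‖u ^ d * q ^ n‖ + ‖u⁻¹ ^ d * q ^ n‖ + ‖2 * q ^ n‖ :=
              (norm_sub_le _ _).trans (by gcongr; exact norm_add_le _ _)
          _ ≤ ρ ^ n + ρ ^ n + 2 * ρ ^ n := by
              gcongr
              · exact norm_pow_mul_pow_le hu0 hu hq d n
              · exact norm_inv_pow_mul_pow_le hu0 hu hq hdn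
              · rw [norm_mul]; simpa using norm_pow_le_of hu0 hu hq n
          _ = 4 * ρ ^ n := by ring
    _ = (∑ d ∈ n.divisors, (d : ℝ)) * (4 * ρ ^ n) := by rw [Finset.sum_mul]
    _ ≤ (n : ℝ) ^ 2 * (4 * ρ ^ n) := by gcongr; exact sum_divisors_le_sq n
    _ ≤ 3 ^ n * (4 * ρ ^ n) := by gcongr; exact natCast_sq_le_three_pow n
    _ = 4 * (3 * ρ) ^ n := by rw [mul_pow]; ring

/-- For `n ≥ 1`: `‖wpC' u n * q ^ n‖ ≤ 2 (3ρ)^n`. -/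
lemma norm_wpC'_mul_le {u q : ℂ} {ρ : ℝ} (hu0 : u ≠ 0) (hu : ‖u‖ ≤ 1)
    (hq : ‖q‖ ≤ ρ * ‖u‖) {n : ℕ} (hn : n ≠ 0) : ‖wpC' u n * q ^ n‖ ≤ 2 * (3 * ρ) ^ n := by
  have hρn : 0 ≤ ρ ^ n := (norm_nonneg _).trans (norm_pow_le_of hu0 hu hq n)
  rw [wpC', if_neg hn, Finset.sum_mul]
  calc ‖∑ d ∈ n.divisors, (d : ℂ) ^ 2 * (u ^ d - u⁻¹ ^ d) * q ^ n‖
      ≤ ∑ d ∈ n.divisors, ‖(d : ℂ) ^ 2 * (u ^ d - u⁻¹ ^ d) * q ^ n‖ := norm_sum_le _ _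
    _ ≤ ∑ d ∈ n.divisors, (d : ℝ) ^ 2 * (2 * ρ ^ n) := by
        refine Finset.sum_le_sum fun d hd => ?_
        have hdn : d ≤ n := Nat.divisor_le hd
        have e : (d : ℂ) ^ 2 * (u ^ d - u⁻¹ ^ d) * q ^ n =
            (d : ℂ) ^ 2 * (u ^ d * q ^ n - u⁻¹ ^ d * q ^ n) := by ring
        rw [e, norm_mul, norm_pow, Complex.norm_natCast]
        gcongr
        calc ‖u ^ d * q ^ n - u⁻¹ ^ d * q ^ n‖
            ≤ ‖u ^ d * q ^ n‖ + ‖u⁻¹ ^ d * q ^ n‖ := norm_sub_le _ _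
          _ ≤ ρ ^ n + ρ ^ n := by
              gcongr
              · exact norm_pow_mul_pow_le hu0 hu hq d n
              · exact norm_inv_pow_mul_pow_le hu0 hu hq hdn
          _ = 2 * ρ ^ n := by ring
    _ = (∑ d ∈ n.divisors, (d : ℝ) ^ 2) * (2 * ρ ^ n) := by rw [Finset.sum_mul]
    _ ≤ (n : ℝ) ^ 3 * (2 * ρ ^ n) := by gcongr; exact sum_divisors_sq_le_cube n
    _ ≤ 3 ^ n * (2 * ρ ^ n) := by gcongr; exact natCast_cube_le_three_pow n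
    _ = 2 * (3 * ρ) ^ n := by rw [mul_pow]; ring

/-- Tail bound for a series `∑ c n * q ^ n` with `‖c n * q ^ n‖ ≤ K (3ρ)^n` for `n ≥ 1`. -/
lemma norm_sub_zero_le_of_hasSum {c : ℕ → ℂ} {q V : ℂ} {ρ K : ℝ} (hK : 0 ≤ K) (hρ0 : 0 ≤ ρ)
    (hρ : ρ ≤ 1 / 6) (hs : HasSum (fun n : ℕ => c n * q ^ n) V)
    (hb : ∀ n : ℕ, n ≠ 0 → ‖c n * q ^ n‖ ≤ K * (3 * ρ) ^ n) : ‖V - c 0‖ ≤ 6 * K * ρ := by
  have h1 : HasSum (fun n : ℕ => c (n + 1) * q ^ (n + 1)) (V - c 0) := by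
    have := (hasSum_nat_add_iff' (f := fun n : ℕ => c n * q ^ n) 1).mpr hs
    simpa using this
  have h3 : (3 * ρ) < 1 := by linarith
  have h2 : HasSum (fun n : ℕ => K * (3 * ρ) * (3 * ρ) ^ n) (K * (3 * ρ) * (1 - 3 * ρ)⁻¹) :=
    (hasSum_geometric_of_lt_one (by positivity) h3).mul_left _
  have h4 := h1.norm_le_of_bounded h2 (fun n => by
    have := hb (n + 1) (Nat.succ_ne_zero n)
    calc ‖c (n + 1) * q ^ (n + 1)‖ ≤ K * (3 * ρ) ^ (n + 1) := this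
      _ = K * (3 * ρ) * (3 * ρ) ^ n := by ring)
  refine h4.trans ?_
  have h5 : (1 - 3 * ρ)⁻¹ ≤ 2 := by
    rw [inv_le_comm₀ (by linarith) (by norm_num)]
    linarith
  calc K * (3 * ρ) * (1 - 3 * ρ)⁻¹ ≤ K * (3 * ρ) * 2 := by gcongr
    _ = 6 * K * ρ := by ring

lemma norm_x_sub_le {u : ℂ} (hu : ‖u‖ ≤ 1 / 6) : ‖u / (1 - u) ^ 2 - u‖ ≤ 4 * ‖u‖ ^ 2 := by
  have h1 : 5 / 6 ≤ ‖1 - u‖ := by
    have := norm_sub_norm_le (1 : ℂ) u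
    rw [norm_one] at this
    linarith
  have h1' : (1 - u) ≠ 0 := fun h => by rw [h, norm_zero] at h1; linarith
  have h2 : ‖2 - u‖ ≤ 13 / 6 := by
    have := norm_sub_le (2 : ℂ) u
    have h2' : ‖(2 : ℂ)‖ = 2 := by simp
    linarith
  have e : u / (1 - u) ^ 2 - u = u ^ 2 * (2 - u) / (1 - u) ^ 2 := by
    field_simp
    ring
  rw [e, norm_div, norm_mul, norm_pow, norm_pow, div_le_iff₀ (by positivity)]
  have h3 : (5 / 6 : ℝ) ^ 2 ≤ ‖1 - u‖ ^ 2 := by gcongr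
  calc ‖u‖ ^ 2 * ‖2 - u‖ ≤ ‖u‖ ^ 2 * (13 / 6) := by gcongr
    _ ≤ 4 * ‖u‖ ^ 2 * (5 / 6) ^ 2 := by nlinarith [sq_nonneg ‖u‖]
    _ ≤ 4 * ‖u‖ ^ 2 * ‖1 - u‖ ^ 2 := by gcongr

lemma norm_y_le {u : ℂ} (hu : ‖u‖ ≤ 1 / 6) : ‖u * (1 + u) / (1 - u) ^ 3‖ ≤ 3 * ‖u‖ := by
  have h1 : 5 / 6 ≤ ‖1 - u‖ := by
    have := norm_sub_norm_le (1 : ℂ) u
    rw [norm_one] at this
    linarith
  have h2 : ‖1 + u‖ ≤ 7 / 6 := by
    have := norm_add_le (1 : ℂ) u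
    rw [norm_one] at this
    linarith
  rw [norm_div, norm_mul, norm_pow, div_le_iff₀ (by positivity)]
  have h3 : (5 / 6 : ℝ) ^ 3 ≤ ‖1 - u‖ ^ 3 := by gcongr
  calc ‖u‖ * ‖1 + u‖ ≤ ‖u‖ * (7 / 6) := by gcongr
    _ ≤ 3 * ‖u‖ * (5 / 6) ^ 3 := by nlinarith [norm_nonneg u]
    _ ≤ 3 * ‖u‖ * ‖1 - u‖ ^ 3 := by gcongr

/-! ### The local parameter `exp(2πiτ/l)` and roots of unity -/

/-- `exp(2πiτ/l)`. -/
def qL (l : ℕ) (τ : ℍ) : ℂ := cexp (2 * π * I * τ / l)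

lemma qL_ne_zero (l : ℕ) (τ : ℍ) : qL l τ ≠ 0 := Complex.exp_ne_zero _

lemma qL_pow {l : ℕ} (hl : l ≠ 0) (τ : ℍ) : qL l τ ^ l = cexp (2 * π * I * τ) := by
  have hl' : (l : ℂ) ≠ 0 := Nat.cast_ne_zero.mpr hl
  rw [qL, ← Complex.exp_nat_mul]
  congr 1
  field_simp

lemma qL_eq_qParam (l : ℕ) (τ : ℍ) : qL l τ = Periodic.qParam (l : ℝ) τ := by
  simp [qL, Periodic.qParam]

lemma eventually_norm_qL_le {l : ℕ} (hl : l ≠ 0) {ε : ℝ} (hε : 0 < ε) :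
    ∀ᶠ τ in atImInfty, ‖qL l τ‖ ≤ ε := by
  have hl' : (0 : ℝ) < l := Nat.cast_pos.mpr (Nat.pos_of_ne_zero hl)
  have h := (qParam_tendsto_atImInfty hl').norm
  rw [norm_zero] at h
  filter_upwards [h.eventually_le_const hε] with τ hτ
  rwa [qL_eq_qParam]

lemma norm_qL_lt_one {l : ℕ} (hl : l ≠ 0) (τ : ℍ) : ‖qL l τ‖ < 1 := by
  have hl' : (0 : ℝ) < l := Nat.cast_pos.mpr (Nat.pos_of_ne_zero hl)
  rw [qL_eq_qParam]
  exact Periodic.norm_qParam_lt_one hl' τ.im_pos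

/-- `exp(2πi s/l)` has norm one. -/
lemma norm_exp_int_div (l : ℕ) (s : ℤ) : ‖cexp (2 * π * I * ((s : ℂ) / l))‖ = 1 := by
  have e : (2 * π * I * ((s : ℂ) / l)) = ((2 * π * (s / l) : ℝ) : ℂ) * I := by
    push_cast; ring
  rw [e, Complex.norm_exp_ofReal_mul_I]

lemma exp_int_div_eq_one_iff {l : ℕ} (hl : l ≠ 0) (s : ℤ) :
    cexp (2 * π * I * ((s : ℂ) / l)) = 1 ↔ (l : ℤ) ∣ s := by
  have hl' : (l : ℂ) ≠ 0 := Nat.cast_ne_zero.mpr hl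
  rw [Complex.exp_eq_one_iff]
  constructor
  · rintro ⟨n, hn⟩
    have h2 : (2 * π * I : ℂ) ≠ 0 := Complex.two_pi_I_ne_zero
    have h3 : (s : ℂ) = n * l := by
      have : (s : ℂ) / l = n := by
        apply mul_left_cancel₀ h2
        rw [hn]; ring
      rw [← this]; field_simp
    refine ⟨n, ?_⟩
    have : ((s : ℤ) : ℂ) = ((l * n : ℤ) : ℂ) := by rw [h3]; push_cast; ring
    exact_mod_cast this
  · rintro ⟨k, rfl⟩
    refine ⟨k, ?_⟩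
    push_cast
    field_simp

lemma exp_div_eq {l : ℕ} (hl : l ≠ 0) (r : ℕ) (s : ℤ) (τ : ℍ) :
    cexp (2 * π * I * (((r : ℂ) * τ + s) / l)) =
      cexp (2 * π * I * ((s : ℂ) / l)) * qL l τ ^ r := by
  have hl' : (l : ℂ) ≠ 0 := Nat.cast_ne_zero.mpr hl
  rw [qL, ← Complex.exp_nat_mul, ← Complex.exp_add]
  congr 1
  field_simp
  ring

lemma wpC_zero (u : ℂ) : wpC u 0 = 1 / 12 + u / (1 - u) ^ 2 := by simp [wpC]

lemma wpC'_zero (u : ℂ) : wpC' u 0 = u * (1 + u) / (1 - u) ^ 3 := by simp [wpC']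

/-- The constant terms `x(ζ^s)`, `x(ζ^s')` differ when `s ≢ ± s'` mod `l`. -/
lemma wpC_zero_ne {l : ℕ} (hl : l ≠ 0) (s s' : ℤ) (hs : ¬(l : ℤ) ∣ s) (hs' : ¬(l : ℤ) ∣ s')
    (hm : ¬(l : ℤ) ∣ s - s') (hp : ¬(l : ℤ) ∣ s + s') :
    wpC (cexp (2 * π * I * ((s : ℂ) / l))) 0 ≠ wpC (cexp (2 * π * I * ((s' : ℂ) / l))) 0 := by
  set u := cexp (2 * π * I * ((s : ℂ) / l)) with hu
  set v := cexp (2 * π * I * ((s' : ℂ) / l)) with hv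
  have hu1 : u ≠ 1 := fun h => hs ((exp_int_div_eq_one_iff hl s).mp h)
  have hv1 : v ≠ 1 := fun h => hs' ((exp_int_div_eq_one_iff hl s').mp h)
  have hv0 : v ≠ 0 := Complex.exp_ne_zero _
  have huv : u * v ≠ 1 := by
    intro h
    apply hp
    rw [← exp_int_div_eq_one_iff hl]
    rw [← h, hu, hv, ← Complex.exp_add]
    congr 1
    push_cast
    ring
  have hudv : u ≠ v := by
    intro h
    apply hm
    rw [← exp_int_div_eq_one_iff hl]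
    have : u / v = 1 := by rw [h]; exact div_self hv0
    rw [← this, hu, hv, ← Complex.exp_sub]
    congr 1
    push_cast
    ring
  rw [wpC_zero, wpC_zero]
  intro h
  have h1 : (1 - u) ≠ 0 := sub_ne_zero.mpr (Ne.symm hu1)
  have h2 : (1 - v) ≠ 0 := sub_ne_zero.mpr (Ne.symm hv1)
  have h3 : u / (1 - u) ^ 2 = v / (1 - v) ^ 2 := by linear_combination h
  rw [div_eq_div_iff (pow_ne_zero 2 h1) (pow_ne_zero 2 h2)] at h3
  have h4 : (u - v) * (1 - u * v) = 0 := by linear_combination h3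
  rcases mul_eq_zero.mp h4 with h5 | h5
  · exact hudv (sub_eq_zero.mp h5)
  · exact huv (sub_eq_zero.mp h5).symm

lemma isBoundedAtImInfty_of_eventually {f : ℍ → ℂ} {M : ℝ}
    (h : ∀ᶠ τ in atImInfty, ‖f τ‖ ≤ M) : IsBoundedAtImInfty f := by
  refine Asymptotics.IsBigO.of_bound M ?_
  filter_upwards [h] with τ hτ
  simpa using hτ

/-- The purely metric core of the cusp estimate. -/
lemma core_ineq {θ : ℝ} (hθ0 : 0 < θ) (hθ : θ ≤ 1 / 114) {r r' : ℕ} (hne : r ≠ r')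
    {u u' A A' Yv : ℂ} (hu : ‖u‖ = θ ^ r) (hu' : ‖u'‖ = θ ^ r')
    (hA : ‖A - 1 / 12 - u‖ ≤ 28 * θ ^ (r + 1)) (hA' : ‖A' - 1 / 12 - u'‖ ≤ 28 * θ ^ (r' + 1))
    (hY : ‖Yv‖ ≤ 5 * θ ^ r) : ‖Yv‖ ≤ 10 * ‖A - A'‖ := by
  have hθ1 : θ ≤ 1 := by linarith
  have tri : ‖u - u'‖ ≤ ‖A - A'‖ + ‖A - 1 / 12 - u‖ + ‖A' - 1 / 12 - u'‖ := by
    have e : u - u' = (A - A') - (A - 1 / 12 - u) + (A' - 1 / 12 - u') := by ring
    rw [e]
    exact (norm_add_le _ _).trans (by gcongr; exact norm_sub_le _ _)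
  have low := abs_norm_sub_norm_le u u'
  rw [hu, hu'] at low
  rcases Nat.lt_or_gt_of_ne hne with hlt | hlt
  · -- r < r'
    have ha : 0 < θ ^ r := pow_pos hθ0 r
    have h1 : θ ^ r' ≤ θ ^ (r + 1) := pow_le_pow_of_le_one hθ0.le hθ1 hlt
    have h2 : θ ^ (r' + 1) ≤ θ ^ (r + 1) := pow_le_pow_of_le_one hθ0.le hθ1 (by omega)
    have h3 : θ ^ (r + 1) = θ ^ r * θ := pow_succ θ r
    have h4 : θ ^ r * θ ≤ θ ^ r * (1 / 114) := by gcongr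
    have h5 := (abs_le.mp low).2
    have h6 := le_abs_self (θ ^ r - θ ^ r')
    nlinarith
  · -- r' < r
    have ha : 0 < θ ^ r' := pow_pos hθ0 r'
    have h1 : θ ^ r ≤ θ ^ (r' + 1) := pow_le_pow_of_le_one hθ0.le hθ1 hlt
    have h2 : θ ^ (r + 1) ≤ θ ^ (r' + 1) := pow_le_pow_of_le_one hθ0.le hθ1 (by omega)
    have h3 : θ ^ (r' + 1) = θ ^ r' * θ := pow_succ θ r'
    have h4 : θ ^ r' * θ ≤ θ ^ r' * (1 / 114) := by gcongr
    have h6 := neg_abs_le (θ ^ r - θ ^ r')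
    nlinarith


/-- The normalised `l`-division values of `℘` and `℘'` as functions of `τ`, with the properties
the packaging consumes. `X r s τ` stands for `(2πi)⁻² ℘((rτ+s)/l)` and `Y r s τ` for
`(2πi)⁻³ ℘'((rτ+s)/l)`, lattice `ℤ + ℤτ`. -/
structure DivData (l : ℕ) where
  X : ℤ → ℤ → ℍ → ℂ
  Y : ℤ → ℤ → ℍ → ℂ
  mdiff_X : ∀ r s : ℤ, ¬((l : ℤ) ∣ r ∧ (l : ℤ) ∣ s) → MDiff (X r s)
  mdiff_Y : ∀ r s : ℤ, ¬((l : ℤ) ∣ r ∧ (l : ℤ) ∣ s) → MDiff (Y r s)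
  smul_X : ∀ (r s : ℤ) (γ : SL(2, ℤ)) (τ : ℍ),
    X r s (γ • τ) = (((γ 1 0 : ℤ) : ℂ) * τ + ((γ 1 1 : ℤ) : ℂ)) ^ 2 *
      X (r * γ 0 0 + s * γ 1 0) (r * γ 0 1 + s * γ 1 1) τ
  smul_Y : ∀ (r s : ℤ) (γ : SL(2, ℤ)) (τ : ℍ),
    Y r s (γ • τ) = (((γ 1 0 : ℤ) : ℂ) * τ + ((γ 1 1 : ℤ) : ℂ)) ^ 3 *
      Y (r * γ 0 0 + s * γ 1 0) (r * γ 0 1 + s * γ 1 1) τ
  congr_X : ∀ r s r' s' : ℤ, (l : ℤ) ∣ r - r' → (l : ℤ) ∣ s - s' → X r s = X r' s'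
  congr_Y : ∀ r s r' s' : ℤ, (l : ℤ) ∣ r - r' → (l : ℤ) ∣ s - s' → Y r s = Y r' s'
  neg_X : ∀ r s : ℤ, X (-r) (-s) = X r s
  neg_Y : ∀ r s : ℤ, Y (-r) (-s) = -Y r s
  ne_X : ∀ (r s r' s' : ℤ) (τ : ℍ), ¬((l : ℤ) ∣ r ∧ (l : ℤ) ∣ s) →
    ¬((l : ℤ) ∣ r' ∧ (l : ℤ) ∣ s') → ¬((l : ℤ) ∣ r - r' ∧ (l : ℤ) ∣ s - s') →
    ¬((l : ℤ) ∣ r + r' ∧ (l : ℤ) ∣ s + s') → X r s τ ≠ X r' s' τ
  hasSum_X : ∀ (r : ℕ) (s : ℤ) (τ : ℍ), r < l → ¬(r = 0 ∧ (l : ℤ) ∣ s) →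
    HasSum (fun n : ℕ => wpC (cexp (2 * π * I * (((r : ℂ) * τ + s) / l))) n *
      cexp (2 * π * I * τ) ^ n) (X r s τ)
  hasSum_Y : ∀ (r : ℕ) (s : ℤ) (τ : ℍ), r < l → ¬(r = 0 ∧ (l : ℤ) ∣ s) →
    HasSum (fun n : ℕ => wpC' (cexp (2 * π * I * (((r : ℂ) * τ + s) / l))) n *
      cexp (2 * π * I * τ) ^ n) (Y r s τ)

namespace DivData

variable {l : ℕ} (D : DivData l)

/-- `W_{(r,s),(r',s')} = Y_{(r,s)} / (X_{(r,s)} - X_{(r',s')})`. -/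
def Wfun (r s r' s' : ℤ) : ℍ → ℂ := fun τ => D.Y r s τ / (D.X r s τ - D.X r' s' τ)

lemma Wfun_apply (r s r' s' : ℤ) (τ : ℍ) :
    D.Wfun r s r' s' τ = D.Y r s τ / (D.X r s τ - D.X r' s' τ) := rfl

/-- The `SL(2,ℤ)`-slash of `W` is the `W` of the transformed index vectors. -/
lemma Wfun_slash (r s r' s' : ℤ) (γ : SL(2, ℤ)) :
    D.Wfun r s r' s' ∣[(1 : ℤ)] γ =
      D.Wfun (r * γ 0 0 + s * γ 1 0) (r * γ 0 1 + s * γ 1 1)
        (r' * γ 0 0 + s' * γ 1 0) (r' * γ 0 1 + s' * γ 1 1) := by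
  ext τ
  rw [SL_slash_apply, Wfun_apply, Wfun_apply, D.smul_X, D.smul_X, D.smul_Y, ModularGroup.denom_apply]
  have hden : ((γ 1 0 : ℤ) : ℂ) * τ + ((γ 1 1 : ℤ) : ℂ) ≠ 0 := by
    have := denom_ne_zero (γ : GL (Fin 2) ℝ) τ
    rwa [ModularGroup.denom_apply] at this
  set c := ((γ 1 0 : ℤ) : ℂ) * τ + ((γ 1 1 : ℤ) : ℂ) with hc
  rw [_root_.zpow_neg, zpow_one]
  by_cases h0 : D.X (r * γ 0 0 + s * γ 1 0) (r * γ 0 1 + s * γ 1 1) τ -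
      D.X (r' * γ 0 0 + s' * γ 1 0) (r' * γ 0 1 + s' * γ 1 1) τ = 0
  · rw [h0, ← mul_sub, h0]; simp
  · field_simp

lemma Wfun_mdiff (r s r' s' : ℤ) (h : ¬((l : ℤ) ∣ r ∧ (l : ℤ) ∣ s))
    (h' : ¬((l : ℤ) ∣ r' ∧ (l : ℤ) ∣ s')) (hm : ¬((l : ℤ) ∣ r - r' ∧ (l : ℤ) ∣ s - s'))
    (hp : ¬((l : ℤ) ∣ r + r' ∧ (l : ℤ) ∣ s + s')) : MDiff (D.Wfun r s r' s') := by
  have h1 : MDiff (fun τ => D.X r s τ - D.X r' s' τ) := (D.mdiff_X r s h).sub (D.mdiff_X r' s' h')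
  exact (D.mdiff_Y r s h).div h1 (fun τ => sub_ne_zero.mpr (D.ne_X r s r' s' τ h h' hm hp))

/-! ### Behaviour at the cusps -/

/-- Estimate of `X r s`, `Y r s` near `i∞` for `0 < r < l/2`: `X = 1/12 + u + O(θ^(r+1))`,
`Y = O(θ^r)`, with `‖u‖ = θ^r`, `θ = ‖exp(2πiτ/l)‖`. -/
lemma index_est (r : ℕ) (s : ℤ) (τ : ℍ) (hr : 0 < r) (h2r : 2 * r < l)
    (hθ : ‖qL l τ‖ ≤ 1 / 114) :
    ∃ u : ℂ, ‖u‖ = ‖qL l τ‖ ^ r ∧ ‖D.X r s τ - 1 / 12 - u‖ ≤ 28 * ‖qL l τ‖ ^ (r + 1) ∧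
      ‖D.Y r s τ‖ ≤ 5 * ‖qL l τ‖ ^ r := by
  have hl : l ≠ 0 := by omega
  set θ := ‖qL l τ‖ with hθdef
  have hθ0 : 0 < θ := norm_pos_iff.mpr (qL_ne_zero l τ)
  have hθ1 : θ ≤ 1 := by linarith
  set u := cexp (2 * π * I * (((r : ℂ) * τ + s) / l)) with hu
  have hu0 : u ≠ 0 := Complex.exp_ne_zero _
  have hun : ‖u‖ = θ ^ r := by
    rw [hu, exp_div_eq hl, norm_mul, norm_exp_int_div, one_mul, norm_pow]
  have hθr : θ ^ r ≤ θ := pow_le_of_le_one hθ0.le hθ1 (by omega)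
  have hu6 : ‖u‖ ≤ 1 / 6 := by rw [hun]; linarith
  have hu1 : ‖u‖ ≤ 1 := by linarith
  -- `q = qL ^ l`, `‖q‖ = θ^(l-r) * ‖u‖`
  set q := cexp (2 * π * I * τ) with hq
  have hqn : ‖q‖ = θ ^ (l - r) * ‖u‖ := by
    rw [hq, ← qL_pow hl, norm_pow, hun, ← pow_add]
    congr 1
    omega
  have hρ : θ ^ (l - r) ≤ θ ^ (r + 1) := pow_le_pow_of_le_one hθ0.le hθ1 (by omega)
  have hρ' : θ ^ (r + 1) ≤ θ := pow_le_of_le_one hθ0.le hθ1 (by omega)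
  have hρ6 : θ ^ (l - r) ≤ 1 / 6 := by linarith
  have hρ0 : 0 ≤ θ ^ (l - r) := by positivity
  have tX : ‖D.X r s τ - wpC u 0‖ ≤ 24 * θ ^ (l - r) := by
    have := norm_sub_zero_le_of_hasSum (K := 4) (by norm_num) hρ0 hρ6
      (D.hasSum_X r s τ (by omega) (by omega))
      (fun n hn => norm_wpC_mul_le hu0 hu1 hqn.le hn)
    linarith
  have tY : ‖D.Y r s τ - wpC' u 0‖ ≤ 12 * θ ^ (l - r) := by
    have := norm_sub_zero_le_of_hasSum (K := 2) (by norm_num) hρ0 hρ6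
      (D.hasSum_Y r s τ (by omega) (by omega))
      (fun n hn => norm_wpC'_mul_le hu0 hu1 hqn.le hn)
    linarith
  refine ⟨u, hun, ?_, ?_⟩
  · have e : D.X r s τ - 1 / 12 - u = (D.X r s τ - wpC u 0) + (u / (1 - u) ^ 2 - u) := by
      rw [wpC_zero]; ring
    have h1 := norm_x_sub_le hu6
    have h2 : ‖u‖ ^ 2 ≤ θ ^ (r + 1) := by
      rw [hun, ← pow_mul]
      exact pow_le_pow_of_le_one hθ0.le hθ1 (by omega)
    rw [e]
    calc ‖(D.X r s τ - wpC u 0) + (u / (1 - u) ^ 2 - u)‖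
        ≤ ‖D.X r s τ - wpC u 0‖ + ‖u / (1 - u) ^ 2 - u‖ := norm_add_le _ _
      _ ≤ 24 * θ ^ (r + 1) + 4 * θ ^ (r + 1) := by
          gcongr
          · exact tX.trans (by gcongr)
          · exact h1.trans (by gcongr)
      _ = 28 * θ ^ (r + 1) := by ring
  · have h1 := norm_y_le hu6
    rw [← wpC'_zero] at h1
    have h3 : θ ^ (r + 1) = θ ^ r * θ := pow_succ θ r
    have hθr0 : 0 < θ ^ r := pow_pos hθ0 r
    calc ‖D.Y r s τ‖ = ‖(D.Y r s τ - wpC' u 0) + wpC' u 0‖ := by ring_nf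
      _ ≤ ‖D.Y r s τ - wpC' u 0‖ + ‖wpC' u 0‖ := norm_add_le _ _
      _ ≤ 12 * θ ^ (r + 1) + 3 * θ ^ r := by
          gcongr
          · exact tY.trans (by gcongr)
          · rw [← hun]; exact h1
      _ ≤ 5 * θ ^ r := by
          rw [h3]
          nlinarith

/-- Cusp estimate, case of two indices with `0 < r ≠ r' < l/2`. -/
lemma Wfun_bdd_caseB (r r' : ℕ) (s s' : ℤ) (hr : 0 < r) (hr' : 0 < r') (h2r : 2 * r < l)
    (h2r' : 2 * r' < l) (hne : r ≠ r') : IsBoundedAtImInfty (D.Wfun r s r' s') := by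
  have hl : l ≠ 0 := by omega
  apply isBoundedAtImInfty_of_eventually (M := 10)
  filter_upwards [eventually_norm_qL_le hl (show (0 : ℝ) < 1 / 114 by norm_num)] with τ hτ
  have hθ0 : 0 < ‖qL l τ‖ := norm_pos_iff.mpr (qL_ne_zero l τ)
  obtain ⟨u, hu, hA, hY⟩ := D.index_est r s τ hr h2r hτ
  obtain ⟨u', hu', hA', -⟩ := D.index_est r' s' τ hr' h2r' hτ
  have key := core_ineq hθ0 hτ hne hu hu' hA hA' hY
  rw [Wfun_apply, norm_div]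
  rcases eq_or_lt_of_le (norm_nonneg (D.X r s τ - D.X r' s' τ)) with h0 | h0
  · rw [← h0]; simp
  · rw [div_le_iff₀ h0]; exact key

/-- Cusp estimate, case `r = r' = 0`. -/
lemma Wfun_bdd_caseA (hl : l ≠ 0) (s s' : ℤ) (hs : ¬(l : ℤ) ∣ s) (hs' : ¬(l : ℤ) ∣ s')
    (hm : ¬(l : ℤ) ∣ s - s') (hp : ¬(l : ℤ) ∣ s + s') :
    IsBoundedAtImInfty (D.Wfun 0 s 0 s') := by
  set u := cexp (2 * π * I * ((s : ℂ) / l)) with hu
  set v := cexp (2 * π * I * ((s' : ℂ) / l)) with hv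
  have hu0 : u ≠ 0 := Complex.exp_ne_zero _
  have hv0 : v ≠ 0 := Complex.exp_ne_zero _
  have hu1 : ‖u‖ = 1 := norm_exp_int_div l s
  have hv1 : ‖v‖ = 1 := norm_exp_int_div l s'
  have hδ : 0 < ‖wpC u 0 - wpC v 0‖ :=
    norm_pos_iff.mpr (sub_ne_zero.mpr (wpC_zero_ne hl s s' hs hs' hm hp))
  set δ := ‖wpC u 0 - wpC v 0‖ with hδdef
  have hε : (0 : ℝ) < min (1 / 6) (δ / 96) := lt_min (by norm_num) (by positivity)
  apply isBoundedAtImInfty_of_eventually (M := (‖wpC' u 0‖ + 2) / (δ / 2))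
  filter_upwards [eventually_norm_qL_le hl hε] with τ hτ
  set q := cexp (2 * π * I * τ) with hq
  have hqn : ‖q‖ ≤ min (1 / 6) (δ / 96) := by
    rw [hq, ← qL_pow hl, norm_pow]
    exact (pow_le_of_le_one (norm_nonneg _) (norm_qL_lt_one hl τ).le hl).trans hτ
  have hq6 : ‖q‖ ≤ 1 / 6 := hqn.trans (min_le_left _ _)
  have hqδ : ‖q‖ ≤ δ / 96 := hqn.trans (min_le_right _ _)
  have hlpos : 0 < l := Nat.pos_of_ne_zero hl
  have hX := D.hasSum_X 0 s τ hlpos (by simp [hs])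
  have hX' := D.hasSum_X 0 s' τ hlpos (by simp [hs'])
  have hY := D.hasSum_Y 0 s τ hlpos (by simp [hs])
  simp only [Nat.cast_zero, zero_mul, zero_add] at hX hX' hY
  have tX : ‖D.X 0 s τ - wpC u 0‖ ≤ 24 * ‖q‖ := by
    have := norm_sub_zero_le_of_hasSum (K := 4) (by norm_num) (norm_nonneg q) hq6 hX
      (fun n hn => norm_wpC_mul_le hu0 hu1.le (by rw [hu1, mul_one]) hn)
    linarith
  have tX' : ‖D.X 0 s' τ - wpC v 0‖ ≤ 24 * ‖q‖ := by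
    have := norm_sub_zero_le_of_hasSum (K := 4) (by norm_num) (norm_nonneg q) hq6 hX'
      (fun n hn => norm_wpC_mul_le hv0 hv1.le (by rw [hv1, mul_one]) hn)
    linarith
  have tY : ‖D.Y 0 s τ - wpC' u 0‖ ≤ 12 * ‖q‖ := by
    have := norm_sub_zero_le_of_hasSum (K := 2) (by norm_num) (norm_nonneg q) hq6 hY
      (fun n hn => norm_wpC'_mul_le hu0 hu1.le (by rw [hu1, mul_one]) hn)
    linarith
  have hden : δ / 2 ≤ ‖D.X 0 s τ - D.X 0 s' τ‖ := by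
    have e : wpC u 0 - wpC v 0 = (D.X 0 s τ - D.X 0 s' τ) - (D.X 0 s τ - wpC u 0) +
        (D.X 0 s' τ - wpC v 0) := by ring
    have h1 : δ ≤ ‖D.X 0 s τ - D.X 0 s' τ‖ + ‖D.X 0 s τ - wpC u 0‖ + ‖D.X 0 s' τ - wpC v 0‖ := by
      rw [hδdef, e]
      exact (norm_add_le _ _).trans (by gcongr; exact norm_sub_le _ _)
    linarith
  have hnum : ‖D.Y 0 s τ‖ ≤ ‖wpC' u 0‖ + 2 := by
    have h1 : ‖D.Y 0 s τ‖ ≤ ‖D.Y 0 s τ - wpC' u 0‖ + ‖wpC' u 0‖ := by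
      have := norm_add_le (D.Y 0 s τ - wpC' u 0) (wpC' u 0)
      simpa using this
    linarith
  rw [Wfun_apply, norm_div]
  exact div_le_div₀ (by positivity) hnum (by positivity) hden

lemma Wfun_congr (r s r' s' r₁ s₁ r₁' s₁' : ℤ) (h1 : (l : ℤ) ∣ r - r₁) (h2 : (l : ℤ) ∣ s - s₁)
    (h3 : (l : ℤ) ∣ r' - r₁') (h4 : (l : ℤ) ∣ s' - s₁') :
    D.Wfun r s r' s' = D.Wfun r₁ s₁ r₁' s₁' := by
  ext τ
  rw [Wfun_apply, Wfun_apply, D.congr_X r s r₁ s₁ h1 h2, D.congr_X r' s' r₁' s₁' h3 h4,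
    D.congr_Y r s r₁ s₁ h1 h2]

/-- Normalisation of an index `(r, s)` with `l ∤ r`, `l` odd, to `0 < r₁ < l/2`. -/
lemma exists_normalised (hodd : Odd l) (r s : ℤ) (hr : ¬(l : ℤ) ∣ r) :
    ∃ (r₁ : ℕ) (s₁ : ℤ), 0 < r₁ ∧ 2 * r₁ < l ∧
      ((l : ℤ) ∣ r - r₁ ∨ (l : ℤ) ∣ r + r₁) ∧ D.X r s = D.X r₁ s₁ ∧
      (D.Y r s = D.Y r₁ s₁ ∨ D.Y r s = -D.Y r₁ s₁) := by
  have hl : l ≠ 0 := fun h => by subst h; simp at hodd
  have hl' : (l : ℤ) ≠ 0 := Int.natCast_ne_zero.mpr hl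
  have hlpos : (0 : ℤ) < l := by positivity
  have h0 : 0 ≤ r % (l : ℤ) := Int.emod_nonneg r hl'
  have h1 : r % (l : ℤ) < l := Int.emod_lt_of_pos r hlpos
  have h2 : r % (l : ℤ) ≠ 0 := fun h => hr (Int.dvd_of_emod_eq_zero h)
  have hdvd : (l : ℤ) ∣ r - r % (l : ℤ) := Int.dvd_self_sub_emod
  obtain ⟨k, hk⟩ := hodd
  rcases lt_or_ge (2 * (r % (l : ℤ))) (l : ℤ) with hlt | hge
  · refine ⟨(r % (l : ℤ)).toNat, s, ?_, ?_, ?_, ?_, ?_⟩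
    · omega
    · omega
    · left; rw [Int.toNat_of_nonneg h0]; exact hdvd
    · rw [Int.toNat_of_nonneg h0]; exact D.congr_X _ _ _ _ hdvd (by simp)
    · left; rw [Int.toNat_of_nonneg h0]; exact D.congr_Y _ _ _ _ hdvd (by simp)
  · have h3 : 0 ≤ (l : ℤ) - r % (l : ℤ) := by omega
    have hdvd' : (l : ℤ) ∣ r - (-((l : ℤ) - r % (l : ℤ))) := by
      have : r - (-((l : ℤ) - r % (l : ℤ))) = (r - r % (l : ℤ)) + l := by ring
      rw [this]; exact dvd_add hdvd dvd_rfl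
    refine ⟨((l : ℤ) - r % (l : ℤ)).toNat, -s, ?_, ?_, ?_, ?_, ?_⟩
    · omega
    · omega
    · right; rw [Int.toNat_of_nonneg h3]
      have : r + ((l : ℤ) - r % (l : ℤ)) = (r - r % (l : ℤ)) + l := by ring
      rw [this]; exact dvd_add hdvd dvd_rfl
    · rw [Int.toNat_of_nonneg h3, ← D.neg_X ((l : ℤ) - r % (l : ℤ)) (-s), neg_neg]
      exact D.congr_X _ _ _ _ hdvd' (by simp)
    · right
      rw [Int.toNat_of_nonneg h3, ← D.neg_Y ((l : ℤ) - r % (l : ℤ)) (-s), neg_neg]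
      exact D.congr_Y _ _ _ _ hdvd' (by simp)

/-- **Boundedness at `i∞`** of `W_{(r,s),(r',s')}` for `l` odd, in the two cases that occur
for prime `l`: both first coordinates divisible by `l`, or neither and `r ≢ ± r'`. -/
theorem Wfun_isBoundedAtImInfty (hodd : Odd l) (r s r' s' : ℤ)
    (h : ((l : ℤ) ∣ r ∧ (l : ℤ) ∣ r' ∧ ¬(l : ℤ) ∣ s ∧ ¬(l : ℤ) ∣ s' ∧ ¬(l : ℤ) ∣ s - s' ∧
        ¬(l : ℤ) ∣ s + s') ∨
      (¬(l : ℤ) ∣ r ∧ ¬(l : ℤ) ∣ r' ∧ ¬(l : ℤ) ∣ r - r' ∧ ¬(l : ℤ) ∣ r + r')) :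
    IsBoundedAtImInfty (D.Wfun r s r' s') := by
  have hl : l ≠ 0 := fun h => by subst h; simp at hodd
  rcases h with ⟨h1, h2, h3, h4, h5, h6⟩ | ⟨h1, h2, h3, h4⟩
  · rw [D.Wfun_congr r s r' s' 0 s 0 s' (by simpa using h1) (by simp) (by simpa using h2) (by simp)]
    exact D.Wfun_bdd_caseA hl s s' h3 h4 h5 h6
  · obtain ⟨r₁, s₁, hr₁, h2r₁, hd₁, hX₁, hY₁⟩ := D.exists_normalised hodd r s h1
    obtain ⟨r₂, s₂, hr₂, h2r₂, hd₂, hX₂, -⟩ := D.exists_normalised hodd r' s' h2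
    have hne : r₁ ≠ r₂ := by
      rintro rfl
      rcases hd₁ with hd₁ | hd₁ <;> rcases hd₂ with hd₂ | hd₂
      · apply h3
        have : r - r' = (r - r₁) - (r' - r₁) := by ring
        rw [this]; exact dvd_sub hd₁ hd₂
      · apply h4
        have : r + r' = (r - r₁) + (r' + r₁) := by ring
        rw [this]; exact dvd_add hd₁ hd₂
      · apply h4
        have : r + r' = (r + r₁) + (r' - r₁) := by ring
        rw [this]; exact dvd_add hd₁ hd₂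
      · apply h3
        have : r - r' = (r + r₁) - (r' + r₁) := by ring
        rw [this]; exact dvd_sub hd₁ hd₂
    have hB := D.Wfun_bdd_caseB r₁ r₂ s₁ s₂ hr₁ hr₂ h2r₁ h2r₂ hne
    rw [isBoundedAtImInfty_iff] at hB ⊢
    obtain ⟨M, A, hMA⟩ := hB
    refine ⟨M, A, fun τ hτ => ?_⟩
    have := hMA τ hτ
    rw [Wfun_apply] at this ⊢
    rw [hX₁, hX₂]
    rcases hY₁ with hY₁ | hY₁
    · rw [hY₁]; exact this
    · rw [hY₁, Pi.neg_apply, neg_div, norm_neg]; exact this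

end DivData

/-! ### The modular form `W_{a,b}` on `Γ₁(l)` -/

/-- Admissible index pairs: `a, b, a ± b` all prime to `l`. -/
def Adm (l : ℕ) (a b : ℤ) : Prop :=
  ¬(l : ℤ) ∣ a ∧ ¬(l : ℤ) ∣ b ∧ ¬(l : ℤ) ∣ a - b ∧ ¬(l : ℤ) ∣ a + b

lemma not_dvd_mul_of_prime {l : ℕ} (hl : l.Prime) {x y : ℤ} (hx : ¬(l : ℤ) ∣ x)
    (hy : ¬(l : ℤ) ∣ y) : ¬(l : ℤ) ∣ x * y := fun h =>
  ((Nat.prime_iff_prime_int.mp hl).dvd_or_dvd h).elim hx hy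

lemma Adm.mul {l : ℕ} (hl : l.Prime) {a b : ℤ} (h : Adm l a b) {d : ℤ} (hd : ¬(l : ℤ) ∣ d) :
    Adm l (a * d) (b * d) := by
  obtain ⟨h1, h2, h3, h4⟩ := h
  refine ⟨not_dvd_mul_of_prime hl h1 hd, not_dvd_mul_of_prime hl h2 hd, ?_, ?_⟩
  · rw [← sub_mul]; exact not_dvd_mul_of_prime hl h3 hd
  · rw [← add_mul]; exact not_dvd_mul_of_prime hl h4 hd

lemma Adm.congr {l : ℕ} {a b a' b' : ℤ} (h : Adm l a b) (ha : (l : ℤ) ∣ a - a')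
    (hb : (l : ℤ) ∣ b - b') : Adm l a' b' := by
  obtain ⟨h1, h2, h3, h4⟩ := h
  refine ⟨fun h => h1 ?_, fun h => h2 ?_, fun h => h3 ?_, fun h => h4 ?_⟩
  · have : a = (a - a') + a' := by ring
    rw [this]; exact dvd_add ha h
  · have : b = (b - b') + b' := by ring
    rw [this]; exact dvd_add hb h
  · have : a - b = (a - a') - (b - b') + (a' - b') := by ring
    rw [this]; exact dvd_add (dvd_sub ha hb) h
  · have : a + b = (a - a') + (b - b') + (a' + b') := by ring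
    rw [this]; exact dvd_add (dvd_add ha hb) h

/-- For `γ ∈ SL(2,ℤ)`, `l` prime: if `l ∣ γ₁₀` then `l ∤ γ₁₁`. -/
lemma not_dvd_lower_right {l : ℕ} (hl : l.Prime) (γ : SL(2, ℤ)) (h : (l : ℤ) ∣ γ 1 0) :
    ¬(l : ℤ) ∣ γ 1 1 := by
  intro hd
  have hdet := γ.det_coe
  rw [Matrix.det_fin_two] at hdet
  have h1 : (l : ℤ) ∣ 1 := by
    rw [← hdet]
    exact dvd_sub (dvd_mul_of_dvd_right hd _) (dvd_mul_of_dvd_right h _)
  exact (Nat.prime_iff_prime_int.mp hl).not_dvd_one h1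

lemma dvd_of_mem_Gamma0 {l : ℕ} {γ : SL(2, ℤ)} (hγ : γ ∈ Gamma0 l) : (l : ℤ) ∣ γ 1 0 :=
  (ZMod.intCast_zmod_eq_zero_iff_dvd _ _).mp (Gamma0_mem.mp hγ)

lemma one_mem_strictPeriods_Gamma1 (N : ℕ) :
    (1 : ℝ) ∈ (Subgroup.map (Matrix.SpecialLinearGroup.mapGL ℝ) (Gamma1 N)).strictPeriods := by
  have hT : ModularGroup.T ∈ Gamma1 N := by
    rw [Gamma1_mem]
    simp [ModularGroup.T]
  rw [Subgroup.strictPeriods_eq_zmultiples_one_of_T_mem hT]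
  exact AddSubgroup.mem_zmultiples (1 : ℝ)

namespace DivData

variable {l : ℕ} (D : DivData l)

/-- Diamond law on functions: for `γ ∈ Γ₀(l)`, `W_{a,b} ∣[1] γ = W_{a γ₁₁, b γ₁₁}`. -/
theorem Wfun_slash_Gamma0 (a b : ℤ) {γ : SL(2, ℤ)} (hγ : γ ∈ Gamma0 l) :
    D.Wfun 0 a 0 b ∣[(1 : ℤ)] γ = D.Wfun 0 (a * γ 1 1) 0 (b * γ 1 1) := by
  have d10 := dvd_of_mem_Gamma0 hγ
  rw [Wfun_slash]
  apply Wfun_congr
  · simpa using dvd_mul_of_dvd_right d10 a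
  · simp
  · simpa using dvd_mul_of_dvd_right d10 b
  · simp

/-- **The weight-one form `W_{a,b}` on `Γ₁(l)`**, `l` an odd prime, `a, b, a ± b` prime to `l`:
`W_{a,b}(τ) = Y_{(0,a)}(τ) / (X_{(0,a)}(τ) - X_{(0,b)}(τ))`. -/
def Wform (hl : l.Prime) (hl2 : l ≠ 2) {a b : ℤ} (h : Adm l a b) : ModularForm (Gamma1 l) 1 where
  toFun := D.Wfun 0 a 0 b
  slash_action_eq' := by
    rintro γ ⟨γ₀, hγ₀, rfl⟩
    have h1 : D.Wfun 0 a 0 b ∣[(1 : ℤ)] (Matrix.SpecialLinearGroup.mapGL ℝ γ₀) =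
        D.Wfun 0 a 0 b ∣[(1 : ℤ)] γ₀ := rfl
    rw [h1, D.Wfun_slash_Gamma0 a b (Gamma1_in_Gamma0 l hγ₀)]
    have hγ₀' : γ₀ ∈ Gamma1 l := hγ₀
    rw [Gamma1_mem] at hγ₀'
    obtain ⟨-, h11, -⟩ := hγ₀'
    have d11 : (l : ℤ) ∣ γ₀ 1 1 - 1 := by
      have h2 : ((γ₀ 1 1 : ℤ) : ZMod l) = ((1 : ℤ) : ZMod l) := by simpa using h11
      have := (ZMod.intCast_eq_intCast_iff_dvd_sub _ _ l).mp h2.symm
      exact this
    apply Wfun_congr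
    · simp
    · have : a * γ₀ 1 1 - a = a * (γ₀ 1 1 - 1) := by ring
      rw [this]; exact dvd_mul_of_dvd_right d11 a
    · simp
    · have : b * γ₀ 1 1 - b = b * (γ₀ 1 1 - 1) := by ring
      rw [this]; exact dvd_mul_of_dvd_right d11 b
  holo' := D.Wfun_mdiff 0 a 0 b (fun h' => h.1 h'.2) (fun h' => h.2.1 h'.2)
    (fun h' => h.2.2.1 h'.2) (fun h' => h.2.2.2 h'.2)
  bdd_at_cusps' := by
    intro c hc
    have : NeZero l := ⟨hl.ne_zero⟩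
    rw [Subgroup.IsArithmetic.isCusp_iff_isCusp_SL2Z] at hc
    rw [OnePoint.isBoundedAt_iff_forall_SL2Z hc]
    intro γ _
    rw [Wfun_slash]
    apply D.Wfun_isBoundedAtImInfty (hl.odd_of_ne_two hl2)
    obtain ⟨h1, h2, h3, h4⟩ := h
    by_cases hc0 : (l : ℤ) ∣ γ 1 0
    · left
      have hd := not_dvd_lower_right hl γ hc0
      refine ⟨?_, ?_, ?_, ?_, ?_, ?_⟩
      · simpa using dvd_mul_of_dvd_right hc0 a
      · simpa using dvd_mul_of_dvd_right hc0 b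
      · simpa using not_dvd_mul_of_prime hl h1 hd
      · simpa using not_dvd_mul_of_prime hl h2 hd
      · have : 0 * γ 0 1 + a * γ 1 1 - (0 * γ 0 1 + b * γ 1 1) = (a - b) * γ 1 1 := by ring
        rw [this]; exact not_dvd_mul_of_prime hl h3 hd
      · have : 0 * γ 0 1 + a * γ 1 1 + (0 * γ 0 1 + b * γ 1 1) = (a + b) * γ 1 1 := by ring
        rw [this]; exact not_dvd_mul_of_prime hl h4 hd
    · right
      refine ⟨?_, ?_, ?_, ?_⟩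
      · simpa using not_dvd_mul_of_prime hl h1 hc0
      · simpa using not_dvd_mul_of_prime hl h2 hc0
      · have : 0 * γ 0 0 + a * γ 1 0 - (0 * γ 0 0 + b * γ 1 0) = (a - b) * γ 1 0 := by ring
        rw [this]; exact not_dvd_mul_of_prime hl h3 hc0
      · have : 0 * γ 0 0 + a * γ 1 0 + (0 * γ 0 0 + b * γ 1 0) = (a + b) * γ 1 0 := by ring
        rw [this]; exact not_dvd_mul_of_prime hl h4 hc0

lemma Wform_coe (hl : l.Prime) (hl2 : l ≠ 2) {a b : ℤ} (h : Adm l a b) :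
    ⇑(D.Wform hl hl2 h) = D.Wfun 0 a 0 b := rfl

lemma Wform_apply (hl : l.Prime) (hl2 : l ≠ 2) {a b : ℤ} (h : Adm l a b) (τ : ℍ) :
    D.Wform hl hl2 h τ = D.Y 0 a τ / (D.X 0 a τ - D.X 0 b τ) := rfl

/-- `W_{a,b}` only depends on `a, b` mod `l`. -/
lemma Wform_congr (hl : l.Prime) (hl2 : l ≠ 2) {a b a' b' : ℤ} (h : Adm l a b)
    (h' : Adm l a' b') (ha : (l : ℤ) ∣ a - a') (hb : (l : ℤ) ∣ b - b') :
    D.Wform hl hl2 h = D.Wform hl hl2 h' := by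
  apply DFunLike.coe_injective
  rw [Wform_coe, Wform_coe]
  exact D.Wfun_congr 0 a 0 b 0 a' 0 b' (by simp) ha (by simp) hb

/-- **Diamond law**: for `γ ∈ Γ₀(l)`, `W_{a,b} ∣[1] γ = W_{a γ₁₁, b γ₁₁}`. -/
theorem Wform_slash (hl : l.Prime) (hl2 : l ≠ 2) {a b : ℤ} (h : Adm l a b) {γ : SL(2, ℤ)}
    (hγ : γ ∈ Gamma0 l) :
    ⇑(D.Wform hl hl2 h) ∣[(1 : ℤ)] γ =
      ⇑(D.Wform hl hl2 (h.mul hl (not_dvd_lower_right hl γ (dvd_of_mem_Gamma0 hγ)))) := by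
  rw [Wform_coe, Wform_coe, D.Wfun_slash_Gamma0 a b hγ]

end DivData

/-! ### `q`-expansions -/

/-- Uniqueness of `q`-expansion coefficients for plain functions on `ℍ`. -/
theorem qExpansion_coeff_unique_fun {f : ℍ → ℂ} {c : ℕ → ℂ}
    (hfanalytic : AnalyticAt ℂ (cuspFunction 1 f) 0)
    (hf : ∀ τ : ℍ, HasSum (fun m ↦ c m • Periodic.qParam 1 τ ^ m) (f τ)) (m : ℕ) :
    c m = (qExpansion 1 f).coeff m := by
  have h1 := (hasFPowerSeriesOnBall_cuspFunction one_pos hfanalytic hf).hasFPowerSeriesAt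
  have h2 : HasFPowerSeriesAt (cuspFunction 1 f)
      (FormalMultilinearSeries.ofScalars ℂ fun m ↦ (qExpansion 1 f).coeff m) 0 := by
    simpa [qExpansion_coeff, div_eq_mul_inv, mul_comm] using hfanalytic.hasFPowerSeriesAt
  simpa [FormalMultilinearSeries.coeff_ofScalars] using
    congr_arg (FormalMultilinearSeries.coeff · m) (h1.eq_formalMultilinearSeries h2)

lemma periodic_comp_ofComplex_of_T {f : ℍ → ℂ} (hf : ∀ τ : ℍ, f (ModularGroup.T • τ) = f τ) :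
    Periodic (f ∘ ofComplex) ((1 : ℝ) : ℂ) := by
  intro w
  show f (ofComplex (w + ((1 : ℝ) : ℂ))) = f (ofComplex w)
  by_cases hw : 0 < im w
  · have h1 : 0 < im (w + ((1 : ℝ) : ℂ)) := by simpa using hw
    rw [ofComplex_apply_of_im_pos h1, ofComplex_apply_of_im_pos hw, ← hf ⟨w, hw⟩, modular_T_smul]
    congr 1
    ext
    simp [add_comm]
  · have hw' : im w ≤ 0 := not_lt.mp hw
    have h1 : im (w + ((1 : ℝ) : ℂ)) ≤ 0 := by simpa using hw'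
    rw [ofComplex_apply_of_im_nonpos h1, ofComplex_apply_of_im_nonpos hw']

/-- A holomorphic `T`-invariant function given everywhere by a convergent `q`-series is
analytic at the cusp and the series is its `q`-expansion. -/
theorem qExpansion_eq_mk_of_hasSum {f : ℍ → ℂ} {c : ℕ → ℂ}
    (hT : ∀ τ : ℍ, f (ModularGroup.T • τ) = f τ) (hhol : MDiff f)
    (hs : ∀ τ : ℍ, HasSum (fun m ↦ c m • Periodic.qParam 1 τ ^ m) (f τ)) :
    AnalyticAt ℂ (cuspFunction 1 f) 0 ∧ qExpansion 1 f = PowerSeries.mk c := by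
  have hper : Periodic (f ∘ ofComplex) ((1 : ℝ) : ℂ) := periodic_comp_ofComplex_of_T hT
  have hbdd : IsBoundedAtImInfty f := isBoundedAtImInfty_of_hasSum_qExpansion one_pos hs
  have han : AnalyticAt ℂ (cuspFunction 1 f) 0 :=
    analyticAt_cuspFunction_zero one_pos hper hhol hbdd
  refine ⟨han, ?_⟩
  ext m
  rw [PowerSeries.coeff_mk]
  exact (qExpansion_coeff_unique_fun han hs m).symm

lemma qParam_one_eq (τ : ℍ) : Periodic.qParam 1 τ = cexp (2 * π * I * τ) := by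
  simp [Periodic.qParam]

namespace DivData

variable {l : ℕ} (D : DivData l)

lemma X_T (a : ℤ) (τ : ℍ) : D.X 0 a (ModularGroup.T • τ) = D.X 0 a τ := by
  rw [D.smul_X]
  simp [ModularGroup.T]

lemma Y_T (a : ℤ) (τ : ℍ) : D.Y 0 a (ModularGroup.T • τ) = D.Y 0 a τ := by
  rw [D.smul_Y]
  simp [ModularGroup.T]

lemma hasSum_X_zero (hl : l ≠ 0) (a : ℤ) (ha : ¬(l : ℤ) ∣ a) (τ : ℍ) :
    HasSum (fun n : ℕ => wpC (cexp (2 * π * I * ((a : ℂ) / l))) n • Periodic.qParam 1 τ ^ n)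
      (D.X 0 a τ) := by
  have h := D.hasSum_X 0 a τ (Nat.pos_of_ne_zero hl) (by simp [ha])
  simp only [Nat.cast_zero, zero_mul, zero_add] at h
  rw [qParam_one_eq]
  simpa only [smul_eq_mul] using h

lemma hasSum_Y_zero (hl : l ≠ 0) (a : ℤ) (ha : ¬(l : ℤ) ∣ a) (τ : ℍ) :
    HasSum (fun n : ℕ => wpC' (cexp (2 * π * I * ((a : ℂ) / l))) n • Periodic.qParam 1 τ ^ n)
      (D.Y 0 a τ) := by
  have h := D.hasSum_Y 0 a τ (Nat.pos_of_ne_zero hl) (by simp [ha])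
  simp only [Nat.cast_zero, zero_mul, zero_add] at h
  rw [qParam_one_eq]
  simpa only [smul_eq_mul] using h

/-- `q`-expansion of `X_{(0,a)}`. -/
theorem X_qExpansion (hl : l ≠ 0) (a : ℤ) (ha : ¬(l : ℤ) ∣ a) :
    AnalyticAt ℂ (cuspFunction 1 (D.X 0 a)) 0 ∧
      qExpansion 1 (D.X 0 a) = PowerSeries.mk (wpC (cexp (2 * π * I * ((a : ℂ) / l)))) :=
  qExpansion_eq_mk_of_hasSum (D.X_T a) (D.mdiff_X 0 a (fun h => ha h.2)) (D.hasSum_X_zero hl a ha)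

/-- `q`-expansion of `Y_{(0,a)}`. -/
theorem Y_qExpansion (hl : l ≠ 0) (a : ℤ) (ha : ¬(l : ℤ) ∣ a) :
    AnalyticAt ℂ (cuspFunction 1 (D.Y 0 a)) 0 ∧
      qExpansion 1 (D.Y 0 a) = PowerSeries.mk (wpC' (cexp (2 * π * I * ((a : ℂ) / l)))) :=
  qExpansion_eq_mk_of_hasSum (D.Y_T a) (D.mdiff_Y 0 a (fun h => ha h.2)) (D.hasSum_Y_zero hl a ha)

/-- **`q`-expansion identity**: `qExp(W_{a,b}) * (X_a - X_b) = Y_a` in `ℂ⟦q⟧`, where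
`X_a = ∑ wpC (ζ^a) n qⁿ`, `Y_a = ∑ wpC' (ζ^a) n qⁿ`, `ζ^a = exp(2πi a/l)`. -/
theorem Wform_qExpansion_mul (hl : l.Prime) (hl2 : l ≠ 2) {a b : ℤ} (h : Adm l a b) :
    qExpansion 1 (D.Wform hl hl2 h) *
        (PowerSeries.mk (wpC (cexp (2 * π * I * ((a : ℂ) / l)))) -
          PowerSeries.mk (wpC (cexp (2 * π * I * ((b : ℂ) / l))))) =
      PowerSeries.mk (wpC' (cexp (2 * π * I * ((a : ℂ) / l)))) := by
  have hl0 : l ≠ 0 := hl.ne_zero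
  have hW : AnalyticAt ℂ (cuspFunction 1 (D.Wform hl hl2 h)) 0 :=
    ModularFormClass.analyticAt_cuspFunction_zero (D.Wform hl hl2 h) one_pos
      (one_mem_strictPeriods_Gamma1 l)
  obtain ⟨hFa, hF⟩ := D.X_qExpansion hl0 a h.1
  obtain ⟨hGa, hG⟩ := D.X_qExpansion hl0 b h.2.1
  obtain ⟨-, hH⟩ := D.Y_qExpansion hl0 a h.1
  have hFG : AnalyticAt ℂ (cuspFunction 1 (D.X 0 a - D.X 0 b)) 0 := by
    rw [cuspFunction_sub hFa.continuousAt hGa.continuousAt]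
    exact hFa.sub hGa
  have e : (⇑(D.Wform hl hl2 h) * (D.X 0 a - D.X 0 b) : ℍ → ℂ) = D.Y 0 a := by
    ext τ
    have hne : D.X 0 a τ - D.X 0 b τ ≠ 0 :=
      sub_ne_zero.mpr (D.ne_X 0 a 0 b τ (fun h' => h.1 h'.2) (fun h' => h.2.1 h'.2)
        (fun h' => h.2.2.1 h'.2) (fun h' => h.2.2.2 h'.2))
    simp only [Pi.mul_apply, Pi.sub_apply, Wform_apply]
    field_simp
  rw [← hF, ← hG, ← hH, ← qExpansion_sub hFa hGa, ← qExpansion_mul hW hFG, e]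

end DivData

end

end Fermat.Agent.S48.helper6076
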