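import Mathlib

set_option autoImplicit false

/-!
# S48, leaf F2-ALG: the formal `q`-series core of the weight-one Eisenstein series `≡ 1 mod λ`

`wpSer u` and `wpDerSer u` are the `q`-expansions of `(2πi)⁻² ℘(a/l) - 1/12` and
`(2πi)⁻³ ℘'(a/l)` with `u = ζ ^ a`.  Any `W` with `W * (wpSer u - wpSer v) = wpDerSer u`
has the shape `c(u,v) * (1 + π⁴ * O⟦q⟧)`, `π = 1 - ζ`, and the constants satisfy
`c(u^d, v^d) / c(u, v) ≡ d⁻¹ mod π`.
-/

namespace Fermat.Agent.S48.helper6779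

open PowerSeries

section Roots

variable {K : Type*} [Field K]

/-- the cyclotomic quotient `(1 - w) / (1 - ζ)` -/
noncomputable def cq (ζ w : K) : K := (1 - w) / (1 - ζ)

theorem isPrimitiveRoot_of_prime {l : ℕ} (hl : l.Prime) {w : K} (hw : w ^ l = 1) (hw1 : w ≠ 1) :
    IsPrimitiveRoot w l := by
  have h := orderOf_dvd_of_pow_eq_one hw
  rcases (Nat.dvd_prime hl).1 h with h | h
  · exact absurd (orderOf_eq_one_iff.1 h) hw1
  · exact h ▸ IsPrimitiveRoot.orderOf w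

variable (O : Subring K) {ζ : K} {l : ℕ}

theorem root_mem (hl : l.Prime) (hζ : IsPrimitiveRoot ζ l) (hζO : ζ ∈ O) {w : K}
    (hw : w ^ l = 1) : w ∈ O := by
  have : NeZero l := ⟨hl.ne_zero⟩
  obtain ⟨i, -, rfl⟩ := hζ.eq_pow_of_pow_eq_one hw
  exact O.pow_mem hζO i

theorem cq_mem (hl : l.Prime) (hζ : IsPrimitiveRoot ζ l) (hζO : ζ ∈ O) {w : K}
    (hw : w ^ l = 1) : cq ζ w ∈ O := by
  have : NeZero l := ⟨hl.ne_zero⟩
  obtain ⟨i, -, rfl⟩ := hζ.eq_pow_of_pow_eq_one hw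
  have hζ1 : (1 : K) - ζ ≠ 0 := sub_ne_zero.2 (Ne.symm (hζ.ne_one hl.one_lt))
  have h : cq ζ (ζ ^ i) = ∑ j ∈ Finset.range i, ζ ^ j := by
    unfold cq
    rw [div_eq_iff hζ1, mul_comm]
    exact (mul_neg_geom_sum ζ i).symm
  rw [h]
  exact O.sum_mem fun j _ => O.pow_mem hζO j

theorem cq_inv_mem (hl : l.Prime) (hζ : IsPrimitiveRoot ζ l) (hζO : ζ ∈ O) {w : K}
    (hw : w ^ l = 1) (hw1 : w ≠ 1) : (cq ζ w)⁻¹ ∈ O := by
  have hwp : IsPrimitiveRoot w l := isPrimitiveRoot_of_prime hl hw hw1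
  have h : (cq ζ w)⁻¹ = cq w ζ := by unfold cq; rw [inv_div]
  rw [h]
  exact cq_mem O hl hwp (root_mem O hl hζ hζO hw) hζ.pow_eq_one

theorem cq_ne_zero (hl : l.Prime) (hζ : IsPrimitiveRoot ζ l) {w : K} (hw1 : w ≠ 1) :
    cq ζ w ≠ 0 := by
  have hζ1 : (1 : K) - ζ ≠ 0 := sub_ne_zero.2 (Ne.symm (hζ.ne_one hl.one_lt))
  exact div_ne_zero (sub_ne_zero.2 (Ne.symm hw1)) hζ1

theorem one_sub_eq (hl : l.Prime) (hζ : IsPrimitiveRoot ζ l) (w : K) :
    1 - w = (1 - ζ) * cq ζ w := by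
  have hζ1 : (1 : K) - ζ ≠ 0 := sub_ne_zero.2 (Ne.symm (hζ.ne_one hl.one_lt))
  unfold cq; field_simp

end Roots

section Series

variable {K : Type*} [Field K]

/-- `q`-series of `(2πi)⁻³ ℘'(a/l)` with `u = ζ ^ a` -/
noncomputable def wpDerSer (u : K) : PowerSeries K :=
  PowerSeries.mk fun n => if n = 0 then u * (1 + u) / (1 - u) ^ 3
    else ∑ d ∈ n.divisors, (d : K) ^ 2 * (u ^ d - u⁻¹ ^ d)

/-- `q`-series of `(2πi)⁻² ℘(a/l) - 1/12` with `u = ζ ^ a` -/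
noncomputable def wpSer (u : K) : PowerSeries K :=
  PowerSeries.mk fun n => if n = 0 then u / (1 - u) ^ 2
    else ∑ d ∈ n.divisors, (d : K) * (u ^ d + u⁻¹ ^ d - 2)

/-- the constant term `c(u,v)` of `wpDerSer u / (wpSer u - wpSer v)` -/
noncomputable def eisConst (u v : K) : K :=
  u * (1 + u) * (1 - v) ^ 2 / ((1 - u) * (u - v) * (1 - u * v))

variable (O : Subring K) {ζ : K} {l : ℕ}

/-- Facts about a pair `u, v` of `l`-th roots of unity with `u, v, u/v, uv ≠ 1`. -/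
structure RootPair (l : ℕ) (u v : K) : Prop where
  hu : u ^ l = 1
  hv : v ^ l = 1
  hu1 : u ≠ 1
  hv1 : v ≠ 1
  huv : u ≠ v
  huv' : u * v ≠ 1

theorem RootPair.sq_ne_one (hl : l.Prime) {u v : K} (h : RootPair l u v) : u ^ 2 ≠ 1 := by
  intro h2
  have hup := isPrimitiveRoot_of_prime hl h.hu h.hu1
  have h3 : l ∣ 2 := hup.dvd_of_pow_eq_one 2 h2
  have h4 : l = 2 := (Nat.prime_dvd_prime_iff_eq hl Nat.prime_two).1 h3
  subst h4
  have hvp := isPrimitiveRoot_of_prime hl h.hv h.hv1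
  exact h.huv (by rw [hup.eq_neg_one_of_two_right, hvp.eq_neg_one_of_two_right])

theorem termA (hl : l.Prime) (hζ : IsPrimitiveRoot ζ l) (hζO : ζ ∈ O) {u v : K}
    (h : RootPair l u v) (d : ℕ) :
    ∃ g ∈ O, (d : K) ^ 2 * (u ^ d - u⁻¹ ^ d) =
      u * (1 + u) / (1 - u) ^ 3 * ((1 - ζ) ^ 4 * g) := by
  have hζ1 : (1 : K) - ζ ≠ 0 := sub_ne_zero.2 (Ne.symm (hζ.ne_one hl.one_lt))
  have hu0 : u ≠ 0 := fun h0 => by
    have := h.hu; rw [h0, zero_pow hl.ne_zero] at this; exact zero_ne_one this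
  have hu1 : (1 : K) - u ≠ 0 := sub_ne_zero.2 (Ne.symm h.hu1)
  have hu2 : (1 : K) - u ^ 2 ≠ 0 := sub_ne_zero.2 (Ne.symm (h.sq_ne_one hl))
  have hui : u⁻¹ ^ l = 1 := by rw [inv_pow, h.hu, inv_one]
  have hu2l : (u ^ 2) ^ l = 1 := by rw [← pow_mul, mul_comm, pow_mul, h.hu, one_pow]
  have hudl : (u ^ (2 * d)) ^ l = 1 := by rw [← pow_mul, mul_comm, pow_mul, h.hu, one_pow]
  refine ⟨(d : K) ^ 2 * (-(u⁻¹ ^ d) * cq ζ (u ^ (2 * d))) * cq ζ u ^ 4 * u⁻¹ * (cq ζ (u ^ 2))⁻¹,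
    ?_, ?_⟩
  · refine O.mul_mem (O.mul_mem (O.mul_mem (O.mul_mem (O.pow_mem (natCast_mem O d) 2)
      (O.mul_mem (O.neg_mem (O.pow_mem (root_mem O hl hζ hζO hui) d)) (cq_mem O hl hζ hζO hudl)))
      (O.pow_mem (cq_mem O hl hζ hζO h.hu) 4)) (root_mem O hl hζ hζO hui))
      (cq_inv_mem O hl hζ hζO hu2l (h.sq_ne_one hl))
  · have h1u : (1 : K) + u ≠ 0 := by
      intro h0
      apply hu2
      have : (1 : K) - u ^ 2 = (1 + u) * (1 - u) := by ring
      rw [this, h0, zero_mul]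
    have hx0 : u ^ d ≠ 0 := pow_ne_zero d hu0
    have hx2 : u ^ (2 * d) = (u ^ d) ^ 2 := by rw [mul_comm, pow_mul]
    rw [hx2, inv_pow]
    generalize u ^ d = x at hx0
    unfold cq
    field_simp
    ring

theorem termD (hl : l.Prime) (hζ : IsPrimitiveRoot ζ l) (hζO : ζ ∈ O) {u v : K}
    (h : RootPair l u v) (d : ℕ) :
    ∃ g ∈ O, (d : K) * (u ^ d + u⁻¹ ^ d - 2) - (d : K) * (v ^ d + v⁻¹ ^ d - 2) =
      (u - v) * (1 - u * v) / ((1 - u) ^ 2 * (1 - v) ^ 2) * ((1 - ζ) ^ 4 * g) := by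
  have hζ1 : (1 : K) - ζ ≠ 0 := sub_ne_zero.2 (Ne.symm (hζ.ne_one hl.one_lt))
  have hu0 : u ≠ 0 := fun h0 => by
    have := h.hu; rw [h0, zero_pow hl.ne_zero] at this; exact zero_ne_one this
  have hv0 : v ≠ 0 := fun h0 => by
    have := h.hv; rw [h0, zero_pow hl.ne_zero] at this; exact zero_ne_one this
  have hu1 : (1 : K) - u ≠ 0 := sub_ne_zero.2 (Ne.symm h.hu1)
  have hv1 : (1 : K) - v ≠ 0 := sub_ne_zero.2 (Ne.symm h.hv1)
  have huv : u - v ≠ 0 := sub_ne_zero.2 h.huv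
  have huv' : (1 : K) - u * v ≠ 0 := sub_ne_zero.2 (Ne.symm h.huv')
  have hui : u⁻¹ ^ l = 1 := by rw [inv_pow, h.hu, inv_one]
  have hvi : v⁻¹ ^ l = 1 := by rw [inv_pow, h.hv, inv_one]
  have hudl : (u ^ d) ^ l = 1 := by rw [← pow_mul, mul_comm, pow_mul, h.hu, one_pow]
  have hvdl : (v ^ d) ^ l = 1 := by rw [← pow_mul, mul_comm, pow_mul, h.hv, one_pow]
  have hq1 : (v / u) ^ l = 1 := by rw [div_pow, h.hu, h.hv, div_one]
  have hq2 : (u * v) ^ l = 1 := by rw [mul_pow, h.hu, h.hv, one_mul]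
  have hq1' : v / u ≠ 1 := fun h1 => h.huv ((div_eq_one_iff_eq hu0).1 h1).symm
  refine ⟨(d : K) * (u⁻¹ ^ d * cq ζ (u ^ d) ^ 2 - v⁻¹ ^ d * cq ζ (v ^ d) ^ 2) * cq ζ u ^ 2 *
      cq ζ v ^ 2 * u⁻¹ * (cq ζ (v / u))⁻¹ * (cq ζ (u * v))⁻¹, ?_, ?_⟩
  · refine O.mul_mem (O.mul_mem (O.mul_mem (O.mul_mem (O.mul_mem (O.mul_mem (natCast_mem O d)
      (O.sub_mem (O.mul_mem (O.pow_mem (root_mem O hl hζ hζO hui) d)
        (O.pow_mem (cq_mem O hl hζ hζO hudl) 2))
        (O.mul_mem (O.pow_mem (root_mem O hl hζ hζO hvi) d)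
        (O.pow_mem (cq_mem O hl hζ hζO hvdl) 2))))
      (O.pow_mem (cq_mem O hl hζ hζO h.hu) 2)) (O.pow_mem (cq_mem O hl hζ hζO h.hv) 2))
      (root_mem O hl hζ hζO hui)) (cq_inv_mem O hl hζ hζO hq1 hq1'))
      (cq_inv_mem O hl hζ hζO hq2 h.huv')
  · have hx0 : u ^ d ≠ 0 := pow_ne_zero d hu0
    have hy0 : v ^ d ≠ 0 := pow_ne_zero d hv0
    rw [inv_pow, inv_pow]
    generalize u ^ d = x at hx0
    generalize v ^ d = y at hy0
    unfold cq
    have e1 : (1 : K) - v / u = (u - v) / u := by field_simp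
    rw [e1]
    field_simp
    ring

/-- sum version of `termA` -/
theorem sumA (hl : l.Prime) (hζ : IsPrimitiveRoot ζ l) (hζO : ζ ∈ O) {u v : K}
    (h : RootPair l u v) (n : ℕ) :
    ∃ g ∈ O, ∑ d ∈ n.divisors, (d : K) ^ 2 * (u ^ d - u⁻¹ ^ d) =
      u * (1 + u) / (1 - u) ^ 3 * ((1 - ζ) ^ 4 * g) := by
  choose gd hgd hterm using fun d => termA O hl hζ hζO h d
  refine ⟨∑ d ∈ n.divisors, gd d, O.sum_mem fun d _ => hgd d, ?_⟩
  rw [Finset.mul_sum, Finset.mul_sum]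
  exact Finset.sum_congr rfl fun d _ => hterm d

/-- sum version of `termD` -/
theorem sumD (hl : l.Prime) (hζ : IsPrimitiveRoot ζ l) (hζO : ζ ∈ O) {u v : K}
    (h : RootPair l u v) (n : ℕ) :
    ∃ g ∈ O, ∑ d ∈ n.divisors, (d : K) * (u ^ d + u⁻¹ ^ d - 2) -
        ∑ d ∈ n.divisors, (d : K) * (v ^ d + v⁻¹ ^ d - 2) =
      (u - v) * (1 - u * v) / ((1 - u) ^ 2 * (1 - v) ^ 2) * ((1 - ζ) ^ 4 * g) := by
  choose gd hgd hterm using fun d => termD O hl hζ hζO h d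
  refine ⟨∑ d ∈ n.divisors, gd d, O.sum_mem fun d _ => hgd d, ?_⟩
  rw [Finset.mul_sum, Finset.mul_sum, ← Finset.sum_sub_distrib]
  exact Finset.sum_congr rfl fun d _ => hterm d

/-- the numerator series is `a₀ * (1 + π⁴ * O⟦q⟧)` -/
theorem exists_shapeA (hl : l.Prime) (hζ : IsPrimitiveRoot ζ l) (hζO : ζ ∈ O) {u v : K}
    (h : RootPair l u v) :
    ∃ GA : PowerSeries O, constantCoeff GA = 0 ∧
      wpDerSer u = C (u * (1 + u) / (1 - u) ^ 3) *
        (1 + C ((1 - ζ) ^ 4) * GA.map O.subtype) := by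
  have key : ∀ n : ℕ, ∃ g : O, (n = 0 → g = 0) ∧ (n ≠ 0 →
      ∑ d ∈ n.divisors, (d : K) ^ 2 * (u ^ d - u⁻¹ ^ d) =
        u * (1 + u) / (1 - u) ^ 3 * ((1 - ζ) ^ 4 * (g : K))) := by
    intro n
    by_cases hn : n = 0
    · exact ⟨0, fun _ => rfl, fun h' => absurd hn h'⟩
    · obtain ⟨g, hg, hgn⟩ := sumA O hl hζ hζO h n
      exact ⟨⟨g, hg⟩, fun h' => absurd h' hn, fun _ => hgn⟩
  choose g hg0 hg using key
  refine ⟨PowerSeries.mk g, ?_, ?_⟩
  · rw [← coeff_zero_eq_constantCoeff_apply, coeff_mk]; exact hg0 0 rfl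
  · ext n
    rw [coeff_C_mul, map_add, coeff_C_mul, coeff_map, coeff_mk, coeff_one, wpDerSer, coeff_mk]
    by_cases hn : n = 0
    · simp [hn, hg0 0 rfl]
    · simp only [hn, if_false, zero_add, Subring.subtype_apply]
      exact hg n hn

/-- the denominator series is `d₀ * (1 + π⁴ * O⟦q⟧)` -/
theorem exists_shapeD (hl : l.Prime) (hζ : IsPrimitiveRoot ζ l) (hζO : ζ ∈ O) {u v : K}
    (h : RootPair l u v) :
    ∃ GD : PowerSeries O, constantCoeff GD = 0 ∧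
      wpSer u - wpSer v = C ((u - v) * (1 - u * v) / ((1 - u) ^ 2 * (1 - v) ^ 2)) *
        (1 + C ((1 - ζ) ^ 4) * GD.map O.subtype) := by
  have key : ∀ n : ℕ, ∃ g : O, (n = 0 → g = 0) ∧ (n ≠ 0 →
      ∑ d ∈ n.divisors, (d : K) * (u ^ d + u⁻¹ ^ d - 2) -
        ∑ d ∈ n.divisors, (d : K) * (v ^ d + v⁻¹ ^ d - 2) =
      (u - v) * (1 - u * v) / ((1 - u) ^ 2 * (1 - v) ^ 2) * ((1 - ζ) ^ 4 * (g : K))) := by
    intro n
    by_cases hn : n = 0
    · exact ⟨0, fun _ => rfl, fun h' => absurd hn h'⟩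
    · obtain ⟨g, hg, hgn⟩ := sumD O hl hζ hζO h n
      exact ⟨⟨g, hg⟩, fun h' => absurd h' hn, fun _ => hgn⟩
  choose g hg0 hg using key
  refine ⟨PowerSeries.mk g, ?_, ?_⟩
  · rw [← coeff_zero_eq_constantCoeff_apply, coeff_mk]; exact hg0 0 rfl
  · have hu1 : (1 : K) - u ≠ 0 := sub_ne_zero.2 (Ne.symm h.hu1)
    have hv1 : (1 : K) - v ≠ 0 := sub_ne_zero.2 (Ne.symm h.hv1)
    ext n
    rw [coeff_C_mul, map_add, coeff_C_mul, coeff_map, coeff_mk, coeff_one, map_sub, wpSer, wpSer,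
      coeff_mk, coeff_mk]
    by_cases hn : n = 0
    · simp only [hn, if_true, hg0 0 rfl, map_zero, mul_zero, add_zero, mul_one]
      field_simp
      ring
    · simp only [hn, if_false, zero_add, Subring.subtype_apply]
      exact hg n hn

/-- `π = 1 - ζ` as an element of `O` -/
def piO (hζO : ζ ∈ O) : O := ⟨1 - ζ, O.sub_mem O.one_mem hζO⟩

theorem eisConst_eq_div (u v : K) :
    eisConst u v = (u * (1 + u) / (1 - u) ^ 3) /
      ((u - v) * (1 - u * v) / ((1 - u) ^ 2 * (1 - v) ^ 2)) := by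
  unfold eisConst
  by_cases hu1 : (1 : K) - u = 0
  · simp [hu1]
  by_cases hv1 : (1 : K) - v = 0
  · simp [hv1]
  by_cases huv : u - v = 0
  · simp [huv]
  by_cases huv' : (1 : K) - u * v = 0
  · simp [huv']
  field_simp

theorem RootPair.denConst_ne_zero {u v : K} (h : RootPair l u v) :
    (u - v) * (1 - u * v) / ((1 - u) ^ 2 * (1 - v) ^ 2) ≠ 0 := by
  have hu1 : (1 : K) - u ≠ 0 := sub_ne_zero.2 (Ne.symm h.hu1)
  have hv1 : (1 : K) - v ≠ 0 := sub_ne_zero.2 (Ne.symm h.hv1)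
  have huv : u - v ≠ 0 := sub_ne_zero.2 h.huv
  have huv' : (1 : K) - u * v ≠ 0 := sub_ne_zero.2 (Ne.symm h.huv')
  positivity

/-- **Shape of `W`**: any `W` with `W * (wpSer u - wpSer v) = wpDerSer u` is
`c(u,v) * (1 + π⁴ * O⟦q⟧)`. -/
theorem exists_shape (hl : l.Prime) (hζ : IsPrimitiveRoot ζ l) (hζO : ζ ∈ O) {u v : K}
    (h : RootPair l u v) {W : PowerSeries K} (hW : W * (wpSer u - wpSer v) = wpDerSer u) :
    ∃ G : PowerSeries O,
      W = C (eisConst u v) * (1 + C ((1 - ζ) ^ 4) * G.map O.subtype) := by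
  obtain ⟨GA, -, hA⟩ := exists_shapeA O hl hζ hζO h
  obtain ⟨GD, hGD0, hD⟩ := exists_shapeD O hl hζ hζO h
  have hπK : O.subtype (piO O hζO) = 1 - ζ := rfl
  set UD : PowerSeries O := 1 + C (piO O hζO ^ 4) * GD with hUD
  have hUDu : IsUnit UD := by
    rw [isUnit_iff_constantCoeff, hUD, map_add, map_one, map_mul, hGD0, mul_zero, add_zero]
    exact isUnit_one
  obtain ⟨VD, hVD⟩ := hUDu.exists_right_inv
  refine ⟨(GA - GD) * VD, ?_⟩
  have hmapUD : UD.map O.subtype = 1 + C ((1 - ζ) ^ 4) * GD.map O.subtype := by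
    rw [hUD, map_add, map_one, map_mul, map_C, map_pow, hπK]
  have hmapUA : (1 + C (piO O hζO ^ 4) * GA).map O.subtype =
      1 + C ((1 - ζ) ^ 4) * GA.map O.subtype := by
    rw [map_add, map_one, map_mul, map_C, map_pow, hπK]
  have hUA : (1 + C (piO O hζO ^ 4) * GA) * VD = 1 + C (piO O hζO ^ 4) * ((GA - GD) * VD) := by
    have : (1 + C (piO O hζO ^ 4) * GA) = UD + C (piO O hζO ^ 4) * (GA - GD) := by
      rw [hUD]; ring
    rw [this, add_mul, hVD]; ring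
  have hd0 := h.denConst_ne_zero
  set a₀ : K := u * (1 + u) / (1 - u) ^ 3 with ha₀
  set d₀ : K := (u - v) * (1 - u * v) / ((1 - u) ^ 2 * (1 - v) ^ 2) with hd₀
  rw [hD, hA, ← hmapUD, ← hmapUA] at hW
  have h2 : W * C d₀ = C a₀ * ((1 + C (piO O hζO ^ 4) * GA) * VD).map O.subtype := by
    have : W * C d₀ = W * (C d₀ * UD.map O.subtype) * VD.map O.subtype := by
      rw [mul_assoc, mul_assoc, ← map_mul, hVD, map_one, mul_one]
    rw [this, hW, mul_assoc, ← map_mul]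
  have h3 : W = C (a₀ / d₀) * ((1 + C (piO O hζO ^ 4) * GA) * VD).map O.subtype := by
    have : W = W * C d₀ * C d₀⁻¹ := by
      rw [mul_assoc, ← map_mul, mul_inv_cancel₀ hd0, map_one, mul_one]
    rw [this, h2, div_eq_mul_inv, map_mul (C (R := K))]; ring
  rw [h3, hUA, map_add, map_one, map_mul, map_C, map_pow, hπK, eisConst_eq_div]

/-! ### The constants `c(u^d, v^d) / c(u, v) ≡ d⁻¹ mod π` -/

theorem RootPair.pow (hl : l.Prime) {u v : K} (h : RootPair l u v) {d : ℕ} (hd : ¬ l ∣ d) :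
    RootPair l (u ^ d) (v ^ d) := by
  have hu0 : u ≠ 0 := fun h0 => by
    have := h.hu; rw [h0, zero_pow hl.ne_zero] at this; exact zero_ne_one this
  have hq1 : (v / u) ^ l = 1 := by rw [div_pow, h.hu, h.hv, div_one]
  have hq2 : (u * v) ^ l = 1 := by rw [mul_pow, h.hu, h.hv, one_mul]
  have hq1' : v / u ≠ 1 := fun h1 => h.huv ((div_eq_one_iff_eq hu0).1 h1).symm
  refine ⟨?_, ?_, ?_, ?_, ?_, ?_⟩
  · rw [← pow_mul, mul_comm, pow_mul, h.hu, one_pow]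
  · rw [← pow_mul, mul_comm, pow_mul, h.hv, one_pow]
  · exact fun h1 => hd ((isPrimitiveRoot_of_prime hl h.hu h.hu1).dvd_of_pow_eq_one d h1)
  · exact fun h1 => hd ((isPrimitiveRoot_of_prime hl h.hv h.hv1).dvd_of_pow_eq_one d h1)
  · intro h1
    apply hd ((isPrimitiveRoot_of_prime hl hq1 hq1').dvd_of_pow_eq_one d _)
    rw [div_pow, ← h1, div_self (pow_ne_zero d hu0)]
  · intro h1
    apply hd ((isPrimitiveRoot_of_prime hl hq2 h.huv').dvd_of_pow_eq_one d _)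
    rw [mul_pow, h1]

theorem cq_pow (ζ w : K) (d : ℕ) : cq ζ (w ^ d) = cq ζ w * ∑ j ∈ Finset.range d, w ^ j := by
  unfold cq
  rw [← mul_neg_geom_sum w d]; ring

theorem mk_root_eq_one (hl : l.Prime) (hζ : IsPrimitiveRoot ζ l) (hζO : ζ ∈ O) {w : K}
    (hw : w ^ l = 1) (hwO : w ∈ O) :
    Ideal.Quotient.mk (Ideal.span {piO O hζO}) ⟨w, hwO⟩ = 1 := by
  rw [← map_one (Ideal.Quotient.mk _), Ideal.Quotient.eq, Ideal.mem_span_singleton']
  refine ⟨-⟨cq ζ w, cq_mem O hl hζ hζO hw⟩, ?_⟩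
  apply Subtype.ext
  have := one_sub_eq hl hζ w
  show -(cq ζ w) * (1 - ζ) = w - 1
  linear_combination this

theorem mk_geom (hl : l.Prime) (hζ : IsPrimitiveRoot ζ l) (hζO : ζ ∈ O) {w : K}
    (hw : w ^ l = 1) (hwO : w ∈ O) (d : ℕ) :
    Ideal.Quotient.mk (Ideal.span {piO O hζO}) (∑ j ∈ Finset.range d, (⟨w, hwO⟩ : O) ^ j) =
      (d : O ⧸ Ideal.span {piO O hζO}) := by
  rw [map_sum]
  simp only [map_pow, mk_root_eq_one O hl hζ hζO hw hwO, one_pow, Finset.sum_const,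
    Finset.card_range, nsmul_eq_mul, mul_one]

theorem natCast_prime_mem (hl : l.Prime) (hζ : IsPrimitiveRoot ζ l) (hζO : ζ ∈ O) :
    (l : O) ∈ Ideal.span {piO O hζO} := by
  have h1 := mk_geom O hl hζ hζO hζ.pow_eq_one hζO l
  have h2 : (∑ j ∈ Finset.range l, (⟨ζ, hζO⟩ : O) ^ j) = 0 := by
    apply Subtype.ext
    simp only [AddSubmonoidClass.coe_finsetSum, SubmonoidClass.coe_pow, ZeroMemClass.coe_zero]
    exact hζ.geom_sum_eq_zero hl.one_lt
  rw [h2, map_zero] at h1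
  rw [← Ideal.Quotient.eq_zero_iff_mem, map_natCast]
  exact h1.symm

theorem isUnit_mk_natCast (hl : l.Prime) (hζ : IsPrimitiveRoot ζ l) (hζO : ζ ∈ O) {d : ℕ}
    (hd : ¬ l ∣ d) :
    ∃ a : O ⧸ Ideal.span {piO O hζO}, a * (d : O ⧸ Ideal.span {piO O hζO}) = 1 := by
  have hcop : IsCoprime (d : ℤ) (l : ℤ) :=
    Nat.isCoprime_iff_coprime.2 ((Nat.Prime.coprime_iff_not_dvd hl).2 hd).symm
  obtain ⟨a, b, hab⟩ := hcop
  refine ⟨(a : O ⧸ Ideal.span {piO O hζO}), ?_⟩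
  have h0 := natCast_prime_mem O hl hζ hζO
  rw [← Ideal.Quotient.eq_zero_iff_mem, map_natCast] at h0
  have := congrArg (Int.cast : ℤ → O ⧸ Ideal.span {piO O hζO}) hab
  push_cast at this
  rw [h0, mul_zero, add_zero] at this
  exact this

/-- the unit part of `eisConst`: `eisConst u v = eisUnit ζ u v / (1 - ζ)` -/
noncomputable def eisUnit (ζ u v : K) : K :=
  cq ζ (u ^ 2) * cq ζ v ^ 2 * (cq ζ u)⁻¹ ^ 2 * (cq ζ (v / u))⁻¹ * (cq ζ (u * v))⁻¹

theorem eisConst_eq_eisUnit (hl : l.Prime) (hζ : IsPrimitiveRoot ζ l) {u v : K}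
    (h : RootPair l u v) : eisConst u v = eisUnit ζ u v / (1 - ζ) := by
  have hζ1 : (1 : K) - ζ ≠ 0 := sub_ne_zero.2 (Ne.symm (hζ.ne_one hl.one_lt))
  have hu0 : u ≠ 0 := fun h0 => by
    have := h.hu; rw [h0, zero_pow hl.ne_zero] at this; exact zero_ne_one this
  have hu1 : (1 : K) - u ≠ 0 := sub_ne_zero.2 (Ne.symm h.hu1)
  have hv1 : (1 : K) - v ≠ 0 := sub_ne_zero.2 (Ne.symm h.hv1)
  have huv : u - v ≠ 0 := sub_ne_zero.2 h.huv
  have huv' : (1 : K) - u * v ≠ 0 := sub_ne_zero.2 (Ne.symm h.huv')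
  unfold eisUnit eisConst cq
  have e1 : (1 : K) - v / u = (u - v) / u := by field_simp
  rw [e1]
  field_simp
  ring

theorem eisUnit_mem (hl : l.Prime) (hζ : IsPrimitiveRoot ζ l) (hζO : ζ ∈ O) {u v : K}
    (h : RootPair l u v) : eisUnit ζ u v ∈ O := by
  have hu0 : u ≠ 0 := fun h0 => by
    have := h.hu; rw [h0, zero_pow hl.ne_zero] at this; exact zero_ne_one this
  have hu2l : (u ^ 2) ^ l = 1 := by rw [← pow_mul, mul_comm, pow_mul, h.hu, one_pow]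
  have hq1 : (v / u) ^ l = 1 := by rw [div_pow, h.hu, h.hv, div_one]
  have hq2 : (u * v) ^ l = 1 := by rw [mul_pow, h.hu, h.hv, one_mul]
  have hq1' : v / u ≠ 1 := fun h1 => h.huv ((div_eq_one_iff_eq hu0).1 h1).symm
  exact O.mul_mem (O.mul_mem (O.mul_mem (O.mul_mem (cq_mem O hl hζ hζO hu2l)
    (O.pow_mem (cq_mem O hl hζ hζO h.hv) 2)) (O.pow_mem (cq_inv_mem O hl hζ hζO h.hu h.hu1) 2))
    (cq_inv_mem O hl hζ hζO hq1 hq1')) (cq_inv_mem O hl hζ hζO hq2 h.huv')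

theorem eisUnit_inv_mem (hl : l.Prime) (hζ : IsPrimitiveRoot ζ l) (hζO : ζ ∈ O) {u v : K}
    (h : RootPair l u v) : (eisUnit ζ u v)⁻¹ ∈ O := by
  have hu0 : u ≠ 0 := fun h0 => by
    have := h.hu; rw [h0, zero_pow hl.ne_zero] at this; exact zero_ne_one this
  have hu2l : (u ^ 2) ^ l = 1 := by rw [← pow_mul, mul_comm, pow_mul, h.hu, one_pow]
  have hq1 : (v / u) ^ l = 1 := by rw [div_pow, h.hu, h.hv, div_one]
  have hq2 : (u * v) ^ l = 1 := by rw [mul_pow, h.hu, h.hv, one_mul]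
  have e : (eisUnit ζ u v)⁻¹ =
      (cq ζ (u ^ 2))⁻¹ * (cq ζ v)⁻¹ ^ 2 * cq ζ u ^ 2 * cq ζ (v / u) * cq ζ (u * v) := by
    unfold eisUnit
    simp only [mul_inv, inv_inv, inv_pow]
  rw [e]
  exact O.mul_mem (O.mul_mem (O.mul_mem (O.mul_mem (cq_inv_mem O hl hζ hζO hu2l (h.sq_ne_one hl))
    (O.pow_mem (cq_inv_mem O hl hζ hζO h.hv h.hv1) 2)) (O.pow_mem (cq_mem O hl hζ hζO h.hu) 2))
    (cq_mem O hl hζ hζO hq1)) (cq_mem O hl hζ hζO hq2)

theorem eisConst_ne_zero (hl : l.Prime) {u v : K} (h : RootPair l u v) : eisConst u v ≠ 0 := by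
  have hu0 : u ≠ 0 := fun h0 => by
    have := h.hu; rw [h0, zero_pow hl.ne_zero] at this; exact zero_ne_one this
  have hu1 : (1 : K) - u ≠ 0 := sub_ne_zero.2 (Ne.symm h.hu1)
  have hv1 : (1 : K) - v ≠ 0 := sub_ne_zero.2 (Ne.symm h.hv1)
  have huv : u - v ≠ 0 := sub_ne_zero.2 h.huv
  have huv' : (1 : K) - u * v ≠ 0 := sub_ne_zero.2 (Ne.symm h.huv')
  have hu2 : (1 : K) - u ^ 2 ≠ 0 := sub_ne_zero.2 (Ne.symm (h.sq_ne_one hl))
  have h1u : (1 : K) + u ≠ 0 := by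
    intro h0
    apply hu2
    have : (1 : K) - u ^ 2 = (1 + u) * (1 - u) := by ring
    rw [this, h0, zero_mul]
  unfold eisConst
  positivity

/-- **Constants**: `c(u^d, v^d) = c(u, v) * r` with `r ∈ O` and `d * r ≡ 1 mod π`. -/
theorem eisConst_pow (hl : l.Prime) (hζ : IsPrimitiveRoot ζ l) (hζO : ζ ∈ O) {u v : K}
    (h : RootPair l u v) {d : ℕ} (hd : ¬ l ∣ d) :
    ∃ r : O, eisConst (u ^ d) (v ^ d) = eisConst u v * (r : K) ∧
      (d : O) * r - 1 ∈ Ideal.span {piO O hζO} := by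
  have hζ1 : (1 : K) - ζ ≠ 0 := sub_ne_zero.2 (Ne.symm (hζ.ne_one hl.one_lt))
  have hu0 : u ≠ 0 := fun h0 => by
    have := h.hu; rw [h0, zero_pow hl.ne_zero] at this; exact zero_ne_one this
  have hd' := h.pow hl hd
  have hu2l : (u ^ 2) ^ l = 1 := by rw [← pow_mul, mul_comm, pow_mul, h.hu, one_pow]
  have hq1 : (v / u) ^ l = 1 := by rw [div_pow, h.hu, h.hv, div_one]
  have hq2 : (u * v) ^ l = 1 := by rw [mul_pow, h.hu, h.hv, one_mul]
  have hq1' : v / u ≠ 1 := fun h1 => h.huv ((div_eq_one_iff_eq hu0).1 h1).symm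
  -- memberships of the five roots of unity
  have m1 := root_mem O hl hζ hζO hu2l
  have m2 := root_mem O hl hζ hζO h.hv
  have m3 := root_mem O hl hζ hζO h.hu
  have m4 := root_mem O hl hζ hζO hq1
  have m5 := root_mem O hl hζ hζO hq2
  refine ⟨⟨eisUnit ζ (u ^ d) (v ^ d) * (eisUnit ζ u v)⁻¹,
    O.mul_mem (eisUnit_mem O hl hζ hζO hd') (eisUnit_inv_mem O hl hζ hζO h)⟩, ?_, ?_⟩
  · rw [eisConst_eq_eisUnit hl hζ hd', eisConst_eq_eisUnit hl hζ h]
    have hne : eisUnit ζ u v ≠ 0 := by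
      intro h0
      apply eisConst_ne_zero hl h
      rw [eisConst_eq_eisUnit hl hζ h, h0, zero_div]
    simp only
    field_simp
  · -- the key relation in `O`
    have key : (⟨eisUnit ζ (u ^ d) (v ^ d) * (eisUnit ζ u v)⁻¹,
        O.mul_mem (eisUnit_mem O hl hζ hζO hd') (eisUnit_inv_mem O hl hζ hζO h)⟩ : O) *
          (∑ j ∈ Finset.range d, (⟨u, m3⟩ : O) ^ j) ^ 2 *
          (∑ j ∈ Finset.range d, (⟨v / u, m4⟩ : O) ^ j) *
          (∑ j ∈ Finset.range d, (⟨u * v, m5⟩ : O) ^ j) =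
        (∑ j ∈ Finset.range d, (⟨u ^ 2, m1⟩ : O) ^ j) *
          (∑ j ∈ Finset.range d, (⟨v, m2⟩ : O) ^ j) ^ 2 := by
      apply Subtype.ext
      simp only [Subring.coe_mul, Subring.coe_pow, AddSubmonoidClass.coe_finsetSum]
      have c1 : cq ζ (u ^ 2) ≠ 0 := cq_ne_zero hl hζ (h.sq_ne_one hl)
      have c2 : cq ζ v ≠ 0 := cq_ne_zero hl hζ h.hv1
      have c3 : cq ζ u ≠ 0 := cq_ne_zero hl hζ h.hu1
      have c4 : cq ζ (v / u) ≠ 0 := cq_ne_zero hl hζ hq1'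
      have c5 : cq ζ (u * v) ≠ 0 := cq_ne_zero hl hζ h.huv'
      have e1 : (u ^ d) ^ 2 = (u ^ 2) ^ d := by rw [← pow_mul, ← pow_mul, mul_comm]
      have e4 : v ^ d / u ^ d = (v / u) ^ d := by rw [div_pow]
      have e5 : u ^ d * v ^ d = (u * v) ^ d := by rw [mul_pow]
      have g1 : cq ζ ((u ^ 2) ^ d) ≠ 0 := by rw [← e1]; exact cq_ne_zero hl hζ (hd'.sq_ne_one hl)
      have g2 : cq ζ (v ^ d) ≠ 0 := cq_ne_zero hl hζ hd'.hv1
      have g3 : cq ζ (u ^ d) ≠ 0 := cq_ne_zero hl hζ hd'.hu1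
      have g4 : cq ζ ((v / u) ^ d) ≠ 0 := by
        rw [← e4]
        exact cq_ne_zero hl hζ fun h1 =>
          hd'.huv ((div_eq_one_iff_eq (pow_ne_zero d hu0)).1 h1).symm
      have g5 : cq ζ ((u * v) ^ d) ≠ 0 := by rw [← e5]; exact cq_ne_zero hl hζ hd'.huv'
      unfold eisUnit
      rw [e1, e4, e5]
      rw [cq_pow] at g1 g2 g3 g4 g5
      rw [cq_pow ζ (u ^ 2) d, cq_pow ζ v d, cq_pow ζ u d, cq_pow ζ (v / u) d, cq_pow ζ (u * v) d]
      generalize (∑ j ∈ Finset.range d, (u ^ 2) ^ j) = γ1 at g1 ⊢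
      generalize (∑ j ∈ Finset.range d, v ^ j) = γ2 at g2 ⊢
      generalize (∑ j ∈ Finset.range d, u ^ j) = γ3 at g3 ⊢
      generalize (∑ j ∈ Finset.range d, (v / u) ^ j) = γ4 at g4 ⊢
      generalize (∑ j ∈ Finset.range d, (u * v) ^ j) = γ5 at g5 ⊢
      generalize cq ζ (u ^ 2) = x1 at c1 g1 ⊢
      generalize cq ζ v = x2 at c2 g2 ⊢
      generalize cq ζ u = x3 at c3 g3 ⊢
      generalize cq ζ (v / u) = x4 at c4 g4 ⊢
      generalize cq ζ (u * v) = x5 at c5 g5 ⊢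
      have γ1' := right_ne_zero_of_mul g1
      have γ2' := right_ne_zero_of_mul g2
      have γ3' := right_ne_zero_of_mul g3
      have γ4' := right_ne_zero_of_mul g4
      have γ5' := right_ne_zero_of_mul g5
      field_simp
    have key' := congrArg (Ideal.Quotient.mk (Ideal.span {piO O hζO})) key
    simp only [map_mul, map_pow] at key'
    rw [mk_geom O hl hζ hζO h.hu m3, mk_geom O hl hζ hζO hq1 m4, mk_geom O hl hζ hζO hq2 m5,
      mk_geom O hl hζ hζO hu2l m1, mk_geom O hl hζ hζO h.hv m2] at key'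
    obtain ⟨a, ha⟩ := isUnit_mk_natCast O hl hζ hζO hd
    rw [← Ideal.Quotient.eq, map_mul, map_natCast, map_one]
    linear_combination a ^ 3 * key' -
      (((d : O ⧸ Ideal.span {piO O hζO})) * (Ideal.Quotient.mk (Ideal.span {piO O hζO}))
        ⟨eisUnit ζ (u ^ d) (v ^ d) * (eisUnit ζ u v)⁻¹,
        O.mul_mem (eisUnit_mem O hl hζ hζO hd') (eisUnit_inv_mem O hl hζ hζO h)⟩ - 1) *
        (1 + a * d + (a * d) ^ 2) * ha

/-- **Weight-one Eisenstein series `≡ 1 mod λ` (formal core).**  If `W d` is the formal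
quotient `wpDerSer (u^d) / (wpSer (u^d) - wpSer (v^d))` for every `d ∈ (ℤ/l)ˣ` and `ω d ≡ d`
modulo an ideal `lam ∋ 1 - ζ` of `O`, then `E = -∑_d ω(d) / c(u,v) * W d` has coefficients in
`O`, constant coefficient `≡ 1` and all higher coefficients `≡ 0` modulo `lam`. -/
theorem exists_eisenstein_congr [hl : Fact l.Prime] (hζ : IsPrimitiveRoot ζ l) (hζO : ζ ∈ O)
    {u v : K} (h : RootPair l u v) (lam : Ideal O) (hπ : piO O hζO ∈ lam)
    (ω : (ZMod l)ˣ → O) (hω : ∀ d : (ZMod l)ˣ, ω d - (((d : ZMod l).val : ℕ) : O) ∈ lam)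
    (W : (ZMod l)ˣ → PowerSeries K)
    (hW : ∀ d : (ZMod l)ˣ,
      W d * (wpSer (u ^ (d : ZMod l).val) - wpSer (v ^ (d : ZMod l).val)) =
        wpDerSer (u ^ (d : ZMod l).val)) :
    ∃ F : PowerSeries O,
      F.map O.subtype = -∑ d : (ZMod l)ˣ, C ((ω d : K) / eisConst u v) * W d ∧
      constantCoeff F - 1 ∈ lam ∧ ∀ n, n ≠ 0 → coeff n F ∈ lam := by
  have hl' := hl.out
  have hdvd : ∀ d : (ZMod l)ˣ, ¬ l ∣ (d : ZMod l).val := by
    intro d hd
    have h0 : (((d : ZMod l).val : ℕ) : ZMod l) = 0 := (ZMod.natCast_eq_zero_iff _ _).2 hd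
    rw [ZMod.natCast_zmod_val] at h0
    exact d.ne_zero h0
  have h1 : ∀ d : (ZMod l)ˣ, ∃ G : PowerSeries O,
      W d = C (eisConst (u ^ (d : ZMod l).val) (v ^ (d : ZMod l).val)) *
        (1 + C ((1 - ζ) ^ 4) * G.map O.subtype) :=
    fun d => exists_shape O hl' hζ hζO (h.pow hl' (hdvd d)) (hW d)
  choose G hG using h1
  have h2 := fun d : (ZMod l)ˣ => eisConst_pow O hl' hζ hζO h (hdvd d)
  choose r hr hrc using h2
  have hπK : O.subtype (piO O hζO) = 1 - ζ := rfl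
  have hc := eisConst_ne_zero hl' h
  have hle : Ideal.span {piO O hζO} ≤ lam := (Ideal.span_singleton_le_iff_mem _).2 hπ
  have hπ0 : Ideal.Quotient.mk lam (piO O hζO) = 0 := Ideal.Quotient.eq_zero_iff_mem.2 hπ
  have hωr : ∀ d : (ZMod l)ˣ, Ideal.Quotient.mk lam (ω d * r d) = 1 := by
    intro d
    rw [← map_one (Ideal.Quotient.mk lam), Ideal.Quotient.eq]
    have e : ω d * r d - 1 = (ω d - (((d : ZMod l).val : ℕ) : O)) * r d +
        ((((d : ZMod l).val : ℕ) : O) * r d - 1) := by ring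
    rw [e]
    exact lam.add_mem (lam.mul_mem_right _ (hω d)) (hle (hrc d))
  have hl0 : ((l : ℕ) : O ⧸ lam) = 0 := by
    have := hle (natCast_prime_mem O hl' hζ hζO)
    rw [← Ideal.Quotient.eq_zero_iff_mem, map_natCast] at this
    exact this
  refine ⟨-∑ d : (ZMod l)ˣ, C (ω d * r d) * (1 + C (piO O hζO ^ 4) * G d), ?_, ?_, ?_⟩
  · rw [map_neg, map_sum]
    congr 1
    refine Finset.sum_congr rfl fun d _ => ?_
    rw [hG d, hr d]
    have e1 : (C (R := K)) ((ω d : K) / eisConst u v) * C (eisConst u v * (r d : K)) =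
        C ((ω d : K) * (r d : K)) := by
      rw [← map_mul]; congr 1; field_simp
    rw [← mul_assoc, e1]
    simp only [map_mul, map_add, map_one, map_pow, map_C, hπK, Subring.subtype_apply]
  · rw [← Ideal.Quotient.eq_zero_iff_mem]
    simp only [map_sub, map_neg, map_sum, map_mul, map_add, map_one, map_pow,
      constantCoeff_C, hπ0]
    simp only [← map_mul, hωr]
    simp only [ne_eq, OfNat.ofNat_ne_zero, not_false_eq_true, zero_pow, zero_mul, add_zero,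
      mul_one, Finset.sum_const, Finset.card_univ, ZMod.card_units, nsmul_eq_mul]
    rw [Nat.cast_sub hl'.one_le, hl0]
    simp
  · intro n hn
    rw [map_neg, map_sum]
    refine lam.neg_mem (lam.sum_mem fun d _ => ?_)
    rw [coeff_C_mul, map_add, coeff_one, if_neg hn, zero_add, coeff_C_mul]
    exact lam.mul_mem_left _ (lam.mul_mem_right _ (lam.pow_mem_of_mem hπ 4 (by norm_num)))

/-- The standard source of a `RootPair`: `u = ζ ^ a`, `v = ζ ^ b` with `a, b, a - b, a + b`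
prime to `l`. -/
theorem rootPair_pow_pow (hl : l.Prime) (hζ : IsPrimitiveRoot ζ l) {a b : ℕ}
    (ha : (a : ZMod l) ≠ 0) (hb : (b : ZMod l) ≠ 0) (hab : (a : ZMod l) ≠ b)
    (hab' : (a : ZMod l) + b ≠ 0) : RootPair l (ζ ^ a) (ζ ^ b) := by
  have hζ0 : ζ ≠ 0 := hζ.ne_zero hl.ne_zero
  refine ⟨?_, ?_, ?_, ?_, ?_, ?_⟩
  · rw [← pow_mul, mul_comm, pow_mul, hζ.pow_eq_one, one_pow]
  · rw [← pow_mul, mul_comm, pow_mul, hζ.pow_eq_one, one_pow]
  · rw [Ne, hζ.pow_eq_one_iff_dvd, ← ZMod.natCast_eq_zero_iff]; exact ha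
  · rw [Ne, hζ.pow_eq_one_iff_dvd, ← ZMod.natCast_eq_zero_iff]; exact hb
  · intro h1
    have h2 : ζ ^ ((a : ℤ) - b) = 1 := by
      rw [zpow_sub₀ hζ0, zpow_natCast, zpow_natCast, h1, div_self (pow_ne_zero b hζ0)]
    rw [hζ.zpow_eq_one_iff_dvd, ← ZMod.intCast_zmod_eq_zero_iff_dvd] at h2
    push_cast at h2
    exact hab (sub_eq_zero.1 h2)
  · intro h1
    rw [← pow_add, hζ.pow_eq_one_iff_dvd, ← ZMod.natCast_eq_zero_iff] at h1
    push_cast at h1
    exact hab' h1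

@[simp] theorem coeff_zero_wpSer (u : K) : coeff 0 (wpSer u) = u / (1 - u) ^ 2 := by
  simp [wpSer]

theorem coeff_wpSer (u : K) {n : ℕ} (hn : n ≠ 0) :
    coeff n (wpSer u) = ∑ d ∈ n.divisors, (d : K) * (u ^ d + u⁻¹ ^ d - 2) := by
  simp [wpSer, hn]

@[simp] theorem coeff_zero_wpDerSer (u : K) :
    coeff 0 (wpDerSer u) = u * (1 + u) / (1 - u) ^ 3 := by
  simp [wpDerSer]

theorem coeff_wpDerSer (u : K) {n : ℕ} (hn : n ≠ 0) :
    coeff n (wpDerSer u) = ∑ d ∈ n.divisors, (d : K) ^ 2 * (u ^ d - u⁻¹ ^ d) := by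
  simp [wpDerSer, hn]

end Series

/-! ### Consumer form: a valuation subring `R` of `K` with `l ∈ 𝔪_R` -/

section ValuationForm

variable {K : Type*} [Field K] {ζ : K} {l : ℕ}

/-- the ideal `{x ∈ R | v(x) < 1}` of the subring `R.toSubring` -/
def maxIdealSub (R : ValuationSubring K) : Ideal R.toSubring where
  carrier := {x | R.valuation (x : K) < 1}
  add_mem' := fun {a b} ha hb => by
    show R.valuation ((a : K) + (b : K)) < 1
    exact R.valuation.map_add_lt ha hb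
  zero_mem' := by
    show R.valuation (0 : K) < 1
    rw [map_zero]; exact zero_lt_one
  smul_mem' := fun c x hx => by
    show R.valuation ((c : K) * (x : K)) < 1
    rw [map_mul]
    have hc : R.valuation (c : K) ≤ 1 := (R.valuation_le_one_iff _).2 c.2
    calc R.valuation (c : K) * R.valuation (x : K) ≤ 1 * R.valuation (x : K) :=
          mul_le_mul' hc le_rfl
      _ = R.valuation (x : K) := one_mul _
      _ < 1 := hx

theorem mem_maxIdealSub (R : ValuationSubring K) (x : R.toSubring) :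
    x ∈ maxIdealSub R ↔ R.valuation (x : K) < 1 := Iff.rfl

theorem root_mem_valuationSubring (R : ValuationSubring K) {l : ℕ} (hl : l ≠ 0) {w : K}
    (hw : w ^ l = 1) : w ∈ R := by
  rcases R.mem_or_inv_mem w with h | h
  · exact h
  · have hw0 : w ≠ 0 := fun h0 => by
      rw [h0, zero_pow hl] at hw; exact zero_ne_one hw
    have h1 : w * w ^ (l - 1) = 1 := by
      rw [← pow_succ', Nat.sub_add_cancel (Nat.one_le_iff_ne_zero.2 hl), hw]
    have h2 : w⁻¹ ^ (l - 1) * w ^ (l - 1) = 1 := by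
      rw [← mul_pow, inv_mul_cancel₀ hw0, one_pow]
    rw [mul_right_cancel₀ (pow_ne_zero _ hw0) (h1.trans h2.symm)]
    exact R.pow_mem h _

theorem valuation_one_sub_lt_one (R : ValuationSubring K) (hl : l.Prime)
    (hζ : IsPrimitiveRoot ζ l) (hlR : R.valuation (l : K) < 1) : R.valuation (1 - ζ) < 1 := by
  have hζR : ζ ∈ R := root_mem_valuationSubring R hl.ne_zero hζ.pow_eq_one
  have : Fact l.Prime := ⟨hl⟩
  obtain ⟨r, hr⟩ := exists_add_pow_prime_eq (p := l) (Fact.out) (1 : R.toSubring)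
    (-⟨ζ, hζR⟩)
  have hr' := congrArg R.toSubring.subtype hr
  simp only [map_add, map_mul, map_pow, map_one, map_neg, map_natCast,
    Subring.subtype_apply] at hr'
  have hle : R.valuation (1 - ζ) ≤ 1 := (R.valuation_le_one_iff _).2 (R.sub_mem R.one_mem hζR)
  by_contra hcon
  have h1 : R.valuation (1 - ζ) = 1 := le_antisymm hle (not_lt.1 hcon)
  have h2 : R.valuation ((1 + -ζ) ^ l) = 1 := by rw [← sub_eq_add_neg, map_pow, h1, one_pow]
  rw [hr'] at h2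
  have hneg : (-ζ) ^ l = (-1) ^ l := by rw [neg_pow, hζ.pow_eq_one, mul_one]
  have h3 : R.valuation ((1 : K) ^ l + (-ζ) ^ l) < 1 := by
    rw [one_pow, hneg]
    rcases hl.eq_two_or_odd' with h2' | hodd
    · subst h2'
      have e : (1 : K) + (-1) ^ 2 = ((2 : ℕ) : K) := by norm_num
      rw [e]; exact hlR
    · rw [hodd.neg_one_pow, add_neg_cancel, map_zero]; exact zero_lt_one
  have h4 : R.valuation ((l : K) * 1 * -ζ * (r : K)) < 1 := by
    rw [map_mul, map_mul, map_mul, map_one, mul_one]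
    have hz : R.valuation (-ζ) ≤ 1 := (R.valuation_le_one_iff _).2 (R.neg_mem _ hζR)
    have hrr : R.valuation (r : K) ≤ 1 := (R.valuation_le_one_iff _).2 r.2
    calc R.valuation (l : K) * R.valuation (-ζ) * R.valuation (r : K)
        ≤ R.valuation (l : K) * 1 * 1 := mul_le_mul' (mul_le_mul' le_rfl hz) hrr
      _ = R.valuation (l : K) := by rw [mul_one, mul_one]
      _ < 1 := hlR
  have h5 := R.valuation.map_add_lt h3 h4
  rw [h2] at h5
  exact lt_irrefl _ h5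

/-- **Consumer form of the formal core** (shape requested in the S48 chat): for a valuation
subring `R` of `K` with `v(l) < 1` and `ω d ≡ d mod 𝔪_R`, the series
`E = -∑_d ω(d) / c(u,v) * W d` has all coefficients in `R`, constant coefficient `≡ 1` and
higher coefficients `≡ 0` modulo `𝔪_R`. -/
theorem exists_eisenstein_congr_valuation [hl : Fact l.Prime] (R : ValuationSubring K)
    (hζ : IsPrimitiveRoot ζ l) (hlR : R.valuation (l : K) < 1) {u v : K} (h : RootPair l u v)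
    (ω : (ZMod l)ˣ → K)
    (hω : ∀ d : (ZMod l)ˣ, R.valuation (ω d - (((d : ZMod l).val : ℕ) : K)) < 1)
    (W : (ZMod l)ˣ → PowerSeries K)
    (hW : ∀ d : (ZMod l)ˣ,
      W d * (wpSer (u ^ (d : ZMod l).val) - wpSer (v ^ (d : ZMod l).val)) =
        wpDerSer (u ^ (d : ZMod l).val)) :
    (∀ n, coeff n (-∑ d : (ZMod l)ˣ, C (ω d / eisConst u v) * W d) ∈ R) ∧
    R.valuation (coeff 0 (-∑ d : (ZMod l)ˣ, C (ω d / eisConst u v) * W d) - 1) < 1 ∧
    ∀ n, n ≠ 0 → R.valuation (coeff n (-∑ d : (ZMod l)ˣ, C (ω d / eisConst u v) * W d)) < 1 := by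
  have hl' := hl.out
  have hζR : ζ ∈ R.toSubring := root_mem_valuationSubring R hl'.ne_zero hζ.pow_eq_one
  have hωR : ∀ d : (ZMod l)ˣ, ω d ∈ R.toSubring := by
    intro d
    have h1 : ω d - (((d : ZMod l).val : ℕ) : K) ∈ R.toSubring :=
      (R.valuation_le_one_iff _).1 (hω d).le
    have h2 := R.toSubring.add_mem h1 (natCast_mem R.toSubring (d : ZMod l).val)
    rwa [sub_add_cancel] at h2
  have hπ : piO R.toSubring hζR ∈ maxIdealSub R := valuation_one_sub_lt_one R hl' hζ hlR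
  obtain ⟨F, hF, hF0, hFn⟩ := exists_eisenstein_congr R.toSubring hζ hζR h (maxIdealSub R) hπ
    (fun d => ⟨ω d, hωR d⟩) (fun d => hω d) W hW
  simp only at hF
  rw [← hF]
  refine ⟨fun n => ?_, ?_, fun n hn => ?_⟩
  · rw [coeff_map]; exact (coeff n F).2
  · rw [coeff_map]
    have := hF0
    rw [← coeff_zero_eq_constantCoeff_apply] at this
    exact this
  · rw [coeff_map]; exact hFn n hn

end ValuationForm

end Fermat.Agent.S48.helper6779
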