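import Mathlib
import Fermat.Agent.S48.helper6076_EisOneAnalytic
import Fermat.Agent.S48.helper9565_WPModular
import Fermat.Agent.S48.helper7252_WPHolo
import Fermat.Agent.S48.helper8477_WPInj
import Fermat.Agent.S48.helper5288_WpQExp
import Fermat.Agent.S48.helper6779_EisOneAlg

set_option autoImplicit false

/-!
# The analytic leaf of F2 (S48): the family `W d` of weight-one forms on `Γ₁(l)`

Instance of the abstract packaging `helper6076_EisOneAnalytic` at the Weierstrass division values: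
`DivData l` is built from WPMOD (`helper9565`), WPHOL (`helper7252`), WPINJ (`helper8477`) and the
A1 `q`-expansions (`helper5288`).  The result `stmt_EisW` is the body of
`helper9793.Stmt_EisW l` verbatim (with `zetaL l` written out), for every prime `l ≥ 5`.
-/

open Complex Filter Topology ModularForm CongruenceSubgroup Matrix Function PeriodPair
open UpperHalfPlane hiding I
open scoped MatrixGroups Manifold Real

namespace Fermat.Agent.S48.helper6076

noncomputable section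

open Fermat.Agent.S48.helper9565 (divP divP' pairTau)
open Fermat.Agent.S48.helper6779 (wpSer wpDerSer)

lemma im_divPoint {l : ℕ} (r : ℕ) (s : ℤ) (τ : ℍ) :
    ((((r : ℂ) * τ + s) / l : ℂ)).im = (r : ℝ) * τ.im / l := by
  rw [Complex.div_natCast_im]
  simp

/-- The division point `(rτ + s)/l`, `0 ≤ r < l`, `(r, s) ≢ 0`, is not an integer. -/
lemma divPoint_mem_integerComplement {l : ℕ} (r : ℕ) (s : ℤ) (τ : ℍ) (hrl : r < l)
    (h : ¬(r = 0 ∧ (l : ℤ) ∣ s)) : (((r : ℂ) * τ + s) / l : ℂ) ∈ Complex.integerComplement := by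
  have hl : l ≠ 0 := by omega
  rcases Nat.eq_zero_or_pos r with rfl | hr
  · have hs : ¬(l : ℤ) ∣ s := fun hs => h ⟨rfl, hs⟩
    simpa using Fermat.Agent.S48.helper5288.div_mem_integerComplement hl hs
  · rintro ⟨n, hn⟩
    have him := congrArg Complex.im hn
    rw [im_divPoint] at him
    simp only [Complex.intCast_im] at him
    have hpos : (0 : ℝ) < (r : ℝ) * τ.im / l := by
      have h1 : (0 : ℝ) < r := Nat.cast_pos.mpr hr
      have h2 : (0 : ℝ) < l := Nat.cast_pos.mpr (Nat.pos_of_ne_zero hl)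
      have h3 := τ.im_pos
      positivity
    linarith

lemma abs_im_divPoint_lt {l : ℕ} (r : ℕ) (s : ℤ) (τ : ℍ) (hrl : r < l) :
    |((((r : ℂ) * τ + s) / l : ℂ)).im| < τ.im := by
  have hl : l ≠ 0 := by omega
  have h2 : (0 : ℝ) < l := Nat.cast_pos.mpr (Nat.pos_of_ne_zero hl)
  have h3 := τ.im_pos
  have h1 : (0 : ℝ) ≤ r := Nat.cast_nonneg r
  have h4 : (r : ℝ) < l := Nat.cast_lt.mpr hrl
  rw [im_divPoint, abs_of_nonneg (by positivity), div_lt_iff₀ h2]
  nlinarith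

/-- **The division values of `℘`, `℘'` on `ℤ + ℤτ` form a `DivData`.** -/
def divData (l : ℕ) (hl : l ≠ 0) : DivData l where
  X r s τ := ((2 * π * I) ^ 2)⁻¹ * divP l r s τ
  Y r s τ := ((2 * π * I) ^ 3)⁻¹ * divP' l r s τ
  mdiff_X r s _ := by
    have e : divP l r s = fun τ : ℍ => ℘[Fermat.Agent.S58.helper9384.tauPair τ]
        (((r : ℂ) * (τ : ℂ) + (s : ℂ)) / (l : ℂ)) :=
      funext fun τ => Fermat.Agent.S48.helper9565.divP_eq_of_isTauLattice
        (Fermat.Agent.S48.helper9565.isTauLattice_of_eq rfl rfl) l r s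
    have h := Fermat.Agent.S48.helper7252.mdifferentiable_divWP_int l r s
    rw [← e] at h
    exact h.const_smul (((2 * π * I) ^ 2)⁻¹ : ℂ)
  mdiff_Y r s _ := by
    have e : divP' l r s = fun τ : ℍ => ℘'[Fermat.Agent.S58.helper9384.tauPair τ]
        (((r : ℂ) * (τ : ℂ) + (s : ℂ)) / (l : ℂ)) :=
      funext fun τ => Fermat.Agent.S48.helper9565.divP'_eq_of_isTauLattice
        (Fermat.Agent.S48.helper9565.isTauLattice_of_eq rfl rfl) l r s
    have h := Fermat.Agent.S48.helper7252.mdifferentiable_divDerivWP_int l r s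
    rw [← e] at h
    exact h.const_smul (((2 * π * I) ^ 3)⁻¹ : ℂ)
  smul_X r s γ τ := by
    show ((2 * π * I) ^ 2)⁻¹ * divP l r s (γ • τ) = _
    rw [Fermat.Agent.S48.helper9565.divP_smul, ModularGroup.denom_apply]
    ring
  smul_Y r s γ τ := by
    show ((2 * π * I) ^ 3)⁻¹ * divP' l r s (γ • τ) = _
    rw [Fermat.Agent.S48.helper9565.divP'_smul, ModularGroup.denom_apply]
    ring
  congr_X r s r' s' h1 h2 := funext fun τ => by
    show ((2 * π * I) ^ 2)⁻¹ * divP l r s τ = ((2 * π * I) ^ 2)⁻¹ * divP l r' s' τ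
    rw [Fermat.Agent.S48.helper9565.divP_congr hl (r := r') (s := s') (r' := r) (s' := s) h1 h2 τ]
  congr_Y r s r' s' h1 h2 := funext fun τ => by
    show ((2 * π * I) ^ 3)⁻¹ * divP' l r s τ = ((2 * π * I) ^ 3)⁻¹ * divP' l r' s' τ
    rw [Fermat.Agent.S48.helper9565.divP'_congr hl (r := r') (s := s') (r' := r) (s' := s) h1 h2 τ]
  neg_X r s := funext fun τ => by
    show ((2 * π * I) ^ 2)⁻¹ * divP l (-r) (-s) τ = ((2 * π * I) ^ 2)⁻¹ * divP l r s τ
    rw [Fermat.Agent.S48.helper9565.divP_neg]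
  neg_Y r s := funext fun τ => by
    show ((2 * π * I) ^ 3)⁻¹ * divP' l (-r) (-s) τ = -(((2 * π * I) ^ 3)⁻¹ * divP' l r s τ)
    rw [Fermat.Agent.S48.helper9565.divP'_neg]
    ring
  ne_X r s r' s' τ h h' hm hp := by
    have key := Fermat.Agent.S48.helper8477.WP_div_ne_of_one_tau (pairTau τ) (τ : ℂ) rfl rfl hl
      h h' hm hp
    intro heq
    apply key
    have hc : (((2 * π * I) ^ 2)⁻¹ : ℂ) ≠ 0 :=
      inv_ne_zero (pow_ne_zero 2 Complex.two_pi_I_ne_zero)
    exact sub_eq_zero.mpr (mul_left_cancel₀ hc heq)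
  hasSum_X r s τ hrl h := by
    have hz := divPoint_mem_integerComplement r s τ hrl h
    have hzτ : |((((r : ℂ) * τ + s) / l : ℂ)).im| < (pairTau τ).ω₂.im :=
      abs_im_divPoint_lt r s τ hrl
    have key := Fermat.Agent.S48.helper5288.hasSum_weierstrassP_qExp (pairTau τ) rfl hz hzτ
    have e : divP l ((r : ℕ) : ℤ) s τ = ℘[pairTau τ] (((r : ℂ) * τ + s) / l) := by
      simp [divP]
    show HasSum _ (((2 * π * I) ^ 2)⁻¹ * divP l ((r : ℕ) : ℤ) s τ)
    rw [e]
    exact key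
  hasSum_Y r s τ hrl h := by
    have hz := divPoint_mem_integerComplement r s τ hrl h
    have hzτ : |((((r : ℂ) * τ + s) / l : ℂ)).im| < (pairTau τ).ω₂.im :=
      abs_im_divPoint_lt r s τ hrl
    have key := Fermat.Agent.S48.helper5288.hasSum_derivWeierstrassP_qExp (pairTau τ) rfl hz hzτ
    have e : divP' l ((r : ℕ) : ℤ) s τ = ℘'[pairTau τ] (((r : ℂ) * τ + s) / l) := by
      simp [divP']
    show HasSum _ (((2 * π * I) ^ 3)⁻¹ * divP' l ((r : ℕ) : ℤ) s τ)
    rw [e]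
    exact key

/-! ### The family `W d` -/

lemma not_dvd_unit_val {l : ℕ} (hl : l.Prime) (d : (ZMod l)ˣ) :
    ¬(l : ℤ) ∣ (((d : ZMod l).val : ℕ) : ℤ) := by
  have : Fact l.Prime := ⟨hl⟩
  have : NeZero l := ⟨hl.ne_zero⟩
  rw [Int.natCast_dvd_natCast]
  have h0 : (d : ZMod l).val ≠ 0 := by
    rw [Ne, ZMod.val_eq_zero]
    exact d.ne_zero
  exact Nat.not_dvd_of_pos_of_lt (Nat.pos_of_ne_zero h0) (ZMod.val_lt _)

/-- `(a, 2a)` is admissible for `a = d.val`, `d` a unit mod a prime `l ≥ 5`. -/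
lemma adm_unit {l : ℕ} (hl : l.Prime) (hl5 : 5 ≤ l) (d : (ZMod l)ˣ) :
    Adm l (((d : ZMod l).val : ℕ) : ℤ) (2 * (((d : ZMod l).val : ℕ) : ℤ)) := by
  have ha := not_dvd_unit_val hl d
  have hlZ := Nat.prime_iff_prime_int.mp hl
  have h2 : ¬(l : ℤ) ∣ 2 := by
    intro h
    have := Int.le_of_dvd (by norm_num) h
    omega
  have h3 : ¬(l : ℤ) ∣ 3 := by
    intro h
    have := Int.le_of_dvd (by norm_num) h
    omega
  refine ⟨ha, not_dvd_mul_of_prime hl h2 ha, ?_, ?_⟩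
  · have e : (((d : ZMod l).val : ℕ) : ℤ) - 2 * (((d : ZMod l).val : ℕ) : ℤ) =
        -(((d : ZMod l).val : ℕ) : ℤ) := by ring
    rw [e, dvd_neg]; exact ha
  · have e : (((d : ZMod l).val : ℕ) : ℤ) + 2 * (((d : ZMod l).val : ℕ) : ℤ) =
        3 * (((d : ZMod l).val : ℕ) : ℤ) := by ring
    rw [e]; exact not_dvd_mul_of_prime hl h3 ha

lemma exp_natCast_div_eq_pow (l n : ℕ) :
    cexp (2 * π * I * (((n : ℤ) : ℂ) / l)) = cexp (2 * π * I / l) ^ n := by
  rw [← Complex.exp_nat_mul]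
  congr 1
  push_cast
  ring

lemma exp_two_mul_natCast_div_eq_pow (l n : ℕ) :
    cexp (2 * π * I * (((2 * (n : ℤ) : ℤ) : ℂ) / l)) = (cexp (2 * π * I / l) ^ 2) ^ n := by
  rw [← pow_mul, ← Complex.exp_nat_mul]
  congr 1
  push_cast
  ring

lemma mk_wpC_sub (u v : ℂ) :
    PowerSeries.mk (wpC u) - PowerSeries.mk (wpC v) = wpSer u - wpSer v := by
  ext n
  by_cases hn : n = 0
  · subst hn
    simp [wpC, wpSer]
  · simp [wpC, wpSer, hn]

lemma mk_wpC' (u : ℂ) : PowerSeries.mk (wpC' u) = wpDerSer u := by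
  ext n
  by_cases hn : n = 0
  · subst hn
    simp [wpC', wpDerSer]
  · simp [wpC', wpDerSer, hn]

/-- **The analytic leaf of F2** (= the body of `helper9793.Stmt_EisW l`): for a prime `l ≥ 5`
there is a family `W d`, `d ∈ (ℤ/l)ˣ`, of weight-one modular forms on `Γ₁(l)`, permuted by the
diamond operators (`W d ∣ γ = W (d * d_γ)` for `γ ∈ Γ₀(l)`), whose `q`-expansions are the formal
quotients `wpDerSer (ζ^d) / (wpSer (ζ^d) - wpSer (ζ^(2d)))`, `ζ = exp(2πi/l)`.
Analytically `W d = (2πi)⁻¹ ℘'(d/l) / (℘(d/l) - ℘(2d/l))` for the lattice `ℤ + ℤτ`. -/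
theorem stmt_EisW (l : ℕ) (hl : l.Prime) (hl5 : 5 ≤ l) :
    ∃ W : (ZMod l)ˣ → ModularForm (Gamma1 l) 1,
      (∀ (d e : (ZMod l)ˣ) (γ : SL(2, ℤ)), γ ∈ Gamma0 l → ((γ 1 1 : ℤ) : ZMod l) = e →
          (⇑(W d) : ℍ → ℂ) ∣[(1 : ℤ)] γ = ⇑(W (d * e))) ∧
      (∀ d : (ZMod l)ˣ, qExpansion 1 (W d) *
          (wpSer (Complex.exp (2 * Real.pi * Complex.I / l) ^ (d : ZMod l).val) -
            wpSer ((Complex.exp (2 * Real.pi * Complex.I / l) ^ 2) ^ (d : ZMod l).val)) =
            wpDerSer (Complex.exp (2 * Real.pi * Complex.I / l) ^ (d : ZMod l).val)) := by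
  have hl2 : l ≠ 2 := by omega
  have : NeZero l := ⟨hl.ne_zero⟩
  refine ⟨fun d => (divData l hl.ne_zero).Wform hl hl2 (adm_unit hl hl5 d), ?_, ?_⟩
  · intro d e γ hγ he
    rw [DivData.Wform_slash _ hl hl2 _ hγ]
    congr 1
    apply DivData.Wform_congr
    · apply (ZMod.intCast_zmod_eq_zero_iff_dvd _ l).mp
      push_cast
      rw [he, ZMod.natCast_zmod_val, ZMod.natCast_zmod_val]
      ring
    · apply (ZMod.intCast_zmod_eq_zero_iff_dvd _ l).mp
      push_cast
      rw [he, ZMod.natCast_zmod_val, ZMod.natCast_zmod_val]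
      ring
  · intro d
    have key := (divData l hl.ne_zero).Wform_qExpansion_mul hl hl2 (adm_unit hl hl5 d)
    rw [exp_natCast_div_eq_pow, exp_two_mul_natCast_div_eq_pow, mk_wpC_sub, mk_wpC'] at key
    exact key

end

end Fermat.Agent.S48.helper6076
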