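import Mathlib
import Fermat.Prelude.Def_FLTPrelim_Modularity

/-!
# S48: restriction of modular forms to smaller subgroups

`cuspRestrict`, `modRestrict` (same underlying function), and `1` is a strict period of `Γ₁(N)`.
-/

set_option autoImplicit false

open CongruenceSubgroup UpperHalfPlane ModularFormClass Matrix Matrix.SpecialLinearGroup
open scoped MatrixGroups ModularForm Real

namespace Fermat.Agent.S48.helper7244

noncomputable section

variable {Γ Γ' : Subgroup (GL (Fin 2) ℝ)} {k : ℤ}

/-- Restriction of a cusp form to a smaller subgroup. -/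
def cuspRestrict (h : Γ' ≤ Γ) (f : CuspForm Γ k) : CuspForm Γ' k where
  toFun := f
  slash_action_eq' γ hγ := SlashInvariantFormClass.slash_action_eq f γ (h hγ)
  holo' := CuspFormClass.holo f
  zero_at_cusps' hc := CuspFormClass.zero_at_cusps f (hc.mono h)

@[simp] lemma coe_cuspRestrict (h : Γ' ≤ Γ) (f : CuspForm Γ k) :
    (cuspRestrict h f : ℍ → ℂ) = f := rfl

/-- Restriction of a modular form to a smaller subgroup. -/
def modRestrict (h : Γ' ≤ Γ) (f : ModularForm Γ k) : ModularForm Γ' k where
  toFun := f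
  slash_action_eq' γ hγ := SlashInvariantFormClass.slash_action_eq f γ (h hγ)
  holo' := ModularFormClass.holo f
  bdd_at_cusps' hc := ModularFormClass.bdd_at_cusps f (hc.mono h)

@[simp] lemma coe_modRestrict (h : Γ' ≤ Γ) (f : ModularForm Γ k) :
    (modRestrict h f : ℍ → ℂ) = f := rfl

lemma one_mem_strictPeriods_Gamma1 (N : ℕ) :
    (1 : ℝ) ∈ ((Gamma1 N : Subgroup SL(2, ℤ)) : Subgroup (GL (Fin 2) ℝ)).strictPeriods := by
  rw [Subgroup.strictPeriods_eq_zmultiples_one_of_T_mem]
  · exact AddSubgroup.mem_zmultiples 1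
  · rw [Gamma1_mem]; simp [ModularGroup.T]

end

end Fermat.Agent.S48.helper7244
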