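import Mathlib
import Fermat.Prelude.Def_FLTPrelim_Modularity
import Fermat.Agent.S48.helper7244_LevelBase

/-!
# S48-PROD: the product `f * E` on `Γ₁(N * l)`

* `cuspLevelUp`, `modLevelUp`: a form on `Γ₁(M)` as a form on `Γ₁(M')`, `M ∣ M'` (same function,
  same `q`-coefficients).
* `mulLevel f E : CuspForm (Gamma1 (N * l)) (k₁ + k₂)` and `prodForm N l f E` (weights `1 + 1 = 2`).
* `qCoeff_prodForm`: Cauchy product of the `q`-coefficients.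
* `prodForm_nebentypus`: nebentypus `ε(d) χ(d)` on `Γ₀(N * l)`.
* `qCoeff_prodForm_sub_mem`: `f * E ≡ f` coefficientwise modulo an additive subgroup `I` absorbing
  multiplication by a subring `A`, if `E ≡ 1` mod `I` and `f` has coefficients in `A`.
* `hecke_congr`: the eigen-congruence `c_{pn} + u c_{n/p} ≡ a_p c_n` for `c ≡ a`.
-/

set_option autoImplicit false

open CongruenceSubgroup UpperHalfPlane ModularFormClass Matrix Matrix.SpecialLinearGroup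
open scoped MatrixGroups ModularForm Real

namespace Fermat.Agent.S48.helper7244

noncomputable section

variable {k k₁ k₂ : ℤ}

lemma Gamma1_le_of_dvd {M M' : ℕ} (h : M ∣ M') : Gamma1 M' ≤ Gamma1 M := by
  intro γ hγ
  rw [Gamma1_mem] at hγ ⊢
  obtain ⟨ha, hd, hc⟩ := hγ
  have cast : ∀ x : ℤ, (ZMod.cast (x : ZMod M') : ZMod M) = (x : ZMod M) :=
    fun x => ZMod.cast_intCast h x
  refine ⟨?_, ?_, ?_⟩
  · rw [← cast, ha, ZMod.cast_one h]
  · rw [← cast, hd, ZMod.cast_one h]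
  · rw [← cast, hc, ZMod.cast_zero]

lemma Gamma0_le_of_dvd {M M' : ℕ} (h : M ∣ M') : Gamma0 M' ≤ Gamma0 M := by
  intro γ hγ
  rw [Gamma0_mem] at hγ ⊢
  rw [← ZMod.cast_intCast h, hγ, ZMod.cast_zero]

lemma map_Gamma1_le_of_dvd {M M' : ℕ} (h : M ∣ M') :
    ((Gamma1 M' : Subgroup SL(2, ℤ)) : Subgroup (GL (Fin 2) ℝ)) ≤
      ((Gamma1 M : Subgroup SL(2, ℤ)) : Subgroup (GL (Fin 2) ℝ)) :=
  Subgroup.map_mono (Gamma1_le_of_dvd h)

/-- A cusp form on `Γ₁(M)` viewed on `Γ₁(M')`, `M ∣ M'`. -/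
def cuspLevelUp {M M' : ℕ} (h : M ∣ M') (f : CuspForm (Gamma1 M) k) : CuspForm (Gamma1 M') k :=
  cuspRestrict (map_Gamma1_le_of_dvd h) f

/-- A modular form on `Γ₁(M)` viewed on `Γ₁(M')`, `M ∣ M'`. -/
def modLevelUp {M M' : ℕ} (h : M ∣ M') (f : ModularForm (Gamma1 M) k) :
    ModularForm (Gamma1 M') k :=
  modRestrict (map_Gamma1_le_of_dvd h) f

@[simp] lemma coe_cuspLevelUp {M M' : ℕ} (h : M ∣ M') (f : CuspForm (Gamma1 M) k) :
    (cuspLevelUp h f : ℍ → ℂ) = f := rfl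

@[simp] lemma coe_modLevelUp {M M' : ℕ} (h : M ∣ M') (f : ModularForm (Gamma1 M) k) :
    (modLevelUp h f : ℍ → ℂ) = f := rfl

lemma qCoeff_cuspLevelUp {M M' : ℕ} (h : M ∣ M') (f : CuspForm (Gamma1 M) k) (n : ℕ) :
    qCoeff (cuspLevelUp h f) n = qCoeff f n := rfl

lemma qCoeff_modLevelUp {M M' : ℕ} (h : M ∣ M') (f : ModularForm (Gamma1 M) k) (n : ℕ) :
    qCoeff (modLevelUp h f) n = qCoeff f n := rfl

/-- The product of a cusp form on `Γ₁(N)` and a modular form on `Γ₁(l)`, on `Γ₁(N * l)`. -/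
def mulLevel (N l : ℕ) (f : CuspForm (Gamma1 N) k₁) (E : ModularForm (Gamma1 l) k₂) :
    CuspForm (Gamma1 (N * l)) (k₁ + k₂) :=
  (cuspLevelUp (dvd_mul_right N l) f).mulModularForm (modLevelUp (dvd_mul_left l N) E)

@[simp] lemma coe_mulLevel (N l : ℕ) (f : CuspForm (Gamma1 N) k₁) (E : ModularForm (Gamma1 l) k₂) :
    (mulLevel N l f E : ℍ → ℂ) = ⇑f * ⇑E := rfl

lemma mulLevel_apply (N l : ℕ) (f : CuspForm (Gamma1 N) k₁) (E : ModularForm (Gamma1 l) k₂)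
    (τ : ℍ) : mulLevel N l f E τ = f τ * E τ := rfl

lemma qExpansion_mulLevel (N l : ℕ) (f : CuspForm (Gamma1 N) k₁) (E : ModularForm (Gamma1 l) k₂) :
    qExpansion 1 (mulLevel N l f E) = qExpansion 1 f * qExpansion 1 E :=
  ModularForm.qExpansion_mul_coe one_pos (one_mem_strictPeriods_Gamma1 (N * l))
    (cuspLevelUp (dvd_mul_right N l) f) (modLevelUp (dvd_mul_left l N) E)

theorem qCoeff_mulLevel (N l : ℕ) (f : CuspForm (Gamma1 N) k₁) (E : ModularForm (Gamma1 l) k₂)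
    (n : ℕ) :
    qCoeff (mulLevel N l f E) n =
      ∑ x ∈ Finset.HasAntidiagonal.antidiagonal n, qCoeff f x.1 * qCoeff E x.2 := by
  rw [qCoeff, qExpansion_mulLevel, PowerSeries.coeff_mul]
  rfl

/-- The weight-2 cusp form `f * E` on `Γ₁(N * l)`, for `f` of weight 1 on `Γ₁(N)` and `E` of
weight 1 on `Γ₁(l)`. -/
def prodForm (N l : ℕ) (f : CuspForm (Gamma1 N) 1) (E : ModularForm (Gamma1 l) 1) :
    CuspForm (Gamma1 (N * l)) 2 :=
  CuspForm.mcast (by norm_num) (mulLevel N l f E)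

@[simp] lemma coe_prodForm (N l : ℕ) (f : CuspForm (Gamma1 N) 1) (E : ModularForm (Gamma1 l) 1) :
    (prodForm N l f E : ℍ → ℂ) = ⇑f * ⇑E := rfl

lemma prodForm_apply (N l : ℕ) (f : CuspForm (Gamma1 N) 1) (E : ModularForm (Gamma1 l) 1)
    (τ : ℍ) : prodForm N l f E τ = f τ * E τ := rfl

theorem qCoeff_prodForm (N l : ℕ) (f : CuspForm (Gamma1 N) 1) (E : ModularForm (Gamma1 l) 1)
    (n : ℕ) :
    qCoeff (prodForm N l f E) n =
      ∑ x ∈ Finset.HasAntidiagonal.antidiagonal n, qCoeff f x.1 * qCoeff E x.2 :=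
  qCoeff_mulLevel N l f E n

/-! ### Nebentypus -/

/-- Function form versus slash form of a transformation law under `γ ∈ SL(2, ℤ)`. -/
lemma slash_eq_smul_iff (F : ℍ → ℂ) (k : ℤ) (γ : SL(2, ℤ)) (c : ℂ) :
    F ∣[k] γ = c • F ↔
      ∀ τ : ℍ, F (γ • τ) = c * ((γ 1 0 : ℂ) * τ + γ 1 1) ^ k * F τ := by
  have hden : ∀ τ : ℍ, denom γ τ = (γ 1 0 : ℂ) * τ + γ 1 1 := fun τ => by simp [denom]
  have hne : ∀ τ : ℍ, ((γ 1 0 : ℂ) * τ + γ 1 1) ≠ 0 := fun τ => by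
    rw [← hden]; exact denom_ne_zero _ τ
  constructor
  · intro h τ
    have h1 := congr_fun h τ
    rw [ModularForm.SL_slash_apply, Pi.smul_apply, smul_eq_mul] at h1
    have h2 : denom (toGL ((SpecialLinearGroup.map (Int.castRingHom ℝ)) γ)) ↑τ =
        (γ 1 0 : ℂ) * τ + γ 1 1 := hden τ
    rw [h2, _root_.zpow_neg] at h1
    have := hne τ
    field_simp at h1
    rw [h1]; ring
  · intro h
    funext τ
    rw [ModularForm.SL_slash_apply, Pi.smul_apply, smul_eq_mul, h τ]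
    have h2 : denom (toGL ((SpecialLinearGroup.map (Int.castRingHom ℝ)) γ)) ↑τ =
        (γ 1 0 : ℂ) * τ + γ 1 1 := hden τ
    rw [h2, _root_.zpow_neg]
    have := hne τ
    field_simp

/-- Nebentypus of the product (function form): if `f` has nebentypus `ε` on `Γ₀(N)` and `E` has
nebentypus `χ` on `Γ₀(l)`, then `f * E` transforms by `ε(d) χ(d)` on `Γ₀(N * l)`. -/
theorem mulLevel_nebentypus (N l : ℕ) (ε : DirichletCharacter ℂ N) (χ : DirichletCharacter ℂ l)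
    (f : CuspForm (Gamma1 N) k₁) (E : ModularForm (Gamma1 l) k₂)
    (hf : ∀ γ : SL(2, ℤ), γ ∈ Gamma0 N → ∀ τ : ℍ,
      f (γ • τ) = ε ((γ 1 1 : ℤ) : ZMod N) * ((γ 1 0 : ℂ) * τ + γ 1 1) ^ k₁ * f τ)
    (hE : ∀ γ : SL(2, ℤ), γ ∈ Gamma0 l → ∀ τ : ℍ,
      E (γ • τ) = χ ((γ 1 1 : ℤ) : ZMod l) * ((γ 1 0 : ℂ) * τ + γ 1 1) ^ k₂ * E τ) :
    ∀ γ : SL(2, ℤ), γ ∈ Gamma0 (N * l) → ∀ τ : ℍ,
      mulLevel N l f E (γ • τ) =
        (ε ((γ 1 1 : ℤ) : ZMod N) * χ ((γ 1 1 : ℤ) : ZMod l)) *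
          ((γ 1 0 : ℂ) * τ + γ 1 1) ^ (k₁ + k₂) * mulLevel N l f E τ := by
  intro γ hγ τ
  have hden : ∀ τ : ℍ, denom γ τ = (γ 1 0 : ℂ) * τ + γ 1 1 := fun τ => by simp [denom]
  have hne : ((γ 1 0 : ℂ) * τ + γ 1 1) ≠ 0 := by
    rw [← hden]; exact denom_ne_zero _ τ
  rw [mulLevel_apply, mulLevel_apply,
    hf γ (Gamma0_le_of_dvd (dvd_mul_right N l) hγ) τ,
    hE γ (Gamma0_le_of_dvd (dvd_mul_left l N) hγ) τ, zpow_add₀ hne]
  ring

theorem prodForm_nebentypus (N l : ℕ) (ε : DirichletCharacter ℂ N) (χ : DirichletCharacter ℂ l)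
    (f : CuspForm (Gamma1 N) 1) (E : ModularForm (Gamma1 l) 1)
    (hf : ∀ γ : SL(2, ℤ), γ ∈ Gamma0 N → ∀ τ : ℍ,
      f (γ • τ) = ε ((γ 1 1 : ℤ) : ZMod N) * ((γ 1 0 : ℂ) * τ + γ 1 1) * f τ)
    (hE : ∀ γ : SL(2, ℤ), γ ∈ Gamma0 l → ∀ τ : ℍ,
      E (γ • τ) = χ ((γ 1 1 : ℤ) : ZMod l) * ((γ 1 0 : ℂ) * τ + γ 1 1) * E τ) :
    ∀ γ : SL(2, ℤ), γ ∈ Gamma0 (N * l) → ∀ τ : ℍ,
      prodForm N l f E (γ • τ) =
        (ε ((γ 1 1 : ℤ) : ZMod N) * χ ((γ 1 1 : ℤ) : ZMod l)) *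
          ((γ 1 0 : ℂ) * τ + γ 1 1) ^ 2 * prodForm N l f E τ := by
  intro γ hγ τ
  have h := mulLevel_nebentypus N l ε χ f E (k₁ := 1) (k₂ := 1) (by simpa using hf)
    (by simpa using hE) γ hγ τ
  have e : ((γ 1 0 : ℂ) * τ + γ 1 1) ^ ((1 : ℤ) + 1) = ((γ 1 0 : ℂ) * τ + γ 1 1) ^ 2 := by
    rw [show ((1 : ℤ) + 1) = ((2 : ℕ) : ℤ) by norm_num, zpow_natCast]
  rw [e] at h
  exact h

/-- For `γ ∈ Γ₀(M)` the lower right entry is prime to `M`. -/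
lemma isCoprime_of_mem_Gamma0 {M : ℕ} {γ : SL(2, ℤ)} (h : γ ∈ Gamma0 M) :
    IsCoprime (M : ℤ) (γ 1 1) := by
  rw [Gamma0_mem] at h
  obtain ⟨c₀, hc₀⟩ := (ZMod.intCast_zmod_eq_zero_iff_dvd _ _).mp h
  have hdet : γ 0 0 * γ 1 1 - γ 0 1 * γ 1 0 = 1 := by
    have := γ.det_coe
    rw [Matrix.det_fin_two] at this
    exact this
  refine ⟨-(γ 0 1 * c₀), γ 0 0, ?_⟩
  rw [hc₀] at hdet
  linear_combination hdet

/-- The product character `ε χ` of level `N * l`. -/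
def prodChar (N l : ℕ) (ε : DirichletCharacter ℂ N) (χ : DirichletCharacter ℂ l) :
    DirichletCharacter ℂ (N * l) :=
  DirichletCharacter.changeLevel (dvd_mul_right N l) ε *
    DirichletCharacter.changeLevel (dvd_mul_left l N) χ

lemma prodChar_intCast (N l : ℕ) (ε : DirichletCharacter ℂ N) (χ : DirichletCharacter ℂ l)
    {d : ℤ} (hd : IsCoprime ((N * l : ℕ) : ℤ) d) :
    prodChar N l ε χ ((d : ℤ) : ZMod (N * l)) = ε ((d : ℤ) : ZMod N) * χ ((d : ℤ) : ZMod l) := by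
  obtain ⟨u, hu⟩ := (ZMod.coe_int_isUnit_iff_isCoprime d (N * l)).mpr hd
  rw [prodChar, MulChar.mul_apply, ← hu,
    DirichletCharacter.changeLevel_eq_cast_of_dvd ε (dvd_mul_right N l) u,
    DirichletCharacter.changeLevel_eq_cast_of_dvd χ (dvd_mul_left l N) u, hu,
    ZMod.cast_intCast (dvd_mul_right N l), ZMod.cast_intCast (dvd_mul_left l N)]

lemma prodChar_natCast (N l : ℕ) (ε : DirichletCharacter ℂ N) (χ : DirichletCharacter ℂ l)
    {p : ℕ} (hp : p.Coprime (N * l)) :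
    prodChar N l ε χ ((p : ℕ) : ZMod (N * l)) = ε ((p : ℕ) : ZMod N) * χ ((p : ℕ) : ZMod l) := by
  have h := prodChar_intCast N l ε χ (d := (p : ℤ))
    (Nat.isCoprime_iff_coprime.mpr hp.symm)
  simpa using h

/-- Nebentypus of `f * E` with the product character (function form). -/
theorem prodForm_nebentypus_char (N l : ℕ) (ε : DirichletCharacter ℂ N)
    (χ : DirichletCharacter ℂ l) (f : CuspForm (Gamma1 N) 1) (E : ModularForm (Gamma1 l) 1)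
    (hf : ∀ γ : SL(2, ℤ), γ ∈ Gamma0 N → ∀ τ : ℍ,
      f (γ • τ) = ε ((γ 1 1 : ℤ) : ZMod N) * ((γ 1 0 : ℂ) * τ + γ 1 1) * f τ)
    (hE : ∀ γ : SL(2, ℤ), γ ∈ Gamma0 l → ∀ τ : ℍ,
      E (γ • τ) = χ ((γ 1 1 : ℤ) : ZMod l) * ((γ 1 0 : ℂ) * τ + γ 1 1) * E τ) :
    ∀ γ : SL(2, ℤ), γ ∈ Gamma0 (N * l) → ∀ τ : ℍ,
      prodForm N l f E (γ • τ) =
        prodChar N l ε χ ((γ 1 1 : ℤ) : ZMod (N * l)) *
          ((γ 1 0 : ℂ) * τ + γ 1 1) ^ 2 * prodForm N l f E τ := by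
  intro γ hγ τ
  rw [prodChar_intCast N l ε χ (isCoprime_of_mem_Gamma0 hγ)]
  exact prodForm_nebentypus N l ε χ f E hf hE γ hγ τ

/-- Nebentypus of `f * E` with the product character (slash form). -/
theorem prodForm_slash (N l : ℕ) (ε : DirichletCharacter ℂ N)
    (χ : DirichletCharacter ℂ l) (f : CuspForm (Gamma1 N) 1) (E : ModularForm (Gamma1 l) 1)
    (hf : ∀ γ : SL(2, ℤ), γ ∈ Gamma0 N → ∀ τ : ℍ,
      f (γ • τ) = ε ((γ 1 1 : ℤ) : ZMod N) * ((γ 1 0 : ℂ) * τ + γ 1 1) * f τ)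
    (hE : ∀ γ : SL(2, ℤ), γ ∈ Gamma0 l → ∀ τ : ℍ,
      E (γ • τ) = χ ((γ 1 1 : ℤ) : ZMod l) * ((γ 1 0 : ℂ) * τ + γ 1 1) * E τ) :
    ∀ γ : SL(2, ℤ), γ ∈ Gamma0 (N * l) →
      (prodForm N l f E : ℍ → ℂ) ∣[(2 : ℤ)] γ =
        prodChar N l ε χ ((γ 1 1 : ℤ) : ZMod (N * l)) • (prodForm N l f E : ℍ → ℂ) := by
  intro γ hγ
  rw [slash_eq_smul_iff]
  intro τ
  have h := prodForm_nebentypus_char N l ε χ f E hf hE γ hγ τ
  have e : ((γ 1 0 : ℂ) * τ + γ 1 1) ^ (2 : ℤ) = ((γ 1 0 : ℂ) * τ + γ 1 1) ^ 2 := by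
    rw [show (2 : ℤ) = ((2 : ℕ) : ℤ) by norm_num, zpow_natCast]
  rw [e]
  exact h

/-! ### Congruences -/

/-- Cauchy product with a sequence `≡ 1`: if `a` has values in a subring `A`, `e 0 ≡ 1` and
`e n ≡ 0` (`n ≥ 1`) modulo an additive subgroup `I` absorbing multiplication by `A`, then the
Cauchy product of `a` and `e` is `≡ a` modulo `I`. -/
theorem cauchy_sub_mem (A : Subring ℂ) (I : AddSubgroup ℂ)
    (hAI : ∀ x ∈ A, ∀ y ∈ I, x * y ∈ I) (a e : ℕ → ℂ) (ha : ∀ n, a n ∈ A)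
    (he0 : e 0 - 1 ∈ I) (he : ∀ n, 1 ≤ n → e n ∈ I) (n : ℕ) :
    (∑ x ∈ Finset.HasAntidiagonal.antidiagonal n, a x.1 * e x.2) - a n ∈ I := by
  rw [Finset.Nat.sum_antidiagonal_eq_sum_range_succ (fun i j => a i * e j) n,
    Finset.sum_range_succ, Nat.sub_self]
  have h1 : ∑ x ∈ Finset.range n, a x * e (n - x) ∈ I :=
    I.sum_mem fun x hx => hAI _ (ha x) _ (he _ (by
      have := Finset.mem_range.mp hx; omega))
  have h2 : a n * (e 0 - 1) ∈ I := hAI _ (ha n) _ he0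
  have : ∑ x ∈ Finset.range n, a x * e (n - x) + a n * e 0 - a n =
      ∑ x ∈ Finset.range n, a x * e (n - x) + a n * (e 0 - 1) := by ring
  rw [this]
  exact I.add_mem h1 h2

/-- Cauchy product of sequences with values in a subring. -/
theorem cauchy_mem (A : Subring ℂ) (a e : ℕ → ℂ) (ha : ∀ n, a n ∈ A) (he : ∀ n, e n ∈ A)
    (n : ℕ) : (∑ x ∈ Finset.HasAntidiagonal.antidiagonal n, a x.1 * e x.2) ∈ A :=
  A.sum_mem fun _ _ => A.mul_mem (ha _) (he _)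

/-- `(P4)`: `f * E ≡ f` coefficientwise modulo `I` when `E ≡ 1` modulo `I`. -/
theorem qCoeff_prodForm_sub_mem (N l : ℕ) (f : CuspForm (Gamma1 N) 1)
    (E : ModularForm (Gamma1 l) 1) (A : Subring ℂ) (I : AddSubgroup ℂ)
    (hAI : ∀ x ∈ A, ∀ y ∈ I, x * y ∈ I) (hf : ∀ n, qCoeff f n ∈ A)
    (hE0 : qCoeff E 0 - 1 ∈ I) (hE : ∀ n, 1 ≤ n → qCoeff E n ∈ I) (n : ℕ) :
    qCoeff (prodForm N l f E) n - qCoeff f n ∈ I := by
  rw [qCoeff_prodForm]
  exact cauchy_sub_mem A I hAI (fun n => qCoeff f n) (fun n => qCoeff E n) hf hE0 hE n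

/-- `f * E` has coefficients in `A` when `f` and `E` do. -/
theorem qCoeff_prodForm_mem (N l : ℕ) (f : CuspForm (Gamma1 N) 1)
    (E : ModularForm (Gamma1 l) 1) (A : Subring ℂ) (hf : ∀ n, qCoeff f n ∈ A)
    (hE : ∀ n, qCoeff E n ∈ A) (n : ℕ) : qCoeff (prodForm N l f E) n ∈ A := by
  rw [qCoeff_prodForm]
  exact cauchy_mem A (fun n => qCoeff f n) (fun n => qCoeff E n) hf hE n

/-- `(P5)`, sequence form of the eigen-congruence: if `c ≡ a` modulo `I`, `a` satisfies the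
Hecke relation at `p` with character value `e`, and `u ≡ e` modulo `I`, then
`c (p n) + u c (n / p) ≡ a p * c n` modulo `I`. -/
theorem hecke_congr (A : Subring ℂ) (I : AddSubgroup ℂ)
    (hAI : ∀ x ∈ A, ∀ y ∈ I, x * y ∈ I) (a c : ℕ → ℂ) (ha : ∀ n, a n ∈ A)
    (hc : ∀ n, c n - a n ∈ I) (p : ℕ) (e u : ℂ) (hu : u ∈ A) (hue : u - e ∈ I)
    (hT : ∀ n : ℕ, a (p * n) + e * (if p ∣ n then a (n / p) else 0) = a p * a n) (n : ℕ) :
    c (p * n) + u * (if p ∣ n then c (n / p) else 0) - a p * c n ∈ I := by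
  have h1 : (if p ∣ n then c (n / p) else 0) - (if p ∣ n then a (n / p) else 0) ∈ I := by
    split_ifs
    · exact hc _
    · simp
  have h2 : (if p ∣ n then a (n / p) else 0) ∈ A := by
    split_ifs
    · exact ha _
    · exact A.zero_mem
  have key : c (p * n) + u * (if p ∣ n then c (n / p) else 0) - a p * c n =
      (c (p * n) - a (p * n)) +
        u * ((if p ∣ n then c (n / p) else 0) - (if p ∣ n then a (n / p) else 0)) +
        (if p ∣ n then a (n / p) else 0) * (u - e) - a p * (c n - a n) := by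
    linear_combination hT n
  rw [key]
  exact I.sub_mem (I.add_mem (I.add_mem (hc _) (hAI _ hu _ h1)) (hAI _ h2 _ hue))
    (hAI _ (ha p) _ (hc n))

/-- `(P5)` for `g = f * E`: the coefficient sequence of `g` satisfies the `T_p`-eigen-relation of
`f` modulo `I`, with any `u ∈ A`, `u ≡ ε(p)` mod `I`, in place of `p ψ(p)`. -/
theorem prodForm_hecke_congr (N l : ℕ) (ε : DirichletCharacter ℂ N)
    (f : CuspForm (Gamma1 N) 1) (E : ModularForm (Gamma1 l) 1)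
    (A : Subring ℂ) (I : AddSubgroup ℂ) (hAI : ∀ x ∈ A, ∀ y ∈ I, x * y ∈ I)
    (hf : ∀ n, qCoeff f n ∈ A) (hE0 : qCoeff E 0 - 1 ∈ I) (hE : ∀ n, 1 ≤ n → qCoeff E n ∈ I)
    (p : ℕ) (u : ℂ) (hu : u ∈ A) (hue : u - ε (p : ZMod N) ∈ I)
    (hT : ∀ n : ℕ, qCoeff f (p * n) + ε (p : ZMod N) * (if p ∣ n then qCoeff f (n / p) else 0) =
      qCoeff f p * qCoeff f n) (n : ℕ) :
    qCoeff (prodForm N l f E) (p * n) +
        u * (if p ∣ n then qCoeff (prodForm N l f E) (n / p) else 0) -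
      qCoeff f p * qCoeff (prodForm N l f E) n ∈ I :=
  hecke_congr A I hAI (fun n => qCoeff f n) (fun n => qCoeff (prodForm N l f E) n) hf
    (qCoeff_prodForm_sub_mem N l f E A I hAI hf hE0 hE) p (ε (p : ZMod N)) u hu hue hT n

/-! ### General target level

The same constructions at an arbitrary level `M` divisible by `N` and `l` (e.g. `M = B * l` with
`N ∣ B`). -/

/-- The product of a cusp form on `Γ₁(N)` and a modular form on `Γ₁(l)`, on `Γ₁(M)` for any `M`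
divisible by `N` and `l`. -/
def mulAt {N l M : ℕ} (hN : N ∣ M) (hl : l ∣ M) (f : CuspForm (Gamma1 N) k₁)
    (E : ModularForm (Gamma1 l) k₂) : CuspForm (Gamma1 M) (k₁ + k₂) :=
  (cuspLevelUp hN f).mulModularForm (modLevelUp hl E)

@[simp] lemma coe_mulAt {N l M : ℕ} (hN : N ∣ M) (hl : l ∣ M) (f : CuspForm (Gamma1 N) k₁)
    (E : ModularForm (Gamma1 l) k₂) : (mulAt hN hl f E : ℍ → ℂ) = ⇑f * ⇑E := rfl

lemma mulAt_apply {N l M : ℕ} (hN : N ∣ M) (hl : l ∣ M) (f : CuspForm (Gamma1 N) k₁)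
    (E : ModularForm (Gamma1 l) k₂) (τ : ℍ) : mulAt hN hl f E τ = f τ * E τ := rfl

theorem qCoeff_mulAt {N l M : ℕ} (hN : N ∣ M) (hl : l ∣ M) (f : CuspForm (Gamma1 N) k₁)
    (E : ModularForm (Gamma1 l) k₂) (n : ℕ) :
    qCoeff (mulAt hN hl f E) n =
      ∑ x ∈ Finset.HasAntidiagonal.antidiagonal n, qCoeff f x.1 * qCoeff E x.2 := by
  have h : qExpansion 1 (mulAt hN hl f E) = qExpansion 1 f * qExpansion 1 E :=
    ModularForm.qExpansion_mul_coe one_pos (one_mem_strictPeriods_Gamma1 M)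
      (cuspLevelUp hN f) (modLevelUp hl E)
  rw [qCoeff, h, PowerSeries.coeff_mul]
  rfl

/-- The weight-2 cusp form `f * E` on `Γ₁(M)`, `N ∣ M`, `l ∣ M`. -/
def prodAt {N l M : ℕ} (hN : N ∣ M) (hl : l ∣ M) (f : CuspForm (Gamma1 N) 1)
    (E : ModularForm (Gamma1 l) 1) : CuspForm (Gamma1 M) 2 :=
  CuspForm.mcast (by norm_num) (mulAt hN hl f E)

@[simp] lemma coe_prodAt {N l M : ℕ} (hN : N ∣ M) (hl : l ∣ M) (f : CuspForm (Gamma1 N) 1)
    (E : ModularForm (Gamma1 l) 1) : (prodAt hN hl f E : ℍ → ℂ) = ⇑f * ⇑E := rfl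

lemma prodAt_apply {N l M : ℕ} (hN : N ∣ M) (hl : l ∣ M) (f : CuspForm (Gamma1 N) 1)
    (E : ModularForm (Gamma1 l) 1) (τ : ℍ) : prodAt hN hl f E τ = f τ * E τ := rfl

theorem qCoeff_prodAt {N l M : ℕ} (hN : N ∣ M) (hl : l ∣ M) (f : CuspForm (Gamma1 N) 1)
    (E : ModularForm (Gamma1 l) 1) (n : ℕ) :
    qCoeff (prodAt hN hl f E) n =
      ∑ x ∈ Finset.HasAntidiagonal.antidiagonal n, qCoeff f x.1 * qCoeff E x.2 :=
  qCoeff_mulAt hN hl f E n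

/-- If `f ≠ 0` and `E ≠ 0` then `f * E ≠ 0` (power series over `ℂ` form a domain). -/
theorem prodAt_ne_zero {N l M : ℕ} (hN : N ∣ M) (hl : l ∣ M) (f : CuspForm (Gamma1 N) 1)
    (E : ModularForm (Gamma1 l) 1) (hf : ∃ n, qCoeff f n ≠ 0) (hE : ∃ n, qCoeff E n ≠ 0) :
    prodAt hN hl f E ≠ 0 := by
  intro h0
  have h : qExpansion 1 (prodAt hN hl f E) = qExpansion 1 f * qExpansion 1 E :=
    ModularForm.qExpansion_mul_coe one_pos (one_mem_strictPeriods_Gamma1 M)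
      (cuspLevelUp hN f) (modLevelUp hl E)
  have hz : qExpansion 1 (prodAt hN hl f E) = 0 := by
    rw [h0]
    have hcoe : (⇑(0 : CuspForm (Gamma1 M) 2) : ℍ → ℂ) = 0 := rfl
    rw [hcoe, UpperHalfPlane.qExpansion_zero]
  rw [h] at hz
  rcases mul_eq_zero.mp hz with h1 | h1
  · obtain ⟨n, hn⟩ := hf
    exact hn (by rw [qCoeff, h1]; simp)
  · obtain ⟨n, hn⟩ := hE
    exact hn (by rw [qCoeff, h1]; simp)

/-- The product character `ε χ` lifted to level `M`, `N ∣ M`, `l ∣ M`. -/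
def prodCharAt {N l M : ℕ} (hN : N ∣ M) (hl : l ∣ M) (ε : DirichletCharacter ℂ N)
    (χ : DirichletCharacter ℂ l) : DirichletCharacter ℂ M :=
  DirichletCharacter.changeLevel hN ε * DirichletCharacter.changeLevel hl χ

lemma prodCharAt_intCast {N l M : ℕ} (hN : N ∣ M) (hl : l ∣ M) (ε : DirichletCharacter ℂ N)
    (χ : DirichletCharacter ℂ l) {d : ℤ} (hd : IsCoprime (M : ℤ) d) :
    prodCharAt hN hl ε χ ((d : ℤ) : ZMod M) = ε ((d : ℤ) : ZMod N) * χ ((d : ℤ) : ZMod l) := by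
  obtain ⟨u, hu⟩ := (ZMod.coe_int_isUnit_iff_isCoprime d M).mpr hd
  rw [prodCharAt, MulChar.mul_apply, ← hu,
    DirichletCharacter.changeLevel_eq_cast_of_dvd ε hN u,
    DirichletCharacter.changeLevel_eq_cast_of_dvd χ hl u, hu,
    ZMod.cast_intCast hN, ZMod.cast_intCast hl]

lemma prodCharAt_natCast {N l M : ℕ} (hN : N ∣ M) (hl : l ∣ M) (ε : DirichletCharacter ℂ N)
    (χ : DirichletCharacter ℂ l) {p : ℕ} (hp : p.Coprime M) :
    prodCharAt hN hl ε χ ((p : ℕ) : ZMod M) = ε ((p : ℕ) : ZMod N) * χ ((p : ℕ) : ZMod l) := by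
  have h := prodCharAt_intCast hN hl ε χ (d := (p : ℤ)) (Nat.isCoprime_iff_coprime.mpr hp.symm)
  simpa using h

/-- Nebentypus of `f * E` on `Γ₀(M)` (function form, product character). -/
theorem prodAt_nebentypus {N l M : ℕ} (hN : N ∣ M) (hl : l ∣ M) (ε : DirichletCharacter ℂ N)
    (χ : DirichletCharacter ℂ l) (f : CuspForm (Gamma1 N) 1) (E : ModularForm (Gamma1 l) 1)
    (hf : ∀ γ : SL(2, ℤ), γ ∈ Gamma0 N → ∀ τ : ℍ,
      f (γ • τ) = ε ((γ 1 1 : ℤ) : ZMod N) * ((γ 1 0 : ℂ) * τ + γ 1 1) * f τ)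
    (hE : ∀ γ : SL(2, ℤ), γ ∈ Gamma0 l → ∀ τ : ℍ,
      E (γ • τ) = χ ((γ 1 1 : ℤ) : ZMod l) * ((γ 1 0 : ℂ) * τ + γ 1 1) * E τ) :
    ∀ γ : SL(2, ℤ), γ ∈ Gamma0 M → ∀ τ : ℍ,
      prodAt hN hl f E (γ • τ) =
        prodCharAt hN hl ε χ ((γ 1 1 : ℤ) : ZMod M) *
          ((γ 1 0 : ℂ) * τ + γ 1 1) ^ 2 * prodAt hN hl f E τ := by
  intro γ hγ τ
  rw [prodCharAt_intCast hN hl ε χ (isCoprime_of_mem_Gamma0 hγ), prodAt_apply, prodAt_apply,
    hf γ (Gamma0_le_of_dvd hN hγ) τ, hE γ (Gamma0_le_of_dvd hl hγ) τ]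
  ring

/-- Nebentypus of `f * E` on `Γ₀(M)` (slash form, product character), from the slash forms of
the nebentypus of `f` and `E` (the shape of the Spec's `Stmt_Neben`). -/
theorem prodAt_slash {N l M : ℕ} (hN : N ∣ M) (hl : l ∣ M) (ε : DirichletCharacter ℂ N)
    (χ : DirichletCharacter ℂ l) (f : CuspForm (Gamma1 N) 1) (E : ModularForm (Gamma1 l) 1)
    (hf : ∀ γ : SL(2, ℤ), γ ∈ Gamma0 N →
      (⇑f) ∣[(1 : ℤ)] γ = ε ((γ 1 1 : ℤ) : ZMod N) • (⇑f))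
    (hE : ∀ γ : SL(2, ℤ), γ ∈ Gamma0 l →
      (⇑E) ∣[(1 : ℤ)] γ = χ ((γ 1 1 : ℤ) : ZMod l) • (⇑E)) :
    ∀ γ : SL(2, ℤ), γ ∈ Gamma0 M →
      (⇑(prodAt hN hl f E)) ∣[(2 : ℤ)] γ =
        prodCharAt hN hl ε χ ((γ 1 1 : ℤ) : ZMod M) • (⇑(prodAt hN hl f E)) := by
  intro γ hγ
  rw [slash_eq_smul_iff]
  intro τ
  have hf' : ∀ γ : SL(2, ℤ), γ ∈ Gamma0 N → ∀ τ : ℍ,
      f (γ • τ) = ε ((γ 1 1 : ℤ) : ZMod N) * ((γ 1 0 : ℂ) * τ + γ 1 1) * f τ := by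
    intro γ hγ τ
    have := (slash_eq_smul_iff (⇑f) 1 γ _).mp (hf γ hγ) τ
    simpa using this
  have hE' : ∀ γ : SL(2, ℤ), γ ∈ Gamma0 l → ∀ τ : ℍ,
      E (γ • τ) = χ ((γ 1 1 : ℤ) : ZMod l) * ((γ 1 0 : ℂ) * τ + γ 1 1) * E τ := by
    intro γ hγ τ
    have := (slash_eq_smul_iff (⇑E) 1 γ _).mp (hE γ hγ) τ
    simpa using this
  have h := prodAt_nebentypus hN hl ε χ f E hf' hE' γ hγ τ
  have e : ((γ 1 0 : ℂ) * τ + γ 1 1) ^ (2 : ℤ) = ((γ 1 0 : ℂ) * τ + γ 1 1) ^ 2 := by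
    rw [show (2 : ℤ) = ((2 : ℕ) : ℤ) by norm_num, zpow_natCast]
  rw [e]
  exact h

/-- `(P4)` at level `M`. -/
theorem qCoeff_prodAt_sub_mem {N l M : ℕ} (hN : N ∣ M) (hl : l ∣ M) (f : CuspForm (Gamma1 N) 1)
    (E : ModularForm (Gamma1 l) 1) (A : Subring ℂ) (I : AddSubgroup ℂ)
    (hAI : ∀ x ∈ A, ∀ y ∈ I, x * y ∈ I) (hf : ∀ n, qCoeff f n ∈ A)
    (hE0 : qCoeff E 0 - 1 ∈ I) (hE : ∀ n, 1 ≤ n → qCoeff E n ∈ I) (n : ℕ) :
    qCoeff (prodAt hN hl f E) n - qCoeff f n ∈ I := by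
  rw [qCoeff_prodAt]
  exact cauchy_sub_mem A I hAI (fun n => qCoeff f n) (fun n => qCoeff E n) hf hE0 hE n

/-- `f * E` on `Γ₁(M)` has coefficients in `A` when `f` and `E` do. -/
theorem qCoeff_prodAt_mem {N l M : ℕ} (hN : N ∣ M) (hl : l ∣ M) (f : CuspForm (Gamma1 N) 1)
    (E : ModularForm (Gamma1 l) 1) (A : Subring ℂ) (hf : ∀ n, qCoeff f n ∈ A)
    (hE : ∀ n, qCoeff E n ∈ A) (n : ℕ) : qCoeff (prodAt hN hl f E) n ∈ A := by
  rw [qCoeff_prodAt]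
  exact cauchy_mem A (fun n => qCoeff f n) (fun n => qCoeff E n) hf hE n

/-- `(P5)` at level `M`. -/
theorem prodAt_hecke_congr {N l M : ℕ} (hN : N ∣ M) (hl : l ∣ M) (ε : DirichletCharacter ℂ N)
    (f : CuspForm (Gamma1 N) 1) (E : ModularForm (Gamma1 l) 1)
    (A : Subring ℂ) (I : AddSubgroup ℂ) (hAI : ∀ x ∈ A, ∀ y ∈ I, x * y ∈ I)
    (hf : ∀ n, qCoeff f n ∈ A) (hE0 : qCoeff E 0 - 1 ∈ I) (hE : ∀ n, 1 ≤ n → qCoeff E n ∈ I)
    (p : ℕ) (u : ℂ) (hu : u ∈ A) (hue : u - ε (p : ZMod N) ∈ I)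
    (hT : ∀ n : ℕ, qCoeff f (p * n) + ε (p : ZMod N) * (if p ∣ n then qCoeff f (n / p) else 0) =
      qCoeff f p * qCoeff f n) (n : ℕ) :
    qCoeff (prodAt hN hl f E) (p * n) +
        u * (if p ∣ n then qCoeff (prodAt hN hl f E) (n / p) else 0) -
      qCoeff f p * qCoeff (prodAt hN hl f E) n ∈ I :=
  hecke_congr A I hAI (fun n => qCoeff f n) (fun n => qCoeff (prodAt hN hl f E) n) hf
    (qCoeff_prodAt_sub_mem hN hl f E A I hAI hf hE0 hE) p (ε (p : ZMod N)) u hu hue hT n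

/-! ### Valuation-subring forms

The congruences modulo the maximal ideal `R.nonunits` of a valuation subring `R` of `ℂ` (the
"place" attached to a reduction map `φ : integralClosure ℤ ℂ →+* κ`). -/

/-- The maximal ideal of a valuation subring of `ℂ`, as an additive subgroup of `ℂ`. -/
def nonunitsAddSubgroup (R : ValuationSubring ℂ) : AddSubgroup ℂ where
  carrier := {x | x ∈ R.nonunits}
  add_mem' := by
    intro x y hx hy
    have hx' : R.valuation x < 1 := R.mem_nonunits_iff.mp hx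
    have hy' : R.valuation y < 1 := R.mem_nonunits_iff.mp hy
    exact R.mem_nonunits_iff.mpr (lt_of_le_of_lt (R.valuation.map_add x y) (max_lt hx' hy'))
  zero_mem' := by
    refine R.mem_nonunits_iff.mpr ?_
    rw [map_zero]
    exact zero_lt_one
  neg_mem' := by
    intro x hx
    have hx' : R.valuation x < 1 := R.mem_nonunits_iff.mp hx
    refine R.mem_nonunits_iff.mpr ?_
    rw [Valuation.map_neg]
    exact hx'

lemma mem_nonunitsAddSubgroup (R : ValuationSubring ℂ) (x : ℂ) :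
    x ∈ nonunitsAddSubgroup R ↔ x ∈ R.nonunits := Iff.rfl

lemma mul_mem_nonunitsAddSubgroup (R : ValuationSubring ℂ) :
    ∀ x ∈ R.toSubring, ∀ y ∈ nonunitsAddSubgroup R, x * y ∈ nonunitsAddSubgroup R := by
  intro x hx y hy
  rw [mem_nonunitsAddSubgroup, ValuationSubring.mem_nonunits_iff] at *
  have hx' : R.valuation x ≤ 1 := (R.valuation_le_one_iff x).mpr hx
  rw [map_mul]
  calc R.valuation x * R.valuation y ≤ 1 * R.valuation y := mul_le_mul_left hx' _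
    _ = R.valuation y := one_mul _
    _ < 1 := hy

/-- `(P4)` for a valuation subring: `f * E ≡ f` coefficientwise modulo `𝔪_R`. -/
theorem qCoeff_prodAt_sub_mem_nonunits {N l M : ℕ} (hN : N ∣ M) (hl : l ∣ M)
    (f : CuspForm (Gamma1 N) 1) (E : ModularForm (Gamma1 l) 1) (R : ValuationSubring ℂ)
    (hf : ∀ n, qCoeff f n ∈ R) (hE0 : qCoeff E 0 - 1 ∈ R.nonunits)
    (hE : ∀ n, 1 ≤ n → qCoeff E n ∈ R.nonunits) (n : ℕ) :
    qCoeff (prodAt hN hl f E) n - qCoeff f n ∈ R.nonunits :=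
  qCoeff_prodAt_sub_mem hN hl f E R.toSubring (nonunitsAddSubgroup R)
    (mul_mem_nonunitsAddSubgroup R) hf hE0 hE n

/-- All coefficients of `f * E` lie in `R` (given those of `f`, and `E ≡ 1` mod `𝔪_R`). -/
theorem qCoeff_prodAt_mem_valuationSubring {N l M : ℕ} (hN : N ∣ M) (hl : l ∣ M)
    (f : CuspForm (Gamma1 N) 1) (E : ModularForm (Gamma1 l) 1) (R : ValuationSubring ℂ)
    (hf : ∀ n, qCoeff f n ∈ R) (hE0 : qCoeff E 0 - 1 ∈ R.nonunits)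
    (hE : ∀ n, 1 ≤ n → qCoeff E n ∈ R.nonunits) (n : ℕ) :
    qCoeff (prodAt hN hl f E) n ∈ R := by
  have h := qCoeff_prodAt_sub_mem_nonunits hN hl f E R hf hE0 hE n
  have h1 : qCoeff (prodAt hN hl f E) n - qCoeff f n ∈ R :=
    (ValuationSubring.mem_nonunits_iff_exists_mem_maximalIdeal.mp h).1
  have := R.add_mem _ _ h1 (hf n)
  simpa using this

/-- If `a_1(f) = 1` then `a_1(f * E)` is a unit of `R`: not all coefficients of `f * E` lie in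
`𝔪_R` (the hypothesis `hv` of the lifting lemma). -/
theorem qCoeff_prodAt_one_not_mem_nonunits {N l M : ℕ} (hN : N ∣ M) (hl : l ∣ M)
    (f : CuspForm (Gamma1 N) 1) (E : ModularForm (Gamma1 l) 1) (R : ValuationSubring ℂ)
    (hf : ∀ n, qCoeff f n ∈ R) (hf₁ : qCoeff f 1 = 1) (hE0 : qCoeff E 0 - 1 ∈ R.nonunits)
    (hE : ∀ n, 1 ≤ n → qCoeff E n ∈ R.nonunits) :
    qCoeff (prodAt hN hl f E) 1 ∉ R.nonunits := by
  intro h
  have h1 := qCoeff_prodAt_sub_mem_nonunits hN hl f E R hf hE0 hE 1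
  rw [hf₁] at h1
  have h2 : (1 : ℂ) ∈ nonunitsAddSubgroup R := by
    have := (nonunitsAddSubgroup R).sub_mem h h1
    simpa using this
  rw [mem_nonunitsAddSubgroup, ValuationSubring.mem_nonunits_iff, map_one] at h2
  exact lt_irrefl _ h2

/-- `(P5)` for a valuation subring: the `T_p`-eigen-congruence of `f * E` modulo `𝔪_R`. -/
theorem prodAt_hecke_congr_nonunits {N l M : ℕ} (hN : N ∣ M) (hl : l ∣ M)
    (ε : DirichletCharacter ℂ N) (f : CuspForm (Gamma1 N) 1) (E : ModularForm (Gamma1 l) 1)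
    (R : ValuationSubring ℂ) (hf : ∀ n, qCoeff f n ∈ R) (hE0 : qCoeff E 0 - 1 ∈ R.nonunits)
    (hE : ∀ n, 1 ≤ n → qCoeff E n ∈ R.nonunits)
    (p : ℕ) (u : ℂ) (hu : u ∈ R) (hue : u - ε (p : ZMod N) ∈ R.nonunits)
    (hT : ∀ n : ℕ, qCoeff f (p * n) + ε (p : ZMod N) * (if p ∣ n then qCoeff f (n / p) else 0) =
      qCoeff f p * qCoeff f n) (n : ℕ) :
    qCoeff (prodAt hN hl f E) (p * n) +
        u * (if p ∣ n then qCoeff (prodAt hN hl f E) (n / p) else 0) -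
      qCoeff f p * qCoeff (prodAt hN hl f E) n ∈ R.nonunits :=
  prodAt_hecke_congr hN hl ε f E R.toSubring (nonunitsAddSubgroup R)
    (mul_mem_nonunitsAddSubgroup R) hf hE0 hE p u hu hue hT n

end

end Fermat.Agent.S48.helper7244
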