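import Mathlib

/-!
# S48-TEICH: place from `φ`, Teichmüller character relative to a place, determinant congruence

Inputs of `Stmt_Cong` (S48 Spec, captain helper8231).  Mathlib only; `integralClosure ℤ ℂ` is
the Spec's `Zc`.

* `exists_place_of_ringHom` (T1): a ring hom `φ : Zc →+* κ` into a field of characteristic `ℓ`
  is "the residue map of a place": there is a valuation subring `R` of `ℂ` containing `Zc` with
  `𝔪_R ∩ Zc = ker φ`, and `ℓ ∈ 𝔪_R`.
* `exists_teichmuller` (T2): for a valuation subring `R` of `ℂ` with `ℓ ∈ 𝔪_R` there is a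
  Dirichlet character `ω` mod `ℓ` with `ω(d) ≡ d (mod 𝔪_R)` for all integers `d`.
* `psiChar`, `psiChar_apply_intCast`, `natCast_mul_psiChar_sub_mem_nonunits` (T3): the character
  `ψ = ε · ω⁻¹` mod `B ℓ` and the congruence `p ψ(p) ≡ ε(p) (mod 𝔪_R)`.
* `cong_adapter_det`, `cong_adapter_trace`: the two conjuncts of `Stmt_Cong` in the Spec shape.
-/

set_option autoImplicit false

namespace Fermat.Agent.S48.helper9779

open Polynomial

section Nonunits

variable {K : Type*} [Field K] (R : ValuationSubring K)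

theorem nonunits_add {x y : K} (hx : x ∈ R.nonunits) (hy : y ∈ R.nonunits) :
    x + y ∈ R.nonunits := by
  rw [ValuationSubring.mem_nonunits_iff] at *
  exact Valuation.map_add_lt _ hx hy

theorem nonunits_neg {x : K} (hx : x ∈ R.nonunits) : -x ∈ R.nonunits := by
  rw [ValuationSubring.mem_nonunits_iff] at *
  rwa [Valuation.map_neg]

theorem nonunits_sub {x y : K} (hx : x ∈ R.nonunits) (hy : y ∈ R.nonunits) :
    x - y ∈ R.nonunits := by
  rw [sub_eq_add_neg]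
  exact nonunits_add R hx (nonunits_neg R hy)

theorem nonunits_mul_mem {x y : K} (hx : x ∈ R.nonunits) (hy : y ∈ R) :
    x * y ∈ R.nonunits := by
  rw [ValuationSubring.mem_nonunits_iff] at *
  rw [map_mul]
  exact lt_of_le_of_lt (mul_le_of_le_one_right' ((R.valuation_le_one_iff y).2 hy)) hx

theorem mem_mul_nonunits {x y : K} (hx : x ∈ R) (hy : y ∈ R.nonunits) :
    x * y ∈ R.nonunits := by
  rw [mul_comm]
  exact nonunits_mul_mem R hy hx

theorem zero_mem_nonunits : (0 : K) ∈ R.nonunits := by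
  rw [ValuationSubring.mem_nonunits_iff, map_zero]
  exact zero_lt_one

theorem one_notMem_nonunits : (1 : K) ∉ R.nonunits := by
  rw [ValuationSubring.mem_nonunits_iff, map_one]
  exact lt_irrefl _

/-- A valuation subring contains every element integral over `ℤ`. -/
theorem mem_of_isIntegral_int {x : K} (hx : IsIntegral ℤ x) : x ∈ R := by
  have hRic : IsIntegrallyClosedIn R K :=
    (isIntegrallyClosed_iff_isIntegrallyClosedIn K).1 inferInstance
  have h2 : IsIntegral R x := hx.tower_top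
  obtain ⟨y, hy⟩ := IsIntegrallyClosedIn.algebraMap_eq_of_integral h2
  rw [← hy]
  exact y.2

end Nonunits

section Place

/-- **(T1) Place from `φ`.** A ring homomorphism from the ring of algebraic integers of `ℂ` to a
field of characteristic `ℓ` is induced by a place: a valuation subring `R` of `ℂ` containing all
algebraic integers, whose maximal ideal meets them exactly in `ker φ`; and `ℓ ∈ 𝔪_R`. -/
theorem exists_place_of_ringHom (ℓ : ℕ) (hℓ : ℓ.Prime) {κ : Type*} [Field κ] [CharP κ ℓ]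
    (φ : integralClosure ℤ ℂ →+* κ) :
    ∃ R : ValuationSubring ℂ, (∀ x : integralClosure ℤ ℂ, (x : ℂ) ∈ R) ∧
      (∀ x : integralClosure ℤ ℂ, (x : ℂ) ∈ R.nonunits ↔ φ x = 0) ∧
      ((ℓ : ℕ) : ℂ) ∈ R.nonunits := by
  classical
  let I : Ideal (integralClosure ℤ ℂ) := RingHom.ker φ
  have hIprime : I.IsPrime := RingHom.ker_isPrime φ
  have hcomap : I.comap (algebraMap ℤ (integralClosure ℤ ℂ)) = Ideal.span {(ℓ : ℤ)} := by
    rw [RingHom.comap_ker]
    have h1 : φ.comp (algebraMap ℤ (integralClosure ℤ ℂ)) = algebraMap ℤ κ := RingHom.ext_int _ _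
    rw [h1, CharP.ker_intAlgebraMap_eq_span ℓ]
  have hmaxZ : (Ideal.span {(ℓ : ℤ)}).IsMaximal :=
    PrincipalIdealRing.isMaximal_of_irreducible (Nat.prime_iff_prime_int.1 hℓ).irreducible
  have hImax : I.IsMaximal :=
    Ideal.isMaximal_of_isIntegral_of_isMaximal_comap I (hcomap ▸ hmaxZ)
  obtain ⟨R, hAR, hR⟩ := Ideal.image_subset_nonunits_valuationSubring
    (A := (integralClosure ℤ ℂ).toSubring) I hImax.ne_top
  have hmem : ∀ x : integralClosure ℤ ℂ, (x : ℂ) ∈ R := fun x => hAR x.2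
  have hI : ∀ x : integralClosure ℤ ℂ, x ∈ I → (x : ℂ) ∈ R.nonunits := fun x hx =>
    hR ⟨x, hx, rfl⟩
  refine ⟨R, hmem, fun x => ⟨fun hx => ?_, fun hx => hI x hx⟩, ?_⟩
  · by_contra hφ
    have hxI : x ∉ I := hφ
    obtain ⟨y, i, hi, hyx⟩ := hImax.exists_inv hxI
    have h1 : ((y : ℂ) * (x : ℂ) + (i : ℂ)) = 1 := by
      have := congrArg (fun z : integralClosure ℤ ℂ => (z : ℂ)) hyx
      simpa using this
    have h2 : (y : ℂ) * (x : ℂ) + (i : ℂ) ∈ R.nonunits :=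
      nonunits_add R (mem_mul_nonunits R (hmem y) hx) (hI i hi)
    rw [h1] at h2
    exact one_notMem_nonunits R h2
  · have h1 : ((ℓ : ℕ) : integralClosure ℤ ℂ) ∈ I := by
      show φ ((ℓ : ℕ) : integralClosure ℤ ℂ) = 0
      rw [map_natCast]
      exact CharP.cast_eq_zero κ ℓ
    have h2 := hI _ h1
    simpa using h2

/-- Equality of reductions from a congruence at the place. -/
theorem phi_eq_of_sub_mem_nonunits (R : ValuationSubring ℂ) {κ : Type*} [Field κ]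
    (φ : integralClosure ℤ ℂ →+* κ)
    (hR : ∀ x : integralClosure ℤ ℂ, (x : ℂ) ∈ R.nonunits ↔ φ x = 0)
    (x y : integralClosure ℤ ℂ) (h : (x : ℂ) - (y : ℂ) ∈ R.nonunits) : φ x = φ y := by
  have h1 : φ (x - y) = 0 := (hR (x - y)).1 (by simpa using h)
  rw [map_sub, sub_eq_zero] at h1
  exact h1

end Place

section Teichmuller

variable (R : ValuationSubring ℂ)

/-- For an integer `c` prime to `ℓ` there is an `(ℓ-1)`-th root of unity congruent to `c` at the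
place. -/
theorem exists_root_of_unity_congr (ℓ : ℕ) (hℓ : ℓ.Prime) (hℓR : ((ℓ : ℕ) : ℂ) ∈ R.nonunits)
    (c : ℤ) (hc : ¬ (ℓ : ℤ) ∣ c) :
    ∃ η : ℂ, η ^ (ℓ - 1) = 1 ∧ η - (c : ℂ) ∈ R.nonunits := by
  classical
  have hn : 0 < ℓ - 1 := Nat.sub_pos_of_lt hℓ.one_lt
  have hprim := Complex.isPrimitiveRoot_exp (ℓ - 1) hn.ne'
  have hfac := X_pow_sub_one_eq_prod hn hprim
  have heval : (c : ℂ) ^ (ℓ - 1) - 1 = ∏ η ∈ nthRootsFinset (ℓ - 1) (1 : ℂ), ((c : ℂ) - η) := by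
    have := congrArg (Polynomial.eval (c : ℂ)) hfac
    simpa [Polynomial.eval_prod] using this
  -- the left side is divisible by `ℓ`
  have hcop : IsCoprime c (ℓ : ℤ) := by
    rw [Int.isCoprime_iff_gcd_eq_one]
    have h1 := (Nat.prime_iff_prime_int.1 hℓ)
    rcases Nat.Prime.eq_one_or_self_of_dvd hℓ _ (Int.gcd_dvd_natAbs_right c ℓ) with h | h  
    · exact h
    · exfalso
      apply hc
      have h2 : ((Int.gcd c ℓ : ℕ) : ℤ) ∣ c := Int.gcd_dvd_left c ℓ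
      rw [h] at h2
      simpa using h2
  have hdvd : (ℓ : ℤ) ∣ c ^ (ℓ - 1) - 1 :=
    (Int.modEq_iff_dvd.1 (Int.ModEq.pow_card_sub_one_eq_one hℓ hcop).symm)
  obtain ⟨m, hm⟩ := hdvd
  have hlhs : (c : ℂ) ^ (ℓ - 1) - 1 ∈ R.nonunits := by
    have h1 : (c : ℂ) ^ (ℓ - 1) - 1 = ((ℓ : ℕ) : ℂ) * (m : ℂ) := by
      have := congrArg (Int.cast : ℤ → ℂ) hm
      push_cast at this
      exact this
    rw [h1]
    exact nonunits_mul_mem R hℓR (intCast_mem R m)
  by_contra hcon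
  push Not at hcon
  -- every factor is a unit of `R`
  have hval : ∀ η ∈ nthRootsFinset (ℓ - 1) (1 : ℂ), R.valuation ((c : ℂ) - η) = 1 := by
    intro η hη
    have hη1 : η ^ (ℓ - 1) = 1 := (mem_nthRootsFinset hn 1).1 hη
    have hηR : η ∈ R := mem_of_isIntegral_int R (IsIntegral.of_pow hn (hη1 ▸ isIntegral_one))
    have hmemR : (c : ℂ) - η ∈ R := sub_mem (intCast_mem R c) hηR
    have hnot : (c : ℂ) - η ∉ R.nonunits := by
      intro h
      apply hcon η hη1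
      have : η - (c : ℂ) = -((c : ℂ) - η) := by ring
      rw [this]
      exact nonunits_neg R h
    rw [ValuationSubring.mem_nonunits_iff] at hnot
    exact le_antisymm ((R.valuation_le_one_iff _).2 hmemR) (not_lt.1 hnot)
  rw [heval, ValuationSubring.mem_nonunits_iff, map_prod, Finset.prod_congr rfl hval,
    Finset.prod_const_one] at hlhs
  exact lt_irrefl _ hlhs

/-- **(T2) Teichmüller character relative to a place.** -/
theorem exists_teichmuller (ℓ : ℕ) (hℓ : ℓ.Prime) (hℓR : ((ℓ : ℕ) : ℂ) ∈ R.nonunits) :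
    ∃ ω : DirichletCharacter ℂ ℓ, ∀ d : ℤ, ω ((d : ℤ) : ZMod ℓ) - (d : ℂ) ∈ R.nonunits := by
  classical
  have : Fact ℓ.Prime := ⟨hℓ⟩
  obtain ⟨γ, hγ⟩ := IsCyclic.exists_generator (α := (ZMod ℓ)ˣ)
  let c : ℤ := (((γ : ZMod ℓ).val : ℕ) : ℤ)
  have hcγ : ((c : ℤ) : ZMod ℓ) = (γ : ZMod ℓ) := by
    simp only [c, Int.cast_natCast, ZMod.natCast_zmod_val]
  have hc : ¬ (ℓ : ℤ) ∣ c := by
    rw [← ZMod.intCast_zmod_eq_zero_iff_dvd, hcγ]
    exact γ.ne_zero
  obtain ⟨η, hη1, hηc⟩ := exists_root_of_unity_congr R ℓ hℓ hℓR c hc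
  have hn : 0 < ℓ - 1 := Nat.sub_pos_of_lt hℓ.one_lt
  have hη0 : η ≠ 0 := by
    intro h0
    rw [h0, zero_pow hn.ne'] at hη1
    exact zero_ne_one hη1
  have hηR : η ∈ R := mem_of_isIntegral_int R (IsIntegral.of_pow hn (hη1 ▸ isIntegral_one))
  let ηu : ℂˣ := Units.mk0 η hη0
  have hηu : ηu ^ (ℓ - 1) = 1 := Units.ext (by simpa [ηu] using hη1)
  have hord : orderOf ηu ∣ orderOf γ := by
    rw [orderOf_eq_card_of_forall_mem_zpowers hγ, Nat.card_eq_fintype_card, ZMod.card_units]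
    exact orderOf_dvd_of_pow_eq_one hηu
  let f : (ZMod ℓ)ˣ →* ℂˣ := monoidHomOfForallMemZpowers hγ hord
  have hfγ : f γ = ηu := monoidHomOfForallMemZpowers_apply_gen hγ hord
  refine ⟨MulChar.ofUnitHom f, fun d => ?_⟩
  by_cases hd : (ℓ : ℤ) ∣ d
  · have h0 : ((d : ℤ) : ZMod ℓ) = 0 := (ZMod.intCast_zmod_eq_zero_iff_dvd d ℓ).2 hd
    rw [h0, MulChar.map_nonunit _ not_isUnit_zero, zero_sub]
    obtain ⟨m, rfl⟩ := hd
    apply nonunits_neg
    push_cast
    exact nonunits_mul_mem R hℓR (intCast_mem R m)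
  · have hdu : IsUnit ((d : ℤ) : ZMod ℓ) := by
      rw [isUnit_iff_ne_zero]
      intro h0
      exact hd ((ZMod.intCast_zmod_eq_zero_iff_dvd d ℓ).1 h0)
    obtain ⟨u, hu⟩ := hdu
    obtain ⟨k, hk⟩ : ∃ k : ℕ, γ ^ k = u :=
      (Submonoid.mem_powers_iff u γ).1 (mem_powers_iff_mem_zpowers.2 (hγ u))
    have hω : MulChar.ofUnitHom f ((d : ℤ) : ZMod ℓ) = η ^ k := by
      rw [← hu, MulChar.ofUnitHom_coe, ← hk, map_pow, hfγ]
      simp [ηu]
    rw [hω]
    have hdc : (ℓ : ℤ) ∣ d - c ^ k := by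
      rw [← ZMod.intCast_zmod_eq_zero_iff_dvd]
      push_cast
      rw [hcγ, ← hu, ← hk]
      simp
    obtain ⟨m, hm⟩ := hdc
    have h1 : η ^ k - (c : ℂ) ^ k ∈ R.nonunits := by
      rw [← geom_sum₂_mul]
      refine mem_mul_nonunits R (sum_mem fun i _ => ?_) hηc
      exact mul_mem (pow_mem hηR _) (pow_mem (intCast_mem R c) _)
    have h2 : (c : ℂ) ^ k - (d : ℂ) ∈ R.nonunits := by
      have h3 : (c : ℂ) ^ k - (d : ℂ) = -(((ℓ : ℕ) : ℂ) * (m : ℂ)) := by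
        have := congrArg (Int.cast : ℤ → ℂ) hm
        push_cast at this
        linear_combination -this
      rw [h3]
      exact nonunits_neg R (nonunits_mul_mem R hℓR (intCast_mem R m))
    have h4 : η ^ k - (d : ℂ) = (η ^ k - (c : ℂ) ^ k) + ((c : ℂ) ^ k - (d : ℂ)) := by ring
    rw [h4]
    exact nonunits_add R h1 h2

end Teichmuller

section Psi

/-- Values of a multiplicative character of `ZMod n` are integral over `ℤ`. -/
theorem isIntegral_mulChar_zmod {n : ℕ} [NeZero n] (χ : MulChar (ZMod n) ℂ) (x : ZMod n) :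
    IsIntegral ℤ (χ x) := by
  by_cases hx : IsUnit x
  · obtain ⟨u, rfl⟩ := hx
    have h1 : χ (u : ZMod n) ^ (Fintype.card (ZMod n)ˣ) = 1 := by
      rw [← map_pow, ← Units.val_pow_eq_pow_val, pow_card_eq_one, Units.val_one, map_one]
    exact IsIntegral.of_pow Fintype.card_pos (h1 ▸ isIntegral_one)
  · rw [MulChar.map_nonunit χ hx]
    exact isIntegral_zero

/-- The weight-two nebentypus `ψ = ε · ω⁻¹` as a Dirichlet character modulo `B * ℓ` (`N ∣ B`). -/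
noncomputable def psiChar {N B ℓ : ℕ} (hNB : N ∣ B) (ε : DirichletCharacter ℂ N)
    (ω : DirichletCharacter ℂ ℓ) : DirichletCharacter ℂ (B * ℓ) :=
  DirichletCharacter.changeLevel (dvd_mul_of_dvd_left hNB ℓ) ε *
    DirichletCharacter.changeLevel (dvd_mul_left ℓ B) ω⁻¹

/-- `ψ(d) = ε(d) ω(d)⁻¹` at integers `d` which are units modulo `B ℓ`. -/
theorem psiChar_apply_intCast {N B ℓ : ℕ} (hNB : N ∣ B) (ε : DirichletCharacter ℂ N)
    (ω : DirichletCharacter ℂ ℓ) (d : ℤ) (hd : IsUnit ((d : ℤ) : ZMod (B * ℓ))) :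
    psiChar hNB ε ω ((d : ℤ) : ZMod (B * ℓ)) =
      ε ((d : ℤ) : ZMod N) * (ω ((d : ℤ) : ZMod ℓ))⁻¹ := by
  obtain ⟨u, hu⟩ := hd
  rw [psiChar, MulChar.mul_apply, ← hu, DirichletCharacter.changeLevel_eq_cast_of_dvd,
    DirichletCharacter.changeLevel_eq_cast_of_dvd, hu,
    ZMod.cast_intCast (dvd_mul_of_dvd_left hNB ℓ), ZMod.cast_intCast (dvd_mul_left ℓ B),
    MulChar.inv_apply_eq_inv']

/-- `ψ(p) = ε(p) ω(p)⁻¹` at natural numbers prime to `B ℓ`. -/
theorem psiChar_apply_natCast {N B ℓ : ℕ} (hNB : N ∣ B) (ε : DirichletCharacter ℂ N)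
    (ω : DirichletCharacter ℂ ℓ) (p : ℕ) (hp : p.Coprime (B * ℓ)) :
    psiChar hNB ε ω ((p : ℕ) : ZMod (B * ℓ)) =
      ε ((p : ℕ) : ZMod N) * (ω ((p : ℕ) : ZMod ℓ))⁻¹ := by
  have h := psiChar_apply_intCast hNB ε ω (p : ℤ)
    (by
      rw [Int.cast_natCast]
      exact (ZMod.isUnit_iff_coprime p (B * ℓ)).2 hp)
  simpa using h

/-- **(T3) determinant congruence** `p ψ(p) ≡ ε(p)` at the place, for `p` prime to `B ℓ`. -/
theorem natCast_mul_psiChar_sub_mem_nonunits (R : ValuationSubring ℂ) {N B ℓ : ℕ} [NeZero N]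
    (hℓ : ℓ.Prime) (hNB : N ∣ B) (ε : DirichletCharacter ℂ N) (ω : DirichletCharacter ℂ ℓ)
    (hω : ∀ d : ℤ, ω ((d : ℤ) : ZMod ℓ) - (d : ℂ) ∈ R.nonunits)
    (p : ℕ) (hp : p.Coprime (B * ℓ)) :
    (p : ℂ) * psiChar hNB ε ω ((p : ℕ) : ZMod (B * ℓ)) - ε ((p : ℕ) : ZMod N) ∈ R.nonunits := by
  have : NeZero ℓ := ⟨hℓ.ne_zero⟩
  rw [psiChar_apply_natCast hNB ε ω p hp]
  have hpℓ : p.Coprime ℓ := Nat.Coprime.coprime_dvd_right (dvd_mul_left ℓ B) hp
  have hu : IsUnit ((p : ℕ) : ZMod ℓ) := (ZMod.isUnit_iff_coprime p ℓ).2 hpℓ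
  have hω0 : ω ((p : ℕ) : ZMod ℓ) ≠ 0 := (hu.map ω).ne_zero
  have h1 : (p : ℂ) * (ε ((p : ℕ) : ZMod N) * (ω ((p : ℕ) : ZMod ℓ))⁻¹) - ε ((p : ℕ) : ZMod N) =
      (ε ((p : ℕ) : ZMod N) * (ω ((p : ℕ) : ZMod ℓ))⁻¹) * ((p : ℂ) - ω ((p : ℕ) : ZMod ℓ)) := by
    field_simp
  rw [h1]
  have hεR : ε ((p : ℕ) : ZMod N) ∈ R := mem_of_isIntegral_int R (isIntegral_mulChar_zmod ε _)
  have hωR : (ω ((p : ℕ) : ZMod ℓ))⁻¹ ∈ R := by
    rw [← MulChar.inv_apply_eq_inv']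
    exact mem_of_isIntegral_int R (isIntegral_mulChar_zmod ω⁻¹ _)
  have h2 : (p : ℂ) - ω ((p : ℕ) : ZMod ℓ) ∈ R.nonunits := by
    have h3 := nonunits_neg R (hω (p : ℤ))
    have h4 : -(ω (((p : ℕ) : ℤ) : ZMod ℓ) - (((p : ℕ) : ℤ) : ℂ)) =
        (p : ℂ) - ω ((p : ℕ) : ZMod ℓ) := by
      push_cast
      ring
    rw [h4] at h3
    exact h3
  exact mem_mul_nonunits R (mul_mem hεR hωR) h2

/-- Second conjunct of `Stmt_Cong` (Spec shape): `p ψ(p)` reduces to `ε(p)` under `φ`. -/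
theorem cong_adapter_det (R : ValuationSubring ℂ) {κ : Type*} [Field κ]
    (φ : integralClosure ℤ ℂ →+* κ)
    (hR : ∀ x : integralClosure ℤ ℂ, (x : ℂ) ∈ R.nonunits ↔ φ x = 0)
    {N B ℓ : ℕ} [NeZero N] (hℓ : ℓ.Prime) (hNB : N ∣ B) (ε : DirichletCharacter ℂ N)
    (ω : DirichletCharacter ℂ ℓ)
    (hω : ∀ d : ℤ, ω ((d : ℤ) : ZMod ℓ) - (d : ℂ) ∈ R.nonunits)
    (p : ℕ) (hp : p.Coprime (B * ℓ)) :
    ∀ δ' : integralClosure ℤ ℂ,
      (δ' : ℂ) = (p : ℂ) * psiChar hNB ε ω ((p : ℕ) : ZMod (B * ℓ)) →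
      ∃ δ : integralClosure ℤ ℂ, (δ : ℂ) = ε ((p : ℕ) : ZMod N) ∧ φ δ' = φ δ := by
  intro δ' hδ'
  refine ⟨⟨ε ((p : ℕ) : ZMod N), isIntegral_mulChar_zmod ε _⟩, rfl, ?_⟩
  apply phi_eq_of_sub_mem_nonunits R φ hR
  rw [hδ']
  exact natCast_mul_psiChar_sub_mem_nonunits R hℓ hNB ε ω hω p hp

/-- First conjunct of `Stmt_Cong` (Spec shape): a congruence `b ≡ a` at the place, `a` an
algebraic integer, gives equality of reductions for every algebraic-integer representative of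
`b`. -/
theorem cong_adapter_trace (R : ValuationSubring ℂ) {κ : Type*} [Field κ]
    (φ : integralClosure ℤ ℂ →+* κ)
    (hR : ∀ x : integralClosure ℤ ℂ, (x : ℂ) ∈ R.nonunits ↔ φ x = 0)
    (a b : ℂ) (ha : IsIntegral ℤ a) (hba : b - a ∈ R.nonunits) :
    ∀ t' : integralClosure ℤ ℂ, (t' : ℂ) = b →
      ∃ t : integralClosure ℤ ℂ, (t : ℂ) = a ∧ φ t' = φ t := by
  intro t' ht'
  refine ⟨⟨a, ha⟩, rfl, ?_⟩
  apply phi_eq_of_sub_mem_nonunits R φ hR
  rw [ht']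
  exact hba

end Psi

end Fermat.Agent.S48.helper9779
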