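import Mathlib
import Fermat.Prelude.Def_FLTPrelim_Modularity
import Fermat.Agent.S48.helper6779_EisOneAlg

/-!
# S48-F2 (wiring): the weight-one Eisenstein series `E ≡ 1 mod λ` on `Γ₁(l)`

This file wires leaf F2 of the Deligne–Serre route: from ONE analytic leaf `Stmt_EisW l`
(the family `W d`, `d ∈ (ℤ/l)ˣ`, of weight-one modular forms on `Γ₁(l)` whose `q`-expansions are
the formal quotients `wpDerSer (ζ^d) / (wpSer (ζ^d) - wpSer (ζ^(2d)))`, permuted by the diamond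
operators) and the formal core `helper6779.exists_eisenstein_congr` it produces

* `exists_eisOne_of_subring` : for a subring `O ⊆ ℂ` containing `ζ_l`, an ideal `lam ∋ 1 - ζ_l`
  and a Dirichlet character `ω` mod `l` with values in `O` and `ω d ≡ d mod lam`, a modular form
  `E` of weight one on `Γ₁(l)` with nebentypus `ω⁻¹`, `q`-coefficients in `O`, constant
  coefficient `≡ 1` and all higher coefficients `≡ 0` modulo `lam`;
* `exists_eisOne` : the same for a valuation subring `R` of `ℂ` with `l ∈ 𝔪_R`.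
-/

set_option autoImplicit false

open CongruenceSubgroup UpperHalfPlane
open scoped MatrixGroups ModularForm

namespace Fermat.Agent.S48.helper9793

open Fermat.Agent.S48.helper6779 (wpSer wpDerSer eisConst RootPair piO)

/-- `ζ_l = exp(2πi/l)` -/
noncomputable def zetaL (l : ℕ) : ℂ := Complex.exp (2 * Real.pi * Complex.I / l)

theorem zetaL_isPrimitiveRoot {l : ℕ} (hl : l ≠ 0) : IsPrimitiveRoot (zetaL l) l :=
  Complex.isPrimitiveRoot_exp l hl

/-- **The analytic leaf of F2.**  A family `W d` (`d ∈ (ℤ/l)ˣ`) of weight-one modular forms on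
`Γ₁(l)` with `W d ∣ γ = W (d * d_γ)` for `γ ∈ Γ₀(l)` and with `q`-expansion the formal quotient
`wpDerSer (ζ^d) / (wpSer (ζ^d) - wpSer (ζ^(2d)))`
(analytically `W d = (2πi)⁻¹ ℘'(d/l) / (℘(d/l) - ℘(2d/l))` for the lattice `ℤ + ℤτ`). -/
def Stmt_EisW (l : ℕ) : Prop :=
  ∃ W : (ZMod l)ˣ → ModularForm (Gamma1 l) 1,
    (∀ (d e : (ZMod l)ˣ) (γ : SL(2, ℤ)), γ ∈ Gamma0 l → ((γ 1 1 : ℤ) : ZMod l) = e →
        (⇑(W d) : ℍ → ℂ) ∣[(1 : ℤ)] γ = ⇑(W (d * e))) ∧
    (∀ d : (ZMod l)ˣ, qExpansion 1 (W d) *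
        (wpSer (zetaL l ^ (d : ZMod l).val) - wpSer ((zetaL l ^ 2) ^ (d : ZMod l).val)) =
          wpDerSer (zetaL l ^ (d : ZMod l).val))

theorem rootPair_zetaL {l : ℕ} (hl : l.Prime) (hl5 : 5 ≤ l) :
    RootPair l (zetaL l) (zetaL l ^ 2) := by
  have hne : ∀ k : ℕ, 0 < k → k < l → ((k : ℕ) : ZMod l) ≠ 0 := by
    intro k hk0 hkl h
    rw [ZMod.natCast_eq_zero_iff] at h
    exact absurd (Nat.le_of_dvd hk0 h) (not_le.2 hkl)
  have h := Fermat.Agent.S48.helper6779.rootPair_pow_pow hl (zetaL_isPrimitiveRoot hl.ne_zero)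
    (a := 1) (b := 2) (hne 1 (by norm_num) (by omega)) (hne 2 (by norm_num) (by omega)) ?_ ?_
  · simpa using h
  · intro h12
    have h1 : ((1 : ℕ) : ZMod l) = 0 := by
      have : ((2 : ℕ) : ZMod l) = ((1 : ℕ) : ZMod l) + ((1 : ℕ) : ZMod l) := by push_cast; ring
      rw [this] at h12
      exact left_eq_add.1 h12
    exact hne 1 (by norm_num) (by omega) h1
  · have := hne 3 (by norm_num) (by omega)
    intro h3
    apply this
    rw [← h3]; push_cast; ring

/-- The lower right entry of an element of `Γ₀(l)` is a unit mod `l`. -/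
theorem exists_unit_of_mem_Gamma0 {l : ℕ} (γ : SL(2, ℤ)) (hγ : γ ∈ Gamma0 l) :
    ∃ e : (ZMod l)ˣ, ((γ 1 1 : ℤ) : ZMod l) = e := by
  have hdet : γ 0 0 * γ 1 1 - γ 0 1 * γ 1 0 = 1 := by
    have := γ.det_coe
    rw [Matrix.det_fin_two] at this
    exact this
  have h10 : ((γ 1 0 : ℤ) : ZMod l) = 0 := Gamma0_mem.1 hγ
  have h := congrArg (Int.cast : ℤ → ZMod l) hdet
  push_cast at h
  rw [h10, mul_zero, sub_zero] at h
  exact ⟨Units.mkOfMulEqOne _ _ (by rw [mul_comm]; exact h), rfl⟩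

theorem one_mem_strictPeriods_Gamma1 (l : ℕ) :
    (1 : ℝ) ∈ (Gamma1 l : Subgroup (GL (Fin 2) ℝ)).strictPeriods := by simp

/-- **F2, subring form** (uniform: the form `E` depends only on `ω`, not on the ring `O` and
the ideal `lam`).  For every subring `O ⊆ ℂ` containing `ζ_l` and the values of `ω`, and every
ideal `lam` of `O` containing `1 - ζ_l` and all `ω d - d`, the `q`-expansion of `E` has
coefficients in `O`, constant coefficient `≡ 1` and higher coefficients `≡ 0` modulo `lam`. -/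
theorem exists_eisOne_of_subring {l : ℕ} [hl : Fact l.Prime] (hl5 : 5 ≤ l) (hW : Stmt_EisW l)
    (ω : DirichletCharacter ℂ l) :
    ∃ E : ModularForm (Gamma1 l) 1,
      (∀ γ : SL(2, ℤ), γ ∈ Gamma0 l →
        (⇑E : ℍ → ℂ) ∣[(1 : ℤ)] γ = (ω⁻¹ ((γ 1 1 : ℤ) : ZMod l)) • (⇑E : ℍ → ℂ)) ∧
      ∀ (O : Subring ℂ) (hζO : zetaL l ∈ O) (lam : Ideal O)
        (_ : (⟨1 - zetaL l, O.sub_mem O.one_mem hζO⟩ : O) ∈ lam)
        (hωO : ∀ d : (ZMod l)ˣ, ω (d : ZMod l) ∈ O)
        (_ : ∀ d : (ZMod l)ˣ,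
          (⟨ω (d : ZMod l), hωO d⟩ : O) - (((d : ZMod l).val : ℕ) : O) ∈ lam),
        ∃ F : PowerSeries O, (∀ n, ModularFormClass.qCoeff E n = ((PowerSeries.coeff n F : O) : ℂ)) ∧
          PowerSeries.constantCoeff F - 1 ∈ lam ∧ ∀ n, n ≠ 0 → PowerSeries.coeff n F ∈ lam := by
  obtain ⟨W, hdiam, hq⟩ := hW
  have hζ := zetaL_isPrimitiveRoot hl.out.ne_zero
  have hRP := rootPair_zetaL hl.out hl5
  set c : ℂ := eisConst (zetaL l) (zetaL l ^ 2) with hc
  refine ⟨-∑ d : (ZMod l)ˣ, (ω (d : ZMod l) / c) • W d, ?_, ?_⟩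
  · intro γ hγ
    obtain ⟨e, he⟩ := exists_unit_of_mem_Gamma0 γ hγ
    have hcoe : (⇑(-∑ d : (ZMod l)ˣ, (ω (d : ZMod l) / c) • W d) : ℍ → ℂ) =
        -∑ d : (ZMod l)ˣ, (ω (d : ZMod l) / c) • (⇑(W d) : ℍ → ℂ) := by
      ext τ
      simp
    rw [hcoe, SlashAction.neg_slash, SlashAction.sum_slash, smul_neg, Finset.smul_sum]
    congr 1
    have h1 : ∀ d : (ZMod l)ˣ, ((ω (d : ZMod l) / c) • (⇑(W d) : ℍ → ℂ)) ∣[(1 : ℤ)] γ =
        (ω (d : ZMod l) / c) • (⇑(W (d * e)) : ℍ → ℂ) := by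
      intro d
      rw [ModularForm.SL_smul_slash, hdiam d e γ hγ he]
    simp only [h1]
    refine Fintype.sum_equiv (Equiv.mulRight e) _ _ ?_
    intro d
    simp only [Equiv.coe_mulRight, smul_smul]
    congr 1
    rw [he, MulChar.inv_apply_eq_inv', Units.val_mul, map_mul]
    have hne : ω (e : ZMod l) ≠ 0 := (IsUnit.map ω e.isUnit).ne_zero
    field_simp
  · intro O hζO lam hπ hωO hω
    obtain ⟨F, hF, hF0, hFn⟩ := Fermat.Agent.S48.helper6779.exists_eisenstein_congr O hζ hζO hRP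
      lam hπ (fun d => ⟨ω (d : ZMod l), hωO d⟩) hω (fun d => qExpansion 1 (W d)) hq
    refine ⟨F, ?_, hF0, hFn⟩
    intro n
    have hΓ := one_mem_strictPeriods_Gamma1 l
    have hqE : qExpansion 1 (⇑(-∑ d : (ZMod l)ˣ, (ω (d : ZMod l) / c) • W d) : ℍ → ℂ) =
        -∑ d : (ZMod l)ˣ, PowerSeries.C (ω (d : ZMod l) / c) * qExpansion 1 (W d) := by
      have h2 := map_neg (ModularForm.qExpansionAddHom (h := 1) one_pos hΓ 1)
        (∑ d : (ZMod l)ˣ, (ω (d : ZMod l) / c) • W d)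
      rw [map_sum] at h2
      have h3 : ∀ d : (ZMod l)ˣ, (ModularForm.qExpansionAddHom (h := 1) one_pos hΓ 1)
          ((ω (d : ZMod l) / c) • W d) =
            PowerSeries.C (ω (d : ZMod l) / c) * qExpansion 1 (W d) := by
        intro d
        rw [← PowerSeries.smul_eq_C_mul]
        exact ModularForm.qExpansion_smul one_pos hΓ _ (W d)
      simp only [h3] at h2
      exact h2
    unfold ModularFormClass.qCoeff
    rw [hqE, ← hF, PowerSeries.coeff_map]
    rfl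

/-! ### The valuation-subring form -/

section Valuation

variable (R : ValuationSubring ℂ)

/-- The ideal `𝔪_R ∩ O` of a subring `O ⊆ R` of a valuation subring `R` of `ℂ`. -/
def nonunitIdealOf (O : Subring ℂ) (hO : O ≤ R.toSubring) : Ideal O where
  carrier := {x | (x : ℂ) ∈ R.nonunits}
  add_mem' := by
    intro a b ha hb
    simp only [Set.mem_ofPred_eq, ValuationSubring.mem_nonunits_iff] at ha hb ⊢
    rw [Subring.coe_add]
    exact (R.valuation.map_add _ _).trans_lt (max_lt ha hb)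
  zero_mem' := by
    simp only [Set.mem_ofPred_eq, ValuationSubring.mem_nonunits_iff, ZeroMemClass.coe_zero,
      map_zero]
    exact zero_lt_one
  smul_mem' := by
    intro a x hx
    simp only [Set.mem_ofPred_eq, ValuationSubring.mem_nonunits_iff, smul_eq_mul] at hx ⊢
    rw [Subring.coe_mul, map_mul]
    have ha : R.valuation (a : ℂ) ≤ 1 := (R.valuation_le_one_iff _).2 (hO a.2)
    calc R.valuation (a : ℂ) * R.valuation (x : ℂ) ≤ 1 * R.valuation (x : ℂ) :=
          mul_le_mul' ha le_rfl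
      _ = R.valuation (x : ℂ) := one_mul _
      _ < 1 := hx

theorem mem_nonunitIdealOf_iff (O : Subring ℂ) (hO : O ≤ R.toSubring) (x : O) :
    x ∈ nonunitIdealOf R O hO ↔ (x : ℂ) ∈ R.nonunits := Iff.rfl

/-- A root of unity lies in every valuation subring. -/
theorem mem_of_pow_eq_one {x : ℂ} {n : ℕ} (hn : n ≠ 0) (hx : x ^ n = 1) : x ∈ R := by
  rcases R.mem_or_inv_mem x with h | h
  · exact h
  · have hx0 : x ≠ 0 := by
      rintro rfl
      rw [zero_pow hn] at hx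
      exact zero_ne_one hx
    have h1 : x = x⁻¹ ^ (n - 1) := by
      have h2 : x ^ (n - 1) * x = 1 := by
        rw [← pow_succ, Nat.sub_add_cancel (Nat.one_le_iff_ne_zero.2 hn)]; exact hx
      rw [inv_pow, eq_inv_of_mul_eq_one_left h2, inv_inv]
    rw [h1]
    exact pow_mem h _

theorem one_sub_zetaL_mem_nonunits {l : ℕ} (hl : l.Prime) (hlR : (l : ℂ) ∈ R.nonunits) :
    1 - zetaL l ∈ R.nonunits := by
  have hζ := zetaL_isPrimitiveRoot hl.ne_zero
  have hζR : zetaL l ∈ R.toSubring := mem_of_pow_eq_one R hl.ne_zero hζ.pow_eq_one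
  rw [ValuationSubring.mem_nonunits_iff] at hlR ⊢
  have hle : ∀ x : ℂ, x ∈ R.toSubring → R.valuation x ≤ 1 := fun x hx =>
    (R.valuation_le_one_iff x).2 hx
  by_contra hcon
  have h1 : R.valuation (1 - zetaL l) = 1 :=
    le_antisymm (hle _ (R.toSubring.sub_mem R.toSubring.one_mem hζR)) (not_lt.1 hcon)
  have hk : ∀ k ∈ Finset.range (l - 1), R.valuation (1 - zetaL l ^ (k + 1)) = 1 := by
    intro k hk
    have hkl : k + 1 < l := by
      have := Finset.mem_range.1 hk; omega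
    have hw : (zetaL l ^ (k + 1)) ^ l = 1 := by
      rw [← pow_mul, mul_comm, pow_mul, hζ.pow_eq_one, one_pow]
    have hw1 : zetaL l ^ (k + 1) ≠ 1 := by
      intro h
      have := (hζ.pow_eq_one_iff_dvd (k + 1)).1 h
      exact absurd (Nat.le_of_dvd (Nat.succ_pos k) this) (not_le.2 hkl)
    have e1 := Fermat.Agent.S48.helper6779.one_sub_eq hl hζ (zetaL l ^ (k + 1))
    have hc1 := hle _ (Fermat.Agent.S48.helper6779.cq_mem R.toSubring hl hζ hζR hw)
    have hc2 := hle _ (Fermat.Agent.S48.helper6779.cq_inv_mem R.toSubring hl hζ hζR hw hw1)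
    have hc0 := Fermat.Agent.S48.helper6779.cq_ne_zero (ζ := zetaL l) hl hζ hw1
    have hc3 : R.valuation (Fermat.Agent.S48.helper6779.cq (zetaL l) (zetaL l ^ (k + 1))) *
        R.valuation (Fermat.Agent.S48.helper6779.cq (zetaL l) (zetaL l ^ (k + 1)))⁻¹ = 1 := by
      rw [← map_mul, mul_inv_cancel₀ hc0, map_one]
    have hc4 : R.valuation (Fermat.Agent.S48.helper6779.cq (zetaL l) (zetaL l ^ (k + 1))) = 1 := by
      refine le_antisymm hc1 ?_
      calc (1 : R.ValueGroup) = _ := hc3.symm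
        _ ≤ R.valuation (Fermat.Agent.S48.helper6779.cq (zetaL l) (zetaL l ^ (k + 1))) * 1 :=
            mul_le_mul' le_rfl hc2
        _ = _ := mul_one _
    rw [e1, map_mul, h1, hc4, one_mul]
  have hprod : ∏ k ∈ Finset.range (l - 1), (1 - zetaL l ^ (k + 1)) = (l : ℂ) := by
    have hl1 : l - 1 + 1 = l := Nat.sub_add_cancel hl.one_le
    have hζ' : IsPrimitiveRoot (zetaL l) (l - 1 + 1) := by rw [hl1]; exact hζ
    have := hζ'.prod_one_sub_pow_eq_order
    rw [this]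
    have : ((l - 1 : ℕ) : ℂ) + 1 = ((l - 1 + 1 : ℕ) : ℂ) := by push_cast; ring
    rw [this, hl1]
  have hv : R.valuation (l : ℂ) = 1 := by
    rw [← hprod, map_prod]
    exact Finset.prod_eq_one hk
  rw [hv] at hlR
  exact lt_irrefl _ hlR

end Valuation

/-! ### The coefficient ring -/

/-- The ring `ℤ[ζ_l, ω]` generated by `ζ_l` and the values of `ω`: a finitely generated
`ℤ`-module containing all `q`-coefficients of the Eisenstein series. -/
noncomputable def eisRing (l : ℕ) (ω : DirichletCharacter ℂ l) : Subalgebra ℤ ℂ :=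
  Algebra.adjoin ℤ (insert (zetaL l) (Set.range fun d : ZMod l => ω d))

theorem zetaL_mem_eisRing (l : ℕ) (ω : DirichletCharacter ℂ l) : zetaL l ∈ eisRing l ω :=
  Algebra.subset_adjoin (Set.mem_insert _ _)

theorem apply_mem_eisRing (l : ℕ) (ω : DirichletCharacter ℂ l) (d : ZMod l) :
    ω d ∈ eisRing l ω :=
  Algebra.subset_adjoin (Set.mem_insert_of_mem _ ⟨d, rfl⟩)

theorem dirichlet_pow_eq_one {l : ℕ} [hl : Fact l.Prime] (ω : DirichletCharacter ℂ l)
    (d : (ZMod l)ˣ) : ω (d : ZMod l) ^ (l - 1) = 1 := by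
  rw [← map_pow, ← Units.val_pow_eq_pow_val, ZMod.units_pow_card_sub_one_eq_one, Units.val_one,
    map_one]

/-- The generators of `eisRing` are roots of unity or `0`. -/
theorem eisRing_gen {l : ℕ} [hl : Fact l.Prime] (ω : DirichletCharacter ℂ l) {x : ℂ}
    (hx : x ∈ insert (zetaL l) (Set.range fun d : ZMod l => ω d)) :
    x = 0 ∨ ∃ n : ℕ, n ≠ 0 ∧ x ^ n = 1 := by
  rcases hx with rfl | ⟨d, rfl⟩
  · exact Or.inr ⟨l, hl.out.ne_zero, (zetaL_isPrimitiveRoot hl.out.ne_zero).pow_eq_one⟩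
  · by_cases hd : IsUnit d
    · obtain ⟨u, rfl⟩ := hd
      have hl1 : l - 1 ≠ 0 := by have := hl.out.two_le; omega
      exact Or.inr ⟨l - 1, hl1, dirichlet_pow_eq_one ω u⟩
    · exact Or.inl (MulChar.map_nonunit ω hd)

theorem eisRing_fg {l : ℕ} [hl : Fact l.Prime] (ω : DirichletCharacter ℂ l) :
    (eisRing l ω).toSubmodule.FG := by
  refine fg_adjoin_of_finite ((Set.finite_range _).insert _) ?_
  intro x hx
  rcases eisRing_gen ω hx with rfl | ⟨n, hn, hxn⟩
  · exact isIntegral_zero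
  · exact IsIntegral.of_pow (Nat.pos_of_ne_zero hn) (hxn ▸ isIntegral_one)

theorem eisRing_le {l : ℕ} [hl : Fact l.Prime] (ω : DirichletCharacter ℂ l)
    (R : ValuationSubring ℂ) : (eisRing l ω).toSubring ≤ R.toSubring := by
  intro x hx
  have hx' : x ∈ Algebra.adjoin ℤ (insert (zetaL l) (Set.range fun d : ZMod l => ω d)) := hx
  rw [Algebra.adjoin_int] at hx'
  have hx'' : x ∈ Subring.closure (insert (zetaL l) (Set.range fun d : ZMod l => ω d)) := hx'
  refine (Subring.closure_le.2 ?_) hx''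
  intro y hy
  rcases eisRing_gen ω hy with rfl | ⟨n, hn, hyn⟩
  · exact R.toSubring.zero_mem
  · exact mem_of_pow_eq_one R hn hyn

/-- **F2, consumer form.**  For `l ≥ 5` prime and a Dirichlet character `ω` mod `l` there is a
weight-one modular form `E` on `Γ₁(l)` with nebentypus `ω⁻¹` whose `q`-coefficients lie in the
finitely generated `ℤ`-module `eisRing l ω = ℤ[ζ_l, ω]`, such that for EVERY valuation subring
`R` of `ℂ` with `l ∈ 𝔪_R` and `ω d ≡ d mod 𝔪_R`:  `a₀(E) ≡ 1` and `aₙ(E) ≡ 0` (`n ≥ 1`)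
modulo `𝔪_R` (and all `aₙ(E) ∈ R`). -/
theorem exists_eisOne {l : ℕ} [hl : Fact l.Prime] (hl5 : 5 ≤ l) (hW : Stmt_EisW l)
    (ω : DirichletCharacter ℂ l) :
    ∃ E : ModularForm (Gamma1 l) 1,
      (∀ γ : SL(2, ℤ), γ ∈ Gamma0 l →
        (⇑E : ℍ → ℂ) ∣[(1 : ℤ)] γ = (ω⁻¹ ((γ 1 1 : ℤ) : ZMod l)) • (⇑E : ℍ → ℂ)) ∧
      (∀ n, ModularFormClass.qCoeff E n ∈ eisRing l ω) ∧
      ∀ R : ValuationSubring ℂ, (l : ℂ) ∈ R.nonunits →
        (∀ d : (ZMod l)ˣ, ω (d : ZMod l) - (((d : ZMod l).val : ℕ) : ℂ) ∈ R.nonunits) →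
        (∀ n, ModularFormClass.qCoeff E n ∈ R) ∧
        ModularFormClass.qCoeff E 0 - 1 ∈ R.nonunits ∧
        ∀ n, n ≠ 0 → ModularFormClass.qCoeff E n ∈ R.nonunits := by
  obtain ⟨E, hE, hO⟩ := exists_eisOne_of_subring hl5 hW ω
  have hζO : zetaL l ∈ (eisRing l ω).toSubring := zetaL_mem_eisRing l ω
  have hωO : ∀ d : (ZMod l)ˣ, ω (d : ZMod l) ∈ (eisRing l ω).toSubring :=
    fun d => apply_mem_eisRing l ω d
  refine ⟨E, hE, ?_, ?_⟩
  · intro n
    obtain ⟨F, hF, -, -⟩ := hO (eisRing l ω).toSubring hζO ⊤ trivial hωO (fun _ => trivial)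
    rw [hF n]
    exact (PowerSeries.coeff n F).2
  · intro R hlR hω
    have hle := eisRing_le ω R
    have hω' : ∀ d : (ZMod l)ˣ, (⟨ω (d : ZMod l), hωO d⟩ : (eisRing l ω).toSubring) -
        (((d : ZMod l).val : ℕ) : (eisRing l ω).toSubring) ∈
          nonunitIdealOf R (eisRing l ω).toSubring hle := by
      intro d
      rw [mem_nonunitIdealOf_iff, AddSubgroupClass.coe_sub, Subring.coe_natCast]
      exact hω d
    obtain ⟨F, hF, hF0, hFn⟩ := hO (eisRing l ω).toSubring hζO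
      (nonunitIdealOf R (eisRing l ω).toSubring hle)
      (one_sub_zetaL_mem_nonunits R hl.out hlR) hωO hω'
    refine ⟨fun n => ?_, ?_, fun n hn => ?_⟩
    · rw [hF n]; exact hle (PowerSeries.coeff n F).2
    · rw [hF 0]
      have := (mem_nonunitIdealOf_iff R _ hle _).1 hF0
      simpa using this
    · rw [hF n]
      exact (mem_nonunitIdealOf_iff R _ hle _).1 (hFn n hn)

/-- `exists_eisOne` with the Teichmüller hypothesis on integers `d` (the shape of S48-TEICH). -/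
theorem exists_eisOne_int {l : ℕ} [hl : Fact l.Prime] (hl5 : 5 ≤ l) (hW : Stmt_EisW l)
    (ω : DirichletCharacter ℂ l) :
    ∃ E : ModularForm (Gamma1 l) 1,
      (∀ γ : SL(2, ℤ), γ ∈ Gamma0 l →
        (⇑E : ℍ → ℂ) ∣[(1 : ℤ)] γ = (ω⁻¹ ((γ 1 1 : ℤ) : ZMod l)) • (⇑E : ℍ → ℂ)) ∧
      (∀ n, ModularFormClass.qCoeff E n ∈ eisRing l ω) ∧
      ∀ R : ValuationSubring ℂ, (l : ℂ) ∈ R.nonunits →
        (∀ d : ℤ, ω (d : ZMod l) - (d : ℂ) ∈ R.nonunits) →
        (∀ n, ModularFormClass.qCoeff E n ∈ R) ∧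
        ModularFormClass.qCoeff E 0 - 1 ∈ R.nonunits ∧
        ∀ n, n ≠ 0 → ModularFormClass.qCoeff E n ∈ R.nonunits := by
  obtain ⟨E, hE, hEO, hER⟩ := exists_eisOne hl5 hW ω
  refine ⟨E, hE, hEO, fun R hlR hω => hER R hlR fun d => ?_⟩
  have := hω (((d : ZMod l).val : ℕ) : ℤ)
  rwa [Int.cast_natCast, ZMod.natCast_zmod_val, Int.cast_natCast] at this

end Fermat.Agent.S48.helper9793
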