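/-
S48 (Deligne–Serre), wiring of `Stmt_Cong` (the weight 1 → weight 2 congruence) — helper48.

`cong_of : Stmt_CongCore → helper8231.Stmt_Cong`, with `ℓ₀ := 5`, from the landed leaves

* (F0)    `helper3685.stmt_Neben`            nebentypus of the weight-one eigenform,
* (TEICH) `helper9779.exists_place_of_ringHom`, `exists_teichmuller`, `psiChar`, adapters,
* (F2)    `helper9793.exists_eisOne_int` + `helper6076.stmt_EisW`   the weight-one form `E ≡ 1`,
* (PROD)  `helper7244.prodAt`                the product `f · E` on `Γ₁(B ℓ)`,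

and of the one remaining input `Stmt_CongCore` (the Deligne–Serre lifting lemma for the Hecke
operators on the `ψ`-part of `S₂(Γ₁(M))`, helper7199's `exists_isEigen2_of_congruence`).
-/
import Mathlib
import Fermat.Agent.S48.helper8231_Spec
import Fermat.Agent.S48.helper3685_NebenStmt
import Fermat.Agent.S48.helper9779_Teich
import Fermat.Agent.S48.helper9793_EisensteinOne
import Fermat.Agent.S48.helper6076_EisW
import Fermat.Agent.S48.helper7244_ProdForm

set_option autoImplicit false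

open CongruenceSubgroup UpperHalfPlane ModularForm
open scoped MatrixGroups ModularForm

namespace Fermat.Agent.S48.helper48

/-- (CONG-CORE) Deligne–Serre lifting for the `ψ`-part of `S₂(Γ₁(M))` at a place `R` of `ℂ`:
a cusp form `v` with nebentypus `ψ`, not all of whose coefficients lie in `𝔪_R`, and which is a
Hecke eigenvector modulo `𝔪_R` with eigenvalues `a p ∈ R` (coefficientwise), gives a genuine
eigenvector `g` with eigenvalues `b p ≡ a p` modulo `𝔪_R`. -/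
def Stmt_CongCore : Prop :=
  ∀ (M : ℕ) [NeZero M] (ψ : DirichletCharacter ℂ M) (R : ValuationSubring ℂ),
    (∀ p : ℕ, p.Prime → ¬ p ∣ M → (p : ℂ) * ψ (p : ZMod M) ∈ R) →
    ∀ v : CuspForm (Gamma1 M) 2,
      (∀ γ : SL(2, ℤ), γ ∈ Gamma0 M → (⇑v) ∣[(2 : ℤ)] γ = ψ ((γ 1 1 : ℤ) : ZMod M) • (⇑v)) →
      ∀ a : ℕ → ℂ, (∀ p : ℕ, p.Prime → ¬ p ∣ M → a p ∈ R) →
        (∃ n, ModularFormClass.qCoeff v n ∉ R.nonunits) →
        (∀ p : ℕ, p.Prime → ¬ p ∣ M → ∀ n : ℕ,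
          ModularFormClass.qCoeff v (p * n) +
              (p : ℂ) * ψ (p : ZMod M) *
                (if p ∣ n then ModularFormClass.qCoeff v (n / p) else 0) -
            a p * ModularFormClass.qCoeff v n ∈ R.nonunits) →
        ∃ (g : CuspForm (Gamma1 M) 2) (b : ℕ → ℂ), helper8231.IsEigen2 M ψ g b ∧
          ∀ p : ℕ, p.Prime → ¬ p ∣ M → b p ∈ R ∧ b p - a p ∈ R.nonunits

/-- **Wiring of `Stmt_Cong`** from the lifting core, with `ℓ₀ = 5`. -/
theorem cong_of (hCore : Stmt_CongCore) : helper8231.Stmt_Cong := by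
  intro N _ ε f hf _h5 _hdep hint B hNB hB
  refine ⟨5, fun ℓ hℓ h5ℓ κ _ _ φ => ?_⟩
  have : Fact ℓ.Prime := ⟨hℓ⟩
  have : NeZero (B * ℓ) := ⟨Nat.mul_ne_zero hB hℓ.ne_zero⟩
  -- the place of `ℂ` above `ker φ`, the Teichmüller character and the weight-one form `E ≡ 1`
  obtain ⟨R, hZR, hRφ, hℓR⟩ := helper9779.exists_place_of_ringHom ℓ hℓ φ
  obtain ⟨ω, hω⟩ := helper9779.exists_teichmuller R ℓ hℓ hℓR
  obtain ⟨E, hEneb, -, hER⟩ :=
    helper9793.exists_eisOne_int h5ℓ (helper6076.stmt_EisW ℓ hℓ h5ℓ) ω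
  obtain ⟨-, hE0, hEn⟩ := hER R hℓR hω
  have hE' : ∀ n, 1 ≤ n → ModularFormClass.qCoeff E n ∈ R.nonunits :=
    fun n hn => hEn n (by omega)
  have hNM : N ∣ B * ℓ := dvd_mul_of_dvd_left hNB ℓ
  have hlM : ℓ ∣ B * ℓ := dvd_mul_left ℓ B
  have hfR : ∀ n, ModularFormClass.qCoeff f n ∈ R := fun n => hZR ⟨_, hint n⟩
  have hcop : ∀ p : ℕ, p.Prime → ¬ p ∣ B * ℓ → p.Coprime (B * ℓ) :=
    fun p hp hpM => (Nat.Prime.coprime_iff_not_dvd hp).2 hpM
  -- the product `v = f · E` with nebentypus `ψ = ε ω⁻¹`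
  have hvψ : ∀ γ : SL(2, ℤ), γ ∈ Gamma0 (B * ℓ) →
      (⇑(helper7244.prodAt hNM hlM f E)) ∣[(2 : ℤ)] γ =
        helper9779.psiChar hNB ε ω ((γ 1 1 : ℤ) : ZMod (B * ℓ)) •
          (⇑(helper7244.prodAt hNM hlM f E)) :=
    helper7244.prodAt_slash hNM hlM ε ω⁻¹ f E (helper3685.stmt_Neben N ε f hf) hEneb
  have hψR : ∀ p : ℕ, p.Prime → ¬ p ∣ B * ℓ →
      (p : ℂ) * helper9779.psiChar hNB ε ω ((p : ℕ) : ZMod (B * ℓ)) ∈ R := by
    intro p _ _
    have h1 : (p : ℂ) ∈ R := natCast_mem R p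
    have h2 : helper9779.psiChar hNB ε ω ((p : ℕ) : ZMod (B * ℓ)) ∈ R :=
      hZR ⟨_, helper8231.isIntegral_dirichlet (B * ℓ) _ _⟩
    exact R.mul_mem _ _ h1 h2
  obtain ⟨g, b, hgb, hb⟩ := hCore (B * ℓ) (helper9779.psiChar hNB ε ω) R hψR
    (helper7244.prodAt hNM hlM f E) hvψ (fun p => ModularFormClass.qCoeff f p)
    (fun p _ _ => hfR p)
    ⟨1, helper7244.qCoeff_prodAt_one_not_mem_nonunits hNM hlM f E R hfR hf.1 hE0 hE'⟩
    (fun p hp hpM n =>
      helper7244.prodAt_hecke_congr_nonunits hNM hlM ε f E R hfR hE0 hE' p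
        ((p : ℂ) * helper9779.psiChar hNB ε ω ((p : ℕ) : ZMod (B * ℓ))) (hψR p hp hpM)
        (helper9779.natCast_mul_psiChar_sub_mem_nonunits R hℓ hNB ε ω hω p (hcop p hp hpM))
        (hf.2 p hp (fun h => hpM (h.trans hNM))) n)
  refine ⟨helper9779.psiChar hNB ε ω, g, b, hgb, fun p hp hpM => ⟨?_, ?_⟩⟩
  · exact helper9779.cong_adapter_trace R φ hRφ (ModularFormClass.qCoeff f p) (b p) (hint p)
      (hb p hp hpM).2
  · exact helper9779.cong_adapter_det R φ hRφ hℓ hNB ε ω hω p (hcop p hp hpM)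

end Fermat.Agent.S48.helper48
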