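import Mathlib
import Fermat.Agent.S49.helper529_Lift

/-!
# S48-F3: Deligne–Serre lifting without an integral basis

Machine-independent leaf of the S48 route.  Everything here is pure commutative / linear
algebra over an arbitrary commutative ring `O`, a maximal ideal `P` of `O`, and an
algebraically closed field `K` that is an `O`-algebra.

* `isIntegral_eigenvalue_of_fg_lattice`: an eigenvalue (with eigenvector in the `K`-span of
  the lattice) of an operator stabilising a finitely generated `O`-lattice is integral over `O`.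
* `exists_eigen_lift_core`: a commutative ring `A` acting on a finite-dimensional `K`-space `V`
  and stabilising a finitely generated `O`-lattice `Lam` and a sublattice `Lam'` containing
  `P • Lam`; for `v ∈ Lam \ Lam'` there is an honest eigenvector `w`, with eigencharacter `χ`
  valued in the integral closure of `O` in `K`, and a maximal ideal `𝔓` over `P` such that
  `χ t ∈ 𝔓` for every `t` with `t v ∈ Lam'`.
* `exists_eigen_lift_of_congruence`: the same for a commuting family of operators `T i`: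
  an eigenvector "modulo `Lam'`" with eigenvalues `a i` lifts to an honest common eigenvector
  with eigenvalues `b i ≡ a i` modulo `𝔓`.
* `coeffLattice_fg`: the lattice of vectors all of whose "coefficients" lie in a Noetherian
  ring `O` is finitely generated (no integral basis needed).
* `exists_eigen_lift_of_coeff_congruence`: the combination, in the shape consumed by S48:
  coefficient functionals, operators preserving `O`-integrality and `P`-divisibility of
  coefficient sequences.
-/

set_option autoImplicit false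

namespace Fermat.Agent.S48.helper7199

section Abstract

variable {O : Type*} [CommRing O]
variable {K : Type*} [Field K] [Algebra O K]
variable {V : Type*} [AddCommGroup V] [Module K V] [FiniteDimensional K V]
variable [Module O V] [IsScalarTower O K V]

/-- An eigenvalue of an operator preserving a finitely generated `O`-lattice, with an
eigenvector in the `K`-span of the lattice, is integral over `O`. -/
theorem isIntegral_eigenvalue_of_fg_lattice
    (L : Submodule O V) (hfg : L.FG)
    (φ : Module.End K V) (hφ : ∀ x ∈ L, φ x ∈ L) (c : K) (w : V)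
    (hwW : w ∈ Submodule.span K (L : Set V)) (hw : w ≠ 0)
    (hc : φ w = c • w) : IsIntegral O c := by
  set W : Submodule K V := Submodule.span K (L : Set V) with hWdef
  have hLW : ∀ x ∈ L, x ∈ W := fun x hx => Submodule.subset_span hx
  let ψ : Module.End K V := φ - c • (1 : Module.End K V)
  have hψw : ψ w = 0 := by simp [ψ, hc]
  have hφW : ∀ x ∈ W, φ x ∈ W := by
    intro x hx
    induction hx using Submodule.span_induction with
    | mem x hx => exact hLW _ (hφ x hx)
    | zero => rw [map_zero]; exact W.zero_mem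
    | add x y _ _ hx hy => rw [map_add]; exact W.add_mem hx hy
    | smul a x _ hx => rw [map_smul]; exact W.smul_mem a hx
  have hψW : ∀ x ∈ W, ψ x ∈ W := by
    intro x hx
    have : ψ x = φ x - c • x := by simp [ψ]
    rw [this]
    exact W.sub_mem (hφW x hx) (W.smul_mem c hx)
  let R : Submodule K V := W.map ψ
  have hRW : R ≤ W := by
    rintro _ ⟨x, hx, rfl⟩
    exact hψW x hx
  have hRne : ¬ W ≤ R := by
    intro hWR
    let f : Module.End K W := ψ.restrict hψW
    have hsurj : Function.Surjective f := by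
      intro y
      obtain ⟨x, hx, hxy⟩ := hWR y.2
      exact ⟨⟨x, hx⟩, Subtype.ext hxy⟩
    have hinj : Function.Injective f := LinearMap.injective_iff_surjective.mpr hsurj
    have h0 : f ⟨w, hwW⟩ = 0 := Subtype.ext hψw
    have : (⟨w, hwW⟩ : W) = 0 := hinj (by rw [h0, map_zero])
    exact hw (congrArg Subtype.val this)
  let π : V →ₗ[K] V ⧸ R := R.mkQ
  let N : Submodule O (V ⧸ R) := L.map (π.restrictScalars O)
  have hπ : ∀ x ∈ L, π (φ x) = c • π x := by
    intro x hx
    have hx' : φ x - c • x ∈ R := ⟨x, hLW x hx, by simp [ψ]⟩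
    have : π (φ x - c • x) = 0 := (Submodule.Quotient.mk_eq_zero R).2 hx'
    rw [map_sub, map_smul, sub_eq_zero] at this
    exact this
  refine isIntegral_of_smul_mem_submodule N ?_ (hfg.map _) c ?_
  · intro hN
    apply hRne
    have hL : ∀ x ∈ L, x ∈ R := by
      intro x hx
      have h1 : π x ∈ N := ⟨x, hx, rfl⟩
      rw [hN, Submodule.mem_bot] at h1
      exact (Submodule.Quotient.mk_eq_zero R).1 h1
    rw [hWdef, Submodule.span_le]
    exact hL
  · rintro _ ⟨x, hx, rfl⟩
    exact ⟨φ x, hφ x hx, hπ x hx⟩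

variable [IsAlgClosed K]

/-- **Core lifting lemma** (Deligne–Serre, no integral basis, no completion).

A commutative ring `A` acts `K`-linearly on the finite-dimensional space `V` (via `ρ`), with
`O` mapping to `A` (via `j`) compatibly with the `O`-module structure.  `Lam` is a finitely
generated `A`-stable `O`-lattice, `Lam' ≤ Lam` an `A`-stable sublattice containing `P • Lam`
for a maximal ideal `P` of `O`.  Then for every `v ∈ Lam \ Lam'` there are an honest common
eigenvector `w` in the `K`-span of `Lam`, with eigencharacter `χ` valued in the integral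
closure of `O` in `K`, and a maximal ideal `𝔓` of that integral closure lying over `P`, such
that `χ t ∈ 𝔓` whenever `t • v ∈ Lam'`. -/
theorem exists_eigen_lift_core
    {A : Type*} [CommRing A] (ρ : A →+* Module.End K V) (j : O →+* A)
    (hj : ∀ (c : O) (x : V), ρ (j c) x = c • x)
    (Lam Lam' : Submodule O V) (hfg : Lam.FG)
    (hstab : ∀ (t : A), ∀ x ∈ Lam, ρ t x ∈ Lam)
    (hstab' : ∀ (t : A), ∀ x ∈ Lam', ρ t x ∈ Lam')
    (P : Ideal O) [hPmax : P.IsMaximal] (hP : ∀ c ∈ P, ∀ x ∈ Lam, c • x ∈ Lam')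
    (v : V) (hv : v ∈ Lam) (hv' : v ∉ Lam') :
    ∃ (w : V) (χ : A →+* integralClosure O K) (𝔓 : Ideal (integralClosure O K)),
      w ≠ 0 ∧ w ∈ Submodule.span K (Lam : Set V) ∧ 𝔓.IsMaximal ∧
      𝔓.comap (algebraMap O (integralClosure O K)) = P ∧
      (∀ t : A, ρ t w = ((χ t : integralClosure O K) : K) • w) ∧
      (∀ c : O, χ (j c) = algebraMap O (integralClosure O K) c) ∧
      ∀ t : A, ρ t v ∈ Lam' → χ t ∈ 𝔓 := by
  classical
  -- the ideal of operators sending `v` into `Lam'`
  let J : Ideal A :=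
    { carrier := {t | ρ t v ∈ Lam'}
      add_mem' := fun {s t} hs ht => by
        change ρ (s + t) v ∈ Lam'
        rw [map_add, LinearMap.add_apply]
        exact Lam'.add_mem hs ht
      zero_mem' := by
        change ρ 0 v ∈ Lam'
        rw [map_zero, LinearMap.zero_apply]
        exact Lam'.zero_mem
      smul_mem' := fun s t ht => by
        change ρ (s • t) v ∈ Lam'
        rw [smul_eq_mul, map_mul, Module.End.mul_apply]
        exact hstab' s _ ht }
  have hJmem : ∀ t : A, t ∈ J ↔ ρ t v ∈ Lam' := fun t => Iff.rfl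
  have hJne : J ≠ ⊤ := by
    intro hJ
    have h1 : (1 : A) ∈ J := hJ ▸ Submodule.mem_top
    rw [hJmem, map_one, Module.End.one_apply] at h1
    exact hv' h1
  obtain ⟨𝔫, h𝔫max, hJ𝔫⟩ := Ideal.exists_le_maximal J hJne
  have : 𝔫.IsPrime := h𝔫max.isPrime
  set W : Submodule K V := Submodule.span K (Lam : Set V) with hWdef
  have hLW : ∀ x ∈ Lam, x ∈ W := fun x hx => Submodule.subset_span hx
  have hWstab : ∀ t : A, ∀ x ∈ W, ρ t x ∈ W := by
    intro t x hx
    induction hx using Submodule.span_induction with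
    | mem x hx => exact hLW _ (hstab t x hx)
    | zero => rw [map_zero]; exact W.zero_mem
    | add x y _ _ hx hy => rw [map_add]; exact W.add_mem hx hy
    | smul a x _ hx => rw [map_smul]; exact W.smul_mem a hx
  have hann : ∀ t : A, (∀ x ∈ W, ρ t x = 0) → t ∈ 𝔫 := by
    intro t ht
    apply hJ𝔫
    rw [hJmem, ht v (hLW v hv)]
    exact Lam'.zero_mem
  obtain ⟨w, hwW, hw0, hw, hw𝔫⟩ :=
    Fermat.Agent.S49.helper529.exists_eigenvector_ann_le ρ 𝔫 _ W rfl hWstab hann
  choose χ hχ using hw
  have hinj : ∀ a b : K, a • w = b • w → a = b := fun a b h => smul_left_injective K hw0 h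
  let χ₀ : A →+* K :=
    { toFun := χ
      map_one' := hinj _ _ (by rw [← hχ, map_one, Module.End.one_apply, one_smul])
      map_mul' := fun s t => hinj _ _ (by
        rw [← hχ, map_mul, Module.End.mul_apply, hχ t, map_smul, hχ s, smul_smul, mul_comm])
      map_zero' := hinj _ _ (by rw [← hχ, map_zero, LinearMap.zero_apply, zero_smul])
      map_add' := fun s t => hinj _ _ (by
        rw [← hχ, map_add, LinearMap.add_apply, hχ s, hχ t, add_smul]) }
  have hχ₀ : ∀ t : A, ρ t w = χ₀ t • w := hχ
  have hint : ∀ t : A, χ₀ t ∈ integralClosure O K := fun t =>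
    isIntegral_eigenvalue_of_fg_lattice Lam hfg (ρ t) (hstab t) (χ₀ t) w hwW hw0 (hχ₀ t)
  let χ' : A →+* integralClosure O K := χ₀.codRestrict (integralClosure O K) hint
  have hχ'val : ∀ t : A, ((χ' t : integralClosure O K) : K) = χ₀ t := fun t => rfl
  have hχj₀ : ∀ c : O, χ₀ (j c) = algebraMap O K c := by
    intro c
    apply hinj
    rw [← hχ₀, hj, algebraMap_smul]
  have hχj : ∀ c : O, χ' (j c) = algebraMap O (integralClosure O K) c := by
    intro c
    apply Subtype.ext
    rw [hχ'val, hχj₀]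
    rfl
  let _ : Algebra A (integralClosure O K) := χ'.toAlgebra
  have halg : ∀ t : A, algebraMap A (integralClosure O K) t = χ' t := fun t => rfl
  have : Algebra.IsIntegral A (integralClosure O K) := by
    refine ⟨fun x => ?_⟩
    obtain ⟨p, hp, hpx⟩ := integralClosure.isIntegral (R := O) (A := K) x
    refine ⟨p.map j, hp.map j, ?_⟩
    rw [Polynomial.eval₂_map]
    have hcomp : (algebraMap A (integralClosure O K)).comp j
        = algebraMap O (integralClosure O K) := RingHom.ext fun c => by
      rw [RingHom.comp_apply, halg, hχj]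
    rw [hcomp]
    exact hpx
  have hker' : RingHom.ker (algebraMap A (integralClosure O K)) ≤ 𝔫 := by
    intro t ht
    apply hw𝔫
    rw [RingHom.mem_ker, halg] at ht
    have h2 : χ₀ t = 0 := by rw [← hχ'val, ht]; rfl
    rw [hχ₀, h2, zero_smul]
  obtain ⟨𝔓, h𝔓max, h𝔓⟩ := Ideal.exists_ideal_over_maximal_of_isIntegral
    (S := integralClosure O K) 𝔫 hker'
  have hJ𝔓 : ∀ t : A, ρ t v ∈ Lam' → χ' t ∈ 𝔓 := by
    intro t ht
    have : t ∈ Ideal.comap (algebraMap A (integralClosure O K)) 𝔓 := h𝔓 ▸ hJ𝔫 ((hJmem t).2 ht)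
    exact this
  refine ⟨w, χ', 𝔓, hw0, hwW, h𝔓max, ?_, fun t => hχ₀ t, hχj, hJ𝔓⟩
  -- `𝔓` lies over `P`
  have hle : P ≤ 𝔓.comap (algebraMap O (integralClosure O K)) := by
    intro c hc
    rw [Ideal.mem_comap, ← hχj]
    apply hJ𝔓
    rw [hj]
    exact hP c hc v hv
  have hne : 𝔓.comap (algebraMap O (integralClosure O K)) ≠ ⊤ :=
    Ideal.comap_ne_top _ h𝔓max.ne_top
  exact (hPmax.eq_of_le hne hle).symm

omit [FiniteDimensional K V] [IsAlgClosed K] in
/-- Elements of the `O`-algebra generated by operators stabilising an `O`-submodule stabilise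
it too. -/
theorem adjoin_range_stable {ι : Type*} (T : ι → Module.End K V) (L : Submodule O V)
    (hstab : ∀ i, ∀ x ∈ L, T i x ∈ L) {t : Module.End K V}
    (ht : t ∈ Algebra.adjoin O (Set.range T)) : ∀ x ∈ L, t x ∈ L := by
  induction ht using Algebra.adjoin_induction with
  | mem t ht =>
    obtain ⟨i, rfl⟩ := ht
    exact hstab i
  | algebraMap c =>
    intro x hx
    rw [Module.algebraMap_end_apply]
    exact L.smul_mem c hx
  | add s t _ _ hs ht =>
    intro x hx
    rw [LinearMap.add_apply]
    exact L.add_mem (hs x hx) (ht x hx)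
  | mul s t _ _ hs ht =>
    intro x hx
    rw [Module.End.mul_apply]
    exact hs _ (ht x hx)

open scoped IsMulCommutative in
/-- **Deligne–Serre lifting lemma, congruence form** (S48-F3a).

`T i` is a commuting family of `K`-linear operators on the finite-dimensional space `V`
stabilising a finitely generated `O`-lattice `Lam` and an `O`-submodule `Lam'` with
`P • Lam ⊆ Lam'` (`P` a maximal ideal of `O`).  If `v ∈ Lam \ Lam'` is an eigenvector modulo
`Lam'` with eigenvalues `a i ∈ O`, then there is an honest common eigenvector `w ≠ 0` (in the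
`K`-span of `Lam`) whose eigenvalues `b i` are integral over `O` and congruent to `a i` modulo
one maximal ideal `𝔓` of the integral closure of `O` in `K` lying over `P` (the same `𝔓` for
all `i`). -/
theorem exists_eigen_lift_of_congruence
    {ι : Type*} (T : ι → Module.End K V) (hcomm : ∀ i j, T i * T j = T j * T i)
    (Lam Lam' : Submodule O V) (hfg : Lam.FG)
    (hstab : ∀ i, ∀ x ∈ Lam, T i x ∈ Lam) (hstab' : ∀ i, ∀ x ∈ Lam', T i x ∈ Lam')
    (P : Ideal O) [P.IsMaximal] (hP : ∀ c ∈ P, ∀ x ∈ Lam, c • x ∈ Lam')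
    (a : ι → O) (v : V) (hv : v ∈ Lam) (hv' : v ∉ Lam')
    (hcong : ∀ i, T i v - a i • v ∈ Lam') :
    ∃ (w : V) (b : ι → integralClosure O K) (𝔓 : Ideal (integralClosure O K)),
      w ≠ 0 ∧ w ∈ Submodule.span K (Lam : Set V) ∧ 𝔓.IsMaximal ∧
      𝔓.comap (algebraMap O (integralClosure O K)) = P ∧
      (∀ i, T i w = ((b i : integralClosure O K) : K) • w) ∧
      ∀ i, b i - algebraMap O (integralClosure O K) (a i) ∈ 𝔓 := by
  have hcomm' : ∀ x ∈ Set.range T, ∀ y ∈ Set.range T, x * y = y * x := by
    rintro _ ⟨i, rfl⟩ _ ⟨j, rfl⟩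
    exact hcomm i j
  have := Algebra.isMulCommutative_adjoin O hcomm'
  let ρ : Algebra.adjoin O (Set.range T) →+* Module.End K V :=
    (Algebra.adjoin O (Set.range T)).val.toRingHom
  let j : O →+* Algebra.adjoin O (Set.range T) :=
    algebraMap O (Algebra.adjoin O (Set.range T))
  have hρ : ∀ t : Algebra.adjoin O (Set.range T), ρ t = (t : Module.End K V) := fun t => rfl
  have hj : ∀ (c : O) (x : V), ρ (j c) x = c • x := by
    intro c x
    rw [hρ]
    exact Module.algebraMap_end_apply (R := O) (S := K) (M := V) c x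
  have hmem : ∀ i, T i ∈ Algebra.adjoin O (Set.range T) :=
    fun i => Algebra.subset_adjoin ⟨i, rfl⟩
  obtain ⟨w, χ, 𝔓, hw0, hwW, h𝔓max, h𝔓P, hχ, hχj, hJ𝔓⟩ :=
    exists_eigen_lift_core ρ j hj Lam Lam' hfg
      (fun t => adjoin_range_stable T Lam hstab t.2)
      (fun t => adjoin_range_stable T Lam' hstab' t.2) P hP v hv hv'
  refine ⟨w, fun i => χ ⟨T i, hmem i⟩, 𝔓, hw0, hwW, h𝔓max, h𝔓P, fun i => hχ ⟨T i, hmem i⟩, ?_⟩
  intro i
  have h1 : χ (⟨T i, hmem i⟩ - j (a i)) ∈ 𝔓 := by
    apply hJ𝔓
    rw [map_sub, LinearMap.sub_apply, hj]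
    exact hcong i
  rw [map_sub, hχj] at h1
  exact h1

end Abstract

section Coeff

variable {O : Type*} [CommRing O]
variable {K : Type*} [Field K] [Algebra O K]
variable {V : Type*} [AddCommGroup V] [Module K V]
variable [Module O V] [IsScalarTower O K V]
variable {κ : Type*}

/-- The `O`-submodule of vectors all of whose coefficients `c n g` are images of elements of
the ideal `I` of `O`.  (`I = ⊤`: the `O`-integral vectors; `I = P`: the vectors divisible
by `P` coefficientwise.) -/
def coeffLattice (I : Ideal O) (c : κ → V →ₗ[K] K) : Submodule O V where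
  carrier := {g | ∀ n, ∃ x ∈ I, algebraMap O K x = c n g}
  add_mem' := fun {g h} hg hh n => by
    obtain ⟨x, hx, hxg⟩ := hg n
    obtain ⟨y, hy, hyh⟩ := hh n
    exact ⟨x + y, I.add_mem hx hy, by rw [map_add, map_add, hxg, hyh]⟩
  zero_mem' := fun n => ⟨0, I.zero_mem, by rw [map_zero, map_zero]⟩
  smul_mem' := fun a g hg n => by
    obtain ⟨x, hx, hxg⟩ := hg n
    refine ⟨a * x, I.mul_mem_left a hx, ?_⟩
    rw [map_mul, hxg, LinearMap.map_smul_of_tower, Algebra.smul_def]

theorem mem_coeffLattice (I : Ideal O) (c : κ → V →ₗ[K] K) (g : V) :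
    g ∈ coeffLattice I c ↔ ∀ n, ∃ x ∈ I, algebraMap O K x = c n g := Iff.rfl

theorem mem_coeffLattice_top (c : κ → V →ₗ[K] K) (g : V) :
    g ∈ coeffLattice (⊤ : Ideal O) c ↔ ∀ n, ∃ x : O, algebraMap O K x = c n g := by
  rw [mem_coeffLattice]
  exact forall_congr' fun n =>
    ⟨fun ⟨x, _, hx⟩ => ⟨x, hx⟩, fun ⟨x, hx⟩ => ⟨x, Submodule.mem_top, hx⟩⟩

theorem coeffLattice_mono {I J : Ideal O} (h : I ≤ J) (c : κ → V →ₗ[K] K) :
    coeffLattice I c ≤ coeffLattice J c := fun _ hg n =>
  let ⟨x, hx, hxg⟩ := hg n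
  ⟨x, h hx, hxg⟩

/-- Multiplying an `O`-integral vector by an element of `I` lands in the `I`-divisible
vectors. -/
theorem smul_mem_coeffLattice (I : Ideal O) (c : κ → V →ₗ[K] K) {a : O} (ha : a ∈ I) {g : V}
    (hg : g ∈ coeffLattice (⊤ : Ideal O) c) : a • g ∈ coeffLattice I c := by
  intro n
  obtain ⟨x, -, hxg⟩ := hg n
  refine ⟨a * x, I.mul_mem_right x ha, ?_⟩
  rw [map_mul, hxg, LinearMap.map_smul_of_tower, Algebra.smul_def]

/-- **No integral basis needed** (S48-F3b): over a Noetherian ring `O`, the lattice of vectors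
of a finite-dimensional space all of whose coefficients (for a jointly injective family of
coefficient functionals) lie in `O` (or in an ideal `I` of `O`) is a finitely generated
`O`-module. -/
theorem coeffLattice_fg [IsNoetherianRing O] [FiniteDimensional K V] (I : Ideal O)
    (c : κ → V →ₗ[K] K) (hc : ∀ g : V, (∀ n, c n g = 0) → g = 0) :
    (coeffLattice I c).FG := by
  classical
  have hfg : (Submodule.span K (Set.range c)).FG := IsNoetherian.noetherian _
  obtain ⟨s, hs, hspan⟩ := (Submodule.fg_span_iff_fg_span_finset_subset _).1 hfg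
  let Φ : V →ₗ[K] (s → K) := LinearMap.pi (fun φ => φ.1)
  have hΦapp : ∀ (g : V) (φ : s), Φ g φ = φ.1 g := fun g φ => rfl
  have hΦ : Function.Injective Φ := by
    rw [← LinearMap.ker_eq_bot, Submodule.eq_bot_iff]
    intro g hg
    rw [LinearMap.mem_ker] at hg
    apply hc
    have hall : ∀ φ ∈ Submodule.span K (↑s : Set (V →ₗ[K] K)), φ g = 0 := by
      intro φ hφ
      induction hφ using Submodule.span_induction with
      | mem φ hφ =>
        have := congrFun hg ⟨φ, hφ⟩
        exact this
      | zero => rfl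
      | add φ ψ _ _ h1 h2 => rw [LinearMap.add_apply, h1, h2, add_zero]
      | smul a φ _ h1 => rw [LinearMap.smul_apply, h1, smul_zero]
    intro n
    exact hall (c n) (hspan ▸ Submodule.subset_span ⟨n, rfl⟩)
  let F : (s → O) →ₗ[O] (s → K) := (Algebra.linearMap O K).compLeft s
  have hle : (coeffLattice I c).map (Φ.restrictScalars O) ≤ LinearMap.range F := by
    rintro _ ⟨g, hg, rfl⟩
    have hex : ∀ φ : s, ∃ x : O, algebraMap O K x = φ.1 g := by
      intro φ
      obtain ⟨n, hn⟩ := hs φ.2
      obtain ⟨x, -, hx⟩ := hg n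
      exact ⟨x, by rw [hx, hn]⟩
    choose x hx using hex
    refine ⟨x, ?_⟩
    funext φ
    exact hx φ
  have hnoeth : IsNoetherian O (LinearMap.range F) := inferInstance
  have hfg2 : ((coeffLattice I c).map (Φ.restrictScalars O)).FG :=
    isNoetherian_submodule.1 hnoeth _ hle
  exact Submodule.fg_of_fg_map_injective (Φ.restrictScalars O) hΦ hfg2

variable [IsAlgClosed K] [FiniteDimensional K V]

/-- **Deligne–Serre lifting, coefficient form** (S48-F3c).

`V` is a finite-dimensional `K`-space with a jointly injective family of coefficient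
functionals `c n` (for S48: a Hecke-stable finite-dimensional space of modular forms with the
`q`-expansion coefficients); `O` is a Noetherian ring with a maximal ideal `P`; `T i` are
commuting operators preserving `O`-integrality and `P`-divisibility of coefficient families.
If `v` is `O`-integral, not divisible by `P`, and `T i v ≡ a i • v` coefficientwise modulo `P`
for all `i`, then there is an honest common eigenvector `w ≠ 0` with eigenvalues `b i` integral
over `O` and `b i ≡ a i` modulo a single maximal ideal `𝔓` over `P`. -/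
theorem exists_eigen_lift_of_coeff_congruence [IsNoetherianRing O]
    (c : κ → V →ₗ[K] K) (hc : ∀ g : V, (∀ n, c n g = 0) → g = 0)
    {ι : Type*} (T : ι → Module.End K V) (hcomm : ∀ i j, T i * T j = T j * T i)
    (P : Ideal O) [P.IsMaximal]
    (hT : ∀ i, ∀ g : V, (∀ n, ∃ x : O, algebraMap O K x = c n g) →
      ∀ n, ∃ x : O, algebraMap O K x = c n (T i g))
    (hT' : ∀ i, ∀ g : V, (∀ n, ∃ x ∈ P, algebraMap O K x = c n g) →
      ∀ n, ∃ x ∈ P, algebraMap O K x = c n (T i g))
    (a : ι → O) (v : V) (hv : ∀ n, ∃ x : O, algebraMap O K x = c n v)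
    (hv' : ¬ ∀ n, ∃ x ∈ P, algebraMap O K x = c n v)
    (hcong : ∀ i n, ∃ x ∈ P, algebraMap O K x = c n (T i v) - algebraMap O K (a i) * c n v) :
    ∃ (w : V) (b : ι → integralClosure O K) (𝔓 : Ideal (integralClosure O K)),
      w ≠ 0 ∧ 𝔓.IsMaximal ∧ 𝔓.comap (algebraMap O (integralClosure O K)) = P ∧
      (∀ i, T i w = ((b i : integralClosure O K) : K) • w) ∧
      ∀ i, b i - algebraMap O (integralClosure O K) (a i) ∈ 𝔓 := by
  obtain ⟨w, b, 𝔓, hw0, -, h𝔓max, h𝔓P, hb, hcg⟩ :=
    exists_eigen_lift_of_congruence T hcomm (coeffLattice (⊤ : Ideal O) c) (coeffLattice P c)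
      (coeffLattice_fg ⊤ c hc)
      (fun i x hx => (mem_coeffLattice_top c _).2 (hT i x ((mem_coeffLattice_top c x).1 hx)))
      (fun i x hx => hT' i x hx) P
      (fun a ha x hx => smul_mem_coeffLattice P c ha hx)
      a v ((mem_coeffLattice_top c v).2 hv) hv'
      (fun i n => by
        obtain ⟨x, hx, hxe⟩ := hcong i n
        refine ⟨x, hx, ?_⟩
        rw [hxe, map_sub, LinearMap.map_smul_of_tower, Algebra.smul_def])
  exact ⟨w, b, 𝔓, hw0, h𝔓max, h𝔓P, hb, hcg⟩

end Coeff

section Valuation

variable {O : Type*} [CommRing O]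
variable {K : Type*} [Field K] [Algebra O K]

/-- A maximal ideal `𝔓` of the integral closure of `O` in the field `K` lying over the
ideal `P` of `O` is cut out by a valuation subring `R` of `K`: `R` contains every element
integral over `O`, and `𝔓` (resp. `P`) is the set of integral elements (resp. elements of `O`)
that are non-units of `R`. -/
theorem exists_valuationSubring_of_maximal_over (P : Ideal O)
    (𝔓 : Ideal (integralClosure O K)) (h𝔓 : 𝔓.IsMaximal)
    (hP : 𝔓.comap (algebraMap O (integralClosure O K)) = P) :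
    ∃ R : ValuationSubring K, (∀ x : K, IsIntegral O x → x ∈ R) ∧
      (∀ x : integralClosure O K, x ∈ 𝔓 ↔ (x : K) ∈ R.nonunits) ∧
      (∀ c : O, c ∈ P ↔ algebraMap O K c ∈ R.nonunits) := by
  let I : Ideal (integralClosure O K).toSubring := 𝔓
  have hI : I ≠ ⊤ := h𝔓.ne_top
  obtain ⟨R, hAR, hIR⟩ := Ideal.image_subset_nonunits_valuationSubring I hI
  have hint : ∀ x : K, IsIntegral O x → x ∈ R := fun x hx => hAR hx
  have h𝔓R : ∀ x : integralClosure O K, x ∈ 𝔓 ↔ (x : K) ∈ R.nonunits := by
    intro x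
    constructor
    · intro hx
      exact hIR ⟨x, hx, rfl⟩
    · intro hx
      by_contra hx𝔓
      obtain ⟨y, i, hi, hyi⟩ := h𝔓.exists_inv hx𝔓
      have hiR : (i : K) ∈ R.nonunits := hIR ⟨i, hi, rfl⟩
      have hyR : (y : K) ∈ R := hint _ y.2
      have h1 : (y : K) * (x : K) + (i : K) = 1 := by
        have := congrArg (fun z : integralClosure O K => (z : K)) hyi
        simpa using this
      obtain ⟨hxR, hxm⟩ := ValuationSubring.mem_nonunits_iff_exists_mem_maximalIdeal.1 hx
      obtain ⟨hiR', him⟩ := ValuationSubring.mem_nonunits_iff_exists_mem_maximalIdeal.1 hiR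
      have hsum : (⟨(y : K), hyR⟩ : R) * ⟨(x : K), hxR⟩ + ⟨(i : K), hiR'⟩
          ∈ IsLocalRing.maximalIdeal R :=
        Ideal.add_mem _ (Ideal.mul_mem_left _ _ hxm) him
      have h1' : (⟨(y : K), hyR⟩ : R) * ⟨(x : K), hxR⟩ + ⟨(i : K), hiR'⟩ = 1 := Subtype.ext h1
      rw [h1'] at hsum
      exact (IsLocalRing.maximalIdeal.isMaximal R).ne_top ((Ideal.eq_top_iff_one _).2 hsum)
  refine ⟨R, hint, h𝔓R, fun c => ?_⟩
  rw [← hP, Ideal.mem_comap, h𝔓R]
  rfl

end Valuation

section ValuationForm

variable {O : Type*} [CommRing O]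
variable {K : Type*} [Field K] [IsAlgClosed K] [Algebra O K]
variable {V : Type*} [AddCommGroup V] [Module K V] [FiniteDimensional K V]
variable [Module O V] [IsScalarTower O K V]

/-- **Deligne–Serre lifting, congruence form, valuation-subring conclusion** (S48-F3a').
Same hypotheses as `exists_eigen_lift_of_congruence`; the congruence `b i ≡ a i` is expressed
with a valuation subring `R` of `K` containing all elements integral over `O` and whose
non-units meet `O` exactly in `P`. -/
theorem exists_eigen_lift_valuationSubring_of_congruence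
    {ι : Type*} (T : ι → Module.End K V) (hcomm : ∀ i j, T i * T j = T j * T i)
    (Lam Lam' : Submodule O V) (hfg : Lam.FG)
    (hstab : ∀ i, ∀ x ∈ Lam, T i x ∈ Lam) (hstab' : ∀ i, ∀ x ∈ Lam', T i x ∈ Lam')
    (P : Ideal O) [P.IsMaximal] (hP : ∀ c ∈ P, ∀ x ∈ Lam, c • x ∈ Lam')
    (a : ι → O) (v : V) (hv : v ∈ Lam) (hv' : v ∉ Lam')
    (hcong : ∀ i, T i v - a i • v ∈ Lam') :
    ∃ (w : V) (b : ι → K) (R : ValuationSubring K),
      w ≠ 0 ∧ w ∈ Submodule.span K (Lam : Set V) ∧ (∀ i, T i w = b i • w) ∧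
      (∀ i, IsIntegral O (b i)) ∧ (∀ x : K, IsIntegral O x → x ∈ R) ∧
      (∀ c : O, c ∈ P ↔ algebraMap O K c ∈ R.nonunits) ∧
      ∀ i, b i - algebraMap O K (a i) ∈ R.nonunits := by
  obtain ⟨w, b, 𝔓, hw0, hwW, h𝔓max, h𝔓P, hb, hcg⟩ :=
    exists_eigen_lift_of_congruence T hcomm Lam Lam' hfg hstab hstab' P hP a v hv hv' hcong
  obtain ⟨R, hint, h𝔓R, hPR⟩ := exists_valuationSubring_of_maximal_over P 𝔓 h𝔓max h𝔓P
  refine ⟨w, fun i => (b i : K), R, hw0, hwW, hb, fun i => (b i).2, hint, hPR, fun i => ?_⟩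
  exact (h𝔓R _).1 (hcg i)

/-- **Deligne–Serre lifting, coefficient form, valuation-subring conclusion** (S48-F3c').
Same hypotheses as `exists_eigen_lift_of_coeff_congruence`. -/
theorem exists_eigen_lift_valuationSubring_of_coeff_congruence [IsNoetherianRing O]
    {κ : Type*} (c : κ → V →ₗ[K] K) (hc : ∀ g : V, (∀ n, c n g = 0) → g = 0)
    {ι : Type*} (T : ι → Module.End K V) (hcomm : ∀ i j, T i * T j = T j * T i)
    (P : Ideal O) [P.IsMaximal]
    (hT : ∀ i, ∀ g : V, (∀ n, ∃ x : O, algebraMap O K x = c n g) →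
      ∀ n, ∃ x : O, algebraMap O K x = c n (T i g))
    (hT' : ∀ i, ∀ g : V, (∀ n, ∃ x ∈ P, algebraMap O K x = c n g) →
      ∀ n, ∃ x ∈ P, algebraMap O K x = c n (T i g))
    (a : ι → O) (v : V) (hv : ∀ n, ∃ x : O, algebraMap O K x = c n v)
    (hv' : ¬ ∀ n, ∃ x ∈ P, algebraMap O K x = c n v)
    (hcong : ∀ i n, ∃ x ∈ P, algebraMap O K x = c n (T i v) - algebraMap O K (a i) * c n v) :
    ∃ (w : V) (b : ι → K) (R : ValuationSubring K),
      w ≠ 0 ∧ (∀ i, T i w = b i • w) ∧
      (∀ i, IsIntegral O (b i)) ∧ (∀ x : K, IsIntegral O x → x ∈ R) ∧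
      (∀ c : O, c ∈ P ↔ algebraMap O K c ∈ R.nonunits) ∧
      ∀ i, b i - algebraMap O K (a i) ∈ R.nonunits := by
  obtain ⟨w, b, 𝔓, hw0, h𝔓max, h𝔓P, hb, hcg⟩ :=
    exists_eigen_lift_of_coeff_congruence c hc T hcomm P hT hT' a v hv hv' hcong
  obtain ⟨R, hint, h𝔓R, hPR⟩ := exists_valuationSubring_of_maximal_over P 𝔓 h𝔓max h𝔓P
  refine ⟨w, fun i => (b i : K), R, hw0, hb, fun i => (b i).2, hint, hPR, fun i => ?_⟩
  exact (h𝔓R _).1 (hcg i)

end ValuationForm

section GivenPlace

variable {K : Type*} [Field K] [IsAlgClosed K]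
variable {V : Type*} [AddCommGroup V] [Module K V] [FiniteDimensional K V]

omit [IsAlgClosed K] in
/-- The non-units of a valuation subring are stable under multiplication by its elements. -/
theorem mul_mem_nonunits_of_mem (R : ValuationSubring K) {r x : K} (hr : r ∈ R)
    (hx : x ∈ R.nonunits) : r * x ∈ R.nonunits := by
  obtain ⟨hxR, hxm⟩ := ValuationSubring.mem_nonunits_iff_exists_mem_maximalIdeal.1 hx
  exact ValuationSubring.mem_nonunits_iff_exists_mem_maximalIdeal.2
    ⟨mul_mem hr hxR, Ideal.mul_mem_left _ ⟨r, hr⟩ hxm⟩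

omit [IsAlgClosed K] in
theorem mem_of_mem_nonunits (R : ValuationSubring K) {x : K} (hx : x ∈ R.nonunits) : x ∈ R :=
  (R.valuation_le_one_iff x).1 (le_of_lt (R.mem_nonunits_iff.1 hx))

omit [IsAlgClosed K] in
/-- An element of a valuation subring that is not a non-unit has its inverse in the subring. -/
theorem inv_mem_of_mem_of_not_mem_nonunits (R : ValuationSubring K) {x : K} (hx : x ∈ R)
    (hx' : x ∉ R.nonunits) : x⁻¹ ∈ R := by
  have h1 : R.valuation x = 1 :=
    le_antisymm ((R.valuation_le_one_iff x).2 hx)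
      (not_lt.1 fun h => hx' (R.mem_nonunits_iff.2 h))
  exact (R.valuation_le_one_iff _).1 (by rw [map_inv₀, h1, inv_one])

open scoped IsMulCommutative in
/-- A commuting family of operators stabilising a nonzero subspace has a common eigenvector
in it. -/
theorem exists_common_eigenvector_family {ι : Type*} (U : ι → Module.End K V)
    (hU : ∀ i j, U i * U j = U j * U i) (W : Submodule K V) (hW : W ≠ ⊥)
    (hstab : ∀ i, ∀ x ∈ W, U i x ∈ W) :
    ∃ w ∈ W, w ≠ 0 ∧ ∀ i, ∃ c : K, U i w = c • w := by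
  have hcomm' : ∀ x ∈ Set.range U, ∀ y ∈ Set.range U, x * y = y * x := by
    rintro _ ⟨i, rfl⟩ _ ⟨j, rfl⟩
    exact hU i j
  have := Algebra.isMulCommutative_adjoin K hcomm'
  let ρ : Algebra.adjoin K (Set.range U) →+* Module.End K V :=
    (Algebra.adjoin K (Set.range U)).val.toRingHom
  have hst : ∀ t : Algebra.adjoin K (Set.range U), ∀ x ∈ W, ρ t x ∈ W :=
    fun t => adjoin_range_stable (O := K) U W hstab t.2
  obtain ⟨w, hwW, hw0, hw⟩ :=
    Fermat.Agent.S49.helper529.exists_common_eigenvector ρ _ W rfl hW hst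
  exact ⟨w, hwW, hw0, fun i => hw ⟨U i, Algebra.subset_adjoin ⟨i, rfl⟩⟩⟩

/-- Induction behind `exists_eigen_lift_valuation`: a commuting family `U i` stabilising an
additive subgroup `L` that is stable under the valuation subring `R`; if a `U`-stable subspace
`W` contains a vector `v ∉ L` with all `U i v ∈ L`, then `W` contains a common eigenvector
all of whose eigenvalues are non-units of `R`.  No finiteness hypothesis on `L`. -/
theorem exists_eigenvector_nonunits_aux (R : ValuationSubring K) {ι : Type*}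
    (U : ι → Module.End K V) (hU : ∀ i j, U i * U j = U j * U i)
    (L : AddSubgroup V) (hRL : ∀ r : K, r ∈ R → ∀ x ∈ L, r • x ∈ L)
    (hUL : ∀ i, ∀ x ∈ L, U i x ∈ L) :
    ∀ (n : ℕ) (W : Submodule K V), Module.finrank K W = n → (∀ i, ∀ x ∈ W, U i x ∈ W) →
      ∀ v ∈ W, v ∉ L → (∀ i, U i v ∈ L) →
      ∃ w ∈ W, w ≠ 0 ∧ ∃ ν : ι → K, (∀ i, U i w = ν i • w) ∧ ∀ i, ν i ∈ R.nonunits := by
  intro n
  induction n using Nat.strong_induction_on with
  | _ n ih =>
    intro W hn hstab v hvW hvL hUv
    by_cases hcase : ∀ (j : ι) (μ : K) (x : V), x ∈ W → x ≠ 0 → U j x = μ • x →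
        μ ∈ R.nonunits
    · have hW : W ≠ ⊥ := by
        intro hbot
        rw [hbot, Submodule.mem_bot] at hvW
        exact hvL (hvW ▸ L.zero_mem)
      obtain ⟨w, hwW, hw0, hw⟩ := exists_common_eigenvector_family U hU W hW hstab
      choose ν hν using hw
      exact ⟨w, hwW, hw0, ν, hν, fun i => hcase i (ν i) w hwW hw0 (hν i)⟩
    · push Not at hcase
      obtain ⟨j, μ, x, hxW, hx0, hxμ, hμ⟩ := hcase
      let G : Module.End K V := U j - μ • (1 : Module.End K V)
      have hGapp : ∀ y : V, G y = U j y - μ • y := fun y => by simp [G]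
      let W' : Submodule K V := W.map G
      have hGW : ∀ y ∈ W, G y ∈ W := fun y hy => by
        rw [hGapp]
        exact W.sub_mem (hstab j y hy) (W.smul_mem μ hy)
      have hW'le : W' ≤ W := by
        rintro _ ⟨y, hy, rfl⟩
        exact hGW y hy
      have hW'ne : W' ≠ W := by
        intro heq
        let f : Module.End K W := G.restrict hGW
        have hsurj : Function.Surjective f := by
          intro y
          have hy : (y : V) ∈ W' := by rw [heq]; exact y.2
          obtain ⟨z, hz, hzy⟩ := hy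
          exact ⟨⟨z, hz⟩, Subtype.ext hzy⟩
        have hinj : Function.Injective f := LinearMap.injective_iff_surjective.mpr hsurj
        have h0 : f ⟨x, hxW⟩ = 0 := Subtype.ext (by
          change G x = 0
          rw [hGapp, hxμ, sub_self])
        have : (⟨x, hxW⟩ : W) = 0 := hinj (by rw [h0, map_zero])
        exact hx0 (congrArg Subtype.val this)
      have hfin : Module.finrank K W' < n :=
        hn ▸ Submodule.finrank_lt_finrank_of_lt (lt_of_le_of_ne hW'le hW'ne)
      have hUcomm : ∀ i (y : V), U i (U j y) = U j (U i y) := fun i y =>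
        congrArg (fun φ : Module.End K V => φ y) (hU i j)
      have hGcomm : ∀ i (y : V), U i (G y) = G (U i y) := fun i y => by
        rw [hGapp, hGapp, map_sub, map_smul, hUcomm]
      have hstab' : ∀ i, ∀ y ∈ W', U i y ∈ W' := by
        rintro i _ ⟨y, hy, rfl⟩
        exact ⟨U i y, hstab i y hy, (hGcomm i y).symm⟩
      obtain ⟨v', hv'W', hv'L, hUv'⟩ : ∃ v' ∈ W', v' ∉ L ∧ ∀ i, U i v' ∈ L := by
        by_cases hμR : μ ∈ R
        · -- `μ` is a unit of `R`
          have hμinv : μ⁻¹ ∈ R := inv_mem_of_mem_of_not_mem_nonunits R hμR hμ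
          have hμ0 : μ ≠ 0 := fun h => hμ (h ▸ R.nonunits.zero_mem)
          refine ⟨G v, ⟨v, hvW, rfl⟩, ?_, ?_⟩
          · intro h
            have h1 : μ • v ∈ L := by
              have : μ • v = U j v - G v := by rw [hGapp]; abel
              rw [this]
              exact L.sub_mem (hUv j) h
            have h2 : μ⁻¹ • (μ • v) = v := by
              rw [smul_smul, inv_mul_cancel₀ hμ0, one_smul]
            exact hvL (h2 ▸ hRL _ hμinv _ h1)
          · intro i
            rw [hGcomm, hGapp]
            exact L.sub_mem (hUL j _ (hUv i)) (hRL _ hμR _ (hUv i))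
        · -- `μ ∉ R`, so `μ⁻¹ ∈ R`
          have hμinv : μ⁻¹ ∈ R := (R.mem_or_inv_mem μ).resolve_left hμR
          have hμ0 : μ ≠ 0 := fun h => hμR (h ▸ R.zero_mem)
          have hFapp : ∀ y : V, μ⁻¹ • G y = μ⁻¹ • U j y - y := fun y => by
            rw [hGapp, smul_sub, smul_smul, inv_mul_cancel₀ hμ0, one_smul]
          refine ⟨μ⁻¹ • G v, W'.smul_mem _ ⟨v, hvW, rfl⟩, ?_, ?_⟩
          · intro h
            have h1 : v = μ⁻¹ • U j v - μ⁻¹ • G v := by rw [hFapp]; abel
            exact hvL (h1 ▸ L.sub_mem (hRL _ hμinv _ (hUv j)) h)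
          · intro i
            rw [map_smul, hGcomm, hFapp]
            exact L.sub_mem (hRL _ hμinv _ (hUL j _ (hUv i))) (hUv i)
      obtain ⟨w, hwW', hw0, ν, hν, hνR⟩ := ih _ hfin W' rfl hstab' v' hv'W' hv'L hUv'
      exact ⟨w, hW'le hwW', hw0, ν, hν, hνR⟩

/-- **Deligne–Serre lifting at a GIVEN place, inside a stable subspace.**

As `exists_eigen_lift_valuation`, with a `T`-stable subspace `W` containing `v`: the
eigenvector can be found in `W`. -/
theorem exists_eigen_lift_valuation_mem (R : ValuationSubring K) {ι : Type*}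
    (T : ι → Module.End K V) (hcomm : ∀ i j, T i * T j = T j * T i)
    (L : AddSubgroup V) (hRL : ∀ r : K, r ∈ R → ∀ x ∈ L, r • x ∈ L)
    (hTL : ∀ i, ∀ x ∈ L, T i x ∈ L)
    (a : ι → K) (ha : ∀ i, a i ∈ R)
    (W : Submodule K V) (hTW : ∀ i, ∀ x ∈ W, T i x ∈ W)
    (v : V) (hvW : v ∈ W) (hv : v ∉ L)
    (hcong : ∀ i, T i v - a i • v ∈ L) :
    ∃ (w : V) (b : ι → K), w ∈ W ∧ w ≠ 0 ∧ (∀ i, T i w = b i • w) ∧ (∀ i, b i ∈ R) ∧
      ∀ i, b i - a i ∈ R.nonunits := by
  let U : ι → Module.End K V := fun i => T i - a i • (1 : Module.End K V)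
  have hUapp : ∀ i (y : V), U i y = T i y - a i • y := fun i y => by simp [U]
  have hU : ∀ i j, U i * U j = U j * U i := fun i j =>
    (((show Commute (T i) (T j) from hcomm i j).sub_right
        ((Commute.one_right (T i)).smul_right (a j))).sub_left
      ((Commute.one_left (U j)).smul_left (a i))).eq
  have hUL : ∀ i, ∀ x ∈ L, U i x ∈ L := fun i x hx => by
    rw [hUapp]
    exact L.sub_mem (hTL i x hx) (hRL _ (ha i) x hx)
  have hUW : ∀ i, ∀ x ∈ W, U i x ∈ W := fun i x hx => by
    rw [hUapp]
    exact W.sub_mem (hTW i x hx) (W.smul_mem _ hx)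
  obtain ⟨w, hwW, hw0, ν, hν, hνR⟩ :=
    exists_eigenvector_nonunits_aux R U hU L hRL hUL _ W rfl hUW v hvW hv
      (fun i => by rw [hUapp]; exact hcong i)
  refine ⟨w, fun i => a i + ν i, hwW, hw0, fun i => ?_, fun i => ?_, fun i => ?_⟩
  · have h := hν i
    rw [hUapp, sub_eq_iff_eq_add] at h
    rw [h, add_smul, add_comm]
  · exact add_mem (ha i) (mem_of_mem_nonunits R (hνR i))
  · rw [add_sub_cancel_left]
    exact hνR i

/-- **Deligne–Serre lifting at a GIVEN place** (S48-F3a, shape of the S48 Spec).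

`K` algebraically closed, `R` a valuation subring of `K`, `V` finite-dimensional over `K`,
`T i` pairwise commuting operators.  `L` is ANY additive subgroup of `V` stable under `R` and
under all `T i` (no finiteness, no freeness; e.g. `𝔪_R • Λ`, or the vectors all of whose
coefficients are non-units of `R`).  If `v ∉ L` is an eigenvector modulo `L` with eigenvalues
`a i ∈ R`, there is an honest common eigenvector `w ≠ 0` with eigenvalues `b i ∈ R`,
`b i - a i ∈ 𝔪_R`. -/
theorem exists_eigen_lift_valuation (R : ValuationSubring K) {ι : Type*}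
    (T : ι → Module.End K V) (hcomm : ∀ i j, T i * T j = T j * T i)
    (L : AddSubgroup V) (hRL : ∀ r : K, r ∈ R → ∀ x ∈ L, r • x ∈ L)
    (hTL : ∀ i, ∀ x ∈ L, T i x ∈ L)
    (a : ι → K) (ha : ∀ i, a i ∈ R) (v : V) (hv : v ∉ L)
    (hcong : ∀ i, T i v - a i • v ∈ L) :
    ∃ (w : V) (b : ι → K), w ≠ 0 ∧ (∀ i, T i w = b i • w) ∧ (∀ i, b i ∈ R) ∧
      ∀ i, b i - a i ∈ R.nonunits := by
  obtain ⟨w, b, -, h⟩ := exists_eigen_lift_valuation_mem R T hcomm L hRL hTL a ha ⊤
    (fun _ _ _ => Submodule.mem_top) v Submodule.mem_top hv hcong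
  exact ⟨w, b, h⟩

/-- **Given place + integrality of the lifted eigenvalues.**

In addition to the hypotheses of `exists_eigen_lift_valuation`: `O` is any commutative ring
with `K` an `O`-algebra and `Lam` a finitely generated `T`-stable `O`-submodule of `V` whose
`K`-span contains `v`.  Then the lifted eigenvalues `b i` are moreover integral over `O`
(and the eigenvector lies in the `K`-span of `Lam`). -/
theorem exists_eigen_lift_valuation_isIntegral {O : Type*} [CommRing O] [Algebra O K]
    [Module O V] [IsScalarTower O K V] (R : ValuationSubring K) {ι : Type*}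
    (T : ι → Module.End K V) (hcomm : ∀ i j, T i * T j = T j * T i)
    (L : AddSubgroup V) (hRL : ∀ r : K, r ∈ R → ∀ x ∈ L, r • x ∈ L)
    (hTL : ∀ i, ∀ x ∈ L, T i x ∈ L)
    (a : ι → K) (ha : ∀ i, a i ∈ R)
    (Lam : Submodule O V) (hfg : Lam.FG) (hTLam : ∀ i, ∀ x ∈ Lam, T i x ∈ Lam)
    (v : V) (hvLam : v ∈ Submodule.span K (Lam : Set V)) (hv : v ∉ L)
    (hcong : ∀ i, T i v - a i • v ∈ L) :
    ∃ (w : V) (b : ι → K), w ≠ 0 ∧ w ∈ Submodule.span K (Lam : Set V) ∧
      (∀ i, T i w = b i • w) ∧ (∀ i, b i ∈ R) ∧ (∀ i, b i - a i ∈ R.nonunits) ∧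
      ∀ i, IsIntegral O (b i) := by
  have hTW : ∀ i, ∀ x ∈ Submodule.span K (Lam : Set V),
      T i x ∈ Submodule.span K (Lam : Set V) := by
    intro i x hx
    induction hx using Submodule.span_induction with
    | mem x hx => exact Submodule.subset_span (hTLam i x hx)
    | zero => rw [map_zero]; exact Submodule.zero_mem _
    | add x y _ _ hx hy => rw [map_add]; exact Submodule.add_mem _ hx hy
    | smul r x _ hx => rw [map_smul]; exact Submodule.smul_mem _ r hx
  obtain ⟨w, b, hwW, hw0, hb, hbR, hba⟩ :=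
    exists_eigen_lift_valuation_mem R T hcomm L hRL hTL a ha
      (Submodule.span K (Lam : Set V)) hTW v hvLam hv hcong
  exact ⟨w, b, hw0, hwW, hb, hbR, hba, fun i =>
    isIntegral_eigenvalue_of_fg_lattice Lam hfg (T i) (hTLam i) (b i) w hwW hw0 (hb i)⟩

/-- **Deligne–Serre lifting at a given place, coefficient form** (S48-F3c, given `R`).

`c n` are coefficient functionals on `V` (for S48: `q`-expansion coefficients on a
Hecke-stable finite-dimensional space of modular forms); the `T i` commute and preserve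
"all coefficients are non-units of `R`".  If some coefficient of `v` is not a non-unit of `R`
and `T i v ≡ a i • v` coefficientwise modulo `𝔪_R` (`a i ∈ R`), there is an honest common
eigenvector `w ≠ 0` with eigenvalues `b i ∈ R`, `b i - a i ∈ 𝔪_R`.  No integrality of `v`,
no injectivity of the coefficient family, no Noetherian hypothesis. -/
theorem exists_eigen_lift_valuation_of_coeff (R : ValuationSubring K) {κ : Type*}
    (c : κ → V →ₗ[K] K) {ι : Type*}
    (T : ι → Module.End K V) (hcomm : ∀ i j, T i * T j = T j * T i)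
    (hT : ∀ i, ∀ g : V, (∀ n, c n g ∈ R.nonunits) → ∀ n, c n (T i g) ∈ R.nonunits)
    (a : ι → K) (ha : ∀ i, a i ∈ R) (v : V) (hv : ¬ ∀ n, c n v ∈ R.nonunits)
    (hcong : ∀ i n, c n (T i v) - a i * c n v ∈ R.nonunits) :
    ∃ (w : V) (b : ι → K), w ≠ 0 ∧ (∀ i, T i w = b i • w) ∧ (∀ i, b i ∈ R) ∧
      ∀ i, b i - a i ∈ R.nonunits := by
  let L : AddSubgroup V :=
    { carrier := {g | ∀ n, c n g ∈ R.nonunits}
      add_mem' := fun {g h} hg hh n => by
        rw [map_add]
        exact R.nonunits.add_mem (hg n) (hh n)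
      zero_mem' := fun n => by
        rw [map_zero]
        exact R.nonunits.zero_mem
      neg_mem' := fun {g} hg n => by
        rw [map_neg]
        exact R.nonunits.neg_mem (hg n) }
  refine exists_eigen_lift_valuation R T hcomm L ?_ (fun i x hx => hT i x hx) a ha v hv ?_
  · intro r hr x hx n
    rw [map_smul, smul_eq_mul]
    exact mul_mem_nonunits_of_mem R hr (hx n)
  · intro i n
    rw [map_sub, map_smul, smul_eq_mul]
    exact hcong i n

/-- **Deligne–Serre lifting at a given place, coefficient form, with integrality**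
(S48-F3c, given `R`, eigenvalues integral over `O`).

As `exists_eigen_lift_valuation_of_coeff`; in addition `O` is a Noetherian ring with `K` an
`O`-algebra, the coefficient family is jointly injective, the `T i` preserve `O`-integrality
of coefficient families, and `v` lies in the `K`-span of the `O`-integral vectors (e.g. a
nonzero multiple of `v` has all its coefficients in `O`).  Then the lifted eigenvalues are
moreover integral over `O`. -/
theorem exists_eigen_lift_valuation_of_coeff_isIntegral {O : Type*} [CommRing O]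
    [IsNoetherianRing O] [Algebra O K] [Module O V] [IsScalarTower O K V]
    (R : ValuationSubring K) {κ : Type*}
    (c : κ → V →ₗ[K] K) (hc : ∀ g : V, (∀ n, c n g = 0) → g = 0) {ι : Type*}
    (T : ι → Module.End K V) (hcomm : ∀ i j, T i * T j = T j * T i)
    (hT : ∀ i, ∀ g : V, (∀ n, c n g ∈ R.nonunits) → ∀ n, c n (T i g) ∈ R.nonunits)
    (hTO : ∀ i, ∀ g : V, (∀ n, ∃ x : O, algebraMap O K x = c n g) →
      ∀ n, ∃ x : O, algebraMap O K x = c n (T i g))
    (a : ι → K) (ha : ∀ i, a i ∈ R) (v : V)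
    (hvO : v ∈ Submodule.span K (coeffLattice (⊤ : Ideal O) c : Set V))
    (hv : ¬ ∀ n, c n v ∈ R.nonunits)
    (hcong : ∀ i n, c n (T i v) - a i * c n v ∈ R.nonunits) :
    ∃ (w : V) (b : ι → K), w ≠ 0 ∧ (∀ i, T i w = b i • w) ∧ (∀ i, b i ∈ R) ∧
      (∀ i, b i - a i ∈ R.nonunits) ∧ ∀ i, IsIntegral O (b i) := by
  let L : AddSubgroup V :=
    { carrier := {g | ∀ n, c n g ∈ R.nonunits}
      add_mem' := fun {g h} hg hh n => by
        rw [map_add]
        exact R.nonunits.add_mem (hg n) (hh n)
      zero_mem' := fun n => by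
        rw [map_zero]
        exact R.nonunits.zero_mem
      neg_mem' := fun {g} hg n => by
        rw [map_neg]
        exact R.nonunits.neg_mem (hg n) }
  obtain ⟨w, b, hw0, -, hb, hbR, hba, hbint⟩ :=
    exists_eigen_lift_valuation_isIntegral (O := O) R T hcomm L
      (fun r hr x hx n => by
        rw [map_smul, smul_eq_mul]
        exact mul_mem_nonunits_of_mem R hr (hx n))
      (fun i x hx => hT i x hx) a ha
      (coeffLattice (⊤ : Ideal O) c) (coeffLattice_fg ⊤ c hc)
      (fun i x hx => (mem_coeffLattice_top c _).2 (hTO i x ((mem_coeffLattice_top c x).1 hx)))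
      v hvO hv
      (fun i n => by
        rw [map_sub, map_smul, smul_eq_mul]
        exact hcong i n)
  exact ⟨w, b, hw0, hb, hbR, hba, hbint⟩

omit [IsAlgClosed K] [FiniteDimensional K V] in
/-- A vector one of whose nonzero scalar multiples has all coefficients in `O` lies in the
`K`-span of the `O`-integral vectors. -/
theorem mem_span_coeffLattice_of_smul {O : Type*} [CommRing O] [Algebra O K]
    [Module O V] [IsScalarTower O K V] {κ : Type*} (c : κ → V →ₗ[K] K) (v : V) (s : K)
    (hs : s ≠ 0) (hsv : ∀ n, ∃ x : O, algebraMap O K x = s * c n v) :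
    v ∈ Submodule.span K (coeffLattice (⊤ : Ideal O) c : Set V) := by
  have h1 : s • v ∈ coeffLattice (⊤ : Ideal O) c := by
    rw [mem_coeffLattice_top]
    intro n
    obtain ⟨x, hx⟩ := hsv n
    exact ⟨x, by rw [hx, map_smul, smul_eq_mul]⟩
  have h2 : v = s⁻¹ • (s • v) := by rw [smul_smul, inv_mul_cancel₀ hs, one_smul]
  rw [h2]
  exact Submodule.smul_mem _ _ (Submodule.subset_span h1)

/-- **Given place + algebraic integrality, subring form** (the shape S48 consumes).

`O` is a subring of `K` that is finitely generated as a `ℤ`-module (e.g. the ring generated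
by finitely many algebraic integers).  Hypotheses as in
`exists_eigen_lift_valuation_of_coeff`, plus: the coefficient family is jointly injective,
the `T i` preserve "all coefficients in `O`", and some nonzero multiple of `v` has all its
coefficients in `O`.  Then the lifted eigenvalues `b i` are algebraic integers, lie in `R`,
and are congruent to `a i` modulo the maximal ideal of `R`. -/
theorem exists_eigen_lift_valuation_of_coeff_isIntegral_int (O : Subalgebra ℤ K)
    (hO : O.toSubmodule.FG) (R : ValuationSubring K) {κ : Type*}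
    (c : κ → V →ₗ[K] K) (hc : ∀ g : V, (∀ n, c n g = 0) → g = 0) {ι : Type*}
    (T : ι → Module.End K V) (hcomm : ∀ i j, T i * T j = T j * T i)
    (hT : ∀ i, ∀ g : V, (∀ n, c n g ∈ R.nonunits) → ∀ n, c n (T i g) ∈ R.nonunits)
    (hTO : ∀ i, ∀ g : V, (∀ n, c n g ∈ O) → ∀ n, c n (T i g) ∈ O)
    (a : ι → K) (ha : ∀ i, a i ∈ R) (v : V)
    (hvO : ∃ s : K, s ≠ 0 ∧ ∀ n, s * c n v ∈ O)
    (hv : ¬ ∀ n, c n v ∈ R.nonunits)
    (hcong : ∀ i n, c n (T i v) - a i * c n v ∈ R.nonunits) :
    ∃ (w : V) (b : ι → K), w ≠ 0 ∧ (∀ i, T i w = b i • w) ∧ (∀ i, b i ∈ R) ∧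
      (∀ i, b i - a i ∈ R.nonunits) ∧ ∀ i, IsIntegral ℤ (b i) := by
  have hfin : Module.Finite ℤ O := Module.Finite.iff_fg.2 hO
  have hnoeth : IsNoetherianRing O := isNoetherian_of_tower ℤ inferInstance
  have hint : Algebra.IsIntegral ℤ O := Algebra.IsIntegral.of_finite ℤ O
  have hex : ∀ g : V, (∀ n, ∃ x : O, algebraMap O K x = c n g) ↔ ∀ n, c n g ∈ O := fun g =>
    forall_congr' fun n => ⟨fun ⟨x, hx⟩ => hx ▸ x.2, fun h => ⟨⟨_, h⟩, rfl⟩⟩
  obtain ⟨s, hs, hsv⟩ := hvO
  obtain ⟨w, b, hw0, hb, hbR, hba, hbint⟩ :=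
    exists_eigen_lift_valuation_of_coeff_isIntegral (O := O) R c hc T hcomm hT
      (fun i g hg => (hex _).2 (hTO i g ((hex g).1 hg))) a ha v
      (mem_span_coeffLattice_of_smul (O := O) c v s hs (fun n => ⟨⟨_, hsv n⟩, rfl⟩)) hv hcong
  exact ⟨w, b, hw0, hb, hbR, hba, fun i => isIntegral_trans (A := O) _ (hbint i)⟩

end GivenPlace

section HeckeFormula

variable {K : Type*} [Field K]
variable {V : Type*} [AddCommGroup V] [Module K V]

/-- Two vectors with the same coefficients (for a jointly injective family of functionals)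
are equal. -/
theorem eq_of_forall_coeff_eq {κ : Type*} (c : κ → V →ₗ[K] K)
    (hc : ∀ g : V, (∀ n, c n g = 0) → g = 0) {x y : V} (h : ∀ n, c n x = c n y) : x = y :=
  sub_eq_zero.1 (hc _ fun n => by rw [map_sub, h n, sub_self])

/-- Operators given on coefficients by the Hecke formula
`c_n(T_p g) = c_{pn}(g) + u_p · [p ∣ n] · c_{n/p}(g)` at two distinct primes commute
(`q`-expansion principle: the coefficient family is jointly injective). -/
theorem hecke_formula_comm (c : ℕ → V →ₗ[K] K) (hc : ∀ g : V, (∀ n, c n g = 0) → g = 0)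
    {p q : ℕ} (hp : p.Prime) (hq : q.Prime) (hpq : p ≠ q) (Tp Tq : Module.End K V) (up uq : K)
    (hTp : ∀ (g : V) (n : ℕ), c n (Tp g) = c (p * n) g + up * (if p ∣ n then c (n / p) g else 0))
    (hTq : ∀ (g : V) (n : ℕ), c n (Tq g) = c (q * n) g + uq * (if q ∣ n then c (n / q) g else 0)) :
    Tp * Tq = Tq * Tp := by
  have hcop : Nat.Coprime p q := (Nat.coprime_primes hp hq).2 hpq
  apply LinearMap.ext
  intro g
  rw [Module.End.mul_apply, Module.End.mul_apply]
  apply eq_of_forall_coeff_eq c hc
  intro n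
  have e1 : c n (Tp (Tq g)) = (c (q * (p * n)) g + uq * (if q ∣ p * n then c (p * n / q) g else 0))
      + up * (if p ∣ n then (c (q * (n / p)) g
        + uq * (if q ∣ n / p then c (n / p / q) g else 0)) else 0) := by
    rw [hTp, hTq, hTq]
  have e2 : c n (Tq (Tp g)) = (c (p * (q * n)) g + up * (if p ∣ q * n then c (q * n / p) g else 0))
      + uq * (if q ∣ n then (c (p * (n / q)) g
        + up * (if p ∣ n / q then c (n / q / p) g else 0)) else 0) := by
    rw [hTq, hTp, hTp]
  rw [e1, e2]
  have h1 : q ∣ p * n ↔ q ∣ n := hcop.symm.dvd_mul_left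
  have h2 : p ∣ q * n ↔ p ∣ n := hcop.dvd_mul_left
  have h5 : q * (p * n) = p * (q * n) := Nat.mul_left_comm q p n
  by_cases hpn : p ∣ n <;> by_cases hqn : q ∣ n
  · have h3 : q ∣ n / p := by
      have : q ∣ p * (n / p) := by rw [Nat.mul_div_cancel' hpn]; exact hqn
      exact hcop.symm.dvd_mul_left.1 this
    have h4 : p ∣ n / q := by
      have : p ∣ q * (n / q) := by rw [Nat.mul_div_cancel' hqn]; exact hpn
      exact hcop.dvd_mul_left.1 this
    have h6 : n / p / q = n / q / p := by
      rw [Nat.div_div_eq_div_mul, Nat.div_div_eq_div_mul, mul_comm]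
    rw [if_pos (h1.2 hqn), if_pos hpn, if_pos h3, if_pos (h2.2 hpn), if_pos hqn, if_pos h4,
      Nat.mul_div_assoc p hqn, Nat.mul_div_assoc q hpn, h5, h6]
    ring
  · have h3 : ¬ q ∣ n / p := by
      intro h
      apply hqn
      have : q ∣ p * (n / p) := Dvd.dvd.mul_left h p
      rwa [Nat.mul_div_cancel' hpn] at this
    rw [if_neg (fun h => hqn (h1.1 h)), if_pos hpn, if_neg h3, if_pos (h2.2 hpn), if_neg hqn,
      Nat.mul_div_assoc q hpn, h5]
    ring
  · have h4 : ¬ p ∣ n / q := by
      intro h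
      apply hpn
      have : p ∣ q * (n / q) := Dvd.dvd.mul_left h q
      rwa [Nat.mul_div_cancel' hqn] at this
    rw [if_pos (h1.2 hqn), if_neg hpn, if_neg (fun h => hpn (h2.1 h)), if_pos hqn, if_neg h4,
      Nat.mul_div_assoc p hqn, h5]
    ring
  · rw [if_neg (fun h => hqn (h1.1 h)), if_neg hpn, if_neg (fun h => hpn (h2.1 h)), if_neg hqn,
      h5]
    ring

variable [IsAlgClosed K] [FiniteDimensional K V]

/-- **Deligne–Serre lifting at a given place, Hecke-sequence form** (S48-F3d).

`V` finite-dimensional over the algebraically closed field `K`, with a jointly injective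
family of coefficient functionals `c n` (`n : ℕ`); for every prime `p` in the set `S` an
operator `T p` known only through the Hecke coefficient formula
`c_n(T_p g) = c_{pn}(g) + u_p · [p ∣ n] · c_{n/p}(g)` with `u_p ∈ R`.  (Commutation of the
`T p` and all stabilities are consequences of the formula.)  If some coefficient of `v` is not
in `𝔪_R` and `v` satisfies the Hecke relations with eigenvalues `a p ∈ R` coefficientwise
modulo `𝔪_R`, then there is `w ≠ 0` satisfying the Hecke relations exactly, with eigenvalues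
`b p ∈ R`, `b p - a p ∈ 𝔪_R`. -/
theorem exists_eigen_lift_valuation_of_hecke_formula (R : ValuationSubring K)
    (c : ℕ → V →ₗ[K] K) (hc : ∀ g : V, (∀ n, c n g = 0) → g = 0)
    (S : Set ℕ) (hS : ∀ p ∈ S, p.Prime)
    (T : ℕ → Module.End K V) (u : ℕ → K) (hu : ∀ p ∈ S, u p ∈ R)
    (hform : ∀ p ∈ S, ∀ (g : V) (n : ℕ),
      c n (T p g) = c (p * n) g + u p * (if p ∣ n then c (n / p) g else 0))
    (a : ℕ → K) (ha : ∀ p ∈ S, a p ∈ R) (v : V) (hv : ¬ ∀ n, c n v ∈ R.nonunits)
    (hcong : ∀ p ∈ S, ∀ n : ℕ,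
      c (p * n) v + u p * (if p ∣ n then c (n / p) v else 0) - a p * c n v ∈ R.nonunits) :
    ∃ (w : V) (b : ℕ → K), w ≠ 0 ∧ (∀ p ∈ S, T p w = b p • w) ∧ (∀ p ∈ S, b p ∈ R) ∧
      (∀ p ∈ S, b p - a p ∈ R.nonunits) ∧
      ∀ p ∈ S, ∀ n : ℕ, c (p * n) w + u p * (if p ∣ n then c (n / p) w else 0) = b p * c n w := by
  classical
  have hcomm : ∀ i j : S, T i.1 * T j.1 = T j.1 * T i.1 := by
    intro i j
    by_cases hij : i.1 = j.1
    · rw [hij]
    · exact hecke_formula_comm c hc (hS _ i.2) (hS _ j.2) hij (T i.1) (T j.1) (u i.1) (u j.1)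
        (hform _ i.2) (hform _ j.2)
  obtain ⟨w, b', hw0, hb', hb'R, hb'a⟩ :=
    exists_eigen_lift_valuation_of_coeff R c (fun i : S => T i.1) hcomm
      (fun i g hg n => by
        rw [hform _ i.2]
        refine R.nonunits.add_mem (hg _) (mul_mem_nonunits_of_mem R (hu _ i.2) ?_)
        split_ifs
        · exact hg _
        · exact R.nonunits.zero_mem)
      (fun i : S => a i.1) (fun i => ha _ i.2) v hv
      (fun i n => by
        rw [hform _ i.2]
        exact hcong _ i.2 n)
  have key : ∀ (p : ℕ) (hp : p ∈ S), (if h : p ∈ S then b' ⟨p, h⟩ else 0) = b' ⟨p, hp⟩ :=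
    fun p hp => dif_pos hp
  refine ⟨w, fun p => if h : p ∈ S then b' ⟨p, h⟩ else 0, hw0, ?_, ?_, ?_, ?_⟩
  · intro p hp
    show T p w = (if h : p ∈ S then b' ⟨p, h⟩ else 0) • w
    rw [key p hp]
    exact hb' ⟨p, hp⟩
  · intro p hp
    show (if h : p ∈ S then b' ⟨p, h⟩ else 0) ∈ R
    rw [key p hp]
    exact hb'R ⟨p, hp⟩
  · intro p hp
    show (if h : p ∈ S then b' ⟨p, h⟩ else 0) - a p ∈ R.nonunits
    rw [key p hp]
    exact hb'a ⟨p, hp⟩
  · intro p hp n
    show c (p * n) w + u p * (if p ∣ n then c (n / p) w else 0)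
      = (if h : p ∈ S then b' ⟨p, h⟩ else 0) * c n w
    rw [key p hp, ← hform p hp, hb' ⟨p, hp⟩, map_smul, smul_eq_mul]

end HeckeFormula

end Fermat.Agent.S48.helper7199
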