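import Mathlib
import Fermat.Prelude.Def_FLTPrelim_Modularity
import Fermat.Prelude.Thm_ModularForm_sturm_bound_of_isArithmetic
import Fermat.Agent.S48.helper8231_Spec
import Fermat.Agent.S48.helper7199_Lifting
import Fermat.Agent.S48.helper5251_HeckeGamma1

/-!
# S48-CONG-CORE: the modular instance of the lifting lemma, in the Spec shape

* `finite_cuspForm_Gamma1`: `CuspForm (Gamma1 M) k` is finite-dimensional (Prelude Sturm bound).
* `exists_isEigen2_of_congruence`: a weight-two cusp form `v` on `Γ₁(M)` with nebentypus `ψ`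
  which satisfies the Hecke relations (in `q`-coefficient form) with eigenvalues `a p`
  coefficientwise modulo the maximal ideal of a valuation subring `R` of `ℂ`, and one of whose
  coefficients is not in that maximal ideal, lifts to an honest eigenvector `g`
  (`helper8231.IsEigen2 M ψ g b`) with `b p ∈ R`, `b p - a p ∈ 𝔪_R`.
-/

set_option autoImplicit false

namespace Fermat.Agent.S48.helper7199

open CongruenceSubgroup UpperHalfPlane ModularFormClass
open scoped MatrixGroups ModularForm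

section Finite

/-- `1` is a strict period of `Γ₁(M)`. -/
theorem one_mem_strictPeriods_Gamma1 (M : ℕ) :
    (1 : ℝ) ∈ ((Gamma1 M : Subgroup SL(2, ℤ)) : Subgroup (GL (Fin 2) ℝ)).strictPeriods := by
  simp [AddSubgroup.mem_zmultiples]

/-- The `n`-th `q`-coefficient as a linear functional on `CuspForm (Gamma1 M) k`. -/
noncomputable def qCoeffLin (M : ℕ) (k : ℤ) (n : ℕ) : CuspForm (Gamma1 M) k →ₗ[ℂ] ℂ where
  toFun g := qCoeff g n
  map_add' g h := by
    show (qExpansion 1 (⇑(g + h))).coeff n = (qExpansion 1 ⇑g).coeff n + (qExpansion 1 ⇑h).coeff n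
    rw [show (⇑(g + h) : ℍ → ℂ) = ⇑g + ⇑h from rfl, ModularForm.qExpansion_add one_pos (one_mem_strictPeriods_Gamma1 M) g h,
      map_add]
  map_smul' c g := by
    show (qExpansion 1 (⇑(c • g))).coeff n = c • (qExpansion 1 ⇑g).coeff n
    rw [show (⇑(c • g) : ℍ → ℂ) = c • ⇑g from rfl, ModularForm.qExpansion_smul one_pos (one_mem_strictPeriods_Gamma1 M) c g,
      map_smul]

theorem qCoeffLin_apply (M : ℕ) (k : ℤ) (n : ℕ) (g : CuspForm (Gamma1 M) k) :
    qCoeffLin M k n g = qCoeff g n := rfl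

variable {M : ℕ} [NeZero M] {k : ℤ}

/-- Sturm bound for cusp forms on `Γ₁(M)`: vanishing of the first coefficients forces `g = 0`. -/
theorem cuspForm_eq_zero_of_qCoeff_le (g : CuspForm (Gamma1 M) k)
    (h : ∀ n : ℕ, n ≤ (k * (((Gamma1 M : Subgroup SL(2, ℤ)) : Subgroup (GL (Fin 2) ℝ)).relIndex 𝒮ℒ : ℤ)).toNat / 12 → qCoeff g n = 0) : g = 0 := by
  have hmf : (g : ModularForm (Gamma1 M) k) = 0 := by
    apply ModularForm.sturm_bound_of_isArithmetic (one_mem_strictPeriods_Gamma1 M)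
    have hle := PowerSeries.nat_le_order (qExpansion 1 ⇑(g : ModularForm (Gamma1 M) k))
      ((k * (((Gamma1 M : Subgroup SL(2, ℤ)) : Subgroup (GL (Fin 2) ℝ)).relIndex 𝒮ℒ : ℤ)).toNat / 12 + 1)
      (fun i hi => h i (Nat.lt_succ_iff.1 hi))
    exact lt_of_lt_of_le (by exact_mod_cast Nat.lt_succ_self _) hle
  ext τ
  exact congrArg (fun f : ModularForm (Gamma1 M) k => f τ) hmf

/-- `q`-expansion principle for cusp forms on `Γ₁(M)`. -/
theorem cuspForm_eq_zero_of_qCoeff (g : CuspForm (Gamma1 M) k) (h : ∀ n : ℕ, qCoeff g n = 0) :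
    g = 0 :=
  cuspForm_eq_zero_of_qCoeff_le g fun n _ => h n

/-- `CuspForm (Gamma1 M) k` is finite-dimensional. -/
theorem finite_cuspForm_Gamma1 (M : ℕ) [NeZero M] (k : ℤ) :
    Module.Finite ℂ (CuspForm (Gamma1 M) k) := by
  let B : ℕ := (k * (((Gamma1 M : Subgroup SL(2, ℤ)) : Subgroup (GL (Fin 2) ℝ)).relIndex 𝒮ℒ : ℤ)).toNat / 12
  let Φ : CuspForm (Gamma1 M) k →ₗ[ℂ] (Fin (B + 1) → ℂ) :=
    LinearMap.pi (fun i => qCoeffLin M k i)
  have hΦ : Function.Injective Φ := by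
    rw [← LinearMap.ker_eq_bot, Submodule.eq_bot_iff]
    intro g hg
    rw [LinearMap.mem_ker] at hg
    apply cuspForm_eq_zero_of_qCoeff_le g
    intro n hn
    exact congrFun hg ⟨n, Nat.lt_succ_of_le hn⟩
  exact Module.Finite.of_injective Φ hΦ

end Finite

section Neben

variable {M : ℕ} {k : ℤ}

/-- The subspace of cusp forms on `Γ₁(M)` with nebentypus `χ` (slash form on `Γ₀(M)`). -/
def nebenSubmodule (M : ℕ) (k : ℤ) (χ : ZMod M → ℂ) : Submodule ℂ (CuspForm (Gamma1 M) k) where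
  carrier := {g | ∀ γ : SL(2, ℤ), γ ∈ Gamma0 M →
    (⇑g) ∣[k] γ = χ ((γ 1 1 : ℤ) : ZMod M) • (⇑g)}
  add_mem' := fun {g h} hg hh γ hγ => by
    rw [show (⇑(g + h) : ℍ → ℂ) = ⇑g + ⇑h from rfl, SlashAction.add_slash, hg γ hγ, hh γ hγ,
      smul_add]
  zero_mem' := fun γ _ => by
    rw [show (⇑(0 : CuspForm (Gamma1 M) k) : ℍ → ℂ) = 0 from rfl, SlashAction.zero_slash,
      smul_zero]
  smul_mem' := fun c g hg γ hγ => by
    rw [show (⇑(c • g) : ℍ → ℂ) = c • ⇑g from rfl, ModularForm.SL_smul_slash, hg γ hγ,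
      smul_comm]

theorem mem_nebenSubmodule (χ : ZMod M → ℂ) (g : CuspForm (Gamma1 M) k) :
    g ∈ nebenSubmodule M k χ ↔ ∀ γ : SL(2, ℤ), γ ∈ Gamma0 M →
      (⇑g) ∣[k] γ = χ ((γ 1 1 : ℤ) : ZMod M) • (⇑g) := Iff.rfl

variable [NeZero M]

/-- `T_p` (`p ∤ M`) preserves the nebentypus subspace. -/
theorem heckeTCF_mem_nebenSubmodule {p : ℕ} (hp : p.Prime) (h : Nat.Coprime p M)
    (χ : ZMod M → ℂ) (g : CuspForm (Gamma1 M) k) (hg : g ∈ nebenSubmodule M k χ) :
    Fermat.Agent.S48.helper5251.heckeTCF hp h g ∈ nebenSubmodule M k χ := by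
  intro γ hγ
  obtain ⟨d, hd⟩ := (Group.isUnit (⟨γ, hγ⟩ : Gamma0 M)).map (Gamma0Map M)
  have hd' : ((γ 1 1 : ℤ) : ZMod M) = d := hd.symm
  rw [Fermat.Agent.S48.helper5251.slash_eq_diamondCF _ γ hγ d hd',
    ← Fermat.Agent.S48.helper5251.heckeTCF_diamondCF,
    Fermat.Agent.S48.helper5251.diamondCF_eq_smul_of_nebentypus g χ hg d, map_smul, hd']
  rfl

end Neben

section Main

/-- **S48-CONG-CORE** (modular instance of the lifting lemma, Spec shape).

`v` is a weight-two cusp form on `Γ₁(M)` with nebentypus `ψ`, `R` a valuation subring of `ℂ`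
with `p ψ(p) ∈ R` and `a p ∈ R` for the primes `p ∤ M`.  If some `q`-coefficient of `v` is not
in the maximal ideal of `R` and `v` satisfies the weight-two Hecke relations with eigenvalues
`a p` coefficientwise modulo that maximal ideal, then there is a nonzero eigenvector `g` with
nebentypus `ψ` and eigenvalues `b p ∈ R`, `b p ≡ a p` modulo the maximal ideal of `R`. -/
theorem exists_isEigen2_of_congruence (M : ℕ) [NeZero M] (ψ : DirichletCharacter ℂ M)
    (R : ValuationSubring ℂ)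
    (hψR : ∀ p : ℕ, p.Prime → ¬ p ∣ M → (p : ℂ) * ψ (p : ZMod M) ∈ R)
    (v : CuspForm (Gamma1 M) 2)
    (hvψ : ∀ γ : SL(2, ℤ), γ ∈ Gamma0 M →
      (⇑v) ∣[(2 : ℤ)] γ = ψ ((γ 1 1 : ℤ) : ZMod M) • (⇑v))
    (a : ℕ → ℂ) (ha : ∀ p : ℕ, p.Prime → ¬ p ∣ M → a p ∈ R)
    (hv : ∃ n : ℕ, qCoeff v n ∉ R.nonunits)
    (hcong : ∀ p : ℕ, p.Prime → ¬ p ∣ M → ∀ n : ℕ,
      qCoeff v (p * n) + (p : ℂ) * ψ (p : ZMod M) * (if p ∣ n then qCoeff v (n / p) else 0)
        - a p * qCoeff v n ∈ R.nonunits) :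
    ∃ (g : CuspForm (Gamma1 M) 2) (b : ℕ → ℂ),
      Fermat.Agent.S48.helper8231.IsEigen2 M ψ g b ∧
      ∀ p : ℕ, p.Prime → ¬ p ∣ M → b p ∈ R ∧ b p - a p ∈ R.nonunits := by
  classical
  have hfin : Module.Finite ℂ (CuspForm (Gamma1 M) 2) := finite_cuspForm_Gamma1 M 2
  let W : Submodule ℂ (CuspForm (Gamma1 M) 2) := nebenSubmodule M 2 (⇑ψ)
  let c : ℕ → W →ₗ[ℂ] ℂ := fun n => (qCoeffLin M 2 n).comp W.subtype
  have hcapp : ∀ (n : ℕ) (g : W), c n g = qCoeff (g : CuspForm (Gamma1 M) 2) n := fun n g => rfl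
  have hc : ∀ g : W, (∀ n, c n g = 0) → g = 0 := fun g hg =>
    Subtype.ext (cuspForm_eq_zero_of_qCoeff (g : CuspForm (Gamma1 M) 2) hg)
  let S : Set ℕ := {p | p.Prime ∧ ¬ p ∣ M}
  have hS : ∀ p ∈ S, p.Prime := fun p hp => hp.1
  have hcop : ∀ p ∈ S, Nat.Coprime p M := fun p hp => (Nat.Prime.coprime_iff_not_dvd hp.1).2 hp.2
  let T : ℕ → Module.End ℂ W := fun p =>
    if h : p.Prime ∧ Nat.Coprime p M then
      (Fermat.Agent.S48.helper5251.heckeTCF h.1 h.2).restrict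
        (fun g hg => heckeTCF_mem_nebenSubmodule h.1 h.2 (⇑ψ) g hg)
    else 0
  let u : ℕ → ℂ := fun p => (p : ℂ) * ψ (p : ZMod M)
  have hform : ∀ p ∈ S, ∀ (g : W) (n : ℕ),
      c n (T p g) = c (p * n) g + u p * (if p ∣ n then c (n / p) g else 0) := by
    intro p hp g n
    have hpc : p.Prime ∧ Nat.Coprime p M := ⟨hp.1, hcop p hp⟩
    have hT : T p = (Fermat.Agent.S48.helper5251.heckeTCF hpc.1 hpc.2).restrict
        (fun g hg => heckeTCF_mem_nebenSubmodule hpc.1 hpc.2 (⇑ψ) g hg) := dif_pos hpc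
    rw [hT, hcapp, hcapp, LinearMap.coe_restrict_apply,
      Fermat.Agent.S48.helper5251.qCoeff_heckeTCF_of_nebentypus hpc.1 hpc.2
        (g : CuspForm (Gamma1 M) 2) (⇑ψ) g.2 n]
    have h21 : ((2 : ℤ) - 1) = 1 := by norm_num
    rw [h21, zpow_one]
    rfl
  obtain ⟨n₀, hn₀⟩ := hv
  obtain ⟨w, b, hw0, -, hbR, hba, hrel⟩ :=
    exists_eigen_lift_valuation_of_hecke_formula R c hc S hS T u
      (fun p hp => hψR p hp.1 hp.2) hform a (fun p hp => ha p hp.1 hp.2)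
      (⟨v, hvψ⟩ : W) (fun hall => hn₀ (hall n₀))
      (fun p hp n => hcong p hp.1 hp.2 n)
  refine ⟨(w : CuspForm (Gamma1 M) 2), b, ⟨fun h0 => hw0 (Subtype.ext h0), w.2, ?_⟩, ?_⟩
  · intro p hp hpM n
    exact hrel p ⟨hp, hpM⟩ n
  · intro p hp hpM
    exact ⟨hbR p ⟨hp, hpM⟩, hba p ⟨hp, hpM⟩⟩

end Main

end Fermat.Agent.S48.helper7199
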