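/-
S48 (Deligne–Serre): **`Stmt_Cong` is a theorem** — helper48.

`stmt_Cong : helper8231.Stmt_Cong`, from the wiring `cong_of` (helper48_SpecCong) and the
lifting core `helper7199.exists_isEigen2_of_congruence` (helper7199_CongCore).
-/
import Mathlib
import Fermat.Agent.S48.helper48_SpecCong
import Fermat.Agent.S48.helper7199_CongCore

set_option autoImplicit false

namespace Fermat.Agent.S48.helper48

/-- The lifting core, in the shape consumed by `cong_of`. -/
theorem stmt_CongCore : Stmt_CongCore :=
  fun M _ ψ R hψR v hvψ a ha hv hcong =>
    helper7199.exists_isEigen2_of_congruence M ψ R hψR v hvψ a ha hv hcong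

/-- **(CONG)** the weight 1 → weight 2 congruence of the Spec. -/
theorem stmt_Cong : helper8231.Stmt_Cong := cong_of stmt_CongCore

end Fermat.Agent.S48.helper48
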