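import Fermat.Agent.S48.helper5047_EvalDatum
import Fermat.Agent.S48.helper2648_LocGen

/-!
# S48-EVAL1, adapter (helper5047): `helper2648.EvalData` from generator data

For `F = ℚ̄(S)` generated by `q`-expansions of holomorphic functions (`S ⊆ qAlg i0`), the
canonical pair `(holAlg i0 F, holFun i0 F)` of `helper5047_EvalDatum` is an evaluation datum
in the sense of `helper2648_LocGen` as soon as

* `jF` is the `q`-expansion of the analytic `j`-function,
* the functions of the generators are `Γ`-invariant,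
* an element of `SL(2, ℤ)` fixing the functions of all generators lies in `Γ`.
-/

set_option autoImplicit false

open UpperHalfPlane ModularCurve
open scoped MatrixGroups Manifold

namespace Fermat.Agent.S48.helper5047

open Fermat.Agent.S24 Fermat.Agent.S24.helper24 Fermat.Agent.S24.helper1704

/-- **The evaluation datum of a field generated by `q`-expansions of holomorphic functions.** -/
theorem evalData_of_gen (i0 : Kbar →+* ℂ) (F : IntermediateField Kbar (LaurentSeries Kbar))
    {S : Set (LaurentSeries Kbar)} (hS : ∀ s ∈ S, s ∈ qAlg i0)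
    (hF : F = IntermediateField.adjoin Kbar S) (Γ : Subgroup SL(2, ℤ)) (jF : F)
    (hj : HasQ 1 jFun (coeffMap i0 (jF : LaurentSeries Kbar)))
    (hinv : ∀ γ ∈ Γ, ∀ s (hs : s ∈ S) (τ : ℍ),
      qFun i0 ⟨s, hS s hs⟩ (γ • τ) = qFun i0 ⟨s, hS s hs⟩ τ)
    (hsep : ∀ g : SL(2, ℤ), (∀ s (hs : s ∈ S) (τ : ℍ),
      qFun i0 ⟨s, hS s hs⟩ (g • τ) = qFun i0 ⟨s, hS s hs⟩ τ) → g ∈ Γ) :
    helper2648.EvalData Γ jF i0 (holAlg i0 F) (holFun i0 F) where
  frac := exists_holAlg_frac i0 F hS hF
  inj := holFun_injective i0 F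
  hol := mdiff_holFun i0 F
  const := holFun_algebraMap i0 F
  j_mem := ⟨jFun, hj⟩
  j_eval := holFun_eq i0 F hj
  inv := fun γ hγ a τ => holFun_smul_of_gen i0 F hS hF γ (hinv γ hγ) a τ
  sep := fun g hg => hsep g (fun s hs τ => by
    have hsF : s ∈ F := by rw [hF]; exact IntermediateField.subset_adjoin Kbar S hs
    exact hg ⟨⟨s, hsF⟩, hS s hs⟩ τ)

end Fermat.Agent.S48.helper5047
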