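import Mathlib

/-!
# S48-WPCUSP: behaviour at `i∞` of the division values of `℘`, `℘'`

Input (hypothesis-passing): the `q`-expansions (T1), (T2) of the Weierstrass functions of the
lattice `ℤ + ℤτ` at points of the strip `|Im z| < Im τ` (leaf A1).

Output: uniform remainder bounds, limits at `i∞` of `τ ↦ ℘(ατ + β)`, `τ ↦ ℘'(ατ + β)` and
boundedness at `i∞` of the ratio `℘'(z_a) / (℘(z_a) - ℘(z_b))`.
-/

set_option autoImplicit false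

namespace Fermat.Agent.S48.helper5371

open Complex Filter Topology

open UpperHalfPlane hiding I

open scoped Real PeriodPair

/-! ### The `q`-expansion coefficients (shapes of leaf A1) -/

/-- Coefficients of the `q`-expansion of `(2πi)⁻² ℘(z)`, `u = exp(2πiz)`. -/
noncomputable def wpCoeff (u : ℂ) (N : ℕ) : ℂ :=
  if N = 0 then 1 / 12 + u / (1 - u) ^ 2
  else ∑ d ∈ N.divisors, (d : ℂ) * (u ^ d + u⁻¹ ^ d - 2)

/-- Coefficients of the `q`-expansion of `(2πi)⁻³ ℘'(z)`, `u = exp(2πiz)`. -/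
noncomputable def wpDerivCoeff (u : ℂ) (N : ℕ) : ℂ :=
  if N = 0 then u * (1 + u) / (1 - u) ^ 3
  else ∑ d ∈ N.divisors, (d : ℂ) ^ 2 * (u ^ d - u⁻¹ ^ d)

@[simp] theorem wpCoeff_zero (u : ℂ) : wpCoeff u 0 = 1 / 12 + u / (1 - u) ^ 2 := by
  simp [wpCoeff]

@[simp] theorem wpDerivCoeff_zero (u : ℂ) : wpDerivCoeff u 0 = u * (1 + u) / (1 - u) ^ 3 := by
  simp [wpDerivCoeff]

/-- (T1) of leaf A1: the `q`-expansion of `℘` on the strip `|Im z| < Im τ`. -/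
def HypT1 : Prop :=
  ∀ L : PeriodPair, L.ω₁ = 1 → 0 < L.ω₂.im →
    ∀ z : ℂ, z ∈ Complex.integerComplement → |z.im| < L.ω₂.im →
      HasSum (fun N : ℕ ↦ wpCoeff (cexp (2 * π * I * z)) N * cexp (2 * π * I * L.ω₂) ^ N)
        (((2 * π * I) ^ 2)⁻¹ * ℘[L] z)

/-- (T2) of leaf A1: the `q`-expansion of `℘'` on the strip `|Im z| < Im τ`. -/
def HypT2 : Prop :=
  ∀ L : PeriodPair, L.ω₁ = 1 → 0 < L.ω₂.im →
    ∀ z : ℂ, z ∈ Complex.integerComplement → |z.im| < L.ω₂.im →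
      HasSum (fun N : ℕ ↦ wpDerivCoeff (cexp (2 * π * I * z)) N * cexp (2 * π * I * L.ω₂) ^ N)
        (((2 * π * I) ^ 3)⁻¹ * ℘'[L] z)

/-! ### A tail estimate for power series with polynomially bounded coefficients -/

/-- The absolute constant of the remainder estimates. -/
noncomputable def cuspK : ℝ := 4 * ∑' N : ℕ, ((N : ℝ) + 1) ^ 3 * (1 / 2 : ℝ) ^ N

theorem summable_cuspK : Summable (fun N : ℕ ↦ ((N : ℝ) + 1) ^ 3 * (1 / 2 : ℝ) ^ N) := by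
  have h : Summable (fun n : ℕ ↦ (n : ℝ) ^ 3 * (1 / 2 : ℝ) ^ n) :=
    summable_pow_mul_geometric_of_norm_lt_one 3 (by norm_num)
  have h' := ((summable_nat_add_iff 1).mpr h).mul_left 2
  refine h'.congr fun N ↦ ?_
  push_cast
  ring

theorem cuspK_nonneg : 0 ≤ cuspK := by
  unfold cuspK
  have : 0 ≤ ∑' N : ℕ, ((N : ℝ) + 1) ^ 3 * (1 / 2 : ℝ) ^ N := tsum_nonneg fun N ↦ by positivity
  positivity

/-- Tail estimate: if `‖c N‖ ≤ 4 N³ R^N` for `N ≥ 1` and `ε = R‖q‖ ≤ 1/2`, then the sum of the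
series `∑ c N q^N` differs from `c 0` by at most `cuspK * ε`. -/
theorem norm_sub_le_of_hasSum {c : ℕ → ℂ} {q S : ℂ} {R : ℝ} (hR : 0 ≤ R)
    (hS : HasSum (fun N : ℕ ↦ c N * q ^ N) S)
    (hc : ∀ N : ℕ, 1 ≤ N → ‖c N‖ ≤ 4 * (N : ℝ) ^ 3 * R ^ N)
    (hε : R * ‖q‖ ≤ 1 / 2) : ‖S - c 0‖ ≤ cuspK * (R * ‖q‖) := by
  set ε : ℝ := R * ‖q‖ with hεdef
  have hε0 : 0 ≤ ε := by positivity
  have h1 : HasSum (fun N : ℕ ↦ c (N + 1) * q ^ (N + 1)) (S - c 0) := by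
    have := (hasSum_nat_add_iff' 1).mpr hS
    simpa using this
  have h2 : HasSum (fun N : ℕ ↦ (4 * ε) * (((N : ℝ) + 1) ^ 3 * (1 / 2 : ℝ) ^ N))
      ((4 * ε) * ∑' N : ℕ, ((N : ℝ) + 1) ^ 3 * (1 / 2 : ℝ) ^ N) :=
    summable_cuspK.hasSum.mul_left _
  have h3 : ∀ N : ℕ, ‖c (N + 1) * q ^ (N + 1)‖ ≤
      (4 * ε) * (((N : ℝ) + 1) ^ 3 * (1 / 2 : ℝ) ^ N) := by
    intro N
    have hcN := hc (N + 1) (by omega)
    have hpow : ε ^ N ≤ (1 / 2 : ℝ) ^ N := pow_le_pow_left₀ hε0 hε N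
    calc ‖c (N + 1) * q ^ (N + 1)‖ = ‖c (N + 1)‖ * ‖q‖ ^ (N + 1) := by
          rw [norm_mul, norm_pow]
      _ ≤ (4 * ((N + 1 : ℕ) : ℝ) ^ 3 * R ^ (N + 1)) * ‖q‖ ^ (N + 1) := by gcongr
      _ = 4 * ((N : ℝ) + 1) ^ 3 * (ε * ε ^ N) := by
          rw [hεdef]; push_cast; ring
      _ ≤ 4 * ((N : ℝ) + 1) ^ 3 * (ε * (1 / 2 : ℝ) ^ N) := by gcongr
      _ = (4 * ε) * (((N : ℝ) + 1) ^ 3 * (1 / 2 : ℝ) ^ N) := by ring
  have := h1.norm_le_of_bounded h2 h3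
  calc ‖S - c 0‖ ≤ (4 * ε) * ∑' N : ℕ, ((N : ℝ) + 1) ^ 3 * (1 / 2 : ℝ) ^ N := this
    _ = cuspK * ε := by unfold cuspK; ring

/-! ### Coefficient bounds -/

theorem norm_wpCoeff_le {u : ℂ} {R : ℝ} (hR : 1 ≤ R) (hu : ‖u‖ ≤ R) (hu' : ‖u⁻¹‖ ≤ R) {N : ℕ}
    (hN : 1 ≤ N) : ‖wpCoeff u N‖ ≤ 4 * (N : ℝ) ^ 3 * R ^ N := by
  have hN0 : N ≠ 0 := by omega
  have hN1 : (1 : ℝ) ≤ N := by exact_mod_cast hN
  have hRN : (1 : ℝ) ≤ R ^ N := one_le_pow₀ hR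
  rw [wpCoeff, if_neg hN0]
  have hterm : ∀ d ∈ N.divisors, ‖(d : ℂ) * (u ^ d + u⁻¹ ^ d - 2)‖ ≤ (N : ℝ) * (4 * R ^ N) := by
    intro d hd
    have hdN : d ≤ N := Nat.divisor_le hd
    have h1 : ‖u ^ d‖ ≤ R ^ N := by
      rw [norm_pow]
      calc ‖u‖ ^ d ≤ R ^ d := pow_le_pow_left₀ (norm_nonneg _) hu d
        _ ≤ R ^ N := pow_le_pow_right₀ hR hdN
    have h2 : ‖u⁻¹ ^ d‖ ≤ R ^ N := by
      rw [norm_pow]
      calc ‖u⁻¹‖ ^ d ≤ R ^ d := pow_le_pow_left₀ (norm_nonneg _) hu' d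
        _ ≤ R ^ N := pow_le_pow_right₀ hR hdN
    have h4 : ‖u ^ d + u⁻¹ ^ d - 2‖ ≤ 4 * R ^ N := by
      calc ‖u ^ d + u⁻¹ ^ d - 2‖ ≤ ‖u ^ d + u⁻¹ ^ d‖ + ‖(2 : ℂ)‖ := norm_sub_le _ _
        _ ≤ ‖u ^ d‖ + ‖u⁻¹ ^ d‖ + 2 := by
          have := norm_add_le (u ^ d) (u⁻¹ ^ d)
          have h2' : ‖(2 : ℂ)‖ = 2 := by simp
          linarith
        _ ≤ 4 * R ^ N := by linarith
    have h5 : ‖(d : ℂ)‖ ≤ (N : ℝ) := by
      rw [Complex.norm_natCast]; exact_mod_cast hdN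
    rw [norm_mul]
    exact mul_le_mul h5 h4 (norm_nonneg _) (by positivity)
  have hcard : (N.divisors.card : ℝ) ≤ N := by exact_mod_cast Nat.card_divisors_le_self N
  calc ‖∑ d ∈ N.divisors, (d : ℂ) * (u ^ d + u⁻¹ ^ d - 2)‖
      ≤ ∑ d ∈ N.divisors, ‖(d : ℂ) * (u ^ d + u⁻¹ ^ d - 2)‖ := norm_sum_le _ _
    _ ≤ ∑ _d ∈ N.divisors, (N : ℝ) * (4 * R ^ N) := Finset.sum_le_sum hterm
    _ = (N.divisors.card : ℝ) * ((N : ℝ) * (4 * R ^ N)) := by simp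
    _ ≤ (N : ℝ) * ((N : ℝ) * (4 * R ^ N)) := by gcongr
    _ = 4 * (N : ℝ) ^ 2 * R ^ N := by ring
    _ ≤ 4 * (N : ℝ) ^ 3 * R ^ N := by
      have : (N : ℝ) ^ 2 ≤ (N : ℝ) ^ 3 := pow_le_pow_right₀ hN1 (by norm_num)
      gcongr

theorem norm_wpDerivCoeff_le {u : ℂ} {R : ℝ} (hR : 1 ≤ R) (hu : ‖u‖ ≤ R) (hu' : ‖u⁻¹‖ ≤ R)
    {N : ℕ} (hN : 1 ≤ N) : ‖wpDerivCoeff u N‖ ≤ 4 * (N : ℝ) ^ 3 * R ^ N := by
  have hN0 : N ≠ 0 := by omega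
  have hN1 : (1 : ℝ) ≤ N := by exact_mod_cast hN
  have hRN : (1 : ℝ) ≤ R ^ N := one_le_pow₀ hR
  rw [wpDerivCoeff, if_neg hN0]
  have hterm : ∀ d ∈ N.divisors, ‖(d : ℂ) ^ 2 * (u ^ d - u⁻¹ ^ d)‖ ≤
      (N : ℝ) ^ 2 * (2 * R ^ N) := by
    intro d hd
    have hdN : d ≤ N := Nat.divisor_le hd
    have h1 : ‖u ^ d‖ ≤ R ^ N := by
      rw [norm_pow]
      calc ‖u‖ ^ d ≤ R ^ d := pow_le_pow_left₀ (norm_nonneg _) hu d
        _ ≤ R ^ N := pow_le_pow_right₀ hR hdN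
    have h2 : ‖u⁻¹ ^ d‖ ≤ R ^ N := by
      rw [norm_pow]
      calc ‖u⁻¹‖ ^ d ≤ R ^ d := pow_le_pow_left₀ (norm_nonneg _) hu' d
        _ ≤ R ^ N := pow_le_pow_right₀ hR hdN
    have h4 : ‖u ^ d - u⁻¹ ^ d‖ ≤ 2 * R ^ N := by
      have := norm_sub_le (u ^ d) (u⁻¹ ^ d)
      linarith
    have h5 : ‖(d : ℂ) ^ 2‖ ≤ (N : ℝ) ^ 2 := by
      rw [norm_pow, Complex.norm_natCast]
      have : (d : ℝ) ≤ N := by exact_mod_cast hdN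
      gcongr
    rw [norm_mul]
    exact mul_le_mul h5 h4 (norm_nonneg _) (by positivity)
  have hcard : (N.divisors.card : ℝ) ≤ N := by exact_mod_cast Nat.card_divisors_le_self N
  calc ‖∑ d ∈ N.divisors, (d : ℂ) ^ 2 * (u ^ d - u⁻¹ ^ d)‖
      ≤ ∑ d ∈ N.divisors, ‖(d : ℂ) ^ 2 * (u ^ d - u⁻¹ ^ d)‖ := norm_sum_le _ _
    _ ≤ ∑ _d ∈ N.divisors, (N : ℝ) ^ 2 * (2 * R ^ N) := Finset.sum_le_sum hterm
    _ = (N.divisors.card : ℝ) * ((N : ℝ) ^ 2 * (2 * R ^ N)) := by simp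
    _ ≤ (N : ℝ) * ((N : ℝ) ^ 2 * (2 * R ^ N)) := by gcongr
    _ = 2 * (N : ℝ) ^ 3 * R ^ N := by ring
    _ ≤ 4 * (N : ℝ) ^ 3 * R ^ N := by
      have : 0 ≤ (N : ℝ) ^ 3 * R ^ N := by positivity
      nlinarith

/-! ### (K1) Uniform remainder estimates on the strip -/

theorem norm_cexp_two_pi_I_mul (z : ℂ) : ‖cexp (2 * π * I * z)‖ = Real.exp (-(2 * π * z.im)) := by
  rw [Complex.norm_exp]
  congr 1
  simp [Complex.mul_re, Complex.mul_im]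

theorem norm_inv_cexp_two_pi_I_mul (z : ℂ) :
    ‖(cexp (2 * π * I * z))⁻¹‖ = Real.exp (2 * π * z.im) := by
  rw [norm_inv, norm_cexp_two_pi_I_mul, ← Real.exp_neg, neg_neg]

/-- (K1) for `℘`: on the strip `|Im z| < Im τ`, `(2πi)⁻² ℘(z)` differs from
`1/12 + u/(1-u)²` by at most `cuspK * exp(-2π(Im τ - |Im z|))`. -/
theorem norm_wp_sub_le (hT1 : HypT1) (L : PeriodPair) (h1 : L.ω₁ = 1) (hτ : 0 < L.ω₂.im) {z : ℂ}
    (hz : z ∈ Complex.integerComplement) (hzim : |z.im| < L.ω₂.im)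
    (hε : Real.exp (-(2 * π * (L.ω₂.im - |z.im|))) ≤ 1 / 2) :
    ‖((2 * π * I) ^ 2)⁻¹ * ℘[L] z -
        (1 / 12 + cexp (2 * π * I * z) / (1 - cexp (2 * π * I * z)) ^ 2)‖ ≤
      cuspK * Real.exp (-(2 * π * (L.ω₂.im - |z.im|))) := by
  have hS := hT1 L h1 hτ z hz hzim
  set u : ℂ := cexp (2 * π * I * z) with hu
  set R : ℝ := Real.exp (2 * π * |z.im|) with hR
  have hR1 : 1 ≤ R := Real.one_le_exp (by positivity)
  have hu1 : ‖u‖ ≤ R := by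
    rw [hu, norm_cexp_two_pi_I_mul, hR]
    apply Real.exp_le_exp.mpr
    have := neg_abs_le z.im
    nlinarith [Real.pi_pos]
  have hu2 : ‖u⁻¹‖ ≤ R := by
    rw [hu, norm_inv_cexp_two_pi_I_mul, hR]
    apply Real.exp_le_exp.mpr
    have := le_abs_self z.im
    nlinarith [Real.pi_pos]
  have hRq : R * ‖cexp (2 * π * I * L.ω₂)‖ = Real.exp (-(2 * π * (L.ω₂.im - |z.im|))) := by
    rw [norm_cexp_two_pi_I_mul, hR, ← Real.exp_add]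
    congr 1
    ring
  have := norm_sub_le_of_hasSum (c := wpCoeff u) (R := R) (by linarith) hS
    (fun N hN ↦ norm_wpCoeff_le hR1 hu1 hu2 hN) (by rw [hRq]; exact hε)
  rw [hRq, wpCoeff_zero] at this
  exact this

/-- (K1) for `℘'`: on the strip `|Im z| < Im τ`, `(2πi)⁻³ ℘'(z)` differs from
`u(1+u)/(1-u)³` by at most `cuspK * exp(-2π(Im τ - |Im z|))`. -/
theorem norm_derivWp_sub_le (hT2 : HypT2) (L : PeriodPair) (h1 : L.ω₁ = 1) (hτ : 0 < L.ω₂.im)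
    {z : ℂ} (hz : z ∈ Complex.integerComplement) (hzim : |z.im| < L.ω₂.im)
    (hε : Real.exp (-(2 * π * (L.ω₂.im - |z.im|))) ≤ 1 / 2) :
    ‖((2 * π * I) ^ 3)⁻¹ * ℘'[L] z -
        cexp (2 * π * I * z) * (1 + cexp (2 * π * I * z)) / (1 - cexp (2 * π * I * z)) ^ 3‖ ≤
      cuspK * Real.exp (-(2 * π * (L.ω₂.im - |z.im|))) := by
  have hS := hT2 L h1 hτ z hz hzim
  set u : ℂ := cexp (2 * π * I * z) with hu
  set R : ℝ := Real.exp (2 * π * |z.im|) with hR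
  have hR1 : 1 ≤ R := Real.one_le_exp (by positivity)
  have hu1 : ‖u‖ ≤ R := by
    rw [hu, norm_cexp_two_pi_I_mul, hR]
    apply Real.exp_le_exp.mpr
    have := neg_abs_le z.im
    nlinarith [Real.pi_pos]
  have hu2 : ‖u⁻¹‖ ≤ R := by
    rw [hu, norm_inv_cexp_two_pi_I_mul, hR]
    apply Real.exp_le_exp.mpr
    have := le_abs_self z.im
    nlinarith [Real.pi_pos]
  have hRq : R * ‖cexp (2 * π * I * L.ω₂)‖ = Real.exp (-(2 * π * (L.ω₂.im - |z.im|))) := by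
    rw [norm_cexp_two_pi_I_mul, hR, ← Real.exp_add]
    congr 1
    ring
  have := norm_sub_le_of_hasSum (c := wpDerivCoeff u) (R := R) (by linarith) hS
    (fun N hN ↦ norm_wpDerivCoeff_le hR1 hu1 hu2 hN) (by rw [hRq]; exact hε)
  rw [hRq, wpDerivCoeff_zero] at this
  exact this

/-! ### The functions `u(τ) = exp(2πi(ατ+β))` and `E_γ(τ) = exp(2πiγτ)` -/

/-- `u(τ) = exp(2πi(ατ + β))`. -/
noncomputable def uFun (α β : ℝ) (τ : ℍ) : ℂ := cexp (2 * π * I * ((α : ℂ) * (τ : ℂ) + (β : ℂ)))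

/-- `E_γ(τ) = exp(2πiγτ)`. -/
noncomputable def EFun (γ : ℝ) (τ : ℍ) : ℂ := cexp (2 * π * I * ((γ : ℂ) * (τ : ℂ)))

/-- `x(u) = u/(1-u)²`, the constant term of `(2πi)⁻² ℘ - 1/12`. -/
noncomputable def xfun (u : ℂ) : ℂ := u / (1 - u) ^ 2

/-- `y(u) = u(1+u)/(1-u)³`, the constant term of `(2πi)⁻³ ℘'`. -/
noncomputable def yfun (u : ℂ) : ℂ := u * (1 + u) / (1 - u) ^ 3

theorem EFun_ne_zero (γ : ℝ) (τ : ℍ) : EFun γ τ ≠ 0 := Complex.exp_ne_zero _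

theorem EFun_zero (τ : ℍ) : EFun 0 τ = 1 := by simp [EFun]

theorem EFun_add (a b : ℝ) (τ : ℍ) : EFun (a + b) τ = EFun a τ * EFun b τ := by
  unfold EFun
  rw [← Complex.exp_add]
  congr 1
  push_cast
  ring

theorem uFun_eq (α β : ℝ) (τ : ℍ) : uFun α β τ = cexp (2 * π * I * (β : ℂ)) * EFun α τ := by
  unfold uFun EFun
  rw [← Complex.exp_add]
  congr 1
  ring

theorem uFun_zero_left (β : ℝ) (τ : ℍ) : uFun 0 β τ = cexp (2 * π * I * (β : ℂ)) := by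
  simp [uFun]

theorem norm_EFun (γ : ℝ) (τ : ℍ) : ‖EFun γ τ‖ = Real.exp (-(2 * π * (γ * τ.im))) := by
  unfold EFun
  rw [norm_cexp_two_pi_I_mul]
  simp

theorem tendsto_exp_neg_im {c : ℝ} (hc : 0 < c) :
    Tendsto (fun τ : ℍ ↦ Real.exp (-(c * τ.im))) atImInfty (𝓝 0) := by
  have h : Tendsto (fun τ : ℍ ↦ c * τ.im) atImInfty atTop :=
    (tendsto_comap : Tendsto UpperHalfPlane.im atImInfty atTop).const_mul_atTop hc
  exact Real.tendsto_exp_neg_atTop_nhds_zero.comp h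

theorem tendsto_EFun_zero {γ : ℝ} (hγ : 0 < γ) : Tendsto (EFun γ) atImInfty (𝓝 0) := by
  rw [tendsto_zero_iff_norm_tendsto_zero]
  have h := tendsto_exp_neg_im (c := 2 * π * γ) (by positivity)
  refine h.congr fun τ ↦ ?_
  rw [norm_EFun]
  congr 1
  ring

theorem tendsto_uFun_zero {α : ℝ} (hα : 0 < α) (β : ℝ) : Tendsto (uFun α β) atImInfty (𝓝 0) := by
  have h := (tendsto_EFun_zero hα).const_mul (cexp (2 * π * I * (β : ℂ)))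
  rw [mul_zero] at h
  exact h.congr fun τ ↦ (uFun_eq α β τ).symm

/-! ### Generic limit lemmas -/

/-- The remainder divided by `E_γ` tends to `0` when `γ < 1 - α`. -/
theorem tendsto_rem_div {F : ℍ → ℂ} {f : ℂ → ℂ} {α β γ : ℝ} (hγ : γ < 1 - α)
    (hF : ∀ᶠ τ in atImInfty, ‖F τ - f (uFun α β τ)‖ ≤
      cuspK * Real.exp (-(2 * π * ((1 - α) * τ.im)))) :
    Tendsto (fun τ ↦ (F τ - f (uFun α β τ)) / EFun γ τ) atImInfty (𝓝 0) := by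
  have hb : Tendsto (fun τ : ℍ ↦ cuspK * Real.exp (-((2 * π * (1 - α - γ)) * τ.im)))
      atImInfty (𝓝 0) := by
    have h := (tendsto_exp_neg_im (c := 2 * π * (1 - α - γ))
      (by have : 0 < 1 - α - γ := by linarith
          positivity)).const_mul cuspK
    rwa [mul_zero] at h
  refine squeeze_zero_norm' ?_ hb
  filter_upwards [hF] with τ hτ
  rw [norm_div, norm_EFun, div_le_iff₀ (Real.exp_pos _)]
  calc ‖F τ - f (uFun α β τ)‖ ≤ cuspK * Real.exp (-(2 * π * ((1 - α) * τ.im))) := hτ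
    _ = cuspK * Real.exp (-((2 * π * (1 - α - γ)) * τ.im)) * Real.exp (-(2 * π * (γ * τ.im))) := by
      rw [mul_assoc cuspK, ← Real.exp_add]
      congr 2
      ring

/-- The closed-form term `f(u) = u g(u)` divided by `E_γ`, `γ ≤ α`, `0 < α`. -/
theorem tendsto_lead_div {f g : ℂ → ℂ} (hf : ∀ u, f u = u * g u) (hg : ContinuousAt g 0)
    {α γ : ℝ} (β : ℝ) (hα : 0 < α) (hγα : γ ≤ α) :
    Tendsto (fun τ ↦ f (uFun α β τ) / EFun γ τ) atImInfty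
      (𝓝 (if γ < α then 0 else cexp (2 * π * I * (β : ℂ)) * g 0)) := by
  have hgu : Tendsto (fun τ ↦ g (uFun α β τ)) atImInfty (𝓝 (g 0)) :=
    hg.tendsto.comp (tendsto_uFun_zero hα β)
  have hrew : ∀ τ : ℍ, f (uFun α β τ) / EFun γ τ =
      cexp (2 * π * I * (β : ℂ)) * EFun (α - γ) τ * g (uFun α β τ) := by
    intro τ
    have hE : EFun α τ = EFun (α - γ) τ * EFun γ τ := by
      rw [← EFun_add]; congr 1; ring
    rw [hf, uFun_eq, hE]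
    field_simp [EFun_ne_zero γ τ]
  by_cases hlt : γ < α
  · rw [if_pos hlt]
    have hE0 : Tendsto (EFun (α - γ)) atImInfty (𝓝 0) := tendsto_EFun_zero (by linarith)
    have h := ((hE0.const_mul (cexp (2 * π * I * (β : ℂ)))).mul hgu)
    rw [mul_zero, zero_mul] at h
    exact h.congr fun τ ↦ (hrew τ).symm
  · rw [if_neg hlt]
    have hγ : γ = α := le_antisymm hγα (not_lt.mp hlt)
    have h := (tendsto_const_nhds (x := cexp (2 * π * I * (β : ℂ))) (f := atImInfty)).mul hgu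
    refine h.congr fun τ ↦ ?_
    rw [hrew τ, hγ, sub_self, EFun_zero, mul_one]

theorem xfun_eq (u : ℂ) : xfun u = u * ((1 - u) ^ 2)⁻¹ := by
  unfold xfun; rw [div_eq_mul_inv]

theorem yfun_eq (u : ℂ) : yfun u = u * ((1 + u) / (1 - u) ^ 3) := by
  unfold yfun; rw [mul_div_assoc]

theorem continuousAt_xg : ContinuousAt (fun u : ℂ ↦ ((1 - u) ^ 2)⁻¹) 0 := by
  apply ContinuousAt.inv₀
  · fun_prop
  · simp

theorem continuousAt_yg : ContinuousAt (fun u : ℂ ↦ (1 + u) / (1 - u) ^ 3) 0 := by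
  apply ContinuousAt.div
  · fun_prop
  · fun_prop
  · simp

/-- The leading coefficient of `(2πi)⁻² ℘(ατ+β) - 1/12` relative to `E_γ`. -/
noncomputable def leadX (α β γ : ℝ) : ℂ :=
  if γ < α then 0 else if α = 0 then xfun (cexp (2 * π * I * (β : ℂ)))
  else cexp (2 * π * I * (β : ℂ))

/-- The leading coefficient of `(2πi)⁻³ ℘'(ατ+β)` relative to `E_γ`. -/
noncomputable def leadY (α β γ : ℝ) : ℂ :=
  if γ < α then 0 else if α = 0 then yfun (cexp (2 * π * I * (β : ℂ)))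
  else cexp (2 * π * I * (β : ℂ))

theorem tendsto_xfun_div {α γ : ℝ} (β : ℝ) (hγ0 : 0 ≤ γ) (hγα : γ ≤ α) :
    Tendsto (fun τ ↦ xfun (uFun α β τ) / EFun γ τ) atImInfty (𝓝 (leadX α β γ)) := by
  rcases (hγ0.trans hγα).eq_or_lt with hα | hα
  · have hγ : γ = 0 := le_antisymm (hα ▸ hγα) hγ0
    subst hγ
    subst hα
    simp only [leadX, lt_irrefl, if_false, if_true]
    refine tendsto_const_nhds.congr fun τ ↦ ?_
    rw [uFun_zero_left, EFun_zero, div_one]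
  · have h := tendsto_lead_div (f := xfun) (g := fun u ↦ ((1 - u) ^ 2)⁻¹) xfun_eq continuousAt_xg
      β hα hγα
    have hl : leadX α β γ = if γ < α then 0 else cexp (2 * π * I * (β : ℂ)) *
        (fun u : ℂ ↦ ((1 - u) ^ 2)⁻¹) 0 := by
      simp [leadX, hα.ne']
    rw [hl]
    exact h

theorem tendsto_yfun_div {α γ : ℝ} (β : ℝ) (hγ0 : 0 ≤ γ) (hγα : γ ≤ α) :
    Tendsto (fun τ ↦ yfun (uFun α β τ) / EFun γ τ) atImInfty (𝓝 (leadY α β γ)) := by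
  rcases (hγ0.trans hγα).eq_or_lt with hα | hα
  · have hγ : γ = 0 := le_antisymm (hα ▸ hγα) hγ0
    subst hγ
    subst hα
    simp only [leadY, lt_irrefl, if_false, if_true]
    refine tendsto_const_nhds.congr fun τ ↦ ?_
    rw [uFun_zero_left, EFun_zero, div_one]
  · have h := tendsto_lead_div (f := yfun) (g := fun u ↦ (1 + u) / (1 - u) ^ 3) yfun_eq
      continuousAt_yg β hα hγα
    have hl : leadY α β γ = if γ < α then 0 else cexp (2 * π * I * (β : ℂ)) *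
        (fun u : ℂ ↦ (1 + u) / (1 - u) ^ 3) 0 := by
      simp [leadY, hα.ne']
    rw [hl]
    exact h

/-! ### Limits at `i∞` of the division values -/

section Main

variable {L : ℍ → PeriodPair}

theorem mem_integerComplement_of {α β : ℝ} (hα0 : 0 ≤ α) (hαβ : α = 0 → ∀ n : ℤ, β ≠ n)
    (τ : ℍ) : ((α : ℂ) * (τ : ℂ) + (β : ℂ)) ∈ Complex.integerComplement := by
  rintro ⟨n, hn⟩
  have him := congrArg Complex.im hn
  have hre := congrArg Complex.re hn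
  simp only [Complex.intCast_im, Complex.add_im, Complex.mul_im, Complex.ofReal_re,
    Complex.ofReal_im, zero_mul, add_zero, UpperHalfPlane.coe_im, Complex.intCast_re,
    Complex.add_re, Complex.mul_re, sub_zero, UpperHalfPlane.coe_re] at him hre
  have hτ := τ.im_pos
  have hα : α = 0 := by
    rcases hα0.eq_or_lt with h | h
    · exact h.symm
    · have : 0 < α * τ.im := mul_pos h hτ
      linarith
  subst hα
  exact hαβ rfl n (by linarith)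

theorem eventually_wp_bound (hT1 : HypT1) (hL1 : ∀ τ, (L τ).ω₁ = 1)
    (hL2 : ∀ τ : ℍ, (L τ).ω₂ = τ) {α β : ℝ} (hα0 : 0 ≤ α) (hα1 : α < 1)
    (hαβ : α = 0 → ∀ n : ℤ, β ≠ n) :
    ∀ᶠ τ in atImInfty,
      ‖(((2 * π * I) ^ 2)⁻¹ * ℘[L τ] ((α : ℂ) * (τ : ℂ) + (β : ℂ)) - 1 / 12) -
        xfun (uFun α β τ)‖ ≤ cuspK * Real.exp (-(2 * π * ((1 - α) * τ.im))) := by
  have hev : ∀ᶠ τ : ℍ in atImInfty, Real.exp (-((2 * π * (1 - α)) * τ.im)) ≤ 1 / 2 :=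
    (tendsto_exp_neg_im (c := 2 * π * (1 - α))
      (by have : 0 < 1 - α := by linarith
          positivity)).eventually_le_const (by norm_num)
  filter_upwards [hev] with τ hτ
  have hτpos := τ.im_pos
  have him : ((α : ℂ) * (τ : ℂ) + (β : ℂ)).im = α * τ.im := by simp
  have habs : |((α : ℂ) * (τ : ℂ) + (β : ℂ)).im| = α * τ.im := by
    rw [him, abs_of_nonneg (by positivity)]
  have hω : (L τ).ω₂.im = τ.im := by rw [hL2]; rfl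
  have hexp : Real.exp (-(2 * π * ((L τ).ω₂.im - |((α : ℂ) * (τ : ℂ) + (β : ℂ)).im|))) =
      Real.exp (-(2 * π * ((1 - α) * τ.im))) := by
    rw [habs, hω]; congr 1; ring
  have key := norm_wp_sub_le hT1 (L τ) (hL1 τ) (by rw [hω]; exact hτpos)
    (mem_integerComplement_of hα0 hαβ τ) (by rw [habs, hω]; nlinarith)
    (by rw [hexp]; refine le_trans (le_of_eq ?_) hτ; congr 1; ring)
  rw [hexp] at key
  refine le_trans (le_of_eq ?_) key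
  congr 1
  unfold xfun uFun
  ring

theorem eventually_derivWp_bound (hT2 : HypT2) (hL1 : ∀ τ, (L τ).ω₁ = 1)
    (hL2 : ∀ τ : ℍ, (L τ).ω₂ = τ) {α β : ℝ} (hα0 : 0 ≤ α) (hα1 : α < 1)
    (hαβ : α = 0 → ∀ n : ℤ, β ≠ n) :
    ∀ᶠ τ in atImInfty,
      ‖((2 * π * I) ^ 3)⁻¹ * ℘'[L τ] ((α : ℂ) * (τ : ℂ) + (β : ℂ)) -
        yfun (uFun α β τ)‖ ≤ cuspK * Real.exp (-(2 * π * ((1 - α) * τ.im))) := by
  have hev : ∀ᶠ τ : ℍ in atImInfty, Real.exp (-((2 * π * (1 - α)) * τ.im)) ≤ 1 / 2 :=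
    (tendsto_exp_neg_im (c := 2 * π * (1 - α))
      (by have : 0 < 1 - α := by linarith
          positivity)).eventually_le_const (by norm_num)
  filter_upwards [hev] with τ hτ
  have hτpos := τ.im_pos
  have him : ((α : ℂ) * (τ : ℂ) + (β : ℂ)).im = α * τ.im := by simp
  have habs : |((α : ℂ) * (τ : ℂ) + (β : ℂ)).im| = α * τ.im := by
    rw [him, abs_of_nonneg (by positivity)]
  have hω : (L τ).ω₂.im = τ.im := by rw [hL2]; rfl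
  have hexp : Real.exp (-(2 * π * ((L τ).ω₂.im - |((α : ℂ) * (τ : ℂ) + (β : ℂ)).im|))) =
      Real.exp (-(2 * π * ((1 - α) * τ.im))) := by
    rw [habs, hω]; congr 1; ring
  have key := norm_derivWp_sub_le hT2 (L τ) (hL1 τ) (by rw [hω]; exact hτpos)
    (mem_integerComplement_of hα0 hαβ τ) (by rw [habs, hω]; nlinarith)
    (by rw [hexp]; refine le_trans (le_of_eq ?_) hτ; congr 1; ring)
  rw [hexp] at key
  exact key

/-- Leading behaviour of `(2πi)⁻² ℘(ατ+β) - 1/12` against `E_γ`, for `0 ≤ γ ≤ α`,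
`γ < 1 - α`. -/
theorem tendsto_wp_div (hT1 : HypT1) (hL1 : ∀ τ, (L τ).ω₁ = 1)
    (hL2 : ∀ τ : ℍ, (L τ).ω₂ = τ) {α β γ : ℝ} (hα1 : α < 1)
    (hαβ : α = 0 → ∀ n : ℤ, β ≠ n) (hγ0 : 0 ≤ γ) (hγα : γ ≤ α) (hγ1 : γ < 1 - α) :
    Tendsto (fun τ ↦ (((2 * π * I) ^ 2)⁻¹ * ℘[L τ] ((α : ℂ) * (τ : ℂ) + (β : ℂ)) - 1 / 12) /
      EFun γ τ) atImInfty (𝓝 (leadX α β γ)) := by
  have h1 := tendsto_rem_div (f := xfun) (β := β) hγ1
    (eventually_wp_bound hT1 hL1 hL2 (hγ0.trans hγα) hα1 hαβ)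
  have h2 := tendsto_xfun_div β hγ0 hγα
  have h := h1.add h2
  rw [zero_add] at h
  refine h.congr fun τ ↦ ?_
  ring

/-- Leading behaviour of `(2πi)⁻³ ℘'(ατ+β)` against `E_γ`, for `0 ≤ γ ≤ α`, `γ < 1 - α`. -/
theorem tendsto_derivWp_div (hT2 : HypT2) (hL1 : ∀ τ, (L τ).ω₁ = 1)
    (hL2 : ∀ τ : ℍ, (L τ).ω₂ = τ) {α β γ : ℝ} (hα1 : α < 1)
    (hαβ : α = 0 → ∀ n : ℤ, β ≠ n) (hγ0 : 0 ≤ γ) (hγα : γ ≤ α) (hγ1 : γ < 1 - α) :
    Tendsto (fun τ ↦ ((2 * π * I) ^ 3)⁻¹ * ℘'[L τ] ((α : ℂ) * (τ : ℂ) + (β : ℂ)) /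
      EFun γ τ) atImInfty (𝓝 (leadY α β γ)) := by
  have h1 := tendsto_rem_div (f := yfun) (β := β) hγ1
    (eventually_derivWp_bound hT2 hL1 hL2 (hγ0.trans hγα) hα1 hαβ)
  have h2 := tendsto_yfun_div β hγ0 hγα
  have h := h1.add h2
  rw [zero_add] at h
  refine h.congr fun τ ↦ ?_
  ring

theorem two_pi_I_ne_zero' : (2 * π * I : ℂ) ≠ 0 := Complex.two_pi_I_ne_zero

/-- (K2, limit form) for `0 ≤ α < 1`: the limit of `℘(ατ + β)` at `i∞`. -/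
theorem tendsto_wp (hT1 : HypT1) (hL1 : ∀ τ, (L τ).ω₁ = 1)
    (hL2 : ∀ τ : ℍ, (L τ).ω₂ = τ) {α β : ℝ} (hα0 : 0 ≤ α) (hα1 : α < 1)
    (hαβ : α = 0 → ∀ n : ℤ, β ≠ n) :
    Tendsto (fun τ ↦ ℘[L τ] ((α : ℂ) * (τ : ℂ) + (β : ℂ))) atImInfty
      (𝓝 ((2 * π * I) ^ 2 * (leadX α β 0 + 1 / 12))) := by
  have h := ((tendsto_wp_div hT1 hL1 hL2 (γ := 0) hα1 hαβ le_rfl hα0 (by linarith)).add_const
    (1 / 12 : ℂ)).const_mul ((2 * π * I) ^ 2)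
  refine h.congr fun τ ↦ ?_
  have h2 : ((2 * π * I : ℂ) ^ 2) ≠ 0 := pow_ne_zero _ two_pi_I_ne_zero'
  rw [EFun_zero, div_one, sub_add_cancel, mul_inv_cancel_left₀ h2]

/-- (K2, limit form) for `0 ≤ α < 1`: the limit of `℘'(ατ + β)` at `i∞`. -/
theorem tendsto_derivWp (hT2 : HypT2) (hL1 : ∀ τ, (L τ).ω₁ = 1)
    (hL2 : ∀ τ : ℍ, (L τ).ω₂ = τ) {α β : ℝ} (hα0 : 0 ≤ α) (hα1 : α < 1)
    (hαβ : α = 0 → ∀ n : ℤ, β ≠ n) :
    Tendsto (fun τ ↦ ℘'[L τ] ((α : ℂ) * (τ : ℂ) + (β : ℂ))) atImInfty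
      (𝓝 ((2 * π * I) ^ 3 * leadY α β 0)) := by
  have h := (tendsto_derivWp_div hT2 hL1 hL2 (γ := 0) hα1 hαβ le_rfl hα0
    (by linarith)).const_mul ((2 * π * I) ^ 3)
  refine h.congr fun τ ↦ ?_
  have h3 : ((2 * π * I : ℂ) ^ 3) ≠ 0 := pow_ne_zero _ two_pi_I_ne_zero'
  rw [EFun_zero, div_one, mul_inv_cancel_left₀ h3]

end Main

/-! ### The ratio `℘'(z_a) / (℘(z_a) - ℘(z_b))` -/

section Ratio

variable {L : ℍ → PeriodPair}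

theorem ratio_identity (c E a b d : ℂ) (hc : c ≠ 0) (hE : E ≠ 0) :
    c * (((c ^ 3)⁻¹ * d / E) / (((c ^ 2)⁻¹ * a - 1 / 12) / E - ((c ^ 2)⁻¹ * b - 1 / 12) / E)) =
      d / (a - b) := by
  by_cases h : a - b = 0
  · have hab : a = b := sub_eq_zero.mp h
    subst hab
    simp
  · have h1 : ((c ^ 2)⁻¹ * a - 1 / 12) / E - ((c ^ 2)⁻¹ * b - 1 / 12) / E =
        (c ^ 2)⁻¹ * (a - b) / E := by ring
    rw [h1]
    field_simp

/-- Limit of the ratio at `i∞`, for normalised parameters and a common scale `γ`. -/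
theorem tendsto_ratio (hT1 : HypT1) (hT2 : HypT2) (hL1 : ∀ τ, (L τ).ω₁ = 1)
    (hL2 : ∀ τ : ℍ, (L τ).ω₂ = τ) {αa βa αb βb γ : ℝ} (hγ0 : 0 ≤ γ)
    (hγa : γ ≤ αa) (hγb : γ ≤ αb) (hγa1 : γ < 1 - αa) (hγb1 : γ < 1 - αb)
    (hαa1 : αa < 1) (hαb1 : αb < 1)
    (ha : αa = 0 → ∀ n : ℤ, βa ≠ n) (hb : αb = 0 → ∀ n : ℤ, βb ≠ n)
    (hne : leadX αa βa γ ≠ leadX αb βb γ) :
    Tendsto (fun τ : ℍ ↦ ℘'[L τ] ((αa : ℂ) * (τ : ℂ) + (βa : ℂ)) /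
      (℘[L τ] ((αa : ℂ) * (τ : ℂ) + (βa : ℂ)) - ℘[L τ] ((αb : ℂ) * (τ : ℂ) + (βb : ℂ))))
      atImInfty (𝓝 (2 * π * I * (leadY αa βa γ / (leadX αa βa γ - leadX αb βb γ)))) := by
  have hA := tendsto_wp_div hT1 hL1 hL2 hαa1 ha hγ0 hγa hγa1
  have hB := tendsto_wp_div hT1 hL1 hL2 hαb1 hb hγ0 hγb hγb1
  have hC := tendsto_derivWp_div hT2 hL1 hL2 hαa1 ha hγ0 hγa hγa1
  have h := (hC.div (hA.sub hB) (sub_ne_zero.mpr hne)).const_mul (2 * π * I)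
  refine h.congr fun τ ↦ ?_
  exact ratio_identity _ _ _ _ _ two_pi_I_ne_zero' (EFun_ne_zero γ τ)

theorem cexp_two_pi_I_eq_one_iff (β : ℝ) :
    cexp (2 * π * I * (β : ℂ)) = 1 ↔ ∃ n : ℤ, β = n := by
  rw [Complex.exp_eq_one_iff]
  constructor
  · rintro ⟨n, hn⟩
    refine ⟨n, ?_⟩
    have h : (β : ℂ) = (n : ℂ) := by
      have h2 := two_pi_I_ne_zero'
      have : (2 * π * I : ℂ) * (β : ℂ) = (2 * π * I) * (n : ℂ) := by rw [hn]; ring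
      exact mul_left_cancel₀ h2 this
    exact_mod_cast h
  · rintro ⟨n, hn⟩
    exact ⟨n, by rw [hn]; push_cast; ring⟩

theorem cexp_two_pi_I_eq_iff (βa βb : ℝ) :
    cexp (2 * π * I * (βa : ℂ)) = cexp (2 * π * I * (βb : ℂ)) ↔ ∃ n : ℤ, βa - βb = n := by
  rw [← cexp_two_pi_I_eq_one_iff]
  have : (2 * π * I : ℂ) * ((βa - βb : ℝ) : ℂ) = 2 * π * I * (βa : ℂ) - 2 * π * I * (βb : ℂ) := by
    push_cast; ring
  rw [this, Complex.exp_sub, div_eq_one_iff_eq (Complex.exp_ne_zero _)]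

theorem xfun_ne_zero {u : ℂ} (hu0 : u ≠ 0) (hu1 : u ≠ 1) : xfun u ≠ 0 := by
  unfold xfun
  have : (1 - u) ≠ 0 := sub_ne_zero.mpr (Ne.symm hu1)
  exact div_ne_zero hu0 (pow_ne_zero 2 this)

theorem eq_or_mul_eq_one_of_xfun_eq {u v : ℂ} (hu1 : u ≠ 1) (hv1 : v ≠ 1)
    (h : xfun u = xfun v) : u = v ∨ u * v = 1 := by
  unfold xfun at h
  have hu : (1 - u) ≠ 0 := sub_ne_zero.mpr (Ne.symm hu1)
  have hv : (1 - v) ≠ 0 := sub_ne_zero.mpr (Ne.symm hv1)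
  rw [div_eq_div_iff (pow_ne_zero 2 hu) (pow_ne_zero 2 hv)] at h
  have h0 : (u - v) * (1 - u * v) = 0 := by linear_combination h
  rcases mul_eq_zero.mp h0 with h1 | h1
  · exact Or.inl (sub_eq_zero.mp h1)
  · exact Or.inr (sub_eq_zero.mp h1).symm

theorem leadX_self (α β : ℝ) : leadX α β α =
    if α = 0 then xfun (cexp (2 * π * I * (β : ℂ))) else cexp (2 * π * I * (β : ℂ)) := by
  unfold leadX
  rw [if_neg (lt_irrefl _)]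

theorem leadX_self_ne_zero {α β : ℝ} (h : α = 0 → ∀ n : ℤ, β ≠ n) : leadX α β α ≠ 0 := by
  rw [leadX_self]
  split_ifs with h0
  · refine xfun_ne_zero (Complex.exp_ne_zero _) fun h1 ↦ ?_
    obtain ⟨n, hn⟩ := (cexp_two_pi_I_eq_one_iff β).mp h1
    exact h h0 n hn
  · exact Complex.exp_ne_zero _

theorem leadX_of_lt {α β γ : ℝ} (h : γ < α) : leadX α β γ = 0 := by
  unfold leadX
  rw [if_pos h]

/-- (K3) normalised parameters `0 ≤ α_a, α_b < 1/2`: the ratio is bounded at `i∞`. -/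
theorem isBoundedAtImInfty_ratio_normal (hT1 : HypT1) (hT2 : HypT2) (hL1 : ∀ τ, (L τ).ω₁ = 1)
    (hL2 : ∀ τ : ℍ, (L τ).ω₂ = τ) {αa βa αb βb : ℝ}
    (hαa0 : 0 ≤ αa) (hαa : αa < 1 / 2) (hαb0 : 0 ≤ αb) (hαb : αb < 1 / 2)
    (ha : αa = 0 → ∀ n : ℤ, βa ≠ n) (hb : αb = 0 → ∀ n : ℤ, βb ≠ n)
    (hsub : αa = αb → ∀ n : ℤ, βa - βb ≠ n)
    (hadd : αa = 0 → αb = 0 → ∀ n : ℤ, βa + βb ≠ n) :
    IsBoundedAtImInfty (fun τ : ℍ ↦ ℘'[L τ] ((αa : ℂ) * (τ : ℂ) + (βa : ℂ)) /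
      (℘[L τ] ((αa : ℂ) * (τ : ℂ) + (βa : ℂ)) - ℘[L τ] ((αb : ℂ) * (τ : ℂ) + (βb : ℂ)))) := by
  have hne : leadX αa βa (min αa αb) ≠ leadX αb βb (min αa αb) := by
    rcases lt_trichotomy αa αb with h | h | h
    · rw [min_eq_left h.le, leadX_of_lt h]
      exact leadX_self_ne_zero ha
    · subst h
      rw [min_self, leadX_self, leadX_self]
      split_ifs with h0
      · intro hx
        have hu1 : cexp (2 * π * I * (βa : ℂ)) ≠ 1 := fun h1 ↦ by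
          obtain ⟨n, hn⟩ := (cexp_two_pi_I_eq_one_iff βa).mp h1
          exact ha h0 n hn
        have hv1 : cexp (2 * π * I * (βb : ℂ)) ≠ 1 := fun h1 ↦ by
          obtain ⟨n, hn⟩ := (cexp_two_pi_I_eq_one_iff βb).mp h1
          exact hb h0 n hn
        rcases eq_or_mul_eq_one_of_xfun_eq hu1 hv1 hx with h1 | h1
        · obtain ⟨n, hn⟩ := (cexp_two_pi_I_eq_iff βa βb).mp h1
          exact hsub rfl n hn
        · rw [← Complex.exp_add, ← mul_add] at h1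
          have h2 : cexp (2 * π * I * ((βa + βb : ℝ) : ℂ)) = 1 := by
            push_cast; exact h1
          obtain ⟨n, hn⟩ := (cexp_two_pi_I_eq_one_iff (βa + βb)).mp h2
          exact hadd h0 h0 n hn
      · intro hx
        obtain ⟨n, hn⟩ := (cexp_two_pi_I_eq_iff βa βb).mp hx
        exact hsub rfl n hn
    · rw [min_eq_right h.le, leadX_of_lt h]
      exact (leadX_self_ne_zero hb).symm
  have hmin0 : 0 ≤ min αa αb := le_min hαa0 hαb0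
  have hmina : min αa αb ≤ αa := min_le_left _ _
  have hminb : min αa αb ≤ αb := min_le_right _ _
  have h := tendsto_ratio hT1 hT2 hL1 hL2 hmin0 hmina hminb (by linarith) (by linarith)
    (by linarith) (by linarith) ha hb hne
  exact h.isBigO_one ℝ

end Ratio

/-! ### General real parameters: periodicity and parity -/

section General

variable {L : ℍ → PeriodPair}

theorem int_mul_tau_mem_lattice (hL2 : ∀ τ : ℍ, (L τ).ω₂ = τ) (τ : ℍ) (n : ℤ) :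
    ((n : ℂ) * (τ : ℂ)) ∈ (L τ).lattice := by
  have h := (L τ).lattice.smul_mem n (L τ).ω₂_mem_lattice
  rw [hL2, zsmul_eq_mul] at h
  exact h

theorem wp_add_int_mul_tau (hL2 : ∀ τ : ℍ, (L τ).ω₂ = τ) (τ : ℍ) (n : ℤ) (z : ℂ) :
    ℘[L τ] (z + (n : ℂ) * (τ : ℂ)) = ℘[L τ] z :=
  (L τ).weierstrassP_add_coe z ⟨_, int_mul_tau_mem_lattice hL2 τ n⟩

theorem derivWp_add_int_mul_tau (hL2 : ∀ τ : ℍ, (L τ).ω₂ = τ) (τ : ℍ) (n : ℤ) (z : ℂ) :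
    ℘'[L τ] (z + (n : ℂ) * (τ : ℂ)) = ℘'[L τ] z :=
  (L τ).derivWeierstrassP_add_coe z ⟨_, int_mul_tau_mem_lattice hL2 τ n⟩

/-- (K2) `τ ↦ ℘(ατ + β)` is bounded at `i∞` for real `(α, β) ∉ ℤ²`. -/
theorem isBoundedAtImInfty_wp (hT1 : HypT1) (hL1 : ∀ τ, (L τ).ω₁ = 1)
    (hL2 : ∀ τ : ℍ, (L τ).ω₂ = τ) {α β : ℝ}
    (h : ¬ ((∃ m : ℤ, α = m) ∧ ∃ n : ℤ, β = n)) :
    IsBoundedAtImInfty (fun τ : ℍ ↦ ℘[L τ] ((α : ℂ) * (τ : ℂ) + (β : ℂ))) := by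
  have hα' : Int.fract α = 0 → ∀ k : ℤ, β ≠ k := fun h0 k hk ↦
    h ⟨⟨⌊α⌋, by have := Int.fract_add_floor α; linarith⟩, ⟨k, hk⟩⟩
  have ht := tendsto_wp hT1 hL1 hL2 (Int.fract_nonneg α) (Int.fract_lt_one α) hα'
  have hfun : (fun τ : ℍ ↦ ℘[L τ] ((α : ℂ) * (τ : ℂ) + (β : ℂ))) =
      fun τ : ℍ ↦ ℘[L τ] (((Int.fract α : ℝ) : ℂ) * (τ : ℂ) + (β : ℂ)) := by
    funext τ
    rw [← wp_add_int_mul_tau hL2 τ ⌊α⌋ (((Int.fract α : ℝ) : ℂ) * (τ : ℂ) + (β : ℂ))]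
    congr 1
    have hc : (α : ℂ) = ((Int.fract α : ℝ) : ℂ) + ((⌊α⌋ : ℤ) : ℂ) := by
      exact_mod_cast (Int.fract_add_floor α).symm
    rw [hc]
    ring
  rw [hfun]
  exact ht.isBigO_one ℝ

/-- (K2) `τ ↦ ℘'(ατ + β)` is bounded at `i∞` for real `(α, β) ∉ ℤ²`. -/
theorem isBoundedAtImInfty_derivWp (hT2 : HypT2) (hL1 : ∀ τ, (L τ).ω₁ = 1)
    (hL2 : ∀ τ : ℍ, (L τ).ω₂ = τ) {α β : ℝ}
    (h : ¬ ((∃ m : ℤ, α = m) ∧ ∃ n : ℤ, β = n)) :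
    IsBoundedAtImInfty (fun τ : ℍ ↦ ℘'[L τ] ((α : ℂ) * (τ : ℂ) + (β : ℂ))) := by
  have hα' : Int.fract α = 0 → ∀ k : ℤ, β ≠ k := fun h0 k hk ↦
    h ⟨⟨⌊α⌋, by have := Int.fract_add_floor α; linarith⟩, ⟨k, hk⟩⟩
  have ht := tendsto_derivWp hT2 hL1 hL2 (Int.fract_nonneg α) (Int.fract_lt_one α) hα'
  have hfun : (fun τ : ℍ ↦ ℘'[L τ] ((α : ℂ) * (τ : ℂ) + (β : ℂ))) =
      fun τ : ℍ ↦ ℘'[L τ] (((Int.fract α : ℝ) : ℂ) * (τ : ℂ) + (β : ℂ)) := by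
    funext τ
    rw [← derivWp_add_int_mul_tau hL2 τ ⌊α⌋ (((Int.fract α : ℝ) : ℂ) * (τ : ℂ) + (β : ℂ))]
    congr 1
    have hc : (α : ℂ) = ((Int.fract α : ℝ) : ℂ) + ((⌊α⌋ : ℤ) : ℂ) := by
      exact_mod_cast (Int.fract_add_floor α).symm
    rw [hc]
    ring
  rw [hfun]
  exact ht.isBigO_one ℝ

/-- Normal form of a real number whose fractional part is not `1/2`:
`α = σ α' + n` with `σ = ±1`, `0 ≤ α' < 1/2`, `n ∈ ℤ`. -/
theorem exists_normal_form (α : ℝ) (h : ∀ m : ℤ, 2 * α ≠ 2 * m + 1) :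
    ∃ (α' σ : ℝ) (n : ℤ), (σ = 1 ∨ σ = -1) ∧ 0 ≤ α' ∧ α' < 1 / 2 ∧ α = σ * α' + n := by
  have hfl := Int.fract_add_floor α
  have h0 := Int.fract_nonneg α
  have h1 := Int.fract_lt_one α
  rcases lt_trichotomy (Int.fract α) (1 / 2) with hlt | heq | hgt
  · exact ⟨Int.fract α, 1, ⌊α⌋, Or.inl rfl, h0, hlt, by linarith⟩
  · exact absurd (by linarith : 2 * α = 2 * (⌊α⌋ : ℝ) + 1) (h ⌊α⌋)
  · exact ⟨1 - Int.fract α, -1, ⌊α⌋ + 1, Or.inr rfl, by linarith, by linarith, by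
      push_cast; linarith⟩

/-- Transport of `℘`, `℘'` to the normal form. -/
theorem wp_normal (hL2 : ∀ τ : ℍ, (L τ).ω₂ = τ) {α α' σ : ℝ} (β : ℝ) {n : ℤ}
    (hσ : σ = 1 ∨ σ = -1) (hα : α = σ * α' + n) (τ : ℍ) :
    ℘[L τ] ((α : ℂ) * (τ : ℂ) + (β : ℂ)) =
        ℘[L τ] ((α' : ℂ) * (τ : ℂ) + ((σ * β : ℝ) : ℂ)) ∧
      ℘'[L τ] ((α : ℂ) * (τ : ℂ) + (β : ℂ)) =
        (σ : ℂ) * ℘'[L τ] ((α' : ℂ) * (τ : ℂ) + ((σ * β : ℝ) : ℂ)) := by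
  rcases hσ with rfl | rfl
  · have hz : (α : ℂ) * (τ : ℂ) + (β : ℂ) =
        ((α' : ℂ) * (τ : ℂ) + (((1 : ℝ) * β : ℝ) : ℂ)) + (n : ℂ) * (τ : ℂ) := by
      rw [hα]; push_cast; ring
    rw [hz, wp_add_int_mul_tau hL2, derivWp_add_int_mul_tau hL2]
    simp
  · have hz : (α : ℂ) * (τ : ℂ) + (β : ℂ) =
        -((α' : ℂ) * (τ : ℂ) + (((-1 : ℝ) * β : ℝ) : ℂ)) + (n : ℂ) * (τ : ℂ) := by
      rw [hα]; push_cast; ring
    rw [hz, wp_add_int_mul_tau hL2, derivWp_add_int_mul_tau hL2,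
      PeriodPair.weierstrassP_neg, PeriodPair.derivWeierstrassP_neg]
    simp

/-- (K3) general real parameters: the ratio `℘'(z_a)/(℘(z_a) - ℘(z_b))`, `z = ατ + β`, is bounded
at `i∞` as soon as `z_a, z_b, z_a ± z_b` are not lattice points and the fractional parts of
`α_a, α_b` are not `1/2`. -/
theorem isBoundedAtImInfty_ratio (hT1 : HypT1) (hT2 : HypT2) (hL1 : ∀ τ, (L τ).ω₁ = 1)
    (hL2 : ∀ τ : ℍ, (L τ).ω₂ = τ) {αa βa αb βb : ℝ}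
    (ha : ¬ ((∃ m : ℤ, αa = m) ∧ ∃ n : ℤ, βa = n))
    (hb : ¬ ((∃ m : ℤ, αb = m) ∧ ∃ n : ℤ, βb = n))
    (hsub : ¬ ((∃ m : ℤ, αa - αb = m) ∧ ∃ n : ℤ, βa - βb = n))
    (hadd : ¬ ((∃ m : ℤ, αa + αb = m) ∧ ∃ n : ℤ, βa + βb = n))
    (hha : ∀ m : ℤ, 2 * αa ≠ 2 * m + 1) (hhb : ∀ m : ℤ, 2 * αb ≠ 2 * m + 1) :
    IsBoundedAtImInfty (fun τ : ℍ ↦ ℘'[L τ] ((αa : ℂ) * (τ : ℂ) + (βa : ℂ)) /
      (℘[L τ] ((αa : ℂ) * (τ : ℂ) + (βa : ℂ)) - ℘[L τ] ((αb : ℂ) * (τ : ℂ) + (βb : ℂ)))) := by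
  obtain ⟨αa', σa, na, hσa, ha0, ha1, hαa⟩ := exists_normal_form αa hha
  obtain ⟨αb', σb, nb, hσb, hb0, hb1, hαb⟩ := exists_normal_form αb hhb
  have key := isBoundedAtImInfty_ratio_normal hT1 hT2 hL1 hL2 (βa := σa * βa) (βb := σb * βb)
    ha0 ha1 hb0 hb1 ?_ ?_ ?_ ?_
  · have hfun : (fun τ : ℍ ↦ ℘'[L τ] ((αa : ℂ) * (τ : ℂ) + (βa : ℂ)) /
        (℘[L τ] ((αa : ℂ) * (τ : ℂ) + (βa : ℂ)) - ℘[L τ] ((αb : ℂ) * (τ : ℂ) + (βb : ℂ)))) =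
        fun τ : ℍ ↦ (σa : ℂ) * (℘'[L τ] ((αa' : ℂ) * (τ : ℂ) + ((σa * βa : ℝ) : ℂ)) /
          (℘[L τ] ((αa' : ℂ) * (τ : ℂ) + ((σa * βa : ℝ) : ℂ)) -
            ℘[L τ] ((αb' : ℂ) * (τ : ℂ) + ((σb * βb : ℝ) : ℂ)))) := by
      funext τ
      obtain ⟨h1, h2⟩ := wp_normal hL2 βa hσa hαa τ
      obtain ⟨h3, -⟩ := wp_normal hL2 βb hσb hαb τ
      rw [h1, h2, h3, mul_div_assoc]
    rw [hfun]
    exact key.const_mul_left (σa : ℂ)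
  · intro h0 n hn
    apply ha
    refine ⟨⟨na, by rw [hαa, h0]; ring⟩, ?_⟩
    rcases hσa with rfl | rfl
    · exact ⟨n, by linarith⟩
    · exact ⟨-n, by push_cast; linarith⟩
  · intro h0 n hn
    apply hb
    refine ⟨⟨nb, by rw [hαb, h0]; ring⟩, ?_⟩
    rcases hσb with rfl | rfl
    · exact ⟨n, by linarith⟩
    · exact ⟨-n, by push_cast; linarith⟩
  · intro h n hn
    rcases hσa with rfl | rfl <;> rcases hσb with rfl | rfl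
    · exact hsub ⟨⟨na - nb, by push_cast; linarith⟩, ⟨n, by linarith⟩⟩
    · exact hadd ⟨⟨na + nb, by push_cast; linarith⟩, ⟨n, by linarith⟩⟩
    · exact hadd ⟨⟨na + nb, by push_cast; linarith⟩, ⟨-n, by push_cast; linarith⟩⟩
    · exact hsub ⟨⟨na - nb, by push_cast; linarith⟩, ⟨-n, by push_cast; linarith⟩⟩
  · intro h0a h0b n hn
    rcases hσa with rfl | rfl <;> rcases hσb with rfl | rfl
    · exact hadd ⟨⟨na + nb, by push_cast; linarith⟩, ⟨n, by linarith⟩⟩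
    · exact hsub ⟨⟨na - nb, by push_cast; linarith⟩, ⟨n, by linarith⟩⟩
    · exact hsub ⟨⟨na - nb, by push_cast; linarith⟩, ⟨-n, by push_cast; linarith⟩⟩
    · exact hadd ⟨⟨na + nb, by push_cast; linarith⟩, ⟨-n, by push_cast; linarith⟩⟩

end General

/-! ### (K4) Integer shape: division points `(rτ + s)/M` -/

section IntegerShape

variable {L : ℍ → PeriodPair}

theorem exists_int_div_iff {M : ℕ} (hM : M ≠ 0) (r : ℤ) :
    (∃ m : ℤ, (r : ℝ) / (M : ℝ) = m) ↔ (M : ℤ) ∣ r := by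
  have hM' : (M : ℝ) ≠ 0 := by exact_mod_cast hM
  constructor
  · rintro ⟨m, hm⟩
    refine ⟨m, ?_⟩
    rw [div_eq_iff hM'] at hm
    have : (r : ℝ) = (((M : ℤ) * m : ℤ) : ℝ) := by push_cast; linarith
    exact_mod_cast this
  · rintro ⟨m, rfl⟩
    exact ⟨m, by push_cast; field_simp⟩

theorem div_point_eq (M : ℕ) (r s : ℤ) (τ : ℍ) :
    ((r : ℂ) * (τ : ℂ) + (s : ℂ)) / (M : ℂ) =
      (((r : ℝ) / (M : ℝ) : ℝ) : ℂ) * (τ : ℂ) + (((s : ℝ) / (M : ℝ) : ℝ) : ℂ) := by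
  push_cast
  ring

/-- (K4) the division value `℘((rτ+s)/M)` is bounded at `i∞`. -/
theorem isBoundedAtImInfty_divWp (hT1 : HypT1) (hL1 : ∀ τ, (L τ).ω₁ = 1)
    (hL2 : ∀ τ : ℍ, (L τ).ω₂ = τ) {M : ℕ} (hM : M ≠ 0) (r s : ℤ)
    (h : ¬ ((M : ℤ) ∣ r ∧ (M : ℤ) ∣ s)) :
    IsBoundedAtImInfty (fun τ : ℍ ↦ ℘[L τ] (((r : ℂ) * (τ : ℂ) + (s : ℂ)) / (M : ℂ))) := by
  simp_rw [div_point_eq]
  exact isBoundedAtImInfty_wp hT1 hL1 hL2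
    (by rw [exists_int_div_iff hM, exists_int_div_iff hM]; exact h)

/-- (K4) the division value `℘'((rτ+s)/M)` is bounded at `i∞`. -/
theorem isBoundedAtImInfty_divDerivWp (hT2 : HypT2) (hL1 : ∀ τ, (L τ).ω₁ = 1)
    (hL2 : ∀ τ : ℍ, (L τ).ω₂ = τ) {M : ℕ} (hM : M ≠ 0) (r s : ℤ)
    (h : ¬ ((M : ℤ) ∣ r ∧ (M : ℤ) ∣ s)) :
    IsBoundedAtImInfty (fun τ : ℍ ↦ ℘'[L τ] (((r : ℂ) * (τ : ℂ) + (s : ℂ)) / (M : ℂ))) := by
  simp_rw [div_point_eq]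
  exact isBoundedAtImInfty_derivWp hT2 hL1 hL2
    (by rw [exists_int_div_iff hM, exists_int_div_iff hM]; exact h)

theorem two_mul_div_ne_odd {M : ℕ} (hM : Odd M) (r m : ℤ) :
    2 * ((r : ℝ) / (M : ℝ)) ≠ 2 * (m : ℝ) + 1 := by
  intro hm
  have hM0 : M ≠ 0 := by
    rintro rfl
    exact absurd hM (by decide)
  have hM' : (M : ℝ) ≠ 0 := by exact_mod_cast hM0
  have h1 : (2 * (r : ℝ)) = (2 * (m : ℝ) + 1) * (M : ℝ) := by
    field_simp at hm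
    linarith
  have h2 : 2 * r = (2 * m + 1) * (M : ℤ) := by exact_mod_cast h1
  obtain ⟨k, hk⟩ := hM
  rw [hk] at h2
  push_cast at h2
  have h3 : 2 * r = 2 * (2 * (m * (k : ℤ)) + m + k) + 1 := by rw [h2]; ring
  generalize m * (k : ℤ) = p at h3
  omega

/-- (K4) the ratio `℘'(z_a)/(℘(z_a) - ℘(z_b))` at division points `z = (rτ+s)/M`, `M` odd, is
bounded at `i∞` as soon as `(r_a,s_a)`, `(r_b,s_b)`, `(r_a,s_a) ± (r_b,s_b)` are nonzero mod `M`.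
-/
theorem isBoundedAtImInfty_divRatio (hT1 : HypT1) (hT2 : HypT2) (hL1 : ∀ τ, (L τ).ω₁ = 1)
    (hL2 : ∀ τ : ℍ, (L τ).ω₂ = τ) {M : ℕ} (hM : Odd M) (ra sa rb sb : ℤ)
    (ha : ¬ ((M : ℤ) ∣ ra ∧ (M : ℤ) ∣ sa)) (hb : ¬ ((M : ℤ) ∣ rb ∧ (M : ℤ) ∣ sb))
    (hsub : ¬ ((M : ℤ) ∣ ra - rb ∧ (M : ℤ) ∣ sa - sb))
    (hadd : ¬ ((M : ℤ) ∣ ra + rb ∧ (M : ℤ) ∣ sa + sb)) :
    IsBoundedAtImInfty (fun τ : ℍ ↦ ℘'[L τ] (((ra : ℂ) * (τ : ℂ) + (sa : ℂ)) / (M : ℂ)) /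
      (℘[L τ] (((ra : ℂ) * (τ : ℂ) + (sa : ℂ)) / (M : ℂ)) -
        ℘[L τ] (((rb : ℂ) * (τ : ℂ) + (sb : ℂ)) / (M : ℂ)))) := by
  have hM0 : M ≠ 0 := by
    rintro rfl
    exact absurd hM (by decide)
  simp_rw [div_point_eq]
  refine isBoundedAtImInfty_ratio hT1 hT2 hL1 hL2 ?_ ?_ ?_ ?_ (two_mul_div_ne_odd hM ra)
    (two_mul_div_ne_odd hM rb)
  · rw [exists_int_div_iff hM0, exists_int_div_iff hM0]; exact ha
  · rw [exists_int_div_iff hM0, exists_int_div_iff hM0]; exact hb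
  · have e1 : (ra : ℝ) / (M : ℝ) - (rb : ℝ) / (M : ℝ) = ((ra - rb : ℤ) : ℝ) / (M : ℝ) := by
      push_cast; ring
    have e2 : (sa : ℝ) / (M : ℝ) - (sb : ℝ) / (M : ℝ) = ((sa - sb : ℤ) : ℝ) / (M : ℝ) := by
      push_cast; ring
    rw [e1, e2, exists_int_div_iff hM0, exists_int_div_iff hM0]; exact hsub
  · have e1 : (ra : ℝ) / (M : ℝ) + (rb : ℝ) / (M : ℝ) = ((ra + rb : ℤ) : ℝ) / (M : ℝ) := by
      push_cast; ring
    have e2 : (sa : ℝ) / (M : ℝ) + (sb : ℝ) / (M : ℝ) = ((sa + sb : ℤ) : ℝ) / (M : ℝ) := by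
      push_cast; ring
    rw [e1, e2, exists_int_div_iff hM0, exists_int_div_iff hM0]; exact hadd

end IntegerShape

/-! ### Forms without side conditions, and the `SL(2, ℤ)`-orbit -/

section Unconditional

open scoped MatrixGroups

variable {L : ℍ → PeriodPair}

theorem int_mul_tau_add_int_mem_lattice (hL1 : ∀ τ, (L τ).ω₁ = 1)
    (hL2 : ∀ τ : ℍ, (L τ).ω₂ = τ) (τ : ℍ) (m n : ℤ) :
    ((m : ℂ) * (τ : ℂ) + (n : ℂ)) ∈ (L τ).lattice := by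
  rw [PeriodPair.mem_lattice]
  exact ⟨n, m, by rw [hL1, hL2]; ring⟩

/-- (K2) without side condition: at lattice points Mathlib's `℘` is `0`. -/
theorem isBoundedAtImInfty_wp_all (hT1 : HypT1) (hL1 : ∀ τ, (L τ).ω₁ = 1)
    (hL2 : ∀ τ : ℍ, (L τ).ω₂ = τ) (α β : ℝ) :
    IsBoundedAtImInfty (fun τ : ℍ ↦ ℘[L τ] ((α : ℂ) * (τ : ℂ) + (β : ℂ))) := by
  by_cases h : (∃ m : ℤ, α = m) ∧ ∃ n : ℤ, β = n
  · obtain ⟨⟨m, rfl⟩, ⟨n, rfl⟩⟩ := h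
    have h0 : (fun τ : ℍ ↦ ℘[L τ] ((((m : ℤ) : ℝ) : ℂ) * (τ : ℂ) + (((n : ℤ) : ℝ) : ℂ))) = 0 := by
      funext τ
      have hmem := int_mul_tau_add_int_mem_lattice hL1 hL2 τ m n
      have := (L τ).weierstrassP_coe ⟨_, hmem⟩
      simpa using this
    rw [h0]
    exact zero_form_isBoundedAtImInfty
  · exact isBoundedAtImInfty_wp hT1 hL1 hL2 h

/-- (K2) without side condition: at lattice points Mathlib's `℘'` is `0`. -/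
theorem isBoundedAtImInfty_derivWp_all (hT2 : HypT2) (hL1 : ∀ τ, (L τ).ω₁ = 1)
    (hL2 : ∀ τ : ℍ, (L τ).ω₂ = τ) (α β : ℝ) :
    IsBoundedAtImInfty (fun τ : ℍ ↦ ℘'[L τ] ((α : ℂ) * (τ : ℂ) + (β : ℂ))) := by
  by_cases h : (∃ m : ℤ, α = m) ∧ ∃ n : ℤ, β = n
  · obtain ⟨⟨m, rfl⟩, ⟨n, rfl⟩⟩ := h
    have h0 : (fun τ : ℍ ↦ ℘'[L τ] ((((m : ℤ) : ℝ) : ℂ) * (τ : ℂ) + (((n : ℤ) : ℝ) : ℂ))) = 0 := by
      funext τ
      have hmem := int_mul_tau_add_int_mem_lattice hL1 hL2 τ m n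
      have := (L τ).derivWeierstrassP_coe ⟨_, hmem⟩
      simpa using this
    rw [h0]
    exact zero_form_isBoundedAtImInfty
  · exact isBoundedAtImInfty_derivWp hT2 hL1 hL2 h

/-- The division value `℘((rτ+s)/M)` is bounded at `i∞` (no side condition). -/
theorem isBoundedAtImInfty_divWp_all (hT1 : HypT1) (hL1 : ∀ τ, (L τ).ω₁ = 1)
    (hL2 : ∀ τ : ℍ, (L τ).ω₂ = τ) (M : ℕ) (r s : ℤ) :
    IsBoundedAtImInfty (fun τ : ℍ ↦ ℘[L τ] (((r : ℂ) * (τ : ℂ) + (s : ℂ)) / (M : ℂ))) := by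
  simp_rw [div_point_eq]
  exact isBoundedAtImInfty_wp_all hT1 hL1 hL2 _ _

/-- The division value `℘'((rτ+s)/M)` is bounded at `i∞` (no side condition). -/
theorem isBoundedAtImInfty_divDerivWp_all (hT2 : HypT2) (hL1 : ∀ τ, (L τ).ω₁ = 1)
    (hL2 : ∀ τ : ℍ, (L τ).ω₂ = τ) (M : ℕ) (r s : ℤ) :
    IsBoundedAtImInfty (fun τ : ℍ ↦ ℘'[L τ] (((r : ℂ) * (τ : ℂ) + (s : ℂ)) / (M : ℂ))) := by
  simp_rw [div_point_eq]
  exact isBoundedAtImInfty_derivWp_all hT2 hL1 hL2 _ _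

/-- The action `(r, s) ↦ (r, s) γ` of `SL(2, ℤ)` preserves "`(r, s) ≡ 0 mod M`". -/
theorem dvd_smul_iff (M : ℤ) (γ : SL(2, ℤ)) (r s : ℤ) :
    (M ∣ r * γ 0 0 + s * γ 1 0 ∧ M ∣ r * γ 0 1 + s * γ 1 1) ↔ (M ∣ r ∧ M ∣ s) := by
  have hdet : γ 0 0 * γ 1 1 - γ 0 1 * γ 1 0 = 1 := by
    have := γ.det_coe
    rwa [Matrix.det_fin_two] at this
  constructor
  · rintro ⟨h1, h2⟩
    have hr : r = (r * γ 0 0 + s * γ 1 0) * γ 1 1 - (r * γ 0 1 + s * γ 1 1) * γ 1 0 := by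
      linear_combination (-r) * hdet
    have hs : s = (r * γ 0 1 + s * γ 1 1) * γ 0 0 - (r * γ 0 0 + s * γ 1 0) * γ 0 1 := by
      linear_combination (-s) * hdet
    refine ⟨?_, ?_⟩
    · rw [hr]; exact dvd_sub (h1.mul_right _) (h2.mul_right _)
    · rw [hs]; exact dvd_sub (h2.mul_right _) (h1.mul_right _)
  · rintro ⟨h1, h2⟩
    exact ⟨dvd_add (h1.mul_right _) (h2.mul_right _), dvd_add (h1.mul_right _) (h2.mul_right _)⟩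

/-- (K5) the ratio at the `γ`-translated division points: every `SL(2, ℤ)`-translate of
`W = ℘'(z_a)/(℘(z_a) - ℘(z_b))` is bounded at `i∞`. -/
theorem isBoundedAtImInfty_divRatio_SL (hT1 : HypT1) (hT2 : HypT2) (hL1 : ∀ τ, (L τ).ω₁ = 1)
    (hL2 : ∀ τ : ℍ, (L τ).ω₂ = τ) {M : ℕ} (hM : Odd M) (ra sa rb sb : ℤ)
    (ha : ¬ ((M : ℤ) ∣ ra ∧ (M : ℤ) ∣ sa)) (hb : ¬ ((M : ℤ) ∣ rb ∧ (M : ℤ) ∣ sb))
    (hsub : ¬ ((M : ℤ) ∣ ra - rb ∧ (M : ℤ) ∣ sa - sb))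
    (hadd : ¬ ((M : ℤ) ∣ ra + rb ∧ (M : ℤ) ∣ sa + sb)) (γ : SL(2, ℤ)) :
    IsBoundedAtImInfty (fun τ : ℍ ↦
      ℘'[L τ] ((((ra * γ 0 0 + sa * γ 1 0 : ℤ) : ℂ) * (τ : ℂ) +
          ((ra * γ 0 1 + sa * γ 1 1 : ℤ) : ℂ)) / (M : ℂ)) /
      (℘[L τ] ((((ra * γ 0 0 + sa * γ 1 0 : ℤ) : ℂ) * (τ : ℂ) +
          ((ra * γ 0 1 + sa * γ 1 1 : ℤ) : ℂ)) / (M : ℂ)) -
        ℘[L τ] ((((rb * γ 0 0 + sb * γ 1 0 : ℤ) : ℂ) * (τ : ℂ) +
          ((rb * γ 0 1 + sb * γ 1 1 : ℤ) : ℂ)) / (M : ℂ)))) := by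
  refine isBoundedAtImInfty_divRatio hT1 hT2 hL1 hL2 hM _ _ _ _ ?_ ?_ ?_ ?_
  · rw [dvd_smul_iff]; exact ha
  · rw [dvd_smul_iff]; exact hb
  · have e1 : ra * γ 0 0 + sa * γ 1 0 - (rb * γ 0 0 + sb * γ 1 0) =
        (ra - rb) * γ 0 0 + (sa - sb) * γ 1 0 := by ring
    have e2 : ra * γ 0 1 + sa * γ 1 1 - (rb * γ 0 1 + sb * γ 1 1) =
        (ra - rb) * γ 0 1 + (sa - sb) * γ 1 1 := by ring
    rw [e1, e2, dvd_smul_iff]; exact hsub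
  · have e1 : ra * γ 0 0 + sa * γ 1 0 + (rb * γ 0 0 + sb * γ 1 0) =
        (ra + rb) * γ 0 0 + (sa + sb) * γ 1 0 := by ring
    have e2 : ra * γ 0 1 + sa * γ 1 1 + (rb * γ 0 1 + sb * γ 1 1) =
        (ra + rb) * γ 0 1 + (sa + sb) * γ 1 1 := by ring
    rw [e1, e2, dvd_smul_iff]; exact hadd

end Unconditional

end Fermat.Agent.S48.helper5371
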