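import Fermat.Agent.S48.helper5371_WPCusp
import Fermat.Agent.S48.helper5288_WpQExp

/-!
# S48-WPCUSP, unconditional carrier-agnostic forms

The hypotheses `HypT1`, `HypT2` of `helper5371_WPCusp` are the `q`-expansions of leaf A1
(`helper5288_WpQExp`).  This file discharges them and restates the main results without
hypotheses, for any family `L : ℍ → PeriodPair` with `(L τ).ω₁ = 1`, `(L τ).ω₂ = τ`.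
-/

set_option autoImplicit false

namespace Fermat.Agent.S48.helper5371

open Complex Filter Topology

open UpperHalfPlane hiding I

open scoped Real PeriodPair MatrixGroups

/-- (T1) of leaf A1. -/
theorem hypT1 : HypT1 := fun L h1 _ _ hz hzim ↦
  helper5288.hasSum_weierstrassP_qExp L h1 hz hzim

/-- (T2) of leaf A1. -/
theorem hypT2 : HypT2 := fun L h1 _ _ hz hzim ↦
  helper5288.hasSum_derivWeierstrassP_qExp L h1 hz hzim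

variable {L : ℍ → PeriodPair}

/-- (K1) `‖(2πi)⁻² ℘(z) - (1/12 + u/(1-u)²)‖ ≤ cuspK · exp(-2π(Im τ - |Im z|))` on the strip. -/
theorem cusp_norm_wp_sub_le (L : PeriodPair) (h1 : L.ω₁ = 1) (hτ : 0 < L.ω₂.im) {z : ℂ}
    (hz : z ∈ Complex.integerComplement) (hzim : |z.im| < L.ω₂.im)
    (hε : Real.exp (-(2 * π * (L.ω₂.im - |z.im|))) ≤ 1 / 2) :
    ‖((2 * π * I) ^ 2)⁻¹ * ℘[L] z -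
        (1 / 12 + cexp (2 * π * I * z) / (1 - cexp (2 * π * I * z)) ^ 2)‖ ≤
      cuspK * Real.exp (-(2 * π * (L.ω₂.im - |z.im|))) :=
  norm_wp_sub_le hypT1 L h1 hτ hz hzim hε

/-- (K1) `‖(2πi)⁻³ ℘'(z) - u(1+u)/(1-u)³‖ ≤ cuspK · exp(-2π(Im τ - |Im z|))` on the strip. -/
theorem cusp_norm_derivWp_sub_le (L : PeriodPair) (h1 : L.ω₁ = 1) (hτ : 0 < L.ω₂.im) {z : ℂ}
    (hz : z ∈ Complex.integerComplement) (hzim : |z.im| < L.ω₂.im)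
    (hε : Real.exp (-(2 * π * (L.ω₂.im - |z.im|))) ≤ 1 / 2) :
    ‖((2 * π * I) ^ 3)⁻¹ * ℘'[L] z -
        cexp (2 * π * I * z) * (1 + cexp (2 * π * I * z)) / (1 - cexp (2 * π * I * z)) ^ 3‖ ≤
      cuspK * Real.exp (-(2 * π * (L.ω₂.im - |z.im|))) :=
  norm_derivWp_sub_le hypT2 L h1 hτ hz hzim hε

/-- Limit of `℘(ατ + β)` at `i∞`, `0 ≤ α < 1`. -/
theorem cusp_tendsto_wp (hL1 : ∀ τ, (L τ).ω₁ = 1) (hL2 : ∀ τ : ℍ, (L τ).ω₂ = τ) {α β : ℝ}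
    (hα0 : 0 ≤ α) (hα1 : α < 1) (hαβ : α = 0 → ∀ n : ℤ, β ≠ n) :
    Tendsto (fun τ ↦ ℘[L τ] ((α : ℂ) * (τ : ℂ) + (β : ℂ))) atImInfty
      (𝓝 ((2 * π * I) ^ 2 * (leadX α β 0 + 1 / 12))) :=
  tendsto_wp hypT1 hL1 hL2 hα0 hα1 hαβ

/-- Limit of `℘'(ατ + β)` at `i∞`, `0 ≤ α < 1`. -/
theorem cusp_tendsto_derivWp (hL1 : ∀ τ, (L τ).ω₁ = 1) (hL2 : ∀ τ : ℍ, (L τ).ω₂ = τ) {α β : ℝ}
    (hα0 : 0 ≤ α) (hα1 : α < 1) (hαβ : α = 0 → ∀ n : ℤ, β ≠ n) :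
    Tendsto (fun τ ↦ ℘'[L τ] ((α : ℂ) * (τ : ℂ) + (β : ℂ))) atImInfty
      (𝓝 ((2 * π * I) ^ 3 * leadY α β 0)) :=
  tendsto_derivWp hypT2 hL1 hL2 hα0 hα1 hαβ

/-- Leading term of `(2πi)⁻² ℘(ατ+β) - 1/12` against `E_γ = exp(2πiγτ)`. -/
theorem cusp_tendsto_wp_div (hL1 : ∀ τ, (L τ).ω₁ = 1) (hL2 : ∀ τ : ℍ, (L τ).ω₂ = τ)
    {α β γ : ℝ} (hα1 : α < 1) (hαβ : α = 0 → ∀ n : ℤ, β ≠ n) (hγ0 : 0 ≤ γ) (hγα : γ ≤ α)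
    (hγ1 : γ < 1 - α) :
    Tendsto (fun τ ↦ (((2 * π * I) ^ 2)⁻¹ * ℘[L τ] ((α : ℂ) * (τ : ℂ) + (β : ℂ)) - 1 / 12) /
      EFun γ τ) atImInfty (𝓝 (leadX α β γ)) :=
  tendsto_wp_div hypT1 hL1 hL2 hα1 hαβ hγ0 hγα hγ1

/-- Leading term of `(2πi)⁻³ ℘'(ατ+β)` against `E_γ = exp(2πiγτ)`. -/
theorem cusp_tendsto_derivWp_div (hL1 : ∀ τ, (L τ).ω₁ = 1) (hL2 : ∀ τ : ℍ, (L τ).ω₂ = τ)
    {α β γ : ℝ} (hα1 : α < 1) (hαβ : α = 0 → ∀ n : ℤ, β ≠ n) (hγ0 : 0 ≤ γ) (hγα : γ ≤ α)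
    (hγ1 : γ < 1 - α) :
    Tendsto (fun τ ↦ ((2 * π * I) ^ 3)⁻¹ * ℘'[L τ] ((α : ℂ) * (τ : ℂ) + (β : ℂ)) /
      EFun γ τ) atImInfty (𝓝 (leadY α β γ)) :=
  tendsto_derivWp_div hypT2 hL1 hL2 hα1 hαβ hγ0 hγα hγ1

/-- Limit at `i∞` of the ratio `℘'(z_a)/(℘(z_a) - ℘(z_b))`, normalised parameters. -/
theorem cusp_tendsto_ratio (hL1 : ∀ τ, (L τ).ω₁ = 1) (hL2 : ∀ τ : ℍ, (L τ).ω₂ = τ)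
    {αa βa αb βb γ : ℝ} (hγ0 : 0 ≤ γ) (hγa : γ ≤ αa) (hγb : γ ≤ αb) (hγa1 : γ < 1 - αa)
    (hγb1 : γ < 1 - αb) (hαa1 : αa < 1) (hαb1 : αb < 1)
    (ha : αa = 0 → ∀ n : ℤ, βa ≠ n) (hb : αb = 0 → ∀ n : ℤ, βb ≠ n)
    (hne : leadX αa βa γ ≠ leadX αb βb γ) :
    Tendsto (fun τ : ℍ ↦ ℘'[L τ] ((αa : ℂ) * (τ : ℂ) + (βa : ℂ)) /
      (℘[L τ] ((αa : ℂ) * (τ : ℂ) + (βa : ℂ)) - ℘[L τ] ((αb : ℂ) * (τ : ℂ) + (βb : ℂ))))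
      atImInfty (𝓝 (2 * π * I * (leadY αa βa γ / (leadX αa βa γ - leadX αb βb γ)))) :=
  tendsto_ratio hypT1 hypT2 hL1 hL2 hγ0 hγa hγb hγa1 hγb1 hαa1 hαb1 ha hb hne

/-- (K2) `τ ↦ ℘(ατ + β)` is bounded at `i∞`, all real `α`, `β`. -/
theorem cusp_bdd_wp (hL1 : ∀ τ, (L τ).ω₁ = 1) (hL2 : ∀ τ : ℍ, (L τ).ω₂ = τ) (α β : ℝ) :
    IsBoundedAtImInfty (fun τ : ℍ ↦ ℘[L τ] ((α : ℂ) * (τ : ℂ) + (β : ℂ))) :=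
  isBoundedAtImInfty_wp_all hypT1 hL1 hL2 α β

/-- (K2) `τ ↦ ℘'(ατ + β)` is bounded at `i∞`, all real `α`, `β`. -/
theorem cusp_bdd_derivWp (hL1 : ∀ τ, (L τ).ω₁ = 1) (hL2 : ∀ τ : ℍ, (L τ).ω₂ = τ) (α β : ℝ) :
    IsBoundedAtImInfty (fun τ : ℍ ↦ ℘'[L τ] ((α : ℂ) * (τ : ℂ) + (β : ℂ))) :=
  isBoundedAtImInfty_derivWp_all hypT2 hL1 hL2 α β

/-- (K2) the division value `℘((rτ+s)/M)` is bounded at `i∞`. -/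
theorem cusp_bdd_divWp (hL1 : ∀ τ, (L τ).ω₁ = 1) (hL2 : ∀ τ : ℍ, (L τ).ω₂ = τ) (M : ℕ)
    (r s : ℤ) :
    IsBoundedAtImInfty (fun τ : ℍ ↦ ℘[L τ] (((r : ℂ) * (τ : ℂ) + (s : ℂ)) / (M : ℂ))) :=
  isBoundedAtImInfty_divWp_all hypT1 hL1 hL2 M r s

/-- (K2) the division value `℘'((rτ+s)/M)` is bounded at `i∞`. -/
theorem cusp_bdd_divDerivWp (hL1 : ∀ τ, (L τ).ω₁ = 1) (hL2 : ∀ τ : ℍ, (L τ).ω₂ = τ) (M : ℕ)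
    (r s : ℤ) :
    IsBoundedAtImInfty (fun τ : ℍ ↦ ℘'[L τ] (((r : ℂ) * (τ : ℂ) + (s : ℂ)) / (M : ℂ))) :=
  isBoundedAtImInfty_divDerivWp_all hypT2 hL1 hL2 M r s

/-- (K3) the ratio `℘'(z_a)/(℘(z_a) - ℘(z_b))`, `z = ατ + β`, is bounded at `i∞`. -/
theorem cusp_bdd_ratio (hL1 : ∀ τ, (L τ).ω₁ = 1) (hL2 : ∀ τ : ℍ, (L τ).ω₂ = τ)
    {αa βa αb βb : ℝ}
    (ha : ¬ ((∃ m : ℤ, αa = m) ∧ ∃ n : ℤ, βa = n))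
    (hb : ¬ ((∃ m : ℤ, αb = m) ∧ ∃ n : ℤ, βb = n))
    (hsub : ¬ ((∃ m : ℤ, αa - αb = m) ∧ ∃ n : ℤ, βa - βb = n))
    (hadd : ¬ ((∃ m : ℤ, αa + αb = m) ∧ ∃ n : ℤ, βa + βb = n))
    (hha : ∀ m : ℤ, 2 * αa ≠ 2 * m + 1) (hhb : ∀ m : ℤ, 2 * αb ≠ 2 * m + 1) :
    IsBoundedAtImInfty (fun τ : ℍ ↦ ℘'[L τ] ((αa : ℂ) * (τ : ℂ) + (βa : ℂ)) /
      (℘[L τ] ((αa : ℂ) * (τ : ℂ) + (βa : ℂ)) - ℘[L τ] ((αb : ℂ) * (τ : ℂ) + (βb : ℂ)))) :=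
  isBoundedAtImInfty_ratio hypT1 hypT2 hL1 hL2 ha hb hsub hadd hha hhb

/-- (K4) the ratio at division points `(rτ+s)/M`, `M` odd, is bounded at `i∞`. -/
theorem cusp_bdd_divRatio (hL1 : ∀ τ, (L τ).ω₁ = 1) (hL2 : ∀ τ : ℍ, (L τ).ω₂ = τ) {M : ℕ}
    (hM : Odd M) (ra sa rb sb : ℤ)
    (ha : ¬ ((M : ℤ) ∣ ra ∧ (M : ℤ) ∣ sa)) (hb : ¬ ((M : ℤ) ∣ rb ∧ (M : ℤ) ∣ sb))
    (hsub : ¬ ((M : ℤ) ∣ ra - rb ∧ (M : ℤ) ∣ sa - sb))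
    (hadd : ¬ ((M : ℤ) ∣ ra + rb ∧ (M : ℤ) ∣ sa + sb)) :
    IsBoundedAtImInfty (fun τ : ℍ ↦ ℘'[L τ] (((ra : ℂ) * (τ : ℂ) + (sa : ℂ)) / (M : ℂ)) /
      (℘[L τ] (((ra : ℂ) * (τ : ℂ) + (sa : ℂ)) / (M : ℂ)) -
        ℘[L τ] (((rb : ℂ) * (τ : ℂ) + (sb : ℂ)) / (M : ℂ)))) :=
  isBoundedAtImInfty_divRatio hypT1 hypT2 hL1 hL2 hM ra sa rb sb ha hb hsub hadd

/-- (K5) the ratio at the `γ`-translated division points, `γ ∈ SL(2, ℤ)`. -/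
theorem cusp_bdd_divRatio_SL (hL1 : ∀ τ, (L τ).ω₁ = 1) (hL2 : ∀ τ : ℍ, (L τ).ω₂ = τ) {M : ℕ}
    (hM : Odd M) (ra sa rb sb : ℤ)
    (ha : ¬ ((M : ℤ) ∣ ra ∧ (M : ℤ) ∣ sa)) (hb : ¬ ((M : ℤ) ∣ rb ∧ (M : ℤ) ∣ sb))
    (hsub : ¬ ((M : ℤ) ∣ ra - rb ∧ (M : ℤ) ∣ sa - sb))
    (hadd : ¬ ((M : ℤ) ∣ ra + rb ∧ (M : ℤ) ∣ sa + sb)) (γ : SL(2, ℤ)) :
    IsBoundedAtImInfty (fun τ : ℍ ↦
      ℘'[L τ] ((((ra * γ 0 0 + sa * γ 1 0 : ℤ) : ℂ) * (τ : ℂ) +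
          ((ra * γ 0 1 + sa * γ 1 1 : ℤ) : ℂ)) / (M : ℂ)) /
      (℘[L τ] ((((ra * γ 0 0 + sa * γ 1 0 : ℤ) : ℂ) * (τ : ℂ) +
          ((ra * γ 0 1 + sa * γ 1 1 : ℤ) : ℂ)) / (M : ℂ)) -
        ℘[L τ] ((((rb * γ 0 0 + sb * γ 1 0 : ℤ) : ℂ) * (τ : ℂ) +
          ((rb * γ 0 1 + sb * γ 1 1 : ℤ) : ℂ)) / (M : ℂ)))) :=
  isBoundedAtImInfty_divRatio_SL hypT1 hypT2 hL1 hL2 hM ra sa rb sb ha hb hsub hadd γ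

end Fermat.Agent.S48.helper5371
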