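import Fermat.Agent.S48.helper5371_WPCuspA1
import Fermat.Agent.S48.helper9565_WPModular

/-!
# S48-WPCUSP, unconditional forms

The results of `helper5371_WPCusp` (hypotheses discharged in `helper5371_WPCuspA1` by the
`q`-expansions of leaf A1, `helper5288_WpQExp`) are restated on the division values
`divP`, `divP'`, `divD`, `divW₂`, `divW` of leaf WPMOD (`helper9565_WPModular`) and on all their
`SL(2, ℤ)`-translates: boundedness at every cusp.
-/

set_option autoImplicit false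

namespace Fermat.Agent.S48.helper5371

open Complex Filter Topology

open UpperHalfPlane hiding I

open scoped Real PeriodPair MatrixGroups ModularForm

/-! ### Division values of `℘`, `℘'` -/

/-- Every division value `℘((rτ+s)/M)` is bounded at `i∞` (no side condition). -/
theorem isBoundedAtImInfty_divP (M : ℕ) (r s : ℤ) :
    IsBoundedAtImInfty (helper9565.divP M r s) :=
  isBoundedAtImInfty_divWp_all hypT1 (L := helper9565.pairTau) (fun _ ↦ rfl) (fun _ ↦ rfl) M r s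

/-- Every division value `℘'((rτ+s)/M)` is bounded at `i∞` (no side condition). -/
theorem isBoundedAtImInfty_divP' (M : ℕ) (r s : ℤ) :
    IsBoundedAtImInfty (helper9565.divP' M r s) :=
  isBoundedAtImInfty_divDerivWp_all hypT2 (L := helper9565.pairTau) (fun _ ↦ rfl) (fun _ ↦ rfl)
    M r s

/-- Every `SL(2, ℤ)`-translate of `divP M r s` is bounded at `i∞`. -/
theorem isBoundedAtImInfty_divP_slash (M : ℕ) (r s : ℤ) (γ : SL(2, ℤ)) :
    IsBoundedAtImInfty ((helper9565.divP M r s) ∣[(2 : ℤ)] γ) := by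
  rw [helper9565.divP_slash]
  exact isBoundedAtImInfty_divP M _ _

/-- Every `SL(2, ℤ)`-translate of `divP' M r s` is bounded at `i∞`. -/
theorem isBoundedAtImInfty_divP'_slash (M : ℕ) (r s : ℤ) (γ : SL(2, ℤ)) :
    IsBoundedAtImInfty ((helper9565.divP' M r s) ∣[(3 : ℤ)] γ) := by
  rw [helper9565.divP'_slash]
  exact isBoundedAtImInfty_divP' M _ _

/-- The differences `℘((rτ+s)/M) - ℘((r'τ+s')/M)` are bounded at `i∞`. -/
theorem isBoundedAtImInfty_divD (M : ℕ) (r s r' s' : ℤ) :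
    IsBoundedAtImInfty (helper9565.divD M r s r' s') := by
  have h := (isBoundedAtImInfty_divP M r s).add (isBoundedAtImInfty_divP M r' s').neg
  have hfun : helper9565.divD M r s r' s' =
      helper9565.divP M r s + -helper9565.divP M r' s' := by
    funext τ
    simp [helper9565.divD, sub_eq_add_neg]
  rw [hfun]
  exact h

/-- Every `SL(2, ℤ)`-translate of `divD M r s r' s'` is bounded at `i∞`. -/
theorem isBoundedAtImInfty_divD_slash (M : ℕ) (r s r' s' : ℤ) (γ : SL(2, ℤ)) :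
    IsBoundedAtImInfty ((helper9565.divD M r s r' s') ∣[(2 : ℤ)] γ) := by
  rw [helper9565.divD_slash]
  exact isBoundedAtImInfty_divD M _ _ _ _

/-! ### The weight-one ratio `W` -/

/-- `W = ℘'(z)/(℘(z) - ℘(z'))` at division points of odd level is bounded at `i∞`. -/
theorem isBoundedAtImInfty_divW₂ {M : ℕ} (hM : Odd M) (r s r' s' : ℤ)
    (h1 : ¬ ((M : ℤ) ∣ r ∧ (M : ℤ) ∣ s)) (h2 : ¬ ((M : ℤ) ∣ r' ∧ (M : ℤ) ∣ s'))
    (hsub : ¬ ((M : ℤ) ∣ r - r' ∧ (M : ℤ) ∣ s - s'))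
    (hadd : ¬ ((M : ℤ) ∣ r + r' ∧ (M : ℤ) ∣ s + s')) :
    IsBoundedAtImInfty (helper9565.divW₂ M r s r' s') :=
  isBoundedAtImInfty_divRatio hypT1 hypT2 (L := helper9565.pairTau) (fun _ ↦ rfl) (fun _ ↦ rfl)
    hM r s r' s' h1 h2 hsub hadd

/-- Every `SL(2, ℤ)`-translate of `divW₂ M r s r' s'` (odd level) is bounded at `i∞`. -/
theorem isBoundedAtImInfty_divW₂_slash {M : ℕ} (hM : Odd M) (r s r' s' : ℤ)
    (h1 : ¬ ((M : ℤ) ∣ r ∧ (M : ℤ) ∣ s)) (h2 : ¬ ((M : ℤ) ∣ r' ∧ (M : ℤ) ∣ s'))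
    (hsub : ¬ ((M : ℤ) ∣ r - r' ∧ (M : ℤ) ∣ s - s'))
    (hadd : ¬ ((M : ℤ) ∣ r + r' ∧ (M : ℤ) ∣ s + s')) (γ : SL(2, ℤ)) :
    IsBoundedAtImInfty ((helper9565.divW₂ M r s r' s') ∣[(1 : ℤ)] γ) := by
  rw [helper9565.divW₂_slash]
  refine isBoundedAtImInfty_divW₂ hM _ _ _ _ ?_ ?_ ?_ ?_
  · rw [dvd_smul_iff]; exact h1
  · rw [dvd_smul_iff]; exact h2
  · have e1 : r * γ 0 0 + s * γ 1 0 - (r' * γ 0 0 + s' * γ 1 0) =
        (r - r') * γ 0 0 + (s - s') * γ 1 0 := by ring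
    have e2 : r * γ 0 1 + s * γ 1 1 - (r' * γ 0 1 + s' * γ 1 1) =
        (r - r') * γ 0 1 + (s - s') * γ 1 1 := by ring
    rw [e1, e2, dvd_smul_iff]; exact hsub
  · have e1 : r * γ 0 0 + s * γ 1 0 + (r' * γ 0 0 + s' * γ 1 0) =
        (r + r') * γ 0 0 + (s + s') * γ 1 0 := by ring
    have e2 : r * γ 0 1 + s * γ 1 1 + (r' * γ 0 1 + s' * γ 1 1) =
        (r + r') * γ 0 1 + (s + s') * γ 1 1 := by ring
    rw [e1, e2, dvd_smul_iff]; exact hadd

/-- **Boundedness at all cusps of `W_{a,b}`**: for `M` odd and `a, b, a ± b` nonzero mod `M`,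
every `SL(2, ℤ)`-translate of `divW M a b = ℘'(a/M)/(℘(a/M) - ℘(b/M))` is bounded at `i∞`. -/
theorem isBoundedAtImInfty_divW_slash {M : ℕ} (hM : Odd M) {a b : ℤ} (ha : ¬ (M : ℤ) ∣ a)
    (hb : ¬ (M : ℤ) ∣ b) (hsub : ¬ (M : ℤ) ∣ a - b) (hadd : ¬ (M : ℤ) ∣ a + b)
    (γ : SL(2, ℤ)) :
    IsBoundedAtImInfty ((helper9565.divW M a b) ∣[(1 : ℤ)] γ) := by
  rw [helper9565.divW_eq_divW₂]
  exact isBoundedAtImInfty_divW₂_slash hM 0 a 0 b (fun h ↦ ha h.2) (fun h ↦ hb h.2)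
    (fun h ↦ hsub h.2) (fun h ↦ hadd h.2) γ

/-- `W_{a,b}` itself is bounded at `i∞`. -/
theorem isBoundedAtImInfty_divW {M : ℕ} (hM : Odd M) {a b : ℤ} (ha : ¬ (M : ℤ) ∣ a)
    (hb : ¬ (M : ℤ) ∣ b) (hsub : ¬ (M : ℤ) ∣ a - b) (hadd : ¬ (M : ℤ) ∣ a + b) :
    IsBoundedAtImInfty (helper9565.divW M a b) := by
  rw [helper9565.divW_eq_divW₂]
  exact isBoundedAtImInfty_divW₂ hM 0 a 0 b (fun h ↦ ha h.2) (fun h ↦ hb h.2)
    (fun h ↦ hsub h.2) (fun h ↦ hadd h.2)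

end Fermat.Agent.S48.helper5371
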