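import Fermat.Agent.S29.helper4824_NormAlpha
import Fermat.Agent.S29.helper8217_KummerClass
import Fermat.Agent.S37.helper8426_RelNorm
import Fermat.Agent.S29.helper5500_GalHecke

/-!
# S48-M2-TP (helper5404): the multiplicative Hecke operator with diamond, field-generic

Setting: `L` a field, `E ≤ E'` two subfields of `L((q))` containing `L`, `p` a prime, `D` an
`L`-automorphism of `E` (the diamond `⟨p⟩`), with `u(q^p) ∈ E'` for `u ∈ E`.  The two
degeneracy maps are `α : E → E'` (inclusion) and `β : E → E'`, `u ↦ u(q^p)`.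

`heckeD u := Norm_α (β (D u))` is the multiplicative Hecke operator with diamond.  From the two
inputs

* (DEG)  `[E' : α E] = p + 1`,
* (SWAP) an `L`-embedding `w : E' → L((q))` with `w (α u) = u(q^{p²})`,
  `w (β u) = (D⁻¹ u)(q^p)` (the twisted Atkin–Lehner involution),

and an element `y ∈ E` with `D y = y` and nonzero coefficient at `q⁻¹` (the `j`-function), we prove
the `q`-expansion formula

`heckeD u = (D u)(q^p) * U_p (∏_{b < p} u(ζ^b q))`

(`coe_heckeD`), i.e. the Γ₁-analogue of the landed S29 NORMQ (`helper4824_NormAlpha`).  The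
Kummer-class statements follow from the generic correspondence formula of `helper8217`.
-/

set_option autoImplicit false
set_option linter.style.haveILetI false
set_option linter.unusedSectionVars false

open ModularCurve AlgebraicCurve IntermediateField HahnSeries

namespace Fermat.Agent.S48.helper5404

open Fermat.Agent.S29.helper4824 (twistFun twistHom twistFun_coeff twistHom_apply twistFun_qExpand
  twistFun_qExpand_of_pow_eq_one norm_eq_prod_ringHoms tw_eq_twistFun)
open Fermat.Agent.S29.helper8217 (IsKummer normAlong kummerClass)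

noncomputable section

section Abstract

variable {L : Type} [Field L] (E E' : IntermediateField L (LaurentSeries L)) (p : ℕ) [NeZero p]

/-- The inclusion `α : E → E'`. -/
def alphaHom (hle : E ≤ E') : E →ₐ[L] E' := IntermediateField.inclusion hle

@[simp]
theorem coe_alphaHom (hle : E ≤ E') (u : E) :
    ((alphaHom E E' hle u : E') : LaurentSeries L) = (u : LaurentSeries L) := rfl

/-- The degeneracy map `β : E → E'`, `u ↦ u(q^p)`. -/
def betaHom (hV : ∀ u : E, qExpand L p (u : LaurentSeries L) ∈ E') : E →ₐ[L] E' where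
  toFun u := ⟨qExpand L p (u : LaurentSeries L), hV u⟩
  map_one' := Subtype.ext (map_one (qExpand L p))
  map_mul' _ _ := Subtype.ext (map_mul (qExpand L p) _ _)
  map_zero' := Subtype.ext (map_zero (qExpand L p))
  map_add' _ _ := Subtype.ext (map_add (qExpand L p) _ _)
  commutes' a := Subtype.ext <| by
    show qExpand L p (algebraMap L (LaurentSeries L) a) = algebraMap L (LaurentSeries L) a
    rw [algebraMap_laurentSeries_eq_single, qExpand_single, mul_zero]

@[simp]
theorem coe_betaHom (hV : ∀ u : E, qExpand L p (u : LaurentSeries L) ∈ E') (u : E) :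
    ((betaHom E E' p hV u : E') : LaurentSeries L) = qExpand L p (u : LaurentSeries L) := rfl

/-- The multiplicative Hecke operator with diamond `D`: `u ↦ Norm_α (β (D u))`. -/
def heckeD (hle : E ≤ E') (hV : ∀ u : E, qExpand L p (u : LaurentSeries L) ∈ E')
    (D : E ≃ₐ[L] E) (u : E) : E :=
  normAlong (alphaHom E E' hle) (betaHom E E' p hV (D u))

end Abstract

/-! ## The norm formula -/

section Norm

variable {L : Type} [Field L] (E E' : IntermediateField L (LaurentSeries L)) (p : ℕ) [NeZero p]
  (hle : E ≤ E') (hV : ∀ u : E, qExpand L p (u : LaurentSeries L) ∈ E') (D : E ≃ₐ[L] E)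

/-- The base embedding `u ↦ u(q^{p²})` of `E`. -/
def baseEmb : E →+* LaurentSeries L :=
  (qExpand L (p ^ 2)).comp (algebraMap E (LaurentSeries L))

theorem baseEmb_apply (u : E) : baseEmb E p u = qExpand L (p ^ 2) (u : LaurentSeries L) := rfl

/-- The embedding `x ↦ x(q^{p²})` of `E'`. -/
def topEmb : E' →+* LaurentSeries L :=
  (qExpand L (p ^ 2)).comp (algebraMap E' (LaurentSeries L))

theorem topEmb_apply (x : E') : topEmb E' p x = qExpand L (p ^ 2) (x : LaurentSeries L) := rfl

variable {E E' p}

/-- The twisted swap embeddings. -/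
def twEmb (w : E' →ₐ[L] LaurentSeries L) (c : L) (hc : c ≠ 0) (b : ℕ) :
    E' →+* LaurentSeries L :=
  (twistHom (c ^ b) (pow_ne_zero _ hc)).comp (w : E' →+* LaurentSeries L)

theorem twEmb_apply (w : E' →ₐ[L] LaurentSeries L) (c : L) (hc : c ≠ 0) (b : ℕ) (x : E') :
    twEmb w c hc b x = twistFun (c ^ b) (w x) := rfl

/-- The family of `p + 1` embeddings of `E'`. -/
def embFam (w : E' →ₐ[L] LaurentSeries L) (c : L) (hc : c ≠ 0) :
    Option (Fin p) → (E' →+* LaurentSeries L)
  | none => topEmb E' p
  | some b => twEmb w c hc (b : ℕ)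

theorem embFam_none (w : E' →ₐ[L] LaurentSeries L) (c : L) (hc : c ≠ 0) :
    embFam (p := p) w c hc none = topEmb E' p := rfl

theorem embFam_some (w : E' →ₐ[L] LaurentSeries L) (c : L) (hc : c ≠ 0) (b : Fin p) :
    embFam (p := p) w c hc (some b) = twEmb w c hc (b : ℕ) := rfl

theorem embFam_restrict (w : E' →ₐ[L] LaurentSeries L)
    (hwα : ∀ u : E, w (alphaHom E E' hle u) = qExpand L (p ^ 2) (u : LaurentSeries L))
    (c : L) (hc : c ≠ 0) (hcl : c ^ (p ^ 2) = 1) (i : Option (Fin p)) (a : E) :
    embFam (p := p) w c hc i (alphaHom E E' hle a) = baseEmb E p a := by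
  cases i with
  | none => rfl
  | some b =>
    rw [embFam_some, twEmb_apply, baseEmb_apply, hwα]
    exact twistFun_qExpand_of_pow_eq_one (by rw [← pow_mul, mul_comm, pow_mul, hcl, one_pow]) _

theorem embFam_none_beta (w : E' →ₐ[L] LaurentSeries L) (c : L) (hc : c ≠ 0) (v : E) :
    embFam (p := p) w c hc none (betaHom E E' p hV v)
      = qExpand L (p ^ 2) (qExpand L p (v : LaurentSeries L)) := rfl

theorem embFam_some_beta (w : E' →ₐ[L] LaurentSeries L)
    (hwβ : ∀ u : E, w (betaHom E E' p hV u)
      = qExpand L p ((D.symm u : E) : LaurentSeries L))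
    {ζ c : L} (hc : c ≠ 0) (hcζ : c ^ p = ζ) (b : Fin p) (v : E) :
    embFam (p := p) w c hc (some b) (betaHom E E' p hV v)
      = qExpand L p (twistFun (ζ ^ (b : ℕ)) ((D.symm v : E) : LaurentSeries L)) := by
  rw [embFam_some, twEmb_apply, hwβ, twistFun_qExpand, ← pow_mul, mul_comm, pow_mul, hcζ]

theorem embFam_injective (hp : p.Prime) (w : E' →ₐ[L] LaurentSeries L)
    (hwβ : ∀ u : E, w (betaHom E E' p hV u)
      = qExpand L p ((D.symm u : E) : LaurentSeries L))
    (y : E) (hDy : D y = y) (hy : (y : LaurentSeries L).coeff (-1) ≠ 0)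
    {ζ c : L} (hζ : IsPrimitiveRoot ζ p) (hc : c ≠ 0) (hcζ : c ^ p = ζ) :
    Function.Injective (embFam (E' := E') (p := p) w c hc) := by
  have hζ0 : ζ ≠ 0 := hζ.ne_zero hp.ne_zero
  have hDy' : D.symm y = y := by
    rw [AlgEquiv.symm_apply_eq, hDy]
  have hcoeff_none : (embFam (p := p) w c hc none (betaHom E E' p hV y)).coeff (-(p : ℤ)) = 0 := by
    rw [embFam_none_beta]
    apply qExpand_coeff_of_not_dvd
    intro hdvd
    have h1 : ((p ^ 2 : ℕ) : ℤ) ∣ (p : ℤ) :=
      (dvd_neg (a := ((p ^ 2 : ℕ) : ℤ)) (b := (p : ℤ))).mp hdvd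
    have h2 : p ^ 2 ∣ p := by exact_mod_cast h1
    have h3 : p ^ 2 ≤ p := Nat.le_of_dvd hp.pos h2
    have h4 : 2 ≤ p := hp.two_le
    nlinarith
  have hcoeff_some : ∀ b : Fin p,
      (embFam (p := p) w c hc (some b) (betaHom E E' p hV y)).coeff (-(p : ℤ))
        = (ζ ^ (b : ℕ))⁻¹ * (y : LaurentSeries L).coeff (-1) := by
    intro b
    rw [embFam_some_beta hV D w hwβ hc hcζ, hDy']
    have : (-(p : ℤ)) = (p : ℤ) * (-1) := by ring
    rw [this, qExpand_coeff_mul, twistFun_coeff, zpow_neg_one]
  intro i j hij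
  have hc_eq : (embFam (p := p) w c hc i (betaHom E E' p hV y)).coeff (-(p : ℤ))
      = (embFam (p := p) w c hc j (betaHom E E' p hV y)).coeff (-(p : ℤ)) := by rw [hij]
  cases i with
  | none =>
    cases j with
    | none => rfl
    | some b =>
      rw [hcoeff_none, hcoeff_some] at hc_eq
      exact absurd hc_eq.symm (mul_ne_zero (inv_ne_zero (pow_ne_zero _ hζ0)) hy)
  | some a =>
    cases j with
    | none =>
      rw [hcoeff_none, hcoeff_some] at hc_eq
      exact absurd hc_eq (mul_ne_zero (inv_ne_zero (pow_ne_zero _ hζ0)) hy)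
    | some b =>
      rw [hcoeff_some, hcoeff_some] at hc_eq
      have h5 := mul_right_cancel₀ hy hc_eq
      rw [inv_inj] at h5
      have := hζ.pow_inj a.2 b.2 h5
      exact congrArg some (Fin.ext this)

/-- `V_{p²}(Norm_α(β (D u))) = (D u)(q^{p³}) * ∏_{b<p} (u(ζ^b q))(q^p)`. -/
theorem qExpand_sq_heckeD [IsAlgClosed L] [CharZero L] (hp : p.Prime)
    (hdeg : finrankAlong L (alphaHom E E' hle) = p + 1)
    (w : E' →ₐ[L] LaurentSeries L)
    (hwα : ∀ u : E, w (alphaHom E E' hle u) = qExpand L (p ^ 2) (u : LaurentSeries L))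
    (hwβ : ∀ u : E, w (betaHom E E' p hV u)
      = qExpand L p ((D.symm u : E) : LaurentSeries L))
    (y : E) (hDy : D y = y) (hy : (y : LaurentSeries L).coeff (-1) ≠ 0)
    {ζ : L} (hζ : IsPrimitiveRoot ζ p) (u : E) :
    qExpand L (p ^ 2) ((heckeD E E' p hle hV D u : E) : LaurentSeries L)
      = qExpand L (p ^ 2) (qExpand L p ((D u : E) : LaurentSeries L))
        * ∏ b : Fin p, qExpand L p (twistFun (ζ ^ (b : ℕ)) (u : LaurentSeries L)) := by
  classical
  obtain ⟨c, hcζ⟩ := IsAlgClosed.exists_pow_nat_eq ζ hp.pos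
  have hζ0 : ζ ≠ 0 := hζ.ne_zero hp.ne_zero
  have hc0 : c ≠ 0 := by
    rintro rfl
    rw [zero_pow hp.ne_zero] at hcζ
    exact hζ0 hcζ.symm
  have hcl2 : c ^ (p ^ 2) = 1 := by
    rw [pow_two, pow_mul, hcζ, hζ.pow_eq_one]
  letI := algebraAlong (alphaHom E E' hle)
  have hdeg' : Module.finrank E E' = p + 1 := hdeg
  haveI : Module.Finite E E' := Module.finite_of_finrank_pos (by rw [hdeg']; omega)
  haveI : CharZero E := charZero_of_injective_algebraMap (algebraMap L E).injective
  have hcard : Fintype.card (Option (Fin p)) = Module.finrank E E' := by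
    rw [Fintype.card_option, Fintype.card_fin, hdeg']
  have key := norm_eq_prod_ringHoms (baseEmb E p) hcard (embFam (p := p) w c hc0)
    (fun i a => embFam_restrict hle w hwα c hc0 hcl2 i a)
    (embFam_injective hV D hp w hwβ y hDy hy hζ hc0 hcζ) (betaHom E E' p hV (D u))
  rw [Fintype.prod_option, embFam_none_beta, baseEmb_apply] at key
  rw [show (∏ b : Fin p, embFam (p := p) w c hc0 (some b) (betaHom E E' p hV (D u)))
      = ∏ b : Fin p, qExpand L p (twistFun (ζ ^ (b : ℕ)) (u : LaurentSeries L)) from
    Finset.prod_congr rfl fun b _ => by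
      rw [embFam_some_beta hV D w hwβ hc0 hcζ b (D u), AlgEquiv.symm_apply_apply]] at key
  exact key

/-- `V_p(Norm_α(β (D u))) = (D u)(q^{p²}) * ∏_{b<p} u(ζ^b q)`. -/
theorem qExpand_heckeD [IsAlgClosed L] [CharZero L] (hp : p.Prime)
    (hdeg : finrankAlong L (alphaHom E E' hle) = p + 1)
    (w : E' →ₐ[L] LaurentSeries L)
    (hwα : ∀ u : E, w (alphaHom E E' hle u) = qExpand L (p ^ 2) (u : LaurentSeries L))
    (hwβ : ∀ u : E, w (betaHom E E' p hV u)
      = qExpand L p ((D.symm u : E) : LaurentSeries L))
    (y : E) (hDy : D y = y) (hy : (y : LaurentSeries L).coeff (-1) ≠ 0)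
    {ζ : L} (hζ : IsPrimitiveRoot ζ p) (u : E) :
    qExpand L p ((heckeD E E' p hle hV D u : E) : LaurentSeries L)
      = qExpand L p (qExpand L p ((D u : E) : LaurentSeries L))
        * ∏ b ∈ Finset.range p, twistFun (ζ ^ b) (u : LaurentSeries L) := by
  have h := qExpand_sq_heckeD hle hV D hp hdeg w hwα hwβ y hDy hy hζ u
  have hsq : ∀ x : LaurentSeries L,
      qExpand L (p ^ 2) x = qExpand L p (qExpand L p x) := by
    intro x
    rw [qExpand_qExpand]
    exact qExpand_congr (pow_two p) x
  rw [hsq, hsq, ← map_prod, ← map_mul] at h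
  have h' := qExpand_injective (R := L) p h
  rw [h', Finset.prod_range]

/-- **The `q`-expansion of the multiplicative Hecke operator with diamond**
(Γ₁-analogue of S29-NORMQ): `Norm_α(β (D u)) = (D u)(q^p) * U_p(∏_{b<p} u(ζ^b q))`. -/
theorem coe_heckeD [IsAlgClosed L] [CharZero L] (hp : p.Prime)
    (hdeg : finrankAlong L (alphaHom E E' hle) = p + 1)
    (w : E' →ₐ[L] LaurentSeries L)
    (hwα : ∀ u : E, w (alphaHom E E' hle u) = qExpand L (p ^ 2) (u : LaurentSeries L))
    (hwβ : ∀ u : E, w (betaHom E E' p hV u)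
      = qExpand L p ((D.symm u : E) : LaurentSeries L))
    (y : E) (hDy : D y = y) (hy : (y : LaurentSeries L).coeff (-1) ≠ 0)
    (ζ : Lˣ) (hζ : IsPrimitiveRoot (ζ : L) p) (u : E) :
    ((heckeD E E' p hle hV D u : E) : LaurentSeries L)
      = qExpand L p ((D u : E) : LaurentSeries L)
        * Fermat.Agent.S29.helper7964.uOp p
            (∏ b ∈ Finset.range p, Fermat.Agent.S29.helper7964.tw (ζ ^ b) (u : LaurentSeries L)) := by
  have h := qExpand_heckeD hle hV D hp hdeg w hwα hwβ y hDy hy hζ u
  have hprod : ∏ b ∈ Finset.range p, Fermat.Agent.S29.helper7964.tw (ζ ^ b) (u : LaurentSeries L)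
      = ∏ b ∈ Finset.range p, twistFun ((ζ : L) ^ b) (u : LaurentSeries L) := by
    refine Finset.prod_congr rfl fun b _ => ?_
    rw [tw_eq_twistFun, Units.val_pow_eq_pow_val]
  rw [hprod]
  by_cases hu : D u = 0
  · have h0 : heckeD E E' p hle hV D u = 0 := by
      unfold heckeD normAlong
      rw [hu, map_zero]
      letI := algebraAlong (alphaHom E E' hle)
      have hdeg' : Module.finrank E E' = p + 1 := hdeg
      haveI : Module.Finite E E' := Module.finite_of_finrank_pos (by rw [hdeg']; omega)
      haveI : Module.Free E E' := Module.Free.of_divisionRing E E'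
      exact Algebra.norm_zero
    rw [h0, hu]
    simp
  · have hu' : qExpand L p ((D u : E) : LaurentSeries L) ≠ 0 := by
      intro h0
      apply hu
      have h1 : ((D u : E) : LaurentSeries L) = 0 := by
        apply qExpand_injective (R := L) p
        rw [h0, map_zero]
      exact Subtype.ext h1
    have hu'' : qExpand L p (qExpand L p ((D u : E) : LaurentSeries L)) ≠ 0 := by
      intro h0
      apply hu'
      apply qExpand_injective (R := L) p
      rw [h0, map_zero]
    have hg : qExpand L p (((heckeD E E' p hle hV D u : E) : LaurentSeries L)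
        / qExpand L p ((D u : E) : LaurentSeries L))
        = ∏ b ∈ Finset.range p, twistFun ((ζ : L) ^ b) (u : LaurentSeries L) := by
      rw [map_div₀, h, mul_div_assoc, mul_comm, div_mul_cancel₀ _ hu'']
    rw [← hg, Fermat.Agent.S29.helper7964.uOp_qExpand, mul_div_cancel₀ _ hu']

/-- A family of pairwise distinct ring homs `L → Ω` restricting to the same `e0 : K → Ω` has at
most `[L : K]` members. -/
theorem card_le_finrank_of_ringHoms {K M Ω : Type*} [Field K] [Field M] [Field Ω] [Algebra K M]
    [FiniteDimensional K M] (e0 : K →+* Ω) {ι : Type*} [Fintype ι]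
    (τ : ι → (M →+* Ω)) (hτ : ∀ i (a : K), τ i (algebraMap K M a) = e0 a)
    (hinj : Function.Injective τ) : Fintype.card ι ≤ Module.finrank K M := by
  classical
  letI : Algebra K Ω := e0.toAlgebra
  let σ : ι → (M →ₐ[K] Ω) := fun i =>
    { toRingHom := τ i
      commutes' := fun a => hτ i a }
  have hσ : Function.Injective σ := by
    intro i j hij
    apply hinj
    ext x
    exact congrArg (fun f : M →ₐ[K] Ω => f x) hij
  haveI : Finite (M →ₐ[K] Ω) := Finite.algHom K M Ω
  have h1 : Nat.card ι ≤ Nat.card (M →ₐ[K] Ω) := Nat.card_le_card_of_injective σ hσ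
  rw [Nat.card_eq_fintype_card] at h1
  exact h1.trans (card_algHom_le_finrank K M Ω)

/-- **(DEG)** from the upper bound alone: the `p + 1` swap embeddings force
`[E' : α E] = p + 1` as soon as `[E' : α E] ≤ p + 1`. -/
theorem finrankAlong_alphaHom_eq [IsAlgClosed L] [CharZero L] (hp : p.Prime)
    (hfin : FiniteAlong L (alphaHom E E' hle))
    (hdeg : finrankAlong L (alphaHom E E' hle) ≤ p + 1)
    (w : E' →ₐ[L] LaurentSeries L)
    (hwα : ∀ u : E, w (alphaHom E E' hle u) = qExpand L (p ^ 2) (u : LaurentSeries L))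
    (hwβ : ∀ u : E, w (betaHom E E' p hV u)
      = qExpand L p ((D.symm u : E) : LaurentSeries L))
    (y : E) (hDy : D y = y) (hy : (y : LaurentSeries L).coeff (-1) ≠ 0) :
    finrankAlong L (alphaHom E E' hle) = p + 1 := by
  classical
  have hpL : (p : L) ≠ 0 := Nat.cast_ne_zero.mpr hp.ne_zero
  haveI : NeZero (p : L) := ⟨hpL⟩
  obtain ⟨ζ, hζ⟩ := HasEnoughRootsOfUnity.exists_primitiveRoot L p
  obtain ⟨c, hcζ⟩ := IsAlgClosed.exists_pow_nat_eq ζ hp.pos
  have hζ0 : ζ ≠ 0 := hζ.ne_zero hp.ne_zero
  have hc0 : c ≠ 0 := by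
    rintro rfl
    rw [zero_pow hp.ne_zero] at hcζ
    exact hζ0 hcζ.symm
  have hcl2 : c ^ (p ^ 2) = 1 := by
    rw [pow_two, pow_mul, hcζ, hζ.pow_eq_one]
  letI := algebraAlong (alphaHom E E' hle)
  haveI : Module.Finite E E' := hfin
  have h1 := card_le_finrank_of_ringHoms (baseEmb E p) (embFam (p := p) w c hc0)
    (fun i a => embFam_restrict hle w hwα c hc0 hcl2 i a)
    (embFam_injective hV D hp w hwβ y hDy hy hζ hc0 hcζ)
  rw [Fintype.card_option, Fintype.card_fin] at h1
  exact le_antisymm hdeg h1

end Norm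

/-! ## Kummer classes: the operator on `Pic⁰` -/

section Kummer

variable {L : Type} [Field L] [IsAlgClosed L] [CharZero L]
  (E E' : IntermediateField L (LaurentSeries L)) (p : ℕ) [NeZero p]
  (hle : E ≤ E') (hV : ∀ u : E, qExpand L p (u : LaurentSeries L) ∈ E') (D : E ≃ₐ[L] E)

/-- The pull-back map of the Hecke correspondence with diamond: `β ∘ D`. -/
def betaDHom : E →ₐ[L] E' := (betaHom E E' p hV).comp (D : E →ₐ[L] E)

theorem betaDHom_apply (u : E) : betaDHom E E' p hV D u = betaHom E E' p hV (D u) := rfl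

theorem heckeD_eq_normAlong (u : E) :
    heckeD E E' p hle hV D u = normAlong (alphaHom E E' hle) (betaDHom E E' p hV D u) := rfl

variable {E E' p}

/-- If `F` is finite over `K(x)` and `F'` is finite over `F` along `φ`, then `F'` is finite over
`K(φ x)`. -/
theorem finiteDimensional_adjoin_map {K F F' : Type*} [Field K] [Field F] [Field F']
    [Algebra K F] [Algebra K F'] (φ : F →ₐ[K] F') (x : F) [FiniteDimensional K⟮x⟯ F]
    (hfin : FiniteAlong K φ) : FiniteDimensional K⟮φ x⟯ F' := by
  have h := Fermat.Agent.S29.helper4824.finrank_mul_finrankAlong φ x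
  have h1 : 0 < Module.finrank K⟮x⟯ F := Module.finrank_pos
  have h2 : 0 < finrankAlong K φ := by
    letI := algebraAlong φ
    haveI : Module.Finite F F' := hfin
    exact Module.finrank_pos (R := F) (M := F')
  exact Module.finite_of_finrank_pos (by rw [← h]; exact Nat.mul_pos h1 h2)

/-- The data making `E'` a finite cover of `E` along `α`, over a transcendental `y ∈ E`. -/
structure CoverData (E E' : IntermediateField L (LaurentSeries L)) (p : ℕ) [NeZero p]
    (hle : E ≤ E') (hV : ∀ u : E, qExpand L p (u : LaurentSeries L) ∈ E')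
    (D : E ≃ₐ[L] E) : Prop where
  /-- a transcendental element fixed by the diamond (the `j`-function) -/
  exists_y : ∃ y : E, Transcendental L y ∧ FiniteDimensional L⟮y⟯ E ∧ D y = y
  /-- `E'` is finite over `E` -/
  finite : FiniteAlong L (alphaHom E E' hle)

variable {hle hV D}

theorem CoverData.finiteDimensional_top (h : CoverData E E' p hle hV D) :
    ∃ y' : E', Transcendental L y' ∧ FiniteDimensional L⟮y'⟯ E' := by
  obtain ⟨y, hy, hfd, -⟩ := h.exists_y
  haveI := hfd
  exact ⟨alphaHom E E' hle y, Fermat.Agent.S37.helper5162.transcendental_algHom _ hy,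
    finiteDimensional_adjoin_map (alphaHom E E' hle) y h.finite⟩

theorem CoverData.hasPrincipalDivisors_base (h : CoverData E E' p hle hV D) :
    HasPrincipalDivisors L E := by
  obtain ⟨y, hy, hfd, -⟩ := h.exists_y
  haveI := hfd
  exact Fermat.Agent.S24.helper204.hasPrincipalDivisors y hy

theorem CoverData.hasPrincipalDivisors_top (h : CoverData E E' p hle hV D) :
    HasPrincipalDivisors L E' := by
  obtain ⟨y', hy', hfd⟩ := h.finiteDimensional_top
  haveI := hfd
  exact Fermat.Agent.S24.helper204.hasPrincipalDivisors y' hy'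

theorem CoverData.residue_surjective (h : CoverData E E' p hle hV D) (w : Place L E') :
    Function.Surjective (algebraMap L w.ResidueField) := by
  obtain ⟨y', hy', hfd⟩ := h.finiteDimensional_top
  haveI := hfd
  exact Fermat.Agent.S24.helper489.stmt_ResidueK L E' y' hy' w

theorem CoverData.finiteAlong_betaDHom (h : CoverData E E' p hle hV D) :
    FiniteAlong L (betaDHom E E' p hV D) := by
  obtain ⟨y, hy, hfd, hDy⟩ := h.exists_y
  obtain ⟨y', hy', hfd'⟩ := h.finiteDimensional_top
  haveI := hfd
  haveI := hfd'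
  have htr : Transcendental L (betaDHom E E' p hV D y) :=
    Fermat.Agent.S37.helper5162.transcendental_algHom _ hy
  haveI : FiniteDimensional L⟮betaDHom E E' p hV D y⟯ E' :=
    Fermat.Agent.S24.helper2549.exchange y' _ htr
  exact Fermat.Agent.S37.helper5162.finiteAlong_of_finiteDimensional _ y

theorem CoverData.alpha_isIntegral (h : CoverData E E' p hle hV D) :
    (alphaHom E E' hle).toRingHom.IsIntegral :=
  Fermat.Agent.S37.helper5162.isIntegral_of_finiteAlong _ h.finite

theorem CoverData.betaD_isIntegral (h : CoverData E E' p hle hV D) :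
    (betaDHom E E' p hV D).toRingHom.IsIntegral :=
  Fermat.Agent.S37.helper5162.isIntegral_of_finiteAlong _ h.finiteAlong_betaDHom

/-- **(hTK)** The multiplicative Hecke operator with diamond preserves `n`-Kummer elements. -/
theorem CoverData.isKummer_heckeD (h : CoverData E E' p hle hV D) {n : ℕ} (hn : n ≠ 0) {u : E}
    (hu : IsKummer L n u) : IsKummer L n (heckeD E E' p hle hV D u) := by
  haveI := h.hasPrincipalDivisors_base
  haveI := h.hasPrincipalDivisors_top
  have hFI : FundamentalIdentityAlong L (betaDHom E E' p hV D) h.betaD_isIntegral :=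
    Fermat.Agent.S37.helper8426.fundamentalIdentityAlong _ _ h.finiteAlong_betaDHom
      h.residue_surjective
  have hNF : NormFormulaAlong L (alphaHom E E' hle) h.finite :=
    Fermat.Agent.S37.helper8426.normFormulaAlong _ _ h.residue_surjective
  exact (Fermat.Agent.S29.helper8217.correspondence_kummerClass (betaDHom E E' p hV D)
    (alphaHom E E' hle) h.betaD_isIntegral h.alpha_isIntegral hFI h.finite hNF hn hu).1

/-- The Hecke correspondence with diamond on `Pic⁰ L E`: `α_* ∘ (β ∘ D)^*`. -/
def CoverData.heckeDPic [HasPrincipalDivisors L E] (h : CoverData E E' p hle hV D) :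
    Pic0 L E →+ Pic0 L E :=
  haveI := h.hasPrincipalDivisors_top
  Pic0.correspondence (betaDHom E E' p hV D) (alphaHom E E' hle) h.betaD_isIntegral
    h.alpha_isIntegral
    (Fermat.Agent.S37.helper8426.fundamentalIdentityAlong _ _ h.finiteAlong_betaDHom
      h.residue_surjective)
    h.finite (Fermat.Agent.S37.helper8426.normFormulaAlong _ _ h.residue_surjective)

/-- The Hecke correspondence with diamond acts on Kummer classes through `heckeD`. -/
theorem CoverData.heckeDPic_kummerClass [HasPrincipalDivisors L E]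
    (h : CoverData E E' p hle hV D) {n : ℕ} (hn : n ≠ 0) {u : E} (hu : IsKummer L n u) :
    h.heckeDPic (kummerClass L n u) = kummerClass L n (heckeD E E' p hle hV D u) := by
  haveI := h.hasPrincipalDivisors_top
  exact (Fermat.Agent.S29.helper8217.correspondence_kummerClass (betaDHom E E' p hV D)
    (alphaHom E E' hle) h.betaD_isIntegral h.alpha_isIntegral
    (Fermat.Agent.S37.helper8426.fundamentalIdentityAlong _ _ h.finiteAlong_betaDHom
      h.residue_surjective)
    h.finite (Fermat.Agent.S37.helper8426.normFormulaAlong _ _ h.residue_surjective) hn hu).2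

/-- The Hecke correspondence with diamond commutes with every pair of semilinear automorphisms
of `E`, `E'` intertwined by both degeneracy maps (e.g. the coefficientwise Galois action). -/
theorem CoverData.heckeDPic_smul [HasPrincipalDivisors L E] (h : CoverData E E' p hle hV D)
    (g : SemilinearAut L E) (g' : SemilinearAut L E')
    (h₁ : SemilinearAut.IntertwinesAlong ((betaDHom E E' p hV D : E →ₐ[L] E') : E →+* E') g g')
    (h₂ : SemilinearAut.IntertwinesAlong ((alphaHom E E' hle : E →ₐ[L] E') : E →+* E') g g')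
    (x : Pic0 L E) : h.heckeDPic (g • x) = g • h.heckeDPic x := by
  haveI := h.hasPrincipalDivisors_top
  exact Fermat.Agent.S29.helper5500.pic0_correspondence_smul (betaDHom E E' p hV D)
    (alphaHom E E' hle) h.betaD_isIntegral h.alpha_isIntegral
    (Fermat.Agent.S37.helper8426.fundamentalIdentityAlong _ _ h.finiteAlong_betaDHom
      h.residue_surjective)
    h.finite (Fermat.Agent.S37.helper8426.normFormulaAlong _ _ h.residue_surjective)
    g g' h₁ h₂ x

/-- Coefficientwise semilinear automorphisms are intertwined by the inclusion `α`. -/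
theorem intertwines_alphaHom (τ : L →+* L) (g : SemilinearAut L E) (g' : SemilinearAut L E')
    (hg : ∀ x : E, ((g • x : E) : LaurentSeries L) = coeffMap τ (x : LaurentSeries L))
    (hg' : ∀ x : E', ((g' • x : E') : LaurentSeries L) = coeffMap τ (x : LaurentSeries L)) :
    SemilinearAut.IntertwinesAlong ((alphaHom E E' hle : E →ₐ[L] E') : E →+* E') g g' := by
  intro x
  apply Subtype.ext
  rw [hg']
  show coeffMap τ ((alphaHom E E' hle x : E') : LaurentSeries L)
    = ((alphaHom E E' hle (g • x) : E') : LaurentSeries L)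
  rw [coe_alphaHom, coe_alphaHom, hg]

/-- Coefficientwise semilinear automorphisms commuting with the diamond are intertwined by
`β ∘ D`. -/
theorem intertwines_betaDHom (τ : L →+* L) (g : SemilinearAut L E) (g' : SemilinearAut L E')
    (hg : ∀ x : E, ((g • x : E) : LaurentSeries L) = coeffMap τ (x : LaurentSeries L))
    (hg' : ∀ x : E', ((g' • x : E') : LaurentSeries L) = coeffMap τ (x : LaurentSeries L))
    (hD : ∀ x : E, g • D x = D (g • x)) :
    SemilinearAut.IntertwinesAlong ((betaDHom E E' p hV D : E →ₐ[L] E') : E →+* E') g g' := by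
  intro x
  apply Subtype.ext
  rw [hg']
  show coeffMap τ ((betaHom E E' p hV (D x) : E') : LaurentSeries L)
    = ((betaHom E E' p hV (D (g • x)) : E') : LaurentSeries L)
  rw [coe_betaHom, coe_betaHom, ← hD, hg, coeffMap_qExpand]

end Kummer

end

end Fermat.Agent.S48.helper5404
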