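import Fermat.Agent.S48.helper6431_SpecM2
import Fermat.Agent.S48.helper5404_HeckeDiamond

/-!
# S48 (M2): the Hecke–diamond contract from the norm construction (M2-TP)

`HeckeDiamond.ofCover` turns the output of `helper5404_HeckeDiamond` (the norm construction
`T u = Norm_α (β (D u))` on a pair of fields `E ≤ E'` with `V_p(E) ⊆ E'`) into the contract
`HeckeDiamond E G p` of the Spec (M2).  Inputs, besides the diamond `D` commuting with the
coefficientwise Galois action:

* `hcov : CoverData E E' p hle hV D` (a transcendental `y` fixed by `D` with `E` finite over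
  `ℚ̄(y)`, and `E'` finite over `E`);
* `hdeg` : `[E' : E] ≤ p + 1`;
* the swap embedding `w` of `E'` (`w ∘ α = V_{p²}`, `w ∘ β = V_p ∘ D⁻¹`);
* `y` with `D y = y` and a simple pole at `q = 0`.
-/

set_option autoImplicit false

noncomputable section

namespace Fermat.Agent.S48.helper6431

open ModularCurve AlgebraicCurve HahnSeries
open Fermat.Agent.S48.helper5404

local notation "Qb" => AlgebraicClosure ℚ

/-- **The Hecke–diamond layer from the norm construction** (`T = heckeD`, `Tcl = heckeDPic`). -/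
def HeckeDiamond.ofCover {E E' : IntermediateField Qb (LaurentSeries Qb)}
    [HasPrincipalDivisors Qb E] (G : CoeffGal E) {p : ℕ} [NeZero p] (hp : p.Prime)
    (hle : E ≤ E') (hV : ∀ u : E, qExpand Qb p (u : LaurentSeries Qb) ∈ E') (D : E ≃ₐ[Qb] E)
    (hDgal : ∀ (σ : GQ) (x : E), D (G.gal σ • x) = G.gal σ • D x)
    (hcov : CoverData E E' p hle hV D)
    (hdeg : finrankAlong Qb (alphaHom E E' hle) ≤ p + 1)
    (w : E' →ₐ[Qb] LaurentSeries Qb)
    (hwα : ∀ u : E, w (alphaHom E E' hle u) = qExpand Qb (p ^ 2) (u : LaurentSeries Qb))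
    (hwβ : ∀ u : E, w (betaHom E E' p hV u)
      = qExpand Qb p ((D.symm u : E) : LaurentSeries Qb))
    (y : E) (hDy : D y = y) (hy : (y : LaurentSeries Qb).coeff (-1) ≠ 0) :
    HeckeDiamond E G p where
  D := D
  T := heckeD E E' p hle hV D
  Tcl := hcov.heckeDPic
  D_gal := hDgal
  T_q ζ hζ u :=
    coe_heckeD hle hV D hp
      (finrankAlong_alphaHom_eq hle hV D hp hcov.finite hdeg w hwα hwβ y hDy hy)
      w hwα hwβ y hDy hy ζ hζ u
  T_kummer _ hn _ hu :=
    ⟨hcov.isKummer_heckeD hn hu, (hcov.heckeDPic_kummerClass hn hu).symm⟩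

@[simp]
theorem HeckeDiamond.ofCover_D {E E' : IntermediateField Qb (LaurentSeries Qb)}
    [HasPrincipalDivisors Qb E] (G : CoeffGal E) {p : ℕ} [NeZero p] (hp : p.Prime)
    (hle : E ≤ E') (hV : ∀ u : E, qExpand Qb p (u : LaurentSeries Qb) ∈ E') (D : E ≃ₐ[Qb] E)
    (hDgal : ∀ (σ : GQ) (x : E), D (G.gal σ • x) = G.gal σ • D x)
    (hcov : CoverData E E' p hle hV D)
    (hdeg : finrankAlong Qb (alphaHom E E' hle) ≤ p + 1)
    (w : E' →ₐ[Qb] LaurentSeries Qb)
    (hwα : ∀ u : E, w (alphaHom E E' hle u) = qExpand Qb (p ^ 2) (u : LaurentSeries Qb))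
    (hwβ : ∀ u : E, w (betaHom E E' p hV u)
      = qExpand Qb p ((D.symm u : E) : LaurentSeries Qb))
    (y : E) (hDy : D y = y) (hy : (y : LaurentSeries Qb).coeff (-1) ≠ 0) :
    (HeckeDiamond.ofCover G hp hle hV D hDgal hcov hdeg w hwα hwβ y hDy hy).D = D :=
  rfl

/-- The existence form: the data of the norm construction are only needed to EXIST. -/
theorem nonempty_heckeDiamond_of_cover {E : IntermediateField Qb (LaurentSeries Qb)}
    [HasPrincipalDivisors Qb E] (G : CoeffGal E) {p : ℕ} [NeZero p] (hp : p.Prime)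
    (D : E ≃ₐ[Qb] E) (hDgal : ∀ (σ : GQ) (x : E), D (G.gal σ • x) = G.gal σ • D x)
    (h : ∃ (E' : IntermediateField Qb (LaurentSeries Qb)) (hle : E ≤ E')
      (hV : ∀ u : E, qExpand Qb p (u : LaurentSeries Qb) ∈ E'),
      CoverData E E' p hle hV D ∧ finrankAlong Qb (alphaHom E E' hle) ≤ p + 1 ∧
      (∃ w : E' →ₐ[Qb] LaurentSeries Qb,
        (∀ u : E, w (alphaHom E E' hle u) = qExpand Qb (p ^ 2) (u : LaurentSeries Qb)) ∧
        (∀ u : E, w (betaHom E E' p hV u)
          = qExpand Qb p ((D.symm u : E) : LaurentSeries Qb))) ∧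
      ∃ y : E, D y = y ∧ (y : LaurentSeries Qb).coeff (-1) ≠ 0) :
    ∃ H : HeckeDiamond E G p, H.D = D := by
  obtain ⟨E', hle, hV, hcov, hdeg, ⟨w, hwα, hwβ⟩, y, hDy, hy⟩ := h
  exact ⟨HeckeDiamond.ofCover G hp hle hV D hDgal hcov hdeg w hwα hwβ y hDy hy, rfl⟩

end Fermat.Agent.S48.helper6431
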