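import Fermat.Agent.S48.helper6431_M2Top
import Fermat.Agent.S48.helper6431_HeckeOfCover

/-!
# S48 (M2): the Hecke–diamond layers of the carrier of record from the (M2-TP) leaves

For `E1 M = helper7300.gamma1FieldBar M`:

* `IsDiamond.gal_comm` : a diamond commutes with the coefficientwise Galois action (formal).
* `Stmt_J1 M` (J1) : a transcendental `y` of the `Γ₀(M)` field with a simple pole at `q = 0`
  over which `E1 M` is finite; `hasPrincipalDivisors_of_J1` : (J1) ⟹ (PD1).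
* `Stmt_Cover1 M q D` (COVER1) : a field `E' ⊇ E1 M, V_q(E1 M)`, finite of degree `≤ q + 1` over
  `E1 M`, with the swap embedding `w` for the diamond `D`.
* `exists_heckeDiamond1` : (J1) + `IsDiamond M q D` + (COVER1) ⟹ the (M2-TP) hypothesis `hTP` of
  `stmt_KummerMod2_of` at `q`.
* `stmt_KummerMod2_of'` : `Stmt_KummerMod2 LevelBig` from (J1), (M1), (DIAMOND1), (COVER1), (M3).
-/

set_option autoImplicit false
set_option linter.style.haveILetI false
set_option linter.unusedSectionVars false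

open scoped TensorProduct
open CongruenceSubgroup AlgebraicCurve ModularCurve IntermediateField

noncomputable section

namespace Fermat.Agent.S48.helper6431

open Fermat.Agent.S48.helper8231 (KummerModAt Stmt_KummerMod2 LevelBig)
open Fermat.Agent.S48.helper2754 (HasPeriodKummer)
open Fermat.Agent.S48.helper5404 (alphaHom betaHom CoverData)

local notation "Qb" => AlgebraicClosure ℚ

/-! ### Diamonds commute with the coefficientwise Galois action -/

/-- The `Γ₀(M)` field over `ℚ̄` is stable under the coefficientwise Galois action. -/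
theorem coeffMap_mem_modularFunctionFieldBar (M : ℕ) [NeZero M] (σ : GQ) {x : LaurentSeries Qb}
    (hx : x ∈ modularFunctionFieldBar M) :
    coeffMap (σ : Qb →+* Qb) x ∈ modularFunctionFieldBar M := by
  rw [modularFunctionFieldBar, helper7300.laurentBaseChange_full_eq] at hx ⊢
  exact helper7300.coeffMap_mem_fullC (σ : Qb →+* Qb) hx

/-- **(DGAL1)** A diamond of the `Γ₁(M)` field commutes with the coefficientwise Galois action. -/
theorem IsDiamond.gal_comm {M d : ℕ} [NeZero M] {D : E1 M ≃ₐ[Qb] E1 M} (h : IsDiamond M d D)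
    (σ : GQ) (x : E1 M) : D ((G1 M).gal σ • x) = (G1 M).gal σ • D x := by
  have key : ∀ (x : LaurentSeries Qb) (hx : x ∈ E1 M),
      D ((G1 M).gal σ • (⟨x, hx⟩ : E1 M)) = (G1 M).gal σ • D ⟨x, hx⟩ := by
    intro x hx
    induction hx using IntermediateField.adjoin_induction with
    | mem y hy =>
        rcases hy with hy | ⟨u, v, hu, hu1, hv, hv1, rfl⟩
        · have hmem : y ∈ modularFunctionFieldBar M := by
            rw [modularFunctionFieldBar, helper7300.laurentBaseChange_full_eq]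
            exact IntermediateField.subset_adjoin Qb _ hy
          have hmem' : (((G1 M).gal σ • (⟨y, IntermediateField.subset_adjoin Qb _ (Or.inl hy)⟩ :
              E1 M) : E1 M) : LaurentSeries Qb) ∈ modularFunctionFieldBar M := by
            rw [(G1 M).coe_smul]
            exact coeffMap_mem_modularFunctionFieldBar M σ hmem
          rw [h.1 _ hmem', h.1 _ hmem]
        · have hσu : (σ u) ^ M = 1 := by rw [← map_pow, hu, map_one]
          have hσu1 : σ u ≠ 1 := fun h1 => hu1 (σ.injective (h1.trans (map_one σ).symm))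
          have hσv : (σ v) ^ M = 1 := by rw [← map_pow, hv, map_one]
          have hσv1 : σ v ≠ 1 := fun h1 => hv1 (σ.injective (h1.trans (map_one σ).symm))
          have e1 : (G1 M).gal σ • (⟨helper7300.gen Qb helper7300.phiZ u v,
                helper7300.gen_mem helper7300.phiZ hu hu1 hv hv1⟩ : E1 M)
              = ⟨helper7300.gen Qb helper7300.phiZ (σ u) (σ v),
                helper7300.gen_mem helper7300.phiZ hσu hσu1 hσv hσv1⟩ := by
            apply Subtype.ext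
            rw [(G1 M).coe_smul]
            exact helper7300.coeffMap_gen_field (σ : Qb →+* Qb) helper7300.phiZ u v
          apply Subtype.ext
          have e2 := h.2 (σ u) (σ v) hσu hσu1 hσv hσv1
          have e3 := h.2 u v hu hu1 hv hv1
          rw [(G1 M).coe_smul]
          refine (congrArg (fun z : E1 M => (z : LaurentSeries Qb))
            (congrArg D e1)).trans ?_
          rw [e2, e3]
          have e4 := helper7300.coeffMap_gen_field (σ : Qb →+* Qb) helper7300.phiZ (u ^ d) (v ^ d)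
          rw [e4]
          simp only [map_pow]
          rfl
    | algebraMap a =>
        have e : (⟨algebraMap Qb (LaurentSeries Qb) a, (E1 M).algebraMap_mem a⟩ : E1 M)
            = algebraMap Qb (E1 M) a := rfl
        rw [e, D.commutes, SemilinearAut.smul_algebraMap, D.commutes]
    | add x y hx hy ihx ihy =>
        have e : (⟨x + y, add_mem hx hy⟩ : E1 M) = ⟨x, hx⟩ + ⟨y, hy⟩ := rfl
        rw [e, smul_add, map_add, map_add, smul_add, ihx, ihy]
    | inv x hx ihx =>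
        have e : (⟨x⁻¹, inv_mem hx⟩ : E1 M) = (⟨x, hx⟩ : E1 M)⁻¹ := rfl
        rw [e, smul_inv'', map_inv₀, map_inv₀, smul_inv'', ihx]
    | mul x y hx hy ihx ihy =>
        have e : (⟨x * y, mul_mem hx hy⟩ : E1 M) = ⟨x, hx⟩ * ⟨y, hy⟩ := rfl
        rw [e, smul_mul', map_mul, map_mul, smul_mul', ihx, ihy]
  exact key x x.2

/-! ### (J1), (COVER1) and the layers -/

/-- **(J1)** The `Γ₁(M)` field is finite over `ℚ̄(y)` for a transcendental `y` of the `Γ₀(M)`
field with a simple pole at `q = 0` (`y = j`).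
[From A2-GAL: `E1 M` is finite over the `Γ₀(M)` field, which is finite over `ℚ̄(j)` by the
landed `S37/helper4136.finiteDimensional_jBar`.] -/
def Stmt_J1 (M : ℕ) : Prop :=
  ∃ y : E1 M, Transcendental Qb y ∧ FiniteDimensional Qb⟮y⟯ (E1 M) ∧
    (y : LaurentSeries Qb) ∈ modularFunctionFieldBar M ∧
    (y : LaurentSeries Qb).coeff (-1) ≠ 0

/-- (J1) ⟹ (PD1). -/
theorem hasPrincipalDivisors_of_J1 {M : ℕ} (h : Stmt_J1 M) :
    HasPrincipalDivisors Qb (E1 M) := by
  obtain ⟨y, hy, hfd, -, -⟩ := h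
  haveI := hfd
  exact Fermat.Agent.S24.helper204.hasPrincipalDivisors y hy

/-- **(COVER1)** at the prime `q` for the diamond `D` of the `Γ₁(M)` field: a field `E'`
containing `E1 M` and `V_q(E1 M)`, finite of degree `≤ q + 1` over `E1 M`, with the swap
embedding `w` (`w ∘ α = V_{q²}`, `w ∘ β = V_q ∘ D⁻¹`).
[(NQ-deg): helper5404 Part II / helper9325 RELDEG; (SWAP1): helper160.] -/
def Stmt_Cover1 (M q : ℕ) [NeZero q] (D : E1 M ≃ₐ[Qb] E1 M) : Prop :=
  ∃ (E' : IntermediateField Qb (LaurentSeries Qb)) (hle : E1 M ≤ E')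
    (hV : ∀ u : E1 M, qExpand Qb q (u : LaurentSeries Qb) ∈ E'),
    FiniteAlong Qb (alphaHom (E1 M) E' hle) ∧
    finrankAlong Qb (alphaHom (E1 M) E' hle) ≤ q + 1 ∧
    ∃ w : E' →ₐ[Qb] LaurentSeries Qb,
      (∀ u : E1 M, w (alphaHom (E1 M) E' hle u) = qExpand Qb (q ^ 2) (u : LaurentSeries Qb)) ∧
      (∀ u : E1 M, w (betaHom (E1 M) E' q hV u)
        = qExpand Qb q ((D.symm u : E1 M) : LaurentSeries Qb))

/-- **The Hecke–diamond layer of the carrier of record at `q`** from (J1), the diamond `⟨q⟩`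
and (COVER1). -/
theorem exists_heckeDiamond1 (M : ℕ) [NeZero M] [HasPrincipalDivisors Qb (E1 M)]
    (hJ : Stmt_J1 M) (q : Nat.Primes) (D : E1 M ≃ₐ[Qb] E1 M) (hD : IsDiamond M (q : ℕ) D)
    (hC : haveI : NeZero (q : ℕ) := ⟨q.2.ne_zero⟩; Stmt_Cover1 M (q : ℕ) D) :
    ∃ H : HeckeDiamondAt (G1 M) q,
      haveI : NeZero (q : ℕ) := ⟨q.2.ne_zero⟩; IsDiamond M (q : ℕ) H.D := by
  haveI : NeZero (q : ℕ) := ⟨q.2.ne_zero⟩
  obtain ⟨y, hy, hfd, hymem, hy1⟩ := hJ
  obtain ⟨E', hle, hV, hfin, hdeg, w, hwα, hwβ⟩ := hC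
  have hDy : D y = y := hD.1 y hymem
  obtain ⟨H, hH⟩ := nonempty_heckeDiamond_of_cover (G1 M) q.2 D (fun σ x => hD.gal_comm σ x)
    ⟨E', hle, hV, ⟨⟨y, hy, hfd, hDy⟩, hfin⟩, hdeg, ⟨w, hwα, hwβ⟩, y, hDy, hy1⟩
  exact ⟨H, hH ▸ hD⟩

/-! ### The final assembly, second form -/

/-- **`Stmt_KummerMod2 LevelBig` from the leaf Props**, second form: the (M2-TP) hypothesis is
split into (J1) [which also gives (PD1)], (DIAMOND1) and (COVER1). -/
theorem stmt_KummerMod2_of'
    (hJ : ∀ (M : ℕ) [NeZero M], (2 ∣ M ∨ 3 ∣ M) → 70 ≤ M → Stmt_J1 M)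
    (hT : helper8782.Stmt_TowerA)
    (hI : ∀ (M : ℕ) [NeZero M], (2 ∣ M ∨ 3 ∣ M) → 70 ≤ M → ∀ (p : ℕ) [Fact p.Prime]
      (hpM : ¬ p ∣ M) (A : ValuationSubring Qb) (hA : A.LiesOverPrime p),
      helper8782.Stmt_IgusaGamma1 M p hpM A hA)
    (hR2 : ∀ (M : ℕ) [NeZero M], 70 ≤ M → ∀ h2M : 2 ∣ M, helper8782.Stmt_RamTwo M h2M)
    (hR3 : ∀ (M : ℕ) [NeZero M], 70 ≤ M → ∀ h3M : 3 ∣ M, helper8782.Stmt_RamThree M h3M)
    (hDia : ∀ (M : ℕ) [NeZero M], (2 ∣ M ∨ 3 ∣ M) → 70 ≤ M → ∀ q : Nat.Primes,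
      ¬ (q : ℕ) ∣ M → ∃ D : E1 M ≃ₐ[Qb] E1 M, IsDiamond M (q : ℕ) D)
    (hCov : ∀ (M : ℕ) [NeZero M], (2 ∣ M ∨ 3 ∣ M) → 70 ≤ M → ∀ q : Nat.Primes,
      ¬ (q : ℕ) ∣ M → ∀ D : E1 M ≃ₐ[Qb] E1 M, IsDiamond M (q : ℕ) D →
        haveI : NeZero (q : ℕ) := ⟨q.2.ne_zero⟩; Stmt_Cover1 M (q : ℕ) D)
    (hM3 : ∀ (M : ℕ) [NeZero M] [HasPrincipalDivisors Qb (E1 M)] (ℓ : ℕ), ℓ.Prime →
      LevelBig M ℓ → ∀ H : ∀ q : Nat.Primes, ¬ (q : ℕ) ∣ M * ℓ → HeckeDiamondAt (G1 M) q,
        (∀ (q : Nat.Primes) (hq : ¬ (q : ℕ) ∣ M * ℓ),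
          haveI : NeZero (q : ℕ) := ⟨q.2.ne_zero⟩; IsDiamond M (q : ℕ) (H q hq).D) →
        HasPeriodKummer M ℓ (galHecke (G1 M) (M * ℓ) H)) :
    Stmt_KummerMod2 LevelBig := by
  refine stmt_KummerMod2_of (fun M _ h23 h70 => hasPrincipalDivisors_of_J1 (hJ M h23 h70))
    hT hI hR2 hR3 ?_ hM3
  intro M _ _ h23 h70 q hq
  obtain ⟨D, hD⟩ := hDia M h23 h70 q hq
  exact exists_heckeDiamond1 M (hJ M h23 h70) q D hD (hCov M h23 h70 q hq D hD)

end Fermat.Agent.S48.helper6431
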