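import Fermat.Agent.S48.helper5404_HeckeDeg
import Fermat.Agent.S48.helper6431_TP1
import Fermat.Agent.S48.helper160_Swap1
import Fermat.Agent.S48.helper288_RatioInst
import Fermat.Agent.S48.helper288_DegGamma1
import Fermat.Agent.S48.helper8098_Gamma1Rat

/-!
# S48-M2-TP (helper5404): the leaf (COVER1) `helper6431.Stmt_Cover1 M q D`

For the carrier of record `E1 M = helper7300.gamma1FieldBar M`, a prime `q ∤ M` and a
`ℚ̄`-automorphism `D` of `E1 M` which is the diamond `⟨q⟩` in the ratio sense
(`helper160.DiamondRatio`), the field `E' := E1 M ⊔ V_q(E1 M)` satisfies (COVER1):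

* `E'` is finite of degree `≤ q + 1` over `E1 M` (Part II, `nqDeg_of_ratForm`, with the `ℚ`-form
  `helper8098.F1Q phiZ M` and the fact that the complex `Γ₁(M)` field consists of ratios of
  `Γ₁(M)`-forms);
* the swap embedding `w` (`helper160.exists_swap1_of_le`).

The only inputs are the degree `φ(M) / 2` of the `Γ₁(M)` field over the `Γ₀(M)` field (over `ℂ`,
or over `ℚ̄` — the two are equivalent by `helper8098.relfinrank_gamma1FieldP`) and `DiamondRatio`.
-/

set_option autoImplicit false
set_option linter.style.haveILetI false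
set_option linter.unusedSectionVars false

open ModularCurve AlgebraicCurve IntermediateField HahnSeries

namespace Fermat.Agent.S48.helper5404

open Fermat.Agent.S48.helper7300 (gamma1FieldP gamma1Field gamma1FieldBar gamma1Over phiZ)

noncomputable section

local notation "Qb" => AlgebraicClosure ℚ

section Degree

variable (M : ℕ) [NeZero M]

/-- The degree of the `Γ₁(M)` field over the `Γ₀(M)` field does not depend on the (algebraically
closed) field of coefficients: `finrank` form of `helper8098.relfinrank_gamma1FieldP`. -/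
theorem finrank_gamma1Over_eq_rat (L : Type) [Field L] [Algebra ℚ L]
    (hL : ∃ z : L, IsPrimitiveRoot z M) :
    Module.finrank ↥(laurentBaseChange L (modularFunctionFieldFull M)) ↥(gamma1Over L phiZ M)
      = (modularFunctionFieldFull M).relfinrank (Fermat.Agent.S48.helper8098.F1Q phiZ M) := by
  rw [← Fermat.Agent.S48.helper8098.relfinrank_gamma1FieldP phiZ M L hL]
  exact (IntermediateField.relfinrank_eq_finrank_of_le
    (Fermat.Agent.S48.helper7300.laurentBaseChange_le_gamma1FieldP L phiZ M)).symm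

/-- The complex degree from the degree over `ℚ̄`. -/
theorem finrank_gamma1Over_complex_of_bar {n : ℕ}
    (h : Module.finrank ↥(laurentBaseChange Qb (modularFunctionFieldFull M))
      ↥(gamma1Over Qb phiZ M) = n) :
    Module.finrank ↥(laurentBaseChange ℂ (modularFunctionFieldFull M))
      ↥(gamma1Over ℂ phiZ M) = n := by
  rw [finrank_gamma1Over_eq_rat M ℂ
    (Fermat.Agent.S48.helper8098.exists_isPrimitiveRoot_of_isAlgClosed M ℂ),
    ← finrank_gamma1Over_eq_rat M Qb
      (Fermat.Agent.S48.helper8098.exists_isPrimitiveRoot_of_isAlgClosed M Qb)]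
  exact h

/-- `[F₁(M)_ℂ : ℂ(j)] = φ(M) ψ(M) / 2` from the degree `φ(M) / 2` over the `Γ₀(M)` field. -/
theorem relrank_j_gamma1Field_of_finrank (hM : 3 ≤ M)
    (hdegC : Module.finrank ↥(laurentBaseChange ℂ (modularFunctionFieldFull M))
      ↥(gamma1Over ℂ phiZ M) = Nat.totient M / 2) :
    (ℂ⟮jqModC ℂ⟯).relrank (gamma1Field ℂ M)
      = ((Nat.totient M * dedekindPsi M / 2 : ℕ) : Cardinal) :=
  Fermat.Agent.S48.helper288.relrank_j_gamma1FieldP ℂ phiZ M hM
    (Fermat.Agent.S48.helper288.relrank_full_gamma1FieldP_of_finrank ℂ phiZ M hM hdegC)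

end Degree

section Cover

variable (M q : ℕ) [NeZero M] [NeZero q]

/-- **(NQ-deg≤) at the carrier of record**: `E1 M ⊔ V_q(E1 M)` is finite of degree `≤ q + 1` over
`E1 M = gamma1FieldBar M`. -/
theorem nqDeg_gamma1 (hM : 3 ≤ M) (hq : q.Prime) (hqM : ¬ q ∣ M)
    (hdegC : Module.finrank ↥(laurentBaseChange ℂ (modularFunctionFieldFull M))
      ↥(gamma1Over ℂ phiZ M) = Nat.totient M / 2) :
    FiniteAlong Qb (alphaHom (gamma1FieldBar M) (supE q (gamma1FieldBar M))
        (le_supE q (gamma1FieldBar M))) ∧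
      finrankAlong Qb (alphaHom (gamma1FieldBar M) (supE q (gamma1FieldBar M))
        (le_supE q (gamma1FieldBar M))) ≤ q + 1 :=
  nqDeg_of_ratForm q Qb M hM hq ((Nat.Prime.coprime_iff_not_dvd hq).mpr hqM)
    (Fermat.Agent.S48.helper8098.F1Q phiZ M) (Fermat.Agent.S48.helper8098.full_le_F1Q phiZ M)
    (gamma1Field ℂ M) (Fermat.Agent.S48.helper8098.laurentBaseChange_F1Q_complex phiZ M)
    (fun _ hx => Fermat.Agent.S48.helper288.isRatioG_of_mem_gamma1Field M hx)
    (relrank_j_gamma1Field_of_finrank M hM hdegC) (gamma1FieldBar M)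
    (Fermat.Agent.S48.helper8098.laurentBaseChange_F1Q_bar phiZ M)

/-- **Leaf (COVER1)**, complex-degree form: `helper6431.Stmt_Cover1 M q D` for every
`ℚ̄`-automorphism `D` of `E1 M` which is the diamond `⟨q⟩` in the ratio sense. -/
theorem stmt_Cover1_of_degC (hM : 3 ≤ M) (hq : q.Prime) (hqM : ¬ q ∣ M)
    (hdegC : Module.finrank ↥(laurentBaseChange ℂ (modularFunctionFieldFull M))
      ↥(gamma1Over ℂ phiZ M) = Nat.totient M / 2)
    (D : gamma1FieldBar M ≃ₐ[Qb] gamma1FieldBar M) (i0 : Qb →+* ℂ)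
    (hDR : Fermat.Agent.S48.helper160.DiamondRatio i0 M q (gamma1FieldBar M) D) :
    Fermat.Agent.S48.helper6431.Stmt_Cover1 M q D := by
  have h := nqDeg_gamma1 M q hM hq hqM hdegC
  obtain ⟨w, hw1, hw2⟩ := Fermat.Agent.S48.helper160.exists_swap1_of_le i0 M q hq hqM
    (gamma1FieldBar M) (supE q (gamma1FieldBar M)) le_sup_left D hDR
  exact ⟨supE q (gamma1FieldBar M), le_supE q (gamma1FieldBar M), hV_supE q (gamma1FieldBar M),
    h.1, h.2, w, fun u => hw1 u (le_supE q (gamma1FieldBar M) u.2),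
    fun u => hw2 u (hV_supE q (gamma1FieldBar M) u)⟩

/-- **Leaf (COVER1)**, `ℚ̄`-degree form (the degree in the shape exported by the diamond files:
`[E1 M : Γ₀(M) field] = φ(M) / 2` over `ℚ̄`). -/
theorem stmt_Cover1_of_degBar (hM : 3 ≤ M) (hq : q.Prime) (hqM : ¬ q ∣ M)
    (hdeg : Module.finrank ↥(laurentBaseChange Qb (modularFunctionFieldFull M))
      ↥(gamma1Over Qb phiZ M) = Nat.totient M / 2)
    (D : gamma1FieldBar M ≃ₐ[Qb] gamma1FieldBar M) (i0 : Qb →+* ℂ)
    (hDR : Fermat.Agent.S48.helper160.DiamondRatio i0 M q (gamma1FieldBar M) D) :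
    Fermat.Agent.S48.helper6431.Stmt_Cover1 M q D :=
  stmt_Cover1_of_degC M q hM hq hqM (finrank_gamma1Over_complex_of_bar M hdeg) D i0 hDR

end Cover

end

end Fermat.Agent.S48.helper5404
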