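import Mathlib
import Fermat.Agent.S48.helper7300_Gamma1Field

/-!
# S48 (L-C) DGAL1: diamonds commute with the coefficientwise Galois action (helper6099)

Leaf (L-C) of the (M2) leaf table (helper6431, team_s48_chat #521): the diamond automorphisms of
the `Γ₁(M)` function field `E = gamma1FieldP L P M ⊆ L((q))` commute with the coefficientwise
action of the automorphisms of the constant field.

The statement is proved for ANY `L`-algebra endomorphism `D` of `E` that

* fixes the `Γ₀(M)` generators `j(q^d)`, `d ∣ M` (`hD0`), and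
* moves the `Γ₁(M)` generators by a rule on the points, `D (gen u v) = gen (e u) (e v)` (`hD1`),
  where the rule `e` commutes with the automorphism of constants on `M`-th roots of unity
  (e.g. `e = (· ^ a)`: the diamond `⟨a⟩`).

Both `x ↦ D (σ • x)` and `x ↦ σ • D x` are ring homomorphisms of `E`, `σ`-semilinear on the
constants, and they agree on the generators; hence they agree.

* `ringHom_eq_of_adjoin` : generic core (two ring homomorphisms out of `K(S)`);
* `diamond_coeffMap_comm` : coefficientwise form, any ring endomorphism `σ` of the constants;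
* `diamond_coeffMap_comm_pow` : the case `e = (· ^ a)`;
* `diamond_gal_of_gens`, `diamond_gal_of_gens_pow` : the form
  `D (gamma1Galois P M σ • x) = gamma1Galois P M σ • D x` for `helper7300.gamma1Galois`
  (`D` an `AlgHom`); `diamondEquiv_gal_of_gens_pow` for `D` an `AlgEquiv`.
-/

set_option autoImplicit false

open ModularCurve IntermediateField

namespace Fermat.Agent.S48.helper6099

open Fermat.Agent.S48.helper7300

section Core

variable {K : Type*} [Field K] {F : Type*} [Field F] [Algebra K F]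

/-- Two ring homomorphisms out of `K(S)` that agree on the constants and on `S` are equal. -/
theorem ringHom_eq_of_adjoin {R : Type*} [DivisionRing R] (S : Set F)
    (f g : ↥(adjoin K S) →+* R)
    (hc : ∀ c : K, f (algebraMap K ↥(adjoin K S) c) = g (algebraMap K ↥(adjoin K S) c))
    (hS : ∀ (s : F) (hs : s ∈ S), f ⟨s, subset_adjoin K S hs⟩ = g ⟨s, subset_adjoin K S hs⟩) :
    f = g := by
  ext ⟨x, hx⟩
  induction hx using IntermediateField.adjoin_induction with
  | mem y hy => exact hS y hy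
  | algebraMap c => exact hc c
  | add y z hy hz ihy ihz =>
      have h : (⟨y + z, add_mem hy hz⟩ : ↥(adjoin K S)) = ⟨y, hy⟩ + ⟨z, hz⟩ := rfl
      rw [h, map_add, map_add, ihy, ihz]
  | inv y hy ih =>
      have h : (⟨y⁻¹, inv_mem hy⟩ : ↥(adjoin K S)) = (⟨y, hy⟩ : ↥(adjoin K S))⁻¹ := rfl
      rw [h, map_inv₀, map_inv₀, ih]
  | mul y z hy hz ihy ihz =>
      have h : (⟨y * z, mul_mem hy hz⟩ : ↥(adjoin K S)) = ⟨y, hy⟩ * ⟨z, hz⟩ := rfl
      rw [h, map_mul, map_mul, ihy, ihz]

end Core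

section Gamma1

variable {L : Type*} [Field L] (P : PowerSeries ℤ) (M : ℕ)

/-- The coefficientwise ring endomorphism of the `Γ₁(M)` field attached to a ring endomorphism
of the constants. -/
noncomputable def coeffEnd (σ : L →+* L) : gamma1FieldP L P M →+* gamma1FieldP L P M where
  toFun x := ⟨coeffMap σ (x : LaurentSeries L), coeffMap_mem_gamma1FieldP P σ x.2⟩
  map_one' := Subtype.ext (map_one (coeffMap σ))
  map_mul' x y := Subtype.ext (map_mul (coeffMap σ) (x : LaurentSeries L) (y : LaurentSeries L))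
  map_zero' := Subtype.ext (map_zero (coeffMap σ))
  map_add' x y := Subtype.ext (map_add (coeffMap σ) (x : LaurentSeries L) (y : LaurentSeries L))

@[simp]
theorem coe_coeffEnd (σ : L →+* L) (x : gamma1FieldP L P M) :
    ((coeffEnd P M σ x : gamma1FieldP L P M) : LaurentSeries L) =
      coeffMap σ (x : LaurentSeries L) := rfl

theorem coeffEnd_algebraMap (σ : L →+* L) (c : L) :
    coeffEnd P M σ (algebraMap L (gamma1FieldP L P M) c) =
      algebraMap L (gamma1FieldP L P M) (σ c) :=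
  Subtype.ext (coeffMap_algebraMap_general σ c)

/-- **(L-C), ring-hom form.**  An `L`-algebra endomorphism `D` of the `Γ₁(M)` field which fixes
the `Γ₀(M)` generators and moves the `Γ₁(M)` generators by a rule `e` on the points commutes
with the coefficientwise action of every ring endomorphism `σ` of the constants with which `e`
commutes on `M`-th roots of unity. -/
theorem diamond_comp_coeffEnd (D : gamma1FieldP L P M →ₐ[L] gamma1FieldP L P M) (e : L → L)
    (hD0 : ∀ x : gamma1FieldP L P M, (x : LaurentSeries L) ∈ divisorExpansionsC L M → D x = x)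
    (hD1 : ∀ (u v : L) (hu : u ^ M = 1) (hu1 : u ≠ 1) (hv : v ^ M = 1) (hv1 : v ≠ 1),
      ((D ⟨gen L P u v, gen_mem P hu hu1 hv hv1⟩ : gamma1FieldP L P M) : LaurentSeries L) =
        gen L P (e u) (e v))
    (σ : L →+* L) (he : ∀ u : L, u ^ M = 1 → e (σ u) = σ (e u)) :
    (D : gamma1FieldP L P M →+* gamma1FieldP L P M).comp (coeffEnd P M σ) =
      (coeffEnd P M σ).comp (D : gamma1FieldP L P M →+* gamma1FieldP L P M) := by
  refine ringHom_eq_of_adjoin (K := L) (divisorExpansionsC L M ∪ gamma1Gens L P M) _ _ ?_ ?_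
  · intro c
    show D (coeffEnd P M σ (algebraMap L (gamma1FieldP L P M) c)) =
      coeffEnd P M σ (D (algebraMap L (gamma1FieldP L P M) c))
    rw [coeffEnd_algebraMap, AlgHom.commutes, AlgHom.commutes, coeffEnd_algebraMap]
  · intro s hs
    show D (coeffEnd P M σ ⟨s, _⟩) = coeffEnd P M σ (D ⟨s, _⟩)
    rcases hs with hs | hs
    · -- a `Γ₀(M)` generator: fixed by both
      have hfix : coeffEnd P M σ (⟨s, subset_adjoin L _ (Or.inl hs)⟩ : gamma1FieldP L P M) =
          ⟨s, subset_adjoin L _ (Or.inl hs)⟩ := by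
        apply Subtype.ext
        obtain ⟨d, hne, hdvd, rfl⟩ := hs
        have := hne
        show coeffMap σ (qExpand L d (jqModC L)) = qExpand L d (jqModC L)
        rw [coeffMap_qExpand, coeffMap_jqModC]
      have hDs : D (⟨s, subset_adjoin L _ (Or.inl hs)⟩ : gamma1FieldP L P M) =
          ⟨s, subset_adjoin L _ (Or.inl hs)⟩ := hD0 _ hs
      rw [hfix, hDs, hfix]
    · -- a `Γ₁(M)` generator: both sides are `gen (e (σ u)) (e (σ v))`
      obtain ⟨u, v, hu, hu1, hv, hv1, rfl⟩ := hs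
      have hσu : σ u ^ M = 1 := by rw [← map_pow, hu, map_one]
      have hσu1 : σ u ≠ 1 := fun h => hu1 (σ.injective (h.trans (map_one σ).symm))
      have hσv : σ v ^ M = 1 := by rw [← map_pow, hv, map_one]
      have hσv1 : σ v ≠ 1 := fun h => hv1 (σ.injective (h.trans (map_one σ).symm))
      have h1 : coeffEnd P M σ (⟨gen L P u v, subset_adjoin L _
          (Or.inr ⟨u, v, hu, hu1, hv, hv1, rfl⟩)⟩ : gamma1FieldP L P M) =
          ⟨gen L P (σ u) (σ v), gen_mem P hσu hσu1 hσv hσv1⟩ :=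
        Subtype.ext (coeffMap_gen_field σ P u v)
      apply Subtype.ext
      rw [h1, hD1 (σ u) (σ v) hσu hσu1 hσv hσv1, coe_coeffEnd]
      have h2 := hD1 u v hu hu1 hv hv1
      rw [show (⟨gen L P u v, subset_adjoin L _ (Or.inr ⟨u, v, hu, hu1, hv, hv1, rfl⟩)⟩ :
        gamma1FieldP L P M) = ⟨gen L P u v, gen_mem P hu hu1 hv hv1⟩ from rfl, h2,
        coeffMap_gen_field, he u hu, he v hv]

/-- **(L-C), coefficientwise form.** -/
theorem diamond_coeffMap_comm (D : gamma1FieldP L P M →ₐ[L] gamma1FieldP L P M) (e : L → L)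
    (hD0 : ∀ x : gamma1FieldP L P M, (x : LaurentSeries L) ∈ divisorExpansionsC L M → D x = x)
    (hD1 : ∀ (u v : L) (hu : u ^ M = 1) (hu1 : u ≠ 1) (hv : v ^ M = 1) (hv1 : v ≠ 1),
      ((D ⟨gen L P u v, gen_mem P hu hu1 hv hv1⟩ : gamma1FieldP L P M) : LaurentSeries L) =
        gen L P (e u) (e v))
    (σ : L →+* L) (he : ∀ u : L, u ^ M = 1 → e (σ u) = σ (e u)) (x : gamma1FieldP L P M) :
    D (coeffEnd P M σ x) = coeffEnd P M σ (D x) :=
  congrArg (fun f : gamma1FieldP L P M →+* gamma1FieldP L P M => f x)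
    (diamond_comp_coeffEnd P M D e hD0 hD1 σ he)

/-- **(L-C), coefficientwise form, diamond `⟨a⟩`**: `D (gen u v) = gen (u ^ a) (v ^ a)`. -/
theorem diamond_coeffMap_comm_pow (D : gamma1FieldP L P M →ₐ[L] gamma1FieldP L P M) (a : ℕ)
    (hD0 : ∀ x : gamma1FieldP L P M, (x : LaurentSeries L) ∈ divisorExpansionsC L M → D x = x)
    (hD1 : ∀ (u v : L) (hu : u ^ M = 1) (hu1 : u ≠ 1) (hv : v ^ M = 1) (hv1 : v ≠ 1),
      ((D ⟨gen L P u v, gen_mem P hu hu1 hv hv1⟩ : gamma1FieldP L P M) : LaurentSeries L) =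
        gen L P (u ^ a) (v ^ a))
    (σ : L →+* L) (x : gamma1FieldP L P M) :
    D (coeffEnd P M σ x) = coeffEnd P M σ (D x) :=
  diamond_coeffMap_comm P M D (fun u => u ^ a) hD0 hD1 σ (fun u _ => (map_pow σ u a).symm) x

end Gamma1

section Galois

variable {L : Type*} [Field L] [Algebra ℚ L] (P : PowerSeries ℤ) (M : ℕ)

theorem gamma1Galois_smul_eq_coeffEnd (σ : L ≃ₐ[ℚ] L) (x : gamma1FieldP L P M) :
    gamma1Galois P M σ • x = coeffEnd P M (σ : L →+* L) x :=
  rfl

/-- **(L-C) DGAL1, hypothesis-passing on the generator formulas, general point rule `e`.** -/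
theorem diamond_gal_of_gens (D : gamma1FieldP L P M →ₐ[L] gamma1FieldP L P M) (e : L → L)
    (hD0 : ∀ x : gamma1FieldP L P M, (x : LaurentSeries L) ∈ divisorExpansionsC L M → D x = x)
    (hD1 : ∀ (u v : L) (hu : u ^ M = 1) (hu1 : u ≠ 1) (hv : v ^ M = 1) (hv1 : v ≠ 1),
      ((D ⟨gen L P u v, gen_mem P hu hu1 hv hv1⟩ : gamma1FieldP L P M) : LaurentSeries L) =
        gen L P (e u) (e v))
    (he : ∀ (σ : L ≃ₐ[ℚ] L) (u : L), u ^ M = 1 → e (σ u) = σ (e u))
    (σ : L ≃ₐ[ℚ] L) (x : gamma1FieldP L P M) :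
    D (gamma1Galois P M σ • x) = gamma1Galois P M σ • D x := by
  rw [gamma1Galois_smul_eq_coeffEnd, gamma1Galois_smul_eq_coeffEnd]
  exact diamond_coeffMap_comm P M D e hD0 hD1 (σ : L →+* L) (he σ) x

/-- **(L-C) DGAL1 for the diamond `⟨a⟩`** (`D (gen u v) = gen (u ^ a) (v ^ a)`), `D` an
`L`-algebra endomorphism. -/
theorem diamond_gal_of_gens_pow (D : gamma1FieldP L P M →ₐ[L] gamma1FieldP L P M) (a : ℕ)
    (hD0 : ∀ x : gamma1FieldP L P M, (x : LaurentSeries L) ∈ divisorExpansionsC L M → D x = x)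
    (hD1 : ∀ (u v : L) (hu : u ^ M = 1) (hu1 : u ≠ 1) (hv : v ^ M = 1) (hv1 : v ≠ 1),
      ((D ⟨gen L P u v, gen_mem P hu hu1 hv hv1⟩ : gamma1FieldP L P M) : LaurentSeries L) =
        gen L P (u ^ a) (v ^ a))
    (σ : L ≃ₐ[ℚ] L) (x : gamma1FieldP L P M) :
    D (gamma1Galois P M σ • x) = gamma1Galois P M σ • D x :=
  diamond_gal_of_gens P M D (fun u => u ^ a) hD0 hD1 (fun σ u _ => (map_pow σ u a).symm) σ x

/-- **(L-C) DGAL1 for the diamond `⟨a⟩`**, `D` an `L`-algebra automorphism (the shape of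
`helper6431.HeckeDiamond.D_gal`). -/
theorem diamondEquiv_gal_of_gens_pow (D : gamma1FieldP L P M ≃ₐ[L] gamma1FieldP L P M) (a : ℕ)
    (hD0 : ∀ x : gamma1FieldP L P M, (x : LaurentSeries L) ∈ divisorExpansionsC L M → D x = x)
    (hD1 : ∀ (u v : L) (hu : u ^ M = 1) (hu1 : u ≠ 1) (hv : v ^ M = 1) (hv1 : v ≠ 1),
      ((D ⟨gen L P u v, gen_mem P hu hu1 hv hv1⟩ : gamma1FieldP L P M) : LaurentSeries L) =
        gen L P (u ^ a) (v ^ a))
    (σ : L ≃ₐ[ℚ] L) (x : gamma1FieldP L P M) :
    D (gamma1Galois P M σ • x) = gamma1Galois P M σ • D x :=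
  diamond_gal_of_gens_pow P M (D : gamma1FieldP L P M →ₐ[L] gamma1FieldP L P M) a hD0 hD1 σ x

/-- Adapter: an endomorphism fixing the whole frozen base-changed `Γ₀(M)` field fixes the
`Γ₀(M)` generators `j(q^d)`, `d ∣ M`. -/
theorem fixes_divisorExpansionsC_of_fixes_base {E' : Type*}
    (D : gamma1FieldP L P M → E') (i : gamma1FieldP L P M → E')
    (hfix : ∀ x : gamma1FieldP L P M,
      (x : LaurentSeries L) ∈ laurentBaseChange L (modularFunctionFieldFull M) → D x = i x)
    (x : gamma1FieldP L P M) (hx : (x : LaurentSeries L) ∈ divisorExpansionsC L M) :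
    D x = i x := by
  apply hfix x
  rw [laurentBaseChange_full_eq]
  exact subset_adjoin L _ hx

/-- **(L-C) DGAL1 for the diamond `⟨a⟩`**, base hypothesis in the fixed-field form of A2-GAL
(`D` fixes the frozen base-changed `Γ₀(M)` field pointwise). -/
theorem diamondEquiv_gal_of_base_pow (D : gamma1FieldP L P M ≃ₐ[L] gamma1FieldP L P M) (a : ℕ)
    (hfix : ∀ x : gamma1FieldP L P M,
      (x : LaurentSeries L) ∈ laurentBaseChange L (modularFunctionFieldFull M) → D x = x)
    (hD1 : ∀ (u v : L) (hu : u ^ M = 1) (hu1 : u ≠ 1) (hv : v ^ M = 1) (hv1 : v ≠ 1),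
      ((D ⟨gen L P u v, gen_mem P hu hu1 hv hv1⟩ : gamma1FieldP L P M) : LaurentSeries L) =
        gen L P (u ^ a) (v ^ a))
    (σ : L ≃ₐ[ℚ] L) (x : gamma1FieldP L P M) :
    D (gamma1Galois P M σ • x) = gamma1Galois P M σ • D x :=
  diamondEquiv_gal_of_gens_pow P M D a
    (fixes_divisorExpansionsC_of_fixes_base P M D id hfix) hD1 σ x

/-- **(L-C) DGAL1, family form** (the statement of the (M2) leaf table verbatim, for ANY family
of `L`-automorphisms `dia d`, `d : (ZMod M)ˣ`, with the two generator facts of A2-GAL: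
`dia d` fixes the frozen base-changed `Γ₀(M)` field and
`dia d (gen u v) = gen (u ^ d.val) (v ^ d.val)`). -/
theorem diamondFamily_gal (dia : (ZMod M)ˣ → (gamma1FieldP L P M ≃ₐ[L] gamma1FieldP L P M))
    (hfix : ∀ (d : (ZMod M)ˣ) (x : gamma1FieldP L P M),
      (x : LaurentSeries L) ∈ laurentBaseChange L (modularFunctionFieldFull M) → dia d x = x)
    (hgen : ∀ (d : (ZMod M)ˣ) (u v : L) (hu : u ^ M = 1) (hu1 : u ≠ 1) (hv : v ^ M = 1)
      (hv1 : v ≠ 1),
      ((dia d ⟨gen L P u v, gen_mem P hu hu1 hv hv1⟩ : gamma1FieldP L P M) : LaurentSeries L) =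
        gen L P (u ^ (d : ZMod M).val) (v ^ (d : ZMod M).val))
    (d : (ZMod M)ˣ) (σ : L ≃ₐ[ℚ] L) (x : gamma1FieldP L P M) :
    dia d (gamma1Galois P M σ • x) = gamma1Galois P M σ • dia d x :=
  diamondEquiv_gal_of_base_pow P M (dia d) (d : ZMod M).val (hfix d) (hgen d) σ x

/-- **(L-C) DGAL1, family form with an arbitrary exponent function** `a : (ZMod M)ˣ → ℕ`
(any representative of `d`) and the weak base hypothesis (only the `j(q^d)`, `d ∣ M`). -/
theorem diamondFamily_gal_of_gens (dia : (ZMod M)ˣ → (gamma1FieldP L P M ≃ₐ[L] gamma1FieldP L P M))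
    (a : (ZMod M)ˣ → ℕ)
    (hD0 : ∀ (d : (ZMod M)ˣ) (x : gamma1FieldP L P M),
      (x : LaurentSeries L) ∈ divisorExpansionsC L M → dia d x = x)
    (hgen : ∀ (d : (ZMod M)ˣ) (u v : L) (hu : u ^ M = 1) (hu1 : u ≠ 1) (hv : v ^ M = 1)
      (hv1 : v ≠ 1),
      ((dia d ⟨gen L P u v, gen_mem P hu hu1 hv hv1⟩ : gamma1FieldP L P M) : LaurentSeries L) =
        gen L P (u ^ a d) (v ^ a d))
    (d : (ZMod M)ˣ) (σ : L ≃ₐ[ℚ] L) (x : gamma1FieldP L P M) :
    dia d (gamma1Galois P M σ • x) = gamma1Galois P M σ • dia d x :=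
  diamondEquiv_gal_of_gens_pow P M (dia d) (a d) (hD0 d) (hgen d) σ x

end Galois

end Fermat.Agent.S48.helper6099
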