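import Mathlib
import Fermat.Agent.S48.helper6099_DiamondGal

/-!
# S48 A2-GAL brick: the kernel of the diamonds is `{±1}` and the layer degree is `φ(M)/2`
(helper6099)

Hypothesis-passing on exactly the two generator facts of the diamonds of the `Γ₁(M)` field
`E = gamma1FieldP L P M` (the same interface as `helper6099_DiamondGal`):

* the diamonds fix the `Γ₀(M)` generators `j(q^d)`, `d ∣ M`;
* `⟨d⟩ (gen u v) = gen (u ^ d.val) (v ^ d.val)`.

Then, for `L` of characteristic zero containing a primitive `M`-th root of unity: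

* `diamond_eq_one_iff` : `⟨d⟩ = 1 ↔ d = 1 ∨ d = -1` (purely algebraic: the constant terms
  `x(u^d) - x(u)` are independent of `u`, they sum to `0` over `μ_M`, hence vanish);
* `card_range_diamondFamily` : the image of the diamonds has `φ(M)/2` elements (`3 ≤ M`);
* `finrank_of_diamondFamily` : if moreover the fixed field of the diamonds is `F₀ ≤ E`, then
  `E / F₀` is Galois of degree `φ(M)/2` (Artin); `finrank_gamma1Over_of_diamondFamily` is the
  instance `F₀ = laurentBaseChange L (modularFunctionFieldFull M)`, `E = gamma1Over L P M`.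
-/

set_option autoImplicit false

open ModularCurve IntermediateField

namespace Fermat.Agent.S48.helper6099

open Fermat.Agent.S48.helper7300

/-! ### Points: `x(u^a) - x(u)` constant on `μ_M ∖ {1}` forces `a ≡ ±1` -/

section Points

variable {K : Type*} [Field K]

/-- `∑_{u ∈ μ_M} (x(u^a) - x(u)) = 0` for `a` prime to `M`. -/
theorem sum_xv_pow_sub {M : ℕ} [NeZero M] [Fintype (rootsOfUnity M K)] {z : K}
    (hz : IsPrimitiveRoot z M) (a : ℕ) (ha : a.Coprime M) :
    ∑ u : rootsOfUnity M K, (xv (((u : Kˣ) : K) ^ a) - xv ((u : Kˣ) : K)) = 0 := by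
  rw [Finset.sum_sub_distrib, sub_eq_zero]
  have hc : (Nat.card (rootsOfUnity M K)).Coprime a := by
    rw [hz.card_rootsOfUnity]
    exact ha.symm
  refine Fintype.sum_equiv (powCoprime hc) _ _ (fun u => ?_)
  simp [powCoprime]

/-- If `x(u^a) - x(v^a) = x(u) - x(v)` for all non-trivial `M`-th roots of unity `u`, `v`
(`a` prime to `M`), then `z^a = z^{±1}` for a primitive `M`-th root of unity `z`. -/
theorem pow_eq_or_of_xv_const [CharZero K] {M : ℕ} [NeZero M] (hM : 2 ≤ M) {z : K}
    (hz : IsPrimitiveRoot z M) (a : ℕ) (ha : a.Coprime M)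
    (h : ∀ u v : K, u ^ M = 1 → u ≠ 1 → v ^ M = 1 → v ≠ 1 →
      xv (u ^ a) - xv (v ^ a) = xv u - xv v) :
    z ^ a = z ∨ z ^ a * z = 1 := by
  classical
  let _ : Fintype (rootsOfUnity M K) := Fintype.ofFinite _
  have hz1 : z ≠ 1 := hz.ne_one (by omega)
  have hza1 : z ^ a ≠ 1 := by
    intro h1
    have h2 : M ∣ a := hz.dvd_of_pow_eq_one a h1
    have h3 : M ∣ 1 := by
      have := Nat.dvd_gcd h2 (dvd_refl M)
      rwa [ha] at this
    have := Nat.le_of_dvd one_pos h3
    omega
  rw [← xv_eq_xv_iff hza1 hz1]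
  have hsum := sum_xv_pow_sub hz a ha
  have hconst : ∀ u : rootsOfUnity M K, u ≠ 1 →
      xv (((u : Kˣ) : K) ^ a) - xv ((u : Kˣ) : K) = xv (z ^ a) - xv z := by
    intro u hu
    have huM : ((u : Kˣ) : K) ^ M = 1 := by
      have h1 : (u : Kˣ) ^ M = 1 := (mem_rootsOfUnity M _).mp u.2
      rw [← Units.val_pow_eq_pow_val, h1, Units.val_one]
    have hu1 : ((u : Kˣ) : K) ≠ 1 := by
      intro h1
      apply hu
      apply Subtype.ext
      apply Units.ext
      rw [h1]
      rfl
    have := h _ z huM hu1 hz.pow_eq_one hz1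
    linear_combination this
  have hcard : Fintype.card (rootsOfUnity M K) = M := by
    rw [← Nat.card_eq_fintype_card, hz.card_rootsOfUnity]
  have h1 : xv ((((1 : rootsOfUnity M K) : Kˣ) : K) ^ a) -
      xv (((1 : rootsOfUnity M K) : Kˣ) : K) = 0 := by simp
  have key : ∑ u : rootsOfUnity M K, (xv (((u : Kˣ) : K) ^ a) - xv ((u : Kˣ) : K)) =
      ((M - 1 : ℕ) : K) * (xv (z ^ a) - xv z) := by
    rw [← Finset.sum_erase_add _ _ (Finset.mem_univ (1 : rootsOfUnity M K)), h1, add_zero,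
      Finset.sum_congr rfl (fun u hu => hconst u (Finset.ne_of_mem_erase hu)), Finset.sum_const,
      Finset.card_erase_of_mem (Finset.mem_univ _), Finset.card_univ, hcard, nsmul_eq_mul]
  rw [hsum] at key
  have hM1 : ((M - 1 : ℕ) : K) ≠ 0 := Nat.cast_ne_zero.mpr (by omega)
  exact sub_eq_zero.mp ((mul_eq_zero.mp key.symm).resolve_left hM1)

/-- The same for the generators: if `gen (u^a) (v^a) = gen u v` for all non-trivial `M`-th roots
of unity, then `z^a = z^{±1}`. -/
theorem pow_eq_or_of_gen_const [CharZero K] {P : PowerSeries ℤ}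
    (hP : PowerSeries.constantCoeff P = 1) {M : ℕ} [NeZero M] (hM : 2 ≤ M) {z : K}
    (hz : IsPrimitiveRoot z M) (a : ℕ) (ha : a.Coprime M)
    (h : ∀ u v : K, u ^ M = 1 → u ≠ 1 → v ^ M = 1 → v ≠ 1 →
      gen K P (u ^ a) (v ^ a) = gen K P u v) :
    z ^ a = z ∨ z ^ a * z = 1 :=
  pow_eq_or_of_xv_const hM hz a ha (fun u v hu hu1 hv hv1 => by
    have h1 := congrArg (fun s : LaurentSeries K => s.coeff 0) (h u v hu hu1 hv hv1)
    simpa only [gen_coeff_zero hP] using h1)

/-- A unit `d` of `ZMod M` with `z ^ d.val = z^{±1}` is `±1`. -/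
theorem unit_eq_one_or_neg_one {M : ℕ} [NeZero M] (hM : 2 ≤ M) {z : K}
    (hz : IsPrimitiveRoot z M) (d : (ZMod M)ˣ)
    (h : z ^ (d : ZMod M).val = z ∨ z ^ (d : ZMod M).val * z = 1) : d = 1 ∨ d = -1 := by
  rcases h with h | h
  · left
    have h1 : (d : ZMod M).val = 1 :=
      hz.pow_inj (ZMod.val_lt _) (by omega) (by rw [h, pow_one])
    apply Units.ext
    rw [← ZMod.natCast_zmod_val (d : ZMod M), h1, Nat.cast_one, Units.val_one]
  · right
    have h1 : M ∣ (d : ZMod M).val + 1 := hz.dvd_of_pow_eq_one _ (by rw [pow_succ, h])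
    have h2 : (((d : ZMod M).val + 1 : ℕ) : ZMod M) = 0 := (ZMod.natCast_eq_zero_iff _ _).mpr h1
    rw [Nat.cast_add, ZMod.natCast_zmod_val, Nat.cast_one] at h2
    apply Units.ext
    rw [Units.val_neg, Units.val_one]
    exact eq_neg_of_add_eq_zero_left h2

/-- `(-1 : ZMod M).val + 1 = M`. -/
theorem val_neg_one_add_one (M : ℕ) [NeZero M] : (-1 : ZMod M).val + 1 = M := by
  have h0 : (((-1 : ZMod M).val + 1 : ℕ) : ZMod M) = 0 := by
    rw [Nat.cast_add, ZMod.natCast_zmod_val, Nat.cast_one, neg_add_cancel]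
  have hdvd : M ∣ (-1 : ZMod M).val + 1 := (ZMod.natCast_eq_zero_iff _ _).mp h0
  have hlt : (-1 : ZMod M).val < M := ZMod.val_lt _
  have hle := Nat.le_of_dvd (Nat.succ_pos _) hdvd
  omega

/-- For an `M`-th root of unity `u`: `u ^ (-1 : ZMod M).val = u⁻¹`. -/
theorem pow_val_neg_one {M : ℕ} [NeZero M] {u : K} (hu : u ^ M = 1) :
    u ^ (-1 : ZMod M).val = u⁻¹ := by
  apply eq_inv_of_mul_eq_one_left
  rw [← pow_succ, val_neg_one_add_one, hu]

end Points

/-! ### The kernel of the diamonds -/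

section Ker

variable {L : Type*} [Field L] (P : PowerSeries ℤ) (M : ℕ)

/-- An `L`-automorphism of the `Γ₁(M)` field fixing all the generators is the identity. -/
theorem algEquiv_eq_one_of_gens (D : gamma1FieldP L P M ≃ₐ[L] gamma1FieldP L P M)
    (hD0 : ∀ x : gamma1FieldP L P M, (x : LaurentSeries L) ∈ divisorExpansionsC L M → D x = x)
    (hD1 : ∀ (u v : L) (hu : u ^ M = 1) (hu1 : u ≠ 1) (hv : v ^ M = 1) (hv1 : v ≠ 1),
      ((D ⟨gen L P u v, gen_mem P hu hu1 hv hv1⟩ : gamma1FieldP L P M) : LaurentSeries L) =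
        gen L P u v) :
    D = 1 := by
  have key : ((D : gamma1FieldP L P M →ₐ[L] gamma1FieldP L P M) :
      gamma1FieldP L P M →+* gamma1FieldP L P M) = RingHom.id _ := by
    refine ringHom_eq_of_adjoin (K := L) (divisorExpansionsC L M ∪ gamma1Gens L P M) _ _ ?_ ?_
    · intro c
      exact D.commutes c
    · intro s hs
      rcases hs with hs | hs
      · exact hD0 _ hs
      · obtain ⟨u, v, hu, hu1, hv, hv1, rfl⟩ := hs
        exact Subtype.ext (hD1 u v hu hu1 hv hv1)
  apply AlgEquiv.ext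
  intro x
  exact congrArg (fun f : gamma1FieldP L P M →+* gamma1FieldP L P M => f x) key

variable {P} in
/-- **The kernel of the diamonds is `{±1}`.** -/
theorem diamond_eq_one_iff [CharZero L] (hP : PowerSeries.constantCoeff P = 1) [NeZero M]
    (hM : 2 ≤ M) {z : L} (hz : IsPrimitiveRoot z M)
    (D : gamma1FieldP L P M ≃ₐ[L] gamma1FieldP L P M) (d : (ZMod M)ˣ)
    (hD0 : ∀ x : gamma1FieldP L P M, (x : LaurentSeries L) ∈ divisorExpansionsC L M → D x = x)
    (hgen : ∀ (u v : L) (hu : u ^ M = 1) (hu1 : u ≠ 1) (hv : v ^ M = 1) (hv1 : v ≠ 1),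
      ((D ⟨gen L P u v, gen_mem P hu hu1 hv hv1⟩ : gamma1FieldP L P M) : LaurentSeries L) =
        gen L P (u ^ (d : ZMod M).val) (v ^ (d : ZMod M).val)) :
    D = 1 ↔ d = 1 ∨ d = -1 := by
  constructor
  · intro h1
    refine unit_eq_one_or_neg_one hM hz d
      (pow_eq_or_of_gen_const hP hM hz _ (ZMod.val_coe_unit_coprime d) ?_)
    intro u v hu hu1 hv hv1
    rw [← hgen u v hu hu1 hv hv1, h1]
    rfl
  · intro hd
    refine algEquiv_eq_one_of_gens P M D hD0 (fun u v hu hu1 hv hv1 => ?_)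
    rw [hgen u v hu hu1 hv hv1]
    rcases hd with rfl | rfl
    · have h1 : ((1 : (ZMod M)ˣ) : ZMod M).val = 1 := by
        rw [Units.val_one, ZMod.val_one_eq_one_mod, Nat.mod_eq_of_lt (by omega)]
      rw [h1, pow_one, pow_one]
    · have h1 : ((-1 : (ZMod M)ˣ) : ZMod M) = -1 := by rw [Units.val_neg, Units.val_one]
      rw [h1, pow_val_neg_one hu, pow_val_neg_one hv, gen_inv_left, gen_inv_right]

variable {P} in
/-- The kernel of a family of diamonds, as a membership statement. -/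
theorem mem_ker_diamondFamily_iff [CharZero L] (hP : PowerSeries.constantCoeff P = 1) [NeZero M]
    (hM : 2 ≤ M) {z : L} (hz : IsPrimitiveRoot z M)
    (dia : (ZMod M)ˣ →* (gamma1FieldP L P M ≃ₐ[L] gamma1FieldP L P M))
    (hD0 : ∀ (d : (ZMod M)ˣ) (x : gamma1FieldP L P M),
      (x : LaurentSeries L) ∈ divisorExpansionsC L M → dia d x = x)
    (hgen : ∀ (d : (ZMod M)ˣ) (u v : L) (hu : u ^ M = 1) (hu1 : u ≠ 1) (hv : v ^ M = 1)
      (hv1 : v ≠ 1),
      ((dia d ⟨gen L P u v, gen_mem P hu hu1 hv hv1⟩ : gamma1FieldP L P M) : LaurentSeries L) =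
        gen L P (u ^ (d : ZMod M).val) (v ^ (d : ZMod M).val))
    (d : (ZMod M)ˣ) : d ∈ dia.ker ↔ d = 1 ∨ d = -1 := by
  rw [MonoidHom.mem_ker]
  exact diamond_eq_one_iff M hP hM hz (dia d) d (hD0 d) (hgen d)

/-- `1 ≠ -1` in `(ZMod M)ˣ` for `3 ≤ M`. -/
theorem one_ne_neg_one_units {M : ℕ} (hM : 3 ≤ M) : (1 : (ZMod M)ˣ) ≠ -1 := by
  intro h
  have h1 : ((1 : (ZMod M)ˣ) : ZMod M) = ((-1 : (ZMod M)ˣ) : ZMod M) := congrArg Units.val h
  rw [Units.val_neg, Units.val_one] at h1
  have h2 : ((2 : ℕ) : ZMod M) = 0 := by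
    have : (1 : ZMod M) + 1 = 0 := by
      nth_rewrite 1 [h1]
      exact neg_add_cancel 1
    rw [← this]
    norm_num
  have h3 : M ∣ 2 := (ZMod.natCast_eq_zero_iff _ _).mp h2
  have := Nat.le_of_dvd (by norm_num) h3
  omega

variable {P} in
/-- **The image of the diamonds has `φ(M)/2` elements** (`3 ≤ M`). -/
theorem card_range_diamondFamily [CharZero L] (hP : PowerSeries.constantCoeff P = 1) [NeZero M]
    (hM : 3 ≤ M) {z : L} (hz : IsPrimitiveRoot z M)
    (dia : (ZMod M)ˣ →* (gamma1FieldP L P M ≃ₐ[L] gamma1FieldP L P M))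
    (hD0 : ∀ (d : (ZMod M)ˣ) (x : gamma1FieldP L P M),
      (x : LaurentSeries L) ∈ divisorExpansionsC L M → dia d x = x)
    (hgen : ∀ (d : (ZMod M)ˣ) (u v : L) (hu : u ^ M = 1) (hu1 : u ≠ 1) (hv : v ^ M = 1)
      (hv1 : v ≠ 1),
      ((dia d ⟨gen L P u v, gen_mem P hu hu1 hv hv1⟩ : gamma1FieldP L P M) : LaurentSeries L) =
        gen L P (u ^ (d : ZMod M).val) (v ^ (d : ZMod M).val)) :
    Nat.card dia.range = M.totient / 2 := by
  have hker := mem_ker_diamondFamily_iff M hP (by omega : 2 ≤ M) hz dia hD0 hgen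
  have hk2 : Nat.card dia.ker = 2 := by
    rw [Nat.card_eq_two_iff]
    refine ⟨⟨1, (hker 1).mpr (Or.inl rfl)⟩, ⟨-1, (hker (-1)).mpr (Or.inr rfl)⟩, ?_, ?_⟩
    · intro h
      exact one_ne_neg_one_units hM (congrArg Subtype.val h)
    · ext ⟨x, hx⟩
      simp only [Set.mem_insert_iff, Set.mem_singleton_iff, Subtype.mk.injEq, Set.mem_univ,
        iff_true]
      exact (hker x).mp hx
  have h1 := Subgroup.card_mul_index dia.ker
  rw [Subgroup.index_ker, hk2, Nat.card_eq_fintype_card (α := (ZMod M)ˣ),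
    ZMod.card_units_eq_totient] at h1
  omega

end Ker

/-! ### Artin: the layer is Galois of degree `φ(M)/2` -/

section Artin

variable {k E : Type*} [Field k] [Field E] [Algebra k E] {F0 F1 : IntermediateField k E}

/-- **Artin.** If a finite group `H` of `k`-automorphisms of `F1` has fixed field `F0 ≤ F1`, then
`F1 / F0` is Galois of degree `#H`. -/
theorem isGalois_finrank_of_fixed (hle : F0 ≤ F1) (H : Subgroup (F1 ≃ₐ[k] F1)) [Finite H]
    (hfix : ∀ x : F1, (x : E) ∈ F0 ↔ ∀ g ∈ H, g x = x) :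
    IsGalois F0 (extendScalars hle) ∧ Module.finrank F0 (extendScalars hle) = Nat.card H := by
  classical
  have : Fintype H := Fintype.ofFinite H
  have hT : ∀ x : F1, x ∈ FixedPoints.subfield H F1 ↔ (x : E) ∈ F0 := by
    intro x
    rw [hfix]
    constructor
    · intro h g hg
      exact h ⟨g, hg⟩
    · intro h g
      exact h g.1 g.2
  let i : FixedPoints.subfield H F1 ≃+* F0 :=
    { toFun := fun x => ⟨(x.1 : E), (hT x.1).mp x.2⟩
      invFun := fun y => ⟨⟨y.1, hle y.2⟩, (hT _).mpr y.2⟩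
      left_inv := fun x => rfl
      right_inv := fun y => rfl
      map_mul' := fun x y => rfl
      map_add' := fun x y => rfl }
  let j : F1 ≃+* extendScalars hle :=
    { toFun := fun x => ⟨x.1, x.2⟩
      invFun := fun y => ⟨y.1, y.2⟩
      left_inv := fun x => rfl
      right_inv := fun y => rfl
      map_mul' := fun x y => rfl
      map_add' := fun x y => rfl }
  have hcomp : (algebraMap F0 (extendScalars hle)).comp (i : _ →+* F0)
      = (j : F1 →+* _).comp (algebraMap (FixedPoints.subfield H F1) F1) := by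
    ext x
    rfl
  have : IsGalois (FixedPoints.subfield H F1) F1 := ⟨⟩
  refine ⟨IsGalois.of_equiv_equiv (f := i) (g := j) hcomp, ?_⟩
  rw [← Algebra.finrank_eq_of_equiv_equiv i j hcomp, FixedPoints.finrank_eq_card,
    Nat.card_eq_fintype_card]

end Artin

section Layer

variable {L : Type*} [Field L] [Algebra ℚ L] (P : PowerSeries ℤ) (M : ℕ)

variable {P} in
/-- **The `Γ₁(M)` layer is Galois of degree `φ(M)/2`** (`3 ≤ M`, `L ∋ ζ_M`), for ANY family of
diamonds `dia : (ZMod M)ˣ →* Aut_L(E)` with fixed field the frozen base-changed `Γ₀(M)` field and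
the generator formula `⟨d⟩ (gen u v) = gen (u ^ d.val) (v ^ d.val)`. -/
theorem finrank_gamma1Over_of_diamondFamily (hP : PowerSeries.constantCoeff P = 1) [NeZero M]
    (hM : 3 ≤ M) {z : L} (hz : IsPrimitiveRoot z M)
    (dia : (ZMod M)ˣ →* (gamma1FieldP L P M ≃ₐ[L] gamma1FieldP L P M))
    (hfixed : ∀ x : gamma1FieldP L P M,
      (x : LaurentSeries L) ∈ laurentBaseChange L (modularFunctionFieldFull M) ↔
        ∀ d : (ZMod M)ˣ, dia d x = x)
    (hgen : ∀ (d : (ZMod M)ˣ) (u v : L) (hu : u ^ M = 1) (hu1 : u ≠ 1) (hv : v ^ M = 1)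
      (hv1 : v ≠ 1),
      ((dia d ⟨gen L P u v, gen_mem P hu hu1 hv hv1⟩ : gamma1FieldP L P M) : LaurentSeries L) =
        gen L P (u ^ (d : ZMod M).val) (v ^ (d : ZMod M).val)) :
    IsGalois ↥(laurentBaseChange L (modularFunctionFieldFull M)) ↥(gamma1Over L P M) ∧
      Module.finrank ↥(laurentBaseChange L (modularFunctionFieldFull M)) ↥(gamma1Over L P M) =
        M.totient / 2 := by
  have : CharZero L := charZero_of_injective_algebraMap (algebraMap ℚ L).injective
  have hD0 : ∀ (d : (ZMod M)ˣ) (x : gamma1FieldP L P M),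
      (x : LaurentSeries L) ∈ divisorExpansionsC L M → dia d x = x := fun d x hx =>
    (hfixed x).mp (by rw [laurentBaseChange_full_eq]; exact subset_adjoin L _ hx) d
  have hcard := card_range_diamondFamily M hP hM hz dia hD0 hgen
  have : Finite dia.range := Set.finite_range _
  obtain ⟨h1, h2⟩ := isGalois_finrank_of_fixed (laurentBaseChange_le_gamma1FieldP L P M)
    dia.range (fun x => by
      rw [hfixed]
      constructor
      · rintro h _ ⟨d, rfl⟩
        exact h d
      · intro h d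
        exact h _ ⟨d, rfl⟩)
  exact ⟨h1, h2.trans hcard⟩

variable {P} in
/-- The same with the family given as a plain function (no multiplicativity needed for the
degree: it is recovered from the generator formula). Only the count of the kernel uses the
group structure, so this form asks for `dia` multiplicative as a hypothesis. -/
theorem finrank_gamma1Over_of_diamondFun (hP : PowerSeries.constantCoeff P = 1) [NeZero M]
    (hM : 3 ≤ M) {z : L} (hz : IsPrimitiveRoot z M)
    (dia : (ZMod M)ˣ → (gamma1FieldP L P M ≃ₐ[L] gamma1FieldP L P M))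
    (hone : dia 1 = 1) (hmul : ∀ d e, dia (d * e) = dia d * dia e)
    (hfixed : ∀ x : gamma1FieldP L P M,
      (x : LaurentSeries L) ∈ laurentBaseChange L (modularFunctionFieldFull M) ↔
        ∀ d : (ZMod M)ˣ, dia d x = x)
    (hgen : ∀ (d : (ZMod M)ˣ) (u v : L) (hu : u ^ M = 1) (hu1 : u ≠ 1) (hv : v ^ M = 1)
      (hv1 : v ≠ 1),
      ((dia d ⟨gen L P u v, gen_mem P hu hu1 hv hv1⟩ : gamma1FieldP L P M) : LaurentSeries L) =
        gen L P (u ^ (d : ZMod M).val) (v ^ (d : ZMod M).val)) :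
    IsGalois ↥(laurentBaseChange L (modularFunctionFieldFull M)) ↥(gamma1Over L P M) ∧
      Module.finrank ↥(laurentBaseChange L (modularFunctionFieldFull M)) ↥(gamma1Over L P M) =
        M.totient / 2 :=
  finrank_gamma1Over_of_diamondFamily M hP hM hz ⟨⟨dia, hone⟩, hmul⟩ hfixed hgen

end Layer

end Fermat.Agent.S48.helper6099
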