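import Fermat.Agent.S48.helper5404_Cover1
import Fermat.Agent.S48.helper4364_Gamma1Diamond
import Fermat.Agent.S48.helper6099_DiamondKer

/-!
# S48-M2-TP (helper5404): the leaf (COVER1) as a theorem

`stmt_Cover1 : helper6431.Stmt_Cover1 M q D` for every level `3 ≤ M`, every prime `q ∤ M` and
every diamond `D` (`helper6431.IsDiamond M q D`) of the carrier of record — unconditional.

Inputs: `helper5404_Cover1` (Part II + SWAP1), the diamond operators `helper4364.diamondP` with
their analytic meaning `diamondP_spec`, the adapter `diamondRatio_of_diaRel` (from the diamond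
relation `helper182.DiaRel` to `helper160.DiamondRatio`; same statement and proof as in
helper160's branch file `helper160_Swap1Gal`, restated here so that this file imports landed
files only), and the degree `φ(M) / 2` of the `Γ₁(M)` layer
(`helper6099.finrank_gamma1Over_of_diamondFamily`).
-/

set_option autoImplicit false
set_option linter.style.haveILetI false
set_option linter.unusedSectionVars false

open ModularCurve AlgebraicCurve IntermediateField HahnSeries CongruenceSubgroup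
open scoped MatrixGroups

namespace Fermat.Agent.S48.helper5404

open Fermat.Agent.S48.helper7300 (gamma1FieldP gamma1Field gamma1FieldBar gamma1Over phiZ gen
  gen_mem)

noncomputable section

local notation "Qb" => AlgebraicClosure ℚ

/-! ## From the diamond relation to `DiamondRatio` -/

section Adapter

open UpperHalfPlane
open scoped ModularForm
open Fermat.Agent.S24.helper3176
open Fermat.Agent.S28.helper1448 (ιC)

/-- A modular form on `Γ₁(M)` is given on all of `ℍ` by its `q`-expansion. -/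
theorem hasQExp_of_isMF1 {M : ℕ} {k : ℤ} {g : ℍ → ℂ}
    (h : Fermat.Agent.S48.helper182.IsMF1 M k g) : HasQExp 1 g (ιC (qExpansion 1 g)) := by
  obtain ⟨G, rfl⟩ := h
  intro τ
  have : Fact (IsCusp OnePoint.infty (Fermat.Agent.S48.helper182.G1 M)) :=
    ⟨(Fermat.Agent.S48.helper182.G1 M).isCusp_of_mem_strictPeriods one_pos
      (Fermat.Agent.S48.helper182.IsMF1.one_mem_strictPeriods M)⟩
  have h1 := ModularForm.hasSum_qExpansion (f := G) one_pos
    (Fermat.Agent.S48.helper182.IsMF1.one_mem_strictPeriods M) τ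
  refine (hasSum_int_iff_nat_shift
    (F := fun j : ℤ => (ιC (qExpansion 1 G)).coeff j * Function.Periodic.qParam 1 (τ : ℂ) ^ j)
    0 ?_).mp ?_
  · intro j hj
    show (HahnSeries.ofPowerSeries ℤ ℂ (qExpansion 1 G)).coeff j * _ = 0
    rw [ofPowerSeries_coeff_of_neg _ hj, zero_mul]
  · have hfun : (fun j : ℕ => (ιC (qExpansion 1 G)).coeff ((j : ℤ) + 0)
        * Function.Periodic.qParam 1 (τ : ℂ) ^ ((j : ℤ) + 0))
        = fun m : ℕ => (qExpansion 1 G).coeff m * Function.Periodic.qParam 1 (τ : ℂ) ^ m := by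
      funext j
      rw [add_zero, zpow_natCast]
      show (HahnSeries.ofPowerSeries ℤ ℂ (qExpansion 1 G)).coeff (j : ℤ) * _ = _
      rw [HahnSeries.ofPowerSeries_apply_coeff]
    rw [hfun]
    exact h1

/-- `helper160.DiamondRatio` from the diamond relation of A2-GAL. -/
theorem diamondRatio_of_diaRel {L : Type*} [Field L] (i0 : L →+* ℂ) (M p : ℕ)
    (E : IntermediateField L (LaurentSeries L)) (D : E ≃ₐ[L] E)
    (h : ∀ (u : E) (γ : SL(2, ℤ)), γ ∈ Gamma0 M →
      Fermat.Agent.S48.helper182.dd M γ * (p : ZMod M) = 1 →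
      Fermat.Agent.S48.helper182.DiaRel M γ (coeffMap i0 (u : LaurentSeries L))
        (coeffMap i0 ((D.symm u : E) : LaurentSeries L))) :
    Fermat.Agent.S48.helper160.DiamondRatio i0 M p E D := by
  intro u γ hγ hd
  obtain ⟨k, F, H, hF, hH, hH0, e1, e2⟩ := h u γ hγ hd
  refine ⟨k, F, H, ιC (qExpansion 1 F), ιC (qExpansion 1 H), ιC (qExpansion 1 (F ∣[k] γ)),
    ιC (qExpansion 1 (H ∣[k] γ)), fun δ hδ => hF.slash_eq hδ, fun δ hδ => hH.slash_eq hδ,
    hasQExp_of_isMF1 hF, hasQExp_of_isMF1 hH, hH.ιC_qExpansion_ne_zero hH0, ?_,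
    hasQExp_of_isMF1 (hF.slash hγ), hasQExp_of_isMF1 (hH.slash hγ), ?_⟩
  · rw [mul_comm]
    exact e1
  · rw [mul_comm]
    exact e2

end Adapter

/-- An embedding `ℚ̄ → ℂ`. -/
def barEmb : Qb →+* ℂ :=
  haveI : Algebra.IsAlgebraic ℚ (AlgebraicClosure ℚ) := AlgebraicClosure.isAlgebraic ℚ
  ((IsAlgClosed.lift : AlgebraicClosure ℚ →ₐ[ℚ] ℂ) : AlgebraicClosure ℚ →+* ℂ)

section Inst

variable (M : ℕ) [NeZero M]

/-- The degree of the `Γ₁(M)` layer over `ℚ̄`. -/
theorem finrank_gamma1Over_bar (hM : 3 ≤ M) :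
    Module.finrank ↥(laurentBaseChange Qb (modularFunctionFieldFull M))
      ↥(gamma1Over Qb phiZ M) = Nat.totient M / 2 := by
  obtain ⟨z, hz⟩ := Fermat.Agent.S48.helper8098.exists_isPrimitiveRoot_of_isAlgClosed M Qb
  exact (Fermat.Agent.S48.helper6099.finrank_gamma1Over_of_diamondFamily M
    Fermat.Agent.S48.helper7300.constantCoeff_phiZ hM hz
    (Fermat.Agent.S48.helper4364.diamondP barEmb M)
    (Fermat.Agent.S48.helper4364.mem_base_iff_diamondP_fixed barEmb M)
    (fun d u v hu hu1 hv hv1 =>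
      Fermat.Agent.S48.helper4364.diamondP_gen barEmb M d hu hu1 hv hv1)).2

/-- The diamond `⟨q⟩` of A2-GAL is a diamond in the sense of the final assembly. -/
theorem isDiamond_diamondP (q : ℕ) (d : (ZMod M)ˣ) (hd : (d : ZMod M) = (q : ZMod M)) :
    Fermat.Agent.S48.helper6431.IsDiamond M q
      (Fermat.Agent.S48.helper4364.diamondP barEmb M d) := by
  refine ⟨fun x hx => Fermat.Agent.S48.helper4364.diamondP_of_mem_base barEmb M d x hx,
    fun u v hu hu1 hv hv1 => ?_⟩
  have hval : (((d : ZMod M).val : ℕ) : ZMod M) = (q : ZMod M) := by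
    rw [ZMod.natCast_zmod_val, hd]
  rw [Fermat.Agent.S48.helper4364.diamondP_gen barEmb M d hu hu1 hv hv1,
    Fermat.Agent.S48.helper4364.pow_eq_pow_of_natCast_eq hu hval,
    Fermat.Agent.S48.helper4364.pow_eq_pow_of_natCast_eq hv hval]

/-- `DiamondRatio` for the diamond `⟨q⟩` of A2-GAL. -/
theorem diamondRatio_diamondP (q : ℕ) (d : (ZMod M)ˣ) (hd : (d : ZMod M) = (q : ZMod M)) :
    Fermat.Agent.S48.helper160.DiamondRatio barEmb M q (gamma1FieldBar M)
      (Fermat.Agent.S48.helper4364.diamondP barEmb M d) := by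
  refine diamondRatio_of_diaRel barEmb M q _ _ fun x γ hγ hdd => ?_
  have hdd' : Fermat.Agent.S48.helper182.dd M γ = ((d⁻¹ : (ZMod M)ˣ) : ZMod M) := by
    have h1 : Fermat.Agent.S48.helper182.dd M γ * (d : ZMod M) = 1 := by rw [hd]; exact hdd
    exact (Units.inv_eq_of_mul_eq_one_left h1).symm
  have h2 := Fermat.Agent.S48.helper4364.diamondP_spec barEmb M d⁻¹ hγ hdd' x
  rw [map_inv] at h2
  exact h2

/-- **Leaf (COVER1)**: `helper6431.Stmt_Cover1 M q D` for every diamond `D = ⟨q⟩`, `q` a prime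
not dividing `M`, `3 ≤ M`. -/
theorem stmt_Cover1 (hM : 3 ≤ M) (q : ℕ) [NeZero q] (hq : q.Prime) (hqM : ¬ q ∣ M)
    (D : Fermat.Agent.S48.helper6431.E1 M ≃ₐ[Qb] Fermat.Agent.S48.helper6431.E1 M)
    (hD : Fermat.Agent.S48.helper6431.IsDiamond M q D) :
    Fermat.Agent.S48.helper6431.Stmt_Cover1 M q D := by
  have hcop : q.Coprime M := (Nat.Prime.coprime_iff_not_dvd hq).mpr hqM
  have hd : ((ZMod.unitOfCoprime q hcop : (ZMod M)ˣ) : ZMod M) = (q : ZMod M) :=
    ZMod.coe_unitOfCoprime q hcop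
  have hDD : D = Fermat.Agent.S48.helper4364.diamondP barEmb M (ZMod.unitOfCoprime q hcop) :=
    hD.ext (isDiamond_diamondP M q _ hd)
  rw [hDD]
  exact stmt_Cover1_of_degBar M q hM hq hqM (finrank_gamma1Over_bar M hM) _ barEmb
    (diamondRatio_diamondP M q _ hd)

/-- **(hCov) of `helper6431.stmt_KummerMod2_of'` / `stmt_KummerMod2_of_dict`, verbatim.** -/
theorem hCov : ∀ (M : ℕ) [NeZero M], (2 ∣ M ∨ 3 ∣ M) → 70 ≤ M → ∀ q : Nat.Primes,
    ¬ (q : ℕ) ∣ M → ∀ D : Fermat.Agent.S48.helper6431.E1 M ≃ₐ[Qb]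
      Fermat.Agent.S48.helper6431.E1 M, Fermat.Agent.S48.helper6431.IsDiamond M (q : ℕ) D →
        haveI : NeZero (q : ℕ) := ⟨q.2.ne_zero⟩;
        Fermat.Agent.S48.helper6431.Stmt_Cover1 M (q : ℕ) D := by
  intro M _ _ h70 q hq D hD
  haveI : NeZero (q : ℕ) := ⟨q.2.ne_zero⟩
  exact stmt_Cover1 M (by omega) (q : ℕ) q.2 hq D hD

end Inst

end

end Fermat.Agent.S48.helper5404
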