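import Fermat.Agent.S48.helper5404_HeckeDiamond
import Fermat.Agent.S48.helper288_RatioGamma1
import Fermat.Agent.S48.helper8098_RatFormDeg

/-!
# S48-M2-TP (helper5404), Part II: the degree bound `[E ⊔ V_p(E) : E] ≤ p + 1`

`E` = the `Γ₁(M)` function field in its `ℚ`-form carrier `laurentBaseChange L F₁`
(`F₁ : IntermediateField ℚ (LaurentSeries ℚ)`), `E'` = the base change of `F₁ ⊔ V_p(F₁)`.

Analytic input (RATIO1 hypotheses of `helper288`, verbatim): every rational point of `F₁` is a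
ratio of `q`-expansions of modular forms of equal weight on `Γ₁(M)`, and
`[laurentBaseChange ℂ F₁ : ℂ(j)] = φ(M) ψ(M) / 2`.

Proof: `V_p` of a ratio on `Γ₁(M)` is a ratio on `Γ₁(M) ∩ Γ₀(p)`; every ratio on that group has
degree `≤ [SL₂(ℤ) : ±(Γ₁(M) ∩ Γ₀(p))] ≤ (p + 1) φ(M) ψ(M) / 2` over `ℂ(j)` (`helper288`);
primitive elements; degrees do not depend on the coefficient field (`helper8098`).
-/

set_option autoImplicit false
set_option linter.style.haveILetI false
set_option linter.unusedSectionVars false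

open UpperHalfPlane ModularForm CongruenceSubgroup ModularCurve IntermediateField
open scoped MatrixGroups ModularForm

namespace Fermat.Agent.S48.helper5404

open Fermat.Agent.Lib.helper1219 (diagMat diagMat_det diagMat_det_pos diagMat_denom
  coe_diagMat_smul slash_diagMat qParam_diagMat_smul sl_det_expl)
open Fermat.Agent.S48.helper288 (IsRatioG G1 h1G1)

noncomputable section

local notation "ιC" => HahnSeries.ofPowerSeries ℤ ℂ

/-! ## Level raising `τ ↦ f(dτ)` for forms on an arbitrary group -/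

section Raise

variable (d : ℕ) [NeZero d] {𝒢 ℋ : Subgroup (GL (Fin 2) ℝ)} [ℋ.HasDetOne] {k : ℤ}

open ConjAct Pointwise in
/-- `τ ↦ d^(k-1) f(dτ)` as a modular form on any `ℋ ≤ diag(d,1)⁻¹ 𝒢 diag(d,1)`. -/
def raiseForm₀ (hle : ℋ ≤ toConjAct (diagMat d)⁻¹ • 𝒢) (f : ModularForm 𝒢 k) :
    ModularForm ℋ k where
  toFun := ⇑f ∣[k] diagMat d
  slash_action_eq' := fun γ hγ =>
    (ModularForm.translate f (diagMat d)).slash_action_eq' γ (hle hγ)
  holo' := (ModularFormClass.holo f).slash k (diagMat d)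
  bdd_at_cusps' := fun hc =>
    (ModularForm.translate f (diagMat d)).bdd_at_cusps' (hc.mono hle)

open ConjAct Pointwise in
/-- `τ ↦ f(dτ)` as a modular form on any `ℋ ≤ diag(d,1)⁻¹ 𝒢 diag(d,1)`. -/
def raiseForm (hle : ℋ ≤ toConjAct (diagMat d)⁻¹ • 𝒢) (f : ModularForm 𝒢 k) :
    ModularForm ℋ k :=
  ((d : ℂ) ^ (k - 1))⁻¹ • raiseForm₀ d hle f

open ConjAct Pointwise in
lemma raiseForm_apply (hle : ℋ ≤ toConjAct (diagMat d)⁻¹ • 𝒢) (f : ModularForm 𝒢 k) (τ : ℍ) :
    raiseForm d hle f τ = f (diagMat d • τ) := by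
  have hd0 : (d : ℂ) ^ (k - 1) ≠ 0 := zpow_ne_zero _ (by exact_mod_cast NeZero.ne d)
  show ((d : ℂ) ^ (k - 1))⁻¹ * (⇑f ∣[k] diagMat d) τ = _
  rw [slash_diagMat]
  field_simp

open ConjAct Pointwise in
/-- The `q`-expansion of `f(dτ)`. -/
theorem qExpansion_raiseForm_coeff (h1 : (1 : ℝ) ∈ 𝒢.strictPeriods)
    (h1' : (1 : ℝ) ∈ ℋ.strictPeriods) (hle : ℋ ≤ toConjAct (diagMat d)⁻¹ • 𝒢)
    (f : ModularForm 𝒢 k) (m : ℕ) :
    (qExpansion 1 (raiseForm d hle f)).coeff m
      = if d ∣ m then (qExpansion 1 f).coeff (m / d) else 0 := by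
  have hd0 : 0 < d := Nat.pos_of_ne_zero (NeZero.ne d)
  set c : ℕ → ℂ := fun m => if d ∣ m then (qExpansion 1 f).coeff (m / d) else 0 with hc
  have key : ∀ τ : ℍ, HasSum (fun m : ℕ => c m • Function.Periodic.qParam 1 (τ : ℂ) ^ m)
      (raiseForm d hle f τ) := by
    intro τ
    haveI : Fact (IsCusp OnePoint.infty 𝒢) := ⟨Subgroup.isCusp_of_mem_strictPeriods one_pos h1⟩
    have h0 := ModularForm.hasSum_qExpansion (f := f) one_pos h1 (diagMat d • τ)
    rw [qParam_diagMat_smul] at h0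
    rw [raiseForm_apply]
    have hinj : Function.Injective (fun n : ℕ => d * n) := fun a b h =>
      Nat.eq_of_mul_eq_mul_left hd0 h
    rw [← hinj.hasSum_iff]
    · have hfun : ((fun m : ℕ => c m • Function.Periodic.qParam 1 (τ : ℂ) ^ m) ∘
          fun n : ℕ => d * n) = fun n : ℕ =>
            (qExpansion 1 f).coeff n * (Function.Periodic.qParam 1 (τ : ℂ) ^ d) ^ n := by
        funext n
        simp only [Function.comp_apply, hc, dvd_mul_right, if_true,
          Nat.mul_div_cancel_left n hd0, smul_eq_mul, pow_mul]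
      rw [hfun]
      exact h0
    · intro x hx
      have hnd : ¬ d ∣ x := fun ⟨y, hy⟩ => hx ⟨y, hy.symm⟩
      simp [hc, hnd]
  exact (ModularFormClass.qExpansion_coeff_unique one_pos h1' key m).symm

open ConjAct Pointwise in
/-- The `q`-expansion of `f(dτ)`, as a Laurent series: `q ↦ q^d`. -/
theorem ofPS_raiseForm (h1 : (1 : ℝ) ∈ 𝒢.strictPeriods)
    (h1' : (1 : ℝ) ∈ ℋ.strictPeriods) (hle : ℋ ≤ toConjAct (diagMat d)⁻¹ • 𝒢)
    (f : ModularForm 𝒢 k) :
    ιC (qExpansion 1 (raiseForm d hle f)) = qExpand ℂ d (ιC (qExpansion 1 f)) := by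
  ext n
  rcases lt_or_ge n 0 with hn | hn
  · have h0 : (ιC (qExpansion 1 (raiseForm d hle f))).coeff n = 0 := by
      rw [HahnSeries.ofPowerSeries_apply, HahnSeries.embDomain_of_notMem_range]
      rintro ⟨m, rfl⟩
      simp at hn
      omega
    rw [h0]
    by_cases hdn : (d : ℤ) ∣ n
    · obtain ⟨c, rfl⟩ := hdn
      rw [qExpand_coeff_mul]
      have hc : c < 0 := by
        by_contra hc
        push Not at hc
        have : (0 : ℤ) ≤ (d : ℤ) * c := mul_nonneg (Int.natCast_nonneg d) hc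
        omega
      rw [HahnSeries.ofPowerSeries_apply, HahnSeries.embDomain_of_notMem_range]
      rintro ⟨m, rfl⟩
      simp at hc
      omega
    · rw [qExpand_coeff_of_not_dvd d _ hdn]
  · lift n to ℕ using hn
    rw [HahnSeries.ofPowerSeries_apply_coeff, qExpansion_raiseForm_coeff d h1 h1']
    by_cases hdn : d ∣ n
    · rw [if_pos hdn]
      obtain ⟨c, rfl⟩ := hdn
      rw [Nat.mul_div_cancel_left _ (Nat.pos_of_ne_zero (NeZero.ne d))]
      push_cast
      rw [qExpand_coeff_mul, HahnSeries.ofPowerSeries_apply_coeff]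
    · rw [if_neg hdn, qExpand_coeff_of_not_dvd d _ (by exact_mod_cast hdn)]

open ConjAct Pointwise in
lemma raiseForm_ne_zero (h1 : (1 : ℝ) ∈ 𝒢.strictPeriods)
    (h1' : (1 : ℝ) ∈ ℋ.strictPeriods) (hle : ℋ ≤ toConjAct (diagMat d)⁻¹ • 𝒢)
    {f : ModularForm 𝒢 k} (hf : f ≠ 0) : raiseForm d hle f ≠ 0 := by
  intro h
  have h2 : ιC (qExpansion 1 (raiseForm d hle f)) = 0 := by
    rw [h, FunLike.coe_zero, UpperHalfPlane.qExpansion_zero, map_zero]
  rw [ofPS_raiseForm d h1 h1'] at h2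
  have h3 : ιC (qExpansion 1 f) = 0 := qExpand_injective d (by rw [h2, map_zero])
  have h4 : qExpansion 1 f = 0 := HahnSeries.ofPowerSeries_injective (by rw [h3, map_zero])
  exact hf ((ModularForm.qExpansion_eq_zero_iff one_pos h1 f).mp h4)

open ConjAct Pointwise in
/-- `V_d` of a ratio on `𝒢` is a ratio on any `ℋ ≤ diag(d,1)⁻¹ 𝒢 diag(d,1)`. -/
theorem isRatioG_qExpand (h1 : (1 : ℝ) ∈ 𝒢.strictPeriods)
    (h1' : (1 : ℝ) ∈ ℋ.strictPeriods) (hle : ℋ ≤ toConjAct (diagMat d)⁻¹ • 𝒢)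
    {x : LaurentSeries ℂ} (hx : IsRatioG 𝒢 x) : IsRatioG ℋ (qExpand ℂ d x) := by
  obtain ⟨k, A, E, hE, hxE⟩ := hx
  refine ⟨k, raiseForm d hle A, raiseForm d hle E, raiseForm_ne_zero d h1 h1' hle hE, ?_⟩
  rw [ofPS_raiseForm d h1 h1', ofPS_raiseForm d h1 h1', ← map_mul, hxE]

end Raise

/-! ## The group `Γ₁(M) ∩ Γ₀(p)` -/

section Group

/-- The image of `Γ₁(M) ∩ Γ₀(p)` in `GL(2,ℝ)`. -/
abbrev G1p (M p : ℕ) : Subgroup (GL (Fin 2) ℝ) :=
  (Gamma1 M ⊓ Gamma0 p).map (Matrix.SpecialLinearGroup.mapGL ℝ)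

theorem G1p_le_G1 (M p : ℕ) : G1p M p ≤ G1 M := Subgroup.map_mono inf_le_left

theorem h1G1p (M p : ℕ) : (1 : ℝ) ∈ (G1p M p).strictPeriods := by
  have hT : ModularGroup.T ∈ Gamma1 M ⊓ Gamma0 p := by
    rw [Subgroup.mem_inf]
    refine ⟨?_, ?_⟩
    · rw [Gamma1_mem]
      simp [ModularGroup.T]
    · rw [Gamma0_mem]
      simp [ModularGroup.T]
  have h := Subgroup.strictPeriods_eq_zmultiples_one_of_T_mem hT
  show (1 : ℝ) ∈ Subgroup.strictPeriods
    ((Gamma1 M ⊓ Gamma0 p : Subgroup SL(2, ℤ)) : Subgroup (GL (Fin 2) ℝ))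
  rw [h]
  exact AddSubgroup.mem_zmultiples 1

/-- For `γ ∈ Γ₁(M) ∩ Γ₀(p)`, `p ∤ M`: `diag(p,1) γ = γ' diag(p,1)` with `γ' ∈ Γ₁(M)`. -/
theorem diagMat_mul_Gamma1p (M p : ℕ) [NeZero p] (hpM : Nat.Coprime p M) (γ : SL(2, ℤ))
    (hγ : γ ∈ Gamma1 M ⊓ Gamma0 p) :
    ∃ γ' ∈ Gamma1 M, diagMat p * (Matrix.SpecialLinearGroup.mapGL ℝ γ)
        = (Matrix.SpecialLinearGroup.mapGL ℝ γ') * diagMat p := by
  rw [Subgroup.mem_inf] at hγ
  obtain ⟨h1, h0⟩ := hγ
  rw [Gamma1_mem] at h1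
  obtain ⟨ha, hd, hc⟩ := h1
  rw [Gamma0_mem, ZMod.intCast_zmod_eq_zero_iff_dvd] at h0
  rw [ZMod.intCast_zmod_eq_zero_iff_dvd] at hc
  obtain ⟨c₀, hc₀⟩ := h0
  have hdet := sl_det_expl γ
  -- `M ∣ c₀`
  have hMc : (M : ℤ) ∣ c₀ := by
    have hcop : IsCoprime (M : ℤ) (p : ℤ) := (Nat.isCoprime_iff_coprime.mpr hpM).symm
    rw [hc₀] at hc
    exact hcop.dvd_of_dvd_mul_left hc
  obtain ⟨γ', h00, h01, h10, h11⟩ : ∃ γ' : SL(2, ℤ), γ' 0 0 = γ 0 0 ∧ γ' 0 1 = p * γ 0 1 ∧
      γ' 1 0 = c₀ ∧ γ' 1 1 = γ 1 1 :=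
    ⟨⟨!![γ 0 0, p * γ 0 1; c₀, γ 1 1], by rw [Matrix.det_fin_two_of]; rw [hc₀] at hdet; linarith⟩,
      rfl, rfl, rfl, rfl⟩
  refine ⟨γ', ?_, ?_⟩
  · rw [Gamma1_mem, h00, h11, h10]
    exact ⟨ha, hd, (ZMod.intCast_zmod_eq_zero_iff_dvd _ _).mpr hMc⟩
  · have hcR : ((γ 1 0 : ℤ) : ℝ) = p * c₀ := by exact_mod_cast hc₀
    apply Units.ext
    ext i j
    fin_cases i <;> fin_cases j <;>
      simp [Matrix.mul_apply, Fin.sum_univ_two, Matrix.SpecialLinearGroup.mapGL_coe_matrix,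
        h00, h01, h10, h11]
    · ring
    · rw [hcR]; ring

open ConjAct Pointwise in
theorem G1p_le_conj (M p : ℕ) [NeZero p] (hpM : Nat.Coprime p M) :
    G1p M p ≤ toConjAct (diagMat p)⁻¹ • G1 M := by
  rintro g ⟨γ, hγ, rfl⟩
  obtain ⟨γ', hγ', h⟩ := diagMat_mul_Gamma1p M p hpM γ hγ
  rw [map_inv, Subgroup.mem_inv_pointwise_smul_iff, toConjAct_smul]
  have : diagMat p * (Matrix.SpecialLinearGroup.mapGL ℝ γ) * (diagMat p)⁻¹
      = Matrix.SpecialLinearGroup.mapGL ℝ γ' := by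
    rw [h, mul_inv_cancel_right]
  rw [this]
  exact ⟨γ', hγ', rfl⟩

/-- `V_p` of a ratio on `Γ₁(M)` is a ratio on `Γ₁(M) ∩ Γ₀(p)` (`p ∤ M`). -/
theorem isRatioG_G1p_qExpand (M p : ℕ) [NeZero p] (hpM : Nat.Coprime p M)
    {x : LaurentSeries ℂ} (hx : IsRatioG (G1 M) x) : IsRatioG (G1p M p) (qExpand ℂ p x) :=
  isRatioG_qExpand p (h1G1 M) (h1G1p M p) (G1p_le_conj M p hpM) hx

theorem isRatioG_G1p_of_G1 (M p : ℕ) {x : LaurentSeries ℂ} (hx : IsRatioG (G1 M) x) :
    IsRatioG (G1p M p) x :=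
  hx.mono (G1p_le_G1 M p)

end Group

/-! ## The index of `±(Γ₁(M) ∩ Γ₀(p))` -/

section Index

theorem dedekindPsi_prime {p : ℕ} (hp : p.Prime) : dedekindPsi p = p + 1 := by
  have h := Fermat.Agent.S20.helper34.dedekindPsi_prime_mul_of_not_dvd (N := 1) one_ne_zero hp
    (fun h => hp.one_lt.ne' (Nat.dvd_one.mp h))
  rwa [mul_one, dedekindPsi_one, mul_one] at h

theorem index_Gamma1_inf_Gamma0_le (M p : ℕ) [NeZero M] (hp : p.Prime) :
    (Gamma1 M ⊓ Gamma0 p).index ≤ Nat.totient M * dedekindPsi M * (p + 1) := by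
  haveI : NeZero p := ⟨hp.ne_zero⟩
  refine (Subgroup.index_inf_le).trans ?_
  rw [Fermat.Agent.S48.helper288.index_Gamma1, Fermat.Agent.S20.helper34.index_Gamma0,
    dedekindPsi_prime hp]

theorem relIndex_G1p_SL (M p : ℕ) :
    (G1p M p).relIndex 𝒮ℒ = (Gamma1 M ⊓ Gamma0 p).index := by
  rw [MonoidHom.range_eq_map,
    Subgroup.relIndex_map_map_of_injective _ _ Matrix.SpecialLinearGroup.mapGL_injective,
    Subgroup.relIndex_top_right]

theorem G1p_le_SL (M p : ℕ) : G1p M p ≤ 𝒮ℒ :=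
  (G1p_le_G1 M p).trans (Fermat.Agent.S48.helper288.G1_le_SL M)

theorem adjoinNegOne_G1p_le_SL (M p : ℕ) : (G1p M p).adjoinNegOne ≤ 𝒮ℒ := by
  rintro g (hg | hg)
  · exact G1p_le_SL M p hg
  · have h := Subgroup.mul_mem _ Fermat.Agent.S48.helper288.neg_one_mem_SL (G1p_le_SL M p hg)
    simpa using h

theorem neg_one_not_mem_G1p (M p : ℕ) (hM : 3 ≤ M) : (-1 : GL (Fin 2) ℝ) ∉ G1p M p :=
  fun h => Fermat.Agent.S48.helper288.neg_one_not_mem_G1 M hM (G1p_le_G1 M p h)

/-- `[SL₂(ℤ) : ±(Γ₁(M) ∩ Γ₀(p))] ≤ (p + 1) φ(M) ψ(M) / 2` for `3 ≤ M`. -/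
theorem card_quotient_adjoinNegOne_G1p_le (M p : ℕ) [NeZero M] (hM : 3 ≤ M) (hp : p.Prime) :
    Nat.card (↥𝒮ℒ ⧸ (G1p M p).adjoinNegOne.subgroupOf 𝒮ℒ)
      ≤ (p + 1) * (Nat.totient M * dedekindPsi M / 2) := by
  have h := Subgroup.relIndex_mul_relIndex _ _ _ (G1p M p).le_adjoinNegOne
    (adjoinNegOne_G1p_le_SL M p)
  rw [Subgroup.relindex_adjoinNegOne_eq_two (neg_one_not_mem_G1p M p hM), relIndex_G1p_SL] at h
  have h2 : Nat.card (↥𝒮ℒ ⧸ (G1p M p).adjoinNegOne.subgroupOf 𝒮ℒ)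
      = (G1p M p).adjoinNegOne.relIndex 𝒮ℒ := rfl
  rw [h2]
  have h3 := index_Gamma1_inf_Gamma0_le M p hp
  obtain ⟨c, hc⟩ := (Nat.totient_even (by omega : 2 < M)).two_dvd
  have h4 : Nat.totient M * dedekindPsi M / 2 = c * dedekindPsi M := by
    rw [hc, mul_assoc, Nat.mul_div_cancel_left _ (by norm_num : 0 < 2)]
  rw [h4]
  rw [← h, hc] at h3
  have h5 : 2 * (G1p M p).adjoinNegOne.relIndex 𝒮ℒ ≤ 2 * ((p + 1) * (c * dedekindPsi M)) := by
    calc 2 * (G1p M p).adjoinNegOne.relIndex 𝒮ℒ ≤ 2 * c * dedekindPsi M * (p + 1) := h3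
      _ = 2 * ((p + 1) * (c * dedekindPsi M)) := by ring
  omega

open Fermat.Agent.Lib.helper1219 in
/-- Every ratio on `Γ₁(M) ∩ Γ₀(p)` has degree `≤ (p + 1) φ(M) ψ(M) / 2` over `ℂ(j)`. -/
theorem exists_poly_of_isRatioG_G1p (M p : ℕ) [NeZero M] (hM : 3 ≤ M) (hp : p.Prime)
    {y : LaurentSeries ℂ} (hy : IsRatioG (G1p M p) y) :
    ∃ P : Polynomial (ℂ⟮jqModC ℂ⟯), P ≠ 0 ∧
      P.natDegree ≤ (p + 1) * (Nat.totient M * dedekindPsi M / 2) ∧
      Polynomial.aeval y P = 0 := by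
  haveI : NeZero p := ⟨hp.ne_zero⟩
  obtain ⟨P, hP0, hPdeg, hPy⟩ :=
    Fermat.Agent.S48.helper288.exists_poly_of_isRatioG (h1G1p M p) hy
  exact ⟨P, hP0, hPdeg.trans (card_quotient_adjoinNegOne_G1p_le M p hM hp), hPy⟩

end Index

/-! ## Pure field theory: bounded degree implies finite -/

section Algebra

/-- `K ≤ B` intermediate fields of `E / k` (characteristic zero), every element of `B` a root of
a nonzero polynomial of degree `≤ N` over `K`.  Then `[B : K] ≤ N`. -/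
theorem finrank_le_of_degree_le {k E : Type*} [Field k] [Field E] [Algebra k E] [CharZero k]
    (K B : IntermediateField k E) (hKB : K ≤ B) (N : ℕ)
    (hdeg : ∀ y ∈ B, ∃ P : Polynomial K, P ≠ 0 ∧ P.natDegree ≤ N ∧ Polynomial.aeval y P = 0) :
    Module.Finite K (IntermediateField.extendScalars hKB) ∧
      Module.finrank K (IntermediateField.extendScalars hKB) ≤ N := by
  classical
  set Bs : IntermediateField K E := IntermediateField.extendScalars hKB with hBs
  haveI : CharZero K := charZero_of_injective_algebraMap (algebraMap k K).injective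
  have hrank : Module.rank K Bs ≤ (N : Cardinal) := by
    refine rank_le fun s hs => ?_
    let S : Set E := (fun i : Bs => (i : E)) '' (s : Set Bs)
    have hSfin : S.Finite := (s.finite_toSet).image _
    have hSB : ∀ x ∈ S, x ∈ B := by
      rintro _ ⟨i, -, rfl⟩
      exact (IntermediateField.mem_extendScalars hKB).mp i.2
    have hSint : ∀ x ∈ S, IsIntegral K x := by
      intro x hx
      obtain ⟨P, hP0, -, hPx⟩ := hdeg x (hSB x hx)
      exact isAlgebraic_iff_isIntegral.mp ⟨P, hP0, hPx⟩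
    let L : IntermediateField K E := IntermediateField.adjoin K S
    haveI : Finite S := hSfin.to_subtype
    haveI : FiniteDimensional K L := IntermediateField.finiteDimensional_adjoin hSint
    have hLB : L ≤ Bs := by
      rw [IntermediateField.adjoin_le_iff]
      intro x hx
      exact (IntermediateField.mem_extendScalars hKB).mpr (hSB x hx)
    have hli : LinearIndependent K (fun i : s =>
        (⟨((i : Bs) : E), IntermediateField.subset_adjoin K S ⟨i, i.2, rfl⟩⟩ : L)) := by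
      have h1 : LinearIndependent K (fun i : s => ((i : Bs) : E)) :=
        hs.map' Bs.val.toLinearMap (LinearMap.ker_eq_bot.mpr Bs.val.injective)
      exact LinearIndependent.of_comp L.val.toLinearMap h1
    have hcard : s.card ≤ Module.finrank K L := by
      have := hli.fintype_card_le_finrank
      simpa using this
    obtain ⟨α, hα⟩ := Field.exists_primitive_element K L
    have h1 : (minpoly K α).natDegree = Module.finrank K L :=
      (Field.primitive_element_iff_minpoly_natDegree_eq K α).mp hα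
    obtain ⟨P, hP0, hPn, hPα⟩ := hdeg (α : E)
      ((IntermediateField.mem_extendScalars hKB).mp (hLB α.2))
    have hPα' : Polynomial.aeval α P = 0 :=
      (Polynomial.aeval_algebraMap_eq_zero_iff_of_injective
        (algebraMap L E).injective).mp hPα
    have h2 : (minpoly K α).natDegree ≤ N :=
      (Polynomial.natDegree_le_natDegree (minpoly.degree_le_of_ne_zero K α hP0 hPα')).trans hPn
    omega
  have hfin : Module.Finite K Bs :=
    Module.rank_lt_aleph0_iff.mp (lt_of_le_of_lt hrank (Cardinal.natCast_lt_aleph0))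
  exact ⟨hfin, Module.finrank_le_of_rank_le hrank⟩

/-- Tower form: `K ≤ A ≤ B`, `[A : K] = d ≠ 0`, every element of `B` of degree `≤ n d` over `K`.
Then `1 ≤ [B : A] ≤ n`. -/
theorem relfinrank_le_of_degree_le {k E : Type*} [Field k] [Field E] [Algebra k E] [CharZero k]
    (K A B : IntermediateField k E) (hKA : K ≤ A) (hAB : A ≤ B) (d n : ℕ) (hd : d ≠ 0)
    (hKA' : K.relrank A = (d : Cardinal))
    (hdeg : ∀ y ∈ B, ∃ P : Polynomial K, P ≠ 0 ∧ P.natDegree ≤ n * d ∧
      Polynomial.aeval y P = 0) :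
    A.relfinrank B ≠ 0 ∧ A.relfinrank B ≤ n := by
  obtain ⟨hfin, hle⟩ := finrank_le_of_degree_le K B (hKA.trans hAB) (n * d) hdeg
  have h1 : K.relfinrank A = d := by
    rw [IntermediateField.relfinrank_eq_toNat_relrank, hKA', Cardinal.toNat_natCast]
  have h2 := IntermediateField.relfinrank_mul_relfinrank hKA hAB
  rw [h1, IntermediateField.relfinrank_eq_finrank_of_le (hKA.trans hAB)] at h2
  haveI := hfin
  have hpos : 0 < Module.finrank K (IntermediateField.extendScalars (hKA.trans hAB)) :=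
    Module.finrank_pos
  constructor
  · intro h0
    rw [h0, mul_zero] at h2
    omega
  · have h3 : d * A.relfinrank B ≤ d * n := by
      rw [h2, mul_comm d n]
      exact hle
    exact Nat.le_of_mul_le_mul_left h3 (Nat.pos_of_ne_zero hd)

end Algebra

/-! ## The `ℚ`-form carrier: `F₁ ⊔ V_p(F₁)` -/

section QForm

variable (p : ℕ) [NeZero p]

/-- The rational field `F₁ ⊔ V_p(F₁)`. -/
def supV (F₁ : IntermediateField ℚ (LaurentSeries ℚ)) : IntermediateField ℚ (LaurentSeries ℚ) :=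
  F₁ ⊔ F₁.map (qExpandAlgHomC ℚ p)

theorem le_supV (F₁ : IntermediateField ℚ (LaurentSeries ℚ)) : F₁ ≤ supV p F₁ := le_sup_left

theorem qExpand_mem_supV {F₁ : IntermediateField ℚ (LaurentSeries ℚ)} {y : LaurentSeries ℚ}
    (hy : y ∈ F₁) : qExpand ℚ p y ∈ supV p F₁ :=
  (le_sup_right : F₁.map (qExpandAlgHomC ℚ p) ≤ supV p F₁) ⟨y, hy, rfl⟩

/-- `E ≤ E'` for `E = laurentBaseChange L F₁`, `E' = laurentBaseChange L (F₁ ⊔ V_p F₁)`. -/
theorem baseChange_le_supV (L : Type*) [Field L] [Algebra ℚ L]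
    (F₁ : IntermediateField ℚ (LaurentSeries ℚ)) :
    laurentBaseChange L F₁ ≤ laurentBaseChange L (supV p F₁) :=
  Fermat.Agent.S48.helper8098.laurentBaseChange_mono (le_supV p F₁)

/-- `V_p(E) ⊆ E'`. -/
theorem qExpand_mem_baseChange_supV (L : Type*) [Field L] [Algebra ℚ L]
    (F₁ : IntermediateField ℚ (LaurentSeries ℚ)) {u : LaurentSeries L}
    (hu : u ∈ laurentBaseChange L F₁) : qExpand L p u ∈ laurentBaseChange L (supV p F₁) := by
  have hle : laurentBaseChange L F₁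
      ≤ (laurentBaseChange L (supV p F₁)).comap (qExpandAlgHomC L p) := by
    rw [laurentBaseChange, IntermediateField.adjoin_le_iff]
    rintro _ ⟨y, hy, rfl⟩
    show qExpandAlgHomC L p (coeffEmb L y) ∈ laurentBaseChange L (supV p F₁)
    rw [qExpandAlgHomC_apply, coeffEmb, ← coeffMap_qExpand]
    exact coeffEmb_mem_laurentBaseChange L (qExpand_mem_supV p hy)
  exact hle hu

variable (M : ℕ)

/-- The rational Laurent series which become ratios on `Γ₁(M) ∩ Γ₀(p)` over `ℂ`. -/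
def ratFieldG1p : IntermediateField ℚ (LaurentSeries ℚ) :=
  ((Fermat.Agent.S48.helper288.ratioFieldG (G1p M p) (h1G1p M p)).comap
    (coeffEmb ℂ)).toIntermediateField fun r => by
    rw [eq_ratCast]
    exact SubfieldClass.ratCast_mem _ r

theorem mem_ratFieldG1p {x : LaurentSeries ℚ} :
    x ∈ ratFieldG1p p M ↔ IsRatioG (G1p M p) (coeffEmb ℂ x) := Iff.rfl

theorem supV_le_ratFieldG1p (hpM : Nat.Coprime p M)
    (F₁ : IntermediateField ℚ (LaurentSeries ℚ))
    (hgen : ∀ y ∈ F₁, IsRatioG (G1 M) (coeffEmb ℂ y)) : supV p F₁ ≤ ratFieldG1p p M := by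
  refine sup_le (fun y hy => isRatioG_G1p_of_G1 M p (hgen y hy)) ?_
  rintro _ ⟨y, hy, rfl⟩
  show IsRatioG (G1p M p) (coeffEmb ℂ (qExpandAlgHomC ℚ p y))
  rw [qExpandAlgHomC_apply, coeffEmb, coeffMap_qExpand]
  exact isRatioG_G1p_qExpand M p hpM (hgen y hy)

/-- Every element of the complex field `laurentBaseChange ℂ (F₁ ⊔ V_p F₁)` is a ratio on
`Γ₁(M) ∩ Γ₀(p)`. -/
theorem isRatioG_G1p_of_mem_baseChange_supV (hpM : Nat.Coprime p M)
    (F₁ : IntermediateField ℚ (LaurentSeries ℚ))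
    (hgen : ∀ y ∈ F₁, IsRatioG (G1 M) (coeffEmb ℂ y)) {x : LaurentSeries ℂ}
    (hx : x ∈ laurentBaseChange ℂ (supV p F₁)) : IsRatioG (G1p M p) x := by
  have hle : laurentBaseChange ℂ (supV p F₁)
      ≤ Fermat.Agent.S48.helper288.ratioInterG (G1p M p) (h1G1p M p) := by
    rw [laurentBaseChange, IntermediateField.adjoin_le_iff]
    rintro _ ⟨y, hy, rfl⟩
    exact supV_le_ratFieldG1p p M hpM F₁ hgen hy
  exact hle hx

theorem totient_mul_dedekindPsi_div_two_ne_zero [NeZero M] (hM : 3 ≤ M) :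
    Nat.totient M * dedekindPsi M / 2 ≠ 0 := by
  obtain ⟨c, hc⟩ := (Nat.totient_even (by omega : 2 < M)).two_dvd
  have hφ : 0 < Nat.totient M := Nat.totient_pos.mpr (by omega)
  have hψ : dedekindPsi M ≠ 0 := by
    rw [← Fermat.Agent.S20.helper34.index_Gamma0]
    exact Subgroup.FiniteIndex.index_ne_zero
  have hc0 : c ≠ 0 := by
    rintro rfl
    omega
  rw [hc, mul_assoc, Nat.mul_div_cancel_left _ (by norm_num : 0 < 2)]
  exact Nat.mul_ne_zero hc0 hψ

/-- **(NQ-deg≤) over `ℂ`.** -/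
theorem relfinrank_baseChange_supV_complex [NeZero M] (hM : 3 ≤ M) (hp : p.Prime)
    (hpM : Nat.Coprime p M) (F₁ : IntermediateField ℚ (LaurentSeries ℚ))
    (hFM : modularFunctionFieldFull M ≤ F₁)
    (hgen : ∀ y ∈ F₁, IsRatioG (G1 M) (coeffEmb ℂ y))
    (hdeg : (ℂ⟮jqModC ℂ⟯).relrank (laurentBaseChange ℂ F₁)
      = ((Nat.totient M * dedekindPsi M / 2 : ℕ) : Cardinal)) :
    (laurentBaseChange ℂ F₁).relfinrank (laurentBaseChange ℂ (supV p F₁)) ≠ 0 ∧
      (laurentBaseChange ℂ F₁).relfinrank (laurentBaseChange ℂ (supV p F₁)) ≤ p + 1 := by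
  have hjA : jqModC ℂ ∈ laurentBaseChange ℂ F₁ :=
    Fermat.Agent.S48.helper8098.laurentBaseChange_mono (L := ℂ) hFM
      (Fermat.Agent.S29.helper36.jqModC_mem_laurentBaseChange ℂ M)
  have hKA : ℂ⟮jqModC ℂ⟯ ≤ laurentBaseChange ℂ F₁ :=
    (IntermediateField.adjoin_simple_le_iff).mpr hjA
  exact relfinrank_le_of_degree_le _ _ _ hKA (baseChange_le_supV p ℂ F₁) _ (p + 1)
    (totient_mul_dedekindPsi_div_two_ne_zero M hM) hdeg
    (fun y hy => exists_poly_of_isRatioG_G1p M p hM hp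
      (isRatioG_G1p_of_mem_baseChange_supV p M hpM F₁ hgen hy))

/-- **(NQ-deg≤) over any field of coefficients of characteristic zero.** -/
theorem relfinrank_baseChange_supV (L : Type*) [Field L] [Algebra ℚ L] [NeZero M] (hM : 3 ≤ M)
    (hp : p.Prime) (hpM : Nat.Coprime p M) (F₁ : IntermediateField ℚ (LaurentSeries ℚ))
    (hFM : modularFunctionFieldFull M ≤ F₁)
    (hgen : ∀ y ∈ F₁, IsRatioG (G1 M) (coeffEmb ℂ y))
    (hdeg : (ℂ⟮jqModC ℂ⟯).relrank (laurentBaseChange ℂ F₁)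
      = ((Nat.totient M * dedekindPsi M / 2 : ℕ) : Cardinal)) :
    (laurentBaseChange L F₁).relfinrank (laurentBaseChange L (supV p F₁)) ≠ 0 ∧
      (laurentBaseChange L F₁).relfinrank (laurentBaseChange L (supV p F₁)) ≤ p + 1 := by
  rw [Fermat.Agent.S48.helper8098.relfinrank_laurentBaseChange L (le_supV p F₁),
    ← Fermat.Agent.S48.helper8098.relfinrank_laurentBaseChange ℂ (le_supV p F₁)]
  exact relfinrank_baseChange_supV_complex p M hM hp hpM F₁ hFM hgen hdeg

end QForm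

/-! ## Bridge to the binder shapes of Part I -/

section Bridge

variable {L : Type} [Field L] (E E' : IntermediateField L (LaurentSeries L))

theorem finrankAlong_alphaHom (hle : E ≤ E') :
    AlgebraicCurve.finrankAlong L (alphaHom E E' hle) = E.relfinrank E' := by
  rw [IntermediateField.relfinrank_eq_finrank_of_le hle]
  unfold AlgebraicCurve.finrankAlong
  letI := AlgebraicCurve.algebraAlong (alphaHom E E' hle)
  let e : E' ≃ₗ[E] ↥(IntermediateField.extendScalars hle) :=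
    { toFun := fun x => ⟨x.1, x.2⟩
      map_add' := fun _ _ => rfl
      map_smul' := fun c x => rfl
      invFun := fun x => ⟨x.1, x.2⟩
      left_inv := fun _ => rfl
      right_inv := fun _ => rfl }
  exact e.finrank_eq

theorem finiteAlong_alphaHom (hle : E ≤ E') (h : E.relfinrank E' ≠ 0) :
    AlgebraicCurve.FiniteAlong L (alphaHom E E' hle) := by
  rw [← finrankAlong_alphaHom E E' hle] at h
  unfold AlgebraicCurve.FiniteAlong
  unfold AlgebraicCurve.finrankAlong at h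
  letI := AlgebraicCurve.algebraAlong (alphaHom E E' hle)
  exact Module.finite_of_finrank_pos (Nat.pos_of_ne_zero h)

variable {E E'} (p : ℕ) [NeZero p] (hle : E ≤ E')
  (hV : ∀ u : E, qExpand L p (u : LaurentSeries L) ∈ E') (D : E ≃ₐ[L] E)

/-- **(hT) from the upper bound on the degree and the swap** (Part I, combined). -/
theorem coe_heckeD_of_le [IsAlgClosed L] [CharZero L] (hp : p.Prime)
    (hrel0 : E.relfinrank E' ≠ 0) (hrel : E.relfinrank E' ≤ p + 1)
    (w : E' →ₐ[L] LaurentSeries L)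
    (hwα : ∀ u : E, w (alphaHom E E' hle u) = qExpand L (p ^ 2) (u : LaurentSeries L))
    (hwβ : ∀ u : E, w (betaHom E E' p hV u)
      = qExpand L p ((D.symm u : E) : LaurentSeries L))
    (y : E) (hDy : D y = y) (hy : (y : LaurentSeries L).coeff (-1) ≠ 0)
    (ζ : Lˣ) (hζ : IsPrimitiveRoot (ζ : L) p) (u : E) :
    ((heckeD E E' p hle hV D u : E) : LaurentSeries L)
      = qExpand L p ((D u : E) : LaurentSeries L)
        * Fermat.Agent.S29.helper7964.uOp p
            (∏ b ∈ Finset.range p, Fermat.Agent.S29.helper7964.tw (ζ ^ b) (u : LaurentSeries L)) :=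
  coe_heckeD hle hV D hp
    (finrankAlong_alphaHom_eq hle hV D hp (finiteAlong_alphaHom E E' hle hrel0)
      (by rw [finrankAlong_alphaHom]; exact hrel) w hwα hwβ y hDy hy)
    w hwα hwβ y hDy hy ζ hζ u

end Bridge

/-! ## The `Γ₁(M)` package for the `ℚ`-form carrier -/

section Final

variable (L : Type) [Field L] [Algebra ℚ L] (M p : ℕ) [NeZero M] [NeZero p]
  (F₁ : IntermediateField ℚ (LaurentSeries ℚ))

/-- `V_p(E) ⊆ E'`, subtype form (the `hV` of Part I). -/
theorem hV_baseChange (u : laurentBaseChange L F₁) :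
    qExpand L p (u : LaurentSeries L) ∈ laurentBaseChange L (supV p F₁) :=
  qExpand_mem_baseChange_supV p L F₁ u.2

/-- The `j`-function as an element of `E = laurentBaseChange L F₁`. -/
def jE (hFM : modularFunctionFieldFull M ≤ F₁) : laurentBaseChange L F₁ :=
  ⟨coeffEmb L jq, coeffEmb_mem_laurentBaseChange L
    (hFM (modularFunctionField_le_full M (jq_mem M)))⟩

theorem coe_jE (hFM : modularFunctionFieldFull M ≤ F₁) :
    ((jE L M F₁ hFM : laurentBaseChange L F₁) : LaurentSeries L) = jqModC L := by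
  show coeffMap (algebraMap ℚ L) jq = jqModC L
  rw [← jqModC_rat, coeffMap_jqModC]

theorem coeff_jE_neg_one (hFM : modularFunctionFieldFull M ≤ F₁) :
    ((jE L M F₁ hFM : laurentBaseChange L F₁) : LaurentSeries L).coeff (-1) ≠ 0 := by
  rw [coe_jE, coeff_jqModC_neg_one]
  exact one_ne_zero

theorem transcendental_jE (hFM : modularFunctionFieldFull M ≤ F₁) :
    Transcendental L (jE L M F₁ hFM) := by
  have h0 : Transcendental L (jqModC L) :=
    (transcendental_iff_injective).mpr (Fermat.Agent.S28.helper3292.aeval_jqModC_injective L)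
  have h1 : Transcendental L
      (algebraMap (laurentBaseChange L F₁) (LaurentSeries L) (jE L M F₁ hFM)) := by
    show Transcendental L ((jE L M F₁ hFM : laurentBaseChange L F₁) : LaurentSeries L)
    rw [coe_jE]
    exact h0
  exact (transcendental_algebraMap_iff
    (algebraMap (laurentBaseChange L F₁) (LaurentSeries L)).injective).mp h1

/-- `E` is finite over `L(j)` (from the degree over `ℂ(j)`; `helper8098` transfer). -/
theorem finiteDimensional_jE (hM : 3 ≤ M) (hFM : modularFunctionFieldFull M ≤ F₁)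
    (hdeg : (ℂ⟮jqModC ℂ⟯).relrank (laurentBaseChange ℂ F₁)
      = ((Nat.totient M * dedekindPsi M / 2 : ℕ) : Cardinal)) :
    FiniteDimensional L⟮jE L M F₁ hFM⟯ (laurentBaseChange L F₁) := by
  have hjq : jq ∈ F₁ := hFM (modularFunctionField_le_full M (jq_mem M))
  refine (Fermat.Agent.S48.helper8098.finiteDimensional_adjoin_simple_laurentBaseChange_iff
    L hjq).mpr ?_
  rw [← Fermat.Agent.S48.helper8098.relfinrank_laurentBaseChange ℂ
    (IntermediateField.adjoin_simple_le_iff.mpr hjq),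
    Fermat.Agent.S48.helper8098.laurentBaseChange_adjoin_simple]
  have hj : coeffEmb ℂ jq = jqModC ℂ := by
    show coeffMap (algebraMap ℚ ℂ) jq = jqModC ℂ
    rw [← jqModC_rat, coeffMap_jqModC]
  rw [hj, IntermediateField.relfinrank_eq_toNat_relrank, hdeg, Cardinal.toNat_natCast]
  exact Nat.pos_of_ne_zero (totient_mul_dedekindPsi_div_two_ne_zero M hM)

variable {F₁}

/-- **(NQ-deg≤), `FiniteAlong` form**, for the `ℚ`-form carrier. -/
theorem finiteAlong_baseChange (hM : 3 ≤ M) (hp : p.Prime) (hpM : Nat.Coprime p M)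
    (hFM : modularFunctionFieldFull M ≤ F₁)
    (hgen : ∀ y ∈ F₁, IsRatioG (G1 M) (coeffEmb ℂ y))
    (hdeg : (ℂ⟮jqModC ℂ⟯).relrank (laurentBaseChange ℂ F₁)
      = ((Nat.totient M * dedekindPsi M / 2 : ℕ) : Cardinal)) :
    AlgebraicCurve.FiniteAlong L (alphaHom (laurentBaseChange L F₁)
      (laurentBaseChange L (supV p F₁)) (baseChange_le_supV p L F₁)) :=
  finiteAlong_alphaHom _ _ _ (relfinrank_baseChange_supV p M L hM hp hpM F₁ hFM hgen hdeg).1

/-- **(NQ-deg≤), `finrankAlong` form**, for the `ℚ`-form carrier. -/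
theorem finrankAlong_baseChange_le (hM : 3 ≤ M) (hp : p.Prime) (hpM : Nat.Coprime p M)
    (hFM : modularFunctionFieldFull M ≤ F₁)
    (hgen : ∀ y ∈ F₁, IsRatioG (G1 M) (coeffEmb ℂ y))
    (hdeg : (ℂ⟮jqModC ℂ⟯).relrank (laurentBaseChange ℂ F₁)
      = ((Nat.totient M * dedekindPsi M / 2 : ℕ) : Cardinal)) :
    AlgebraicCurve.finrankAlong L (alphaHom (laurentBaseChange L F₁)
      (laurentBaseChange L (supV p F₁)) (baseChange_le_supV p L F₁)) ≤ p + 1 := by
  rw [finrankAlong_alphaHom]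
  exact (relfinrank_baseChange_supV p M L hM hp hpM F₁ hFM hgen hdeg).2

/-- **`CoverData` for the `ℚ`-form carrier**: the class-level statements of Part I
(`isKummer_heckeD`, `heckeDPic`, `heckeDPic_kummerClass`, `heckeDPic_smul`) apply to every
`L`-automorphism `D` of `E` fixing `j`. -/
theorem coverData_baseChange [IsAlgClosed L] [CharZero L] (hM : 3 ≤ M) (hp : p.Prime)
    (hpM : Nat.Coprime p M) (hFM : modularFunctionFieldFull M ≤ F₁)
    (hgen : ∀ y ∈ F₁, IsRatioG (G1 M) (coeffEmb ℂ y))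
    (hdeg : (ℂ⟮jqModC ℂ⟯).relrank (laurentBaseChange ℂ F₁)
      = ((Nat.totient M * dedekindPsi M / 2 : ℕ) : Cardinal))
    (D : laurentBaseChange L F₁ ≃ₐ[L] laurentBaseChange L F₁)
    (hDj : D (jE L M F₁ hFM) = jE L M F₁ hFM) :
    CoverData (laurentBaseChange L F₁) (laurentBaseChange L (supV p F₁)) p
      (baseChange_le_supV p L F₁) (hV_baseChange L p F₁) D where
  exists_y := ⟨jE L M F₁ hFM, transcendental_jE L M F₁ hFM,
    finiteDimensional_jE L M F₁ hM hFM hdeg, hDj⟩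
  finite := finiteAlong_baseChange L M p hM hp hpM hFM hgen hdeg

/-- **(hT) for the `ℚ`-form carrier**, from the swap embedding `w` (SWAP1) alone. -/
theorem coe_heckeD_baseChange [IsAlgClosed L] [CharZero L] (hM : 3 ≤ M) (hp : p.Prime)
    (hpM : Nat.Coprime p M) (hFM : modularFunctionFieldFull M ≤ F₁)
    (hgen : ∀ y ∈ F₁, IsRatioG (G1 M) (coeffEmb ℂ y))
    (hdeg : (ℂ⟮jqModC ℂ⟯).relrank (laurentBaseChange ℂ F₁)
      = ((Nat.totient M * dedekindPsi M / 2 : ℕ) : Cardinal))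
    (D : laurentBaseChange L F₁ ≃ₐ[L] laurentBaseChange L F₁)
    (hDj : D (jE L M F₁ hFM) = jE L M F₁ hFM)
    (w : laurentBaseChange L (supV p F₁) →ₐ[L] LaurentSeries L)
    (hwα : ∀ u : laurentBaseChange L F₁,
      w (alphaHom _ _ (baseChange_le_supV p L F₁) u) = qExpand L (p ^ 2) (u : LaurentSeries L))
    (hwβ : ∀ u : laurentBaseChange L F₁,
      w (betaHom _ _ p (hV_baseChange L p F₁) u)
        = qExpand L p ((D.symm u : laurentBaseChange L F₁) : LaurentSeries L))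
    (ζ : Lˣ) (hζ : IsPrimitiveRoot (ζ : L) p) (u : laurentBaseChange L F₁) :
    ((heckeD _ _ p (baseChange_le_supV p L F₁) (hV_baseChange L p F₁) D u :
        laurentBaseChange L F₁) : LaurentSeries L)
      = qExpand L p ((D u : laurentBaseChange L F₁) : LaurentSeries L)
        * Fermat.Agent.S29.helper7964.uOp p
            (∏ b ∈ Finset.range p, Fermat.Agent.S29.helper7964.tw (ζ ^ b) (u : LaurentSeries L)) :=
  coe_heckeD_of_le p (baseChange_le_supV p L F₁) (hV_baseChange L p F₁) D hp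
    (relfinrank_baseChange_supV p M L hM hp hpM F₁ hFM hgen hdeg).1
    (relfinrank_baseChange_supV p M L hM hp hpM F₁ hFM hgen hdeg).2
    w hwα hwβ (jE L M F₁ hFM) hDj (coeff_jE_neg_one L M F₁ hFM) ζ hζ u

end Final

/-! ## Carrier-free form: `E' = E ⊔ V_p(E)` for any field `E` with a `ℚ`-form -/

section Sup

variable (p : ℕ) [NeZero p]

/-- `E ⊔ V_p(E)` for an intermediate field `E` of `L((q)) / L`. -/
abbrev supE {L : Type*} [Field L] (E : IntermediateField L (LaurentSeries L)) :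
    IntermediateField L (LaurentSeries L) :=
  E ⊔ E.map (qExpandAlgHomC L p)

theorem le_supE {L : Type*} [Field L] (E : IntermediateField L (LaurentSeries L)) :
    E ≤ supE p E := le_sup_left

theorem hV_supE {L : Type*} [Field L] (E : IntermediateField L (LaurentSeries L)) (u : E) :
    qExpand L p (u : LaurentSeries L) ∈ supE p E :=
  (le_sup_right : E.map (qExpandAlgHomC L p) ≤ supE p E) ⟨u, u.2, rfl⟩

/-- Base change commutes with `F₁ ↦ F₁ ⊔ V_p(F₁)`. -/
theorem laurentBaseChange_supV (L : Type*) [Field L] [Algebra ℚ L]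
    (F₁ : IntermediateField ℚ (LaurentSeries ℚ)) :
    laurentBaseChange L (supV p F₁) = supE p (laurentBaseChange L F₁) := by
  apply le_antisymm
  · have hsub : supV p F₁ ≤ Fermat.Agent.S48.helper8098.ratPoints L
        (supE p (laurentBaseChange L F₁)) := by
      refine sup_le (fun y hy => ?_) ?_
      · exact (le_supE p (laurentBaseChange L F₁)) (coeffEmb_mem_laurentBaseChange L hy)
      · rintro _ ⟨y, hy, rfl⟩
        show coeffEmb L (qExpandAlgHomC ℚ p y) ∈ supE p (laurentBaseChange L F₁)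
        rw [qExpandAlgHomC_apply, coeffEmb, coeffMap_qExpand]
        exact (le_sup_right : (laurentBaseChange L F₁).map (qExpandAlgHomC L p)
          ≤ supE p (laurentBaseChange L F₁))
          ⟨coeffEmb L y, coeffEmb_mem_laurentBaseChange L hy, rfl⟩
    exact Fermat.Agent.S48.helper8098.laurentBaseChange_le_iff.mpr hsub
  · refine sup_le (baseChange_le_supV p L F₁) ?_
    rintro _ ⟨u, hu, rfl⟩
    exact qExpand_mem_baseChange_supV p L F₁ hu

/-- **(NQ-deg≤), carrier-free `relfinrank` form.**  `E` any intermediate field of `L((q)) / L`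
with a `ℚ`-form `F₁` (`laurentBaseChange L F₁ = E`) whose complex base change `EC` consists of
ratios of `Γ₁(M)`-forms and has degree `φ(M) ψ(M) / 2` over `ℂ(j)`.  Then
`1 ≤ [E ⊔ V_p(E) : E] ≤ p + 1`. -/
theorem relfinrank_supE_of_ratForm (L : Type*) [Field L] [Algebra ℚ L] (M : ℕ) [NeZero M]
    (hM : 3 ≤ M) (hp : p.Prime) (hpM : Nat.Coprime p M)
    (F₁ : IntermediateField ℚ (LaurentSeries ℚ)) (hFM : modularFunctionFieldFull M ≤ F₁)
    (EC : IntermediateField ℂ (LaurentSeries ℂ)) (hC : laurentBaseChange ℂ F₁ = EC)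
    (hEC : ∀ x ∈ EC, IsRatioG (G1 M) x)
    (hdeg : (ℂ⟮jqModC ℂ⟯).relrank EC
      = ((Nat.totient M * dedekindPsi M / 2 : ℕ) : Cardinal))
    (E : IntermediateField L (LaurentSeries L)) (hE : laurentBaseChange L F₁ = E) :
    E.relfinrank (supE p E) ≠ 0 ∧ E.relfinrank (supE p E) ≤ p + 1 := by
  subst hE hC
  have h := relfinrank_baseChange_supV p M L hM hp hpM F₁ hFM
    (fun y hy => hEC _ (coeffEmb_mem_laurentBaseChange ℂ hy)) hdeg
  rwa [laurentBaseChange_supV] at h

/-- **(NQ-deg≤), carrier-free form in the binder shapes of Part I** (`E' := E ⊔ V_p(E)`,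
`hle := le_supE p E`, `hV := hV_supE p E`). -/
theorem nqDeg_of_ratForm (L : Type) [Field L] [Algebra ℚ L] (M : ℕ) [NeZero M]
    (hM : 3 ≤ M) (hp : p.Prime) (hpM : Nat.Coprime p M)
    (F₁ : IntermediateField ℚ (LaurentSeries ℚ)) (hFM : modularFunctionFieldFull M ≤ F₁)
    (EC : IntermediateField ℂ (LaurentSeries ℂ)) (hC : laurentBaseChange ℂ F₁ = EC)
    (hEC : ∀ x ∈ EC, IsRatioG (G1 M) x)
    (hdeg : (ℂ⟮jqModC ℂ⟯).relrank EC
      = ((Nat.totient M * dedekindPsi M / 2 : ℕ) : Cardinal))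
    (E : IntermediateField L (LaurentSeries L)) (hE : laurentBaseChange L F₁ = E) :
    AlgebraicCurve.FiniteAlong L (alphaHom E (supE p E) (le_supE p E)) ∧
      AlgebraicCurve.finrankAlong L (alphaHom E (supE p E) (le_supE p E)) ≤ p + 1 := by
  have h := relfinrank_supE_of_ratForm p L M hM hp hpM F₁ hFM EC hC hEC hdeg E hE
  exact ⟨finiteAlong_alphaHom _ _ _ h.1, by rw [finrankAlong_alphaHom]; exact h.2⟩

end Sup

end

end Fermat.Agent.S48.helper5404
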