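/-
S48, machine blocks M1/M2 — diamonds preserve the `q`-Gauss ring (helper5530).

`E0 ≤ E` subfields of `ℚ̄((q))`, both normalisable at the place `A` of `ℚ̄`, with `q`-Gauss
valuation rings `O0`, `OE` (`helper8991.gaussSubring`).  Assume `E = E0(y)` for an `A`-integral
series `y = ι Y` which is a root of a monic polynomial `P` over `O0`, such that
`1, ȳ, …, ȳ^(d-1)` (`d = deg P`, `ȳ = red Y`) are linearly independent over the residues of `O0`
(e.g. the reduction of `P` is irreducible: the "Igusa datum" of the `Γ₁(M)` field over the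
`Γ₀(M)` field).  Then

* `gauss_coeffs_of_integral_generator` : every element of `OE` is `∑_{i<d} r_i y^i` with
  `r_i ∈ O0` (so `OE = O0[y]` is integral over `O0`);
* `map_mem_gaussSubring_of_integral_generator` : every `ℚ̄`-automorphism `D` of `E` fixing `E0`
  pointwise maps `OE` into itself;
* `diamondGauss_of_integral_generator` : hence `DiamondGauss D A` — the hypothesis on the diamond
  operator in (ES) of `helper5530_UnrESGen`.

No uniqueness-of-extension theorem for valuations, no discriminant, no separability is used.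
-/
import Fermat.Agent.S48.helper5530_UnrESGen

set_option autoImplicit false

noncomputable section

namespace Fermat.Agent.S48.helper5530

open ModularCurve AlgebraicCurve HahnSeries Polynomial
open Fermat.Agent.S18.helper8991 (gaussRing gaussRho gaussRho_inc inc_mem_gaussRing gaussSubring
  gaussRed gaussRed_eq_zero_iff)

local notation "Qb" => AlgebraicClosure ℚ

section Core

variable {A : ValuationSubring Qb} {E0 E : IntermediateField Qb (LaurentSeries Qb)}

/-- If `E = E0(y)` with `y` a root of the monic polynomial `P0` over `E0`, every element of `E`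
is `∑_{i < deg P0} r_i y^i` with `r_i ∈ E0`. -/
theorem exists_coeffs_of_mem_adjoin_root {y : LaurentSeries Qb} (P0 : (↥E0)[X]) (hP0 : P0.Monic)
    (hy : Polynomial.aeval y P0 = 0)
    (hE : E = IntermediateField.adjoin Qb ((E0 : Set (LaurentSeries Qb)) ∪ {y}))
    {f : LaurentSeries Qb} (hf : f ∈ E) :
    ∃ r : ℕ → ↥E0, f = ∑ i ∈ Finset.range P0.natDegree, (r i : LaurentSeries Qb) * y ^ i := by
  have hint : IsIntegral (↥E0) y := ⟨P0, hP0, by rw [← Polynomial.aeval_def]; exact hy⟩
  have hP1 : P0 ≠ 1 := by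
    rintro rfl
    rw [map_one] at hy
    exact one_ne_zero hy
  have h1 : f ∈ IntermediateField.adjoin (↥E0) {y} := by
    have h := IntermediateField.restrictScalars_adjoin Qb E0 {y}
    rw [hE, ← h] at hf
    exact hf
  have h2 : f ∈ Algebra.adjoin (↥E0) {y} := by
    rw [← IntermediateField.adjoin_simple_toSubalgebra_of_isAlgebraic hint.isAlgebraic]
    exact h1
  rw [Algebra.adjoin_singleton_eq_range_aeval] at h2
  obtain ⟨Q, rfl⟩ := h2
  refine ⟨fun i => (Q %ₘ P0).coeff i, ?_⟩
  show Polynomial.aeval y Q = _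
  rw [← Polynomial.aeval_modByMonic_eq_self_of_root hy (p := Q),
    Polynomial.aeval_eq_sum_range' (Polynomial.natDegree_modByMonic_lt Q hP0 hP1)]
  refine Finset.sum_congr rfl (fun i _ => ?_)
  rw [Algebra.smul_def]
  rfl

variable (hN0 : Normalizable E0 A) (hN : Normalizable E A) (Y : LaurentSeries A)
  (P : (↥(gaussSubring A (IsLocalRing.residue A) E0 hN0))[X])

/-- Reduction of the equation `P(y) = 0`: the reduced polynomial vanishes at `ȳ = red Y`. -/
theorem eval₂_gaussRed_eq_zero_of_root
    (hPy : Polynomial.eval₂ ((algebraMap ↥E0 (LaurentSeries Qb)).comp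
      (gaussSubring A (IsLocalRing.residue A) E0 hN0).subtype) (coeffMap A.subtype Y) P = 0) :
    Polynomial.eval₂ (gaussRed A (IsLocalRing.residue A) E0 hN0)
      (coeffMap (IsLocalRing.residue A) Y) P = 0 := by
  obtain ⟨φ, hφ⟩ : ∃ φ : ↥(gaussSubring A (IsLocalRing.residue A) E0 hN0) →+*
      ↥(gaussRing A (IsLocalRing.residue A)),
      ∀ a, ((φ a : gaussRing A (IsLocalRing.residue A)) : LaurentSeries Qb)
        = ((a : ↥E0) : LaurentSeries Qb) :=
    ⟨RingHom.codRestrict ((algebraMap ↥E0 (LaurentSeries Qb)).comp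
      (gaussSubring A (IsLocalRing.residue A) E0 hN0).subtype)
      (gaussRing A (IsLocalRing.residue A)) (fun a => a.2), fun _ => rfl⟩
  have h1 : Polynomial.eval₂ φ (⟨coeffMap A.subtype Y,
      inc_mem_gaussRing A (IsLocalRing.residue A) Y⟩ : gaussRing A (IsLocalRing.residue A)) P
      = 0 := by
    apply Subtype.ext
    have h := Polynomial.hom_eval₂ P φ (gaussRing A (IsLocalRing.residue A)).subtype
      ⟨coeffMap A.subtype Y, inc_mem_gaussRing A (IsLocalRing.residue A) Y⟩
    have hcomp : (gaussRing A (IsLocalRing.residue A)).subtype.comp φ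
        = (algebraMap ↥E0 (LaurentSeries Qb)).comp
          (gaussSubring A (IsLocalRing.residue A) E0 hN0).subtype :=
      RingHom.ext (fun a => hφ a)
    rw [hcomp] at h
    exact h.trans hPy
  have h2 := congrArg (gaussRho A (IsLocalRing.residue A)) h1
  rw [Polynomial.hom_eval₂, map_zero, gaussRho_inc] at h2
  have hcomp2 : (gaussRho A (IsLocalRing.residue A)).comp φ
      = gaussRed A (IsLocalRing.residue A) E0 hN0 := by
    refine RingHom.ext (fun a => ?_)
    have ha : φ a = ⟨((a : ↥E0) : LaurentSeries Qb), a.2⟩ := Subtype.ext (hφ a)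
    show gaussRho A (IsLocalRing.residue A) (φ a) = _
    rw [ha]
    rfl
  rw [hcomp2] at h2
  exact h2

/-- **`OE = O0[y]`**: under the independence hypothesis, every element of `E` lying in the
`q`-Gauss ring is a polynomial of degree `< deg P` in `y` with coefficients in the `q`-Gauss ring
of `E0`. -/
theorem gauss_coeffs_of_integral_generator (hP : P.Monic)
    (hPy : Polynomial.eval₂ ((algebraMap ↥E0 (LaurentSeries Qb)).comp
      (gaussSubring A (IsLocalRing.residue A) E0 hN0).subtype) (coeffMap A.subtype Y) P = 0)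
    (hE : E = IntermediateField.adjoin Qb
      ((E0 : Set (LaurentSeries Qb)) ∪ {coeffMap A.subtype Y}))
    (hind : ∀ c : ℕ → ↥(gaussSubring A (IsLocalRing.residue A) E0 hN0),
      ∑ i ∈ Finset.range P.natDegree, gaussRed A (IsLocalRing.residue A) E0 hN0 (c i)
        * coeffMap (IsLocalRing.residue A) Y ^ i = 0 →
      ∀ i ∈ Finset.range P.natDegree, gaussRed A (IsLocalRing.residue A) E0 hN0 (c i) = 0)
    {x : LaurentSeries Qb} (hxE : x ∈ E) (hx : x ∈ gaussRing A (IsLocalRing.residue A)) :
    ∃ r : ℕ → ↥E0, (∀ i ∈ Finset.range P.natDegree,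
        r i ∈ gaussSubring A (IsLocalRing.residue A) E0 hN0) ∧
      x = ∑ i ∈ Finset.range P.natDegree, (r i : LaurentSeries Qb) * coeffMap A.subtype Y ^ i := by
  classical
  have hP0m : (P.map (gaussSubring A (IsLocalRing.residue A) E0 hN0).subtype).Monic := hP.map _
  have hP0y : Polynomial.aeval (coeffMap A.subtype Y)
      (P.map (gaussSubring A (IsLocalRing.residue A) E0 hN0).subtype) = 0 := by
    rw [Polynomial.aeval_def, Polynomial.eval₂_map]
    exact hPy
  have hdeg : (P.map (gaussSubring A (IsLocalRing.residue A) E0 hN0).subtype).natDegree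
      = P.natDegree := hP.natDegree_map _
  obtain ⟨r, hr⟩ := exists_coeffs_of_mem_adjoin_root _ hP0m hP0y hE hxE
  rw [hdeg] at hr
  refine ⟨r, ?_, hr⟩
  by_contra hcon
  obtain ⟨i1, hi1, hi1O⟩ : ∃ i1 ∈ Finset.range P.natDegree,
      r i1 ∉ gaussSubring A (IsLocalRing.residue A) E0 hN0 := by
    by_contra h
    exact hcon (fun i hi => by
      by_contra h'
      exact h ⟨i, hi, h'⟩)
  obtain ⟨i0, hi0, hmax⟩ := Finset.exists_max_image (Finset.range P.natDegree)
    (fun i => (gaussSubring A (IsLocalRing.residue A) E0 hN0).valuation (r i)) ⟨i1, hi1⟩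
  obtain ⟨s, hs⟩ : ∃ s : ↥E0, s = r i0 := ⟨_, rfl⟩
  rw [← hs] at hmax
  have hs1 : 1 < (gaussSubring A (IsLocalRing.residue A) E0 hN0).valuation s := by
    by_contra h
    exact hi1O (((gaussSubring A (IsLocalRing.residue A) E0 hN0).valuation_le_one_iff _).mp
      ((hmax i1 hi1).trans (not_lt.mp h)))
  have hs0 : s ≠ 0 := by
    rintro rfl
    rw [map_zero] at hs1
    exact absurd hs1 (not_lt.mpr zero_le_one)
  have hmem : ∀ i ∈ Finset.range P.natDegree,
      s⁻¹ * r i ∈ gaussSubring A (IsLocalRing.residue A) E0 hN0 := by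
    intro i hi
    rw [← ValuationSubring.valuation_le_one_iff, map_mul, map_inv₀]
    exact (inv_mul_le_iff₀ (zero_lt_one.trans hs1)).mpr (by rw [mul_one]; exact hmax i hi)
  have hsinv : s⁻¹ ∈ gaussSubring A (IsLocalRing.residue A) E0 hN0 := by
    rw [← ValuationSubring.valuation_le_one_iff, map_inv₀]
    exact inv_le_one_of_one_le₀ hs1.le
  have hred_sinv : gaussRed A (IsLocalRing.residue A) E0 hN0 ⟨s⁻¹, hsinv⟩ = 0 := by
    rw [gaussRed_eq_zero_iff, ValuationSubring.valuation_lt_one_iff]
    show (gaussSubring A (IsLocalRing.residue A) E0 hN0).valuation s⁻¹ < 1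
    rw [map_inv₀]
    exact inv_lt_one_of_one_lt₀ hs1
  obtain ⟨c, hc⟩ : ∃ c : ℕ → ↥(gaussSubring A (IsLocalRing.residue A) E0 hN0),
      c = fun i => if h : s⁻¹ * r i ∈ gaussSubring A (IsLocalRing.residue A) E0 hN0
        then ⟨s⁻¹ * r i, h⟩ else 0 := ⟨_, rfl⟩
  have hc_eq : ∀ i ∈ Finset.range P.natDegree, ((c i : ↥E0) : LaurentSeries Qb)
      = ((s⁻¹ : ↥E0) : LaurentSeries Qb) * (r i : LaurentSeries Qb) := by
    intro i hi
    rw [hc]
    simp only [dif_pos (hmem i hi)]
    rfl
  -- the computation in the Gauss ring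
  have hsum : ((s⁻¹ : ↥E0) : LaurentSeries Qb) * x
      = ∑ i ∈ Finset.range P.natDegree, ((c i : ↥E0) : LaurentSeries Qb)
          * coeffMap A.subtype Y ^ i := by
    rw [hr, Finset.mul_sum]
    refine Finset.sum_congr rfl (fun i hi => ?_)
    rw [hc_eq i hi, mul_assoc]
  have hG : (⟨((s⁻¹ : ↥E0) : LaurentSeries Qb), hsinv⟩ : gaussRing A (IsLocalRing.residue A))
        * ⟨x, hx⟩
      = ∑ i ∈ Finset.range P.natDegree,
          (⟨((c i : ↥E0) : LaurentSeries Qb), (c i).2⟩ : gaussRing A (IsLocalRing.residue A))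
          * (⟨coeffMap A.subtype Y, inc_mem_gaussRing A (IsLocalRing.residue A) Y⟩ :
              gaussRing A (IsLocalRing.residue A)) ^ i := by
    apply Subtype.ext
    rw [Subring.coe_mul, AddSubmonoidClass.coe_finsetSum]
    exact hsum
  have hρ := congrArg (gaussRho A (IsLocalRing.residue A)) hG
  rw [map_mul, map_sum] at hρ
  have h0 : gaussRho A (IsLocalRing.residue A)
      (⟨((s⁻¹ : ↥E0) : LaurentSeries Qb), hsinv⟩ : gaussRing A (IsLocalRing.residue A)) = 0 :=
    hred_sinv
  rw [h0, zero_mul] at hρ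
  have hρ' : ∑ i ∈ Finset.range P.natDegree, gaussRed A (IsLocalRing.residue A) E0 hN0 (c i)
      * coeffMap (IsLocalRing.residue A) Y ^ i = 0 := by
    rw [hρ]
    refine Finset.sum_congr rfl (fun i _ => ?_)
    rw [map_mul, map_pow, gaussRho_inc]
    rfl
  have hci0 := hind c hρ' i0 hi0
  have hc1 : c i0 = 1 := by
    rw [hc]
    simp only [dif_pos (hmem i0 hi0)]
    apply Subtype.ext
    show s⁻¹ * r i0 = 1
    rw [← hs, inv_mul_cancel₀ hs0]
  rw [hc1, map_one] at hci0
  exact one_ne_zero hci0

/-- **Automorphisms over `E0` preserve the `q`-Gauss ring of `E = E0(y)`.** -/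
theorem map_mem_gaussSubring_of_integral_generator (hP : P.Monic)
    (hPy : Polynomial.eval₂ ((algebraMap ↥E0 (LaurentSeries Qb)).comp
      (gaussSubring A (IsLocalRing.residue A) E0 hN0).subtype) (coeffMap A.subtype Y) P = 0)
    (hE : E = IntermediateField.adjoin Qb
      ((E0 : Set (LaurentSeries Qb)) ∪ {coeffMap A.subtype Y}))
    (hind : ∀ c : ℕ → ↥(gaussSubring A (IsLocalRing.residue A) E0 hN0),
      ∑ i ∈ Finset.range P.natDegree, gaussRed A (IsLocalRing.residue A) E0 hN0 (c i)
        * coeffMap (IsLocalRing.residue A) Y ^ i = 0 →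
      ∀ i ∈ Finset.range P.natDegree, gaussRed A (IsLocalRing.residue A) E0 hN0 (c i) = 0)
    (D : E ≃ₐ[Qb] E) (hD : ∀ x : E, (x : LaurentSeries Qb) ∈ E0 → D x = x)
    (x : E) (hx : x ∈ gaussSubring A (IsLocalRing.residue A) E hN) :
    D x ∈ gaussSubring A (IsLocalRing.residue A) E hN := by
  have hle : E0 ≤ E := by
    intro z hz
    rw [hE]
    exact IntermediateField.subset_adjoin Qb _ (Or.inl hz)
  have hyE : coeffMap A.subtype Y ∈ E := by
    rw [hE]
    exact IntermediateField.subset_adjoin Qb _ (Or.inr rfl)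
  obtain ⟨r, hrO, hr⟩ :=
    gauss_coeffs_of_integral_generator hN0 Y P hP hPy hE hind x.2 hx
  -- the generator and the inclusion of `O0` in `E`
  obtain ⟨yE, hyEdef⟩ : ∃ yE : E, yE = ⟨coeffMap A.subtype Y, hyE⟩ := ⟨_, rfl⟩
  obtain ⟨ιE, hιE⟩ : ∃ ιE : ↥(gaussSubring A (IsLocalRing.residue A) E0 hN0) →+* ↥E,
      ιE = (IntermediateField.inclusion hle).toRingHom.comp
        (gaussSubring A (IsLocalRing.residue A) E0 hN0).subtype := ⟨_, rfl⟩
  have hιE_coe : ∀ a : ↥(gaussSubring A (IsLocalRing.residue A) E0 hN0),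
      ((ιE a : E) : LaurentSeries Qb) = ((a : ↥E0) : LaurentSeries Qb) := by
    intro a
    rw [hιE]
    rfl
  -- `y` is a root of `P` in `E`
  have h1 : Polynomial.eval₂ ιE yE P = 0 := by
    apply Subtype.ext
    have h := Polynomial.hom_eval₂ P ιE (algebraMap ↥E (LaurentSeries Qb)) yE
    have hcomp : (algebraMap ↥E (LaurentSeries Qb)).comp ιE
        = (algebraMap ↥E0 (LaurentSeries Qb)).comp
          (gaussSubring A (IsLocalRing.residue A) E0 hN0).subtype :=
      RingHom.ext (fun a => hιE_coe a)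
    rw [hcomp] at h
    have hy' : algebraMap ↥E (LaurentSeries Qb) yE = coeffMap A.subtype Y := by
      rw [hyEdef]
      rfl
    rw [hy', hPy] at h
    exact h
  -- hence so is `D y`
  have h2 : Polynomial.eval₂ ιE (D yE) P = 0 := by
    have h := Polynomial.hom_eval₂ P ιE (D : ↥E →+* ↥E) yE
    rw [h1, map_zero] at h
    have hcomp : (D : ↥E →+* ↥E).comp ιE = ιE :=
      RingHom.ext (fun a => hD (ιE a) (by rw [hιE_coe a]; exact (a : ↥E0).2))
    rw [hcomp] at h
    exact h.symm
  -- `D y` lies in the Gauss ring (integrally closed)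
  have hDy : D yE ∈ gaussSubring A (IsLocalRing.residue A) E hN := by
    have hmemE : ∀ a : ↥(gaussSubring A (IsLocalRing.residue A) E0 hN0),
        ιE a ∈ gaussSubring A (IsLocalRing.residue A) E hN := by
      intro a
      show ((ιE a : E) : LaurentSeries Qb) ∈ gaussRing A (IsLocalRing.residue A)
      rw [hιE_coe a]
      exact a.2
    have hint : IsIntegral (↥(gaussSubring A (IsLocalRing.residue A) E hN)) (D yE) :=
      ⟨P.map (RingHom.codRestrict ιE (gaussSubring A (IsLocalRing.residue A) E hN) hmemE),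
        hP.map _, by rw [Polynomial.eval₂_map]; exact h2⟩
    obtain ⟨z, hz⟩ := IsIntegrallyClosed.isIntegral_iff.mp hint
    rw [← hz]
    exact z.2
  -- conclusion
  have hxE : x = ∑ i ∈ Finset.range P.natDegree,
      (⟨(r i : LaurentSeries Qb), hle (r i).2⟩ : E) * yE ^ i := by
    apply Subtype.ext
    rw [hr, AddSubmonoidClass.coe_finsetSum]
    refine Finset.sum_congr rfl (fun i _ => ?_)
    rw [hyEdef]
    rfl
  rw [hxE, map_sum]
  refine sum_mem (fun i hi => ?_)
  rw [map_mul, map_pow, hD _ (r i).2]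
  exact mul_mem (hrO i hi) (pow_mem hDy i)

include hN in
/-- **(hD′)** Under the hypotheses above, every `ℚ̄`-automorphism of `E` fixing `E0` pointwise
maps Gauss units to Gauss units. -/
theorem diamondGauss_of_integral_generator (hP : P.Monic)
    (hPy : Polynomial.eval₂ ((algebraMap ↥E0 (LaurentSeries Qb)).comp
      (gaussSubring A (IsLocalRing.residue A) E0 hN0).subtype) (coeffMap A.subtype Y) P = 0)
    (hE : E = IntermediateField.adjoin Qb
      ((E0 : Set (LaurentSeries Qb)) ∪ {coeffMap A.subtype Y}))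
    (hind : ∀ c : ℕ → ↥(gaussSubring A (IsLocalRing.residue A) E0 hN0),
      ∑ i ∈ Finset.range P.natDegree, gaussRed A (IsLocalRing.residue A) E0 hN0 (c i)
        * coeffMap (IsLocalRing.residue A) Y ^ i = 0 →
      ∀ i ∈ Finset.range P.natDegree, gaussRed A (IsLocalRing.residue A) E0 hN0 (c i) = 0)
    (D : E ≃ₐ[Qb] E) (hD : ∀ x : E, (x : LaurentSeries Qb) ∈ E0 → D x = x) :
    DiamondGauss D A :=
  diamondGauss_of_gaussSubring hN D (fun x hx =>
    map_mem_gaussSubring_of_integral_generator hN0 hN Y P hP hPy hE hind D hD x hx)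

end Core

end Fermat.Agent.S48.helper5530
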