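/-
S48, machine half (M1), generic closing theorem (helper8782).

The landed S18 track-A chain (`helper2030.kummer_ff_chart`, `helper789.exists_genus_data`,
`helper1733` orthonormal kit, `helper4226` end adapter) is generic in the function field.  This
file packages its inputs for an ARBITRARY Gauss-valued function field `F / L` with special fibre
`Fk / k` in ONE structure `GaussLine`, and proves the Kummer form from it:

* `GaussLine L k O red x` : the track-A package on the base line `x`;
* `GaussLine.kummer` : for a unit `m` of `O` and `a, b ∈ O` with `red b ≠ 0`,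
  `m ∣ div (a / b)` and `red a = w ^ m * red b`, the quotient `a / b` is a constant times an
  `m`-th power in `F`.

No modular object occurs.  Consumers: the `Γ₁(M)` function field (`helper8782_SpecM1`).
-/
import Fermat.Agent.S18.helper789_LineData

set_option autoImplicit false
set_option synthInstance.maxHeartbeats 400000
set_option linter.style.haveILetI false

noncomputable section

namespace Fermat.Agent.S48.helper8782

open AlgebraicCurve IntermediateField Module
open Fermat.Agent.S18

section Generic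

variable {L F k Fk : Type*} [Field L] [Field F] [Algebra L F] [Field k] [Field Fk] [Algebra k Fk]

/-- **The track-A package of a Gauss-valued function field on a base line `x`.**

`O` is a valuation subring of the function field `F / L` with reduction map `red` onto (a
subring of) the function field `Fk / k` of the special fibre.

* `hVG`, `harch` : the value group of `O` is that of the constants, of rank one;
* `hred`, `hredk_surj`, `hcompat` : `red` has kernel the maximal ideal, maps constants to
  constants, onto `k`;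
* `hx`, `hres`, `ortho` : `x ∈ O` is residually transcendental and `F` has an orthonormal
  spanning family over `L(x)` (the Gauss valuation of `L(x)` extends uniquely, without defect);
* `hxt`, `fin`, `sep`, `hdk` : `Fk / k(x̄)` is finite separable of degree `≤ [F : L(x)]`;
* `branch` : `F / L(x)` has at most one nonzero finite branch value `c0`, with nonzero
  reduction. -/
structure GaussLine (L : Type*) {F : Type*} (k : Type*) {Fk : Type*} [Field L] [Field F]
    [Algebra L F] [Field k] [Field Fk] [Algebra k Fk] (O : ValuationSubring F) (red : O →+* Fk)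
    (x : F) : Prop where
  hVG : ∀ f : F, f ≠ 0 → ∃ c : L, O.valuation (algebraMap L F c) = O.valuation f
  harch : ∀ ε κ : O.ValueGroup, ε < 1 → κ ≠ 0 → ∃ n : ℕ, ε ^ n < κ
  hred : ∀ f : O, red f = 0 ↔ O.valuation (f : F) < 1
  hredk_surj : ∀ c' : k, ∃ (c : L) (hc : algebraMap L F c ∈ O),
    red ⟨algebraMap L F c, hc⟩ = algebraMap k Fk c'
  hcompat : ∀ (a : L) (ha : algebraMap L F a ∈ O),
    ∃ c : k, red ⟨algebraMap L F a, ha⟩ = algebraMap k Fk c
  hx : x ∈ O
  hres : helper1733.ResTranscendental O.valuation L x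
  ortho : ∃ (n : ℕ) (b : Fin n → F), helper1733.IsOrtho O.valuation L⟮x⟯ b ∧
    Submodule.span L⟮x⟯ (Set.range b) = ⊤
  hxt : Transcendental k (red ⟨x, hx⟩)
  fin : FiniteDimensional k⟮red ⟨x, hx⟩⟯ Fk
  sep : Algebra.IsSeparable k⟮red ⟨x, hx⟩⟯ Fk
  hdk : finrank k⟮red ⟨x, hx⟩⟯ Fk ≤ finrank L⟮x⟯ F
  branch : ∃ (c0 : L) (hc0 : algebraMap L F c0 ∈ O) (c0b : k),
    red ⟨algebraMap L F c0, hc0⟩ = algebraMap k Fk c0b ∧ c0b ≠ 0 ∧
    ∀ (v : Place L F) (c : L), c ≠ 0 → c ≠ c0 →
      0 < v.ord (x - algebraMap L F c) → v.ord (x - algebraMap L F c) = 1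

/-- **Kummer form for a Gauss-valued function field** (track A, generic).  `L` algebraically
closed of characteristic zero, `k` algebraically closed, `m` a unit of `O`.  If `a, b ∈ O`,
`red b ≠ 0`, all orders of `a / b` are divisible by `m` and `red a = w ^ m * red b` with
`w ≠ 0`, then `a = c' * V ^ m * b` with `V ∈ F`, `c' ∈ L`. -/
theorem GaussLine.kummer [IsAlgClosed L] [CharZero L] [IsAlgClosed k]
    {O : ValuationSubring F} {red : O →+* Fk} {x : F} (G : GaussLine L k O red x)
    (m : ℕ) (hm : O.valuation (m : F) = 1)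
    {a b : F} (ha : a ∈ O) (hb : b ∈ O) (hbr : red ⟨b, hb⟩ ≠ 0)
    (hdvd : ∀ P : Place L F, (m : ℤ) ∣ P.ord a - P.ord b)
    (w : Fk) (hw : w ≠ 0) (hredab : red ⟨a, ha⟩ = w ^ m * red ⟨b, hb⟩) :
    ∃ (V : F) (c' : L), a = algebraMap L F c' * V ^ m * b := by
  classical
  obtain ⟨n, e, he, hspan⟩ := G.ortho
  have htr : Transcendental L x := G.hres.transcendental
  haveI hfdL : FiniteDimensional L⟮x⟯ F := by
    refine Module.finite_def.mpr ⟨Finset.univ.image e, ?_⟩
    rw [Finset.coe_image, Finset.coe_univ, Set.image_univ]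
    exact hspan
  haveI hPD : HasPrincipalDivisors L F := helper4307.hasPrincipalDivisors x htr
  have hdeg1 : ∀ v : Place L F, v.deg = 1 := helper4307.place_deg_eq_one x htr
  obtain ⟨P₀⟩ := helper3537.nonempty_place x htr
  obtain ⟨hx0, -, hxi⟩ := G.hres.mem_and_inv_mem O
  have hm0 : m ≠ 0 := by
    intro h
    rw [h, Nat.cast_zero, map_zero] at hm
    exact zero_ne_one hm
  have hb0 : b ≠ 0 := by
    intro h
    apply hbr
    have : (⟨b, hb⟩ : O) = 0 := Subtype.ext h
    rw [this, map_zero]
  have har : red ⟨a, ha⟩ ≠ 0 := by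
    rw [hredab]
    exact mul_ne_zero (pow_ne_zero m hw) hbr
  have ha0 : a ≠ 0 := by
    intro h
    apply har
    have : (⟨a, ha⟩ : O) = 0 := Subtype.ext h
    rw [this, map_zero]
  -- `b` is a unit of `O`
  have hbv : O.valuation b = 1 := by
    have h1 : ¬ O.valuation b < 1 := fun h => hbr ((G.hred ⟨b, hb⟩).mpr h)
    exact le_antisymm ((O.valuation_le_one_iff b).mpr hb) (not_lt.mp h1)
  have hbi : b⁻¹ ∈ O := by
    rw [← O.valuation_le_one_iff, map_inv₀, hbv, inv_one]
  refine helper4226.exists_const_mul_pow_of_forall_mem_rr x hm0 ha0 hb0 hdvd ?_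
  intro D0 hdeg0 hD0
  haveI := G.fin
  haveI := G.sep
  obtain ⟨c0, hc0, c0b, hc0b, hc0b0, hunr⟩ := G.branch
  obtain ⟨d, γ, hdpos, hdeg, hRiemF, hfink, cK, hGapk⟩ :=
    helper789.exists_genus_data O red G.hred G.hredk_surj G.hcompat G.hx G.hres he hspan G.hxt
      G.hdk c0 hc0 c0b hc0b hc0b0 hunr
  obtain ⟨Xinf, X0, hXinf, hX0⟩ := helper2030.exists_pole_zero_divisor (K := L) hx0
  have hdX : Divisor.degree Xinf = (d : ℤ) := hdeg Xinf hXinf
  have hdX0 : Divisor.degree X0 = (d : ℤ) := by
    rw [helper8566.degree_zero_eq_degree_pole hx0 hXinf hX0, hdX]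
  -- the Kummer datum
  have huO : a * b⁻¹ ∈ O := O.mul_mem _ _ ha hbi
  have hredu : red ⟨a * b⁻¹, huO⟩ = w ^ m := by
    have h1 : (⟨a * b⁻¹, huO⟩ : O) = ⟨a, ha⟩ * ⟨b⁻¹, hbi⟩ := rfl
    rw [h1, map_mul, hredab, helper6292.red_inv O red hb0 hb hbi, mul_assoc,
      mul_inv_cancel₀ hbr, mul_one]
  have hordu : ∀ P : Place L F, P.ord (a * b⁻¹) = (m : ℤ) * D0 P := fun P => by
    rw [P.ord_mul ha0 (inv_ne_zero hb0), P.ord_inv, hD0 P, sub_eq_add_neg]
  -- (CART)
  have hcart : ∀ E : Divisor L F, ∃ (r : ℕ) (e' : Fin r → F), LinearIndependent L e' ∧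
      Submodule.span L (Set.range e') = riemannRochSpace E ∧
      ∀ c : Fin r → L, (∑ i, c i • e' i ∈ O ↔ ∀ i, algebraMap L F (c i) ∈ O) := by
    intro E
    haveI hfin : Module.Finite L (riemannRochSpace E) :=
      helper981.finite_riemannRochSpace hdeg1 P₀ E
    obtain ⟨e', -, he', hs⟩ := helper1733.exists_isOrtho_basis G.hres he hspan (riemannRochSpace E)
    refine ⟨_, e', he'.linearIndependent, hs, fun c => ⟨fun hc i => ?_, fun hc => ?_⟩⟩
    · exact (O.valuation_le_one_iff _).mp
        ((he'.coeff_le_univ c i).trans ((O.valuation_le_one_iff _).mpr hc))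
    · exact (O.valuation_le_one_iff _).mp
        (he'.sum_le Finset.univ c fun i _ => (O.valuation_le_one_iff _).mpr (hc i))
  have hIT := helper1733.integralityTransfer_of_isOrtho O red G.hcompat G.hx G.hres he hspan
  have hIT' := helper1733.integralityTransfer_inv_of_isOrtho O red G.hcompat G.hx G.hres he hspan
  exact helper2030.kummer_ff_chart O G.hVG G.harch red G.hred G.hredk_surj x hx0 G.hx hxi
    Xinf X0 hXinf hX0 (helper6292.chartIntegral_of_charZero x)
    (helper6292.chartIntegral_inv_of_charZero x) hIT hIT' (d : ℤ) (by exact_mod_cast hdpos)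
    hdX hdX0 D0 hdeg0 hcart γ hRiemF hfink cK hGapk m hm (a * b⁻¹) huO hordu w hw hredu

end Generic

end Fermat.Agent.S48.helper8782
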