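/-
S48, machine half, part (M1) — SPEC (helper8782, architect).

`Γ₁(M)` function field over the landed `Γ₀(M)` function field, "Igusa for `Γ₁(M)`" and the Kummer
form (KF, `w = 1`), in hypothesis-passing form against LANDED interfaces only:

* the generic `q`-Gauss valuation ring of a subfield of `L((q))` (`helper8991_GaussInst`);
* the track-A closing chain of S18, generic in the function field (`GaussLine.kummer`,
  `helper8782_GaussLineKF`);
* the Gauss data of `F̄_M` on the Hauptmodul lines `t_2`, `t_3` (`helper4665`, `helper2866`).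

CONTENTS
* `IsQGauss A E Ek`, `IsQGauss.O`, `IsQGauss.red` : a subfield `E ≤ L((q))` whose nonzero elements
  are normalisable, with its `q`-Gauss valuation ring and the coefficientwise residue map into a
  subfield `Ek ≤ k((q))`;
* `QLine A E Ek x` : `E` is `q`-Gauss and carries the track-A package `GaussLine` on the line `x`;
* `KFPair A E Ek m` : the Kummer form for the pair `(E, Ek)` (shape of `helper3054.Stmt_KF0`);
* `kfPair_of_qLine` : `QLine ⟹ KFPair` (compiled);
* `qLine_bar_two`, `qLine_bar_three` : the landed `Γ₀(M)` case, as `QLine` on the `t_r`-line.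
-/
import Fermat.Agent.S48.helper8782_GaussLineKF
import Fermat.Agent.S18.helper789_LineInst

set_option autoImplicit false
set_option synthInstance.maxHeartbeats 400000
set_option linter.style.haveILetI false

noncomputable section

namespace Fermat.Agent.S48.helper8782

open AlgebraicCurve IntermediateField Module ModularCurve Polynomial
open Fermat.Agent.S18

/-! ## Part A. `q`-Gauss fields -/

section QGauss

variable {L : Type*} [Field L] (A : ValuationSubring L)

/-- **`E` is `q`-Gauss with special fibre `Ek`**: every nonzero element of the subfield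
`E ≤ L((q))` is a constant times a quotient of `A`-integral series with nonzero reductions
(automatic when `E` is generated by series with finitely generated coefficients,
`helper8991.isNormalizable_of_mem_adjoin`), and the residue map of the `q`-Gauss valuation ring
takes its values in the subfield `Ek ≤ k((q))`, `k` the residue field of `A`. -/
structure IsQGauss (E : IntermediateField L (LaurentSeries L))
    (Ek : IntermediateField (IsLocalRing.ResidueField A)
      (LaurentSeries (IsLocalRing.ResidueField A))) : Prop where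
  norm : ∀ f : LaurentSeries L, f ∈ E → f ≠ 0 →
    helper8991.IsNormalizable A (IsLocalRing.residue A) f
  res : ∀ f : ↥(helper8991.gaussSubring A (IsLocalRing.residue A) E norm),
    helper8991.gaussRed A (IsLocalRing.residue A) E norm f ∈ Ek

namespace IsQGauss

variable {A}
variable {E : IntermediateField L (LaurentSeries L)}
  {Ek : IntermediateField (IsLocalRing.ResidueField A)
    (LaurentSeries (IsLocalRing.ResidueField A))}

/-- The `q`-Gauss valuation ring of a `q`-Gauss field. -/
def O (h : IsQGauss A E Ek) : ValuationSubring E :=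
  helper8991.gaussSubring A (IsLocalRing.residue A) E h.norm

/-- The residue map of the `q`-Gauss valuation ring, with values in `Ek`. -/
def red (h : IsQGauss A E Ek) : h.O →+* Ek :=
  (helper8991.gaussRed A (IsLocalRing.residue A) E h.norm).codRestrict Ek h.res

theorem coe_red (h : IsQGauss A E Ek) (f : h.O) :
    ((h.red f : Ek) : LaurentSeries (IsLocalRing.ResidueField A)) =
      helper8991.gaussRed A (IsLocalRing.residue A) E h.norm f := rfl

/-- `A`-integral series of `E` lie in the `q`-Gauss ring. -/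
theorem inc_mem (h : IsQGauss A E Ek) {y : LaurentSeries A}
    (hy : coeffMap A.subtype y ∈ E) : (⟨coeffMap A.subtype y, hy⟩ : E) ∈ h.O :=
  helper8991.inc_mem_gaussSubring A (IsLocalRing.residue A) E h.norm hy

/-- … and their residue is the coefficientwise reduction. -/
theorem red_inc (h : IsQGauss A E Ek) {y : LaurentSeries A}
    (hy : coeffMap A.subtype y ∈ E) :
    ((h.red ⟨⟨coeffMap A.subtype y, hy⟩, h.inc_mem hy⟩ : Ek) :
      LaurentSeries (IsLocalRing.ResidueField A)) = coeffMap (IsLocalRing.residue A) y :=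
  helper8991.gaussRed_inc A (IsLocalRing.residue A) E h.norm hy

/-- The kernel of the residue map is the maximal ideal. -/
theorem red_eq_zero_iff (h : IsQGauss A E Ek) (f : h.O) :
    h.red f = 0 ↔ h.O.valuation (f : E) < 1 := by
  have h1 : h.red f = 0 ↔ helper8991.gaussRed A (IsLocalRing.residue A) E h.norm f = 0 := by
    constructor
    · intro h0
      rw [← h.coe_red, h0]
      rfl
    · intro h0
      exact Subtype.ext (by rw [h.coe_red, h0]; rfl)
  rw [h1, helper8991.gaussRed_eq_zero_iff, IsLocalRing.mem_maximalIdeal, mem_nonunits_iff]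
  show ¬ IsUnit (f : h.O) ↔ _
  rw [ValuationSubring.valuation_eq_one_iff]
  have hle := h.O.valuation_le_one f
  exact ⟨fun h1 => lt_of_le_of_ne hle h1, fun h1 => ne_of_lt h1⟩

/-- Constants of `A` lie in the `q`-Gauss ring. -/
theorem algebraMap_mem (h : IsQGauss A E Ek) {c : L} (hc : c ∈ A) : algebraMap L E c ∈ h.O :=
  helper8991.algebraMap_mem_gaussSubring A (IsLocalRing.residue A) E h.norm hc

/-- A constant lies in the `q`-Gauss ring iff it lies in `A`. -/
theorem algebraMap_mem_iff (h : IsQGauss A E Ek) (c : L) : algebraMap L E c ∈ h.O ↔ c ∈ A :=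
  helper8991.algebraMap_mem_gaussSubring_iff A (IsLocalRing.residue A) E h.norm
    (fun a ha => (IsLocalRing.residue_eq_zero_iff a).mpr ha) c

/-- The residue of a constant of `A` is its residue class. -/
theorem red_algebraMap (h : IsQGauss A E Ek) {c : L} (hc : c ∈ A) :
    h.red ⟨algebraMap L E c, h.algebraMap_mem hc⟩ =
      algebraMap (IsLocalRing.ResidueField A) Ek (IsLocalRing.residue A ⟨c, hc⟩) := by
  apply Subtype.ext
  rw [h.coe_red]
  refine (helper8991.gaussRed_algebraMap A (IsLocalRing.residue A) E h.norm hc).trans ?_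
  rw [helper8991.C_eq_algebraMap]
  rfl

/-- Same value group as `A`. -/
theorem hVG (h : IsQGauss A E Ek) (f : E) (hf : f ≠ 0) :
    ∃ c : L, h.O.valuation (algebraMap L E c) = h.O.valuation f := by
  obtain ⟨c, u, -, hu, hfu⟩ :=
    helper8991.exists_const_mul_unit A (IsLocalRing.residue A) E h.norm f hf
  have hunit : IsUnit u :=
    (helper8991.isUnit_iff_gaussRed_ne_zero A (IsLocalRing.residue A) E h.norm u).mpr hu
  have h1 : h.O.valuation (u : E) = 1 := (ValuationSubring.valuation_eq_one_iff h.O u).mp hunit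
  refine ⟨c, ?_⟩
  rw [hfu, map_mul, h1, mul_one]

/-- The residue map is onto the constants. -/
theorem hredk_surj (h : IsQGauss A E Ek) (c' : IsLocalRing.ResidueField A) :
    ∃ (c : L) (hc : algebraMap L E c ∈ h.O),
      h.red ⟨algebraMap L E c, hc⟩ = algebraMap (IsLocalRing.ResidueField A) Ek c' := by
  obtain ⟨a, rfl⟩ := IsLocalRing.residue_surjective (R := A) c'
  exact ⟨(a : L), h.algebraMap_mem a.2, h.red_algebraMap a.2⟩

/-- The residue map sends constants to constants. -/
theorem hcompat (h : IsQGauss A E Ek) (a : L) (ha : algebraMap L E a ∈ h.O) :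
    ∃ c : IsLocalRing.ResidueField A,
      h.red ⟨algebraMap L E a, ha⟩ = algebraMap (IsLocalRing.ResidueField A) Ek c :=
  ⟨IsLocalRing.residue A ⟨a, (h.algebraMap_mem_iff a).mp ha⟩,
    h.red_algebraMap ((h.algebraMap_mem_iff a).mp ha)⟩

/-- A natural number which is a unit of `A` is a unit of the `q`-Gauss ring. -/
theorem valuation_natCast (h : IsQGauss A E Ek) (m : ℕ) (hm : A.valuation (m : L) = 1) :
    h.O.valuation (m : E) = 1 := by
  have hm0 : (m : L) ≠ 0 := by
    intro h0
    rw [h0, map_zero] at hm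
    exact zero_ne_one hm
  have hmA : (m : L) ∈ A := (A.valuation_le_one_iff _).mp hm.le
  have hmiA : (m : L)⁻¹ ∈ A := by
    rw [← A.valuation_le_one_iff, map_inv₀, hm, inv_one]
  have hcast : (m : E) = algebraMap L E (m : L) := by simp
  rw [hcast]
  refine helper2030.valuation_eq_one_of_mem_of_inv_mem _ ((_root_.map_ne_zero _).mpr hm0)
    (h.algebraMap_mem hmA) ?_
  rw [← map_inv₀]
  exact h.algebraMap_mem hmiA

end IsQGauss

/-- **`q`-Gauss line**: `E` is `q`-Gauss with special fibre `Ek`, and its `q`-Gauss valuation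
ring carries the track-A package on the base line `x`. -/
def QLine (E : IntermediateField L (LaurentSeries L))
    (Ek : IntermediateField (IsLocalRing.ResidueField A)
      (LaurentSeries (IsLocalRing.ResidueField A))) (x : E) : Prop :=
  ∃ h : IsQGauss A E Ek, GaussLine L (IsLocalRing.ResidueField A) h.O h.red x

/-- **Kummer form for a pair of `q`-expansion fields** `(E, Ek)` (shape of
`helper3054.Stmt_KF0`): for `A`-integral series `a, b` of `E` with `b̄ ≠ 0`, all orders of
`a / b` divisible by `m`, and `ā = w ^ m * b̄` with `0 ≠ w ∈ Ek`, the quotient `a / b` is a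
constant times an `m`-th power in `E`. -/
def KFPair (E : IntermediateField L (LaurentSeries L))
    (Ek : IntermediateField (IsLocalRing.ResidueField A)
      (LaurentSeries (IsLocalRing.ResidueField A))) (m : ℕ) : Prop :=
  ∀ (a b : LaurentSeries A) (ha : coeffMap A.subtype a ∈ E) (hb : coeffMap A.subtype b ∈ E),
    coeffMap (IsLocalRing.residue A) b ≠ 0 →
    (∀ P : Place L E, (m : ℤ) ∣ P.ord (⟨coeffMap A.subtype a, ha⟩ : E) -
      P.ord (⟨coeffMap A.subtype b, hb⟩ : E)) →
    ∀ w : Ek, w ≠ 0 →
      coeffMap (IsLocalRing.residue A) a =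
        (w : LaurentSeries (IsLocalRing.ResidueField A)) ^ m *
          coeffMap (IsLocalRing.residue A) b →
      ∃ (V : E) (c' : L), (⟨coeffMap A.subtype a, ha⟩ : E) =
        algebraMap L E c' * V ^ m * ⟨coeffMap A.subtype b, hb⟩

/-- **(M1, closing step)** A `q`-Gauss line gives the Kummer form, for every `m` which is a unit
of `A`. -/
theorem kfPair_of_qLine [IsAlgClosed L] [CharZero L] [IsAlgClosed (IsLocalRing.ResidueField A)]
    {E : IntermediateField L (LaurentSeries L)}
    {Ek : IntermediateField (IsLocalRing.ResidueField A)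
      (LaurentSeries (IsLocalRing.ResidueField A))} {x : E}
    (hQ : QLine A E Ek x) (m : ℕ) (hm : A.valuation (m : L) = 1) : KFPair A E Ek m := by
  obtain ⟨h, G⟩ := hQ
  intro a b ha hb hbne hdvd w hw hred
  refine G.kummer m (h.valuation_natCast m hm) (h.inc_mem ha) (h.inc_mem hb) ?_ hdvd w hw ?_
  · intro h0
    apply hbne
    rw [← h.red_inc hb, h0]
    rfl
  · apply Subtype.ext
    rw [h.red_inc ha, hred]
    show _ = ((w ^ m * h.red ⟨⟨coeffMap A.subtype b, hb⟩, h.inc_mem hb⟩ : Ek) :
      LaurentSeries (IsLocalRing.ResidueField A))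
    rw [MulMemClass.coe_mul, SubmonoidClass.coe_pow, h.red_inc hb]

end QGauss

/-! ## Part B. The landed case: `F̄_N` on a base line -/

section Base

local notation "Qb" => AlgebraicClosure ℚ

/-- Rank one: the value group of the `q`-Gauss ring of a `q`-Gauss field over `ℚ̄` is
archimedean (the place `A` of `ℚ̄` over a prime has rank one, `helper9428`). -/
theorem IsQGauss.harch {A : ValuationSubring Qb} {ℓ : ℕ} [Fact ℓ.Prime] (hA : A.LiesOverPrime ℓ)
    {E : IntermediateField Qb (LaurentSeries Qb)}
    {Ek : IntermediateField (IsLocalRing.ResidueField A)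
      (LaurentSeries (IsLocalRing.ResidueField A))} (h : IsQGauss A E Ek) :
    ∀ ε κ : h.O.ValueGroup, ε < 1 → κ ≠ 0 → ∃ n : ℕ, ε ^ n < κ := by
  refine helper2030.harch_of_constants _ h.hVG (fun t c ht hc => ?_)
  have hO : ∀ x : Qb, x ∈ A → algebraMap Qb E x ∈ h.O := fun x hx => h.algebraMap_mem hx
  have htA : t ∈ A.nonunits := by
    rw [ValuationSubring.mem_nonunits_iff]
    by_cases ht0 : t = 0
    · rw [ht0, map_zero]; exact zero_lt_one
    by_contra hcon
    have h1 : A.valuation t⁻¹ ≤ 1 := by
      rw [map_inv₀]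
      exact inv_le_one_of_one_le₀ (not_lt.mp hcon)
    have h3 := hO _ ((A.valuation_le_one_iff _).mp h1)
    have h4 := (h.O.valuation_le_one_iff _).mpr h3
    rw [map_inv₀, map_inv₀] at h4
    have h0 : h.O.valuation (algebraMap Qb E t) ≠ 0 :=
      (_root_.map_ne_zero _).mpr ((_root_.map_ne_zero _).mpr ht0)
    exact absurd ((inv_le_one₀ (zero_lt_iff.mpr h0)).mp h4) (not_le.mpr ht)
  obtain ⟨n, hn⟩ := helper9428.exists_pow_le_of_le h.O hO (Fact.out : ℓ.Prime) hA htA hc
    (le_refl _)
  exact ⟨n, by rw [map_pow]; exact hn⟩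

variable (N : ℕ) [NeZero N] (ℓ : ℕ) [Fact ℓ.Prime] (hℓN : ¬ ℓ ∣ N)
  (A : ValuationSubring Qb) (hA : A.LiesOverPrime ℓ)

include hℓN hA in
/-- The function field `F̄_N` of `X₀(N)` is `q`-Gauss, with special fibre the function field of
level `N` over the residue field (landed: `helper8991`, `helper1733.gaussFRed_mem_fullC`). -/
theorem isQGauss_bar :
    IsQGauss A (modularFunctionFieldBar N)
      (modularFunctionFieldFullC (IsLocalRing.ResidueField A) N) :=
  ⟨fun _ hf hf0 => helper8991.isNormalizable_of_mem_full A (IsLocalRing.residue A) N hf hf0,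
    fun f => helper1733.gaussFRed_mem_fullC N ℓ hℓN A hA f⟩

/-- The `q`-Gauss ring of `F̄_N` is the landed Gauss valuation ring. -/
theorem isQGauss_bar_O (h : IsQGauss A (modularFunctionFieldBar N)
      (modularFunctionFieldFullC (IsLocalRing.ResidueField A) N)) :
    h.O = helper2030.gaussO N ℓ hℓN A hA :=
  helper1733.gaussF_eq N ℓ hℓN A hA

/-- The residue map of the `q`-Gauss ring of `F̄_N` is the landed Gauss residue map. -/
theorem isQGauss_bar_red (h : IsQGauss A (modularFunctionFieldBar N)
      (modularFunctionFieldFullC (IsLocalRing.ResidueField A) N))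
    (f : modularFunctionFieldBar N) (hf : f ∈ h.O) (hf' : f ∈ helper2030.gaussO N ℓ hℓN A hA) :
    h.red ⟨f, hf⟩ = helper2030.gaussRed N ℓ hℓN A hA ⟨f, hf'⟩ :=
  Subtype.ext (helper1733.gaussFRed_eq_gaussResidue N ℓ hℓN A hA f hf' hf)

/-- **The landed `Γ₀(N)` case as a `q`-Gauss line**: hypotheses of `helper789.lineData_of_line`
(a residually transcendental `t` with `j ∈ ℚ̄(t)`, special fibre finite separable of degree
`≤ [F̄_N : ℚ̄(t)]`, at most one nonzero finite branch value `c0`, a unit at `A`). -/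
theorem qLine_bar_of_line (t : modularFunctionFieldBar N)
    (ht : helper1733.ResTranscendental (helper2030.gaussO N ℓ hℓN A hA).valuation Qb t)
    (hj : helper1733.gaussJ Qb N ∈ Qb⟮t⟯)
    (htO : t ∈ helper2030.gaussO N ℓ hℓN A hA)
    (hxt : Transcendental (IsLocalRing.ResidueField A) (helper2030.gaussRed N ℓ hℓN A hA ⟨t, htO⟩))
    [FiniteDimensional (IsLocalRing.ResidueField A)⟮helper2030.gaussRed N ℓ hℓN A hA ⟨t, htO⟩⟯
      (modularFunctionFieldFullC (IsLocalRing.ResidueField A) N)]
    [Algebra.IsSeparable (IsLocalRing.ResidueField A)⟮helper2030.gaussRed N ℓ hℓN A hA ⟨t, htO⟩⟯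
      (modularFunctionFieldFullC (IsLocalRing.ResidueField A) N)]
    (hdk : finrank (IsLocalRing.ResidueField A)⟮helper2030.gaussRed N ℓ hℓN A hA ⟨t, htO⟩⟯
        (modularFunctionFieldFullC (IsLocalRing.ResidueField A) N) ≤
      finrank Qb⟮t⟯ (modularFunctionFieldBar N))
    (c0 : Qb) (hc0 : A.valuation c0 = 1)
    (hunr : ∀ (v : Place Qb (modularFunctionFieldBar N)) (c : Qb), c ≠ 0 → c ≠ c0 →
      0 < v.ord (t - algebraMap Qb (modularFunctionFieldBar N) c) →
      v.ord (t - algebraMap Qb (modularFunctionFieldBar N) c) = 1) :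
    QLine A (modularFunctionFieldBar N)
      (modularFunctionFieldFullC (IsLocalRing.ResidueField A) N) t := by
  have h := isQGauss_bar N ℓ hℓN A hA
  have hO := isQGauss_bar_O N ℓ hℓN A hA h
  have hx : t ∈ h.O := by rw [hO]; exact htO
  have key : h.red ⟨t, hx⟩ = helper2030.gaussRed N ℓ hℓN A hA ⟨t, htO⟩ :=
    isQGauss_bar_red N ℓ hℓN A hA h t hx htO
  have hc0A : c0 ∈ A := (A.valuation_le_one_iff c0).mp hc0.le
  refine ⟨h, ?_⟩
  exact
    { hVG := h.hVG
      harch := h.harch hA
      hred := h.red_eq_zero_iff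
      hredk_surj := h.hredk_surj
      hcompat := h.hcompat
      hx := hx
      hres := by rw [hO]; exact ht
      ortho := by
        obtain ⟨e, -, he, hspan⟩ :=
          helper1733.gauss_exists_orthoSys_of_mem_adjoin N ℓ hℓN A hA ht hj
        exact ⟨_, e, by rw [hO]; exact he, hspan⟩
      hxt := by rw [key]; exact hxt
      fin := by rw [key]; infer_instance
      sep := by rw [key]; infer_instance
      hdk := by rw [key]; exact hdk
      branch := ⟨c0, h.algebraMap_mem hc0A, IsLocalRing.residue A ⟨c0, hc0A⟩,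
        h.red_algebraMap hc0A, by
          rw [Ne, IsLocalRing.residue_eq_zero_iff, IsLocalRing.mem_maximalIdeal, mem_nonunits_iff,
            not_not]
          exact (A.valuation_eq_one_iff _).mpr hc0, hunr⟩ }

include ℓ hℓN hA in
/-- **`F̄_N` on the `t_2`-line is a `q`-Gauss line** (`2 ∣ N`, `ℓ ∤ N`; landed S18 track A). -/
theorem qLine_bar_two (h2N : 2 ∣ N) :
    QLine A (modularFunctionFieldBar N)
      (modularFunctionFieldFullC (IsLocalRing.ResidueField A) N)
      (helper4665.gaussT2 Qb N h2N) := by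
  have hk := Lib.helper6879.isAlgClosed_residueField A
  have hdeg := helper4665.gaussResidue_gaussT2_degree N ℓ hℓN A hA h2N
  have hfd := hdeg.2.1
  have hsep := helper4665.gaussResidue_gaussT2_isSeparable N ℓ hℓN A hA h2N
  have hℓ2 : ℓ ≠ 2 := fun h => hℓN (h ▸ h2N)
  have hc0 : A.valuation (-64 : Qb) = 1 := by
    have h := helper789.valuation_intCast_eq_one ℓ A hA (-64) (by
      intro hd
      have h1 : (ℓ : ℤ) ∣ 2 ^ 6 := by
        rw [show (2 : ℤ) ^ 6 = -(-64) by norm_num]
        exact (dvd_neg).mpr hd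
      have h2 : ℓ ∣ 2 ^ 6 := by exact_mod_cast h1
      have h3 : ℓ ∣ 2 := (Fact.out : ℓ.Prime).dvd_of_dvd_pow h2
      exact hℓ2 ((Nat.prime_dvd_prime_iff_eq (Fact.out : ℓ.Prime) Nat.prime_two).mp h3))
    simpa using h
  refine qLine_bar_of_line N ℓ hℓN A hA _
    (helper4665.gauss_resTranscendental_t2 N ℓ hℓN A hA h2N)
    (helper4665.gaussJ_mem_adjoin_gaussT2 N h2N) (helper4665.gaussT2_mem N ℓ hℓN A hA h2N)
    hdeg.1 (helper4665.gauss_finrank_t2 N ℓ hℓN A hA h2N).le (-64) hc0 ?_
  intro v c hc0' hc hv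
  refine helper2866.FN_level2_ord_sub_eq_one N _ ?_ c hc0' hc v hv
  rw [helper789.jBar_eq_gaussJ]
  exact helper4665.gaussJ_mul_gaussT2_sq N h2N

include ℓ hℓN hA in
/-- **`F̄_N` on the `t_3`-line is a `q`-Gauss line** (`3 ∣ N`, `ℓ ∤ N`; landed S18 track A). -/
theorem qLine_bar_three (h3N : 3 ∣ N) :
    QLine A (modularFunctionFieldBar N)
      (modularFunctionFieldFullC (IsLocalRing.ResidueField A) N)
      (helper4665.gaussT3 Qb N h3N) := by
  have hk := Lib.helper6879.isAlgClosed_residueField A
  have hdeg := helper4665.gaussResidue_gaussT3_degree N ℓ hℓN A hA h3N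
  have hfd := hdeg.2.1
  have hsep := helper4665.gaussResidue_gaussT3_isSeparable N ℓ hℓN A hA h3N
  have hℓ3 : ℓ ≠ 3 := fun h => hℓN (h ▸ h3N)
  have hc0 : A.valuation (-27 : Qb) = 1 := by
    have h := helper789.valuation_intCast_eq_one ℓ A hA (-27) (by
      intro hd
      have h1 : (ℓ : ℤ) ∣ 3 ^ 3 := by
        rw [show (3 : ℤ) ^ 3 = -(-27) by norm_num]
        exact (dvd_neg).mpr hd
      have h2 : ℓ ∣ 3 ^ 3 := by exact_mod_cast h1
      have h3 : ℓ ∣ 3 := (Fact.out : ℓ.Prime).dvd_of_dvd_pow h2
      exact hℓ3 ((Nat.prime_dvd_prime_iff_eq (Fact.out : ℓ.Prime) Nat.prime_three).mp h3))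
    simpa using h
  refine qLine_bar_of_line N ℓ hℓN A hA _
    (helper4665.gauss_resTranscendental_t3 N ℓ hℓN A hA h3N)
    (helper4665.gaussJ_mem_adjoin_gaussT3 N h3N) (helper4665.gaussT3_mem N ℓ hℓN A hA h3N)
    hdeg.1 (helper4665.gauss_finrank_t3 N ℓ hℓN A hA h3N).le (-27) hc0 ?_
  intro v c hc0' hc hv
  refine helper2866.FN_level3_ord_sub_eq_one N _ ?_ c hc0' hc v hv
  rw [helper789.jBar_eq_gaussJ]
  exact helper4665.gaussJ_mul_gaussT3_cube N h3N

end Base

/-! ## Part C. The tower step ("Igusa datum" ⟹ `q`-Gauss line)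

`E0 ≤ E` subfields of `ℚ̄((q))`, `E0` a `q`-Gauss line (in the application `E0 = F̄_M`, `E` the
function field of `Γ₁(M)`).  An *Igusa datum* is an `A`-integral primitive element `y = ι Y` of
`E / E0` which is a root of a monic polynomial `P` over the `q`-Gauss ring of `E0` whose
reduction `P̄` is IRREDUCIBLE and separable over the special fibre `E0k`, the special fibre of
`E` being `Ek = E0k(ȳ)`.  Together with the branch data of `E` on the base line this makes `E`
a `q`-Gauss line (`Stmt_TowerA`: valued-field algebra only; the `q`-Gauss ring of `E` is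
`O0[y]`, the family `b_i y^e` is orthonormal because `1, ȳ, …, ȳ^(d-1)` are independent over
`E0k`). -/

section Tower

local notation "Qb" => AlgebraicClosure ℚ

/-- **Igusa datum** of `E` over the `q`-Gauss field `E0` (see the section header). -/
def IgusaDatum (A : ValuationSubring Qb) (E0 E : IntermediateField Qb (LaurentSeries Qb))
    (E0k Ek : IntermediateField (IsLocalRing.ResidueField A)
      (LaurentSeries (IsLocalRing.ResidueField A))) (h0 : IsQGauss A E0 E0k) : Prop :=
  ∃ (Y : LaurentSeries A) (P : (↥h0.O)[X]),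
    P.Monic ∧
    Polynomial.eval₂ ((algebraMap ↥E0 (LaurentSeries Qb)).comp h0.O.subtype)
      (coeffMap A.subtype Y) P = 0 ∧
    E = IntermediateField.adjoin Qb
      ((E0 : Set (LaurentSeries Qb)) ∪ {coeffMap A.subtype Y}) ∧
    Irreducible (P.map h0.red) ∧ (P.map h0.red).Separable ∧
    Ek = IntermediateField.adjoin (IsLocalRing.ResidueField A)
      ((E0k : Set (LaurentSeries (IsLocalRing.ResidueField A))) ∪
        {coeffMap (IsLocalRing.residue A) Y})

/-- **(M1-UNR) The tower step**, as a Prop: a `q`-Gauss line `E0` on the base line `x0`, an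
Igusa datum of `E / E0` and the branch data of `E` on the same line (at most one nonzero finite
branch value `c0`, a unit of `A`) make `E` a `q`-Gauss line on the line `x0`. -/
def Stmt_TowerA : Prop :=
  ∀ (A : ValuationSubring Qb) (ℓ : ℕ) [Fact ℓ.Prime], A.LiesOverPrime ℓ →
  ∀ (E0 E : IntermediateField Qb (LaurentSeries Qb))
    (E0k Ek : IntermediateField (IsLocalRing.ResidueField A)
      (LaurentSeries (IsLocalRing.ResidueField A)))
    (hle : E0 ≤ E) (x0 : ↥E0) (h0 : IsQGauss A E0 E0k),
    GaussLine Qb (IsLocalRing.ResidueField A) h0.O h0.red x0 →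
    IgusaDatum A E0 E E0k Ek h0 →
    ∀ c0 : Qb, A.valuation c0 = 1 →
    (∀ (v : Place Qb ↥E) (c : Qb), c ≠ 0 → c ≠ c0 →
      0 < v.ord ((⟨(x0 : LaurentSeries Qb), hle x0.2⟩ : ↥E) - algebraMap Qb ↥E c) →
      v.ord ((⟨(x0 : LaurentSeries Qb), hle x0.2⟩ : ↥E) - algebraMap Qb ↥E c) = 1) →
    QLine A E Ek ⟨(x0 : LaurentSeries Qb), hle x0.2⟩

end Tower

/-! ## Part D. The Kummer form for an extension of `F̄_M` with an Igusa datum

`kfPair_of_igusa_two` / `kfPair_of_igusa_three`: for `p ∤ M`, `r ∣ M` (`r = 2, 3`), a place `A`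
of `ℚ̄` over `p`, and ANY subfield `E ≥ F̄_M` of `ℚ̄((q))` with an Igusa datum over `F̄_M` and
no branching over the `t_r`-line outside `0, c0, ∞` (`c0 = -64` resp. `-27`), the Kummer form
`KFPair A E Ek m` holds for every `m` prime to `p`.  The `Γ₁(M)` function field is the intended
`E`; the two hypotheses are the concrete leaves (M1-IGUSA), (M1-RAM). -/

section Gamma1

local notation "Qb" => AlgebraicClosure ℚ

variable (M : ℕ) [NeZero M] (p : ℕ) [Fact p.Prime] (hpM : ¬ p ∣ M)
  (A : ValuationSubring Qb) (hA : A.LiesOverPrime p)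

include hA in
theorem valuation_natCast_of_not_dvd (m : ℕ) (hm : ¬ p ∣ m) : A.valuation (m : Qb) = 1 := by
  have h := helper9428.valuation_intCast_of_not_dvd (Fact.out : p.Prime) hA (m : ℤ)
    (by exact_mod_cast hm)
  simpa using h

/-- **(M1) Kummer form on the `t_2`-line** (`2 ∣ M`, `p ∤ M`). -/
theorem kfPair_of_igusa_two (hT : Stmt_TowerA) (h2M : 2 ∣ M)
    (E : IntermediateField Qb (LaurentSeries Qb))
    (Ek : IntermediateField (IsLocalRing.ResidueField A)
      (LaurentSeries (IsLocalRing.ResidueField A)))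
    (hle : modularFunctionFieldBar M ≤ E)
    (hI : IgusaDatum A (modularFunctionFieldBar M) E
      (modularFunctionFieldFullC (IsLocalRing.ResidueField A) M) Ek (isQGauss_bar M p hpM A hA))
    (hunr : ∀ (v : Place Qb ↥E) (c : Qb), c ≠ 0 → c ≠ -64 →
      0 < v.ord ((⟨(helper4665.gaussT2 Qb M h2M : LaurentSeries Qb),
        hle (helper4665.gaussT2 Qb M h2M).2⟩ : ↥E) - algebraMap Qb ↥E c) →
      v.ord ((⟨(helper4665.gaussT2 Qb M h2M : LaurentSeries Qb),
        hle (helper4665.gaussT2 Qb M h2M).2⟩ : ↥E) - algebraMap Qb ↥E c) = 1)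
    (m : ℕ) (hm : ¬ p ∣ m) : KFPair A E Ek m := by
  have hk := Lib.helper6879.isAlgClosed_residueField A
  obtain ⟨h0, G0⟩ := qLine_bar_two M p hpM A hA h2M
  have hc0 : A.valuation (-64 : Qb) = 1 := by
    have h := helper789.valuation_intCast_eq_one p A hA (-64) (by
      intro hd
      have h1 : (p : ℤ) ∣ 2 ^ 6 := by
        rw [show (2 : ℤ) ^ 6 = -(-64) by norm_num]
        exact (dvd_neg).mpr hd
      have h2 : p ∣ 2 ^ 6 := by exact_mod_cast h1
      have h3 : p ∣ 2 := (Fact.out : p.Prime).dvd_of_dvd_pow h2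
      have h4 : p = 2 := (Nat.prime_dvd_prime_iff_eq (Fact.out : p.Prime) Nat.prime_two).mp h3
      exact hpM (h4 ▸ h2M))
    simpa using h
  exact kfPair_of_qLine A (hT A p hA _ E _ Ek hle _ h0 G0 hI (-64) hc0 hunr) m
    (valuation_natCast_of_not_dvd p A hA m hm)

/-- **(M1) Kummer form on the `t_3`-line** (`3 ∣ M`, `p ∤ M`). -/
theorem kfPair_of_igusa_three (hT : Stmt_TowerA) (h3M : 3 ∣ M)
    (E : IntermediateField Qb (LaurentSeries Qb))
    (Ek : IntermediateField (IsLocalRing.ResidueField A)
      (LaurentSeries (IsLocalRing.ResidueField A)))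
    (hle : modularFunctionFieldBar M ≤ E)
    (hI : IgusaDatum A (modularFunctionFieldBar M) E
      (modularFunctionFieldFullC (IsLocalRing.ResidueField A) M) Ek (isQGauss_bar M p hpM A hA))
    (hunr : ∀ (v : Place Qb ↥E) (c : Qb), c ≠ 0 → c ≠ -27 →
      0 < v.ord ((⟨(helper4665.gaussT3 Qb M h3M : LaurentSeries Qb),
        hle (helper4665.gaussT3 Qb M h3M).2⟩ : ↥E) - algebraMap Qb ↥E c) →
      v.ord ((⟨(helper4665.gaussT3 Qb M h3M : LaurentSeries Qb),
        hle (helper4665.gaussT3 Qb M h3M).2⟩ : ↥E) - algebraMap Qb ↥E c) = 1)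
    (m : ℕ) (hm : ¬ p ∣ m) : KFPair A E Ek m := by
  have hk := Lib.helper6879.isAlgClosed_residueField A
  obtain ⟨h0, G0⟩ := qLine_bar_three M p hpM A hA h3M
  have hc0 : A.valuation (-27 : Qb) = 1 := by
    have h := helper789.valuation_intCast_eq_one p A hA (-27) (by
      intro hd
      have h1 : (p : ℤ) ∣ 3 ^ 3 := by
        rw [show (3 : ℤ) ^ 3 = -(-27) by norm_num]
        exact (dvd_neg).mpr hd
      have h2 : p ∣ 3 ^ 3 := by exact_mod_cast h1
      have h3 : p ∣ 3 := (Fact.out : p.Prime).dvd_of_dvd_pow h2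
      have h4 : p = 3 := (Nat.prime_dvd_prime_iff_eq (Fact.out : p.Prime) Nat.prime_three).mp h3
      exact hpM (h4 ▸ h3M))
    simpa using h
  exact kfPair_of_qLine A (hT A p hA _ E _ Ek hle _ h0 G0 hI (-27) hc0 hunr) m
    (valuation_natCast_of_not_dvd p A hA m hm)

end Gamma1

end Fermat.Agent.S48.helper8782
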