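/-
S48, machine blocks M1/M2 — adapters from the M1 Spec (`helper8782_SpecM1`) to the inputs of
(U) and (ES) of `helper5530_UnrESGen` (helper5530).

* `kf1TwoFn_of_kfPair`      : `helper8782.KFPair A E Ek n` (at `w = 1`) gives `KF1TwoFn E A n`;
* `diamondGauss_of_igusa`   : **(hD′)** an Igusa datum of `E / E0` (monic `P` over the `q`-Gauss
  ring of `E0` with irreducible reduction, `E = E0(y)`) makes every `ℚ̄`-automorphism of `E`
  fixing `E0` pointwise preserve Gauss units — no uniqueness-of-extension theorem is needed;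
* the `Γ₁(M)` field: `kf1_gamma1_of_kfPair`, `diamondGauss_gamma1_of_igusa`,
  `inertia_smul_eq_gamma1` (U), `frobenius_quadratic_gamma1` (ES).
-/
import Fermat.Agent.S48.helper5530_DiamondInt
import Fermat.Agent.S48.helper5530_Gamma1Normal
import Fermat.Agent.S48.helper8782_SpecM1

set_option autoImplicit false

noncomputable section

namespace Fermat.Agent.S48.helper5530

open ModularCurve AlgebraicCurve HahnSeries Polynomial
open Fermat.Agent.S18.helper8991 (gaussSubring gaussRed)
open Fermat.Agent.S48.helper8782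
open Fermat.Agent.S48.helper7300 (gamma1FieldBar)
open Fermat.Agent.S29.helper8217

local notation "Qb" => AlgebraicClosure ℚ
local notation "GalQ" => (AlgebraicClosure ℚ ≃ₐ[ℚ] AlgebraicClosure ℚ)

section Adapters

variable {A : ValuationSubring Qb} {E0 E : IntermediateField Qb (LaurentSeries Qb)}
  {E0k Ek : IntermediateField (IsLocalRing.ResidueField A)
    (LaurentSeries (IsLocalRing.ResidueField A))}

/-- The M1 Kummer form `KFPair` at `w = 1` is `KF1TwoFn`. -/
theorem kf1TwoFn_of_kfPair {n : ℕ} (h : KFPair A E Ek n) : KF1TwoFn E A n := by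
  intro X Y hX hY hred hY0 hP
  exact h X Y hX hY hY0 hP 1 one_ne_zero (by rw [hred]; simp)

/-- Irreducibility of the reduced polynomial gives the independence of `1, ȳ, …, ȳ^(d-1)` over
the residues of the `q`-Gauss ring of `E0`. -/
theorem hind_of_irreducible (h0 : IsQGauss A E0 E0k) (Y : LaurentSeries A) (P : (↥h0.O)[X])
    (hP : P.Monic)
    (hPy : Polynomial.eval₂ ((algebraMap ↥E0 (LaurentSeries Qb)).comp h0.O.subtype)
      (coeffMap A.subtype Y) P = 0)
    (hirr : Irreducible (P.map h0.red)) :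
    ∀ c : ℕ → ↥(gaussSubring A (IsLocalRing.residue A) E0 h0.norm),
      ∑ i ∈ Finset.range P.natDegree, gaussRed A (IsLocalRing.residue A) E0 h0.norm (c i)
        * coeffMap (IsLocalRing.residue A) Y ^ i = 0 →
      ∀ i ∈ Finset.range P.natDegree, gaussRed A (IsLocalRing.residue A) E0 h0.norm (c i) = 0 := by
  have hcomp : (algebraMap ↥E0k (LaurentSeries (IsLocalRing.ResidueField A))).comp h0.red
      = gaussRed A (IsLocalRing.residue A) E0 h0.norm := RingHom.ext (fun f => h0.coe_red f)
  have hroot : Polynomial.aeval (coeffMap (IsLocalRing.residue A) Y) (P.map h0.red) = 0 := by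
    rw [Polynomial.aeval_def, Polynomial.eval₂_map, hcomp]
    exact eval₂_gaussRed_eq_zero_of_root h0.norm Y P hPy
  have hmonic : (P.map h0.red).Monic := hP.map _
  have hmin : P.map h0.red = minpoly ↥E0k (coeffMap (IsLocalRing.residue A) Y) :=
    minpoly.eq_of_irreducible_of_monic hirr hroot hmonic
  have hdegP : (P.map h0.red).degree = (P.natDegree : WithBot ℕ) := by
    rw [Polynomial.degree_eq_natDegree hmonic.ne_zero, hP.natDegree_map]
  intro c hsum i hi
  obtain ⟨Q, hQ⟩ : ∃ Q : (↥E0k)[X],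
      Q = ∑ j ∈ Finset.range P.natDegree, Polynomial.C (h0.red (c j)) * Polynomial.X ^ j :=
    ⟨_, rfl⟩
  have hQy : Polynomial.aeval (coeffMap (IsLocalRing.residue A) Y) Q = 0 := by
    rw [hQ, map_sum, ← hsum]
    refine Finset.sum_congr rfl (fun j _ => ?_)
    rw [map_mul, map_pow, Polynomial.aeval_C, Polynomial.aeval_X]
    rfl
  have hQdeg : Q.degree < (P.natDegree : WithBot ℕ) := by
    rw [hQ, ← Fin.sum_univ_eq_sum_range
      (fun j => Polynomial.C (h0.red (c j)) * Polynomial.X ^ j) P.natDegree]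
    exact Polynomial.degree_sum_fin_lt (fun j : Fin P.natDegree => h0.red (c j))
  have hQ0 : Q = 0 := by
    by_contra hne
    have h1 := minpoly.degree_le_of_ne_zero ↥E0k (coeffMap (IsLocalRing.residue A) Y) hne hQy
    rw [← hmin, hdegP] at h1
    exact absurd hQdeg (not_lt.mpr h1)
  have hcoeff : Q.coeff i = h0.red (c i) := by
    rw [hQ, Polynomial.finsetSum_coeff]
    simp only [Polynomial.coeff_C_mul_X_pow]
    rw [Finset.sum_ite_eq (Finset.range P.natDegree) i (fun j => h0.red (c j)), if_pos hi]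
  rw [hQ0, Polynomial.coeff_zero] at hcoeff
  rw [← h0.coe_red, ← hcoeff]
  rfl

/-- **(hD′) from the Igusa datum.** If `E / E0` has an Igusa datum at `A` (M1 Spec), every
`ℚ̄`-automorphism of `E` fixing `E0` pointwise maps Gauss units of `E` to Gauss units. -/
theorem diamondGauss_of_igusa (h0 : IsQGauss A E0 E0k) (hI : IgusaDatum A E0 E E0k Ek h0)
    (hN : Normalizable E A) (D : E ≃ₐ[Qb] E)
    (hD : ∀ x : E, (x : LaurentSeries Qb) ∈ E0 → D x = x) : DiamondGauss D A := by
  obtain ⟨Y, P, hP, hPy, hE, hirr, -, -⟩ := hI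
  exact diamondGauss_of_integral_generator h0.norm hN Y P hP hPy hE
    (hind_of_irreducible h0 Y P hP hPy hirr) D hD

/-- The `q`-Gauss ring of `E` is integral over that of `E0`, in coordinates: every element of
`E` in the Gauss ring is a polynomial in `y` with coefficients in the `q`-Gauss ring of `E0`. -/
theorem gauss_coeffs_of_igusa (h0 : IsQGauss A E0 E0k) (hI : IgusaDatum A E0 E E0k Ek h0)
    {x : LaurentSeries Qb} (hxE : x ∈ E)
    (hx : x ∈ Fermat.Agent.S18.helper8991.gaussRing A (IsLocalRing.residue A)) :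
    ∃ (Y : LaurentSeries A) (d : ℕ) (r : ℕ → ↥E0),
      E = IntermediateField.adjoin Qb ((E0 : Set (LaurentSeries Qb)) ∪ {coeffMap A.subtype Y}) ∧
      (∀ i ∈ Finset.range d, r i ∈ h0.O) ∧
      x = ∑ i ∈ Finset.range d, (r i : LaurentSeries Qb) * coeffMap A.subtype Y ^ i := by
  obtain ⟨Y, P, hP, hPy, hE, hirr, -, -⟩ := hI
  obtain ⟨r, hr, hx'⟩ := gauss_coeffs_of_integral_generator h0.norm Y P hP hPy hE
    (hind_of_irreducible h0 Y P hP hPy hirr) hxE hx
  exact ⟨Y, P.natDegree, r, hE, hr, hx'⟩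

end Adapters

/-! ### The `Γ₁(M)` field -/

section Gamma1

variable (M : ℕ) [NeZero M] {A : ValuationSubring Qb}
  {E0k Ek : IntermediateField (IsLocalRing.ResidueField A)
    (LaurentSeries (IsLocalRing.ResidueField A))}

/-- The intrinsic Kummer form for the `Γ₁(M)` field from the M1 form. -/
theorem kf1_gamma1_of_kfPair {n : ℕ} (h : KFPair A (gamma1FieldBar M) Ek n) :
    KF1 (gamma1FieldBar M) A n :=
  kf1_of_twoFn (hasNormalForm_gamma1FieldBar M A) (kf1TwoFn_of_kfPair h)

/-- **(hD′) for the `Γ₁(M)` field**: an automorphism fixing the `Γ₀(M)` field pointwise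
(a diamond operator) preserves Gauss units, given the Igusa datum of M1. -/
theorem diamondGauss_gamma1_of_igusa (h0 : IsQGauss A (modularFunctionFieldBar M) E0k)
    (hI : IgusaDatum A (modularFunctionFieldBar M) (gamma1FieldBar M) E0k Ek h0)
    (D : gamma1FieldBar M ≃ₐ[Qb] gamma1FieldBar M)
    (hD : ∀ x : gamma1FieldBar M, (x : LaurentSeries Qb) ∈ modularFunctionFieldBar M → D x = x) :
    DiamondGauss D A :=
  diamondGauss_of_igusa h0 hI (normalizable_gamma1FieldBar M A) D hD

variable (gal : GalQ →* SemilinearAut Qb (gamma1FieldBar M))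
  (hgal : GalCoeff (gamma1FieldBar M) gal) [HasPrincipalDivisors Qb (gamma1FieldBar M)]

include hgal in
/-- **(U) for the `Γ₁(M)` field** from the M1 Kummer form. -/
theorem inertia_smul_eq_gamma1 {n : ℕ} (hn0 : n ≠ 0) (hKF : KFPair A (gamma1FieldBar M) Ek n)
    (τ : GalQ) (hτ : τ ∈ A.inertiaSubgroupIn ℚ) (x : Pic0 Qb (gamma1FieldBar M))
    (hx : n • x = 0) : gal τ • x = x :=
  inertia_smul_eq_of_kf1 gal hgal (normalizable_gamma1FieldBar M A) hn0
    (kf1_gamma1_of_kfPair M hKF) τ hτ x hx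

include hgal in
/-- **(ES) for the `Γ₁(M)` field** from the M1 Kummer form and Igusa datum: for a Frobenius `σ`
at `A ∣ p`, `σ² x - σ (Tcl x) + p • (D • x) = 0` on `n`-torsion classes. -/
theorem frobenius_quadratic_gamma1 {p : ℕ} [Fact p.Prime] [CharP (IsLocalRing.ResidueField A) p]
    {n : ℕ} (hn0 : n ≠ 0) (hKF : KFPair A (gamma1FieldBar M) Ek n)
    (h0 : IsQGauss A (modularFunctionFieldBar M) E0k)
    (hI : IgusaDatum A (modularFunctionFieldBar M) (gamma1FieldBar M) E0k Ek h0)
    {D : gamma1FieldBar M ≃ₐ[Qb] gamma1FieldBar M}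
    (hD : ∀ x : gamma1FieldBar M, (x : LaurentSeries Qb) ∈ modularFunctionFieldBar M → D x = x)
    {T : gamma1FieldBar M → gamma1FieldBar M} (hT : HeckeQExp p D T)
    (hTK : ∀ u : gamma1FieldBar M, IsKummer Qb n u → IsKummer Qb n (T u))
    (Tcl : Pic0 Qb (gamma1FieldBar M) → Pic0 Qb (gamma1FieldBar M))
    (hTcl : ∀ u : gamma1FieldBar M, IsKummer Qb n u →
      kummerClass Qb n (T u) = Tcl (kummerClass Qb n u))
    (σ : GalQ) (hσ : A.IsFrobeniusAt σ p) (x : Pic0 Qb (gamma1FieldBar M)) (hx : n • x = 0) :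
    gal σ • gal σ • x - gal σ • Tcl x + p • (D • x) = 0 :=
  frobenius_quadratic_pic0_of_kf1' gal hgal (normalizable_gamma1FieldBar M A) hn0
    (kf1_gamma1_of_kfPair M hKF) (diamondGauss_gamma1_of_igusa M h0 hI D hD) hT hTK Tcl hTcl
    σ hσ x hx

end Gamma1

end Fermat.Agent.S48.helper5530
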