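/-
S48, machine block M2 — leaf (L-E) UES1 of the M2 Spec (`helper6431_SpecM2`), helper5530.

(U) and (ES) in the Spec shapes `helper6431.StmtU`, `helper6431.StmtES`:

* generic in `E` (`stmtU_of_kf1`, `stmtES_of_kf1`), from the Kummer form `KF1 E A n`, the Gauss
  normal form and `DiamondGauss` at every place `A` over `p`;
* for the `Γ₁(M)` field `helper7300.gamma1FieldBar M` (`stmtU_gamma1`, `stmtES_gamma1`), from the
  two exports of (M1): (K) the Kummer form in the shape `KF1TwoFn`, and (DG) `DiamondGauss` for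
  the diamond; the normal form is `hasNormalForm_gamma1FieldBar`.
-/
import Fermat.Agent.S48.helper5530_UnrESGen
import Fermat.Agent.S48.helper5530_Gamma1Normal
import Fermat.Agent.S48.helper6431_SpecM2

set_option autoImplicit false

noncomputable section

namespace Fermat.Agent.S48.helper5530

open ModularCurve AlgebraicCurve HahnSeries
open Fermat.Agent.S48.helper6431 (CoeffGal HeckeDiamond StmtU StmtES stmtES_of_smul)
open Fermat.Agent.S48.helper7300 (gamma1FieldBar)

local notation "Qb" => AlgebraicClosure ℚ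

section Generic

variable {E : IntermediateField Qb (LaurentSeries Qb)} [HasPrincipalDivisors Qb E]
  (G : CoeffGal E)

/-- **(U)** in the Spec shape, from the Kummer form at every place over `p`. -/
theorem stmtU_of_kf1 {n p : ℕ} (hn0 : n ≠ 0)
    (hN : ∀ A : ValuationSubring Qb, A.LiesOverPrime p → Normalizable E A)
    (hKF : ∀ A : ValuationSubring Qb, A.LiesOverPrime p → KF1 E A n) : StmtU G n p :=
  fun A hA τ hτ x hx =>
    inertia_smul_eq_of_kf1 G.gal G.coe_smul (hN A hA) hn0 (hKF A hA) τ hτ x hx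

variable {G}

/-- **(ES)** in the Spec shape, from the Kummer form and `DiamondGauss` at every place over
`p`. -/
theorem stmtES_of_kf1 {n p : ℕ} (hn0 : n ≠ 0) (hp : p.Prime) [NeZero p]
    (H : HeckeDiamond E G p)
    (hN : ∀ A : ValuationSubring Qb, A.LiesOverPrime p → Normalizable E A)
    (hKF : ∀ A : ValuationSubring Qb, A.LiesOverPrime p → KF1 E A n)
    (hD : ∀ A : ValuationSubring Qb, A.LiesOverPrime p → DiamondGauss H.D A) : StmtES n H := by
  refine stmtES_of_smul hn0 H (fun A hA σ hσ x hx => ?_)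
  have : Fact p.Prime := ⟨hp⟩
  have := Fermat.Agent.Lib.helper6879.charP_residueField hp A hA
  exact frobenius_quadratic_pic0_of_kf1' G.gal G.coe_smul (hN A hA) hn0 (hKF A hA) (hD A hA)
    (fun ζ hζ u => H.T_q ζ hζ u) (fun u hu => (H.T_kummer n hn0 u hu).1) H.Tcl
    (fun u hu => (H.T_kummer n hn0 u hu).2) σ hσ x hx

end Generic

/-! ### The `Γ₁(M)` field -/

section Gamma1

variable (M : ℕ) [NeZero M] [HasPrincipalDivisors Qb (gamma1FieldBar M)]
  (G : CoeffGal (gamma1FieldBar M))

/-- **(L-E.U)** for the `Γ₁(M)` field from the export (K) of (M1). -/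
theorem stmtU_gamma1 {n p : ℕ} (hn0 : n ≠ 0)
    (hKF : ∀ A : ValuationSubring Qb, A.LiesOverPrime p → KF1TwoFn (gamma1FieldBar M) A n) :
    StmtU G n p :=
  stmtU_of_kf1 G hn0 (fun A _ => normalizable_gamma1FieldBar M A)
    (fun A hA => kf1_of_twoFn (hasNormalForm_gamma1FieldBar M A) (hKF A hA))

variable {G}

/-- **(L-E.ES)** for the `Γ₁(M)` field from the exports (K), (DG) of (M1). -/
theorem stmtES_gamma1 {n p : ℕ} (hn0 : n ≠ 0) (hp : p.Prime) [NeZero p]
    (H : HeckeDiamond (gamma1FieldBar M) G p)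
    (hKF : ∀ A : ValuationSubring Qb, A.LiesOverPrime p → KF1TwoFn (gamma1FieldBar M) A n)
    (hD : ∀ A : ValuationSubring Qb, A.LiesOverPrime p → DiamondGauss H.D A) : StmtES n H :=
  stmtES_of_kf1 hn0 hp H (fun A _ => normalizable_gamma1FieldBar M A)
    (fun A hA => kf1_of_twoFn (hasNormalForm_gamma1FieldBar M A) (hKF A hA)) hD

end Gamma1

end Fermat.Agent.S48.helper5530
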