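/-
S48, machine half, part (M1) — TOP (helper8782, architect).

The export of (M1) to (M2) for the carrier of record `helper7300.gamma1FieldBar M` (the
function field of `Γ₁(M)` over `ℚ̄`, inside `ℚ̄((q))`):

* `KF1Shape E A n` : the Kummer form at `w = 1` (the body of `helper5530.KF1TwoFn E A n`,
  spelled out);
* `kf1Shape_of_kfPair` : `KFPair A E Ek n ⟹ KF1Shape E A n`;
* the concrete leaves, as Props on the carrier:
  `Stmt_IgusaGamma1 M p hpM A hA` (M1-IGUSA: an Igusa datum of `F₁(M)` over `F̄_M` at `A`),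
  `Stmt_RamTwo M h2M`, `Stmt_RamThree M h3M` (M1-RAM: no branching of `F₁(M)` over the
  `t_2`- resp. `t_3`-line outside `0, -64` resp. `0, -27`);
* `kf1_gamma1_two`, `kf1_gamma1_three`, `kf1_gamma1` : the assembly
  `Stmt_TowerA + Stmt_IgusaGamma1 + Stmt_Ram* ⟹ KF1Shape (gamma1FieldBar M) A n` (`p ∤ M n`);
* `GaussIntegralOver A E0 E E0k h0` : "the `q`-Gauss ring of `E` is integral over the `q`-Gauss
  ring of `E0`" (the `ℚ̄`-level form of the finite-level tower step; supplier of the
  irreducibility clause of the Igusa datum and of `DiamondGauss`).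
-/
import Fermat.Agent.S48.helper8782_SpecM1
import Fermat.Agent.S48.helper7300_Gamma1Field

set_option autoImplicit false
set_option synthInstance.maxHeartbeats 400000
set_option linter.style.haveILetI false

noncomputable section

namespace Fermat.Agent.S48.helper8782

open AlgebraicCurve IntermediateField Module ModularCurve Polynomial
open Fermat.Agent.S18

local notation "Qb" => AlgebraicClosure ℚ

/-- **The Kummer form at `w = 1`** for a subfield `E ≤ ℚ̄((q))` at the place `A` (the body of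
`helper5530.KF1TwoFn E A n`): two `A`-integral series of `E` with the same nonzero reduction
whose quotient has divisor divisible by `n` differ by a constant times an `n`-th power. -/
def KF1Shape (E : IntermediateField Qb (LaurentSeries Qb)) (A : ValuationSubring Qb) (n : ℕ) :
    Prop :=
  ∀ (X Y : LaurentSeries A) (hX : coeffMap A.subtype X ∈ E) (hY : coeffMap A.subtype Y ∈ E),
    coeffMap (IsLocalRing.residue A) X = coeffMap (IsLocalRing.residue A) Y →
    coeffMap (IsLocalRing.residue A) Y ≠ 0 →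
    (∀ P : Place Qb E, (n : ℤ) ∣ P.ord (⟨_, hX⟩ : E) - P.ord (⟨_, hY⟩ : E)) →
    ∃ (V : E) (c : Qb), (⟨_, hX⟩ : E) = algebraMap Qb E c * V ^ n * ⟨_, hY⟩

/-- `KFPair` (any `w ∈ Ek`) gives the `w = 1` form. -/
theorem kf1Shape_of_kfPair {A : ValuationSubring Qb}
    {E : IntermediateField Qb (LaurentSeries Qb)}
    {Ek : IntermediateField (IsLocalRing.ResidueField A)
      (LaurentSeries (IsLocalRing.ResidueField A))} {n : ℕ}
    (h : KFPair A E Ek n) : KF1Shape E A n := by
  intro X Y hX hY hred hY0 hdvd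
  refine h X Y hX hY hY0 hdvd 1 one_ne_zero ?_
  rw [hred]
  simp

/-- **"The `q`-Gauss ring of `E` is integral over the `q`-Gauss ring of `E0`"**: every element
of `E` which is a quotient of `A`-integral series with nonzero reduction of the denominator is a
root of a monic polynomial with coefficients in the `q`-Gauss ring of `E0`. -/
def GaussIntegralOver (A : ValuationSubring Qb) (E0 E : IntermediateField Qb (LaurentSeries Qb))
    (E0k : IntermediateField (IsLocalRing.ResidueField A)
      (LaurentSeries (IsLocalRing.ResidueField A))) (h0 : IsQGauss A E0 E0k) : Prop :=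
  ∀ f : LaurentSeries Qb, f ∈ E → f ∈ helper8991.gaussRing A (IsLocalRing.residue A) →
    ∃ Q : (↥h0.O)[X], Q.Monic ∧
      Polynomial.eval₂ ((algebraMap ↥E0 (LaurentSeries Qb)).comp h0.O.subtype) f Q = 0

section Gamma1

variable (M : ℕ) [NeZero M] (p : ℕ) [Fact p.Prime] (hpM : ¬ p ∣ M)
  (A : ValuationSubring Qb) (hA : A.LiesOverPrime p)

/-- **(M1-IGUSA)** for the carrier of record: the function field of `Γ₁(M)` has an Igusa datum
over `F̄_M` at the place `A` over `p ∤ M`. -/
def Stmt_IgusaGamma1 : Prop :=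
  ∃ Ek : IntermediateField (IsLocalRing.ResidueField A)
      (LaurentSeries (IsLocalRing.ResidueField A)),
    IgusaDatum A (modularFunctionFieldBar M) (helper7300.gamma1FieldBar M)
      (modularFunctionFieldFullC (IsLocalRing.ResidueField A) M) Ek
      (isQGauss_bar M p hpM A hA)

/-- **(M1-INT)** for the carrier of record: the `q`-Gauss ring of the function field of `Γ₁(M)`
is integral over that of `F̄_M`. -/
def Stmt_IntGamma1 : Prop :=
  GaussIntegralOver A (modularFunctionFieldBar M) (helper7300.gamma1FieldBar M)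
    (modularFunctionFieldFullC (IsLocalRing.ResidueField A) M) (isQGauss_bar M p hpM A hA)

/-- **(M1-RAM), `t_2`-line**: the zeros of `t_2 - c` on the function field of `Γ₁(M)` are simple
for `c ≠ 0, -64`. -/
def Stmt_RamTwo (h2M : 2 ∣ M) : Prop :=
  ∀ (v : Place Qb ↥(helper7300.gamma1FieldBar M)) (c : Qb), c ≠ 0 → c ≠ -64 →
    0 < v.ord ((⟨(helper4665.gaussT2 Qb M h2M : LaurentSeries Qb),
      helper7300.modularFunctionFieldBar_le_gamma1FieldBar M (helper4665.gaussT2 Qb M h2M).2⟩ :
        ↥(helper7300.gamma1FieldBar M)) - algebraMap Qb ↥(helper7300.gamma1FieldBar M) c) →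
    v.ord ((⟨(helper4665.gaussT2 Qb M h2M : LaurentSeries Qb),
      helper7300.modularFunctionFieldBar_le_gamma1FieldBar M (helper4665.gaussT2 Qb M h2M).2⟩ :
        ↥(helper7300.gamma1FieldBar M)) - algebraMap Qb ↥(helper7300.gamma1FieldBar M) c) = 1

/-- **(M1-RAM), `t_3`-line**: the zeros of `t_3 - c` on the function field of `Γ₁(M)` are simple
for `c ≠ 0, -27`. -/
def Stmt_RamThree (h3M : 3 ∣ M) : Prop :=
  ∀ (v : Place Qb ↥(helper7300.gamma1FieldBar M)) (c : Qb), c ≠ 0 → c ≠ -27 →
    0 < v.ord ((⟨(helper4665.gaussT3 Qb M h3M : LaurentSeries Qb),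
      helper7300.modularFunctionFieldBar_le_gamma1FieldBar M (helper4665.gaussT3 Qb M h3M).2⟩ :
        ↥(helper7300.gamma1FieldBar M)) - algebraMap Qb ↥(helper7300.gamma1FieldBar M) c) →
    v.ord ((⟨(helper4665.gaussT3 Qb M h3M : LaurentSeries Qb),
      helper7300.modularFunctionFieldBar_le_gamma1FieldBar M (helper4665.gaussT3 Qb M h3M).2⟩ :
        ↥(helper7300.gamma1FieldBar M)) - algebraMap Qb ↥(helper7300.gamma1FieldBar M) c) = 1

include hA in
/-- **(M1) on the `t_2`-line** (`2 ∣ M`, `p ∤ M`, `p ∤ n`). -/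
theorem kf1_gamma1_two (hT : Stmt_TowerA) (h2M : 2 ∣ M)
    (hI : Stmt_IgusaGamma1 M p hpM A hA) (hR : Stmt_RamTwo M h2M) (n : ℕ) (hn : ¬ p ∣ n) :
    KF1Shape (helper7300.gamma1FieldBar M) A n := by
  obtain ⟨Ek, hIg⟩ := hI
  exact kf1Shape_of_kfPair (kfPair_of_igusa_two M p hpM A hA hT h2M _ Ek
    (helper7300.modularFunctionFieldBar_le_gamma1FieldBar M) hIg hR n hn)

include hA in
/-- **(M1) on the `t_3`-line** (`3 ∣ M`, `p ∤ M`, `p ∤ n`). -/
theorem kf1_gamma1_three (hT : Stmt_TowerA) (h3M : 3 ∣ M)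
    (hI : Stmt_IgusaGamma1 M p hpM A hA) (hR : Stmt_RamThree M h3M) (n : ℕ) (hn : ¬ p ∣ n) :
    KF1Shape (helper7300.gamma1FieldBar M) A n := by
  obtain ⟨Ek, hIg⟩ := hI
  exact kf1Shape_of_kfPair (kfPair_of_igusa_three M p hpM A hA hT h3M _ Ek
    (helper7300.modularFunctionFieldBar_le_gamma1FieldBar M) hIg hR n hn)

include hA in
/-- **(M1), the export (K)**: for `2 ∣ M` or `3 ∣ M`, `p ∤ M`, a place `A` of `ℚ̄` over `p` and
`p ∤ n`, the Kummer form at `w = 1` holds for the function field of `Γ₁(M)`. -/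
theorem kf1_gamma1 (hT : Stmt_TowerA) (h23 : 2 ∣ M ∨ 3 ∣ M)
    (hI : Stmt_IgusaGamma1 M p hpM A hA)
    (hR2 : ∀ h2M : 2 ∣ M, Stmt_RamTwo M h2M) (hR3 : ∀ h3M : 3 ∣ M, Stmt_RamThree M h3M)
    (n : ℕ) (hn : ¬ p ∣ n) : KF1Shape (helper7300.gamma1FieldBar M) A n := by
  rcases h23 with h2M | h3M
  · exact kf1_gamma1_two M p hpM A hA hT h2M hI (hR2 h2M) n hn
  · exact kf1_gamma1_three M p hpM A hA hT h3M hI (hR3 h3M) n hn

end Gamma1

end Fermat.Agent.S48.helper8782
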