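/-
S48, machine blocks M1/M2 — (U) and (ES) for the `Γ₁(M)` field from the leaf Props of the M1 top
(`helper8782_M1Top`), helper5530.

* `diamondGauss_of_gaussIntegralOver` : **(DG)** directly from `helper8782.GaussIntegralOver`
  ("the `q`-Gauss ring of `E` is integral over that of `E0`"): an automorphism of `E` fixing `E0`
  pointwise preserves Gauss units.  (Second supplier of (DG), next to
  `diamondGauss_of_igusa`.)
* `diamondGauss_gamma1_of_int`, `diamondGauss_gamma1_of_igusaStmt` : (DG) for the `Γ₁(M)` field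
  from `Stmt_IntGamma1`, resp. `Stmt_IgusaGamma1`.
* `stmtU_gamma1_of_m1`, `stmtES_gamma1_of_m1` : the leaves (L-E.U), (L-E.ES) of the M2 Spec
  (`helper6431.StmtU`, `helper6431.StmtES`) for the `Γ₁(M)` field from the Props
  `Stmt_TowerA`, `Stmt_IgusaGamma1`, `Stmt_RamTwo`, `Stmt_RamThree` of the M1 top.
-/
import Fermat.Agent.S48.helper5530_UES1
import Fermat.Agent.S48.helper5530_DiamondIgusa
import Fermat.Agent.S48.helper8782_M1Top

set_option autoImplicit false

noncomputable section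

namespace Fermat.Agent.S48.helper5530

open ModularCurve AlgebraicCurve HahnSeries Polynomial
open Fermat.Agent.S18.helper8991 (gaussSubring gaussRing)
open Fermat.Agent.S48.helper8782
open Fermat.Agent.S48.helper6431 (CoeffGal HeckeDiamond StmtU StmtES)
open Fermat.Agent.S48.helper7300 (gamma1FieldBar)

local notation "Qb" => AlgebraicClosure ℚ

section Integral

variable {A : ValuationSubring Qb} {E0 E : IntermediateField Qb (LaurentSeries Qb)}
  {E0k Ek : IntermediateField (IsLocalRing.ResidueField A)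
    (LaurentSeries (IsLocalRing.ResidueField A))}

/-- **(DG) from integrality of the `q`-Gauss ring**: if every element of the `q`-Gauss ring of
`E` is integral over the `q`-Gauss ring of `E0 ≤ E`, every `ℚ̄`-automorphism of `E` fixing `E0`
pointwise maps Gauss units to Gauss units. -/
theorem diamondGauss_of_gaussIntegralOver (h0 : IsQGauss A E0 E0k)
    (hint : GaussIntegralOver A E0 E E0k h0) (hle : E0 ≤ E) (hN : Normalizable E A)
    (D : E ≃ₐ[Qb] E) (hD : ∀ x : E, (x : LaurentSeries Qb) ∈ E0 → D x = x) :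
    DiamondGauss D A := by
  refine diamondGauss_of_gaussSubring hN D (fun x hx => ?_)
  obtain ⟨Q, hQ, hQx⟩ := hint (x : LaurentSeries Qb) x.2 hx
  obtain ⟨ιE, hιE⟩ : ∃ ιE : ↥h0.O →+* ↥E,
      ιE = (IntermediateField.inclusion hle).toRingHom.comp h0.O.subtype := ⟨_, rfl⟩
  have hιE_coe : ∀ a : ↥h0.O, ((ιE a : E) : LaurentSeries Qb) = ((a : ↥E0) : LaurentSeries Qb) := by
    intro a
    rw [hιE]
    rfl
  have h1 : Polynomial.eval₂ ιE x Q = 0 := by
    apply Subtype.ext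
    have h := Polynomial.hom_eval₂ Q ιE (algebraMap ↥E (LaurentSeries Qb)) x
    have hcomp : (algebraMap ↥E (LaurentSeries Qb)).comp ιE
        = (algebraMap ↥E0 (LaurentSeries Qb)).comp h0.O.subtype :=
      RingHom.ext (fun a => hιE_coe a)
    rw [hcomp] at h
    exact h.trans hQx
  have h2 : Polynomial.eval₂ ιE (D x) Q = 0 := by
    have h := Polynomial.hom_eval₂ Q ιE (D : ↥E →+* ↥E) x
    rw [h1, map_zero] at h
    have hcomp : (D : ↥E →+* ↥E).comp ιE = ιE :=
      RingHom.ext (fun a => hD (ιE a) (by rw [hιE_coe a]; exact (a : ↥E0).2))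
    rw [hcomp] at h
    exact h.symm
  have hmemE : ∀ a : ↥h0.O, ιE a ∈ gaussSubring A (IsLocalRing.residue A) E hN := by
    intro a
    show ((ιE a : E) : LaurentSeries Qb) ∈ gaussRing A (IsLocalRing.residue A)
    rw [hιE_coe a]
    exact a.2
  have hintD : IsIntegral (↥(gaussSubring A (IsLocalRing.residue A) E hN)) (D x) :=
    ⟨Q.map (RingHom.codRestrict ιE (gaussSubring A (IsLocalRing.residue A) E hN) hmemE),
      hQ.map _, by rw [Polynomial.eval₂_map]; exact h2⟩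
  obtain ⟨z, hz⟩ := IsIntegrallyClosed.isIntegral_iff.mp hintD
  rw [← hz]
  exact z.2

end Integral

/-! ### The `Γ₁(M)` field from the M1 leaf Props -/

section Gamma1

variable (M : ℕ) [NeZero M] (p : ℕ) [Fact p.Prime] (hpM : ¬ p ∣ M)
  (A : ValuationSubring Qb) (hA : A.LiesOverPrime p)

/-- **(DG)** for the `Γ₁(M)` field from (M1-INT). -/
theorem diamondGauss_gamma1_of_int (hInt : Stmt_IntGamma1 M p hpM A hA)
    (D : gamma1FieldBar M ≃ₐ[Qb] gamma1FieldBar M)
    (hD : ∀ x : gamma1FieldBar M, (x : LaurentSeries Qb) ∈ modularFunctionFieldBar M → D x = x) :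
    DiamondGauss D A :=
  diamondGauss_of_gaussIntegralOver (isQGauss_bar M p hpM A hA) hInt
    (Fermat.Agent.S48.helper7300.modularFunctionFieldBar_le_gamma1FieldBar M)
    (normalizable_gamma1FieldBar M A) D hD

/-- **(DG)** for the `Γ₁(M)` field from (M1-IGUSA). -/
theorem diamondGauss_gamma1_of_igusaStmt (hI : Stmt_IgusaGamma1 M p hpM A hA)
    (D : gamma1FieldBar M ≃ₐ[Qb] gamma1FieldBar M)
    (hD : ∀ x : gamma1FieldBar M, (x : LaurentSeries Qb) ∈ modularFunctionFieldBar M → D x = x) :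
    DiamondGauss D A := by
  obtain ⟨Ek, hIg⟩ := hI
  exact diamondGauss_gamma1_of_igusa M (isQGauss_bar M p hpM A hA) hIg D hD

end Gamma1

section Leaves

variable (M : ℕ) [NeZero M] [HasPrincipalDivisors Qb (gamma1FieldBar M)]
  (G : CoeffGal (gamma1FieldBar M))

/-- **(L-E.U)** of the M2 Spec for the `Γ₁(M)` field from the leaf Props of the M1 top:
for `p ∤ M ℓ`, inertia at every place over `p` acts trivially on the `ℓ`-torsion classes. -/
theorem stmtU_gamma1_of_m1 (hT : Stmt_TowerA) (h23 : 2 ∣ M ∨ 3 ∣ M)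
    (hI : ∀ (p : ℕ) [Fact p.Prime] (hpM : ¬ p ∣ M) (A : ValuationSubring Qb)
      (hA : A.LiesOverPrime p), Stmt_IgusaGamma1 M p hpM A hA)
    (hR2 : ∀ h2M : 2 ∣ M, Stmt_RamTwo M h2M) (hR3 : ∀ h3M : 3 ∣ M, Stmt_RamThree M h3M)
    {ℓ p : ℕ} (hℓ0 : ℓ ≠ 0) (hp : p.Prime) (hpMℓ : ¬ p ∣ M * ℓ) : StmtU G ℓ p := by
  have : Fact p.Prime := ⟨hp⟩
  have hpM : ¬ p ∣ M := fun h => hpMℓ (Dvd.dvd.mul_right h ℓ)
  have hpℓ : ¬ p ∣ ℓ := fun h => hpMℓ (Dvd.dvd.mul_left h M)
  exact stmtU_gamma1 M G hℓ0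
    (fun A hA => kf1_gamma1 M p hpM A hA hT h23 (hI p hpM A hA) hR2 hR3 ℓ hpℓ)

variable {G}

/-- **(L-E.ES)** of the M2 Spec for the `Γ₁(M)` field from the leaf Props of the M1 top: for
`p ∤ M ℓ` and a Hecke–diamond layer `H` at `p` whose diamond fixes the `Γ₀(M)` field pointwise,
every Frobenius at every place over `p` satisfies `σ² - σ T_p + p ⟨p⟩ = 0` on `ℓ`-torsion
classes. -/
theorem stmtES_gamma1_of_m1 (hT : Stmt_TowerA) (h23 : 2 ∣ M ∨ 3 ∣ M)
    (hI : ∀ (p : ℕ) [Fact p.Prime] (hpM : ¬ p ∣ M) (A : ValuationSubring Qb)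
      (hA : A.LiesOverPrime p), Stmt_IgusaGamma1 M p hpM A hA)
    (hR2 : ∀ h2M : 2 ∣ M, Stmt_RamTwo M h2M) (hR3 : ∀ h3M : 3 ∣ M, Stmt_RamThree M h3M)
    {ℓ p : ℕ} (hℓ0 : ℓ ≠ 0) (hp : p.Prime) [NeZero p] (hpMℓ : ¬ p ∣ M * ℓ)
    (H : HeckeDiamond (gamma1FieldBar M) G p)
    (hHD : ∀ x : gamma1FieldBar M,
      (x : LaurentSeries Qb) ∈ modularFunctionFieldBar M → H.D x = x) : StmtES ℓ H := by
  have : Fact p.Prime := ⟨hp⟩
  have hpM : ¬ p ∣ M := fun h => hpMℓ (Dvd.dvd.mul_right h ℓ)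
  have hpℓ : ¬ p ∣ ℓ := fun h => hpMℓ (Dvd.dvd.mul_left h M)
  exact stmtES_gamma1 M hℓ0 hp H
    (fun A hA => kf1_gamma1 M p hpM A hA hT h23 (hI p hpM A hA) hR2 hR3 ℓ hpℓ)
    (fun A hA => diamondGauss_gamma1_of_igusaStmt M p hpM A hA (hI p hpM A hA) H.D hHD)

end Leaves

end Fermat.Agent.S48.helper5530
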