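import Mathlib

/-!
# S48-F8 (FINISH), backup copy by helper5841 — part 1: finite-group algebra in `GL₂(ℂ)`

Elementary, character-theory-free proofs (no `FDRep`, no orthonormality of characters):

* `trace_inv_eq_star`      : `tr ρ(g⁻¹) = conj (tr ρ(g))` for a finite group (unitarian trick);
* `exists_intertwiner`     : equal traces give a nonzero intertwiner;
* `exists_diag_of_eigen`   : a common eigenvector gives a simultaneous diagonalisation
                             (explicit Maschke complement);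
* `sum_char_mul_inv`       : orthogonality of one-dimensional characters;
* `conj_of_trace_eq`       : (F8a) equal traces ⟹ conjugate;
* `two_card_le_sum_normSq_trace` : (F8b) reducible ⟹ `2 |G| ≤ ∑ ‖tr ρ g‖²`.
-/

set_option autoImplicit false

namespace Fermat.Agent.S48.helper5841

open Matrix
open scoped ComplexOrder

/-! ## A. Traces of inverses -/

theorem trace_inv_eq_star {G : Type*} [Group G] [Finite G] {n : Type*} [Fintype n]
    [DecidableEq n] (ρ : G →* GL n ℂ) (g : G) :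
    ((ρ g⁻¹ : GL n ℂ) : Matrix n n ℂ).trace = star ((ρ g : GL n ℂ) : Matrix n n ℂ).trace := by
  classical
  cases nonempty_fintype G
  set H : Matrix n n ℂ :=
    ∑ h : G, ((ρ h : GL n ℂ) : Matrix n n ℂ)ᴴ * ((ρ h : GL n ℂ) : Matrix n n ℂ) with hH
  have hpd : H.PosDef := by
    have h1 : H = 1 + ∑ h ∈ Finset.univ.erase (1 : G),
        ((ρ h : GL n ℂ) : Matrix n n ℂ)ᴴ * ((ρ h : GL n ℂ) : Matrix n n ℂ) := by
      rw [hH, ← Finset.add_sum_erase _ _ (Finset.mem_univ (1 : G))]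
      simp
    rw [h1]
    exact Matrix.PosDef.one.add_posSemidef
      (Matrix.posSemidef_sum _ fun h _ => Matrix.posSemidef_conjTranspose_mul_self _)
  have hinv : ((ρ g : GL n ℂ) : Matrix n n ℂ)ᴴ * H * ((ρ g : GL n ℂ) : Matrix n n ℂ) = H := by
    rw [hH, Finset.mul_sum, Finset.sum_mul]
    rw [← Equiv.sum_comp (Equiv.mulRight g)
      (fun h => ((ρ h : GL n ℂ) : Matrix n n ℂ)ᴴ * ((ρ h : GL n ℂ) : Matrix n n ℂ))]
    refine Finset.sum_congr rfl fun h _ => ?_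
    simp [Matrix.conjTranspose_mul, Matrix.mul_assoc]
  have hu : IsUnit H.det := (Matrix.isUnit_iff_isUnit_det _).mp hpd.isUnit
  have hgg : ((ρ g : GL n ℂ) : Matrix n n ℂ) * ((ρ g⁻¹ : GL n ℂ) : Matrix n n ℂ) = 1 := by
    rw [← Units.val_mul, ← map_mul, mul_inv_cancel, map_one, Units.val_one]
  have h2 : ((ρ g : GL n ℂ) : Matrix n n ℂ)ᴴ * H = H * ((ρ g⁻¹ : GL n ℂ) : Matrix n n ℂ) := by
    calc ((ρ g : GL n ℂ) : Matrix n n ℂ)ᴴ * H
        = ((ρ g : GL n ℂ) : Matrix n n ℂ)ᴴ * H *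
            (((ρ g : GL n ℂ) : Matrix n n ℂ) * ((ρ g⁻¹ : GL n ℂ) : Matrix n n ℂ)) := by
          rw [hgg, Matrix.mul_one]
      _ = H * ((ρ g⁻¹ : GL n ℂ) : Matrix n n ℂ) := by
          rw [← Matrix.mul_assoc, hinv]
  calc ((ρ g⁻¹ : GL n ℂ) : Matrix n n ℂ).trace
      = (H⁻¹ * (H * ((ρ g⁻¹ : GL n ℂ) : Matrix n n ℂ))).trace := by
        rw [← Matrix.mul_assoc, Matrix.nonsing_inv_mul _ hu, Matrix.one_mul]
    _ = (H⁻¹ * (((ρ g : GL n ℂ) : Matrix n n ℂ)ᴴ * H)).trace := by rw [h2]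
    _ = (((ρ g : GL n ℂ) : Matrix n n ℂ)ᴴ * H * H⁻¹).trace := by
        rw [Matrix.trace_mul_comm]
    _ = (((ρ g : GL n ℂ) : Matrix n n ℂ)ᴴ).trace := by
        rw [Matrix.mul_assoc, Matrix.mul_nonsing_inv _ hu, Matrix.mul_one]
    _ = star ((ρ g : GL n ℂ) : Matrix n n ℂ).trace := Matrix.trace_conjTranspose _

/-! ## B. A nonzero intertwiner -/

theorem mul_single_mul_apply {n : Type*} [Fintype n] [DecidableEq n] (A B : Matrix n n ℂ)
    (i k : n) : (A * (Matrix.single i k (1 : ℂ) : Matrix n n ℂ) * B) i k = A i i * B k k := by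
  simp [Matrix.mul_apply, Matrix.single_apply, ite_and, ite_mul]

theorem exists_intertwiner {G : Type*} [Group G] [Finite G] {n : Type*} [Fintype n]
    [DecidableEq n] [Nonempty n] (ρ ρ' : G →* GL n ℂ)
    (htr : ∀ g, ((ρ g : GL n ℂ) : Matrix n n ℂ).trace = ((ρ' g : GL n ℂ) : Matrix n n ℂ).trace) :
    ∃ T : Matrix n n ℂ, T ≠ 0 ∧
      ∀ g, ((ρ' g : GL n ℂ) : Matrix n n ℂ) * T = T * ((ρ g : GL n ℂ) : Matrix n n ℂ) := by
  classical
  cases nonempty_fintype G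
  by_contra hcon
  push Not at hcon
  let Tm : Matrix n n ℂ → Matrix n n ℂ := fun X =>
    ∑ g : G, ((ρ' g : GL n ℂ) : Matrix n n ℂ) * X * ((ρ g⁻¹ : GL n ℂ) : Matrix n n ℂ)
  have hT : ∀ X, Tm X = 0 := by
    intro X
    by_contra hne
    obtain ⟨g, hg⟩ := hcon (Tm X) hne
    apply hg
    simp only [Tm, Finset.mul_sum, Finset.sum_mul]
    rw [← Equiv.sum_comp (Equiv.mulLeft g) (fun h =>
      ((ρ' h : GL n ℂ) : Matrix n n ℂ) * X * ((ρ h⁻¹ : GL n ℂ) : Matrix n n ℂ) *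
        ((ρ g : GL n ℂ) : Matrix n n ℂ))]
    refine Finset.sum_congr rfl fun h _ => ?_
    have e1 : ((ρ (g * h)⁻¹ : GL n ℂ) : Matrix n n ℂ) * ((ρ g : GL n ℂ) : Matrix n n ℂ)
        = ((ρ h⁻¹ : GL n ℂ) : Matrix n n ℂ) := by
      rw [← Units.val_mul, ← map_mul]
      congr 2
      group
    have e2 : ((ρ' (g * h) : GL n ℂ) : Matrix n n ℂ)
        = ((ρ' g : GL n ℂ) : Matrix n n ℂ) * ((ρ' h : GL n ℂ) : Matrix n n ℂ) := by
      rw [map_mul, Units.val_mul]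
    simp only [Equiv.coe_mulLeft]
    rw [Matrix.mul_assoc _ _ ((ρ g : GL n ℂ) : Matrix n n ℂ), e1, e2]
    simp only [Matrix.mul_assoc]
  have h3 : ∀ i k, ∑ g : G, ((ρ' g : GL n ℂ) : Matrix n n ℂ) i i *
      ((ρ g⁻¹ : GL n ℂ) : Matrix n n ℂ) k k = 0 := by
    intro i k
    have h4 : (Tm (Matrix.single i k (1 : ℂ) : Matrix n n ℂ)) i k = 0 := by rw [hT]; rfl
    simp only [Tm, Matrix.sum_apply] at h4
    rw [← h4]
    refine Finset.sum_congr rfl fun g _ => ?_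
    rw [mul_single_mul_apply]
  have hsum : ∑ g : G, ((ρ' g : GL n ℂ) : Matrix n n ℂ).trace *
      ((ρ g⁻¹ : GL n ℂ) : Matrix n n ℂ).trace = 0 := by
    calc ∑ g : G, ((ρ' g : GL n ℂ) : Matrix n n ℂ).trace *
          ((ρ g⁻¹ : GL n ℂ) : Matrix n n ℂ).trace
        = ∑ g : G, ∑ i, ∑ k, ((ρ' g : GL n ℂ) : Matrix n n ℂ) i i *
            ((ρ g⁻¹ : GL n ℂ) : Matrix n n ℂ) k k := by
          refine Finset.sum_congr rfl fun g _ => ?_
          simp [Matrix.trace, Finset.sum_mul_sum]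
      _ = ∑ i, ∑ k, ∑ g : G, ((ρ' g : GL n ℂ) : Matrix n n ℂ) i i *
            ((ρ g⁻¹ : GL n ℂ) : Matrix n n ℂ) k k := by
          rw [Finset.sum_comm]
          exact Finset.sum_congr rfl fun i _ => Finset.sum_comm
      _ = 0 := Finset.sum_eq_zero fun i _ => Finset.sum_eq_zero fun k _ => h3 i k
  have hpos : ∑ g : G, ((ρ' g : GL n ℂ) : Matrix n n ℂ).trace *
      ((ρ g⁻¹ : GL n ℂ) : Matrix n n ℂ).trace
      = ∑ g : G, ((Complex.normSq ((ρ g : GL n ℂ) : Matrix n n ℂ).trace : ℝ) : ℂ) := by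
    refine Finset.sum_congr rfl fun g _ => ?_
    rw [← htr g, trace_inv_eq_star, Complex.star_def, Complex.mul_conj]
  rw [hpos, ← Complex.ofReal_sum, Complex.ofReal_eq_zero] at hsum
  have h0 := (Finset.sum_eq_zero_iff_of_nonneg (fun g _ => Complex.normSq_nonneg _)).mp hsum 1
    (Finset.mem_univ _)
  simp [Matrix.trace_one] at h0

/-! ## C. Singular intertwiners and common eigenvectors (dimension two) -/

/-- The determinant of the `2 × 2` matrix with columns `v`, `x`. -/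
def det2 (v x : Fin 2 → ℂ) : ℂ := v 0 * x 1 - v 1 * x 0

theorem det2_mulVec (A : Matrix (Fin 2) (Fin 2) ℂ) (v x : Fin 2 → ℂ) :
    det2 (A *ᵥ v) (A *ᵥ x) = A.det * det2 v x := by
  simp only [det2, Matrix.mulVec, dotProduct, Fin.sum_univ_two, Matrix.det_fin_two]
  ring

theorem exists_smul_of_det2_eq_zero {v x : Fin 2 → ℂ} (hv : v ≠ 0) (h : det2 v x = 0) :
    ∃ c : ℂ, x = c • v := by
  unfold det2 at h
  by_cases h0 : v 0 = 0
  · have h1 : v 1 ≠ 0 := fun h1 => hv (by ext i; fin_cases i <;> simp [h0, h1])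
    refine ⟨x 1 / v 1, ?_⟩
    have hx0 : x 0 = 0 := by
      rw [h0] at h
      have : v 1 * x 0 = 0 := by linear_combination -h
      exact (mul_eq_zero.mp this).resolve_left h1
    ext i
    fin_cases i
    · simp [h0, hx0]
    · simp [div_mul_cancel₀ _ h1]
  · refine ⟨x 0 / v 0, ?_⟩
    ext i
    fin_cases i
    · simp [div_mul_cancel₀ _ h0]
    · simp only [Fin.mk_one, Pi.smul_apply, smul_eq_mul]
      field_simp
      linear_combination h

/-- The kernel of a nonzero singular intertwiner is a common eigenline of the source. -/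
theorem exists_eigen_of_singular_intertwiner {G : Type*} [Group G] (ρ ρ' : G →* GL (Fin 2) ℂ)
    (T : Matrix (Fin 2) (Fin 2) ℂ) (hT0 : T ≠ 0) (hdet : T.det = 0)
    (hT : ∀ g, ((ρ' g : GL (Fin 2) ℂ) : Matrix (Fin 2) (Fin 2) ℂ) * T =
      T * ((ρ g : GL (Fin 2) ℂ) : Matrix (Fin 2) (Fin 2) ℂ)) :
    ∃ v : Fin 2 → ℂ, v ≠ 0 ∧
      ∀ g, ∃ c : ℂ, ((ρ g : GL (Fin 2) ℂ) : Matrix (Fin 2) (Fin 2) ℂ) *ᵥ v = c • v := by
  obtain ⟨v, hv, hTv⟩ := Matrix.exists_mulVec_eq_zero_iff.mpr hdet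
  refine ⟨v, hv, fun g => ?_⟩
  have hk : T *ᵥ (((ρ g : GL (Fin 2) ℂ) : Matrix (Fin 2) (Fin 2) ℂ) *ᵥ v) = 0 := by
    rw [Matrix.mulVec_mulVec, ← hT g, ← Matrix.mulVec_mulVec, hTv, Matrix.mulVec_zero]
  apply exists_smul_of_det2_eq_zero hv
  by_contra hne
  apply hT0
  set x := ((ρ g : GL (Fin 2) ℂ) : Matrix (Fin 2) (Fin 2) ℂ) *ᵥ v with hx
  have hd : v 0 * x 1 - v 1 * x 0 ≠ 0 := hne
  ext i j
  have e1 : T i 0 * v 0 + T i 1 * v 1 = 0 := by
    simpa [Matrix.mulVec, dotProduct, Fin.sum_univ_two] using congrFun hTv i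
  have e2 : T i 0 * x 0 + T i 1 * x 1 = 0 := by
    simpa [Matrix.mulVec, dotProduct, Fin.sum_univ_two] using congrFun hk i
  fin_cases j
  · exact (mul_eq_zero.mp (by linear_combination x 1 * e1 - v 1 * e2 :
      T i 0 * (v 0 * x 1 - v 1 * x 0) = 0)).resolve_right hd
  · exact (mul_eq_zero.mp (by linear_combination v 0 * e2 - x 0 * e1 :
      T i 1 * (v 0 * x 1 - v 1 * x 0) = 0)).resolve_right hd

/-! ## D. A common eigenvector gives a simultaneous diagonalisation -/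

/-- The predicate "`ρ` has a common eigenvector" (= reducible, in dimension two). -/
def HasCommonEigenvector {G : Type*} [Group G] (ρ : G →* GL (Fin 2) ℂ) : Prop :=
  ∃ v : Fin 2 → ℂ, v ≠ 0 ∧
    ∀ g, ∃ c : ℂ, ((ρ g : GL (Fin 2) ℂ) : Matrix (Fin 2) (Fin 2) ℂ) *ᵥ v = c • v

/-- Explicit Maschke: a representation of a finite group on `ℂ²` with a common eigenvector is
simultaneously diagonalisable, with two characters on the diagonal. -/
theorem exists_diag_of_eigen {G : Type*} [Group G] [Finite G] (ρ : G →* GL (Fin 2) ℂ)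
    (h : HasCommonEigenvector ρ) :
    ∃ (P : GL (Fin 2) ℂ) (α β : G →* ℂˣ), ∀ g,
      ((ρ g : GL (Fin 2) ℂ) : Matrix (Fin 2) (Fin 2) ℂ) * (P : Matrix (Fin 2) (Fin 2) ℂ) =
        (P : Matrix (Fin 2) (Fin 2) ℂ) * Matrix.diagonal ![(α g : ℂ), (β g : ℂ)] := by
  classical
  cases nonempty_fintype G
  obtain ⟨v, hv, hev⟩ := h
  choose c hc using hev
  have hinj : Function.Injective fun a : ℂ => a • v := smul_left_injective ℂ hv
  have hc1 : c 1 = 1 := by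
    apply hinj
    simp only
    rw [← hc 1]
    simp
  have hcmul : ∀ g h, c (g * h) = c g * c h := by
    intro g h
    apply hinj
    simp only
    rw [← hc (g * h), map_mul, Units.val_mul, ← Matrix.mulVec_mulVec, hc h, Matrix.mulVec_smul,
      hc g, smul_smul, mul_comm]
  let c' : G →* ℂ := ⟨⟨c, hc1⟩, hcmul⟩
  let α : G →* ℂˣ := c'.toHomUnits
  have hα : ∀ g, ((α g : ℂˣ) : ℂ) = c g := fun g => rfl
  let δ : G →* ℂˣ := Matrix.GeneralLinearGroup.det.comp ρ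
  have hδ : ∀ g, ((δ g : ℂˣ) : ℂ) = ((ρ g : GL (Fin 2) ℂ) : Matrix (Fin 2) (Fin 2) ℂ).det :=
    fun g => rfl
  let β : G →* ℂˣ := δ / α
  have hβ : ∀ g, ((β g : ℂˣ) : ℂ) * c g =
      ((ρ g : GL (Fin 2) ℂ) : Matrix (Fin 2) (Fin 2) ℂ).det := by
    intro g
    rw [← hα, ← hδ, ← Units.val_mul]
    congr 1
    simp [β]
  -- a vector outside the eigenline
  obtain ⟨w0, hw0⟩ : ∃ w0 : Fin 2 → ℂ, det2 v w0 ≠ 0 := by
    by_cases h0 : v 0 = 0
    · have h1 : v 1 ≠ 0 := fun h1 => hv (by ext i; fin_cases i <;> simp [h0, h1])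
      exact ⟨![1, 0], by simp [det2, h1]⟩
    · exact ⟨![0, 1], by simp [det2, h0]⟩
  let w : Fin 2 → ℂ := ∑ h : G, ((β h : ℂˣ) : ℂ)⁻¹ •
    (((ρ h : GL (Fin 2) ℂ) : Matrix (Fin 2) (Fin 2) ℂ) *ᵥ w0)
  have hw : ∀ g, ((ρ g : GL (Fin 2) ℂ) : Matrix (Fin 2) (Fin 2) ℂ) *ᵥ w = ((β g : ℂˣ) : ℂ) • w := by
    intro g
    simp only [w, Matrix.mulVec_sum, Finset.smul_sum, Matrix.mulVec_smul, smul_smul]
    rw [← Equiv.sum_comp (Equiv.mulLeft g) (fun h => (((β g : ℂˣ) : ℂ) * ((β h : ℂˣ) : ℂ)⁻¹) •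
      (((ρ h : GL (Fin 2) ℂ) : Matrix (Fin 2) (Fin 2) ℂ) *ᵥ w0))]
    refine Finset.sum_congr rfl fun h _ => ?_
    simp only [Equiv.coe_mulLeft, map_mul, Units.val_mul, Matrix.mulVec_mulVec]
    congr 1
    have : ((β g : ℂˣ) : ℂ) ≠ 0 := (β g).ne_zero
    have : ((β h : ℂˣ) : ℂ) ≠ 0 := (β h).ne_zero
    field_simp
  have hdet_term : ∀ h : G,
      det2 v (((ρ h : GL (Fin 2) ℂ) : Matrix (Fin 2) (Fin 2) ℂ) *ᵥ w0) =
        ((β h : ℂˣ) : ℂ) * det2 v w0 := by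
    intro h
    have e := det2_mulVec ((ρ h : GL (Fin 2) ℂ) : Matrix (Fin 2) (Fin 2) ℂ) v w0
    rw [hc h, ← hβ h] at e
    have hch : c h ≠ 0 := by rw [← hα]; exact (α h).ne_zero
    have e'' : det2 (c h • v) (((ρ h : GL (Fin 2) ℂ) : Matrix (Fin 2) (Fin 2) ℂ) *ᵥ w0) =
        c h * det2 v (((ρ h : GL (Fin 2) ℂ) : Matrix (Fin 2) (Fin 2) ℂ) *ᵥ w0) := by
      simp only [det2, Pi.smul_apply, smul_eq_mul]
      ring
    rw [e''] at e
    exact mul_left_cancel₀ hch (by rw [e]; ring)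
  have hdetw : det2 v w = (Fintype.card G : ℂ) * det2 v w0 := by
    have e : det2 v w = ∑ h : G, ((β h : ℂˣ) : ℂ)⁻¹ *
        det2 v (((ρ h : GL (Fin 2) ℂ) : Matrix (Fin 2) (Fin 2) ℂ) *ᵥ w0) := by
      simp only [det2, w, Finset.sum_apply, Pi.smul_apply, smul_eq_mul, Finset.mul_sum,
        ← Finset.sum_sub_distrib]
      refine Finset.sum_congr rfl fun h _ => ?_
      ring
    rw [e]
    have : ∀ h : G, ((β h : ℂˣ) : ℂ)⁻¹ *
        det2 v (((ρ h : GL (Fin 2) ℂ) : Matrix (Fin 2) (Fin 2) ℂ) *ᵥ w0) = det2 v w0 := by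
      intro h
      rw [hdet_term h, ← mul_assoc, inv_mul_cancel₀ (β h).ne_zero, one_mul]
    simp only [this, Finset.sum_const, Finset.card_univ, nsmul_eq_mul]
  have hdetw0 : det2 v w ≠ 0 := by
    rw [hdetw]
    exact mul_ne_zero (Nat.cast_ne_zero.mpr Fintype.card_ne_zero) hw0
  let P : Matrix (Fin 2) (Fin 2) ℂ := !![v 0, w 0; v 1, w 1]
  have hPdet : P.det ≠ 0 := by
    have : P.det = det2 v w := by simp [P, Matrix.det_fin_two, det2]; ring
    rw [this]; exact hdetw0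
  refine ⟨Matrix.GeneralLinearGroup.mkOfDetNeZero P hPdet, α, β, fun g => ?_⟩
  have ev : ∀ i, ((ρ g : GL (Fin 2) ℂ) : Matrix (Fin 2) (Fin 2) ℂ) i 0 * v 0 +
      ((ρ g : GL (Fin 2) ℂ) : Matrix (Fin 2) (Fin 2) ℂ) i 1 * v 1 = c g * v i := by
    intro i
    simpa [Matrix.mulVec, dotProduct, Fin.sum_univ_two] using congrFun (hc g) i
  have ew : ∀ i, ((ρ g : GL (Fin 2) ℂ) : Matrix (Fin 2) (Fin 2) ℂ) i 0 * w 0 +
      ((ρ g : GL (Fin 2) ℂ) : Matrix (Fin 2) (Fin 2) ℂ) i 1 * w 1 = ((β g : ℂˣ) : ℂ) * w i := by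
    intro i
    simpa [Matrix.mulVec, dotProduct, Fin.sum_univ_two] using congrFun (hw g) i
  show ((ρ g : GL (Fin 2) ℂ) : Matrix (Fin 2) (Fin 2) ℂ) * P = P * _
  ext i j
  fin_cases i <;> fin_cases j <;>
    simp [Matrix.mul_apply, Fin.sum_univ_two, P, hα] <;>
    first
      | linear_combination ev 0
      | linear_combination ev 1
      | linear_combination ew 0
      | linear_combination ew 1

/-- `exists_diag_of_eigen` in conjugation form. -/
theorem exists_diag_of_eigen' {G : Type*} [Group G] [Finite G] (ρ : G →* GL (Fin 2) ℂ)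
    (h : HasCommonEigenvector ρ) :
    ∃ (P : GL (Fin 2) ℂ) (α β : G →* ℂˣ), ∀ g,
      ((P⁻¹ * ρ g * P : GL (Fin 2) ℂ) : Matrix (Fin 2) (Fin 2) ℂ) =
        Matrix.diagonal ![(α g : ℂ), (β g : ℂ)] := by
  obtain ⟨P, α, β, hP⟩ := exists_diag_of_eigen ρ h
  refine ⟨P, α, β, fun g => ?_⟩
  rw [mul_assoc, Units.val_mul, Units.val_mul, hP g, ← Matrix.mul_assoc, ← Units.val_mul,
    inv_mul_cancel, Units.val_one, Matrix.one_mul]

theorem trace_conj_GL (P A : GL (Fin 2) ℂ) :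
    ((P⁻¹ * A * P : GL (Fin 2) ℂ) : Matrix (Fin 2) (Fin 2) ℂ).trace =
      (A : Matrix (Fin 2) (Fin 2) ℂ).trace := by
  rw [Units.val_mul, Matrix.trace_mul_comm, ← Units.val_mul]
  congr 2
  group

theorem det_conj_GL (P A : GL (Fin 2) ℂ) :
    ((P⁻¹ * A * P : GL (Fin 2) ℂ) : Matrix (Fin 2) (Fin 2) ℂ).det =
      (A : Matrix (Fin 2) (Fin 2) ℂ).det := by
  rw [Units.val_mul, Units.val_mul, Matrix.det_mul, Matrix.det_mul, mul_right_comm,
    ← Matrix.det_mul, ← Units.val_mul, inv_mul_cancel, Units.val_one, Matrix.det_one, one_mul]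

/-! ## E. Orthogonality of one-dimensional characters -/

theorem sum_char_mul_inv_self {G : Type*} [Group G] [Fintype G] (α : G →* ℂˣ) :
    ∑ g : G, ((α g : ℂˣ) : ℂ) * ((α g : ℂˣ) : ℂ)⁻¹ = (Fintype.card G : ℂ) := by
  have : ∀ g : G, ((α g : ℂˣ) : ℂ) * ((α g : ℂˣ) : ℂ)⁻¹ = 1 :=
    fun g => mul_inv_cancel₀ (α g).ne_zero
  simp only [this, Finset.sum_const, Finset.card_univ, nsmul_eq_mul, mul_one]

theorem sum_char_mul_inv_of_ne {G : Type*} [Group G] [Fintype G] (α β : G →* ℂˣ)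
    (hne : α ≠ β) : ∑ g : G, ((α g : ℂˣ) : ℂ) * ((β g : ℂˣ) : ℂ)⁻¹ = 0 := by
  obtain ⟨h0, hh0⟩ : ∃ h0, α h0 ≠ β h0 := by
    by_contra hcon
    push Not at hcon
    exact hne (MonoidHom.ext hcon)
  set S := ∑ g : G, ((α g : ℂˣ) : ℂ) * ((β g : ℂˣ) : ℂ)⁻¹ with hS
  have e : S = ((α h0 : ℂˣ) : ℂ) * ((β h0 : ℂˣ) : ℂ)⁻¹ * S := by
    rw [hS, Finset.mul_sum]
    rw [← Equiv.sum_comp (Equiv.mulLeft h0)
      (fun g => ((α g : ℂˣ) : ℂ) * ((β g : ℂˣ) : ℂ)⁻¹)]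
    refine Finset.sum_congr rfl fun g _ => ?_
    simp only [Equiv.coe_mulLeft, map_mul, Units.val_mul, mul_inv]
    ring
  have hne1 : ((α h0 : ℂˣ) : ℂ) * ((β h0 : ℂˣ) : ℂ)⁻¹ ≠ 1 := by
    intro h1
    apply hh0
    apply Units.ext
    have hb : ((β h0 : ℂˣ) : ℂ) ≠ 0 := (β h0).ne_zero
    calc ((α h0 : ℂˣ) : ℂ) = ((α h0 : ℂˣ) : ℂ) * ((β h0 : ℂˣ) : ℂ)⁻¹ * ((β h0 : ℂˣ) : ℂ) := by
          rw [mul_assoc, inv_mul_cancel₀ hb, mul_one]
      _ = ((β h0 : ℂˣ) : ℂ) := by rw [h1, one_mul]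
  have h2 : S * (1 - ((α h0 : ℂˣ) : ℂ) * ((β h0 : ℂˣ) : ℂ)⁻¹) = 0 := by linear_combination e
  rcases mul_eq_zero.mp h2 with h | h
  · exact h
  · exact absurd (sub_eq_zero.mp h).symm hne1

/-- Two pairs of characters with the same sum coincide up to order. -/
theorem char_pair_eq {G : Type*} [Group G] [Finite G] (α β α' β' : G →* ℂˣ)
    (h : ∀ g, ((α g : ℂˣ) : ℂ) + ((β g : ℂˣ) : ℂ) = ((α' g : ℂˣ) : ℂ) + ((β' g : ℂˣ) : ℂ)) :
    (α = α' ∧ β = β') ∨ (α = β' ∧ β = α') := by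
  classical
  cases nonempty_fintype G
  have hcard : (Fintype.card G : ℂ) ≠ 0 := Nat.cast_ne_zero.mpr Fintype.card_ne_zero
  have key : α = α' ∨ β = α' := by
    by_contra hcon
    push Not at hcon
    have e : ∑ g : G, (((α g : ℂˣ) : ℂ) + ((β g : ℂˣ) : ℂ)) * ((α' g : ℂˣ) : ℂ)⁻¹ =
        ∑ g : G, (((α' g : ℂˣ) : ℂ) + ((β' g : ℂˣ) : ℂ)) * ((α' g : ℂˣ) : ℂ)⁻¹ :=
      Finset.sum_congr rfl fun g _ => by rw [h g]
    simp only [add_mul, Finset.sum_add_distrib] at e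
    rw [sum_char_mul_inv_of_ne _ _ hcon.1, sum_char_mul_inv_of_ne _ _ hcon.2,
      sum_char_mul_inv_self] at e
    by_cases hb : β' = α'
    · subst hb
      rw [sum_char_mul_inv_self] at e
      apply hcard
      linear_combination -(1 / 2 : ℂ) * e
    · rw [sum_char_mul_inv_of_ne _ _ hb] at e
      apply hcard
      linear_combination -e
  rcases key with h1 | h1
  · left
    refine ⟨h1, ?_⟩
    subst h1
    refine MonoidHom.ext fun g => Units.ext ?_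
    exact add_left_cancel (h g)
  · right
    subst h1
    refine ⟨?_, rfl⟩
    refine MonoidHom.ext fun g => Units.ext ?_
    have := h g
    rw [add_comm] at this
    exact add_left_cancel this

/-! ## F8a. Equal traces imply conjugate -/

/-- **(F8a)** Two representations of a finite group on `ℂ²` with the same character are
conjugate. -/
theorem conj_of_trace_eq {G : Type*} [Group G] [Finite G] (ρ ρ' : G →* GL (Fin 2) ℂ)
    (htr : ∀ g, ((ρ g : GL (Fin 2) ℂ) : Matrix (Fin 2) (Fin 2) ℂ).trace =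
      ((ρ' g : GL (Fin 2) ℂ) : Matrix (Fin 2) (Fin 2) ℂ).trace) :
    ∃ P : GL (Fin 2) ℂ, ∀ g, ρ' g = P * ρ g * P⁻¹ := by
  obtain ⟨T, hT0, hT⟩ := exists_intertwiner ρ ρ' htr
  by_cases hd : T.det = 0
  swap
  · refine ⟨Matrix.GeneralLinearGroup.mkOfDetNeZero T hd, fun g => ?_⟩
    rw [eq_mul_inv_iff_mul_eq]
    exact Units.ext (hT g)
  obtain ⟨T', hT'0, hT'⟩ := exists_intertwiner ρ' ρ (fun g => (htr g).symm)
  by_cases hd' : T'.det = 0
  swap
  · refine ⟨(Matrix.GeneralLinearGroup.mkOfDetNeZero T' hd')⁻¹, fun g => ?_⟩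
    have h1 : ρ g * Matrix.GeneralLinearGroup.mkOfDetNeZero T' hd' =
        Matrix.GeneralLinearGroup.mkOfDetNeZero T' hd' * ρ' g := Units.ext (hT' g)
    rw [inv_inv, mul_assoc, h1, inv_mul_cancel_left]
  have hr : HasCommonEigenvector ρ := exists_eigen_of_singular_intertwiner ρ ρ' T hT0 hd hT
  have hr' : HasCommonEigenvector ρ' :=
    exists_eigen_of_singular_intertwiner ρ' ρ T' hT'0 hd' hT'
  obtain ⟨P, α, β, hP⟩ := exists_diag_of_eigen' ρ hr
  obtain ⟨P', α', β', hP'⟩ := exists_diag_of_eigen' ρ' hr'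
  have htr2 : ∀ g, ((α g : ℂˣ) : ℂ) + ((β g : ℂˣ) : ℂ) =
      ((α' g : ℂˣ) : ℂ) + ((β' g : ℂˣ) : ℂ) := by
    intro g
    have e1 := trace_conj_GL P (ρ g)
    have e2 := trace_conj_GL P' (ρ' g)
    rw [hP g] at e1
    rw [hP' g] at e2
    simp only [Matrix.trace_diagonal, Fin.sum_univ_two, Matrix.cons_val_zero,
      Matrix.cons_val_one] at e1 e2
    rw [e1, e2, htr g]
  rcases char_pair_eq α β α' β' htr2 with ⟨h1, h2⟩ | ⟨h1, h2⟩
  · subst h1 h2
    refine ⟨P' * P⁻¹, fun g => ?_⟩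
    have h : P⁻¹ * ρ g * P = P'⁻¹ * ρ' g * P' := Units.ext (by rw [hP g, hP' g])
    calc ρ' g = P' * (P'⁻¹ * ρ' g * P') * P'⁻¹ := by group
      _ = P' * (P⁻¹ * ρ g * P) * P'⁻¹ := by rw [h]
      _ = P' * P⁻¹ * ρ g * (P' * P⁻¹)⁻¹ := by group
  · subst h1 h2
    have hWdet : (!![0, 1; 1, 0] : Matrix (Fin 2) (Fin 2) ℂ).det ≠ 0 := by
      simp [Matrix.det_fin_two]
    let W : GL (Fin 2) ℂ := Matrix.GeneralLinearGroup.mkOfDetNeZero _ hWdet
    refine ⟨P' * W⁻¹ * P⁻¹, fun g => ?_⟩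
    have h : P⁻¹ * ρ g * P * W = W * (P'⁻¹ * ρ' g * P') := by
      apply Units.ext
      rw [Units.val_mul, Units.val_mul W, hP g, hP' g]
      show Matrix.diagonal _ * !![0, 1; 1, 0] = !![0, 1; 1, 0] * Matrix.diagonal _
      ext i j
      fin_cases i <;> fin_cases j <;> simp [Matrix.mul_apply, Fin.sum_univ_two]
    calc ρ' g = P' * W⁻¹ * (W * (P'⁻¹ * ρ' g * P')) * P'⁻¹ := by group
      _ = P' * W⁻¹ * (P⁻¹ * ρ g * P * W) * P'⁻¹ := by rw [h]
      _ = P' * W⁻¹ * P⁻¹ * ρ g * (P' * W⁻¹ * P⁻¹)⁻¹ := by group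

/-! ## F8b. Reducible representations have large mean square trace -/

/-- **(F8b)** A representation of a finite group on `ℂ²` with a common eigenvector satisfies
`2 |G| ≤ ∑ |tr ρ g|²`. -/
theorem two_card_le_sum_normSq_trace {G : Type*} [Group G] [Fintype G]
    (ρ : G →* GL (Fin 2) ℂ) (h : HasCommonEigenvector ρ) :
    2 * (Fintype.card G : ℝ) ≤
      ∑ g : G, Complex.normSq ((ρ g : GL (Fin 2) ℂ) : Matrix (Fin 2) (Fin 2) ℂ).trace := by
  classical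
  obtain ⟨P, α, β, hP⟩ := exists_diag_of_eigen' ρ h
  have htr : ∀ g, ((ρ g : GL (Fin 2) ℂ) : Matrix (Fin 2) (Fin 2) ℂ).trace =
      ((α g : ℂˣ) : ℂ) + ((β g : ℂˣ) : ℂ) := by
    intro g
    have e1 := trace_conj_GL P (ρ g)
    rw [hP g] at e1
    simp only [Matrix.trace_diagonal, Fin.sum_univ_two, Matrix.cons_val_zero,
      Matrix.cons_val_one] at e1
    exact e1.symm
  have hterm : ∀ g : G,
      ((Complex.normSq ((ρ g : GL (Fin 2) ℂ) : Matrix (Fin 2) (Fin 2) ℂ).trace : ℝ) : ℂ) =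
        2 + (((α g : ℂˣ) : ℂ) * ((β g : ℂˣ) : ℂ)⁻¹ + ((β g : ℂˣ) : ℂ) * ((α g : ℂˣ) : ℂ)⁻¹) := by
    intro g
    rw [← Complex.mul_conj, ← Complex.star_def, ← trace_inv_eq_star, htr g, htr g⁻¹, map_inv,
      map_inv, Units.val_inv_eq_inv_val, Units.val_inv_eq_inv_val]
    have ha : ((α g : ℂˣ) : ℂ) ≠ 0 := (α g).ne_zero
    have hb : ((β g : ℂˣ) : ℂ) ≠ 0 := (β g).ne_zero
    field_simp
    ring
  have hsum : ((∑ g : G,
      Complex.normSq ((ρ g : GL (Fin 2) ℂ) : Matrix (Fin 2) (Fin 2) ℂ).trace : ℝ) : ℂ) =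
      2 * (Fintype.card G : ℂ) + (∑ g : G, ((α g : ℂˣ) : ℂ) * ((β g : ℂˣ) : ℂ)⁻¹ +
        ∑ g : G, ((β g : ℂˣ) : ℂ) * ((α g : ℂˣ) : ℂ)⁻¹) := by
    rw [Complex.ofReal_sum]
    simp only [hterm, Finset.sum_add_distrib, Finset.sum_const, Finset.card_univ, nsmul_eq_mul]
    ring
  by_cases hab : α = β
  · subst hab
    rw [sum_char_mul_inv_self] at hsum
    have : (∑ g : G,
      Complex.normSq ((ρ g : GL (Fin 2) ℂ) : Matrix (Fin 2) (Fin 2) ℂ).trace : ℝ) =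
        4 * (Fintype.card G : ℝ) := by
      apply Complex.ofReal_injective
      rw [hsum]
      push_cast
      ring
    rw [this]
    have : (0 : ℝ) ≤ (Fintype.card G : ℝ) := Nat.cast_nonneg _
    linarith
  · rw [sum_char_mul_inv_of_ne _ _ hab, sum_char_mul_inv_of_ne _ _ (Ne.symm hab)] at hsum
    have : (∑ g : G,
      Complex.normSq ((ρ g : GL (Fin 2) ℂ) : Matrix (Fin 2) (Fin 2) ℂ).trace : ℝ) =
        2 * (Fintype.card G : ℝ) := by
      apply Complex.ofReal_injective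
      rw [hsum]
      push_cast
      ring
    rw [this]

end Fermat.Agent.S48.helper5841
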