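import Mathlib
import Fermat.Prelude.Def_GaloisRep_Residual
import Fermat.Prelude.Def_Deformations_MatrixRepresentation
import Fermat.Agent.S48.helper5841_Finish

/-!
# S48-F8 (FINISH), backup copy by helper5841 — part 2: the two-prime comparison

Frozen vocabulary (`GaloisFactorsThroughFiniteLevel`, `ValuationSubring.LiesOverPrime`,
`inertiaSubgroupIn`, `IsFrobeniusAt`, `Deformation.matrixRepresentation`).

* `finite_range_of_finiteLevel` : a finite-level `ρ` has finite range;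
* `trace_pow_eq_of_trace_det_eq` : `(tr, det)` determine the traces of all powers (`2 × 2`);
* `trace_eq_of_frobenius`       : generator-Chebotarev ⟹ equal traces everywhere;
* `conj_of_frobenius`           : ⟹ conjugate (via `conj_of_trace_eq`);
* `localOK_of_two_primes`       : (F8c) the two-prime comparison;
* `isIrreducible_of_not_eigen`  : `¬ HasCommonEigenvector ρ` ⟹
                                  `(Deformation.matrixRepresentation ρ).IsIrreducible`.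
-/

set_option autoImplicit false

namespace Fermat.Agent.S48.helper5841

open Matrix

local notation "Γℚ" => (AlgebraicClosure ℚ ≃ₐ[ℚ] AlgebraicClosure ℚ)

/-- The generator form of Chebotarev (existence), in the exact shape of the landed
`Fermat.Agent.Lib.helper74.exists_frobenius_pow_eq`. -/
def ChebGen : Prop :=
  ∀ (L : IntermediateField ℚ (AlgebraicClosure ℚ)) [FiniteDimensional ℚ L] (σ : Γℚ)
    (T : Finset ℕ),
    ∃ (ℓ : ℕ) (A : ValuationSubring (AlgebraicClosure ℚ)) (τ : Γℚ) (n : ℕ), ℓ.Prime ∧ ℓ ∉ T ∧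
      A.LiesOverPrime ℓ ∧ A.IsFrobeniusAt τ ℓ ∧ ∀ x ∈ L, (τ ^ n) x = σ x

/-- The local conditions of the frozen S48 conclusion at the primes not dividing `D`. -/
def LocalOK (D : ℕ) (a e : ℕ → ℂ) (ρ : Γℚ →* GL (Fin 2) ℂ) : Prop :=
  ∀ p : ℕ, p.Prime → ¬ p ∣ D →
    ∀ A : ValuationSubring (AlgebraicClosure ℚ), A.LiesOverPrime p →
      (∀ σ ∈ A.inertiaSubgroupIn ℚ, ρ σ = 1) ∧
      ∀ σ : Γℚ, A.IsFrobeniusAt σ p →
        ((ρ σ : GL (Fin 2) ℂ) : Matrix (Fin 2) (Fin 2) ℂ).trace = a p ∧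
        ((ρ σ : GL (Fin 2) ℂ) : Matrix (Fin 2) (Fin 2) ℂ).det = e p

/-! ## G1. Finite level ⟹ finite range -/

theorem eq_of_eqOn_level {H : Type} [Group H] (ρ : Γℚ →* H)
    (L : IntermediateField ℚ (AlgebraicClosure ℚ))
    (hρ : ∀ σ : Γℚ, (∀ x ∈ L, σ x = x) → ρ σ = 1) (σ τ : Γℚ) (h : ∀ x ∈ L, σ x = τ x) :
    ρ σ = ρ τ := by
  have h1 : ρ (τ⁻¹ * σ) = 1 := by
    apply hρ
    intro x hx
    rw [AlgEquiv.mul_apply, h x hx]
    exact τ.symm_apply_apply x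
  rw [map_mul, map_inv, inv_mul_eq_one] at h1
  exact h1.symm

theorem finite_range_of_finiteLevel {H : Type} [Group H] (ρ : Γℚ →* H)
    (h : GaloisFactorsThroughFiniteLevel ρ) : (Set.range ρ).Finite := by
  obtain ⟨L, hL, hρ⟩ := h
  have := hL
  let r : Γℚ → (L →ₐ[ℚ] AlgebraicClosure ℚ) := fun σ =>
    (σ : AlgebraicClosure ℚ →ₐ[ℚ] AlgebraicClosure ℚ).comp L.val
  have hfac : ∀ σ τ, r σ = r τ → ρ σ = ρ τ := by
    intro σ τ hr
    apply eq_of_eqOn_level ρ L hρ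
    intro x hx
    exact DFunLike.congr_fun hr ⟨x, hx⟩
  have hsub : Set.range ρ ⊆ Set.range (Function.extend r ρ (fun _ => 1)) := by
    rintro _ ⟨σ, rfl⟩
    exact ⟨r σ, Function.FactorsThrough.extend_apply (fun a b hab => hfac a b hab) _ σ⟩
  exact (Set.finite_range _).subset hsub

/-! ## G2. Traces of powers of a `2 × 2` matrix -/

theorem cayley_hamilton_two (A : Matrix (Fin 2) (Fin 2) ℂ) :
    A * A = A.trace • A - A.det • (1 : Matrix (Fin 2) (Fin 2) ℂ) := by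
  ext i j
  fin_cases i <;> fin_cases j <;>
    simp [Matrix.mul_apply, Fin.sum_univ_two, Matrix.trace_fin_two, Matrix.det_fin_two] <;> ring

/-- The linear recurrence computing `tr (A ^ n)` from `t = tr A`, `d = det A`. -/
def trPow (t d : ℂ) : ℕ → ℂ
  | 0 => 2
  | 1 => t
  | (n + 2) => t * trPow t d (n + 1) - d * trPow t d n

theorem trace_pow_eq_trPow (A : Matrix (Fin 2) (Fin 2) ℂ) (n : ℕ) :
    (A ^ n).trace = trPow A.trace A.det n := by
  induction n using Nat.strong_induction_on with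
  | _ n ih =>
    match n with
    | 0 => simp [trPow, Matrix.trace_one]
    | 1 => simp [trPow]
    | (k + 2) =>
      have e : A ^ (k + 2) = A.trace • A ^ (k + 1) - A.det • A ^ k := by
        rw [pow_add, pow_two, cayley_hamilton_two, mul_sub, Matrix.mul_smul, Matrix.mul_smul,
          Matrix.mul_one, ← pow_succ]
      rw [e, Matrix.trace_sub, Matrix.trace_smul, Matrix.trace_smul, ih (k + 1) (by omega),
        ih k (by omega)]
      simp [trPow]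

theorem trace_pow_eq_of_trace_det_eq (A B : Matrix (Fin 2) (Fin 2) ℂ) (ht : A.trace = B.trace)
    (hd : A.det = B.det) (n : ℕ) : (A ^ n).trace = (B ^ n).trace := by
  rw [trace_pow_eq_trPow, trace_pow_eq_trPow, ht, hd]

/-! ## G3. Equal traces everywhere, from Frobenius elements -/

theorem trace_eq_of_frobenius (hcheb : ChebGen) (ρ0 ρ1 : Γℚ →* GL (Fin 2) ℂ)
    (h0 : GaloisFactorsThroughFiniteLevel ρ0) (h1 : GaloisFactorsThroughFiniteLevel ρ1)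
    (T : Finset ℕ)
    (hfrob : ∀ p : ℕ, p.Prime → p ∉ T →
      ∀ A : ValuationSubring (AlgebraicClosure ℚ), A.LiesOverPrime p →
        ∀ τ : Γℚ, A.IsFrobeniusAt τ p →
          ((ρ0 τ : GL (Fin 2) ℂ) : Matrix (Fin 2) (Fin 2) ℂ).trace =
            ((ρ1 τ : GL (Fin 2) ℂ) : Matrix (Fin 2) (Fin 2) ℂ).trace ∧
          ((ρ0 τ : GL (Fin 2) ℂ) : Matrix (Fin 2) (Fin 2) ℂ).det =
            ((ρ1 τ : GL (Fin 2) ℂ) : Matrix (Fin 2) (Fin 2) ℂ).det)
    (σ : Γℚ) :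
    ((ρ0 σ : GL (Fin 2) ℂ) : Matrix (Fin 2) (Fin 2) ℂ).trace =
      ((ρ1 σ : GL (Fin 2) ℂ) : Matrix (Fin 2) (Fin 2) ℂ).trace := by
  obtain ⟨L0, hL0, hρ0⟩ := h0
  obtain ⟨L1, hL1, hρ1⟩ := h1
  have := hL0
  have := hL1
  have : FiniteDimensional ℚ (L0 ⊔ L1 : IntermediateField ℚ (AlgebraicClosure ℚ)) :=
    IntermediateField.finiteDimensional_sup L0 L1
  obtain ⟨p, A, τ, n, hp, hpT, hA, hτ, hn⟩ := hcheb (L0 ⊔ L1) σ T
  have e0 : ρ0 σ = ρ0 τ ^ n := by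
    rw [← map_pow]
    exact eq_of_eqOn_level ρ0 L0 hρ0 σ (τ ^ n) fun x hx => (hn x (le_sup_left (a := L0) hx)).symm
  have e1 : ρ1 σ = ρ1 τ ^ n := by
    rw [← map_pow]
    exact eq_of_eqOn_level ρ1 L1 hρ1 σ (τ ^ n) fun x hx => (hn x (le_sup_right (b := L1) hx)).symm
  obtain ⟨ht, hd⟩ := hfrob p hp hpT A hA τ hτ
  rw [e0, e1, Units.val_pow_eq_pow_val, Units.val_pow_eq_pow_val]
  exact trace_pow_eq_of_trace_det_eq _ _ ht hd n

/-! ## G4. Conjugacy of two finite-level representations with the same Frobenius data -/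

/-- Equal traces on an arbitrary group, finite ranges ⟹ conjugate (reduction to
`conj_of_trace_eq` on the finite group `(ρ0.prod ρ1).range`). -/
theorem conj_of_trace_eq_of_finite_range {Γ : Type*} [Group Γ] (ρ0 ρ1 : Γ →* GL (Fin 2) ℂ)
    (hf0 : (Set.range ρ0).Finite) (hf1 : (Set.range ρ1).Finite)
    (htr : ∀ σ, ((ρ0 σ : GL (Fin 2) ℂ) : Matrix (Fin 2) (Fin 2) ℂ).trace =
      ((ρ1 σ : GL (Fin 2) ℂ) : Matrix (Fin 2) (Fin 2) ℂ).trace) :
    ∃ P : GL (Fin 2) ℂ, ∀ σ, ρ1 σ = P * ρ0 σ * P⁻¹ := by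
  let G : Subgroup (GL (Fin 2) ℂ × GL (Fin 2) ℂ) := (ρ0.prod ρ1).range
  have hGfin : (G : Set (GL (Fin 2) ℂ × GL (Fin 2) ℂ)).Finite := by
    refine (hf0.prod hf1).subset ?_
    rintro _ ⟨σ, rfl⟩
    exact ⟨⟨σ, rfl⟩, ⟨σ, rfl⟩⟩
  have : Finite G := hGfin.to_subtype
  let π0 : G →* GL (Fin 2) ℂ := (MonoidHom.fst _ _).comp G.subtype
  let π1 : G →* GL (Fin 2) ℂ := (MonoidHom.snd _ _).comp G.subtype
  have hπ : ∀ g : G, ((π0 g : GL (Fin 2) ℂ) : Matrix (Fin 2) (Fin 2) ℂ).trace =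
      ((π1 g : GL (Fin 2) ℂ) : Matrix (Fin 2) (Fin 2) ℂ).trace := by
    rintro ⟨_, ⟨σ, rfl⟩⟩
    exact htr σ
  obtain ⟨P, hP⟩ := conj_of_trace_eq π0 π1 hπ
  refine ⟨P, fun σ => ?_⟩
  exact hP ⟨(ρ0.prod ρ1) σ, ⟨σ, rfl⟩⟩

theorem conj_of_frobenius (hcheb : ChebGen) (ρ0 ρ1 : Γℚ →* GL (Fin 2) ℂ)
    (h0 : GaloisFactorsThroughFiniteLevel ρ0) (h1 : GaloisFactorsThroughFiniteLevel ρ1)
    (T : Finset ℕ)
    (hfrob : ∀ p : ℕ, p.Prime → p ∉ T →
      ∀ A : ValuationSubring (AlgebraicClosure ℚ), A.LiesOverPrime p →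
        ∀ τ : Γℚ, A.IsFrobeniusAt τ p →
          ((ρ0 τ : GL (Fin 2) ℂ) : Matrix (Fin 2) (Fin 2) ℂ).trace =
            ((ρ1 τ : GL (Fin 2) ℂ) : Matrix (Fin 2) (Fin 2) ℂ).trace ∧
          ((ρ0 τ : GL (Fin 2) ℂ) : Matrix (Fin 2) (Fin 2) ℂ).det =
            ((ρ1 τ : GL (Fin 2) ℂ) : Matrix (Fin 2) (Fin 2) ℂ).det) :
    ∃ P : GL (Fin 2) ℂ, ∀ σ, ρ1 σ = P * ρ0 σ * P⁻¹ :=
  conj_of_trace_eq_of_finite_range ρ0 ρ1 (finite_range_of_finiteLevel ρ0 h0)
    (finite_range_of_finiteLevel ρ1 h1) (trace_eq_of_frobenius hcheb ρ0 ρ1 h0 h1 T hfrob)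

/-! ## G5. (F8c) The two-prime comparison -/

/-- **(F8c)** If `ρ0` has the right local behaviour off `N ℓ0` and `ρ1` off `N ℓ1`
(`ℓ0 ≠ ℓ1` primes), then `ρ0` has the right local behaviour at every prime not dividing `N`. -/
theorem localOK_of_two_primes (hcheb : ChebGen) (N : ℕ) [NeZero N] (a e : ℕ → ℂ)
    (ℓ0 ℓ1 : ℕ) (hℓ0 : ℓ0.Prime) (hℓ1 : ℓ1.Prime) (hne : ℓ0 ≠ ℓ1)
    (ρ0 ρ1 : Γℚ →* GL (Fin 2) ℂ)
    (h0 : GaloisFactorsThroughFiniteLevel ρ0) (h1 : GaloisFactorsThroughFiniteLevel ρ1)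
    (hl0 : LocalOK (N * ℓ0) a e ρ0) (hl1 : LocalOK (N * ℓ1) a e ρ1) :
    LocalOK N a e ρ0 := by
  have hN : N ≠ 0 := NeZero.ne N
  have hnd : ∀ p ℓ : ℕ, p.Prime → ℓ.Prime → ¬ p ∣ N → p ≠ ℓ → ¬ p ∣ N * ℓ := by
    intro p ℓ hp hℓ hpN hpℓ hdvd
    rcases (Nat.Prime.dvd_mul hp).mp hdvd with h | h
    · exact hpN h
    · exact hpℓ ((Nat.prime_dvd_prime_iff_eq hp hℓ).mp h)
  obtain ⟨P, hP⟩ := conj_of_frobenius hcheb ρ0 ρ1 h0 h1 (N * ℓ0 * ℓ1).primeFactors (by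
    intro p hp hpT A hA τ hτ
    have hpd : ¬ p ∣ N * ℓ0 * ℓ1 := by
      intro hd
      exact hpT (Nat.mem_primeFactors.mpr
        ⟨hp, hd, mul_ne_zero (mul_ne_zero hN hℓ0.ne_zero) hℓ1.ne_zero⟩)
    have hp0 : ¬ p ∣ N * ℓ0 := fun hd => hpd (Dvd.dvd.mul_right hd ℓ1)
    have hp1 : ¬ p ∣ N * ℓ1 := fun hd => hpd (by
      have : N * ℓ0 * ℓ1 = N * ℓ1 * ℓ0 := by ring
      rw [this]
      exact Dvd.dvd.mul_right hd ℓ0)
    obtain ⟨t0, d0⟩ := (hl0 p hp hp0 A hA).2 τ hτ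
    obtain ⟨t1, d1⟩ := (hl1 p hp hp1 A hA).2 τ hτ
    exact ⟨t0.trans t1.symm, d0.trans d1.symm⟩)
  have hP' : ∀ σ, ρ0 σ = P⁻¹ * ρ1 σ * P := by
    intro σ
    rw [hP σ]
    group
  intro p hp hpN A hA
  by_cases hpl : p = ℓ0
  · subst hpl
    have hp1 : ¬ p ∣ N * ℓ1 := hnd p ℓ1 hp hℓ1 hpN hne
    obtain ⟨hin, hfr⟩ := hl1 p hp hp1 A hA
    refine ⟨fun σ hσ => ?_, fun σ hσ => ?_⟩
    · rw [hP' σ, hin σ hσ]
      group
    · obtain ⟨t1, d1⟩ := hfr σ hσ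
      rw [hP' σ]
      refine ⟨?_, ?_⟩
      · rw [trace_conj_GL]
        exact t1
      · rw [Units.val_mul, Units.val_mul, Matrix.det_mul, Matrix.det_mul, mul_right_comm,
          ← Matrix.det_mul, ← Units.val_mul, inv_mul_cancel, Units.val_one, Matrix.det_one,
          one_mul]
        exact d1
  · exact hl0 p hp (hnd p ℓ0 hp hℓ0 hpN hpl) A hA

/-! ## G6. Irreducibility in the frozen vocabulary -/

theorem isIrreducible_of_not_eigen {Γ : Type} [Group Γ] (ρ : Γ →* GL (Fin 2) ℂ)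
    (h : ¬ HasCommonEigenvector ρ) :
    (Deformation.matrixRepresentation ρ).IsIrreducible := by
  have hnt : (⊥ : Subrepresentation (Deformation.matrixRepresentation ρ)) ≠ ⊤ := by
    intro hbt
    have h2 := congrArg Subrepresentation.toSubmodule hbt
    have h3 : (⊥ : Submodule ℂ (Fin 2 → ℂ)) = ⊤ := h2
    exact bot_ne_top h3
  refine { exists_pair_ne := ⟨⊥, ⊤, hnt⟩, eq_bot_or_eq_top := fun W => ?_ }
  by_cases hb : W.toSubmodule = ⊥
  · left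
    exact Subrepresentation.toSubmodule_injective hb
  by_cases ht : W.toSubmodule = ⊤
  · right
    exact Subrepresentation.toSubmodule_injective ht
  exfalso
  apply h
  have hlt : Module.finrank ℂ W.toSubmodule < 2 := by
    have := Submodule.finrank_lt ht
    rwa [Module.finrank_fin_fun] at this
  have hpos : 0 < Module.finrank ℂ W.toSubmodule := by
    rw [Nat.pos_iff_ne_zero, Ne, Submodule.finrank_eq_zero]
    exact hb
  have h1 : Module.finrank ℂ W.toSubmodule = 1 := by omega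
  obtain ⟨⟨v, hvW⟩, hv0, hv⟩ := finrank_eq_one_iff'.mp h1
  refine ⟨v, fun hv' => hv0 (Subtype.ext hv'), fun g => ?_⟩
  have hmem : (Deformation.matrixRepresentation ρ g) v ∈ W.toSubmodule :=
    W.apply_mem_toSubmodule g hvW
  obtain ⟨c, hc⟩ := hv ⟨_, hmem⟩
  refine ⟨c, ?_⟩
  have hc' := congrArg Subtype.val hc
  simp only [Submodule.coe_smul, Deformation.matrixRepresentation_apply,
    Matrix.mulVecLin_apply] at hc'
  exact hc'.symm

end Fermat.Agent.S48.helper5841
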