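import Mathlib
import Fermat.Prelude.Def_GaloisRep_Residual
import Fermat.Prelude.Def_Deformations_MatrixRepresentation
import Fermat.Agent.S48.helper5841_FinishGalois

/-!
# S48-F8 (FINISH), backup copy by helper5841 — part 3: from congruences to equalities

* `CongZero ℓ x`            : `x` lies in a proper ideal containing `ℓ` of some subring of `ℂ`;
* `finite_setOf_congZero`   : a nonzero algebraic integer is `≡ 0` for finitely many primes;
* `trace_mem_traceSet`, `det_mem_detSet` : `A ^ M = 1` ⟹ `tr A`, `det A` lie in explicit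
                               finite sets of algebraic integers;
* `exact_of_congruent_family` : (F8d) a family `ρ_ℓ` (`ℓ` in an infinite set of primes) of
  uniformly bounded exponent whose Frobenius traces/determinants are congruent to `a p`, `e p`
  has exact traces/determinants for all but finitely many `ℓ`.
-/

set_option autoImplicit false

namespace Fermat.Agent.S48.helper5841

open Matrix Polynomial

local notation "Γℚ" => (AlgebraicClosure ℚ ≃ₐ[ℚ] AlgebraicClosure ℚ)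

/-- `x ≡ 0` modulo a proper ideal containing `ℓ` of a commutative ring embedded in `ℂ`. -/
def CongZero (ℓ : ℕ) (x : ℂ) : Prop :=
  ∃ (R : Type) (_ : CommRing R) (φ : R →+* ℂ) (I : Ideal R), Function.Injective φ ∧ I ≠ ⊤ ∧
    ((ℓ : ℕ) : R) ∈ I ∧ ∃ z : R, z ∈ I ∧ φ z = x

theorem dvd_coeff_zero_of_congZero {x : ℂ} {ℓ : ℕ} (hℓ : ℓ.Prime)
    (h : CongZero ℓ x) : (ℓ : ℤ) ∣ (minpoly ℤ x).coeff 0 := by
  obtain ⟨R, _, φ, I, hφ, hI, hℓI, z, hzI, hzx⟩ := h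
  set f := minpoly ℤ x with hf
  have h0 : aeval z f = 0 := by
    apply hφ
    have h1 : φ (aeval z f) = aeval (φ z) f :=
      (Polynomial.aeval_algHom_apply φ.toIntAlgHom z f).symm
    rw [h1, hzx, hf, minpoly.aeval, map_zero]
  have h1 : aeval z f = aeval z (divX f) * z + ((f.coeff 0 : ℤ) : R) := by
    conv_lhs => rw [← divX_mul_X_add f]
    simp
  have hc : ((f.coeff 0 : ℤ) : R) ∈ I := by
    have : ((f.coeff 0 : ℤ) : R) = -(aeval z (divX f) * z) := by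
      rw [h0] at h1
      linear_combination -h1
    rw [this]
    exact I.neg_mem (I.mul_mem_left _ hzI)
  by_contra hnd
  have hcop : IsCoprime (ℓ : ℤ) (f.coeff 0) := by
    have hp : Prime (ℓ : ℤ) := Nat.prime_iff_prime_int.mp hℓ
    exact (Prime.coprime_iff_not_dvd hp).mpr hnd
  obtain ⟨u, v, huv⟩ := hcop
  apply hI
  rw [Ideal.eq_top_iff_one]
  have : (1 : R) = (u : R) * ((ℓ : ℕ) : R) + (v : R) * ((f.coeff 0 : ℤ) : R) := by
    have := congrArg (fun n : ℤ => (n : R)) huv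
    simp only [Int.cast_add, Int.cast_mul, Int.cast_natCast, Int.cast_one] at this
    exact this.symm
  rw [this]
  exact I.add_mem (I.mul_mem_left _ hℓI) (I.mul_mem_left _ hc)

theorem finite_setOf_congZero {x : ℂ} (hx : IsIntegral ℤ x) (hx0 : x ≠ 0) :
    {ℓ : ℕ | ℓ.Prime ∧ CongZero ℓ x}.Finite := by
  have hc0 : (minpoly ℤ x).coeff 0 ≠ 0 := by
    have h1 := minpoly.isIntegrallyClosed_eq_field_fractions' ℚ hx
    have h2 : (minpoly ℚ x).coeff 0 ≠ 0 := minpoly.coeff_zero_ne_zero hx.tower_top hx0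
    intro h3
    apply h2
    rw [h1, Polynomial.coeff_map, h3, map_zero]
  refine Set.Finite.subset ((minpoly ℤ x).coeff 0).natAbs.primeFactors.finite_toSet ?_
  rintro ℓ ⟨hℓ, hcong⟩
  have hd := dvd_coeff_zero_of_congZero hℓ hcong
  simp only [Finset.mem_coe, Nat.mem_primeFactors]
  exact ⟨hℓ, Int.natCast_dvd.mp hd, Int.natAbs_ne_zero.mpr hc0⟩

/-! ## Traces and determinants of matrices of finite exponent -/

/-- Sums of two `M`-th roots of unity. -/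
def traceSet (M : ℕ) : Set ℂ := {x | ∃ l m : ℂ, l ^ M = 1 ∧ m ^ M = 1 ∧ x = l + m}

/-- Products of two `M`-th roots of unity. -/
def detSet (M : ℕ) : Set ℂ := {x | ∃ l m : ℂ, l ^ M = 1 ∧ m ^ M = 1 ∧ x = l * m}

theorem finite_setOf_pow_eq_one {M : ℕ} (hM : 0 < M) : {z : ℂ | z ^ M = 1}.Finite := by
  refine Set.Finite.subset (Polynomial.nthRoots M (1 : ℂ)).toFinset.finite_toSet ?_
  intro z hz
  simp only [Finset.mem_coe, Multiset.mem_toFinset]
  exact (Polynomial.mem_nthRoots hM).mpr hz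

theorem traceSet_finite {M : ℕ} (hM : 0 < M) : (traceSet M).Finite := by
  have h := (finite_setOf_pow_eq_one hM).prod (finite_setOf_pow_eq_one hM)
  refine Set.Finite.subset (h.image fun q : ℂ × ℂ => q.1 + q.2) ?_
  rintro x ⟨l, m, hl, hm, rfl⟩
  exact ⟨(l, m), ⟨hl, hm⟩, rfl⟩

theorem detSet_finite {M : ℕ} (hM : 0 < M) : (detSet M).Finite := by
  have h := (finite_setOf_pow_eq_one hM).prod (finite_setOf_pow_eq_one hM)
  refine Set.Finite.subset (h.image fun q : ℂ × ℂ => q.1 * q.2) ?_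
  rintro x ⟨l, m, hl, hm, rfl⟩
  exact ⟨(l, m), ⟨hl, hm⟩, rfl⟩

theorem isIntegral_of_pow_eq_one {M : ℕ} (hM : 0 < M) {z : ℂ} (hz : z ^ M = 1) :
    IsIntegral ℤ z :=
  IsIntegral.of_pow hM (hz ▸ isIntegral_one)

theorem isIntegral_of_mem_traceSet {M : ℕ} (hM : 0 < M) {x : ℂ} (hx : x ∈ traceSet M) :
    IsIntegral ℤ x := by
  obtain ⟨l, m, hl, hm, rfl⟩ := hx
  exact (isIntegral_of_pow_eq_one hM hl).add (isIntegral_of_pow_eq_one hM hm)

theorem isIntegral_of_mem_detSet {M : ℕ} (hM : 0 < M) {x : ℂ} (hx : x ∈ detSet M) :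
    IsIntegral ℤ x := by
  obtain ⟨l, m, hl, hm, rfl⟩ := hx
  exact (isIntegral_of_pow_eq_one hM hl).mul (isIntegral_of_pow_eq_one hM hm)

theorem pow_mulVec_of_eigen (A : Matrix (Fin 2) (Fin 2) ℂ) (v : Fin 2 → ℂ) (l : ℂ)
    (h : A *ᵥ v = l • v) (n : ℕ) : (A ^ n) *ᵥ v = l ^ n • v := by
  induction n with
  | zero => simp
  | succ k ih =>
    rw [pow_succ, ← Matrix.mulVec_mulVec, h, Matrix.mulVec_smul, ih, smul_smul, pow_succ,
      mul_comm]

/-- A root of the characteristic polynomial of a matrix with `A ^ M = 1` is an `M`-th root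
of unity. -/
theorem pow_eq_one_of_root (A : Matrix (Fin 2) (Fin 2) ℂ) {M : ℕ} (hA : A ^ M = 1) (l : ℂ)
    (hl : l ^ 2 - A.trace * l + A.det = 0) : l ^ M = 1 := by
  have hdet : (A - l • (1 : Matrix (Fin 2) (Fin 2) ℂ)).det = 0 := by
    rw [← hl]
    simp [Matrix.det_fin_two, Matrix.trace_fin_two]
    ring
  obtain ⟨v, hv, hAv⟩ := Matrix.exists_mulVec_eq_zero_iff.mpr hdet
  have hev : A *ᵥ v = l • v := by
    rw [Matrix.sub_mulVec, Matrix.smul_mulVec, Matrix.one_mulVec, sub_eq_zero] at hAv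
    exact hAv
  have h1 := pow_mulVec_of_eigen A v l hev M
  rw [hA, Matrix.one_mulVec] at h1
  have h2 : (1 : ℂ) • v = l ^ M • v := by rw [one_smul]; exact h1
  exact (smul_left_injective ℂ hv h2).symm

theorem trace_det_mem_of_pow_eq_one (A : Matrix (Fin 2) (Fin 2) ℂ) {M : ℕ} (hA : A ^ M = 1) :
    A.trace ∈ traceSet M ∧ A.det ∈ detSet M := by
  obtain ⟨s, hs⟩ := IsAlgClosed.exists_eq_mul_self (A.trace ^ 2 - 4 * A.det)
  set l : ℂ := (A.trace + s) / 2 with hl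
  set m : ℂ := A.trace - l with hm
  have h1 : l ^ 2 - A.trace * l + A.det = 0 := by
    rw [hl]
    linear_combination (-1 / 4 : ℂ) * hs
  have h2 : m ^ 2 - A.trace * m + A.det = 0 := by
    rw [hm]
    linear_combination h1
  have hlM := pow_eq_one_of_root A hA l h1
  have hmM := pow_eq_one_of_root A hA m h2
  refine ⟨⟨l, m, hlM, hmM, by rw [hm]; ring⟩, ⟨l, m, hlM, hmM, ?_⟩⟩
  rw [hm]
  linear_combination h1

/-! ## (F8d) Congruent family ⟹ exact family -/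

theorem not_dvd_mul_of_ne {p ℓ N : ℕ} (hp : p.Prime) (hℓ : ℓ.Prime) (hpN : ¬ p ∣ N)
    (hpℓ : p ≠ ℓ) : ¬ p ∣ N * ℓ := by
  intro hdvd
  rcases (Nat.Prime.dvd_mul hp).mp hdvd with h | h
  · exact hpN h
  · exact hpℓ ((Nat.prime_dvd_prime_iff_eq hp hℓ).mp h)

/-- **(F8d)** Let `ρ ℓ` (`ℓ ∈ 𝒮`, an infinite set of primes) be homomorphisms to `GL₂(ℂ)` of
exponent dividing `M`, whose traces and determinants at Frobenius elements at `p ∤ N ℓ` are
congruent to `a p`, `e p` (algebraic integers) modulo a proper ideal containing `ℓ`.  Then for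
all `ℓ ∈ 𝒮` outside a finite set the traces and determinants are *equal* to `a p`, `e p`. -/
theorem exact_of_congruent_family (N : ℕ) (a e : ℕ → ℂ) (M : ℕ) (hM : 0 < M) (𝒮 : Set ℕ)
    (h𝒮 : 𝒮.Infinite) (h𝒮p : ∀ ℓ ∈ 𝒮, ℓ.Prime) (ρ : ℕ → (Γℚ →* GL (Fin 2) ℂ))
    (hord : ∀ ℓ ∈ 𝒮, ∀ σ, ρ ℓ σ ^ M = 1)
    (hint : ∀ ℓ ∈ 𝒮, ∀ p : ℕ, p.Prime → ¬ p ∣ N * ℓ →
      ∀ A : ValuationSubring (AlgebraicClosure ℚ), A.LiesOverPrime p →
        ∀ σ : Γℚ, A.IsFrobeniusAt σ p → IsIntegral ℤ (a p) ∧ IsIntegral ℤ (e p))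
    (hcong : ∀ ℓ ∈ 𝒮, ∀ p : ℕ, p.Prime → ¬ p ∣ N * ℓ →
      ∀ A : ValuationSubring (AlgebraicClosure ℚ), A.LiesOverPrime p →
        ∀ σ : Γℚ, A.IsFrobeniusAt σ p →
          CongZero ℓ (((ρ ℓ σ : GL (Fin 2) ℂ) : Matrix (Fin 2) (Fin 2) ℂ).trace - a p) ∧
          CongZero ℓ (((ρ ℓ σ : GL (Fin 2) ℂ) : Matrix (Fin 2) (Fin 2) ℂ).det - e p)) :
    ∃ T : Set ℕ, T.Finite ∧ ∀ ℓ ∈ 𝒮, ℓ ∉ T → ∀ p : ℕ, p.Prime → ¬ p ∣ N * ℓ →
      ∀ A : ValuationSubring (AlgebraicClosure ℚ), A.LiesOverPrime p →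
        ∀ σ : Γℚ, A.IsFrobeniusAt σ p →
          ((ρ ℓ σ : GL (Fin 2) ℂ) : Matrix (Fin 2) (Fin 2) ℂ).trace = a p ∧
          ((ρ ℓ σ : GL (Fin 2) ℂ) : Matrix (Fin 2) (Fin 2) ℂ).det = e p := by
  have hmem : ∀ ℓ ∈ 𝒮, ∀ σ : Γℚ,
      ((ρ ℓ σ : GL (Fin 2) ℂ) : Matrix (Fin 2) (Fin 2) ℂ).trace ∈ traceSet M ∧
      ((ρ ℓ σ : GL (Fin 2) ℂ) : Matrix (Fin 2) (Fin 2) ℂ).det ∈ detSet M := by
    intro ℓ hℓ σ
    apply trace_det_mem_of_pow_eq_one
    rw [← Units.val_pow_eq_pow_val, hord ℓ hℓ σ, Units.val_one]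
  -- Step 1: the targets lie in the finite sets
  have step1 : ∀ p : ℕ, p.Prime → ¬ p ∣ N →
      ∀ A : ValuationSubring (AlgebraicClosure ℚ), A.LiesOverPrime p →
        ∀ σ : Γℚ, A.IsFrobeniusAt σ p → a p ∈ traceSet M ∧ e p ∈ detSet M := by
    intro p hp hpN A hA σ hσ
    obtain ⟨ha, he⟩ : IsIntegral ℤ (a p) ∧ IsIntegral ℤ (e p) := by
      obtain ⟨ℓ, hℓ𝒮, hℓn⟩ := (h𝒮.sdiff (Set.finite_singleton p)).nonempty
      have hℓp : p ≠ ℓ := fun h => hℓn (by simp [h])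
      exact hint ℓ hℓ𝒮 p hp (not_dvd_mul_of_ne hp (h𝒮p ℓ hℓ𝒮) hpN hℓp) A hA σ hσ
    constructor
    · by_contra hnot
      have hfin : (⋃ t ∈ traceSet M, {ℓ : ℕ | ℓ.Prime ∧ CongZero ℓ (t - a p)}).Finite := by
        refine Set.Finite.biUnion (traceSet_finite hM) fun t ht => ?_
        exact finite_setOf_congZero ((isIntegral_of_mem_traceSet hM ht).sub ha)
          (sub_ne_zero.mpr fun h => hnot (h ▸ ht))
      obtain ⟨ℓ, hℓ𝒮, hℓn⟩ := (h𝒮.sdiff (hfin.union (Set.finite_singleton p))).nonempty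
      have hℓp : p ≠ ℓ := fun h => hℓn (Or.inr (by simp [h]))
      have hc := (hcong ℓ hℓ𝒮 p hp (not_dvd_mul_of_ne hp (h𝒮p ℓ hℓ𝒮) hpN hℓp) A hA σ hσ).1
      apply hℓn
      left
      simp only [Set.mem_iUnion, Set.mem_ofPred_eq, exists_prop]
      exact ⟨_, (hmem ℓ hℓ𝒮 σ).1, h𝒮p ℓ hℓ𝒮, hc⟩
    · by_contra hnot
      have hfin : (⋃ t ∈ detSet M, {ℓ : ℕ | ℓ.Prime ∧ CongZero ℓ (t - e p)}).Finite := by
        refine Set.Finite.biUnion (detSet_finite hM) fun t ht => ?_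
        exact finite_setOf_congZero ((isIntegral_of_mem_detSet hM ht).sub he)
          (sub_ne_zero.mpr fun h => hnot (h ▸ ht))
      obtain ⟨ℓ, hℓ𝒮, hℓn⟩ := (h𝒮.sdiff (hfin.union (Set.finite_singleton p))).nonempty
      have hℓp : p ≠ ℓ := fun h => hℓn (Or.inr (by simp [h]))
      have hc := (hcong ℓ hℓ𝒮 p hp (not_dvd_mul_of_ne hp (h𝒮p ℓ hℓ𝒮) hpN hℓp) A hA σ hσ).2
      apply hℓn
      left
      simp only [Set.mem_iUnion, Set.mem_ofPred_eq, exists_prop]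
      exact ⟨_, (hmem ℓ hℓ𝒮 σ).2, h𝒮p ℓ hℓ𝒮, hc⟩
  -- Step 2: the separating set
  let W : Set ℂ := traceSet M ∪ detSet M
  have hW : W.Finite := (traceSet_finite hM).union (detSet_finite hM)
  have hWint : ∀ x ∈ W, IsIntegral ℤ x := by
    rintro x (hx | hx)
    · exact isIntegral_of_mem_traceSet hM hx
    · exact isIntegral_of_mem_detSet hM hx
  let T : Set ℕ := ⋃ x ∈ W, ⋃ y ∈ W, {ℓ : ℕ | x ≠ y ∧ ℓ.Prime ∧ CongZero ℓ (x - y)}
  have hT : T.Finite := by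
    refine Set.Finite.biUnion hW fun x hx => Set.Finite.biUnion hW fun y hy => ?_
    by_cases hxy : x = y
    · have : {ℓ : ℕ | x ≠ y ∧ ℓ.Prime ∧ CongZero ℓ (x - y)} = ∅ := by
        ext ℓ
        simp [hxy]
      rw [this]
      exact Set.finite_empty
    · refine Set.Finite.subset (finite_setOf_congZero ((hWint x hx).sub (hWint y hy))
        (sub_ne_zero.mpr hxy)) ?_
      rintro ℓ ⟨-, h1, h2⟩
      exact ⟨h1, h2⟩
  refine ⟨T, hT, ?_⟩
  intro ℓ hℓ𝒮 hℓT p hp hpNℓ A hA σ hσ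
  have hpN : ¬ p ∣ N := fun h => hpNℓ (Dvd.dvd.mul_right h ℓ)
  obtain ⟨hat, hed⟩ := step1 p hp hpN A hA σ hσ
  obtain ⟨ht, hd⟩ := hmem ℓ hℓ𝒮 σ
  obtain ⟨hc1, hc2⟩ := hcong ℓ hℓ𝒮 p hp hpNℓ A hA σ hσ
  constructor
  · by_contra hne
    apply hℓT
    simp only [T, Set.mem_iUnion, Set.mem_ofPred_eq, exists_prop]
    exact ⟨_, Or.inl ht, _, Or.inl hat, hne, h𝒮p ℓ hℓ𝒮, hc1⟩
  · by_contra hne
    apply hℓT
    simp only [T, Set.mem_iUnion, Set.mem_ofPred_eq, exists_prop]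
    exact ⟨_, Or.inr hd, _, Or.inr hed, hne, h𝒮p ℓ hℓ𝒮, hc2⟩

end Fermat.Agent.S48.helper5841
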