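import Mathlib
import Fermat.Agent.S48.helper8231_Spec
import Fermat.Agent.Lib.helper74_GenChebQbar
import Fermat.Agent.S48.helper5841_FinishCong

/-!
# S48 endgame (E2, E3, E4) in the shapes of the captain's Spec — backup copy by helper5841

* `stmt_Glue  : Stmt_Glue`   (unconditional; conjugacy via the landed generator-Chebotarev);
* `stmt_Exact : Stmt_Exact`  (unconditional; pigeonhole on sums of two roots of unity);
* `stmt_Irred_of : Stmt_ChebDensity → Stmt_Irred`.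
-/

set_option autoImplicit false

namespace Fermat.Agent.S48.helper5841

open Matrix
open Fermat.Agent.S48.helper8231

/-- The landed generator-Chebotarev, in the shape consumed here. -/
theorem chebGen : ChebGen := fun L _ σ T =>
  Fermat.Agent.Lib.helper74.exists_frobenius_pow_eq L σ T

/-- **(E3, GLUE)**, unconditional. -/
theorem stmt_Glue : Stmt_Glue := by
  intro a d S S' ρ ρ' hS hS' hρ hρ'
  obtain ⟨h0, hl0⟩ := hρ
  obtain ⟨h1, hl1⟩ := hρ'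
  obtain ⟨P, hP⟩ := conj_of_frobenius chebGen ρ ρ' h0 h1 (S * S').primeFactors (by
    intro p hp hpT A hA τ hτ
    have hpd : ¬ p ∣ S * S' := fun hd =>
      hpT (Nat.mem_primeFactors.mpr ⟨hp, hd, mul_ne_zero hS hS'⟩)
    have hp0 : ¬ p ∣ S := fun hd => hpd (Dvd.dvd.mul_right hd S')
    have hp1 : ¬ p ∣ S' := fun hd => hpd (Dvd.dvd.mul_left hd S)
    obtain ⟨t0, d0⟩ := (hl0 p hp hp0 A hA).2 τ hτ
    obtain ⟨t1, d1⟩ := (hl1 p hp hp1 A hA).2 τ hτ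
    exact ⟨t0.trans t1.symm, d0.trans d1.symm⟩)
  have hP' : ∀ σ, ρ σ = P⁻¹ * ρ' σ * P := by
    intro σ
    rw [hP σ]
    group
  refine ⟨h0, ?_⟩
  intro p hp hpS' A hA
  obtain ⟨hin, hfr⟩ := hl1 p hp hpS' A hA
  refine ⟨fun σ hσ => ?_, fun σ hσ => ?_⟩
  · rw [hP' σ, hin σ hσ]
    group
  · obtain ⟨t1, d1⟩ := hfr σ hσ
    rw [hP' σ]
    exact ⟨by rw [trace_conj_GL]; exact t1, by rw [det_conj_GL]; exact d1⟩

/-- An element of a finite range of size `≤ B0` has exponent dividing `B0!`. -/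
theorem pow_factorial_eq_one_of_range {Γ H : Type*} [Group Γ] [Group H] (ρ : Γ →* H)
    (hfin : (Set.range ρ).Finite) (B0 : ℕ) (hcard : (Set.range ρ).ncard ≤ B0) (σ : Γ) :
    ρ σ ^ B0.factorial = 1 := by
  have hfin' : (ρ.range : Set H).Finite := by rwa [MonoidHom.coe_range]
  have : Finite ρ.range := hfin'.to_subtype
  have hc : Nat.card ρ.range ≤ B0 := by
    have : Nat.card ρ.range = (Set.range ρ).ncard := by
      rw [← Nat.card_coe_set_eq, ← MonoidHom.coe_range]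
      rfl
    rw [this]
    exact hcard
  have h1 : (⟨ρ σ, ⟨σ, rfl⟩⟩ : ρ.range) ^ Nat.card ρ.range = 1 := pow_card_eq_one'
  obtain ⟨k, hk⟩ := Nat.dvd_factorial Nat.card_pos hc
  have h2 : (⟨ρ σ, ⟨σ, rfl⟩⟩ : ρ.range) ^ B0.factorial = 1 := by
    rw [hk, pow_mul, h1, one_pow]
  exact congrArg Subtype.val h2

/-- **(E2, EXACT)**, unconditional. -/
theorem stmt_Exact : Stmt_Exact := by
  intro a d B0 B hinf
  set 𝒮 : Set ℕ := {ℓ : ℕ | ℓ.Prime ∧ HasCongLift B0 B a d ℓ} with h𝒮def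
  have hch : ∀ ℓ : ℕ, ∃ ρ : GQ →* GL (Fin 2) ℂ, ℓ ∈ 𝒮 →
      ∃ 𝔪 : Ideal Zc, 𝔪.IsMaximal ∧ (ℓ : Zc) ∈ 𝔪 ∧ IsCongLift 𝔪 B0 (B * ℓ) a d ρ := by
    intro ℓ
    by_cases h : ℓ ∈ 𝒮
    · obtain ⟨𝔪, hm, hℓm, ρ, hρ⟩ := h.2
      exact ⟨ρ, fun _ => ⟨𝔪, hm, hℓm, hρ⟩⟩
    · exact ⟨1, fun h' => absurd h' h⟩
  choose ρ hρ using hch
  have hM : 0 < B0.factorial := Nat.factorial_pos _
  have hord : ∀ ℓ ∈ 𝒮, ∀ σ, ρ ℓ σ ^ B0.factorial = 1 := by
    intro ℓ hℓ σ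
    obtain ⟨𝔪, hm, hℓm, hlev, hfin, hcard, hloc⟩ := hρ ℓ hℓ
    exact pow_factorial_eq_one_of_range (ρ ℓ) hfin B0 hcard σ
  have hint : ∀ ℓ ∈ 𝒮, ∀ p : ℕ, p.Prime → ¬ p ∣ B * ℓ →
      ∀ A : ValuationSubring (AlgebraicClosure ℚ), A.LiesOverPrime p →
        ∀ σ : GQ, A.IsFrobeniusAt σ p → IsIntegral ℤ (a p) ∧ IsIntegral ℤ (d p) := by
    intro ℓ hℓ p hp hpS A hA σ hσ
    obtain ⟨𝔪, hm, hℓm, hlev, hfin, hcard, hloc⟩ := hρ ℓ hℓ
    obtain ⟨t, δ, t', δ', ht, hδ, ht', hδ', -, -⟩ := (hloc p hp hpS A hA).2 σ hσ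
    exact ⟨ht' ▸ t'.2, hδ' ▸ δ'.2⟩
  have hcong : ∀ ℓ ∈ 𝒮, ∀ p : ℕ, p.Prime → ¬ p ∣ B * ℓ →
      ∀ A : ValuationSubring (AlgebraicClosure ℚ), A.LiesOverPrime p →
        ∀ σ : GQ, A.IsFrobeniusAt σ p →
          CongZero ℓ (((ρ ℓ σ : GL (Fin 2) ℂ) : Matrix (Fin 2) (Fin 2) ℂ).trace - a p) ∧
          CongZero ℓ (((ρ ℓ σ : GL (Fin 2) ℂ) : Matrix (Fin 2) (Fin 2) ℂ).det - d p) := by
    intro ℓ hℓ p hp hpS A hA σ hσ
    obtain ⟨𝔪, hm, hℓm, hlev, hfin, hcard, hloc⟩ := hρ ℓ hℓ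
    obtain ⟨t, δ, t', δ', ht, hδ, ht', hδ', htm, hδm⟩ := (hloc p hp hpS A hA).2 σ hσ
    refine ⟨⟨Zc, inferInstance, algebraMap Zc ℂ, 𝔪, Subtype.val_injective, hm.ne_top, hℓm,
      t - t', htm, ?_⟩, ⟨Zc, inferInstance, algebraMap Zc ℂ, 𝔪, Subtype.val_injective,
      hm.ne_top, hℓm, δ - δ', hδm, ?_⟩⟩
    · rw [map_sub, ← ht, ← ht']
      rfl
    · rw [map_sub, ← hδ, ← hδ']
      rfl
  obtain ⟨T, hT, hex⟩ := exact_of_congruent_family B a d B0.factorial hM 𝒮 hinf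
    (fun ℓ hℓ => hℓ.1) ρ hord hint hcong
  refine (hinf.sdiff hT).mono ?_
  rintro ℓ ⟨hℓ𝒮, hℓT⟩
  obtain ⟨𝔪, hm, hℓm, hlev, hfin, hcard, hloc⟩ := hρ ℓ hℓ𝒮
  refine ⟨hℓ𝒮.1, ρ ℓ, hlev, ?_⟩
  intro p hp hpS A hA
  exact ⟨(hloc p hp hpS A hA).1, fun σ hσ => hex ℓ hℓ𝒮 hℓT p hp hpS A hA σ hσ⟩

/-! ## (E4, IRRED) from the Chebotarev density bound -/

theorem log_one_add_ge {y : ℝ} (hy : 0 ≤ y) : y - y ^ 2 ≤ Real.log (1 + y) := by
  have h1 : 0 < 1 + y := by linarith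
  have h2 := Real.one_sub_inv_le_log_of_pos h1
  have h3 : y - y ^ 2 ≤ 1 - (1 + y)⁻¹ := by
    have e : 1 - (1 + y)⁻¹ = y / (1 + y) := by
      field_simp
      ring
    rw [e, le_div_iff₀ h1]
    nlinarith [pow_nonneg hy 3]
  linarith

theorem sum_inv_sq_le (P : Finset ℕ) :
    ∑ p ∈ P, 1 / (p : ℝ) ^ 2 ≤ ∑' n : ℕ, 1 / (n : ℝ) ^ 2 :=
  (Real.summable_one_div_nat_pow.mpr one_lt_two).sum_le_tsum P (fun n _ => by positivity)

/-- **(E4, IRRED)** from `Stmt_ChebDensity`. -/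
theorem stmt_Irred_of (hcheb : Stmt_ChebDensity) : Stmt_Irred := by
  intro N a d ρ hN hrank hgood
  apply isIrreducible_of_not_eigen
  intro hred
  obtain ⟨hlev, hloc⟩ := hgood
  obtain ⟨n, b, CR, hconj, hR⟩ := hrank
  obtain ⟨i, hi⟩ := hconj (RingEquiv.refl ℂ)
  have hRank : ∀ P : Finset ℕ, (∀ p ∈ P, p.Prime ∧ ¬ p ∣ N) → ∀ s : ℝ, 1 < s → s ≤ 2 →
      ∑ p ∈ P, Real.log (1 + ‖a p‖ ^ 2 * (p : ℝ) ^ (-s)) ≤ Real.log (1 / (s - 1)) + CR := by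
    intro P hP s hs hs2
    have h := hR i P hP s hs hs2
    have e : ∑ p ∈ P, Real.log (1 + ‖a p‖ ^ 2 * (p : ℝ) ^ (-s)) =
        ∑ p ∈ P, Real.log (1 + ‖b i p‖ ^ 2 * (p : ℝ) ^ (-s)) := by
      refine Finset.sum_congr rfl fun p hp => ?_
      have := hi p (hP p hp).1 (hP p hp).2
      rw [← this]
      rfl
    rw [e]
    exact h
  classical
  let G : Subgroup (GL (Fin 2) ℂ) := ρ.range
  have hGfin : Finite G := by
    have h1 := finite_range_of_finiteLevel ρ hlev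
    rw [← MonoidHom.coe_range] at h1
    exact h1.to_subtype
  let _ : Fintype G := Fintype.ofFinite G
  let π : GQ →* G := ρ.rangeRestrict
  have hπs : Function.Surjective π := ρ.rangeRestrict_surjective
  have hπl : GaloisFactorsThroughFiniteLevel π := by
    obtain ⟨L, hL, hρL⟩ := hlev
    exact ⟨L, hL, fun σ hσ => Subtype.ext (hρL σ hσ)⟩
  let ι : G →* GL (Fin 2) ℂ := G.subtype
  have hι : HasCommonEigenvector ι := by
    obtain ⟨v, hv, hev⟩ := hred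
    refine ⟨v, hv, ?_⟩
    rintro ⟨_, ⟨σ, rfl⟩⟩
    exact hev σ
  have hF8b := two_card_le_sum_normSq_trace ι hι
  let f : G → ℝ := fun g =>
    Complex.normSq ((ι g : GL (Fin 2) ℂ) : Matrix (Fin 2) (Fin 2) ℂ).trace
  have hf0 : ∀ g, 0 ≤ f g := fun g => Complex.normSq_nonneg _
  let V : Finset ℝ := Finset.univ.image f
  have hV0 : ∀ c ∈ V, 0 ≤ c := by
    intro c hc
    obtain ⟨g, -, rfl⟩ := Finset.mem_image.mp hc
    exact hf0 g
  let T : ℝ → Set G := fun c => {g | f g = c}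
  have hTconj : ∀ c : ℝ, ∀ g h : G, h ∈ T c → g * h * g⁻¹ ∈ T c := by
    intro c g h hh
    show f (g * h * g⁻¹) = c
    rw [← (hh : f h = c)]
    show Complex.normSq _ = Complex.normSq _
    congr 1
    have := trace_conj_GL (ι g)⁻¹ (ι h)
    rw [inv_inv] at this
    rw [map_mul, map_mul, map_inv]
    exact this
  have hTinv : ∀ c : ℝ, ∀ h ∈ T c, h⁻¹ ∈ T c := by
    intro c h hh
    show f h⁻¹ = c
    rw [← (hh : f h = c)]
    show Complex.normSq _ = Complex.normSq _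
    rw [trace_inv_eq_star ι h, Complex.star_def, Complex.normSq_conj]
  -- the constants
  set K : ℝ := ∑ c ∈ V, c with hK
  have hK0 : 0 ≤ K := Finset.sum_nonneg hV0
  set e : ℝ := 1 / (2 * (K + 1)) with he
  have he0 : 0 < e := by positivity
  have heK : e * K ≤ 1 / 2 := by
    rw [he, div_mul_eq_mul_div, one_mul, div_le_div_iff₀ (by positivity) (by norm_num)]
    nlinarith
  choose Cc hCc using fun c : ℝ =>
    hcheb G π hπs hπl (T c) (hTconj c) (hTinv c) N hN e he0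
  set Z : ℝ := ∑' n : ℕ, 1 / (n : ℝ) ^ 2 with hZ
  set K2 : ℝ := CR + ∑ c ∈ V, c * Cc c + Z * ∑ c ∈ V, c ^ 2 with hK2
  set x : ℝ := 2 * |K2| + 2 with hx
  have hx0 : 0 < x := by positivity
  set s : ℝ := 1 + Real.exp (-x) with hs
  have hs1 : 1 < s := by
    rw [hs]
    linarith [Real.exp_pos (-x)]
  have hs2 : s ≤ 2 := by
    have : Real.exp (-x) ≤ 1 := Real.exp_le_one_iff.mpr (by linarith)
    rw [hs]
    linarith
  have hL : Real.log (1 / (s - 1)) = x := by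
    rw [hs, add_sub_cancel_left, one_div, ← Real.exp_neg, neg_neg, Real.log_exp]
  choose Pc hPc using fun c : ℝ => hCc c s hs1 hs2
  have hval : ∀ c : ℝ, ∀ p ∈ Pc c, ‖a p‖ ^ 2 = c := by
    intro c p hp
    obtain ⟨hpp, hpN, A, hA, σ, hσ, hmem⟩ := (hPc c).1 p hp
    have h1 : f (π σ) = c := hmem
    have h2 := ((hloc p hpp hpN A hA).2 σ hσ).1
    rw [Complex.sq_norm, ← h2]
    exact h1
  have hprime : ∀ c : ℝ, ∀ p ∈ Pc c, p.Prime ∧ ¬ p ∣ N :=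
    fun c p hp => ⟨((hPc c).1 p hp).1, ((hPc c).1 p hp).2.1⟩
  have hdisj : (V : Set ℝ).PairwiseDisjoint Pc := by
    intro c _ c' _ hne
    exact Finset.disjoint_left.mpr fun p hp hp' =>
      hne (by rw [← hval c p hp, hval c' p hp'])
  have hR1 := hRank (V.biUnion Pc) (by
    intro p hp
    obtain ⟨c, -, hpc⟩ := Finset.mem_biUnion.mp hp
    exact hprime c p hpc) s hs1 hs2
  rw [Finset.sum_biUnion hdisj, hL] at hR1
  have hlow : ∀ c ∈ V,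
      c * (((Nat.card (T c) : ℝ) / (Nat.card G : ℝ) - e) * x - Cc c) - c ^ 2 * Z ≤
        ∑ p ∈ Pc c, Real.log (1 + ‖a p‖ ^ 2 * (p : ℝ) ^ (-s)) := by
    intro c hc
    have hc0 := hV0 c hc
    have h1 : ∀ p ∈ Pc c, c * (p : ℝ) ^ (-s) - c ^ 2 * (1 / (p : ℝ) ^ 2) ≤
        Real.log (1 + ‖a p‖ ^ 2 * (p : ℝ) ^ (-s)) := by
      intro p hp
      rw [hval c p hp]
      have hp1 : (1 : ℝ) ≤ p := by exact_mod_cast (hprime c p hp).1.one_le
      have hpp : (0 : ℝ) < p := by linarith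
      have hy0 : 0 ≤ (p : ℝ) ^ (-s) := Real.rpow_nonneg hpp.le _
      have hy1 : (p : ℝ) ^ (-s) ≤ 1 / (p : ℝ) := by
        rw [one_div, ← Real.rpow_neg_one]
        exact Real.rpow_le_rpow_of_exponent_le hp1 (by linarith)
      have h2 := log_one_add_ge (mul_nonneg hc0 hy0)
      have h3 : (c * (p : ℝ) ^ (-s)) ^ 2 ≤ c ^ 2 * (1 / (p : ℝ) ^ 2) := by
        rw [mul_pow, ← _root_.one_div_pow]
        exact mul_le_mul_of_nonneg_left (pow_le_pow_left₀ hy0 hy1 2) (sq_nonneg c)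
      linarith
    have h4 := Finset.sum_le_sum h1
    rw [Finset.sum_sub_distrib, ← Finset.mul_sum, ← Finset.mul_sum] at h4
    have h5 : ∑ p ∈ Pc c, 1 / (p : ℝ) ^ 2 ≤ Z := sum_inv_sq_le (Pc c)
    have h6 := (hPc c).2
    rw [hL] at h6
    have h7 : c * (((Nat.card (T c) : ℝ) / (Nat.card G : ℝ) - e) * x - Cc c) ≤
        c * ∑ p ∈ Pc c, (p : ℝ) ^ (-s) := mul_le_mul_of_nonneg_left h6 hc0
    have h8 : c ^ 2 * ∑ p ∈ Pc c, 1 / (p : ℝ) ^ 2 ≤ c ^ 2 * Z :=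
      mul_le_mul_of_nonneg_left h5 (sq_nonneg c)
    linarith
  have hsum := Finset.sum_le_sum hlow
  have hfiber : ∑ c ∈ V, c * (Nat.card (T c) : ℝ) = ∑ g : G, f g := by
    rw [Finset.sum_comp (fun c : ℝ => c) f]
    refine Finset.sum_congr rfl fun c _ => ?_
    rw [nsmul_eq_mul, mul_comm]
    congr 2
    rw [Nat.card_eq_fintype_card, Fintype.card_subtype]
    rfl
  have hcardG : (0 : ℝ) < Nat.card G := by exact_mod_cast Nat.card_pos
  have hmain : 2 ≤ ∑ c ∈ V, c * ((Nat.card (T c) : ℝ) / (Nat.card G : ℝ)) := by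
    have : ∑ c ∈ V, c * ((Nat.card (T c) : ℝ) / (Nat.card G : ℝ)) =
        (∑ g : G, f g) / (Nat.card G : ℝ) := by
      rw [← hfiber, Finset.sum_div]
      refine Finset.sum_congr rfl fun c _ => by ring
    rw [this, le_div_iff₀ hcardG, Nat.card_eq_fintype_card]
    exact hF8b
  have hexp : ∑ c ∈ V,
      (c * (((Nat.card (T c) : ℝ) / (Nat.card G : ℝ) - e) * x - Cc c) - c ^ 2 * Z) =
      x * ∑ c ∈ V, c * ((Nat.card (T c) : ℝ) / (Nat.card G : ℝ)) - e * x * K -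
        ∑ c ∈ V, c * Cc c - Z * ∑ c ∈ V, c ^ 2 := by
    rw [hK, Finset.mul_sum, Finset.mul_sum, Finset.mul_sum, ← Finset.sum_sub_distrib,
      ← Finset.sum_sub_distrib, ← Finset.sum_sub_distrib]
    refine Finset.sum_congr rfl fun c _ => by ring
  rw [hexp] at hsum
  have h9 : x * 2 ≤ x * ∑ c ∈ V, c * ((Nat.card (T c) : ℝ) / (Nat.card G : ℝ)) :=
    mul_le_mul_of_nonneg_left hmain hx0.le
  have h10 : e * x * K ≤ 1 / 2 * x := by
    have := mul_le_mul_of_nonneg_right heK hx0.le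
    linarith
  have habs : K2 ≤ |K2| := le_abs_self K2
  linarith

end Fermat.Agent.S48.helper5841
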