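/-
S48 / F5 (Chebotarev), building blocks for SEAM 2 (helper5993).

Frobenius elements and roots of unity in the ELEMENTWISE vocabulary of the landed
`Lib/helper74_GenChebCore` (`∀ x : 𝓞 M, τ • x - x ^ ℓ ∈ 𝔏`), for a tower `M ⊇ E ⊇ K`
with `M = E(ζ_n)`:

* `apply_zeta_of_frob`, `autToPow_of_frob` : a Frobenius at a prime over `ℓ ∤ n` acts on the
  `n`-th roots of unity as `ζ ↦ ζ ^ ℓ`  ("κ(Frob_ℓ) = ℓ");
* `restrictNormalHom_frob` : the restriction of a Frobenius of `M` is a Frobenius of `E`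
  ("π(Frob) = Frobenius of `E`");
* `isGalois_of_isCyclotomicExtension` : `E(ζ_n)` is Galois over `K` when `E` is;
* `eq_one_of_restrictNormalHom_of_autToPow` : `(π, κ)` is injective;
* `autToPow_surjective_rat`, `totient_le_card_gal` : `κ` is onto `(ZMod n)ˣ` for `K = ℚ`.
-/
import Mathlib

set_option autoImplicit false
set_option linter.unusedSectionVars false

noncomputable section

namespace Fermat.Agent.S48.helper5993

open NumberField

section FrobZeta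

variable {M : Type*} [Field M] [NumberField M] {K : Type*} [Field K] [Algebra K M]

/-- Distinct `m`-th roots of unity stay distinct modulo a prime not containing `m`. -/
theorem pow_eq_pow_of_sub_mem_of_notMem {m : ℕ} [NeZero m] (𝔏 : Ideal (𝓞 M)) [𝔏.IsPrime]
    (hm : (m : 𝓞 M) ∉ 𝔏) {ζ : 𝓞 M} (hζ : IsPrimitiveRoot ζ m) {a b : ℕ}
    (h : ζ ^ a - ζ ^ b ∈ 𝔏) : ζ ^ a = ζ ^ b := by
  have hne : NeZero ((m : ℕ) : 𝓞 M ⧸ 𝔏) :=
    ⟨by rw [← map_natCast (Ideal.Quotient.mk 𝔏), Ne, Ideal.Quotient.eq_zero_iff_mem]; exact hm⟩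
  have h0 : IsPrimitiveRoot (Ideal.Quotient.mk 𝔏 ζ) m := by
    rw [← Polynomial.isRoot_cyclotomic_iff, ← Polynomial.map_cyclotomic m (Ideal.Quotient.mk 𝔏),
      Polynomial.IsRoot, Polynomial.eval_map_apply, Polynomial.isRoot_cyclotomic_iff.mpr hζ,
      map_zero]
  have h1 : (Ideal.Quotient.mk 𝔏 ζ) ^ a = (Ideal.Quotient.mk 𝔏 ζ) ^ b := by
    rw [← map_pow, ← map_pow, Ideal.Quotient.eq]
    exact h
  have h2 := (h0.isOfFinOrder (NeZero.ne _)).pow_inj_mod.mp h1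
  rw [← h0.eq_orderOf] at h2
  rw [(hζ.isOfFinOrder (NeZero.ne _)).pow_inj_mod, ← hζ.eq_orderOf]
  exact h2

/-- If `ℓ ∈ 𝔏` and `ℓ` is prime to `m`, then `m ∉ 𝔏`. -/
theorem natCast_notMem_of_coprime_of_mem {ℓ m : ℕ} (𝔏 : Ideal (𝓞 M)) (h𝔏 : 𝔏 ≠ ⊤)
    (hℓ : (ℓ : 𝓞 M) ∈ 𝔏) (hℓm : ℓ.Coprime m) : (m : 𝓞 M) ∉ 𝔏 := by
  intro hm
  obtain ⟨a, b, hab⟩ := Nat.isCoprime_iff_coprime.mpr hℓm
  have h1 : ((a * (ℓ : ℤ) + b * (m : ℤ) : ℤ) : 𝓞 M) ∈ 𝔏 := by
    push_cast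
    exact 𝔏.add_mem (𝔏.mul_mem_left _ hℓ) (𝔏.mul_mem_left _ hm)
  rw [hab, Int.cast_one] at h1
  exact h𝔏 ((Ideal.eq_top_iff_one 𝔏).mpr h1)

/-- **Frobenius on roots of unity** (integral form, elementwise Frobenius congruence). -/
theorem smul_toInteger_of_frob {ℓ m : ℕ} [NeZero m] (𝔏 : Ideal (𝓞 M)) [𝔏.IsPrime]
    (hm : (m : 𝓞 M) ∉ 𝔏) {τ : Gal(M/K)} (hτ : ∀ x : 𝓞 M, τ • x - x ^ ℓ ∈ 𝔏)
    {ζ : M} (hζ : IsPrimitiveRoot ζ m) : τ • hζ.toInteger = hζ.toInteger ^ ℓ := by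
  have hζ' := hζ.toInteger_isPrimitiveRoot
  obtain ⟨a, -, ha⟩ := hζ'.eq_pow_of_pow_eq_one (ξ := τ • hζ.toInteger)
    (by rw [← smul_pow', hζ'.pow_eq_one, smul_one])
  have h2 : hζ.toInteger ^ a = hζ.toInteger ^ ℓ :=
    pow_eq_pow_of_sub_mem_of_notMem 𝔏 hm hζ' (by rw [ha]; exact hτ _)
  rw [← ha, h2]

/-- **Frobenius on roots of unity**: if `τ x ≡ x ^ ℓ` modulo a prime `𝔏` not containing `m`,
then `τ ζ = ζ ^ ℓ` for every primitive `m`-th root of unity `ζ`. -/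
theorem apply_zeta_of_frob {ℓ m : ℕ} [NeZero m] (𝔏 : Ideal (𝓞 M)) [𝔏.IsPrime]
    (hm : (m : 𝓞 M) ∉ 𝔏) {τ : Gal(M/K)} (hτ : ∀ x : 𝓞 M, τ • x - x ^ ℓ ∈ 𝔏)
    {ζ : M} (hζ : IsPrimitiveRoot ζ m) : τ ζ = ζ ^ ℓ := by
  have h : τ ((hζ.toInteger : 𝓞 M) : M) = ((hζ.toInteger ^ ℓ : 𝓞 M) : M) :=
    congrArg (fun x : 𝓞 M => (x : M)) (smul_toInteger_of_frob 𝔏 hm hτ hζ)
  have h5 : ((hζ.toInteger : 𝓞 M) : M) = ζ := hζ.coe_toInteger
  have h6 : ((hζ.toInteger ^ ℓ : 𝓞 M) : M) = ((hζ.toInteger : 𝓞 M) : M) ^ ℓ :=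
    map_pow (algebraMap (𝓞 M) M) _ _
  rw [h6, h5] at h
  exact h

/-- **Cyclotomic character of a Frobenius** ("κ(Frob_ℓ) = ℓ"). -/
theorem autToPow_of_frob {ℓ m : ℕ} [NeZero m] (𝔏 : Ideal (𝓞 M)) [𝔏.IsPrime]
    (hm : (m : 𝓞 M) ∉ 𝔏) {τ : Gal(M/K)} (hτ : ∀ x : 𝓞 M, τ • x - x ^ ℓ ∈ 𝔏)
    {ζ : M} (hζ : IsPrimitiveRoot ζ m) :
    ((IsPrimitiveRoot.autToPow K hζ τ : (ZMod m)ˣ) : ZMod m) = ((ℓ : ℕ) : ZMod m) := by
  have h1 := IsPrimitiveRoot.autToPow_spec K hζ τ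
  rw [apply_zeta_of_frob 𝔏 hm hτ hζ] at h1
  have h2 := (hζ.isOfFinOrder (NeZero.ne _)).pow_inj_mod.mp h1
  rw [← hζ.eq_orderOf] at h2
  have h3 := (ZMod.natCast_eq_natCast_iff _ _ _).mpr h2
  rw [ZMod.natCast_zmod_val] at h3
  exact h3

/-- The same with the hypothesis in the form "`ℓ ∈ 𝔏` and `ℓ` prime to `m`". -/
theorem autToPow_of_frob_of_coprime {ℓ m : ℕ} [NeZero m] (𝔏 : Ideal (𝓞 M)) [𝔏.IsPrime]
    (hℓ : (ℓ : 𝓞 M) ∈ 𝔏) (hℓm : ℓ.Coprime m) {τ : Gal(M/K)}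
    (hτ : ∀ x : 𝓞 M, τ • x - x ^ ℓ ∈ 𝔏) {ζ : M} (hζ : IsPrimitiveRoot ζ m) :
    IsPrimitiveRoot.autToPow K hζ τ = ZMod.unitOfCoprime ℓ hℓm :=
  Units.ext (by
    rw [autToPow_of_frob 𝔏
      (natCast_notMem_of_coprime_of_mem 𝔏 (Ideal.IsPrime.ne_top inferInstance) hℓ hℓm) hτ hζ,
      ZMod.coe_unitOfCoprime])

end FrobZeta

section Restrict

variable {E M : Type*} [Field E] [NumberField E] [Field M] [NumberField M] [Algebra E M]
  {K : Type*} [Field K] [Algebra K E] [Algebra K M] [IsScalarTower K E M] [Normal K E]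

/-- The restriction to `E` commutes with the action on the rings of integers. -/
theorem algebraMap_restrictNormalHom_smul (τ : Gal(M/K)) (x : 𝓞 E) :
    algebraMap (𝓞 E) (𝓞 M) (AlgEquiv.restrictNormalHom E τ • x) =
      τ • algebraMap (𝓞 E) (𝓞 M) x := by
  apply RingOfIntegers.ext
  change algebraMap E M ((τ.restrictNormal E) (x : E)) = τ (algebraMap E M (x : E))
  exact AlgEquiv.restrictNormal_commutes τ E (x : E)

/-- **The restriction of a Frobenius is a Frobenius** ("π(Frob) = Frobenius of `E`"). -/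
theorem restrictNormalHom_frob {ℓ : ℕ} (𝔏 : Ideal (𝓞 M)) {τ : Gal(M/K)}
    (hτ : ∀ x : 𝓞 M, τ • x - x ^ ℓ ∈ 𝔏) (x : 𝓞 E) :
    AlgEquiv.restrictNormalHom E τ • x - x ^ ℓ ∈ 𝔏.comap (algebraMap (𝓞 E) (𝓞 M)) := by
  rw [Ideal.mem_comap, map_sub, map_pow, algebraMap_restrictNormalHom_smul]
  exact hτ _

theorem natCast_mem_comap {ℓ : ℕ} (𝔏 : Ideal (𝓞 M)) (hℓ : (ℓ : 𝓞 M) ∈ 𝔏) :
    (ℓ : 𝓞 E) ∈ 𝔏.comap (algebraMap (𝓞 E) (𝓞 M)) := by
  rw [Ideal.mem_comap, map_natCast]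
  exact hℓ

end Restrict

section Tower

variable (n : ℕ) [NeZero n] (K E M : Type*) [Field K] [Field E] [Field M] [Algebra K E]
  [Algebra E M] [Algebra K M] [IsScalarTower K E M]

/-- `E(ζ_n)` is Galois over `K` when `E` is (characteristic zero). -/
theorem isGalois_of_isCyclotomicExtension [CharZero K] [FiniteDimensional K E] [IsGalois K E]
    [IsCyclotomicExtension {n} E M] : IsGalois K M := by
  obtain ⟨p, hpsep, hp⟩ := IsGalois.is_separable_splitting_field K E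
  have hg : ((Polynomial.X ^ n - 1 : Polynomial K).map (algebraMap K E)) =
      Polynomial.X ^ n - 1 := by simp
  have h2 : Polynomial.IsSplittingField E M
      ((Polynomial.X ^ n - 1 : Polynomial K).map (algebraMap K E)) := by
    rw [hg]
    exact IsCyclotomicExtension.isSplittingField_X_pow_sub_one (n := n) (K := E) (L := M)
  have h3 : Polynomial.IsSplittingField K M (p * (Polynomial.X ^ n - 1)) :=
    Polynomial.IsSplittingField.mul (F := K) (K := E) (L := M) (f := p)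
      (g := (Polynomial.X ^ n - 1 : Polynomial K)) hpsep.ne_zero
      (Polynomial.X_pow_sub_C_ne_zero (NeZero.pos n) (1 : K))
  have h4 : Normal K M := Normal.of_isSplittingField (p * (Polynomial.X ^ n - 1))
  have h5 : Algebra.IsSeparable K M := inferInstance
  exact ⟨⟩

variable {n K E M}

/-- `(π, κ)` is injective: an automorphism of `M = E(ζ_n)` that is trivial on `E` and on `ζ_n`
is trivial. -/
theorem eq_one_of_restrictNormalHom_of_autToPow [Normal K E] [IsCyclotomicExtension {n} E M]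
    {ζ : M} (hζ : IsPrimitiveRoot ζ n) (γ : Gal(M/K))
    (h1 : AlgEquiv.restrictNormalHom E γ = 1) (h2 : IsPrimitiveRoot.autToPow K hζ γ = 1) :
    γ = 1 := by
  have hE : ∀ e : E, γ (algebraMap E M e) = algebraMap E M e := by
    intro e
    have h := AlgEquiv.restrictNormal_commutes γ E e
    have h1' : γ.restrictNormal E = 1 := h1
    rw [h1'] at h
    exact h.symm
  have hζ1 : γ ζ = ζ := by
    have h := IsPrimitiveRoot.autToPow_spec K hζ γ
    rw [h2, Units.val_one] at h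
    rw [← h]
    rcases eq_or_ne n 1 with rfl | hn
    · rw [IsPrimitiveRoot.one_right_iff.mp hζ, one_pow]
    · have : Fact (1 < n) := ⟨lt_of_le_of_ne (NeZero.pos n) (Ne.symm hn)⟩
      rw [ZMod.val_one, pow_one]
  let γ' : M →ₐ[E] M := { (γ : M →+* M) with commutes' := hE }
  have hγ' : γ' = AlgHom.id E M := by
    apply AlgHom.ext_of_adjoin_eq_top (IsCyclotomicExtension.adjoin_primitive_root_eq_top hζ)
    intro x hx
    rw [Set.mem_singleton_iff] at hx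
    subst hx
    exact hζ1
  ext x
  exact congrArg (fun f : M →ₐ[E] M => f x) hγ'

/-- The pair (restriction to `E`, cyclotomic character) on `Gal(E(ζ_n)/K)`. -/
def galProd [Normal K E] {ζ : M} (hζ : IsPrimitiveRoot ζ n) :
    Gal(M/K) →* Gal(E/K) × (ZMod n)ˣ :=
  (AlgEquiv.restrictNormalHom E).prod (IsPrimitiveRoot.autToPow K hζ)

@[simp] theorem galProd_apply [Normal K E] {ζ : M} (hζ : IsPrimitiveRoot ζ n) (γ : Gal(M/K)) :
    galProd hζ γ = (AlgEquiv.restrictNormalHom E γ, IsPrimitiveRoot.autToPow K hζ γ) := rfl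

theorem galProd_injective [Normal K E] [IsCyclotomicExtension {n} E M] {ζ : M}
    (hζ : IsPrimitiveRoot ζ n) : Function.Injective (galProd (K := K) (E := E) hζ) := by
  rw [injective_iff_map_eq_one]
  intro γ hγ
  rw [galProd_apply, Prod.mk_eq_one] at hγ
  exact eq_one_of_restrictNormalHom_of_autToPow hζ γ hγ.1 hγ.2

/-- The first projection of the image of `(π, κ)` is onto. -/
theorem exists_galProd_fst [Normal K E] [Normal K M] {ζ : M} (hζ : IsPrimitiveRoot ζ n)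
    (σ : Gal(E/K)) : ∃ γ : Gal(M/K), (galProd (E := E) hζ γ).1 = σ :=
  AlgEquiv.restrictNormalHom_surjective M σ

end Tower

section Rat

variable {n : ℕ} [NeZero n] {M : Type*} [Field M] [NumberField M] [IsGalois ℚ M]

/-- `φ(n) ≤ #Gal(M/ℚ)` when `M` contains a primitive `n`-th root of unity. -/
theorem totient_le_card_gal {ζ : M} (hζ : IsPrimitiveRoot ζ n) :
    n.totient ≤ Nat.card Gal(M/ℚ) := by
  have h1 : IsCyclotomicExtension {n} ℚ (IntermediateField.adjoin ℚ {ζ}) :=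
    hζ.intermediateField_adjoin_isCyclotomicExtension ℚ
  have h2 : Module.finrank ℚ (IntermediateField.adjoin ℚ {ζ}) = n.totient :=
    IsCyclotomicExtension.finrank (IntermediateField.adjoin ℚ {ζ})
      (Polynomial.cyclotomic.irreducible_rat (NeZero.pos n))
  rw [IsGalois.card_aut_eq_finrank, ← h2]
  exact (IntermediateField.adjoin ℚ {ζ}).toSubalgebra.toSubmodule.finrank_le

end Rat

end Fermat.Agent.S48.helper5993
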