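/-
S48 / F5 (Chebotarev), SEAM 2, sub-leaf (P1)+(P2) (helper5993): `Stmt_CycloField` of
`helper1398_ChebPairSpec`, with `M := CyclotomicField q E`, `π := AlgEquiv.restrictNormalHom E`,
`κ := (zeta_spec q E M).autToPow ℚ`.  All bricks are in `helper5993_FrobZeta`.
-/
import Fermat.Agent.S48.helper1398_ChebPairSpec
import Fermat.Agent.S48.helper5993_FrobZeta

set_option autoImplicit false

noncomputable section

namespace Fermat.Agent.S48.helper5993

open NumberField

/-- **(P1)+(P2)** The cyclotomic Galois field `M = E(ζ_q)`. -/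
theorem stmt_CycloField : Fermat.Agent.S48.helper1398.Stmt_CycloField := by
  intro E _ _ _ q hq
  have hq' : q.Prime := hq.out
  have : NeZero q := ⟨hq'.ne_zero⟩
  have hG : IsGalois ℚ (CyclotomicField q E) :=
    isGalois_of_isCyclotomicExtension q ℚ E (CyclotomicField q E)
  have hζ := IsCyclotomicExtension.zeta_spec q E (CyclotomicField q E)
  refine ⟨CyclotomicField q E, inferInstance, inferInstance, hG,
    AlgEquiv.restrictNormalHom E, IsPrimitiveRoot.autToPow ℚ hζ,
    AlgEquiv.restrictNormalHom_surjective _, ?_, ?_, ?_⟩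
  · intro g h1 h2
    exact eq_one_of_restrictNormalHom_of_autToPow hζ g h1 h2
  · have h := totient_le_card_gal hζ
    rwa [Nat.totient_prime hq'] at h
  · intro ℓ 𝔏 τ hℓ hℓq h𝔏 hmem hτ
    have hcop : ℓ.Coprime q := (Nat.coprime_primes hℓ hq').mpr hℓq
    refine ⟨?_, 𝔏.comap (algebraMap (𝓞 E) (𝓞 (CyclotomicField q E))), Ideal.comap_isPrime _ _,
      natCast_mem_comap 𝔏 hmem, fun x => restrictNormalHom_frob 𝔏 hτ x⟩
    exact autToPow_of_frob 𝔏
      (natCast_notMem_of_coprime_of_mem 𝔏 h𝔏.ne_top hmem hcop) hτ hζ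

end Fermat.Agent.S48.helper5993
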