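import Fermat.Agent.S48.helper6324_AnDivGenFrac
import Fermat.Agent.S48.helper5047_EvalDatum
import Fermat.Agent.S48.helper2648_LocGen

/-!
# S48-M3-ANDIV-INST (helper6324): the evaluation datum of a field generated by `q`-expansions

For `F = ℚ̄(S)` generated by `q`-expansions of holomorphic functions (`helper5047.qAlg`), with the
canonical evaluation `(holAlg i0 F, holFun i0 F)` of EVAL1:

* `evFin_of_evalData`, `EvFin.toEvalData` : `helper2648.EvalData` and `EvFin` are the same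
  structure;
* `exists_germ_holFun_genAlg` : cusp germs of the generators give cusp germs on `K[S]`;
* `evDatum_of_evalData_gen` : `EvalData` on `holAlg` + `level` + cusp germs of the **generators**
  ⟹ `EvDatum` on `holAlg` (germs pass to fractions, `helper6324_AnDivGenFrac`);
* `evDatum_pm_Gamma1_of_gen` : the same for `± Γ₁(M)`, width `M`, level automatic.
-/

set_option autoImplicit false

open ModularCurve CongruenceSubgroup UpperHalfPlane Filter AlgebraicCurve IntermediateField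
open scoped MatrixGroups Manifold Topology

namespace Fermat.Agent.S48.helper6324

open Fermat.Agent.S24 Fermat.Agent.S24.helper24 Fermat.Agent.S24.helper580
open Fermat.Agent.S48.helper5047 (qAlg qFun holAlg holFun genAlg)

noncomputable section

/-- `helper2648.EvalData` and `EvFin` are the same structure. -/
theorem evFin_of_evalData {F : Type} [Field F] [Algebra Kbar F] {Γ : Subgroup SL(2, ℤ)} {jF : F}
    {i0 : Kbar →+* ℂ} {A : Subalgebra Kbar F} {e : A →+* (ℍ → ℂ)}
    (hD : helper2648.EvalData Γ jF i0 A e) : EvFin Γ jF i0 A e where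
  frac := hD.frac
  inj := hD.inj
  hol := hD.hol
  const := hD.const
  j_mem := hD.j_mem
  j_eval := hD.j_eval
  inv := hD.inv
  sep := hD.sep

/-- `EvFin` gives `helper2648.EvalData`. -/
theorem EvFin.toEvalData {F : Type} [Field F] [Algebra Kbar F] {Γ : Subgroup SL(2, ℤ)} {jF : F}
    {i0 : Kbar →+* ℂ} {A : Subalgebra Kbar F} {e : A →+* (ℍ → ℂ)}
    (hE : EvFin Γ jF i0 A e) : helper2648.EvalData Γ jF i0 A e where
  frac := hE.frac
  inj := hE.inj
  hol := hE.hol
  const := hE.const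
  j_mem := hE.j_mem
  j_eval := hE.j_eval
  inv := hE.inv
  sep := hE.sep

section Gen

variable (i0 : Kbar →+* ℂ) (F : IntermediateField Kbar (LaurentSeries Kbar))
  {S : Set (LaurentSeries Kbar)} (hS : ∀ s ∈ S, s ∈ qAlg i0)

/-- Cusp germs of the translates of the generators give cusp germs of the translates of every
element of `K[S]`. -/
theorem exists_germ_holFun_genAlg (h : ℕ)
    (hgerm : ∀ s (hs : s ∈ S) (g : SL(2, ℤ)), ∃ H : ℂ → ℂ, MeromorphicAt H 0 ∧
      ∀ᶠ τ : ℍ in atImInfty,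
        qFun i0 ⟨s, hS s hs⟩ (g • τ) = H (Function.Periodic.qParam (h : ℝ) (τ : ℂ)))
    (a : genAlg F S) (g : SL(2, ℤ)) :
    ∃ H : ℂ → ℂ, MeromorphicAt H 0 ∧
      ∀ᶠ τ : ℍ in atImInfty,
        holFun i0 F ⟨a, helper5047.genAlg_le_holAlg F hS a.2⟩ (g • τ)
          = H (Function.Periodic.qParam (h : ℝ) (τ : ℂ)) := by
  refine helper5047.holFun_genAlg_induction i0 F hS
    (fun f => ∀ g : SL(2, ℤ), ∃ H : ℂ → ℂ, MeromorphicAt H 0 ∧
      ∀ᶠ τ : ℍ in atImInfty, f (g • τ) = H (Function.Periodic.qParam (h : ℝ) (τ : ℂ)))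
    ?_ ?_ ?_ hgerm a g
  · intro c g
    exact ⟨fun _ => c, MeromorphicAt.const c 0, Filter.Eventually.of_forall fun τ => rfl⟩
  · rintro f₁ f₂ h₁ h₂ g
    obtain ⟨H₁, hH₁, he₁⟩ := h₁ g
    obtain ⟨H₂, hH₂, he₂⟩ := h₂ g
    refine ⟨fun t => H₁ t + H₂ t, hH₁.add hH₂, ?_⟩
    filter_upwards [he₁, he₂] with τ h1 h2
    rw [Pi.add_apply, h1, h2]
  · rintro f₁ f₂ h₁ h₂ g
    obtain ⟨H₁, hH₁, he₁⟩ := h₁ g
    obtain ⟨H₂, hH₂, he₂⟩ := h₂ g
    refine ⟨fun t => H₁ t * H₂ t, hH₁.mul hH₂, ?_⟩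
    filter_upwards [he₁, he₂] with τ h1 h2
    rw [Pi.mul_apply, h1, h2]

variable (hF : F = IntermediateField.adjoin Kbar S)

include hF in
/-- **The evaluation datum on `holAlg` from generator-level germs.**  `EvalData` on the algebra
of all holomorphic elements, the level hypothesis, and cusp germs for the translates of the
functions of the generators. -/
theorem evDatum_of_evalData_gen {Γ : Subgroup SL(2, ℤ)} {jF : F}
    (hD : helper2648.EvalData Γ jF i0 (holAlg i0 F) (holFun i0 F))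
    (h : ℕ) [NeZero h] (level : ∀ g : SL(2, ℤ), g⁻¹ * ModularGroup.T ^ h * g ∈ Γ)
    (hgerm : ∀ s (hs : s ∈ S) (g : SL(2, ℤ)), ∃ H : ℂ → ℂ, MeromorphicAt H 0 ∧
      ∀ᶠ τ : ℍ in atImInfty,
        qFun i0 ⟨s, hS s hs⟩ (g • τ) = H (Function.Periodic.qParam (h : ℝ) (τ : ℂ))) :
    EvDatum Γ h jF i0 (holAlg i0 F) (holFun i0 F) := by
  refine EvDatum.of_frac_germ' (evFin_of_evalData hD) level
    (fun a : holAlg i0 F => (a : F) ∈ genAlg F S) ?_ ?_
  · intro f
    obtain ⟨a, b, hb, hab⟩ := helper5047.exists_genAlg_frac F hF f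
    refine ⟨⟨a, helper5047.genAlg_le_holAlg F hS a.2⟩, ⟨b, helper5047.genAlg_le_holAlg F hS b.2⟩,
      a.2, b.2, ?_, hab⟩
    intro h0
    exact hb (Subtype.ext (congrArg (fun z : holAlg i0 F => (z : F)) h0))
  · intro g a ha
    exact exists_germ_holFun_genAlg i0 F hS h hgerm ⟨(a : F), ha⟩ g

include hF in
/-- The evaluation datum of `± Γ₁(M)` (width `M`) on `holAlg` from generator-level germs. -/
theorem evDatum_pm_Gamma1_of_gen {M : ℕ} [NeZero M] {jF : F}
    (hD : helper2648.EvalData (pmSubgroup (Gamma1 M)) jF i0 (holAlg i0 F) (holFun i0 F))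
    (hgerm : ∀ s (hs : s ∈ S) (g : SL(2, ℤ)), ∃ H : ℂ → ℂ, MeromorphicAt H 0 ∧
      ∀ᶠ τ : ℍ in atImInfty,
        qFun i0 ⟨s, hS s hs⟩ (g • τ) = H (Function.Periodic.qParam (M : ℝ) (τ : ℂ))) :
    EvDatum (pmSubgroup (Gamma1 M)) M jF i0 (holAlg i0 F) (holFun i0 F) :=
  evDatum_of_evalData_gen i0 F hS hF hD M
    (fun g => le_pmSubgroup _ (conj_T_pow_mem_Gamma1 M g)) hgerm

end Gen

end

end Fermat.Agent.S48.helper6324
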