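import Fermat.Agent.S48.helper6324_AnDivGenFin
import Fermat.Agent.S29.helper6324_AnDiv

/-!
# S48-M3-ANDIV1 (helper6324): generic `(F, Γ)` ANDIV, the cusps and the final statement

Generic port of the cusp half of the landed S29 ANDIV (`S29/helper6324_AnDiv.dvd_ord_cusp`,
`S24/helper1200_CuspLocal` [the `IsEvGen` kit], `S29/helper1736_CuspGerm`), hard-wired there to
the function field `FN N` of `X₀(N)` and to `Γ₀(N)`.

`EvDatum Γ h jF i0 A e` : an `EvFin` datum (file `helper6324_AnDivGenFin`) together with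
* `level` : every conjugate of `T ^ h` lies in `Γ` (for instance `Γ(h) ≤ Γ`);
* `germ` : for every `g : SL(2, ℤ)` and `a : A`, the function `e a ∘ g` is, near `i∞`, a
  meromorphic function of `exp (2πiτ/h)`.

Main statements (`u = a / b`, `a b : A`, and `P`, `Q` holomorphic on the upper half plane with
`(P / Q) ^ n = e (a / b)`; degree hypothesis `[F : ℚ̄(jF)] = [SL(2, ℤ) : Γ]`):
* `dvd_ord_cusp_gen` : `n ∣ ord_v u` at the places over `jF = ∞`, if `P / Q` is invariant under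
  the conjugates of powers of `T` lying in `Γ` and cusp-meromorphic;
* `ratioCuspMer_of_root_gen` : the cusp-meromorphy is automatic (`n ≥ 1`);
* `dvd_ord_of_root_pair_gen` : **generic ANDIV**, every place, any modulus `n`.
-/

set_option autoImplicit false
set_option linter.style.haveILetI false

open ModularCurve CongruenceSubgroup UpperHalfPlane Filter AlgebraicCurve IntermediateField
open scoped MatrixGroups Manifold Topology

namespace Fermat.Agent.S48.helper6324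

open Fermat.Agent.S24 Fermat.Agent.S24.helper24 Fermat.Agent.S24.helper1200

noncomputable section

variable {F : Type} [Field F] [Algebra Kbar F]

/-- Function-level evaluation datum with the behaviour at the cusps: `EvFin`, every conjugate of
`T ^ h` lies in `Γ`, and every `e a ∘ g` is a meromorphic function of `exp (2πiτ/h)` near
`i∞`. -/
structure EvDatum (Γ : Subgroup SL(2, ℤ)) (h : ℕ) (jF : F) (i0 : Kbar →+* ℂ)
    (A : Subalgebra Kbar F) (e : A →+* (ℍ → ℂ)) : Prop extends EvFin Γ jF i0 A e where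
  level : ∀ g : SL(2, ℤ), g⁻¹ * ModularGroup.T ^ h * g ∈ Γ
  germ : ∀ (g : SL(2, ℤ)) (a : A), ∃ H : ℂ → ℂ, MeromorphicAt H 0 ∧
    ∀ᶠ τ : ℍ in atImInfty, e a (g • τ) = H (Function.Periodic.qParam (h : ℝ) (τ : ℂ))

section Kit

variable {Γ : Subgroup SL(2, ℤ)} {h : ℕ} {jF : F} {i0 : Kbar →+* ℂ} {A : Subalgebra Kbar F}
  {e : A →+* (ℍ → ℂ)}

theorem EvDatum.mem_Hol (hE : EvDatum Γ h jF i0 A e) (a : A) : e a ∈ Hol :=
  mem_Hol_of_mdiff (hE.hol a)

/-- The evaluation as a ring hom into `Hol`. -/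
def EvDatum.evHol (hE : EvDatum Γ h jF i0 A e) : A →+* Hol :=
  e.codRestrict Hol hE.mem_Hol

theorem EvDatum.evHol_apply (hE : EvDatum Γ h jF i0 A e) (a : A) (τ : ℍ) :
    (hE.evHol a : ℍ → ℂ) τ = e a τ := rfl

theorem EvDatum.evHol_injective (hE : EvDatum Γ h jF i0 A e) : Function.Injective hE.evHol := by
  intro a b hab
  apply hE.inj
  exact congrArg Subtype.val hab

/-- The conjugate embedding `a ↦ (e a) ∘ g⁻¹` on `A`, with values in `Mer`. -/
def EvDatum.phi (hE : EvDatum Γ h jF i0 A e) (g : SL(2, ℤ)) : A →+* Mer :=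
  (algebraMap Hol Mer).comp ((compHol g⁻¹).comp hE.evHol)

theorem EvDatum.phi_apply (hE : EvDatum Γ h jF i0 A e) (g : SL(2, ℤ)) (a : A) :
    hE.phi g a = algebraMap Hol Mer (compHol g⁻¹ (hE.evHol a)) := rfl

theorem EvDatum.phi_injective (hE : EvDatum Γ h jF i0 A e) (g : SL(2, ℤ)) :
    Function.Injective (hE.phi g) :=
  (IsFractionRing.injective Hol Mer).comp ((compHol_injective g⁻¹).comp hE.evHol_injective)

/-- The conjugate embedding `f ↦ (e f) ∘ g⁻¹` of the function field into `Mer`. -/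
def EvDatum.iotaG (hE : EvDatum Γ h jF i0 A e) (g : SL(2, ℤ)) : F →+* Mer :=
  haveI : IsFractionRing A F := hE.toEvFin.isFractionRing
  IsFractionRing.lift (hE.phi_injective g)

theorem EvDatum.iotaG_coe (hE : EvDatum Γ h jF i0 A e) (g : SL(2, ℤ)) (a : A) :
    hE.iotaG g (a : F) = hE.phi g a :=
  haveI : IsFractionRing A F := hE.toEvFin.isFractionRing
  IsFractionRing.lift_algebraMap (hE.phi_injective g) a

theorem EvDatum.isCuspGerm_phi (hE : EvDatum Γ h jF i0 A e) (g : SL(2, ℤ)) (a : A) :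
    ∃ H, IsCuspGerm holEv Mer h (hE.phi g a) H := by
  obtain ⟨H, hH, hH'⟩ := hE.germ g⁻¹ a
  refine ⟨H, isCuspGerm_algebraMap hH ?_⟩
  filter_upwards [hH'] with τ hτ
  exact hτ

theorem EvDatum.isCuspGerm_iotaG [NeZero h] (hE : EvDatum Γ h jF i0 A e) (g : SL(2, ℤ))
    (f : F) : ∃ H, IsCuspGerm holEv Mer h (hE.iotaG g f) H := by
  obtain ⟨a, b, -, rfl⟩ := hE.toEvFin.exists_div f
  obtain ⟨H, hH⟩ := hE.isCuspGerm_phi g a
  obtain ⟨H', hH'⟩ := hE.isCuspGerm_phi g b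
  refine ⟨H / H', ?_⟩
  rw [map_div₀, hE.iotaG_coe, hE.iotaG_coe]
  exact hH.div identityAtCusp_holEv hH'

theorem EvDatum.iotaG_eq_of_mem (hE : EvDatum Γ h jF i0 A e) {g g' : SL(2, ℤ)}
    (hgg' : g⁻¹ * g' ∈ Γ) : hE.iotaG g = hE.iotaG g' := by
  apply hE.toEvFin.ringHom_ext
  intro a
  rw [hE.iotaG_coe, hE.iotaG_coe, hE.phi_apply, hE.phi_apply]
  congr 1
  apply Subtype.ext
  funext τ
  rw [compHol_apply, compHol_apply, hE.evHol_apply, hE.evHol_apply]
  have hγ : g'⁻¹ * g ∈ Γ := by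
    have := Γ.inv_mem hgg'
    simpa [mul_inv_rev] using this
  have h1 := hE.inv (g'⁻¹ * g) hγ a (g⁻¹ • τ)
  rw [← mul_smul, mul_assoc, mul_inv_cancel, mul_one] at h1
  exact h1.symm

theorem EvDatum.sigma_iotaG (hE : EvDatum Γ h jF i0 A e) (g : SL(2, ℤ)) (f : F) :
    holShiftData.σ (hE.iotaG g f) = hE.iotaG (ModularGroup.T⁻¹ * g) f := by
  have key : (holShiftData.σ : Mer →+* Mer).comp (hE.iotaG g)
      = hE.iotaG (ModularGroup.T⁻¹ * g) := by
    apply hE.toEvFin.ringHom_ext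
    intro a
    rw [RingHom.comp_apply, hE.iotaG_coe, hE.iotaG_coe, hE.phi_apply, hE.phi_apply]
    show holShiftData.σ (algebraMap Hol Mer (compHol g⁻¹ (hE.evHol a))) = _
    rw [holShiftData.hσ]
    show algebraMap Hol Mer (compHol ModularGroup.T (compHol g⁻¹ (hE.evHol a))) = _
    rw [compHol_compHol, mul_inv_rev, inv_inv]
  exact congrArg (fun φ : F →+* Mer => φ f) key

theorem EvDatum.mem_of_iotaG_eq (hE : EvDatum Γ h jF i0 A e) {g g' : SL(2, ℤ)}
    (hgg' : hE.iotaG g = hE.iotaG g') : g⁻¹ * g' ∈ Γ := by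
  apply hE.sep
  intro a τ
  have h1 : hE.phi g a = hE.phi g' a := by
    rw [← hE.iotaG_coe, ← hE.iotaG_coe, hgg']
  rw [hE.phi_apply, hE.phi_apply] at h1
  have h2 := IsFractionRing.injective Hol Mer h1
  have h4 := congrArg (fun φ : Hol => (φ : ℍ → ℂ) (g' • τ)) h2
  simp only [compHol_apply, hE.evHol_apply] at h4
  rw [inv_smul_smul, ← mul_smul] at h4
  exact h4

theorem EvDatum.iotaG_jF (hE : EvDatum Γ h jF i0 A e) (g : SL(2, ℤ)) :
    hE.iotaG g jF = algebraMap Hol Mer jHol := by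
  have h1 : hE.iotaG g ((⟨jF, hE.j_mem⟩ : A) : F) = hE.phi g ⟨jF, hE.j_mem⟩ :=
    hE.iotaG_coe g _
  rw [show ((⟨jF, hE.j_mem⟩ : A) : F) = jF from rfl] at h1
  rw [h1, hE.phi_apply]
  congr 1
  apply Subtype.ext
  funext τ
  rw [compHol_apply, hE.evHol_apply, hE.j_eval]
  exact jFun_smul g⁻¹ τ

end Kit

/-! ## The cusp half -/

section Cusp

variable {Γ : Subgroup SL(2, ℤ)} {h : ℕ} [NeZero h] {jF : F} {i0 : Kbar →+* ℂ}
  {A : Subalgebra Kbar F} {e : A →+* (ℍ → ℂ)}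

/-- **Generic ANDIV, cusp half**: divisibility of the orders at the places over `jF = ∞`. -/
theorem dvd_ord_cusp_gen (hE : EvDatum Γ h jF i0 A e) [FiniteDimensional Kbar⟮jF⟯ F]
    (hdeg : Module.finrank Kbar⟮jF⟯ F = Nat.card (SL(2, ℤ) ⧸ Γ))
    (n : ℕ) (a b : A) (ha : a ≠ 0) (hb : b ≠ 0) (P Q : ℍ → ℂ)
    (hP : MDifferentiable 𝓘(ℂ) 𝓘(ℂ) P) (hQ : MDifferentiable 𝓘(ℂ) 𝓘(ℂ) Q) (hQ0 : Q ≠ 0)
    (hroot : ∀ τ : ℍ, P τ ^ n * e b τ = Q τ ^ n * e a τ)
    (hpar : ∀ (g : SL(2, ℤ)) (k : ℤ), g⁻¹ * ModularGroup.T ^ k * g ∈ Γ →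
      ∀ τ : ℍ, P ((g⁻¹ * ModularGroup.T ^ k * g) • τ) * Q τ
        = P τ * Q ((g⁻¹ * ModularGroup.T ^ k * g) • τ))
    (hcusp : ∀ g : SL(2, ℤ), ∃ H : ℂ → ℂ, MeromorphicAt H 0 ∧
      ∀ᶠ τ : ℍ in atImInfty,
        P (g • τ) = H (Function.Periodic.qParam (h : ℝ) (τ : ℂ)) * Q (g • τ))
    (v : Place Kbar F) (hv : v.ord jF < 0) :
    (n : ℤ) ∣ v.ord ((a : F) / (b : F)) := by
  classical
  let alg : Algebra Kbar Mer := ((algebraMap Hol Mer).comp (constHol.comp i0)).toAlgebra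
  have halg : ∀ c : Kbar, algebraMap Kbar Mer c = algebraMap Hol Mer (constHol (i0 c)) :=
    fun _ => rfl
  have hK : ConstantsAreConst holEv Mer Kbar :=
    fun c => ⟨constHol (i0 c), i0 c, halg c, fun τ => rfl⟩
  have hid := identityAtCusp_holEv
  have hcomm : ∀ (g : SL(2, ℤ)) (c : Kbar),
      hE.iotaG g (algebraMap Kbar F c) = algebraMap Kbar Mer c := by
    intro g c
    have h1 : hE.iotaG g ((algebraMap Kbar A c : A) : F) = hE.phi g (algebraMap Kbar A c) :=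
      hE.iotaG_coe g _
    rw [show ((algebraMap Kbar A c : A) : F) = algebraMap Kbar F c from rfl] at h1
    rw [h1, hE.phi_apply, halg]
    congr 1
    apply Subtype.ext
    funext τ
    rw [compHol_apply, hE.evHol_apply, hE.const c]
    rfl
  let ι : SL(2, ℤ) ⧸ Γ → (F →ₐ[Kbar] Mer) := fun x =>
    { hE.iotaG x.out with commutes' := fun c => hcomm x.out c }
  have hι_apply : ∀ x f, ι x f = hE.iotaG x.out f := fun _ _ => rfl
  have hι : Function.Injective ι := by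
    intro x x' hxx'
    have h1 : hE.iotaG x.out = hE.iotaG x'.out := by
      ext f
      rw [← hι_apply, ← hι_apply, hxx']
    have h2 := hE.mem_of_iotaG_eq h1
    have h3 : (QuotientGroup.mk x.out : SL(2, ℤ) ⧸ Γ) = QuotientGroup.mk x'.out :=
      QuotientGroup.eq.mpr h2
    rwa [QuotientGroup.out_eq', QuotientGroup.out_eq'] at h3
  have hmem : ∀ x f, ∃ H, IsCuspGerm holEv Mer h (ι x f) H :=
    fun x f => hE.isCuspGerm_iotaG x.out f
  have hξ : ∀ x, ι x jF⁻¹ = (algebraMap Hol Mer jHol)⁻¹ := by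
    intro x
    rw [hι_apply, map_inv₀, hE.iotaG_jF]
  have hρ : ∀ x f, holShiftData.σ (ι x f) = ι (ModularGroup.T⁻¹ • x) f := by
    intro x f
    rw [hι_apply, hι_apply, hE.sigma_iotaG]
    have h1 : (QuotientGroup.mk (ModularGroup.T⁻¹ * x.out) : SL(2, ℤ) ⧸ Γ)
        = QuotientGroup.mk (ModularGroup.T⁻¹ • x).out := by
      rw [QuotientGroup.out_eq']
      conv_rhs => rw [← QuotientGroup.out_eq' x]
      rfl
    rw [hE.iotaG_eq_of_mem (QuotientGroup.eq.mp h1)]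
  -- the explicit local datum
  let S := holShiftData
  let Ω := cuspIF holEv Mer h hid hK
  let w : AddValuation Ω (WithTop ℤ) := cuspValIF holEv Mer h hid hK
  let ι' : SL(2, ℤ) ⧸ Γ → (F →ₐ[Kbar] Ω) := fun i => (ι i).codRestrict Ω.toSubalgebra (hmem i)
  let σ : Ω ≃ₐ[Kbar] Ω := cuspSigmaIF holEv Mer h hid hK S
  let ξ' : Ω := ⟨(algebraMap Hol Mer jHol)⁻¹, _, isCuspGerm_jHol_inv h⟩
  -- the holomorphic functions `P`, `Q`
  let A' : Hol := ⟨P, mem_Hol_of_mdiff hP⟩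
  let B' : Hol := ⟨Q, mem_Hol_of_mdiff hQ⟩
  have hB' : B' ≠ 0 := fun h0 => hQ0 (congrArg Subtype.val h0)
  -- the roots
  have hWmem : ∀ i : SL(2, ℤ) ⧸ Γ, ∃ H, IsCuspGerm holEv Mer h
      (S29.helper6324.merAt i.out⁻¹ A' / S29.helper6324.merAt i.out⁻¹ B') H := by
    intro i
    obtain ⟨H, hH, hev⟩ := hcusp i.out⁻¹
    refine ⟨H, hH, compHol i.out⁻¹ A', compHol i.out⁻¹ B', ?_, ?_, ?_⟩
    · intro h0
      exact hB' (compHol_injective i.out⁻¹ (by rw [map_zero]; exact h0))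
    · show S29.helper6324.merAt i.out⁻¹ A'
        = S29.helper6324.merAt i.out⁻¹ A' / S29.helper6324.merAt i.out⁻¹ B'
          * S29.helper6324.merAt i.out⁻¹ B'
      rw [div_mul_cancel₀ _ (S29.helper6324.merAt_ne_zero _ hB')]
    · exact hev
  let W : SL(2, ℤ) ⧸ Γ → Ω := fun i =>
    ⟨S29.helper6324.merAt i.out⁻¹ A' / S29.helper6324.merAt i.out⁻¹ B', hWmem i⟩
  have hu : ((a : F) / (b : F)) ≠ 0 :=
    div_ne_zero (fun h0 => ha (Subtype.ext h0)) (fun h0 => hb (Subtype.ext h0))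
  have hv' : 0 < v.ord jF⁻¹ := by
    rw [Place.ord_inv]
    omega
  have hjtr := hE.toEvFin.transcendental_jF
  refine dvd_ord_of_localData_gen Γ jF hdeg jF⁻¹
    (helper1635.transcendental_inv hjtr)
    (helper1635.adjoin_inv (K := Kbar) jF) w ι' σ ξ' h ModularGroup.T
    ?_ ?_ ?_ (NeZero.pos h) ?_ ?_ (Or.inr ?_) ?_ n ((a : F) / (b : F)) hu W ?_ ?_ v hv'
  · -- constants
    intro c hc
    exact cuspOrd_algebraMap hid hK hc
  · -- injectivity
    intro i i' hii'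
    apply hι
    ext f
    have := congrArg (fun φ : F →ₐ[Kbar] Ω => ((φ f : Ω) : Mer)) hii'
    exact this
  · intro i
    exact Subtype.ext (hξ i)
  · show cuspOrd holEv Mer h (algebraMap Hol Mer jHol)⁻¹ = _
    exact ((isCuspGerm_jHol_inv h).cuspOrd_eq hid).trans (meromorphicOrderAt_JcInv_pow h)
  · intro z
    obtain ⟨H, hH⟩ := z.2
    exact hH.cuspOrd_sigma hid S
  · intro i f
    exact Subtype.ext (hρ i f)
  · intro k z hz hk
    obtain ⟨H, hH⟩ := z.2
    have hz' : (z : Mer) ≠ 0 := fun h0 => hz (Subtype.ext h0)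
    have hk' : (S.σ ^ k) (z : Mer) = z := by
      rw [← coe_cuspSigmaIF_pow hid hK S k z, hk]
    exact hH.exists_cuspOrd_eq_of_fixed hid S hz' k hk'
  · -- the roots are roots
    intro i
    apply Subtype.ext
    show (S29.helper6324.merAt i.out⁻¹ A' / S29.helper6324.merAt i.out⁻¹ B') ^ n
      = hE.iotaG i.out ((a : F) / (b : F))
    rw [map_div₀, hE.iotaG_coe, hE.iotaG_coe, hE.phi_apply, hE.phi_apply, div_pow]
    have hbne : algebraMap Hol Mer (compHol i.out⁻¹ (hE.evHol b)) ≠ 0 := by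
      intro h0
      apply hb
      apply hE.evHol_injective
      apply compHol_injective i.out⁻¹
      rw [map_zero, map_zero]
      exact IsFractionRing.injective Hol Mer (by rw [map_zero]; exact h0)
    rw [div_eq_div_iff (pow_ne_zero n (S29.helper6324.merAt_ne_zero _ hB')) hbne]
    have key : compHol i.out⁻¹ A' ^ n * compHol i.out⁻¹ (hE.evHol b)
        = compHol i.out⁻¹ (hE.evHol a) * compHol i.out⁻¹ B' ^ n := by
      apply Subtype.ext
      funext τ
      have h1 := hroot (i.out⁻¹ • τ)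
      show P (i.out⁻¹ • τ) ^ n * e b (i.out⁻¹ • τ) = e a (i.out⁻¹ • τ) * Q (i.out⁻¹ • τ) ^ n
      rw [h1, mul_comm]
    have key2 := congrArg (algebraMap Hol Mer) key
    rw [map_mul, map_mul, map_pow, map_pow] at key2
    exact key2
  · -- the roots are fixed by the stabilizers
    intro i k hk
    apply Subtype.ext
    rw [coe_cuspSigmaIF_pow hid hK S k (W i)]
    show (S.σ ^ k) (S29.helper6324.merAt i.out⁻¹ A' / S29.helper6324.merAt i.out⁻¹ B')
      = S29.helper6324.merAt i.out⁻¹ A' / S29.helper6324.merAt i.out⁻¹ B'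
    rw [map_div₀, S29.helper6324.sigma_pow_merAt, S29.helper6324.sigma_pow_merAt]
    have hmemΓ : i.out⁻¹ * ModularGroup.T ^ (k : ℤ) * i.out ∈ Γ := by
      have h1 : (QuotientGroup.mk (ModularGroup.T ^ k * i.out) : SL(2, ℤ) ⧸ Γ)
          = QuotientGroup.mk i.out := by
        rw [QuotientGroup.out_eq']
        conv_rhs => rw [← hk]
        conv_rhs => rw [← QuotientGroup.out_eq' i]
        rfl
      have h2 := Γ.inv_mem (QuotientGroup.eq.mp h1)
      have h3 : ((ModularGroup.T ^ k * i.out)⁻¹ * i.out)⁻¹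
          = i.out⁻¹ * ModularGroup.T ^ (k : ℤ) * i.out := by
        rw [zpow_natCast]
        group
      rw [h3] at h2
      exact h2
    have hinv := hpar i.out (k : ℤ) hmemΓ
    refine S29.helper6324.merAt_div_eq hB' fun τ => ?_
    have h4 := hinv (i.out⁻¹ • τ)
    have h5 : (i.out⁻¹ * ModularGroup.T ^ (k : ℤ) * i.out) • i.out⁻¹ • τ
        = (i.out⁻¹ * ModularGroup.T ^ k) • τ := by
      rw [← mul_smul, zpow_natCast]
      congr 1
      group
    rw [h5] at h4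
    exact h4

/-- The germ at the cusp of a conjugate of `e a`, `a ≠ 0`, is not identically zero. -/
theorem exists_germ_ne_zero_gen (hE : EvDatum Γ h jF i0 A e) (g : SL(2, ℤ)) (a : A)
    (ha : a ≠ 0) :
    ∃ H : ℂ → ℂ, MeromorphicAt H 0 ∧ (∀ᶠ t in 𝓝[≠] (0 : ℂ), H t ≠ 0) ∧
      ∀ᶠ τ : ℍ in atImInfty, e a (g • τ) = H (Function.Periodic.qParam (h : ℝ) (τ : ℂ)) := by
  obtain ⟨H, hH, hH'⟩ := hE.germ g a
  refine ⟨H, hH, ?_, hH'⟩
  rcases hH.eventually_eq_zero_or_eventually_ne_zero with h0 | h0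
  · exfalso
    have hev : ∀ᶠ τ : ℍ in atImInfty, e a (g • τ) = 0 := by
      filter_upwards [(S29.helper1736.tendsto_qParam_atImInfty h).eventually h0, hH']
        with τ hτ hτ'
      rw [hτ']
      exact hτ
    obtain ⟨c, hc⟩ := (atImInfty_mem _).mp hev
    have hmd : MDifferentiable 𝓘(ℂ) 𝓘(ℂ) (fun τ : ℍ => e a (g • τ)) :=
      S29.helper1736.mdiff_comp_smul_SL g (hE.hol a)
    have hzero : (fun τ : ℍ => e a (g • τ)) = 0 := by
      by_contra hne
      obtain ⟨τ, hτ, hτ0⟩ := S29.helper1736.exists_ne_zero_of_im_gt hmd hne c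
      exact hτ0 (hc τ hτ.le)
    apply ha
    apply hE.inj
    rw [map_zero]
    funext τ
    have h1 := congrFun hzero (g⁻¹ • τ)
    simp only [smul_inv_smul] at h1
    exact h1
  · exact h0

/-- **The cusp germ of a root**: the cusp-meromorphy of `(P / Q) ∘ g` is automatic. -/
theorem ratioCuspMer_of_root_gen (hE : EvDatum Γ h jF i0 A e) (n : ℕ) (hn : 0 < n)
    (a b : A) (ha : a ≠ 0) (hb : b ≠ 0) (P Q : ℍ → ℂ)
    (hP : MDifferentiable 𝓘(ℂ) 𝓘(ℂ) P) (hQ : MDifferentiable 𝓘(ℂ) 𝓘(ℂ) Q) (hQ0 : Q ≠ 0)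
    (hroot : ∀ τ : ℍ, P τ ^ n * e b τ = Q τ ^ n * e a τ)
    (hpar : ∀ (g : SL(2, ℤ)) (k : ℤ), g⁻¹ * ModularGroup.T ^ k * g ∈ Γ →
      ∀ τ : ℍ, P ((g⁻¹ * ModularGroup.T ^ k * g) • τ) * Q τ
        = P τ * Q ((g⁻¹ * ModularGroup.T ^ k * g) • τ))
    (g : SL(2, ℤ)) :
    ∃ H : ℂ → ℂ, MeromorphicAt H 0 ∧
      ∀ᶠ τ : ℍ in atImInfty,
        P (g • τ) = H (Function.Periodic.qParam (h : ℝ) (τ : ℂ)) * Q (g • τ) := by
  obtain ⟨Ha, hHa, hHa0, hHa'⟩ := exists_germ_ne_zero_gen hE g a ha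
  obtain ⟨Hb, hHb, hHb0, hHb'⟩ := exists_germ_ne_zero_gen hE g b hb
  have hBg0 : (fun τ : ℍ => Q (g • τ)) ≠ 0 := by
    intro h0
    apply hQ0
    funext τ
    have h1 := congrFun h0 (g⁻¹ • τ)
    simp only [smul_inv_smul] at h1
    exact h1
  refine S29.helper1736.exists_germ_of_pow_eq h n hn (fun τ => P (g • τ)) (fun τ => Q (g • τ))
    (S29.helper1736.mdiff_comp_smul_SL g hP) (S29.helper1736.mdiff_comp_smul_SL g hQ) hBg0
    Ha Hb hHa hHb hHa0 hHb0 ?_ ?_
  · filter_upwards [hHa', hHb'] with τ h1 h2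
    show P (g • τ) ^ n * Hb (Function.Periodic.qParam (h : ℝ) (τ : ℂ))
      = Q (g • τ) ^ n * Ha (Function.Periodic.qParam (h : ℝ) (τ : ℂ))
    rw [← h1, ← h2]
    exact hroot (g • τ)
  · intro τ
    have hmem : (g⁻¹)⁻¹ * ModularGroup.T ^ ((h : ℕ) : ℤ) * g⁻¹ ∈ Γ := by
      rw [zpow_natCast]
      exact hE.level g⁻¹
    have h1 := hpar g⁻¹ (h : ℤ) hmem (g • τ)
    have h2 : ((g⁻¹)⁻¹ * ModularGroup.T ^ ((h : ℕ) : ℤ) * g⁻¹) • g • τ
        = g • (ModularGroup.T ^ h • τ) := by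
      rw [inv_inv, zpow_natCast, ← mul_smul, ← mul_smul]
      congr 1
      group
    rw [h2] at h1
    exact h1

/-- **Generic ANDIV** (the twin of `S29.helper6324.dvd_ord_of_root_pair` for an arbitrary
function field with an evaluation datum): if `(P / Q) ^ n = e (a / b)` with `P`, `Q` holomorphic
on the upper half plane and `P / Q` invariant under the finite order elements and the unipotent
elements of `Γ`, then `n` divides the order of `a / b` at EVERY place of `F` over `ℚ̄`. -/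
theorem dvd_ord_of_root_pair_gen (hE : EvDatum Γ h jF i0 A e) [FiniteDimensional Kbar⟮jF⟯ F]
    (hdeg : Module.finrank Kbar⟮jF⟯ F = Nat.card (SL(2, ℤ) ⧸ Γ))
    (n : ℕ) (a b : A) (ha : a ≠ 0) (hb : b ≠ 0) (P Q : ℍ → ℂ)
    (hP : MDifferentiable 𝓘(ℂ) 𝓘(ℂ) P) (hQ : MDifferentiable 𝓘(ℂ) 𝓘(ℂ) Q) (hQ0 : Q ≠ 0)
    (hroot : ∀ τ : ℍ, P τ ^ n * e b τ = Q τ ^ n * e a τ)
    (hfin : ∀ γ ∈ Γ, IsOfFinOrder γ → ∀ τ : ℍ, P (γ • τ) * Q τ = P τ * Q (γ • τ))
    (hpar : ∀ (g : SL(2, ℤ)) (k : ℤ), g⁻¹ * ModularGroup.T ^ k * g ∈ Γ →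
      ∀ τ : ℍ, P ((g⁻¹ * ModularGroup.T ^ k * g) • τ) * Q τ
        = P τ * Q ((g⁻¹ * ModularGroup.T ^ k * g) • τ))
    (v : Place Kbar F) :
    (n : ℤ) ∣ v.ord ((a : F) / (b : F)) := by
  rcases Nat.eq_zero_or_pos n with hn | hn
  · -- `n = 0`: then `e a = e b`, so `a / b = 1`
    subst hn
    have hab : a = b := by
      apply hE.inj
      funext τ
      have h1 := hroot τ
      rw [pow_zero, pow_zero, one_mul, one_mul] at h1
      exact h1.symm
    rw [hab, div_self (fun h0 => hb (Subtype.ext h0))]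
    simp
  · rcases lt_or_ge (v.ord jF) 0 with hv | hv
    · exact dvd_ord_cusp_gen hE hdeg n a b ha hb P Q hP hQ hQ0 hroot hpar
        (fun g => ratioCuspMer_of_root_gen hE n hn a b ha hb P Q hP hQ hQ0 hroot hpar g) v hv
    · exact dvd_ord_finite_fun hE.toEvFin hdeg n a b ha hb P Q hP hQ hQ0 hroot hfin v hv

end Cusp

end

end Fermat.Agent.S48.helper6324
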