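import Fermat.Agent.S29.helper1736_AnDivFinite

/-!
# S48-M3-ANDIV1 (helper6324): generic `(F, Γ)` ANDIV, the finite places

Generic port of the landed S29 files `helper1736_AnDivLocal` / `helper1736_AnDivFinite`
(hard-wired to the function field `FN N` of `X₀(N)` and to `Γ₀(N)`).

Setting: `F` a field over `ℚ̄`, `jF : F`, `Γ` a subgroup of `SL(2, ℤ)`, and a function-level
evaluation datum `EvFin Γ jF i0 A e`: a `ℚ̄`-subalgebra `A` of `F` whose field of fractions is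
`F`, and an injective ring homomorphism `e` from `A` to functions on the upper half plane with
holomorphic values, compatible with constants through `i0 : ℚ̄ →+* ℂ`, sending `jF` to the
analytic `j`-function, whose values are invariant exactly under `Γ`.

* `transcendental_jF` : `jF` is transcendental over `ℚ̄`;
* `dvd_ord_of_localData_gen` : the consumer lemma for a local datum (any `Γ`);
* `dvd_ord_finite_gen` : if `(P / Q) ^ p = e (a / b)` with `P`, `Q` holomorphic and `P / Q`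
  invariant under the elements of finite order of `Γ`, then `p` divides the order of `a / b` at
  every place of `F` which is not a pole of `jF` (degree hypothesis
  `[F : ℚ̄(jF)] = [SL(2, ℤ) : Γ]`);
* `dvd_ord_finite_fun` : the same with `P`, `Q` given as functions.
-/

set_option autoImplicit false
set_option linter.style.haveILetI false

open UpperHalfPlane CongruenceSubgroup ModularCurve AlgebraicCurve IntermediateField
open scoped MatrixGroups Manifold

namespace Fermat.Agent.S48.helper6324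

open Fermat.Agent.S24 Fermat.Agent.S24.helper24 Fermat.Agent.S24.helper580

noncomputable section

variable {F : Type} [Field F] [Algebra Kbar F]

/-- Function-level evaluation datum for a function field `F` over `ℚ̄` and a subgroup `Γ` of
`SL(2, ℤ)` (the hypotheses of `helper580.Stmt_EvFun`, with `FN N`, `AN N`, `Γ₀(N)` replaced by
`F`, a subalgebra `A` with field of fractions `F`, and `Γ`). -/
structure EvFin (Γ : Subgroup SL(2, ℤ)) (jF : F) (i0 : Kbar →+* ℂ) (A : Subalgebra Kbar F)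
    (e : A →+* (ℍ → ℂ)) : Prop where
  frac : ∀ f : F, ∃ a b : A, b ≠ 0 ∧ f * (b : F) = a
  inj : Function.Injective e
  hol : ∀ a, MDifferentiable 𝓘(ℂ) 𝓘(ℂ) (e a)
  const : ∀ c : Kbar, e (algebraMap Kbar A c) = fun _ => i0 c
  j_mem : jF ∈ A
  j_eval : e ⟨jF, j_mem⟩ = jFun
  inv : ∀ γ ∈ Γ, ∀ (a : A) (τ : ℍ), e a (γ • τ) = e a τ
  sep : ∀ g : SL(2, ℤ), (∀ (a : A) (τ : ℍ), e a (g • τ) = e a τ) → g ∈ Γ

section Basic

variable {Γ : Subgroup SL(2, ℤ)} {jF : F} {i0 : Kbar →+* ℂ} {A : Subalgebra Kbar F}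
  {e : A →+* (ℍ → ℂ)}

/-- Every element of `F` is a quotient of two elements of `A`. -/
theorem EvFin.exists_div (hE : EvFin Γ jF i0 A e) (f : F) :
    ∃ a b : A, b ≠ 0 ∧ f = (a : F) / (b : F) := by
  obtain ⟨a, b, hb, hab⟩ := hE.frac f
  have hb' : (b : F) ≠ 0 := fun h => hb (Subtype.ext h)
  exact ⟨a, b, hb, by rw [eq_div_iff hb', hab]⟩

/-- `F` is the field of fractions of `A`. -/
theorem EvFin.isFractionRing (hE : EvFin Γ jF i0 A e) : IsFractionRing A F := by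
  apply IsFractionRing.of_field
  intro z
  obtain ⟨a, b, -, hab⟩ := hE.exists_div z
  exact ⟨a, b, hab⟩

/-- Two ring homs out of `F` into a field that agree on `A` are equal. -/
theorem EvFin.ringHom_ext (hE : EvFin Γ jF i0 A e) {Ω : Type*} [Field Ω] {f g : F →+* Ω}
    (h : ∀ a : A, f (a : F) = g (a : F)) : f = g := by
  ext z
  obtain ⟨a, b, -, rfl⟩ := hE.exists_div z
  rw [map_div₀, map_div₀, h a, h b]

/-- `jF` is transcendental over `ℚ̄`. -/
theorem EvFin.transcendental_jF (hE : EvFin Γ jF i0 A e) : Transcendental Kbar jF := by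
  intro halg
  have hint : IsIntegral Kbar jF := halg.isIntegral
  have hdeg : (minpoly Kbar jF).degree = 1 :=
    IsAlgClosed.degree_eq_one_of_irreducible Kbar (minpoly.irreducible hint)
  obtain ⟨c, hc⟩ := minpoly.mem_range_of_degree_eq_one Kbar jF hdeg
  have h1 : (⟨jF, hE.j_mem⟩ : A) = algebraMap Kbar A c := Subtype.ext hc.symm
  have h2 : jFun = fun _ => i0 c := by
    rw [← hE.j_eval, h1, hE.const]
  obtain ⟨τ₀, hτ₀⟩ := helper2064.stmt_JSurj (i0 c + 1)
  have h3 := congrFun h2 τ₀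
  rw [hτ₀] at h3
  simp at h3

end Basic

/-! ## The consumer lemma for a local datum -/

/-- **Consumer lemma for a local datum** (generic port of
`helper1736.dvd_ord_of_localData`). -/
theorem dvd_ord_of_localData_gen (Γ : Subgroup SL(2, ℤ)) (jF : F)
    [FiniteDimensional Kbar⟮jF⟯ F]
    (hdeg : Module.finrank Kbar⟮jF⟯ F = Nat.card (SL(2, ℤ) ⧸ Γ))
    (y : F) (hy : Transcendental Kbar y) (hyj : Kbar⟮y⟯ = Kbar⟮jF⟯)
    {Ω : Type*} [Field Ω] [Algebra Kbar Ω] (w : AddValuation Ω (WithTop ℤ))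
    (ι : SL(2, ℤ) ⧸ Γ → (F →ₐ[Kbar] Ω)) (σ : Ω ≃ₐ[Kbar] Ω) (ξ : Ω) (m : ℕ) (g : SL(2, ℤ))
    (hwK : ∀ a : Kbar, a ≠ 0 → w (algebraMap Kbar Ω a) = 0)
    (hι : Function.Injective ι) (hξ : ∀ i, ι i y = ξ) (hm : 0 < m)
    (hwξ : w ξ = ((m : ℤ) : WithTop ℤ)) (hwσ : ∀ z, w (σ z) = w z)
    (hσ : (∀ i f, σ (ι i f) = ι (g • i) f) ∨ (∀ i f, σ (ι i f) = ι (g⁻¹ • i) f))
    (hdiv : ∀ (k : ℕ) (z : Ω), z ≠ 0 → (σ ^ k) z = z →
      ∃ l : ℤ, w z = (((m / Nat.gcd k m : ℕ) * l : ℤ) : WithTop ℤ))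
    (p : ℕ) (u : F) (hu : u ≠ 0) (W : SL(2, ℤ) ⧸ Γ → Ω) (hW : ∀ i, W i ^ p = ι i u)
    (hfix : ∀ (i : SL(2, ℤ) ⧸ Γ) (k : ℕ), g ^ k • i = i → (σ ^ k) (W i) = W i)
    (v : Place Kbar F) (hv : 0 < v.ord y) : (p : ℤ) ∣ v.ord u := by
  haveI : FiniteDimensional Kbar⟮y⟯ F := helper1635.finiteDimensional_of_eq hyj.symm
  have hcard : Nat.card (SL(2, ℤ) ⧸ Γ) = Module.finrank Kbar⟮y⟯ F := by
    rw [helper1635.finrank_of_eq hyj, hdeg]
  have hpos : 0 < Module.finrank Kbar⟮y⟯ F := Module.finrank_pos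
  haveI : Finite (SL(2, ℤ) ⧸ Γ) := Nat.finite_of_card_ne_zero (by omega)
  letI : Fintype (SL(2, ℤ) ⧸ Γ) := Fintype.ofFinite _
  have hcard' : Fintype.card (SL(2, ℤ) ⧸ Γ) = Module.finrank Kbar⟮y⟯ F := by
    rw [← Nat.card_eq_fintype_card]; exact hcard
  have hy0 : y ≠ 0 := by
    rintro rfl
    exact hy (isAlgebraic_zero)
  have hfund := leaf_FundId Kbar F y hy
  rcases hσ with hσ | hσ
  · exact S29.helper1736.dvd_ord_of_root (K := Kbar) y hy0 hfund w hwK hcard' ι hι ξ hξ m hm hwξ σ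
      hwσ (MulAction.toPerm g) (fun i f => by simpa using hσ i f) hdiv p u hu W hW
      (fun i k hk => hfix i k (by rw [← S29.helper1736.toPerm_pow_apply]; exact hk)) v hv
  · refine S29.helper1736.dvd_ord_of_root (K := Kbar) y hy0 hfund w hwK hcard' ι hι ξ hξ m hm hwξ σ
      hwσ (MulAction.toPerm g⁻¹) (fun i f => by simpa using hσ i f) hdiv p u hu W hW
      (fun i k hk => hfix i k ?_) v hv
    rw [S29.helper1736.toPerm_pow_apply] at hk
    have h2 : g ^ k • (g⁻¹ ^ k • i) = g ^ k • i := by rw [hk]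
    rw [← mul_smul, inv_pow, mul_inv_cancel, one_smul] at h2
    exact h2.symm

/-! ## The conjugate embeddings -/

section glue

variable {M : Type} [Field M] [Algebra Kbar M]

/-- The conjugate embeddings `ι_x = act (g_x) ∘ ev`, `g_x` a chosen representative of `x`. -/
def iotaOfG (Γ : Subgroup SL(2, ℤ)) (act : SL(2, ℤ) → (M ≃ₐ[Kbar] M)) (ev : F →ₐ[Kbar] M)
    (x : SL(2, ℤ) ⧸ Γ) : F →ₐ[Kbar] M :=
  ((act (Quotient.out x) : M ≃ₐ[Kbar] M) : M →ₐ[Kbar] M).comp ev

theorem iotaOfG_apply (Γ : Subgroup SL(2, ℤ)) (act : SL(2, ℤ) → (M ≃ₐ[Kbar] M))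
    (ev : F →ₐ[Kbar] M) (x : SL(2, ℤ) ⧸ Γ) (f : F) :
    iotaOfG Γ act ev x f = act (Quotient.out x) (ev f) := rfl

theorem iotaOfG_injective (Γ : Subgroup SL(2, ℤ)) (act : SL(2, ℤ) → (M ≃ₐ[Kbar] M))
    (ev : F →ₐ[Kbar] M)
    (hmul : ∀ (g h : SL(2, ℤ)) (z : M), act (g * h) z = act g (act h z))
    (hsep : ∀ g : SL(2, ℤ), (∀ f : F, act g (ev f) = ev f) → g ∈ Γ) :
    Function.Injective (iotaOfG Γ act ev) := by
  intro x y hxy
  have key : (Quotient.out y)⁻¹ * Quotient.out x ∈ Γ := by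
    apply hsep
    intro f
    have h1 : act (Quotient.out x) (ev f) = act (Quotient.out y) (ev f) := by
      have := congrArg (fun φ : F →ₐ[Kbar] M => φ f) hxy
      simpa [iotaOfG_apply] using this
    rw [hmul, h1, ← hmul, inv_mul_cancel, helper481.act_one_apply act hmul]
  have h2 : (QuotientGroup.mk (Quotient.out y) : SL(2, ℤ) ⧸ Γ)
      = QuotientGroup.mk (Quotient.out x) := QuotientGroup.eq.mpr key
  have hx : (QuotientGroup.mk (Quotient.out x) : SL(2, ℤ) ⧸ Γ) = x := Quotient.out_eq x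
  have hy : (QuotientGroup.mk (Quotient.out y) : SL(2, ℤ) ⧸ Γ) = y := Quotient.out_eq y
  rw [← hx, ← hy, h2]

theorem act_iotaOfG (Γ : Subgroup SL(2, ℤ)) (act : SL(2, ℤ) → (M ≃ₐ[Kbar] M))
    (ev : F →ₐ[Kbar] M)
    (hmul : ∀ (g h : SL(2, ℤ)) (z : M), act (g * h) z = act g (act h z))
    (hinv : ∀ γ ∈ Γ, ∀ f : F, act γ (ev f) = ev f)
    (g : SL(2, ℤ)) (x : SL(2, ℤ) ⧸ Γ) (f : F) :
    act g (iotaOfG Γ act ev x f) = iotaOfG Γ act ev (g • x) f := by
  rw [iotaOfG_apply, iotaOfG_apply, ← hmul]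
  have hx : (QuotientGroup.mk (Quotient.out x) : SL(2, ℤ) ⧸ Γ) = x := Quotient.out_eq x
  have h1 : (QuotientGroup.mk (g * Quotient.out x) : SL(2, ℤ) ⧸ Γ)
      = QuotientGroup.mk (Quotient.out (g • x)) := by
    have h2 : (QuotientGroup.mk (Quotient.out (g • x)) : SL(2, ℤ) ⧸ Γ) = g • x :=
      Quotient.out_eq _
    rw [h2]
    conv_rhs => rw [← hx]
    rfl
  have key : (g * Quotient.out x)⁻¹ * Quotient.out (g • x) ∈ Γ := QuotientGroup.eq.mp h1
  have h3 : Quotient.out (g • x)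
      = (g * Quotient.out x) * ((g * Quotient.out x)⁻¹ * Quotient.out (g • x)) := by
    group
  conv_rhs => rw [h3, hmul, hinv _ key]

theorem iotaOfG_j (Γ : Subgroup SL(2, ℤ)) (act : SL(2, ℤ) → (M ≃ₐ[Kbar] M))
    (ev : F →ₐ[Kbar] M) (jF : F)
    (hj : ∀ g : SL(2, ℤ), act g (ev jF) = ev jF) (c : Kbar) (x : SL(2, ℤ) ⧸ Γ) :
    iotaOfG Γ act ev x (jF - algebraMap Kbar F c) = ev jF - algebraMap Kbar M c := by
  rw [iotaOfG_apply, map_sub, map_sub, hj, AlgHom.commutes, AlgEquiv.commutes]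

end glue

/-! ## The evaluation map into `Mer` -/

section ev

variable (i0 : Kbar →+* ℂ) {A : Subalgebra Kbar F} (e : A →+* (ℍ → ℂ))
  (hmd : ∀ a, MDifferentiable 𝓘(ℂ) 𝓘(ℂ) (e a))

/-- `e` with values in `Hol`. -/
def eHolG : A →+* Hol := e.codRestrict Hol hmd

theorem eHolG_apply (a : A) (τ : ℍ) : (eHolG e hmd a : ℍ → ℂ) τ = e a τ := rfl

/-- `e` with values in `Mer`. -/
def eMerG : A →+* Mer := (algebraMap Hol Mer).comp (eHolG e hmd)

theorem eMerG_apply (a : A) : eMerG e hmd a = algebraMap Hol Mer (eHolG e hmd a) := rfl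

theorem eMerG_injective (hinj : Function.Injective e) : Function.Injective (eMerG e hmd) := by
  intro a b h
  have h1 : eHolG e hmd a = eHolG e hmd b := IsFractionRing.injective Hol Mer h
  exact hinj (congrArg Subtype.val h1)

/-- `e` with values in `Mer`, as a `ℚ̄`-algebra homomorphism. -/
def eMerAlgG (hconst : ∀ c : Kbar, e (algebraMap Kbar A c) = fun _ => i0 c) :
    @AlgHom Kbar A Mer _ _ _ _ (algK i0) :=
  letI := algK i0
  { eMerG e hmd with
    commutes' := fun c => by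
      show algebraMap Hol Mer (eHolG e hmd (algebraMap Kbar _ c)) = algebraMap ℂ Mer (i0 c)
      rw [IsScalarTower.algebraMap_apply ℂ Hol Mer]
      congr 1
      exact Hol.ext fun τ => by rw [eHolG_apply, hconst]; rfl }

end ev

/-! ## The finite places -/

/-- **Finite places** (generic port of `helper1736.dvd_ord_finite`). -/
theorem dvd_ord_finite_gen {Γ : Subgroup SL(2, ℤ)} {jF : F} {i0 : Kbar →+* ℂ}
    {A : Subalgebra Kbar F} {e : A →+* (ℍ → ℂ)} (hE : EvFin Γ jF i0 A e)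
    [FiniteDimensional Kbar⟮jF⟯ F]
    (hdeg : Module.finrank Kbar⟮jF⟯ F = Nat.card (SL(2, ℤ) ⧸ Γ))
    (p : ℕ) (a b : A) (ha : a ≠ 0) (hb : b ≠ 0) (P Q : Hol) (hQ : Q ≠ 0)
    (hroot : P ^ p * eHolG e hE.hol b = Q ^ p * eHolG e hE.hol a)
    (hWinv : ∀ γ ∈ Γ, IsOfFinOrder γ → pullHol γ P * Q = P * pullHol γ Q)
    (v : Place Kbar F) (hv : 0 ≤ v.ord jF) :
    (p : ℤ) ∣ v.ord ((a : F) / (b : F)) := by
  classical
  have hinj := hE.inj
  have hmd := hE.hol
  have hconst := hE.const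
  have hj := hE.j_eval
  have hinv := hE.inv
  have hsep := hE.sep
  have hjtr := hE.transcendental_jF
  letI : Algebra Kbar Mer := algK i0
  haveI : IsFractionRing A F := hE.isFractionRing
  let ev : F →ₐ[Kbar] Mer := IsFractionRing.liftAlgHom (g := eMerAlgG i0 e hmd hconst)
    (eMerG_injective e hmd hinj)
  have hev' : ∀ a : A, ev (a : F) = algebraMap Hol Mer (eHolG e hmd a) := fun a =>
    IsFractionRing.lift_algebraMap (eMerG_injective e hmd hinj) a
  -- the facts of the meromorphic package (as in `helper580.stmt_MerPackage`)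
  have hmul : ∀ (g h : SL(2, ℤ)) (z : Mer), actK i0 (g * h) z = actK i0 g (actK i0 h z) := by
    intro g h z
    show pull (g * h)⁻¹ z = pull g⁻¹ (pull h⁻¹ z)
    rw [pull_pull, mul_inv_rev]
  have hconstM : ∀ (τ : ℍ) (a : Kbar), a ≠ 0 → ordAt τ (algebraMap Kbar Mer a) = 0 := by
    intro τ a ha
    show ordAt τ (algebraMap ℂ Mer (i0 a)) = 0
    exact ordAt_const τ ((map_ne_zero i0).mpr ha)
  have hord : ∀ (g : SL(2, ℤ)) (τ : ℍ) (z : Mer), g • τ = τ →
      ordAt τ (actK i0 g z) = ordAt τ z := by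
    intro g τ z hfix
    show ordAt τ (pull g⁻¹ z) = ordAt τ z
    rw [ordAt_pull, inv_smul_eq_iff.mpr hfix.symm]
  have hinvM : ∀ γ ∈ Γ, ∀ f : F, actK i0 γ (ev f) = ev f := by
    intro γ hγ
    have key : ((actK i0 γ : Mer ≃ₐ[Kbar] Mer) : Mer →+* Mer).comp (ev : F →+* Mer)
        = (ev : F →+* Mer) := by
      refine hE.ringHom_ext fun a => ?_
      show pull γ⁻¹ (ev (a : F)) = ev (a : F)
      rw [hev' a, pull_algebraMap]
      congr 1
      exact Hol.ext fun τ => hinv γ⁻¹ (inv_mem hγ) a τ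
    intro f
    exact congrArg (fun φ : F →+* Mer => φ f) key
  have hsepM : ∀ g : SL(2, ℤ), (∀ f : F, actK i0 g (ev f) = ev f) → g ∈ Γ := by
    intro g hg
    have h1 : g⁻¹ ∈ Γ := by
      apply hsep
      intro a τ
      have h2 : pull g⁻¹ (ev (a : F)) = ev (a : F) := hg (a : F)
      rw [hev' a, pull_algebraMap] at h2
      have h3 : pullHol g⁻¹ (eHolG e hmd a) = eHolG e hmd a := IsFractionRing.injective Hol Mer h2
      exact congrFun (congrArg Subtype.val h3) τ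
    exact inv_mem_iff.mp h1
  have hjM : ∀ g : SL(2, ℤ), actK i0 g (ev jF) = ev jF := by
    intro g
    show pull g⁻¹ (ev jF) = ev jF
    have h1 := hev' ⟨jF, hE.j_mem⟩
    have h1' : ev jF = algebraMap Hol Mer (eHolG e hmd ⟨jF, hE.j_mem⟩) := h1
    rw [h1', pull_algebraMap]
    congr 1
    refine Hol.ext fun τ => ?_
    rw [pullHol_apply, eHolG_apply, eHolG_apply, hj]
    exact helper454.jInvariant g⁻¹ τ
  have hval : ∀ (τ : ℍ) (c : Kbar), jFun τ = i0 c →
      ordAt τ (ev jF - algebraMap Kbar Mer c)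
        = (analyticOrderAt (fun z : ℂ => jFun (ofComplex z) - jFun τ) (τ : ℂ)).map (↑) := by
    intro τ c hτ
    have h1 : ev jF = algebraMap Hol Mer (eHolG e hmd ⟨jF, hE.j_mem⟩) := hev' ⟨jF, hE.j_mem⟩
    have h2 : algebraMap Kbar Mer c = algebraMap Hol Mer (algebraMap ℂ Hol (i0 c)) := by
      rw [← IsScalarTower.algebraMap_apply ℂ Hol Mer]
      rfl
    rw [h1, h2, ← map_sub, ordAt_algebraMap_eq_analyticOrderAt]
    have h3 : (((eHolG e hmd ⟨jF, hE.j_mem⟩ - algebraMap ℂ Hol (i0 c) : Hol)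
        : ℍ → ℂ) ∘ ofComplex) = fun z : ℂ => jFun (ofComplex z) - jFun τ := by
      funext z
      show e ⟨jF, hE.j_mem⟩ (ofComplex z) - i0 c = jFun (ofComplex z) - jFun τ
      rw [hj, hτ]
    rw [h3]
  -- the function and its root
  have haF : (a : F) ≠ 0 := fun h => ha (Subtype.ext h)
  have hbF : (b : F) ≠ 0 := fun h => hb (Subtype.ext h)
  have hu : (a : F) / (b : F) ≠ 0 := div_ne_zero haF hbF
  have hBM : algebraMap Hol Mer Q ≠ 0 := fun h =>
    hQ (IsFractionRing.injective Hol Mer (h.trans (map_zero _).symm))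
  have hebM : algebraMap Hol Mer (eHolG e hmd b) ≠ 0 := by
    intro h
    have h1 : eHolG e hmd b = 0 := IsFractionRing.injective Hol Mer (h.trans (map_zero _).symm)
    have h2 : e b = e 0 := by
      rw [map_zero]
      exact congrArg Subtype.val h1
    exact hb (hinj h2)
  have hW : (algebraMap Hol Mer P / algebraMap Hol Mer Q) ^ p
      = ev ((a : F) / (b : F)) := by
    rw [map_div₀, hev' a, hev' b, div_pow, div_eq_div_iff (pow_ne_zero p hBM) hebM]
    have h := congrArg (algebraMap Hol Mer) hroot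
    rw [map_mul, map_mul, map_pow, map_pow] at h
    rw [h, mul_comm]
  have hWpull : ∀ γ ∈ Γ, IsOfFinOrder γ →
      pull γ (algebraMap Hol Mer P / algebraMap Hol Mer Q)
        = algebraMap Hol Mer P / algebraMap Hol Mer Q := by
    intro γ hγ hfin
    have hpB : algebraMap Hol Mer (pullHol γ Q) ≠ 0 := by
      intro h
      have h1 : pullHol γ Q = 0 := IsFractionRing.injective Hol Mer (h.trans (map_zero _).symm)
      exact hQ ((pullHol γ).injective (h1.trans (map_zero _).symm))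
    rw [map_div₀, pull_algebraMap, pull_algebraMap, div_eq_div_iff hpB hBM]
    have h := congrArg (algebraMap Hol Mer) (hWinv γ hγ hfin)
    rw [map_mul, map_mul] at h
    exact h
  -- the common argument at a point `τ₀` fixed by `g₀`
  have key : ∀ (c : Kbar) (τ₀ : ℍ) (g₀ : SL(2, ℤ)) (m : ℕ), 0 < m → g₀ • τ₀ = τ₀ →
      IsOfFinOrder g₀ →
      ordAt τ₀ (ev jF - algebraMap Kbar Mer c) = ((m : ℤ) : WithTop ℤ) →
      helper481.HDiv (ordAt τ₀) (actK i0 g₀) m →
      0 < v.ord (jF - algebraMap Kbar F c) →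
      (p : ℤ) ∣ v.ord ((a : F) / (b : F)) := by
    intro c τ₀ g₀ m hm hfix hfin hvalm hdiv hvc
    refine dvd_ord_of_localData_gen Γ jF hdeg (jF - algebraMap Kbar F c)
      (helper1635.transcendental_sub_algebraMap hjtr c)
      (helper1635.adjoin_sub_algebraMap (K := Kbar) jF c)
      (ordAt τ₀) (iotaOfG Γ (actK i0) ev) (actK i0 g₀)
      (ev jF - algebraMap Kbar Mer c) m g₀ (hconstM τ₀)
      (iotaOfG_injective Γ (actK i0) ev hmul hsepM)
      (iotaOfG_j Γ (actK i0) ev jF hjM c) hm hvalm (fun z => hord g₀ τ₀ z hfix)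
      (Or.inl (act_iotaOfG Γ (actK i0) ev hmul hinvM g₀)) hdiv p _ hu
      (fun x => actK i0 (Quotient.out x) (algebraMap Hol Mer P / algebraMap Hol Mer Q))
      (fun x => by rw [iotaOfG_apply, ← hW, map_pow]) ?_ v hvc
    intro x k hk
    rw [actK_pow_apply, iterate_pull, actK_apply, pull_pull]
    have hmem : (Quotient.out x)⁻¹ * g₀⁻¹ ^ k * Quotient.out x ∈ Γ := by
      have hx : (QuotientGroup.mk (Quotient.out x) : SL(2, ℤ) ⧸ Γ) = x := Quotient.out_eq x
      have h1 : (QuotientGroup.mk (g₀ ^ k * Quotient.out x) : SL(2, ℤ) ⧸ Γ)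
          = QuotientGroup.mk (Quotient.out x) := by
        rw [hx]
        conv_rhs => rw [← hk, ← hx]
        rfl
      have h2 := QuotientGroup.eq.mp h1
      have h3 : (g₀ ^ k * Quotient.out x)⁻¹ * Quotient.out x
          = (Quotient.out x)⁻¹ * g₀⁻¹ ^ k * Quotient.out x := by
        rw [mul_inv_rev, inv_pow]
      rwa [h3] at h2
    have hfin' : IsOfFinOrder ((Quotient.out x)⁻¹ * g₀⁻¹ ^ k * Quotient.out x) :=
      S29.helper1736.isOfFinOrder_conj hfin.inv.pow _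
    have h4 : (Quotient.out x)⁻¹ * g₀⁻¹ ^ k
        = ((Quotient.out x)⁻¹ * g₀⁻¹ ^ k * Quotient.out x) * (Quotient.out x)⁻¹ := by
      group
    rw [h4, ← pull_pull, hWpull _ hmem hfin']
  -- the three kinds of finite points
  rcases leaf_Center Kbar F jF hjtr v with hneg | ⟨c, hc⟩
  · omega
  by_cases hc0 : c = 0
  · -- `j = 0`
    obtain ⟨-, ⟨τ₀, hfix, hτ₀, hord3⟩⟩ := helper2064.stmt_JElliptic
    have hτ₀' : jFun τ₀ = i0 c := by
      rw [hτ₀, hc0]
      exact (map_zero i0).symm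
    have hv3 := hval τ₀ c hτ₀'
    rw [hord3] at hv3
    exact key c τ₀ (ModularGroup.S * ModularGroup.T) 3 (by norm_num) hfix
      S29.helper1736.isOfFinOrder_ST (by rw [hv3]; rfl) (hDiv_ST i0 τ₀ hfix) hc
  by_cases hc1728 : c = 1728
  · -- `j = 1728`
    obtain ⟨⟨τ₀, hfix, hτ₀, hord2⟩, -⟩ := helper2064.stmt_JElliptic
    have hτ₀' : jFun τ₀ = i0 c := by
      rw [hτ₀, hc1728]
      exact (map_ofNat i0 1728).symm
    have hv2 := hval τ₀ c hτ₀'
    rw [hord2] at hv2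
    exact key c τ₀ ModularGroup.S 2 (by norm_num) hfix S29.helper1736.isOfFinOrder_S
      (by rw [hv2]; rfl) (hDiv_S i0 τ₀ hfix) hc
  · -- generic value
    obtain ⟨τ₀, hτ₀⟩ := helper2064.stmt_JSurj (i0 c)
    have h0 : jFun τ₀ ≠ 0 := by
      rw [hτ₀]
      exact (map_ne_zero i0).mpr hc0
    have h1 : jFun τ₀ ≠ 1728 := by
      rw [hτ₀]
      intro h
      apply hc1728
      apply i0.injective
      rw [h]
      exact (map_ofNat i0 1728).symm
    have hv1 := hval τ₀ c hτ₀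
    rw [helper2064.stmt_JGeneric τ₀ h0 h1] at hv1
    exact key c τ₀ 1 1 Nat.one_pos (one_smul _ _)
      (isOfFinOrder_iff_pow_eq_one.mpr ⟨1, Nat.one_pos, one_pow 1⟩)
      (by rw [hv1]; rfl) (helper481.hDiv_one _ _) hc

/-- **ANDIV, finite half, function-level shape.** -/
theorem dvd_ord_finite_fun {Γ : Subgroup SL(2, ℤ)} {jF : F} {i0 : Kbar →+* ℂ}
    {A : Subalgebra Kbar F} {e : A →+* (ℍ → ℂ)} (hE : EvFin Γ jF i0 A e)
    [FiniteDimensional Kbar⟮jF⟯ F]
    (hdeg : Module.finrank Kbar⟮jF⟯ F = Nat.card (SL(2, ℤ) ⧸ Γ))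
    (n : ℕ) (a b : A) (ha : a ≠ 0) (hb : b ≠ 0) (P Q : ℍ → ℂ)
    (hP : MDifferentiable 𝓘(ℂ) 𝓘(ℂ) P) (hQ : MDifferentiable 𝓘(ℂ) 𝓘(ℂ) Q) (hQ0 : Q ≠ 0)
    (hroot : ∀ τ : ℍ, P τ ^ n * e b τ = Q τ ^ n * e a τ)
    (hfin : ∀ γ ∈ Γ, IsOfFinOrder γ → ∀ τ : ℍ, P (γ • τ) * Q τ = P τ * Q (γ • τ))
    (v : Place Kbar F) (hv : 0 ≤ v.ord jF) :
    (n : ℤ) ∣ v.ord ((a : F) / (b : F)) := by
  refine dvd_ord_finite_gen hE hdeg n a b ha hb (Hol.mk P hP) (Hol.mk Q hQ) ?_ ?_ ?_ v hv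
  · intro h
    exact hQ0 (congrArg Subtype.val h)
  · exact Hol.ext fun τ => hroot τ
  · intro γ hγ hfin'
    exact Hol.ext fun τ => hfin γ hγ hfin' τ

end

end Fermat.Agent.S48.helper6324
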