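import Fermat.Agent.S48.helper6324_AnDivGenPm

/-!
# S48-M3-ANDIV-INST (helper6324): the cusp germs pass to fractions

The field `germ` of `EvDatum` asks a cusp germ for `e a ∘ g` for **every** `a ∈ A`.  When `A` is
the algebra of all elements of the function field which are `q`-expansions of holomorphic
functions, an induction on generators only reaches the subalgebra generated by them.  This file
closes the gap: if `a * c = b` with `c ≠ 0` and `e b ∘ g`, `e c ∘ g` have cusp germs, then so does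
`e a ∘ g` (the quotient of the two germs; the germ of `e c ∘ g` is not identically zero by the
identity theorem).

* `EvFin.exists_germ_of_frac` : the statement above;
* `EvDatum.of_frac_germ` : `EvFin` + `level` + germs on a family `P` of elements of `A` through
  which every element of `A` is a fraction ⟹ `EvDatum`;
* `EvDatum.of_frac_germ'` : the same with the fractions taken in `F`;
* `EvDatum.of_pm_frac_germ` : the same for `± Γ`, from `level` stated on `Γ`.
-/

set_option autoImplicit false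

open ModularCurve CongruenceSubgroup UpperHalfPlane Filter AlgebraicCurve IntermediateField
open scoped MatrixGroups Manifold Topology

namespace Fermat.Agent.S48.helper6324

open Fermat.Agent.S24 Fermat.Agent.S24.helper24

noncomputable section

variable {F : Type} [Field F] [Algebra Kbar F]
variable {Γ : Subgroup SL(2, ℤ)} {h : ℕ} {jF : F} {i0 : Kbar →+* ℂ} {A : Subalgebra Kbar F}
  {e : A →+* (ℍ → ℂ)}

/-- The germ at the cusp of a conjugate of `e c`, `c ≠ 0`, is not identically zero (only the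
finite part `EvFin` of the datum is used). -/
theorem EvFin.germ_eventually_ne_zero (hE : EvFin Γ jF i0 A e) (h : ℕ) [NeZero h]
    (g : SL(2, ℤ)) {c : A} (hc : c ≠ 0) {H : ℂ → ℂ} (hH : MeromorphicAt H 0)
    (hev : ∀ᶠ τ : ℍ in atImInfty,
      e c (g • τ) = H (Function.Periodic.qParam (h : ℝ) (τ : ℂ))) :
    ∀ᶠ t in 𝓝[≠] (0 : ℂ), H t ≠ 0 := by
  rcases hH.eventually_eq_zero_or_eventually_ne_zero with h0 | h0
  · exfalso
    have hev0 : ∀ᶠ τ : ℍ in atImInfty, e c (g • τ) = 0 := by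
      filter_upwards [(S29.helper1736.tendsto_qParam_atImInfty h).eventually h0, hev]
        with τ hτ hτ'
      rw [hτ']
      exact hτ
    obtain ⟨B, hB⟩ := (atImInfty_mem _).mp hev0
    have hmd : MDifferentiable 𝓘(ℂ) 𝓘(ℂ) (fun τ : ℍ => e c (g • τ)) :=
      S29.helper1736.mdiff_comp_smul_SL g (hE.hol c)
    have hzero : (fun τ : ℍ => e c (g • τ)) = 0 := by
      by_contra hne
      obtain ⟨τ, hτ, hτ0⟩ := S29.helper1736.exists_ne_zero_of_im_gt hmd hne B
      exact hτ0 (hB τ hτ.le)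
    apply hc
    apply hE.inj
    rw [map_zero]
    funext τ
    have h1 := congrFun hzero (g⁻¹ • τ)
    simp only [smul_inv_smul] at h1
    exact h1
  · exact h0

/-- **The cusp germs pass to fractions.**  If `a * c = b` in `A` with `c ≠ 0`, and `e b ∘ g`,
`e c ∘ g` are meromorphic functions of `exp (2πiτ/h)` near `i∞`, then so is `e a ∘ g`. -/
theorem EvFin.exists_germ_of_frac (hE : EvFin Γ jF i0 A e) (h : ℕ) [NeZero h] (g : SL(2, ℤ))
    {a b c : A} (hc : c ≠ 0) (habc : a * c = b)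
    (hb : ∃ H : ℂ → ℂ, MeromorphicAt H 0 ∧
      ∀ᶠ τ : ℍ in atImInfty, e b (g • τ) = H (Function.Periodic.qParam (h : ℝ) (τ : ℂ)))
    (hc' : ∃ H : ℂ → ℂ, MeromorphicAt H 0 ∧
      ∀ᶠ τ : ℍ in atImInfty, e c (g • τ) = H (Function.Periodic.qParam (h : ℝ) (τ : ℂ))) :
    ∃ H : ℂ → ℂ, MeromorphicAt H 0 ∧
      ∀ᶠ τ : ℍ in atImInfty, e a (g • τ) = H (Function.Periodic.qParam (h : ℝ) (τ : ℂ)) := by
  obtain ⟨Hb, hHb, hevb⟩ := hb
  obtain ⟨Hc, hHc, hevc⟩ := hc'
  have hne : ∀ᶠ t in 𝓝[≠] (0 : ℂ), Hc t ≠ 0 := hE.germ_eventually_ne_zero h g hc hHc hevc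
  refine ⟨fun t => Hb t / Hc t, hHb.div hHc, ?_⟩
  filter_upwards [(S29.helper1736.tendsto_qParam_atImInfty h).eventually hne, hevb, hevc]
    with τ h1 h2 h3
  have h4 : e a (g • τ) * e c (g • τ) = e b (g • τ) := by
    have h5 := congrFun (congrArg e habc) (g • τ)
    rw [map_mul] at h5
    exact h5
  have h6 : e c (g • τ) ≠ 0 := by
    rw [h3]
    exact h1
  rw [← h2, ← h3, eq_div_iff h6]
  exact h4

/-- **`EvDatum` from germs on a family of fractions.**  `EvFin`, the level hypothesis, and cusp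
germs for the elements of a family `P` of elements of `A` such that every element of `A` is a
fraction of two elements of `P`. -/
theorem EvDatum.of_frac_germ [NeZero h] (hE : EvFin Γ jF i0 A e)
    (level : ∀ g : SL(2, ℤ), g⁻¹ * ModularGroup.T ^ h * g ∈ Γ)
    (P : A → Prop)
    (hfrac : ∀ a : A, ∃ b c : A, P b ∧ P c ∧ c ≠ 0 ∧ a * c = b)
    (hgerm : ∀ (g : SL(2, ℤ)) (a : A), P a → ∃ H : ℂ → ℂ, MeromorphicAt H 0 ∧
      ∀ᶠ τ : ℍ in atImInfty, e a (g • τ) = H (Function.Periodic.qParam (h : ℝ) (τ : ℂ))) :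
    EvDatum Γ h jF i0 A e where
  toEvFin := hE
  level := level
  germ := fun g a => by
    obtain ⟨b, c, hb, hc, hc0, habc⟩ := hfrac a
    exact hE.exists_germ_of_frac h g hc0 habc (hgerm g b hb) (hgerm g c hc)

/-- `EvDatum.of_frac_germ` with the fractions taken in `F` (the shape of "every element of
`F = K(S)` is a quotient of two elements of `K[S]`"). -/
theorem EvDatum.of_frac_germ' [NeZero h] (hE : EvFin Γ jF i0 A e)
    (level : ∀ g : SL(2, ℤ), g⁻¹ * ModularGroup.T ^ h * g ∈ Γ)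
    (P : A → Prop)
    (hfrac : ∀ f : F, ∃ b c : A, P b ∧ P c ∧ c ≠ 0 ∧ f * (c : F) = (b : F))
    (hgerm : ∀ (g : SL(2, ℤ)) (a : A), P a → ∃ H : ℂ → ℂ, MeromorphicAt H 0 ∧
      ∀ᶠ τ : ℍ in atImInfty, e a (g • τ) = H (Function.Periodic.qParam (h : ℝ) (τ : ℂ))) :
    EvDatum Γ h jF i0 A e :=
  EvDatum.of_frac_germ hE level P
    (fun a => by
      obtain ⟨b, c, hb, hc, hc0, habc⟩ := hfrac (a : F)
      exact ⟨b, c, hb, hc, hc0, Subtype.ext habc⟩)
    hgerm

/-- `EvDatum.of_frac_germ'` for `± Γ`, with the level hypothesis stated on `Γ`. -/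
theorem EvDatum.of_pm_frac_germ [NeZero h] (hE : EvFin (pmSubgroup Γ) jF i0 A e)
    (level : ∀ g : SL(2, ℤ), g⁻¹ * ModularGroup.T ^ h * g ∈ Γ)
    (P : A → Prop)
    (hfrac : ∀ f : F, ∃ b c : A, P b ∧ P c ∧ c ≠ 0 ∧ f * (c : F) = (b : F))
    (hgerm : ∀ (g : SL(2, ℤ)) (a : A), P a → ∃ H : ℂ → ℂ, MeromorphicAt H 0 ∧
      ∀ᶠ τ : ℍ in atImInfty, e a (g • τ) = H (Function.Periodic.qParam (h : ℝ) (τ : ℂ))) :
    EvDatum (pmSubgroup Γ) h jF i0 A e :=
  EvDatum.of_frac_germ' hE (fun g => le_pmSubgroup Γ (level g)) P hfrac hgerm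

/-- The evaluation datum of `± Γ₁(M)` (width `M`) from its finite part and germs on a family of
fractions: the level hypothesis is automatic. -/
theorem EvDatum.of_frac_germ_Gamma1 {M : ℕ} [NeZero M]
    (hE : EvFin (pmSubgroup (Gamma1 M)) jF i0 A e) (P : A → Prop)
    (hfrac : ∀ f : F, ∃ b c : A, P b ∧ P c ∧ c ≠ 0 ∧ f * (c : F) = (b : F))
    (hgerm : ∀ (g : SL(2, ℤ)) (a : A), P a → ∃ H : ℂ → ℂ, MeromorphicAt H 0 ∧
      ∀ᶠ τ : ℍ in atImInfty, e a (g • τ) = H (Function.Periodic.qParam (M : ℝ) (τ : ℂ))) :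
    EvDatum (pmSubgroup (Gamma1 M)) M jF i0 A e :=
  EvDatum.of_pm_frac_germ hE (conj_T_pow_mem_Gamma1 M) P hfrac hgerm

end

end Fermat.Agent.S48.helper6324
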