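import Fermat.Agent.S48.helper6324_AnDivGenPm
import Fermat.Agent.S29.helper2122_SurjAsm

/-!
# S48-M3-ANDIV1 (helper6324): the cusp germs from exponential growth

The field `germ` of `EvDatum` ("every `e a ∘ g` is, near `i∞`, a meromorphic function of
`exp (2πiτ/h)`") follows from the invariance under the conjugates of `T ^ h` and from
exponential growth of the translates (the hypothesis `growth` of the complex place dictionary,
`helper167.HasExpGrowth`), by the landed `S29.helper2122.isCuspMer_of_growth` /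
`exists_ratio_merAt`.

* `exists_germ_of_growth` : a holomorphic function on the upper half plane, invariant under
  `T ^ h` and of exponential growth at `i∞`, is a meromorphic function of `exp (2πiτ/h)` near
  `i∞`;
* `EvDatum.of_growth` : `EvFin` + `level` + `growth` ⟹ `EvDatum`;
* `EvDatum.of_pm_growth` : the same for `± Γ` from hypotheses stated on `Γ`;
* `dvd_ord_of_multiplier_growth` : generic ANDIV in multiplier form with these hypotheses.
-/

set_option autoImplicit false

open ModularCurve CongruenceSubgroup UpperHalfPlane Filter AlgebraicCurve IntermediateField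
open scoped MatrixGroups Manifold Topology

namespace Fermat.Agent.S48.helper6324

open Fermat.Agent.S24 Fermat.Agent.S24.helper24

/-- A holomorphic function on the upper half plane which is invariant under `T ^ h` and has
exponential growth at `i∞` is, near `i∞`, a meromorphic function of `exp (2πiτ/h)`. -/
theorem exists_germ_of_growth (h : ℕ) [NeZero h] {f : ℍ → ℂ}
    (hf : MDifferentiable 𝓘(ℂ) 𝓘(ℂ) f)
    (hper : ∀ τ : ℍ, f (ModularGroup.T ^ h • τ) = f τ)
    (hgr : ∃ (m : ℕ) (C B : ℝ), ∀ τ : ℍ, B ≤ τ.im →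
      ‖f τ‖ ≤ C * Real.exp (2 * Real.pi * m * τ.im)) :
    ∃ H : ℂ → ℂ, MeromorphicAt H 0 ∧
      ∀ᶠ τ : ℍ in atImInfty, f τ = H (Function.Periodic.qParam (h : ℝ) (τ : ℂ)) := by
  have hper' : helper315.HPeriodic (h : ℝ) f := by
    intro τ
    have h1 : ((h : ℝ) +ᵥ τ) = ModularGroup.T ^ h • τ := by
      have h2 := UpperHalfPlane.modular_T_zpow_smul τ (h : ℤ)
      rw [zpow_natCast] at h2
      rw [h2]
      simp
    rw [h1, hper]
  have h1 := S29.helper2122.isCuspMer_of_growth h hf hper' hgr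
  have h2 : helper315.IsCuspMer (h : ℝ) (1 : ℍ → ℂ) := (helper315.IsCuspHol.one _).isCuspMer
  obtain ⟨H, hH, hev⟩ := S29.helper2122.exists_ratio_merAt h h1 h2 one_ne_zero
  refine ⟨H, hH, ?_⟩
  filter_upwards [hev] with τ hτ
  rw [hτ]
  simp

section Datum

variable {F : Type} [Field F] [Algebra Kbar F]
variable {Γ : Subgroup SL(2, ℤ)} {h : ℕ} {jF : F} {i0 : Kbar →+* ℂ} {A : Subalgebra Kbar F}
  {e : A →+* (ℍ → ℂ)}

/-- `EvDatum` from `EvFin`, the level hypothesis and exponential growth of the translates. -/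
theorem EvDatum.of_growth [NeZero h] (hE : EvFin Γ jF i0 A e)
    (level : ∀ g : SL(2, ℤ), g⁻¹ * ModularGroup.T ^ h * g ∈ Γ)
    (growth : ∀ (a : A) (g : SL(2, ℤ)), ∃ (m : ℕ) (C B : ℝ), ∀ τ : ℍ, B ≤ τ.im →
      ‖e a (g • τ)‖ ≤ C * Real.exp (2 * Real.pi * m * τ.im)) :
    EvDatum Γ h jF i0 A e where
  toEvFin := hE
  level := level
  germ := by
    intro g a
    refine exists_germ_of_growth h (f := fun τ => e a (g • τ))
      (S29.helper1736.mdiff_comp_smul_SL g (hE.hol a)) ?_ (growth a g)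
    intro τ
    have hmem : (g⁻¹)⁻¹ * ModularGroup.T ^ h * g⁻¹ ∈ Γ := level g⁻¹
    have h1 := hE.inv _ hmem a (g • τ)
    have h2 : ((g⁻¹)⁻¹ * ModularGroup.T ^ h * g⁻¹) • g • τ = g • (ModularGroup.T ^ h • τ) := by
      rw [inv_inv, ← mul_smul, ← mul_smul]
      congr 1
      group
    rw [h2] at h1
    exact h1

/-- `EvDatum` from `EvFin`, the level hypothesis and `helper167.HasExpGrowth` of the
translates (the shape of the complex place dictionary). -/
theorem EvDatum.of_hasExpGrowth [NeZero h] (hE : EvFin Γ jF i0 A e)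
    (level : ∀ g : SL(2, ℤ), g⁻¹ * ModularGroup.T ^ h * g ∈ Γ)
    (growth : ∀ (a : A) (g : SL(2, ℤ)), helper167.HasExpGrowth (fun τ : ℍ => e a (g • τ))) :
    EvDatum Γ h jF i0 A e :=
  EvDatum.of_growth hE level fun a g => by
    obtain ⟨m, C, hC⟩ := growth a g
    exact ⟨m, C, 1, hC⟩

/-- An evaluation datum for `± Γ` from hypotheses stated on `Γ`, with exponential growth of
the translates instead of the cusp germs. -/
theorem EvDatum.of_pm_growth [NeZero h]
    (frac : ∀ f : F, ∃ a b : A, b ≠ 0 ∧ f * (b : F) = a)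
    (inj : Function.Injective e)
    (hol : ∀ a, MDifferentiable 𝓘(ℂ) 𝓘(ℂ) (e a))
    (const : ∀ c : Kbar, e (algebraMap Kbar A c) = fun _ => i0 c)
    (j_mem : jF ∈ A) (j_eval : e ⟨jF, j_mem⟩ = jFun)
    (inv : ∀ γ ∈ Γ, ∀ (a : A) (τ : ℍ), e a (γ • τ) = e a τ)
    (sep : ∀ g : SL(2, ℤ), (∀ (a : A) (τ : ℍ), e a (g • τ) = e a τ) → g ∈ Γ ∨ -g ∈ Γ)
    (level : ∀ g : SL(2, ℤ), g⁻¹ * ModularGroup.T ^ h * g ∈ Γ)
    (growth : ∀ (a : A) (g : SL(2, ℤ)), ∃ (m : ℕ) (C B : ℝ), ∀ τ : ℍ, B ≤ τ.im →
      ‖e a (g • τ)‖ ≤ C * Real.exp (2 * Real.pi * m * τ.im)) :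
    EvDatum (pmSubgroup Γ) h jF i0 A e := by
  refine EvDatum.of_growth ?_ (fun g => le_pmSubgroup Γ (level g)) growth
  exact
    { frac := frac
      inj := inj
      hol := hol
      const := const
      j_mem := j_mem
      j_eval := j_eval
      inv := by
        rintro γ (hγ | hγ) a τ
        · exact inv γ hγ a τ
        · have := inv (-γ) hγ a τ
          rwa [ModularGroup.SL_neg_smul] at this
      sep := sep }

end Datum

end Fermat.Agent.S48.helper6324
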