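import Fermat.Agent.S48.helper6324_AnDivGenCusp

/-!
# S48-M3-ANDIV1 (helper6324): generic ANDIV for a group without `-1` (`Γ₁(M)`)

The hypothesis `sep` of an evaluation datum forces `-1 ∈ Γ` (`-1` acts trivially on the upper
half plane), and `-1 ∉ Γ₁(M)` for `M ≥ 3`.  The invariance group of the function field of
`X₁(M)` is `± Γ₁(M)`.

* `pmSubgroup Γ` : the subgroup `± Γ = {g | g ∈ Γ ∨ -g ∈ Γ}` of `SL(2, ℤ)`;
* `index_pmSubgroup_mul_two` : `[SL(2, ℤ) : ± Γ] * 2 = [SL(2, ℤ) : Γ]` when `-1 ∉ Γ`;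
* `EvDatum.of_pm` : an evaluation datum for `± Γ` from hypotheses stated on `Γ` (separation in
  the form `g ∈ Γ ∨ -g ∈ Γ`);
* `dvd_ord_of_root_pair_pm` : **generic ANDIV, invariance form on `Γ`**: a root pair `P`, `Q`
  whose ratio is invariant under the elements of finite order and the elements of trace `±2`
  of `Γ`.  Irregular cusps need no special treatment;
* `dvd_ord_of_root_pair_reg`, `dvd_ord_of_root_pair_Gamma1` : the pair form on `Γ` itself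
  (`AnDivPair Γ A e n` of the `Γ₁` assembly) when there is no irregular cusp, e.g. `Γ = Γ₁(M)`
  with `M ∤ 4` (`neg_conj_T_zpow_not_mem_Gamma1`); `conj_T_pow_mem_Gamma1` is the `level` field;
* `dvd_ord_of_multiplier_pm` : **generic ANDIV in multiplier form** (the hypotheses of the
  S29 consumer `helper2122.surjAt_of_pair`, `Γ₀(N)` replaced by `Γ`): the ratio transforms
  under `Γ` by a character `χ` which is trivial on the elements of trace `±2` and on the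
  elements of finite order.
-/

set_option autoImplicit false

open ModularCurve CongruenceSubgroup UpperHalfPlane Filter AlgebraicCurve IntermediateField
open scoped MatrixGroups Manifold Topology

namespace Fermat.Agent.S48.helper6324

open Fermat.Agent.S24 Fermat.Agent.S24.helper24

/-- The subgroup `± Γ` of `SL(2, ℤ)`. -/
def pmSubgroup (Γ : Subgroup SL(2, ℤ)) : Subgroup SL(2, ℤ) where
  carrier := {g | g ∈ Γ ∨ -g ∈ Γ}
  mul_mem' := by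
    rintro g g' (hg | hg) (hg' | hg')
    · exact Or.inl (Γ.mul_mem hg hg')
    · refine Or.inr ?_
      have := Γ.mul_mem hg hg'
      rwa [mul_neg] at this
    · refine Or.inr ?_
      have := Γ.mul_mem hg hg'
      rwa [neg_mul] at this
    · refine Or.inl ?_
      have := Γ.mul_mem hg hg'
      rwa [neg_mul_neg] at this
  one_mem' := Or.inl Γ.one_mem
  inv_mem' := by
    rintro g (hg | hg)
    · exact Or.inl (Γ.inv_mem hg)
    · refine Or.inr ?_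
      have := Γ.inv_mem hg
      rwa [inv_neg] at this

theorem mem_pmSubgroup {Γ : Subgroup SL(2, ℤ)} {g : SL(2, ℤ)} :
    g ∈ pmSubgroup Γ ↔ g ∈ Γ ∨ -g ∈ Γ := Iff.rfl

theorem le_pmSubgroup (Γ : Subgroup SL(2, ℤ)) : Γ ≤ pmSubgroup Γ := fun _ hg => Or.inl hg

theorem neg_one_mem_pmSubgroup (Γ : Subgroup SL(2, ℤ)) : (-1 : SL(2, ℤ)) ∈ pmSubgroup Γ :=
  Or.inr (by rw [neg_neg]; exact Γ.one_mem)

theorem neg_mem_pmSubgroup {Γ : Subgroup SL(2, ℤ)} {g : SL(2, ℤ)} (hg : g ∈ pmSubgroup Γ) :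
    -g ∈ pmSubgroup Γ := by
  rcases hg with hg | hg
  · exact Or.inr (by rwa [neg_neg])
  · exact Or.inl hg

theorem pmSubgroup_eq_of_neg_one_mem {Γ : Subgroup SL(2, ℤ)} (h : (-1 : SL(2, ℤ)) ∈ Γ) :
    pmSubgroup Γ = Γ := by
  refine le_antisymm ?_ (le_pmSubgroup Γ)
  rintro g (hg | hg)
  · exact hg
  · have := Γ.mul_mem h hg
    rwa [neg_mul_neg, one_mul] at this

/-- `[SL(2, ℤ) : ± Γ] * 2 = [SL(2, ℤ) : Γ]` when `-1 ∉ Γ`. -/
theorem index_pmSubgroup_mul_two {Γ : Subgroup SL(2, ℤ)} (h : (-1 : SL(2, ℤ)) ∉ Γ) :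
    (pmSubgroup Γ).index * 2 = Γ.index := by
  have h2 : Γ.relIndex (pmSubgroup Γ) = 2 := by
    rw [Subgroup.relIndex, Subgroup.index_eq_two_iff]
    refine ⟨⟨-1, neg_one_mem_pmSubgroup Γ⟩, ?_⟩
    rintro ⟨b, hb⟩
    rw [Subgroup.mem_subgroupOf, Subgroup.mem_subgroupOf]
    show Xor (b * -1 ∈ Γ) (b ∈ Γ)
    rw [mul_neg, mul_one]
    have hnot : ¬ (b ∈ Γ ∧ -b ∈ Γ) := by
      rintro ⟨h1, h2⟩
      apply h
      have := Γ.mul_mem h2 (Γ.inv_mem h1)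
      rwa [neg_mul, mul_inv_cancel] at this
    rcases hb with hb | hb
    · exact Or.inr ⟨hb, fun h' => hnot ⟨hb, h'⟩⟩
    · exact Or.inl ⟨hb, fun h' => hnot ⟨h', hb⟩⟩
  rw [← Subgroup.relIndex_mul_index (le_pmSubgroup Γ), h2, mul_comm]

/-- `Nat.card` form of `index_pmSubgroup_mul_two`. -/
theorem card_quotient_pmSubgroup_mul_two {Γ : Subgroup SL(2, ℤ)} (h : (-1 : SL(2, ℤ)) ∉ Γ) :
    Nat.card (SL(2, ℤ) ⧸ pmSubgroup Γ) * 2 = Nat.card (SL(2, ℤ) ⧸ Γ) :=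
  index_pmSubgroup_mul_two h

/-- `-1 ∉ Γ₁(M)` for `M ≥ 3`. -/
theorem neg_one_not_mem_Gamma1 {M : ℕ} (hM : 3 ≤ M) : (-1 : SL(2, ℤ)) ∉ Gamma1 M := by
  intro h
  rw [Gamma1_mem] at h
  have h00 : ((-1 : SL(2, ℤ)) 0 0 : ℤ) = -1 := by
    show ((-1 : SL(2, ℤ)) : Matrix (Fin 2) (Fin 2) ℤ) 0 0 = -1
    rw [Matrix.SpecialLinearGroup.coe_neg, Matrix.SpecialLinearGroup.coe_one]
    simp
  have h1 := h.1
  rw [h00] at h1
  have h2 : ((2 : ℤ) : ZMod M) = 0 := by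
    have h3 : ((2 : ℤ) : ZMod M) = (1 : ZMod M) - ((-1 : ℤ) : ZMod M) := by
      push_cast
      ring
    rw [h3, h1, sub_self]
  have h4 : (M : ℤ) ∣ 2 := (ZMod.intCast_zmod_eq_zero_iff_dvd 2 M).mp h2
  have h5 := Int.le_of_dvd (by norm_num) h4
  omega

section Datum

variable {F : Type} [Field F] [Algebra Kbar F]
variable {Γ : Subgroup SL(2, ℤ)} {h : ℕ} {jF : F} {i0 : Kbar →+* ℂ} {A : Subalgebra Kbar F}
  {e : A →+* (ℍ → ℂ)}

/-- An evaluation datum for `± Γ` from hypotheses stated on `Γ`. -/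
theorem EvDatum.of_pm
    (frac : ∀ f : F, ∃ a b : A, b ≠ 0 ∧ f * (b : F) = a)
    (inj : Function.Injective e)
    (hol : ∀ a, MDifferentiable 𝓘(ℂ) 𝓘(ℂ) (e a))
    (const : ∀ c : Kbar, e (algebraMap Kbar A c) = fun _ => i0 c)
    (j_mem : jF ∈ A) (j_eval : e ⟨jF, j_mem⟩ = jFun)
    (inv : ∀ γ ∈ Γ, ∀ (a : A) (τ : ℍ), e a (γ • τ) = e a τ)
    (sep : ∀ g : SL(2, ℤ), (∀ (a : A) (τ : ℍ), e a (g • τ) = e a τ) → g ∈ Γ ∨ -g ∈ Γ)
    (level : ∀ g : SL(2, ℤ), g⁻¹ * ModularGroup.T ^ h * g ∈ Γ)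
    (germ : ∀ (g : SL(2, ℤ)) (a : A), ∃ H : ℂ → ℂ, MeromorphicAt H 0 ∧
      ∀ᶠ τ : ℍ in atImInfty, e a (g • τ) = H (Function.Periodic.qParam (h : ℝ) (τ : ℂ))) :
    EvDatum (pmSubgroup Γ) h jF i0 A e where
  frac := frac
  inj := inj
  hol := hol
  const := const
  j_mem := j_mem
  j_eval := j_eval
  inv := by
    rintro γ (hγ | hγ) a τ
    · exact inv γ hγ a τ
    · have := inv (-γ) hγ a τ
      rwa [ModularGroup.SL_neg_smul] at this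
  sep := sep
  level := fun g => le_pmSubgroup Γ (level g)
  germ := germ

theorem trace_conj_T_zpow (g : SL(2, ℤ)) (k : ℤ) :
    ((g⁻¹ * ModularGroup.T ^ k * g : SL(2, ℤ)) : Matrix (Fin 2) (Fin 2) ℤ).trace = 2 := by
  rw [Matrix.SpecialLinearGroup.coe_mul, Matrix.trace_mul_comm, ← Matrix.SpecialLinearGroup.coe_mul,
    ← mul_assoc, mul_inv_cancel, one_mul, ModularGroup.coe_T_zpow]
  simp [Matrix.trace_fin_two]

theorem trace_neg_SL (g : SL(2, ℤ)) :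
    ((-g : SL(2, ℤ)) : Matrix (Fin 2) (Fin 2) ℤ).trace
      = -((g : SL(2, ℤ)) : Matrix (Fin 2) (Fin 2) ℤ).trace := by
  rw [Matrix.SpecialLinearGroup.coe_neg, Matrix.trace_neg]

theorem isOfFinOrder_neg_SL {g : SL(2, ℤ)} (hg : IsOfFinOrder g) : IsOfFinOrder (-g) := by
  rw [isOfFinOrder_iff_pow_eq_one] at hg ⊢
  obtain ⟨n, hn, hpow⟩ := hg
  refine ⟨2 * n, by omega, ?_⟩
  rw [pow_mul, neg_sq, ← pow_mul, mul_comm, pow_mul, hpow, one_pow]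

/-- **Generic ANDIV, invariance form on `Γ`** (`Γ` need not contain `-1`; the evaluation datum
is the one of `± Γ`).  If `(P / Q) ^ n = e (a / b)` with `P`, `Q` holomorphic on the upper half
plane and `P / Q` invariant under the elements of finite order of `Γ` and under the elements of
trace `±2` of `Γ`, then `n` divides the order of `a / b` at every place of `F` over `ℚ̄`. -/
theorem dvd_ord_of_root_pair_pm [NeZero h] (hE : EvDatum (pmSubgroup Γ) h jF i0 A e)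
    [FiniteDimensional Kbar⟮jF⟯ F]
    (hdeg : Module.finrank Kbar⟮jF⟯ F = Nat.card (SL(2, ℤ) ⧸ pmSubgroup Γ))
    (n : ℕ) (a b : A) (ha : a ≠ 0) (hb : b ≠ 0) (P Q : ℍ → ℂ)
    (hP : MDifferentiable 𝓘(ℂ) 𝓘(ℂ) P) (hQ : MDifferentiable 𝓘(ℂ) 𝓘(ℂ) Q) (hQ0 : Q ≠ 0)
    (hroot : ∀ τ : ℍ, P τ ^ n * e b τ = Q τ ^ n * e a τ)
    (hfin : ∀ γ ∈ Γ, IsOfFinOrder γ → ∀ τ : ℍ, P (γ • τ) * Q τ = P τ * Q (γ • τ))
    (htr : ∀ γ ∈ Γ, ((γ : SL(2, ℤ)) : Matrix (Fin 2) (Fin 2) ℤ).trace ^ 2 = 4 →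
      ∀ τ : ℍ, P (γ • τ) * Q τ = P τ * Q (γ • τ))
    (v : Place Kbar F) :
    (n : ℤ) ∣ v.ord ((a : F) / (b : F)) := by
  -- invariance under `γ ∈ ± Γ` from the invariance under `γ` or `-γ`
  have key : ∀ γ : SL(2, ℤ), γ ∈ pmSubgroup Γ →
      (γ ∈ Γ → ∀ τ : ℍ, P (γ • τ) * Q τ = P τ * Q (γ • τ)) →
      (-γ ∈ Γ → ∀ τ : ℍ, P ((-γ) • τ) * Q τ = P τ * Q ((-γ) • τ)) →
      ∀ τ : ℍ, P (γ • τ) * Q τ = P τ * Q (γ • τ) := by
    intro γ hγ h1 h2 τ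
    rcases hγ with hγ | hγ
    · exact h1 hγ τ
    · have h3 := h2 hγ τ
      rwa [ModularGroup.SL_neg_smul] at h3
  refine dvd_ord_of_root_pair_gen hE hdeg n a b ha hb P Q hP hQ hQ0 hroot ?_ ?_ v
  · intro γ hγ hfin'
    exact key γ hγ (fun hγ' => hfin γ hγ' hfin')
      (fun hγ' => hfin (-γ) hγ' (isOfFinOrder_neg_SL hfin'))
  · intro g k hγ
    refine key _ hγ (fun hγ' => htr _ hγ' ?_) (fun hγ' => htr _ hγ' ?_)
    · rw [trace_conj_T_zpow]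
      norm_num
    · rw [trace_neg_SL, trace_conj_T_zpow]
      norm_num

/-- **Generic ANDIV, pair form on `Γ`, regular cusps** (the shape `AnDivPair Γ A e n` of the
`Γ₁` assembly, i.e. of the landed `S29.helper6324.dvd_ord_of_root_pair` with `Γ₀(N)` replaced by
`Γ`): if no conjugate of a power of `T` lies in `-Γ` (no irregular cusp), the unipotent
hypothesis is only needed for the conjugates of powers of `T` lying in `Γ` itself. -/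
theorem dvd_ord_of_root_pair_reg [NeZero h] (hE : EvDatum (pmSubgroup Γ) h jF i0 A e)
    [FiniteDimensional Kbar⟮jF⟯ F]
    (hdeg : Module.finrank Kbar⟮jF⟯ F = Nat.card (SL(2, ℤ) ⧸ pmSubgroup Γ))
    (hreg : ∀ (g : SL(2, ℤ)) (k : ℤ), -(g⁻¹ * ModularGroup.T ^ k * g) ∉ Γ)
    (n : ℕ) (a b : A) (ha : a ≠ 0) (hb : b ≠ 0) (P Q : ℍ → ℂ)
    (hP : MDifferentiable 𝓘(ℂ) 𝓘(ℂ) P) (hQ : MDifferentiable 𝓘(ℂ) 𝓘(ℂ) Q) (hQ0 : Q ≠ 0)
    (hroot : ∀ τ : ℍ, P τ ^ n * e b τ = Q τ ^ n * e a τ)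
    (hfin : ∀ γ ∈ Γ, IsOfFinOrder γ → ∀ τ : ℍ, P (γ • τ) * Q τ = P τ * Q (γ • τ))
    (hpar : ∀ (g : SL(2, ℤ)) (k : ℤ), g⁻¹ * ModularGroup.T ^ k * g ∈ Γ →
      ∀ τ : ℍ, P ((g⁻¹ * ModularGroup.T ^ k * g) • τ) * Q τ
        = P τ * Q ((g⁻¹ * ModularGroup.T ^ k * g) • τ))
    (v : Place Kbar F) :
    (n : ℤ) ∣ v.ord ((a : F) / (b : F)) := by
  refine dvd_ord_of_root_pair_gen hE hdeg n a b ha hb P Q hP hQ hQ0 hroot ?_ ?_ v
  · rintro γ (hγ | hγ) hfin' τ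
    · exact hfin γ hγ hfin' τ
    · have h3 := hfin (-γ) hγ (isOfFinOrder_neg_SL hfin') τ
      rwa [ModularGroup.SL_neg_smul] at h3
  · rintro g k (hγ | hγ)
    · exact hpar g k hγ
    · exact absurd hγ (hreg g k)

/-- `Γ₁(M)` has no irregular cusp when `M` does not divide `4`: no conjugate of a power of `T`
lies in `-Γ₁(M)`. -/
theorem neg_conj_T_zpow_not_mem_Gamma1 {M : ℕ} (hM : ¬ M ∣ 4) (g : SL(2, ℤ)) (k : ℤ) :
    -(g⁻¹ * ModularGroup.T ^ k * g) ∉ Gamma1 M := by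
  intro hmem
  rw [Gamma1_mem] at hmem
  have htr : ((-(g⁻¹ * ModularGroup.T ^ k * g) : SL(2, ℤ)) : Matrix (Fin 2) (Fin 2) ℤ).trace
      = -2 := by
    rw [trace_neg_SL, trace_conj_T_zpow]
  rw [Matrix.trace_fin_two] at htr
  have h1 : (((-(g⁻¹ * ModularGroup.T ^ k * g) : SL(2, ℤ)) : Matrix (Fin 2) (Fin 2) ℤ) 0 0
      + ((-(g⁻¹ * ModularGroup.T ^ k * g) : SL(2, ℤ)) : Matrix (Fin 2) (Fin 2) ℤ) 1 1 : ℤ)
      = -2 := htr
  have h2 := congrArg (Int.cast : ℤ → ZMod M) h1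
  rw [Int.cast_add] at h2
  have h00 := hmem.1
  have h11 := hmem.2.1
  have h3 : ((4 : ℤ) : ZMod M) = 0 := by
    have h4 : ((1 : ZMod M) + 1) = ((-2 : ℤ) : ZMod M) := by
      rw [← h2]
      congr 1
      · exact h00.symm
      · exact h11.symm
    have h5 : ((4 : ℤ) : ZMod M) = (1 + 1) - ((-2 : ℤ) : ZMod M) := by
      push_cast
      ring
    rw [h5, h4, sub_self]
  have h6 : (M : ℤ) ∣ 4 := (ZMod.intCast_zmod_eq_zero_iff_dvd 4 M).mp h3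
  exact hM (by exact_mod_cast h6)

/-- **ANDIV for `Γ₁(M)`**, `M ∤ 4`, in the pair form (`AnDivPair (Gamma1 M) A e n`), from an
evaluation datum for `± Γ₁(M)`. -/
theorem dvd_ord_of_root_pair_Gamma1 {M : ℕ} (hM : ¬ M ∣ 4) [NeZero h]
    (hE : EvDatum (pmSubgroup (Gamma1 M)) h jF i0 A e) [FiniteDimensional Kbar⟮jF⟯ F]
    (hdeg : Module.finrank Kbar⟮jF⟯ F = Nat.card (SL(2, ℤ) ⧸ pmSubgroup (Gamma1 M)))
    (n : ℕ) (a b : A) (ha : a ≠ 0) (hb : b ≠ 0) (P Q : ℍ → ℂ)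
    (hP : MDifferentiable 𝓘(ℂ) 𝓘(ℂ) P) (hQ : MDifferentiable 𝓘(ℂ) 𝓘(ℂ) Q) (hQ0 : Q ≠ 0)
    (hroot : ∀ τ : ℍ, P τ ^ n * e b τ = Q τ ^ n * e a τ)
    (hfin : ∀ γ ∈ Gamma1 M, IsOfFinOrder γ → ∀ τ : ℍ, P (γ • τ) * Q τ = P τ * Q (γ • τ))
    (hpar : ∀ (g : SL(2, ℤ)) (k : ℤ), g⁻¹ * ModularGroup.T ^ k * g ∈ Gamma1 M →
      ∀ τ : ℍ, P ((g⁻¹ * ModularGroup.T ^ k * g) • τ) * Q τ
        = P τ * Q ((g⁻¹ * ModularGroup.T ^ k * g) • τ))
    (v : Place Kbar F) :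
    (n : ℤ) ∣ v.ord ((a : F) / (b : F)) :=
  dvd_ord_of_root_pair_reg hE hdeg (neg_conj_T_zpow_not_mem_Gamma1 hM) n a b ha hb P Q hP hQ hQ0
    hroot hfin hpar v

/-- Every conjugate of `T ^ M` lies in `Γ₁(M)` (the field `level` of the evaluation datum of
`± Γ₁(M)` with `h = M`). -/
theorem conj_T_pow_mem_Gamma1 (M : ℕ) (g : SL(2, ℤ)) :
    g⁻¹ * ModularGroup.T ^ M * g ∈ Gamma1 M := by
  have h1 : ModularGroup.T ^ (M : ℤ) ∈ Gamma M := S29.helper1736.T_zpow_mem_Gamma M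
  rw [zpow_natCast] at h1
  have h2 : g⁻¹ * ModularGroup.T ^ M * g⁻¹⁻¹ ∈ Gamma M :=
    (Gamma_normal M).conj_mem _ h1 g⁻¹
  rw [inv_inv] at h2
  rw [Gamma_mem] at h2
  rw [Gamma1_mem]
  exact ⟨h2.1, h2.2.2.2, h2.2.2.1⟩

/-- **Generic ANDIV, multiplier form** (the hypotheses of the S29 consumer
`helper2122.surjAt_of_pair`, `Γ₀(N)` replaced by `Γ`).  If `(P / Q) ^ n = e (a / b)` with `P`,
`Q` holomorphic on the upper half plane and `P / Q` transforms under `Γ` by a character `χ`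
which is trivial on the elements of trace `±2` and on the elements of finite order, then `n`
divides the order of `a / b` at every place of `F` over `ℚ̄`. -/
theorem dvd_ord_of_multiplier_pm [NeZero h] (hE : EvDatum (pmSubgroup Γ) h jF i0 A e)
    [FiniteDimensional Kbar⟮jF⟯ F]
    (hdeg : Module.finrank Kbar⟮jF⟯ F = Nat.card (SL(2, ℤ) ⧸ pmSubgroup Γ))
    (χ : ↥Γ →* ℂˣ)
    (hχtr : ∀ γ : ↥Γ, ((γ : SL(2, ℤ)) : Matrix (Fin 2) (Fin 2) ℤ).trace ^ 2 = 4 → χ γ = 1)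
    (hχfin : ∀ γ : ↥Γ, IsOfFinOrder (γ : SL(2, ℤ)) → χ γ = 1)
    (n : ℕ) (a b : A) (ha : a ≠ 0) (hb : b ≠ 0) (P Q : ℍ → ℂ)
    (hP : MDifferentiable 𝓘(ℂ) 𝓘(ℂ) P) (hQ : MDifferentiable 𝓘(ℂ) 𝓘(ℂ) Q) (hQ0 : Q ≠ 0)
    (hroot : ∀ τ : ℍ, P τ ^ n * e b τ = Q τ ^ n * e a τ)
    (hmult : ∀ (γ : ↥Γ) (τ : ℍ),
      P ((γ : SL(2, ℤ)) • τ) * Q τ = (χ γ : ℂ) * P τ * Q ((γ : SL(2, ℤ)) • τ))
    (v : Place Kbar F) :
    (n : ℤ) ∣ v.ord ((a : F) / (b : F)) := by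
  have key : ∀ γ : ↥Γ, χ γ = 1 →
      ∀ τ : ℍ, P ((γ : SL(2, ℤ)) • τ) * Q τ = P τ * Q ((γ : SL(2, ℤ)) • τ) := by
    intro γ hγ τ
    have h3 := hmult γ τ
    rwa [hγ, Units.val_one, one_mul] at h3
  exact dvd_ord_of_root_pair_pm hE hdeg n a b ha hb P Q hP hQ hQ0 hroot
    (fun γ hγ hfin => key ⟨γ, hγ⟩ (hχfin ⟨γ, hγ⟩ hfin))
    (fun γ hγ htr => key ⟨γ, hγ⟩ (hχtr ⟨γ, hγ⟩ htr)) v

end Datum

end Fermat.Agent.S48.helper6324
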