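import Fermat.Agent.S48.helper6324_Gamma1Datum
import Fermat.Agent.S48.helper6324_AnDivPlug

/-!
# S48-M3-ANDIV-INST (helper6324): (ANDIV) for the `Γ₁(M)` field in the `Mer` form

`helper2122.AnDivG` for the function field `helper7300.gamma1Field ℚ̄ M`, `M ≥ 7`, with the
evaluation of record `helper5047.gamma1Ev i0 M` (or any evaluation compatible with `holFun`):
the only hypothesis left is the degree `hdeg`.

* `anDivG_gamma1` : any `evM` compatible with `holFun`, `Γ' := pmSubgroup (Gamma1 M)`;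
* `anDivG_gamma1Ev_pm` : `evM := helper5047.gamma1Ev i0 M`, `Γ' := pmSubgroup (Gamma1 M)`;
* `anDivG_gamma1Ev` : the same with `Γ' := Gamma1 M`.
-/

set_option autoImplicit false

open ModularCurve CongruenceSubgroup UpperHalfPlane Filter AlgebraicCurve IntermediateField
open scoped MatrixGroups Manifold Topology

namespace Fermat.Agent.S48.helper6324

open Fermat.Agent.S24 Fermat.Agent.S24.helper24 Fermat.Agent.S24.helper580
open Fermat.Agent.S48.helper5047 (qAlg qFun holAlg holFun genAlg g1Set jG1)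
open Fermat.Agent.S48.helper7300 (gamma1Field)

noncomputable section

variable (M : ℕ) [NeZero M] (i0 : Kbar →+* ℂ)

/-- **(ANDIV) for the `Γ₁(M)` field**, `Γ' := ± Γ₁(M)`, any evaluation compatible with
`holFun`. -/
theorem anDivG_gamma1 (hM : 7 ≤ M)
    [FiniteDimensional Kbar⟮jG1 Kbar M⟯ (gamma1Field Kbar M)]
    (hdeg : Module.finrank Kbar⟮jG1 Kbar M⟯ (gamma1Field Kbar M)
      = Nat.card (SL(2, ℤ) ⧸ pmSubgroup (Gamma1 M)))
    (evM : gamma1Field Kbar M →+* Mer)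
    (hcompat : ∀ a : holAlg i0 (gamma1Field Kbar M), evM (a : gamma1Field Kbar M)
      = algebraMap Hol Mer ⟨holFun i0 (gamma1Field Kbar M) a, helper5047.mdiff_holFun i0 _ a⟩)
    (n : ℕ) : helper2122.AnDivG (pmSubgroup (Gamma1 M)) evM n :=
  anDivG_of_evDatum (evDatum_gamma1 M i0 hM) hdeg evM hcompat n

/-- **(ANDIV) for the `Γ₁(M)` field with the evaluation `helper5047.gamma1Ev`**,
`Γ' := ± Γ₁(M)`. -/
theorem anDivG_gamma1Ev_pm (hM : 7 ≤ M)
    [FiniteDimensional Kbar⟮jG1 Kbar M⟯ (gamma1Field Kbar M)]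
    (hdeg : Module.finrank Kbar⟮jG1 Kbar M⟯ (gamma1Field Kbar M)
      = Nat.card (SL(2, ℤ) ⧸ pmSubgroup (Gamma1 M)))
    (n : ℕ) : helper2122.AnDivG (pmSubgroup (Gamma1 M)) (helper5047.gamma1Ev i0 M) n :=
  anDivG_gamma1 M i0 hM hdeg _ (fun a => helper5047.gamma1Ev_coe i0 M a) n

/-- **(ANDIV) for the `Γ₁(M)` field with the evaluation `helper5047.gamma1Ev`**,
`Γ' := Γ₁(M)`. -/
theorem anDivG_gamma1Ev (hM : 7 ≤ M)
    [FiniteDimensional Kbar⟮jG1 Kbar M⟯ (gamma1Field Kbar M)]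
    (hdeg : Module.finrank Kbar⟮jG1 Kbar M⟯ (gamma1Field Kbar M)
      = Nat.card (SL(2, ℤ) ⧸ pmSubgroup (Gamma1 M)))
    (n : ℕ) : helper2122.AnDivG (Gamma1 M) (helper5047.gamma1Ev i0 M) n := by
  have hE := evDatum_gamma1 M i0 hM
  have hM4 : ¬ M ∣ 4 := fun h => by
    have := Nat.le_of_dvd (by norm_num) h
    omega
  refine helper2122.anDivG_of_pair hE.toEvFin.exists_div hE.hol
    (fun a => helper5047.gamma1Ev_coe i0 M a) ?_
  intro a b ha hb P Q hP hQ hQ0 hroot hfin hpar v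
  exact dvd_ord_of_root_pair_Gamma1 hM4 hE hdeg n a b ha hb P Q hP hQ hQ0 hroot hfin hpar v

end

end Fermat.Agent.S48.helper6324
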