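import Fermat.Agent.S48.helper6324_AnDivEvalGen
import Fermat.Agent.S48.helper5047_Gamma1Inst
import Fermat.Agent.S48.helper1002_Gamma1Germ

/-!
# S48-M3-ANDIV-INST (helper6324): the evaluation datum of the `Γ₁(M)` field, unconditionally

For `M ≥ 7` the function field `helper7300.gamma1Field ℚ̄ M` of `Γ₁(M)` over `ℚ̄`, with the
canonical evaluation `(holAlg i0 F, holFun i0 F)` of EVAL1, carries an evaluation datum
`EvDatum (pmSubgroup (Gamma1 M)) M …` (width `M`) **with no hypothesis left**: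

* the finite part is `helper5047.evalData_gamma1` (EVAL1 instance, on main);
* the level clause is `conj_T_pow_mem_Gamma1`;
* the cusp germs of the translates of the generators are GERM1 (`helper1002.IsGenFun.exists_germ`)
  through the classification `helper5047.qFun_g1Set_cases`; they pass to all of `holAlg` by
  `evDatum_pm_Gamma1_of_gen` (germs pass to fractions).

Consequently generic ANDIV (`dvd_ord_of_root_pair_gen`, `dvd_ord_of_root_pair_Gamma1`), the place
dictionary consumers (LOCGEN, CUSPGEN) and `helper2122.AnDivG` only owe the degree `hdeg`.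
-/

set_option autoImplicit false

open ModularCurve CongruenceSubgroup UpperHalfPlane Filter AlgebraicCurve IntermediateField
open scoped MatrixGroups Manifold Topology

namespace Fermat.Agent.S48.helper6324

open Fermat.Agent.S24 Fermat.Agent.S24.helper24 Fermat.Agent.S24.helper580
open Fermat.Agent.S48.helper5047 (qAlg qFun holAlg holFun genAlg g1Set jG1)
open Fermat.Agent.S48.helper7300 (gamma1Field)

noncomputable section

/-- **Exponential growth along every coset from an evaluation datum**: the translates of the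
functions of all elements of `A` have exponential growth (continuity + periodicity from the
level clause + the cusp germ; `helper1002.HasGerm.hasExpGrowth`). -/
theorem EvDatum.hasExpGrowth_smul {F : Type} [Field F] [Algebra Kbar F]
    {Γ : Subgroup SL(2, ℤ)} {h : ℕ} [NeZero h] {jF : F} {i0 : Kbar →+* ℂ}
    {A : Subalgebra Kbar F} {e : A →+* (ℍ → ℂ)} (hE : EvDatum Γ h jF i0 A e) (a : A)
    (g : SL(2, ℤ)) : helper167.HasExpGrowth (fun τ : ℍ => e a (g • τ)) := by
  have hg : helper1002.HasGerm (h : ℝ) (fun τ : ℍ => e a (g • τ)) := hE.germ g a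
  refine hg.hasExpGrowth ?_ (Nat.cast_pos.mpr (NeZero.pos h)) ?_
  · exact (S29.helper1736.mdiff_comp_smul_SL g (hE.hol a)).continuous
  · intro τ
    have h1 : ((h : ℝ) +ᵥ τ) = ModularGroup.T ^ h • τ := by
      have h2 := UpperHalfPlane.modular_T_zpow_smul τ (h : ℤ)
      rw [zpow_natCast] at h2
      rw [h2]
      simp
    have hmem : (g⁻¹)⁻¹ * ModularGroup.T ^ h * g⁻¹ ∈ Γ := hE.level g⁻¹
    have h3 := hE.inv _ hmem a (g • τ)
    have h4 : ((g⁻¹)⁻¹ * ModularGroup.T ^ h * g⁻¹) • g • τ = g • (ModularGroup.T ^ h • τ) := by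
      rw [inv_inv, ← mul_smul, ← mul_smul]
      congr 1
      group
    rw [h4] at h3
    show e a (g • ((h : ℝ) +ᵥ τ)) = e a (g • τ)
    rw [h1]
    exact h3

variable (M : ℕ) [NeZero M]

/-- The functions of the generators of the `Γ₁(M)` field are generator functions in the sense of
GERM1 (any coefficient field `K` with an embedding `i0` in `ℂ`). -/
theorem isGenFun_qFun_g1Set {K : Type*} [Field K] (i0 : K →+* ℂ) {s : LaurentSeries K}
    (hs : s ∈ g1Set K M) :
    helper1002.IsGenFun M (qFun i0 ⟨s, helper5047.g1Set_subset_qAlg i0 M s hs⟩) := by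
  rcases helper5047.qFun_g1Set_cases i0 M hs with ⟨d, hd, hdM, h⟩ | ⟨a, b, -, -, h⟩ |
    ⟨a, b, c, e, -, -, hc, he, hsub, hadd, h⟩
  · rw [h]
    exact helper1002.isGenFun_jFn M hd hdM
  · rw [h]
    exact helper1002.isGenFun_holGen M a b
  · rw [h]
    exact helper1002.isGenFun_ratio M a b hc he hsub hadd

/-- Cusp germs (width `M`) of the translates of the functions of the generators. -/
theorem exists_germ_qFun_g1Set {K : Type*} [Field K] (i0 : K →+* ℂ) (s : LaurentSeries K)
    (hs : s ∈ g1Set K M) (g : SL(2, ℤ)) :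
    ∃ H : ℂ → ℂ, MeromorphicAt H 0 ∧
      ∀ᶠ τ : ℍ in atImInfty,
        qFun i0 ⟨s, helper5047.g1Set_subset_qAlg i0 M s hs⟩ (g • τ)
          = H (Function.Periodic.qParam (M : ℝ) (τ : ℂ)) :=
  (isGenFun_qFun_g1Set M i0 hs).exists_germ g

/-- **The evaluation datum of the `Γ₁(M)` field over `ℚ̄`**, `M ≥ 7`, for `± Γ₁(M)`, width `M`:
unconditional. -/
theorem evDatum_gamma1 (i0 : Kbar →+* ℂ) (hM : 7 ≤ M) :
    EvDatum (pmSubgroup (Gamma1 M)) M (jG1 Kbar M) i0 (holAlg i0 (gamma1Field Kbar M))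
      (holFun i0 (gamma1Field Kbar M)) :=
  evDatum_pm_Gamma1_of_gen i0 (gamma1Field Kbar M) (helper5047.g1Set_subset_qAlg i0 M)
    (helper5047.gamma1Field_eq_adjoin Kbar M)
    (helper5047.evalData_gamma1 M i0 hM (pmSubgroup (Gamma1 M)) (fun _ => mem_pmSubgroup))
    (exists_germ_qFun_g1Set M i0)

/-- **Exponential growth on all of `holAlg`** for the `Γ₁(M)` field, along every coset
(the hypothesis `hgr` of `helper9565.finrank_j_of_evalData_sub` and of the complex place
dictionary, for the carrier of all holomorphic elements). -/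
theorem hasExpGrowth_holFun_gamma1 (i0 : Kbar →+* ℂ) (hM : 7 ≤ M)
    (a : holAlg i0 (gamma1Field Kbar M)) (g : SL(2, ℤ)) :
    helper167.HasExpGrowth (fun τ : ℍ => holFun i0 (gamma1Field Kbar M) a (g • τ)) :=
  (evDatum_gamma1 M i0 hM).hasExpGrowth_smul a g

/-- The evaluation datum on any carrier equal to the `Γ₁(M)` field (e.g. a base change
`laurentBaseChange ℚ̄ F₀`), with any name for `j`. -/
theorem evDatum_of_eq_gamma1 (i0 : Kbar →+* ℂ) (hM : 7 ≤ M)
    (E : IntermediateField Kbar (LaurentSeries Kbar)) (hE : E = gamma1Field Kbar M) (jE : E)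
    (hjE : (jE : LaurentSeries Kbar) = jqModC Kbar) :
    EvDatum (pmSubgroup (Gamma1 M)) M jE i0 (holAlg i0 E) (holFun i0 E) := by
  subst hE
  have hj : jE = jG1 Kbar M := Subtype.ext hjE
  subst hj
  exact evDatum_gamma1 M i0 hM

/-- **ANDIV for the `Γ₁(M)` field** (pair form, every place), `M ≥ 7`: the only input left is
the degree. -/
theorem dvd_ord_of_root_pair_gamma1 (i0 : Kbar →+* ℂ) (hM : 7 ≤ M)
    [FiniteDimensional Kbar⟮jG1 Kbar M⟯ (gamma1Field Kbar M)]
    (hdeg : Module.finrank Kbar⟮jG1 Kbar M⟯ (gamma1Field Kbar M)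
      = Nat.card (SL(2, ℤ) ⧸ pmSubgroup (Gamma1 M)))
    (n : ℕ) (a b : holAlg i0 (gamma1Field Kbar M)) (ha : a ≠ 0) (hb : b ≠ 0) (P Q : ℍ → ℂ)
    (hP : MDifferentiable 𝓘(ℂ) 𝓘(ℂ) P) (hQ : MDifferentiable 𝓘(ℂ) 𝓘(ℂ) Q) (hQ0 : Q ≠ 0)
    (hroot : ∀ τ : ℍ, P τ ^ n * holFun i0 (gamma1Field Kbar M) b τ
      = Q τ ^ n * holFun i0 (gamma1Field Kbar M) a τ)
    (hfin : ∀ γ ∈ Gamma1 M, IsOfFinOrder γ → ∀ τ : ℍ, P (γ • τ) * Q τ = P τ * Q (γ • τ))
    (hpar : ∀ (g : SL(2, ℤ)) (k : ℤ), g⁻¹ * ModularGroup.T ^ k * g ∈ Gamma1 M →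
      ∀ τ : ℍ, P ((g⁻¹ * ModularGroup.T ^ k * g) • τ) * Q τ
        = P τ * Q ((g⁻¹ * ModularGroup.T ^ k * g) • τ))
    (v : Place Kbar (gamma1Field Kbar M)) :
    (n : ℤ) ∣ v.ord ((a : gamma1Field Kbar M) / (b : gamma1Field Kbar M)) := by
  have hM4 : ¬ M ∣ 4 := fun h => by
    have := Nat.le_of_dvd (by norm_num) h
    omega
  exact dvd_ord_of_root_pair_Gamma1 hM4 (evDatum_gamma1 M i0 hM) hdeg n a b ha hb P Q hP hQ hQ0
    hroot hfin hpar v

end

end Fermat.Agent.S48.helper6324
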