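/-
S48, machine half (M1): the abstract tower step `helper8782.Stmt_TowerA` (helper7829).

`E0 ≤ E` subfields of `ℚ̄((q))`, `E0` a `q`-Gauss line on `x0`, `E = E0(ι Y)` with an Igusa datum
(`P` monic over the `q`-Gauss ring of `E0`, `P(ι Y) = 0`, `P̄` irreducible and separable over the
special fibre `E0k`, `Ek = E0k(Ȳ)`) and the branch data of `E` on the line `x0`.  Then `E` is a
`q`-Gauss line on `x0`.

Proof: every element of `E` is `∑_{i<d} a_i (ι Y)^i` with `a_i ∈ E0`; after scaling by a constant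
the `a_i` lie in the `q`-Gauss ring of `E0` and one of them is a unit, and then the reduction
`∑ ā_i Ȳ^i` is nonzero because `1, Ȳ, …, Ȳ^(d-1)` are independent over `E0k` (`P̄` irreducible).
Hence `E` is `q`-Gauss with residue field inside `Ek`, the family `b_j (ι Y)^i` is orthonormal and
spanning over `ℚ̄(x0)`, and the special fibre is `E0k(Ȳ)`, finite separable of degree
`≤ d [E0k : k(x̄0)]` over `k(x̄0)`.
-/
import Fermat.Agent.S48.helper8782_SpecM1
import Fermat.Agent.S48.helper7829_TowerCore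

set_option autoImplicit false
set_option synthInstance.maxHeartbeats 400000
set_option linter.style.haveILetI false

noncomputable section

namespace Fermat.Agent.S48.helper7829

open AlgebraicCurve IntermediateField Module ModularCurve Polynomial
open Fermat.Agent.S18 Fermat.Agent.S48.helper8782

local notation "Qb" => AlgebraicClosure ℚ

section Datum

variable {A : ValuationSubring Qb} {E0 E : IntermediateField Qb (LaurentSeries Qb)}
  {E0k Ek : IntermediateField (IsLocalRing.ResidueField A)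
    (LaurentSeries (IsLocalRing.ResidueField A))}
  (h0 : IsQGauss A E0 E0k) (Y : LaurentSeries A) (P : (↥h0.O)[X])

/-- Independence of the powers of `Ȳ` over the reductions. -/
theorem igusa_indep (hPmon : P.Monic)
    (hPy : Polynomial.eval₂ ((algebraMap ↥E0 (LaurentSeries Qb)).comp h0.O.subtype)
      (coeffMap A.subtype Y) P = 0)
    (hirr : Irreducible (P.map h0.red)) :
    ∀ b : Fin P.natDegree → ↥(helper8991.gaussSubring A (IsLocalRing.residue A) E0 h0.norm),
      (∃ i, helper8991.gaussRed A (IsLocalRing.residue A) E0 h0.norm (b i) ≠ 0) →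
      ∑ i, helper8991.gaussRed A (IsLocalRing.residue A) E0 h0.norm (b i) *
        helper8991.red A (IsLocalRing.residue A) Y ^ (i : ℕ) ≠ 0 := by
  intro b hb hsum
  obtain ⟨i, hi⟩ := hb
  have hroot : aeval (helper8991.red A (IsLocalRing.residue A) Y) (P.map h0.red) = 0 :=
    aeval_red_map_eq_zero A (IsLocalRing.residue A) E0 h0.norm Y E0k h0.red
      (fun f => h0.coe_red f) P hPy
  have hz := coeff_eq_zero_of_sum_pow_eq_zero (K := LaurentSeries (IsLocalRing.ResidueField A))
    hirr (hPmon.map h0.red) hroot (hPmon.natDegree_map h0.red) (fun i => h0.red (b i)) hsum i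
  apply hi
  have h1 := h0.coe_red (b i)
  rw [← h1]
  show ((h0.red (b i) : ↥E0k) : LaurentSeries (IsLocalRing.ResidueField A)) = 0
  rw [hz]
  rfl

/-- Decomposition of the elements of `E = E0(ι Y)`. -/
theorem igusa_decomp (hPmon : P.Monic)
    (hPy : Polynomial.eval₂ ((algebraMap ↥E0 (LaurentSeries Qb)).comp h0.O.subtype)
      (coeffMap A.subtype Y) P = 0)
    (hE : E = IntermediateField.adjoin Qb
      ((E0 : Set (LaurentSeries Qb)) ∪ {coeffMap A.subtype Y}))
    {f : LaurentSeries Qb} (hf : f ∈ E) :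
    ∃ a : Fin P.natDegree → ↥E0,
      f = ∑ i, ((a i : ↥E0) : LaurentSeries Qb) * helper8991.inc A Y ^ (i : ℕ) := by
  rw [hE] at hf
  refine exists_sum_pow_of_mem_adjoin E0 _ (P.map h0.O.subtype) (hPmon.map _) ?_
    (hPmon.natDegree_map _) hf
  rw [Polynomial.aeval_def, Polynomial.eval₂_map]
  exact hPy

/-- `E` is normalisable. -/
theorem igusa_norm (hPmon : P.Monic)
    (hPy : Polynomial.eval₂ ((algebraMap ↥E0 (LaurentSeries Qb)).comp h0.O.subtype)
      (coeffMap A.subtype Y) P = 0)
    (hE : E = IntermediateField.adjoin Qb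
      ((E0 : Set (LaurentSeries Qb)) ∪ {coeffMap A.subtype Y}))
    (hirr : Irreducible (P.map h0.red)) :
    ∀ f : LaurentSeries Qb, f ∈ E → f ≠ 0 →
      helper8991.IsNormalizable A (IsLocalRing.residue A) f := by
  intro f hf hf0
  obtain ⟨a, rfl⟩ := igusa_decomp h0 Y P hPmon hPy hE hf
  exact isNormalizable_sum A (IsLocalRing.residue A) E0 h0.norm Y
    (igusa_indep h0 Y P hPmon hPy hirr) a hf0

/-- The residues of `E` lie in `Ek = E0k(Ȳ)`. -/
theorem igusa_res (hPmon : P.Monic)
    (hPy : Polynomial.eval₂ ((algebraMap ↥E0 (LaurentSeries Qb)).comp h0.O.subtype)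
      (coeffMap A.subtype Y) P = 0)
    (hE : E = IntermediateField.adjoin Qb
      ((E0 : Set (LaurentSeries Qb)) ∪ {coeffMap A.subtype Y}))
    (hirr : Irreducible (P.map h0.red))
    (hEk : Ek = IntermediateField.adjoin (IsLocalRing.ResidueField A)
      ((E0k : Set (LaurentSeries (IsLocalRing.ResidueField A))) ∪
        {coeffMap (IsLocalRing.residue A) Y}))
    (hnorm : ∀ f : LaurentSeries Qb, f ∈ E → f ≠ 0 →
      helper8991.IsNormalizable A (IsLocalRing.residue A) f) :
    ∀ f : ↥(helper8991.gaussSubring A (IsLocalRing.residue A) E hnorm),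
      helper8991.gaussRed A (IsLocalRing.residue A) E hnorm f ∈ Ek := by
  intro f
  by_cases hf0 : f = 0
  · rw [hf0, map_zero]
    exact Ek.zero_mem
  have hfE : ((f : ↥E) : LaurentSeries Qb) ∈ E := (f : ↥E).2
  obtain ⟨a, ha⟩ := igusa_decomp h0 Y P hPmon hPy hE hfE
  have hne : ∃ i, a i ≠ 0 := by
    by_contra hcon
    push Not at hcon
    apply hf0
    apply Subtype.ext
    apply Subtype.ext
    rw [ha]
    refine Finset.sum_eq_zero fun i _ => ?_
    rw [hcon i]
    simp
  have hmem : ∑ i, ((a i : ↥E0) : LaurentSeries Qb) * helper8991.inc A Y ^ (i : ℕ) ∈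
      helper8991.gaussRing A (IsLocalRing.residue A) := by
    rw [← ha]
    exact f.2
  have hπ0 : ∀ a : A, a ∈ IsLocalRing.maximalIdeal A → IsLocalRing.residue A a = 0 :=
    fun a ha => (IsLocalRing.residue_eq_zero_iff a).mpr ha
  obtain ⟨c, b, hcb⟩ := exists_gaussRho_sum_eq A (IsLocalRing.residue A) E0 h0.norm Y hπ0
    (igusa_indep h0 Y P hPmon hPy hirr) a hne hmem
  have h1 : helper8991.gaussRed A (IsLocalRing.residue A) E hnorm f =
      helper8991.gaussRho A (IsLocalRing.residue A) ⟨_, hmem⟩ := by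
    show helper8991.gaussRho A (IsLocalRing.residue A) ⟨((f : ↥E) : LaurentSeries Qb), f.2⟩ = _
    congr 1
    exact Subtype.ext ha
  rw [h1, hcb, hEk]
  refine mul_mem ?_ (sum_mem fun i _ => mul_mem ?_ (pow_mem ?_ _))
  · rw [helper8991.C_eq_algebraMap]
    exact IntermediateField.algebraMap_mem _ _
  · exact IntermediateField.subset_adjoin _ _ (Or.inl (h0.red (b i)).2)
  · exact IntermediateField.subset_adjoin _ _ (Or.inr rfl)

end Datum

set_option maxHeartbeats 1600000 in
/-- **(M1-UNR) The tower step** `helper8782.Stmt_TowerA`: a `q`-Gauss line `E0` on the base line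
`x0`, an Igusa datum of `E / E0` and the branch data of `E` on the same line make `E` a
`q`-Gauss line on the line `x0`. -/
theorem stmt_TowerA : Stmt_TowerA := by
  intro A ℓ _ hA E0 E E0k Ek hle x0 h0 G0 hI c0 hc0 hunr
  classical
  obtain ⟨Y, P, hPmon, hPy, hE, hirr, hsepP, hEk⟩ := hI
  have hnorm := igusa_norm h0 Y P hPmon hPy hE hirr
  have hres := igusa_res h0 Y P hPmon hPy hE hirr hEk hnorm
  let h : IsQGauss A E Ek := ⟨hnorm, hres⟩
  refine ⟨h, ?_⟩
  have hindep := igusa_indep h0 Y P hPmon hPy hirr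
  -- the generator as an element of `E`, and `E` as an algebra over `E0`
  have hyE : helper8991.inc A Y ∈ E := by
    rw [hE]
    exact IntermediateField.subset_adjoin _ _ (Or.inr rfl)
  let yE : ↥E := ⟨helper8991.inc A Y, hyE⟩
  letI algE : Algebra ↥E0 ↥E := (IntermediateField.inclusion hle).toRingHom.toAlgebra
  haveI towE : IsScalarTower Qb ↥E0 ↥E := IsScalarTower.of_algebraMap_eq (fun c => rfl)
  have hO : ∀ z : ↥E0, algebraMap ↥E0 ↥E z ∈ h.O ↔ z ∈ h0.O := fun z => Iff.rfl
  have hgenE : ∀ f : ↥E, ∃ a : Fin P.natDegree → ↥E0,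
      f = ∑ i, algebraMap ↥E0 ↥E (a i) * yE ^ (i : ℕ) := by
    intro f
    obtain ⟨a, ha⟩ := igusa_decomp h0 Y P hPmon hPy hE f.2
    refine ⟨a, Subtype.ext ?_⟩
    rw [ha, IntermediateField.coe_sum]
    rfl
  -- the unit form for the powers of `y`
  have hU : ∀ a : Fin P.natDegree → ↥E0, (∀ i, h0.O.valuation (a i) ≤ 1) →
      (∃ i, h0.O.valuation (a i) = 1) →
      h.O.valuation (∑ i, algebraMap ↥E0 ↥E (a i) * yE ^ (i : ℕ)) = 1 := by
    intro a ha1 hi0
    obtain ⟨i0, hi0⟩ := hi0
    let b : Fin P.natDegree → ↥h0.O :=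
      fun i => ⟨a i, (h0.O.valuation_le_one_iff _).mp (ha1 i)⟩
    have hb : ∃ i, helper8991.gaussRed A (IsLocalRing.residue A) E0 h0.norm (b i) ≠ 0 := by
      refine ⟨i0, fun h0' => ?_⟩
      have h1 : h0.red (b i0) = 0 := Subtype.ext (by rw [h0.coe_red]; exact h0')
      have h2 := (h0.red_eq_zero_iff (b i0)).mp h1
      have h3 : h0.O.valuation (a i0) < 1 := h2
      rw [hi0] at h3
      exact lt_irrefl _ h3
    have hs' : ((∑ i, algebraMap ↥E0 ↥E (a i) * yE ^ (i : ℕ) : ↥E) : LaurentSeries Qb) =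
        ∑ i, (((b i : ↥h0.O) : ↥E0) : LaurentSeries Qb) * helper8991.inc A Y ^ (i : ℕ) := by
      rw [IntermediateField.coe_sum]
      rfl
    obtain ⟨hmem, hne⟩ := exists_gaussRho_ne_zero A (IsLocalRing.residue A) E0 h0.norm Y hindep
      b hb _ hs'
    have hsO : (∑ i, algebraMap ↥E0 ↥E (a i) * yE ^ (i : ℕ) : ↥E) ∈ h.O := hmem
    have hred : h.red ⟨_, hsO⟩ ≠ 0 := by
      intro h0'
      apply hne
      have h4 := h.coe_red ⟨_, hsO⟩
      rw [h0'] at h4
      exact h4.symm
    have hlt : ¬ h.O.valuation (∑ i, algebraMap ↥E0 ↥E (a i) * yE ^ (i : ℕ) : ↥E) < 1 :=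
      fun hlt => hred ((h.red_eq_zero_iff ⟨_, hsO⟩).mpr hlt)
    exact le_antisymm ((h.O.valuation_le_one_iff _).mpr hsO) (not_lt.mp hlt)
  -- the orthonormal spanning family
  obtain ⟨n, b0, hb0, hspan0⟩ := G0.ortho
  have ho := isOrtho_tower (L := Qb) hO x0 hb0 yE hU
  have hsp := span_tower (L := Qb) (F := ↥E) x0 hspan0 yE hgenE
  -- the special fibre
  have hE0k_le : E0k ≤ Ek := by
    rw [hEk]
    intro z hz
    exact IntermediateField.subset_adjoin _ _ (Or.inl hz)
  letI algK : Algebra ↥E0k ↥Ek := (IntermediateField.inclusion hE0k_le).toRingHom.toAlgebra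
  haveI towK : IsScalarTower (IsLocalRing.ResidueField A) ↥E0k ↥Ek :=
    IsScalarTower.of_algebraMap_eq (fun c => rfl)
  haveI towK' : IsScalarTower ↥E0k ↥Ek (LaurentSeries (IsLocalRing.ResidueField A)) :=
    IsScalarTower.of_algebraMap_eq (fun c => rfl)
  have hybE : helper8991.red A (IsLocalRing.residue A) Y ∈ Ek := by
    rw [hEk]
    exact IntermediateField.subset_adjoin _ _ (Or.inr rfl)
  let ybE : ↥Ek := ⟨helper8991.red A (IsLocalRing.residue A) Y, hybE⟩
  have hroot : aeval (helper8991.red A (IsLocalRing.residue A) Y) (P.map h0.red) = 0 :=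
    aeval_red_map_eq_zero A (IsLocalRing.residue A) E0 h0.norm Y E0k h0.red
      (fun f => h0.coe_red f) P hPy
  have hrootE : aeval ybE (P.map h0.red) = 0 := by
    apply Subtype.ext
    have h5 := Polynomial.aeval_algebraMap_apply
      (LaurentSeries (IsLocalRing.ResidueField A)) ybE (P.map h0.red)
    exact h5.symm.trans hroot
  have hsepy : IsSeparable ↥E0k ybE := hsepP.of_dvd (minpoly.dvd _ _ hrootE)
  have hgenR : ∀ z : ↥Ek, ∃ b : Fin P.natDegree → ↥E0k,
      z = ∑ i, algebraMap ↥E0k ↥Ek (b i) * ybE ^ (i : ℕ) := by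
    intro z
    have hz : (z : LaurentSeries (IsLocalRing.ResidueField A)) ∈
        IntermediateField.adjoin (IsLocalRing.ResidueField A)
          ((E0k : Set (LaurentSeries (IsLocalRing.ResidueField A))) ∪
            {coeffMap (IsLocalRing.residue A) Y}) := by
      rw [← hEk]
      exact z.2
    obtain ⟨b, hb⟩ := exists_sum_pow_of_mem_adjoin E0k _ (P.map h0.red) (hPmon.map _) hroot
      (hPmon.natDegree_map _) hz
    refine ⟨b, Subtype.ext ?_⟩
    rw [hb, IntermediateField.coe_sum]
    rfl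
  haveI := G0.fin
  haveI := G0.sep
  obtain ⟨hfinR, hsepR, hdegR⟩ := residue_tower (k := IsLocalRing.ResidueField A)
    (h0.red ⟨x0, G0.hx⟩) ybE P.natDegree hsepy hgenR
  have hx : (⟨(x0 : LaurentSeries Qb), hle x0.2⟩ : ↥E) ∈ h.O := G0.hx
  have hxeq : h.red ⟨⟨(x0 : LaurentSeries Qb), hle x0.2⟩, hx⟩ =
      algebraMap ↥E0k ↥Ek (h0.red ⟨x0, G0.hx⟩) := Subtype.ext rfl
  have hc0A : c0 ∈ A := (A.valuation_le_one_iff c0).mp hc0.le
  -- degrees
  have hn : finrank ↥Qb⟮x0⟯ ↥E0 ≤ n := by
    have h6 := finrank_range_le_card (R := ↥Qb⟮x0⟯) b0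
    rw [Set.finrank, hspan0, finrank_top, Fintype.card_fin] at h6
    exact h6
  have hnd : n * P.natDegree ≤ finrank ↥Qb⟮algebraMap ↥E0 ↥E x0⟯ ↥E := by
    haveI : Module.Finite ↥Qb⟮algebraMap ↥E0 ↥E x0⟯ ↥E :=
      ⟨by rw [← hsp]; exact Submodule.fg_span (Set.finite_range _)⟩
    have h7 := ho.linearIndependent.fintype_card_le_finrank
    rw [Fintype.card_prod, Fintype.card_fin, Fintype.card_fin] at h7
    exact h7
  exact
    { hVG := h.hVG
      harch := h.harch hA
      hred := h.red_eq_zero_iff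
      hredk_surj := h.hredk_surj
      hcompat := h.hcompat
      hx := hx
      hres := resTranscendental_algebraMap (L := Qb) hO G0.hres
      ortho := ⟨n * P.natDegree,
        (fun p : Fin n × Fin P.natDegree => algebraMap ↥E0 ↥E (b0 p.1) * yE ^ (p.2 : ℕ)) ∘
          finProdFinEquiv.symm,
        isOrtho_comp_equiv ho finProdFinEquiv.symm, by
          rw [EquivLike.range_comp]
          exact hsp⟩
      hxt := by
        rw [hxeq]
        exact (transcendental_algebraMap_iff (algebraMap ↥E0k ↥Ek).injective).mpr G0.hxt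
      fin := by
        rw [hxeq]
        exact hfinR
      sep := by
        rw [hxeq]
        exact hsepR
      hdk := by
        rw [hxeq]
        calc finrank ↥(IsLocalRing.ResidueField A)⟮algebraMap ↥E0k ↥Ek (h0.red ⟨x0, G0.hx⟩)⟯ ↥Ek
            ≤ P.natDegree * finrank ↥(IsLocalRing.ResidueField A)⟮h0.red ⟨x0, G0.hx⟩⟯ ↥E0k := hdegR
          _ ≤ P.natDegree * finrank ↥Qb⟮x0⟯ ↥E0 := Nat.mul_le_mul_left _ G0.hdk
          _ ≤ P.natDegree * n := Nat.mul_le_mul_left _ hn
          _ = n * P.natDegree := mul_comm _ _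
          _ ≤ _ := hnd
      branch := ⟨c0, h.algebraMap_mem hc0A, IsLocalRing.residue A ⟨c0, hc0A⟩,
        h.red_algebraMap hc0A, by
          rw [Ne, IsLocalRing.residue_eq_zero_iff, IsLocalRing.mem_maximalIdeal, mem_nonunits_iff,
            not_not]
          exact (A.valuation_eq_one_iff _).mpr hc0, hunr⟩ }

end Fermat.Agent.S48.helper7829
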