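import Fermat.Agent.S48.helper6431_Final
import Fermat.Agent.S48.helper4600_OrbitQb
import Fermat.Agent.S48.helper7829_TowerA

/-!
# S48, machine half: the leaves (J1), (DIAMOND1), (hT), (hI) from the diamond data

`helper4600.HasDiamonds M` (A2-GAL at `L = ℚ̄`, `P = phiZ`: the diamond homomorphism of the
carrier of record, its generator law, and fixed field `= F̄_M`) discharges three leaves of
`stmt_KummerMod2_of_dict`:

* `exists_isDiamond_of_diamonds` : (DIAMOND1) `∃ D, IsDiamond M q D` for `q` prime to `M`;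
* `stmt_J1_of_diamonds` : (J1) [Artin: `E1 M` is finite over the fixed field of the finite group
  of diamonds, which is the `Γ₀(M)` field];
* with `helper4600.igusaGamma1_of_int_of_diamonds` : (hI) from `helper8782.Stmt_IntGamma1`;
* (hT) is the landed theorem `helper7829.stmt_TowerA`.

`stmt_KummerMod2_of_diamonds` : **`Stmt_KummerMod2 LevelBig` from the remaining leaf Props**
`HasDiamonds`, `Stmt_IntGamma1`, `Stmt_RamTwo/Three`, `Stmt_Cover1`, `HasKummerDict`.
-/

set_option autoImplicit false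
set_option linter.style.haveILetI false
set_option linter.unusedSectionVars false

open AlgebraicCurve ModularCurve IntermediateField

noncomputable section

namespace Fermat.Agent.S48.helper6431

open Fermat.Agent.S48.helper8231 (Stmt_KummerMod2 LevelBig)

local notation "Qb" => AlgebraicClosure ℚ

/-- **(DIAMOND1) from the diamond data**: the diamond `⟨q⟩` exists for `q` prime to `M`. -/
theorem exists_isDiamond_of_diamonds (M : ℕ) [NeZero M] (hD : helper4600.HasDiamonds M)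
    (q : ℕ) (hq : q.Coprime M) : ∃ D : E1 M ≃ₐ[Qb] E1 M, IsDiamond M q D := by
  obtain ⟨dia, hgen, hbase, -⟩ := hD
  refine ⟨dia (ZMod.unitOfCoprime q hq), fun x hx => hbase _ x hx, ?_⟩
  intro u v hu hu1 hv hv1
  rw [hgen _ u v hu hu1 hv hv1, ZMod.coe_unitOfCoprime, ZMod.val_natCast,
    ← pow_eq_pow_mod q hu, ← pow_eq_pow_mod q hv]

/-- **(J1) from the diamond data** (Artin): the carrier is finite over the fixed field of the
finite group of diamonds, which is the `Γ₀(M)` field. -/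
theorem stmt_J1_of_diamonds (M : ℕ) [NeZero M] (hD : helper4600.HasDiamonds M) : Stmt_J1 M := by
  obtain ⟨dia, -, hbase, hfix⟩ := hD
  refine stmt_J1_of_finiteAlong M ?_
  unfold FiniteAlong
  letI := algebraAlong (IntermediateField.inclusion
    (helper7300.modularFunctionFieldBar_le_gamma1FieldBar M))
  letI : MulSemiringAction (ZMod M)ˣ ↥(E1 M) := MulSemiringAction.compHom ↥(E1 M) dia
  have hsmul : ∀ (d : (ZMod M)ˣ) (x : ↥(E1 M)), d • x = dia d x := fun _ _ => rfl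
  let e₁ : ↥(FixedPoints.subfield (ZMod M)ˣ ↥(E1 M)) ≃+* ↥(modularFunctionFieldBar M) :=
    { toFun := fun x => ⟨((x : ↥(E1 M)) : LaurentSeries Qb),
        hfix (x : ↥(E1 M)) (fun d => (hsmul d _).symm.trans (x.2 d))⟩
      invFun := fun y => ⟨⟨(y : LaurentSeries Qb),
          helper7300.modularFunctionFieldBar_le_gamma1FieldBar M y.2⟩,
        fun d => (hsmul d _).trans (hbase d _ y.2)⟩
      left_inv := fun _ => rfl
      right_inv := fun _ => rfl
      map_mul' := fun _ _ => rfl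
      map_add' := fun _ _ => rfl }
  exact Module.Finite.of_equiv_equiv e₁ (RingEquiv.refl ↥(E1 M)) (by ext x; rfl)

/-- **`Stmt_KummerMod2 LevelBig` from the remaining leaf Props** (all at the levels `M` with
`2 ∣ M ∨ 3 ∣ M`, `70 ≤ M`):

* `hDiam` (A2-GAL)  : `helper4600.HasDiamonds M`;
* `hInt`  (M1, 2b)  : `helper8782.Stmt_IntGamma1 M p hpM A hA`;
* `hR2`, `hR3` (M1) : `helper8782.Stmt_RamTwo`, `Stmt_RamThree`;
* `hCov`  (COVER1)  : `Stmt_Cover1 M q D` for the diamond `D = ⟨q⟩`;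
* `hDict` (KDICT)   : `helper2754.HasKummerDict (G1 M) M ℓ H`. -/
theorem stmt_KummerMod2_of_diamonds
    (hDiam : ∀ (M : ℕ) [NeZero M], (2 ∣ M ∨ 3 ∣ M) → 70 ≤ M → helper4600.HasDiamonds M)
    (hInt : ∀ (M : ℕ) [NeZero M], (2 ∣ M ∨ 3 ∣ M) → 70 ≤ M → ∀ (p : ℕ) [Fact p.Prime]
      (hpM : ¬ p ∣ M) (A : ValuationSubring Qb) (hA : A.LiesOverPrime p),
      helper8782.Stmt_IntGamma1 M p hpM A hA)
    (hR2 : ∀ (M : ℕ) [NeZero M], 70 ≤ M → ∀ h2M : 2 ∣ M, helper8782.Stmt_RamTwo M h2M)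
    (hR3 : ∀ (M : ℕ) [NeZero M], 70 ≤ M → ∀ h3M : 3 ∣ M, helper8782.Stmt_RamThree M h3M)
    (hCov : ∀ (M : ℕ) [NeZero M], (2 ∣ M ∨ 3 ∣ M) → 70 ≤ M → ∀ q : Nat.Primes,
      ¬ (q : ℕ) ∣ M → ∀ D : E1 M ≃ₐ[Qb] E1 M, IsDiamond M (q : ℕ) D →
        haveI : NeZero (q : ℕ) := ⟨q.2.ne_zero⟩; Stmt_Cover1 M (q : ℕ) D)
    (hDict : ∀ (M : ℕ) [NeZero M] [HasPrincipalDivisors Qb (E1 M)] (ℓ : ℕ), ℓ.Prime →
      LevelBig M ℓ → ∀ H : ∀ q : Nat.Primes, ¬ (q : ℕ) ∣ M * ℓ → HeckeDiamondAt (G1 M) q,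
        (∀ (q : Nat.Primes) (hq : ¬ (q : ℕ) ∣ M * ℓ),
          haveI : NeZero (q : ℕ) := ⟨q.2.ne_zero⟩; IsDiamond M (q : ℕ) (H q hq).D) →
        helper2754.HasKummerDict (G1 M) M ℓ H) :
    Stmt_KummerMod2 LevelBig :=
  stmt_KummerMod2_of_dict
    (fun M _ h23 h70 => stmt_J1_of_diamonds M (hDiam M h23 h70))
    helper7829.stmt_TowerA
    (fun M _ h23 h70 p _ hpM A hA =>
      helper4600.igusaGamma1_of_int_of_diamonds M p hpM A hA h23 (hDiam M h23 h70)
        (hInt M h23 h70 p hpM A hA))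
    hR2 hR3
    (fun M _ h23 h70 q hq =>
      exists_isDiamond_of_diamonds M (hDiam M h23 h70) (q : ℕ)
        ((Nat.Prime.coprime_iff_not_dvd q.2).mpr hq))
    hCov hDict

end Fermat.Agent.S48.helper6431
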