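import Fermat.Agent.S48.helper6431_J1
import Fermat.Agent.S48.helper2754_M3Top

/-!
# S48, machine half: `Stmt_KummerMod2 LevelBig` from the current leaf Props

The checked leaf list of the machine (final assembly owner helper6431).  Each hypothesis of
`stmt_KummerMod2_of_dict` is a named Prop of one owner; "done" means a hypothesis disappears.

* `hJ`   (J1)       : `Stmt_J1 M`                                  [A2-GAL finiteness]
* `hT`   (M1)       : `helper8782.Stmt_TowerA`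
* `hI`   (M1)       : `helper8782.Stmt_IgusaGamma1 M p hpM A hA`
* `hR2`, `hR3` (M1) : `helper8782.Stmt_RamTwo`, `Stmt_RamThree`
* `hDia` (DIAMOND1) : `∃ D, IsDiamond M q D`                        [A2-GAL diamonds]
* `hCov` (COVER1)   : `Stmt_Cover1 M q D`                           [M2-TP: NQ-deg + SWAP1]
* `hDict` (KDICT)   : `helper2754.HasKummerDict (G1 M) M ℓ H`       [M3]
-/

set_option autoImplicit false
set_option linter.style.haveILetI false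

open AlgebraicCurve ModularCurve

noncomputable section

namespace Fermat.Agent.S48.helper6431

open Fermat.Agent.S48.helper8231 (Stmt_KummerMod2 LevelBig)

local notation "Qb" => AlgebraicClosure ℚ

/-- **`Stmt_KummerMod2 LevelBig` from the leaf Props** (the (M3) leaf in the form (KDICT) of
`helper2754_M3Top`).  Every hypothesis is quantified only over the levels `M` with
`2 ∣ M ∨ 3 ∣ M` and `70 ≤ M`. -/
theorem stmt_KummerMod2_of_dict
    (hJ : ∀ (M : ℕ) [NeZero M], (2 ∣ M ∨ 3 ∣ M) → 70 ≤ M → Stmt_J1 M)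
    (hT : helper8782.Stmt_TowerA)
    (hI : ∀ (M : ℕ) [NeZero M], (2 ∣ M ∨ 3 ∣ M) → 70 ≤ M → ∀ (p : ℕ) [Fact p.Prime]
      (hpM : ¬ p ∣ M) (A : ValuationSubring Qb) (hA : A.LiesOverPrime p),
      helper8782.Stmt_IgusaGamma1 M p hpM A hA)
    (hR2 : ∀ (M : ℕ) [NeZero M], 70 ≤ M → ∀ h2M : 2 ∣ M, helper8782.Stmt_RamTwo M h2M)
    (hR3 : ∀ (M : ℕ) [NeZero M], 70 ≤ M → ∀ h3M : 3 ∣ M, helper8782.Stmt_RamThree M h3M)
    (hDia : ∀ (M : ℕ) [NeZero M], (2 ∣ M ∨ 3 ∣ M) → 70 ≤ M → ∀ q : Nat.Primes,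
      ¬ (q : ℕ) ∣ M → ∃ D : E1 M ≃ₐ[Qb] E1 M, IsDiamond M (q : ℕ) D)
    (hCov : ∀ (M : ℕ) [NeZero M], (2 ∣ M ∨ 3 ∣ M) → 70 ≤ M → ∀ q : Nat.Primes,
      ¬ (q : ℕ) ∣ M → ∀ D : E1 M ≃ₐ[Qb] E1 M, IsDiamond M (q : ℕ) D →
        haveI : NeZero (q : ℕ) := ⟨q.2.ne_zero⟩; Stmt_Cover1 M (q : ℕ) D)
    (hDict : ∀ (M : ℕ) [NeZero M] [HasPrincipalDivisors Qb (E1 M)] (ℓ : ℕ), ℓ.Prime →
      LevelBig M ℓ → ∀ H : ∀ q : Nat.Primes, ¬ (q : ℕ) ∣ M * ℓ → HeckeDiamondAt (G1 M) q,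
        (∀ (q : Nat.Primes) (hq : ¬ (q : ℕ) ∣ M * ℓ),
          haveI : NeZero (q : ℕ) := ⟨q.2.ne_zero⟩; IsDiamond M (q : ℕ) (H q hq).D) →
        helper2754.HasKummerDict (G1 M) M ℓ H) :
    Stmt_KummerMod2 LevelBig :=
  stmt_KummerMod2_of' hJ hT hI hR2 hR3 hDia hCov fun M _ _ ℓ hℓ hLB H hH =>
    helper2754.hasPeriodKummer_of_dict (G1 M) M ℓ hℓ.ne_zero H (hDict M ℓ hℓ hLB H hH)

end Fermat.Agent.S48.helper6431
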