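import Fermat.Agent.S48.helper6431_TP1

/-!
# S48 (M2): (J1) for the carrier of record from finiteness over the `Γ₀(M)` field

* `finiteAlong_inclusion_of_extendScalars` (generic): for intermediate fields `F0 ≤ F1` of
  `Ω / K`, finiteness of `extendScalars hle` over `F0` is finiteness along the inclusion.
* `stmt_J1_of_finite` : if the `Γ₁(M)` field is finite over the `Γ₀(M)` field (A2-GAL), then
  `Stmt_J1 M` holds with `y = j`.
-/

set_option autoImplicit false
set_option linter.style.haveILetI false
set_option linter.unusedSectionVars false

open AlgebraicCurve ModularCurve IntermediateField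

noncomputable section

namespace Fermat.Agent.S48.helper6431

open Fermat.Agent.S24 Fermat.Agent.S24.helper24

local notation "Qb" => AlgebraicClosure ℚ

/-- Finiteness of `F1` over `F0` in the `extendScalars` presentation is finiteness along the
inclusion `F0 → F1`. -/
theorem finiteAlong_inclusion_of_extendScalars {K Ω : Type*} [Field K] [Field Ω] [Algebra K Ω]
    {F0 F1 : IntermediateField K Ω} (hle : F0 ≤ F1)
    (h : FiniteDimensional F0 (IntermediateField.extendScalars hle)) :
    FiniteAlong K (IntermediateField.inclusion hle) := by
  unfold FiniteAlong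
  letI := algebraAlong (IntermediateField.inclusion hle)
  let e : ↥(IntermediateField.extendScalars hle) ≃ₗ[F0] ↥F1 :=
    { toFun := fun x => ⟨x.1, x.2⟩
      invFun := fun y => ⟨y.1, y.2⟩
      left_inv := fun _ => rfl
      right_inv := fun _ => rfl
      map_add' := fun _ _ => rfl
      map_smul' := fun _ _ => rfl }
  exact Module.Finite.equiv e

/-- **(J1) from finiteness over the `Γ₀(M)` field**: `y = j`. -/
theorem stmt_J1_of_finiteAlong (M : ℕ) [NeZero M]
    (h : FiniteAlong Qb (IntermediateField.inclusion
      (helper7300.modularFunctionFieldBar_le_gamma1FieldBar M))) : Stmt_J1 M := by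
  have hj : Transcendental Qb (jBar M) := Fermat.Agent.S24.helper3176.transcendental_jBar M
  haveI : FiniteDimensional Qb⟮jBar M⟯ (FN M) :=
    Fermat.Agent.S37.helper5162.finiteDimensional_jBar M
  refine ⟨IntermediateField.inclusion
      (helper7300.modularFunctionFieldBar_le_gamma1FieldBar M) (jBar M),
    Fermat.Agent.S37.helper5162.transcendental_algHom _ hj,
    Fermat.Agent.S48.helper5404.finiteDimensional_adjoin_map _ (jBar M) h, ?_, ?_⟩
  · exact (jBar M).2
  · show ((jBar M : FN M) : LaurentSeries Qb).coeff (-1) ≠ 0
    rw [coe_jBar, coeffEmb, coeffMap_coeff, coeff_jq_neg_one, map_one]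
    exact one_ne_zero

/-- **(J1) from A2-GAL**: if the `Γ₁(M)` field (presented as any `F1 = E1 M`) is finite over the
`Γ₀(M)` field in the `extendScalars` presentation, then `Stmt_J1 M`. -/
theorem stmt_J1_of_finite (M : ℕ) [NeZero M]
    (F1 : IntermediateField Qb (LaurentSeries Qb)) (hF1 : F1 = E1 M)
    (hle : modularFunctionFieldBar M ≤ F1)
    (h : FiniteDimensional ↥(modularFunctionFieldBar M) ↥(IntermediateField.extendScalars hle)) :
    Stmt_J1 M := by
  subst hF1
  exact stmt_J1_of_finiteAlong M (finiteAlong_inclusion_of_extendScalars hle h)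

end Fermat.Agent.S48.helper6431
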