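import Mathlib
import Fermat.Agent.S48.helper6431_SpecM2
import Fermat.Agent.S48.helper7300_Gamma1Field

/-!
# S48, machine half (M2), leaf (L-A) FINLEVEL1

Every element of the `Γ₁(M)` function field over `ℚ̄` (any normaliser `P`) has finite level
in the sense of `helper6431.FiniteLevel`: its `q`-expansion is fixed, coefficient by
coefficient, by the absolute Galois group of a number field.  Also the coefficientwise
Galois action of `helper7300.gamma1Galois` packaged as a `helper6431.CoeffGal`.
-/

set_option autoImplicit false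

noncomputable section

namespace Fermat.Agent.S48.helper6493

open ModularCurve AlgebraicCurve HahnSeries IntermediateField
open Fermat.Agent.S48

local notation "Qb" => AlgebraicClosure ℚ

/-- The expansions `j(q ^ d)` have rational coefficients: level `ℚ`. -/
theorem finiteLevel_qExpand_jqModC (d : ℕ) [NeZero d] :
    helper6431.FiniteLevel (qExpand Qb d (jqModC Qb)) :=
  ⟨⊥, inferInstance, fun σ _ => by rw [coeffMap_qExpand, coeffMap_jqModC]⟩

/-- The generator `P · (x(u) - x(v))` has level `ℚ(u, v)`. -/
theorem finiteLevel_gen (P : PowerSeries ℤ) (u v : Qb) :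
    helper6431.FiniteLevel (helper7300.gen Qb P u v) := by
  have hu : IsIntegral ℚ u := ((AlgebraicClosure.isAlgebraic ℚ).isAlgebraic u).isIntegral
  have hv : IsIntegral ℚ v := ((AlgebraicClosure.isAlgebraic ℚ).isAlgebraic v).isIntegral
  have : FiniteDimensional ℚ (IntermediateField.adjoin ℚ {u}) :=
    IntermediateField.adjoin.finiteDimensional hu
  have : FiniteDimensional ℚ (IntermediateField.adjoin ℚ {v}) :=
    IntermediateField.adjoin.finiteDimensional hv
  refine ⟨IntermediateField.adjoin ℚ {u} ⊔ IntermediateField.adjoin ℚ {v},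
    IntermediateField.finiteDimensional_sup _ _, fun σ hσ => ?_⟩
  have h1 : (σ : Qb →+* Qb) u = u :=
    hσ u ((le_sup_left : IntermediateField.adjoin ℚ {u} ≤ _)
      (IntermediateField.mem_adjoin_simple_self ℚ u))
  have h2 : (σ : Qb →+* Qb) v = v :=
    hσ v ((le_sup_right : IntermediateField.adjoin ℚ {v} ≤ _)
      (IntermediateField.mem_adjoin_simple_self ℚ v))
  rw [helper7300.coeffMap_gen_field, h1, h2]

/-- Every generator of the `Γ₁(M)` field has finite level. -/
theorem finiteLevel_of_mem_gens (P : PowerSeries ℤ) (M : ℕ) {s : LaurentSeries Qb}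
    (hs : s ∈ divisorExpansionsC Qb M ∪ helper7300.gamma1Gens Qb P M) :
    helper6431.FiniteLevel s := by
  rcases hs with hs | hs
  · obtain ⟨d, hne, _, rfl⟩ := hs
    have := hne
    exact finiteLevel_qExpand_jqModC d
  · obtain ⟨u, v, _, _, _, _, rfl⟩ := hs
    exact finiteLevel_gen P u v

/-- **(L-A), any normaliser.**  Every element of the `Γ₁(M)` field over `ℚ̄` has finite level. -/
theorem finiteLevel_of_mem_gamma1FieldP (P : PowerSeries ℤ) (M : ℕ) {x : LaurentSeries Qb}
    (hx : x ∈ helper7300.gamma1FieldP Qb P M) : helper6431.FiniteLevel x :=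
  helper6431.finiteLevel_of_mem_adjoin (fun _ hs => finiteLevel_of_mem_gens P M hs) hx

/-- **(L-A) FINLEVEL1**, in the shape consumed by `helper6431.isUES_galHecke` (`hlev`). -/
theorem finLevelP (P : PowerSeries ℤ) (M : ℕ) (x : helper7300.gamma1FieldP Qb P M) :
    helper6431.FiniteLevel (x : LaurentSeries Qb) :=
  finiteLevel_of_mem_gamma1FieldP P M x.2

/-- **(L-A) FINLEVEL1** for the carrier of record `E1 M = helper7300.gamma1FieldBar M`. -/
theorem finLevel1 (M : ℕ) (x : helper7300.gamma1FieldBar M) :
    helper6431.FiniteLevel (x : LaurentSeries Qb) :=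
  finLevelP helper7300.phiZ M x

/-- The coefficientwise Galois action on the `Γ₁(M)` field (normaliser `P`) as a `CoeffGal`. -/
def coeffGalP (P : PowerSeries ℤ) (M : ℕ) :
    helper6431.CoeffGal (helper7300.gamma1FieldP Qb P M) where
  gal := helper7300.gamma1Galois P M
  coe_smul _ _ := rfl

@[simp]
theorem coeffGalP_gal (P : PowerSeries ℤ) (M : ℕ) :
    (coeffGalP P M).gal = helper7300.gamma1Galois P M := rfl

/-- `G1 M`: the coefficientwise Galois action on the carrier of record `E1 M`. -/
abbrev coeffGal1 (M : ℕ) : helper6431.CoeffGal (helper7300.gamma1FieldBar M) :=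
  coeffGalP helper7300.phiZ M

theorem coeffGal1_eq (M : ℕ) :
    coeffGal1 M = ⟨helper7300.gamma1Galois helper7300.phiZ M, fun _ _ => rfl⟩ := rfl

end Fermat.Agent.S48.helper6493
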