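import Fermat.Agent.S48.helper6431_KummerMod
import Fermat.Agent.S48.helper5530_UES1Top
import Fermat.Agent.S48.helper6493_Gamma1Level

/-!
# S48, machine half: the final assembly of `Stmt_KummerMod2 LevelBig` from the leaf Props

Carrier of record: `E1 M = helper7300.gamma1FieldBar M` with the coefficientwise Galois action
`G1 M = helper6493.coeffGal1 M`.

* `IsDiamond M d D` : `D` is the diamond `⟨d⟩` of `E1 M` — the identity on the `Γ₀(M)` field and
  `gen u v ↦ gen (u ^ d) (v ^ d)` on the `Γ₁(M)` generators (convention (D1): `⟨d⟩ u = u ∘ γ_d`,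
  `γ_d ∈ Γ₀(M)` with lower-right entry `≡ d`).  `IsDiamond.ext` : it determines `D`.
* `kummerModAt_gamma1` : `KummerModAt M ℓ` from the layers `H q`, the three Props of (M1) and
  the (M3) Prop `HasPeriodKummer M ℓ (galHecke (G1 M) (M * ℓ) H)`.
* `stmt_KummerMod2_of` : **`Stmt_KummerMod2 LevelBig` from the leaf Props**, one hypothesis per
  owner: (PD1) `hPD`; (M1) `hT`, `hI`, `hR2`, `hR3`; (M2-TP) `hTP`; (M3) `hM3`.
-/

set_option autoImplicit false
set_option linter.style.haveILetI false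
set_option linter.unusedSectionVars false

open scoped TensorProduct
open CongruenceSubgroup AlgebraicCurve ModularCurve

noncomputable section

namespace Fermat.Agent.S48.helper6431

open Fermat.Agent.S48.helper8231 (KummerModAt Stmt_KummerMod2 LevelBig)
open Fermat.Agent.S48.helper2754 (HasPeriodKummer)
open Fermat.Agent.S29.helper8217

local notation "Qb" => AlgebraicClosure ℚ

/-! ### The carrier of record and its diamonds -/

/-- The carrier of record: the function field of `Γ₁(M)` over `ℚ̄`. -/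
abbrev E1 (M : ℕ) : IntermediateField Qb (LaurentSeries Qb) := helper7300.gamma1FieldBar M

/-- Its coefficientwise Galois action. -/
abbrev G1 (M : ℕ) : CoeffGal (E1 M) := helper6493.coeffGal1 M

/-- `D` is the diamond `⟨d⟩` of the `Γ₁(M)` field: the identity on the `Γ₀(M)` field, and
`gen u v ↦ gen (u ^ d) (v ^ d)` on the generators (`u`, `v` nontrivial `M`-th roots of unity).
Convention (D1): `⟨d⟩ u = u ∘ γ_d`, `γ_d ∈ Γ₀(M)` with lower-right entry `≡ d mod M`. -/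
def IsDiamond (M d : ℕ) (D : E1 M ≃ₐ[Qb] E1 M) : Prop :=
  (∀ x : E1 M, (x : LaurentSeries Qb) ∈ modularFunctionFieldBar M → D x = x) ∧
  ∀ (u v : Qb) (hu : u ^ M = 1) (hu1 : u ≠ 1) (hv : v ^ M = 1) (hv1 : v ≠ 1),
    ((D ⟨helper7300.gen Qb helper7300.phiZ u v,
        helper7300.gen_mem helper7300.phiZ hu hu1 hv hv1⟩ : E1 M) : LaurentSeries Qb)
      = helper7300.gen Qb helper7300.phiZ (u ^ d) (v ^ d)

/-- The diamond `⟨d⟩` is unique. -/
theorem IsDiamond.ext {M d : ℕ} {D D' : E1 M ≃ₐ[Qb] E1 M} (h : IsDiamond M d D)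
    (h' : IsDiamond M d D') : D = D' := by
  have key : ∀ (x : LaurentSeries Qb) (hx : x ∈ E1 M), D ⟨x, hx⟩ = D' ⟨x, hx⟩ := by
    intro x hx
    induction hx using IntermediateField.adjoin_induction with
    | mem y hy =>
        rcases hy with hy | ⟨u, v, hu, hu1, hv, hv1, rfl⟩
        · have hmem : y ∈ modularFunctionFieldBar M := by
            rw [modularFunctionFieldBar, helper7300.laurentBaseChange_full_eq]
            exact IntermediateField.subset_adjoin Qb _ hy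
          rw [h.1 _ hmem, h'.1 _ hmem]
        · apply Subtype.ext
          rw [h.2 u v hu hu1 hv hv1, h'.2 u v hu hu1 hv hv1]
    | algebraMap a =>
        exact (D.commutes a).trans (D'.commutes a).symm
    | add x y hx hy ihx ihy =>
        have e : (⟨x + y, add_mem hx hy⟩ : E1 M) = ⟨x, hx⟩ + ⟨y, hy⟩ := rfl
        rw [e, map_add, map_add, ihx, ihy]
    | inv x hx ihx =>
        have e : (⟨x⁻¹, inv_mem hx⟩ : E1 M) = (⟨x, hx⟩ : E1 M)⁻¹ := rfl
        rw [e, map_inv₀, map_inv₀, ihx]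
    | mul x y hx hy ihx ihy =>
        have e : (⟨x * y, mul_mem hx hy⟩ : E1 M) = ⟨x, hx⟩ * ⟨y, hy⟩ := rfl
        rw [e, map_mul, map_mul, ihx, ihy]
  exact AlgEquiv.ext fun x => key x x.2

/-! ### (KMOD) for the carrier of record -/

/-- **(KMOD) at `(M, ℓ)` for the carrier of record**, from the Hecke–diamond layers `H q`
(`q ∤ M ℓ`) whose diamonds fix the `Γ₀(M)` field, the three Props of (M1), and the
period–Kummer datum (M3) for the same layers. -/
theorem kummerModAt_gamma1 (M : ℕ) [NeZero M] (ℓ : ℕ) (hℓ : ℓ.Prime)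
    [HasPrincipalDivisors Qb (E1 M)]
    (H : ∀ q : Nat.Primes, ¬ (q : ℕ) ∣ M * ℓ → HeckeDiamondAt (G1 M) q)
    (hHD : ∀ (q : Nat.Primes) (hq : ¬ (q : ℕ) ∣ M * ℓ) (x : E1 M),
      (x : LaurentSeries Qb) ∈ modularFunctionFieldBar M →
        haveI : NeZero (q : ℕ) := ⟨q.2.ne_zero⟩; (H q hq).D x = x)
    (hT : helper8782.Stmt_TowerA) (h23 : 2 ∣ M ∨ 3 ∣ M)
    (hI : ∀ (p : ℕ) [Fact p.Prime] (hpM : ¬ p ∣ M) (A : ValuationSubring Qb)
      (hA : A.LiesOverPrime p), helper8782.Stmt_IgusaGamma1 M p hpM A hA)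
    (hR2 : ∀ h2M : 2 ∣ M, helper8782.Stmt_RamTwo M h2M)
    (hR3 : ∀ h3M : 3 ∣ M, helper8782.Stmt_RamThree M h3M)
    (hPK : HasPeriodKummer M ℓ (galHecke (G1 M) (M * ℓ) H)) : KummerModAt M ℓ := by
  refine kummerModAt_of_leaves (G1 M) M ℓ hℓ (helper6493.finLevel1 M) H ?_ ?_ hPK
  · intro p hp hpMℓ
    exact helper5530.stmtU_gamma1_of_m1 M (G1 M) hT h23 hI hR2 hR3 hℓ.ne_zero hp hpMℓ
  · intro q hq
    haveI : NeZero (q : ℕ) := ⟨q.2.ne_zero⟩
    exact helper5530.stmtES_gamma1_of_m1 M hT h23 hI hR2 hR3 hℓ.ne_zero q.2 hq (H q hq)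
      (hHD q hq)

/-! ### The final assembly from the leaf Props -/

/-- `LevelBig M ℓ` gives `2 ∣ M ∨ 3 ∣ M` and `70 ≤ M`. -/
theorem levelBig_facts {M ℓ : ℕ} (h : LevelBig M ℓ) : (2 ∣ M ∨ 3 ∣ M) ∧ 70 ≤ M := by
  obtain ⟨B, rfl, -, h7, h10, h23⟩ := h
  refine ⟨h23.imp (fun h => Dvd.dvd.mul_right h ℓ) (fun h => Dvd.dvd.mul_right h ℓ), ?_⟩
  calc 70 = 10 * 7 := rfl
    _ ≤ B * ℓ := Nat.mul_le_mul h10 h7

/-- **`Stmt_KummerMod2 LevelBig` from the leaf Props of the machine**, one hypothesis per owner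
(every hypothesis is only needed at the levels `M` with `2 ∣ M ∨ 3 ∣ M` and `70 ≤ M`):

* `hPD` (PD1) : the `Γ₁(M)` field has principal divisors (it is finite over `ℚ̄(j)`);
* `hT`, `hI`, `hR2`, `hR3` (M1) : the three Props of `helper8782_M1Top`;
* `hTP` (M2-TP) : for every prime `q ∤ M`, a Hecke–diamond layer at `q` whose diamond is `⟨q⟩`;
* `hM3` (M3) : for ANY family of Hecke–diamond layers at the primes `q ∤ M ℓ` with diamonds
  `⟨q⟩`, the period–Kummer datum of the Galois–Hecke module `galHecke (G1 M) (M * ℓ) H`. -/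
theorem stmt_KummerMod2_of
    (hPD : ∀ (M : ℕ) [NeZero M], (2 ∣ M ∨ 3 ∣ M) → 70 ≤ M →
      HasPrincipalDivisors Qb (E1 M))
    (hT : helper8782.Stmt_TowerA)
    (hI : ∀ (M : ℕ) [NeZero M], (2 ∣ M ∨ 3 ∣ M) → 70 ≤ M → ∀ (p : ℕ) [Fact p.Prime]
      (hpM : ¬ p ∣ M) (A : ValuationSubring Qb) (hA : A.LiesOverPrime p),
      helper8782.Stmt_IgusaGamma1 M p hpM A hA)
    (hR2 : ∀ (M : ℕ) [NeZero M], 70 ≤ M → ∀ h2M : 2 ∣ M, helper8782.Stmt_RamTwo M h2M)
    (hR3 : ∀ (M : ℕ) [NeZero M], 70 ≤ M → ∀ h3M : 3 ∣ M, helper8782.Stmt_RamThree M h3M)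
    (hTP : ∀ (M : ℕ) [NeZero M] [HasPrincipalDivisors Qb (E1 M)], (2 ∣ M ∨ 3 ∣ M) → 70 ≤ M →
      ∀ q : Nat.Primes, ¬ (q : ℕ) ∣ M →
        ∃ H : HeckeDiamondAt (G1 M) q,
          haveI : NeZero (q : ℕ) := ⟨q.2.ne_zero⟩; IsDiamond M (q : ℕ) H.D)
    (hM3 : ∀ (M : ℕ) [NeZero M] [HasPrincipalDivisors Qb (E1 M)] (ℓ : ℕ), ℓ.Prime →
      LevelBig M ℓ → ∀ H : ∀ q : Nat.Primes, ¬ (q : ℕ) ∣ M * ℓ → HeckeDiamondAt (G1 M) q,
        (∀ (q : Nat.Primes) (hq : ¬ (q : ℕ) ∣ M * ℓ),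
          haveI : NeZero (q : ℕ) := ⟨q.2.ne_zero⟩; IsDiamond M (q : ℕ) (H q hq).D) →
        HasPeriodKummer M ℓ (galHecke (G1 M) (M * ℓ) H)) :
    Stmt_KummerMod2 LevelBig := by
  intro M _ ℓ hℓ hLB
  obtain ⟨h23, h70⟩ := levelBig_facts hLB
  haveI : HasPrincipalDivisors Qb (E1 M) := hPD M h23 h70
  have hqM : ∀ q : Nat.Primes, ¬ (q : ℕ) ∣ M * ℓ → ¬ (q : ℕ) ∣ M := fun q hq h =>
    hq (Dvd.dvd.mul_right h ℓ)
  choose H hH using fun (q : Nat.Primes) (hq : ¬ (q : ℕ) ∣ M * ℓ) =>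
    hTP M h23 h70 q (hqM q hq)
  exact kummerModAt_gamma1 M ℓ hℓ H (fun q hq x hx => (hH q hq).1 x hx) hT h23
    (fun p _ hpM A hA => hI M h23 h70 p hpM A hA) (fun h2M => hR2 M h70 h2M)
    (fun h3M => hR3 M h70 h3M) (hM3 M ℓ hℓ hLB H hH)

end Fermat.Agent.S48.helper6431
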