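import Mathlib

/-!
# Embeddings of `ℚ(ζ_M)` (helper6480; Mathlib only, carrier-free)

`CyclotomicField M ℚ` carries two `Algebra ℚ _` instances that are equal only at default
transparency (`CyclotomicField.algebra` and `DivisionRing.toRatAlgebra`), so the Mathlib
instances `IsCyclotomicExtension {M} ℚ (CyclotomicField M ℚ)` / `IsGalois` are not found by
instance search for statements typed with `[Field K] [NumberField K] [IsGalois ℚ K]`.
This file provides the three facts in the `DivisionRing.toRatAlgebra` form:

* `isGalois_cyclotomicField M : IsGalois ℚ (CyclotomicField M ℚ)`;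
* `exists_isPrimitiveRoot_cyclotomicField M : ∃ ζ : CyclotomicField M ℚ, IsPrimitiveRoot ζ M`;
* `nonempty_cyclotomicField_ringHom M (hz : IsPrimitiveRoot z M) :
    Nonempty (CyclotomicField M ℚ →+* L)` for every field `L ⊇ ℚ` with a primitive `M`-th root
  of unity `z`.
-/

set_option autoImplicit false

noncomputable section

namespace Fermat.Agent.S48.helper6480

section Cyclo

variable (M : ℕ) [NeZero M]

/-- A field with a primitive `M`-th root of unity receives every `M`-th cyclotomic extension of
`ℚ`. -/
theorem nonempty_ringHom_of_isCyclotomicExtension (K : Type*) [Field K] [Algebra ℚ K]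
    [IsCyclotomicExtension {M} ℚ K] {L : Type*} [Field L] [Algebra ℚ L] {z : L}
    (hz : IsPrimitiveRoot z M) : Nonempty (K →+* L) := by
  have hζ := IsCyclotomicExtension.zeta_spec M ℚ K
  have hirr : Irreducible (Polynomial.cyclotomic M ℚ) :=
    Polynomial.cyclotomic.irreducible_rat (NeZero.pos M)
  have hmin : minpoly ℚ (IsCyclotomicExtension.zeta M ℚ K) = Polynomial.cyclotomic M ℚ :=
    (hζ.minpoly_eq_cyclotomic_of_irreducible hirr).symm
  have hroot : Polynomial.aeval z (minpoly ℚ (hζ.powerBasis ℚ).gen) = 0 := by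
    rw [IsPrimitiveRoot.powerBasis_gen, hmin, Polynomial.aeval_def, Polynomial.eval₂_eq_eval_map,
      Polynomial.map_cyclotomic]
    exact hz.isRoot_cyclotomic (NeZero.pos M)
  exact ⟨((hζ.powerBasis ℚ).lift z hroot : K →+* L)⟩

omit [NeZero M] in
theorem isGalois_cyclotomicField : IsGalois ℚ (CyclotomicField M ℚ) := by
  have h : @IsGalois ℚ _ (CyclotomicField M ℚ) _ (CyclotomicField.algebra M ℚ) :=
    @IsCyclotomicExtension.isGalois {M} ℚ (CyclotomicField M ℚ) _ _ (CyclotomicField.algebra M ℚ)
      inferInstance
  exact h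

theorem exists_isPrimitiveRoot_cyclotomicField :
    ∃ ζ : CyclotomicField M ℚ, IsPrimitiveRoot ζ M :=
  @IsCyclotomicExtension.exists_isPrimitiveRoot {M} ℚ (CyclotomicField M ℚ) _ _
    (CyclotomicField.algebra M ℚ) inferInstance M rfl (NeZero.ne M)

/-- A field with a primitive `M`-th root of unity receives `ℚ(ζ_M)`. -/
theorem nonempty_cyclotomicField_ringHom {L : Type*} [Field L] [Algebra ℚ L] {z : L}
    (hz : IsPrimitiveRoot z M) : Nonempty (CyclotomicField M ℚ →+* L) :=
  @nonempty_ringHom_of_isCyclotomicExtension M _ (CyclotomicField M ℚ) _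
    (CyclotomicField.algebra M ℚ) inferInstance L _ _ z hz

end Cyclo

end Fermat.Agent.S48.helper6480
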