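import Fermat.Agent.S48.helper8098_RatForm
import Fermat.Agent.S29.helper6961_CoeffDescent

/-!
# S48-A2-RATFORM, part 2 (helper8098): `ratPoints` is a left inverse of `laurentBaseChange`

Uses the landed coefficient descent `S29.helper6961.mem_laurentBaseChange_of_coeffMap_mem`
("`k((q)) ∩ L·F₀ = k·F₀`") at `k = ℚ`.

* `laurentBaseChange_rat` : `laurentBaseChange ℚ F₀ = F₀`;
* `ratPoints_laurentBaseChange` : `ratPoints L (laurentBaseChange L F₀) = F₀`;
* `laurentBaseChange_le_laurentBaseChange_iff`, `laurentBaseChange_injective`;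
* `ratPoints_eq_of_laurentBaseChange_eq` : if `laurentBaseChange L F₀ = F` then
  `ratPoints L F = F₀` (uniqueness of the rational form).
-/

set_option autoImplicit false

noncomputable section

namespace Fermat.Agent.S48.helper8098

open ModularCurve HahnSeries IntermediateField

/-- Over `ℚ` the coefficient embedding is the identity. -/
theorem coeffEmb_rat (y : LaurentSeries ℚ) : coeffEmb ℚ y = y := by
  ext n
  simp

/-- Over `ℚ` the base change does nothing. -/
theorem laurentBaseChange_rat (F₀ : IntermediateField ℚ (LaurentSeries ℚ)) :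
    laurentBaseChange ℚ F₀ = F₀ := by
  apply le_antisymm
  · rw [laurentBaseChange, IntermediateField.adjoin_le_iff]
    rintro _ ⟨y, hy, rfl⟩
    rw [coeffEmb_rat]
    exact hy
  · intro y hy
    have := coeffEmb_mem_laurentBaseChange ℚ hy
    rwa [coeffEmb_rat] at this

variable {L : Type*} [Field L] [Algebra ℚ L]

/-- **The rational points of a base change are the original field.** -/
theorem ratPoints_laurentBaseChange (F₀ : IntermediateField ℚ (LaurentSeries ℚ)) :
    ratPoints L (laurentBaseChange L F₀) = F₀ := by
  apply le_antisymm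
  · intro y hy
    rw [mem_ratPoints_iff] at hy
    have h := Fermat.Agent.S29.helper6961.mem_laurentBaseChange_of_coeffMap_mem F₀
      (algebraMap ℚ L) y hy
    rwa [laurentBaseChange_rat] at h
  · exact le_ratPoints_laurentBaseChange F₀

theorem laurentBaseChange_le_laurentBaseChange_iff
    {F₀ F₁ : IntermediateField ℚ (LaurentSeries ℚ)} :
    laurentBaseChange L F₀ ≤ laurentBaseChange L F₁ ↔ F₀ ≤ F₁ := by
  rw [laurentBaseChange_le_iff, ratPoints_laurentBaseChange]

theorem laurentBaseChange_injective :
    Function.Injective (laurentBaseChange L : IntermediateField ℚ (LaurentSeries ℚ) → _) := by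
  intro F₀ F₁ h
  exact le_antisymm (laurentBaseChange_le_laurentBaseChange_iff.mp h.le)
    (laurentBaseChange_le_laurentBaseChange_iff.mp h.ge)

/-- Uniqueness of the rational form. -/
theorem ratPoints_eq_of_laurentBaseChange_eq {F₀ : IntermediateField ℚ (LaurentSeries ℚ)}
    {F : IntermediateField L (LaurentSeries L)} (h : laurentBaseChange L F₀ = F) :
    ratPoints L F = F₀ := by
  rw [← h, ratPoints_laurentBaseChange]

/-! ## Linear disjointness: independence is preserved by base change of the coefficients -/

section LinDisj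

open Fermat.Agent.S29.helper6961

variable {k L : Type*} [Field k] [Field L] [Algebra ℚ k] [Algebra ℚ L]

/-- The coefficientwise push as an additive map. -/
def pushHom (π : L →+ k) : LaurentSeries L →+ LaurentSeries k where
  toFun := pushCoeff π
  map_zero' := pushCoeff_zero π
  map_add' := pushCoeff_add π

omit [Algebra ℚ k] [Algebra ℚ L] in
@[simp]
theorem pushHom_apply (π : L →+ k) (x : LaurentSeries L) : pushHom π x = pushCoeff π x := rfl

/-- Every element of `laurentBaseChange L F₀` is a quotient of two elements of the `L`-algebra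
generated by `F₀`, with nonzero denominator. -/
theorem exists_num_den (F₀ : IntermediateField ℚ (LaurentSeries ℚ)) {x : LaurentSeries L}
    (hx : x ∈ laurentBaseChange L F₀) :
    ∃ a ∈ Algebra.adjoin L (⇑(coeffEmb L) '' (F₀ : Set (LaurentSeries ℚ))),
      ∃ b ∈ Algebra.adjoin L (⇑(coeffEmb L) '' (F₀ : Set (LaurentSeries ℚ))),
        b ≠ 0 ∧ x * b = a := by
  rw [laurentBaseChange, IntermediateField.mem_adjoin_iff_div] at hx
  obtain ⟨a, ha, b, hb, hab⟩ := hx
  by_cases hb0 : b = 0
  · refine ⟨0, zero_mem _, 1, one_mem _, one_ne_zero, ?_⟩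
    rw [hab, hb0, div_zero, zero_mul]
  · exact ⟨a, ha, b, hb, hb0, by rw [hab, div_mul_cancel₀ _ hb0]⟩

/-- **Linear disjointness.**  A family of Laurent series over `k` which is linearly independent
over `laurentBaseChange k F₀` stays linearly independent over `laurentBaseChange L F₀` after
extending the coefficients along `ι : k → L`. -/
theorem linearIndependent_coeffMap (ι : k →+* L) (F₀ : IntermediateField ℚ (LaurentSeries ℚ))
    {I : Type*} (f : I → LaurentSeries k)
    (hf : LinearIndependent ↥(laurentBaseChange k F₀) f) :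
    LinearIndependent ↥(laurentBaseChange L F₀) (fun i => coeffMap ι (f i)) := by
  classical
  rw [linearIndependent_iff']
  intro s g hg i0 hi0
  by_contra hne
  have hrep := fun i => exists_num_den F₀ (g i).2
  choose a ha b hb hb0 hab using hrep
  set A := Algebra.adjoin L (⇑(coeffEmb L) '' (F₀ : Set (LaurentSeries ℚ))) with hA
  -- common denominator
  let c : I → LaurentSeries L := fun i => a i * ∏ j ∈ s.erase i, b j
  have hcA : ∀ i, c i ∈ A := fun i => mul_mem (ha i) (prod_mem fun j _ => hb j)
  have hB0 : (∏ j ∈ s, b j) ≠ 0 := Finset.prod_ne_zero_iff.mpr fun j _ => hb0 j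
  have hc : ∀ i ∈ s, c i = (g i : LaurentSeries L) * ∏ j ∈ s, b j := by
    intro i hi
    show a i * ∏ j ∈ s.erase i, b j = _
    rw [← Finset.mul_prod_erase s b hi, ← mul_assoc, hab i]
  have hsum : ∑ i ∈ s, coeffMap ι (f i) * c i = 0 := by
    have h1 : ∑ i ∈ s, coeffMap ι (f i) * c i =
        (∑ i ∈ s, g i • coeffMap ι (f i)) * ∏ j ∈ s, b j := by
      rw [Finset.sum_mul]
      refine Finset.sum_congr rfl fun i hi => ?_
      rw [hc i hi, IntermediateField.smul_def, smul_eq_mul]
      ring
    rw [h1, hg, zero_mul]
  have hc0 : c i0 ≠ 0 := by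
    rw [hc i0 hi0]
    refine mul_ne_zero (fun h => hne (Subtype.ext h)) hB0
  obtain ⟨t, ht⟩ : ∃ t, (c i0).coeff t ≠ 0 := by
    by_contra hcon
    push Not at hcon
    exact hc0 (HahnSeries.ext (funext hcon))
  obtain ⟨π, hπ, hπt⟩ := exists_functional_ne_zero ι ht
  have hmem : ∀ i, pushCoeff π (c i) ∈ laurentBaseChange k F₀ := fun i =>
    IntermediateField.algebra_adjoin_le_adjoin k _ (pushCoeff_mem_adjoin ι F₀ (hcA i) π hπ)
  have key : ∑ i ∈ s, (⟨pushCoeff π (c i), hmem i⟩ : ↥(laurentBaseChange k F₀)) • f i = 0 := by
    have h2 := congrArg (pushHom π) hsum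
    rw [map_sum, map_zero] at h2
    rw [← h2]
    refine Finset.sum_congr rfl fun i _ => ?_
    rw [pushHom_apply, pushCoeff_coeffMap_mul ι π hπ, IntermediateField.smul_def, smul_eq_mul,
      mul_comm]
  have h0 := linearIndependent_iff'.mp hf s _ key i0 hi0
  apply hπt
  have h3 := congrArg (fun w : ↥(laurentBaseChange k F₀) => (w : LaurentSeries k).coeff t) h0
  simpa using h3

/-- Rational case: a family of rational Laurent series linearly independent over `F₀` stays
linearly independent over `laurentBaseChange L F₀`. -/
theorem linearIndependent_coeffEmb (F₀ : IntermediateField ℚ (LaurentSeries ℚ))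
    {I : Type*} (f : I → LaurentSeries ℚ) (hf : LinearIndependent ↥F₀ f) :
    LinearIndependent ↥(laurentBaseChange L F₀) (fun i => coeffEmb L (f i)) := by
  have hf' : LinearIndependent ↥(laurentBaseChange ℚ F₀) f := by
    rw [linearIndependent_iff'] at hf ⊢
    intro s g hg i hi
    have hmem : ∀ j, (g j : LaurentSeries ℚ) ∈ F₀ := fun j =>
      (laurentBaseChange_rat F₀).le (g j).2
    have h := hf s (fun j => ⟨g j, hmem j⟩) hg i hi
    exact Subtype.ext (show (g i : LaurentSeries ℚ) = 0 from congrArg Subtype.val h)
  exact linearIndependent_coeffMap (algebraMap ℚ L) F₀ f hf'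

/-! ## Spanning families stay spanning -/

section Span

variable (k : Type*) [Field k] [Algebra ℚ k]

/-- **Spanning is preserved.**  If the finite family `y` spans the rational field `F₁` over the
rational field `F₀`, then `coeffEmb k ∘ y` spans `laurentBaseChange k F₁` over
`laurentBaseChange k F₀`. -/
theorem exists_sum_smul_coeffEmb {F₀ F₁ : IntermediateField ℚ (LaurentSeries ℚ)}
    {I : Type*} [Fintype I] (y : I → LaurentSeries ℚ)
    (hspan : ∀ z ∈ F₁, ∃ a : I → ↥F₀, z = ∑ i, a i • y i) :
    ∀ x ∈ laurentBaseChange k F₁,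
      ∃ c : I → ↥(laurentBaseChange k F₀), x = ∑ i, c i • coeffEmb k (y i) := by
  classical
  set A := laurentBaseChange k F₀ with hA
  -- the `A`-subalgebra generated by the image of `F₁`
  set R : Subalgebra ↥A (LaurentSeries k) :=
    Algebra.adjoin ↥A (⇑(coeffEmb k) '' (F₁ : Set (LaurentSeries ℚ))) with hR
  set W : Submodule ↥A (LaurentSeries k) :=
    Submodule.span ↥A (Set.range fun i => coeffEmb k (y i)) with hW
  -- the image of `F₁` is closed under multiplication
  have hclos : (Submonoid.closure (⇑(coeffEmb k) '' (F₁ : Set (LaurentSeries ℚ))) :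
      Set (LaurentSeries k)) = ⇑(coeffEmb k) '' (F₁ : Set (LaurentSeries ℚ)) := by
    apply Set.Subset.antisymm
    · intro m hm
      induction hm using Submonoid.closure_induction with
      | mem x hx => exact hx
      | one => exact ⟨1, one_mem _, map_one _⟩
      | mul x y _ _ hx hy =>
          obtain ⟨f, hf, rfl⟩ := hx
          obtain ⟨g, hg, rfl⟩ := hy
          exact ⟨f * g, mul_mem hf hg, map_mul _ _ _⟩
    · exact Submonoid.subset_closure
  -- the subalgebra is the span of the family
  have hRW : Subalgebra.toSubmodule R ≤ W := by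
    rw [hR, Algebra.adjoin_eq_span, hclos, Submodule.span_le]
    rintro _ ⟨z, hz, rfl⟩
    obtain ⟨a, rfl⟩ := hspan z hz
    rw [map_sum]
    refine Submodule.sum_mem _ fun i _ => ?_
    have h1 : coeffEmb k (a i • y i) =
        (⟨coeffEmb k (a i : LaurentSeries ℚ), coeffEmb_mem_laurentBaseChange k (a i).2⟩ : ↥A) •
          coeffEmb k (y i) := by
      rw [IntermediateField.smul_def, smul_eq_mul, IntermediateField.smul_def, smul_eq_mul,
        map_mul]
    rw [h1]
    exact Submodule.smul_mem _ _ (Submodule.subset_span ⟨i, rfl⟩)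
  have hfg : (Subalgebra.toSubmodule R).FG := by
    have hWfg : W.FG := Submodule.fg_span (Set.finite_range _)
    have : Module.Finite ↥A ↥W := Module.Finite.iff_fg.mpr hWfg
    have : Module.Finite ↥A ↥(Subalgebra.toSubmodule R) :=
      Module.Finite.of_injective (Submodule.inclusion hRW) (Submodule.inclusion_injective hRW)
    exact Module.Finite.iff_fg.mp inferInstance
  -- hence the subalgebra is closed under inverses
  have hinv : ∀ x ∈ R, x⁻¹ ∈ R := fun x hx =>
    Subalgebra.inv_mem_of_algebraic R (x := ⟨x, hx⟩)
      (IsIntegral.of_mem_of_fg R hfg x hx).isAlgebraic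
  -- so it contains the base change of `F₁`
  have hle : ∀ x ∈ laurentBaseChange k F₁, x ∈ R := by
    intro x hx
    rw [mem_laurentBaseChange_iff] at hx
    induction hx using Subfield.closure_induction with
    | mem z hz =>
        rcases hz with ⟨c, rfl⟩ | ⟨f, hf, rfl⟩
        · have : algebraMap k (LaurentSeries k) c =
              algebraMap ↥A (LaurentSeries k) ⟨algebraMap k (LaurentSeries k) c,
                A.algebraMap_mem c⟩ := rfl
          rw [this]
          exact R.algebraMap_mem _
        · exact Algebra.subset_adjoin ⟨f, hf, rfl⟩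
    | one => exact one_mem _
    | add x y _ _ hx hy => exact add_mem hx hy
    | neg x _ hx => exact neg_mem hx
    | inv x _ hx => exact hinv x hx
    | mul x y _ _ hx hy => exact mul_mem hx hy
  intro x hx
  have hxW : x ∈ W := hRW (hle x hx)
  obtain ⟨c, hc⟩ := (Submodule.mem_span_range_iff_exists_fun ↥A).mp hxW
  exact ⟨c, hc.symm⟩

end Span

end LinDisj

/-! ## Change of the field of coefficients -/

section ChangeField

variable {L L' : Type*} [Field L] [Field L']

/-- Coefficientwise image of a constant. -/
theorem coeffMap_algebraMap' (ι : L →+* L') (c : L) :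
    coeffMap ι (algebraMap L (LaurentSeries L) c) = algebraMap L' (LaurentSeries L') (ι c) := by
  rw [algebraMap_laurentSeries_eq_single, algebraMap_laurentSeries_eq_single, coeffMap_single]

/-- The coefficientwise image of `L(S)` lies in `L'(ι S)`. -/
theorem coeffMap_mem_adjoin (ι : L →+* L') {S : Set (LaurentSeries L)} {x : LaurentSeries L}
    (hx : x ∈ IntermediateField.adjoin L S) :
    coeffMap ι x ∈ IntermediateField.adjoin L' (⇑(coeffMap ι) '' S) := by
  have key : ∀ z ∈ Subfield.closure (Set.range (algebraMap L (LaurentSeries L)) ∪ S),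
      coeffMap ι z ∈ IntermediateField.adjoin L' (⇑(coeffMap ι) '' S) := by
    intro z hz
    induction hz using Subfield.closure_induction with
    | mem y hy =>
        rcases hy with ⟨c, rfl⟩ | hy
        · rw [coeffMap_algebraMap']
          exact IntermediateField.algebraMap_mem _ _
        · exact IntermediateField.subset_adjoin L' _ ⟨y, hy, rfl⟩
    | one => simp
    | add x y _ _ hx hy => simpa using add_mem hx hy
    | neg x _ hx => simpa using neg_mem hx
    | inv x _ hx => simpa using inv_mem hx
    | mul x y _ _ hx hy => simpa using mul_mem hx hy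
  exact key x hx

variable [Algebra ℚ L] [Algebra ℚ L']

/-- **Change of coefficients.**  If `laurentBaseChange L F₀` is generated over `L` by `S`, then
`laurentBaseChange L' F₀` is generated over `L'` by the coefficientwise images of `S`, for
every ring homomorphism `ι : L → L'`. -/
theorem laurentBaseChange_eq_adjoin_coeffMap (ι : L →+* L')
    {F₀ : IntermediateField ℚ (LaurentSeries ℚ)} {S : Set (LaurentSeries L)}
    (h : laurentBaseChange L F₀ = IntermediateField.adjoin L S) :
    laurentBaseChange L' F₀ = IntermediateField.adjoin L' (⇑(coeffMap ι) '' S) := by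
  apply le_antisymm
  · rw [laurentBaseChange, IntermediateField.adjoin_le_iff]
    rintro _ ⟨y, hy, rfl⟩
    rw [← Fermat.Agent.S29.helper6961.coeffMap_coeffEmb_eq ι y]
    refine coeffMap_mem_adjoin ι ?_
    rw [← h]
    exact coeffEmb_mem_laurentBaseChange L hy
  · rw [IntermediateField.adjoin_le_iff]
    rintro _ ⟨s, hs, rfl⟩
    refine Fermat.Agent.S29.helper6961.coeffMap_mem_laurentBaseChange_of_mem F₀ ι ?_
    rw [h]
    exact IntermediateField.subset_adjoin L S hs

end ChangeField

/-! ## The uniform rational form of a field generated by a Galois-stable set of series -/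

section Uniform

variable {K : Type*} [Field K] [NumberField K] [IsGalois ℚ K]

/-- **Uniform rational form.**  `K` a Galois number field and `S` a `Gal(K/ℚ)`-stable set of
Laurent series over `K`.  Put `F₀ := ratPoints K (K(S))`.  Then for EVERY field `L` and every
ring homomorphism `ι : K → L`, the field generated over `L` by the images of `S` is
`laurentBaseChange L F₀`. -/
theorem laurentBaseChange_ratPoints_eq_adjoin_coeffMap {L : Type*} [Field L] [Algebra ℚ L]
    (ι : K →+* L) (S : Set (LaurentSeries K))
    (hst : ∀ s ∈ S, ∀ σ : K ≃ₐ[ℚ] K, coeffMap ((σ : K ≃ₐ[ℚ] K) : K →+* K) s ∈ S) :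
    laurentBaseChange L (ratPoints K (IntermediateField.adjoin K S)) =
      IntermediateField.adjoin L (⇑(coeffMap ι) '' S) := by
  have h0 := laurentBaseChange_ratPoints_adjoin_of_isGalois (L := K) (RingHom.id K) S hst
  have himg : (⇑(coeffMap (RingHom.id K)) '' S) = S := by
    ext x
    simp
  rw [himg] at h0
  exact laurentBaseChange_eq_adjoin_coeffMap ι h0

/-- The rational points do not depend on the field of coefficients. -/
theorem ratPoints_adjoin_coeffMap {L : Type*} [Field L] [Algebra ℚ L]
    (ι : K →+* L) (S : Set (LaurentSeries K))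
    (hst : ∀ s ∈ S, ∀ σ : K ≃ₐ[ℚ] K, coeffMap ((σ : K ≃ₐ[ℚ] K) : K →+* K) s ∈ S) :
    ratPoints L (IntermediateField.adjoin L (⇑(coeffMap ι) '' S)) =
      ratPoints K (IntermediateField.adjoin K S) :=
  ratPoints_eq_of_laurentBaseChange_eq (laurentBaseChange_ratPoints_eq_adjoin_coeffMap ι S hst)

end Uniform

end Fermat.Agent.S48.helper8098
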