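import Fermat.Agent.S48.helper7300_Gamma1Field
import Fermat.Agent.S48.helper8098_RatFormDesc
import Fermat.Agent.S48.helper6480_CycloEmb

/-!
# S48 carrier side (helper6480): the `ℚ`-form of the `Γ₁(M)` field of record

For the carrier of record `helper7300.gamma1FieldP K P M` (normalised differences
`gen K P u v`; `gamma1Field K M`, `gamma1FieldBar M` are the case `P = phiZ`):

* `gamma1QForm P M : IntermediateField ℚ (LaurentSeries ℚ)` : the `ℚ`-form
  `ratPoints ℚ(ζ_M) (gamma1FieldP ℚ(ζ_M) P M)` (the function field over `ℚ` of the model of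
  `X₁(M)` whose cusp `∞` is rational);
* `full_le_gamma1QForm : modularFunctionFieldFull M ≤ gamma1QForm P M`, `jq_mem_gamma1QForm`;
* `laurentBaseChange_gamma1QForm` : over EVERY field `L` with a primitive `M`-th root of unity
  (a number field `K₀ ⊇ ℚ(ζ_M)`, `ℚ̄`, `ℂ`),
  `laurentBaseChange L (gamma1QForm P M) = gamma1FieldP L P M`;
  specialisations `_of_exists`, `_Qbar`, `_bar` (`= gamma1FieldBar M`), `_complex`;
* `ratPoints_gamma1FieldP` : the rational points of `gamma1FieldP L P M` do not depend on `L`.

Imports only landed files.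
-/

set_option autoImplicit false

noncomputable section

namespace Fermat.Agent.S48.helper6480

open ModularCurve IntermediateField
open Fermat.Agent.S48.helper7300

local notation "Qb" => AlgebraicClosure ℚ

section Form

variable (P : PowerSeries ℤ) (M : ℕ)

/-- **The `ℚ`-form of the `Γ₁(M)` field**: the Laurent series with rational coefficients lying
in `gamma1FieldP ℚ(ζ_M) P M` (the function field over `ℚ` of the model of `X₁(M)` whose cusp
`∞` is rational). -/
def gamma1QForm : IntermediateField ℚ (LaurentSeries ℚ) :=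
  helper8098.ratPoints (CyclotomicField M ℚ) (gamma1FieldP (CyclotomicField M ℚ) P M)

theorem mem_gamma1QForm_iff {y : LaurentSeries ℚ} :
    y ∈ gamma1QForm P M ↔
      coeffEmb (CyclotomicField M ℚ) y ∈ gamma1FieldP (CyclotomicField M ℚ) P M :=
  Iff.rfl

/-- The function field of `X₀(M)` over `ℚ` sits in the `ℚ`-form. -/
theorem full_le_gamma1QForm : modularFunctionFieldFull M ≤ gamma1QForm P M := fun _ hy =>
  laurentBaseChange_le_gamma1FieldP (CyclotomicField M ℚ) P M
    (coeffEmb_mem_laurentBaseChange _ hy)

/-- `j` lies in the `ℚ`-form. -/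
theorem jq_mem_gamma1QForm : jq ∈ gamma1QForm P M := by
  have h := jqd_mem_full M (one_dvd M)
  rw [qExpand_one_apply] at h
  exact full_le_gamma1QForm P M h

variable [NeZero M]

/-- **Base change of the `ℚ`-form**: over every field with a primitive `M`-th root of unity it
is the `Γ₁(M)` field. -/
theorem laurentBaseChange_gamma1QForm (L : Type*) [Field L] [Algebra ℚ L] {z : L}
    (hz : IsPrimitiveRoot z M) :
    laurentBaseChange L (gamma1QForm P M) = gamma1FieldP L P M := by
  obtain ⟨ι⟩ := nonempty_cyclotomicField_ringHom M hz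
  obtain ⟨ζ, hζ⟩ := exists_isPrimitiveRoot_cyclotomicField M
  have := isGalois_cyclotomicField M
  have h1 := helper8098.laurentBaseChange_ratPoints_eq_adjoin_coeffMap ι
    (gamma1FieldP (CyclotomicField M ℚ) P M : Set (LaurentSeries (CyclotomicField M ℚ)))
    (fun s hs σ => coeffMap_mem_gamma1FieldP P _ hs)
  rw [IntermediateField.adjoin_self] at h1
  rw [gamma1QForm, h1, ← gamma1FieldP_eq_adjoin_image P ι hζ]

/-- The same with an existential hypothesis. -/
theorem laurentBaseChange_gamma1QForm_of_exists (L : Type*) [Field L] [Algebra ℚ L]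
    (hz : ∃ z : L, IsPrimitiveRoot z M) :
    laurentBaseChange L (gamma1QForm P M) = gamma1FieldP L P M := by
  obtain ⟨z, hz⟩ := hz
  exact laurentBaseChange_gamma1QForm P M L hz

/-- The rational points of the `Γ₁(M)` field do not depend on the coefficient field. -/
theorem ratPoints_gamma1FieldP (L : Type*) [Field L] [Algebra ℚ L] {z : L}
    (hz : IsPrimitiveRoot z M) :
    helper8098.ratPoints L (gamma1FieldP L P M) = gamma1QForm P M :=
  helper8098.ratPoints_eq_of_laurentBaseChange_eq (laurentBaseChange_gamma1QForm P M L hz)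

/-- Over `ℚ̄`. -/
theorem laurentBaseChange_gamma1QForm_Qbar :
    laurentBaseChange Qb (gamma1QForm P M) = gamma1FieldP Qb P M := by
  obtain ⟨z, hz⟩ := HasEnoughRootsOfUnity.exists_primitiveRoot Qb M
  exact laurentBaseChange_gamma1QForm P M Qb hz

/-- Over `ℚ̄`, default normaliser: the carrier of record `gamma1FieldBar M`. -/
theorem laurentBaseChange_gamma1QForm_bar :
    laurentBaseChange Qb (gamma1QForm phiZ M) = gamma1FieldBar M :=
  laurentBaseChange_gamma1QForm_Qbar phiZ M

/-- Over `ℂ`. -/
theorem laurentBaseChange_gamma1QForm_complex :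
    laurentBaseChange ℂ (gamma1QForm P M) = gamma1FieldP ℂ P M := by
  obtain ⟨z, hz⟩ := HasEnoughRootsOfUnity.exists_primitiveRoot ℂ M
  exact laurentBaseChange_gamma1QForm P M ℂ hz

/-- Over `ℂ`, default normaliser. -/
theorem laurentBaseChange_gamma1QForm_complex' :
    laurentBaseChange ℂ (gamma1QForm phiZ M) = gamma1Field ℂ M :=
  laurentBaseChange_gamma1QForm_complex phiZ M

end Form

end Fermat.Agent.S48.helper6480
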