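import Fermat.Agent.S48.helper1267_LayerModel
import Fermat.Agent.S48.helper6480_Gamma1QForm

/-!
# S48-M1 (helper6480, PARKED cross-check): `FgForm` for the `ℚ`-form of the `Γ₁(M)` field

The copy of record of the finitely-generated-coefficient lemmas is
`helper1267_Gamma1Fg.lean` (`helper1267.gen_mem_fgCoeff`, `fgForm_of_le_gamma1FieldP`).
This file is an independent compiled twin, stated for `helper6480.gamma1QForm`:

* `gen_mem_fgCoeff` : the generators `gen K P u v` have coefficients in a finitely generated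
  `ℤ`-module (`helper8991.fgCoeff`);
* `fgForm_of_baseChange_eq` : every `ℚ`-form `F₁` of the `Γ₁(M)` field over `ℚ̄` satisfies
  `helper1267.FgForm F₁`;
* `fgForm_gamma1QForm : helper1267.FgForm (gamma1QForm P M)`.
-/

set_option autoImplicit false

noncomputable section

namespace Fermat.Agent.S48.helper6480

open ModularCurve IntermediateField
open Fermat.Agent.S18 Fermat.Agent.S48.helper7300

local notation "Qb" => AlgebraicClosure ℚ

/-! ## Finitely generated coefficients -/

section FgCoeff

variable {K : Type*} [Field K]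

/-- The division series `wpSer u` of a root of unity has coefficients in a finitely generated
`ℤ`-module. -/
theorem ofPowerSeries_wpSer_mem_fgCoeff {M : ℕ} (hM : M ≠ 0) {u : K} (hu : u ^ M = 1) :
    HahnSeries.ofPowerSeries ℤ K (wpSer u) ∈ helper8991.fgCoeff K := by
  classical
  set T : Set K := insert (xv u) (Set.range fun i : Fin M => u ^ (i : ℕ)) with hT
  have hTfin : T.Finite := (Set.finite_range _).insert _
  refine helper8991.mem_fgCoeff.mpr ⟨Submodule.span ℤ T, Submodule.fg_span hTfin, fun n => ?_⟩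
  have hMpos : 0 < M := Nat.pos_of_ne_zero hM
  have hpow : ∀ e : ℕ, u ^ e ∈ Submodule.span ℤ T := by
    intro e
    rw [pow_eq_pow_mod e hu]
    exact Submodule.subset_span (Set.mem_insert_of_mem _ ⟨⟨e % M, Nat.mod_lt e hMpos⟩, rfl⟩)
  have hinv : Ring.inverse u = u ^ (M - 1) := by
    rw [Ring.inverse_eq_inv']
    have hu0 : u ≠ 0 := by
      intro h0
      rw [h0, zero_pow hM] at hu
      exact zero_ne_one hu
    apply inv_eq_of_mul_eq_one_right
    rw [← pow_succ', Nat.sub_add_cancel hMpos, hu]
  rcases lt_or_ge n 0 with hn | hn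
  · rw [ofPowerSeries_coeff_of_neg _ hn]
    exact zero_mem _
  · obtain ⟨m, rfl⟩ := Int.eq_ofNat_of_zero_le hn
    rw [HahnSeries.ofPowerSeries_apply_coeff]
    by_cases hm : m = 0
    · subst hm
      rw [coeff_wpSer_zero]
      exact Submodule.subset_span (Set.mem_insert _ _)
    · rw [coeff_wpSer_of_ne_zero _ hm, wpCoeff]
      refine Submodule.sum_mem _ fun d _ => ?_
      have h1 : (d : K) * (u ^ d + Ring.inverse u ^ d - 2) =
          (d : ℤ) • (u ^ d + Ring.inverse u ^ d - 2) := by
        rw [zsmul_eq_mul, Int.cast_natCast]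
      rw [h1]
      refine Submodule.smul_mem _ _ (Submodule.sub_mem _ (Submodule.add_mem _ (hpow d) ?_) ?_)
      · rw [hinv, ← pow_mul]
        exact hpow _
      · have h2 : (2 : K) = (2 : ℤ) • u ^ 0 := by
          rw [pow_zero, zsmul_eq_mul, mul_one]
          norm_num
        rw [h2]
        exact Submodule.smul_mem _ _ (hpow 0)

/-- **The generators of the `Γ₁(M)` field have finitely generated coefficients.** -/
theorem gen_mem_fgCoeff (P : PowerSeries ℤ) {M : ℕ} (hM : M ≠ 0) {u v : K} (hu : u ^ M = 1)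
    (hv : v ^ M = 1) : gen K P u v ∈ helper8991.fgCoeff K := by
  rw [gen_def]
  refine mul_mem ?_ ?_
  · rw [zSer, ← coeffMap_ofPowerSeries]
    exact helper8991.coeffMap_intCast_mem_fgCoeff _
  · rw [dSer, map_sub]
    exact sub_mem (ofPowerSeries_wpSer_mem_fgCoeff hM hu) (ofPowerSeries_wpSer_mem_fgCoeff hM hv)

/-- All generators of `gamma1FieldP K P M` have finitely generated coefficients. -/
theorem gamma1FieldP_gens_subset_fgCoeff (P : PowerSeries ℤ) {M : ℕ} (hM : M ≠ 0) :
    divisorExpansionsC K M ∪ gamma1Gens K P M ⊆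
      (helper8991.fgCoeff K : Set (LaurentSeries K)) := by
  rintro x (hx | ⟨u, v, hu, -, hv, -, rfl⟩)
  · exact helper8991.divisorExpansionsC_subset_fgCoeff M hx
  · exact gen_mem_fgCoeff P hM hu hv

/-- Every element of the `Γ₁(M)` field is a fraction of series with finitely generated
coefficients. -/
theorem isFgFrac_of_mem_gamma1FieldP (P : PowerSeries ℤ) {M : ℕ} (hM : M ≠ 0)
    {x : LaurentSeries K} (hx : x ∈ gamma1FieldP K P M) : helper1267.IsFgFrac x :=
  helper1267.isFgFrac_of_mem_adjoin
    (fun _ hy => helper1267.IsFgFrac.of_mem (gamma1FieldP_gens_subset_fgCoeff P hM hy)) hx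

end FgCoeff

/-! ## `FgForm` for `ℚ`-forms of the `Γ₁(M)` field -/

section Form

variable (P : PowerSeries ℤ) (M : ℕ) [NeZero M]

/-- **Every `ℚ`-form of the `Γ₁(M)` field satisfies `FgForm`.** -/
theorem fgForm_of_baseChange_eq {F₁ : IntermediateField ℚ (LaurentSeries ℚ)}
    (h : laurentBaseChange Qb F₁ = gamma1FieldP Qb P M) : helper1267.FgForm F₁ := by
  intro x hx
  rw [h] at hx
  exact isFgFrac_of_mem_gamma1FieldP P (NeZero.ne M) hx

/-- **`FgForm` for the `ℚ`-form of the `Γ₁(M)` field.** -/
theorem fgForm_gamma1QForm : helper1267.FgForm (gamma1QForm P M) :=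
  fgForm_of_baseChange_eq P M (laurentBaseChange_gamma1QForm_Qbar P M)

end Form

end Fermat.Agent.S48.helper6480
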