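/-
S48, block M1 / B-TOWER (T4): FIELD-GENERIC constructors of the track-B geometric datum
`Fermat.Agent.S18.helper648.BarDatum` (helper648).

The landed constructors `S18/helper2128_BarDatum` are stated for `F_N = modularFunctionFieldBar N`
over `ℚ̄`.  Here the same for an ARBITRARY function field `Fb` over an algebraically closed field
`Kb` of characteristic zero (e.g. the `Γ1(M)` field over `ℚ̄`), for any `D : helper3578.KData`:

* `barDatumOfHomGen`        : `BarDatum` from a ring hom `σ : L0 → E`, `E` finite over `Fb`;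
* `nonempty_barDatum_base`  : TRIVIAL LAYER, `σ : L0 → Fb` (the model `D1` with `L0` = the model
                              of `Fb`, no Kummer layer);
* `exists_hom_kummer_gen`   : `L0 = F0[θ]`, `θ ^ m = U`, `ι : F0 → Fb` extends to
                              `L0 → Fb⟮θ'⟯ ⊆ AlgebraicClosure Fb`;
* `ord_algebraMap_eq_kummer_gen` : orders of elements of `Fb` do not change on `Fb⟮θ'⟯` when
                              `m ∣ div U` (landed `helper2778.ord_algebraMap_eq_of_kummer` +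
                              S24 `helper489.stmt_ResidueK`);
* `nonempty_barDatum_kummer`: KUMMER TOP, the branch data of `ι t` on `Fb` give `BarDatum D c0`;
* `*_Qbar` forms            : `Kb = ℚ̄`, algebraicity of `ℚ̄` over `K0` discharged;
* `oneComp_of_vert_bar`     : `OneComp` from `VertAt` on both charts + `BarDatum` (no `Facts.gen`:
                              usable for a non-Kummer layer);
* `oneComp_of_facts`, `kummer_of_facts` : the end of the chain
                              (`helper648.oneCompSupply`, `helper2759.stmt_KummerGlobal`).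
-/
import Fermat.Agent.S18.helper648_OneCompSupply
import Fermat.Agent.S18.helper2778_KummerUnram
import Fermat.Agent.S24.helper489_Residue

set_option autoImplicit false
set_option linter.style.haveILetI false
set_option linter.unusedSectionVars false
set_option synthInstance.maxHeartbeats 400000

noncomputable section

namespace Fermat.Agent.S48.helper648

open AlgebraicCurve IntermediateField Polynomial
open Fermat.Agent.S18.helper3578

/-! ### Generic field lemmas -/

section Generic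

/-- If `F` is finite over `K(x)` and `E` is finite over `F`, then `E` is finite over `K(x)`
(`x` viewed in `E`). -/
theorem finiteDimensional_adjoin_algebraMap {K F E : Type*} [Field K] [Field F] [Field E]
    [Algebra K F] [Algebra K E] [Algebra F E] [IsScalarTower K F E] (x : F)
    [FiniteDimensional K⟮x⟯ F] [FiniteDimensional F E] :
    FiniteDimensional K⟮algebraMap F E x⟯ E := by
  have h1 : Module.Finite ↥K⟮x⟯ E := Module.Finite.trans F E
  let f : F →ₐ[K] E := IsScalarTower.toAlgHom K F E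
  have hmap : (K⟮x⟯).map f = K⟮algebraMap F E x⟯ := by
    rw [IntermediateField.adjoin_map, Set.image_singleton]
    rfl
  let e₁ : ↥K⟮x⟯ ≃+* ↥K⟮algebraMap F E x⟯ :=
    ((K⟮x⟯).equivMap f).toRingEquiv.trans (IntermediateField.equivOfEq hmap).toRingEquiv
  refine Module.Finite.of_equiv_equiv e₁ (RingEquiv.refl E) ?_
  ext r
  rfl

/-- In a simple algebraic extension `F⟮θ⟯` every element is a polynomial in the generator. -/
theorem exists_aeval_gen_eq {F Ω : Type*} [Field F] [Field Ω] [Algebra F Ω] (θ : Ω)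
    (hθ : IsIntegral F θ) (g : ↥F⟮θ⟯) :
    ∃ p : F[X], aeval (AdjoinSimple.gen F θ) p = g := by
  have hg : (g : Ω) ∈ Algebra.adjoin F {θ} := by
    rw [← IntermediateField.adjoin_simple_toSubalgebra_of_isAlgebraic hθ.isAlgebraic]
    exact g.2
  rw [Algebra.adjoin_singleton_eq_range_aeval] at hg
  obtain ⟨p, hp⟩ := hg
  refine ⟨p, Subtype.ext ?_⟩
  have h := Polynomial.aeval_algHom_apply (F⟮θ⟯.val) (AdjoinSimple.gen F θ) p
  rw [IntermediateField.val_mk, AdjoinSimple.coe_gen] at h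
  exact h.symm.trans hp

/-- `ℚ̄` is algebraic over any field mapping to it. -/
theorem isAlgebraic_Qbar_of_hom {K₀ : Type*} [Field K₀] (κ : K₀ →+* AlgebraicClosure ℚ) :
    letI : Algebra K₀ (AlgebraicClosure ℚ) := κ.toAlgebra
    Algebra.IsAlgebraic K₀ (AlgebraicClosure ℚ) := by
  letI : Algebra K₀ (AlgebraicClosure ℚ) := κ.toAlgebra
  haveI : CharZero K₀ := κ.charZero
  haveI : IsScalarTower ℚ K₀ (AlgebraicClosure ℚ) := IsScalarTower.of_algebraMap_eq (fun q => by
    rw [RingHom.algebraMap_toAlgebra, eq_ratCast, eq_ratCast, map_ratCast])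
  haveI : Algebra.IsAlgebraic ℚ (AlgebraicClosure ℚ) := AlgebraicClosure.isAlgebraic ℚ
  exact Algebra.IsAlgebraic.tower_top (K := ℚ) K₀

end Generic

/-! ### `BarDatum` over an arbitrary function field -/

section Bar

variable {Kb : Type} [Field Kb] [IsAlgClosed Kb] [CharZero Kb]
variable {Fb : Type} [Field Fb] [Algebra Kb Fb]
variable (D : KData)

/-- **`BarDatum` from a ring hom into a finite layer** `E` over a function field `Fb` over `Kb`
(a `Kb`-tower): `κ : K0 → Kb` with `Kb` algebraic over `K0`, `σ : L0 → E` compatible on `K0`,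
`σ tL = f ∈ Fb` transcendental with `Fb` finite over `Kb(f)`, and the zeros of `f - c` on `E`
simple for `c ≠ 0, -c0`. -/
def barDatumOfHomGen (c0 : D.A0) {E : Type} [Field E] [Algebra Fb E] [Algebra Kb E]
    [IsScalarTower Kb Fb E] [FiniteDimensional Fb E]
    (κ : D.K0 →+* Kb)
    (hκ : letI : Algebra D.K0 Kb := κ.toAlgebra
      Algebra.IsAlgebraic D.K0 Kb)
    (σ : D.L0 →+* E)
    (hσκ : ∀ a : D.K0, σ (algebraMap D.K0 D.L0 a) = algebraMap Kb E (κ a))
    (f : Fb) (hf : Transcendental Kb f) [FiniteDimensional Kb⟮f⟯ Fb]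
    (hx : σ D.tL = algebraMap Fb E f)
    (hsimple : ∀ c : Kb, c ≠ 0 → c ≠ -κ (algebraMap D.A0 D.K0 c0) → ∀ w : Place Kb E,
      0 < w.ord (algebraMap Fb E f - algebraMap Kb E c) →
      w.ord (algebraMap Fb E f - algebraMap Kb E c) = 1) :
    S18.helper648.BarDatum D c0 :=
  letI : Algebra D.K0 Kb := κ.toAlgebra
  letI : Algebra D.K0 E := ((algebraMap Kb E).comp κ).toAlgebra
  { Kb := Kb
    Eb := E
    algK0 := κ.toAlgebra
    isAlg := hκ
    algK0E := ((algebraMap Kb E).comp κ).toAlgebra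
    tower := IsScalarTower.of_algebraMap_eq (fun _ => rfl)
    i := { σ with commutes' := fun a => hσκ a }
    transc := by
      show Transcendental Kb (σ D.tL)
      rw [hx]
      exact fun halg => hf ((isAlgebraic_algebraMap_iff (algebraMap Fb E).injective).mp halg)
    finite := by
      show FiniteDimensional Kb⟮σ D.tL⟯ E
      rw [hx]
      exact finiteDimensional_adjoin_algebraMap f
    simple := by
      intro c hc0 hc P hP
      have hP' : 0 < P.ord (σ D.tL - algebraMap Kb E c) := hP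
      show P.ord (σ D.tL - algebraMap Kb E c) = 1
      rw [hx] at hP' ⊢
      exact hsimple c hc0 hc P hP' }

/-- **Trivial layer.**  `σ : L0 → Fb` compatible with `κ : K0 → Kb`; if `σ tL` is transcendental,
`Fb` is finite over `Kb(σ tL)` and the zeros of `σ tL - c` on `Fb` are simple for `c ≠ 0, -c0`,
then `D` has a `BarDatum` (`Eb = Fb`). -/
theorem nonempty_barDatum_base (c0 : D.A0) (κ : D.K0 →+* Kb)
    (hκ : letI : Algebra D.K0 Kb := κ.toAlgebra
      Algebra.IsAlgebraic D.K0 Kb)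
    (σ : D.L0 →+* Fb)
    (hσκ : ∀ a : D.K0, σ (algebraMap D.K0 D.L0 a) = algebraMap Kb Fb (κ a))
    (hf : Transcendental Kb (σ D.tL)) [FiniteDimensional Kb⟮σ D.tL⟯ Fb]
    (hR1 : ∀ c : Kb, c ≠ 0 → c ≠ -κ (algebraMap D.A0 D.K0 c0) → ∀ v : Place Kb Fb,
      0 < v.ord (σ D.tL - algebraMap Kb Fb c) → v.ord (σ D.tL - algebraMap Kb Fb c) = 1) :
    Nonempty (S18.helper648.BarDatum D c0) :=
  ⟨barDatumOfHomGen D c0 (E := Fb) κ hκ σ hσκ (σ D.tL) hf rfl
    (fun c hc0 hc w hw => hR1 c hc0 hc w hw)⟩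

/-- **The embedding of the model into a Kummer layer.**  If `L0 = F0[θ]` and `θ ^ m = U`, any
ring hom `ι : F0 → Fb` extends to `σ : L0 → Fb(θ')`, `θ'` a root of `X ^ m - ι U` in the
algebraic closure of `Fb`. -/
theorem exists_hom_kummer_gen (hgen : Algebra.adjoin D.F0 ({D.θ} : Set D.L0) = ⊤)
    (ι : D.F0 →+* Fb) (m : ℕ) (hm : m ≠ 0) (hθ : D.θ ^ m = algebraMap D.F0 D.L0 D.U) :
    ∃ (θ' : AlgebraicClosure Fb) (σ : D.L0 →+* ↥Fb⟮θ'⟯),
      θ' ^ m = algebraMap Fb (AlgebraicClosure Fb) (ι D.U) ∧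
      ∀ x : D.F0, σ (algebraMap D.F0 D.L0 x) = algebraMap Fb ↥Fb⟮θ'⟯ (ι x) := by
  classical
  letI : Algebra D.F0 (AlgebraicClosure Fb) :=
    ((algebraMap Fb (AlgebraicClosure Fb)).comp ι).toAlgebra
  have hθint : IsIntegral D.F0 D.θ :=
    ⟨X ^ m - C D.U, monic_X_pow_sub_C D.U hm, by simp [hθ]⟩
  haveI : Algebra.IsAlgebraic D.F0 D.L0 := by
    have hle : Algebra.adjoin D.F0 ({D.θ} : Set D.L0) ≤ integralClosure D.F0 D.L0 :=
      Algebra.adjoin_le (Set.singleton_subset_iff.mpr hθint)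
    refine ⟨fun x => IsIntegral.isAlgebraic (hle ?_)⟩
    rw [hgen]
    exact Algebra.mem_top
  let σΩ : D.L0 →ₐ[D.F0] AlgebraicClosure Fb := IsAlgClosed.lift
  have hbase : ∀ a : D.F0, σΩ (algebraMap D.F0 D.L0 a)
      = algebraMap Fb (AlgebraicClosure Fb) (ι a) := fun a => σΩ.commutes a
  have hmem : ∀ x : D.L0, σΩ x ∈ Fb⟮σΩ D.θ⟯ := by
    intro x
    have hx : x ∈ Algebra.adjoin D.F0 ({D.θ} : Set D.L0) := by
      rw [hgen]
      exact Algebra.mem_top
    induction hx using Algebra.adjoin_induction with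
    | mem x hx =>
      rw [Set.mem_singleton_iff.mp hx]
      exact mem_adjoin_simple_self _ _
    | algebraMap a =>
      rw [hbase]
      exact IntermediateField.algebraMap_mem _ (ι a)
    | add x y _ _ hx hy =>
      rw [map_add]
      exact add_mem hx hy
    | mul x y _ _ hx hy =>
      rw [map_mul]
      exact mul_mem hx hy
  refine ⟨σΩ D.θ, (σΩ : D.L0 →+* AlgebraicClosure Fb).codRestrict Fb⟮σΩ D.θ⟯ hmem,
    ?_, ?_⟩
  · rw [← map_pow, hθ, hbase]
  · intro x
    apply Subtype.ext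
    exact hbase x

omit [CharZero Kb] in
theorem algebraMap_sub_const {E : Type*} [Field E] [Algebra Fb E] [Algebra Kb E]
    [IsScalarTower Kb Fb E] (f : Fb) (c : Kb) :
    algebraMap Fb E f - algebraMap Kb E c = algebraMap Fb E (f - algebraMap Kb Fb c) := by
  rw [map_sub, ← IsScalarTower.algebraMap_apply]

/-- **Orders do not change on a Kummer layer** `E = Fb[θ]`, `θ ^ m = U`, `m ∣ div U`
(`x` any transcendental element with `Fb` finite over `Kb(x)`; it only serves to identify the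
residue fields of the places of `Fb` with `Kb`). -/
theorem ord_algebraMap_eq_kummer_gen {E : Type*} [Field E] [Algebra Fb E] [Algebra Kb E]
    [IsScalarTower Kb Fb E] [Algebra.IsIntegral Fb E]
    (x : Fb) (hx : Transcendental Kb x) [FiniteDimensional Kb⟮x⟯ Fb]
    (m : ℕ) (hm : m ≠ 0) (U : Fb) (hU : U ≠ 0) (θ : E)
    (hθ : θ ^ m = algebraMap Fb E U) (hgen : ∀ g : E, ∃ p : Fb[X], aeval θ p = g)
    (hdiv : ∀ P : Place Kb Fb, (m : ℤ) ∣ P.ord U) (w : Place Kb E) (f : Fb) :
    w.ord (algebraMap Fb E f) = (w.restrict Fb).ord f :=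
  S18.helper2778.ord_algebraMap_eq_of_kummer m (Nat.cast_ne_zero.mpr hm) U hU θ hθ hgen w
    (Fermat.Agent.S24.helper489.stmt_ResidueK Kb Fb x hx _) (hdiv _) f

/-- **(X-bar), Kummer top over an arbitrary function field.**  `L0 = F0[θ]`, `θ ^ m = U`,
`ι : F0 → Fb` with `m ∣ div (ι U)`, `κ : K0 → Kb` compatible with `ι`; if `ι t` is
transcendental, `Fb` is finite over `Kb(ι t)` and the zeros of `ι t - c` on `Fb` are simple
for `c ≠ 0, -c0`, then `D` has a `BarDatum` (`Eb = Fb(θ')`). -/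
theorem nonempty_barDatum_kummer (c0 : D.A0)
    (hgen : Algebra.adjoin D.F0 ({D.θ} : Set D.L0) = ⊤)
    (ι : D.F0 →+* Fb) (κ : D.K0 →+* Kb)
    (hκ : letI : Algebra D.K0 Kb := κ.toAlgebra
      Algebra.IsAlgebraic D.K0 Kb)
    (hικ : ∀ c : D.K0, ι (algebraMap D.K0 D.F0 c) = algebraMap Kb Fb (κ c))
    (m : ℕ) (hm : m ≠ 0) (hθ : D.θ ^ m = algebraMap D.F0 D.L0 D.U) (hU : ι D.U ≠ 0)
    (hdiv : ∀ P : Place Kb Fb, (m : ℤ) ∣ P.ord (ι D.U))
    (hf : Transcendental Kb (ι D.t)) [FiniteDimensional Kb⟮ι D.t⟯ Fb]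
    (hR1 : ∀ c : Kb, c ≠ 0 → c ≠ -κ (algebraMap D.A0 D.K0 c0) → ∀ v : Place Kb Fb,
      0 < v.ord (ι D.t - algebraMap Kb Fb c) → v.ord (ι D.t - algebraMap Kb Fb c) = 1) :
    Nonempty (S18.helper648.BarDatum D c0) := by
  obtain ⟨θ', σ, hθ', hσ⟩ := exists_hom_kummer_gen D hgen ι m hm hθ
  have hint : IsIntegral Fb θ' :=
    ⟨X ^ m - C (ι D.U), monic_X_pow_sub_C _ hm, by simp [hθ']⟩
  haveI : FiniteDimensional Fb ↥Fb⟮θ'⟯ := IntermediateField.adjoin.finiteDimensional hint
  have hθE : (AdjoinSimple.gen Fb θ') ^ m = algebraMap Fb ↥Fb⟮θ'⟯ (ι D.U) := by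
    apply Subtype.ext
    simp [hθ']
  refine ⟨barDatumOfHomGen D c0 κ hκ σ ?_ (ι D.t) hf (hσ D.t) ?_⟩
  · intro a
    rw [IsScalarTower.algebraMap_apply D.K0 D.F0 D.L0, hσ, hικ,
      ← IsScalarTower.algebraMap_apply]
  · intro c hc0 hc w hw
    rw [algebraMap_sub_const,
      ord_algebraMap_eq_kummer_gen (ι D.t) hf m hm (ι D.U) hU (AdjoinSimple.gen Fb θ') hθE
        (exists_aeval_gen_eq θ' hint) hdiv] at hw ⊢
    exact hR1 c hc0 hc _ hw

end Bar

/-! ### The case `Kb = ℚ̄` (algebraicity over `K0` is automatic) -/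

section Qbar

variable {Fb : Type} [Field Fb] [Algebra (AlgebraicClosure ℚ) Fb]
variable (D : KData)

/-- Trivial layer over `ℚ̄`. -/
theorem nonempty_barDatum_base_Qbar (c0 : D.A0) (κ : D.K0 →+* AlgebraicClosure ℚ)
    (σ : D.L0 →+* Fb)
    (hσκ : ∀ a : D.K0, σ (algebraMap D.K0 D.L0 a) = algebraMap (AlgebraicClosure ℚ) Fb (κ a))
    (hf : Transcendental (AlgebraicClosure ℚ) (σ D.tL))
    [FiniteDimensional (AlgebraicClosure ℚ)⟮σ D.tL⟯ Fb]
    (hR1 : ∀ c : AlgebraicClosure ℚ, c ≠ 0 → c ≠ -κ (algebraMap D.A0 D.K0 c0) →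
      ∀ v : Place (AlgebraicClosure ℚ) Fb,
      0 < v.ord (σ D.tL - algebraMap (AlgebraicClosure ℚ) Fb c) →
      v.ord (σ D.tL - algebraMap (AlgebraicClosure ℚ) Fb c) = 1) :
    Nonempty (S18.helper648.BarDatum D c0) :=
  nonempty_barDatum_base D c0 κ (isAlgebraic_Qbar_of_hom κ) σ hσκ hf hR1

/-- Kummer top over `ℚ̄`. -/
theorem nonempty_barDatum_kummer_Qbar (c0 : D.A0)
    (hgen : Algebra.adjoin D.F0 ({D.θ} : Set D.L0) = ⊤)
    (ι : D.F0 →+* Fb) (κ : D.K0 →+* AlgebraicClosure ℚ)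
    (hικ : ∀ c : D.K0, ι (algebraMap D.K0 D.F0 c) = algebraMap (AlgebraicClosure ℚ) Fb (κ c))
    (m : ℕ) (hm : m ≠ 0) (hθ : D.θ ^ m = algebraMap D.F0 D.L0 D.U) (hU : ι D.U ≠ 0)
    (hdiv : ∀ P : Place (AlgebraicClosure ℚ) Fb, (m : ℤ) ∣ P.ord (ι D.U))
    (hf : Transcendental (AlgebraicClosure ℚ) (ι D.t))
    [FiniteDimensional (AlgebraicClosure ℚ)⟮ι D.t⟯ Fb]
    (hR1 : ∀ c : AlgebraicClosure ℚ, c ≠ 0 → c ≠ -κ (algebraMap D.A0 D.K0 c0) →
      ∀ v : Place (AlgebraicClosure ℚ) Fb,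
      0 < v.ord (ι D.t - algebraMap (AlgebraicClosure ℚ) Fb c) →
      v.ord (ι D.t - algebraMap (AlgebraicClosure ℚ) Fb c) = 1) :
    Nonempty (S18.helper648.BarDatum D c0) :=
  nonempty_barDatum_kummer D c0 hgen ι κ (isAlgebraic_Qbar_of_hom κ) hικ m hm hθ hU hdiv hf hR1

end Qbar

/-! ### The end of the chain -/

section End

variable (D : KData)

theorem ne_zero_of_good {m : ℕ} (hD : D.Good m) : m ≠ 0 := by
  rintro rfl
  have h := hD.unit_m
  rw [Nat.cast_zero] at h
  exact not_isUnit_zero h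

/-- **`OneComp` from VERT on both charts and `BarDatum`** (no hypothesis `L0 = F0[θ]`: usable
for a layer which is not a Kummer layer, e.g. `m = 1`, `θ = U = h = 1`, `L0` any finite
extension of `F0` whose vertical discriminants are primitive). -/
theorem oneComp_of_vert_bar (m : ℕ) (c0 : D.A0) (hD : D.Good m) (hc0 : ¬ D.ϖ ∣ c0)
    (hV0 : D.VertAt D.tL) (hV1 : D.VertAt D.tL⁻¹) (bar : S18.helper648.BarDatum D c0) :
    D.OneComp :=
  ⟨S18.helper403.stmt_DNChart D m hD D.tL (Or.inl rfl) _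
      (S18.helper648.squarefree_branch₀ D hD c0 hc0) hV0 (S18.helper648.horizAt_of_bar D c0 bar),
    S18.helper403.stmt_DNChart D m hD D.tL⁻¹ (Or.inr rfl) _
      (S18.helper648.squarefree_branch₁ D hD c0) hV1
      (S18.helper648.horizAt_inv_of_bar D c0 bar)⟩

/-- `OneComp` from `Facts` (= `helper648.oneCompSupply`). -/
theorem oneComp_of_facts (m : ℕ) (c0 : D.A0) (hD : D.Good m) (hc0 : ¬ D.ϖ ∣ c0)
    (F : S18.helper648.Facts D c0) : D.OneComp :=
  S18.helper648.oneCompSupply D m c0 hD hc0 F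

/-- **The Kummer conclusion from `Facts`**: in a good model with the extra facts, the Gauss
unit `U` is an `m`-th power in `F0`. -/
theorem kummer_of_facts (m : ℕ) (c0 : D.A0) (hD : D.Good m) (hc0 : ¬ D.ϖ ∣ c0)
    (F : S18.helper648.Facts D c0) : ∃ V : D.F0, V ^ m = D.U :=
  S18.helper2759.stmt_KummerGlobal D m hD (oneComp_of_facts D m c0 hD hc0 F)

/-- The Kummer conclusion from VERT on both charts and `BarDatum`. -/
theorem kummer_of_vert_bar (m : ℕ) (c0 : D.A0) (hD : D.Good m) (hc0 : ¬ D.ϖ ∣ c0)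
    (hV0 : D.VertAt D.tL) (hV1 : D.VertAt D.tL⁻¹) (bar : S18.helper648.BarDatum D c0) :
    ∃ V : D.F0, V ^ m = D.U :=
  S18.helper2759.stmt_KummerGlobal D m hD (oneComp_of_vert_bar D m c0 hD hc0 hV0 hV1 bar)

end End

end Fermat.Agent.S48.helper648
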