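/-
S48, block M1 / B-TOWER (T4): the FIELD-GENERIC `helper648.BarDatum` on the three base lines
(helper648).

`Fb` an arbitrary function field over an algebraically closed field `Kb` of characteristic zero,
`jF : Fb` transcendental with `Fb` finite over `Kb(jF)` and the ramification data of `Fb` over
the `j`-line

* `R1`: a zero of `jF - c` with `c ≠ 0, 1728` is simple,
* `R2`: the order of a zero of `jF` divides `3`,
* `R3`: the order of a zero of `jF - 1728` divides `2`.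

For a model `D : helper3578.KData` whose coordinate `ι D.t` is

* `jF` itself                                   (`c0 = -1728`, residue characteristic `≥ 5`),
* `τ` with `jF * τ ^ 2 = (τ + 256) ^ 3`           (`c0 = 64`,   residue characteristic `3`),
* `τ` with `jF * τ ^ 3 = (τ + 27) (τ + 243) ^ 3`  (`c0 = 27`,   residue characteristic `2`),

the Kummer top (`nonempty_barDatum_kummer_jline / _two / _three`) and the trivial layer
(`nonempty_barDatum_base_jline / _two / _three`) have a `BarDatum`.  Branch arithmetic on the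
Hauptmodul lines: the landed generic `S18/helper2866_Branch`.
-/
import Fermat.Agent.S48.helper648_BarGen
import Fermat.Agent.S18.helper2866_Branch

set_option autoImplicit false
set_option linter.style.haveILetI false
set_option linter.unusedSectionVars false
set_option synthInstance.maxHeartbeats 400000

noncomputable section

namespace Fermat.Agent.S48.helper648

open AlgebraicCurve IntermediateField Polynomial
open Fermat.Agent.S18.helper3578

/-! ### Generic field lemmas (line change) -/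

section GenericLine

variable {K F : Type*} [Field K] [Field F] [Algebra K F]

/-- If `j * t ^ r = P(t)` and `t ≠ 0`, then `j ∈ K(t)`. -/
theorem mem_adjoin_of_rel (j t : F) (P : K[X]) (r : ℕ) (ht0 : t ≠ 0)
    (hrel : j * t ^ r = aeval t P) : j ∈ K⟮t⟯ := by
  have htmem : t ∈ K⟮t⟯ := mem_adjoin_simple_self K t
  have e : j = aeval t P * (t ^ r)⁻¹ := by
    rw [← hrel, mul_assoc, mul_inv_cancel₀ (pow_ne_zero r ht0), mul_one]
  rw [e]
  refine mul_mem ?_ (inv_mem (pow_mem htmem r))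
  exact algebra_adjoin_le_adjoin K _ (aeval_mem_adjoin_singleton _ t)

/-- If `j` is transcendental over `K` and `j ∈ K(t)`, then `t` is transcendental over `K`. -/
theorem transcendental_of_mem_adjoin (j t : F) (hj : Transcendental K j) (hmem : j ∈ K⟮t⟯) :
    Transcendental K t := by
  intro halg
  apply hj
  haveI : Algebra.IsAlgebraic K K⟮t⟯ := isAlgebraic_adjoin_simple halg.isIntegral
  exact (IntermediateField.isAlgebraic_iff (S := K⟮t⟯) (x := ⟨j, hmem⟩)).mp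
    (Algebra.IsAlgebraic.isAlgebraic _)

/-- If `F` is finite over `K(j)` and `j ∈ K(t)`, then `F` is finite over `K(t)`. -/
theorem finiteDimensional_of_mem_adjoin (j t : F) [FiniteDimensional K⟮j⟯ F]
    (hmem : j ∈ K⟮t⟯) : FiniteDimensional K⟮t⟯ F := by
  have hle : K⟮j⟯ ≤ K⟮t⟯ := adjoin_le_iff.mpr (Set.singleton_subset_iff.mpr hmem)
  let _ : Algebra ↥K⟮j⟯ ↥K⟮t⟯ := (IntermediateField.inclusion hle).toRingHom.toAlgebra
  have : IsScalarTower ↥K⟮j⟯ ↥K⟮t⟯ F := IsScalarTower.of_algebraMap_eq (fun x => rfl)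
  exact Module.Finite.of_restrictScalars_finite ↥K⟮j⟯ ↥K⟮t⟯ F

/-- Level two: `j * t ^ 2 = (t + 256) ^ 3` puts `j` in `K(t)`. -/
theorem mem_adjoin_of_rel_two [CharZero F] (j t : F) (ht : j * t ^ 2 = (t + 256) ^ 3) :
    j ∈ K⟮t⟯ := by
  have ht0 : t ≠ 0 := by
    rintro rfl
    norm_num at ht
  exact mem_adjoin_of_rel j t ((X + C 256) ^ 3) 2 ht0
    (by rw [ht, map_pow, map_add, aeval_X, aeval_C, map_ofNat])

/-- Level three: `j * t ^ 3 = (t + 27) (t + 243) ^ 3` puts `j` in `K(t)`. -/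
theorem mem_adjoin_of_rel_three [CharZero F] (j t : F)
    (ht : j * t ^ 3 = (t + 27) * (t + 243) ^ 3) : j ∈ K⟮t⟯ := by
  have ht0 : t ≠ 0 := by
    rintro rfl
    norm_num at ht
  exact mem_adjoin_of_rel j t ((X + C 27) * (X + C 243) ^ 3) 3 ht0
    (by rw [ht, map_mul, map_pow, map_add, map_add, aeval_X, aeval_C, aeval_C, map_ofNat,
      map_ofNat])

end GenericLine

/-! ### The three lines -/

section Lines

variable {Kb : Type} [Field Kb] [IsAlgClosed Kb] [CharZero Kb]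
variable {Fb : Type} [Field Fb] [Algebra Kb Fb]
variable (D : KData)

/-- The branch hypothesis of `nonempty_barDatum_kummer` / `nonempty_barDatum_base` on the
`j`-line (`c0 = -1728`) is `R1`. -/
theorem simple_jline (κ : D.K0 →+* Kb) (x : Fb)
    (R1 : ∀ (v : Place Kb Fb) (c : Kb), c ≠ 0 → c ≠ 1728 →
      0 < v.ord (x - algebraMap Kb Fb c) → v.ord (x - algebraMap Kb Fb c) = 1) :
    ∀ c : Kb, c ≠ 0 → c ≠ -κ (algebraMap D.A0 D.K0 (-1728)) → ∀ v : Place Kb Fb,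
      0 < v.ord (x - algebraMap Kb Fb c) → v.ord (x - algebraMap Kb Fb c) = 1 := by
  intro c hc0 hc v hv
  refine R1 v c hc0 ?_ hv
  rwa [map_neg, map_neg, neg_neg, map_ofNat, map_ofNat] at hc

/-- The branch hypothesis on the Hauptmodul line of level two (`c0 = 64`) from `R1`-`R3`. -/
theorem simple_line_two (κ : D.K0 →+* Kb) (jF x : Fb) (hrel : jF * x ^ 2 = (x + 256) ^ 3)
    (R1 : ∀ (v : Place Kb Fb) (c : Kb), c ≠ 0 → c ≠ 1728 →
      0 < v.ord (jF - algebraMap Kb Fb c) → v.ord (jF - algebraMap Kb Fb c) = 1)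
    (R2 : ∀ v : Place Kb Fb, 0 < v.ord jF → v.ord jF ∣ 3)
    (R3 : ∀ v : Place Kb Fb, 0 < v.ord (jF - algebraMap Kb Fb 1728) →
      v.ord (jF - algebraMap Kb Fb 1728) ∣ 2) :
    ∀ c : Kb, c ≠ 0 → c ≠ -κ (algebraMap D.A0 D.K0 64) → ∀ v : Place Kb Fb,
      0 < v.ord (x - algebraMap Kb Fb c) → v.ord (x - algebraMap Kb Fb c) = 1 := by
  intro c hc0 hc v hv
  refine S18.helper2866.level2_ord_sub_eq_one hrel R1 R2 R3 v c hc0 ?_ hv
  rwa [map_ofNat, map_ofNat] at hc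

/-- The branch hypothesis on the Hauptmodul line of level three (`c0 = 27`) from `R1`-`R3`. -/
theorem simple_line_three (κ : D.K0 →+* Kb) (jF x : Fb)
    (hrel : jF * x ^ 3 = (x + 27) * (x + 243) ^ 3)
    (R1 : ∀ (v : Place Kb Fb) (c : Kb), c ≠ 0 → c ≠ 1728 →
      0 < v.ord (jF - algebraMap Kb Fb c) → v.ord (jF - algebraMap Kb Fb c) = 1)
    (R2 : ∀ v : Place Kb Fb, 0 < v.ord jF → v.ord jF ∣ 3)
    (R3 : ∀ v : Place Kb Fb, 0 < v.ord (jF - algebraMap Kb Fb 1728) →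
      v.ord (jF - algebraMap Kb Fb 1728) ∣ 2) :
    ∀ c : Kb, c ≠ 0 → c ≠ -κ (algebraMap D.A0 D.K0 27) → ∀ v : Place Kb Fb,
      0 < v.ord (x - algebraMap Kb Fb c) → v.ord (x - algebraMap Kb Fb c) = 1 := by
  intro c hc0 hc v hv
  refine S18.helper2866.level3_ord_sub_eq_one hrel R1 R2 R3 v c hc0 ?_ hv
  rwa [map_ofNat, map_ofNat] at hc

/-! #### Kummer top -/

/-- **Kummer top on the `j`-line** (`c0 = -1728`): `ι D.t = jF`. -/
theorem nonempty_barDatum_kummer_jline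
    (hgen : Algebra.adjoin D.F0 ({D.θ} : Set D.L0) = ⊤)
    (ι : D.F0 →+* Fb) (κ : D.K0 →+* Kb)
    (hκ : letI : Algebra D.K0 Kb := κ.toAlgebra
      Algebra.IsAlgebraic D.K0 Kb)
    (hικ : ∀ c : D.K0, ι (algebraMap D.K0 D.F0 c) = algebraMap Kb Fb (κ c))
    (m : ℕ) (hm : m ≠ 0) (hθ : D.θ ^ m = algebraMap D.F0 D.L0 D.U) (hU : ι D.U ≠ 0)
    (hdiv : ∀ P : Place Kb Fb, (m : ℤ) ∣ P.ord (ι D.U))
    (hf : Transcendental Kb (ι D.t)) [FiniteDimensional Kb⟮ι D.t⟯ Fb]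
    (R1 : ∀ (v : Place Kb Fb) (c : Kb), c ≠ 0 → c ≠ 1728 →
      0 < v.ord (ι D.t - algebraMap Kb Fb c) → v.ord (ι D.t - algebraMap Kb Fb c) = 1) :
    Nonempty (S18.helper648.BarDatum D (-1728)) :=
  nonempty_barDatum_kummer D (-1728) hgen ι κ hκ hικ m hm hθ hU hdiv hf
    (simple_jline D κ (ι D.t) R1)

/-- **Kummer top on the Hauptmodul line of level two** (`c0 = 64`):
`jF * (ι D.t) ^ 2 = (ι D.t + 256) ^ 3`. -/
theorem nonempty_barDatum_kummer_two
    (hgen : Algebra.adjoin D.F0 ({D.θ} : Set D.L0) = ⊤)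
    (ι : D.F0 →+* Fb) (κ : D.K0 →+* Kb)
    (hκ : letI : Algebra D.K0 Kb := κ.toAlgebra
      Algebra.IsAlgebraic D.K0 Kb)
    (hικ : ∀ c : D.K0, ι (algebraMap D.K0 D.F0 c) = algebraMap Kb Fb (κ c))
    (m : ℕ) (hm : m ≠ 0) (hθ : D.θ ^ m = algebraMap D.F0 D.L0 D.U) (hU : ι D.U ≠ 0)
    (hdiv : ∀ P : Place Kb Fb, (m : ℤ) ∣ P.ord (ι D.U))
    (jF : Fb) (hj : Transcendental Kb jF) [FiniteDimensional Kb⟮jF⟯ Fb]
    (hrel : jF * ι D.t ^ 2 = (ι D.t + 256) ^ 3)
    (R1 : ∀ (v : Place Kb Fb) (c : Kb), c ≠ 0 → c ≠ 1728 →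
      0 < v.ord (jF - algebraMap Kb Fb c) → v.ord (jF - algebraMap Kb Fb c) = 1)
    (R2 : ∀ v : Place Kb Fb, 0 < v.ord jF → v.ord jF ∣ 3)
    (R3 : ∀ v : Place Kb Fb, 0 < v.ord (jF - algebraMap Kb Fb 1728) →
      v.ord (jF - algebraMap Kb Fb 1728) ∣ 2) :
    Nonempty (S18.helper648.BarDatum D 64) := by
  haveI : CharZero Fb := charZero_of_injective_algebraMap (algebraMap Kb Fb).injective
  have hmem : jF ∈ Kb⟮ι D.t⟯ := mem_adjoin_of_rel_two jF (ι D.t) hrel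
  have hf : Transcendental Kb (ι D.t) := transcendental_of_mem_adjoin jF (ι D.t) hj hmem
  haveI : FiniteDimensional Kb⟮ι D.t⟯ Fb := finiteDimensional_of_mem_adjoin jF (ι D.t) hmem
  exact nonempty_barDatum_kummer D 64 hgen ι κ hκ hικ m hm hθ hU hdiv hf
    (simple_line_two D κ jF (ι D.t) hrel R1 R2 R3)

/-- **Kummer top on the Hauptmodul line of level three** (`c0 = 27`):
`jF * (ι D.t) ^ 3 = (ι D.t + 27) (ι D.t + 243) ^ 3`. -/
theorem nonempty_barDatum_kummer_three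
    (hgen : Algebra.adjoin D.F0 ({D.θ} : Set D.L0) = ⊤)
    (ι : D.F0 →+* Fb) (κ : D.K0 →+* Kb)
    (hκ : letI : Algebra D.K0 Kb := κ.toAlgebra
      Algebra.IsAlgebraic D.K0 Kb)
    (hικ : ∀ c : D.K0, ι (algebraMap D.K0 D.F0 c) = algebraMap Kb Fb (κ c))
    (m : ℕ) (hm : m ≠ 0) (hθ : D.θ ^ m = algebraMap D.F0 D.L0 D.U) (hU : ι D.U ≠ 0)
    (hdiv : ∀ P : Place Kb Fb, (m : ℤ) ∣ P.ord (ι D.U))
    (jF : Fb) (hj : Transcendental Kb jF) [FiniteDimensional Kb⟮jF⟯ Fb]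
    (hrel : jF * ι D.t ^ 3 = (ι D.t + 27) * (ι D.t + 243) ^ 3)
    (R1 : ∀ (v : Place Kb Fb) (c : Kb), c ≠ 0 → c ≠ 1728 →
      0 < v.ord (jF - algebraMap Kb Fb c) → v.ord (jF - algebraMap Kb Fb c) = 1)
    (R2 : ∀ v : Place Kb Fb, 0 < v.ord jF → v.ord jF ∣ 3)
    (R3 : ∀ v : Place Kb Fb, 0 < v.ord (jF - algebraMap Kb Fb 1728) →
      v.ord (jF - algebraMap Kb Fb 1728) ∣ 2) :
    Nonempty (S18.helper648.BarDatum D 27) := by
  haveI : CharZero Fb := charZero_of_injective_algebraMap (algebraMap Kb Fb).injective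
  have hmem : jF ∈ Kb⟮ι D.t⟯ := mem_adjoin_of_rel_three jF (ι D.t) hrel
  have hf : Transcendental Kb (ι D.t) := transcendental_of_mem_adjoin jF (ι D.t) hj hmem
  haveI : FiniteDimensional Kb⟮ι D.t⟯ Fb := finiteDimensional_of_mem_adjoin jF (ι D.t) hmem
  exact nonempty_barDatum_kummer D 27 hgen ι κ hκ hικ m hm hθ hU hdiv hf
    (simple_line_three D κ jF (ι D.t) hrel R1 R2 R3)

/-! #### Trivial layer -/

/-- **Trivial layer on the `j`-line** (`c0 = -1728`). -/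
theorem nonempty_barDatum_base_jline (κ : D.K0 →+* Kb)
    (hκ : letI : Algebra D.K0 Kb := κ.toAlgebra
      Algebra.IsAlgebraic D.K0 Kb)
    (σ : D.L0 →+* Fb)
    (hσκ : ∀ a : D.K0, σ (algebraMap D.K0 D.L0 a) = algebraMap Kb Fb (κ a))
    (hf : Transcendental Kb (σ D.tL)) [FiniteDimensional Kb⟮σ D.tL⟯ Fb]
    (R1 : ∀ (v : Place Kb Fb) (c : Kb), c ≠ 0 → c ≠ 1728 →
      0 < v.ord (σ D.tL - algebraMap Kb Fb c) → v.ord (σ D.tL - algebraMap Kb Fb c) = 1) :
    Nonempty (S18.helper648.BarDatum D (-1728)) :=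
  nonempty_barDatum_base D (-1728) κ hκ σ hσκ hf (simple_jline D κ (σ D.tL) R1)

/-- **Trivial layer on the Hauptmodul line of level two** (`c0 = 64`). -/
theorem nonempty_barDatum_base_two (κ : D.K0 →+* Kb)
    (hκ : letI : Algebra D.K0 Kb := κ.toAlgebra
      Algebra.IsAlgebraic D.K0 Kb)
    (σ : D.L0 →+* Fb)
    (hσκ : ∀ a : D.K0, σ (algebraMap D.K0 D.L0 a) = algebraMap Kb Fb (κ a))
    (jF : Fb) (hj : Transcendental Kb jF) [FiniteDimensional Kb⟮jF⟯ Fb]
    (hrel : jF * σ D.tL ^ 2 = (σ D.tL + 256) ^ 3)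
    (R1 : ∀ (v : Place Kb Fb) (c : Kb), c ≠ 0 → c ≠ 1728 →
      0 < v.ord (jF - algebraMap Kb Fb c) → v.ord (jF - algebraMap Kb Fb c) = 1)
    (R2 : ∀ v : Place Kb Fb, 0 < v.ord jF → v.ord jF ∣ 3)
    (R3 : ∀ v : Place Kb Fb, 0 < v.ord (jF - algebraMap Kb Fb 1728) →
      v.ord (jF - algebraMap Kb Fb 1728) ∣ 2) :
    Nonempty (S18.helper648.BarDatum D 64) := by
  haveI : CharZero Fb := charZero_of_injective_algebraMap (algebraMap Kb Fb).injective
  have hmem : jF ∈ Kb⟮σ D.tL⟯ := mem_adjoin_of_rel_two jF (σ D.tL) hrel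
  have hf : Transcendental Kb (σ D.tL) := transcendental_of_mem_adjoin jF (σ D.tL) hj hmem
  haveI : FiniteDimensional Kb⟮σ D.tL⟯ Fb := finiteDimensional_of_mem_adjoin jF (σ D.tL) hmem
  exact nonempty_barDatum_base D 64 κ hκ σ hσκ hf
    (simple_line_two D κ jF (σ D.tL) hrel R1 R2 R3)

/-- **Trivial layer on the Hauptmodul line of level three** (`c0 = 27`). -/
theorem nonempty_barDatum_base_three (κ : D.K0 →+* Kb)
    (hκ : letI : Algebra D.K0 Kb := κ.toAlgebra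
      Algebra.IsAlgebraic D.K0 Kb)
    (σ : D.L0 →+* Fb)
    (hσκ : ∀ a : D.K0, σ (algebraMap D.K0 D.L0 a) = algebraMap Kb Fb (κ a))
    (jF : Fb) (hj : Transcendental Kb jF) [FiniteDimensional Kb⟮jF⟯ Fb]
    (hrel : jF * σ D.tL ^ 3 = (σ D.tL + 27) * (σ D.tL + 243) ^ 3)
    (R1 : ∀ (v : Place Kb Fb) (c : Kb), c ≠ 0 → c ≠ 1728 →
      0 < v.ord (jF - algebraMap Kb Fb c) → v.ord (jF - algebraMap Kb Fb c) = 1)
    (R2 : ∀ v : Place Kb Fb, 0 < v.ord jF → v.ord jF ∣ 3)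
    (R3 : ∀ v : Place Kb Fb, 0 < v.ord (jF - algebraMap Kb Fb 1728) →
      v.ord (jF - algebraMap Kb Fb 1728) ∣ 2) :
    Nonempty (S18.helper648.BarDatum D 27) := by
  haveI : CharZero Fb := charZero_of_injective_algebraMap (algebraMap Kb Fb).injective
  have hmem : jF ∈ Kb⟮σ D.tL⟯ := mem_adjoin_of_rel_three jF (σ D.tL) hrel
  have hf : Transcendental Kb (σ D.tL) := transcendental_of_mem_adjoin jF (σ D.tL) hj hmem
  haveI : FiniteDimensional Kb⟮σ D.tL⟯ Fb := finiteDimensional_of_mem_adjoin jF (σ D.tL) hmem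
  exact nonempty_barDatum_base D 27 κ hκ σ hσκ hf
    (simple_line_three D κ jF (σ D.tL) hrel R1 R2 R3)

end Lines


end Fermat.Agent.S48.helper648
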