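/-
S48, machine half, B-TOWER (helper648): CHANGE OF THE BASE LINE in the tower step.

`helper6839.tower_kummer_res` / `tower_gauss_res` want every base hypothesis (Gauss data,
transcendence, finiteness, residue data) on the line `t` with `algebraMap F D.F0 t = D.t`, and a
constant `c0` prime to `ϖ`.  On the `j`-line `c0 = -1728`, so residue characteristics `2` and `3`
need the Hauptmodul lines of level `2` resp. `3` (`c0 = 64` resp. `27`).  The concrete base data
of the `Γ₀`-model live on the `j`-line; this file transports them: if `j * τ ^ r = P(τ)` with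
`P ∈ A0[X]` monic of degree `> r` and `P(0)` prime to `ϖ` (or `r = 0`), the base data of the
`j`-line give the base data of the `τ`-line (same `red`, residue subfield `κ(red τ)`), and the
two tower theorems hold with `D.t = τ`.

* `finrank_lineChange`, `base_lineChange` : the base data, generic in `(A0, K0, F)`;
* `tower_kummer_line`, `tower_kummer_two`, `tower_kummer_three`;
* `tower_gauss_line`, `tower_gauss_two`, `tower_gauss_three`.
-/
import Fermat.Agent.S48.helper6839_TowerFinal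
import Fermat.Agent.S48.helper648_BarGenLines

set_option autoImplicit false
set_option synthInstance.maxHeartbeats 400000
set_option linter.style.haveILetI false
set_option linter.unusedSectionVars false

noncomputable section

namespace Fermat.Agent.S48.helper648

open Polynomial
open Fermat.Agent.S18.helper3578

/-! ### The base data on the new line -/

section Base

variable {A0 K0 F : Type*} [CommRing A0] [IsDomain A0] [Field K0] [Algebra A0 K0]
  [IsFractionRing A0 K0] [Field F] [Algebra K0 F] [Algebra A0 F] [IsScalarTower A0 K0 F]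
  {ϖ : A0} {O : ValuationSubring F}

/-- In the situation of the line change, `τ ^ r ≠ 0`. -/
theorem pow_ne_zero_of_rel {j τ : F} (hG : GaussData ϖ j O) (hτ : τ ∈ O) (P : A0[X]) (r : ℕ)
    (hP0 : r = 0 ∨ ¬ ϖ ∣ P.coeff 0) (hrel : j * τ ^ r = aeval τ P) : τ ^ r ≠ 0 := by
  intro h0
  apply S18.helper648.pow_notMem_nonunits hG hτ P r hP0 hrel
  rw [h0]
  exact (_root_.ValuationSubring.mem_nonunits_iff_or (A := O)).mpr (Or.inl rfl)

/-- In the situation of the line change, `j ∈ K0(τ)`. -/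
theorem mem_adjoin_of_lineRel {j τ : F} (hG : GaussData ϖ j O) (hτ : τ ∈ O) (P : A0[X]) (r : ℕ)
    (hP0 : r = 0 ∨ ¬ ϖ ∣ P.coeff 0) (hrel : j * τ ^ r = aeval τ P) :
    j ∈ IntermediateField.adjoin K0 ({τ} : Set F) := by
  have hτr := pow_ne_zero_of_rel hG hτ P r hP0 hrel
  have hτmem : τ ∈ IntermediateField.adjoin K0 ({τ} : Set F) :=
    IntermediateField.mem_adjoin_simple_self K0 τ
  have hrel' : j * τ ^ r = aeval τ (P.map (algebraMap A0 K0)) := by
    rw [aeval_map_algebraMap]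
    exact hrel
  have e : j = aeval τ (P.map (algebraMap A0 K0)) * (τ ^ r)⁻¹ := by
    rw [← hrel', mul_assoc, mul_inv_cancel₀ hτr, mul_one]
  rw [e]
  refine mul_mem ?_ (inv_mem (pow_mem hτmem r))
  exact IntermediateField.algebra_adjoin_le_adjoin K0 _ (aeval_mem_adjoin_singleton _ τ)

/-- **Residue degree on the new line.**  If `j * τ ^ r = P(τ)` (`P` monic of degree `> r`,
`P(0)` prime to `ϖ` or `r = 0`) and the residue data of the `j`-line have
`[F : K0(j)] ≤ [Fκ : κ]`, then `[F : K0(τ)] ≤ [Fκ : κ(red τ)]`. -/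
theorem finrank_lineChange {j τ : F} (hG : GaussData ϖ j O) (hτ : τ ∈ O)
    (hτtr : Transcendental K0 τ) (P : A0[X]) (hP : P.Monic) (r : ℕ) (hr : r < P.natDegree)
    (hP0 : r = 0 ∨ ¬ ϖ ∣ P.coeff 0) (hrel : j * τ ^ r = aeval τ P)
    {κ Fκ : Type*} [Field κ] [Field Fκ] [Algebra κ Fκ] (red : ↥O →+* Fκ)
    (hRA : ∀ a : A0, red ⟨algebraMap A0 F a, hG.le a⟩ ∈ Set.range (algebraMap κ Fκ))
    (hRj : red ⟨j, hG.t_mem⟩ ∈ Set.range (algebraMap κ Fκ))
    (hR3 : Module.finrank ↥(IntermediateField.adjoin K0 ({j} : Set F)) F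
      ≤ Module.finrank κ Fκ) :
    Module.finrank ↥(IntermediateField.adjoin K0 ({τ} : Set F)) F
      ≤ Module.finrank ↥(IntermediateField.adjoin κ ({red ⟨τ, hτ⟩} : Set Fκ)) Fκ := by
  classical
  have hle := hG.le
  have ht := hG.t_mem
  set τb : Fκ := red ⟨τ, hτ⟩ with hτb
  have hn : 0 < P.natDegree := lt_of_le_of_lt (Nat.zero_le r) hr
  have hτr : τ ^ r ≠ 0 := pow_ne_zero_of_rel hG hτ P r hP0 hrel
  -- the polynomial over `K0`
  set P' : K0[X] := P.map (algebraMap A0 K0) with hP'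
  have hP'deg : P'.natDegree = P.natDegree := hP.natDegree_map _
  have hrel' : j * τ ^ r = aeval τ P' := by
    rw [hP', aeval_map_algebraMap]
    exact hrel
  have hP0' : r = 0 ∨ P'.coeff 0 ≠ 0 := by
    rcases hP0 with h | h
    · exact Or.inl h
    · refine Or.inr ?_
      rw [hP', coeff_map]
      intro h0
      apply h
      have : P.coeff 0 = 0 := (IsFractionRing.injective A0 K0) (by rw [h0, map_zero])
      rw [this]
      exact dvd_zero _
  -- upstairs
  have hdeg : P.natDegree ≤ (IntermediateField.adjoin K0 ({j} : Set F)).relfinrank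
      (IntermediateField.adjoin K0 ({τ} : Set F)) := by
    rw [← hP'deg]
    exact S18.helper648.natDegree_le_relfinrank j τ hτtr P' r (by rw [hP'deg]; exact hr) hP0'
      hrel'
  have htmem : j ∈ IntermediateField.adjoin K0 ({τ} : Set F) :=
    mem_adjoin_of_lineRel hG hτ P r hP0 hrel
  have hEE' : IntermediateField.adjoin K0 ({j} : Set F)
      ≤ IntermediateField.adjoin K0 ({τ} : Set F) :=
    IntermediateField.adjoin_le_iff.mpr (Set.singleton_subset_iff.mpr htmem)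
  have hup := IntermediateField.relfinrank_mul_finrank_top (E := F) hEE'
  -- downstairs
  set pF : Fκ[X] := P.map (red.comp (S18.helper648.toO hle)) - C (red ⟨j, ht⟩) * X ^ r with hpF
  have hmapmonic : (P.map (red.comp (S18.helper648.toO hle))).Monic := hP.map _
  have hmapdeg : (P.map (red.comp (S18.helper648.toO hle))).natDegree = P.natDegree :=
    hP.natDegree_map _
  have hsmall : (C (red ⟨j, ht⟩) * X ^ r : Fκ[X]).degree
      < (P.map (red.comp (S18.helper648.toO hle))).degree := by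
    rw [degree_eq_natDegree hmapmonic.ne_zero, hmapdeg]
    refine lt_of_le_of_lt (degree_C_mul_X_pow_le r _) ?_
    exact_mod_cast hr
  have hpFmonic : pF.Monic := hmapmonic.sub_of_left hsmall
  have hpFdeg : pF.natDegree = P.natDegree := by
    rw [hpF, natDegree_sub_eq_left_of_natDegree_lt, hmapdeg]
    rw [hmapdeg]
    exact lt_of_le_of_lt (natDegree_C_mul_X_pow_le _ r) hr
  have hlift : pF ∈ lifts (algebraMap κ Fκ) := by
    rw [lifts_iff_coeff_lifts]
    intro k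
    obtain ⟨x, hx⟩ := hRA (P.coeff k)
    obtain ⟨y, hy⟩ := hRj
    rw [hpF, coeff_sub, coeff_map, coeff_C_mul_X_pow]
    split_ifs
    · exact ⟨x - y, by rw [map_sub, hx, hy]; rfl⟩
    · exact ⟨x, by rw [hx, sub_zero]; rfl⟩
  obtain ⟨Q, hQmap, hQdeg, hQmonic⟩ := lifts_and_natDegree_eq_and_monic hlift hpFmonic
  have hroot : aeval τb Q = 0 := by
    rw [aeval_def, ← eval_map, hQmap, hpF, eval_sub, eval_map, eval_mul, eval_C, eval_pow,
      eval_X]
    have h1 := Polynomial.hom_eval₂ P (S18.helper648.toO hle) red ⟨τ, hτ⟩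
    rw [← h1, ← S18.helper648.rel_in_O hle ht hτ P r hrel, map_mul, map_pow]
    exact sub_self _
  have hint : IsIntegral κ τb := ⟨Q, hQmonic, hroot⟩
  have hdown1 : Module.finrank κ ↥(IntermediateField.adjoin κ ({τb} : Set Fκ))
      ≤ P.natDegree := by
    rw [IntermediateField.adjoin.finrank hint, ← hpFdeg, ← hQdeg]
    exact natDegree_le_of_dvd (minpoly.dvd κ τb hroot) hQmonic.ne_zero
  have hdown2 := Module.finrank_mul_finrank κ ↥(IntermediateField.adjoin κ ({τb} : Set Fκ)) Fκ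
  refine Nat.le_of_mul_le_mul_left ?_ hn
  calc P.natDegree * Module.finrank ↥(IntermediateField.adjoin K0 ({τ} : Set F)) F
      ≤ (IntermediateField.adjoin K0 ({j} : Set F)).relfinrank
          (IntermediateField.adjoin K0 ({τ} : Set F))
        * Module.finrank ↥(IntermediateField.adjoin K0 ({τ} : Set F)) F :=
        Nat.mul_le_mul_right _ hdeg
    _ = Module.finrank ↥(IntermediateField.adjoin K0 ({j} : Set F)) F := hup
    _ ≤ Module.finrank κ Fκ := hR3
    _ = Module.finrank κ ↥(IntermediateField.adjoin κ ({τb} : Set Fκ))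
        * Module.finrank ↥(IntermediateField.adjoin κ ({τb} : Set Fκ)) Fκ := hdown2.symm
    _ ≤ P.natDegree
        * Module.finrank ↥(IntermediateField.adjoin κ ({τb} : Set Fκ)) Fκ :=
        Nat.mul_le_mul_right _ hdown1

/-- **Line change of the base data of a tower** (generic; no model): the Gauss data, the
transcendence, the finiteness and the residue data of the `j`-line give those of the `τ`-line,
with the same `red` and the residue subfield `κ(red τ)`. -/
theorem base_lineChange {j τ : F} (hmax : (Ideal.span {ϖ}).IsMaximal) (hG : GaussData ϖ j O)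
    (htr : Transcendental K0 j)
    [FiniteDimensional ↥(IntermediateField.adjoin K0 ({j} : Set F)) F]
    (P : A0[X]) (hP : P.Monic) (r : ℕ) (hr : r < P.natDegree)
    (hP0 : r = 0 ∨ ¬ ϖ ∣ P.coeff 0) (hrel : j * τ ^ r = aeval τ P)
    {κ Fκ : Type*} [Field κ] [Field Fκ] [Algebra κ Fκ] [Algebra.IsSeparable κ Fκ]
    (red : ↥O →+* Fκ)
    (hRA : ∀ a : A0, red ⟨algebraMap A0 F a, hG.le a⟩ ∈ Set.range (algebraMap κ Fκ))
    (hRj : red ⟨j, hG.t_mem⟩ ∈ Set.range (algebraMap κ Fκ))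
    (hR3 : Module.finrank ↥(IntermediateField.adjoin K0 ({j} : Set F)) F
      ≤ Module.finrank κ Fκ) :
    ∃ hGτ : GaussData ϖ τ O, Transcendental K0 τ ∧
      FiniteDimensional ↥(IntermediateField.adjoin K0 ({τ} : Set F)) F ∧
      Algebra.IsSeparable ↥(IntermediateField.adjoin κ ({red ⟨τ, hGτ.t_mem⟩} : Set Fκ)) Fκ ∧
      (∀ a : A0, red ⟨algebraMap A0 F a, hGτ.le a⟩ ∈ Set.range
        (algebraMap ↥(IntermediateField.adjoin κ ({red ⟨τ, hGτ.t_mem⟩} : Set Fκ)) Fκ)) ∧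
      red ⟨τ, hGτ.t_mem⟩ ∈ Set.range
        (algebraMap ↥(IntermediateField.adjoin κ ({red ⟨τ, hGτ.t_mem⟩} : Set Fκ)) Fκ) ∧
      Module.finrank ↥(IntermediateField.adjoin K0 ({τ} : Set F)) F
        ≤ Module.finrank ↥(IntermediateField.adjoin κ ({red ⟨τ, hGτ.t_mem⟩} : Set Fκ)) Fκ := by
  have hGτ : GaussData ϖ τ O := S18.helper648.gaussData_lineChange hG hmax P hP r hr hP0 hrel
  have hjmem : j ∈ IntermediateField.adjoin K0 ({τ} : Set F) :=
    mem_adjoin_of_lineRel hG hGτ.t_mem P r hP0 hrel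
  have hτtr : Transcendental K0 τ := transcendental_of_mem_adjoin j τ htr hjmem
  refine ⟨hGτ, hτtr, finiteDimensional_of_mem_adjoin j τ hjmem,
    Algebra.isSeparable_tower_top_of_isSeparable κ _ Fκ, fun a => ?_, ?_, ?_⟩
  · obtain ⟨x, hx⟩ := hRA a
    exact ⟨algebraMap κ _ x, hx⟩
  · exact ⟨⟨red ⟨τ, hGτ.t_mem⟩, IntermediateField.mem_adjoin_simple_self _ _⟩, rfl⟩
  · exact finrank_lineChange hG hGτ.t_mem hτtr P hP r hr hP0 hrel red hRA hRj hR3

end Base

/-! ### The two Hauptmodul relations -/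

section Hauptmodul

variable {A0 : Type*} [CommRing A0] [IsDomain A0] {ϖ : A0}

/-- The data of the level-two relation `j * τ ^ 2 = (τ + 256) ^ 3` at a prime not dividing `2`. -/
theorem line_two_data (hϖ : Prime ϖ) (h2 : ¬ ϖ ∣ 2) :
    ((X + C 256) ^ 3 : A0[X]).Monic ∧ 2 < ((X + C 256) ^ 3 : A0[X]).natDegree ∧
      ¬ ϖ ∣ ((X + C 256) ^ 3 : A0[X]).coeff 0 ∧ ¬ ϖ ∣ (64 : A0) := by
  refine ⟨(monic_X_add_C 256).pow 3, ?_, ?_, ?_⟩
  · rw [(monic_X_add_C (256 : A0)).natDegree_pow, natDegree_X_add_C]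
    norm_num
  · rw [coeff_zero_eq_eval_zero, eval_pow, eval_add, eval_X, eval_C, zero_add]
    intro h
    apply h2
    have e : (256 : A0) ^ 3 = 2 ^ 24 := by norm_num
    rw [e] at h
    exact hϖ.dvd_of_dvd_pow h
  · intro h
    apply h2
    have e : (64 : A0) = 2 ^ 6 := by norm_num
    rw [e] at h
    exact hϖ.dvd_of_dvd_pow h

/-- The data of the level-three relation `j * τ ^ 3 = (τ + 27) (τ + 243) ^ 3` at a prime not
dividing `3`. -/
theorem line_three_data (hϖ : Prime ϖ) (h3 : ¬ ϖ ∣ 3) :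
    ((X + C 27) * (X + C 243) ^ 3 : A0[X]).Monic ∧
      3 < ((X + C 27) * (X + C 243) ^ 3 : A0[X]).natDegree ∧
      ¬ ϖ ∣ ((X + C 27) * (X + C 243) ^ 3 : A0[X]).coeff 0 ∧ ¬ ϖ ∣ (27 : A0) := by
  refine ⟨(monic_X_add_C 27).mul ((monic_X_add_C 243).pow 3), ?_, ?_, ?_⟩
  · rw [(monic_X_add_C (27 : A0)).natDegree_mul ((monic_X_add_C 243).pow 3),
      (monic_X_add_C (243 : A0)).natDegree_pow, natDegree_X_add_C, natDegree_X_add_C]
    norm_num
  · rw [coeff_zero_eq_eval_zero, eval_mul, eval_pow, eval_add, eval_X, eval_C, zero_add,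
      eval_add, eval_X, eval_C, zero_add]
    intro h
    apply h3
    have e : (27 : A0) * 243 ^ 3 = 3 ^ 18 := by norm_num
    rw [e] at h
    exact hϖ.dvd_of_dvd_pow h
  · intro h
    apply h3
    have e : (27 : A0) = 3 ^ 3 := by norm_num
    rw [e] at h
    exact hϖ.dvd_of_dvd_pow h

end Hauptmodul

/-! ### The tower step on the new line -/

section Tower

open Fermat.Agent.S18

variable (D : KData) {F : Type} [Field F] [Algebra D.K0 F] [Algebra D.A0 F]
  [IsScalarTower D.A0 D.K0 F] [Algebra F D.F0] [IsScalarTower D.K0 F D.F0]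
  [IsScalarTower D.A0 F D.F0]

/-- **(T4) on another line.**  `helper6839.tower_kummer_res` with the base data given on the
`j`-line and the model on the `τ`-line (`algebraMap F D.F0 τ = D.t`), where
`j * τ ^ r = P(τ)`, `P ∈ A0[X]` monic of degree `> r`, `P(0)` prime to `ϖ` (or `r = 0`). -/
theorem tower_kummer_line (m : ℕ) {j τ : F} {O : ValuationSubring F}
    (hτ : algebraMap F D.F0 τ = D.t) (hO : D.O.comap (algebraMap F D.F0) = O)
    (hirr : Irreducible D.ϖ) (hG : GaussData D.ϖ j O) (htr : Transcendental D.K0 j)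
    [FiniteDimensional ↥(IntermediateField.adjoin D.K0 ({j} : Set F)) F]
    (P : D.A0[X]) (hP : P.Monic) (r : ℕ) (hr : r < P.natDegree)
    (hP0 : r = 0 ∨ ¬ D.ϖ ∣ P.coeff 0) (hrel : j * τ ^ r = aeval τ P)
    (c0 : D.A0) (hc0 : ¬ D.ϖ ∣ c0)
    {κ Fκ : Type} [Field κ] [Field Fκ] [Algebra κ Fκ] [Algebra.IsSeparable κ Fκ]
    (red : ↥O →+* Fκ) (hred : Function.Surjective red)
    (hRA : ∀ a : D.A0, red ⟨algebraMap D.A0 F a, hG.le a⟩ ∈ Set.range (algebraMap κ Fκ))
    (hRj : red ⟨j, hG.t_mem⟩ ∈ Set.range (algebraMap κ Fκ))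
    (hR3 : Module.finrank ↥(IntermediateField.adjoin D.K0 ({j} : Set F)) F
      ≤ Module.finrank κ Fκ)
    (pb : PowerBasis F D.F0) (hpb : IsIntegral ↥O pb.gen)
    (hdisc : (Algebra.discr F pb.basis)⁻¹ ∈ O)
    (hgenθ : Algebra.adjoin D.F0 ({D.θ} : Set D.L0) = ⊤)
    (hconstL : ∀ z : D.L0, IsAlgebraic D.K0 z → z ∈ Set.range (algebraMap D.K0 D.L0))
    (hm : IsUnit (m : D.A0)) (hζ : IsPrimitiveRoot D.ζ m) (hU : D.U ∈ D.O) (hU' : D.U⁻¹ ∈ D.O)
    (hh : D.h ∈ D.O) (hhU : D.h ^ m - D.U ∈ D.O.nonunits)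
    (hθ : D.θ ^ m = algebraMap D.F0 D.L0 D.U)
    (bar : S18.helper648.BarDatum D c0) :
    D.Good m ∧ Nonempty (S18.helper648.Facts D c0) ∧ ∃ V : D.F0, V ^ m = D.U := by
  have hmax : (Ideal.span {D.ϖ}).IsMaximal := PrincipalIdealRing.isMaximal_of_irreducible hirr
  obtain ⟨hGτ, hτtr, hfin, hsep, hRA', hRτ, hR3'⟩ :=
    base_lineChange (K0 := D.K0) hmax hG htr P hP r hr hP0 hrel red hRA hRj hR3
  haveI := hfin
  haveI := hsep
  exact helper6839.tower_kummer_res D m hτ hO hirr hGτ hτtr c0 hc0 red hred hRA' hRτ hR3' pb hpb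
    hdisc hgenθ hconstL hm hζ hU hU' hh hhU hθ bar

/-- **(T4) on the Hauptmodul line of level two** (`j * τ ^ 2 = (τ + 256) ^ 3`, `c0 = 64`), at a
place not over `2`. -/
theorem tower_kummer_two (m : ℕ) {j τ : F} {O : ValuationSubring F}
    (hτ : algebraMap F D.F0 τ = D.t) (hO : D.O.comap (algebraMap F D.F0) = O)
    (hirr : Irreducible D.ϖ) (h2 : ¬ D.ϖ ∣ 2) (hG : GaussData D.ϖ j O)
    (htr : Transcendental D.K0 j)
    [FiniteDimensional ↥(IntermediateField.adjoin D.K0 ({j} : Set F)) F]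
    (hrel : j * τ ^ 2 = (τ + 256) ^ 3)
    {κ Fκ : Type} [Field κ] [Field Fκ] [Algebra κ Fκ] [Algebra.IsSeparable κ Fκ]
    (red : ↥O →+* Fκ) (hred : Function.Surjective red)
    (hRA : ∀ a : D.A0, red ⟨algebraMap D.A0 F a, hG.le a⟩ ∈ Set.range (algebraMap κ Fκ))
    (hRj : red ⟨j, hG.t_mem⟩ ∈ Set.range (algebraMap κ Fκ))
    (hR3 : Module.finrank ↥(IntermediateField.adjoin D.K0 ({j} : Set F)) F
      ≤ Module.finrank κ Fκ)
    (pb : PowerBasis F D.F0) (hpb : IsIntegral ↥O pb.gen)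
    (hdisc : (Algebra.discr F pb.basis)⁻¹ ∈ O)
    (hgenθ : Algebra.adjoin D.F0 ({D.θ} : Set D.L0) = ⊤)
    (hconstL : ∀ z : D.L0, IsAlgebraic D.K0 z → z ∈ Set.range (algebraMap D.K0 D.L0))
    (hm : IsUnit (m : D.A0)) (hζ : IsPrimitiveRoot D.ζ m) (hU : D.U ∈ D.O) (hU' : D.U⁻¹ ∈ D.O)
    (hh : D.h ∈ D.O) (hhU : D.h ^ m - D.U ∈ D.O.nonunits)
    (hθ : D.θ ^ m = algebraMap D.F0 D.L0 D.U)
    (bar : S18.helper648.BarDatum D 64) :
    D.Good m ∧ Nonempty (S18.helper648.Facts D 64) ∧ ∃ V : D.F0, V ^ m = D.U := by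
  obtain ⟨hmon, hdeg, hc, h64⟩ := line_two_data hirr.prime h2
  have hrel' : j * τ ^ 2 = aeval τ ((X + C 256) ^ 3 : D.A0[X]) := by
    rw [hrel, map_pow, map_add, aeval_X, aeval_C, map_ofNat]
  exact tower_kummer_line D m hτ hO hirr hG htr _ hmon 2 hdeg (Or.inr hc) hrel' 64 h64 red hred
    hRA hRj hR3 pb hpb hdisc hgenθ hconstL hm hζ hU hU' hh hhU hθ bar

/-- **(T4) on the Hauptmodul line of level three** (`j * τ ^ 3 = (τ + 27) (τ + 243) ^ 3`,
`c0 = 27`), at a place not over `3`. -/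
theorem tower_kummer_three (m : ℕ) {j τ : F} {O : ValuationSubring F}
    (hτ : algebraMap F D.F0 τ = D.t) (hO : D.O.comap (algebraMap F D.F0) = O)
    (hirr : Irreducible D.ϖ) (h3 : ¬ D.ϖ ∣ 3) (hG : GaussData D.ϖ j O)
    (htr : Transcendental D.K0 j)
    [FiniteDimensional ↥(IntermediateField.adjoin D.K0 ({j} : Set F)) F]
    (hrel : j * τ ^ 3 = (τ + 27) * (τ + 243) ^ 3)
    {κ Fκ : Type} [Field κ] [Field Fκ] [Algebra κ Fκ] [Algebra.IsSeparable κ Fκ]
    (red : ↥O →+* Fκ) (hred : Function.Surjective red)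
    (hRA : ∀ a : D.A0, red ⟨algebraMap D.A0 F a, hG.le a⟩ ∈ Set.range (algebraMap κ Fκ))
    (hRj : red ⟨j, hG.t_mem⟩ ∈ Set.range (algebraMap κ Fκ))
    (hR3 : Module.finrank ↥(IntermediateField.adjoin D.K0 ({j} : Set F)) F
      ≤ Module.finrank κ Fκ)
    (pb : PowerBasis F D.F0) (hpb : IsIntegral ↥O pb.gen)
    (hdisc : (Algebra.discr F pb.basis)⁻¹ ∈ O)
    (hgenθ : Algebra.adjoin D.F0 ({D.θ} : Set D.L0) = ⊤)
    (hconstL : ∀ z : D.L0, IsAlgebraic D.K0 z → z ∈ Set.range (algebraMap D.K0 D.L0))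
    (hm : IsUnit (m : D.A0)) (hζ : IsPrimitiveRoot D.ζ m) (hU : D.U ∈ D.O) (hU' : D.U⁻¹ ∈ D.O)
    (hh : D.h ∈ D.O) (hhU : D.h ^ m - D.U ∈ D.O.nonunits)
    (hθ : D.θ ^ m = algebraMap D.F0 D.L0 D.U)
    (bar : S18.helper648.BarDatum D 27) :
    D.Good m ∧ Nonempty (S18.helper648.Facts D 27) ∧ ∃ V : D.F0, V ^ m = D.U := by
  obtain ⟨hmon, hdeg, hc, h27⟩ := line_three_data hirr.prime h3
  have hrel' : j * τ ^ 3 = aeval τ ((X + C 27) * (X + C 243) ^ 3 : D.A0[X]) := by
    rw [hrel, map_mul, map_pow, map_add, map_add, aeval_X, aeval_C, aeval_C, map_ofNat,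
      map_ofNat]
  exact tower_kummer_line D m hτ hO hirr hG htr _ hmon 3 hdeg (Or.inr hc) hrel' 27 h27 red hred
    hRA hRj hR3 pb hpb hdisc hgenθ hconstL hm hζ hU hU' hh hhU hθ bar

/-- **Igusa for the upper field on another line**: `helper6839.tower_gauss_res` with the base
data given on the `j`-line and the model on the `τ`-line. -/
theorem tower_gauss_line {j τ : F} {O : ValuationSubring F}
    (hτ : algebraMap F D.F0 τ = D.t) (hO : D.O.comap (algebraMap F D.F0) = O)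
    (hirr : Irreducible D.ϖ) (hG : GaussData D.ϖ j O) (htr : Transcendental D.K0 j)
    [FiniteDimensional ↥(IntermediateField.adjoin D.K0 ({j} : Set F)) F]
    (P : D.A0[X]) (hP : P.Monic) (r : ℕ) (hr : r < P.natDegree)
    (hP0 : r = 0 ∨ ¬ D.ϖ ∣ P.coeff 0) (hrel : j * τ ^ r = aeval τ P)
    (hconst : ∀ z : D.F0, IsAlgebraic D.K0 z → z ∈ Set.range (algebraMap D.K0 D.F0))
    (c0 : D.A0) (hc0 : ¬ D.ϖ ∣ c0)
    {κ Fκ : Type} [Field κ] [Field Fκ] [Algebra κ Fκ] [Algebra.IsSeparable κ Fκ]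
    (red : ↥O →+* Fκ) (hred : Function.Surjective red)
    (hRA : ∀ a : D.A0, red ⟨algebraMap D.A0 F a, hG.le a⟩ ∈ Set.range (algebraMap κ Fκ))
    (hRj : red ⟨j, hG.t_mem⟩ ∈ Set.range (algebraMap κ Fκ))
    (hR3 : Module.finrank ↥(IntermediateField.adjoin D.K0 ({j} : Set F)) F
      ≤ Module.finrank κ Fκ)
    (pb : PowerBasis F D.F0) (hpb : IsIntegral ↥O pb.gen)
    (hdisc : (Algebra.discr F pb.basis)⁻¹ ∈ O)
    (bar : S18.helper648.BarDatum (helper6839.layer D F τ O) c0) :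
    (∀ x : D.F0, x ∈ D.O ↔ IsIntegral ↥O x) ∧ GaussData D.ϖ D.t D.O ∧
      Nonempty (S18.helper648.ResDatum D) := by
  have hmax : (Ideal.span {D.ϖ}).IsMaximal := PrincipalIdealRing.isMaximal_of_irreducible hirr
  obtain ⟨hGτ, hτtr, hfin, hsep, hRA', hRτ, hR3'⟩ :=
    base_lineChange (K0 := D.K0) hmax hG htr P hP r hr hP0 hrel red hRA hRj hR3
  haveI := hfin
  haveI := hsep
  exact helper6839.tower_gauss_res D hτ hO hirr hGτ hτtr hconst c0 hc0 red hred hRA' hRτ hR3' pb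
    hpb hdisc bar

/-- **Igusa for the upper field on the Hauptmodul line of level two** (`c0 = 64`). -/
theorem tower_gauss_two {j τ : F} {O : ValuationSubring F}
    (hτ : algebraMap F D.F0 τ = D.t) (hO : D.O.comap (algebraMap F D.F0) = O)
    (hirr : Irreducible D.ϖ) (h2 : ¬ D.ϖ ∣ 2) (hG : GaussData D.ϖ j O)
    (htr : Transcendental D.K0 j)
    [FiniteDimensional ↥(IntermediateField.adjoin D.K0 ({j} : Set F)) F]
    (hrel : j * τ ^ 2 = (τ + 256) ^ 3)
    (hconst : ∀ z : D.F0, IsAlgebraic D.K0 z → z ∈ Set.range (algebraMap D.K0 D.F0))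
    {κ Fκ : Type} [Field κ] [Field Fκ] [Algebra κ Fκ] [Algebra.IsSeparable κ Fκ]
    (red : ↥O →+* Fκ) (hred : Function.Surjective red)
    (hRA : ∀ a : D.A0, red ⟨algebraMap D.A0 F a, hG.le a⟩ ∈ Set.range (algebraMap κ Fκ))
    (hRj : red ⟨j, hG.t_mem⟩ ∈ Set.range (algebraMap κ Fκ))
    (hR3 : Module.finrank ↥(IntermediateField.adjoin D.K0 ({j} : Set F)) F
      ≤ Module.finrank κ Fκ)
    (pb : PowerBasis F D.F0) (hpb : IsIntegral ↥O pb.gen)
    (hdisc : (Algebra.discr F pb.basis)⁻¹ ∈ O)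
    (bar : S18.helper648.BarDatum (helper6839.layer D F τ O) 64) :
    (∀ x : D.F0, x ∈ D.O ↔ IsIntegral ↥O x) ∧ GaussData D.ϖ D.t D.O ∧
      Nonempty (S18.helper648.ResDatum D) := by
  obtain ⟨hmon, hdeg, hc, h64⟩ := line_two_data hirr.prime h2
  have hrel' : j * τ ^ 2 = aeval τ ((X + C 256) ^ 3 : D.A0[X]) := by
    rw [hrel, map_pow, map_add, aeval_X, aeval_C, map_ofNat]
  exact tower_gauss_line D hτ hO hirr hG htr _ hmon 2 hdeg (Or.inr hc) hrel' hconst 64 h64 red
    hred hRA hRj hR3 pb hpb hdisc bar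

/-- **Igusa for the upper field on the Hauptmodul line of level three** (`c0 = 27`). -/
theorem tower_gauss_three {j τ : F} {O : ValuationSubring F}
    (hτ : algebraMap F D.F0 τ = D.t) (hO : D.O.comap (algebraMap F D.F0) = O)
    (hirr : Irreducible D.ϖ) (h3 : ¬ D.ϖ ∣ 3) (hG : GaussData D.ϖ j O)
    (htr : Transcendental D.K0 j)
    [FiniteDimensional ↥(IntermediateField.adjoin D.K0 ({j} : Set F)) F]
    (hrel : j * τ ^ 3 = (τ + 27) * (τ + 243) ^ 3)
    (hconst : ∀ z : D.F0, IsAlgebraic D.K0 z → z ∈ Set.range (algebraMap D.K0 D.F0))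
    {κ Fκ : Type} [Field κ] [Field Fκ] [Algebra κ Fκ] [Algebra.IsSeparable κ Fκ]
    (red : ↥O →+* Fκ) (hred : Function.Surjective red)
    (hRA : ∀ a : D.A0, red ⟨algebraMap D.A0 F a, hG.le a⟩ ∈ Set.range (algebraMap κ Fκ))
    (hRj : red ⟨j, hG.t_mem⟩ ∈ Set.range (algebraMap κ Fκ))
    (hR3 : Module.finrank ↥(IntermediateField.adjoin D.K0 ({j} : Set F)) F
      ≤ Module.finrank κ Fκ)
    (pb : PowerBasis F D.F0) (hpb : IsIntegral ↥O pb.gen)
    (hdisc : (Algebra.discr F pb.basis)⁻¹ ∈ O)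
    (bar : S18.helper648.BarDatum (helper6839.layer D F τ O) 27) :
    (∀ x : D.F0, x ∈ D.O ↔ IsIntegral ↥O x) ∧ GaussData D.ϖ D.t D.O ∧
      Nonempty (S18.helper648.ResDatum D) := by
  obtain ⟨hmon, hdeg, hc, h27⟩ := line_three_data hirr.prime h3
  have hrel' : j * τ ^ 3 = aeval τ ((X + C 27) * (X + C 243) ^ 3 : D.A0[X]) := by
    rw [hrel, map_mul, map_pow, map_add, map_add, aeval_X, aeval_C, aeval_C, map_ofNat,
      map_ofNat]
  exact tower_gauss_line D hτ hO hirr hG htr _ hmon 3 hdeg (Or.inr hc) hrel' hconst 27 h27 red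
    hred hRA hRj hR3 pb hpb hdisc bar

end Tower

end Fermat.Agent.S48.helper648
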