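import Fermat.Agent.S18.helper2759_KummerGlobal

/-!
# S48, tower step for the S18 track-B machine (helper6839): Gauss lift

The landed S18 track-B machine (`helper3578.KData`, `helper2759.stmt_KummerGlobal`) needs, for
the base function field `F0` of a model, the Gauss place in the form `helper3578.GaussData`
(in particular: the Gauss valuation of `K0(t)` has a UNIQUE extension to `F0`).  This file lifts
`GaussData` along a finite (algebraic) extension `E / F0`, given that the finite chart of `E`
has one minimal prime over `ϖ` (the conclusion of `helper2128.icl_unique_component_of_closed`,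
i.e. of the two-chart Cech argument applied to `E` itself).

* `exists_valuationSubring_integralClosure` (Mathlib-only): if the integral closure of a
  valuation ring `O` in an algebraic extension `E` has at most one prime over the maximal ideal
  of `O`, this integral closure is a valuation subring of `E`, the only one lying over `O`.
* `gaussLift` (T1): the lifted Gauss place `O'` of `E`, with
  `GaussData ϖ (algebraMap F0 E t) O'`, `O' ∩ F0 = O`, `O' =` integral closure of `O`, and
  uniqueness among all valuation subrings of `E` over `O`.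
-/

set_option autoImplicit false
set_option synthInstance.maxHeartbeats 400000

noncomputable section

namespace Fermat.Agent.S48.helper6839

open Polynomial Ideal
open Fermat.Agent.S18.helper3578
open Fermat.Agent.S18.helper5122

section ValRing

variable {F E : Type*} [Field F] [Field E] [Algebra F E] (O : ValuationSubring F)

/-- A valuation subring of `E` containing the image of `O` contains every element integral
over `O`. -/
theorem mem_of_isIntegral_of_le (V : ValuationSubring E)
    (hV : ∀ a : F, a ∈ O → algebraMap F E a ∈ V) {x : E} (hx : IsIntegral ↥O x) : x ∈ V := by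
  let f : ↥O →+* ↥V :=
    RingHom.codRestrict ((algebraMap F E).comp O.subtype) V (fun a => hV a a.2)
  have h1 : IsIntegral ↥V x := by
    obtain ⟨p, hp, hpx⟩ := hx
    refine ⟨p.map f, hp.map f, ?_⟩
    rw [Polynomial.eval₂_map]
    exact hpx
  obtain ⟨y, hy⟩ := IsIntegrallyClosed.isIntegral_iff.mp h1
  rw [← hy]
  exact y.2

/-- An element lying in every valuation subring containing the integral closure of `O` is
integral over `O`. -/
theorem isIntegral_of_forall_valuationSubring {y : E}
    (h : ∀ V : ValuationSubring E, (∀ z : E, IsIntegral ↥O z → z ∈ V) → y ∈ V) :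
    IsIntegral ↥O y := by
  by_contra hy
  have : IsIntegrallyClosedIn ↥(integralClosure ↥O E).toSubring E :=
    Subring.isIntegrallyClosedIn_iff.mpr (fun z hz =>
      isIntegral_trans (R := ↥O) (A := ↥(integralClosure ↥O E)) z hz)
  obtain ⟨V, hV1, hV2⟩ := Subring.exists_le_valuationSubring_of_isIntegrallyClosedIn
    (R := (integralClosure ↥O E).toSubring) (x := y) hy
  exact hV2 (h V (fun z hz => hV1 hz))

/-- An algebraic element is a root of a polynomial with coefficients in `O`, one of which is a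
unit of `O`. -/
theorem exists_poly_unit_coeff [Algebra.IsAlgebraic F E] (x : E) :
    ∃ q : F[X], (∀ i, q.coeff i ∈ O) ∧ (∃ i, q.coeff i ∉ O.nonunits) ∧ aeval x q = 0 := by
  obtain ⟨p, hp0, hpx⟩ := Algebra.IsAlgebraic.isAlgebraic (R := F) x
  obtain ⟨j, hj, hmax⟩ := Finset.exists_max_image p.support (fun i => O.valuation (p.coeff i))
    (Polynomial.support_nonempty.mpr hp0)
  have hc : p.coeff j ≠ 0 := Polynomial.mem_support_iff.mp hj
  have hv0 : O.valuation (p.coeff j) ≠ 0 := (Valuation.ne_zero_iff _).mpr hc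
  refine ⟨C (p.coeff j)⁻¹ * p, fun i => ?_, ⟨j, ?_⟩, ?_⟩
  · rw [Polynomial.coeff_C_mul, ← O.valuation_le_one_iff, map_mul, map_inv₀]
    by_cases hi : i ∈ p.support
    · exact (inv_mul_le_iff₀ (zero_lt_iff.mpr hv0)).mpr (by rw [mul_one]; exact hmax i hi)
    · rw [Polynomial.notMem_support_iff.mp hi, map_zero, mul_zero]
      exact zero_le_one
  · rw [Polynomial.coeff_C_mul, inv_mul_cancel₀ hc, O.mem_nonunits_iff, map_one]
    exact lt_irrefl _
  · rw [map_mul, hpx, mul_zero]

theorem inv_pow_mul_pow {x : E} (hx0 : x ≠ 0) {j r : ℕ} (hj : j ≤ r) :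
    x ^ j * x⁻¹ ^ r = x⁻¹ ^ (r - j) := by
  have h1 : x⁻¹ ^ r = x⁻¹ ^ (r - j) * x⁻¹ ^ j := by
    rw [← pow_add, Nat.sub_add_cancel hj]
  rw [h1, mul_comm, mul_assoc, ← mul_pow, inv_mul_cancel₀ hx0, one_pow, mul_one]

/-- **The key lemma.**  If `x ≠ 0` is a root of a polynomial `q` with coefficients in `O`, one of
which is a unit, and `r` is the largest index of a unit coefficient, then
`y := ∑_{i ≥ r} q_i x^(i-r)` and `y * x` are integral over `O`, and `y` is a unit in every
valuation subring dominating `O` which contains `x`. -/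
theorem exists_mul_isIntegral {x : E} (hx0 : x ≠ 0) (q : F[X])
    (hq : ∀ i, q.coeff i ∈ O) (hu : ∃ i, q.coeff i ∉ O.nonunits) (hqx : aeval x q = 0) :
    ∃ y : E, IsIntegral ↥O y ∧ IsIntegral ↥O (y * x) ∧
      ∀ V : ValuationSubring E, (∀ a : F, a ∈ O → algebraMap F E a ∈ V) →
        (∀ a : F, a ∈ O.nonunits → algebraMap F E a ∈ V.nonunits) → x ∈ V → y ∉ V.nonunits := by
  classical
  have h0nu : (0 : F) ∈ O.nonunits := O.mem_nonunits_iff.mpr (by rw [map_zero]; exact zero_lt_one)
  set T : Finset ℕ := q.support.filter (fun i => q.coeff i ∉ O.nonunits) with hT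
  have hTne : T.Nonempty := by
    obtain ⟨i, hi⟩ := hu
    refine ⟨i, Finset.mem_filter.mpr ⟨?_, hi⟩⟩
    rw [Polynomial.mem_support_iff]
    intro h0
    exact hi (h0 ▸ h0nu)
  set r : ℕ := T.max' hTne with hr
  have hrT : r ∈ T := Finset.max'_mem T hTne
  have hrsupp : r ∈ q.support := (Finset.mem_filter.mp hrT).1
  have hrunit : q.coeff r ∉ O.nonunits := (Finset.mem_filter.mp hrT).2
  have hgt : ∀ i ∈ q.support, r < i → q.coeff i ∈ O.nonunits := by
    intro i hi hri
    by_contra hnu
    have h1 : i ≤ r := Finset.le_max' T i (Finset.mem_filter.mpr ⟨hi, hnu⟩)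
    omega
  set α : ℕ → E := fun i => algebraMap F E (q.coeff i) with hα
  set y : E := ∑ i ∈ q.support.filter (fun i => r ≤ i), α i * x ^ (i - r) with hy
  set z : E := ∑ i ∈ q.support.filter (fun i => ¬ r ≤ i), α i * x ^ i with hz
  have hyz : y * x ^ r + z = 0 := by
    have h1 : aeval x q = ∑ i ∈ q.support, α i * x ^ i := by
      rw [Polynomial.aeval_def, Polynomial.eval₂_eq_sum, Polynomial.sum_def]
    rw [← hqx, h1, ← Finset.sum_filter_add_sum_filter_not q.support (fun i => r ≤ i), hy,
      Finset.sum_mul]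
    congr 1
    refine Finset.sum_congr rfl (fun i hi => ?_)
    rw [mul_assoc, ← pow_add, Nat.sub_add_cancel (Finset.mem_filter.mp hi).2]
  have hαint : ∀ i, IsIntegral ↥O (α i) := fun i =>
    isIntegral_algebraMap (R := ↥O) (A := E) (x := (⟨q.coeff i, hq i⟩ : ↥O))
  -- the formula for `y` in terms of `x⁻¹`
  have hyinv : y = -(z * x⁻¹ ^ r) := by
    have h1 : y * x ^ r = -z := eq_neg_of_add_eq_zero_left hyz
    have h2 : y = y * x ^ r * x⁻¹ ^ r := by
      rw [mul_assoc, ← mul_pow, mul_inv_cancel₀ hx0, one_pow, mul_one]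
    rw [h2, h1, neg_mul]
  have hzr : ∀ j : ℕ, j ≤ 1 → (∀ i ∈ q.support.filter (fun i => ¬ r ≤ i), i + j ≤ r) →
      z * x⁻¹ ^ r * x ^ j = ∑ i ∈ q.support.filter (fun i => ¬ r ≤ i),
        α i * x⁻¹ ^ (r - (i + j)) := by
    intro j _ hj
    rw [hz, Finset.sum_mul, Finset.sum_mul]
    refine Finset.sum_congr rfl (fun i hi => ?_)
    rw [← inv_pow_mul_pow hx0 (hj i hi), pow_add]
    ring
  refine ⟨y, ?_, ?_, ?_⟩
  · refine isIntegral_of_forall_valuationSubring O (fun V hV => ?_)
    rcases V.mem_or_inv_mem x with hxV | hxV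
    · exact sum_mem (fun i _ => mul_mem (hV _ (hαint i)) (pow_mem hxV _))
    · rw [hyinv]
      have h1 := hzr 0 (Nat.zero_le 1) (fun i hi => by
        have := (Finset.mem_filter.mp hi).2
        omega)
      rw [pow_zero, mul_one] at h1
      rw [h1]
      exact neg_mem (sum_mem (fun i _ => mul_mem (hV _ (hαint i)) (pow_mem hxV _)))
  · refine isIntegral_of_forall_valuationSubring O (fun V hV => ?_)
    rcases V.mem_or_inv_mem x with hxV | hxV
    · exact mul_mem (sum_mem (fun i _ => mul_mem (hV _ (hαint i)) (pow_mem hxV _))) hxV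
    · rw [hyinv, neg_mul]
      have h1 := hzr 1 le_rfl (fun i hi => by
        have := (Finset.mem_filter.mp hi).2
        omega)
      rw [pow_one] at h1
      rw [h1]
      exact neg_mem (sum_mem (fun i _ => mul_mem (hV _ (hαint i)) (pow_mem hxV _)))
  · intro V hV hVn hxV
    rw [V.mem_nonunits_iff, not_lt]
    have hrmem : r ∈ q.support.filter (fun i => r ≤ i) := Finset.mem_filter.mpr ⟨hrsupp, le_rfl⟩
    have hsplit : y = α r * x ^ (r - r) + ∑ i ∈ (q.support.filter (fun i => r ≤ i)).erase r,
        α i * x ^ (i - r) := by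
      rw [hy]
      exact (Finset.add_sum_erase _ (fun i => α i * x ^ (i - r)) hrmem).symm
    -- the valuation of `α r` is one
    have hαr : V.valuation (α r) = 1 := by
      have h1 : V.valuation (α r) ≤ 1 := (V.valuation_le_one_iff _).mpr (hV _ (hq r))
      have hc0 : q.coeff r ≠ 0 := Polynomial.mem_support_iff.mp hrsupp
      have h2 : (q.coeff r)⁻¹ ∈ O := by
        by_contra h
        apply hrunit
        have h3 := (O.inv_mem_nonunits_iff (x := (q.coeff r)⁻¹)).mpr (Or.inr h)
        rwa [inv_inv] at h3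
      have h3 : V.valuation (algebraMap F E (q.coeff r)⁻¹) ≤ 1 :=
        (V.valuation_le_one_iff _).mpr (hV _ h2)
      have h4 : V.valuation (α r) * V.valuation (algebraMap F E (q.coeff r)⁻¹) = 1 := by
        rw [← map_mul, hα, ← map_mul, mul_inv_cancel₀ hc0, map_one, map_one]
      refine le_antisymm h1 ?_
      rw [← h4]
      calc V.valuation (α r) * V.valuation (algebraMap F E (q.coeff r)⁻¹)
          ≤ V.valuation (α r) * 1 := mul_le_mul' le_rfl h3
        _ = V.valuation (α r) := mul_one _
    have hrest : V.valuation (∑ i ∈ (q.support.filter (fun i => r ≤ i)).erase r,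
        α i * x ^ (i - r)) < 1 := by
      refine Valuation.map_sum_lt V.valuation one_ne_zero (fun i hi => ?_)
      have hi1 := Finset.mem_erase.mp hi
      have hi2 := Finset.mem_filter.mp hi1.2
      have h1 : V.valuation (α i) < 1 :=
        V.mem_nonunits_iff.mp (hVn _ (hgt i hi2.1 (lt_of_le_of_ne hi2.2 (Ne.symm hi1.1))))
      have h2 : V.valuation (x ^ (i - r)) ≤ 1 := (V.valuation_le_one_iff _).mpr (pow_mem hxV _)
      rw [map_mul]
      calc V.valuation (α i) * V.valuation (x ^ (i - r))
          ≤ V.valuation (α i) * 1 := mul_le_mul' le_rfl h2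
        _ = V.valuation (α i) := mul_one _
        _ < 1 := h1
    rw [hsplit, Nat.sub_self, pow_zero, mul_one, Valuation.map_add_eq_of_lt_left _ (by rw [hαr]; exact hrest), hαr]

/-- Nonunits correspond under a valuation subring lying over `O`. -/
theorem algebraMap_mem_nonunits_iff {W : ValuationSubring E}
    (hW : W.comap (algebraMap F E) = O) (a : F) :
    algebraMap F E a ∈ W.nonunits ↔ a ∈ O.nonunits := by
  have h1 := W.inv_mem_nonunits_iff (x := (algebraMap F E a)⁻¹)
  have h2 := O.inv_mem_nonunits_iff (x := a⁻¹)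
  rw [inv_inv] at h1 h2
  rw [h1, h2, ← map_inv₀, ← hW, ValuationSubring.mem_comap, map_eq_zero]

/-- **Locality gives a valuation ring.**  If the integral closure `S` of the valuation ring `O`
in an algebraic extension `E` has at most one prime over the maximal ideal of `O`, then for
every `x ∈ E` either `x` or `x⁻¹` is integral over `O`. -/
theorem isIntegral_or_isIntegral_inv [Algebra.IsAlgebraic F E]
    (hloc : ∀ Q Q' : Ideal ↥(integralClosure ↥O E), Q.IsPrime → Q'.IsPrime →
      Q.comap (algebraMap ↥O ↥(integralClosure ↥O E)) = IsLocalRing.maximalIdeal ↥O →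
      Q'.comap (algebraMap ↥O ↥(integralClosure ↥O E)) = IsLocalRing.maximalIdeal ↥O → Q = Q')
    (x : E) : IsIntegral ↥O x ∨ IsIntegral ↥O x⁻¹ := by
  by_cases hx0 : x = 0
  · left
    rw [hx0]
    exact isIntegral_zero
  obtain ⟨M, hM⟩ := Ideal.exists_maximal ↥(integralClosure ↥O E)
  obtain ⟨V, hSV, hMV⟩ := Ideal.image_subset_nonunits_valuationSubring
    (A := (integralClosure ↥O E).toSubring) M hM.ne_top
  have hMO : M.comap (algebraMap ↥O ↥(integralClosure ↥O E)) = IsLocalRing.maximalIdeal ↥O :=
    IsLocalRing.eq_maximalIdeal (Ideal.isMaximal_comap_of_isIntegral_of_isMaximal M)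
  have hV : ∀ a : F, a ∈ O → algebraMap F E a ∈ V := fun a ha =>
    hSV (isIntegral_algebraMap (R := ↥O) (A := E) (x := (⟨a, ha⟩ : ↥O)))
  have hVn : ∀ a : F, a ∈ O.nonunits → algebraMap F E a ∈ V.nonunits := by
    intro a ha
    have haO : a ∈ O := O.nonunits_subset ha
    have h1 : (⟨a, haO⟩ : ↥O) ∈ IsLocalRing.maximalIdeal ↥O :=
      ValuationSubring.coe_mem_nonunits_iff.mp ha
    rw [← hMO, Ideal.mem_comap] at h1
    exact hMV ⟨_, h1, rfl⟩
  have hunit : ∀ y : E, IsIntegral ↥O y → y ∉ V.nonunits → IsIntegral ↥O y⁻¹ := by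
    intro y hy hyV
    by_contra hinv
    have hnu : ¬ IsUnit (⟨y, hy⟩ : ↥(integralClosure ↥O E)) := by
      intro hu
      obtain ⟨w, hw⟩ := isUnit_iff_exists_inv.mp hu
      apply hinv
      have h1 : y * (w : E) = 1 := congrArg Subtype.val hw
      have h2 : y⁻¹ = (w : E) := inv_eq_of_mul_eq_one_right h1
      rw [h2]
      exact w.2
    obtain ⟨M', hM', hyM'⟩ := exists_max_ideal_of_mem_nonunits hnu
    have hM'O : M'.comap (algebraMap ↥O ↥(integralClosure ↥O E)) = IsLocalRing.maximalIdeal ↥O :=
      IsLocalRing.eq_maximalIdeal (Ideal.isMaximal_comap_of_isIntegral_of_isMaximal M')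
    have h3 : M' = M := hloc M' M hM'.isPrime hM.isPrime hM'O hMO
    rw [h3] at hyM'
    exact hyV (hMV ⟨_, hyM', rfl⟩)
  have h0V : (0 : E) ∈ V.nonunits := V.mem_nonunits_iff.mpr (by rw [map_zero]; exact zero_lt_one)
  have main : ∀ u : E, u ≠ 0 → u ∈ V → IsIntegral ↥O u := by
    intro u hu0 huV
    obtain ⟨q, hq, hu, hqx⟩ := exists_poly_unit_coeff O u
    obtain ⟨y, hy, hyx, hyV⟩ := exists_mul_isIntegral O hu0 q hq hu hqx
    have h1 := hunit y hy (hyV V hV hVn huV)
    have hy0 : y ≠ 0 := fun h => hyV V hV hVn huV (h ▸ h0V)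
    have h2 : u = y⁻¹ * (y * u) := by
      rw [← mul_assoc, inv_mul_cancel₀ hy0, one_mul]
    rw [h2]
    exact h1.mul hyx
  rcases V.mem_or_inv_mem x with hxV | hxV
  · exact Or.inl (main x hx0 hxV)
  · exact Or.inr (main x⁻¹ (inv_ne_zero hx0) hxV)

/-- **Unique extension of a valuation ring.**  If the integral closure of the valuation ring `O`
in the algebraic extension `E` has at most one prime over the maximal ideal of `O`, then this
integral closure is a valuation subring `O'` of `E`, and it is the only valuation subring of `E`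
lying over `O`. -/
theorem exists_valuationSubring_integralClosure [Algebra.IsAlgebraic F E]
    (hloc : ∀ Q Q' : Ideal ↥(integralClosure ↥O E), Q.IsPrime → Q'.IsPrime →
      Q.comap (algebraMap ↥O ↥(integralClosure ↥O E)) = IsLocalRing.maximalIdeal ↥O →
      Q'.comap (algebraMap ↥O ↥(integralClosure ↥O E)) = IsLocalRing.maximalIdeal ↥O → Q = Q') :
    ∃ O' : ValuationSubring E, (∀ x : E, x ∈ O' ↔ IsIntegral ↥O x) ∧
      O'.comap (algebraMap F E) = O ∧
      ∀ W : ValuationSubring E, W.comap (algebraMap F E) = O → W = O' := by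
  let O' : ValuationSubring E :=
    { (integralClosure ↥O E).toSubring with
      mem_or_inv_mem' := fun x => isIntegral_or_isIntegral_inv O hloc x }
  have hmem : ∀ x : E, x ∈ O' ↔ IsIntegral ↥O x := fun x => Iff.rfl
  have hcomap : O'.comap (algebraMap F E) = O := by
    ext a
    rw [ValuationSubring.mem_comap, hmem, isIntegral_algebraMap_iff (algebraMap F E).injective,
      IsIntegrallyClosed.isIntegral_iff (K := F)]
    constructor
    · rintro ⟨y, rfl⟩
      exact y.2
    · intro ha
      exact ⟨⟨a, ha⟩, rfl⟩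
  refine ⟨O', hmem, hcomap, ?_⟩
  intro W hW
  have hWO : ∀ a : F, a ∈ O → algebraMap F E a ∈ W := fun a ha => by
    rw [← hW] at ha
    exact ha
  have hle : ∀ x : E, IsIntegral ↥O x → x ∈ W := fun x hx => mem_of_isIntegral_of_le O W hWO hx
  ext x
  refine ⟨fun hxW => ?_, fun hx => hle x ((hmem x).mp hx)⟩
  by_contra hxS
  have hxS' : ¬ IsIntegral ↥O x := fun h => hxS ((hmem x).mpr h)
  have hx0 : x ≠ 0 := fun h => hxS' (h ▸ isIntegral_zero)
  have hinv : IsIntegral ↥O x⁻¹ := (isIntegral_or_isIntegral_inv O hloc x).resolve_left hxS'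
  -- `x⁻¹` is not a unit of the integral closure
  have hnu : ¬ IsUnit (⟨x⁻¹, hinv⟩ : ↥(integralClosure ↥O E)) := by
    intro hu
    obtain ⟨w, hw⟩ := isUnit_iff_exists_inv.mp hu
    apply hxS'
    have h1 : x⁻¹ * (w : E) = 1 := congrArg Subtype.val hw
    have h2 : x = (w : E) := by
      have := inv_eq_of_mul_eq_one_right h1
      rw [inv_inv] at this
      exact this
    rw [h2]
    exact w.2
  obtain ⟨M, hM, hxM⟩ := exists_max_ideal_of_mem_nonunits hnu
  have hMO : M.comap (algebraMap ↥O ↥(integralClosure ↥O E)) = IsLocalRing.maximalIdeal ↥O :=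
    IsLocalRing.eq_maximalIdeal (Ideal.isMaximal_comap_of_isIntegral_of_isMaximal M)
  -- the prime of the integral closure cut out by `W`
  let iW : ↥(integralClosure ↥O E) →+* ↥W :=
    RingHom.codRestrict ((integralClosure ↥O E).val : ↥(integralClosure ↥O E) →+* E) W
      (fun s => hle _ s.2)
  have hQO : ((IsLocalRing.maximalIdeal ↥W).comap iW).comap
      (algebraMap ↥O ↥(integralClosure ↥O E)) = IsLocalRing.maximalIdeal ↥O := by
    ext a
    rw [Ideal.mem_comap, Ideal.mem_comap, ← ValuationSubring.coe_mem_nonunits_iff,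
      ← ValuationSubring.coe_mem_nonunits_iff]
    exact algebraMap_mem_nonunits_iff O hW (a : F)
  have h3 : M = (IsLocalRing.maximalIdeal ↥W).comap iW :=
    hloc M _ hM.isPrime (Ideal.comap_isPrime _ _) hMO hQO
  rw [h3, Ideal.mem_comap, ← ValuationSubring.coe_mem_nonunits_iff] at hxM
  have h4 : x⁻¹ ∈ W.nonunits := hxM
  rcases W.inv_mem_nonunits_iff.mp h4 with h | h
  · exact hx0 h
  · exact h hxW

end ValRing

section GaussLift

variable {A0 F0 E : Type*} [CommRing A0] [Field F0] [Algebra A0 F0] [Field E] [Algebra F0 E]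
  [Algebra A0 E] [IsScalarTower A0 F0 E]
variable {ϖ : A0} {t : F0} {O : ValuationSubring F0}

/-- A polynomial in `t` which is a unit of the Gauss valuation ring has a coefficient prime to
`ϖ`. -/
theorem exists_coeff_not_dvd (hG : GaussData ϖ t O) {s : A0[X]}
    (hs : O.valuation (aeval t s) = 1) : ∃ i, ¬ ϖ ∣ s.coeff i := by
  by_contra hcon
  have hcon' : ∀ i, ϖ ∣ s.coeff i := fun i => by_contra fun h => hcon ⟨i, h⟩
  obtain ⟨g, rfl⟩ := (Polynomial.C_dvd_iff_dvd_coeff ϖ s).mpr hcon'
  have h1 : O.valuation (algebraMap A0 F0 ϖ) < 1 := O.mem_nonunits_iff.mp hG.unif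
  have h2 : O.valuation (aeval t g) ≤ 1 :=
    (O.valuation_le_one_iff _).mpr (Fermat.Agent.S18.helper2759.aeval_mem hG g)
  rw [map_mul, Polynomial.aeval_C, map_mul] at hs
  have h3 : O.valuation (algebraMap A0 F0 ϖ) * O.valuation (aeval t g) < 1 :=
    calc O.valuation (algebraMap A0 F0 ϖ) * O.valuation (aeval t g)
        ≤ O.valuation (algebraMap A0 F0 ϖ) * 1 := mul_le_mul' le_rfl h2
      _ = O.valuation (algebraMap A0 F0 ϖ) := mul_one _
      _ < 1 := h1
  rw [hs] at h3
  exact lt_irrefl _ h3

/-- `GaussData` passes to a valuation subring `O'` of `E` lying over `O` whose elements are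
integral over `O`. -/
theorem gaussData_of_integral (hG : GaussData ϖ t O) (O' : ValuationSubring E)
    (hcomap : O'.comap (algebraMap F0 E) = O) (hint : ∀ x : E, x ∈ O' → IsIntegral ↥O x) :
    GaussData ϖ (algebraMap F0 E t) O' := by
  have hmem : ∀ a : F0, a ∈ O → algebraMap F0 E a ∈ O' := fun a ha => by
    rw [← hcomap] at ha
    exact ha
  refine ⟨fun x => ?_, ?_, hmem t hG.t_mem, fun p hp => ?_, fun x hx => ?_⟩
  · rw [IsScalarTower.algebraMap_apply A0 F0 E]
    exact hmem _ (hG.le x)
  · rw [IsScalarTower.algebraMap_apply A0 F0 E]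
    exact (algebraMap_mem_nonunits_iff O hcomap _).mpr hG.unif
  · rw [Polynomial.aeval_algebraMap_apply] at hp
    exact hG.prim p ((algebraMap_mem_nonunits_iff O hcomap _).mp hp)
  · obtain ⟨s, hs1, hs2⟩ :=
      Fermat.Agent.S18.helper2759.exists_unit_mul_isIntegral hG (hint x hx)
    exact ⟨s, exists_coeff_not_dvd hG hs1, hs2⟩

/-- **(T1) GAUSSLIFT.**  Let `O` be the Gauss place of `F0 ⊇ K0(t)` (`GaussData ϖ t O`) and
`E / F0` an algebraic extension whose finite chart (the integral closure of `A0[t]` in `E`) has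
at most one minimal prime over `ϖ`.  Then the integral closure `O'` of `O` in `E` is a valuation
subring of `E`; it lies over `O`, satisfies `GaussData` for `E`, and is the only valuation
subring of `E` lying over `O`. -/
theorem gaussLift [Algebra.IsAlgebraic F0 E] (hG : GaussData ϖ t O)
    (huniq : ∀ Q1 Q2 : Ideal ↥(icl (Algebra.adjoin A0 {algebraMap F0 E t})),
      Q1 ∈ (Ideal.span
        {algebraMap A0 ↥(icl (Algebra.adjoin A0 {algebraMap F0 E t})) ϖ}).minimalPrimes →
      Q2 ∈ (Ideal.span
        {algebraMap A0 ↥(icl (Algebra.adjoin A0 {algebraMap F0 E t})) ϖ}).minimalPrimes →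
      Q1 = Q2) :
    ∃ O' : ValuationSubring E, O'.comap (algebraMap F0 E) = O ∧
      (∀ x : E, x ∈ O' ↔ IsIntegral ↥O x) ∧
      GaussData ϖ (algebraMap F0 E t) O' ∧
      ∀ W : ValuationSubring E, W.comap (algebraMap F0 E) = O → W = O' := by
  obtain ⟨O', hmem, hcomap, hW⟩ := exists_valuationSubring_integralClosure (E := E) O
    (fun Q Q' hQ hQ' hQP hQ'P =>
      Fermat.Agent.S18.helper2759.unique_prime_over hG huniq Q Q' hQ hQ' hQP hQ'P)
  exact ⟨O', hcomap, hmem, gaussData_of_integral hG O' hcomap (fun x hx => (hmem x).mp hx), hW⟩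

end GaussLift

end Fermat.Agent.S48.helper6839
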