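import Fermat.Agent.S48.helper6839_TowerKummer
import Fermat.Agent.S48.helper2675_BaseVert

/-!
# S48, tower step for the S18 track-B machine (helper6839): final form without `hF`

`tower_kummer_res` is `tower_kummer` with clause (c) of the base field `F / K0(τ)` discharged
from the residue data of the Gauss place of `F` (`helper2675.base_vertF`).  The hypotheses are:

* BASE: `GaussData D.ϖ t O`, transcendence and finiteness of `F / K0(t)`, the residue data
  `red : O → Fκ ⊇ κ` of the Gauss place of `F` (unbundled `helper648.ResDatum`);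
* LAYER: a power basis of `D.F0 / F` with generator integral over `O` and unit discriminant, and
  `D.O` a valuation subring of `D.F0` lying over `O`;
* KUMMER LAYER: the `Good`/`Facts` fields of `D` which do not concern the Gauss place of `D.F0`.
-/

set_option autoImplicit false
set_option synthInstance.maxHeartbeats 400000
set_option linter.style.haveILetI false
set_option linter.unusedSectionVars false

noncomputable section

namespace Fermat.Agent.S48.helper6839

open Polynomial
open Fermat.Agent.S18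
open Fermat.Agent.S18.helper3578

variable (D : KData) {F : Type} [Field F] [Algebra D.K0 F] [Algebra D.A0 F]
  [IsScalarTower D.A0 D.K0 F] [Algebra F D.F0] [IsScalarTower D.K0 F D.F0]
  [IsScalarTower D.A0 F D.F0]

/-- Clause (c) of the base field of the layer on both charts, from its residue data. -/
theorem layer_baseVert {t : F} {O : ValuationSubring F} (hirr : Irreducible D.ϖ)
    (hG : GaussData D.ϖ t O) (htr : Transcendental D.K0 t)
    [FiniteDimensional ↥(IntermediateField.adjoin D.K0 ({t} : Set F)) F]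
    [FiniteDimensional F D.F0]
    (hconst : ∀ z : D.F0, IsAlgebraic D.K0 z → z ∈ Set.range (algebraMap D.K0 D.F0))
    {κ Fκ : Type} [Field κ] [Field Fκ] [Algebra κ Fκ] [Algebra.IsSeparable κ Fκ]
    (red : ↥O →+* Fκ) (hred : Function.Surjective red)
    (hRA : ∀ a : D.A0, red ⟨algebraMap D.A0 F a, hG.le a⟩ ∈ Set.range (algebraMap κ Fκ))
    (hRt : red ⟨t, hG.t_mem⟩ ∈ Set.range (algebraMap κ Fκ))
    (hR3 : Module.finrank ↥(IntermediateField.adjoin D.K0 ({t} : Set F)) F
      ≤ Module.finrank κ Fκ)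
    (τ : F) (hτ : τ = t ∨ τ = t⁻¹) :
    ∃ (ι : Type) (_ : Fintype ι) (_ : DecidableEq ι)
      (c : Module.Basis ι ↥(IntermediateField.adjoin D.K0 ({τ} : Set F)) F) (dp : D.A0[X]),
      (∀ i, IsIntegral ↥(Algebra.adjoin D.A0 ({τ} : Set F)) (c i)) ∧
      algebraMap ↥(IntermediateField.adjoin D.K0 ({τ} : Set F)) F
        (Algebra.discr ↥(IntermediateField.adjoin D.K0 ({τ} : Set F)) c) = aeval τ dp ∧
      ∃ i, ¬ D.ϖ ∣ dp.coeff i := by
  have hfinE : FiniteDimensional
      ↥(IntermediateField.adjoin D.K0 ({algebraMap F D.F0 t} : Set D.F0)) D.F0 :=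
    Fermat.Agent.S48.helper648.finiteDimensional_adjoin_algebraMap (K := D.K0) (F := F)
      (E := D.F0) t
  have hgood1 : (layer D F t O).Good 1 := layer_good hirr hG htr hfinE hconst
  exact Fermat.Agent.S48.helper2675.base_vertF (layer D F t O) hgood1 red hred hRA hRt hR3 τ hτ

/-- **(T4) Tower form of the abstract half of track B**, with every hypothesis on the base
field `F` in the landed shapes (`GaussData`, unbundled `helper648.ResDatum`).  See
`tower_kummer` for the description of the hypotheses. -/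
theorem tower_kummer_res (m : ℕ) {t : F} {O : ValuationSubring F}
    (ht : algebraMap F D.F0 t = D.t) (hO : D.O.comap (algebraMap F D.F0) = O)
    (hirr : Irreducible D.ϖ) (hG : GaussData D.ϖ t O) (htr : Transcendental D.K0 t)
    [FiniteDimensional ↥(IntermediateField.adjoin D.K0 ({t} : Set F)) F]
    (c0 : D.A0) (hc0 : ¬ D.ϖ ∣ c0)
    {κ Fκ : Type} [Field κ] [Field Fκ] [Algebra κ Fκ] [Algebra.IsSeparable κ Fκ]
    (red : ↥O →+* Fκ) (hred : Function.Surjective red)
    (hRA : ∀ a : D.A0, red ⟨algebraMap D.A0 F a, hG.le a⟩ ∈ Set.range (algebraMap κ Fκ))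
    (hRt : red ⟨t, hG.t_mem⟩ ∈ Set.range (algebraMap κ Fκ))
    (hR3 : Module.finrank ↥(IntermediateField.adjoin D.K0 ({t} : Set F)) F
      ≤ Module.finrank κ Fκ)
    (pb : PowerBasis F D.F0) (hpb : IsIntegral ↥O pb.gen)
    (hdisc : (Algebra.discr F pb.basis)⁻¹ ∈ O)
    (hgenθ : Algebra.adjoin D.F0 ({D.θ} : Set D.L0) = ⊤)
    (hconstL : ∀ z : D.L0, IsAlgebraic D.K0 z → z ∈ Set.range (algebraMap D.K0 D.L0))
    (hm : IsUnit (m : D.A0)) (hζ : IsPrimitiveRoot D.ζ m) (hU : D.U ∈ D.O) (hU' : D.U⁻¹ ∈ D.O)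
    (hh : D.h ∈ D.O) (hhU : D.h ^ m - D.U ∈ D.O.nonunits)
    (hθ : D.θ ^ m = algebraMap D.F0 D.L0 D.U)
    (bar : S18.helper648.BarDatum D c0) :
    D.Good m ∧ Nonempty (S18.helper648.Facts D c0) ∧ ∃ V : D.F0, V ^ m = D.U := by
  haveI : FiniteDimensional F D.F0 := pb.finite
  exact tower_kummer D m ht hO hirr hG htr c0 hc0
    (fun τ hτ => layer_baseVert D hirr hG htr (const_base D hconstL) red hred hRA hRt hR3 τ hτ)
    red hred hRA hRt hR3 pb hpb hdisc hgenθ hconstL hm hζ hU hU' hh hhU hθ bar

/-- **Igusa for the upper field, residue-data form** (no Kummer layer): in the situation of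
`tower_kummer_res`, given only a geometric datum of the layer `D.F0 / F`, the valuation subring
`D.O` is the integral closure of `O` in `D.F0` and is the Gauss place of `D.F0`
(`GaussData D.ϖ D.t D.O`); moreover `D` has a residue datum. -/
theorem tower_gauss_res {t : F} {O : ValuationSubring F}
    (ht : algebraMap F D.F0 t = D.t) (hO : D.O.comap (algebraMap F D.F0) = O)
    (hirr : Irreducible D.ϖ) (hG : GaussData D.ϖ t O) (htr : Transcendental D.K0 t)
    [FiniteDimensional ↥(IntermediateField.adjoin D.K0 ({t} : Set F)) F]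
    (hconst : ∀ z : D.F0, IsAlgebraic D.K0 z → z ∈ Set.range (algebraMap D.K0 D.F0))
    (c0 : D.A0) (hc0 : ¬ D.ϖ ∣ c0)
    {κ Fκ : Type} [Field κ] [Field Fκ] [Algebra κ Fκ] [Algebra.IsSeparable κ Fκ]
    (red : ↥O →+* Fκ) (hred : Function.Surjective red)
    (hRA : ∀ a : D.A0, red ⟨algebraMap D.A0 F a, hG.le a⟩ ∈ Set.range (algebraMap κ Fκ))
    (hRt : red ⟨t, hG.t_mem⟩ ∈ Set.range (algebraMap κ Fκ))
    (hR3 : Module.finrank ↥(IntermediateField.adjoin D.K0 ({t} : Set F)) F
      ≤ Module.finrank κ Fκ)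
    (pb : PowerBasis F D.F0) (hpb : IsIntegral ↥O pb.gen)
    (hdisc : (Algebra.discr F pb.basis)⁻¹ ∈ O)
    (bar : S18.helper648.BarDatum (layer D F t O) c0) :
    (∀ x : D.F0, x ∈ D.O ↔ IsIntegral ↥O x) ∧ GaussData D.ϖ D.t D.O ∧
      Nonempty (S18.helper648.ResDatum D) := by
  haveI : FiniteDimensional F D.F0 := pb.finite
  haveI : CharZero F := charZero_of_injective_algebraMap (algebraMap D.K0 F).injective
  have hfinE : FiniteDimensional
      ↥(IntermediateField.adjoin D.K0 ({algebraMap F D.F0 t} : Set D.F0)) D.F0 :=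
    Fermat.Agent.S48.helper648.finiteDimensional_adjoin_algebraMap (K := D.K0) (F := F)
      (E := D.F0) t
  have hgood1 : (layer D F t O).Good 1 := layer_good hirr hG htr hfinE hconst
  obtain ⟨hv0, hv1⟩ := Fermat.Agent.S48.helper3552.kdata_vertAt_both_of_tower_O
    (layer D F t O) hgood1
    (fun τ hτ => layer_baseVert D hirr hG htr hconst red hred hRA hRt hR3 τ hτ) pb hpb hdisc
  obtain ⟨hmem, hGD⟩ := tower_gauss D ht hO hirr hG htr hconst c0 hc0 hv0 hv1 bar
  have hunit := Fermat.Agent.S48.helper2720.inv_derivative_mem_of_discr O D.O hmem pb hpb hdisc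
  exact ⟨hmem, hGD, tower_resDatum D ht hG hmem red hred hRA hRt hR3 hpb
    (Fermat.Agent.S48.helper2720.adjoin_gen_eq_top pb) hunit⟩

end Fermat.Agent.S48.helper6839
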