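import Fermat.Agent.S48.helper6839_GaussTower
import Fermat.Agent.S48.helper2720_ResLift
import Fermat.Agent.S48.helper648_BarGen
import Fermat.Agent.S48.helper3552_TowerVertO

/-!
# S48, tower step for the S18 track-B machine (helper6839): assembly (T4)

`D` is a Kummer model (`helper3578.KData`) whose base field `D.F0` is a simple layer over a
lower function field `F` (e.g. `F` = the model of the `Γ0(M)` field, `D.F0` = the model of the
`Γ1(M)` field, `D.L0 = D.F0(θ)`).  The Gauss place of `F` is known (`GaussData`, residue data);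
for `D.F0` only a valuation subring `D.O` lying over it is given.  Then:

* `layer D F t O` : the layer `D.F0 / F` as a model with trivial Kummer data;
* `unique_minimalPrime_of_oneComp` : the first half of `helper2759.stmt_KummerGlobal`;
* `tower_good` : `D.Good m` (in particular `GaussData` for `D.O`);
* `tower_kummer_of_vert` : `∃ V : D.F0, V ^ m = D.U`.
-/

set_option autoImplicit false
set_option synthInstance.maxHeartbeats 400000
set_option linter.style.haveILetI false
set_option linter.unusedSectionVars false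

noncomputable section

namespace Fermat.Agent.S48.helper6839

open Polynomial
open Fermat.Agent.S18
open Fermat.Agent.S18.helper3578
open Fermat.Agent.S18.helper5122

/-- **One minimal prime over `ϖ` in the finite chart** of a good model with the `OneComp`
property (the first half of the proof of `helper2759.stmt_KummerGlobal`, in the shape of the
hypothesis `huniq` of `helper2759.unique_prime_over` and of `gaussLift`). -/
theorem unique_minimalPrime_of_oneComp (D : KData) (m : ℕ) (hG : D.Good m) (hOne : D.OneComp) :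
    ∀ Q1 Q2 : Ideal ↥(icl (Algebra.adjoin D.A0 {algebraMap D.F0 D.L0 D.t})),
      Q1 ∈ (Ideal.span
        {algebraMap D.A0 ↥(icl (Algebra.adjoin D.A0 {algebraMap D.F0 D.L0 D.t})) D.ϖ}).minimalPrimes →
      Q2 ∈ (Ideal.span
        {algebraMap D.A0 ↥(icl (Algebra.adjoin D.A0 {algebraMap D.F0 D.L0 D.t})) D.ϖ}).minimalPrimes →
      Q1 = Q2 := by
  have htK : Transcendental D.K0 D.tL :=
    (transcendental_algebraMap_iff (algebraMap D.F0 D.L0).injective).mpr hG.transc
  have htA : Transcendental D.A0 D.tL :=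
    htK.restrictScalars (IsFractionRing.injective D.A0 D.K0)
  have htK' : Transcendental D.K0 D.tL⁻¹ := fun h => htK (by simpa using h.inv)
  have htA' : Transcendental D.A0 D.tL⁻¹ :=
    htK'.restrictScalars (IsFractionRing.injective D.A0 D.K0)
  haveI := hG.finite
  have hfin0 := helper5377.finite_integralClosure_adjoin (A0 := D.A0) (K0 := D.K0) D.tL htA
  have hadj : IntermediateField.adjoin D.K0 ({D.tL⁻¹} : Set D.L0)
      = IntermediateField.adjoin D.K0 ({D.tL} : Set D.L0) := by
    apply le_antisymm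
    · rw [IntermediateField.adjoin_simple_le_iff]
      exact inv_mem (IntermediateField.mem_adjoin_simple_self _ _)
    · rw [IntermediateField.adjoin_simple_le_iff]
      have h1 := inv_mem (IntermediateField.mem_adjoin_simple_self D.K0 D.tL⁻¹)
      rwa [inv_inv] at h1
  haveI : FiniteDimensional ↥(IntermediateField.adjoin D.K0 ({D.tL⁻¹} : Set D.L0)) D.L0 := by
    rw [hadj]
    exact hG.finite
  have hfin1 := helper5377.finite_integralClosure_adjoin (A0 := D.A0) (K0 := D.K0) D.tL⁻¹ htA'
  have hcl : ∀ x : D.L0, IsIntegral D.A0 x → ∃ α : D.A0, algebraMap D.A0 D.L0 α = x :=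
    fun x hx => helper5377.range_of_isIntegral_of_algClosed (K0 := D.K0)
      (fun z hz => hG.const z hz) x hx
  exact fun Q1 Q2 h1 h2 =>
    helper2128.icl_unique_component_of_closed hcl hG.irr.prime D.tL htA hfin0 hfin1
      hOne.1 hOne.2 h1 h2

section Layer

variable (D : KData) (F : Type) [Field F] [Algebra D.K0 F] [Algebra D.A0 F]
  [IsScalarTower D.A0 D.K0 F] [Algebra F D.F0] [IsScalarTower D.K0 F D.F0]
  [IsScalarTower D.A0 F D.F0]

/-- The layer `D.F0 / F` under the base field of a model `D`, as a model with trivial Kummer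
data (`ζ = U = h = θ = 1`, to be used with `m = 1`). -/
abbrev layer (t : F) (O : ValuationSubring F) : KData :=
  { A0 := D.A0
    K0 := D.K0
    F0 := F
    L0 := D.F0
    ϖ := D.ϖ
    t := t
    O := O
    ζ := 1
    U := 1
    h := 1
    θ := 1 }

variable {D F}

/-- The layer is a good model (with `m = 1`). -/
theorem layer_good {t : F} {O : ValuationSubring F} (hirr : Irreducible D.ϖ)
    (hG : GaussData D.ϖ t O) (htr : Transcendental D.K0 t)
    (hfin : FiniteDimensional
      ↥(IntermediateField.adjoin D.K0 ({algebraMap F D.F0 t} : Set D.F0)) D.F0)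
    (hconst : ∀ z : D.F0, IsAlgebraic D.K0 z → z ∈ Set.range (algebraMap D.K0 D.F0)) :
    (layer D F t O).Good 1 where
  irr := hirr
  gauss := hG
  transc := htr
  finite := hfin
  const := hconst
  unit_m := by
    show IsUnit ((1 : ℕ) : D.A0)
    rw [Nat.cast_one]
    exact isUnit_one
  prim_root := IsPrimitiveRoot.one
  U_mem := O.one_mem
  U_inv_mem := by
    show (1 : F)⁻¹ ∈ O
    rw [inv_one]
    exact O.one_mem
  h_mem := O.one_mem
  h_pow := by
    show (1 : F) ^ 1 - 1 ∈ O.nonunits
    rw [pow_one, sub_self, O.mem_nonunits_iff, map_zero]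
    exact zero_lt_one
  θ_pow := by
    show (1 : D.F0) ^ 1 = algebraMap F D.F0 1
    rw [pow_one, map_one]

/-- The geometric datum of a model restricts to the layer under its base field. -/
def barLayer {t : F} (O : ValuationSubring F) (ht : algebraMap F D.F0 t = D.t) (c0 : D.A0)
    (bar : helper648.BarDatum D c0) : helper648.BarDatum (layer D F t O) c0 where
  Kb := bar.Kb
  Eb := bar.Eb
  fieldK := bar.fieldK
  algClosed := bar.algClosed
  charZero := bar.charZero
  algK0 := bar.algK0
  isAlg := bar.isAlg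
  fieldE := bar.fieldE
  algKE := bar.algKE
  algK0E := bar.algK0E
  tower := bar.tower
  i := bar.i.comp (IsScalarTower.toAlgHom D.K0 D.F0 D.L0)
  transc := by
    have h1 : (bar.i.comp (IsScalarTower.toAlgHom D.K0 D.F0 D.L0)) (layer D F t O).tL
        = bar.i D.tL := by
      show bar.i (algebraMap D.F0 D.L0 (algebraMap F D.F0 t)) = bar.i D.tL
      rw [ht]
      rfl
    rw [h1]
    exact bar.transc
  finite := by
    have h1 : (bar.i.comp (IsScalarTower.toAlgHom D.K0 D.F0 D.L0)) (layer D F t O).tL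
        = bar.i D.tL := by
      show bar.i (algebraMap D.F0 D.L0 (algebraMap F D.F0 t)) = bar.i D.tL
      rw [ht]
      rfl
    rw [h1]
    exact bar.finite
  simple := by
    have h1 : (bar.i.comp (IsScalarTower.toAlgHom D.K0 D.F0 D.L0)) (layer D F t O).tL
        = bar.i D.tL := by
      show bar.i (algebraMap D.F0 D.L0 (algebraMap F D.F0 t)) = bar.i D.tL
      rw [ht]
      rfl
    rw [h1]
    exact bar.simple

end Layer

section Main

variable (D : KData) {F : Type} [Field F] [Algebra D.K0 F] [Algebra D.A0 F]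
  [IsScalarTower D.A0 D.K0 F] [Algebra F D.F0] [IsScalarTower D.K0 F D.F0]
  [IsScalarTower D.A0 F D.F0] [FiniteDimensional F D.F0]

/-- `K0` is algebraically closed in `D.F0` if it is in `D.L0`. -/
theorem const_base
    (hconstL : ∀ z : D.L0, IsAlgebraic D.K0 z → z ∈ Set.range (algebraMap D.K0 D.L0))
    (z : D.F0) (hz : IsAlgebraic D.K0 z) : z ∈ Set.range (algebraMap D.K0 D.F0) := by
  obtain ⟨c, hc⟩ := hconstL (algebraMap D.F0 D.L0 z) (hz.algebraMap (A := D.L0))
  refine ⟨c, (algebraMap D.F0 D.L0).injective ?_⟩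
  rw [← hc, ← IsScalarTower.algebraMap_apply D.K0 D.F0 D.L0]

/-- **(T4a) The Gauss place of the upper field.**  Let `D.F0` be a finite layer over `F`, `O`
the Gauss place of `F` (`GaussData`), and `D.O` a valuation subring of `D.F0` lying over `O`.
If the layer satisfies clause (c) on both charts and has a geometric datum, then `D.O` is the
integral closure of `O` in `D.F0` and `GaussData` holds for `D.O`. -/
theorem tower_gauss {t : F} {O : ValuationSubring F} (ht : algebraMap F D.F0 t = D.t)
    (hO : D.O.comap (algebraMap F D.F0) = O) (hirr : Irreducible D.ϖ) (hG : GaussData D.ϖ t O)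
    (htr : Transcendental D.K0 t)
    [FiniteDimensional ↥(IntermediateField.adjoin D.K0 ({t} : Set F)) F]
    (hconst : ∀ z : D.F0, IsAlgebraic D.K0 z → z ∈ Set.range (algebraMap D.K0 D.F0))
    (c0 : D.A0) (hc0 : ¬ D.ϖ ∣ c0)
    (hv0 : (layer D F t O).VertAt (layer D F t O).tL)
    (hv1 : (layer D F t O).VertAt (layer D F t O).tL⁻¹)
    (bar : S18.helper648.BarDatum (layer D F t O) c0) :
    (∀ x : D.F0, x ∈ D.O ↔ IsIntegral ↥O x) ∧ GaussData D.ϖ D.t D.O := by
  have hfinE : FiniteDimensional
      ↥(IntermediateField.adjoin D.K0 ({algebraMap F D.F0 t} : Set D.F0)) D.F0 :=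
    Fermat.Agent.S48.helper648.finiteDimensional_adjoin_algebraMap (K := D.K0) (F := F)
      (E := D.F0) t
  have hgood : (layer D F t O).Good 1 := layer_good hirr hG htr hfinE hconst
  have hone : (layer D F t O).OneComp :=
    Fermat.Agent.S48.helper648.oneComp_of_vert_bar (layer D F t O) 1 c0 hgood hc0 hv0 hv1 bar
  have huniq := unique_minimalPrime_of_oneComp (layer D F t O) 1 hgood hone
  haveI : Algebra.IsAlgebraic F D.F0 := Algebra.IsAlgebraic.of_finite F D.F0
  obtain ⟨O', hcomap, hmem, hGD, hW⟩ := gaussLift (A0 := D.A0) (F0 := F) (E := D.F0) hG huniq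
  have hOO' : D.O = O' := hW D.O hO
  rw [← hOO'] at hmem hGD
  rw [ht] at hGD
  exact ⟨hmem, hGD⟩

/-- **(T4b) `Good` for the upper model**, from `GaussData` of its Gauss place and the
field-level facts. -/
theorem tower_good (m : ℕ) {t : F} (ht : algebraMap F D.F0 t = D.t)
    (hirr : Irreducible D.ϖ) (hGD : GaussData D.ϖ D.t D.O) (htr : Transcendental D.K0 t)
    [FiniteDimensional ↥(IntermediateField.adjoin D.K0 ({t} : Set F)) F]
    [FiniteDimensional D.F0 D.L0]
    (hconstL : ∀ z : D.L0, IsAlgebraic D.K0 z → z ∈ Set.range (algebraMap D.K0 D.L0))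
    (hm : IsUnit (m : D.A0)) (hζ : IsPrimitiveRoot D.ζ m) (hU : D.U ∈ D.O) (hU' : D.U⁻¹ ∈ D.O)
    (hh : D.h ∈ D.O) (hhU : D.h ^ m - D.U ∈ D.O.nonunits)
    (hθ : D.θ ^ m = algebraMap D.F0 D.L0 D.U) : D.Good m where
  irr := hirr
  gauss := hGD
  transc := by
    have h1 := (transcendental_algebraMap_iff (algebraMap F D.F0).injective).mpr htr
    rwa [ht] at h1
  finite := by
    haveI hfinE : FiniteDimensional
        ↥(IntermediateField.adjoin D.K0 ({algebraMap F D.F0 t} : Set D.F0)) D.F0 :=
      Fermat.Agent.S48.helper648.finiteDimensional_adjoin_algebraMap (K := D.K0) (F := F)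
        (E := D.F0) t
    rw [ht] at hfinE
    exact Fermat.Agent.S48.helper648.finiteDimensional_adjoin_algebraMap (K := D.K0)
      (F := D.F0) (E := D.L0) D.t
  const := hconstL
  unit_m := hm
  prim_root := hζ
  U_mem := hU
  U_inv_mem := hU'
  h_mem := hh
  h_pow := hhU
  θ_pow := hθ

/-- **(T4c) Residue data of the upper model** (`helper648.ResDatum D`), from the residue data of
the Gauss place `O` of the lower field `F` and a generator `y` of the layer, integral over `O`,
such that `P'(y)` is a unit of `D.O` (`P` the minimal polynomial of `y`). -/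
theorem tower_resDatum {t : F} {O : ValuationSubring F} (ht : algebraMap F D.F0 t = D.t)
    (hG : GaussData D.ϖ t O) (hmem : ∀ x : D.F0, x ∈ D.O ↔ IsIntegral ↥O x)
    {κ Fκ : Type} [Field κ] [Field Fκ] [Algebra κ Fκ] [Algebra.IsSeparable κ Fκ]
    (red : ↥O →+* Fκ) (hred : Function.Surjective red)
    (hRA : ∀ a : D.A0, red ⟨algebraMap D.A0 F a, hG.le a⟩ ∈ Set.range (algebraMap κ Fκ))
    (hRt : red ⟨t, hG.t_mem⟩ ∈ Set.range (algebraMap κ Fκ))
    (hR3 : Module.finrank ↥(IntermediateField.adjoin D.K0 ({t} : Set F)) F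
      ≤ Module.finrank κ Fκ)
    {y : D.F0} (hy : IsIntegral ↥O y) (hgen : IntermediateField.adjoin F ({y} : Set D.F0) = ⊤)
    (hunit : (aeval y (derivative (minpoly F y)))⁻¹ ∈ D.O) :
    Nonempty (S18.helper648.ResDatum D) := by
  haveI : CharZero F := charZero_of_injective_algebraMap (algebraMap D.K0 F).injective
  obtain ⟨Fκ', iF, iA, iS, red', hsurj, hbase, hfr⟩ :=
    Fermat.Agent.S48.helper2720.exists_resLift (K0 := D.K0) O D.O red hred hmem hy hgen hunit t
      hR3
  rw [ht] at hfr
  refine ⟨{ κ := κ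
            Fκ := Fκ'
            red := red'
            red_surj := hsurj
            red_base := fun a h => ?_
            red_coord := fun h => ?_
            finrank_le := hfr }⟩
  · have h1 : algebraMap F D.F0 ((⟨algebraMap D.A0 F a, hG.le a⟩ : ↥O) : F) ∈ D.O := by
      show algebraMap F D.F0 (algebraMap D.A0 F a) ∈ D.O
      rw [← IsScalarTower.algebraMap_apply D.A0 F D.F0]
      exact h
    have h2 := hbase ⟨algebraMap D.A0 F a, hG.le a⟩ h1 (hRA a)
    have h3 : (⟨algebraMap D.A0 D.F0 a, h⟩ : ↥D.O)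
        = ⟨algebraMap F D.F0 ((⟨algebraMap D.A0 F a, hG.le a⟩ : ↥O) : F), h1⟩ :=
      Subtype.ext (IsScalarTower.algebraMap_apply D.A0 F D.F0 a)
    rw [h3]
    exact h2
  · have h1 : algebraMap F D.F0 ((⟨t, hG.t_mem⟩ : ↥O) : F) ∈ D.O := by
      show algebraMap F D.F0 t ∈ D.O
      rw [ht]
      exact h
    have h2 := hbase ⟨t, hG.t_mem⟩ h1 hRt
    have h3 : (⟨D.t, h⟩ : ↥D.O) = ⟨algebraMap F D.F0 ((⟨t, hG.t_mem⟩ : ↥O) : F), h1⟩ :=
      Subtype.ext ht.symm
    rw [h3]
    exact h2

/-- **(T4) Tower form of the abstract half of track B.**  `D` is a Kummer model whose base field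
`D.F0` is a layer `F(y)` over a function field `F` with known Gauss place `O` (`GaussData`,
residue data); `D.O` is a valuation subring of `D.F0` over `O` in which `P'(y)` is a unit.
Given clause (c) for the layer on both charts and the geometric datum of `D`, the Gauss unit
`D.U` is an `m`-th power in `D.F0`. -/
theorem tower_kummer_of_vert (m : ℕ) {t : F} {O : ValuationSubring F}
    (ht : algebraMap F D.F0 t = D.t) (hO : D.O.comap (algebraMap F D.F0) = O)
    (hirr : Irreducible D.ϖ) (hG : GaussData D.ϖ t O) (htr : Transcendental D.K0 t)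
    [FiniteDimensional ↥(IntermediateField.adjoin D.K0 ({t} : Set F)) F]
    (c0 : D.A0) (hc0 : ¬ D.ϖ ∣ c0)
    (hv0 : (layer D F t O).VertAt (layer D F t O).tL)
    (hv1 : (layer D F t O).VertAt (layer D F t O).tL⁻¹)
    {κ Fκ : Type} [Field κ] [Field Fκ] [Algebra κ Fκ] [Algebra.IsSeparable κ Fκ]
    (red : ↥O →+* Fκ) (hred : Function.Surjective red)
    (hRA : ∀ a : D.A0, red ⟨algebraMap D.A0 F a, hG.le a⟩ ∈ Set.range (algebraMap κ Fκ))
    (hRt : red ⟨t, hG.t_mem⟩ ∈ Set.range (algebraMap κ Fκ))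
    (hR3 : Module.finrank ↥(IntermediateField.adjoin D.K0 ({t} : Set F)) F
      ≤ Module.finrank κ Fκ)
    {y : D.F0} (hy : IsIntegral ↥O y) (hgen : IntermediateField.adjoin F ({y} : Set D.F0) = ⊤)
    (hunit : (aeval y (derivative (minpoly F y)))⁻¹ ∈ D.O)
    (hgenθ : Algebra.adjoin D.F0 ({D.θ} : Set D.L0) = ⊤)
    (hconstL : ∀ z : D.L0, IsAlgebraic D.K0 z → z ∈ Set.range (algebraMap D.K0 D.L0))
    (hm : IsUnit (m : D.A0)) (hζ : IsPrimitiveRoot D.ζ m) (hU : D.U ∈ D.O) (hU' : D.U⁻¹ ∈ D.O)
    (hh : D.h ∈ D.O) (hhU : D.h ^ m - D.U ∈ D.O.nonunits)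
    (hθ : D.θ ^ m = algebraMap D.F0 D.L0 D.U)
    (bar : S18.helper648.BarDatum D c0) :
    D.Good m ∧ Nonempty (S18.helper648.Facts D c0) ∧ ∃ V : D.F0, V ^ m = D.U := by
  obtain ⟨hmem, hGD⟩ := tower_gauss D ht hO hirr hG htr (const_base D hconstL) c0 hc0 hv0 hv1
    (barLayer O ht c0 bar)
  have hm0 : m ≠ 0 := by
    rintro rfl
    rw [Nat.cast_zero] at hm
    exact not_isUnit_zero hm
  have hθint : IsIntegral D.F0 D.θ := by
    refine ⟨X ^ m - C D.U, monic_X_pow_sub_C _ hm0, ?_⟩
    rw [eval₂_sub, eval₂_pow, eval₂_X, eval₂_C, hθ]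
    exact sub_self _
  haveI : FiniteDimensional D.F0 D.L0 := by
    have h1 : Module.Finite D.F0 ↥(Algebra.adjoin D.F0 ({D.θ} : Set D.L0)) :=
      Algebra.finite_adjoin_simple_of_isIntegral hθint
    rw [hgenθ] at h1
    exact Module.Finite.of_surjective (Subalgebra.topEquiv (R := D.F0) (A := D.L0)).toLinearMap
      (Subalgebra.topEquiv (R := D.F0) (A := D.L0)).surjective
  have hgood : D.Good m := tower_good D m ht hirr hGD htr hconstL hm hζ hU hU' hh hhU hθ
  obtain ⟨R⟩ := tower_resDatum D ht hG hmem red hred hRA hRt hR3 hy hgen hunit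
  have hfacts : S18.helper648.Facts D c0 :=
    { gen := hgenθ
      inv_mem := (S18.helper4364.gaussData_inv hGD).t_mem
      res := R
      bar := bar }
  exact ⟨hgood, ⟨hfacts⟩, Fermat.Agent.S48.helper648.kummer_of_facts D m c0 hgood hc0 hfacts⟩

end Main

section Final

variable (D : KData) {F : Type} [Field F] [Algebra D.K0 F] [Algebra D.A0 F]
  [IsScalarTower D.A0 D.K0 F] [Algebra F D.F0] [IsScalarTower D.K0 F D.F0]
  [IsScalarTower D.A0 F D.F0]

/-- **(T4) Tower form of the abstract half of track B, final form.**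

* BASE: `F` a function field over `K0` with Gauss place `O` (`GaussData D.ϖ t O`), clause (c) of
  `F / K0(τ)` on both charts (`hF`), and residue data `red : O → Fκ ⊇ κ`;
* LAYER: `D.F0 = F[y]` (`pb`), `y` integral over `O`, discriminant of `pb` a unit of `O`; `D.O`
  any valuation subring of `D.F0` lying over `O`;
* KUMMER LAYER: `D.L0 = D.F0[θ]`, `θ ^ m = U`, `U` a unit of `D.O` with residual `m`-th root
  `h`, `K0` algebraically closed in `D.L0`, and the geometric datum `bar` of `D`.

Then `D` is a good model with the extra facts of `helper648_ModelWire` (in particular `D.O` is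
the Gauss place of `D.F0`, unique, with full residue degree) and `U` is an `m`-th power in
`D.F0`. -/
theorem tower_kummer (m : ℕ) {t : F} {O : ValuationSubring F}
    (ht : algebraMap F D.F0 t = D.t) (hO : D.O.comap (algebraMap F D.F0) = O)
    (hirr : Irreducible D.ϖ) (hG : GaussData D.ϖ t O) (htr : Transcendental D.K0 t)
    [FiniteDimensional ↥(IntermediateField.adjoin D.K0 ({t} : Set F)) F]
    (c0 : D.A0) (hc0 : ¬ D.ϖ ∣ c0)
    (hF : ∀ τ : F, (τ = t ∨ τ = t⁻¹) →
      ∃ (ι : Type) (_ : Fintype ι) (_ : DecidableEq ι)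
      (c : Module.Basis ι ↥(IntermediateField.adjoin D.K0 ({τ} : Set F)) F) (dp : D.A0[X]),
      (∀ i, IsIntegral ↥(Algebra.adjoin D.A0 ({τ} : Set F)) (c i)) ∧
      algebraMap ↥(IntermediateField.adjoin D.K0 ({τ} : Set F)) F
        (Algebra.discr ↥(IntermediateField.adjoin D.K0 ({τ} : Set F)) c) = aeval τ dp ∧
      ∃ i, ¬ D.ϖ ∣ dp.coeff i)
    {κ Fκ : Type} [Field κ] [Field Fκ] [Algebra κ Fκ] [Algebra.IsSeparable κ Fκ]
    (red : ↥O →+* Fκ) (hred : Function.Surjective red)
    (hRA : ∀ a : D.A0, red ⟨algebraMap D.A0 F a, hG.le a⟩ ∈ Set.range (algebraMap κ Fκ))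
    (hRt : red ⟨t, hG.t_mem⟩ ∈ Set.range (algebraMap κ Fκ))
    (hR3 : Module.finrank ↥(IntermediateField.adjoin D.K0 ({t} : Set F)) F
      ≤ Module.finrank κ Fκ)
    (pb : PowerBasis F D.F0) (hpb : IsIntegral ↥O pb.gen)
    (hdisc : (Algebra.discr F pb.basis)⁻¹ ∈ O)
    (hgenθ : Algebra.adjoin D.F0 ({D.θ} : Set D.L0) = ⊤)
    (hconstL : ∀ z : D.L0, IsAlgebraic D.K0 z → z ∈ Set.range (algebraMap D.K0 D.L0))
    (hm : IsUnit (m : D.A0)) (hζ : IsPrimitiveRoot D.ζ m) (hU : D.U ∈ D.O) (hU' : D.U⁻¹ ∈ D.O)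
    (hh : D.h ∈ D.O) (hhU : D.h ^ m - D.U ∈ D.O.nonunits)
    (hθ : D.θ ^ m = algebraMap D.F0 D.L0 D.U)
    (bar : S18.helper648.BarDatum D c0) :
    D.Good m ∧ Nonempty (S18.helper648.Facts D c0) ∧ ∃ V : D.F0, V ^ m = D.U := by
  haveI : FiniteDimensional F D.F0 := pb.finite
  haveI : CharZero F := charZero_of_injective_algebraMap (algebraMap D.K0 F).injective
  have hfinE : FiniteDimensional
      ↥(IntermediateField.adjoin D.K0 ({algebraMap F D.F0 t} : Set D.F0)) D.F0 :=
    Fermat.Agent.S48.helper648.finiteDimensional_adjoin_algebraMap (K := D.K0) (F := F)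
      (E := D.F0) t
  have hgood1 : (layer D F t O).Good 1 :=
    layer_good hirr hG htr hfinE (const_base D hconstL)
  obtain ⟨hv0, hv1⟩ := Fermat.Agent.S48.helper3552.kdata_vertAt_both_of_tower_O
    (layer D F t O) hgood1 hF pb hpb hdisc
  obtain ⟨hmem, -⟩ := tower_gauss D ht hO hirr hG htr (const_base D hconstL) c0 hc0 hv0 hv1
    (barLayer O ht c0 bar)
  have hunit := Fermat.Agent.S48.helper2720.inv_derivative_mem_of_discr O D.O hmem pb hpb hdisc
  exact tower_kummer_of_vert D m ht hO hirr hG htr c0 hc0 hv0 hv1 red hred hRA hRt hR3 hpb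
    (Fermat.Agent.S48.helper2720.adjoin_gen_eq_top pb) hunit hgenθ hconstL hm hζ hU hU' hh hhU
    hθ bar

end Final

end Fermat.Agent.S48.helper6839
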