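import Mathlib
import Fermat.Agent.S48.helper7300_Gamma1Field
import Fermat.Agent.S18.helper8991_GaussInst

/-!
# S48 leaf M1-GAORBIT: the concrete `(G-A)` orbit of the `Γ₁(M)` carrier (helper7300)

For a field `L`, a valuation subring `A` of `L` in which `M` is a unit, and the generators
`gen L P u v` of `helper7300_Gamma1Field`:

* `rootInt A M u`, `genInt A P M u v` : explicit `A`-integral models (no `∃`), with
  `inc_genInt`, `red_genInt`, `genInt_sub_genInt`, `isUnit_genInt`, `red_genInt_ne_zero`,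
  `red_genInt_ne` (distinct reductions);
* Gauss-ring forms in the vocabulary of `helper8991.gaussSubring` (any subfield `E`):
  `gen_mem_gaussSubring`, `gaussRed_gen`, `inv_gen_mem_gaussSubring`,
  `gen_sub_ne_zero_and_inv_mem` (the `hunit` shape of the orbit form of the tower step);
* the diamond-invariant reference point `c = z ^ (M / r)`, `r ∈ {2, 3}`, `r ∣ M`:
  `pow_ref_eq`, `gen_pow_ref`;
* the orbit `orbGen L P z M r a = gen L P (z ^ a) (z ^ (M / r))` and its integral models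
  `orbInt A P z M r a`: `orbGen_sub`, `orbGen_mem`, `inc_orbInt`, `orbGen_ne`,
  `isUnit_orbInt_sub`, `red_orbInt_ne`, `orbGen_of_diamond`, `orbGen_sub_ne_zero_and_inv_mem`;
* the index type `DiaIdx M = (ℤ/M)ˣ / ±1` with representatives `diaRep M i`:
  `card_diaIdx`, `diaRep_coprime`, `not_dvd_diaRep`, `diaRep_ne`, `pow_diaRep_diaOne`,
  and the packaged forms `orbit_hY`, `orbit_hdist`, `orbit_hint`, `orbit_hunit`.
-/

set_option autoImplicit false

noncomputable section

namespace Fermat.Agent.S48.helper7300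

open ModularCurve IntermediateField
open Fermat.Agent.S18

/-! ## Explicit integral models of the generators -/

section IntegralModel

variable {L : Type*} [Field L] (A : ValuationSubring L) (P : PowerSeries ℤ) (M : ℕ)

open Classical in
/-- An `M`-th root of unity of `L` as an element of the valuation ring `A` (junk value `1` if
`u` is not an `M`-th root of unity). -/
def rootInt (u : L) : A :=
  if h : M ≠ 0 ∧ u ^ M = 1 then ⟨u, mem_of_pow_eq_one A h.1 h.2⟩ else 1

variable {A M}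

theorem coe_rootInt (hM : M ≠ 0) {u : L} (hu : u ^ M = 1) : ((rootInt A M u : A) : L) = u := by
  rw [rootInt, dif_pos ⟨hM, hu⟩]

theorem rootInt_pow (hM : M ≠ 0) {u : L} (hu : u ^ M = 1) : (rootInt A M u) ^ M = 1 := by
  apply Subtype.ext
  rw [SubmonoidClass.coe_pow, coe_rootInt hM hu, hu]
  rfl

theorem rootInt_ne_one (hM : M ≠ 0) {u : L} (hu : u ^ M = 1) (hu1 : u ≠ 1) :
    rootInt A M u ≠ 1 := by
  intro h
  apply hu1
  rw [← coe_rootInt (A := A) hM hu, h]
  rfl

theorem rootInt_ne (hM : M ≠ 0) {u v : L} (hu : u ^ M = 1) (hv : v ^ M = 1) (h : u ≠ v) :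
    rootInt A M u ≠ rootInt A M v := by
  intro h1
  apply h
  rw [← coe_rootInt (A := A) hM hu, ← coe_rootInt (A := A) hM hv, h1]

theorem rootInt_mul_ne_one (hM : M ≠ 0) {u v : L} (hu : u ^ M = 1) (hv : v ^ M = 1)
    (h : u * v ≠ 1) : rootInt A M u * rootInt A M v ≠ 1 := by
  intro h1
  apply h
  have h2 := congrArg (Subtype.val : A → L) h1
  rw [MulMemClass.coe_mul, coe_rootInt hM hu, coe_rootInt hM hv] at h2
  exact h2

variable (A M)

/-- **The explicit `A`-integral model** of the generator `gen L P u v` (`u, v` `M`-th roots of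
unity of `L`). -/
def genInt (u v : L) : LaurentSeries A := gen A P (rootInt A M u) (rootInt A M v)

variable {A M}

/-- The integral model maps to the generator. -/
theorem inc_genInt (hM : IsUnit ((M : ℕ) : A)) {u v : L} (hu : u ^ M = 1) (hu1 : u ≠ 1)
    (hv : v ^ M = 1) (hv1 : v ≠ 1) :
    coeffMap A.subtype (genInt A P M u v) = gen L P u v := by
  have hM0 : M ≠ 0 := ne_zero_of_isUnit_natCast hM
  rw [genInt, coeffMap_gen_of_pow_eq_one _ P hM (rootInt_pow hM0 hu) (rootInt_ne_one hM0 hu hu1)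
    (rootInt_pow hM0 hv) (rootInt_ne_one hM0 hv hv1)]
  show gen L P ((rootInt A M u : A) : L) ((rootInt A M v : A) : L) = _
  rw [coe_rootInt hM0 hu, coe_rootInt hM0 hv]

/-- The reduction of the integral model is the generator of the twin over the residue field. -/
theorem red_genInt (hM : IsUnit ((M : ℕ) : A)) {u v : L} (hu : u ^ M = 1) (hu1 : u ≠ 1)
    (hv : v ^ M = 1) (hv1 : v ≠ 1) :
    coeffMap (IsLocalRing.residue A) (genInt A P M u v) =
      gen (IsLocalRing.ResidueField A) P (IsLocalRing.residue A (rootInt A M u))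
        (IsLocalRing.residue A (rootInt A M v)) := by
  have hM0 : M ≠ 0 := ne_zero_of_isUnit_natCast hM
  rw [genInt, coeffMap_gen_of_pow_eq_one _ P hM (rootInt_pow hM0 hu) (rootInt_ne_one hM0 hu hu1)
    (rootInt_pow hM0 hv) (rootInt_ne_one hM0 hv hv1)]

/-- The cocycle relation for the integral models. -/
theorem genInt_sub_genInt (u v w : L) :
    genInt A P M u w - genInt A P M v w = genInt A P M u v :=
  gen_sub_gen P _ _ _

theorem genInt_swap (u v : L) : genInt A P M v u = -genInt A P M u v :=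
  gen_swap P _ _

variable {P}

/-- The integral model is a unit of `A((q))` as soon as `v ≠ u^{±1}`. -/
theorem isUnit_genInt (hP : PowerSeries.constantCoeff P = 1) (hM : IsUnit ((M : ℕ) : A))
    {u v : L} (hu : u ^ M = 1) (hu1 : u ≠ 1) (hv : v ^ M = 1) (hv1 : v ≠ 1) (h : u ≠ v)
    (h' : u * v ≠ 1) : IsUnit (genInt A P M u v) := by
  have hM0 : M ≠ 0 := ne_zero_of_isUnit_natCast hM
  exact isUnit_gen_of_pow_eq_one hP hM (rootInt_pow hM0 hu) (rootInt_ne_one hM0 hu hu1)
    (rootInt_pow hM0 hv) (rootInt_ne_one hM0 hv hv1) (rootInt_ne hM0 hu hv h)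
    (rootInt_mul_ne_one hM0 hu hv h')

/-- ... so its reduction is non-zero. -/
theorem red_genInt_ne_zero (hP : PowerSeries.constantCoeff P = 1) (hM : IsUnit ((M : ℕ) : A))
    {u v : L} (hu : u ^ M = 1) (hu1 : u ≠ 1) (hv : v ^ M = 1) (hv1 : v ≠ 1) (h : u ≠ v)
    (h' : u * v ≠ 1) : coeffMap (IsLocalRing.residue A) (genInt A P M u v) ≠ 0 :=
  ((isUnit_genInt hP hM hu hu1 hv hv1 h h').map (coeffMap (IsLocalRing.residue A))).ne_zero

/-- **Distinct reductions**: the reductions of the integral models of `gen u w` and `gen v w`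
differ as soon as `v ≠ u^{±1}` (any reference point `w`). -/
theorem red_genInt_ne (hP : PowerSeries.constantCoeff P = 1) (hM : IsUnit ((M : ℕ) : A))
    {u v : L} (hu : u ^ M = 1) (hu1 : u ≠ 1) (hv : v ^ M = 1) (hv1 : v ≠ 1) (h : u ≠ v)
    (h' : u * v ≠ 1) (w : L) :
    coeffMap (IsLocalRing.residue A) (genInt A P M u w) ≠
      coeffMap (IsLocalRing.residue A) (genInt A P M v w) := by
  intro heq
  apply red_genInt_ne_zero hP hM hu hu1 hv hv1 h h'
  rw [← genInt_sub_genInt P u v w, map_sub, heq, sub_self]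

end IntegralModel

/-! ## Gauss-ring forms -/

section GaussForms

variable {L : Type*} [Field L] {A : ValuationSubring L} {P : PowerSeries ℤ} {M : ℕ}
  (E : IntermediateField L (LaurentSeries L))
  (hE : ∀ f : LaurentSeries L, f ∈ E → f ≠ 0 →
    helper8991.IsNormalizable A (IsLocalRing.residue A) f)

/-- The generators lie in the big Gauss ring of `L((q))`. -/
theorem gen_mem_gaussRing (hM : IsUnit ((M : ℕ) : A)) {u v : L} (hu : u ^ M = 1)
    (hu1 : u ≠ 1) (hv : v ^ M = 1) (hv1 : v ≠ 1) :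
    gen L P u v ∈ helper8991.gaussRing A (IsLocalRing.residue A) := by
  rw [← inc_genInt P hM hu hu1 hv hv1]
  exact helper8991.inc_mem_gaussRing A _ _

/-- The generators lie in the `q`-Gauss valuation ring of any subfield containing them. -/
theorem gen_mem_gaussSubring (hM : IsUnit ((M : ℕ) : A)) {u v : L} (hu : u ^ M = 1)
    (hu1 : u ≠ 1) (hv : v ^ M = 1) (hv1 : v ≠ 1) (h : gen L P u v ∈ E) :
    (⟨gen L P u v, h⟩ : E) ∈ helper8991.gaussSubring A (IsLocalRing.residue A) E hE :=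
  gen_mem_gaussRing hM hu hu1 hv hv1

/-- The Gauss residue of a generator is the generator of the twin over the residue field. -/
theorem gaussRed_gen (hM : IsUnit ((M : ℕ) : A)) {u v : L} (hu : u ^ M = 1)
    (hu1 : u ≠ 1) (hv : v ^ M = 1) (hv1 : v ≠ 1) (h : gen L P u v ∈ E) :
    helper8991.gaussRed A (IsLocalRing.residue A) E hE
        ⟨⟨gen L P u v, h⟩, gen_mem_gaussSubring E hE hM hu hu1 hv hv1 h⟩ =
      gen (IsLocalRing.ResidueField A) P (IsLocalRing.residue A (rootInt A M u))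
        (IsLocalRing.residue A (rootInt A M v)) := by
  rw [helper8991.gaussRed_eq A (IsLocalRing.residue A) E hE _ (X := genInt A P M u v) (Y := 1)
    (by rw [map_one]; exact one_ne_zero)
    (by rw [map_one, mul_one]; exact (inc_genInt P hM hu hu1 hv hv1).symm)]
  rw [map_one, div_one]
  exact red_genInt P hM hu hu1 hv hv1

/-- **The generators are Gauss units**: the inverse of `gen u v`, `v ≠ u^{±1}`, lies in the
`q`-Gauss valuation ring. -/
theorem inv_gen_mem_gaussSubring (hP : PowerSeries.constantCoeff P = 1)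
    (hM : IsUnit ((M : ℕ) : A)) {u v : L} (hu : u ^ M = 1) (hu1 : u ≠ 1) (hv : v ^ M = 1)
    (hv1 : v ≠ 1) (huv : u ≠ v) (huv' : u * v ≠ 1) (h : gen L P u v ∈ E) :
    (⟨gen L P u v, h⟩ : E)⁻¹ ∈ helper8991.gaussSubring A (IsLocalRing.residue A) E hE := by
  rw [helper8991.mem_gaussSubring_iff]
  have hne : gen L P u v ≠ 0 := gen_ne_zero hP hu1 hv1 huv huv'
  refine ⟨1, genInt A P M u v, red_genInt_ne_zero hP hM hu hu1 hv hv1 huv huv', ?_⟩
  rw [inc_genInt P hM hu hu1 hv hv1, map_one]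
  show ((⟨gen L P u v, h⟩ : E)⁻¹ : E).1 * gen L P u v = 1
  rw [IntermediateField.coe_inv]
  exact inv_mul_cancel₀ hne

/-- **The `hunit` shape of the orbit form of the tower step**: two generators with the same
reference point `w` differ by a Gauss unit as soon as `v ≠ u^{±1}`. -/
theorem gen_sub_ne_zero_and_inv_mem (hP : PowerSeries.constantCoeff P = 1)
    (hM : IsUnit ((M : ℕ) : A)) {u v : L} (hu : u ^ M = 1) (hu1 : u ≠ 1) (hv : v ^ M = 1)
    (hv1 : v ≠ 1) (huv : u ≠ v) (huv' : u * v ≠ 1) (w : L) (h : gen L P u w ∈ E)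
    (h' : gen L P v w ∈ E) :
    (⟨gen L P u w, h⟩ : E) - ⟨gen L P v w, h'⟩ ≠ 0 ∧
      ((⟨gen L P u w, h⟩ : E) - ⟨gen L P v w, h'⟩)⁻¹ ∈
        helper8991.gaussSubring A (IsLocalRing.residue A) E hE := by
  have hmem : gen L P u v ∈ E := by
    rw [← gen_sub_gen P u v w]
    exact sub_mem h h'
  have heq : (⟨gen L P u w, h⟩ : E) - ⟨gen L P v w, h'⟩ = ⟨gen L P u v, hmem⟩ :=
    Subtype.ext (gen_sub_gen P u v w)
  rw [heq]
  refine ⟨fun h0 => gen_ne_zero hP hu1 hv1 huv huv' (congrArg Subtype.val h0), ?_⟩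
  exact inv_gen_mem_gaussSubring E hE hP hM hu hu1 hv hv1 huv huv' hmem

end GaussForms

/-! ## The diamond-invariant reference point -/

section RefPoint

variable {L : Type*} [Field L] {M r : ℕ}

theorem ref_pow_eq_one {z : L} (hz : IsPrimitiveRoot z M) (hr : r ∣ M) :
    (z ^ (M / r)) ^ r = 1 := by
  rw [← pow_mul, Nat.div_mul_cancel hr, hz.pow_eq_one]

theorem ref_pow_M {z : L} (hz : IsPrimitiveRoot z M) : (z ^ (M / r)) ^ M = 1 := by
  rw [← pow_mul, mul_comm, pow_mul, hz.pow_eq_one, one_pow]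

theorem not_dvd_ref (hM : M ≠ 0) (hr : r ∣ M) (hr1 : 1 < r) : ¬ M ∣ M / r := by
  intro h
  have hpos : 0 < M / r :=
    Nat.div_pos (Nat.le_of_dvd (Nat.pos_of_ne_zero hM) hr) (by omega)
  have hlt : M / r < M := Nat.div_lt_self (Nat.pos_of_ne_zero hM) hr1
  exact absurd (Nat.le_of_dvd hpos h) (not_le.mpr hlt)

theorem ref_ne_one {z : L} (hz : IsPrimitiveRoot z M) (hM : M ≠ 0) (hr : r ∣ M) (hr1 : 1 < r) :
    z ^ (M / r) ≠ 1 := fun h =>
  not_dvd_ref hM hr hr1 ((hz.pow_eq_one_iff_dvd _).mp h)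

/-- **The reference point is diamond-invariant up to inversion**: for `r ∈ {2, 3}`, `r ∣ M` and
`n` prime to `r`, the `n`-th power of `c = z ^ (M / r)` is `c` or `c⁻¹`. -/
theorem pow_ref_eq {z : L} (hz : IsPrimitiveRoot z M) (hr : r ∣ M) (hr23 : r = 2 ∨ r = 3)
    {n : ℕ} (hn : Nat.Coprime n r) :
    (z ^ (M / r)) ^ n = z ^ (M / r) ∨ (z ^ (M / r)) ^ n = (z ^ (M / r))⁻¹ := by
  have hc := ref_pow_eq_one hz hr
  generalize z ^ (M / r) = c at hc ⊢
  have hmod : c ^ n = c ^ (n % r) := by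
    conv_lhs => rw [← Nat.div_add_mod n r, pow_add, pow_mul, hc, one_pow, one_mul]
  rw [hmod]
  rcases hr23 with rfl | rfl
  · have h1 : n % 2 = 1 := by
      rcases Nat.mod_two_eq_zero_or_one n with h | h
      · exfalso
        have h2 : 2 ∣ Nat.gcd n 2 := Nat.dvd_gcd (Nat.dvd_of_mod_eq_zero h) dvd_rfl
        rw [hn] at h2
        omega
      · exact h
    left
    rw [h1, pow_one]
  · have h0 : n % 3 ≠ 0 := by
      intro h
      have h2 : 3 ∣ Nat.gcd n 3 := Nat.dvd_gcd (Nat.dvd_of_mod_eq_zero h) dvd_rfl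
      rw [hn] at h2
      omega
    have hlt : n % 3 < 3 := Nat.mod_lt _ (by norm_num)
    have h12 : n % 3 = 1 ∨ n % 3 = 2 := by omega
    rcases h12 with h | h
    · left
      rw [h, pow_one]
    · right
      rw [h]
      exact eq_inv_of_mul_eq_one_left (by rw [← pow_succ]; exact hc)

/-- A generator does not see the `n`-th power of the reference point (`n` prime to `r`). -/
theorem gen_pow_ref (P : PowerSeries ℤ) {z : L} (hz : IsPrimitiveRoot z M) (hr : r ∣ M)
    (hr23 : r = 2 ∨ r = 3) {n : ℕ} (hn : Nat.Coprime n r) (u : L) :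
    gen L P u ((z ^ (M / r)) ^ n) = gen L P u (z ^ (M / r)) := by
  rcases pow_ref_eq hz hr hr23 hn with h | h
  · rw [h]
  · rw [h, gen_inv_right]

theorem pow_eq_pow_iff_of_isPrimitiveRoot {z : L} (hz : IsPrimitiveRoot z M) (hM : M ≠ 0)
    (a b : ℕ) : z ^ a = z ^ b ↔ a ≡ b [MOD M] := by
  have hz0 : z ≠ 0 := hz.ne_zero hM
  have key : ∀ a b : ℕ, a ≤ b → (z ^ a = z ^ b ↔ a ≡ b [MOD M]) := by
    intro a b hab
    obtain ⟨k, rfl⟩ := Nat.exists_eq_add_of_le hab
    rw [pow_add, Nat.modEq_iff_dvd' (Nat.le_add_right a k), Nat.add_sub_cancel_left,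
      ← hz.pow_eq_one_iff_dvd]
    constructor
    · intro h
      have h1 : z ^ a * 1 = z ^ a * z ^ k := by rw [mul_one]; exact h
      exact (mul_left_cancel₀ (pow_ne_zero a hz0) h1).symm
    · intro h
      rw [h, mul_one]
  rcases le_total a b with h | h
  · exact key a b h
  · rw [eq_comm, key b a h]
    exact ⟨Nat.ModEq.symm, Nat.ModEq.symm⟩

theorem pow_mul_pow_eq_one_iff_of_isPrimitiveRoot {z : L} (hz : IsPrimitiveRoot z M)
    (a b : ℕ) : z ^ a * z ^ b = 1 ↔ M ∣ a + b := by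
  rw [← pow_add, hz.pow_eq_one_iff_dvd]

end RefPoint

/-! ## The `(G-A)` orbit -/

section Orbit

variable {L : Type*} [Field L] (A : ValuationSubring L) (P : PowerSeries ℤ) (z : L) (M r : ℕ)

variable (L) in
/-- **The `(G-A)` generator** `y_a = P · (x(z^a) - x(z^{M/r}))`: normalised difference with the
`r`-division reference point. -/
def orbGen (a : ℕ) : LaurentSeries L := gen L P (z ^ a) (z ^ (M / r))

/-- Its explicit integral model. -/
def orbInt (a : ℕ) : LaurentSeries A := genInt A P M (z ^ a) (z ^ (M / r))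

variable {A z M r}

theorem orbGen_sub (a b : ℕ) :
    orbGen L P z M r a - orbGen L P z M r b = gen L P (z ^ a) (z ^ b) :=
  gen_sub_gen P _ _ _

theorem orbInt_sub (a b : ℕ) :
    orbInt A P z M r a - orbInt A P z M r b = genInt A P M (z ^ a) (z ^ b) :=
  genInt_sub_genInt P _ _ _

theorem pow_pow_M (hz : IsPrimitiveRoot z M) (a : ℕ) : (z ^ a) ^ M = 1 := by
  rw [← pow_mul, mul_comm, pow_mul, hz.pow_eq_one, one_pow]

/-- The `(G-A)` generators lie in the `Γ₁(M)` field. -/
theorem orbGen_mem [NeZero M] (hz : IsPrimitiveRoot z M) (hr : r ∣ M) (hr1 : 1 < r) {a : ℕ}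
    (ha : ¬ M ∣ a) : orbGen L P z M r a ∈ gamma1FieldP L P M :=
  gen_pow_mem P hz ha (not_dvd_ref (NeZero.ne M) hr hr1)

/-- The integral model maps to the `(G-A)` generator. -/
theorem inc_orbInt (hM : IsUnit ((M : ℕ) : A)) (hz : IsPrimitiveRoot z M) (hr : r ∣ M)
    (hr1 : 1 < r) {a : ℕ} (ha : ¬ M ∣ a) :
    coeffMap A.subtype (orbInt A P z M r a) = orbGen L P z M r a :=
  inc_genInt P hM (pow_pow_M hz a) (fun h => ha ((hz.pow_eq_one_iff_dvd a).mp h))
    (ref_pow_M hz) (ref_ne_one hz (ne_zero_of_isUnit_natCast hM) hr hr1)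

/-- **Diamond law for the `(G-A)` generators**: raising both arguments of `y_a` to the `n`-th
power (`n` prime to `r`) gives `y_{a n}`; so any automorphism acting on the generators by
`gen u v ↦ gen (u^n) (v^n)` permutes the `(G-A)` orbit. -/
theorem orbGen_of_diamond (hz : IsPrimitiveRoot z M) (hr : r ∣ M) (hr23 : r = 2 ∨ r = 3)
    {n : ℕ} (hn : Nat.Coprime n r) (a : ℕ) :
    gen L P ((z ^ a) ^ n) ((z ^ (M / r)) ^ n) = orbGen L P z M r (a * n) := by
  rw [gen_pow_ref P hz hr hr23 hn, orbGen, pow_mul]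

variable {P}

/-- The `(G-A)` generators with `a ≢ ±b mod M` are distinct. -/
theorem orbGen_ne (hP : PowerSeries.constantCoeff P = 1) (hz : IsPrimitiveRoot z M)
    (hM : M ≠ 0) {a b : ℕ} (ha : ¬ M ∣ a) (hb : ¬ M ∣ b) (hab : ¬ a ≡ b [MOD M])
    (hab' : ¬ M ∣ a + b) : orbGen L P z M r a ≠ orbGen L P z M r b := by
  intro h
  have h1 : gen L P (z ^ a) (z ^ b) = 0 := by rw [← orbGen_sub P a b (r := r), h, sub_self]
  exact gen_ne_zero hP (fun h => ha ((hz.pow_eq_one_iff_dvd a).mp h))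
    (fun h => hb ((hz.pow_eq_one_iff_dvd b).mp h))
    (fun h => hab ((pow_eq_pow_iff_of_isPrimitiveRoot hz hM a b).mp h))
    (fun h => hab' ((pow_mul_pow_eq_one_iff_of_isPrimitiveRoot hz a b).mp h)) h1

/-- **Unit differences**: the integral models of `y_a`, `y_b` with `a ≢ ±b mod M` differ by a
unit of `A((q))`. -/
theorem isUnit_orbInt_sub (hP : PowerSeries.constantCoeff P = 1) (hM : IsUnit ((M : ℕ) : A))
    (hz : IsPrimitiveRoot z M) {a b : ℕ} (ha : ¬ M ∣ a) (hb : ¬ M ∣ b)
    (hab : ¬ a ≡ b [MOD M]) (hab' : ¬ M ∣ a + b) :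
    IsUnit (orbInt A P z M r a - orbInt A P z M r b) := by
  have hM0 : M ≠ 0 := ne_zero_of_isUnit_natCast hM
  rw [orbInt_sub]
  exact isUnit_genInt hP hM (pow_pow_M hz a) (fun h => ha ((hz.pow_eq_one_iff_dvd a).mp h))
    (pow_pow_M hz b) (fun h => hb ((hz.pow_eq_one_iff_dvd b).mp h))
    (fun h => hab ((pow_eq_pow_iff_of_isPrimitiveRoot hz hM0 a b).mp h))
    (fun h => hab' ((pow_mul_pow_eq_one_iff_of_isPrimitiveRoot hz a b).mp h))

/-- **Distinct reductions** of the integral models of the `(G-A)` orbit. -/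
theorem red_orbInt_ne (hP : PowerSeries.constantCoeff P = 1) (hM : IsUnit ((M : ℕ) : A))
    (hz : IsPrimitiveRoot z M) {a b : ℕ} (ha : ¬ M ∣ a) (hb : ¬ M ∣ b)
    (hab : ¬ a ≡ b [MOD M]) (hab' : ¬ M ∣ a + b) :
    coeffMap (IsLocalRing.residue A) (orbInt A P z M r a) ≠
      coeffMap (IsLocalRing.residue A) (orbInt A P z M r b) := by
  intro heq
  have h1 := (isUnit_orbInt_sub (r := r) hP hM hz ha hb hab hab').map
    (coeffMap (IsLocalRing.residue A))
  rw [map_sub, heq, sub_self] at h1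
  exact not_isUnit_zero h1

/-- The reduction of the integral model of `y_a` is the `(G-A)` generator of the twin over the
residue field (for the reduced root of unity). -/
theorem red_orbInt (hM : IsUnit ((M : ℕ) : A)) (hz : IsPrimitiveRoot z M) (hr : r ∣ M)
    (hr1 : 1 < r) {a : ℕ} (ha : ¬ M ∣ a) :
    coeffMap (IsLocalRing.residue A) (orbInt A P z M r a) =
      orbGen (IsLocalRing.ResidueField A) P (IsLocalRing.residue A (rootInt A M z)) M r a := by
  have hM0 : M ≠ 0 := ne_zero_of_isUnit_natCast hM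
  have hzM : z ^ M = 1 := hz.pow_eq_one
  have h1 : rootInt A M (z ^ a) = rootInt A M z ^ a := by
    apply Subtype.ext
    rw [SubmonoidClass.coe_pow, coe_rootInt hM0 hzM, coe_rootInt hM0 (pow_pow_M hz a)]
  have h2 : rootInt A M (z ^ (M / r)) = rootInt A M z ^ (M / r) := by
    apply Subtype.ext
    rw [SubmonoidClass.coe_pow, coe_rootInt hM0 hzM, coe_rootInt hM0 (ref_pow_M hz)]
  rw [orbInt, red_genInt P hM (pow_pow_M hz a) (fun h => ha ((hz.pow_eq_one_iff_dvd a).mp h))
    (ref_pow_M hz) (ref_ne_one hz hM0 hr hr1), h1, h2, map_pow, map_pow, orbGen]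

/-- **`hunit` for the `(G-A)` orbit** in the `q`-Gauss valuation ring of any subfield `E`. -/
theorem orbGen_sub_ne_zero_and_inv_mem (E : IntermediateField L (LaurentSeries L))
    (hE : ∀ f : LaurentSeries L, f ∈ E → f ≠ 0 →
      helper8991.IsNormalizable A (IsLocalRing.residue A) f)
    (hP : PowerSeries.constantCoeff P = 1) (hM : IsUnit ((M : ℕ) : A))
    (hz : IsPrimitiveRoot z M) {a b : ℕ} (ha : ¬ M ∣ a) (hb : ¬ M ∣ b)
    (hab : ¬ a ≡ b [MOD M]) (hab' : ¬ M ∣ a + b)
    (h : orbGen L P z M r a ∈ E) (h' : orbGen L P z M r b ∈ E) :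
    (⟨orbGen L P z M r a, h⟩ : E) - ⟨orbGen L P z M r b, h'⟩ ≠ 0 ∧
      ((⟨orbGen L P z M r a, h⟩ : E) - ⟨orbGen L P z M r b, h'⟩)⁻¹ ∈
        helper8991.gaussSubring A (IsLocalRing.residue A) E hE := by
  have hM0 : M ≠ 0 := ne_zero_of_isUnit_natCast hM
  exact gen_sub_ne_zero_and_inv_mem E hE hP hM (pow_pow_M hz a)
    (fun h => ha ((hz.pow_eq_one_iff_dvd a).mp h)) (pow_pow_M hz b)
    (fun h => hb ((hz.pow_eq_one_iff_dvd b).mp h))
    (fun h => hab ((pow_eq_pow_iff_of_isPrimitiveRoot hz hM0 a b).mp h))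
    (fun h => hab' ((pow_mul_pow_eq_one_iff_of_isPrimitiveRoot hz a b).mp h)) _ h h'

/-- **`hint` for the `(G-A)` orbit**: the generators lie in the `q`-Gauss valuation ring. -/
theorem orbGen_mem_gaussSubring (E : IntermediateField L (LaurentSeries L))
    (hE : ∀ f : LaurentSeries L, f ∈ E → f ≠ 0 →
      helper8991.IsNormalizable A (IsLocalRing.residue A) f)
    (hM : IsUnit ((M : ℕ) : A)) (hz : IsPrimitiveRoot z M) (hr : r ∣ M) (hr1 : 1 < r) {a : ℕ}
    (ha : ¬ M ∣ a) (h : orbGen L P z M r a ∈ E) :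
    (⟨orbGen L P z M r a, h⟩ : E) ∈ helper8991.gaussSubring A (IsLocalRing.residue A) E hE :=
  gen_mem_gaussSubring E hE hM (pow_pow_M hz a) (fun h => ha ((hz.pow_eq_one_iff_dvd a).mp h))
    (ref_pow_M hz) (ref_ne_one hz (ne_zero_of_isUnit_natCast hM) hr hr1) h

end Orbit

/-! ## The index type `(ℤ/M)ˣ / ±1` -/

section Index

/-- **Index set of the diamond orbit**: `(ℤ/M)ˣ / ±1`. -/
abbrev DiaIdx (M : ℕ) : Type := (ZMod M)ˣ ⧸ Subgroup.zpowers (-1 : (ZMod M)ˣ)

instance instFintypeDiaIdx (M : ℕ) [NeZero M] : Fintype (DiaIdx M) := Fintype.ofFinite _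

/-- Representative exponents of the diamond orbit. -/
def diaRep (M : ℕ) (i : DiaIdx M) : ℕ := ((Quotient.out i : (ZMod M)ˣ) : ZMod M).val

/-- The class of `1`. -/
def diaOne (M : ℕ) : DiaIdx M := ((1 : (ZMod M)ˣ) : DiaIdx M)

variable {M : ℕ}

theorem diaRep_coprime [NeZero M] (i : DiaIdx M) : Nat.Coprime (diaRep M i) M :=
  ZMod.val_coe_unit_coprime _

theorem not_dvd_diaRep [NeZero M] (hM : 2 ≤ M) (i : DiaIdx M) : ¬ M ∣ diaRep M i := by
  intro h
  have h1 : M ∣ Nat.gcd (diaRep M i) M := Nat.dvd_gcd h dvd_rfl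
  rw [diaRep_coprime i] at h1
  have := Nat.le_of_dvd one_pos h1
  omega

theorem natCast_diaRep [NeZero M] (i : DiaIdx M) :
    ((diaRep M i : ℕ) : ZMod M) = ((Quotient.out i : (ZMod M)ˣ) : ZMod M) :=
  ZMod.natCast_zmod_val _

/-- Distinct indices have representatives which are not congruent up to sign. -/
theorem diaRep_ne [NeZero M] {i j : DiaIdx M} (h : i ≠ j) :
    ¬ diaRep M i ≡ diaRep M j [MOD M] ∧ ¬ M ∣ diaRep M i + diaRep M j := by
  constructor
  · intro hmod
    apply h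
    have h1 : ((diaRep M i : ℕ) : ZMod M) = ((diaRep M j : ℕ) : ZMod M) :=
      (ZMod.natCast_eq_natCast_iff _ _ _).mpr hmod
    rw [natCast_diaRep, natCast_diaRep] at h1
    have h2 : (Quotient.out i : (ZMod M)ˣ) = Quotient.out j := Units.ext h1
    rw [← Quotient.out_eq i, ← Quotient.out_eq j, h2]
  · intro hdvd
    apply h
    have h1 : (((diaRep M i + diaRep M j : ℕ)) : ZMod M) = 0 :=
      (ZMod.natCast_eq_zero_iff _ _).mpr hdvd
    rw [Nat.cast_add, natCast_diaRep, natCast_diaRep] at h1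
    have h2 : (Quotient.out i : (ZMod M)ˣ) = -Quotient.out j :=
      Units.ext (by rw [Units.val_neg]; exact eq_neg_of_add_eq_zero_left h1)
    have h3 : (QuotientGroup.mk (Quotient.out i) : DiaIdx M) = QuotientGroup.mk (Quotient.out j) := by
      rw [QuotientGroup.eq, h2]
      refine Subgroup.mem_zpowers_iff.mpr ⟨1, ?_⟩
      rw [zpow_one, ← neg_inv, neg_mul, inv_mul_cancel]
    have hi : (QuotientGroup.mk (Quotient.out i) : DiaIdx M) = i := Quotient.out_eq i
    have hj : (QuotientGroup.mk (Quotient.out j) : DiaIdx M) = j := Quotient.out_eq j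
    rw [← hi, ← hj, h3]

/-- The orbit has `φ(M)/2` elements. -/
theorem card_diaIdx [NeZero M] (hM : 3 ≤ M) : Fintype.card (DiaIdx M) = M.totient / 2 := by
  haveI : Fact (1 < M) := ⟨by omega⟩
  have h1 := Subgroup.card_eq_card_quotient_mul_card_subgroup
    (Subgroup.zpowers (-1 : (ZMod M)ˣ))
  have h2 : Nat.card (Subgroup.zpowers (-1 : (ZMod M)ˣ)) = 2 := by
    rw [Nat.card_zpowers, ← orderOf_units, Units.val_neg, Units.val_one, orderOf_neg_one,
      ZMod.ringChar_zmod_n, if_neg (by omega)]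
  rw [h2, Nat.card_eq_fintype_card, ZMod.card_units_eq_totient, Nat.card_eq_fintype_card] at h1
  rw [h1, Nat.mul_div_cancel _ (by norm_num)]

/-- The representative of the class of `1` is `±1`: on a primitive `M`-th root of unity it gives
`z` or `z⁻¹`. -/
theorem pow_diaRep_diaOne [NeZero M] (hM : 2 ≤ M) {L : Type*} [Field L] {z : L}
    (hz : IsPrimitiveRoot z M) :
    z ^ diaRep M (diaOne M) = z ∨ z ^ diaRep M (diaOne M) = z⁻¹ := by
  haveI : Fact (1 < M) := ⟨by omega⟩
  have h1 : (QuotientGroup.mk (Quotient.out (diaOne M)) : DiaIdx M) = QuotientGroup.mk 1 :=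
    Quotient.out_eq (diaOne M)
  rw [QuotientGroup.eq, mul_one] at h1
  obtain ⟨k, hk⟩ := Subgroup.mem_zpowers_iff.mp h1
  have h2 : (Quotient.out (diaOne M) : (ZMod M)ˣ) = 1 ∨
      (Quotient.out (diaOne M) : (ZMod M)ˣ) = -1 := by
    rcases Int.even_or_odd k with he | ho
    · left
      rw [he.neg_one_zpow] at hk
      exact inv_eq_one.mp hk.symm
    · right
      rw [ho.neg_one_zpow] at hk
      rw [← inv_inv (Quotient.out (diaOne M) : (ZMod M)ˣ), ← hk, inv_neg, inv_one]
  rcases h2 with h | h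
  · left
    rw [diaRep, h, Units.val_one, ZMod.val_one, pow_one]
  · right
    have h3 : M ∣ diaRep M (diaOne M) + 1 := by
      rw [← ZMod.natCast_eq_zero_iff, Nat.cast_add, natCast_diaRep, h, Units.val_neg,
        Units.val_one, Nat.cast_one, neg_add_cancel]
    refine eq_inv_of_mul_eq_one_left ?_
    rw [← pow_succ]
    exact (hz.pow_eq_one_iff_dvd _).mpr h3

end Index

/-! ## Packaged forms for the consumers -/

section Packaged

variable {L : Type*} [Field L] (A : ValuationSubring L) {P : PowerSeries ℤ} {z : L} {M r : ℕ}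
  [NeZero M]

/-- **`hY`**: the integral models `Y i = orbInt A P z M r (diaRep M i)` map into the `Γ₁(M)`
field. -/
theorem orbit_hY (hM : IsUnit ((M : ℕ) : A)) (hz : IsPrimitiveRoot z M) (hr : r ∣ M)
    (hr1 : 1 < r) (hM2 : 2 ≤ M) (i : DiaIdx M) :
    coeffMap A.subtype (orbInt A P z M r (diaRep M i)) ∈ gamma1FieldP L P M := by
  rw [inc_orbInt P hM hz hr hr1 (not_dvd_diaRep hM2 i)]
  exact orbGen_mem P hz hr hr1 (not_dvd_diaRep hM2 i)

/-- **`hdist`**: the reductions of the integral models of the orbit are pairwise distinct. -/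
theorem orbit_hdist (hP : PowerSeries.constantCoeff P = 1) (hM : IsUnit ((M : ℕ) : A))
    (hz : IsPrimitiveRoot z M) (hM2 : 2 ≤ M) {i j : DiaIdx M} (h : i ≠ j) :
    coeffMap (IsLocalRing.residue A) (orbInt A P z M r (diaRep M i)) ≠
      coeffMap (IsLocalRing.residue A) (orbInt A P z M r (diaRep M j)) :=
  red_orbInt_ne hP hM hz (not_dvd_diaRep hM2 i) (not_dvd_diaRep hM2 j) (diaRep_ne h).1
    (diaRep_ne h).2

/-- **`hint`** in the `q`-Gauss valuation ring of a subfield `E`. -/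
theorem orbit_hint (E : IntermediateField L (LaurentSeries L))
    (hE : ∀ f : LaurentSeries L, f ∈ E → f ≠ 0 →
      helper8991.IsNormalizable A (IsLocalRing.residue A) f)
    (hM : IsUnit ((M : ℕ) : A)) (hz : IsPrimitiveRoot z M) (hr : r ∣ M) (hr1 : 1 < r)
    (hM2 : 2 ≤ M) (i : DiaIdx M) (h : orbGen L P z M r (diaRep M i) ∈ E) :
    (⟨orbGen L P z M r (diaRep M i), h⟩ : E) ∈
      helper8991.gaussSubring A (IsLocalRing.residue A) E hE :=
  orbGen_mem_gaussSubring E hE hM hz hr hr1 (not_dvd_diaRep hM2 i) h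

/-- **`hunit`** in the `q`-Gauss valuation ring of a subfield `E`. -/
theorem orbit_hunit (E : IntermediateField L (LaurentSeries L))
    (hE : ∀ f : LaurentSeries L, f ∈ E → f ≠ 0 →
      helper8991.IsNormalizable A (IsLocalRing.residue A) f)
    (hP : PowerSeries.constantCoeff P = 1) (hM : IsUnit ((M : ℕ) : A))
    (hz : IsPrimitiveRoot z M) (hM2 : 2 ≤ M) {i j : DiaIdx M} (hij : i ≠ j)
    (h : orbGen L P z M r (diaRep M i) ∈ E) (h' : orbGen L P z M r (diaRep M j) ∈ E) :
    (⟨orbGen L P z M r (diaRep M i), h⟩ : E) - ⟨orbGen L P z M r (diaRep M j), h'⟩ ≠ 0 ∧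
      ((⟨orbGen L P z M r (diaRep M i), h⟩ : E) - ⟨orbGen L P z M r (diaRep M j), h'⟩)⁻¹ ∈
        helper8991.gaussSubring A (IsLocalRing.residue A) E hE :=
  orbGen_sub_ne_zero_and_inv_mem E hE hP hM hz (not_dvd_diaRep hM2 i) (not_dvd_diaRep hM2 j)
    (diaRep_ne hij).1 (diaRep_ne hij).2 h h'

/-- The base point of the orbit: `y_{diaRep (diaOne)} = y_1`. -/
theorem orbGen_diaOne (hz : IsPrimitiveRoot z M) (hM2 : 2 ≤ M) :
    orbGen L P z M r (diaRep M (diaOne M)) = orbGen L P z M r 1 := by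
  rw [orbGen, orbGen, pow_one]
  rcases pow_diaRep_diaOne hM2 hz with h | h
  · rw [h]
  · rw [h, gen_inv_left]

/-- **Diamond law on the orbit** (hypothesis-passing form): if `y_1 ↦ gen (z^n) (c^n)` under
the `n`-th diamond (`n = diaRep M i`), the image is `y_{diaRep M i}`. -/
theorem orbGen_diamond_diaRep (hz : IsPrimitiveRoot z M) (hr : r ∣ M) (hr23 : r = 2 ∨ r = 3)
    (i : DiaIdx M) :
    gen L P (z ^ diaRep M i) ((z ^ (M / r)) ^ diaRep M i) = orbGen L P z M r (diaRep M i) := by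
  have h := orbGen_of_diamond P hz hr hr23
    (Nat.Coprime.coprime_dvd_right hr (diaRep_coprime i)) 1
  rw [pow_one, one_mul] at h
  exact h

end Packaged

end Fermat.Agent.S48.helper7300
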