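import Mathlib
import Fermat.Prelude.Def_FLTPrelim_Modularity

/-!
# S48 leaf F1-INT (algebraic core): coefficient ring, integrality and coefficient field

Everything here is about a sequence `a : ℕ → ℂ` (in the application
`a n = ModularFormClass.qCoeff f n`) that satisfies the Hecke relations of the frozen
statement S48 with respect to a Dirichlet character `ε` of level `N`:

  `a (p * n) + ε p * (if p ∣ n then a (n / p) else 0) = a p * a n`   (`p` prime, `p ∤ N`).

The only arithmetic input is a lattice hypothesis: the coefficients `a n`, `n` prime to `N`,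
lie in one finitely generated `ℤ`-submodule of `ℂ`.  From it we get, with no analysis:

* `coeffRing_fg` : the ring `ℤ[ε, a_p : p ∤ N]` is a finitely generated `ℤ`-module;
* `isIntegral_coeff` : `a n` is an algebraic integer for every `n ≠ 0` prime to `N`;
* `coeffField_finiteDimensional` : `ℚ(ε, a_p : p ∤ N)` is a number field containing them.

`mem_mul_of_cauchy` is the supplier lemma: if `(∑ a_n q^n) * (∑ b_n q^n)` has coefficients
in a finitely generated module `M₀` and `b = q + ...` has coefficients in a ring `O`, then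
every `a n` lies in `O * M₀`.
-/

set_option autoImplicit false

noncomputable section

namespace Fermat.Agent.S48.helper7414

/-- The generators of the coefficient ring: the values of `ε` and the `a p`, `p ∤ N` prime. -/
def heckeGens {N : ℕ} (ε : DirichletCharacter ℂ N) (a : ℕ → ℂ) : Set ℂ :=
  Set.range ε ∪ {x | ∃ p : ℕ, p.Prime ∧ ¬ p ∣ N ∧ x = a p}

/-- The coefficient ring `ℤ[ε, a_p : p ∤ N]`. -/
def coeffRing {N : ℕ} (ε : DirichletCharacter ℂ N) (a : ℕ → ℂ) : Subalgebra ℤ ℂ :=
  Algebra.adjoin ℤ (heckeGens ε a)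

/-- The coefficient field `ℚ(ε, a_p : p ∤ N)`. -/
def coeffField {N : ℕ} (ε : DirichletCharacter ℂ N) (a : ℕ → ℂ) : IntermediateField ℚ ℂ :=
  IntermediateField.adjoin ℚ (heckeGens ε a)

/-- The Hecke relations of the frozen statement S48, for a sequence. -/
def HeckeRel {N : ℕ} (ε : DirichletCharacter ℂ N) (a : ℕ → ℂ) : Prop :=
  ∀ p : ℕ, p.Prime → ¬ p ∣ N → ∀ n : ℕ,
    a (p * n) + ε (p : ZMod N) * (if p ∣ n then a (n / p) else 0) = a p * a n

/-- The lattice hypothesis (bounded denominators in one finitely generated module). -/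
def LatticeHyp (N : ℕ) (a : ℕ → ℂ) : Prop :=
  ∃ Λ : Submodule ℤ ℂ, Λ.FG ∧ ∀ n : ℕ, n.Coprime N → a n ∈ Λ

theorem isIntegral_dirichletCharacter {N : ℕ} [NeZero N] (ε : DirichletCharacter ℂ N)
    (x : ZMod N) : IsIntegral ℤ (ε x) := by
  by_cases hx : IsUnit x
  · obtain ⟨u, rfl⟩ := hx
    have h1 : ε (u : ZMod N) ^ Fintype.card (ZMod N)ˣ = 1 := by
      rw [← map_pow, ← Units.val_pow_eq_pow_val, pow_card_eq_one, Units.val_one, map_one]
    refine IsIntegral.of_pow (n := Fintype.card (ZMod N)ˣ) Fintype.card_pos ?_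
    rw [h1]
    exact isIntegral_one
  · rw [MulChar.map_nonunit ε hx]
    exact isIntegral_zero

/-- The ring `ℤ[ε]` generated by the values of `ε`. -/
def charRing {N : ℕ} (ε : DirichletCharacter ℂ N) : Subalgebra ℤ ℂ :=
  Algebra.adjoin ℤ (Set.range ε)

theorem charRing_fg {N : ℕ} [NeZero N] (ε : DirichletCharacter ℂ N) :
    (charRing ε).toSubmodule.FG := by
  refine fg_adjoin_of_finite (Set.finite_range _) ?_
  rintro _ ⟨x, rfl⟩
  exact isIntegral_dirichletCharacter ε x

theorem eps_mem_charRing {N : ℕ} (ε : DirichletCharacter ℂ N) (x : ZMod N) :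
    ε x ∈ charRing ε :=
  Algebra.subset_adjoin ⟨x, rfl⟩

theorem charRing_le_coeffRing {N : ℕ} (ε : DirichletCharacter ℂ N) (a : ℕ → ℂ) :
    charRing ε ≤ coeffRing ε a :=
  Algebra.adjoin_mono Set.subset_union_left

theorem eps_mem_coeffRing {N : ℕ} (ε : DirichletCharacter ℂ N) (a : ℕ → ℂ) (x : ZMod N) :
    ε x ∈ coeffRing ε a :=
  charRing_le_coeffRing ε a (eps_mem_charRing ε x)

theorem coeff_prime_mem_coeffRing {N : ℕ} (ε : DirichletCharacter ℂ N) (a : ℕ → ℂ)
    {p : ℕ} (hp : p.Prime) (hpN : ¬ p ∣ N) : a p ∈ coeffRing ε a :=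
  Algebra.subset_adjoin (Or.inr ⟨p, hp, hpN, rfl⟩)

/-- Every `a n`, `n ≠ 0` prime to `N`, is a polynomial in the `a p` and the values of `ε`. -/
theorem coeff_mem_coeffRing {N : ℕ} (ε : DirichletCharacter ℂ N) (a : ℕ → ℂ)
    (h1 : a 1 = 1) (hT : HeckeRel ε a) :
    ∀ n : ℕ, n ≠ 0 → n.Coprime N → a n ∈ coeffRing ε a := by
  intro n
  induction n using Nat.strong_induction_on with
  | _ n ih =>
    intro hn0 hnN
    by_cases hn1 : n = 1
    · rw [hn1, h1]; exact one_mem _
    have hp : (n.minFac).Prime := Nat.minFac_prime hn1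
    obtain ⟨m, hm⟩ := Nat.minFac_dvd n
    set p := n.minFac with hpdef
    have hpN : ¬ p ∣ N := by
      intro hdvd
      have := Nat.eq_one_of_dvd_coprimes hnN (Nat.minFac_dvd n) hdvd
      exact hp.one_lt.ne' this
    have hm0 : m ≠ 0 := by
      rintro rfl; rw [mul_zero] at hm; exact hn0 hm
    have hmlt : m < n := by
      rw [hm]
      exact lt_mul_of_one_lt_left (Nat.pos_of_ne_zero hm0) hp.one_lt
    have hmN : m.Coprime N := Nat.Coprime.coprime_dvd_left ⟨p, by rw [hm, mul_comm]⟩ hnN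
    have hrel := hT p hp hpN m
    have ham : a m ∈ coeffRing ε a := ih m hmlt hm0 hmN
    have hap : a p ∈ coeffRing ε a := coeff_prime_mem_coeffRing ε a hp hpN
    have hkey : a n = a p * a m - ε (p : ZMod N) * (if p ∣ m then a (m / p) else 0) := by
      rw [← hrel, hm]; ring
    rw [hkey]
    refine sub_mem (mul_mem hap ham) (mul_mem (eps_mem_coeffRing ε a _) ?_)
    split_ifs with hpm
    · obtain ⟨k, hk⟩ := hpm
      have hk0 : k ≠ 0 := by rintro rfl; rw [mul_zero] at hk; exact hm0 hk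
      have hmk : m / p = k := by rw [hk]; exact Nat.mul_div_cancel_left k hp.pos
      rw [hmk]
      have hklt : k < n := lt_of_le_of_lt (Nat.le_of_dvd (Nat.pos_of_ne_zero hm0)
        ⟨p, by rw [hk, mul_comm]⟩) hmlt
      exact ih k hklt hk0 (Nat.Coprime.coprime_dvd_left ⟨p, by rw [hk, mul_comm]⟩ hmN)
    · exact zero_mem _

/-- **Main algebraic step.**  Under the lattice hypothesis the coefficient ring
`ℤ[ε, a_p : p ∤ N]` is contained in `ℤ[ε] * Λ`. -/
theorem coeffRing_le_mul {N : ℕ} (ε : DirichletCharacter ℂ N) (a : ℕ → ℂ)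
    (h1 : a 1 = 1) (hT : HeckeRel ε a)
    (Λ : Submodule ℤ ℂ) (hΛ : ∀ n : ℕ, n.Coprime N → a n ∈ Λ) :
    (coeffRing ε a).toSubmodule ≤ (charRing ε).toSubmodule * Λ := by
  -- `T := ℤ[ε] * span {a n : (n, N) = 1}`
  set S₀ : Submodule ℤ ℂ := Submodule.span ℤ {x | ∃ n : ℕ, n.Coprime N ∧ x = a n} with hS₀
  set T : Submodule ℤ ℂ := (charRing ε).toSubmodule * S₀ with hTdef
  have hS₀Λ : S₀ ≤ Λ := by
    rw [hS₀, Submodule.span_le]
    rintro _ ⟨n, hn, rfl⟩
    exact hΛ n hn
  have hTle : T ≤ (charRing ε).toSubmodule * Λ := mul_le_mul' le_rfl hS₀Λ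
  have hone : (1 : ℂ) ∈ T := by
    have : (1 : ℂ) * a 1 ∈ T :=
      Submodule.mul_mem_mul (one_mem (charRing ε)) (Submodule.subset_span ⟨1, Nat.coprime_one_left N, rfl⟩)
    rwa [h1, mul_one] at this
  -- stability of `T` under the generators
  have hstabO : ∀ o ∈ charRing ε, ∀ y ∈ T, o * y ∈ T := by
    intro o ho y hy
    refine Submodule.mul_induction_on hy ?_ ?_
    · intro m hm n hn
      rw [← mul_assoc]
      exact Submodule.mul_mem_mul ((charRing ε).mul_mem ho hm) hn
    · intro x y hx hy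
      rw [mul_add]; exact add_mem hx hy
  have hstabS : ∀ p : ℕ, p.Prime → ¬ p ∣ N → ∀ s ∈ S₀, a p * s ∈ T := by
    intro p hp hpN s hs
    refine Submodule.span_induction ?_ ?_ ?_ ?_ hs
    · rintro _ ⟨n, hn, rfl⟩
      rw [← hT p hp hpN n]
      have hpc : p.Coprime N := (Nat.Prime.coprime_iff_not_dvd hp).2 hpN
      refine add_mem ?_ ?_
      · have : (1 : ℂ) * a (p * n) ∈ T :=
          Submodule.mul_mem_mul (one_mem (charRing ε))
            (Submodule.subset_span ⟨p * n, Nat.Coprime.mul_left hpc hn, rfl⟩)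
        rwa [one_mul] at this
      · split_ifs with hpn
        · exact Submodule.mul_mem_mul (eps_mem_charRing ε _)
            (Submodule.subset_span ⟨n / p,
              Nat.Coprime.coprime_dvd_left (Nat.div_dvd_of_dvd hpn) hn, rfl⟩)
        · rw [mul_zero]; exact zero_mem _
    · rw [mul_zero]; exact zero_mem _
    · intro x y _ _ hx hy
      rw [mul_add]; exact add_mem hx hy
    · intro c x _ hx
      rw [mul_smul_comm]; exact Submodule.smul_mem _ _ hx
  have hstabP : ∀ p : ℕ, p.Prime → ¬ p ∣ N → ∀ y ∈ T, a p * y ∈ T := by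
    intro p hp hpN y hy
    refine Submodule.mul_induction_on hy ?_ ?_
    · intro m hm n hn
      have : a p * (m * n) = m * (a p * n) := by ring
      rw [this]
      exact hstabO m hm _ (hstabS p hp hpN n hn)
    · intro x y hx hy
      rw [mul_add]; exact add_mem hx hy
  -- every element of the coefficient ring stabilises `T`
  have hstab : ∀ x ∈ coeffRing ε a, ∀ y ∈ T, x * y ∈ T := by
    intro x hx
    refine Algebra.adjoin_induction (p := fun x _ => ∀ y ∈ T, x * y ∈ T) ?_ ?_ ?_ ?_ hx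
    · rintro x (⟨z, rfl⟩ | ⟨p, hp, hpN, rfl⟩)
      · exact hstabO _ (eps_mem_charRing ε z)
      · exact hstabP p hp hpN
    · intro r y hy
      have : (algebraMap ℤ ℂ r) * y = r • y := by
        rw [Algebra.smul_def]
      rw [this]; exact Submodule.smul_mem _ _ hy
    · intro x y _ _ hx hy z hz
      rw [add_mul]; exact add_mem (hx z hz) (hy z hz)
    · intro x y _ _ hx hy z hz
      rw [mul_assoc]; exact hx _ (hy z hz)
  intro x hx
  have := hstab x hx 1 hone
  rw [mul_one] at this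
  exact hTle this

/-- **(1)** Under the lattice hypothesis, `ℤ[ε, a_p : p ∤ N]` is a finitely generated
`ℤ`-module. -/
theorem coeffRing_fg {N : ℕ} [NeZero N] (ε : DirichletCharacter ℂ N) (a : ℕ → ℂ)
    (h1 : a 1 = 1) (hT : HeckeRel ε a) (hΛ : LatticeHyp N a) :
    (coeffRing ε a).toSubmodule.FG := by
  obtain ⟨Λ, hfg, hmem⟩ := hΛ
  exact Submodule.FG.of_le ((charRing_fg ε).mul hfg) (coeffRing_le_mul ε a h1 hT Λ hmem)

/-- **(2)** Every element of the coefficient ring is an algebraic integer. -/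
theorem isIntegral_of_mem_coeffRing {N : ℕ} [NeZero N] (ε : DirichletCharacter ℂ N)
    (a : ℕ → ℂ) (h1 : a 1 = 1) (hT : HeckeRel ε a) (hΛ : LatticeHyp N a)
    {x : ℂ} (hx : x ∈ coeffRing ε a) : IsIntegral ℤ x :=
  IsIntegral.of_mem_of_fg _ (coeffRing_fg ε a h1 hT hΛ) x hx

/-- **(2')** `a n` is an algebraic integer for every `n ≠ 0` prime to `N`. -/
theorem isIntegral_coeff {N : ℕ} [NeZero N] (ε : DirichletCharacter ℂ N)
    (a : ℕ → ℂ) (h1 : a 1 = 1) (hT : HeckeRel ε a) (hΛ : LatticeHyp N a)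
    {n : ℕ} (hn0 : n ≠ 0) (hn : n.Coprime N) : IsIntegral ℤ (a n) :=
  isIntegral_of_mem_coeffRing ε a h1 hT hΛ (coeff_mem_coeffRing ε a h1 hT n hn0 hn)

/-- **(2'')** `a p` is an algebraic integer for every prime `p ∤ N`. -/
theorem isIntegral_coeff_prime {N : ℕ} [NeZero N] (ε : DirichletCharacter ℂ N)
    (a : ℕ → ℂ) (h1 : a 1 = 1) (hT : HeckeRel ε a) (hΛ : LatticeHyp N a)
    {p : ℕ} (hp : p.Prime) (hpN : ¬ p ∣ N) : IsIntegral ℤ (a p) :=
  isIntegral_of_mem_coeffRing ε a h1 hT hΛ (coeff_prime_mem_coeffRing ε a hp hpN)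

/-! ### The coefficient field -/

theorem coeffRing_le_coeffField {N : ℕ} (ε : DirichletCharacter ℂ N) (a : ℕ → ℂ)
    {x : ℂ} (hx : x ∈ coeffRing ε a) : x ∈ coeffField ε a := by
  refine Algebra.adjoin_induction (p := fun x _ => x ∈ coeffField ε a) ?_ ?_ ?_ ?_ hx
  · intro x hx
    exact IntermediateField.subset_adjoin ℚ _ hx
  · intro r
    simp
  · intro x y _ _ hx hy
    exact add_mem hx hy
  · intro x y _ _ hx hy
    exact mul_mem hx hy

theorem eps_mem_coeffField {N : ℕ} (ε : DirichletCharacter ℂ N) (a : ℕ → ℂ) (x : ZMod N) :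
    ε x ∈ coeffField ε a :=
  coeffRing_le_coeffField ε a (eps_mem_coeffRing ε a x)

theorem coeff_prime_mem_coeffField {N : ℕ} (ε : DirichletCharacter ℂ N) (a : ℕ → ℂ)
    {p : ℕ} (hp : p.Prime) (hpN : ¬ p ∣ N) : a p ∈ coeffField ε a :=
  coeffRing_le_coeffField ε a (coeff_prime_mem_coeffRing ε a hp hpN)

theorem coeff_mem_coeffField {N : ℕ} (ε : DirichletCharacter ℂ N) (a : ℕ → ℂ)
    (h1 : a 1 = 1) (hT : HeckeRel ε a) {n : ℕ} (hn0 : n ≠ 0) (hn : n.Coprime N) :
    a n ∈ coeffField ε a :=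
  coeffRing_le_coeffField ε a (coeff_mem_coeffRing ε a h1 hT n hn0 hn)

/-- **(3)** Under the lattice hypothesis, `ℚ(ε, a_p : p ∤ N)` is finite over `ℚ`. -/
theorem coeffField_finiteDimensional {N : ℕ} [NeZero N] (ε : DirichletCharacter ℂ N)
    (a : ℕ → ℂ) (h1 : a 1 = 1) (hT : HeckeRel ε a) (hΛ : LatticeHyp N a) :
    FiniteDimensional ℚ (coeffField ε a) := by
  obtain ⟨s, hs⟩ := coeffRing_fg ε a h1 hT hΛ
  have hsub : ∀ x ∈ (s : Set ℂ), x ∈ coeffRing ε a := by
    intro x hx
    have : x ∈ Submodule.span ℤ (s : Set ℂ) := Submodule.subset_span hx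
    rw [hs] at this
    exact this
  have hint : ∀ x ∈ (s : Set ℂ), IsIntegral ℚ x := fun x hx =>
    (isIntegral_of_mem_coeffRing ε a h1 hT hΛ (hsub x hx)).tower_top
  have : Finite (s : Set ℂ) := s.finite_toSet
  have hfin : FiniteDimensional ℚ (IntermediateField.adjoin ℚ (s : Set ℂ)) :=
    IntermediateField.finiteDimensional_adjoin hint
  have hle : coeffField ε a ≤ IntermediateField.adjoin ℚ (s : Set ℂ) := by
    refine IntermediateField.adjoin_le_iff.2 ?_
    intro x hx
    have hx' : x ∈ (coeffRing ε a).toSubmodule := Algebra.subset_adjoin hx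
    rw [← hs] at hx'
    refine Submodule.span_induction ?_ ?_ ?_ ?_ hx'
    · intro y hy
      exact IntermediateField.subset_adjoin ℚ _ hy
    · exact zero_mem _
    · intro y z _ _ hy hz
      exact add_mem hy hz
    · intro c y _ hy
      rw [zsmul_eq_mul]
      exact mul_mem (intCast_mem _ c) hy
  exact FiniteDimensional.of_injective (IntermediateField.inclusion hle).toLinearMap
    (IntermediateField.inclusion hle).injective

/-- The coefficient field is a number field. -/
theorem coeffField_numberField {N : ℕ} [NeZero N] (ε : DirichletCharacter ℂ N)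
    (a : ℕ → ℂ) (h1 : a 1 = 1) (hT : HeckeRel ε a) (hΛ : LatticeHyp N a) :
    NumberField (coeffField ε a) :=
  haveI := coeffField_finiteDimensional ε a h1 hT hΛ
  { to_charZero := inferInstance, to_finiteDimensional := inferInstance }

/-! ### The supplier lemma: dividing by a power series `q + ...` with coefficients in `O` -/

theorem mul_mem_mul_of_mem (O : Subalgebra ℤ ℂ) (M₀ : Submodule ℤ ℂ) {x o : ℂ}
    (hx : x ∈ O.toSubmodule * M₀) (ho : o ∈ O) : x * o ∈ O.toSubmodule * M₀ := by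
  refine Submodule.mul_induction_on hx ?_ ?_
  · intro m hm n hn
    have : m * n * o = (m * o) * n := by ring
    rw [this]
    exact Submodule.mul_mem_mul (O.mul_mem hm ho) hn
  · intro y z hy hz
    rw [add_mul]; exact add_mem hy hz

/-- **FGCOEF.**  If the Cauchy product of `a` with a sequence `b = (0, 1, b₂, …)` with values
in a ring `O` has all its coefficients in `M₀`, then every `a n` lies in `O * M₀`. -/
theorem mem_mul_of_cauchy (O : Subalgebra ℤ ℂ) (M₀ : Submodule ℤ ℂ) (a b : ℕ → ℂ)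
    (hb0 : b 0 = 0) (hb1 : b 1 = 1) (hb : ∀ n, b n ∈ O)
    (hprod : ∀ n, ∑ ij ∈ Finset.HasAntidiagonal.antidiagonal n, a ij.1 * b ij.2 ∈ M₀) :
    ∀ n, a n ∈ O.toSubmodule * M₀ := by
  have hM₀ : M₀ ≤ O.toSubmodule * M₀ := by
    intro x hx
    have : (1 : ℂ) * x ∈ O.toSubmodule * M₀ := Submodule.mul_mem_mul (one_mem O) hx
    rwa [one_mul] at this
  intro n
  induction n using Nat.strong_induction_on with
  | _ n ih =>
    have h := hprod (n + 1)
    rw [Finset.Nat.sum_antidiagonal_eq_sum_range_succ_mk, Finset.sum_range_succ,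
      Finset.sum_range_succ] at h
    simp only [Nat.sub_self, hb0, mul_zero, add_zero, Nat.add_sub_cancel_left, hb1, mul_one] at h
    have hsum : ∑ k ∈ Finset.range n, a k * b (n + 1 - k) ∈ O.toSubmodule * M₀ := by
      refine Submodule.sum_mem _ ?_
      intro k hk
      exact mul_mem_mul_of_mem O M₀ (ih k (Finset.mem_range.1 hk)) (hb _)
    have := sub_mem (hM₀ h) hsum
    simpa using this

/-- The lattice hypothesis from a product with a multiplier `b = q + …` whose coefficients
lie in `ℤ[ε]`, the product having its coefficients in a finitely generated module. -/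
theorem latticeHyp_of_cauchy {N : ℕ} [NeZero N] (ε : DirichletCharacter ℂ N) (a b : ℕ → ℂ)
    (M₀ : Submodule ℤ ℂ) (hM₀ : M₀.FG)
    (hb0 : b 0 = 0) (hb1 : b 1 = 1) (hb : ∀ n, b n ∈ charRing ε)
    (hprod : ∀ n, ∑ ij ∈ Finset.HasAntidiagonal.antidiagonal n, a ij.1 * b ij.2 ∈ M₀) :
    LatticeHyp N a :=
  ⟨(charRing ε).toSubmodule * M₀, (charRing_fg ε).mul hM₀,
    fun n _ => mem_mul_of_cauchy (charRing ε) M₀ a b hb0 hb1 hb hprod n⟩

/-- The values of `ε⁻¹` lie in `ℤ[ε]`. -/
theorem inv_mem_charRing {N : ℕ} (ε : DirichletCharacter ℂ N) (x : ZMod N) :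
    ε⁻¹ x ∈ charRing ε := by
  rw [MulChar.inv_apply]
  exact eps_mem_charRing ε _

end Fermat.Agent.S48.helper7414
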