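import Mathlib
import Fermat.Agent.S48.helper7414_CoeffField
import Fermat.Agent.Lib.helper229_HeckeLattice
import Fermat.Agent.S23.helper23_Final

/-!
# S48 leaf F1-INT (supplier layer): the lattice hypothesis from a product in `S_k(Γ₀(N))`

* `exists_fg_qCoeff_mem` : all q-coefficients of a cusp form of level `Γ₀(N)` (any weight)
  lie in one finitely generated `ℤ`-submodule of `ℂ` (landed `S23` integral structure).
* `latticeHyp_of_product` / `latticeHyp_of_qExpansion_mul` : if `F = f * B` on q-expansions,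
  with `F ∈ S_k(Γ₀(N))` and `B = q + …` with coefficients in `ℤ[ε]`, then the coefficients of
  `f` satisfy the lattice hypothesis of `helper7414_CoeffField`.
-/

set_option autoImplicit false

noncomputable section

namespace Fermat.Agent.S48.helper7414

open CongruenceSubgroup UpperHalfPlane

/-- **(L1)** All q-coefficients of a cusp form of level `Γ₀(N)` lie in one finitely generated
`ℤ`-submodule of `ℂ`. -/
theorem exists_fg_qCoeff_mem (N : ℕ) [NeZero N] (k : ℤ) (F : CuspForm (Gamma0 N) k) :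
    ∃ M₀ : Submodule ℤ ℂ, M₀.FG ∧ ∀ n : ℕ, ModularFormClass.qCoeff F n ∈ M₀ := by
  classical
  obtain ⟨Fs, hFL, hFtop⟩ := Fermat.Agent.Lib.helper229.exists_finset_span_of_hasIntegralStructure
    (Fermat.Agent.S23.helper23.hasIntegralStructure N k)
  have hF : F ∈ Submodule.span ℂ (Fs : Set (CuspForm (Gamma0 N) k)) := by
    rw [hFtop]; exact Submodule.mem_top
  obtain ⟨c, -, hc⟩ := Submodule.mem_span_finset.1 hF
  refine ⟨Submodule.span ℤ ((Fs.image c : Finset ℂ) : Set ℂ), ⟨Fs.image c, rfl⟩, fun n => ?_⟩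
  have hn : ModularFormClass.qCoeff F n = ∑ g ∈ Fs, c g * ModularFormClass.qCoeff g n := by
    rw [← Fermat.Agent.Lib.helper229.qCoeffLin_apply, ← hc, map_sum]
    refine Finset.sum_congr rfl fun g _ => ?_
    rw [map_smul, Fermat.Agent.Lib.helper229.qCoeffLin_apply, smul_eq_mul]
  rw [hn]
  refine Submodule.sum_mem _ fun g hg => ?_
  have hgL : g ∈ CuspForm.intLattice N k := by
    rw [← hFL]; exact Submodule.subset_span hg
  obtain ⟨m, hm⟩ := Fermat.Agent.Lib.helper229.intQ_of_mem_intLattice hgL n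
  rw [hm, mul_comm, ← zsmul_eq_mul]
  exact Submodule.smul_mem _ _ (Submodule.subset_span (Finset.mem_coe.2 (Finset.mem_image_of_mem c hg)))

/-- **(L2)** The lattice hypothesis for `a` from a product identity of coefficient sequences
`qCoeff F = a * b` (Cauchy product), `F ∈ S_k(Γ₀(N))`, `b = q + …` with coefficients in
`ℤ[ε]`. -/
theorem latticeHyp_of_product {N : ℕ} [NeZero N] (ε : DirichletCharacter ℂ N) {k : ℤ}
    (F : CuspForm (Gamma0 N) k) (a b : ℕ → ℂ)
    (hb0 : b 0 = 0) (hb1 : b 1 = 1) (hb : ∀ n, b n ∈ charRing ε)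
    (hprod : ∀ n, ModularFormClass.qCoeff F n =
      ∑ ij ∈ Finset.HasAntidiagonal.antidiagonal n, a ij.1 * b ij.2) :
    LatticeHyp N a := by
  obtain ⟨M₀, hfg, hmem⟩ := exists_fg_qCoeff_mem N k F
  exact latticeHyp_of_cauchy ε a b M₀ hfg hb0 hb1 hb (fun n => hprod n ▸ hmem n)

/-- **(L2')** The same in terms of q-expansions: `qExpansion 1 F = qExpansion 1 f * qExpansion 1 B`
with `qExpansion 1 B = q + …` having coefficients in `ℤ[ε]`. -/
theorem latticeHyp_of_qExpansion_mul {N : ℕ} [NeZero N] (ε : DirichletCharacter ℂ N) {k : ℤ}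
    (F : CuspForm (Gamma0 N) k) (f B : ℍ → ℂ)
    (hFB : qExpansion 1 F = qExpansion 1 f * qExpansion 1 B)
    (hB0 : (qExpansion 1 B).coeff 0 = 0) (hB1 : (qExpansion 1 B).coeff 1 = 1)
    (hB : ∀ n, (qExpansion 1 B).coeff n ∈ charRing ε) :
    LatticeHyp N (fun n => ModularFormClass.qCoeff f n) := by
  refine latticeHyp_of_product ε F (fun n => ModularFormClass.qCoeff f n)
    (fun n => (qExpansion 1 B).coeff n) hB0 hB1 hB (fun n => ?_)
  show (qExpansion 1 F).coeff n = _
  rw [hFB, PowerSeries.coeff_mul]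
  rfl

/-- **F1-INT, frozen vocabulary.**  For `f`, `ε` as in the frozen statement S48 and a
multiplier as in `latticeHyp_of_qExpansion_mul`: the ring `ℤ[ε, a_p(f) : p ∤ N]` is a finitely
generated `ℤ`-module, every `a_n(f)` (`n ≠ 0` prime to `N`) is an algebraic integer, and
`ℚ(ε, a_p(f) : p ∤ N)` is a number field. -/
theorem coeff_integrality_of_lattice (N : ℕ) [NeZero N] (ε : DirichletCharacter ℂ N)
    (f : CuspForm (Gamma1 N) 1)
    (hf₁ : ModularFormClass.qCoeff f 1 = 1)
    (hT : ∀ p : ℕ, p.Prime → ¬ p ∣ N → ∀ n : ℕ,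
        ModularFormClass.qCoeff f (p * n) +
            ε (p : ZMod N) * (if p ∣ n then ModularFormClass.qCoeff f (n / p) else 0) =
          ModularFormClass.qCoeff f p * ModularFormClass.qCoeff f n)
    (hΛ : LatticeHyp N (fun n => ModularFormClass.qCoeff f n)) :
    (coeffRing ε (fun n => ModularFormClass.qCoeff f n)).toSubmodule.FG ∧
    (∀ n : ℕ, n ≠ 0 → n.Coprime N → IsIntegral ℤ (ModularFormClass.qCoeff f n)) ∧
    (∀ x : ZMod N, IsIntegral ℤ (ε x)) ∧
    FiniteDimensional ℚ (coeffField ε (fun n => ModularFormClass.qCoeff f n)) ∧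
    (∀ n : ℕ, n ≠ 0 → n.Coprime N →
      ModularFormClass.qCoeff f n ∈ coeffField ε (fun n => ModularFormClass.qCoeff f n)) ∧
    (∀ x : ZMod N, ε x ∈ coeffField ε (fun n => ModularFormClass.qCoeff f n)) :=
  ⟨coeffRing_fg ε _ hf₁ hT hΛ,
    fun _ hn0 hn => isIntegral_coeff ε (fun n => ModularFormClass.qCoeff f n) hf₁ hT hΛ hn0 hn,
    isIntegral_dirichletCharacter ε,
    coeffField_finiteDimensional ε _ hf₁ hT hΛ,
    fun _ hn0 hn => coeff_mem_coeffField ε (fun n => ModularFormClass.qCoeff f n) hf₁ hT hn0 hn,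
    eps_mem_coeffField ε _⟩

end Fermat.Agent.S48.helper7414
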