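import Mathlib
import Fermat.Agent.S48.helper8231_Spec
import Fermat.Agent.S48.helper3685_NebenStmt
import Fermat.Agent.S48.helper3960_EisPsi
import Fermat.Agent.S48.helper7414_CoeffLattice

/-!
# S48: `Stmt_IntCoeff` (integrality of the eigenvalues and the coefficient field)

`f` a weight-one eigenform with character `ε` (frozen hypotheses).  By the landed nebentypus
theorem `f ∣ γ = ε(d) f` on `Γ₀(N)`, so `F := f · B_{ε⁻¹}` (`B_ψ` the weight-three Eisenstein
multiplier `q + …` with coefficients in `ℤ[ε]`) is a cusp form of weight `4` on `Γ₀(N)`.  The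
landed integral structure of `S₄(Γ₀(N))` puts all coefficients of `F` in one finitely generated
`ℤ`-module, hence (division by `B`) all coefficients of `f`, and the algebraic core of
`helper7414_CoeffField` gives integrality and the number field.
-/

set_option autoImplicit false

noncomputable section

namespace Fermat.Agent.S48.helper7414

open CongruenceSubgroup UpperHalfPlane ModularForm
open scoped MatrixGroups Manifold ModularForm

variable {N : ℕ} [NeZero N]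

/-- Every `SL(2, ℤ)`-translate of a cusp form on `Γ₁(N)` vanishes at `i∞`. -/
theorem isZeroAtImInfty_slash_cuspForm {k : ℤ} (f : CuspForm (Gamma1 N) k) (A : SL(2, ℤ)) :
    IsZeroAtImInfty ((⇑f) ∣[k] A) := by
  have hc : IsCusp (Matrix.SpecialLinearGroup.mapGL ℝ A • (OnePoint.infty : OnePoint ℝ)) 𝒮ℒ :=
    isCusp_SL2Z_iff'.mpr ⟨A, rfl⟩
  have hc' : IsCusp (Matrix.SpecialLinearGroup.mapGL ℝ A • (OnePoint.infty : OnePoint ℝ))
      ((Gamma1 N : Subgroup SL(2, ℤ)) : Subgroup (GL (Fin 2) ℝ)) := by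
    rw [Subgroup.IsArithmetic.isCusp_iff_isCusp_SL2Z]
    exact hc
  exact (OnePoint.isZeroAt_iff_forall_SL2Z hc).1 (f.zero_at_cusps' hc') A rfl

/-- The product `f · B_{ε⁻¹}` of a weight-one cusp form on `Γ₁(N)` with nebentypus `ε` and the
Eisenstein multiplier, as a cusp form of weight `4` on `Γ₀(N)`. -/
def mulEis (ε : DirichletCharacter ℂ N) (f : CuspForm (Gamma1 N) 1)
    (hneb : ∀ γ : SL(2, ℤ), γ ∈ Gamma0 N →
      (⇑f) ∣[(1 : ℤ)] γ = ε ((γ 1 1 : ℤ) : ZMod N) • (⇑f)) :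
    CuspForm (Gamma0 N) 4 where
  toFun := ⇑f * helper3960.eisPsi ε⁻¹
  slash_action_eq' γ hγ := by
    obtain ⟨γ', hγ', rfl⟩ := hγ
    have h4 : ((4 : ℤ)) = 1 + 3 := by norm_num
    have hmul := ModularForm.mul_slash_SL2 1 3 γ' (⇑f) (helper3960.eisPsi ε⁻¹)
    have hunit : IsUnit (((γ' 1 1 : ℤ) : ZMod N)) := by
      have h0 : ((γ' 1 0 : ℤ) : ZMod N) = 0 := Gamma0_mem.mp hγ'
      have hdet : γ' 0 0 * γ' 1 1 - γ' 0 1 * γ' 1 0 = 1 := by
        have := γ'.det_coe
        rw [Matrix.det_fin_two] at this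
        exact this
      have h1 : ((γ' 0 0 : ℤ) : ZMod N) * ((γ' 1 1 : ℤ) : ZMod N) = 1 := by
        have := congrArg (fun x : ℤ => (x : ZMod N)) hdet
        simp only [Int.cast_sub, Int.cast_mul, Int.cast_one, h0, mul_zero, sub_zero] at this
        exact this
      exact IsUnit.of_mul_eq_one _ (by rw [mul_comm]; exact h1)
    have hε : ε ((γ' 1 1 : ℤ) : ZMod N) * ε⁻¹ ((γ' 1 1 : ℤ) : ZMod N) = 1 := by
      rw [MulChar.inv_apply_eq_inv']
      exact mul_inv_cancel₀ (hunit.map ε).ne_zero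
    show (⇑f * helper3960.eisPsi ε⁻¹) ∣[(4 : ℤ)] (Matrix.SpecialLinearGroup.mapGL ℝ γ') = _
    have hmul' : (⇑f * helper3960.eisPsi ε⁻¹) ∣[(4 : ℤ)] γ' =
        ((⇑f) ∣[(1 : ℤ)] γ') * (helper3960.eisPsi ε⁻¹ ∣[(3 : ℤ)] γ') := hmul
    refine hmul'.trans ?_
    rw [hneb γ' hγ', helper3960.eisPsi_slash ε⁻¹ hγ']
    ext z
    simp only [Pi.mul_apply, Pi.smul_apply, smul_eq_mul]
    calc ε ((γ' 1 1 : ℤ) : ZMod N) * f z * (ε⁻¹ ((γ' 1 1 : ℤ) : ZMod N) * helper3960.eisPsi ε⁻¹ z)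
        = (ε ((γ' 1 1 : ℤ) : ZMod N) * ε⁻¹ ((γ' 1 1 : ℤ) : ZMod N)) *
            (f z * helper3960.eisPsi ε⁻¹ z) := by ring
      _ = f z * helper3960.eisPsi ε⁻¹ z := by rw [hε, one_mul]
  holo' := f.holo'.mul (helper3960.eisPsi_mdifferentiable ε⁻¹)
  zero_at_cusps' {c} hc := by
    rw [Subgroup.IsArithmetic.isCusp_iff_isCusp_SL2Z] at hc
    rw [OnePoint.isZeroAt_iff_forall_SL2Z hc]
    intro A _
    have hmul : (⇑f * helper3960.eisPsi ε⁻¹) ∣[(4 : ℤ)] A =
        ((⇑f) ∣[(1 : ℤ)] A) * (helper3960.eisPsi ε⁻¹ ∣[(3 : ℤ)] A) :=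
      ModularForm.mul_slash_SL2 1 3 A (⇑f) (helper3960.eisPsi ε⁻¹)
    show IsZeroAtImInfty ((⇑f * helper3960.eisPsi ε⁻¹) ∣[(4 : ℤ)] A)
    rw [hmul]
    exact (isZeroAtImInfty_slash_cuspForm f A).mul_boundedAtFilter
      (helper3960.eisPsi_slash_isBoundedAtImInfty ε⁻¹ A)

@[simp] theorem coe_mulEis (ε : DirichletCharacter ℂ N) (f : CuspForm (Gamma1 N) 1)
    (hneb : ∀ γ : SL(2, ℤ), γ ∈ Gamma0 N →
      (⇑f) ∣[(1 : ℤ)] γ = ε ((γ 1 1 : ℤ) : ZMod N) • (⇑f)) :
    (⇑(mulEis ε f hneb) : ℍ → ℂ) = ⇑f * helper3960.eisPsi ε⁻¹ := rfl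

/-- The `q`-expansion of the product is the product of the `q`-expansions. -/
theorem qExpansion_mulEis (ε : DirichletCharacter ℂ N) (f : CuspForm (Gamma1 N) 1)
    (hneb : ∀ γ : SL(2, ℤ), γ ∈ Gamma0 N →
      (⇑f) ∣[(1 : ℤ)] γ = ε ((γ 1 1 : ℤ) : ZMod N) • (⇑f)) :
    qExpansion 1 (mulEis ε f hneb) = qExpansion 1 f * qExpansion 1 (helper3960.eisPsi ε⁻¹) := by
  rw [coe_mulEis]
  exact ModularForm.qExpansion_mul_coe one_pos helper3685.one_mem_strictPeriods_Gamma1 f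
    (helper3960.eisPsiMF ε⁻¹)

omit [NeZero N] in
theorem inv_neg_one_of_odd (ε : DirichletCharacter ℂ N) (hodd : ε (-1) = -1) :
    ε⁻¹ (-1) = -1 := by
  rw [MulChar.inv_apply_eq_inv', hodd]
  norm_num

omit [NeZero N] in
/-- The coefficients of the Eisenstein multiplier `B_{ε⁻¹}` lie in `ℤ[ε]`. -/
theorem eisCoeff_inv_mem_charRing (ε : DirichletCharacter ℂ N) (n : ℕ) :
    helper3960.eisCoeff ε⁻¹ n ∈ charRing ε := by
  unfold helper3960.eisCoeff
  refine Subalgebra.sum_mem _ fun x _ => ?_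
  refine Subalgebra.mul_mem _ (inv_mem_charRing ε _) ?_
  exact Subalgebra.pow_mem _ (natCast_mem _ _) 2

/-- **The lattice hypothesis holds for every weight-one eigenform** (frozen hypotheses). -/
theorem latticeHyp_of_isWt1Eigen (ε : DirichletCharacter ℂ N) (f : CuspForm (Gamma1 N) 1)
    (h : helper8231.IsWt1Eigen N ε f) :
    LatticeHyp N (fun n => ModularFormClass.qCoeff f n) := by
  have hneb := helper3685.stmt_Neben N ε f h
  have hodd : ε⁻¹ (-1) = -1 := inv_neg_one_of_odd ε (helper3685.neben_odd N ε f h)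
  refine latticeHyp_of_qExpansion_mul ε (mulEis ε f hneb) (⇑f) (helper3960.eisPsi ε⁻¹)
    (qExpansion_mulEis ε f hneb) ?_ ?_ ?_
  · rw [helper3960.eisPsi_qExpansion_coeff ε⁻¹ hodd, helper3960.eisCoeff_zero]
  · rw [helper3960.eisPsi_qExpansion_coeff ε⁻¹ hodd, helper3960.eisCoeff_one]
  · intro n
    rw [helper3960.eisPsi_qExpansion_coeff ε⁻¹ hodd]
    exact eisCoeff_inv_mem_charRing ε n

/-- **`Stmt_IntCoeff`** of the S48 blueprint. -/
theorem stmt_IntCoeff : helper8231.Stmt_IntCoeff := by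
  intro N _ ε f h
  have hΛ := latticeHyp_of_isWt1Eigen ε f h
  refine ⟨fun p hp hpN => isIntegral_coeff_prime ε (fun n => ModularFormClass.qCoeff f n)
    h.1 h.2 hΛ hp hpN, coeffField ε (fun n => ModularFormClass.qCoeff f n),
    coeffField_finiteDimensional ε _ h.1 h.2 hΛ, fun p hp hpN =>
    coeff_prime_mem_coeffField ε (fun n => ModularFormClass.qCoeff f n) hp hpN⟩

/-- Complement for the arithmetic assembly: under the frozen hypotheses every `a_n(f)`, `n ≠ 0`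
prime to `N`, is an algebraic integer. -/
theorem isIntegral_qCoeff_of_coprime (ε : DirichletCharacter ℂ N) (f : CuspForm (Gamma1 N) 1)
    (h : helper8231.IsWt1Eigen N ε f) {n : ℕ} (hn0 : n ≠ 0) (hn : n.Coprime N) :
    IsIntegral ℤ (ModularFormClass.qCoeff f n) :=
  isIntegral_coeff ε (fun n => ModularFormClass.qCoeff f n) h.1 h.2
    (latticeHyp_of_isWt1Eigen ε f h) hn0 hn

/-- Complement for the arithmetic assembly: for a depleted eigenform ALL coefficients are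
algebraic integers (first half of `Stmt_Arith`). -/
theorem isIntegral_qCoeff_of_depleted (ε : DirichletCharacter ℂ N) (f : CuspForm (Gamma1 N) 1)
    (h : helper8231.IsWt1Eigen N ε f) (h5 : 2 ≤ N) (hdep : helper8231.IsDepleted N f) (n : ℕ) :
    IsIntegral ℤ (ModularFormClass.qCoeff f n) := by
  by_cases hn : n.Coprime N
  · have hn0 : n ≠ 0 := by
      rintro rfl
      rw [Nat.coprime_zero_left] at hn
      omega
    exact isIntegral_qCoeff_of_coprime ε f h hn0 hn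
  · rw [hdep n hn]
    exact isIntegral_zero

end Fermat.Agent.S48.helper7414
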