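/-
S48 (Deligne–Serre) — leaf F4 "RANKIN" of route #2706: mean-square bound for the
q-expansion coefficients of a cusp form (Bessel/Parseval on a horocycle), the resulting
bound for the Dirichlet series `∑ ‖a_n‖² n^{-s}` in weight one, the Euler-product inequality
and the density bound for the primes with large `‖a_p‖`.
Author: helper7426.  Mathlib + Prelude `qCoeff` only.
-/
import Mathlib
import Fermat.Prelude.Def_FLTPrelim_Modularity

set_option autoImplicit false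

namespace Fermat.Agent.S48.helper7426

open UpperHalfPlane hiding I
open ModularFormClass Complex MeasureTheory
open scoped Real

local notation "𝕢" => Function.Periodic.qParam

/-! ## Part 1. Parseval on a horocycle -/

section Horocycle

variable {Γ : Subgroup (GL (Fin 2) ℝ)} {k : ℤ} {F : Type*} [FunLike F ℍ ℂ]

/-- The `n`-th Fourier coefficient on `[0,1]` of the restriction of a modular form to the
horocycle of height `t` is `a_n * exp (-2 π n t)`. -/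
theorem fourierCoeffOn_horocycle [ModularFormClass F Γ k] (f : F)
    (h1 : (1 : ℝ) ∈ Γ.strictPeriods) {t : ℝ} (ht : 0 < t) (n : ℕ) :
    fourierCoeffOn (zero_lt_one' ℝ) (fun u : ℝ => f ⟨u + t * I, by simpa using ht⟩) (n : ℤ) =
      (qExpansion 1 f).coeff n * cexp (-(2 * π * n * t)) := by
  have hI : I * I = -1 := I_mul_I
  have key : ∀ u : ℝ, cexp (2 * π * I * -(n : ℂ) * u) =
      1 / cexp (2 * π * I * (u + t * I)) ^ n * cexp (-(2 * π * n * t)) := by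
    intro u
    rw [one_div, ← Complex.exp_nat_mul, ← Complex.exp_neg, ← Complex.exp_add]
    congr 1
    linear_combination (2 * π * n * t : ℂ) * hI
  have h10 : ((1 - 0 : ℝ) : ℂ) = 1 := by norm_num
  rw [fourierCoeffOn_eq_integral,
    ModularFormClass.qExpansion_coeff_eq_intervalIntegral f one_pos h1 n ht]
  simp only [sub_zero, div_one, one_smul, ofReal_one, one_mul, smul_eq_mul]
  rw [← intervalIntegral.integral_mul_const]
  refine intervalIntegral.integral_congr fun u _ => ?_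
  simp only [fourier_coe_apply, Function.Periodic.qParam, ofReal_one, div_one, Int.cast_neg,
    Int.cast_natCast, h10]
  rw [key u]
  ring

/-- **Bessel/Parseval on a horocycle.** If `‖f τ‖ ≤ B / (im τ)^(k/2)`, then for every finite
set `S` of indices `∑_{n ∈ S} ‖a_n‖² exp (-4 π n t) ≤ B² / t^k`. -/
theorem sum_sq_coeff_mul_exp_le [ModularFormClass F Γ k] (f : F)
    (h1 : (1 : ℝ) ∈ Γ.strictPeriods) {B : ℝ}
    (hB : ∀ τ : ℍ, ‖f τ‖ ≤ B / τ.im ^ ((k : ℝ) / 2)) {t : ℝ} (ht : 0 < t) (S : Finset ℕ) :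
    ∑ n ∈ S, ‖(qExpansion 1 f).coeff n‖ ^ 2 * Real.exp (-(4 * π * n * t)) ≤
      B ^ 2 / t ^ (k : ℝ) := by
  set g : ℝ → ℂ := fun u : ℝ => f ⟨u + t * I, by simpa using ht⟩ with hg
  have hfc : Continuous f := (ModularFormClass.holo f).continuous
  have hgc : Continuous g := by
    rw [hg]
    fun_prop
  have hbound : ∀ u : ℝ, ‖g u‖ ≤ B / t ^ ((k : ℝ) / 2) := by
    intro u
    have h := hB ⟨u + t * I, by simpa using ht⟩
    have him : (⟨u + t * I, by simpa using ht⟩ : ℍ).im = t := by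
      change ((u : ℂ) + t * I).im = t
      simp
    rwa [him] at h
  have hB0 : 0 ≤ B / t ^ ((k : ℝ) / 2) := (norm_nonneg _).trans (hbound 0)
  have hL2 : MemLp g 2 (volume.restrict (Set.Ioc (0 : ℝ) 1)) :=
    MemLp.of_bound hgc.aestronglyMeasurable _ (Filter.Eventually.of_forall hbound)
  have hP := hasSum_sq_fourierCoeffOn (zero_lt_one' ℝ) hL2
  have hint : (1 - 0 : ℝ)⁻¹ • ∫ x in (0 : ℝ)..1, ‖g x‖ ^ 2 ≤ B ^ 2 / t ^ (k : ℝ) := by
    rw [sub_zero, inv_one, one_smul]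
    have hle : ∫ x in (0 : ℝ)..1, ‖g x‖ ^ 2 ≤ ∫ _x in (0 : ℝ)..1, (B / t ^ ((k : ℝ) / 2)) ^ 2 := by
      apply intervalIntegral.integral_mono_on zero_le_one
      · exact (hgc.norm.pow 2).intervalIntegrable _ _
      · exact continuous_const.intervalIntegrable _ _
      · intro x _
        exact pow_le_pow_left₀ (norm_nonneg _) (hbound x) 2
    refine hle.trans (le_of_eq ?_)
    have hpow : (t ^ ((k : ℝ) / 2)) ^ 2 = t ^ (k : ℝ) := by
      rw [← Real.rpow_natCast, ← Real.rpow_mul ht.le]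
      congr 1
      push_cast
      ring
    rw [intervalIntegral.integral_const, sub_zero, one_smul, div_pow, hpow]
  have hterm : ∀ n : ℕ, ‖(qExpansion 1 f).coeff n‖ ^ 2 * Real.exp (-(4 * π * n * t)) =
      ‖fourierCoeffOn (zero_lt_one' ℝ) g (n : ℤ)‖ ^ 2 := by
    intro n
    rw [hg, fourierCoeffOn_horocycle f h1 ht n, norm_mul, mul_pow]
    congr 1
    have : cexp (-(2 * π * n * t)) = ((Real.exp (-(2 * π * n * t)) : ℝ) : ℂ) := by
      push_cast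
      rfl
    rw [this, Complex.norm_real, Real.norm_of_nonneg (Real.exp_pos _).le, ← Real.exp_nat_mul]
    congr 1
    push_cast
    ring
  calc ∑ n ∈ S, ‖(qExpansion 1 f).coeff n‖ ^ 2 * Real.exp (-(4 * π * n * t))
      = ∑ n ∈ S, ‖fourierCoeffOn (zero_lt_one' ℝ) g (n : ℤ)‖ ^ 2 :=
        Finset.sum_congr rfl fun n _ => hterm n
    _ = ∑ i ∈ S.map Nat.castEmbedding, ‖fourierCoeffOn (zero_lt_one' ℝ) g i‖ ^ 2 := by
        rw [Finset.sum_map]
        rfl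
    _ ≤ (1 - 0 : ℝ)⁻¹ • ∫ x in (0 : ℝ)..1, ‖g x‖ ^ 2 :=
        sum_le_hasSum _ (fun i _ => by positivity) hP
    _ ≤ B ^ 2 / t ^ (k : ℝ) := hint

/-- **Mean-square bound** for the coefficients of a cusp form of weight `k`:
`∑_{n ≤ X} ‖a_n‖² ≤ C · X^k`. -/
theorem exists_sum_sq_coeff_le [Γ.IsArithmetic] [CuspFormClass F Γ k] (f : F)
    (h1 : (1 : ℝ) ∈ Γ.strictPeriods) :
    ∃ C : ℝ, 0 ≤ C ∧ ∀ X : ℕ, 1 ≤ X →
      ∑ n ∈ Finset.range (X + 1), ‖(qExpansion 1 f).coeff n‖ ^ 2 ≤ C * (X : ℝ) ^ (k : ℝ) := by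
  obtain ⟨B, hB⟩ := CuspFormClass.exists_bound (Γ := Γ) (k := k) f
  refine ⟨Real.exp (4 * π) * B ^ 2, by positivity, fun X hX => ?_⟩
  have hXpos : (0 : ℝ) < X := by exact_mod_cast hX
  have ht : (0 : ℝ) < 1 / X := by positivity
  have h := sum_sq_coeff_mul_exp_le f h1 hB ht (Finset.range (X + 1))
  have hlow : ∑ n ∈ Finset.range (X + 1), ‖(qExpansion 1 f).coeff n‖ ^ 2 * Real.exp (-(4 * π)) ≤
      ∑ n ∈ Finset.range (X + 1),
        ‖(qExpansion 1 f).coeff n‖ ^ 2 * Real.exp (-(4 * π * n * (1 / X))) := by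
    apply Finset.sum_le_sum
    intro n hn
    have hnX : (n : ℝ) ≤ X := by
      exact_mod_cast Nat.lt_succ_iff.mp (Finset.mem_range.mp hn)
    apply mul_le_mul_of_nonneg_left _ (by positivity)
    apply Real.exp_le_exp.mpr
    have : (n : ℝ) * (1 / X) ≤ 1 := by
      rw [mul_one_div]
      exact (div_le_one hXpos).mpr hnX
    nlinarith [Real.pi_pos]
  rw [← Finset.sum_mul] at hlow
  have h2 := hlow.trans h
  have hinv : B ^ 2 / (1 / (X : ℝ)) ^ (k : ℝ) = B ^ 2 * (X : ℝ) ^ (k : ℝ) := by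
    rw [one_div, Real.inv_rpow hXpos.le, div_inv_eq_mul]
  rw [hinv] at h2
  have hexp : Real.exp (4 * π) * Real.exp (-(4 * π)) = 1 := by
    rw [← Real.exp_add, add_neg_cancel, Real.exp_zero]
  calc ∑ n ∈ Finset.range (X + 1), ‖(qExpansion 1 f).coeff n‖ ^ 2
      = Real.exp (4 * π) * ((∑ n ∈ Finset.range (X + 1), ‖(qExpansion 1 f).coeff n‖ ^ 2) *
          Real.exp (-(4 * π))) := by
        rw [mul_comm (Real.exp (4 * π)), mul_assoc, mul_comm (Real.exp (-(4 * π))), hexp, mul_one]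
    _ ≤ Real.exp (4 * π) * (B ^ 2 * (X : ℝ) ^ (k : ℝ)) :=
        mul_le_mul_of_nonneg_left h2 (Real.exp_pos _).le
    _ = Real.exp (4 * π) * B ^ 2 * (X : ℝ) ^ (k : ℝ) := by ring

end Horocycle

/-! ## Part 2. Abel summation and the zeta bound -/

section Abel

/-- Abel summation as a majorisation inequality: if the partial sums of `c` are at most
`C * M` and `v` is antitone and nonnegative, then `∑ c n v n ≤ C ∑ v n`. -/
theorem sum_mul_antitone_le {c v : ℕ → ℝ} {C : ℝ} (hv : Antitone v) (hv0 : ∀ n, 0 ≤ v n)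
    (hS : ∀ M : ℕ, ∑ n ∈ Finset.range M, c n ≤ C * M) (M : ℕ) :
    ∑ n ∈ Finset.range M, c n * v n ≤ C * ∑ n ∈ Finset.range M, v n := by
  have key : ∀ M : ℕ, (C * M - ∑ n ∈ Finset.range M, c n) * v M ≤
      C * ∑ n ∈ Finset.range M, v n - ∑ n ∈ Finset.range M, c n * v n := by
    intro M
    induction M with
    | zero => simp
    | succ M ih =>
      rw [Finset.sum_range_succ, Finset.sum_range_succ, Finset.sum_range_succ]
      have h1 : 0 ≤ C * ((M + 1 : ℕ) : ℝ) - (∑ n ∈ Finset.range M, c n + c M) := by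
        have := hS (M + 1)
        rw [Finset.sum_range_succ] at this
        linarith
      have h2 : v (M + 1) ≤ v M := hv (Nat.le_succ M)
      have h3 := mul_le_mul_of_nonneg_left h2 h1
      push_cast at h3 ⊢
      nlinarith
  have h1 : 0 ≤ (C * M - ∑ n ∈ Finset.range M, c n) * v M :=
    mul_nonneg (sub_nonneg.mpr (hS M)) (hv0 M)
  linarith [key M]

/-- `∑_{n < M} (n+1)^{-s} ≤ 1 + 1/(s-1)` for `s > 1`. -/
theorem sum_range_rpow_neg_le {s : ℝ} (hs : 1 < s) (M : ℕ) :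
    ∑ n ∈ Finset.range M, ((n : ℝ) + 1) ^ (-s) ≤ 1 + 1 / (s - 1) := by
  have hs1 : 0 < s - 1 := by linarith
  rcases Nat.eq_zero_or_pos M with rfl | hM
  · simp only [Finset.range_zero, Finset.sum_empty]
    positivity
  have hanti : AntitoneOn (fun x : ℝ => x ^ (-s)) (Set.Icc ((1 : ℕ) : ℝ) (M : ℝ)) := by
    apply (Real.antitoneOn_rpow_Ioi_of_exponent_nonpos (by linarith)).mono
    intro x hx
    simp only [Set.mem_Icc, Nat.cast_one] at hx
    exact lt_of_lt_of_le one_pos hx.1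
  have h := AntitoneOn.sum_le_integral_Ico (Nat.succ_le_of_lt hM) hanti
  have hM1 : (1 : ℝ) ≤ M := by exact_mod_cast hM
  have hint : ∫ x in ((1 : ℕ) : ℝ)..(M : ℝ), x ^ (-s) = (1 - (M : ℝ) ^ (-s + 1)) / (s - 1) := by
    rw [integral_rpow]
    · rw [Nat.cast_one, Real.one_rpow]
      have : -s + 1 = -(s - 1) := by ring
      rw [this, div_neg, ← neg_div, neg_sub]
    · right
      refine ⟨by linarith, ?_⟩
      rw [Nat.cast_one, Set.uIcc_of_le hM1, Set.mem_Icc]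
      intro h0
      linarith [h0.1]
  have hle : (1 - (M : ℝ) ^ (-s + 1)) / (s - 1) ≤ 1 / (s - 1) := by
    apply div_le_div_of_nonneg_right _ hs1.le
    have : 0 ≤ (M : ℝ) ^ (-s + 1) := Real.rpow_nonneg (by linarith) _
    linarith
  rw [Finset.range_eq_Ico, Finset.sum_eq_sum_Ico_succ_bot hM]
  have h0 : ((0 : ℕ) : ℝ) + 1 = 1 := by norm_num
  rw [h0, Real.one_rpow]
  have h' : ∑ k ∈ Finset.Ico (0 + 1) M, ((k : ℝ) + 1) ^ (-s) ≤ 1 / (s - 1) := by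
    calc ∑ k ∈ Finset.Ico (0 + 1) M, ((k : ℝ) + 1) ^ (-s)
        = ∑ i ∈ Finset.Ico 1 M, (((i + 1 : ℕ) : ℝ)) ^ (-s) := by
          apply Finset.sum_congr rfl
          intro i _
          push_cast
          rfl
      _ ≤ ∫ x in ((1 : ℕ) : ℝ)..(M : ℝ), x ^ (-s) := h
      _ = (1 - (M : ℝ) ^ (-s + 1)) / (s - 1) := hint
      _ ≤ 1 / (s - 1) := hle
  linarith

end Abel

/-! ## Part 3. The Euler product inequality -/

section Euler

/-- Multiplicativity on squarefree products of good primes. -/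
theorem apply_prod_primes {R : Type*} [CommMonoid R] {a : ℕ → R} {good : ℕ → Prop}
    (h1 : a 1 = 1)
    (hmul : ∀ p : ℕ, p.Prime → good p → ∀ n : ℕ, ¬ p ∣ n → a (p * n) = a p * a n)
    (T : Finset ℕ) (hT : ∀ p ∈ T, p.Prime ∧ good p) :
    a (∏ p ∈ T, p) = ∏ p ∈ T, a p := by
  classical
  induction T using Finset.induction_on with
  | empty => simpa using h1
  | insert q T hq ih =>
    have hqT := hT q (Finset.mem_insert_self q T)
    have hT' : ∀ p ∈ T, p.Prime ∧ good p := fun p hp => hT p (Finset.mem_insert_of_mem hp)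
    rw [Finset.prod_insert hq, Finset.prod_insert hq, hmul q hqT.1 hqT.2, ih hT']
    intro hdvd
    obtain ⟨p, hp, hqp⟩ := (Prime.dvd_finsetProd_iff hqT.1.prime _).mp hdvd
    have := (Nat.prime_dvd_prime_iff_eq hqT.1 (hT' p hp).1).mp hqp
    exact hq (this ▸ hp)

/-- **Euler product inequality** (abstract form): if `g` is multiplicative on squarefree
products of the primes in `P` and nonnegative, then
`∏_{p ∈ P} (1 + g p) ≤ ∑_{n < ∏ P} g (n + 1)`. -/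
theorem prod_one_add_le_sum_range {g : ℕ → ℝ} (hg : ∀ n, 0 ≤ g n) (P : Finset ℕ)
    (hP : ∀ p ∈ P, p.Prime)
    (hmul : ∀ T ⊆ P, g (∏ p ∈ T, p) = ∏ p ∈ T, g p) :
    ∏ p ∈ P, (1 + g p) ≤ ∑ n ∈ Finset.range (∏ p ∈ P, p), g (n + 1) := by
  classical
  have hinj : Set.InjOn (fun T : Finset ℕ => ∏ p ∈ T, p) (P.powerset : Set (Finset ℕ)) := by
    intro T hT T' hT' h
    have hTP : T ⊆ P := Finset.mem_powerset.mp hT
    have hTP' : T' ⊆ P := Finset.mem_powerset.mp hT'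
    have e1 := Nat.primeFactors_prod (s := T) fun p hp => hP p (hTP hp)
    have e2 := Nat.primeFactors_prod (s := T') fun p hp => hP p (hTP' hp)
    simp only at h
    rw [← e1, ← e2, h]
  have hsub : (P.powerset.image fun T : Finset ℕ => ∏ p ∈ T, p) ⊆
      (Finset.range (∏ p ∈ P, p)).image (· + 1) := by
    intro m hm
    obtain ⟨T, hT, rfl⟩ := Finset.mem_image.mp hm
    have hTP : T ⊆ P := Finset.mem_powerset.mp hT
    have hpos : 0 < ∏ p ∈ T, p := Finset.prod_pos fun p hp => (hP p (hTP hp)).pos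
    have hposP : 0 < ∏ p ∈ P, p := Finset.prod_pos fun p hp => (hP p hp).pos
    have hle : ∏ p ∈ T, p ≤ ∏ p ∈ P, p :=
      Nat.le_of_dvd hposP (Finset.prod_dvd_prod_of_subset _ _ _ hTP)
    refine Finset.mem_image.mpr ⟨(∏ p ∈ T, p) - 1, Finset.mem_range.mpr (by omega), by omega⟩
  calc ∏ p ∈ P, (1 + g p) = ∑ T ∈ P.powerset, ∏ p ∈ T, g p := Finset.prod_one_add P
    _ = ∑ T ∈ P.powerset, g (∏ p ∈ T, p) :=
        Finset.sum_congr rfl fun T hT => (hmul T (Finset.mem_powerset.mp hT)).symm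
    _ = ∑ m ∈ P.powerset.image (fun T : Finset ℕ => ∏ p ∈ T, p), g m :=
        (Finset.sum_image hinj).symm
    _ ≤ ∑ m ∈ (Finset.range (∏ p ∈ P, p)).image (· + 1), g m :=
        Finset.sum_le_sum_of_subset_of_nonneg hsub fun i _ _ => hg i
    _ = ∑ n ∈ Finset.range (∏ p ∈ P, p), g (n + 1) :=
        Finset.sum_image fun x _ y _ h => Nat.succ_injective h

end Euler

/-! ## Part 4. The Rankin bound: logarithmic, density and bounded forms -/

section Rankin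

variable {a : ℕ → ℂ} {good : ℕ → Prop} {C : ℝ}

/-- The mean-square hypothesis `∑_{n ≤ X} ‖a n‖² ≤ C X`, in the shifted form used by
`sum_mul_antitone_le`. -/
theorem sum_range_sq_shift_le
    (hC : ∀ X : ℕ, 1 ≤ X → ∑ n ∈ Finset.range (X + 1), ‖a n‖ ^ 2 ≤ C * X) (M : ℕ) :
    ∑ n ∈ Finset.range M, ‖a (n + 1)‖ ^ 2 ≤ C * M := by
  rcases Nat.eq_zero_or_pos M with rfl | hM
  · simp
  · have h := hC M hM
    rw [Finset.sum_range_succ'] at h
    have : 0 ≤ ‖a 0‖ ^ 2 := by positivity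
    linarith

theorem one_le_const_of_mean_sq
    (hC : ∀ X : ℕ, 1 ≤ X → ∑ n ∈ Finset.range (X + 1), ‖a n‖ ^ 2 ≤ C * X)
    (h1 : a 1 = 1) : 1 ≤ C := by
  have h := sum_range_sq_shift_le hC 1
  simpa [h1] using h

/-- **Euler product inequality**: `∏_{p ∈ P} (1 + ‖a_p‖² p^{-s}) ≤ C (1 + 1/(s-1))`. -/
theorem prod_one_add_sq_mul_rpow_le
    (hC : ∀ X : ℕ, 1 ≤ X → ∑ n ∈ Finset.range (X + 1), ‖a n‖ ^ 2 ≤ C * X)
    (h1 : a 1 = 1)
    (hmul : ∀ p : ℕ, p.Prime → good p → ∀ n : ℕ, ¬ p ∣ n → a (p * n) = a p * a n)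
    {s : ℝ} (hs : 1 < s) (P : Finset ℕ) (hP : ∀ p ∈ P, p.Prime ∧ good p) :
    ∏ p ∈ P, (1 + ‖a p‖ ^ 2 * (p : ℝ) ^ (-s)) ≤ C * (1 + 1 / (s - 1)) := by
  have hC0 : 0 ≤ C := le_trans zero_le_one (one_le_const_of_mean_sq hC h1)
  set g : ℕ → ℝ := fun n => ‖a n‖ ^ 2 * (n : ℝ) ^ (-s) with hg
  have hg0 : ∀ n, 0 ≤ g n := fun n => by
    rw [hg]
    positivity
  have hgmul : ∀ T ⊆ P, g (∏ p ∈ T, p) = ∏ p ∈ T, g p := by
    intro T hT
    have hT' : ∀ p ∈ T, p.Prime ∧ good p := fun p hp => hP p (hT hp)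
    simp only [hg]
    rw [apply_prod_primes h1 hmul T hT', norm_prod, Finset.prod_mul_distrib, Finset.prod_pow,
      Nat.cast_prod, Real.finsetProd_rpow _ _ fun p _ => Nat.cast_nonneg p]
  have hv : Antitone fun n : ℕ => ((n : ℝ) + 1) ^ (-s) := by
    intro m n hmn
    apply Real.rpow_le_rpow_of_nonpos (by positivity) _ (by linarith)
    have : (m : ℝ) ≤ n := by exact_mod_cast hmn
    linarith
  calc ∏ p ∈ P, (1 + ‖a p‖ ^ 2 * (p : ℝ) ^ (-s)) = ∏ p ∈ P, (1 + g p) := rfl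
    _ ≤ ∑ n ∈ Finset.range (∏ p ∈ P, p), g (n + 1) :=
        prod_one_add_le_sum_range hg0 P (fun p hp => (hP p hp).1) hgmul
    _ = ∑ n ∈ Finset.range (∏ p ∈ P, p), ‖a (n + 1)‖ ^ 2 * ((n : ℝ) + 1) ^ (-s) := by
        apply Finset.sum_congr rfl
        intro n _
        simp only [hg]
        push_cast
        rfl
    _ ≤ C * ∑ n ∈ Finset.range (∏ p ∈ P, p), ((n : ℝ) + 1) ^ (-s) :=
        sum_mul_antitone_le hv (fun n => by positivity) (sum_range_sq_shift_le hC) _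
    _ ≤ C * (1 + 1 / (s - 1)) :=
        mul_le_mul_of_nonneg_left (sum_range_rpow_neg_le hs _) hC0

/-- **Rankin bound, logarithmic form**: for `1 < s ≤ 2`,
`∑_{p ∈ P} log (1 + ‖a_p‖² p^{-s}) ≤ log (1/(s-1)) + log (2 C)`. -/
theorem sum_log_one_add_sq_mul_rpow_le
    (hC : ∀ X : ℕ, 1 ≤ X → ∑ n ∈ Finset.range (X + 1), ‖a n‖ ^ 2 ≤ C * X)
    (h1 : a 1 = 1)
    (hmul : ∀ p : ℕ, p.Prime → good p → ∀ n : ℕ, ¬ p ∣ n → a (p * n) = a p * a n)
    {s : ℝ} (hs : 1 < s) (hs2 : s ≤ 2) (P : Finset ℕ) (hP : ∀ p ∈ P, p.Prime ∧ good p) :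
    ∑ p ∈ P, Real.log (1 + ‖a p‖ ^ 2 * (p : ℝ) ^ (-s)) ≤
      Real.log (1 / (s - 1)) + Real.log (2 * C) := by
  have hC1 : 1 ≤ C := one_le_const_of_mean_sq hC h1
  have hs1 : 0 < s - 1 := by linarith
  have hpos : ∀ p ∈ P, 0 < 1 + ‖a p‖ ^ 2 * (p : ℝ) ^ (-s) := fun p _ => by positivity
  have hprod : 0 < ∏ p ∈ P, (1 + ‖a p‖ ^ 2 * (p : ℝ) ^ (-s)) := Finset.prod_pos hpos
  have hle : ∏ p ∈ P, (1 + ‖a p‖ ^ 2 * (p : ℝ) ^ (-s)) ≤ 1 / (s - 1) * (2 * C) := by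
    refine (prod_one_add_sq_mul_rpow_le hC h1 hmul hs P hP).trans ?_
    have : C * (1 + 1 / (s - 1)) = 1 / (s - 1) * (s * C) := by
      field_simp
      ring
    rw [this]
    apply mul_le_mul_of_nonneg_left _ (by positivity)
    nlinarith
  rw [← Real.log_prod fun p hp => (hpos p hp).ne',
    ← Real.log_mul (by positivity) (by positivity)]
  exact Real.log_le_log hprod hle

/-- From the logarithmic form to the density form (abstract): if `β p ≥ c > 0` on `P`, then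
`∑_{p ∈ P} p^{-s} ≤ (∑_{p ∈ P} log (1 + β p p^{-s})) / log (1 + c)`. -/
theorem sum_rpow_neg_le_sum_log_div {β : ℕ → ℝ} {s : ℝ} (hs : 0 ≤ s) {c : ℝ} (hc : 0 < c)
    (P : Finset ℕ) (hP : ∀ p ∈ P, 1 ≤ p ∧ c ≤ β p) :
    ∑ p ∈ P, (p : ℝ) ^ (-s) ≤
      (∑ p ∈ P, Real.log (1 + β p * (p : ℝ) ^ (-s))) / Real.log (1 + c) := by
  have hlogc : 0 < Real.log (1 + c) := Real.log_pos (by linarith)
  rw [le_div_iff₀ hlogc, Finset.sum_mul]
  refine Finset.sum_le_sum fun p hp => ?_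
  have hp1 : (1 : ℝ) ≤ p := by exact_mod_cast (hP p hp).1
  have ht0 : 0 ≤ (p : ℝ) ^ (-s) := Real.rpow_nonneg (by linarith) _
  have ht1 : (p : ℝ) ^ (-s) ≤ 1 := Real.rpow_le_one_of_one_le_of_nonpos hp1 (by linarith)
  have h1c : 0 < 1 + c := by linarith
  have hA : (1 + c) ^ ((p : ℝ) ^ (-s)) ≤ 1 + (p : ℝ) ^ (-s) * c :=
    rpow_one_add_le_one_add_mul_self (by linarith) ht0 ht1
  have hB : 1 + (p : ℝ) ^ (-s) * c ≤ 1 + β p * (p : ℝ) ^ (-s) := by
    have := mul_le_mul_of_nonneg_right (hP p hp).2 ht0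
    linarith
  calc (p : ℝ) ^ (-s) * Real.log (1 + c) = Real.log ((1 + c) ^ ((p : ℝ) ^ (-s))) :=
        (Real.log_rpow h1c _).symm
    _ ≤ Real.log (1 + β p * (p : ℝ) ^ (-s)) :=
        Real.log_le_log (Real.rpow_pos_of_pos h1c _) (hA.trans hB)

/-- **Density bound**: if `‖a_p‖² ≥ c > 0` for all `p ∈ P`, then
`∑_{p ∈ P} p^{-s} ≤ (log (1/(s-1)) + log (2 C)) / log (1 + c)`. -/
theorem sum_rpow_neg_le_of_le_sq
    (hC : ∀ X : ℕ, 1 ≤ X → ∑ n ∈ Finset.range (X + 1), ‖a n‖ ^ 2 ≤ C * X)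
    (h1 : a 1 = 1)
    (hmul : ∀ p : ℕ, p.Prime → good p → ∀ n : ℕ, ¬ p ∣ n → a (p * n) = a p * a n)
    {s : ℝ} (hs : 1 < s) (hs2 : s ≤ 2) {c : ℝ} (hc : 0 < c) (P : Finset ℕ)
    (hP : ∀ p ∈ P, p.Prime ∧ good p ∧ c ≤ ‖a p‖ ^ 2) :
    ∑ p ∈ P, (p : ℝ) ^ (-s) ≤
      (Real.log (1 / (s - 1)) + Real.log (2 * C)) / Real.log (1 + c) := by
  have hlogc : 0 < Real.log (1 + c) := Real.log_pos (by linarith)
  refine (sum_rpow_neg_le_sum_log_div (β := fun p => ‖a p‖ ^ 2) (by linarith) hc P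
    fun p hp => ⟨(hP p hp).1.one_le, (hP p hp).2.2⟩).trans ?_
  exact div_le_div_of_nonneg_right (sum_log_one_add_sq_mul_rpow_le hC h1 hmul hs hs2 P
    fun p hp => ⟨(hP p hp).1, (hP p hp).2.1⟩) hlogc.le

/-- `∑_{p ∈ P} p^{-2} ≤ 1` for a finite set of primes. -/
theorem sum_primes_inv_sq_le_one (P : Finset ℕ) (hP : ∀ p ∈ P, p.Prime) :
    ∑ p ∈ P, (((p : ℝ)) ^ 2)⁻¹ ≤ 1 := by
  have hsub : P ⊆ Finset.Ioc 1 (P.sup id + 1) := by
    intro p hp
    have h1 : p ≤ P.sup id := Finset.le_sup (f := id) hp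
    exact Finset.mem_Ioc.mpr ⟨(hP p hp).one_lt, by omega⟩
  have h2 := sum_Ioc_inv_sq_le_sub (α := ℝ) (k := 1) (n := P.sup id + 1) one_ne_zero (by omega)
  have h3 : (0 : ℝ) ≤ ((P.sup id + 1 : ℕ) : ℝ)⁻¹ := by positivity
  calc ∑ p ∈ P, (((p : ℝ)) ^ 2)⁻¹ ≤ ∑ p ∈ Finset.Ioc 1 (P.sup id + 1), (((p : ℝ)) ^ 2)⁻¹ :=
        Finset.sum_le_sum_of_subset_of_nonneg hsub fun i _ _ => by positivity
    _ ≤ ((1 : ℕ) : ℝ)⁻¹ - ((P.sup id + 1 : ℕ) : ℝ)⁻¹ := h2
    _ ≤ 1 := by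
        rw [Nat.cast_one, inv_one]
        linarith

/-- From the logarithmic form to the bounded form (abstract): if `0 ≤ β p ≤ A` on a finite set
`P` of primes and `1 ≤ s`, then
`∑_{p ∈ P} β p p^{-s} ≤ ∑_{p ∈ P} log (1 + β p p^{-s}) + A²`. -/
theorem sum_mul_rpow_le_sum_log_add {β : ℕ → ℝ} {s : ℝ} (hs : 1 ≤ s) {A : ℝ} (P : Finset ℕ)
    (hP : ∀ p ∈ P, p.Prime ∧ 0 ≤ β p ∧ β p ≤ A) :
    ∑ p ∈ P, β p * (p : ℝ) ^ (-s) ≤
      ∑ p ∈ P, Real.log (1 + β p * (p : ℝ) ^ (-s)) + A ^ 2 := by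
  have hterm : ∀ p ∈ P, β p * (p : ℝ) ^ (-s) ≤
      Real.log (1 + β p * (p : ℝ) ^ (-s)) + A ^ 2 * (((p : ℝ)) ^ 2)⁻¹ := by
    intro p hp
    have hp1 : (1 : ℝ) ≤ p := by exact_mod_cast (hP p hp).1.one_le
    have hp0 : (0 : ℝ) < p := by linarith
    have ht0 : 0 ≤ (p : ℝ) ^ (-s) := Real.rpow_nonneg hp0.le _
    have ht1 : (p : ℝ) ^ (-s) ≤ (p : ℝ)⁻¹ := by
      rw [← Real.rpow_neg_one]
      exact Real.rpow_le_rpow_of_exponent_le hp1 (by linarith)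
    have hb0 : 0 ≤ β p := (hP p hp).2.1
    have hbA : β p ≤ A := (hP p hp).2.2
    set x : ℝ := β p * (p : ℝ) ^ (-s) with hx
    have hx0 : 0 ≤ x := mul_nonneg hb0 ht0
    have hxle : x ≤ A * (p : ℝ)⁻¹ :=
      mul_le_mul hbA ht1 ht0 (hb0.trans hbA)
    have hxsq : x ^ 2 ≤ A ^ 2 * (((p : ℝ)) ^ 2)⁻¹ :=
      calc x ^ 2 ≤ (A * (p : ℝ)⁻¹) ^ 2 := pow_le_pow_left₀ hx0 hxle 2
        _ = A ^ 2 * (((p : ℝ)) ^ 2)⁻¹ := by rw [mul_pow, inv_pow]
    have hlog : 1 - (1 + x)⁻¹ ≤ Real.log (1 + x) :=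
      Real.one_sub_inv_le_log_of_pos (by linarith)
    have hinv : (1 + x)⁻¹ ≤ 1 - x + x ^ 2 := by
      have h1x : 0 < 1 + x := by linarith
      rw [← one_div, div_le_iff₀ h1x]
      nlinarith [pow_nonneg hx0 3]
    linarith
  calc ∑ p ∈ P, β p * (p : ℝ) ^ (-s)
      ≤ ∑ p ∈ P, (Real.log (1 + β p * (p : ℝ) ^ (-s)) + A ^ 2 * (((p : ℝ)) ^ 2)⁻¹) :=
        Finset.sum_le_sum hterm
    _ = ∑ p ∈ P, Real.log (1 + β p * (p : ℝ) ^ (-s)) +
          A ^ 2 * ∑ p ∈ P, (((p : ℝ)) ^ 2)⁻¹ := by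
        rw [Finset.sum_add_distrib, Finset.mul_sum]
    _ ≤ ∑ p ∈ P, Real.log (1 + β p * (p : ℝ) ^ (-s)) + A ^ 2 * 1 :=
        add_le_add le_rfl (mul_le_mul_of_nonneg_left
          (sum_primes_inv_sq_le_one P fun p hp => (hP p hp).1) (sq_nonneg A))
    _ = ∑ p ∈ P, Real.log (1 + β p * (p : ℝ) ^ (-s)) + A ^ 2 := by rw [mul_one]

/-- **Rankin bound for bounded coefficients**: if `‖a_p‖² ≤ A` on `P`, then
`∑_{p ∈ P} ‖a_p‖² p^{-s} ≤ log (1/(s-1)) + log (2 C) + A²`. -/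
theorem sum_sq_mul_rpow_le_of_sq_le
    (hC : ∀ X : ℕ, 1 ≤ X → ∑ n ∈ Finset.range (X + 1), ‖a n‖ ^ 2 ≤ C * X)
    (h1 : a 1 = 1)
    (hmul : ∀ p : ℕ, p.Prime → good p → ∀ n : ℕ, ¬ p ∣ n → a (p * n) = a p * a n)
    {s : ℝ} (hs : 1 < s) (hs2 : s ≤ 2) {A : ℝ} (P : Finset ℕ)
    (hP : ∀ p ∈ P, p.Prime ∧ good p ∧ ‖a p‖ ^ 2 ≤ A) :
    ∑ p ∈ P, ‖a p‖ ^ 2 * (p : ℝ) ^ (-s) ≤
      Real.log (1 / (s - 1)) + Real.log (2 * C) + A ^ 2 := by
  have hmain := sum_log_one_add_sq_mul_rpow_le hC h1 hmul hs hs2 P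
    fun p hp => ⟨(hP p hp).1, (hP p hp).2.1⟩
  have h2 := sum_mul_rpow_le_sum_log_add (β := fun p => ‖a p‖ ^ 2) hs.le P
    fun p hp => ⟨(hP p hp).1, by positivity, (hP p hp).2.2⟩
  linarith

end Rankin

/-! ## Part 5. Conjugates and the finite exceptional set -/

section Northcott

/-- **F4, abstract final form.** Let `α p` be algebraic integers of a number field `K` such
that every conjugate sequence satisfies the logarithmic Rankin bound. Then for every `η > 0`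
there is a finite set `Y ⊆ K` such that the good primes `p` with `α p ∉ Y` have upper Dirichlet
density at most `η`, in the explicit form
`∑_{p ∈ P} p^{-s} ≤ η log (1/(s-1)) + C` for all finite sets `P` of such primes, `1 < s ≤ 2`. -/
theorem exists_finite_exceptional_set (K : Type*) [Field K] [NumberField K] (α : ℕ → K)
    (good : ℕ → Prop) (hint : ∀ p : ℕ, p.Prime → good p → IsIntegral ℤ (α p))
    (hrank : ∀ φ : K →+* ℂ, ∃ C : ℝ, ∀ s : ℝ, 1 < s → s ≤ 2 → ∀ P : Finset ℕ,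
      (∀ p ∈ P, p.Prime ∧ good p) →
      ∑ p ∈ P, Real.log (1 + ‖φ (α p)‖ ^ 2 * (p : ℝ) ^ (-s)) ≤ Real.log (1 / (s - 1)) + C)
    {η : ℝ} (hη : 0 < η) :
    ∃ Y : Set K, Y.Finite ∧ ∃ C : ℝ, ∀ s : ℝ, 1 < s → s ≤ 2 → ∀ P : Finset ℕ,
      (∀ p ∈ P, p.Prime ∧ good p ∧ α p ∉ Y) →
      ∑ p ∈ P, (p : ℝ) ^ (-s) ≤ η * Real.log (1 / (s - 1)) + C := by
  classical
  choose Cφ hCφ using hrank
  set d : ℝ := (Fintype.card (K →+* ℂ) : ℝ) with hd
  have hd0 : 0 < d := by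
    rw [hd]
    exact_mod_cast Fintype.card_pos
  set c : ℝ := Real.exp (d / η) - 1 with hc
  have hc0 : 0 < c := by
    rw [hc]
    have := Real.add_one_lt_exp (x := d / η) (by positivity)
    have h2 : 0 < d / η := by positivity
    linarith
  have hlogc : Real.log (1 + c) = d / η := by
    rw [hc, add_sub_cancel, Real.log_exp]
  refine ⟨{x : K | IsIntegral ℤ x ∧ ∀ φ : K →+* ℂ, ‖φ x‖ ≤ Real.sqrt c},
    NumberField.Embeddings.finite_of_norm_le K ℂ _, η / d * ∑ φ : K →+* ℂ, Cφ φ, ?_⟩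
  intro s hs hs2 P hP
  have hcover : ∀ p ∈ P, ∃ φ : K →+* ℂ, c ≤ ‖φ (α p)‖ ^ 2 := by
    intro p hp
    obtain ⟨hpp, hgood, hY⟩ := hP p hp
    by_contra hcon
    simp only [not_exists, not_le] at hcon
    apply hY
    refine ⟨hint p hpp hgood, fun φ => ?_⟩
    exact Real.le_sqrt_of_sq_le (hcon φ).le
  have hstep : ∀ φ : K →+* ℂ, ∑ p ∈ P.filter (fun p => c ≤ ‖φ (α p)‖ ^ 2), (p : ℝ) ^ (-s) ≤
      (Real.log (1 / (s - 1)) + Cφ φ) / Real.log (1 + c) := by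
    intro φ
    have h1 := sum_rpow_neg_le_sum_log_div (β := fun p => ‖φ (α p)‖ ^ 2) (s := s) (by linarith)
      hc0 (P.filter (fun p => c ≤ ‖φ (α p)‖ ^ 2)) (fun p hp => by
        rw [Finset.mem_filter] at hp
        exact ⟨(hP p hp.1).1.one_le, hp.2⟩)
    have h2 := hCφ φ s hs hs2 (P.filter (fun p => c ≤ ‖φ (α p)‖ ^ 2)) (fun p hp => by
        rw [Finset.mem_filter] at hp
        exact ⟨(hP p hp.1).1, (hP p hp.1).2.1⟩)
    refine h1.trans ?_
    apply div_le_div_of_nonneg_right h2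
    rw [hlogc]
    positivity
  calc ∑ p ∈ P, (p : ℝ) ^ (-s)
      ≤ ∑ p ∈ P, ∑ φ : K →+* ℂ, if c ≤ ‖φ (α p)‖ ^ 2 then (p : ℝ) ^ (-s) else 0 := by
        refine Finset.sum_le_sum fun p hp => ?_
        obtain ⟨φ, hφ⟩ := hcover p hp
        have hnn : ∀ ψ ∈ (Finset.univ : Finset (K →+* ℂ)),
            0 ≤ (if c ≤ ‖ψ (α p)‖ ^ 2 then (p : ℝ) ^ (-s) else 0) := by
          intro ψ _
          split_ifs
          · exact Real.rpow_nonneg (Nat.cast_nonneg p) _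
          · exact le_rfl
        have := Finset.single_le_sum hnn (Finset.mem_univ φ)
        rwa [if_pos hφ] at this
    _ = ∑ φ : K →+* ℂ, ∑ p ∈ P.filter (fun p => c ≤ ‖φ (α p)‖ ^ 2), (p : ℝ) ^ (-s) := by
        rw [Finset.sum_comm]
        refine Finset.sum_congr rfl fun φ _ => ?_
        rw [Finset.sum_filter]
    _ ≤ ∑ φ : K →+* ℂ, (Real.log (1 / (s - 1)) + Cφ φ) / Real.log (1 + c) :=
        Finset.sum_le_sum fun φ _ => hstep φ
    _ = η * Real.log (1 / (s - 1)) + η / d * ∑ φ : K →+* ℂ, Cφ φ := by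
        rw [hlogc, ← Finset.sum_div, Finset.sum_add_distrib, Finset.sum_const, Finset.card_univ,
          nsmul_eq_mul, ← hd]
        field_simp

end Northcott

/-! ## Part 6. Weight-one cusp forms on `Γ₁(N)` -/

section Modular

open CongruenceSubgroup ModularFormClass
open scoped MatrixGroups

variable {N : ℕ} [NeZero N]

/-- Mean-square bound for a weight-one cusp form on `Γ₁(N)`: `∑_{n ≤ X} ‖a_n‖² ≤ C X`. -/
theorem exists_mean_sq_weight_one (g : CuspForm (Gamma1 N) 1) :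
    ∃ C : ℝ, ∀ X : ℕ, 1 ≤ X → ∑ n ∈ Finset.range (X + 1), ‖qCoeff g n‖ ^ 2 ≤ C * X := by
  have h1 : (1 : ℝ) ∈ ((Gamma1 N : Subgroup SL(2, ℤ)) : Subgroup (GL (Fin 2) ℝ)).strictPeriods := by
    rw [strictPeriods_Gamma1]
    exact AddSubgroup.mem_zmultiples 1
  obtain ⟨C, -, hC⟩ := exists_sum_sq_coeff_le (k := 1) g h1
  refine ⟨C, fun X hX => ?_⟩
  have := hC X hX
  simpa [qCoeff] using this

/-- **Rankin bound (logarithmic form)** for a normalised weight-one cusp form on `Γ₁(N)` whose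
coefficients are multiplicative at the primes not dividing `N`. -/
theorem exists_rankin_log_bound_of_mul (g : CuspForm (Gamma1 N) 1) (h1 : qCoeff g 1 = 1)
    (hmul : ∀ p : ℕ, p.Prime → ¬ p ∣ N → ∀ n : ℕ, ¬ p ∣ n →
      qCoeff g (p * n) = qCoeff g p * qCoeff g n) :
    ∃ C : ℝ, ∀ s : ℝ, 1 < s → s ≤ 2 → ∀ P : Finset ℕ, (∀ p ∈ P, p.Prime ∧ ¬ p ∣ N) →
      ∑ p ∈ P, Real.log (1 + ‖qCoeff g p‖ ^ 2 * (p : ℝ) ^ (-s)) ≤
        Real.log (1 / (s - 1)) + C := by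
  obtain ⟨C, hC⟩ := exists_mean_sq_weight_one g
  exact ⟨Real.log (2 * C), fun s hs hs2 P hP =>
    sum_log_one_add_sq_mul_rpow_le (a := fun n => qCoeff g n) (good := fun p => ¬ p ∣ N)
      hC h1 hmul hs hs2 P hP⟩

omit [NeZero N] in
/-- The Hecke relations of the frozen statement S48 give multiplicativity at good primes. -/
theorem qCoeff_mul_of_hecke (ε : DirichletCharacter ℂ N) (f : CuspForm (Gamma1 N) 1)
    (hT : ∀ p : ℕ, p.Prime → ¬ p ∣ N → ∀ n : ℕ,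
        qCoeff f (p * n) + ε (p : ZMod N) * (if p ∣ n then qCoeff f (n / p) else 0) =
          qCoeff f p * qCoeff f n)
    (p : ℕ) (hp : p.Prime) (hpN : ¬ p ∣ N) (n : ℕ) (hn : ¬ p ∣ n) :
    qCoeff f (p * n) = qCoeff f p * qCoeff f n := by
  have h := hT p hp hpN n
  rwa [if_neg hn, mul_zero, add_zero] at h

/-- **Rankin bound (logarithmic form)** under the hypotheses of the frozen statement S48. -/
theorem exists_rankin_log_bound (ε : DirichletCharacter ℂ N) (f : CuspForm (Gamma1 N) 1)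
    (hf₁ : qCoeff f 1 = 1)
    (hT : ∀ p : ℕ, p.Prime → ¬ p ∣ N → ∀ n : ℕ,
        qCoeff f (p * n) + ε (p : ZMod N) * (if p ∣ n then qCoeff f (n / p) else 0) =
          qCoeff f p * qCoeff f n) :
    ∃ C : ℝ, ∀ s : ℝ, 1 < s → s ≤ 2 → ∀ P : Finset ℕ, (∀ p ∈ P, p.Prime ∧ ¬ p ∣ N) →
      ∑ p ∈ P, Real.log (1 + ‖qCoeff f p‖ ^ 2 * (p : ℝ) ^ (-s)) ≤
        Real.log (1 / (s - 1)) + C :=
  exists_rankin_log_bound_of_mul f hf₁ (qCoeff_mul_of_hecke ε f hT)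

/-- **Rankin bound for bounded coefficients** (used for irreducibility): on any set of good
primes where `‖a_p‖² ≤ A`, `∑ ‖a_p‖² p^{-s} ≤ log (1/(s-1)) + C`. -/
theorem exists_rankin_sq_bound (ε : DirichletCharacter ℂ N) (f : CuspForm (Gamma1 N) 1)
    (hf₁ : qCoeff f 1 = 1)
    (hT : ∀ p : ℕ, p.Prime → ¬ p ∣ N → ∀ n : ℕ,
        qCoeff f (p * n) + ε (p : ZMod N) * (if p ∣ n then qCoeff f (n / p) else 0) =
          qCoeff f p * qCoeff f n) (A : ℝ) :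
    ∃ C : ℝ, ∀ s : ℝ, 1 < s → s ≤ 2 → ∀ P : Finset ℕ,
      (∀ p ∈ P, p.Prime ∧ ¬ p ∣ N ∧ ‖qCoeff f p‖ ^ 2 ≤ A) →
      ∑ p ∈ P, ‖qCoeff f p‖ ^ 2 * (p : ℝ) ^ (-s) ≤ Real.log (1 / (s - 1)) + C := by
  obtain ⟨C, hC⟩ := exists_mean_sq_weight_one f
  refine ⟨Real.log (2 * C) + A ^ 2, fun s hs hs2 P hP => ?_⟩
  have := sum_sq_mul_rpow_le_of_sq_le (a := fun n => qCoeff f n) (good := fun p => ¬ p ∣ N)
      hC hf₁ (qCoeff_mul_of_hecke ε f hT) hs hs2 P hP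
  linarith

/-- **Density bound** under the hypotheses of the frozen statement S48: the good primes with
`‖a_p‖² ≥ c` have upper Dirichlet density at most `1 / log (1 + c)`. -/
theorem exists_rankin_density_bound (ε : DirichletCharacter ℂ N) (f : CuspForm (Gamma1 N) 1)
    (hf₁ : qCoeff f 1 = 1)
    (hT : ∀ p : ℕ, p.Prime → ¬ p ∣ N → ∀ n : ℕ,
        qCoeff f (p * n) + ε (p : ZMod N) * (if p ∣ n then qCoeff f (n / p) else 0) =
          qCoeff f p * qCoeff f n) :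
    ∃ C : ℝ, ∀ s : ℝ, 1 < s → s ≤ 2 → ∀ c : ℝ, 0 < c → ∀ P : Finset ℕ,
      (∀ p ∈ P, p.Prime ∧ ¬ p ∣ N ∧ c ≤ ‖qCoeff f p‖ ^ 2) →
      ∑ p ∈ P, (p : ℝ) ^ (-s) ≤ (Real.log (1 / (s - 1)) + C) / Real.log (1 + c) := by
  obtain ⟨C, hC⟩ := exists_mean_sq_weight_one f
  exact ⟨Real.log (2 * C), fun s hs hs2 c hc P hP =>
    sum_rpow_neg_le_of_le_sq (a := fun n => qCoeff f n) (good := fun p => ¬ p ∣ N)
      hC hf₁ (qCoeff_mul_of_hecke ε f hT) hs hs2 hc P hP⟩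

/-- **F4 (RANKIN), final form.** Under the hypotheses of the frozen statement S48, suppose the
coefficients lie in a number field `K ⊆ ℂ`, are integral at the good primes, and every
conjugate `∑ φ(a_n) qⁿ` is again a cusp form of weight one on `Γ₁(N)` (leaf F1). Then for
every `η > 0` there is a finite `Y ⊆ K` such that the good primes with `a_p ∉ Y` have upper
Dirichlet density at most `η`:
`∑_{p ∈ P} p^{-s} ≤ η log (1/(s-1)) + C` for every finite set `P` of such primes, `1 < s ≤ 2`. -/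
theorem exists_finite_exceptional_set_of_conjugates (ε : DirichletCharacter ℂ N)
    (f : CuspForm (Gamma1 N) 1) (hf₁ : qCoeff f 1 = 1)
    (hT : ∀ p : ℕ, p.Prime → ¬ p ∣ N → ∀ n : ℕ,
        qCoeff f (p * n) + ε (p : ZMod N) * (if p ∣ n then qCoeff f (n / p) else 0) =
          qCoeff f p * qCoeff f n)
    (K : Type*) [Field K] [NumberField K] (ι : K →+* ℂ) (α : ℕ → K)
    (hα : ∀ n, ι (α n) = qCoeff f n)
    (hint : ∀ p : ℕ, p.Prime → ¬ p ∣ N → IsIntegral ℤ (α p))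
    (hconj : ∀ φ : K →+* ℂ, ∃ g : CuspForm (Gamma1 N) 1, ∀ n, qCoeff g n = φ (α n))
    {η : ℝ} (hη : 0 < η) :
    ∃ Y : Set K, Y.Finite ∧ ∃ C : ℝ, ∀ s : ℝ, 1 < s → s ≤ 2 → ∀ P : Finset ℕ,
      (∀ p ∈ P, p.Prime ∧ ¬ p ∣ N ∧ α p ∉ Y) →
      ∑ p ∈ P, (p : ℝ) ^ (-s) ≤ η * Real.log (1 / (s - 1)) + C := by
  have hα1 : α 1 = 1 := ι.injective (by rw [hα, hf₁, map_one])
  have hαmul : ∀ p : ℕ, p.Prime → ¬ p ∣ N → ∀ n : ℕ, ¬ p ∣ n → α (p * n) = α p * α n := by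
    intro p hp hpN n hn
    apply ι.injective
    rw [map_mul, hα, hα, hα]
    exact qCoeff_mul_of_hecke ε f hT p hp hpN n hn
  refine exists_finite_exceptional_set K α (fun p => ¬ p ∣ N) hint (fun φ => ?_) hη
  obtain ⟨g, hg⟩ := hconj φ
  obtain ⟨C, hC⟩ := exists_rankin_log_bound_of_mul g (by rw [hg, hα1, map_one])
    (fun p hp hpN n hn => by rw [hg, hg, hg, hαmul p hp hpN n hn, map_mul])
  refine ⟨C, fun s hs hs2 P hP => ?_⟩
  have := hC s hs hs2 P hP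
  simpa only [hg] using this

/-- **Rankin bound for every conjugate** (logarithmic form): under the hypotheses of the frozen
statement S48 and the conjugation property `hconj` (leaf F1), every conjugate sequence
`σ (a_p)` satisfies the Rankin bound. -/
theorem exists_rankin_log_bound_conj (ε : DirichletCharacter ℂ N) (f : CuspForm (Gamma1 N) 1)
    (hf₁ : qCoeff f 1 = 1)
    (hT : ∀ p : ℕ, p.Prime → ¬ p ∣ N → ∀ n : ℕ,
        qCoeff f (p * n) + ε (p : ZMod N) * (if p ∣ n then qCoeff f (n / p) else 0) =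
          qCoeff f p * qCoeff f n)
    (σ : ℂ ≃+* ℂ) (hconj : ∃ g : CuspForm (Gamma1 N) 1, ∀ n, qCoeff g n = σ (qCoeff f n)) :
    ∃ C : ℝ, ∀ s : ℝ, 1 < s → s ≤ 2 → ∀ P : Finset ℕ, (∀ p ∈ P, p.Prime ∧ ¬ p ∣ N) →
      ∑ p ∈ P, Real.log (1 + ‖σ (qCoeff f p)‖ ^ 2 * (p : ℝ) ^ (-s)) ≤
        Real.log (1 / (s - 1)) + C := by
  obtain ⟨g, hg⟩ := hconj
  obtain ⟨C, hC⟩ := exists_rankin_log_bound_of_mul g (by rw [hg, hf₁, map_one])
    (fun p hp hpN n hn => by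
      rw [hg, hg, hg, qCoeff_mul_of_hecke ε f hT p hp hpN n hn, map_mul])
  refine ⟨C, fun s hs hs2 P hP => ?_⟩
  have := hC s hs hs2 P hP
  simpa only [hg] using this

/-- **Density bound for every conjugate**: the good primes with `‖σ (a_p)‖² ≥ c` have upper
Dirichlet density at most `1 / log (1 + c)`. -/
theorem exists_rankin_density_bound_conj (ε : DirichletCharacter ℂ N)
    (f : CuspForm (Gamma1 N) 1) (hf₁ : qCoeff f 1 = 1)
    (hT : ∀ p : ℕ, p.Prime → ¬ p ∣ N → ∀ n : ℕ,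
        qCoeff f (p * n) + ε (p : ZMod N) * (if p ∣ n then qCoeff f (n / p) else 0) =
          qCoeff f p * qCoeff f n)
    (σ : ℂ ≃+* ℂ) (hconj : ∃ g : CuspForm (Gamma1 N) 1, ∀ n, qCoeff g n = σ (qCoeff f n)) :
    ∃ C : ℝ, ∀ s : ℝ, 1 < s → s ≤ 2 → ∀ c : ℝ, 0 < c → ∀ P : Finset ℕ,
      (∀ p ∈ P, p.Prime ∧ ¬ p ∣ N ∧ c ≤ ‖σ (qCoeff f p)‖ ^ 2) →
      ∑ p ∈ P, (p : ℝ) ^ (-s) ≤ (Real.log (1 / (s - 1)) + C) / Real.log (1 + c) := by
  obtain ⟨C, hC⟩ := exists_rankin_log_bound_conj ε f hf₁ hT σ hconj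
  refine ⟨C, fun s hs hs2 c hc P hP => ?_⟩
  have hlogc : 0 < Real.log (1 + c) := Real.log_pos (by linarith)
  refine (sum_rpow_neg_le_sum_log_div (β := fun p => ‖σ (qCoeff f p)‖ ^ 2) (by linarith) hc P
    fun p hp => ⟨(hP p hp).1.one_le, (hP p hp).2.2⟩).trans ?_
  exact div_le_div_of_nonneg_right (hC s hs hs2 P fun p hp => ⟨(hP p hp).1, (hP p hp).2.1⟩)
    hlogc.le

/-- **Uniform Rankin bound for a finite family of conjugates**: one constant `C` for finitely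
many automorphisms `σ i`. -/
theorem exists_rankin_log_bound_family (ε : DirichletCharacter ℂ N)
    (f : CuspForm (Gamma1 N) 1) (hf₁ : qCoeff f 1 = 1)
    (hT : ∀ p : ℕ, p.Prime → ¬ p ∣ N → ∀ n : ℕ,
        qCoeff f (p * n) + ε (p : ZMod N) * (if p ∣ n then qCoeff f (n / p) else 0) =
          qCoeff f p * qCoeff f n)
    (hconj : ∀ σ : ℂ ≃+* ℂ, ∃ g : CuspForm (Gamma1 N) 1, ∀ n, qCoeff g n = σ (qCoeff f n))
    {ι : Type*} [Finite ι] (σ : ι → ℂ ≃+* ℂ) :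
    ∃ C : ℝ, ∀ i : ι, ∀ s : ℝ, 1 < s → s ≤ 2 → ∀ P : Finset ℕ, (∀ p ∈ P, p.Prime ∧ ¬ p ∣ N) →
      ∑ p ∈ P, Real.log (1 + ‖σ i (qCoeff f p)‖ ^ 2 * (p : ℝ) ^ (-s)) ≤
        Real.log (1 / (s - 1)) + C := by
  classical
  have := Fintype.ofFinite ι
  choose Cσ hCσ using fun i => exists_rankin_log_bound_conj ε f hf₁ hT (σ i) (hconj (σ i))
  refine ⟨∑ i, |Cσ i|, fun i s hs hs2 P hP => (hCσ i s hs hs2 P hP).trans ?_⟩
  have h1 : Cσ i ≤ |Cσ i| := le_abs_self _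
  have h2 : |Cσ i| ≤ ∑ j, |Cσ j| :=
    Finset.single_le_sum (f := fun j => |Cσ j|) (fun j _ => abs_nonneg _) (Finset.mem_univ i)
  linarith

end Modular

end Fermat.Agent.S48.helper7426

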