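/-
S48 (Deligne–Serre) — the Spec statement `Stmt_FiniteValues` of `helper8231_Spec`:
finitely many values up to density `η`, from the Rankin bound for all conjugates and
integrality (Northcott inside `ℂ`, with the fixed field of `Aut(ℂ)` from the landed S23 file
`helper206_FixedField`).
Author: helper7426.
-/
import Fermat.Agent.S48.helper8231_Spec
import Fermat.Agent.S48.helper7426_Rankin
import Fermat.Agent.S23.helper206_FixedField

set_option autoImplicit false

namespace Fermat.Agent.S48.helper7426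

open Polynomial

/-! ## Orbit polynomials -/

/-- If a finite set `O ⊆ ℂ` is stable under all ring automorphisms of `ℂ`, then
`∏_{z ∈ O} (X - z)` has rational coefficients. -/
theorem exists_rat_poly_of_stable (O : Finset ℂ)
    (hO : ∀ τ : ℂ ≃+* ℂ, ∀ z ∈ O, τ z ∈ O) :
    ∃ q : ℚ[X], q.map (algebraMap ℚ ℂ) = ∏ z ∈ O, (X - C z) ∧ q.Monic ∧
      q.natDegree = O.card := by
  classical
  set Q : ℂ[X] := ∏ z ∈ O, (X - C z) with hQ
  have hmonic : Q.Monic := monic_prod_X_sub_C _ _
  have hdeg : Q.natDegree = O.card := natDegree_finsetProd_X_sub_C_eq_card _ _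
  have hfix : ∀ τ : ℂ ≃+* ℂ, Q.map (τ : ℂ →+* ℂ) = Q := by
    intro τ
    have himg : O.image τ = O := by
      apply Finset.eq_of_subset_of_card_le
      · intro w hw
        obtain ⟨z, hz, rfl⟩ := Finset.mem_image.mp hw
        exact hO τ z hz
      · rw [Finset.card_image_of_injective _ τ.injective]
    calc Q.map (τ : ℂ →+* ℂ) = ∏ z ∈ O, (X - C (τ z)) := by
          rw [hQ, Polynomial.map_prod]
          refine Finset.prod_congr rfl fun z _ => ?_
          simp
      _ = ∏ w ∈ O.image τ, (X - C w) := by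
          rw [Finset.prod_image]
          intro z _ z' _ h
          exact τ.injective h
      _ = Q := by rw [himg]
  have hlift : Q ∈ lifts (algebraMap ℚ ℂ) := by
    rw [lifts_iff_coeff_lifts]
    intro k
    have hk : ∀ τ : ℂ ≃+* ℂ, τ (Q.coeff k) = Q.coeff k := by
      intro τ
      have := congrArg (fun R : ℂ[X] => R.coeff k) (hfix τ)
      simpa [coeff_map] using this
    obtain ⟨r, hr⟩ := Fermat.Agent.S23.helper206.stmt_FF (Q.coeff k) hk
    exact ⟨r, by rw [← hr]; simp⟩
  obtain ⟨q, hq, hqdeg, hqm⟩ := lifts_and_natDegree_eq_and_monic hlift hmonic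
  exact ⟨q, hq, hqm, by rw [hqdeg, hdeg]⟩

/-- For an algebraic integer `x` lying in a finite `Aut(ℂ)`-stable set `O`: the degree of its
minimal polynomial is at most `#O` and all complex roots of the minimal polynomial lie in `O`. -/
theorem minpoly_of_mem_stable {x : ℂ} (hx : IsIntegral ℤ x) (O : Finset ℂ) (hxO : x ∈ O)
    (hO : ∀ τ : ℂ ≃+* ℂ, ∀ z ∈ O, τ z ∈ O) :
    (minpoly ℤ x).natDegree ≤ O.card ∧
      ∀ z ∈ ((minpoly ℤ x).map (algebraMap ℤ ℂ)).roots, z ∈ O := by
  classical
  obtain ⟨q, hq, hqm, hqdeg⟩ := exists_rat_poly_of_stable O hO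
  have hq0 : q ≠ 0 := hqm.ne_zero
  have hroot : aeval x q = 0 := by
    rw [aeval_def, ← eval_map, hq, eval_prod]
    exact Finset.prod_eq_zero hxO (by simp)
  have hdvd : minpoly ℚ x ∣ q := minpoly.dvd ℚ x hroot
  have hmin : minpoly ℚ x = (minpoly ℤ x).map (algebraMap ℤ ℚ) :=
    minpoly.isIntegrallyClosed_eq_field_fractions' ℚ hx
  refine ⟨?_, ?_⟩
  · calc (minpoly ℤ x).natDegree = ((minpoly ℤ x).map (algebraMap ℤ ℚ)).natDegree :=
          (natDegree_map_eq_of_injective (algebraMap ℤ ℚ).injective_int _).symm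
      _ = (minpoly ℚ x).natDegree := by rw [hmin]
      _ ≤ q.natDegree := natDegree_le_of_dvd hdvd hq0
      _ = O.card := hqdeg
  · intro z hz
    have hmap : (minpoly ℤ x).map (algebraMap ℤ ℂ) = (minpoly ℚ x).map (algebraMap ℚ ℂ) := by
      rw [hmin, Polynomial.map_map]
      exact congrArg (fun f : ℤ →+* ℂ => (minpoly ℤ x).map f) (RingHom.ext_int _ _)
    have hdvd' : (minpoly ℚ x).map (algebraMap ℚ ℂ) ∣ ∏ z ∈ O, (X - C z) := by
      rw [← hq]
      exact Polynomial.map_dvd _ hdvd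
    have hne : (∏ z ∈ O, (X - C z) : ℂ[X]) ≠ 0 := (monic_prod_X_sub_C _ _).ne_zero
    have hle := Polynomial.roots.le_of_dvd hne hdvd'
    rw [roots_prod_X_sub_C] at hle
    rw [hmap] at hz
    exact Finset.mem_val.mp (Multiset.mem_of_le hle hz)

/-! ## Northcott inside `ℂ` -/

/-- **Northcott**: the algebraic integers of degree at most `n` all of whose conjugates have
absolute value at most `B` form a finite set. -/
theorem finite_setOf_isIntegral_bdd (n : ℕ) (B : ℝ) :
    {y : ℂ | IsIntegral ℤ y ∧ (minpoly ℤ y).natDegree ≤ n ∧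
      ∀ z ∈ ((minpoly ℤ y).map (algebraMap ℤ ℂ)).roots, ‖z‖ ≤ B}.Finite := by
  classical
  set M : ℕ := Nat.ceil (max B 1 ^ n * (n.choose (n / 2) : ℝ)) with hM
  have hfin := bUnion_roots_finite (algebraMap ℤ ℂ) n (Set.finite_Icc (-(M : ℤ)) M)
  refine hfin.subset fun y hy => ?_
  obtain ⟨hint, hdeg, hroots⟩ := hy
  simp only [Set.mem_iUnion]
  refine ⟨minpoly ℤ y, ⟨hdeg, fun i => ?_⟩, ?_⟩
  · have hb := coeff_bdd_of_roots_le (algebraMap ℤ ℂ) (minpoly.monic hint)
      (IsAlgClosed.splits _) hdeg hroots i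
    rw [coeff_map, eq_intCast, Complex.norm_intCast] at hb
    have hb' : |((minpoly ℤ y).coeff i : ℝ)| ≤ (M : ℝ) := hb.trans (Nat.le_ceil _)
    rw [Set.mem_Icc, ← abs_le]
    exact_mod_cast hb'
  · have hne : (minpoly ℤ y).map (algebraMap ℤ ℂ) ≠ 0 :=
      ((minpoly.monic hint).map _).ne_zero
    rw [Finset.mem_coe, Multiset.mem_toFinset, mem_roots hne, IsRoot.def, eval_map,
      ← aeval_def]
    exact minpoly.aeval ℤ y

/-! ## `Stmt_FiniteValues` -/

/-- **(FINVAL)** finitely many values up to density `e`: from the Rankin bound for all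
conjugates and integrality. -/
theorem stmt_FiniteValues : Fermat.Agent.S48.helper8231.Stmt_FiniteValues := by
  classical
  intro N a hint hrank e he
  obtain ⟨n, b, C, hconj, hlog⟩ := hrank
  have hn : 0 < n := by
    obtain ⟨i, -⟩ := hconj (RingEquiv.refl ℂ)
    exact i.pos
  have hn0 : (0 : ℝ) < n := by exact_mod_cast hn
  set c : ℝ := Real.exp (n / e) - 1 with hc
  have hc0 : 0 < c := by
    have h2 : 0 < (n : ℝ) / e := by positivity
    have := Real.add_one_lt_exp h2.ne'
    rw [hc]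
    linarith
  have hlogc : Real.log (1 + c) = n / e := by
    rw [hc, add_sub_cancel, Real.log_exp]
  have hYfin := finite_setOf_isIntegral_bdd n (Real.sqrt c)
  refine ⟨hYfin.toFinset, e * C, fun y hy => ((Set.Finite.mem_toFinset hYfin).mp hy).1, ?_⟩
  intro P hP s hs hs2
  -- every prime of `P` has a large conjugate
  have hcover : ∀ p ∈ P, ∃ i : Fin n, c ≤ ‖b i p‖ ^ 2 := by
    intro p hp
    obtain ⟨hpp, hpN, hY⟩ := hP p hp
    by_contra hcon
    simp only [not_exists, not_le] at hcon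
    apply hY
    rw [Set.Finite.mem_toFinset]
    have hap : IsIntegral ℤ (a p) := hint p hpp hpN
    -- the orbit of `a p`
    set O : Finset ℂ := (Finset.univ.image fun i : Fin n => b i p).filter
      (fun z => ∃ τ : ℂ ≃+* ℂ, τ (a p) = z) with hOdef
    have hmemO : ∀ z, z ∈ O ↔ ∃ τ : ℂ ≃+* ℂ, τ (a p) = z := by
      intro z
      rw [hOdef, Finset.mem_filter, Finset.mem_image]
      constructor
      · exact fun h => h.2
      · rintro ⟨τ, rfl⟩
        obtain ⟨i, hi⟩ := hconj τ
        exact ⟨⟨i, Finset.mem_univ i, (hi p hpp hpN).symm⟩, τ, rfl⟩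
    have hxO : a p ∈ O := (hmemO _).mpr ⟨RingEquiv.refl ℂ, rfl⟩
    have hOst : ∀ τ : ℂ ≃+* ℂ, ∀ z ∈ O, τ z ∈ O := by
      intro τ z hz
      obtain ⟨τ₀, rfl⟩ := (hmemO z).mp hz
      exact (hmemO _).mpr ⟨τ₀.trans τ, rfl⟩
    have hOcard : O.card ≤ n := by
      calc O.card ≤ (Finset.univ.image fun i : Fin n => b i p).card :=
            Finset.card_le_card (Finset.filter_subset _ _)
        _ ≤ (Finset.univ : Finset (Fin n)).card := Finset.card_image_le
        _ = n := by simp
    obtain ⟨hdeg, hroots⟩ := minpoly_of_mem_stable hap O hxO hOst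
    refine ⟨hap, hdeg.trans hOcard, fun z hz => ?_⟩
    obtain ⟨τ, rfl⟩ := (hmemO z).mp (hroots z hz)
    obtain ⟨i, hi⟩ := hconj τ
    rw [hi p hpp hpN]
    exact Real.le_sqrt_of_sq_le (hcon i).le
  have hstep : ∀ i : Fin n, ∑ p ∈ P.filter (fun p => c ≤ ‖b i p‖ ^ 2), (p : ℝ) ^ (-s) ≤
      (Real.log (1 / (s - 1)) + C) / Real.log (1 + c) := by
    intro i
    have h1 := sum_rpow_neg_le_sum_log_div (β := fun p => ‖b i p‖ ^ 2) (s := s) (by linarith)
      hc0 (P.filter (fun p => c ≤ ‖b i p‖ ^ 2)) (fun p hp => by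
        rw [Finset.mem_filter] at hp
        exact ⟨(hP p hp.1).1.one_le, hp.2⟩)
    have h2 := hlog i (P.filter (fun p => c ≤ ‖b i p‖ ^ 2)) (fun p hp => by
        rw [Finset.mem_filter] at hp
        exact ⟨(hP p hp.1).1, (hP p hp.1).2.1⟩) s hs hs2
    refine h1.trans ?_
    apply div_le_div_of_nonneg_right h2
    rw [hlogc]
    positivity
  calc ∑ p ∈ P, (p : ℝ) ^ (-s)
      ≤ ∑ p ∈ P, ∑ i : Fin n, if c ≤ ‖b i p‖ ^ 2 then (p : ℝ) ^ (-s) else 0 := by
        refine Finset.sum_le_sum fun p hp => ?_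
        obtain ⟨i, hi⟩ := hcover p hp
        have hnn : ∀ j ∈ (Finset.univ : Finset (Fin n)),
            0 ≤ (if c ≤ ‖b j p‖ ^ 2 then (p : ℝ) ^ (-s) else 0) := by
          intro j _
          split_ifs
          · exact Real.rpow_nonneg (Nat.cast_nonneg p) _
          · exact le_rfl
        have := Finset.single_le_sum hnn (Finset.mem_univ i)
        rwa [if_pos hi] at this
    _ = ∑ i : Fin n, ∑ p ∈ P.filter (fun p => c ≤ ‖b i p‖ ^ 2), (p : ℝ) ^ (-s) := by
        rw [Finset.sum_comm]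
        refine Finset.sum_congr rfl fun i _ => ?_
        rw [Finset.sum_filter]
    _ ≤ ∑ _i : Fin n, (Real.log (1 / (s - 1)) + C) / Real.log (1 + c) :=
        Finset.sum_le_sum fun i _ => hstep i
    _ = e * Real.log (1 / (s - 1)) + e * C := by
        rw [hlogc, Finset.sum_const, Finset.card_univ, Fintype.card_fin, nsmul_eq_mul]
        field_simp

end Fermat.Agent.S48.helper7426

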