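/-
S48 (Deligne–Serre) — the Spec statement `Stmt_RankinOne` of `helper8231_Spec`
(leaf F4 RANKIN), from `helper7426_Rankin`.
Author: helper7426.
-/
import Fermat.Agent.S48.helper8231_Spec
import Fermat.Agent.S48.helper7426_Rankin

set_option autoImplicit false

namespace Fermat.Agent.S48.helper7426

/-- **(F4, RANKIN)** the logarithmic Rankin bound for one weight-one eigenform, in the exact
shape of the Spec. -/
theorem stmt_RankinOne : Fermat.Agent.S48.helper8231.Stmt_RankinOne := by
  intro N _ ε f h
  obtain ⟨C, hC⟩ := exists_rankin_log_bound ε f h.1 h.2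
  exact ⟨C, fun P hP s hs hs2 => hC s hs hs2 P hP⟩

end Fermat.Agent.S48.helper7426
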