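import Fermat.Agent.S29.helper2187_MidOp
import Fermat.Agent.S29.helper6752_Endgame
import Fermat.Agent.S29.helper9550_DimTwoGen
import Fermat.Agent.S29.helper4878_CycFrob

/-!
# S48, block E: residual representations from ONE eigenvector, with diamonds (helper7447)

The landed S29 chain `MID` (`helper2187`) + endgame (`helper6752`) + dimension-two lemma
(`helper9550`) + generator-Chebotarev (`helper4878`) produces a two-dimensional residual
representation from a Galois module `P` with Hecke operators `T_ℓ` satisfying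
`σ² - T_ℓ σ + ℓ = 0`.  For `Γ₁(M)` the Eichler–Shimura relation carries a diamond operator:
`σ² - T_p σ + p ⟨p⟩ = 0`.  This file is the same chain in that generality, with everything
abstract (no modular curve, no modular form):

* `exists_rep_of_eigenvector_diamond` : abstract MID with diamonds;
* `chiN` : the mod `N` cyclotomic character of `Gal(ℚ̄/ℚ)` for an arbitrary modulus `N ≠ 0`
  (the landed `helper6752.chiP` is for prime modulus), its value at Frobenius lifts
  (`chiN_frob`), on inertia (`chiN_inertia`) and its finite level (`chiN_finiteLevel`);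
* `galChar` / `dirRed` / `dirGal` : the Galois character attached to a character of
  `(ℤ/N)ˣ`, resp. to the reduction of a complex Dirichlet character along a ring hom
  `φ : ℤ̄ → κ`;
* `exists_residualRep_of_rep` : the endgame (generator-Chebotarev + dimension-two lemma) with
  an arbitrary determinant character `δ`;
* `exists_residualRep_of_eigenvector` : the composition: from `(U)`, `(ES with diamonds)` and
  ONE eigenvector to a `ResidualGaloisRep κ` with the prescribed characteristic polynomials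
  at EVERY Frobenius lift at EVERY place over every good prime;
* `exists_residualRep_dirichlet` : the same with `δ` the reduction of a Dirichlet character;
* `baseChangeAlong_isUnramifiedAt`, `baseChangeAlong_charpoly` : descent of the conclusion to an
  arbitrary field along a ring hom.
-/

set_option autoImplicit false

open scoped TensorProduct
open Polynomial

noncomputable section

namespace Fermat.Agent.S48.helper7447

open Fermat.Agent.S29.helper2187 Fermat.Agent.Lib.helper54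

local notation "Qb" => AlgebraicClosure ℚ
local notation "Zb" => integralClosure ℤ (AlgebraicClosure ℚ)
local notation "Zc" => integralClosure ℤ ℂ

/-! ## Part 1: abstract MID with diamonds -/

section Core

variable {P : Type} [AddCommGroup P]

/-- The quadratic relation with a diamond operator passes to `κ ⊗ P`. -/
theorem actV_quadratic_diamond (κ : Type) [Field κ] (r : GQ →* Module.End ℤ P)
    (T D : Module.End ℤ P) (σ : GQ) (ℓ : ℕ)
    (h : ∀ y : P, r σ (r σ y) - T (r σ y) + ℓ • D y = 0) (v : κ ⊗[ℤ] P) :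
    actV r κ σ (actV r κ σ v) - T.baseChange κ (actV r κ σ v)
      + (ℓ : κ) • D.baseChange κ v = 0 := by
  induction v using TensorProduct.induction_on with
  | zero => simp
  | tmul c y =>
    rw [actV_tmul, actV_tmul, LinearMap.baseChange_tmul, LinearMap.baseChange_tmul,
      ← TensorProduct.tmul_sub]
    have h1 : (ℓ : κ) • (c ⊗ₜ[ℤ] D y) = c ⊗ₜ[ℤ] (ℓ • D y) := by
      rw [TensorProduct.tmul_smul, Nat.cast_smul_eq_nsmul]
    rw [h1, ← TensorProduct.tmul_add, h y, TensorProduct.tmul_zero]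
  | add v w hv hw =>
    have : actV r κ σ (actV r κ σ (v + w)) - T.baseChange κ (actV r κ σ (v + w))
        + (ℓ : κ) • D.baseChange κ (v + w)
        = (actV r κ σ (actV r κ σ v) - T.baseChange κ (actV r κ σ v)
            + (ℓ : κ) • D.baseChange κ v)
          + (actV r κ σ (actV r κ σ w) - T.baseChange κ (actV r κ σ w)
            + (ℓ : κ) • D.baseChange κ w) := by
      simp only [map_add, smul_add]
      abel
    rw [this, hv, hw, add_zero]

/-- The quadratic relation with a diamond on the orbit span of a common eigenvector. -/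
theorem orbitRep_quadratic_diamond (κ : Type) [Field κ] (r : GQ →* Module.End ℤ P)
    (T D : Module.End ℤ P)
    (hT : ∀ (σ : GQ) (y : P), T (r σ y) = r σ (T y))
    (hD : ∀ (σ : GQ) (y : P), D (r σ y) = r σ (D y)) {x : κ ⊗[ℤ] P} {a d : κ}
    (hx : T.baseChange κ x = a • x) (hxD : D.baseChange κ x = d • x) (σ : GQ) (ℓ : ℕ)
    (h : ∀ y : P, r σ (r σ y) - T (r σ y) + ℓ • D y = 0) :
    orbitRep κ r x σ * orbitRep κ r x σ - a • orbitRep κ r x σ + ((ℓ : κ) * d) • 1 = 0 := by
  ext w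
  have hq := actV_quadratic_diamond κ r T D σ ℓ h (w : κ ⊗[ℤ] P)
  have he := baseChange_apply_of_mem_orbitSpan κ r T hT hx
    (actV_mem_orbitSpan κ r x σ w.2)
  have hd := baseChange_apply_of_mem_orbitSpan κ r D hD hxD w.2
  rw [he, hd, smul_smul] at hq
  simp only [LinearMap.add_apply, LinearMap.sub_apply, LinearMap.smul_apply,
    Module.End.mul_apply, Module.End.one_apply, Submodule.coe_add, Submodule.coe_sub,
    Submodule.coe_smul, coe_orbitRep_apply, LinearMap.zero_apply, Submodule.coe_zero]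
  exact hq

end Core

/-- **Abstract MID with diamonds.** `P` an abelian group with a `ℤ`-linear action `r` of `GQ`
having open stabilisers, operators `T p`, `D p` commuting with the action, trivial inertia
outside the finite set `Bad`, the Eichler–Shimura relation `σ² - T_p σ + p D_p = 0` at every
Frobenius lift at every place over every prime outside `Bad`, and ONE common eigenvector in
`κ ⊗ P`: then there is a nonzero finite-dimensional `κ`-representation of finite level,
unramified outside `Bad`, on which every such Frobenius lift satisfies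
`ρ σ ^ 2 - t p • ρ σ + p * d p = 0`.  (No commutativity among the `T p`, `D p` is used.) -/
theorem exists_rep_of_eigenvector_diamond {P : Type} [AddCommGroup P]
    (r : GQ →* Module.End ℤ P) (hfin : OpenStab r) (Bad : Finset ℕ)
    (T D : Nat.Primes → Module.End ℤ P)
    (hT : ∀ (p : Nat.Primes) (σ : GQ) (y : P), T p (r σ y) = r σ (T p y))
    (hD : ∀ (p : Nat.Primes) (σ : GQ) (y : P), D p (r σ y) = r σ (D p y))
    (hU : ∀ p : ℕ, p.Prime → p ∉ Bad →
      ∀ A : ValuationSubring Qb, A.LiesOverPrime p →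
        ∀ τ ∈ A.inertiaSubgroupIn ℚ, ∀ y : P, r τ y = y)
    (hES : ∀ (p : ℕ) (hp : p.Prime), p ∉ Bad →
      ∀ A : ValuationSubring Qb, A.LiesOverPrime p →
        ∀ σ : GQ, A.IsFrobeniusAt σ p →
          ∀ y : P, r σ (r σ y) - T ⟨p, hp⟩ (r σ y) + p • D ⟨p, hp⟩ y = 0)
    (κ : Type) [Field κ] (t d : Nat.Primes → κ)
    (hocc : ∃ x : κ ⊗[ℤ] P, x ≠ 0 ∧
      ∀ p : Nat.Primes, (p : ℕ) ∉ Bad →
        (T p).baseChange κ x = t p • x ∧ (D p).baseChange κ x = d p • x) :
    ∃ (W : Type) (_ : AddCommGroup W) (_ : Module κ W), FiniteDimensional κ W ∧ Nontrivial W ∧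
      ∃ ρ : GQ →* Module.End κ W, GaloisFactorsThroughFiniteLevel ρ ∧
        (∀ p : ℕ, p.Prime → p ∉ Bad →
          ∀ A : ValuationSubring Qb, A.LiesOverPrime p →
            ∀ σ ∈ A.inertiaSubgroupIn ℚ, ρ σ = 1) ∧
        (∀ (p : ℕ) (hp : p.Prime), p ∉ Bad →
          ∀ A : ValuationSubring Qb, A.LiesOverPrime p →
            ∀ σ : GQ, A.IsFrobeniusAt σ p →
              ρ σ * ρ σ - t ⟨p, hp⟩ • ρ σ + ((p : κ) * d ⟨p, hp⟩) • 1 = 0) := by
  obtain ⟨x, hx0, hx⟩ := hocc
  refine ⟨orbitSpan κ r x, inferInstance, inferInstance, finiteDimensional_orbitSpan κ hfin x,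
    nontrivial_orbitSpan κ r hx0, orbitRep κ r x, orbitRep_finiteLevel κ hfin x, ?_, ?_⟩
  · intro p hp hpB A hA σ hσ
    exact orbitRep_eq_one κ r x (hU p hp hpB A hA σ hσ)
  · intro p hp hpB A hA σ hσ
    exact orbitRep_quadratic_diamond κ r (T ⟨p, hp⟩) (D ⟨p, hp⟩) (hT ⟨p, hp⟩) (hD ⟨p, hp⟩)
      (hx ⟨p, hp⟩ hpB).1 (hx ⟨p, hp⟩ hpB).2 σ p (hES p hp hpB A hA σ hσ)

/-! ## Part 2: the mod `N` cyclotomic character, arbitrary modulus -/

section Cyclo

variable (N : ℕ) [NeZero N]

theorem exists_zetaN : ∃ ζ : Qb, IsPrimitiveRoot ζ N :=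
  HasEnoughRootsOfUnity.exists_primitiveRoot Qb N

/-- A chosen primitive `N`-th root of unity in `ℚ̄`. -/
def zetaN : Qb := (exists_zetaN N).choose

theorem zetaN_spec : IsPrimitiveRoot (zetaN N) N := (exists_zetaN N).choose_spec

/-- The mod `N` cyclotomic character of `Gal(ℚ̄/ℚ)`. -/
def chiN : GQ →* (ZMod N)ˣ := (zetaN_spec N).autToPow ℚ

theorem chiN_spec (σ : GQ) : zetaN N ^ ((chiN N σ : ZMod N).val) = σ (zetaN N) :=
  (zetaN_spec N).autToPow_spec ℚ σ

/-- The character is determined by the action on `ζ_N`. -/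
theorem chiN_eq_of_apply_eq {σ τ : GQ} (h : σ (zetaN N) = τ (zetaN N)) :
    chiN N σ = chiN N τ := by
  rw [← chiN_spec, ← chiN_spec] at h
  have h2 := (zetaN_spec N).pow_inj (ZMod.val_lt _) (ZMod.val_lt _) h
  exact Units.ext (ZMod.val_injective N h2)

theorem chiN_eq_one_of_apply_eq {σ : GQ} (h : σ (zetaN N) = zetaN N) : chiN N σ = 1 := by
  have : σ (zetaN N) = (1 : GQ) (zetaN N) := by simpa using h
  rw [chiN_eq_of_apply_eq N this, map_one]

theorem zetaN_isIntegral : IsIntegral ℤ (zetaN N) :=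
  (zetaN_spec N).isIntegral (NeZero.pos N)

/-- The mod `N` cyclotomic character has finite level `ℚ(ζ_N)`. -/
theorem chiN_finiteLevel : GaloisFactorsThroughFiniteLevel (chiN N) := by
  have hζint : IsIntegral ℚ (zetaN N) := (zetaN_isIntegral N).tower_top
  exact ⟨IntermediateField.adjoin ℚ {zetaN N},
    IntermediateField.adjoin.finiteDimensional hζint,
    fun σ hσ => chiN_eq_one_of_apply_eq N
      (hσ _ (IntermediateField.mem_adjoin_simple_self ℚ (zetaN N)))⟩

/-- `ζ_N` as an algebraic integer. -/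
def zetaNB : Zb := ⟨zetaN N, zetaN_isIntegral N⟩

theorem zetaNB_spec : IsPrimitiveRoot (zetaNB N) N :=
  IsPrimitiveRoot.of_map_of_injective (f := algebraMap Zb Qb) (zetaN_spec N)
    (FaithfulSMul.algebraMap_injective Zb Qb)

/-- For `N ∤ m`, the element `1 - ζ_N ^ m` divides `N`, hence is a unit at every place over a
prime `p ∤ N`. -/
theorem one_sub_pow_notMem {p : ℕ} (hp : p.Prime) (hpN : ¬ p ∣ N) (A : ValuationSubring Qb)
    (hA : A.LiesOverPrime p) (m : ℕ) (hm : ¬ N ∣ m) :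
    1 - zetaNB N ^ m ∉ primeOfValuationSubring A := by
  intro hmem
  obtain ⟨n, hn⟩ : ∃ n, N = n + 1 := ⟨N - 1, (Nat.sub_add_cancel (NeZero.pos N)).symm⟩
  have hζ : IsPrimitiveRoot (zetaNB N) (n + 1) := by
    rw [← hn]
    exact zetaNB_spec N
  have hprod := hζ.prod_one_sub_pow_eq_order
  have hmod : m % N ≠ 0 := fun h => hm (Nat.dvd_of_mod_eq_zero h)
  have hlt : m % N < N := Nat.mod_lt _ (NeZero.pos N)
  obtain ⟨k, hk⟩ : ∃ k, m % N = k + 1 :=
    ⟨m % N - 1, (Nat.sub_add_cancel (Nat.pos_of_ne_zero hmod)).symm⟩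
  have hkn : k < n := by omega
  have hpow : zetaNB N ^ (k + 1) = zetaNB N ^ m := by
    rw [← hk]
    conv_rhs => rw [← Nat.mod_add_div m N]
    rw [pow_add, pow_mul, (zetaNB_spec N).pow_eq_one, one_pow, mul_one]
  have h1 : ∏ j ∈ Finset.range n, (1 - zetaNB N ^ (j + 1)) ∈ primeOfValuationSubring A := by
    apply Ideal.prod_mem _ (Finset.mem_range.mpr hkn)
    rw [hpow]
    exact hmem
  rw [hprod] at h1
  have h2 := intCast_not_mem_primeOfValuationSubring hp A hA ((n + 1 : ℕ) : ℤ) (by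
    intro hdvd
    have hdvd' : p ∣ n + 1 := by exact_mod_cast hdvd
    exact hpN (by rw [hn]; exact hdvd'))
  apply h2
  have : (((n + 1 : ℕ) : ℤ) : Zb) = (n : Zb) + 1 := by push_cast; ring
  rw [this]
  exact h1

/-- Powers of `ζ_N` congruent modulo a place over `p ∤ N` have exponents congruent mod `N`. -/
theorem natCast_eq_of_pow_sub_pow_mem {p : ℕ} (hp : p.Prime) (hpN : ¬ p ∣ N)
    (A : ValuationSubring Qb) (hA : A.LiesOverPrime p) (a b : ℕ)
    (h : zetaN N ^ a - zetaN N ^ b ∈ A.nonunits) : (a : ZMod N) = (b : ZMod N) := by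
  by_contra hne
  set m : ℕ := a + b * (N - 1) with hm
  have hNm : ¬ N ∣ m := by
    intro hdvd
    apply hne
    have h0 : ((m : ℕ) : ZMod N) = 0 := (ZMod.natCast_eq_zero_iff m N).mpr hdvd
    have hN1 : ((N - 1 : ℕ) : ZMod N) = -1 := by
      rw [Nat.cast_sub (NeZero.pos N)]
      simp
    rw [hm] at h0
    push_cast at h0
    rw [hN1] at h0
    linear_combination h0
  apply one_sub_pow_notMem N hp hpN A hA m hNm
  have hmem : zetaNB N ^ a - zetaNB N ^ b ∈ primeOfValuationSubring A := by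
    rw [mem_primeOfValuationSubring]
    exact h
  have hpow : zetaNB N ^ (b * (N - 1)) * zetaNB N ^ b = 1 := by
    rw [← pow_add]
    have : b * (N - 1) + b = b * N := by
      have := Nat.sub_add_cancel (NeZero.pos N)
      calc b * (N - 1) + b = b * ((N - 1) + 1) := by ring
        _ = b * N := by rw [this]
    rw [this, mul_comm, pow_mul, (zetaNB_spec N).pow_eq_one, one_pow]
  have key : 1 - zetaNB N ^ m
      = -(zetaNB N ^ (b * (N - 1))) * (zetaNB N ^ a - zetaNB N ^ b) := by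
    rw [hm, pow_add]
    linear_combination (-1 : Zb) * hpow
  rw [key]
  exact Ideal.mul_mem_left _ _ hmem

theorem zetaN_mem (A : ValuationSubring Qb) : zetaN N ∈ A :=
  mem_valuationSubring_of_isIntegral A _ (zetaN_isIntegral N)

/-- A Frobenius lift at a place over `p ∤ N` has mod `N` cyclotomic character `p`. -/
theorem chiN_frob {p : ℕ} (hp : p.Prime) (hpN : ¬ p ∣ N) (A : ValuationSubring Qb)
    (hA : A.LiesOverPrime p) (σ : GQ) (hσ : A.IsFrobeniusAt σ p) :
    ((chiN N σ : (ZMod N)ˣ) : ZMod N) = (p : ZMod N) := by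
  have h1 := Fermat.Agent.S29.helper6752.frob_sub_pow_mem hσ (zetaN_mem N A)
  rw [← chiN_spec] at h1
  have h2 := natCast_eq_of_pow_sub_pow_mem N hp hpN A hA _ _ h1
  rwa [ZMod.natCast_zmod_val] at h2

/-- Inertia at a place over `p ∤ N` lies in the kernel of the mod `N` cyclotomic character. -/
theorem chiN_inertia {p : ℕ} (hp : p.Prime) (hpN : ¬ p ∣ N) (A : ValuationSubring Qb)
    (hA : A.LiesOverPrime p) (σ : GQ) (hσ : σ ∈ A.inertiaSubgroupIn ℚ) : chiN N σ = 1 := by
  have h1 := Fermat.Agent.S05.helper4205.apply_sub_mem_nonunits hσ (zetaN_mem N A)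
  rw [← chiN_spec] at h1
  have h2 := natCast_eq_of_pow_sub_pow_mem N hp hpN A hA _ 1 (by simpa using h1)
  rw [ZMod.natCast_zmod_val] at h2
  exact Units.ext (by simpa using h2)

end Cyclo

/-! ## Part 3: Galois characters from characters of `(ℤ/N)ˣ` and from Dirichlet characters -/

/-- Composing a finite-level homomorphism with any homomorphism keeps the level. -/
theorem finiteLevel_comp {M M' : Type} [MulOneClass M] [MulOneClass M'] {ρ : GQ →* M}
    (h : GaloisFactorsThroughFiniteLevel ρ) (f : M →* M') :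
    GaloisFactorsThroughFiniteLevel (f.comp ρ) := by
  obtain ⟨L, hL, hρ⟩ := h
  exact ⟨L, hL, fun σ hσ => by rw [MonoidHom.comp_apply, hρ σ hσ, map_one]⟩

section GalChar

variable (N : ℕ) [NeZero N] {κ : Type} [Field κ]

/-- The Galois character attached to a character of `(ℤ/N)ˣ`. -/
def galChar (e : (ZMod N)ˣ →* κˣ) : GQ →* κˣ := e.comp (chiN N)

theorem galChar_finiteLevel (e : (ZMod N)ˣ →* κˣ) :
    GaloisFactorsThroughFiniteLevel (galChar N e) :=
  finiteLevel_comp (chiN_finiteLevel N) e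

theorem galChar_inertia (e : (ZMod N)ˣ →* κˣ) {p : ℕ} (hp : p.Prime) (hpN : ¬ p ∣ N)
    (A : ValuationSubring Qb) (hA : A.LiesOverPrime p) (σ : GQ)
    (hσ : σ ∈ A.inertiaSubgroupIn ℚ) : galChar N e σ = 1 := by
  rw [galChar, MonoidHom.comp_apply, chiN_inertia N hp hpN A hA σ hσ, map_one]

theorem galChar_frob (e : (ZMod N)ˣ →* κˣ) {p : ℕ} (hp : p.Prime) (hpN : ¬ p ∣ N)
    (A : ValuationSubring Qb) (hA : A.LiesOverPrime p) (σ : GQ) (hσ : A.IsFrobeniusAt σ p)
    (u : (ZMod N)ˣ) (hu : (u : ZMod N) = (p : ZMod N)) : galChar N e σ = e u := by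
  rw [galChar, MonoidHom.comp_apply]
  congr 1
  exact Units.ext ((chiN_frob N hp hpN A hA σ hσ).trans hu.symm)

/-- The values of a complex Dirichlet character on units are algebraic integers. -/
theorem dirichlet_isIntegral (ε : DirichletCharacter ℂ N) (u : (ZMod N)ˣ) :
    IsIntegral ℤ (ε (u : ZMod N)) := by
  have h1 : ε (u : ZMod N) ^ Fintype.card (ZMod N)ˣ = 1 := by
    rw [← map_pow, ← Units.val_pow_eq_pow_val, pow_card_eq_one, Units.val_one, map_one]
  refine IsIntegral.of_pow (Fintype.card_pos (α := (ZMod N)ˣ)) ?_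
  rw [h1]
  exact isIntegral_one

/-- A complex Dirichlet character on units, with values in the ring of algebraic integers. -/
def dirInt (ε : DirichletCharacter ℂ N) : (ZMod N)ˣ →* Zc where
  toFun u := ⟨ε (u : ZMod N), dirichlet_isIntegral N ε u⟩
  map_one' := Subtype.ext (by simp)
  map_mul' u v := Subtype.ext (by simp)

theorem coe_dirInt (ε : DirichletCharacter ℂ N) (u : (ZMod N)ˣ) :
    ((dirInt N ε u : Zc) : ℂ) = ε (u : ZMod N) := rfl

/-- The reduction of a complex Dirichlet character along a ring hom `φ : ℤ̄ → κ`. -/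
def dirRed (ε : DirichletCharacter ℂ N) (φ : Zc →+* κ) : (ZMod N)ˣ →* κˣ :=
  (Units.map (φ : Zc →* κ)).comp (dirInt N ε).toHomUnits

theorem coe_dirRed (ε : DirichletCharacter ℂ N) (φ : Zc →+* κ) (u : (ZMod N)ˣ) :
    ((dirRed N ε φ u : κˣ) : κ) = φ (dirInt N ε u) := rfl

/-- The Galois character of the reduction of a Dirichlet character. -/
def dirGal (ε : DirichletCharacter ℂ N) (φ : Zc →+* κ) : GQ →* κˣ :=
  galChar N (dirRed N ε φ)

theorem dirGal_finiteLevel (ε : DirichletCharacter ℂ N) (φ : Zc →+* κ) :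
    GaloisFactorsThroughFiniteLevel (dirGal N ε φ) :=
  galChar_finiteLevel N _

theorem dirGal_inertia (ε : DirichletCharacter ℂ N) (φ : Zc →+* κ) {p : ℕ} (hp : p.Prime)
    (hpN : ¬ p ∣ N) (A : ValuationSubring Qb) (hA : A.LiesOverPrime p) (σ : GQ)
    (hσ : σ ∈ A.inertiaSubgroupIn ℚ) : dirGal N ε φ σ = 1 :=
  galChar_inertia N _ hp hpN A hA σ hσ

/-- The algebraic integer `ε(p)` for a prime `p ∤ N`. -/
theorem exists_dirInt_prime (ε : DirichletCharacter ℂ N) {p : ℕ} (hp : p.Prime)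
    (hpN : ¬ p ∣ N) : ∃ u : (ZMod N)ˣ, (u : ZMod N) = (p : ZMod N) ∧
      ((dirInt N ε u : Zc) : ℂ) = ε (p : ZMod N) := by
  have hcop : Nat.Coprime p N := (Nat.Prime.coprime_iff_not_dvd hp).mpr hpN
  refine ⟨ZMod.unitOfCoprime p hcop, ZMod.coe_unitOfCoprime p hcop, ?_⟩
  rw [coe_dirInt, ZMod.coe_unitOfCoprime]

/-- At a Frobenius lift at a place over `p ∤ N`, the Galois character of the reduction of `ε`
takes the value `φ (ε p)`. -/
theorem dirGal_frob (ε : DirichletCharacter ℂ N) (φ : Zc →+* κ) {p : ℕ} (hp : p.Prime)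
    (hpN : ¬ p ∣ N) (A : ValuationSubring Qb) (hA : A.LiesOverPrime p) (σ : GQ)
    (hσ : A.IsFrobeniusAt σ p) (z : Zc) (hz : (z : ℂ) = ε (p : ZMod N)) :
    ((dirGal N ε φ σ : κˣ) : κ) = φ z := by
  obtain ⟨u, hu, huz⟩ := exists_dirInt_prime N ε hp hpN
  have hzu : z = dirInt N ε u := Subtype.ext (hz.trans huz.symm)
  rw [dirGal, galChar_frob N _ hp hpN A hA σ hσ u hu, coe_dirRed, hzu]

end GalChar

/-! ## Part 4: the endgame with an arbitrary determinant character -/

/-- **Endgame.** A nonzero finite-dimensional representation of finite level, unramified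
outside `Bad`, on which every Frobenius lift at every place over a prime `p ∉ Bad` satisfies
`ρ σ ^ 2 - t p • ρ σ + c p = 0`, together with a character `δ` of finite level, unramified
outside `Bad`, with `δ σ = c p` at those Frobenius lifts, gives a TWO-dimensional
representation of finite level, unramified outside `Bad`, with
`charpoly (ρ' σ) = X ^ 2 - t p X + c p` at every such Frobenius lift.
(Generator-Chebotarev `helper4878.stmt_CycFrob` + dimension-two lemma
`helper9550.exists_end_rep_gen`, both on main.) -/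
theorem exists_residualRep_of_rep (κ : Type) [Field κ] [IsAlgClosed κ] (Bad : Finset ℕ)
    (W : Type) [AddCommGroup W] [Module κ W] [Module.Finite κ W] [Nontrivial W]
    (ρ : GQ →* Module.End κ W) (hlev : GaloisFactorsThroughFiniteLevel ρ)
    (hunr : ∀ p : ℕ, p.Prime → p ∉ Bad → ∀ A : ValuationSubring Qb, A.LiesOverPrime p →
      ∀ σ ∈ A.inertiaSubgroupIn ℚ, ρ σ = 1)
    (t c : Nat.Primes → κ)
    (hfrob : ∀ (p : ℕ) (hp : p.Prime), p ∉ Bad →
      ∀ A : ValuationSubring Qb, A.LiesOverPrime p → ∀ σ : GQ, A.IsFrobeniusAt σ p →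
        ρ σ * ρ σ - t ⟨p, hp⟩ • ρ σ + c ⟨p, hp⟩ • 1 = 0)
    (δ : GQ →* κˣ) (hδlev : GaloisFactorsThroughFiniteLevel δ)
    (hδunr : ∀ p : ℕ, p.Prime → p ∉ Bad → ∀ A : ValuationSubring Qb, A.LiesOverPrime p →
      ∀ σ ∈ A.inertiaSubgroupIn ℚ, δ σ = 1)
    (hδfrob : ∀ (p : ℕ) (hp : p.Prime), p ∉ Bad →
      ∀ A : ValuationSubring Qb, A.LiesOverPrime p → ∀ σ : GQ, A.IsFrobeniusAt σ p →
        ((δ σ : κˣ) : κ) = c ⟨p, hp⟩) :
    ∃ R : ResidualGaloisRep κ, ∀ (p : ℕ) (hp : p.Prime), p ∉ Bad →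
      R.IsUnramifiedAt p ∧ ∀ A : ValuationSubring Qb, A.LiesOverPrime p →
        ∀ σ : GQ, A.IsFrobeniusAt σ p →
          LinearMap.charpoly (R.ρ σ) = X ^ 2 - C (t ⟨p, hp⟩) * X + C (c ⟨p, hp⟩) := by
  obtain ⟨L0, hL0, hL0ρ⟩ := hlev
  obtain ⟨L1, hL1, hL1δ⟩ := hδlev
  let L' : IntermediateField ℚ Qb := L0 ⊔ L1
  have hL' : FiniteDimensional ℚ L' := IntermediateField.finiteDimensional_sup L0 L1
  have hL0L' : ∀ x ∈ L0, x ∈ L' := fun x hx => (le_sup_left : L0 ≤ L') hx
  have hL1L' : ∀ x ∈ L1, x ∈ L' := fun x hx => (le_sup_right : L1 ≤ L') hx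
  -- hypothesis of the dimension-two lemma, generator form
  have H : ∀ σ : GQ, ∃ (h : GQ) (n : ℕ) (a : κ), ρ σ = ρ (h ^ n) ∧ δ σ = δ (h ^ n) ∧
      Fermat.Agent.S29.helper9550.QuadRel (ρ h) a (δ h) := by
    intro σ
    obtain ⟨p, hp, hpB, A, hA, s, hs, n, hn⟩ :=
      Fermat.Agent.S29.helper4878.stmt_CycFrob L' hL' σ Bad
    refine ⟨s, n, t ⟨p, hp⟩, ?_, ?_, ?_⟩
    · have h1 : ρ (σ⁻¹ * s ^ n) = 1 := by
        apply hL0ρ
        intro x hx
        rw [AlgEquiv.mul_apply, hn x (hL0L' x hx)]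
        exact σ.symm_apply_apply x
      have h2 : ρ σ * ρ (σ⁻¹ * s ^ n) = ρ (s ^ n) := by
        rw [← map_mul, mul_inv_cancel_left]
      rw [← h2, h1, mul_one]
    · have h1 : δ (σ⁻¹ * s ^ n) = 1 := by
        apply hL1δ
        intro x hx
        rw [AlgEquiv.mul_apply, hn x (hL1L' x hx)]
        exact σ.symm_apply_apply x
      have h2 : δ σ * δ (σ⁻¹ * s ^ n) = δ (s ^ n) := by
        rw [← map_mul, mul_inv_cancel_left]
      rw [← h2, h1, mul_one]
    · show ρ s * ρ s - t ⟨p, hp⟩ • ρ s + ((δ s : κˣ) : κ) • (1 : Module.End κ W) = 0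
      rw [hδfrob p hp hpB A hA s hs]
      exact hfrob p hp hpB A hA s hs
  obtain ⟨ρ', h1, h2⟩ :=
    Fermat.Agent.S29.helper9550.exists_end_rep_gen (F := κ) (G := GQ) (M := W) ρ δ H
  let R : ResidualGaloisRep κ :=
    { V := Fin 2 → κ
      finrank_eq := Fermat.Agent.S29.helper9550.finrank_fin_two_fun
      ρ := ρ'
      factorsThroughFiniteLevel := ⟨L', hL', fun σ hσ =>
        h2 σ (hL0ρ σ fun x hx => hσ x (hL0L' x hx)) (hL1δ σ fun x hx => hσ x (hL1L' x hx))⟩ }
  refine ⟨R, fun p hp hpB => ⟨?_, ?_⟩⟩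
  · intro A hA σ hσ
    exact h2 σ (hunr p hp hpB A hA σ hσ) (hδunr p hp hpB A hA σ hσ)
  · intro A hA σ hσ
    have hrel : Fermat.Agent.S29.helper9550.QuadRel (ρ σ) (t ⟨p, hp⟩) (δ σ) := by
      show ρ σ * ρ σ - t ⟨p, hp⟩ • ρ σ + ((δ σ : κˣ) : κ) • (1 : Module.End κ W) = 0
      rw [hδfrob p hp hpB A hA σ hσ]
      exact hfrob p hp hpB A hA σ hσ
    have h3 := h1 σ _ hrel
    rw [hδfrob p hp hpB A hA σ hσ] at h3
    exact h3

/-! ## Part 5: from ONE eigenvector to a residual representation -/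

/-- **Block E, abstract form with diamonds.** From a Galois module `P` with open stabilisers,
operators `T p`, `D p` commuting with the Galois action, (U), (ES with diamonds)
`σ² - T_p σ + p D_p = 0`, ONE common eigenvector in `κ ⊗ P` (eigenvalues `t p`, `d p`), and a
character `δ` of finite level, unramified outside `Bad`, with `δ(Frob_p) = p * d p`:
a two-dimensional `ResidualGaloisRep κ`, unramified outside `Bad`, with
`charpoly(Frob_p) = X² - t p X + p * d p` at every Frobenius lift at every place over every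
prime outside `Bad`. -/
theorem exists_residualRep_of_eigenvector {P : Type} [AddCommGroup P]
    (r : GQ →* Module.End ℤ P) (hfin : OpenStab r) (Bad : Finset ℕ)
    (T D : Nat.Primes → Module.End ℤ P)
    (hT : ∀ (p : Nat.Primes) (σ : GQ) (y : P), T p (r σ y) = r σ (T p y))
    (hD : ∀ (p : Nat.Primes) (σ : GQ) (y : P), D p (r σ y) = r σ (D p y))
    (hU : ∀ p : ℕ, p.Prime → p ∉ Bad →
      ∀ A : ValuationSubring Qb, A.LiesOverPrime p →
        ∀ τ ∈ A.inertiaSubgroupIn ℚ, ∀ y : P, r τ y = y)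
    (hES : ∀ (p : ℕ) (hp : p.Prime), p ∉ Bad →
      ∀ A : ValuationSubring Qb, A.LiesOverPrime p →
        ∀ σ : GQ, A.IsFrobeniusAt σ p →
          ∀ y : P, r σ (r σ y) - T ⟨p, hp⟩ (r σ y) + p • D ⟨p, hp⟩ y = 0)
    (κ : Type) [Field κ] [IsAlgClosed κ] (t d : Nat.Primes → κ)
    (hocc : ∃ x : κ ⊗[ℤ] P, x ≠ 0 ∧
      ∀ p : Nat.Primes, (p : ℕ) ∉ Bad →
        (T p).baseChange κ x = t p • x ∧ (D p).baseChange κ x = d p • x)
    (δ : GQ →* κˣ) (hδlev : GaloisFactorsThroughFiniteLevel δ)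
    (hδunr : ∀ p : ℕ, p.Prime → p ∉ Bad → ∀ A : ValuationSubring Qb, A.LiesOverPrime p →
      ∀ σ ∈ A.inertiaSubgroupIn ℚ, δ σ = 1)
    (hδfrob : ∀ (p : ℕ) (hp : p.Prime), p ∉ Bad →
      ∀ A : ValuationSubring Qb, A.LiesOverPrime p → ∀ σ : GQ, A.IsFrobeniusAt σ p →
        ((δ σ : κˣ) : κ) = (p : κ) * d ⟨p, hp⟩) :
    ∃ R : ResidualGaloisRep κ, ∀ (p : ℕ) (hp : p.Prime), p ∉ Bad →
      R.IsUnramifiedAt p ∧ ∀ A : ValuationSubring Qb, A.LiesOverPrime p →
        ∀ σ : GQ, A.IsFrobeniusAt σ p →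
          LinearMap.charpoly (R.ρ σ)
            = X ^ 2 - C (t ⟨p, hp⟩) * X + C ((p : κ) * d ⟨p, hp⟩) := by
  obtain ⟨W, _, _, hfd, hnt, ρ, hlev, hunr, hfrob⟩ :=
    exists_rep_of_eigenvector_diamond r hfin Bad T D hT hD hU hES κ t d hocc
  exact exists_residualRep_of_rep κ Bad W ρ hlev hunr t
    (fun p : Nat.Primes => ((p : ℕ) : κ) * d p) hfrob δ hδlev hδunr hδfrob

/-- **Block E with the determinant a Dirichlet character.** As
`exists_residualRep_of_eigenvector`, with `δ` the Galois character of the reduction along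
`φ : ℤ̄ → κ` of a complex Dirichlet character `ε` mod `N` (all primes dividing `N` in `Bad`),
under the relation `p * d p = φ (ε p)` between the diamond eigenvalues and `ε`.  The
conclusion is in the shape `∃ z : ℤ̄, z = ε p ∧ charpoly = X² - t p X + φ z`. -/
theorem exists_residualRep_dirichlet {P : Type} [AddCommGroup P]
    (r : GQ →* Module.End ℤ P) (hfin : OpenStab r) (Bad : Finset ℕ)
    (T D : Nat.Primes → Module.End ℤ P)
    (hT : ∀ (p : Nat.Primes) (σ : GQ) (y : P), T p (r σ y) = r σ (T p y))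
    (hD : ∀ (p : Nat.Primes) (σ : GQ) (y : P), D p (r σ y) = r σ (D p y))
    (hU : ∀ p : ℕ, p.Prime → p ∉ Bad →
      ∀ A : ValuationSubring Qb, A.LiesOverPrime p →
        ∀ τ ∈ A.inertiaSubgroupIn ℚ, ∀ y : P, r τ y = y)
    (hES : ∀ (p : ℕ) (hp : p.Prime), p ∉ Bad →
      ∀ A : ValuationSubring Qb, A.LiesOverPrime p →
        ∀ σ : GQ, A.IsFrobeniusAt σ p →
          ∀ y : P, r σ (r σ y) - T ⟨p, hp⟩ (r σ y) + p • D ⟨p, hp⟩ y = 0)
    (N : ℕ) [NeZero N] (ε : DirichletCharacter ℂ N)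
    (hN : ∀ p : ℕ, p.Prime → p ∣ N → p ∈ Bad)
    (κ : Type) [Field κ] [IsAlgClosed κ] (φ : Zc →+* κ) (t d : Nat.Primes → κ)
    (hd : ∀ p : Nat.Primes, (p : ℕ) ∉ Bad → ∀ z : Zc, (z : ℂ) = ε ((p : ℕ) : ZMod N) →
      ((p : ℕ) : κ) * d p = φ z)
    (hocc : ∃ x : κ ⊗[ℤ] P, x ≠ 0 ∧
      ∀ p : Nat.Primes, (p : ℕ) ∉ Bad →
        (T p).baseChange κ x = t p • x ∧ (D p).baseChange κ x = d p • x) :
    ∃ R : ResidualGaloisRep κ, ∀ (p : ℕ) (hp : p.Prime), p ∉ Bad →
      R.IsUnramifiedAt p ∧ ∀ A : ValuationSubring Qb, A.LiesOverPrime p →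
        ∀ σ : GQ, A.IsFrobeniusAt σ p →
          ∃ z : Zc, (z : ℂ) = ε (p : ZMod N) ∧
            LinearMap.charpoly (R.ρ σ) = X ^ 2 - C (t ⟨p, hp⟩) * X + C (φ z) := by
  have hpN : ∀ p : ℕ, p.Prime → p ∉ Bad → ¬ p ∣ N := fun p hp hpB h => hpB (hN p hp h)
  obtain ⟨R, hR⟩ := exists_residualRep_of_eigenvector r hfin Bad T D hT hD hU hES κ t d hocc
    (dirGal N ε φ) (dirGal_finiteLevel N ε φ)
    (fun p hp hpB A hA σ hσ => dirGal_inertia N ε φ hp (hpN p hp hpB) A hA σ hσ)
    (fun p hp hpB A hA σ hσ => by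
      obtain ⟨u, -, huz⟩ := exists_dirInt_prime N ε hp (hpN p hp hpB)
      rw [dirGal_frob N ε φ hp (hpN p hp hpB) A hA σ hσ _ huz]
      exact (hd ⟨p, hp⟩ hpB _ huz).symm)
  refine ⟨R, fun p hp hpB => ⟨(hR p hp hpB).1, fun A hA σ hσ => ?_⟩⟩
  obtain ⟨u, -, huz⟩ := exists_dirInt_prime N ε hp (hpN p hp hpB)
  refine ⟨dirInt N ε u, huz, ?_⟩
  rw [(hR p hp hpB).2 A hA σ hσ, hd ⟨p, hp⟩ hpB _ huz]

/-! ## Part 6: descent of the conclusion along a ring hom -/

section BaseChange

variable {κ k : Type} [Field κ] [Field k] (ι : κ →+* k)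

theorem baseChangeAlong_isUnramifiedAt (R : ResidualGaloisRep κ) {q : ℕ}
    (h : R.IsUnramifiedAt q) : (R.baseChangeAlong ι).IsUnramifiedAt q := by
  intro A hA σ hσ
  let _ : Algebra κ k := ι.toAlgebra
  show LinearMap.baseChange k (R.ρ σ) = 1
  rw [h A hA σ hσ, LinearMap.baseChange_one]

theorem baseChangeAlong_charpoly (R : ResidualGaloisRep κ) (σ : GQ) {a b : κ}
    (h : LinearMap.charpoly (R.ρ σ) = X ^ 2 - C a * X + C b) :
    LinearMap.charpoly ((R.baseChangeAlong ι).ρ σ) = X ^ 2 - C (ι a) * X + C (ι b) := by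
  let _ : Algebra κ k := ι.toAlgebra
  show LinearMap.charpoly (LinearMap.baseChange k (R.ρ σ)) = _
  rw [LinearMap.charpoly_baseChange, h, RingHom.algebraMap_toAlgebra, Polynomial.map_add,
    Polynomial.map_sub, Polynomial.map_mul, Polynomial.map_pow, Polynomial.map_X,
    Polynomial.map_C, Polynomial.map_C]

end BaseChange

/-- **Descent to an arbitrary coefficient field.** If for every ALGEBRAICALLY CLOSED field `κ`
of characteristic `ℓ` and every SURJECTIVE `ψ : ℤ̄ → κ` there is a residual representation,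
unramified outside `Bad`, whose Frobenius characteristic polynomials are
`X² - ψ(t) X + ψ(z)` with `t = a p`, `z = e p`, then the same holds for EVERY field `k` of
characteristic `ℓ` and EVERY ring hom `φ : ℤ̄ → k` (the universal `(k, φ)` shape of the frozen
S29 and of the S48 Spec).  Residue field of `φ`: landed `helper6752.exists_residue_field`. -/
theorem exists_residualRep_universal {ℓ : ℕ} (hℓ : ℓ.Prime) (Bad : Finset ℕ) (a e : ℕ → ℂ)
    (hκ : ∀ (κ : Type) [Field κ] [IsAlgClosed κ] [CharP κ ℓ] (ψ : Zc →+* κ),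
      Function.Surjective ψ →
      ∃ R : ResidualGaloisRep κ, ∀ p : ℕ, p.Prime → p ∉ Bad →
        R.IsUnramifiedAt p ∧ ∀ A : ValuationSubring Qb, A.LiesOverPrime p →
          ∀ σ : GQ, A.IsFrobeniusAt σ p →
            ∃ t z : Zc, (t : ℂ) = a p ∧ (z : ℂ) = e p ∧
              LinearMap.charpoly (R.ρ σ) = X ^ 2 - C (ψ t) * X + C (ψ z))
    {k : Type} [Field k] [CharP k ℓ] (φ : Zc →+* k) :
    ∃ R : ResidualGaloisRep k, ∀ p : ℕ, p.Prime → p ∉ Bad →
      R.IsUnramifiedAt p ∧ ∀ A : ValuationSubring Qb, A.LiesOverPrime p →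
        ∀ σ : GQ, A.IsFrobeniusAt σ p →
          ∃ t z : Zc, (t : ℂ) = a p ∧ (z : ℂ) = e p ∧
            LinearMap.charpoly (R.ρ σ) = X ^ 2 - C (φ t) * X + C (φ z) := by
  obtain ⟨κ, _, _, _, ψ, ι, hι, hψ⟩ :=
    Fermat.Agent.S29.helper6752.exists_residue_field φ ℓ hℓ
  obtain ⟨R, hR⟩ := hκ κ ψ hψ
  refine ⟨R.baseChangeAlong ι, fun p hp hpB => ⟨?_, fun A hA σ hσ => ?_⟩⟩
  · exact baseChangeAlong_isUnramifiedAt ι R (hR p hp hpB).1
  · obtain ⟨t, z, ht, hz, hchar⟩ := (hR p hp hpB).2 A hA σ hσ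
    refine ⟨t, z, ht, hz, ?_⟩
    have h1 := baseChangeAlong_charpoly ι R σ hchar
    have ht' : ι (ψ t) = φ t := RingHom.congr_fun hι t
    have hz' : ι (ψ z) = φ z := RingHom.congr_fun hι z
    rw [ht', hz'] at h1
    exact h1

/-- For a nonzero `M`, "`p ∉ M.primeFactors`" is "`¬ p ∣ M`" on primes: the `Bad` of this file
for the level/characteristic product `M = B * ℓ`. -/
theorem notMem_primeFactors_iff {M p : ℕ} (hM : M ≠ 0) (hp : p.Prime) :
    p ∉ M.primeFactors ↔ ¬ p ∣ M := by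
  rw [Nat.mem_primeFactors]
  exact ⟨fun h hd => h ⟨hp, hd, hM⟩, fun h hd => h hd.2.1⟩

end Fermat.Agent.S48.helper7447
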