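import Fermat.Agent.S48.helper8231_Spec
import Fermat.Agent.S48.helper7447_RepDiamond

/-!
# S48: `Stmt_Mach` of the Spec from abstract eigen-data (helper7447)

The seam between the `Γ₁` machine (blocks A–D: Kummer module with Galois action, Hecke and
diamond operators, (U), (ES with diamonds), occurrence) and the Spec statement
`helper8231.Stmt_Mach`.

* `EigenData M ψ b ℓ κ φ` : there is a Galois module `P` (any abelian group with a `ℤ`-linear
  action of `Gal(ℚ̄/ℚ)` with open stabilisers) with operators `T p`, `D p` commuting with the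
  Galois action, inertia acting trivially at the primes `p ∤ M ℓ`, the relation
  `σ² - T_p σ + p D_p = 0` at every Frobenius lift at every place over such `p`, and ONE
  nonzero vector of `κ ⊗ P` on which `T p` acts by `φ (b p)` and `D p` by `φ (ψ p)`.
* `Stmt_EigenData LevelOK` : `EigenData` for every weight-two eigenvector `g` with nebentypus
  (`helper8231.IsEigen2`), every prime `ℓ`, every ALGEBRAICALLY CLOSED `κ` of characteristic `ℓ`
  and every SURJECTIVE `φ : ℤ̄ → κ`.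
* `stmt_Mach_of_eigenData : Stmt_EigenData LevelOK → helper8231.Stmt_Mach LevelOK`.

The determinant character is `cycK ℓ κ * dirGal M ψ φ` (mod `ℓ` cyclotomic character times the
Galois character of the reduction of `ψ`), whose value at a Frobenius lift at `p` is
`p * φ (ψ p)`.
-/

set_option autoImplicit false

open scoped TensorProduct
open Polynomial CongruenceSubgroup

noncomputable section

namespace Fermat.Agent.S48.helper7447

open Fermat.Agent.S29.helper2187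

local notation "Qb" => AlgebraicClosure ℚ
local notation "Zc" => integralClosure ℤ ℂ

/-! ## The mod `ℓ` cyclotomic character with values in a field of characteristic `ℓ` -/

/-- The product of two finite-level characters has finite level. -/
theorem finiteLevel_mul {κ : Type} [Field κ] {δ₁ δ₂ : GQ →* κˣ}
    (h₁ : GaloisFactorsThroughFiniteLevel δ₁) (h₂ : GaloisFactorsThroughFiniteLevel δ₂) :
    GaloisFactorsThroughFiniteLevel (δ₁ * δ₂) := by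
  obtain ⟨L₁, hL₁, hδ₁⟩ := h₁
  obtain ⟨L₂, hL₂, hδ₂⟩ := h₂
  refine ⟨L₁ ⊔ L₂, IntermediateField.finiteDimensional_sup L₁ L₂, fun σ hσ => ?_⟩
  rw [MonoidHom.mul_apply, hδ₁ σ fun x hx => hσ x ((le_sup_left : L₁ ≤ L₁ ⊔ L₂) hx),
    hδ₂ σ fun x hx => hσ x ((le_sup_right : L₂ ≤ L₁ ⊔ L₂) hx), mul_one]

section CycK

variable (ℓ : ℕ) [NeZero ℓ] (κ : Type) [Field κ] [CharP κ ℓ]

/-- The mod `ℓ` cyclotomic character with values in `κˣ`, `κ` of characteristic `ℓ`. -/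
def cycK : GQ →* κˣ :=
  galChar ℓ (Units.map ((ZMod.castHom (dvd_refl ℓ) κ : ZMod ℓ →+* κ) : ZMod ℓ →* κ))

theorem cycK_finiteLevel : GaloisFactorsThroughFiniteLevel (cycK ℓ κ) :=
  galChar_finiteLevel ℓ _

theorem cycK_inertia {p : ℕ} (hp : p.Prime) (hpℓ : ¬ p ∣ ℓ) (A : ValuationSubring Qb)
    (hA : A.LiesOverPrime p) (σ : GQ) (hσ : σ ∈ A.inertiaSubgroupIn ℚ) : cycK ℓ κ σ = 1 :=
  galChar_inertia ℓ _ hp hpℓ A hA σ hσ

theorem cycK_frob {p : ℕ} (hp : p.Prime) (hpℓ : ¬ p ∣ ℓ) (A : ValuationSubring Qb)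
    (hA : A.LiesOverPrime p) (σ : GQ) (hσ : A.IsFrobeniusAt σ p) :
    ((cycK ℓ κ σ : κˣ) : κ) = (p : κ) := by
  have hcop : Nat.Coprime p ℓ := (Nat.Prime.coprime_iff_not_dvd hp).mpr hpℓ
  rw [cycK, galChar_frob ℓ _ hp hpℓ A hA σ hσ (ZMod.unitOfCoprime p hcop)
    (ZMod.coe_unitOfCoprime p hcop)]
  show (ZMod.castHom (dvd_refl ℓ) κ) ((ZMod.unitOfCoprime p hcop : (ZMod ℓ)ˣ) : ZMod ℓ) = _
  rw [ZMod.coe_unitOfCoprime, map_natCast]

end CycK

/-! ## The seam statement -/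

/-- **Abstract eigen-data** for the system `(b p, ψ p)` at the prime `ℓ` and the reduction
`φ : ℤ̄ → κ`: the output of blocks A–D of the `Γ₁` machine. -/
def EigenData (M : ℕ) (ψ : DirichletCharacter ℂ M) (b : ℕ → ℂ) (ℓ : ℕ) (κ : Type) [Field κ]
    (φ : Zc →+* κ) : Prop :=
  ∃ (P : Type) (_ : AddCommGroup P) (r : GQ →* Module.End ℤ P)
    (T D : Nat.Primes → Module.End ℤ P),
    OpenStab r ∧
    (∀ (p : Nat.Primes) (σ : GQ) (y : P), T p (r σ y) = r σ (T p y)) ∧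
    (∀ (p : Nat.Primes) (σ : GQ) (y : P), D p (r σ y) = r σ (D p y)) ∧
    (∀ p : ℕ, p.Prime → ¬ p ∣ M * ℓ →
      ∀ A : ValuationSubring Qb, A.LiesOverPrime p →
        ∀ τ ∈ A.inertiaSubgroupIn ℚ, ∀ y : P, r τ y = y) ∧
    (∀ (p : ℕ) (hp : p.Prime), ¬ p ∣ M * ℓ →
      ∀ A : ValuationSubring Qb, A.LiesOverPrime p →
        ∀ σ : GQ, A.IsFrobeniusAt σ p →
          ∀ y : P, r σ (r σ y) - T ⟨p, hp⟩ (r σ y) + p • D ⟨p, hp⟩ y = 0) ∧
    ∃ x : κ ⊗[ℤ] P, x ≠ 0 ∧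
      ∀ p : Nat.Primes, ¬ (p : ℕ) ∣ M * ℓ →
        ∃ t z : Zc, (t : ℂ) = b p ∧ (z : ℂ) = ψ ((p : ℕ) : ZMod M) ∧
          (T p).baseChange κ x = φ t • x ∧ (D p).baseChange κ x = φ z • x

/-- **(EIGENDATA)** what blocks A–D of the `Γ₁` machine deliver: abstract eigen-data for every
weight-two eigenvector with nebentypus, every prime `ℓ`, every algebraically closed `κ` of
characteristic `ℓ` and every surjective reduction `φ`. -/
def Stmt_EigenData (LevelOK : ℕ → Prop) : Prop :=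
  ∀ (M : ℕ) [NeZero M] (ψ : DirichletCharacter ℂ M) (g : CuspForm (Gamma1 M) 2) (b : ℕ → ℂ),
    LevelOK M → helper8231.IsEigen2 M ψ g b →
    ∀ ℓ : ℕ, ℓ.Prime → ∀ (κ : Type) [Field κ] [IsAlgClosed κ] [CharP κ ℓ] (φ : Zc →+* κ),
      Function.Surjective φ → EigenData M ψ b ℓ κ φ

/-- The conclusion of `helper8231.Stmt_Mach` for an algebraically closed `κ`, from abstract
eigen-data. -/
theorem mach_of_eigenData (M : ℕ) [NeZero M] (ψ : DirichletCharacter ℂ M) (b : ℕ → ℂ)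
    {ℓ : ℕ} (hℓ : ℓ.Prime) (κ : Type) [Field κ] [IsAlgClosed κ] [CharP κ ℓ] (φ : Zc →+* κ)
    (h : EigenData M ψ b ℓ κ φ) :
    ∃ ρ : ResidualGaloisRep κ, ∀ p : ℕ, p.Prime → ¬ p ∣ M * ℓ →
      ρ.IsUnramifiedAt p ∧
      ∀ A : ValuationSubring Qb, A.LiesOverPrime p →
        ∀ σ : GQ, A.IsFrobeniusAt σ p →
          ∃ t δ : Zc, (t : ℂ) = b p ∧ (δ : ℂ) = (p : ℂ) * ψ (p : ZMod M) ∧
            LinearMap.charpoly (ρ.ρ σ) = X ^ 2 - C (φ t) * X + C (φ δ) := by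
  have : NeZero ℓ := ⟨hℓ.ne_zero⟩
  have hMℓ : M * ℓ ≠ 0 := mul_ne_zero (NeZero.ne M) hℓ.ne_zero
  obtain ⟨P, _, r, T, D, hopen, hT, hD, hU, hES, x, hx0, hx⟩ := h
  -- choose the eigenvalues
  have hx' : ∀ p : Nat.Primes, ∃ t z : Zc, ¬ (p : ℕ) ∣ M * ℓ →
      (t : ℂ) = b p ∧ (z : ℂ) = ψ ((p : ℕ) : ZMod M) ∧
        (T p).baseChange κ x = φ t • x ∧ (D p).baseChange κ x = φ z • x := by
    intro p
    by_cases hp : (p : ℕ) ∣ M * ℓ
    · exact ⟨0, 0, fun h => absurd hp h⟩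
    · obtain ⟨t, z, h1, h2, h3, h4⟩ := hx p hp
      exact ⟨t, z, fun _ => ⟨h1, h2, h3, h4⟩⟩
  choose t z htz using hx'
  have hBad : ∀ p : ℕ, p.Prime → (p ∉ (M * ℓ).primeFactors ↔ ¬ p ∣ M * ℓ) :=
    fun p hp => notMem_primeFactors_iff hMℓ hp
  have hpM : ∀ p : ℕ, ¬ p ∣ M * ℓ → ¬ p ∣ M := fun p hp h => hp (h.mul_right ℓ)
  have hpℓ : ∀ p : ℕ, ¬ p ∣ M * ℓ → ¬ p ∣ ℓ := fun p hp h => hp (h.mul_left M)
  obtain ⟨R, hR⟩ := exists_residualRep_of_eigenvector r hopen (M * ℓ).primeFactors T D hT hD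
    (fun p hp hpB => hU p hp ((hBad p hp).mp hpB))
    (fun p hp hpB => hES p hp ((hBad p hp).mp hpB))
    κ (fun p => φ (t p)) (fun p => φ (z p))
    ⟨x, hx0, fun p hpB => by
      have h := htz p ((hBad p p.2).mp hpB)
      exact ⟨h.2.2.1, h.2.2.2⟩⟩
    (cycK ℓ κ * dirGal M ψ φ)
    (finiteLevel_mul (cycK_finiteLevel ℓ κ) (dirGal_finiteLevel M ψ φ))
    (fun p hp hpB A hA σ hσ => by
      have hp' := (hBad p hp).mp hpB
      rw [MonoidHom.mul_apply, cycK_inertia ℓ κ hp (hpℓ p hp') A hA σ hσ,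
        dirGal_inertia M ψ φ hp (hpM p hp') A hA σ hσ, mul_one])
    (fun p hp hpB A hA σ hσ => by
      have hp' := (hBad p hp).mp hpB
      have h := htz ⟨p, hp⟩ hp'
      rw [MonoidHom.mul_apply, Units.val_mul, cycK_frob ℓ κ hp (hpℓ p hp') A hA σ hσ,
        dirGal_frob M ψ φ hp (hpM p hp') A hA σ hσ (z ⟨p, hp⟩) h.2.1])
  refine ⟨R, fun p hp hpMℓ => ?_⟩
  have hpB := (hBad p hp).mpr hpMℓ
  have h := htz ⟨p, hp⟩ hpMℓ
  refine ⟨(hR p hp hpB).1, fun A hA σ hσ => ?_⟩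
  refine ⟨t ⟨p, hp⟩, (p : Zc) * z ⟨p, hp⟩, h.1, ?_, ?_⟩
  · have h2 : ((z ⟨p, hp⟩ : Zc) : ℂ) = ψ (p : ZMod M) := h.2.1
    push_cast
    rw [h2]
  · have h3 : φ ((p : Zc) * z ⟨p, hp⟩) = (p : κ) * φ (z ⟨p, hp⟩) := by
      rw [map_mul, map_natCast]
    rw [(hR p hp hpB).2 A hA σ hσ, h3]

/-- **`Stmt_Mach` from (EIGENDATA).** -/
theorem stmt_Mach_of_eigenData (LevelOK : ℕ → Prop) (h : Stmt_EigenData LevelOK) :
    helper8231.Stmt_Mach LevelOK := by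
  intro M _ ψ g b hlev hg ℓ hℓ κ _ _ φ
  have hMℓ : M * ℓ ≠ 0 := mul_ne_zero (NeZero.ne M) hℓ.ne_zero
  obtain ⟨R, hR⟩ := exists_residualRep_universal hℓ (M * ℓ).primeFactors b
    (fun p => (p : ℂ) * ψ (p : ZMod M))
    (fun κ' _ _ _ φ' hφ' => by
      obtain ⟨R, hR⟩ := mach_of_eigenData M ψ b hℓ κ' φ' (h M ψ g b hlev hg ℓ hℓ κ' φ' hφ')
      exact ⟨R, fun p hp hpB => hR p hp ((notMem_primeFactors_iff hMℓ hp).mp hpB)⟩) φ
  exact ⟨R, fun p hp hpMℓ => hR p hp ((notMem_primeFactors_iff hMℓ hp).mpr hpMℓ)⟩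

end Fermat.Agent.S48.helper7447
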