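import Fermat.Agent.S48.helper8231_SpecLevel
import Fermat.Agent.S48.helper7447_MachOfEigen

/-!
# S48, Spec Part III: `Stmt_ERep` (helper7447)

`stmt_ERep : helper8231.Stmt_ERep`, i.e. for every level `M` and every prime `ℓ`
`helper8231.KummerModAt M ℓ → helper8231.MachAt M ℓ`: the abstract block E with diamonds
(`helper7447_RepDiamond`: MID with diamonds + generator-Chebotarev + dimension-two lemma +
the determinant character `cycK ℓ κ * dirGal M ψ φ` + descent from algebraically closed `κ`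
with surjective `φ` to arbitrary `(κ, φ)`), pointwise in the pair `(M, ℓ)`; no level
condition.
-/

set_option autoImplicit false

open scoped TensorProduct
open Polynomial CongruenceSubgroup

namespace Fermat.Agent.S48.helper7447

/-- The Kummer module at one pair `(M, ℓ)` gives abstract eigen-data for every eigensystem,
every algebraically closed `κ` of characteristic `ℓ` and every surjective reduction. -/
theorem eigenData_of_kummerModAt (M : ℕ) [NeZero M] (ℓ : ℕ)
    (hK : helper8231.KummerModAt M ℓ)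
    (ψ : DirichletCharacter ℂ M) (g : CuspForm (Gamma1 M) 2) (b : ℕ → ℂ)
    (hg : helper8231.IsEigen2 M ψ g b)
    (κ : Type) [Field κ] [IsAlgClosed κ] [CharP κ ℓ] (φ : integralClosure ℤ ℂ →+* κ)
    (hφ : Function.Surjective φ) : EigenData M ψ b ℓ κ φ := by
  obtain ⟨P, iP, r, T, D, hopen, hT, hD, hU, hES, hocc⟩ := hK
  obtain ⟨hint, hx⟩ := hocc ψ g b hg
  obtain ⟨x, hx0, hxe⟩ := hx κ φ hφ
  refine ⟨P, iP, r, T, D, hopen, hT, hD, hU, hES, x, hx0, fun p hp => ?_⟩
  have hpM : ¬ (p : ℕ) ∣ M := fun h => hp (h.mul_right ℓ)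
  exact ⟨⟨b p, hint p p.2 hpM⟩,
    ⟨ψ ((p : ℕ) : ZMod M), helper8231.isIntegral_dirichlet M ψ _⟩, rfl, rfl,
    hxe p hp _ _ rfl rfl⟩

/-- **(E-REP) of Spec Part III**, pointwise in `(M, ℓ)`:
`KummerModAt M ℓ → MachAt M ℓ` for every level `M` and every prime `ℓ`. -/
theorem stmt_ERep : helper8231.Stmt_ERep := by
  intro M _ ℓ hℓ hK ψ g b hg κ _ _ φ
  have hMℓ : M * ℓ ≠ 0 := mul_ne_zero (NeZero.ne M) hℓ.ne_zero
  obtain ⟨R, hR⟩ := exists_residualRep_universal hℓ (M * ℓ).primeFactors b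
    (fun p => (p : ℂ) * ψ (p : ZMod M))
    (fun κ' _ _ _ φ' hφ' => by
      obtain ⟨R, hR⟩ := mach_of_eigenData M ψ b hℓ κ' φ'
        (eigenData_of_kummerModAt M ℓ hK ψ g b hg κ' φ' hφ')
      exact ⟨R, fun p hp hpB => hR p hp ((notMem_primeFactors_iff hMℓ hp).mp hpB)⟩) φ
  exact ⟨R, fun p hp hpMℓ => hR p hp ((notMem_primeFactors_iff hMℓ hp).mpr hpMℓ)⟩

end Fermat.Agent.S48.helper7447
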