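import Fermat.Agent.S48.helper8231_SpecMach
import Fermat.Agent.S48.helper7447_MachOfEigen

/-!
# S48, Spec Part II: `Stmt_MachOfKummerMod` (helper7447)

`stmt_MachOfKummerMod LevelOK : helper8231.Stmt_MachOfKummerMod LevelOK`, i.e.
`Stmt_KummerMod LevelOK → Stmt_Mach LevelOK`: the abstract block E with diamonds
(`helper7447_RepDiamond`: MID with diamonds + generator-Chebotarev + dimension-two lemma +
the determinant character `cycK ℓ κ * dirGal M ψ φ` + descent from algebraically closed `κ`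
with surjective `φ` to arbitrary `(κ, φ)`), through the seam `Stmt_EigenData` of
`helper7447_MachOfEigen`.
-/

set_option autoImplicit false

open scoped TensorProduct
open Polynomial CongruenceSubgroup

namespace Fermat.Agent.S48.helper7447

/-- The Kummer module of the Spec gives abstract eigen-data for every eigensystem. -/
theorem stmt_EigenData_of_kummerMod (LevelOK : ℕ → Prop)
    (hK : helper8231.Stmt_KummerMod LevelOK) : Stmt_EigenData LevelOK := by
  intro M _ ψ g b hlev hg ℓ hℓ κ _ _ _ φ hφ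
  obtain ⟨P, iP, r, T, D, hopen, hT, hD, hU, hES, hocc⟩ := hK M hlev ℓ hℓ
  obtain ⟨hint, hx⟩ := hocc ψ g b hg
  obtain ⟨x, hx0, hxe⟩ := hx κ φ hφ
  refine ⟨P, iP, r, T, D, hopen, hT, hD, hU, hES, x, hx0, fun p hp => ?_⟩
  have hpM : ¬ (p : ℕ) ∣ M := fun h => hp (h.mul_right ℓ)
  exact ⟨⟨b p, hint p p.2 hpM⟩,
    ⟨ψ ((p : ℕ) : ZMod M), helper8231.isIntegral_dirichlet M ψ _⟩, rfl, rfl,
    hxe p hp _ _ rfl rfl⟩

/-- **(E-REP) of Spec Part II**: `Stmt_KummerMod LevelOK → Stmt_Mach LevelOK`. -/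
theorem stmt_MachOfKummerMod (LevelOK : ℕ → Prop) :
    helper8231.Stmt_MachOfKummerMod LevelOK :=
  fun hK => stmt_Mach_of_eigenData LevelOK (stmt_EigenData_of_kummerMod LevelOK hK)

end Fermat.Agent.S48.helper7447
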