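/-
S48, machine half (M1), leaf (M1-RAM) of `helper8782_SpecM1` (helper7495).

`helper8782.kfPair_of_igusa_two` / `kfPair_of_igusa_three` ask, for the field `E ≥ F̄_M`, the
branch hypothesis `hunr`: `E` has no branching over the `t_2`-line (resp. `t_3`-line) outside
`0`, `c0 = -64` (resp. `-27`) and `∞`.  This file proves `hunr` IN THE EXACT SHAPE, for ANY
`E : IntermediateField ℚ̄ ℚ̄((q))` containing `F̄_M`:

* `hunr_two_of_ram`, `hunr_three_of_ram` : from the ramification data (R1)-(R3) of `E` over the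
  `j`-line (landed generic valuation arithmetic `helper2866.level2_ord_sub_eq_one` /
  `level3_ord_sub_eq_one`, with the identities `j t² = (t + 256)³`, `j t³ = (t + 27)(t + 243)³`
  transported along `F̄_M ≤ E`);
* `hunr_two`, `hunr_three` : from a LOCGEN evaluation datum `helper2648.EvalData Γ jE i0 A e` of
  `E` (any `Γ`) and the degree `[E : ℚ̄(j)] = [SL(2, ℤ) : Γ]`;
* `kfPair_two_of_evalData`, `kfPair_three_of_evalData` : the one-call corollaries
  (`Stmt_TowerA` + `IgusaDatum` + `EvalData` + degree ⟹ `KFPair A E Ek m`).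
-/
import Fermat.Agent.S48.helper8782_SpecM1
import Fermat.Agent.S48.helper2648_LocGen
import Fermat.Agent.S18.helper2866_Branch

set_option autoImplicit false
set_option synthInstance.maxHeartbeats 400000

noncomputable section

namespace Fermat.Agent.S48.helper7495

open AlgebraicCurve IntermediateField Module ModularCurve UpperHalfPlane
open scoped MatrixGroups
open Fermat.Agent.S18

local notation "Qb" => AlgebraicClosure ℚ

variable (M : ℕ) [NeZero M]
  (E : IntermediateField Qb (LaurentSeries Qb)) (hle : modularFunctionFieldBar M ≤ E)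

/-- `j` as an element of `E ≥ F̄_M`. -/
def ramJ : ↥E :=
  ⟨(helper1733.gaussJ Qb M : LaurentSeries Qb), hle (helper1733.gaussJ Qb M).2⟩

/-- `t_2` as an element of `E ≥ F̄_M` (the spelling of `helper8782.kfPair_of_igusa_two`). -/
def ramT2 (h2M : 2 ∣ M) : ↥E :=
  ⟨(helper4665.gaussT2 Qb M h2M : LaurentSeries Qb), hle (helper4665.gaussT2 Qb M h2M).2⟩

/-- `t_3` as an element of `E ≥ F̄_M` (the spelling of `helper8782.kfPair_of_igusa_three`). -/
def ramT3 (h3M : 3 ∣ M) : ↥E :=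
  ⟨(helper4665.gaussT3 Qb M h3M : LaurentSeries Qb), hle (helper4665.gaussT3 Qb M h3M).2⟩

omit [NeZero M] in
/-- `ramJ`, `ramT2`, `ramT3` are the images under the inclusion `F̄_M →ₐ E`. -/
theorem ramJ_eq : ramJ M E hle = IntermediateField.inclusion hle (helper1733.gaussJ Qb M) := rfl

theorem ramT2_eq (h2M : 2 ∣ M) :
    ramT2 M E hle h2M = IntermediateField.inclusion hle (helper4665.gaussT2 Qb M h2M) := rfl

theorem ramT3_eq (h3M : 3 ∣ M) :
    ramT3 M E hle h3M = IntermediateField.inclusion hle (helper4665.gaussT3 Qb M h3M) := rfl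

/-- The relation between `j` and `t_2` in `E`. -/
theorem ramJ_mul_ramT2_sq (h2M : 2 ∣ M) :
    ramJ M E hle * ramT2 M E hle h2M ^ 2 = (ramT2 M E hle h2M + 256) ^ 3 := by
  have h := congrArg (IntermediateField.inclusion hle)
    (helper4665.gaussJ_mul_gaussT2_sq (L := Qb) M h2M)
  rw [map_mul, map_pow, map_pow, map_add, map_ofNat] at h
  exact h

/-- The relation between `j` and `t_3` in `E`. -/
theorem ramJ_mul_ramT3_cube (h3M : 3 ∣ M) :
    ramJ M E hle * ramT3 M E hle h3M ^ 3 =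
      (ramT3 M E hle h3M + 27) * (ramT3 M E hle h3M + 243) ^ 3 := by
  have h := congrArg (IntermediateField.inclusion hle)
    (helper4665.gaussJ_mul_gaussT3_cube (L := Qb) M h3M)
  rw [map_mul, map_pow, map_mul, map_pow, map_add, map_add, map_ofNat, map_ofNat] at h
  exact h

/-- **(M1-RAM), level 2, from `j`-line ramification data.** -/
theorem hunr_two_of_ram (h2M : 2 ∣ M)
    (R1 : ∀ (v : Place Qb ↥E) (c : Qb), c ≠ 0 → c ≠ 1728 →
      0 < v.ord (ramJ M E hle - algebraMap Qb ↥E c) →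
      v.ord (ramJ M E hle - algebraMap Qb ↥E c) = 1)
    (R2 : ∀ v : Place Qb ↥E, 0 < v.ord (ramJ M E hle) → v.ord (ramJ M E hle) ∣ 3)
    (R3 : ∀ v : Place Qb ↥E, 0 < v.ord (ramJ M E hle - algebraMap Qb ↥E 1728) →
      v.ord (ramJ M E hle - algebraMap Qb ↥E 1728) ∣ 2) :
    ∀ (v : Place Qb ↥E) (c : Qb), c ≠ 0 → c ≠ -64 →
      0 < v.ord ((⟨(helper4665.gaussT2 Qb M h2M : LaurentSeries Qb),
        hle (helper4665.gaussT2 Qb M h2M).2⟩ : ↥E) - algebraMap Qb ↥E c) →
      v.ord ((⟨(helper4665.gaussT2 Qb M h2M : LaurentSeries Qb),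
        hle (helper4665.gaussT2 Qb M h2M).2⟩ : ↥E) - algebraMap Qb ↥E c) = 1 :=
  fun v c hc0 hc hv =>
    helper2866.level2_ord_sub_eq_one (ramJ_mul_ramT2_sq M E hle h2M) R1 R2 R3 v c hc0 hc hv

/-- **(M1-RAM), level 3, from `j`-line ramification data.** -/
theorem hunr_three_of_ram (h3M : 3 ∣ M)
    (R1 : ∀ (v : Place Qb ↥E) (c : Qb), c ≠ 0 → c ≠ 1728 →
      0 < v.ord (ramJ M E hle - algebraMap Qb ↥E c) →
      v.ord (ramJ M E hle - algebraMap Qb ↥E c) = 1)
    (R2 : ∀ v : Place Qb ↥E, 0 < v.ord (ramJ M E hle) → v.ord (ramJ M E hle) ∣ 3)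
    (R3 : ∀ v : Place Qb ↥E, 0 < v.ord (ramJ M E hle - algebraMap Qb ↥E 1728) →
      v.ord (ramJ M E hle - algebraMap Qb ↥E 1728) ∣ 2) :
    ∀ (v : Place Qb ↥E) (c : Qb), c ≠ 0 → c ≠ -27 →
      0 < v.ord ((⟨(helper4665.gaussT3 Qb M h3M : LaurentSeries Qb),
        hle (helper4665.gaussT3 Qb M h3M).2⟩ : ↥E) - algebraMap Qb ↥E c) →
      v.ord ((⟨(helper4665.gaussT3 Qb M h3M : LaurentSeries Qb),
        hle (helper4665.gaussT3 Qb M h3M).2⟩ : ↥E) - algebraMap Qb ↥E c) = 1 :=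
  fun v c hc0 hc hv =>
    helper2866.level3_ord_sub_eq_one (ramJ_mul_ramT3_cube M E hle h3M) R1 R2 R3 v c hc0 hc hv

section EvalData

variable {M E hle}
variable {Γ : Subgroup SL(2, ℤ)} {i0 : Qb →+* ℂ} {A : Subalgebra Qb ↥E} {e : A →+* (ℍ → ℂ)}

/-- **(M1-RAM), level 2, from a LOCGEN evaluation datum.** -/
theorem hunr_two (h2M : 2 ∣ M) (h : helper2648.EvalData Γ (ramJ M E hle) i0 A e)
    [FiniteDimensional Qb⟮ramJ M E hle⟯ ↥E]
    (hdeg : Module.finrank Qb⟮ramJ M E hle⟯ ↥E = Nat.card (SL(2, ℤ) ⧸ Γ)) :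
    ∀ (v : Place Qb ↥E) (c : Qb), c ≠ 0 → c ≠ -64 →
      0 < v.ord ((⟨(helper4665.gaussT2 Qb M h2M : LaurentSeries Qb),
        hle (helper4665.gaussT2 Qb M h2M).2⟩ : ↥E) - algebraMap Qb ↥E c) →
      v.ord ((⟨(helper4665.gaussT2 Qb M h2M : LaurentSeries Qb),
        hle (helper4665.gaussT2 Qb M h2M).2⟩ : ↥E) - algebraMap Qb ↥E c) = 1 :=
  hunr_two_of_ram M E hle h2M (fun v c h0 h1 hv => h.ord_j_sub_eq_one hdeg c h0 h1 v hv)
    (h.ord_j_dvd_three hdeg) (h.ord_j_sub_1728_dvd_two hdeg)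

/-- **(M1-RAM), level 3, from a LOCGEN evaluation datum.** -/
theorem hunr_three (h3M : 3 ∣ M) (h : helper2648.EvalData Γ (ramJ M E hle) i0 A e)
    [FiniteDimensional Qb⟮ramJ M E hle⟯ ↥E]
    (hdeg : Module.finrank Qb⟮ramJ M E hle⟯ ↥E = Nat.card (SL(2, ℤ) ⧸ Γ)) :
    ∀ (v : Place Qb ↥E) (c : Qb), c ≠ 0 → c ≠ -27 →
      0 < v.ord ((⟨(helper4665.gaussT3 Qb M h3M : LaurentSeries Qb),
        hle (helper4665.gaussT3 Qb M h3M).2⟩ : ↥E) - algebraMap Qb ↥E c) →
      v.ord ((⟨(helper4665.gaussT3 Qb M h3M : LaurentSeries Qb),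
        hle (helper4665.gaussT3 Qb M h3M).2⟩ : ↥E) - algebraMap Qb ↥E c) = 1 :=
  hunr_three_of_ram M E hle h3M (fun v c h0 h1 hv => h.ord_j_sub_eq_one hdeg c h0 h1 v hv)
    (h.ord_j_dvd_three hdeg) (h.ord_j_sub_1728_dvd_two hdeg)

variable (p : ℕ) [Fact p.Prime] (hpM : ¬ p ∣ M)
  (V : ValuationSubring Qb) (hV : V.LiesOverPrime p)

/-- **(M1) Kummer form on the `t_2`-line from the Igusa datum and an evaluation datum.** -/
theorem kfPair_two_of_evalData (hT : helper8782.Stmt_TowerA) (h2M : 2 ∣ M)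
    (Ek : IntermediateField (IsLocalRing.ResidueField V)
      (LaurentSeries (IsLocalRing.ResidueField V)))
    (hI : helper8782.IgusaDatum V (modularFunctionFieldBar M) E
      (modularFunctionFieldFullC (IsLocalRing.ResidueField V) M) Ek
      (helper8782.isQGauss_bar M p hpM V hV))
    (h : helper2648.EvalData Γ (ramJ M E hle) i0 A e)
    [FiniteDimensional Qb⟮ramJ M E hle⟯ ↥E]
    (hdeg : Module.finrank Qb⟮ramJ M E hle⟯ ↥E = Nat.card (SL(2, ℤ) ⧸ Γ))
    (m : ℕ) (hm : ¬ p ∣ m) : helper8782.KFPair V E Ek m :=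
  helper8782.kfPair_of_igusa_two M p hpM V hV hT h2M E Ek hle hI (hunr_two h2M h hdeg) m hm

/-- **(M1) Kummer form on the `t_3`-line from the Igusa datum and an evaluation datum.** -/
theorem kfPair_three_of_evalData (hT : helper8782.Stmt_TowerA) (h3M : 3 ∣ M)
    (Ek : IntermediateField (IsLocalRing.ResidueField V)
      (LaurentSeries (IsLocalRing.ResidueField V)))
    (hI : helper8782.IgusaDatum V (modularFunctionFieldBar M) E
      (modularFunctionFieldFullC (IsLocalRing.ResidueField V) M) Ek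
      (helper8782.isQGauss_bar M p hpM V hV))
    (h : helper2648.EvalData Γ (ramJ M E hle) i0 A e)
    [FiniteDimensional Qb⟮ramJ M E hle⟯ ↥E]
    (hdeg : Module.finrank Qb⟮ramJ M E hle⟯ ↥E = Nat.card (SL(2, ℤ) ⧸ Γ))
    (m : ℕ) (hm : ¬ p ∣ m) : helper8782.KFPair V E Ek m :=
  helper8782.kfPair_of_igusa_three M p hpM V hV hT h3M E Ek hle hI (hunr_three h3M h hdeg) m hm

end EvalData

end Fermat.Agent.S48.helper7495
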