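/-
S48, machine half (M1), leaf L3 of the M1 plan (helper7495): the INSTANCE of (M1-RAM) for the
carrier of record `helper7300.gamma1FieldBar M`, from `hdeg`.

`helper8782.Stmt_RamTwo M h2M` / `helper8782.Stmt_RamThree M h3M` (no branching of the function
field of `Γ₁(M)` over the `t_2`- resp. `t_3`-line outside `0, -64` resp. `0, -27`) and the
`j`-line ramification data (R1)-(R3) of the function field of `Γ₁(M)`, from

* the landed evaluation datum `helper5047.evalData_gamma1` (EVAL1 + SEP1, `M ≥ 7`),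
* the landed finite-place dictionary `helper2648.EvalData.ord_j_*` (LOCGEN),
* the degree `hdeg : [F₁(M) : ℚ̄(j)] = [SL(2, ℤ) : Γ]` for any subgroup `Γ = ±Γ₁(M)`.

* `pmGamma1 M` : the subgroup `±Γ₁(M)` of `SL(2, ℤ)`;
* `ramR1_of_hdeg`, `ramR2_of_hdeg`, `ramR3_of_hdeg` : (R1)-(R3) for the carrier of record;
* `stmt_RamTwo_of_hdeg`, `stmt_RamThree_of_hdeg`.
-/
import Fermat.Agent.S48.helper7495_M1Ram
import Fermat.Agent.S48.helper8782_M1Top
import Fermat.Agent.S48.helper5047_Gamma1Inst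

set_option autoImplicit false
set_option synthInstance.maxHeartbeats 400000

noncomputable section

namespace Fermat.Agent.S48.helper7495

open AlgebraicCurve IntermediateField Module ModularCurve UpperHalfPlane CongruenceSubgroup
open scoped MatrixGroups
open Fermat.Agent.S18

local notation "Qb" => AlgebraicClosure ℚ

/-- The subgroup `±Γ₁(M)` of `SL(2, ℤ)`. -/
def pmGamma1 (M : ℕ) : Subgroup SL(2, ℤ) where
  carrier := {g | g ∈ Gamma1 M ∨ -g ∈ Gamma1 M}
  mul_mem' := by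
    rintro g g' (hg | hg) (hg' | hg')
    · exact Or.inl ((Gamma1 M).mul_mem hg hg')
    · refine Or.inr ?_
      have := (Gamma1 M).mul_mem hg hg'
      rwa [mul_neg] at this
    · refine Or.inr ?_
      have := (Gamma1 M).mul_mem hg hg'
      rwa [neg_mul] at this
    · refine Or.inl ?_
      have := (Gamma1 M).mul_mem hg hg'
      rwa [neg_mul_neg] at this
  one_mem' := Or.inl (Gamma1 M).one_mem
  inv_mem' := by
    rintro g (hg | hg)
    · exact Or.inl ((Gamma1 M).inv_mem hg)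
    · refine Or.inr ?_
      have := (Gamma1 M).inv_mem hg
      rwa [inv_neg] at this

theorem mem_pmGamma1 {M : ℕ} {g : SL(2, ℤ)} :
    g ∈ pmGamma1 M ↔ g ∈ Gamma1 M ∨ -g ∈ Gamma1 M := Iff.rfl

theorem Gamma1_le_pmGamma1 (M : ℕ) : Gamma1 M ≤ pmGamma1 M := fun _ hg => Or.inl hg

theorem neg_one_mem_pmGamma1 (M : ℕ) : (-1 : SL(2, ℤ)) ∈ pmGamma1 M :=
  Or.inr (by rw [neg_neg]; exact (Gamma1 M).one_mem)

variable (M : ℕ) [NeZero M]

/-- `j` in the carrier of record, in the spelling of `helper7495_M1Ram`. -/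
theorem ramJ_gamma1FieldBar :
    ramJ M (helper7300.gamma1FieldBar M) (helper7300.modularFunctionFieldBar_le_gamma1FieldBar M)
      = helper5047.jG1 Qb M := rfl

/-- An embedding `ℚ̄ → ℂ`. -/
def ramEmb : Qb →+* ℂ :=
  letI : Algebra ℚ (AlgebraicClosure ℚ) := AlgebraicClosure.instAlgebra ℚ
  haveI : Algebra.IsAlgebraic ℚ (AlgebraicClosure ℚ) := AlgebraicClosure.isAlgebraic ℚ
  (IsAlgClosed.lift (R := ℚ) (S := AlgebraicClosure ℚ) (M := ℂ)).toRingHom

/-- **The evaluation datum of the carrier of record for `±Γ₁(M)`** (`M ≥ 7`; landed EVAL1 +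
SEP1). -/
theorem evalData_pmGamma1 (hM : 7 ≤ M) :
    helper2648.EvalData (pmGamma1 M) (helper5047.jG1 Qb M) ramEmb
      (helper5047.holAlg ramEmb (helper7300.gamma1Field Qb M))
      (helper5047.holFun ramEmb (helper7300.gamma1Field Qb M)) :=
  helper5047.evalData_gamma1 M ramEmb hM (pmGamma1 M) (fun _ => Iff.rfl)

/-! ## From `hdeg` (any subgroup `Γ = ±Γ₁(M)`) -/

section OfHDeg

variable (hM : 7 ≤ M) (Γ : Subgroup SL(2, ℤ))
  (hΓ : ∀ g : SL(2, ℤ), g ∈ Γ ↔ (g ∈ Gamma1 M ∨ -g ∈ Gamma1 M))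
  [FiniteDimensional Qb⟮helper5047.jG1 Qb M⟯ ↥(helper7300.gamma1FieldBar M)]
  (hdeg : Module.finrank Qb⟮helper5047.jG1 Qb M⟯ ↥(helper7300.gamma1FieldBar M) =
    Nat.card (SL(2, ℤ) ⧸ Γ))

include hM hΓ hdeg

/-- **(R1) for the carrier of record**: the function field of `Γ₁(M)` is unramified over the
`j`-line outside `0, 1728, ∞`. -/
theorem ramR1_of_hdeg (v : Place Qb ↥(helper7300.gamma1FieldBar M)) (c : Qb) (hc0 : c ≠ 0)
    (hc : c ≠ 1728)
    (hv : 0 < v.ord (helper5047.jG1 Qb M - algebraMap Qb ↥(helper7300.gamma1FieldBar M) c)) :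
    v.ord (helper5047.jG1 Qb M - algebraMap Qb ↥(helper7300.gamma1FieldBar M) c) = 1 :=
  (helper5047.evalData_gamma1 M ramEmb hM Γ hΓ).ord_j_sub_eq_one hdeg c hc0 hc v hv

/-- **(R2) for the carrier of record**: the ramification indices over `j = 0` divide `3`. -/
theorem ramR2_of_hdeg (v : Place Qb ↥(helper7300.gamma1FieldBar M))
    (hv : 0 < v.ord (helper5047.jG1 Qb M)) : v.ord (helper5047.jG1 Qb M) ∣ 3 :=
  (helper5047.evalData_gamma1 M ramEmb hM Γ hΓ).ord_j_dvd_three hdeg v hv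

/-- **(R3) for the carrier of record**: the ramification indices over `j = 1728` divide `2`. -/
theorem ramR3_of_hdeg (v : Place Qb ↥(helper7300.gamma1FieldBar M))
    (hv : 0 < v.ord (helper5047.jG1 Qb M -
      algebraMap Qb ↥(helper7300.gamma1FieldBar M) 1728)) :
    v.ord (helper5047.jG1 Qb M - algebraMap Qb ↥(helper7300.gamma1FieldBar M) 1728) ∣ 2 :=
  (helper5047.evalData_gamma1 M ramEmb hM Γ hΓ).ord_j_sub_1728_dvd_two hdeg v hv

/-- **(M1-RAM), `t_2`-line, for the carrier of record**, from `hdeg`. -/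
theorem stmt_RamTwo_of_hdeg (h2M : 2 ∣ M) : helper8782.Stmt_RamTwo M h2M :=
  hunr_two_of_ram M (helper7300.gamma1FieldBar M)
    (helper7300.modularFunctionFieldBar_le_gamma1FieldBar M) h2M
    (ramR1_of_hdeg M hM Γ hΓ hdeg) (ramR2_of_hdeg M hM Γ hΓ hdeg) (ramR3_of_hdeg M hM Γ hΓ hdeg)

/-- **(M1-RAM), `t_3`-line, for the carrier of record**, from `hdeg`. -/
theorem stmt_RamThree_of_hdeg (h3M : 3 ∣ M) : helper8782.Stmt_RamThree M h3M :=
  hunr_three_of_ram M (helper7300.gamma1FieldBar M)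
    (helper7300.modularFunctionFieldBar_le_gamma1FieldBar M) h3M
    (ramR1_of_hdeg M hM Γ hΓ hdeg) (ramR2_of_hdeg M hM Γ hΓ hdeg) (ramR3_of_hdeg M hM Γ hΓ hdeg)

end OfHDeg

end Fermat.Agent.S48.helper7495
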