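/-
S48, machine half (M1), leaf L3 of the M1 plan (helper7495): (M1-RAM) FOR THE CARRIER OF RECORD,
UNCONDITIONALLY (`M ≥ 7`).

* `stmt_RamTwo M hM h2M : helper8782.Stmt_RamTwo M h2M`,
  `stmt_RamThree M hM h3M : helper8782.Stmt_RamThree M h3M` : the function field of `Γ₁(M)`
  (`helper7300.gamma1FieldBar M`) has no branching over the `t_2`- resp. `t_3`-line outside
  `0, -64` resp. `0, -27`;
* `ramR1`, `ramR2`, `ramR3` : the `j`-line ramification data (R1)-(R3) of the function field of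
  `Γ₁(M)` (inputs of the BarDatum of the layer, `helper648.nonempty_barDatum_*`).

Inputs: `helper7495_M1RamInst` (EVAL1 + SEP1 + LOCGEN, landed) and the analytic degree
`helper9565.hdeg_gamma1` (HDEG4: `[F₁(M) : ℚ̄(j)] = [SL(2, ℤ) : ±Γ₁(M)]`).
-/
import Fermat.Agent.S48.helper7495_M1RamInst
import Fermat.Agent.S48.helper9565_HDegGamma1

set_option autoImplicit false
set_option synthInstance.maxHeartbeats 400000

noncomputable section

namespace Fermat.Agent.S48.helper7495

open AlgebraicCurve IntermediateField Module ModularCurve UpperHalfPlane CongruenceSubgroup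
open scoped MatrixGroups
open Fermat.Agent.S18

local notation "Qb" => AlgebraicClosure ℚ

variable (M : ℕ) [NeZero M] (hM : 7 ≤ M)

include hM

/-- **`hfd`, `hdeg` for the carrier of record and `Γ = pmGamma1 M`** (HDEG4, helper9565). -/
theorem hdeg_pmGamma1 :
    FiniteDimensional Qb⟮helper5047.jG1 Qb M⟯ ↥(helper7300.gamma1FieldBar M) ∧
      Module.finrank Qb⟮helper5047.jG1 Qb M⟯ ↥(helper7300.gamma1FieldBar M) =
        Nat.card (SL(2, ℤ) ⧸ pmGamma1 M) :=
  helper9565.hdeg_gamma1 M hM (pmGamma1 M) (fun _ => Iff.rfl)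

/-- **(R1)**: the function field of `Γ₁(M)` is unramified over the `j`-line outside
`0, 1728, ∞`. -/
theorem ramR1 (v : Place Qb ↥(helper7300.gamma1FieldBar M)) (c : Qb) (hc0 : c ≠ 0)
    (hc : c ≠ 1728)
    (hv : 0 < v.ord (helper5047.jG1 Qb M - algebraMap Qb ↥(helper7300.gamma1FieldBar M) c)) :
    v.ord (helper5047.jG1 Qb M - algebraMap Qb ↥(helper7300.gamma1FieldBar M) c) = 1 := by
  obtain ⟨hfd, hdeg⟩ := hdeg_pmGamma1 M hM
  exact ramR1_of_hdeg M hM (pmGamma1 M) (fun _ => Iff.rfl) hdeg v c hc0 hc hv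

/-- **(R2)**: the ramification indices of the function field of `Γ₁(M)` over `j = 0` divide
`3`. -/
theorem ramR2 (v : Place Qb ↥(helper7300.gamma1FieldBar M))
    (hv : 0 < v.ord (helper5047.jG1 Qb M)) : v.ord (helper5047.jG1 Qb M) ∣ 3 := by
  obtain ⟨hfd, hdeg⟩ := hdeg_pmGamma1 M hM
  exact ramR2_of_hdeg M hM (pmGamma1 M) (fun _ => Iff.rfl) hdeg v hv

/-- **(R3)**: the ramification indices of the function field of `Γ₁(M)` over `j = 1728` divide
`2`. -/
theorem ramR3 (v : Place Qb ↥(helper7300.gamma1FieldBar M))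
    (hv : 0 < v.ord (helper5047.jG1 Qb M -
      algebraMap Qb ↥(helper7300.gamma1FieldBar M) 1728)) :
    v.ord (helper5047.jG1 Qb M - algebraMap Qb ↥(helper7300.gamma1FieldBar M) 1728) ∣ 2 := by
  obtain ⟨hfd, hdeg⟩ := hdeg_pmGamma1 M hM
  exact ramR3_of_hdeg M hM (pmGamma1 M) (fun _ => Iff.rfl) hdeg v hv

/-- **(M1-RAM), `t_2`-line, for the carrier of record** (leaf L3 of the M1 plan). -/
theorem stmt_RamTwo (h2M : 2 ∣ M) : helper8782.Stmt_RamTwo M h2M := by
  obtain ⟨hfd, hdeg⟩ := hdeg_pmGamma1 M hM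
  exact stmt_RamTwo_of_hdeg M hM (pmGamma1 M) (fun _ => Iff.rfl) hdeg h2M

/-- **(M1-RAM), `t_3`-line, for the carrier of record** (leaf L3 of the M1 plan). -/
theorem stmt_RamThree (h3M : 3 ∣ M) : helper8782.Stmt_RamThree M h3M := by
  obtain ⟨hfd, hdeg⟩ := hdeg_pmGamma1 M hM
  exact stmt_RamThree_of_hdeg M hM (pmGamma1 M) (fun _ => Iff.rfl) hdeg h3M

end Fermat.Agent.S48.helper7495
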