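/-
S48 (Deligne–Serre), endgame leaf (E1) `Stmt_BddLift` of `helper8231_Spec` — helper7647.

`stmt_BddLift : Stmt_FiniteValues → Stmt_ChebDensity → Stmt_BoundedImage → Stmt_SemiSimp →
  Stmt_Lift → Stmt_BddLift`.

Plan (captain, team chat #211): pick a maximal ideal `𝔪 ∋ ℓ` of `Zc`, `κ := Zc ⧸ 𝔪`
(algebraically closed), `φ := mk 𝔪`; the residual representation gives, by `Stmt_SemiSimp`, a
matrix representation `r` with finite image `G`; the set of `g ∈ G` with `tr g ∉ Ȳ` or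
`tr g⁻¹ ∉ Ȳ` has density `≤ 1/8` by Chebotarev + `Stmt_FiniteValues`; determinants of `G` lie in
the image of the values of `ε` by Chebotarev (existence form); `Stmt_BoundedImage` bounds `|G|`
independently of `ℓ`, so `ℓ ∤ |G|` for large `ℓ` and `Stmt_Lift` applies.
-/
import Fermat.Agent.S48.helper8231_Spec
import Fermat.Prelude.Def_FLTPrelim_ModularRep

set_option autoImplicit false
set_option linter.style.haveILetI false

namespace Fermat.Agent.S48.helper7647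

open Polynomial
open Fermat.Agent.S48.helper8231

/-! ### The residue fields `Zc ⧸ 𝔪` -/

/-- `Zc ⧸ 𝔪` has characteristic `ℓ` when the prime `ℓ` lies in `𝔪`. -/
theorem charP_quot (𝔪 : Ideal Zc) [𝔪.IsMaximal] (ℓ : ℕ) (hℓ : ℓ.Prime) (hmem : (ℓ : Zc) ∈ 𝔪) :
    CharP (Zc ⧸ 𝔪) ℓ := by
  have h0 : ((ℓ : ℕ) : Zc ⧸ 𝔪) = 0 := by
    have := (Ideal.Quotient.eq_zero_iff_mem (I := 𝔪) (a := (ℓ : Zc))).2 hmem
    simpa using this
  exact (CharP.charP_iff_prime_eq_zero hℓ).2 h0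

/-- `Zc ⧸ 𝔪` is algebraically closed. -/
theorem isAlgClosed_quot (𝔪 : Ideal Zc) [𝔪.IsMaximal] :
    @IsAlgClosed (Zc ⧸ 𝔪) (Ideal.Quotient.field 𝔪) := by
  let _ : Field (Zc ⧸ 𝔪) := Ideal.Quotient.field 𝔪
  apply IsAlgClosed.of_exists_root
  intro p hpm hpirr
  have hsurj : Function.Surjective (Ideal.Quotient.mk 𝔪) := Ideal.Quotient.mk_surjective
  obtain ⟨P, hPmap, hPdeg, hPmonic⟩ :=
    Polynomial.lifts_and_degree_eq_and_monic
      ((Polynomial.mem_lifts p).2 (Polynomial.map_surjective _ hsurj p)) hpm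
  have hdeg : (P.map (algebraMap Zc ℂ)).degree ≠ 0 := by
    rw [Polynomial.degree_map_eq_of_injective (FaithfulSMul.algebraMap_injective Zc ℂ), hPdeg]
    exact (Polynomial.degree_pos_of_irreducible hpirr).ne'
  obtain ⟨z, hz⟩ := IsAlgClosed.exists_root _ hdeg
  have hzint : IsIntegral Zc z := ⟨P, hPmonic, by
    rwa [Polynomial.IsRoot.def, Polynomial.eval_map] at hz⟩
  have hzint' : IsIntegral ℤ z := isIntegral_trans z hzint
  let z' : Zc := ⟨z, hzint'⟩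
  refine ⟨Ideal.Quotient.mk 𝔪 z', ?_⟩
  have h1 : Polynomial.eval z' P = 0 := by
    apply FaithfulSMul.algebraMap_injective Zc ℂ
    rw [map_zero, ← Polynomial.eval₂_at_apply]
    rwa [Polynomial.IsRoot.def, Polynomial.eval_map] at hz
  rw [← hPmap, Polynomial.eval_map, Polynomial.eval₂_at_apply, h1, map_zero]

/-! ### Generalities -/

/-- A homomorphism of finite level from the Galois group has finite image. -/
theorem finite_range_of_finiteLevel {M : Type} [Group M] (r : GQ →* M)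
    (h : GaloisFactorsThroughFiniteLevel r) : Finite r.range := by
  obtain ⟨L, hL, h1⟩ := h
  let res : GQ → (L →ₐ[ℚ] AlgebraicClosure ℚ) := fun σ =>
    (σ : AlgebraicClosure ℚ →ₐ[ℚ] AlgebraicClosure ℚ).comp L.val
  have hkey : ∀ σ τ : GQ, res σ = res τ → r σ = r τ := by
    intro σ τ hres
    have h2 : r (σ⁻¹ * τ) = 1 := h1 _ (fun x hx => by
      have h3 : σ x = τ x := DFunLike.congr_fun hres ⟨x, hx⟩
      show σ⁻¹ (τ x) = x
      rw [← h3]
      exact σ.symm_apply_apply x)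
    rw [map_mul, map_inv, inv_mul_eq_one] at h2
    exact h2
  have hfin : Finite (L →ₐ[ℚ] AlgebraicClosure ℚ) := inferInstance
  let Φ : r.range → (L →ₐ[ℚ] AlgebraicClosure ℚ) := fun x =>
    res (MonoidHom.mem_range.1 x.2).choose
  refine Finite.of_injective Φ ?_
  intro x y hxy
  have h4 := hkey _ _ hxy
  rw [(MonoidHom.mem_range.1 x.2).choose_spec, (MonoidHom.mem_range.1 y.2).choose_spec] at h4
  exact Subtype.ext h4

/-- A positive multiple of `log (1 / (s - 1))` is unbounded on `(1, 2]`. -/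
theorem false_of_log_bound (c K : ℝ) (hc : 0 < c)
    (h : ∀ s : ℝ, 1 < s → s ≤ 2 → c * Real.log (1 / (s - 1)) ≤ K) : False := by
  set M : ℝ := |K| / c + 1 with hM
  have hMpos : 0 < M := by positivity
  have hs1 : 1 < 1 + Real.exp (-M) := by linarith [Real.exp_pos (-M)]
  have hs2 : 1 + Real.exp (-M) ≤ 2 := by
    have : Real.exp (-M) ≤ 1 := Real.exp_le_one_iff.2 (by linarith)
    linarith
  have h1 := h _ hs1 hs2
  have hlog : Real.log (1 / (1 + Real.exp (-M) - 1)) = M := by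
    rw [add_sub_cancel_left, one_div, ← Real.exp_neg, neg_neg, Real.log_exp]
  rw [hlog] at h1
  have h2 : c * M = |K| + c := by rw [hM]; field_simp
  linarith [le_abs_self K]

/-- Chebotarev, existence form, from the density form of the Spec. -/
theorem exists_frobenius_of_chebDensity (hCD : Stmt_ChebDensity)
    (G : Type) [Group G] [Finite G] (π : GQ →* G) (hπ : Function.Surjective π)
    (hfl : GaloisFactorsThroughFiniteLevel π) (T : Set G)
    (hconj : ∀ g h : G, h ∈ T → g * h * g⁻¹ ∈ T) (hinv : ∀ h ∈ T, h⁻¹ ∈ T) (hne : T.Nonempty)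
    (S : ℕ) (hS : S ≠ 0) :
    ∃ p : ℕ, p.Prime ∧ ¬ p ∣ S ∧ ∃ A : ValuationSubring (AlgebraicClosure ℚ),
      A.LiesOverPrime p ∧ ∃ σ : GQ, A.IsFrobeniusAt σ p ∧ π σ ∈ T := by
  have hT : 0 < (Nat.card T : ℝ) := by
    have h0 : 0 < Nat.card T := Nat.card_pos_iff.2 ⟨hne.to_subtype, inferInstance⟩
    exact_mod_cast h0
  have hG : 0 < (Nat.card G : ℝ) := by exact_mod_cast Nat.card_pos
  set d : ℝ := (Nat.card T : ℝ) / (Nat.card G : ℝ) with hd
  have hdpos : 0 < d := div_pos hT hG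
  obtain ⟨C, hC⟩ := hCD G π hπ hfl T hconj hinv S hS (d / 2) (by positivity)
  by_contra hcon
  apply false_of_log_bound (d / 2) C (by positivity)
  intro s hs1 hs2
  obtain ⟨P, hP, hle⟩ := hC s hs1 hs2
  have hPempty : P = ∅ := by
    apply Finset.eq_empty_of_forall_notMem
    intro p hp
    obtain ⟨hpp, hpS, A, hA, σ, hσ, hT⟩ := hP p hp
    exact hcon ⟨p, hpp, hpS, A, hA, σ, hσ, hT⟩
  rw [hPempty, Finset.sum_empty] at hle
  have h3 : d - d / 2 = d / 2 := by ring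
  rw [h3] at hle
  linarith

/-- Trace and determinant of a `2 × 2` matrix from its characteristic polynomial. -/
theorem trace_det_of_charpoly {κ : Type} [Field κ] (M : Matrix (Fin 2) (Fin 2) κ) (t d : κ)
    (h : M.charpoly = X ^ 2 - C t * X + C d) : M.trace = t ∧ M.det = d := by
  rw [Matrix.charpoly_fin_two] at h
  have h1 := congrArg (fun p : κ[X] => p.coeff 1) h
  have h0 := congrArg (fun p : κ[X] => p.coeff 0) h
  simp only [Polynomial.coeff_add, Polynomial.coeff_sub, Polynomial.coeff_X_pow,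
    Polynomial.coeff_C_mul, Polynomial.coeff_X, Polynomial.coeff_C] at h1 h0
  constructor
  · simpa using h1
  · simpa using h0

/-- The trace of the inverse of an element of `GL₂`. -/
theorem trace_inv_GL2 {κ : Type} [Field κ] (g : GL (Fin 2) κ) :
    ((g⁻¹ : GL (Fin 2) κ) : Matrix (Fin 2) (Fin 2) κ).trace =
      (g : Matrix (Fin 2) (Fin 2) κ).trace * ((g : Matrix (Fin 2) (Fin 2) κ).det)⁻¹ := by
  rw [Matrix.coe_units_inv, Matrix.inv_def, Matrix.trace_smul, Matrix.adjugate_fin_two,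
    Matrix.trace_fin_two, Matrix.trace_fin_two, Ring.inverse_eq_inv', smul_eq_mul]
  simp only [Matrix.of_apply, Matrix.cons_val_zero, Matrix.cons_val_one]
  ring

/-! ### The bound on the image -/

/-- The image of a matrix representation `r` over an algebraically closed field `κ` whose
Frobenius traces and determinants off `S` are the reductions of `a p`, `ε p` has at most
`2 |Y₁|⁴ + 3 |Y₁| |E₀|` elements, where `Y₁ ⊇ Y₀ ∪ Y₀ E₀`, `E₀ ⊇` the values of `ε` and `Y₀` is a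
set of values of `a` of upper density `≤ 1/16` off it. -/
theorem card_range_le (hCD : Stmt_ChebDensity) (hBI : Stmt_BoundedImage)
    (κ : Type) [Field κ] [IsAlgClosed κ] (φ : Zc →+* κ)
    (N : ℕ) [NeZero N] (ε : DirichletCharacter ℂ N) (a : ℕ → ℂ)
    (Y0 : Finset ℂ) (CFV : ℝ)
    (hFVb : ∀ P : Finset ℕ, (∀ p ∈ P, p.Prime ∧ ¬ p ∣ N ∧ a p ∉ Y0) →
      ∀ s : ℝ, 1 < s → s ≤ 2 →
        ∑ p ∈ P, (p : ℝ) ^ (-s) ≤ 1 / 16 * Real.log (1 / (s - 1)) + CFV)
    (E0 : Finset ℂ) (hE0 : ∀ x : ZMod N, ε x ∈ E0) (hE0int : ∀ y ∈ E0, IsIntegral ℤ y)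
    (Y1 : Finset ℂ) (hY1int : ∀ y ∈ Y1, IsIntegral ℤ y) (hY01 : Y0 ⊆ Y1)
    (hY0E : ∀ y ∈ Y0, ∀ e ∈ E0, y * e ∈ Y1)
    (S : ℕ) (hS : S ≠ 0) (hNS : N ∣ S)
    (r : GQ →* GL (Fin 2) κ) (hfl : GaloisFactorsThroughFiniteLevel r)
    (hcase : (∀ v : Fin 2 → κ, v ≠ 0 → ∃ σ : GQ, ∀ c : κ,
          ((r σ : GL (Fin 2) κ) : Matrix (Fin 2) (Fin 2) κ).mulVec v ≠ c • v) ∨
        (∀ σ : GQ, ∃ x y : κ,
          ((r σ : GL (Fin 2) κ) : Matrix (Fin 2) (Fin 2) κ) = Matrix.diagonal ![x, y]))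
    (hfrob : ∀ p : ℕ, p.Prime → ¬ p ∣ S →
      ∀ A : ValuationSubring (AlgebraicClosure ℚ), A.LiesOverPrime p →
        ∀ σ : GQ, A.IsFrobeniusAt σ p →
          ∃ t δ : Zc, (t : ℂ) = a p ∧ (δ : ℂ) = ε (p : ZMod N) ∧
            ((r σ : GL (Fin 2) κ) : Matrix (Fin 2) (Fin 2) κ).trace = φ t ∧
            ((r σ : GL (Fin 2) κ) : Matrix (Fin 2) (Fin 2) κ).det = φ δ) :
    Finite r.range ∧ Nat.card r.range ≤ 2 * Y1.card ^ 4 + 3 * Y1.card * E0.card := by
  classical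
  have hfin : Finite r.range := finite_range_of_finiteLevel r hfl
  refine ⟨hfin, ?_⟩
  let π : GQ →* r.range := r.rangeRestrict
  have hπsurj : Function.Surjective π := r.rangeRestrict_surjective
  have hπfl : GaloisFactorsThroughFiniteLevel π := by
    obtain ⟨L, hL, h1⟩ := hfl
    exact ⟨L, hL, fun σ hσ => Subtype.ext (h1 σ hσ)⟩
  -- the images of the finite sets in `κ`
  let Yb : Finset κ := Y1.attach.image (fun y => φ ⟨y.1, hY1int y.1 y.2⟩)
  let Db : Finset κ := E0.attach.image (fun y => φ ⟨y.1, hE0int y.1 y.2⟩)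
  have hYb : ∀ t : Zc, (t : ℂ) ∈ Y1 → φ t ∈ Yb := fun t ht =>
    Finset.mem_image.2 ⟨⟨(t : ℂ), ht⟩, Finset.mem_attach _ _, rfl⟩
  have hDb : ∀ t : Zc, (t : ℂ) ∈ E0 → φ t ∈ Db := fun t ht =>
    Finset.mem_image.2 ⟨⟨(t : ℂ), ht⟩, Finset.mem_attach _ _, rfl⟩
  have hYbcard : Yb.card ≤ Y1.card := Finset.card_image_le.trans (by rw [Finset.card_attach])
  have hDbcard : Db.card ≤ E0.card := Finset.card_image_le.trans (by rw [Finset.card_attach])
  -- the inverse of `ε p`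
  have hinvε : ∀ p : ℕ, p.Prime → ¬ p ∣ N → ∀ δ : Zc, (δ : ℂ) = ε (p : ZMod N) →
      ∃ δ' : Zc, (δ' : ℂ) ∈ E0 ∧ φ δ * φ δ' = 1 := by
    intro p hp hpN δ hδ
    have hcop : Nat.Coprime p N := (Nat.Prime.coprime_iff_not_dvd hp).2 hpN
    let u : (ZMod N)ˣ := ZMod.unitOfCoprime p hcop
    refine ⟨⟨ε ((u⁻¹ : (ZMod N)ˣ) : ZMod N), isIntegral_dirichlet N ε _⟩, hE0 _, ?_⟩
    rw [← map_mul]
    have h1 : δ * (⟨ε ((u⁻¹ : (ZMod N)ˣ) : ZMod N), isIntegral_dirichlet N ε _⟩ : Zc) = 1 := by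
      apply Subtype.ext
      show (δ : ℂ) * ε ((u⁻¹ : (ZMod N)ˣ) : ZMod N) = 1
      rw [hδ, ← ZMod.coe_unitOfCoprime p hcop, ← map_mul, ← Units.val_mul, mul_inv_cancel,
        Units.val_one, map_one]
    rw [h1, map_one]
  -- a Frobenius at `p` with `a p ∈ Y0` has both traces in `Yb`
  have hgood : ∀ p : ℕ, p.Prime → ¬ p ∣ S →
      ∀ A : ValuationSubring (AlgebraicClosure ℚ), A.LiesOverPrime p →
        ∀ σ : GQ, A.IsFrobeniusAt σ p → a p ∈ Y0 →
          ((r σ : GL (Fin 2) κ) : Matrix (Fin 2) (Fin 2) κ).trace ∈ Yb ∧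
          (((r σ)⁻¹ : GL (Fin 2) κ) : Matrix (Fin 2) (Fin 2) κ).trace ∈ Yb := by
    intro p hp hpS A hA σ hσ hap
    have hpN : ¬ p ∣ N := fun h => hpS (h.trans hNS)
    obtain ⟨t, δ, ht, hδ, htr, hdet⟩ := hfrob p hp hpS A hA σ hσ
    obtain ⟨δ', hδ'E, hδδ'⟩ := hinvε p hp hpN δ hδ
    refine ⟨?_, ?_⟩
    · rw [htr]
      exact hYb t (ht ▸ hY01 hap)
    · rw [trace_inv_GL2, htr, hdet, inv_eq_of_mul_eq_one_right hδδ', ← map_mul]
      apply hYb
      have h2 : ((t * δ' : Zc) : ℂ) = (t : ℂ) * (δ' : ℂ) := rfl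
      rw [h2, ht]
      exact hY0E _ hap _ hδ'E
  -- determinants lie in `Db` (Chebotarev, existence)
  have hdetD : ∀ g ∈ r.range, ((g : GL (Fin 2) κ) : Matrix (Fin 2) (Fin 2) κ).det ∈ Db := by
    intro g hg
    let g' : r.range := ⟨g, hg⟩
    let T : Set r.range := {h | ∃ x : r.range, h = x * g' * x⁻¹ ∨ h = x * g'⁻¹ * x⁻¹}
    have hTconj : ∀ x h : r.range, h ∈ T → x * h * x⁻¹ ∈ T := by
      rintro x h ⟨y, rfl | rfl⟩
      · exact ⟨x * y, Or.inl (by group)⟩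
      · exact ⟨x * y, Or.inr (by group)⟩
    have hTinv : ∀ h ∈ T, h⁻¹ ∈ T := by
      rintro h ⟨y, rfl | rfl⟩
      · exact ⟨y, Or.inr (by group)⟩
      · exact ⟨y, Or.inl (by group)⟩
    have hTne : T.Nonempty := ⟨g', 1, Or.inl (by group)⟩
    obtain ⟨p, hp, hpS, A, hA, σ, hσ, hσT⟩ :=
      exists_frobenius_of_chebDensity hCD r.range π hπsurj hπfl T hTconj hTinv hTne S hS
    have hpN : ¬ p ∣ N := fun h => hpS (h.trans hNS)
    obtain ⟨t, δ, ht, hδ, htr, hdet⟩ := hfrob p hp hpS A hA σ hσ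
    obtain ⟨δ', hδ'E, hδδ'⟩ := hinvε p hp hpN δ hδ
    have hdetu : ∀ x y : GL (Fin 2) κ,
        ((x * y * x⁻¹ : GL (Fin 2) κ) : Matrix (Fin 2) (Fin 2) κ).det =
          (y : Matrix (Fin 2) (Fin 2) κ).det := by
      intro x y
      rw [← Matrix.GeneralLinearGroup.val_det_apply, ← Matrix.GeneralLinearGroup.val_det_apply,
        map_mul, map_mul, map_inv, mul_comm (Matrix.GeneralLinearGroup.det x), mul_assoc,
        mul_inv_cancel, mul_one]
    obtain ⟨x, hx | hx⟩ := hσT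
    · have h1 : (r σ : GL (Fin 2) κ) = (x : GL (Fin 2) κ) * g * (x : GL (Fin 2) κ)⁻¹ :=
        congrArg Subtype.val hx
      rw [← hdetu (x : GL (Fin 2) κ) g, ← h1, hdet]
      exact hDb δ (hδ ▸ hE0 _)
    · have h1 : (r σ : GL (Fin 2) κ) = (x : GL (Fin 2) κ) * g⁻¹ * (x : GL (Fin 2) κ)⁻¹ :=
        congrArg Subtype.val hx
      have h2 : ((g⁻¹ : GL (Fin 2) κ) : Matrix (Fin 2) (Fin 2) κ).det = φ δ := by
        rw [← hdetu (x : GL (Fin 2) κ) g⁻¹, ← h1, hdet]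
      have h3 : (g : Matrix (Fin 2) (Fin 2) κ).det = φ δ' := by
        have h4 : (g : Matrix (Fin 2) (Fin 2) κ).det *
            ((g⁻¹ : GL (Fin 2) κ) : Matrix (Fin 2) (Fin 2) κ).det = 1 := by
          rw [← Matrix.det_mul, ← Units.val_mul, mul_inv_cancel, Units.val_one, Matrix.det_one]
        rw [h2] at h4
        calc (g : Matrix (Fin 2) (Fin 2) κ).det
            = (g : Matrix (Fin 2) (Fin 2) κ).det * (φ δ * φ δ') := by rw [hδδ', mul_one]
          _ = φ δ' := by rw [← mul_assoc, h4, one_mul]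
      rw [h3]
      exact hDb δ' hδ'E
  -- the set of bad traces is small
  have hbad : 8 * Nat.card {g : r.range //
      ((g.1 : GL (Fin 2) κ) : Matrix (Fin 2) (Fin 2) κ).trace ∉ Yb} ≤ Nat.card r.range := by
    by_contra hcon
    rw [not_le] at hcon
    let T : Set r.range := {g | ((g.1 : GL (Fin 2) κ) : Matrix (Fin 2) (Fin 2) κ).trace ∉ Yb ∨
      (((g.1)⁻¹ : GL (Fin 2) κ) : Matrix (Fin 2) (Fin 2) κ).trace ∉ Yb}
    have htrconj : ∀ x y : GL (Fin 2) κ,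
        ((x * y * x⁻¹ : GL (Fin 2) κ) : Matrix (Fin 2) (Fin 2) κ).trace =
          (y : Matrix (Fin 2) (Fin 2) κ).trace := by
      intro x y
      rw [Units.val_mul, Units.val_mul]
      exact Matrix.trace_units_conj x (y : Matrix (Fin 2) (Fin 2) κ)
    have hTconj : ∀ x h : r.range, h ∈ T → x * h * x⁻¹ ∈ T := by
      intro x h hh
      have e1 : ((x * h * x⁻¹ : r.range) : GL (Fin 2) κ) =
          (x : GL (Fin 2) κ) * h * (x : GL (Fin 2) κ)⁻¹ := rfl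
      have e2 : (((x * h * x⁻¹ : r.range) : GL (Fin 2) κ))⁻¹ =
          (x : GL (Fin 2) κ) * (h : GL (Fin 2) κ)⁻¹ * (x : GL (Fin 2) κ)⁻¹ := by
        rw [e1]; group
      rcases hh with hh | hh
      · left
        show ((((x * h * x⁻¹ : r.range) : GL (Fin 2) κ)) : Matrix (Fin 2) (Fin 2) κ).trace ∉ Yb
        rw [e1, htrconj]
        exact hh
      · right
        show (((((x * h * x⁻¹ : r.range) : GL (Fin 2) κ))⁻¹ : GL (Fin 2) κ) :
          Matrix (Fin 2) (Fin 2) κ).trace ∉ Yb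
        rw [e2, htrconj]
        exact hh
    have hTinv : ∀ h ∈ T, h⁻¹ ∈ T := by
      intro h hh
      rcases hh with hh | hh
      · right
        show ((((h⁻¹ : r.range) : GL (Fin 2) κ))⁻¹ : GL (Fin 2) κ).val.trace ∉ Yb
        have e3 : (((h⁻¹ : r.range) : GL (Fin 2) κ))⁻¹ = (h : GL (Fin 2) κ) := by
          rw [Subgroup.coe_inv, inv_inv]
        rw [e3]
        exact hh
      · left
        exact hh
    have hcardT : Nat.card {g : r.range //
        ((g.1 : GL (Fin 2) κ) : Matrix (Fin 2) (Fin 2) κ).trace ∉ Yb} ≤ Nat.card T := by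
      apply Nat.card_le_card_of_injective
        (fun g : {g : r.range //
          ((g.1 : GL (Fin 2) κ) : Matrix (Fin 2) (Fin 2) κ).trace ∉ Yb} =>
            (⟨g.1, Or.inl g.2⟩ : T))
      intro x y hxy
      exact Subtype.ext (congrArg (fun z : T => (z : r.range)) hxy)
    obtain ⟨C, hC⟩ := hCD r.range π hπsurj hπfl T hTconj hTinv S hS (1 / 16) (by norm_num)
    have hGpos : (0 : ℝ) < Nat.card r.range := by exact_mod_cast Nat.card_pos
    set d : ℝ := (Nat.card T : ℝ) / (Nat.card r.range : ℝ) with hd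
    have hd8 : 1 / 8 < d := by
      rw [hd, lt_div_iff₀ hGpos]
      have h5 : (Nat.card r.range : ℝ) < 8 * (Nat.card T : ℝ) := by
        have h6 := lt_of_lt_of_le hcon (Nat.mul_le_mul_left 8 hcardT)
        exact_mod_cast h6
      linarith
    apply false_of_log_bound (d - 1 / 8) (C + CFV) (by linarith)
    intro s hs1 hs2
    obtain ⟨P, hP, hle⟩ := hC s hs1 hs2
    have hP' : ∀ p ∈ P, p.Prime ∧ ¬ p ∣ N ∧ a p ∉ Y0 := by
      intro p hp
      obtain ⟨hpp, hpS, A, hA, σ, hσ, hσT⟩ := hP p hp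
      refine ⟨hpp, fun h => hpS (h.trans hNS), fun hap => ?_⟩
      obtain ⟨h1, h2⟩ := hgood p hpp hpS A hA σ hσ hap
      rcases hσT with h | h
      · exact h h1
      · exact h h2
    have h7 := hFVb P hP' s hs1 hs2
    linarith
  -- the bounded image statement
  have hcaseG : (∀ v : Fin 2 → κ, v ≠ 0 → ∃ g ∈ r.range, ∀ c : κ,
        (g : Matrix (Fin 2) (Fin 2) κ).mulVec v ≠ c • v) ∨
      (∀ g ∈ r.range, ∃ x y : κ, (g : Matrix (Fin 2) (Fin 2) κ) = Matrix.diagonal ![x, y]) := by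
    rcases hcase with h | h
    · left
      intro v hv
      obtain ⟨σ, hσ⟩ := h v hv
      exact ⟨r σ, ⟨σ, rfl⟩, hσ⟩
    · right
      rintro g ⟨σ, rfl⟩
      exact h σ
  have hmain := hBI κ r.range hcaseG Yb Db hdetD hbad
  calc Nat.card r.range ≤ 2 * Yb.card ^ 4 + 3 * Yb.card * Db.card := hmain
    _ ≤ 2 * Y1.card ^ 4 + 3 * Y1.card * E0.card := by gcongr

/-! ### (E1) `Stmt_BddLift` -/

/-- (E1) bounded image + lift to characteristic `0`, from the five inputs of the Spec. -/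
theorem stmt_BddLift (hFV : Stmt_FiniteValues) (hCD : Stmt_ChebDensity)
    (hBI : Stmt_BoundedImage) (hSS : Stmt_SemiSimp) (hL : Stmt_Lift) : Stmt_BddLift := by
  intro N _ ε a hint hrank
  classical
  obtain ⟨Y0, CFV, hY0int, hFVb⟩ := hFV N a hint hrank (1 / 16) (by norm_num)
  -- the values of `ε`
  let E0 : Finset ℂ := Finset.univ.image (fun x : ZMod N => ε x)
  have hE0 : ∀ x : ZMod N, ε x ∈ E0 := fun x =>
    Finset.mem_image.2 ⟨x, Finset.mem_univ _, rfl⟩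
  have hE0int : ∀ y ∈ E0, IsIntegral ℤ y := by
    intro y hy
    obtain ⟨x, -, rfl⟩ := Finset.mem_image.1 hy
    exact isIntegral_dirichlet N ε x
  let Y1 : Finset ℂ := Y0 ∪ (Y0 ×ˢ E0).image (fun q => q.1 * q.2)
  have hY01 : Y0 ⊆ Y1 := Finset.subset_union_left
  have hY0E : ∀ y ∈ Y0, ∀ e ∈ E0, y * e ∈ Y1 := fun y hy e he =>
    Finset.mem_union_right _ (Finset.mem_image.2 ⟨(y, e), Finset.mem_product.2 ⟨hy, he⟩, rfl⟩)
  have hY1int : ∀ y ∈ Y1, IsIntegral ℤ y := by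
    intro y hy
    rcases Finset.mem_union.1 hy with h | h
    · exact hY0int y h
    · obtain ⟨q, hq, rfl⟩ := Finset.mem_image.1 h
      obtain ⟨hq1, hq2⟩ := Finset.mem_product.1 hq
      exact (hY0int _ hq1).mul (hE0int _ hq2)
  refine ⟨2 * Y1.card ^ 4 + 3 * Y1.card * E0.card, ?_⟩
  intro B hNB hB ℓ hℓ hlt hres
  obtain ⟨𝔪, h𝔪max, hℓ𝔪⟩ := FLTPrelim.exists_maximalIdeal_natCast_prime_mem hℓ
  haveI := h𝔪max
  letI : Field (Zc ⧸ 𝔪) := Ideal.Quotient.field 𝔪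
  haveI : CharP (Zc ⧸ 𝔪) ℓ := charP_quot 𝔪 ℓ hℓ hℓ𝔪
  haveI : IsAlgClosed (Zc ⧸ 𝔪) := isAlgClosed_quot 𝔪
  obtain ⟨ρ, hρ⟩ := hres (Zc ⧸ 𝔪) (Ideal.Quotient.mk 𝔪)
  obtain ⟨r, hcharpoly, hker, hcase⟩ := hSS (Zc ⧸ 𝔪) ρ
  have hfl : GaloisFactorsThroughFiniteLevel r := by
    obtain ⟨L, hL, h1⟩ := ρ.factorsThroughFiniteLevel
    exact ⟨L, hL, fun σ hσ => hker σ (h1 σ hσ)⟩
  have hS : B * ℓ ≠ 0 := mul_ne_zero hB hℓ.ne_zero
  have hfrob : ∀ p : ℕ, p.Prime → ¬ p ∣ B * ℓ →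
      ∀ A : ValuationSubring (AlgebraicClosure ℚ), A.LiesOverPrime p →
        ∀ σ : GQ, A.IsFrobeniusAt σ p →
          ∃ t δ : Zc, (t : ℂ) = a p ∧ (δ : ℂ) = ε (p : ZMod N) ∧
            ((r σ : GL (Fin 2) (Zc ⧸ 𝔪)) : Matrix (Fin 2) (Fin 2) (Zc ⧸ 𝔪)).trace =
              Ideal.Quotient.mk 𝔪 t ∧
            ((r σ : GL (Fin 2) (Zc ⧸ 𝔪)) : Matrix (Fin 2) (Fin 2) (Zc ⧸ 𝔪)).det =
              Ideal.Quotient.mk 𝔪 δ := by
    intro p hp hpS A hA σ hσ
    obtain ⟨t, δ, ht, hδ, hcp⟩ := (hρ p hp hpS).2 A hA σ hσ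
    obtain ⟨h1, h2⟩ := trace_det_of_charpoly _ _ _ ((hcharpoly σ).trans hcp)
    exact ⟨t, δ, ht, hδ, h1, h2⟩
  obtain ⟨hfin, hcard⟩ := card_range_le hCD hBI (Zc ⧸ 𝔪) (Ideal.Quotient.mk 𝔪) N ε a Y0 CFV
    hFVb E0 hE0 hE0int Y1 hY1int hY01 hY0E (B * ℓ) hS (hNB.mul_right ℓ) r hfl hcase hfrob
  haveI := hfin
  have hcardne : ((Nat.card r.range : ℕ) : Zc ⧸ 𝔪) ≠ 0 := by
    rw [Ne, CharP.cast_eq_zero_iff (Zc ⧸ 𝔪) ℓ]
    intro hdvd
    have h1 := Nat.le_of_dvd Nat.card_pos hdvd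
    omega
  obtain ⟨r', -, hr'⟩ := hL 𝔪 r.range hcardne
  have hsub : Set.range (r'.comp r.rangeRestrict) ⊆ Set.range r' := by
    rintro _ ⟨σ, rfl⟩
    exact ⟨_, rfl⟩
  refine ⟨𝔪, h𝔪max, hℓ𝔪, r'.comp r.rangeRestrict, ?_, ?_, ?_, ?_⟩
  · obtain ⟨L, hL, h1⟩ := hfl
    refine ⟨L, hL, fun σ hσ => ?_⟩
    have h2 : r.rangeRestrict σ = 1 := Subtype.ext (h1 σ hσ)
    rw [MonoidHom.comp_apply, h2, map_one]
  · exact (Set.finite_range r').subset hsub
  · calc (Set.range (r'.comp r.rangeRestrict)).ncard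
        ≤ (Set.range r').ncard := Set.ncard_le_ncard hsub (Set.finite_range r')
      _ = Nat.card (Set.range r') := (Nat.card_coe_set_eq _).symm
      _ ≤ Nat.card r.range := Finite.card_range_le r'
      _ ≤ 2 * Y1.card ^ 4 + 3 * Y1.card * E0.card := hcard
  · intro p hp hpS A hA
    refine ⟨fun σ hσ => ?_, fun σ hσ => ?_⟩
    · have h1 : ρ.ρ σ = 1 := (hρ p hp hpS).1 A hA σ hσ
      have h2 : r.rangeRestrict σ = 1 := Subtype.ext (hker σ h1)
      rw [MonoidHom.comp_apply, h2, map_one]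
    · obtain ⟨t', δ', ht', hδ', htr, hdet⟩ := hfrob p hp hpS A hA σ hσ
      obtain ⟨t, δ, ht, hδ, hmt, hmδ⟩ := hr' (r.rangeRestrict σ)
      refine ⟨t, δ, t', δ', ht, hδ, ht', hδ', ?_, ?_⟩
      · rw [← Ideal.Quotient.eq, hmt]
        exact htr
      · rw [← Ideal.Quotient.eq, hmδ]
        exact hdet

end Fermat.Agent.S48.helper7647
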