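/-
S48, machine half (M1): the abstract tower step, generic core (helper7829).

Three generic lemmas, independent of modular objects, used by `helper7829_TowerA` to prove
`helper8782.Stmt_TowerA`:

* `exists_sum_pow_of_mem_adjoin` : elements of `E0(y)` are `E0`-combinations of
  `1, y, …, y^(d-1)` when `y` is a root of a monic polynomial of degree `d` over `E0`;
* `isOrtho_tower`, `span_tower`, `resTranscendental_algebraMap` : an orthonormal spanning family
  of `F0 / L(x0)` and the unit form for the powers of `y` over `F0` give an orthonormal spanning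
  family of `F / L(x0)`;
* `residue_tower` : finiteness, separability and degree bound for `K1 = K0(ȳ)` over `k(t0)`.
-/
import Mathlib
import Fermat.Agent.S18.helper1733_ValuedKit
import Fermat.Agent.S18.helper8991_GaussInst

set_option autoImplicit false

noncomputable section

namespace Fermat.Agent.S48.helper7829

open Polynomial IntermediateField
open Fermat.Agent.S18

/-! ## Elements of `E0(y)` -/

section Decomp

variable {L K : Type*} [Field L] [Field K] [Algebra L K]

/-- Elements of `L(E0, y)` are `E0`-combinations of `1, y, …, y^(d-1)` when `y` is a root of a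
monic polynomial `P0` of degree `d` over the intermediate field `E0`. -/
theorem exists_sum_pow_of_mem_adjoin (E0 : IntermediateField L K) (y : K) (P0 : (↥E0)[X])
    (hP0 : P0.Monic) (hy : aeval y P0 = 0) {d : ℕ} (hd : P0.natDegree = d) {f : K}
    (hf : f ∈ IntermediateField.adjoin L ((E0 : Set K) ∪ {y})) :
    ∃ a : Fin d → ↥E0, f = ∑ i, (a i : K) * y ^ (i : ℕ) := by
  classical
  subst hd
  have hint : IsIntegral ↥E0 y := ⟨P0, hP0, hy⟩
  have hle : IntermediateField.adjoin L ((E0 : Set K) ∪ {y}) ≤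
      (IntermediateField.adjoin ↥E0 ({y} : Set K)).restrictScalars L := by
    rw [IntermediateField.adjoin_le_iff]
    rintro z (hz | hz)
    · exact (IntermediateField.adjoin ↥E0 ({y} : Set K)).algebraMap_mem ⟨z, hz⟩
    · rw [Set.mem_singleton_iff] at hz
      rw [hz]
      exact IntermediateField.mem_adjoin_simple_self ↥E0 y
  have hf' : f ∈ (IntermediateField.adjoin ↥E0 ({y} : Set K)).toSubalgebra := hle hf
  rw [IntermediateField.adjoin_simple_toSubalgebra_of_isAlgebraic hint.isAlgebraic,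
    Algebra.adjoin_singleton_eq_range_aeval] at hf'
  obtain ⟨Q, rfl⟩ := hf'
  have hP1 : P0 ≠ 1 := by
    rintro rfl
    simp at hy
  have hdeg : (Q %ₘ P0).natDegree < P0.natDegree := Polynomial.natDegree_modByMonic_lt Q hP0 hP1
  have hQ : aeval y Q = aeval y (Q %ₘ P0) := by
    conv_lhs => rw [← Polynomial.modByMonic_add_div Q P0]
    rw [map_add, map_mul, hy, zero_mul, add_zero]
  refine ⟨fun i => (Q %ₘ P0).coeff i, ?_⟩
  show aeval y Q = _
  rw [hQ, Polynomial.aeval_eq_sum_range' hdeg, Finset.sum_range]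
  refine Finset.sum_congr rfl fun i _ => ?_
  rw [Algebra.smul_def]
  rfl

end Decomp

/-! ## The valuation side of the tower -/

section ValTower

variable {L F0 F : Type*} [Field L] [Field F0] [Field F] [Algebra L F0] [Algebra L F]
  [Algebra F0 F] [IsScalarTower L F0 F]
  {O0 : ValuationSubring F0} {O : ValuationSubring F}

theorem val_le_one_iff (hO : ∀ z : F0, algebraMap F0 F z ∈ O ↔ z ∈ O0) (z : F0) :
    O.valuation (algebraMap F0 F z) ≤ 1 ↔ O0.valuation z ≤ 1 := by
  rw [ValuationSubring.valuation_le_one_iff, ValuationSubring.valuation_le_one_iff, hO]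

theorem valuation_eq_one_iff_mem {K : Type*} [Field K] (B : ValuationSubring K) {w : K}
    (hw : w ≠ 0) : B.valuation w = 1 ↔ w ∈ B ∧ w⁻¹ ∈ B := by
  constructor
  · intro h
    refine ⟨(B.valuation_le_one_iff w).mp h.le, (B.valuation_le_one_iff _).mp ?_⟩
    rw [map_inv₀, h, inv_one]
  · rintro ⟨h1, h2⟩
    have h1' := (B.valuation_le_one_iff w).mpr h1
    have h2' := (B.valuation_le_one_iff _).mpr h2
    rw [map_inv₀] at h2'
    have h0 : B.valuation w ≠ 0 := (_root_.map_ne_zero _).mpr hw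
    exact le_antisymm h1' ((inv_le_one₀ (zero_lt_iff.mpr h0)).mp h2')

theorem val_eq_one_iff (hO : ∀ z : F0, algebraMap F0 F z ∈ O ↔ z ∈ O0) (z : F0) :
    O.valuation (algebraMap F0 F z) = 1 ↔ O0.valuation z = 1 := by
  by_cases hz : z = 0
  · subst hz
    simp
  · have hz' : algebraMap F0 F z ≠ 0 := (_root_.map_ne_zero _).mpr hz
    rw [valuation_eq_one_iff_mem O hz', valuation_eq_one_iff_mem O0 hz, ← map_inv₀, hO, hO]

/-- Residual transcendence passes to the upper field. -/
theorem resTranscendental_algebraMap (hO : ∀ z : F0, algebraMap F0 F z ∈ O ↔ z ∈ O0) {x0 : F0}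
    (h : helper1733.ResTranscendental O0.valuation L x0) :
    helper1733.ResTranscendental O.valuation L (algebraMap F0 F x0) := by
  intro p hp1 hp2
  have e1 : ∀ c : L, algebraMap L F c = algebraMap F0 F (algebraMap L F0 c) := fun c =>
    IsScalarTower.algebraMap_apply L F0 F c
  rw [Polynomial.aeval_algebraMap_apply, val_eq_one_iff hO]
  refine h p (fun i => ?_) ?_
  · have := hp1 i
    rwa [e1, val_le_one_iff hO] at this
  · obtain ⟨i, hi⟩ := hp2
    exact ⟨i, by rwa [e1, val_eq_one_iff hO] at hi⟩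

theorem adjoin_simple_map (x0 : F0) :
    (L⟮x0⟯).map (IsScalarTower.toAlgHom L F0 F) = L⟮algebraMap F0 F x0⟯ := by
  rw [IntermediateField.adjoin_map, Set.image_singleton]
  rfl

/-- **Orthonormality in the tower.** -/
theorem isOrtho_tower (hO : ∀ z : F0, algebraMap F0 F z ∈ O ↔ z ∈ O0) (x0 : F0)
    {n d : ℕ} {b0 : Fin n → F0}
    (hb0 : helper1733.IsOrtho O0.valuation L⟮x0⟯ b0) (y : F)
    (hU : ∀ a : Fin d → F0, (∀ i, O0.valuation (a i) ≤ 1) → (∃ i, O0.valuation (a i) = 1) →
      O.valuation (∑ i, algebraMap F0 F (a i) * y ^ (i : ℕ)) = 1) :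
    helper1733.IsOrtho O.valuation L⟮algebraMap F0 F x0⟯
      (fun p : Fin n × Fin d => algebraMap F0 F (b0 p.1) * y ^ (p.2 : ℕ)) := by
  classical
  have hmap : ∀ c : L⟮algebraMap F0 F x0⟯, ∃ c0 : L⟮x0⟯, algebraMap F0 F (c0 : F0) = (c : F) := by
    intro c
    have h2 : (c : F) ∈ (L⟮x0⟯).map (IsScalarTower.toAlgHom L F0 F) := by
      rw [adjoin_simple_map]
      exact c.2
    obtain ⟨c0, hc0, hc0'⟩ := h2
    exact ⟨⟨c0, hc0⟩, hc0'⟩
  choose c0 hc0 using hmap
  refine helper1733.isOrtho_of_unitForm fun s c hc hk => ?_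
  obtain ⟨k, hk, hk1⟩ := hk
  let a : Fin d → F0 := fun i => ∑ j : Fin n, (if (j, i) ∈ s then c0 (c (j, i)) else 0) • b0 j
  have hsum : ∑ p ∈ s, c p • (algebraMap F0 F (b0 p.1) * y ^ (p.2 : ℕ)) =
      ∑ i, algebraMap F0 F (a i) * y ^ (i : ℕ) := by
    have h1 : ∑ p ∈ s, c p • (algebraMap F0 F (b0 p.1) * y ^ (p.2 : ℕ)) =
        ∑ p : Fin n × Fin d,
          (if p ∈ s then c p • (algebraMap F0 F (b0 p.1) * y ^ (p.2 : ℕ)) else 0) := by
      rw [Finset.sum_ite_mem, Finset.univ_inter]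
    rw [h1, Fintype.sum_prod_type, Finset.sum_comm]
    refine Finset.sum_congr rfl fun i _ => ?_
    simp only [a]
    rw [map_sum, Finset.sum_mul]
    refine Finset.sum_congr rfl fun j _ => ?_
    split_ifs with hji
    · rw [Algebra.smul_def, Algebra.smul_def, map_mul, mul_assoc]
      congr 1
      exact (hc0 (c (j, i))).symm
    · rw [zero_smul, map_zero, zero_mul]
  rw [hsum]
  refine hU a (fun i => ?_) ⟨k.2, ?_⟩
  · refine hb0.sum_le Finset.univ _ (fun j _ => ?_)
    split_ifs with hji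
    · have h3 := hc (j, i) hji
      have h4 : algebraMap (↥L⟮algebraMap F0 F x0⟯) F (c (j, i)) =
          algebraMap F0 F (c0 (c (j, i)) : F0) := (hc0 (c (j, i))).symm
      rw [h4, val_le_one_iff hO] at h3
      exact h3
    · rw [map_zero, map_zero]
      exact zero_le_one
  · refine hb0.map_sum_eq_one Finset.univ _ (fun j _ => ?_) (Finset.mem_univ k.1) ?_
    · split_ifs with hji
      · have h3 := hc (j, k.2) hji
        have h4 : algebraMap (↥L⟮algebraMap F0 F x0⟯) F (c (j, k.2)) =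
            algebraMap F0 F (c0 (c (j, k.2)) : F0) := (hc0 (c (j, k.2))).symm
        rw [h4, val_le_one_iff hO] at h3
        exact h3
      · rw [map_zero, map_zero]
        exact zero_le_one
    · rw [if_pos (show (k.1, k.2) ∈ s from hk)]
      have h4 : algebraMap (↥L⟮algebraMap F0 F x0⟯) F (c k) =
          algebraMap F0 F (c0 (c k) : F0) := (hc0 (c k)).symm
      rw [h4, val_eq_one_iff hO] at hk1
      exact hk1

/-- **Spanning in the tower.** -/
theorem span_tower (x0 : F0) {n d : ℕ} {b0 : Fin n → F0}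
    (hspan0 : Submodule.span L⟮x0⟯ (Set.range b0) = ⊤) (y : F)
    (hgen : ∀ f : F, ∃ a : Fin d → F0, f = ∑ i, algebraMap F0 F (a i) * y ^ (i : ℕ)) :
    Submodule.span L⟮algebraMap F0 F x0⟯
      (Set.range (fun p : Fin n × Fin d => algebraMap F0 F (b0 p.1) * y ^ (p.2 : ℕ))) = ⊤ := by
  rw [eq_top_iff]
  intro f _
  obtain ⟨a, rfl⟩ := hgen f
  refine Submodule.sum_mem _ fun i _ => ?_
  have hai : a i ∈ Submodule.span L⟮x0⟯ (Set.range b0) := by
    rw [hspan0]
    trivial
  obtain ⟨cc, hcc⟩ := (Submodule.mem_span_range_iff_exists_fun _).mp hai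
  rw [← hcc, map_sum, Finset.sum_mul]
  refine Submodule.sum_mem _ fun j _ => ?_
  have hmem : algebraMap F0 F (cc j : F0) ∈ L⟮algebraMap F0 F x0⟯ := by
    rw [← adjoin_simple_map]
    exact ⟨(cc j : F0), (cc j).2, rfl⟩
  have h1 : algebraMap F0 F (cc j • b0 j) * y ^ (i : ℕ) =
      (⟨algebraMap F0 F (cc j : F0), hmem⟩ : L⟮algebraMap F0 F x0⟯) •
        (algebraMap F0 F (b0 j) * y ^ (i : ℕ)) := by
    rw [Algebra.smul_def, Algebra.smul_def, map_mul, mul_assoc]
    rfl
  rw [h1]
  exact Submodule.smul_mem _ _ (Submodule.subset_span ⟨(j, i), rfl⟩)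

end ValTower

/-- Reindexing an orthonormal family along an equivalence. -/
theorem isOrtho_comp_equiv {F : Type*} [Field F] {Γ₀ : Type*} [LinearOrderedCommGroupWithZero Γ₀]
    {v : Valuation F Γ₀} {M : Type*} [Field M] [Algebra M F] {ι ι' : Type*} {u : ι → F}
    (h : helper1733.IsOrtho v M u) (e : ι' ≃ ι) : helper1733.IsOrtho v M (u ∘ e) := by
  classical
  refine ⟨fun k => h.1 (e k), fun s c k hk => ?_⟩
  have h1 := h.2 (s.map e.toEmbedding) (c ∘ e.symm) (e k) (Finset.mem_map_of_mem _ hk)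
  simpa [Finset.sum_map] using h1


section ResTower

variable {k K0 K1 : Type*} [Field k] [Field K0] [Field K1] [Algebra k K0] [Algebra k K1]
  [Algebra K0 K1] [IsScalarTower k K0 K1]

set_option maxHeartbeats 400000 in
theorem residue_tower (t0 : K0) [FiniteDimensional k⟮t0⟯ K0] [Algebra.IsSeparable k⟮t0⟯ K0]
    (ybar : K1) (d : ℕ) (hsep : IsSeparable K0 ybar)
    (hgen : ∀ z : K1, ∃ b : Fin d → K0, z = ∑ i, algebraMap K0 K1 (b i) * ybar ^ (i : ℕ)) :
    FiniteDimensional k⟮algebraMap K0 K1 t0⟯ K1 ∧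
      Algebra.IsSeparable k⟮algebraMap K0 K1 t0⟯ K1 ∧
      Module.finrank k⟮algebraMap K0 K1 t0⟯ K1 ≤ d * Module.finrank k⟮t0⟯ K0 := by
  classical
  have hspan : Submodule.span K0 (Set.range (fun i : Fin d => ybar ^ (i : ℕ))) = ⊤ := by
    rw [eq_top_iff]
    intro z _
    obtain ⟨b, rfl⟩ := hgen z
    refine Submodule.sum_mem _ fun i _ => ?_
    rw [← Algebra.smul_def]
    exact Submodule.smul_mem _ _ (Submodule.subset_span ⟨i, rfl⟩)
  have hfin01 : Module.Finite K0 K1 :=
    ⟨by rw [← hspan]; exact Submodule.fg_span (Set.finite_range _)⟩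
  have hrank01 : Module.finrank K0 K1 ≤ d := by
    have h1 := finrank_range_le_card (R := K0) (fun i : Fin d => ybar ^ (i : ℕ))
    rw [Set.finrank, hspan, finrank_top, Fintype.card_fin] at h1
    exact h1
  have hsep01 : Algebra.IsSeparable K0 K1 := by
    refine ⟨fun z => ?_⟩
    rw [← mem_separableClosure_iff]
    obtain ⟨b, rfl⟩ := hgen z
    have hy : ybar ∈ separableClosure K0 K1 := mem_separableClosure_iff.mpr hsep
    have hb : ∀ i, algebraMap K0 K1 (b i) ∈ separableClosure K0 K1 := fun i =>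
      IntermediateField.algebraMap_mem _ (b i)
    exact sum_mem fun i _ => mul_mem (hb i) (pow_mem hy _)
  have hF : Module.Finite k⟮t0⟯ K1 := Module.Finite.trans K0 K1
  have hS : Algebra.IsSeparable k⟮t0⟯ K1 := Algebra.IsSeparable.trans k⟮t0⟯ K0 K1
  have hmul : Module.finrank k⟮t0⟯ K0 * Module.finrank K0 K1 = Module.finrank k⟮t0⟯ K1 :=
    Module.finrank_mul_finrank k⟮t0⟯ K0 K1
  let e : ↥k⟮t0⟯ ≃+* ↥k⟮algebraMap K0 K1 t0⟯ :=
    ((k⟮t0⟯).equivMap (IsScalarTower.toAlgHom k K0 K1)).toRingEquiv.trans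
      (IntermediateField.equivOfEq (adjoin_simple_map (L := k) (F := K1) t0)).toRingEquiv
  have he : (algebraMap ↥k⟮algebraMap K0 K1 t0⟯ K1).comp (e : ↥k⟮t0⟯ →+* ↥k⟮algebraMap K0 K1 t0⟯) =
      ((RingEquiv.refl K1 : K1 ≃+* K1) : K1 →+* K1).comp (algebraMap ↥k⟮t0⟯ K1) := by
    ext c
    rfl
  refine ⟨Module.Finite.of_equiv_equiv e (RingEquiv.refl K1) he,
    Algebra.IsSeparable.of_equiv_equiv e (RingEquiv.refl K1) he, ?_⟩
  rw [← Algebra.finrank_eq_of_equiv_equiv e (RingEquiv.refl K1) he, ← hmul, mul_comm]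
  exact Nat.mul_le_mul_right _ hrank01

end ResTower


/-! ## Independence of the powers of a root of an irreducible polynomial -/

/-- If `y` is a root of the irreducible monic polynomial `Q` of degree `d`, a combination of
`1, y, …, y^(d-1)` vanishes only if all its coefficients vanish. -/
theorem coeff_eq_zero_of_sum_pow_eq_zero {K0 K : Type*} [Field K0] [Field K] [Algebra K0 K]
    {Q : K0[X]} (hirr : Irreducible Q) (hmon : Q.Monic) {y : K} (hroot : aeval y Q = 0)
    {d : ℕ} (hd : Q.natDegree = d) (b : Fin d → K0)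
    (h : ∑ i, algebraMap K0 K (b i) * y ^ (i : ℕ) = 0) : ∀ i, b i = 0 := by
  classical
  have hmin : Q = minpoly K0 y := minpoly.eq_of_irreducible_of_monic hirr hroot hmon
  set R : K0[X] := ∑ i : Fin d, Polynomial.C (b i) * Polynomial.X ^ (i : ℕ) with hR
  have hRy : aeval y R = 0 := by
    rw [hR, map_sum, ← h]
    refine Finset.sum_congr rfl fun i _ => ?_
    rw [map_mul, aeval_C, map_pow, aeval_X]
  have hcoeff : ∀ i : Fin d, R.coeff i = b i := by
    intro i
    rw [hR, Polynomial.finsetSum_coeff]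
    simp only [Polynomial.coeff_C_mul_X_pow]
    rw [Finset.sum_eq_single i]
    · simp
    · intro j _ hji
      rw [if_neg]
      intro h'
      exact hji (Fin.ext h'.symm)
    · intro hi
      exact absurd (Finset.mem_univ i) hi
  have hdegR : R.degree < Q.degree := by
    rw [Polynomial.degree_eq_natDegree hmon.ne_zero, hd, hR]
    refine (Polynomial.degree_sum_le _ _).trans_lt ?_
    rw [Finset.sup_lt_iff (WithBot.bot_lt_coe _)]
    intro i _
    refine (Polynomial.degree_C_mul_X_pow_le _ _).trans_lt ?_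
    exact_mod_cast i.2
  have hR0 : R = 0 := by
    by_contra hne
    have h1 := minpoly.degree_le_of_ne_zero K0 y hne hRy
    rw [← hmin] at h1
    exact absurd h1 (not_le.mpr hdegR)
  intro i
  rw [← hcoeff i, hR0, Polynomial.coeff_zero]

/-! ## Series level: sums of powers of an integral series over a `q`-Gauss field -/

section Series

open Fermat.Agent.S18.helper8991

variable {L : Type*} [Field L] (A : ValuationSubring L) {k : Type*} [Field k] (π : A →+* k)
  (E0 : IntermediateField L (LaurentSeries L))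
  (hE0 : ∀ f : LaurentSeries L, f ∈ E0 → f ≠ 0 → IsNormalizable A π f)

/-- The Gauss valuation subring of `E0`, inside the big Gauss ring. -/
def toGaussRing : ↥(gaussSubring A π E0 hE0) →+* ↥(gaussRing A π) where
  toFun f := ⟨((f : E0) : LaurentSeries L), f.2⟩
  map_one' := rfl
  map_mul' _ _ := rfl
  map_zero' := rfl
  map_add' _ _ := rfl

theorem gaussRho_toGaussRing (f : ↥(gaussSubring A π E0 hE0)) :
    gaussRho A π (toGaussRing A π E0 hE0 f) = gaussRed A π E0 hE0 f := rfl

variable (Y : LaurentSeries A) {d : ℕ}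

theorem sum_mem_gaussRing (b : Fin d → ↥(gaussSubring A π E0 hE0)) :
    (∑ i, (((b i : ↥(gaussSubring A π E0 hE0)) : E0) : LaurentSeries L) * inc A Y ^ (i : ℕ)) ∈
      gaussRing A π :=
  Subring.sum_mem _ fun i _ =>
    Subring.mul_mem _ (b i).2 (Subring.pow_mem _ (inc_mem_gaussRing A π Y) _)

theorem gaussRho_sum (b : Fin d → ↥(gaussSubring A π E0 hE0)) :
    gaussRho A π ⟨_, sum_mem_gaussRing A π E0 hE0 Y b⟩ =
      ∑ i, gaussRed A π E0 hE0 (b i) * red A π Y ^ (i : ℕ) := by
  have h1 : (⟨_, sum_mem_gaussRing A π E0 hE0 Y b⟩ : ↥(gaussRing A π)) =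
      ∑ i, toGaussRing A π E0 hE0 (b i) *
        (⟨inc A Y, inc_mem_gaussRing A π Y⟩ : ↥(gaussRing A π)) ^ (i : ℕ) := by
    apply Subtype.ext
    rw [AddSubmonoidClass.coe_finsetSum]
    rfl
  rw [h1, map_sum]
  refine Finset.sum_congr rfl fun i _ => ?_
  rw [map_mul, map_pow, gaussRho_inc]
  rfl

/-- A sum of powers of `ι Y` with coefficients in the Gauss valuation subring, one of them with
nonzero reduction, lies in the Gauss ring and has nonzero reduction (when the powers of the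
reduction of `Y` are independent over the reductions). -/
theorem exists_gaussRho_ne_zero
    (hindep : ∀ b : Fin d → ↥(gaussSubring A π E0 hE0), (∃ i, gaussRed A π E0 hE0 (b i) ≠ 0) →
      ∑ i, gaussRed A π E0 hE0 (b i) * red A π Y ^ (i : ℕ) ≠ 0)
    (b : Fin d → ↥(gaussSubring A π E0 hE0)) (hb : ∃ i, gaussRed A π E0 hE0 (b i) ≠ 0)
    (f : LaurentSeries L)
    (hf : f = ∑ i, (((b i : ↥(gaussSubring A π E0 hE0)) : E0) : LaurentSeries L) *
      inc A Y ^ (i : ℕ)) :
    ∃ hmem : f ∈ gaussRing A π, gaussRho A π ⟨f, hmem⟩ ≠ 0 := by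
  subst hf
  refine ⟨sum_mem_gaussRing A π E0 hE0 Y b, ?_⟩
  rw [gaussRho_sum]
  exact hindep b hb

/-- The reduction of an integral root of `P` is a root of the reduction of `P`. -/
theorem aeval_red_map_eq_zero (E0k : IntermediateField k (LaurentSeries k))
    (ρ : ↥(gaussSubring A π E0 hE0) →+* ↥E0k)
    (hρ : ∀ f, ((ρ f : ↥E0k) : LaurentSeries k) = gaussRed A π E0 hE0 f)
    (P : (↥(gaussSubring A π E0 hE0))[X])
    (hP : Polynomial.eval₂ ((algebraMap ↥E0 (LaurentSeries L)).comp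
      (gaussSubring A π E0 hE0).subtype) (inc A Y) P = 0) :
    aeval (red A π Y) (P.map ρ) = 0 := by
  let yG : ↥(gaussRing A π) := ⟨inc A Y, inc_mem_gaussRing A π Y⟩
  have h1 : Polynomial.eval₂ (toGaussRing A π E0 hE0) yG P = 0 := by
    apply Subtype.ext
    have h := Polynomial.hom_eval₂ P (toGaussRing A π E0 hE0) (gaussRing A π).subtype yG
    exact h.trans hP
  have h2 := congrArg (gaussRho A π) h1
  rw [Polynomial.hom_eval₂, map_zero] at h2
  have h3 : (algebraMap ↥E0k (LaurentSeries k)).comp ρ =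
      (gaussRho A π).comp (toGaussRing A π E0 hE0) := RingHom.ext fun f => hρ f
  rw [Polynomial.aeval_def, Polynomial.eval₂_map, h3, ← gaussRho_inc A π Y]
  exact h2

/-- Normal form of a family of elements of `E0`, not all zero: a common constant times elements
of the Gauss valuation subring, one of them with nonzero reduction. -/
theorem exists_normal_form_family (a : Fin d → ↥E0) (hne : ∃ i, a i ≠ 0) :
    ∃ (c : L) (b : Fin d → ↥(gaussSubring A π E0 hE0)), c ≠ 0 ∧
      (∃ i, gaussRed A π E0 hE0 (b i) ≠ 0) ∧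
      ∀ i, a i = algebraMap L ↥E0 c * (b i : ↥E0) := by
  classical
  obtain ⟨i₁, hi₁⟩ := hne
  obtain ⟨i₀, -, hmax⟩ := Finset.exists_max_image Finset.univ
    (fun i => (gaussSubring A π E0 hE0).valuation (a i)) ⟨i₁, Finset.mem_univ i₁⟩
  have hv1 : (gaussSubring A π E0 hE0).valuation (a i₁) ≠ 0 := (_root_.map_ne_zero _).mpr hi₁
  have hv0 : (gaussSubring A π E0 hE0).valuation (a i₀) ≠ 0 := by
    intro h0
    have := hmax i₁ (Finset.mem_univ i₁)
    rw [h0] at this
    exact hv1 (le_antisymm this zero_le)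
  have ha0 : a i₀ ≠ 0 := (_root_.map_ne_zero _).mp hv0
  obtain ⟨c, u, hc, hu, hcu⟩ := exists_const_mul_unit A π E0 hE0 (a i₀) ha0
  have hc' : algebraMap L ↥E0 c ≠ 0 := (_root_.map_ne_zero _).mpr hc
  have hu0 : (u : ↥E0) ≠ 0 := by
    intro h0
    apply hu
    rw [show u = 0 from Subtype.ext h0, map_zero]
  have hmem : ∀ i, (algebraMap L ↥E0 c)⁻¹ * a i ∈ gaussSubring A π E0 hE0 := by
    intro i
    have h1 : (algebraMap L ↥E0 c)⁻¹ * a i = (a i * (a i₀)⁻¹) * (u : ↥E0) := by
      rw [hcu, mul_inv, mul_assoc (a i), mul_assoc, inv_mul_cancel₀ hu0, mul_one, mul_comm]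
    rw [h1]
    refine (gaussSubring A π E0 hE0).mul_mem _ _ ?_ u.2
    rw [← ValuationSubring.valuation_le_one_iff, map_mul, map_inv₀]
    exact mul_inv_le_one_of_le₀ (hmax i (Finset.mem_univ i)) zero_le
  refine ⟨c, fun i => ⟨_, hmem i⟩, hc, ⟨i₀, ?_⟩, fun i => ?_⟩
  · have h2 : (⟨_, hmem i₀⟩ : ↥(gaussSubring A π E0 hE0)) = u := by
      apply Subtype.ext
      show (algebraMap L ↥E0 c)⁻¹ * a i₀ = (u : ↥E0)
      rw [hcu, inv_mul_cancel_left₀ hc']
    change gaussRed A π E0 hE0 ⟨_, hmem i₀⟩ ≠ 0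
    rw [h2]
    exact hu
  · show a i = algebraMap L ↥E0 c * ((algebraMap L ↥E0 c)⁻¹ * a i)
    rw [mul_inv_cancel_left₀ hc']

/-- A sum of powers of `ι Y` with coefficients in `E0` is a constant times a sum with
coefficients in the Gauss valuation subring, one of them with nonzero reduction. -/
theorem exists_normal_form_sum (a : Fin d → ↥E0) (hne : ∃ i, a i ≠ 0) :
    ∃ (c : L) (b : Fin d → ↥(gaussSubring A π E0 hE0)), c ≠ 0 ∧
      (∃ i, gaussRed A π E0 hE0 (b i) ≠ 0) ∧
      ∑ i, ((a i : ↥E0) : LaurentSeries L) * inc A Y ^ (i : ℕ) =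
        HahnSeries.C c *
          ∑ i, (((b i : ↥(gaussSubring A π E0 hE0)) : E0) : LaurentSeries L) * inc A Y ^ (i : ℕ) := by
  obtain ⟨c, b, hc, hb, hab⟩ := exists_normal_form_family A π E0 hE0 a hne
  refine ⟨c, b, hc, hb, ?_⟩
  rw [Finset.mul_sum]
  refine Finset.sum_congr rfl fun i _ => ?_
  rw [hab i, helper8991.C_eq_algebraMap, ← mul_assoc]
  rfl

/-- Sums of powers of `ι Y` with coefficients in `E0` are normalisable, when the powers of the
reduction of `Y` are independent over the reductions. -/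
theorem isNormalizable_sum
    (hindep : ∀ b : Fin d → ↥(gaussSubring A π E0 hE0), (∃ i, gaussRed A π E0 hE0 (b i) ≠ 0) →
      ∑ i, gaussRed A π E0 hE0 (b i) * red A π Y ^ (i : ℕ) ≠ 0)
    (a : Fin d → ↥E0) (hf : ∑ i, ((a i : ↥E0) : LaurentSeries L) * inc A Y ^ (i : ℕ) ≠ 0) :
    IsNormalizable A π (∑ i, ((a i : ↥E0) : LaurentSeries L) * inc A Y ^ (i : ℕ)) := by
  have hne : ∃ i, a i ≠ 0 := by
    by_contra hcon
    push Not at hcon
    apply hf
    refine Finset.sum_eq_zero fun i _ => ?_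
    rw [hcon i]
    simp
  obtain ⟨c, b, hc, hb, hsum⟩ := exists_normal_form_sum A π E0 hE0 Y a hne
  have hg := sum_mem_gaussRing A π E0 hE0 Y b
  have hρg := gaussRho_sum A π E0 hE0 Y b
  obtain ⟨X, Y', hY', hXY⟩ := sum_mem_gaussRing A π E0 hE0 Y b
  have hX : red A π X ≠ 0 := by
    intro h0
    apply hindep b hb
    rw [← hρg, gaussRho_eq A π ⟨_, hg⟩ hY' hXY, h0, zero_div]
  refine ⟨c, X, Y', hc, hX, hY', ?_⟩
  rw [hsum, mul_assoc, hXY]

/-- The reduction of a sum of powers of `ι Y` lying in the Gauss ring. -/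
theorem exists_gaussRho_sum_eq (hπ0 : ∀ a : A, a ∈ IsLocalRing.maximalIdeal A → π a = 0)
    (hindep : ∀ b : Fin d → ↥(gaussSubring A π E0 hE0), (∃ i, gaussRed A π E0 hE0 (b i) ≠ 0) →
      ∑ i, gaussRed A π E0 hE0 (b i) * red A π Y ^ (i : ℕ) ≠ 0)
    (a : Fin d → ↥E0) (hne : ∃ i, a i ≠ 0)
    (hf : ∑ i, ((a i : ↥E0) : LaurentSeries L) * inc A Y ^ (i : ℕ) ∈ gaussRing A π) :
    ∃ (c : A) (b : Fin d → ↥(gaussSubring A π E0 hE0)),
      gaussRho A π ⟨_, hf⟩ =
        HahnSeries.C (π c) * ∑ i, gaussRed A π E0 hE0 (b i) * red A π Y ^ (i : ℕ) := by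
  obtain ⟨c, b, hc, hb, hsum⟩ := exists_normal_form_sum A π E0 hE0 Y a hne
  have hg := sum_mem_gaussRing A π E0 hE0 Y b
  have hρg := gaussRho_sum A π E0 hE0 Y b
  have hρg0 : gaussRho A π ⟨_, hg⟩ ≠ 0 := by
    rw [hρg]
    exact hindep b hb
  have hginv := inv_mem_gaussRing_of_gaussRho_ne_zero A π ⟨_, hg⟩ hρg0
  have hg0 : (∑ i, (((b i : ↥(gaussSubring A π E0 hE0)) : E0) : LaurentSeries L) *
      inc A Y ^ (i : ℕ)) ≠ 0 := by
    intro h0
    apply hρg0
    have : (⟨_, hg⟩ : ↥(gaussRing A π)) = 0 := Subtype.ext h0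
    rw [this, map_zero]
  have hCc : (HahnSeries.C c : LaurentSeries L) ∈ gaussRing A π := by
    have h1 : (HahnSeries.C c : LaurentSeries L) =
        (∑ i, ((a i : ↥E0) : LaurentSeries L) * inc A Y ^ (i : ℕ)) *
          (∑ i, (((b i : ↥(gaussSubring A π E0 hE0)) : E0) : LaurentSeries L) *
            inc A Y ^ (i : ℕ))⁻¹ := by
      rw [hsum, mul_assoc, mul_inv_cancel₀ hg0, mul_one]
    rw [h1]
    exact Subring.mul_mem _ hf hginv
  have hcA : c ∈ A := by
    refine (algebraMap_mem_gaussSubring_iff A π E0 hE0 hπ0 c).mp ?_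
    show ((algebraMap L ↥E0 c : ↥E0) : LaurentSeries L) ∈ gaussRing A π
    rw [helper8991.C_eq_algebraMap] at hCc
    exact hCc
  refine ⟨⟨c, hcA⟩, b, ?_⟩
  have h2 : (⟨_, hf⟩ : ↥(gaussRing A π)) =
      ⟨inc A (HahnSeries.C (⟨c, hcA⟩ : A)), inc_mem_gaussRing A π _⟩ * ⟨_, hg⟩ := by
    apply Subtype.ext
    show (∑ i, ((a i : ↥E0) : LaurentSeries L) * inc A Y ^ (i : ℕ)) =
      inc A (HahnSeries.C (⟨c, hcA⟩ : A)) *
        (∑ i, (((b i : ↥(gaussSubring A π E0 hE0)) : E0) : LaurentSeries L) * inc A Y ^ (i : ℕ))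
    rw [inc_C]
    exact hsum
  rw [h2, map_mul, gaussRho_inc, red_C, hρg]

end Series

end Fermat.Agent.S48.helper7829
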