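/-
S48, leaf F6 (bounded image), different design (helper7934): trace form + 2x2 Burnside.

For a finite subgroup `G` of `GL₂(k)`, a finite set `Y` of "allowed traces" and a finite set `E`
of "allowed determinants":

* `card_le_of_span_eq_top` : if `G` spans `M₂(k)`, then `#G ≤ #Y ^ 4 + 4 * #{g | tr g ∉ Y}`;
* `span_eq_top_of_irreducible` : (`k` algebraically closed) no `G`-stable line ⟹ `G` spans `M₂(k)`;
* `card_le_of_split` : two independent common eigenvectors ⟹
  `#G ≤ 2 * (#Y * #E) + #{g | ¬ (tr g ∈ Y ∧ det g ∈ E)}`;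
* `card_le_of_semisimple` : (`k` algebraically closed, every stable line has a stable complement,
  `det g ∈ E` on `G`, `5 * #{g | tr g ∉ Y} ≤ #G`) ⟹ `#G ≤ 5 * #Y ^ 4 + 3 * (#Y * #E)`;
* `card_le_of_semisimple_pow` : the same with `det g ^ d = 1` instead of `E`.

No hypothesis on the characteristic, no classification of subgroups of `PGL₂`.
-/
import Mathlib

set_option autoImplicit false

namespace Fermat.Agent.S48.helper7934

open Matrix

variable {k : Type*} [Field k]

/-! ### The trace form on `M₂(k)` -/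

/-- Every linear functional on `M₂(k)` is `m ↦ tr (x * m)`. -/
theorem exists_trace_repr (f : Matrix (Fin 2) (Fin 2) k →ₗ[k] k) :
    ∃ x : Matrix (Fin 2) (Fin 2) k, ∀ m, f m = (x * m).trace := by
  refine ⟨!![f (single 0 0 1), f (single 1 0 1); f (single 0 1 1), f (single 1 1 1)],
    fun m => ?_⟩
  have hm : m = m 0 0 • single 0 0 (1 : k) + m 0 1 • single 0 1 (1 : k)
      + m 1 0 • single 1 0 (1 : k) + m 1 1 • single 1 1 (1 : k) := by
    ext i j
    fin_cases i <;> fin_cases j <;> simp [single]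
  conv_lhs => rw [hm]
  simp only [map_add, map_smul, smul_eq_mul, Matrix.trace_fin_two, Matrix.mul_apply,
    Fin.sum_univ_two, Matrix.of_apply, Matrix.cons_val', Matrix.cons_val_zero,
    Matrix.cons_val_one, Matrix.cons_val_fin_one]
  ring

/-- The trace form is nondegenerate. -/
theorem eq_zero_of_trace_mul_eq_zero (x : Matrix (Fin 2) (Fin 2) k)
    (h : ∀ m : Matrix (Fin 2) (Fin 2) k, (m * x).trace = 0) : x = 0 := by
  ext i j
  have h1 := h (single j i 1)
  fin_cases i <;> fin_cases j <;>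
    simpa [Matrix.trace_fin_two, Matrix.mul_apply, Fin.sum_univ_two, single] using h1

/-! ### (B1) The spanning case -/

/-- The set of matrices of a subgroup of `GL₂(k)`. -/
def matSet (G : Subgroup (GL (Fin 2) k)) : Set (Matrix (Fin 2) (Fin 2) k) :=
  {m | ∃ g ∈ G, (g : Matrix (Fin 2) (Fin 2) k) = m}

/-- If `G` spans `M₂(k)` there are four elements of `G` which separate matrices through the
trace form. -/
theorem exists_four (G : Subgroup (GL (Fin 2) k))
    (hspan : Submodule.span k (matSet G) = ⊤) :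
    ∃ g : Fin 4 → G, ∀ x : Matrix (Fin 2) (Fin 2) k,
      (∀ i, (((g i : GL (Fin 2) k) : Matrix (Fin 2) (Fin 2) k) * x).trace = 0) → x = 0 := by
  classical
  obtain ⟨b, hbS, hbspan, hbli⟩ := exists_linearIndependent k (matSet G)
  have hb_top : Submodule.span k b = ⊤ := by rw [hbspan, hspan]
  let B : Module.Basis ↥b k (Matrix (Fin 2) (Fin 2) k) :=
    Module.Basis.mk hbli (by rw [Subtype.range_coe]; exact hb_top.ge)
  have : Fintype ↥b := FiniteDimensional.fintypeBasisIndex B
  have hcard : Fintype.card ↥b = 4 := by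
    rw [← Module.finrank_eq_card_basis B, Module.finrank_matrix]
    simp
  let e : Fin 4 ≃ ↥b := (Fintype.equivFinOfCardEq hcard).symm
  have hmem : ∀ i : Fin 4, ∃ g : G, ((g : GL (Fin 2) k) : Matrix (Fin 2) (Fin 2) k) = (e i : _) := by
    intro i
    obtain ⟨g, hg, hgm⟩ := hbS (e i).2
    exact ⟨⟨g, hg⟩, hgm⟩
  choose g hg using hmem
  refine ⟨g, fun x hx => ?_⟩
  apply eq_zero_of_trace_mul_eq_zero
  intro m
  let φ : Matrix (Fin 2) (Fin 2) k →ₗ[k] k :=
    (Matrix.traceLinearMap (Fin 2) k k).comp (LinearMap.mulRight k x)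
  have hφ : ∀ m, φ m = (m * x).trace := fun m => rfl
  have hzero : φ = 0 := by
    apply LinearMap.ext_on hb_top
    intro m hm
    obtain ⟨i, hi⟩ := e.surjective ⟨m, hm⟩
    have h1 := hx i
    rw [hg i, hi] at h1
    simpa [hφ] using h1
  rw [← hφ, hzero]
  rfl

/-- **(B1)** If `G` spans `M₂(k)`, then `#G ≤ #Y ^ 4 + 4 * #{g | tr g ∉ Y}`. -/
theorem card_le_of_span_eq_top (G : Subgroup (GL (Fin 2) k)) [Finite G]
    (hspan : Submodule.span k (matSet G) = ⊤) (Y : Finset k) :
    Nat.card G ≤ Y.card ^ 4 + 4 * Nat.card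
      {g : G // ((g : GL (Fin 2) k) : Matrix (Fin 2) (Fin 2) k).trace ∉ Y} := by
  classical
  have := Fintype.ofFinite G
  obtain ⟨g, hg⟩ := exists_four G hspan
  let tr : G → k := fun h => ((h : GL (Fin 2) k) : Matrix (Fin 2) (Fin 2) k).trace
  let Bad : Finset G := Finset.univ.filter (fun h => tr h ∉ Y)
  let A : Finset G := Finset.univ.filter (fun h => ∀ i, tr (g i * h) ∈ Y)
  let Bi : Fin 4 → Finset G := fun i => Finset.univ.filter (fun h => tr (g i * h) ∉ Y)
  have hcover : (Finset.univ : Finset G) ⊆ A ∪ Finset.univ.biUnion Bi := by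
    intro h _
    by_cases hh : ∀ i, tr (g i * h) ∈ Y
    · exact Finset.mem_union_left _ (Finset.mem_filter.mpr ⟨Finset.mem_univ _, hh⟩)
    · push Not at hh
      obtain ⟨i, hi⟩ := hh
      exact Finset.mem_union_right _ (Finset.mem_biUnion.mpr
        ⟨i, Finset.mem_univ _, Finset.mem_filter.mpr ⟨Finset.mem_univ _, hi⟩⟩)
  have hA : A.card ≤ Y.card ^ 4 := by
    have h1 : A.card ≤ (Fintype.piFinset (fun _ : Fin 4 => Y)).card := by
      apply Finset.card_le_card_of_injOn (fun h i => tr (g i * h))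
      · intro h hh
        have hh' := (Finset.mem_filter.mp (Finset.mem_coe.mp hh)).2
        exact Finset.mem_coe.mpr (Fintype.mem_piFinset.mpr hh')
      · intro h _ h' _ heq
        have hsub : ((h : GL (Fin 2) k) : Matrix (Fin 2) (Fin 2) k)
            - ((h' : GL (Fin 2) k) : Matrix (Fin 2) (Fin 2) k) = 0 := by
          apply hg
          intro i
          have h2 := congrFun heq i
          simp only [tr, Subgroup.coe_mul, Matrix.GeneralLinearGroup.coe_mul] at h2
          rw [Matrix.mul_sub, Matrix.trace_sub, h2, sub_self]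
        have : ((h : GL (Fin 2) k) : Matrix (Fin 2) (Fin 2) k)
            = ((h' : GL (Fin 2) k) : Matrix (Fin 2) (Fin 2) k) := sub_eq_zero.mp hsub
        exact Subtype.ext (Units.ext this)
    simpa [Fintype.card_piFinset] using h1
  have hB : ∀ i, (Bi i).card ≤ Bad.card := by
    intro i
    apply Finset.card_le_card_of_injOn (fun h => g i * h)
    · intro h hh
      have hh' := (Finset.mem_filter.mp (Finset.mem_coe.mp hh)).2
      exact Finset.mem_coe.mpr (Finset.mem_filter.mpr ⟨Finset.mem_univ _, hh'⟩)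
    · intro h _ h' _ heq
      exact mul_left_cancel heq
  have hBad : Nat.card {g : G // ((g : GL (Fin 2) k) : Matrix (Fin 2) (Fin 2) k).trace ∉ Y}
      = Bad.card := by
    rw [Nat.card_eq_fintype_card, Fintype.card_subtype]
  rw [hBad, Nat.card_eq_fintype_card, ← Finset.card_univ]
  calc (Finset.univ : Finset G).card ≤ (A ∪ Finset.univ.biUnion Bi).card :=
        Finset.card_le_card hcover
    _ ≤ A.card + (Finset.univ.biUnion Bi).card := Finset.card_union_le _ _
    _ ≤ A.card + ∑ i : Fin 4, (Bi i).card := Nat.add_le_add_left Finset.card_biUnion_le _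
    _ ≤ Y.card ^ 4 + ∑ _i : Fin 4, Bad.card :=
        Nat.add_le_add hA (Finset.sum_le_sum fun i _ => hB i)
    _ = Y.card ^ 4 + 4 * Bad.card := by simp

/-! ### (B3) The split case -/

/-- Trace and determinant of a matrix with two independent eigenvectors. -/
theorem trace_det_of_eigen (M : Matrix (Fin 2) (Fin 2) k) (v w : Fin 2 → k)
    (hvw : v 0 * w 1 - v 1 * w 0 ≠ 0) (a b : k) (hv : M.mulVec v = a • v)
    (hw : M.mulVec w = b • w) : M.trace = a + b ∧ M.det = a * b := by
  have e1 := congrFun hv 0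
  have e2 := congrFun hv 1
  have e3 := congrFun hw 0
  have e4 := congrFun hw 1
  simp only [Matrix.mulVec, dotProduct, Fin.sum_univ_two, Pi.smul_apply, smul_eq_mul] at e1 e2 e3 e4
  constructor
  · rw [Matrix.trace_fin_two]
    have h : (M 0 0 + M 1 1 - (a + b)) * (v 0 * w 1 - v 1 * w 0) = 0 := by
      linear_combination w 1 * e1 - v 1 * e3 + v 0 * e4 - w 0 * e2
    exact sub_eq_zero.mp ((mul_eq_zero.mp h).resolve_right hvw)
  · rw [Matrix.det_fin_two]
    have h : (M 0 0 * M 1 1 - M 0 1 * M 1 0 - a * b) * (v 0 * w 1 - v 1 * w 0) = 0 := by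
      linear_combination (M 1 0 * w 0 + M 1 1 * w 1) * e1 + a * v 0 * e4
        - (M 0 0 * w 0 + M 0 1 * w 1) * e2 - a * v 1 * e3
    exact sub_eq_zero.mp ((mul_eq_zero.mp h).resolve_right hvw)

/-- A matrix is determined by its eigenvalues on two independent eigenvectors. -/
theorem eq_of_eigen (M M' : Matrix (Fin 2) (Fin 2) k) (v w : Fin 2 → k)
    (hvw : v 0 * w 1 - v 1 * w 0 ≠ 0) (a b : k) (hv : M.mulVec v = a • v)
    (hw : M.mulVec w = b • w) (hv' : M'.mulVec v = a • v) (hw' : M'.mulVec w = b • w) :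
    M = M' := by
  have e1 := congrFun hv 0
  have e2 := congrFun hv 1
  have e3 := congrFun hw 0
  have e4 := congrFun hw 1
  have e1' := congrFun hv' 0
  have e2' := congrFun hv' 1
  have e3' := congrFun hw' 0
  have e4' := congrFun hw' 1
  simp only [Matrix.mulVec, dotProduct, Fin.sum_univ_two, Pi.smul_apply, smul_eq_mul]
    at e1 e2 e3 e4 e1' e2' e3' e4'
  have h00 : (M 0 0 - M' 0 0) * (v 0 * w 1 - v 1 * w 0) = 0 := by
    linear_combination w 1 * e1 - w 1 * e1' - v 1 * e3 + v 1 * e3'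
  have h01 : (M 0 1 - M' 0 1) * (v 0 * w 1 - v 1 * w 0) = 0 := by
    linear_combination v 0 * e3 - v 0 * e3' - w 0 * e1 + w 0 * e1'
  have h10 : (M 1 0 - M' 1 0) * (v 0 * w 1 - v 1 * w 0) = 0 := by
    linear_combination w 1 * e2 - w 1 * e2' - v 1 * e4 + v 1 * e4'
  have h11 : (M 1 1 - M' 1 1) * (v 0 * w 1 - v 1 * w 0) = 0 := by
    linear_combination v 0 * e4 - v 0 * e4' - w 0 * e2 + w 0 * e2'
  ext i j
  fin_cases i <;> fin_cases j
  · exact sub_eq_zero.mp ((mul_eq_zero.mp h00).resolve_right hvw)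
  · exact sub_eq_zero.mp ((mul_eq_zero.mp h01).resolve_right hvw)
  · exact sub_eq_zero.mp ((mul_eq_zero.mp h10).resolve_right hvw)
  · exact sub_eq_zero.mp ((mul_eq_zero.mp h11).resolve_right hvw)

/-- **(B3)** If `G` has two independent common eigenvectors, then
`#G ≤ 2 * (#Y * #E) + #{g | ¬ (tr g ∈ Y ∧ det g ∈ E)}`. -/
theorem card_le_of_split (G : Subgroup (GL (Fin 2) k)) [Finite G] (v w : Fin 2 → k)
    (hvw : v 0 * w 1 - v 1 * w 0 ≠ 0)
    (hv : ∀ g ∈ G, ∃ c : k, (g : Matrix (Fin 2) (Fin 2) k).mulVec v = c • v)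
    (hw : ∀ g ∈ G, ∃ c : k, (g : Matrix (Fin 2) (Fin 2) k).mulVec w = c • w)
    (Y E : Finset k) :
    Nat.card G ≤ 2 * (Y.card * E.card) + Nat.card
      {g : G // ¬ (((g : GL (Fin 2) k) : Matrix (Fin 2) (Fin 2) k).trace ∈ Y ∧
        ((g : GL (Fin 2) k) : Matrix (Fin 2) (Fin 2) k).det ∈ E)} := by
  classical
  have := Fintype.ofFinite G
  let mat : G → Matrix (Fin 2) (Fin 2) k := fun h => ((h : GL (Fin 2) k) : Matrix (Fin 2) (Fin 2) k)
  have hmat_inj : Function.Injective mat := fun h h' heq => Subtype.ext (Units.ext heq)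
  choose a ha using fun h : G => hv h h.2
  choose b hb using fun h : G => hw h h.2
  have htd : ∀ h : G, (mat h).trace = a h + b h ∧ (mat h).det = a h * b h :=
    fun h => trace_det_of_eigen (mat h) v w hvw (a h) (b h) (ha h) (hb h)
  let Good : Finset G := Finset.univ.filter (fun h => (mat h).trace ∈ Y ∧ (mat h).det ∈ E)
  let Bad : Finset G := Finset.univ.filter (fun h => ¬ ((mat h).trace ∈ Y ∧ (mat h).det ∈ E))
  let f : G → k × k := fun h => ((mat h).trace, (mat h).det)
  have hfib : ∀ y ∈ Good.image f, (Good.filter (fun h => f h = y)).card ≤ 2 := by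
    intro y _
    by_contra hcon
    rw [not_le, Finset.two_lt_card] at hcon
    obtain ⟨g1, hg1, g2, hg2, g3, hg3, h12, h13, h23⟩ := hcon
    have k1 := (Finset.mem_filter.mp hg1).2
    have k2 := (Finset.mem_filter.mp hg2).2
    have k3 := (Finset.mem_filter.mp hg3).2
    -- `a` separates elements with the same trace
    have hsep : ∀ h h' : G, f h = f h' → a h = a h' → h = h' := by
      intro h h' hf haa
      have ht : (mat h).trace = (mat h').trace := congrArg Prod.fst hf
      have hbb : b h = b h' := by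
        have h1 := (htd h).1
        have h2 := (htd h').1
        rw [ht, h2, haa] at h1
        exact (add_left_cancel h1).symm
      apply hmat_inj
      exact eq_of_eigen (mat h) (mat h') v w hvw (a h) (b h) (ha h) (hb h)
        (by rw [haa]; exact ha h') (by rw [hbb]; exact hb h')
    have a12 : a g1 ≠ a g2 := fun h => h12 (hsep g1 g2 (k1.trans k2.symm) h)
    have a13 : a g1 ≠ a g3 := fun h => h13 (hsep g1 g3 (k1.trans k3.symm) h)
    have a23 : a g2 ≠ a g3 := fun h => h23 (hsep g2 g3 (k2.trans k3.symm) h)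
    -- each `a gi` is a root of `X ^ 2 - t X + d`
    have hroot : ∀ h : G, f h = y → a h ^ 2 - y.1 * a h + y.2 = 0 := by
      intro h hf
      have h1 : (mat h).trace = y.1 := congrArg Prod.fst hf
      have h2 : (mat h).det = y.2 := congrArg Prod.snd hf
      rw [← h1, ← h2, (htd h).1, (htd h).2]
      ring
    have r1 := hroot g1 k1
    have r2 := hroot g2 k2
    have r3 := hroot g3 k3
    have s12 : a g1 + a g2 = y.1 := by
      have h : (a g1 - a g2) * (a g1 + a g2 - y.1) = 0 := by linear_combination r1 - r2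
      exact sub_eq_zero.mp ((mul_eq_zero.mp h).resolve_left (sub_ne_zero.mpr a12))
    have s13 : a g1 + a g3 = y.1 := by
      have h : (a g1 - a g3) * (a g1 + a g3 - y.1) = 0 := by linear_combination r1 - r3
      exact sub_eq_zero.mp ((mul_eq_zero.mp h).resolve_left (sub_ne_zero.mpr a13))
    exact a23 (add_left_cancel (s12.trans s13.symm))
  have hGood : Good.card ≤ 2 * (Y.card * E.card) := by
    have h1 := Finset.card_le_mul_card_image Good 2 hfib
    have h2 : Good.image f ⊆ Y ×ˢ E := by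
      intro y hy
      obtain ⟨h, hh, rfl⟩ := Finset.mem_image.mp hy
      have hh' := (Finset.mem_filter.mp hh).2
      exact Finset.mem_product.mpr hh'
    have h3 := Finset.card_le_card h2
    rw [Finset.card_product] at h3
    exact h1.trans (Nat.mul_le_mul_left 2 h3)
  have hBad : Nat.card {g : G // ¬ (((g : GL (Fin 2) k) : Matrix (Fin 2) (Fin 2) k).trace ∈ Y ∧
      ((g : GL (Fin 2) k) : Matrix (Fin 2) (Fin 2) k).det ∈ E)} = Bad.card := by
    rw [Nat.card_eq_fintype_card, Fintype.card_subtype]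
  have hsplit : (Finset.univ : Finset G).card = Good.card + Bad.card :=
    (Finset.card_filter_add_card_filter_not _).symm
  rw [hBad, Nat.card_eq_fintype_card, ← Finset.card_univ, hsplit]
  exact Nat.add_le_add_right hGood _

/-! ### (B2) Burnside's theorem for `M₂(k)` -/

/-- Two vectors of `k²` with vanishing determinant, the first nonzero: the second is a
multiple of the first. -/
theorem exists_smul_of_det_eq_zero (u z : Fin 2 → k) (hu : u ≠ 0)
    (h : u 0 * z 1 - u 1 * z 0 = 0) : ∃ c : k, z = c • u := by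
  by_cases h0 : u 0 = 0
  · have h1 : u 1 ≠ 0 := by
      intro h1
      apply hu
      ext i
      fin_cases i
      · exact h0
      · exact h1
    have hz0 : z 0 = 0 := by
      rw [h0, zero_mul, zero_sub, neg_eq_zero] at h
      exact (mul_eq_zero.mp h).resolve_left h1
    refine ⟨z 1 / u 1, ?_⟩
    ext i
    fin_cases i
    · simp [h0, hz0]
    · simp [div_mul_cancel₀ _ h1]
  · refine ⟨z 0 / u 0, ?_⟩
    ext i
    fin_cases i
    · simp [div_mul_cancel₀ _ h0]
    · have h2 : z 1 = z 0 / u 0 * u 1 := by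
        field_simp
        linear_combination h
      simpa using h2

/-- **(B2)** Over an algebraically closed field, a subgroup of `GL₂(k)` without a stable line
spans `M₂(k)`. -/
theorem span_eq_top_of_irreducible [IsAlgClosed k] (G : Subgroup (GL (Fin 2) k))
    (hirr : ∀ v : Fin 2 → k, v ≠ 0 →
      ∃ g ∈ G, ∀ c : k, (g : Matrix (Fin 2) (Fin 2) k).mulVec v ≠ c • v) :
    Submodule.span k (matSet G) = ⊤ := by
  by_contra hne
  obtain ⟨f, hf0, hfker⟩ := Submodule.exists_le_ker_of_lt_top _ (lt_top_iff_ne_top.mpr hne)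
  obtain ⟨x, hx⟩ := exists_trace_repr f
  have hx0 : x ≠ 0 := by
    rintro rfl
    apply hf0
    ext m
    simp [hx]
  have hX : ∀ g ∈ G, (x * (g : Matrix (Fin 2) (Fin 2) k)).trace = 0 := by
    intro g hg
    rw [← hx]
    exact LinearMap.mem_ker.mp (hfker (Submodule.subset_span ⟨g, hg, rfl⟩))
  -- a nonzero singular element of the orthogonal
  have key : ∃ y : Matrix (Fin 2) (Fin 2) k, y ≠ 0 ∧ y.det = 0 ∧
      ∀ g ∈ G, (y * (g : Matrix (Fin 2) (Fin 2) k)).trace = 0 := by
    by_cases hdet : x.det = 0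
    · exact ⟨x, hx0, hdet, hX⟩
    · have hv0 : (![1, 0] : Fin 2 → k) ≠ 0 := by
        intro h
        have := congrFun h 0
        simp at this
      obtain ⟨g, hg, hgns⟩ := hirr ![1, 0] hv0
      set M : Matrix (Fin 2) (Fin 2) k := (g : Matrix (Fin 2) (Fin 2) k) with hM
      obtain ⟨t, ht⟩ : ∃ t : k, 1 * t ^ 2 + (-M.trace) * t + M.det = 0 := by
        have hdeg : (Polynomial.C (1 : k) * Polynomial.X ^ 2 + Polynomial.C (-M.trace) * Polynomial.X
            + Polynomial.C M.det).degree = 2 := Polynomial.degree_quadratic one_ne_zero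
        obtain ⟨t, ht⟩ := IsAlgClosed.exists_root
          (Polynomial.C (1 : k) * Polynomial.X ^ 2 + Polynomial.C (-M.trace) * Polynomial.X
            + Polynomial.C M.det) (by rw [hdeg]; norm_num)
        refine ⟨t, ?_⟩
        simpa [Polynomial.IsRoot] using ht
      have hdetM : (M - t • (1 : Matrix (Fin 2) (Fin 2) k)).det = 0 := by
        rw [Matrix.det_fin_two]
        rw [Matrix.trace_fin_two, Matrix.det_fin_two] at ht
        simp only [Matrix.sub_apply, Matrix.smul_apply, Matrix.one_apply_eq, smul_eq_mul, mul_one,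
          Matrix.one_apply_ne (show (0 : Fin 2) ≠ 1 by decide),
          Matrix.one_apply_ne (show (1 : Fin 2) ≠ 0 by decide), mul_zero, sub_zero]
        linear_combination ht
      refine ⟨x * (M - t • (1 : Matrix (Fin 2) (Fin 2) k)), ?_, ?_, ?_⟩
      · intro h0
        have hxu : IsUnit x.det := isUnit_iff_ne_zero.mpr hdet
        have h1 : M - t • (1 : Matrix (Fin 2) (Fin 2) k) = 0 := by
          have h2 := congrArg (fun z => x⁻¹ * z) h0
          simp only [← Matrix.mul_assoc, Matrix.nonsing_inv_mul x hxu, Matrix.one_mul,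
            Matrix.mul_zero] at h2
          exact h2
        apply hgns t
        have hM' : M = t • (1 : Matrix (Fin 2) (Fin 2) k) := sub_eq_zero.mp h1
        rw [hM', Matrix.smul_mulVec, Matrix.one_mulVec]
      · rw [Matrix.det_mul, hdetM, mul_zero]
      · intro h hh
        have h1 := hX (g * h) (G.mul_mem hg hh)
        have h2 := hX h hh
        rw [Matrix.GeneralLinearGroup.coe_mul, ← hM] at h1
        rw [Matrix.mul_assoc, Matrix.sub_mul, Matrix.mul_sub, Matrix.trace_sub, h1,
          Matrix.smul_mul, Matrix.one_mul, Matrix.mul_smul, Matrix.trace_smul, h2, smul_zero,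
          sub_zero]
  obtain ⟨y, hy0, hydet, hyX⟩ := key
  have hT1 : y 0 0 + y 1 1 = 0 := by
    have h := hyX 1 G.one_mem
    rw [Matrix.GeneralLinearGroup.coe_one, Matrix.mul_one, Matrix.trace_fin_two] at h
    exact h
  rw [Matrix.det_fin_two] at hydet
  have hT : ∀ g ∈ G, y 0 0 * (g : Matrix (Fin 2) (Fin 2) k) 0 0
      + y 0 1 * (g : Matrix (Fin 2) (Fin 2) k) 1 0
      + (y 1 0 * (g : Matrix (Fin 2) (Fin 2) k) 0 1
      + y 1 1 * (g : Matrix (Fin 2) (Fin 2) k) 1 1) = 0 := by
    intro g hg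
    have h := hyX g hg
    rw [Matrix.trace_fin_two] at h
    simpa [Matrix.mul_apply, Fin.sum_univ_two] using h
  by_cases hc1 : y 0 0 = 0 ∧ y 1 0 = 0
  · -- the first column vanishes: use the second
    have hu : (![y 0 1, y 1 1] : Fin 2 → k) ≠ 0 := by
      intro h
      apply hy0
      have h0 := congrFun h 0
      have h1 := congrFun h 1
      simp at h0 h1
      ext i j
      fin_cases i <;> fin_cases j
      · exact hc1.1
      · exact h0
      · exact hc1.2
      · exact h1
    obtain ⟨g, hg, hgns⟩ := hirr _ hu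
    have hTg := hT g hg
    obtain ⟨c, hc⟩ := exists_smul_of_det_eq_zero ![y 0 1, y 1 1]
      ((g : Matrix (Fin 2) (Fin 2) k).mulVec ![y 0 1, y 1 1]) hu (by
        simp only [Matrix.mulVec, dotProduct, Fin.sum_univ_two, Matrix.cons_val_zero,
          Matrix.cons_val_one]
        linear_combination (y 0 1) * hTg
          - (y 0 1 * (g : Matrix (Fin 2) (Fin 2) k) 0 0 + y 1 1 * (g : Matrix (Fin 2) (Fin 2) k) 0 1) * hT1
          + (g : Matrix (Fin 2) (Fin 2) k) 0 1 * hydet)
    exact hgns c hc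
  · have hu : (![y 0 0, y 1 0] : Fin 2 → k) ≠ 0 := by
      intro h
      apply hc1
      have h0 := congrFun h 0
      have h1 := congrFun h 1
      simp at h0 h1
      exact ⟨h0, h1⟩
    obtain ⟨g, hg, hgns⟩ := hirr _ hu
    have hTg := hT g hg
    obtain ⟨c, hc⟩ := exists_smul_of_det_eq_zero ![y 0 0, y 1 0]
      ((g : Matrix (Fin 2) (Fin 2) k).mulVec ![y 0 0, y 1 0]) hu (by
        simp only [Matrix.mulVec, dotProduct, Fin.sum_univ_two, Matrix.cons_val_zero,
          Matrix.cons_val_one]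
        linear_combination (-(y 1 0)) * hTg
          + (y 0 0 * (g : Matrix (Fin 2) (Fin 2) k) 1 0 + y 1 0 * (g : Matrix (Fin 2) (Fin 2) k) 1 1) * hT1
          - (g : Matrix (Fin 2) (Fin 2) k) 1 0 * hydet)
    exact hgns c hc

/-! ### (B4) The bound for a semisimple finite subgroup -/

/-- Linear independence of two vectors of `k²` in determinant form. -/
theorem det_ne_zero_of_linearIndependent (v w : Fin 2 → k) (h : LinearIndependent k ![v, w]) :
    v 0 * w 1 - v 1 * w 0 ≠ 0 := by
  intro hdet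
  rw [LinearIndependent.pair_iff] at h
  have h1 := h (w 1) (-(v 1)) (by
    ext i
    fin_cases i
    · simp only [Fin.zero_eta, Pi.add_apply, Pi.smul_apply, smul_eq_mul, Pi.zero_apply]
      linear_combination hdet
    · simp only [Fin.mk_one, Pi.add_apply, Pi.smul_apply, smul_eq_mul, Pi.zero_apply]
      ring)
  have h2 := h (w 0) (-(v 0)) (by
    ext i
    fin_cases i
    · simp only [Fin.zero_eta, Pi.add_apply, Pi.smul_apply, smul_eq_mul, Pi.zero_apply]
      ring
    · simp only [Fin.mk_one, Pi.add_apply, Pi.smul_apply, smul_eq_mul, Pi.zero_apply]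
      linear_combination -hdet)
  have hw : w = 0 := by
    ext i
    fin_cases i
    · exact h2.1
    · exact h1.1
  have h3 := h 0 1 (by rw [hw]; simp)
  exact one_ne_zero h3.2

/-- **(B4)** A finite subgroup `G` of `GL₂(k)`, `k` algebraically closed, acting semisimply on
`k²` (every stable line has a stable complement), with determinants in `E` and traces in `Y`
for all but a fifth of its elements, has at most `5 * #Y ^ 4 + 3 * (#Y * #E)` elements. -/
theorem card_le_of_semisimple [IsAlgClosed k] (G : Subgroup (GL (Fin 2) k)) [Finite G]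
    (hss : ∀ v : Fin 2 → k, v ≠ 0 →
      (∀ g ∈ G, ∃ c : k, (g : Matrix (Fin 2) (Fin 2) k).mulVec v = c • v) →
      ∃ w : Fin 2 → k, v 0 * w 1 - v 1 * w 0 ≠ 0 ∧
        ∀ g ∈ G, ∃ c : k, (g : Matrix (Fin 2) (Fin 2) k).mulVec w = c • w)
    (Y E : Finset k) (hdet : ∀ g ∈ G, (g : Matrix (Fin 2) (Fin 2) k).det ∈ E)
    (hY : 5 * Nat.card {g : G // ((g : GL (Fin 2) k) : Matrix (Fin 2) (Fin 2) k).trace ∉ Y}
      ≤ Nat.card G) :
    Nat.card G ≤ 5 * Y.card ^ 4 + 3 * (Y.card * E.card) := by
  by_cases hst : ∃ v : Fin 2 → k, v ≠ 0 ∧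
      ∀ g ∈ G, ∃ c : k, (g : Matrix (Fin 2) (Fin 2) k).mulVec v = c • v
  · obtain ⟨v, hv0, hv⟩ := hst
    obtain ⟨w, hvw, hw⟩ := hss v hv0 hv
    have h1 := card_le_of_split G v w hvw hv hw Y E
    have h2 : Nat.card {g : G // ¬ (((g : GL (Fin 2) k) : Matrix (Fin 2) (Fin 2) k).trace ∈ Y ∧
        ((g : GL (Fin 2) k) : Matrix (Fin 2) (Fin 2) k).det ∈ E)}
        = Nat.card {g : G // ((g : GL (Fin 2) k) : Matrix (Fin 2) (Fin 2) k).trace ∉ Y} := by
      apply Nat.card_congr
      apply Equiv.subtypeEquivRight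
      intro g
      constructor
      · intro h ht
        exact h ⟨ht, hdet g g.2⟩
      · intro h ht
        exact h ht.1
    rw [h2] at h1
    omega
  · have hirr : ∀ v : Fin 2 → k, v ≠ 0 →
        ∃ g ∈ G, ∀ c : k, (g : Matrix (Fin 2) (Fin 2) k).mulVec v ≠ c • v := by
      intro v hv0
      by_contra hcon
      apply hst
      refine ⟨v, hv0, fun g hg => ?_⟩
      by_contra hc
      apply hcon
      exact ⟨g, hg, fun c hcv => hc ⟨c, hcv⟩⟩
    have h1 := card_le_of_span_eq_top G (span_eq_top_of_irreducible G hirr) Y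
    omega

/-- **(B4), `d`-th roots of unity as determinants**, with the semisimplicity hypothesis stated
by `LinearIndependent`. -/
theorem card_le_of_semisimple_pow [IsAlgClosed k] (G : Subgroup (GL (Fin 2) k)) [Finite G]
    (hss : ∀ v : Fin 2 → k, v ≠ 0 →
      (∀ g ∈ G, ∃ c : k, (g : Matrix (Fin 2) (Fin 2) k).mulVec v = c • v) →
      ∃ w : Fin 2 → k, LinearIndependent k ![v, w] ∧
        ∀ g ∈ G, ∃ c : k, (g : Matrix (Fin 2) (Fin 2) k).mulVec w = c • w)
    (Y : Finset k) (d : ℕ) (hd : 0 < d)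
    (hdet : ∀ g ∈ G, (g : Matrix (Fin 2) (Fin 2) k).det ^ d = 1)
    (hY : 5 * Nat.card {g : G // ((g : GL (Fin 2) k) : Matrix (Fin 2) (Fin 2) k).trace ∉ Y}
      ≤ Nat.card G) :
    Nat.card G ≤ 5 * Y.card ^ 4 + 3 * (Y.card * d) := by
  classical
  have h1 := card_le_of_semisimple G
    (fun v hv0 hv => by
      obtain ⟨w, hli, hw⟩ := hss v hv0 hv
      exact ⟨w, det_ne_zero_of_linearIndependent v w hli, hw⟩)
    Y (Polynomial.nthRootsFinset d (1 : k))
    (fun g hg => (Polynomial.mem_nthRootsFinset hd 1).mpr (hdet g hg)) hY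
  have h2 : (Polynomial.nthRootsFinset d (1 : k)).card ≤ d :=
    (Multiset.toFinset_card_le _).trans (Polynomial.card_nthRoots d 1)
  have h3 : Y.card * (Polynomial.nthRootsFinset d (1 : k)).card ≤ Y.card * d :=
    Nat.mul_le_mul_left _ h2
  omega

/-- **(B4), density form**: the hypothesis counts the elements with trace in `Y`
(`4/5` of the group). -/
theorem card_le_of_semisimple_good [IsAlgClosed k] (G : Subgroup (GL (Fin 2) k)) [Finite G]
    (hss : ∀ v : Fin 2 → k, v ≠ 0 →
      (∀ g ∈ G, ∃ c : k, (g : Matrix (Fin 2) (Fin 2) k).mulVec v = c • v) →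
      ∃ w : Fin 2 → k, v 0 * w 1 - v 1 * w 0 ≠ 0 ∧
        ∀ g ∈ G, ∃ c : k, (g : Matrix (Fin 2) (Fin 2) k).mulVec w = c • w)
    (Y E : Finset k) (hdet : ∀ g ∈ G, (g : Matrix (Fin 2) (Fin 2) k).det ∈ E)
    (hY : 4 * Nat.card G ≤ 5 * Nat.card
      {g : G // ((g : GL (Fin 2) k) : Matrix (Fin 2) (Fin 2) k).trace ∈ Y}) :
    Nat.card G ≤ 5 * Y.card ^ 4 + 3 * (Y.card * E.card) := by
  classical
  have := Fintype.ofFinite G
  have hsum : Nat.card {g : G // ((g : GL (Fin 2) k) : Matrix (Fin 2) (Fin 2) k).trace ∈ Y}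
      + Nat.card {g : G // ((g : GL (Fin 2) k) : Matrix (Fin 2) (Fin 2) k).trace ∉ Y}
      = Nat.card G := by
    rw [Nat.card_eq_fintype_card, Nat.card_eq_fintype_card, Nat.card_eq_fintype_card,
      Fintype.card_subtype_compl]
    have h := Fintype.card_subtype_le
      (fun g : G => ((g : GL (Fin 2) k) : Matrix (Fin 2) (Fin 2) k).trace ∈ Y)
    omega
  exact card_le_of_semisimple G hss Y E hdet (by omega)

/-- **(B4), inversion-symmetric form** (the shape produced by a Chebotarev statement for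
conjugation- and inversion-stable sets): the bad set is `{g | tr g ∉ Y ∨ tr g⁻¹ ∉ Y}`. -/
theorem card_le_of_semisimple_sym [IsAlgClosed k] (G : Subgroup (GL (Fin 2) k)) [Finite G]
    (hss : ∀ v : Fin 2 → k, v ≠ 0 →
      (∀ g ∈ G, ∃ c : k, (g : Matrix (Fin 2) (Fin 2) k).mulVec v = c • v) →
      ∃ w : Fin 2 → k, v 0 * w 1 - v 1 * w 0 ≠ 0 ∧
        ∀ g ∈ G, ∃ c : k, (g : Matrix (Fin 2) (Fin 2) k).mulVec w = c • w)
    (Y E : Finset k) (hdet : ∀ g ∈ G, (g : Matrix (Fin 2) (Fin 2) k).det ∈ E)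
    (hY : 5 * Nat.card {g : G // ((g : GL (Fin 2) k) : Matrix (Fin 2) (Fin 2) k).trace ∉ Y ∨
        (((g : GL (Fin 2) k)⁻¹ : GL (Fin 2) k) : Matrix (Fin 2) (Fin 2) k).trace ∉ Y}
      ≤ Nat.card G) :
    Nat.card G ≤ 5 * Y.card ^ 4 + 3 * (Y.card * E.card) := by
  have hle : Nat.card {g : G // ((g : GL (Fin 2) k) : Matrix (Fin 2) (Fin 2) k).trace ∉ Y}
      ≤ Nat.card {g : G // ((g : GL (Fin 2) k) : Matrix (Fin 2) (Fin 2) k).trace ∉ Y ∨
        (((g : GL (Fin 2) k)⁻¹ : GL (Fin 2) k) : Matrix (Fin 2) (Fin 2) k).trace ∉ Y} :=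
    Nat.card_le_card_of_injective (fun g => ⟨g.1, Or.inl g.2⟩)
      (fun a b h => Subtype.ext (congrArg (fun x => x.1) h))
  exact card_le_of_semisimple G hss Y E hdet (by omega)

/-- **(B4), hom form**: a homomorphism `ρ : Γ →* GL₂(k)` with finite range acting semisimply,
`det (ρ γ) ∈ E`, and at most a fifth of the elements of the range with trace outside `Y`. -/
theorem card_range_le_of_semisimple [IsAlgClosed k] {Γ : Type*} [Group Γ]
    (ρ : Γ →* GL (Fin 2) k) [Finite ρ.range]
    (hss : ∀ v : Fin 2 → k, v ≠ 0 →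
      (∀ γ : Γ, ∃ c : k, (ρ γ : Matrix (Fin 2) (Fin 2) k).mulVec v = c • v) →
      ∃ w : Fin 2 → k, v 0 * w 1 - v 1 * w 0 ≠ 0 ∧
        ∀ γ : Γ, ∃ c : k, (ρ γ : Matrix (Fin 2) (Fin 2) k).mulVec w = c • w)
    (Y E : Finset k) (hdet : ∀ γ : Γ, (ρ γ : Matrix (Fin 2) (Fin 2) k).det ∈ E)
    (hY : 5 * Nat.card {g : ρ.range // ((g : GL (Fin 2) k) : Matrix (Fin 2) (Fin 2) k).trace ∉ Y}
      ≤ Nat.card ρ.range) :
    Nat.card ρ.range ≤ 5 * Y.card ^ 4 + 3 * (Y.card * E.card) := by
  refine card_le_of_semisimple ρ.range ?_ Y E ?_ hY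
  · intro v hv0 hv
    obtain ⟨w, hvw, hw⟩ := hss v hv0 (fun γ => hv (ρ γ) ⟨γ, rfl⟩)
    refine ⟨w, hvw, ?_⟩
    rintro g ⟨γ, rfl⟩
    exact hw γ
  · rintro g ⟨γ, rfl⟩
    exact hdet γ

end Fermat.Agent.S48.helper7934
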