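/-
S48 (Deligne–Serre), Spec leaf `Stmt_BoundedImage` (captain helper8231, Spec Part I).

`stmt_BoundedImage : helper8231.Stmt_BoundedImage`, proved from the landed trace-form bounds of
`helper7934_TraceBound` (B1 trace-basis count, B2 two-by-two Burnside, B3 split count).
-/
import Fermat.Agent.S48.helper8231_Spec
import Fermat.Agent.S48.helper7934_TraceBound

set_option autoImplicit false

namespace Fermat.Agent.S48.helper7934

open Matrix

/-- A diagonal matrix has the first standard basis vector as an eigenvector. -/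
theorem diagonal_mulVec_e0 {k : Type*} [Field k] (x y : k) :
    (Matrix.diagonal ![x, y]).mulVec ![(1 : k), 0] = x • ![(1 : k), 0] := by
  ext i
  fin_cases i <;> simp [Matrix.mulVec, dotProduct, Matrix.diagonal]

/-- A diagonal matrix has the second standard basis vector as an eigenvector. -/
theorem diagonal_mulVec_e1 {k : Type*} [Field k] (x y : k) :
    (Matrix.diagonal ![x, y]).mulVec ![(0 : k), 1] = y • ![(0 : k), 1] := by
  ext i
  fin_cases i <;> simp [Matrix.mulVec, dotProduct, Matrix.diagonal]

/-- **Spec leaf (BDD)**: bounded image in the exact shape of `helper8231.Stmt_BoundedImage`. -/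
theorem stmt_BoundedImage : Fermat.Agent.S48.helper8231.Stmt_BoundedImage := by
  intro k _ _ G _ hcase Y D hdet hY
  rcases hcase with hirr | hdiag
  · -- irreducible: trace-basis count
    have h1 := card_le_of_span_eq_top G (span_eq_top_of_irreducible G hirr) Y
    have h2 : 0 ≤ 3 * Y.card * D.card := Nat.zero_le _
    omega
  · -- diagonal: at most two elements per (trace, determinant)
    have hv : ∀ g ∈ G, ∃ c : k,
        (g : Matrix (Fin 2) (Fin 2) k).mulVec ![(1 : k), 0] = c • ![(1 : k), 0] := by
      intro g hg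
      obtain ⟨x, y, hxy⟩ := hdiag g hg
      exact ⟨x, by rw [hxy]; exact diagonal_mulVec_e0 x y⟩
    have hw : ∀ g ∈ G, ∃ c : k,
        (g : Matrix (Fin 2) (Fin 2) k).mulVec ![(0 : k), 1] = c • ![(0 : k), 1] := by
      intro g hg
      obtain ⟨x, y, hxy⟩ := hdiag g hg
      exact ⟨y, by rw [hxy]; exact diagonal_mulVec_e1 x y⟩
    have hvw : (![(1 : k), 0] : Fin 2 → k) 0 * (![(0 : k), 1] : Fin 2 → k) 1
        - (![(1 : k), 0] : Fin 2 → k) 1 * (![(0 : k), 1] : Fin 2 → k) 0 ≠ 0 := by
      simp
    have h1 := card_le_of_split G ![(1 : k), 0] ![(0 : k), 1] hvw hv hw Y D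
    have h2 : Nat.card {g : G // ¬ (((g : GL (Fin 2) k) : Matrix (Fin 2) (Fin 2) k).trace ∈ Y ∧
        ((g : GL (Fin 2) k) : Matrix (Fin 2) (Fin 2) k).det ∈ D)}
        = Nat.card {g : G // ((g : GL (Fin 2) k) : Matrix (Fin 2) (Fin 2) k).trace ∉ Y} := by
      apply Nat.card_congr
      apply Equiv.subtypeEquivRight
      intro g
      constructor
      · intro h ht
        exact h ⟨ht, hdet g g.2⟩
      · intro h ht
        exact h ht.1
    rw [h2] at h1
    have h3 : 3 * Y.card * D.card = 3 * (Y.card * D.card) := Nat.mul_assoc _ _ _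
    have h4 : 0 ≤ 2 * Y.card ^ 4 := Nat.zero_le _
    rw [h3]
    omega

end Fermat.Agent.S48.helper7934
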