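import Mathlib
import Fermat.Prelude.Def_ModularCurve_LaurentCoeff

/-!
# S48-A2-RATFORM (helper8098): fields of Laurent series stable under the coefficientwise Galois
action are `laurentBaseChange`s

`L` a field of characteristic zero, `F : IntermediateField L (LaurentSeries L)`.

* `ratPoints L F : IntermediateField ℚ (LaurentSeries ℚ)` : the Laurent series with rational
  coefficients whose image in `L((q))` lies in `F`;
* `laurentBaseChange_ratPoints_le` : `laurentBaseChange L (ratPoints L F) ≤ F`;
* `coeffMap_mem_laurentBaseChange_ratPoints` : if `L` is an algebraic closure of `ℚ`, `K` is a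
  number field inside `L`, `s` is a Laurent series over `K` and all the coefficientwise Galois
  conjugates of (the image of) `s` lie in `F`, then `s ∈ laurentBaseChange L (ratPoints L F)`;
* `laurentBaseChange_ratPoints_adjoin` : hence, if `F = L(S)` with every `s ∈ S` having its
  coefficients in a number field and all its coefficientwise conjugates in `F`, then
  `laurentBaseChange L (ratPoints L F) = F`.

So such an `F` (for instance the `Γ₁(M)`-field generated by ratios of differences of the
`q`-expansions of the Weierstrass division values, with coefficients in `ℚ(ζ_M)`) is the base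
change of a field of Laurent series with *rational* coefficients, and everything stated for
`laurentBaseChange L F₀` (Galois action, finite level, descent to number fields) applies to it.
-/

set_option autoImplicit false

noncomputable section

namespace Fermat.Agent.S48.helper8098

open ModularCurve HahnSeries IntermediateField

section RatPoints

variable (L : Type*) [Field L] [Algebra ℚ L]

/-- `coeffEmb` of a rational constant is the corresponding constant of `L((q))`. -/
theorem coeffEmb_algebraMap (r : ℚ) :
    coeffEmb L (algebraMap ℚ (LaurentSeries ℚ) r) =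
      algebraMap L (LaurentSeries L) (algebraMap ℚ L r) := by
  rw [algebraMap_laurentSeries_eq_single, algebraMap_laurentSeries_eq_single, coeffEmb,
    coeffMap_single]

/-- **Rational points** of an intermediate field of `L((q))/L`: the Laurent series with rational
coefficients whose image in `L((q))` lies in the field. -/
def ratPoints (F : IntermediateField L (LaurentSeries L)) :
    IntermediateField ℚ (LaurentSeries ℚ) :=
  (F.toSubfield.comap (coeffEmb L)).toIntermediateField fun r => by
    show coeffEmb L (algebraMap ℚ (LaurentSeries ℚ) r) ∈ F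
    rw [coeffEmb_algebraMap]
    exact F.algebraMap_mem _

variable {L}

@[simp]
theorem mem_ratPoints_iff {F : IntermediateField L (LaurentSeries L)} {y : LaurentSeries ℚ} :
    y ∈ ratPoints L F ↔ coeffEmb L y ∈ F :=
  Iff.rfl

theorem ratPoints_mono {F F' : IntermediateField L (LaurentSeries L)} (h : F ≤ F') :
    ratPoints L F ≤ ratPoints L F' := fun _ hy => h hy

/-- The base change of the rational points is contained in the field. -/
theorem laurentBaseChange_ratPoints_le (F : IntermediateField L (LaurentSeries L)) :
    laurentBaseChange L (ratPoints L F) ≤ F := by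
  rw [laurentBaseChange, IntermediateField.adjoin_le_iff]
  rintro _ ⟨y, hy, rfl⟩
  exact hy

/-- A field of rational Laurent series is contained in the rational points of its base
change. -/
theorem le_ratPoints_laurentBaseChange (F₀ : IntermediateField ℚ (LaurentSeries ℚ)) :
    F₀ ≤ ratPoints L (laurentBaseChange L F₀) := fun _ hy =>
  coeffEmb_mem_laurentBaseChange L hy

/-- `laurentBaseChange` is monotone. -/
theorem laurentBaseChange_mono {F₀ F₁ : IntermediateField ℚ (LaurentSeries ℚ)} (h : F₀ ≤ F₁) :
    laurentBaseChange L F₀ ≤ laurentBaseChange L F₁ := by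
  rw [laurentBaseChange, IntermediateField.adjoin_le_iff]
  rintro _ ⟨y, hy, rfl⟩
  exact coeffEmb_mem_laurentBaseChange L (h hy)

/-- Galois connection: `laurentBaseChange L F₀ ≤ F ↔ F₀ ≤ ratPoints L F`. -/
theorem laurentBaseChange_le_iff {F₀ : IntermediateField ℚ (LaurentSeries ℚ)}
    {F : IntermediateField L (LaurentSeries L)} :
    laurentBaseChange L F₀ ≤ F ↔ F₀ ≤ ratPoints L F := by
  constructor
  · intro h y hy
    exact h (coeffEmb_mem_laurentBaseChange L hy)
  · intro h
    exact (laurentBaseChange_mono h).trans (laurentBaseChange_ratPoints_le F)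

end RatPoints

section Coeff

variable {L : Type*} [Field L]

/-- Coefficients of a constant multiple. -/
theorem coeff_algebraMap_mul (c : L) (y : LaurentSeries L) (k : ℤ) :
    (algebraMap L (LaurentSeries L) c * y).coeff k = c * y.coeff k := by
  rw [algebraMap_laurentSeries_eq_single, HahnSeries.single_zero_mul_eq_smul,
    HahnSeries.coeff_smul, smul_eq_mul]

/-- Coefficients of a finite sum. -/
theorem coeff_finset_sum {ι : Type*} (s : Finset ι) (f : ι → LaurentSeries L) (k : ℤ) :
    (∑ i ∈ s, f i).coeff k = ∑ i ∈ s, (f i).coeff k := by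
  classical
  induction s using Finset.induction_on with
  | empty => simp
  | insert a s ha ih => rw [Finset.sum_insert ha, Finset.sum_insert ha, HahnSeries.coeff_add, ih]

end Coeff

section Main

variable {L : Type*} [Field L] [Algebra ℚ L] [IsAlgClosed L] [Algebra.IsAlgebraic ℚ L]
variable {K : Type*} [Field K] [NumberField K]

/-- An embedding of a number field into an algebraic closure `L` of `ℚ` is the restriction of an
automorphism of `L` composed with any given embedding `ι`. -/
theorem exists_algEquiv_extending (ι : K →+* L) (τ : K →ₐ[ℚ] L) :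
    ∃ σ : L ≃ₐ[ℚ] L, ∀ x : K, σ (ι x) = τ x := by
  have : IsAlgClosure ℚ L := ⟨inferInstance, inferInstance⟩
  let _ : Algebra K L := ι.toAlgebra
  have : IsScalarTower ℚ K L := IsScalarTower.of_algebraMap_eq fun r => by
    show algebraMap ℚ L r = ι (algebraMap ℚ K r)
    rw [eq_ratCast, eq_ratCast, map_ratCast]
  let σ₀ : L →ₐ[ℚ] L := τ.liftNormal L
  refine ⟨AlgEquiv.ofBijective σ₀ (Algebra.IsAlgebraic.algHom_bijective σ₀), fun x => ?_⟩
  show σ₀ (algebraMap K L x) = _
  rw [AlgHom.liftNormal_commutes]
  rfl

/-- The rational Laurent series `Tr_{K/ℚ}(s · β)` (coefficientwise). -/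
def traceSeries (s : LaurentSeries K) (β : K) : LaurentSeries ℚ :=
  s.map ((Algebra.trace ℚ K).toAddMonoidHom.comp (AddMonoidHom.mulRight β))

@[simp]
theorem traceSeries_coeff (s : LaurentSeries K) (β : K) (k : ℤ) :
    (traceSeries s β).coeff k = Algebra.trace ℚ K (s.coeff k * β) :=
  rfl

omit [Algebra.IsAlgebraic ℚ L] in
/-- The coefficientwise trace is a combination of the coefficientwise conjugates. -/
theorem coeffEmb_traceSeries (ι : K →+* L) (s : LaurentSeries K) (β : K)
    (lift : (K →ₐ[ℚ] L) → (L ≃ₐ[ℚ] L)) (hlift : ∀ τ (x : K), lift τ (ι x) = τ x) :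
    coeffEmb L (traceSeries s β) =
      ∑ τ : K →ₐ[ℚ] L, algebraMap L (LaurentSeries L) (τ β) *
        coeffMap ((lift τ : L ≃ₐ[ℚ] L) : L →+* L) (coeffMap ι s) := by
  ext k
  rw [coeffEmb_coeff, traceSeries_coeff, coeff_finset_sum,
    trace_eq_sum_embeddings (K := ℚ) (L := K) L]
  refine Finset.sum_congr rfl fun τ _ => ?_
  rw [coeff_algebraMap_mul, coeffMap_coeff, coeffMap_coeff, map_mul, mul_comm]
  congr 1
  exact (hlift τ (s.coeff k)).symm

/-- **Main lemma.**  `L` an algebraic closure of `ℚ`, `ι : K → L` an embedding of a number
field, `s` a Laurent series over `K`, `F` an intermediate field of `L((q))/L` containing all the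
coefficientwise Galois conjugates of `s`.  Then `s` lies in the base change of the rational
points of `F`. -/
theorem coeffMap_mem_laurentBaseChange_ratPoints (ι : K →+* L)
    (F : IntermediateField L (LaurentSeries L)) (s : LaurentSeries K)
    (hst : ∀ σ : L ≃ₐ[ℚ] L, coeffMap (σ : L →+* L) (coeffMap ι s) ∈ F) :
    coeffMap ι s ∈ laurentBaseChange L (ratPoints L F) := by
  classical
  choose lift hlift using exists_algEquiv_extending (L := L) ι
  let b := Module.finBasis ℚ K
  have hB := traceForm_nondegenerate ℚ K
  let d := (Algebra.traceForm ℚ K).dualBasis hB b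
  -- each trace series is a rational point of `F`
  have hmem : ∀ i, traceSeries s (b i) ∈ ratPoints L F := by
    intro i
    rw [mem_ratPoints_iff, coeffEmb_traceSeries ι s (b i) lift hlift]
    exact sum_mem fun τ _ => mul_mem (F.algebraMap_mem _) (hst (lift τ))
  -- `s` is the combination of the trace series with the dual basis
  have hs : coeffMap ι s =
      ∑ i, algebraMap L (LaurentSeries L) (ι (d i)) * coeffEmb L (traceSeries s (b i)) := by
    ext k
    rw [coeff_finset_sum, coeffMap_coeff]
    have h1 : s.coeff k = ∑ i, (Algebra.trace ℚ K (s.coeff k * b i)) • d i := by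
      conv_lhs => rw [← d.sum_repr (s.coeff k)]
      refine Finset.sum_congr rfl fun i _ => ?_
      rw [LinearMap.BilinForm.dualBasis_repr_apply, Algebra.traceForm_apply]
    conv_lhs => rw [h1]
    rw [map_sum]
    refine Finset.sum_congr rfl fun i _ => ?_
    rw [coeff_algebraMap_mul, coeffEmb_coeff, traceSeries_coeff, Algebra.smul_def, map_mul,
      mul_comm, eq_ratCast, eq_ratCast, map_ratCast]
  rw [hs]
  exact sum_mem fun i _ =>
    mul_mem ((laurentBaseChange L (ratPoints L F)).algebraMap_mem _)
      (coeffEmb_mem_laurentBaseChange L (hmem i))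

omit [Algebra ℚ L] [IsAlgClosed L] [Algebra.IsAlgebraic ℚ L] in
/-- A Laurent series over `L` all of whose coefficients lie in the range of a field embedding
`ι : K → L` is the image of a Laurent series over `K`. -/
theorem mem_range_coeffMap_of_coeff_mem {K' : Type*} [Field K'] (ι : K' →+* L)
    (s : LaurentSeries L) (h : ∀ n, s.coeff n ∈ Set.range ι) :
    s ∈ Set.range (coeffMap ι) := by
  classical
  let g : ZeroHom L K' :=
    { toFun := fun x => if hx : x ∈ Set.range ι then hx.choose else 0
      map_zero' := by
        have h0 : (0 : L) ∈ Set.range ι := ⟨0, map_zero ι⟩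
        rw [dif_pos h0]
        exact ι.injective (h0.choose_spec.trans (map_zero ι).symm) }
  refine ⟨s.map g, ?_⟩
  ext n
  rw [coeffMap_coeff, HahnSeries.map_coeff]
  show ι (if hx : s.coeff n ∈ Set.range ι then hx.choose else 0) = s.coeff n
  rw [dif_pos (h n)]
  exact (h n).choose_spec

omit [IsAlgClosed L] [Algebra.IsAlgebraic ℚ L] in
/-- Rational Laurent series are images of Laurent series over any field of characteristic
zero mapping to `L`. -/
theorem coeffEmb_mem_range_coeffMap {K' : Type*} [Field K'] [CharZero K'] (ι : K' →+* L)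
    (y : LaurentSeries ℚ) : coeffEmb L y ∈ Set.range (coeffMap ι) := by
  refine ⟨coeffMap (algebraMap ℚ K') y, ?_⟩
  rw [coeffEmb, coeffMap_coeffMap]
  exact coeffMap_congr (RingHom.ext fun r => by simp) y

/-- **The field generated by conjugation-stable series over a number field is a
`laurentBaseChange`.**  `L` an algebraic closure of `ℚ`, `ι : K → L` an embedding of a number
field, `S` a set of Laurent series over `L` each of which comes from a Laurent series over `K`
and has all its coefficientwise Galois conjugates in `L(S)`.  Then
`L(S) = laurentBaseChange L (ratPoints L (L(S)))`. -/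
theorem laurentBaseChange_ratPoints_adjoin (ι : K →+* L) (S : Set (LaurentSeries L))
    (hK : ∀ s ∈ S, s ∈ Set.range (coeffMap ι))
    (hst : ∀ s ∈ S, ∀ σ : L ≃ₐ[ℚ] L,
      coeffMap (σ : L →+* L) s ∈ IntermediateField.adjoin L S) :
    laurentBaseChange L (ratPoints L (IntermediateField.adjoin L S)) =
      IntermediateField.adjoin L S := by
  refine le_antisymm (laurentBaseChange_ratPoints_le _) ?_
  rw [IntermediateField.adjoin_le_iff]
  intro s hs
  obtain ⟨s', rfl⟩ := hK s hs
  exact coeffMap_mem_laurentBaseChange_ratPoints ι _ s' (hst _ hs)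

/-- The same with the hypothesis on coefficients: every coefficient of every generator lies in
the image of the number field. -/
theorem laurentBaseChange_ratPoints_adjoin_of_coeff (ι : K →+* L) (S : Set (LaurentSeries L))
    (hK : ∀ s ∈ S, ∀ n, s.coeff n ∈ Set.range ι)
    (hst : ∀ s ∈ S, ∀ σ : L ≃ₐ[ℚ] L,
      coeffMap (σ : L →+* L) s ∈ IntermediateField.adjoin L S) :
    laurentBaseChange L (ratPoints L (IntermediateField.adjoin L S)) =
      IntermediateField.adjoin L S :=
  laurentBaseChange_ratPoints_adjoin ι S
    (fun s hs => mem_range_coeffMap_of_coeff_mem ι s (hK s hs)) hst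

/-- Variant for a field given with a generating set: `F = L(S)`. -/
theorem laurentBaseChange_ratPoints_eq (ι : K →+* L) (F : IntermediateField L (LaurentSeries L))
    (S : Set (LaurentSeries L)) (hF : F = IntermediateField.adjoin L S)
    (hK : ∀ s ∈ S, s ∈ Set.range (coeffMap ι))
    (hst : ∀ s ∈ S, ∀ σ : L ≃ₐ[ℚ] L, coeffMap (σ : L →+* L) s ∈ F) :
    laurentBaseChange L (ratPoints L F) = F := by
  subst hF
  exact laurentBaseChange_ratPoints_adjoin ι S hK hst

omit [IsAlgClosed L] [Algebra.IsAlgebraic ℚ L] in
/-- A field which is the base change of its rational points is stable under the coefficientwise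
Galois action. -/
theorem coeffMap_mem_of_laurentBaseChange_ratPoints_eq
    {F : IntermediateField L (LaurentSeries L)} (hF : laurentBaseChange L (ratPoints L F) = F)
    (σ : L ≃ₐ[ℚ] L) {x : LaurentSeries L} (hx : x ∈ F) : coeffMap (σ : L →+* L) x ∈ F := by
  rw [← hF] at hx ⊢
  exact coeffMap_mem_laurentBaseChange σ hx

end Main

/-! ## The Galois form: any field of coefficients

For a *Galois* number field `K` (for instance `ℚ(ζ_M)`) no automorphism has to be extended, so
the target field `L` is arbitrary: a number field containing `K`, `ℚ̄`, `ℂ`, ... -/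

section Galois

variable {L : Type*} [Field L] [Algebra ℚ L]
variable {K : Type*} [Field K] [NumberField K] [IsGalois ℚ K]

/-- The coefficientwise trace is the sum of the coefficientwise `Gal(K/ℚ)`-conjugates. -/
theorem coeffEmb_traceSeries_of_isGalois (ι : K →+* L) (s : LaurentSeries K) (β : K) :
    coeffEmb L (traceSeries s β) =
      ∑ σ : K ≃ₐ[ℚ] K, algebraMap L (LaurentSeries L) (ι (σ β)) *
        coeffMap ι (coeffMap ((σ : K ≃ₐ[ℚ] K) : K →+* K) s) := by
  ext k
  rw [coeffEmb_coeff, traceSeries_coeff, coeff_finset_sum]
  have h1 : algebraMap ℚ L (Algebra.trace ℚ K (s.coeff k * β)) =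
      ι (algebraMap ℚ K (Algebra.trace ℚ K (s.coeff k * β))) := by
    rw [eq_ratCast, eq_ratCast, map_ratCast]
  rw [h1, trace_eq_sum_automorphisms, map_sum]
  refine Finset.sum_congr rfl fun σ _ => ?_
  rw [coeff_algebraMap_mul, coeffMap_coeff, coeffMap_coeff, map_mul, map_mul, mul_comm]
  rfl

/-- **Main lemma, Galois form.**  `K` a Galois number field, `ι : K → L` a ring homomorphism
into an arbitrary field, `s` a Laurent series over `K`, `F` an intermediate field of
`L((q))/L` containing the images of all the `Gal(K/ℚ)`-conjugates of `s`.  Then the image of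
`s` lies in the base change of the rational points of `F`. -/
theorem coeffMap_mem_laurentBaseChange_ratPoints_of_isGalois (ι : K →+* L)
    (F : IntermediateField L (LaurentSeries L)) (s : LaurentSeries K)
    (hst : ∀ σ : K ≃ₐ[ℚ] K, coeffMap ι (coeffMap ((σ : K ≃ₐ[ℚ] K) : K →+* K) s) ∈ F) :
    coeffMap ι s ∈ laurentBaseChange L (ratPoints L F) := by
  classical
  let b := Module.finBasis ℚ K
  have hB := traceForm_nondegenerate ℚ K
  let d := (Algebra.traceForm ℚ K).dualBasis hB b
  have hmem : ∀ i, traceSeries s (b i) ∈ ratPoints L F := by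
    intro i
    rw [mem_ratPoints_iff, coeffEmb_traceSeries_of_isGalois ι s (b i)]
    exact sum_mem fun σ _ => mul_mem (F.algebraMap_mem _) (hst σ)
  have hs : coeffMap ι s =
      ∑ i, algebraMap L (LaurentSeries L) (ι (d i)) * coeffEmb L (traceSeries s (b i)) := by
    ext k
    rw [coeff_finset_sum, coeffMap_coeff]
    have h1 : s.coeff k = ∑ i, (Algebra.trace ℚ K (s.coeff k * b i)) • d i := by
      conv_lhs => rw [← d.sum_repr (s.coeff k)]
      refine Finset.sum_congr rfl fun i _ => ?_
      rw [LinearMap.BilinForm.dualBasis_repr_apply, Algebra.traceForm_apply]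
    conv_lhs => rw [h1]
    rw [map_sum]
    refine Finset.sum_congr rfl fun i _ => ?_
    rw [coeff_algebraMap_mul, coeffEmb_coeff, traceSeries_coeff, Algebra.smul_def, map_mul,
      mul_comm, eq_ratCast, eq_ratCast, map_ratCast]
  rw [hs]
  exact sum_mem fun i _ =>
    mul_mem ((laurentBaseChange L (ratPoints L F)).algebraMap_mem _)
      (coeffEmb_mem_laurentBaseChange L (hmem i))

/-- **The field generated by a `Gal(K/ℚ)`-stable set of series over a Galois number field `K`
is a `laurentBaseChange`, over every field `L` receiving `K`.** -/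
theorem laurentBaseChange_ratPoints_adjoin_of_isGalois (ι : K →+* L)
    (S : Set (LaurentSeries K))
    (hst : ∀ s ∈ S, ∀ σ : K ≃ₐ[ℚ] K, coeffMap ((σ : K ≃ₐ[ℚ] K) : K →+* K) s ∈ S) :
    laurentBaseChange L (ratPoints L (IntermediateField.adjoin L (⇑(coeffMap ι) '' S))) =
      IntermediateField.adjoin L (⇑(coeffMap ι) '' S) := by
  refine le_antisymm (laurentBaseChange_ratPoints_le _) ?_
  rw [IntermediateField.adjoin_le_iff]
  rintro _ ⟨s, hs, rfl⟩
  exact coeffMap_mem_laurentBaseChange_ratPoints_of_isGalois ι _ s fun σ =>
    IntermediateField.subset_adjoin L _ ⟨_, hst s hs σ, rfl⟩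

end Galois

end Fermat.Agent.S48.helper8098
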