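import Fermat.Agent.S48.helper1398_ChebPairSpec

/-!
# S48 / F5 — the five finite-group lemmas of seam 2 (helper8105)

Proofs of the Props `Stmt_GrpOrder`, `Stmt_GrpSqImage`, `Stmt_GrpSqOne`, `Stmt_GrpConj`,
`Stmt_GrpConjCard` of `helper1398_ChebPairSpec`.

Setting: `π : Γ →* G`, `κ : Γ →* (ZMod q)ˣ` jointly injective, `γ` *good*, i.e.
`4 * orderOf (π γ) ∣ orderOf (κ γ)`.
-/

set_option autoImplicit false

namespace Fermat.Agent.S48.helper8105

open Fermat.Agent.S48.helper1398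

/-! ### General counting lemmas -/

/-- The preimage of a set under a surjective group homomorphism has `|ker| * |S|` elements. -/
theorem card_preimage_eq {Γ G : Type*} [Group Γ] [Group G] (π : Γ →* G)
    (hπ : Function.Surjective π) (S : Set G) :
    Nat.card {g : Γ // π g ∈ S} = Nat.card π.ker * Nat.card S := by
  classical
  have hs : ∀ x, π (Function.surjInv hπ x) = x := Function.surjInv_eq hπ
  let e : {g : Γ // π g ∈ S} ≃ π.ker × S :=
    { toFun := fun g =>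
        (⟨(Function.surjInv hπ (π g.1))⁻¹ * g.1, by
            rw [MonoidHom.mem_ker, map_mul, map_inv, hs, inv_mul_cancel]⟩, ⟨π g.1, g.2⟩)
      invFun := fun p => ⟨Function.surjInv hπ p.2.1 * p.1.1, by
        have h1 : π (p.1.1) = 1 := MonoidHom.mem_ker.mp p.1.2
        rw [map_mul, hs, h1, mul_one]
        exact p.2.2⟩
      left_inv := fun g => by
        apply Subtype.ext
        simp
      right_inv := fun p => by
        rcases p with ⟨⟨k, hk⟩, ⟨x, hx⟩⟩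
        have hk' : π k = 1 := MonoidHom.mem_ker.mp hk
        have hx' : π (Function.surjInv hπ x * k) = x := by rw [map_mul, hs, hk', mul_one]
        apply Prod.ext
        · apply Subtype.ext
          simp only [hx']
          group
        · apply Subtype.ext
          exact hx' }
  rw [Nat.card_congr e, Nat.card_prod]

theorem conj_aux1 {G : Type*} [Group G] {c x σ : G} (hc : c * σ * c⁻¹ = x * σ * x⁻¹) :
    c⁻¹ * x * σ * (c⁻¹ * x)⁻¹ = σ := by
  calc c⁻¹ * x * σ * (c⁻¹ * x)⁻¹ = c⁻¹ * (x * σ * x⁻¹) * c := by group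
    _ = c⁻¹ * (c * σ * c⁻¹) * c := by rw [hc]
    _ = σ := by group

theorem conj_aux2 {G : Type*} [Group G] {c0 x ρ σ : G} (hc0 : c0 * ρ * c0⁻¹ = σ)
    (hx : x * ρ * x⁻¹ = σ) : x * c0⁻¹ * σ * (x * c0⁻¹)⁻¹ = σ := by
  have h1 : c0⁻¹ * σ * c0 = ρ := by rw [← hc0]; group
  calc x * c0⁻¹ * σ * (x * c0⁻¹)⁻¹ = x * (c0⁻¹ * σ * c0) * x⁻¹ := by group
    _ = x * ρ * x⁻¹ := by rw [h1]
    _ = σ := hx

theorem conj_aux3 {G : Type*} [Group G] {c0 y ρ σ : G} (hc0 : c0 * ρ * c0⁻¹ = σ)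
    (hy : y * σ * y⁻¹ = σ) : y * c0 * ρ * (y * c0)⁻¹ = σ := by
  calc y * c0 * ρ * (y * c0)⁻¹ = y * (c0 * ρ * c0⁻¹) * y⁻¹ := by group
    _ = y * σ * y⁻¹ := by rw [hc0]
    _ = σ := hy

theorem conj_aux4 {G : Type*} [Group G] {c y σ τ : G} (hc : c * σ * c⁻¹ = τ)
    (hy : y * σ * y⁻¹ = σ) : c * y * σ * (c * y)⁻¹ = τ := by
  calc c * y * σ * (c * y)⁻¹ = c * (y * σ * y⁻¹) * c⁻¹ := by group
    _ = c * σ * c⁻¹ := by rw [hy]
    _ = τ := hc

/-- Orbit–stabiliser for conjugation, in the counting form with an explicit transporter set. -/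
theorem card_transporter_mul_card_class {G : Type*} [Group G] (ρ σ : G) (h : IsConj ρ σ) :
    Nat.card {x : G // x * ρ * x⁻¹ = σ} * Nat.card {τ : G // IsConj σ τ} = Nat.card G := by
  classical
  obtain ⟨c0, hc0⟩ := isConj_iff.mp h
  -- a chosen conjugator for every conjugate of `σ`
  have hex : ∀ τ : {τ : G // IsConj σ τ}, ∃ c : G, c * σ * c⁻¹ = τ.1 := fun τ =>
    isConj_iff.mp τ.2
  choose cc hcc using hex
  -- the transporter from `ρ` to `σ` is a translate of the centraliser of `σ`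
  let e1 : {x : G // x * ρ * x⁻¹ = σ} ≃ {y : G // y * σ * y⁻¹ = σ} :=
    { toFun := fun x => ⟨x.1 * c0⁻¹, conj_aux2 hc0 x.2⟩
      invFun := fun y => ⟨y.1 * c0, conj_aux3 hc0 y.2⟩
      left_inv := fun x => by
        apply Subtype.ext
        simp
      right_inv := fun y => by
        apply Subtype.ext
        simp }
  let e2 : G ≃ {y : G // y * σ * y⁻¹ = σ} × {τ : G // IsConj σ τ} :=
    { toFun := fun x =>
        (⟨(cc ⟨x * σ * x⁻¹, isConj_iff.mpr ⟨x, rfl⟩⟩)⁻¹ * x,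
            conj_aux1 (hcc ⟨x * σ * x⁻¹, isConj_iff.mpr ⟨x, rfl⟩⟩)⟩,
          ⟨x * σ * x⁻¹, isConj_iff.mpr ⟨x, rfl⟩⟩)
      invFun := fun p => cc p.2 * p.1.1
      left_inv := fun x => by simp
      right_inv := fun p => by
        rcases p with ⟨⟨y, hy⟩, τ⟩
        have h1 : cc τ * y * σ * (cc τ * y)⁻¹ = τ.1 := conj_aux4 (hcc τ) hy
        have h2 : (⟨cc τ * y * σ * (cc τ * y)⁻¹, isConj_iff.mpr ⟨cc τ * y, rfl⟩⟩ :
            {τ : G // IsConj σ τ}) = τ := Subtype.ext h1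
        apply Prod.ext
        · apply Subtype.ext
          simp only
          rw [h2]
          group
        · exact h2 }
  rw [Nat.card_congr e1, Nat.card_congr e2, Nat.card_prod]

/-! ### Good elements -/

section good

variable {Γ G : Type} [Group Γ] [Group G] {q : ℕ} [Fact q.Prime]
  {π : Γ →* G} {κ : Γ →* (ZMod q)ˣ}

/-- For a good `γ`, `ord (π γ)` divides `ord (κ γ)`. -/
theorem orderOf_pi_dvd {γ : Γ} (hgood : 4 * orderOf (π γ) ∣ orderOf (κ γ)) :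
    orderOf (π γ) ∣ orderOf (κ γ) :=
  (Dvd.intro_left 4 rfl).trans hgood

/-- For a good `γ`: `ord γ = ord (κ γ)`. -/
theorem orderOf_eq_of_good (hinj : ∀ g, π g = 1 → κ g = 1 → g = 1) {γ : Γ}
    (hgood : 4 * orderOf (π γ) ∣ orderOf (κ γ)) : orderOf γ = orderOf (κ γ) := by
  apply Nat.dvd_antisymm
  · apply orderOf_dvd_of_pow_eq_one
    apply hinj
    · rw [map_pow]
      exact orderOf_dvd_iff_pow_eq_one.mp (orderOf_pi_dvd hgood)
    · rw [map_pow]
      exact pow_orderOf_eq_one _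
  · exact orderOf_map_dvd κ γ

/-- For a good `γ`: `4 * ord (π γ) ∣ ord γ`. -/
theorem four_mul_dvd_orderOf (hinj : ∀ g, π g = 1 → κ g = 1 → g = 1) {γ : Γ}
    (hgood : 4 * orderOf (π γ) ∣ orderOf (κ γ)) : 4 * orderOf (π γ) ∣ orderOf γ := by
  rw [orderOf_eq_of_good hinj hgood]
  exact hgood

/-- For a good `γ`: `4 ∣ ord γ`. -/
theorem four_dvd_orderOf (hinj : ∀ g, π g = 1 → κ g = 1 → g = 1) {γ : Γ}
    (hgood : 4 * orderOf (π γ) ∣ orderOf (κ γ)) : 4 ∣ orderOf γ :=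
  (Dvd.intro _ rfl).trans (four_mul_dvd_orderOf hinj hgood)

/-- For a good `γ`: `ord γ = 2 * (ord γ / 2)`. -/
theorem orderOf_eq_two_mul_half (hinj : ∀ g, π g = 1 → κ g = 1 → g = 1) {γ : Γ}
    (hgood : 4 * orderOf (π γ) ∣ orderOf (κ γ)) : orderOf γ = 2 * (orderOf γ / 2) := by
  have h4 := four_dvd_orderOf hinj hgood
  omega

/-- For a good `γ`: `ord (π γ) ∣ ord γ / 2`. -/
theorem orderOf_pi_dvd_half (hinj : ∀ g, π g = 1 → κ g = 1 → g = 1) {γ : Γ}
    (hgood : 4 * orderOf (π γ) ∣ orderOf (κ γ)) : orderOf (π γ) ∣ orderOf γ / 2 := by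
  obtain ⟨c, hc⟩ := four_mul_dvd_orderOf hinj hgood
  refine ⟨2 * c, ?_⟩
  rw [hc]
  have : 4 * orderOf (π γ) * c = 2 * (orderOf (π γ) * (2 * c)) := by ring
  rw [this, Nat.mul_div_cancel_left _ (by norm_num : 0 < 2)]

/-- The coercion `(ZMod q)ˣ → ZMod q` of a square. -/
theorem units_sq_eq_iff (a b : (ZMod q)ˣ) :
    ((a : (ZMod q)ˣ) : ZMod q) ^ 2 = ((b : (ZMod q)ˣ) : ZMod q) ^ 2 ↔ a ^ 2 = b ^ 2 := by
  rw [← Units.val_pow_eq_pow_val, ← Units.val_pow_eq_pow_val, Units.val_inj]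

/-- The coercion `(ZMod q)ˣ → ZMod q` of a square being one. -/
theorem units_sq_eq_one_iff (a : (ZMod q)ˣ) :
    ((a : (ZMod q)ˣ) : ZMod q) ^ 2 = 1 ↔ a ^ 2 = 1 := by
  rw [← Units.val_pow_eq_pow_val, Units.val_eq_one]

/-- `κ` is constant on conjugacy classes. -/
theorem kappa_conj (κ : Γ →* (ZMod q)ˣ) (g φ : Γ) : κ (g * φ * g⁻¹) = κ φ := by
  rw [map_mul, map_mul, map_inv, mul_comm (κ g), mul_assoc, mul_inv_cancel, mul_one]

/-- For a good `γ`, the square of `κ (γ ^ (t/2))` is one. -/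
theorem kappa_half_sq (hinj : ∀ g, π g = 1 → κ g = 1 → g = 1) {γ : Γ}
    (hgood : 4 * orderOf (π γ) ∣ orderOf (κ γ)) :
    (κ (γ ^ (orderOf γ / 2))) ^ 2 = 1 := by
  have h2 := orderOf_eq_two_mul_half hinj hgood
  have hord := orderOf_eq_of_good hinj hgood
  rw [map_pow, ← pow_mul, mul_comm, ← h2, hord]
  exact pow_orderOf_eq_one _

/-- For a good `γ`, the element `κ (γ ^ (t/2))` is `-1`. -/
theorem kappa_half_eq_neg_one [Finite Γ] (hinj : ∀ g, π g = 1 → κ g = 1 → g = 1) {γ : Γ}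
    (hgood : 4 * orderOf (π γ) ∣ orderOf (κ γ)) :
    ((κ (γ ^ (orderOf γ / 2)) : (ZMod q)ˣ) : ZMod q) = -1 := by
  have hpos : 0 < orderOf γ := orderOf_pos γ
  have h2 := orderOf_eq_two_mul_half hinj hgood
  have hord := orderOf_eq_of_good hinj hgood
  have hsq : ((κ (γ ^ (orderOf γ / 2)) : (ZMod q)ˣ) : ZMod q) ^ 2 = 1 :=
    (units_sq_eq_one_iff _).mpr (kappa_half_sq hinj hgood)
  have hne : ((κ (γ ^ (orderOf γ / 2)) : (ZMod q)ˣ) : ZMod q) ≠ 1 := by
    intro h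
    rw [Units.val_eq_one, map_pow] at h
    have hdvd := orderOf_dvd_of_pow_eq_one h
    rw [← hord] at hdvd
    have := Nat.le_of_dvd (by omega) hdvd
    omega
  rw [pow_two] at hsq
  rcases mul_self_eq_one_iff.mp hsq with h | h
  · exact absurd h hne
  · exact h

/-- For a good `γ`, `π (γ ^ (t/2)) = 1`. -/
theorem pi_half_eq_one (hinj : ∀ g, π g = 1 → κ g = 1 → g = 1) {γ : Γ}
    (hgood : 4 * orderOf (π γ) ∣ orderOf (κ γ)) : π (γ ^ (orderOf γ / 2)) = 1 := by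
  rw [map_pow]
  exact orderOf_dvd_iff_pow_eq_one.mp (orderOf_pi_dvd_half hinj hgood)

end good

/-! ### The five statements -/

/-- **(G2a,b)** -/
theorem stmt_GrpOrder : Stmt_GrpOrder := by
  intro Γ G _ _ _ q _ π κ hinj γ hgood
  have hpos : 0 < orderOf γ := orderOf_pos γ
  have h2 := orderOf_eq_two_mul_half hinj hgood
  refine ⟨orderOf_eq_of_good hinj hgood, four_dvd_orderOf hinj hgood, ?_⟩
  rw [Nat.card_zpowers, orderOf_pow_of_dvd (by omega) ⟨2, by omega⟩]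
  exact Nat.div_eq_of_eq_mul_left (by omega) (by omega)

/-- **(G4)** -/
theorem stmt_GrpSqImage : Stmt_GrpSqImage := by
  intro Γ G _ _ _ q _ π κ hinj γ hgood
  have hpos : 0 < orderOf γ := orderOf_pos γ
  have h2 := orderOf_eq_two_mul_half hinj hgood
  have hord := orderOf_eq_of_good hinj hgood
  set s := orderOf γ / 2 with hs
  have hspos : 0 < s := by omega
  -- the set is the image of `range s` under `i ↦ κ(γ)^(2i)`
  have hset : {c : ZMod q | ∃ h ∈ Subgroup.zpowers γ, ((κ h : (ZMod q)ˣ) : ZMod q) ^ 2 = c} =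
      (fun i : ℕ => (((κ γ) ^ (2 * i) : (ZMod q)ˣ) : ZMod q)) '' (Finset.range s : Set ℕ) := by
    ext c
    simp only [Set.mem_ofPred_eq, Set.mem_image, Finset.coe_range, Set.mem_Iio]
    constructor
    · rintro ⟨h, hh, rfl⟩
      rw [← mem_powers_iff_mem_zpowers] at hh
      obtain ⟨k, rfl⟩ := hh
      refine ⟨k % s, Nat.mod_lt _ hspos, ?_⟩
      rw [← Units.val_pow_eq_pow_val, Units.val_inj, map_pow, ← pow_mul, mul_comm k 2]
      rw [pow_eq_pow_iff_modEq, ← hord, h2]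
      exact (Nat.ModEq.mul_left' 2 (Nat.mod_modEq k s))
    · rintro ⟨i, -, rfl⟩
      refine ⟨γ ^ i, Subgroup.npow_mem_zpowers γ i, ?_⟩
      rw [← Units.val_pow_eq_pow_val, map_pow, ← pow_mul, mul_comm i 2]
  have hinjOn : Set.InjOn (fun i : ℕ => (((κ γ) ^ (2 * i) : (ZMod q)ˣ) : ZMod q))
      (Finset.range s : Set ℕ) := by
    intro i hi j hj hij
    simp only [Finset.coe_range, Set.mem_Iio] at hi hj
    simp only [Units.val_inj] at hij
    rw [pow_eq_pow_iff_modEq, ← hord] at hij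
    have := Nat.ModEq.eq_of_lt_of_lt hij (by omega) (by omega)
    omega
  rw [hset, hinjOn.ncard_image, Set.ncard_coe_finset, Finset.card_range]
  omega

/-- **(G2)** -/
theorem stmt_GrpSqOne : Stmt_GrpSqOne := by
  intro Γ G _ _ _ q _ π κ hinj γ φ hgood
  have hpos : 0 < orderOf γ := orderOf_pos γ
  have h2 := orderOf_eq_two_mul_half hinj hgood
  have hord := orderOf_eq_of_good hinj hgood
  constructor
  · intro hφ g
    constructor
    · intro hmem
      obtain ⟨i, hi⟩ := Subgroup.mem_zpowers_iff.mp hmem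
      have hκ : κ γ ^ (i * 2) = 1 := by
        rw [zpow_mul, ← map_zpow, hi, kappa_conj]
        exact_mod_cast (units_sq_eq_one_iff _).mp hφ
      have hdvd : ((orderOf (κ γ) : ℕ) : ℤ) ∣ i * 2 := orderOf_dvd_iff_zpow_eq_one.mpr hκ
      rw [← hord, h2] at hdvd
      have hdvd' : ((orderOf γ / 2 : ℕ) : ℤ) ∣ i := by
        have h3 : ((2 * (orderOf γ / 2) : ℕ) : ℤ) = ((orderOf γ / 2 : ℕ) : ℤ) * 2 := by
          push_cast; ring
        rw [h3] at hdvd
        exact (mul_dvd_mul_iff_right (by norm_num : (2 : ℤ) ≠ 0)).mp hdvd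
      obtain ⟨j, hj⟩ := hdvd'
      rw [Subgroup.mem_zpowers_iff]
      refine ⟨j, ?_⟩
      rw [← hi, hj, zpow_mul, zpow_natCast]
    · intro hmem
      exact (Subgroup.zpowers_le.mpr (Subgroup.npow_mem_zpowers γ _)) hmem
  · intro hφ g hmem
    apply hφ
    obtain ⟨j, hj⟩ := Subgroup.mem_zpowers_iff.mp hmem
    rw [units_sq_eq_one_iff, ← kappa_conj κ g φ, ← hj, map_zpow, ← zpow_natCast, ← zpow_mul,
      mul_comm, zpow_mul, zpow_natCast, kappa_half_sq hinj hgood, one_zpow]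

/-- The key equivalence behind **(G1)**. -/
theorem conj_mem_zpowers_iff {Γ G : Type} [Group Γ] [Group G] [Finite Γ] {q : ℕ} [Fact q.Prime]
    {π : Γ →* G} {κ : Γ →* (ZMod q)ˣ} (hinj : ∀ g, π g = 1 → κ g = 1 → g = 1) {γ φ : Γ}
    (hgood : 4 * orderOf (π γ) ∣ orderOf (κ γ))
    (hφ : ((κ φ : (ZMod q)ˣ) : ZMod q) ^ 2 = ((κ γ : (ZMod q)ˣ) : ZMod q) ^ 2) (g : Γ) :
    g * φ * g⁻¹ ∈ Subgroup.zpowers γ ↔ π g * π φ * (π g)⁻¹ = π γ := by
  have hpos : 0 < orderOf γ := orderOf_pos γ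
  have h2 := orderOf_eq_two_mul_half hinj hgood
  have hord := orderOf_eq_of_good hinj hgood
  have hπψ : π (g * φ * g⁻¹) = π g * π φ * (π g)⁻¹ := by
    rw [map_mul, map_mul, map_inv]
  have hφ' : κ φ ^ 2 = κ γ ^ 2 := (units_sq_eq_iff _ _).mp hφ
  constructor
  · intro hmem
    obtain ⟨i, hi⟩ := Subgroup.mem_zpowers_iff.mp hmem
    rw [← hπψ, ← hi, map_zpow]
    -- `κ γ ^ (2 * (i - 1)) = 1`
    have hκi : κ γ ^ i = κ φ := by rw [← map_zpow, hi, kappa_conj]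
    have hκ : κ γ ^ ((i - 1) * 2) = 1 := by
      rw [zpow_mul, zpow_sub_one, mul_zpow, hκi]
      have : (κ φ) ^ (2 : ℤ) = (κ γ) ^ (2 : ℤ) := by exact_mod_cast hφ'
      rw [this, inv_zpow, mul_inv_cancel]
    have hdvd : ((orderOf (κ γ) : ℕ) : ℤ) ∣ (i - 1) * 2 := orderOf_dvd_iff_zpow_eq_one.mpr hκ
    rw [← hord, h2] at hdvd
    have hdvd' : ((orderOf γ / 2 : ℕ) : ℤ) ∣ i - 1 := by
      have h3 : ((2 * (orderOf γ / 2) : ℕ) : ℤ) = ((orderOf γ / 2 : ℕ) : ℤ) * 2 := by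
        push_cast; ring
      rw [h3] at hdvd
      exact (mul_dvd_mul_iff_right (by norm_num : (2 : ℤ) ≠ 0)).mp hdvd
    have hdvd'' : ((orderOf (π γ) : ℕ) : ℤ) ∣ i - 1 :=
      (Int.natCast_dvd_natCast.mpr (orderOf_pi_dvd_half hinj hgood)).trans hdvd'
    have h1 : π γ ^ (i - 1) = 1 := orderOf_dvd_iff_zpow_eq_one.mp hdvd''
    rw [zpow_sub_one] at h1
    exact (mul_inv_eq_one.mp h1)
  · intro hconj
    rw [← hπψ] at hconj
    have hsq : ((κ (g * φ * g⁻¹) : (ZMod q)ˣ) : ZMod q) ^ 2 =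
        ((κ γ : (ZMod q)ˣ) : ZMod q) ^ 2 := by
      rw [kappa_conj]; exact hφ
    rcases sq_eq_sq_iff_eq_or_eq_neg.mp hsq with h | h
    · -- `κ ψ = κ γ`, hence `ψ = γ`
      have hκ : κ (g * φ * g⁻¹) = κ γ := Units.ext h
      have : g * φ * g⁻¹ * γ⁻¹ = 1 := by
        apply hinj
        · rw [map_mul, map_inv, hconj, mul_inv_cancel]
        · rw [map_mul, map_inv, hκ, mul_inv_cancel]
      rw [mul_inv_eq_one.mp this]
      exact Subgroup.mem_zpowers γ
    · -- `κ ψ = -κ γ`, hence `ψ = γ * γ^(t/2)`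
      have hκ : κ (g * φ * g⁻¹) = κ (γ * γ ^ (orderOf γ / 2)) := by
        apply Units.ext
        rw [h, map_mul, Units.val_mul, kappa_half_eq_neg_one hinj hgood]
        ring
      have hπ : π (g * φ * g⁻¹) = π (γ * γ ^ (orderOf γ / 2)) := by
        rw [hconj, map_mul, pi_half_eq_one hinj hgood, mul_one]
      have : g * φ * g⁻¹ * (γ * γ ^ (orderOf γ / 2))⁻¹ = 1 := by
        apply hinj
        · rw [map_mul, map_inv, hπ, mul_inv_cancel]
        · rw [map_mul, map_inv, hκ, mul_inv_cancel]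
      rw [mul_inv_eq_one.mp this]
      exact mul_mem (Subgroup.mem_zpowers γ) (Subgroup.npow_mem_zpowers γ _)

/-- **(G1)** -/
theorem stmt_GrpConj : Stmt_GrpConj := by
  intro Γ G _ _ _ q _ π κ hsurj hinj γ φ hgood hφ
  have hcongr : Nat.card {g : Γ // g * φ * g⁻¹ ∈ Subgroup.zpowers γ} =
      Nat.card {g : Γ // π g ∈ {x : G | x * π φ * x⁻¹ = π γ}} :=
    Nat.card_congr (Equiv.subtypeEquivRight fun g => by
      rw [conj_mem_zpowers_iff hinj hgood hφ g]; rfl)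
  rw [hcongr, card_preimage_eq π hsurj]
  rfl

/-- **(G3)** -/
theorem stmt_GrpConjCard : Stmt_GrpConjCard := by
  intro G _ _ ρ σ
  refine ⟨card_transporter_mul_card_class ρ σ, ?_⟩
  intro h
  rw [Nat.card_eq_zero]
  exact Or.inl ⟨fun x => h (isConj_iff.mpr ⟨x.1, x.2⟩)⟩

end Fermat.Agent.S48.helper8105
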