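import Mathlib
import Fermat.Agent.S29.helper3191_EisChar
import Fermat.Agent.S48.helper7414_CoeffLattice
import Fermat.Agent.S48.helper8231_Spec

/-!
# S48-EIGINT (helper8468): integrality of the eigenvalues of `helper8231.IsEigen2`

For a nonzero weight-two cusp form `g` on `Γ₁(M)` with nebentypus `ψ` which is an eigenvector of
`T_p` (`p ∤ M`, `q`-expansion form, eigenvalue `b p`), the eigenvalue `b p` is an algebraic
integer.  No Hecke operator, no rational structure, no normalisation `a₁(g) = 1`.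

* `isIntegral_of_eigen_rel` (Mathlib only): a sequence in a finitely generated `ℤ`-module
  satisfying `a (p n) + c a (n / p) = b a n` with `c` integral and some `a n ≠ 0`, `n ≠ 0`,
  has `b` integral.
* `eis4 χ`: the weight-four Eisenstein multiplier `c₄ ∑_{(c,d)} χ(c) (c z + d)⁻⁴` (the even-weight
  twin of `helper3960.eisPsi`, built on the landed `helper3191.wEis`): nebentypus `χ` on `Γ₀(N)`,
  and for even `χ` with `χ 0 = 0` the `q`-expansion `q + ∑_{n ≥ 2} (∑_{c ∣ n} χ(c) (n/c)³) qⁿ`.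
* `exists_fg_qCoeff`: the `q`-coefficients of a cusp form on `Γ₁(M)` with even nebentypus lie in
  one finitely generated `ℤ`-submodule of `ℂ` (`g * eis4 ψ⁻¹ ∈ S_{k+4}(Γ₀(M))`, the landed S23
  integral structure through `helper7414.exists_fg_qCoeff_mem`, formal division
  `helper7414.mem_mul_of_cauchy`).
* `isIntegral_of_isEigen2`, `exists_Zc_of_isEigen2`: the statements consumed by `Stmt_Mach`.
-/

set_option autoImplicit false

open ModularForm EisensteinSeries Filter Topology Complex CongruenceSubgroup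
open UpperHalfPlane hiding I
open scoped MatrixGroups Manifold Real

namespace Fermat.Agent.S48.helper8468

open Fermat.Agent.S29.helper3191

/-! ## The sequence-level lemma -/

/-- A `ℤ`-submodule of a finitely generated `ℤ`-submodule of `ℂ` is finitely generated. -/
theorem fg_of_le_of_fg {M M' : Submodule ℤ ℂ} (hM : M.FG) (h : M' ≤ M) : M'.FG := by
  have : IsNoetherian ℤ M := isNoetherian_of_fg_of_noetherian M hM
  have h1 : (M'.comap M.subtype).FG := IsNoetherian.noetherian _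
  have h2 : (M'.comap M.subtype).map M.subtype = M' := by
    rw [Submodule.map_comap_eq, Submodule.range_subtype]
    exact inf_eq_right.2 h
  rw [← h2]
  exact h1.map _

/-- If a sequence satisfies the `T_p`-eigen-relation and is not identically zero on the positive
integers, some coefficient of index prime to `p` is nonzero. -/
theorem exists_not_dvd_ne_zero (a : ℕ → ℂ) (p : ℕ) (hp : 1 < p) (c b : ℂ)
    (hrel : ∀ n, a (p * n) + c * (if p ∣ n then a (n / p) else 0) = b * a n)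
    (hne : ∃ n, n ≠ 0 ∧ a n ≠ 0) : ∃ m, m ≠ 0 ∧ ¬ p ∣ m ∧ a m ≠ 0 := by
  by_contra hcon
  have hcon' : ∀ m, m ≠ 0 → ¬ p ∣ m → a m = 0 := by
    intro m hm hpm
    by_contra h
    exact hcon ⟨m, hm, hpm, h⟩
  have key : ∀ n, n ≠ 0 → a n = 0 := by
    intro n
    induction n using Nat.strong_induction_on with
    | _ n ih =>
      intro hn
      by_cases hpn : p ∣ n
      · obtain ⟨n', rfl⟩ := hpn
        have hn' : n' ≠ 0 := by rintro rfl; simp at hn
        have hlt : n' < p * n' := by nlinarith [Nat.pos_of_ne_zero hn']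
        have h1 := hrel n'
        have h2 : a n' = 0 := ih n' hlt hn'
        have h3 : (if p ∣ n' then a (n' / p) else 0) = 0 := by
          split_ifs with h
          · obtain ⟨n'', rfl⟩ := h
            have hn'' : n'' ≠ 0 := by rintro rfl; simp at hn'
            rw [Nat.mul_div_cancel_left _ (by omega)]
            exact ih n'' (by nlinarith [Nat.pos_of_ne_zero hn'']) hn''
          · rfl
        rw [h2, h3] at h1
        simpa using h1
      · exact hcon' n hn hpn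
  obtain ⟨n, hn, han⟩ := hne
  exact han (key n hn)

/-- **(SEQ)** Integrality of an eigenvalue from a finitely generated coefficient module.
No normalisation `a 1 = 1` is needed. -/
theorem isIntegral_of_eigen_rel (a : ℕ → ℂ) (Λ : Submodule ℤ ℂ) (hΛ : Λ.FG) (ha : ∀ n, a n ∈ Λ)
    (p : ℕ) (hp : 1 < p) (c b : ℂ) (hc : IsIntegral ℤ c)
    (hrel : ∀ n, a (p * n) + c * (if p ∣ n then a (n / p) else 0) = b * a n)
    (hne : ∃ n, n ≠ 0 ∧ a n ≠ 0) : IsIntegral ℤ b := by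
  obtain ⟨m, -, hpm, ham⟩ := exists_not_dvd_ne_zero a p hp c b hrel hne
  set x : ℕ → ℂ := fun j => a (p ^ j * m) with hx
  have hx1 : x 1 = b * x 0 := by
    have h := hrel m
    rw [if_neg hpm, mul_zero, add_zero] at h
    simpa [hx] using h
  have hxs : ∀ j, x (j + 2) + c * x j = b * x (j + 1) := by
    intro j
    have h := hrel (p ^ (j + 1) * m)
    have hdvd : p ∣ p ^ (j + 1) * m := ⟨p ^ j * m, by ring⟩
    rw [if_pos hdvd] at h
    have e1 : p * (p ^ (j + 1) * m) = p ^ (j + 2) * m := by ring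
    have e2 : p ^ (j + 1) * m / p = p ^ j * m := by
      have : p ^ (j + 1) * m = p * (p ^ j * m) := by ring
      rw [this, Nat.mul_div_cancel_left _ (by omega)]
    rw [e1, e2] at h
    exact h
  let R : Subalgebra ℤ ℂ := Algebra.adjoin ℤ {c}
  have hR : R.toSubmodule.FG := hc.fg_adjoin_singleton
  let Λ' : Submodule ℤ ℂ := R.toSubmodule * Λ
  have hΛ' : Λ'.FG := hR.mul hΛ
  let U : Submodule ℤ ℂ := Submodule.span ℤ (Set.range fun ij : ℕ × ℕ => c ^ ij.1 * x ij.2)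
  have hUle : U ≤ Λ' := by
    rw [Submodule.span_le]
    rintro _ ⟨⟨i, j⟩, rfl⟩
    exact Submodule.mul_mem_mul
      (pow_mem (Algebra.subset_adjoin (Set.mem_singleton c)) i) (ha _)
  have hUfg : U.FG := fg_of_le_of_fg hΛ' hUle
  have hmem : ∀ i j, c ^ i * x j ∈ U := fun i j => Submodule.subset_span ⟨(i, j), rfl⟩
  have hUne : U ≠ ⊥ := by
    intro h
    have h0 : c ^ 0 * x 0 ∈ U := hmem 0 0
    rw [h, Submodule.mem_bot] at h0
    apply ham
    simpa [hx] using h0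
  refine isIntegral_of_smul_mem_submodule U hUne hUfg b ?_
  intro y hy
  induction hy using Submodule.span_induction with
  | mem y hy =>
    obtain ⟨⟨i, j⟩, rfl⟩ := hy
    rcases j with _ | j
    · have e : b • (c ^ i * x 0) = c ^ i * x 1 := by
        rw [hx1, smul_eq_mul]; ring
      rw [e]
      exact hmem i 1
    · have e : b • (c ^ i * x (j + 1)) = c ^ i * x (j + 2) + c ^ (i + 1) * x j := by
        rw [smul_eq_mul, mul_left_comm, ← hxs j]; ring
      rw [e]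
      exact Submodule.add_mem _ (hmem i (j + 2)) (hmem (i + 1) j)
  | zero => simp
  | add y z _ _ hy hz => rw [smul_add]; exact Submodule.add_mem _ hy hz
  | smul r y _ hy => rw [smul_comm]; exact Submodule.smul_mem _ r hy

/-! ## The weight-four Eisenstein multiplier -/

noncomputable section

variable {N : ℕ}

/-- The weight on `ℤ²` attached to a Dirichlet character: `(c, d) ↦ χ(c)`. -/
def chiW (χ : DirichletCharacter ℂ N) : (Fin 2 → ℤ) → ℂ := fun v ↦ χ ((v 0 : ℤ) : ZMod N)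

lemma norm_chiW_le (χ : DirichletCharacter ℂ N) (v : Fin 2 → ℤ) : ‖chiW χ v‖ ≤ 1 :=
  DirichletCharacter.norm_le_one χ _

/-- The weight-four Eisenstein multiplier `B4_χ`. -/
def eis4 (χ : DirichletCharacter ℂ N) : ℍ → ℂ :=
  fun z ↦ ((-2 * π * I) ^ 4 / 3)⁻¹ * wEis (chiW χ) 4 z

lemma eis4_eq_smul (χ : DirichletCharacter ℂ N) :
    eis4 χ = ((-2 * π * I) ^ 4 / 3)⁻¹ • wEis (chiW χ) 4 := rfl

lemma three_le_four : (3 : ℤ) ≤ 4 := by norm_num

theorem eis4_mdifferentiable (χ : DirichletCharacter ℂ N) : MDiff (eis4 χ) := by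
  rw [eis4_eq_smul]
  exact (wEis_mdifferentiable (norm_chiW_le χ) three_le_four).const_smul _

theorem eis4_slash_isBoundedAtImInfty (χ : DirichletCharacter ℂ N) (A : SL(2, ℤ)) :
    IsBoundedAtImInfty (eis4 χ ∣[(4 : ℤ)] A) := by
  rw [eis4_eq_smul, SL_smul_slash]
  exact (wEis_slash_isBoundedAtImInfty (norm_chiW_le χ) three_le_four A).const_smul_left _

lemma chiW_vecMulEquiv_symm (χ : DirichletCharacter ℂ N) {γ : SL(2, ℤ)} (hγ : γ ∈ Gamma0 N)
    (v : Fin 2 → ℤ) :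
    chiW χ ((vecMulEquiv γ).symm v) = χ ((γ 1 1 : ℤ) : ZMod N) * chiW χ v := by
  have h0 : ((γ 1 0 : ℤ) : ZMod N) = 0 := Gamma0_mem.mp hγ
  have hv : ((vecMulEquiv γ).symm v) 0 = v 0 * γ 1 1 - v 1 * γ 1 0 := by
    rw [vecMulEquiv_symm_apply]
    simp [Matrix.vecMul, dotProduct, Fin.sum_univ_two, Matrix.SpecialLinearGroup.coe_inv,
      Matrix.adjugate_fin_two]
    ring
  unfold chiW
  rw [hv, Int.cast_sub, Int.cast_mul, Int.cast_mul, h0, mul_zero, sub_zero, map_mul, mul_comm]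

/-- Nebentypus of `B4_χ` on `Γ₀(N)`. -/
theorem eis4_slash (χ : DirichletCharacter ℂ N) {γ : SL(2, ℤ)} (hγ : γ ∈ Gamma0 N) :
    eis4 χ ∣[(4 : ℤ)] γ = χ ((γ 1 1 : ℤ) : ZMod N) • eis4 χ := by
  rw [eis4_eq_smul, SL_smul_slash, wEis_slash, smul_comm]
  congr 1
  ext z
  simp only [wEis, Pi.smul_apply, smul_eq_mul, chiW_vecMulEquiv_symm χ hγ, mul_assoc]
  rw [tsum_mul_left]

theorem eis4_slash_Gamma1 (χ : DirichletCharacter ℂ N) {γ : SL(2, ℤ)} (hγ : γ ∈ Gamma1 N) :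
    eis4 χ ∣[(4 : ℤ)] γ = eis4 χ := by
  rw [eis4_slash χ (Gamma1_in_Gamma0 N hγ), ((Gamma1_mem N γ).mp hγ).2.1, map_one, one_smul]

/-! ### The `q`-expansion -/

/-- The sum of the weight-four Eisenstein summands over the row `c`. -/
def rowSum4 (z : ℍ) (c : ℤ) : ℂ := ∑' d : ℤ, eisSummand 4 ![c, d] z

lemma summable_chi_prod (χ : DirichletCharacter ℂ N) (z : ℍ) :
    Summable fun x : ℤ × ℤ ↦ χ ((x.1 : ℤ) : ZMod N) * eisSummand 4 ![x.1, x.2] z := by
  have h := (finTwoArrowEquiv ℤ).symm.summable_iff.mpr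
    (wEis_summable (norm_chiW_le χ) three_le_four z)
  refine h.congr fun x ↦ ?_
  simp [chiW, finTwoArrowEquiv_symm_apply]

lemma wEis_chi_eq (χ : DirichletCharacter ℂ N) (z : ℍ) :
    wEis (chiW χ) 4 z = ∑' c : ℤ, χ ((c : ℤ) : ZMod N) * rowSum4 z c := by
  have h1 : wEis (chiW χ) 4 z =
      ∑' x : ℤ × ℤ, χ ((x.1 : ℤ) : ZMod N) * eisSummand 4 ![x.1, x.2] z := by
    unfold wEis
    rw [← (finTwoArrowEquiv ℤ).symm.tsum_eq]
    refine tsum_congr fun x ↦ ?_
    simp [chiW, finTwoArrowEquiv_symm_apply]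
  rw [h1, Summable.tsum_prod (summable_chi_prod χ z)]
  refine tsum_congr fun c ↦ ?_
  dsimp only
  rw [rowSum4, tsum_mul_left]

lemma rowSum4_neg (z : ℍ) (c : ℤ) : rowSum4 z (-c) = rowSum4 z c := by
  unfold rowSum4
  rw [← tsum_comp_neg]
  refine tsum_congr fun d ↦ ?_
  have h4 : Even (-4 : ℤ) := ⟨-2, by norm_num⟩
  have := h4.neg_zpow ((c : ℂ) * (z : ℂ) + (d : ℂ))
  simp only [eisSummand, Matrix.cons_val_zero, Matrix.cons_val_one, Int.cast_neg]
  rw [← this]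
  congr 1
  ring

lemma summable_chi_rowSum4 (χ : DirichletCharacter ℂ N) (z : ℍ) :
    Summable fun c : ℤ ↦ χ ((c : ℤ) : ZMod N) * rowSum4 z c := by
  have h := (summable_chi_prod χ z).prod
  refine h.congr fun c ↦ ?_
  dsimp only
  rw [rowSum4, tsum_mul_left]

lemma wEis_chi_eq_pnat (χ : DirichletCharacter ℂ N) (hev : χ (-1) = 1) (h0 : χ 0 = 0) (z : ℍ) :
    wEis (chiW χ) 4 z =
      2 * ∑' c : ℕ+, χ (((c : ℕ) : ℤ) : ZMod N) * rowSum4 z ((c : ℕ) : ℤ) := by
  rw [wEis_chi_eq, tsum_int_eq_zero_add_two_mul_tsum_pnat (f := fun c : ℤ ↦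
    χ ((c : ℤ) : ZMod N) * rowSum4 z c) ?_ (summable_chi_rowSum4 χ z)]
  · simp only [Int.cast_zero, h0, zero_mul, zero_add, nsmul_eq_mul, Nat.cast_ofNat]
  · intro c
    have h1 : χ (((-c : ℤ) : ℤ) : ZMod N) = χ ((c : ℤ) : ZMod N) := by
      rw [Int.cast_neg, neg_eq_neg_one_mul, map_mul, hev, one_mul]
    simp only [h1, rowSum4_neg]

lemma rowSum4_pnat (z : ℍ) (c : ℕ+) :
    rowSum4 z ((c : ℕ) : ℤ) = ((-2 * π * I) ^ 4 / 6) *
      ∑' n : ℕ+, (n : ℂ) ^ 3 * cexp (2 * π * I * z) ^ ((c : ℕ) * (n : ℕ)) := by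
  have H := qExpansion_identity_pnat (k := 3) (by norm_num)
    ⟨(c : ℂ) * (z : ℂ), by simpa using z.2⟩
  unfold rowSum4
  have h1 : ∀ d : ℤ, eisSummand 4 ![((c : ℕ) : ℤ), d] z =
      1 / ((((⟨(c : ℂ) * (z : ℂ), by simpa using z.2⟩ : ℍ) : ℂ)) + d) ^ (3 + 1) := by
    intro d
    simp [eisSummand]
  rw [tsum_congr h1, H]
  have h6 : ((Nat.factorial 3 : ℕ) : ℂ) = 6 := by norm_num [Nat.factorial]
  rw [h6]
  congr 1
  refine tsum_congr fun n ↦ ?_
  congr 1
  rw [← Complex.exp_nat_mul, ← Complex.exp_nat_mul]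
  congr 1
  push_cast
  ring

/-- The `n`-th `q`-expansion coefficient of `B4_χ`: `∑_{c * m = n} χ(c) m³`. -/
def eis4Coeff (χ : DirichletCharacter ℂ N) (n : ℕ) : ℂ :=
  ∑ x ∈ n.divisorsAntidiagonal, χ ((x.1 : ℕ) : ZMod N) * (x.2 : ℂ) ^ 3

@[simp] lemma eis4Coeff_zero (χ : DirichletCharacter ℂ N) : eis4Coeff χ 0 = 0 := by
  simp [eis4Coeff]

@[simp] lemma eis4Coeff_one (χ : DirichletCharacter ℂ N) : eis4Coeff χ 1 = 1 := by
  simp [eis4Coeff]

/-- The `q`-expansion of `B4_χ`, as a convergent sum. -/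
theorem hasSum_eis4 (χ : DirichletCharacter ℂ N) (hev : χ (-1) = 1) (h0 : χ 0 = 0) (z : ℍ) :
    HasSum (fun m : ℕ ↦ eis4Coeff χ m • Function.Periodic.qParam 1 z ^ m) (eis4 χ z) := by
  set q : ℂ := cexp (2 * π * I * z) with hq
  have hqn : ‖q‖ < 1 := norm_exp_two_pi_I_lt_one z
  let F : ℕ+ × ℕ+ → ℂ := fun x ↦
    χ ((x.1 : ℕ) : ZMod N) * ((x.2 : ℂ) ^ 3 * q ^ ((x.1 : ℕ) * (x.2 : ℕ)))
  have hF : Summable F := by
    have hb := summable_prod_mul_pow (𝕜 := ℝ) 3 (r := ‖q‖) (by simpa using hqn)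
    refine Summable.of_norm_bounded hb fun x ↦ ?_
    simp only [F, norm_mul, norm_pow, Complex.norm_natCast]
    have := DirichletCharacter.norm_le_one χ ((x.1 : ℕ) : ZMod N)
    exact mul_le_of_le_one_left (by positivity) this
  have hval : eis4 χ z = ∑' x : ℕ+ × ℕ+, F x := by
    rw [hF.tsum_prod]
    unfold eis4
    rw [wEis_chi_eq_pnat χ hev h0 z]
    have hK : ((-2 * π * I) ^ 4 : ℂ) ≠ 0 := by
      apply pow_ne_zero
      simp [Real.pi_ne_zero, Complex.I_ne_zero]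
    have e1 : ∀ c : ℕ+, χ (((c : ℕ) : ℤ) : ZMod N) * rowSum4 z ((c : ℕ) : ℤ) =
        ((-2 * π * I) ^ 4 / 6) * ∑' n : ℕ+, F (c, n) := by
      intro c
      rw [rowSum4_pnat, Int.cast_natCast]
      simp only [F]
      rw [tsum_mul_left]
      ring
    rw [tsum_congr e1, tsum_mul_left]
    field_simp
    ring
  have h1 : HasSum F (eis4 χ z) := hval ▸ hF.hasSum
  have h2 : HasSum (F ∘ sigmaAntidiagonalEquivProd) (eis4 χ z) :=
    sigmaAntidiagonalEquivProd.hasSum_iff.mpr h1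
  have h3 : HasSum (fun e : ℕ+ ↦ eis4Coeff χ e * q ^ (e : ℕ)) (eis4 χ z) := by
    refine HasSum.sigma h2 fun e ↦ ?_
    have := hasSum_fintype
      (fun x : ((e : ℕ).divisorsAntidiagonal) ↦ (F ∘ sigmaAntidiagonalEquivProd) ⟨e, x⟩)
    convert this using 1
    rw [eis4Coeff, Finset.sum_mul, ← Finset.sum_coe_sort]
    refine Finset.sum_congr rfl fun x _ ↦ ?_
    have hx := (Nat.mem_divisorsAntidiagonal.mp x.2).1
    simp only [F, Function.comp, sigmaAntidiagonalEquivProd, divisorsAntidiagonalFactors,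
      Equiv.coe_fn_mk, PNat.mk_coe]
    rw [hx]
    ring
  have h4 := (PNat.coe_injective.hasSum_iff (f := fun m : ℕ ↦ eis4Coeff χ m * q ^ m) ?_).mp h3
  · convert h4 using 2 with m
    simp [Function.Periodic.qParam, hq]
  · intro m hm
    have : m = 0 := by
      by_contra h0'
      exact hm ⟨⟨m, Nat.pos_of_ne_zero h0'⟩, rfl⟩
    subst this
    simp

/-! ### `B4_χ` as a modular form on `Γ₁(N)` -/

lemma gamma1_le_SL (N : ℕ) :
    ((Gamma1 N : Subgroup SL(2, ℤ)) : Subgroup (GL (Fin 2) ℝ)) ≤ 𝒮ℒ :=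
  Subgroup.map_le_range _ _

/-- `B4_χ` as a modular form of weight `4` on `Γ₁(N)`. -/
def eis4MF (χ : DirichletCharacter ℂ N) : ModularForm (Gamma1 N) 4 where
  toFun := eis4 χ
  slash_action_eq' γ hγ := by
    obtain ⟨γ', hγ', rfl⟩ := hγ
    exact eis4_slash_Gamma1 χ hγ'
  holo' := eis4_mdifferentiable χ
  bdd_at_cusps' {c} hc := by
    rw [OnePoint.isBoundedAt_iff_forall_SL2Z (hc.mono (gamma1_le_SL N))]
    intro A _
    exact eis4_slash_isBoundedAtImInfty χ A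

@[simp] lemma coe_eis4MF (χ : DirichletCharacter ℂ N) : (eis4MF χ : ℍ → ℂ) = eis4 χ := rfl

lemma one_mem_strictPeriods_G1 (N : ℕ) :
    (1 : ℝ) ∈ ((Gamma1 N : Subgroup SL(2, ℤ)) : Subgroup (GL (Fin 2) ℝ)).strictPeriods := by
  simp

theorem eis4_qExpansion_coeff (χ : DirichletCharacter ℂ N) (hev : χ (-1) = 1) (h0 : χ 0 = 0)
    (m : ℕ) : (qExpansion 1 (eis4 χ)).coeff m = eis4Coeff χ m :=
  (ModularFormClass.qExpansion_coeff_unique (f := eis4MF χ) one_pos (one_mem_strictPeriods_G1 N)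
    (hasSum_eis4 χ hev h0) m).symm

/-! ## The product with a cusp form and the finitely generated module -/

lemma isZeroAtImInfty_mul_isBounded {f g : ℍ → ℂ} (hf : IsZeroAtImInfty f)
    (hg : IsBoundedAtImInfty g) : IsZeroAtImInfty (f * g) := by
  have h1 : f =o[atImInfty] (fun _ : ℍ => (1 : ℝ)) := (Asymptotics.isLittleO_one_iff ℝ).mpr hf
  have h2 : g =O[atImInfty] (fun _ : ℍ => (1 : ℝ)) := hg
  have h3 := h1.mul_isBigO h2
  simp only [mul_one] at h3
  exact (Asymptotics.isLittleO_one_iff ℝ).mp h3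

variable {M : ℕ} [NeZero M] {k : ℤ}

omit [NeZero M] in
/-- For `γ ∈ Γ₀(M)` the lower right entry is a unit modulo `M`. -/
lemma isUnit_lower_right {γ : SL(2, ℤ)} (hγ : γ ∈ Gamma0 M) :
    IsUnit (((γ 1 1 : ℤ)) : ZMod M) := by
  have h0 : ((γ 1 0 : ℤ) : ZMod M) = 0 := Gamma0_mem.mp hγ
  have hdet : γ 0 0 * γ 1 1 - γ 0 1 * γ 1 0 = 1 := by
    have := γ.det_coe
    rw [Matrix.det_fin_two] at this
    exact this
  have h := congrArg (Int.cast : ℤ → ZMod M) hdet
  push_cast at h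
  rw [h0, mul_zero, sub_zero] at h
  exact IsUnit.of_mul_eq_one _ (by rw [mul_comm]; exact h)

/-- A `Γ₀(M)`-invariant cusp form on `Γ₁(M)` is a cusp form on `Γ₀(M)`; more generally any
holomorphic `Γ₀(M)`-invariant function vanishing at all cusps. -/
theorem exists_cuspForm_Gamma0 (F : ℍ → ℂ) (hol : MDiff F)
    (inv : ∀ γ : SL(2, ℤ), γ ∈ Gamma0 M → F ∣[k] γ = F)
    (zero : ∀ A : SL(2, ℤ), IsZeroAtImInfty (F ∣[k] A)) :
    ∃ A : CuspForm (Gamma0 M) k, (⇑A : ℍ → ℂ) = F := by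
  refine ⟨{ toFun := F
            slash_action_eq' := ?_
            holo' := hol
            zero_at_cusps' := ?_ }, rfl⟩
  · rintro _ ⟨γ, hγ, rfl⟩
    exact inv γ hγ
  · intro c hc
    rw [Subgroup.IsArithmetic.isCusp_iff_isCusp_SL2Z] at hc
    rw [OnePoint.isZeroAt_iff_forall_SL2Z hc]
    intro γ _
    exact zero γ

/-- The product `g * B4_{ψ⁻¹}` is a cusp form on `Γ₀(M)`. -/
theorem exists_cuspForm_mul (ψ : DirichletCharacter ℂ M) (g : CuspForm (Gamma1 M) k)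
    (hψ : ∀ γ : SL(2, ℤ), γ ∈ Gamma0 M → (⇑g) ∣[k] γ = ψ ((γ 1 1 : ℤ) : ZMod M) • (⇑g)) :
    ∃ A : CuspForm (Gamma0 M) (k + 4), (⇑A : ℍ → ℂ) = ⇑g * eis4 ψ⁻¹ := by
  refine exists_cuspForm_Gamma0 (⇑g * eis4 ψ⁻¹)
    ((CuspFormClass.holo g).mul (eis4_mdifferentiable ψ⁻¹)) ?_ ?_
  · intro γ hγ
    rw [ModularForm.mul_slash_SL2, hψ γ hγ, eis4_slash ψ⁻¹ hγ]
    have hu := isUnit_lower_right hγ
    have hne : ψ ((γ 1 1 : ℤ) : ZMod M) ≠ 0 := by
      obtain ⟨u, hu'⟩ := hu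
      rw [← hu']
      exact (IsUnit.map ψ u.isUnit).ne_zero
    ext z
    simp only [Pi.mul_apply, Pi.smul_apply, smul_eq_mul, MulChar.inv_apply_eq_inv']
    field_simp
  · intro A
    rw [ModularForm.mul_slash_SL2]
    exact isZeroAtImInfty_mul_isBounded (CuspFormClass.zero_at_infty_slash g A)
      (eis4_slash_isBoundedAtImInfty ψ⁻¹ A)

omit [NeZero M] in
theorem qExpansion_mul_eis4 (χ : DirichletCharacter ℂ M) (g : CuspForm (Gamma1 M) k) :
    qExpansion 1 (⇑g * eis4 χ) = qExpansion 1 g * qExpansion 1 (eis4 χ) :=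
  ModularForm.qExpansion_mul_coe one_pos (one_mem_strictPeriods_G1 M) g (eis4MF χ)

omit [NeZero M] in
lemma eis4Coeff_mem_charRing (χ : DirichletCharacter ℂ M) (n : ℕ) :
    eis4Coeff χ n ∈ helper7414.charRing χ := by
  unfold eis4Coeff
  refine Subalgebra.sum_mem _ fun x _ => Subalgebra.mul_mem _
    (helper7414.eps_mem_charRing χ _) (Subalgebra.pow_mem _ (natCast_mem _ _) 3)

/-- **(FG2)** The `q`-coefficients of a cusp form on `Γ₁(M)` with an even nebentypus character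
lie in one finitely generated `ℤ`-submodule of `ℂ`. -/
theorem exists_fg_qCoeff_of_even (M : ℕ) [NeZero M] (k : ℤ) (ψ : DirichletCharacter ℂ M)
    (hev : ψ (-1) = 1) (g : CuspForm (Gamma1 M) k)
    (hψ : ∀ γ : SL(2, ℤ), γ ∈ Gamma0 M → (⇑g) ∣[k] γ = ψ ((γ 1 1 : ℤ) : ZMod M) • (⇑g)) :
    ∃ Λ : Submodule ℤ ℂ, Λ.FG ∧ ∀ n, ModularFormClass.qCoeff g n ∈ Λ := by
  by_cases hM : M = 1
  · subst hM
    obtain ⟨A, hA⟩ := exists_cuspForm_Gamma0 (M := 1) (k := k) (⇑g) (CuspFormClass.holo g)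
      (fun γ hγ => by
        rw [hψ γ hγ, (Subsingleton.elim _ 1 : ((γ 1 1 : ℤ) : ZMod 1) = 1), map_one, one_smul])
      (fun A => CuspFormClass.zero_at_infty_slash g A)
    obtain ⟨Λ, hΛ, h⟩ := helper7414.exists_fg_qCoeff_mem 1 k A
    refine ⟨Λ, hΛ, fun n => ?_⟩
    have := h n
    rwa [hA] at this
  · have : Nontrivial (ZMod M) := ZMod.nontrivial_iff.mpr hM
    have h0 : ψ⁻¹ 0 = 0 := MulChar.map_zero ψ⁻¹
    have hev' : ψ⁻¹ (-1) = 1 := by rw [MulChar.inv_apply_eq_inv', hev, inv_one]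
    obtain ⟨A, hA⟩ := exists_cuspForm_mul ψ g hψ
    obtain ⟨M0, hM0, hc⟩ := helper7414.exists_fg_qCoeff_mem M (k + 4) A
    refine ⟨(helper7414.charRing ψ⁻¹).toSubmodule * M0, (helper7414.charRing_fg ψ⁻¹).mul hM0, ?_⟩
    refine helper7414.mem_mul_of_cauchy (helper7414.charRing ψ⁻¹) M0
      (fun n => ModularFormClass.qCoeff g n) (eis4Coeff ψ⁻¹) (eis4Coeff_zero _) (eis4Coeff_one _)
      (eis4Coeff_mem_charRing ψ⁻¹) ?_
    intro n
    have hn : ModularFormClass.qCoeff A n =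
        ∑ ij ∈ Finset.HasAntidiagonal.antidiagonal n,
          ModularFormClass.qCoeff g ij.1 * eis4Coeff ψ⁻¹ ij.2 := by
      show (qExpansion 1 ⇑A).coeff n = _
      rw [hA, qExpansion_mul_eis4, PowerSeries.coeff_mul]
      refine Finset.sum_congr rfl fun ij _ => ?_
      rw [eis4_qExpansion_coeff ψ⁻¹ hev' h0]
      rfl
    rw [← hn]
    exact hc n

/-! ## Integrality of the eigenvalues -/

/-- Slash by `-1` in even weight. -/
lemma slash_neg_one_of_even (F : ℍ → ℂ) {k : ℤ} (hk : Even k) :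
    F ∣[k] (-1 : SL(2, ℤ)) = F := by
  ext z
  rw [ModularForm.SL_slash_apply]
  have h1 : ((-1 : SL(2, ℤ)) • z) = z := by
    rw [ModularGroup.SL_neg_smul, one_smul]
  have h2 : denom ((-1 : SL(2, ℤ)) : GL (Fin 2) ℝ) z = -1 := by
    simp [denom]
  rw [h1, h2, Even.neg_one_zpow (Even.neg hk), mul_one]

omit [NeZero M] in
/-- A nonzero cusp form of even weight with nebentypus `ψ` forces `ψ` to be even. -/
theorem even_of_nebentypus (ψ : DirichletCharacter ℂ M) (g : CuspForm (Gamma1 M) k)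
    (hk : Even k) (hg : g ≠ 0)
    (hψ : ∀ γ : SL(2, ℤ), γ ∈ Gamma0 M → (⇑g) ∣[k] γ = ψ ((γ 1 1 : ℤ) : ZMod M) • (⇑g)) :
    ψ (-1) = 1 := by
  have hmem : (-1 : SL(2, ℤ)) ∈ Gamma0 M := by
    rw [Gamma0_mem]
    simp
  have h := hψ (-1) hmem
  rw [slash_neg_one_of_even _ hk] at h
  obtain ⟨z, hz⟩ := DFunLike.ne_iff.mp hg
  have hz' : g z ≠ 0 := by simpa using hz
  have h2 := congrFun h z
  simp only [Pi.smul_apply, smul_eq_mul] at h2
  have h3 : ψ (((-1 : SL(2, ℤ)) 1 1 : ℤ) : ZMod M) = 1 := by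
    have : (ψ (((-1 : SL(2, ℤ)) 1 1 : ℤ) : ZMod M) - 1) * g z = 0 := by
      rw [sub_mul, one_mul, ← h2, sub_self]
    rcases mul_eq_zero.mp this with h' | h'
    · exact sub_eq_zero.mp h'
    · exact absurd h' hz'
  simpa using h3

/-- **(FG2)**, even weight: the `q`-coefficients of a cusp form on `Γ₁(M)` of even weight with a
nebentypus character lie in one finitely generated `ℤ`-submodule of `ℂ`. -/
theorem exists_fg_qCoeff (M : ℕ) [NeZero M] (k : ℤ) (hk : Even k) (ψ : DirichletCharacter ℂ M)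
    (g : CuspForm (Gamma1 M) k)
    (hψ : ∀ γ : SL(2, ℤ), γ ∈ Gamma0 M → (⇑g) ∣[k] γ = ψ ((γ 1 1 : ℤ) : ZMod M) • (⇑g)) :
    ∃ Λ : Submodule ℤ ℂ, Λ.FG ∧ ∀ n, ModularFormClass.qCoeff g n ∈ Λ := by
  by_cases hg : g = 0
  · subst hg
    refine ⟨⊥, Submodule.fg_bot, fun n => ?_⟩
    have : ModularFormClass.qCoeff (⇑(0 : CuspForm (Gamma1 M) k)) n = 0 := by
      show (qExpansion 1 ⇑(0 : CuspForm (Gamma1 M) k)).coeff n = 0
      have h0 : (⇑(0 : CuspForm (Gamma1 M) k) : ℍ → ℂ) = 0 := rfl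
      rw [h0, UpperHalfPlane.qExpansion_zero]
      simp
    rw [this]
    exact Submodule.zero_mem _
  · exact exists_fg_qCoeff_of_even M k ψ (even_of_nebentypus ψ g hk hg hψ) g hψ

/-- A nonzero cusp form on `Γ₁(M)` has a nonzero `q`-coefficient of positive index. -/
theorem exists_qCoeff_ne_zero (g : CuspForm (Gamma1 M) k) (hg : g ≠ 0) :
    ∃ n, n ≠ 0 ∧ ModularFormClass.qCoeff g n ≠ 0 := by
  by_contra hcon
  apply hg
  have hall : ∀ n, (qExpansion 1 ⇑g).coeff n = 0 := by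
    intro n
    by_cases hn : n = 0
    · subst hn
      exact CuspFormClass.qExpansion_coeff_zero g one_pos (one_mem_strictPeriods_G1 M)
    · by_contra h
      exact hcon ⟨n, hn, h⟩
  have hq : qExpansion 1 ⇑g = 0 := by
    ext n
    rw [hall n]
    simp
  have hfun : (⇑g : ℍ → ℂ) = 0 :=
    (UpperHalfPlane.qExpansion_eq_zero_iff one_pos
      (SlashInvariantFormClass.periodic_comp_ofComplex g (one_mem_strictPeriods_G1 M))
      (CuspFormClass.holo g)
      (ModularFormClass.bdd_at_infty g)).mp hq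
  exact DFunLike.coe_injective hfun

/-- **(EI, general form)** integrality of a `T_p`-eigenvalue (`q`-expansion form) of a nonzero
cusp form of even weight on `Γ₁(M)` with nebentypus. -/
theorem isIntegral_eigenvalue (M : ℕ) [NeZero M] (k : ℤ) (hk : Even k)
    (ψ : DirichletCharacter ℂ M) (g : CuspForm (Gamma1 M) k) (hg : g ≠ 0)
    (hψ : ∀ γ : SL(2, ℤ), γ ∈ Gamma0 M → (⇑g) ∣[k] γ = ψ ((γ 1 1 : ℤ) : ZMod M) • (⇑g))
    (p : ℕ) (hp : 1 < p) (c b : ℂ) (hc : IsIntegral ℤ c)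
    (hrel : ∀ n : ℕ, ModularFormClass.qCoeff g (p * n) +
        c * (if p ∣ n then ModularFormClass.qCoeff g (n / p) else 0) =
      b * ModularFormClass.qCoeff g n) : IsIntegral ℤ b := by
  obtain ⟨Λ, hΛ, ha⟩ := exists_fg_qCoeff M k hk ψ g hψ
  exact isIntegral_of_eigen_rel (fun n => ModularFormClass.qCoeff g n) Λ hΛ ha p hp c b hc hrel
    (exists_qCoeff_ne_zero g hg)

/-- **(EI)** The eigenvalues of `helper8231.IsEigen2` are algebraic integers. -/
theorem isIntegral_of_isEigen2 (M : ℕ) [NeZero M] (ψ : DirichletCharacter ℂ M)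
    (g : CuspForm (Gamma1 M) 2) (b : ℕ → ℂ) (h : helper8231.IsEigen2 M ψ g b)
    (p : ℕ) (hp : p.Prime) (hpM : ¬ p ∣ M) : IsIntegral ℤ (b p) := by
  obtain ⟨hg, hψ, hrel⟩ := h
  have hc : IsIntegral ℤ ((p : ℂ) * ψ (p : ZMod M)) :=
    (isIntegral_natCast p).mul (helper7414.isIntegral_dirichletCharacter ψ _)
  exact isIntegral_eigenvalue M 2 even_two ψ g hg hψ p hp.one_lt _ (b p) hc (hrel p hp hpM)

/-- **(EI')** The two existentials of `Stmt_Mach`: `b p` and `p ψ(p)` are elements of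
`Zc = integralClosure ℤ ℂ`. -/
theorem exists_Zc_of_isEigen2 (M : ℕ) [NeZero M] (ψ : DirichletCharacter ℂ M)
    (g : CuspForm (Gamma1 M) 2) (b : ℕ → ℂ) (h : helper8231.IsEigen2 M ψ g b)
    (p : ℕ) (hp : p.Prime) (hpM : ¬ p ∣ M) :
    ∃ t δ : helper8231.Zc, (t : ℂ) = b p ∧ (δ : ℂ) = (p : ℂ) * ψ (p : ZMod M) := by
  have hc : IsIntegral ℤ ((p : ℂ) * ψ (p : ZMod M)) :=
    (isIntegral_natCast p).mul (helper7414.isIntegral_dirichletCharacter ψ _)
  exact ⟨⟨b p, isIntegral_of_isEigen2 M ψ g b h p hp hpM⟩, ⟨_, hc⟩, rfl, rfl⟩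

end

end Fermat.Agent.S48.helper8468
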