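/-
helper8809 — S48 (Deligne–Serre), reduction leaf R1: DEPLETION.

For `f : CuspForm (Gamma1 N) k` the `N`-depleted form
`g(τ) = ∑_{b mod N} c_b f(τ + b/N)`, `c_b = (1/N) ∑_{a ∈ (ℤ/N)ˣ} e(-ab/N)`,
is a cusp form on `Gamma1 (N ^ 2)` with `q`-coefficients `a_n(g) = a_n(f)` for `gcd(n, N) = 1`
and `0` otherwise.
-/
import Mathlib
import Fermat.Prelude.Def_FLTPrelim_Modularity
import Fermat.Prelude.Def_GaloisRep_Residual
import Fermat.Prelude.Def_Deformations_MatrixRepresentation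

set_option autoImplicit false

open UpperHalfPlane ModularForm CongruenceSubgroup Matrix.GeneralLinearGroup
open scoped MatrixGroups ModularForm

namespace Fermat.Agent.S48.helper8809

noncomputable section

/-- The action of `[1, x; 0, 1]` on `ℍ` is `τ ↦ τ + x`. -/
lemma coe_upperRightHom_smul (x : ℝ) (τ : ℍ) :
    ((upperRightHom x • τ : ℍ) : ℂ) = (τ : ℂ) + x := by
  simp [σ, num, denom, UpperHalfPlane.coe_smul]

/-- Slashing with `[1, x; 0, 1]` is translation by `x`, in every weight. -/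
lemma slash_upperRightHom (k : ℤ) (f : ℍ → ℂ) (x : ℝ) (τ : ℍ) :
    (f ∣[k] upperRightHom x) τ = f (upperRightHom x • τ) := by
  simp [slash_apply, σ, denom, Matrix.GeneralLinearGroup.val_det_apply]

lemma mapGL_apply' (γ : SL(2, ℤ)) (i j : Fin 2) :
    ((Matrix.SpecialLinearGroup.mapGL ℝ γ : GL (Fin 2) ℝ) : Matrix (Fin 2) (Fin 2) ℝ) i j =
      ((γ i j : ℤ) : ℝ) := by
  simp

open ConjAct Pointwise in
/-- Conjugating `Γ₁(N²)` by the translation `τ ↦ τ + b/N` lands in `Γ₁(N)`. -/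
lemma gamma1_sq_le_conj (N : ℕ) [NeZero N] (b : ℤ) :
    ((Gamma1 (N ^ 2) : Subgroup SL(2, ℤ)) : Subgroup (GL (Fin 2) ℝ)) ≤
      toConjAct (upperRightHom ((b : ℝ) / N))⁻¹ •
        ((Gamma1 N : Subgroup SL(2, ℤ)) : Subgroup (GL (Fin 2) ℝ)) := by
  rintro x ⟨γ, hγ, rfl⟩
  rw [Subgroup.mem_pointwise_smul_iff_inv_smul_mem, ConjAct.smul_def]
  simp only [map_inv, inv_inv, ofConjAct_toConjAct]
  obtain ⟨h00, h11, h10⟩ := (Gamma1_mem _ _).mp hγ
  have hN : (N : ℝ) ≠ 0 := Nat.cast_ne_zero.mpr (NeZero.ne N)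
  -- integrality data
  obtain ⟨α', hα'⟩ : ((N ^ 2 : ℕ) : ℤ) ∣ γ 0 0 - 1 := by
    rw [← ZMod.intCast_zmod_eq_zero_iff_dvd]; push_cast; rw [h00]; ring
  obtain ⟨δ', hδ'⟩ : ((N ^ 2 : ℕ) : ℤ) ∣ γ 1 1 - 1 := by
    rw [← ZMod.intCast_zmod_eq_zero_iff_dvd]; push_cast; rw [h11]; ring
  obtain ⟨c', hc'⟩ : ((N ^ 2 : ℕ) : ℤ) ∣ γ 1 0 :=
    (ZMod.intCast_zmod_eq_zero_iff_dvd _ _).mp h10
  have hdet : γ 0 0 * γ 1 1 - γ 0 1 * γ 1 0 = 1 := by
    have := γ.det_coe
    rwa [Matrix.det_fin_two] at this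
  push_cast at hα' hδ' hc'
  have e00 : γ 0 0 = 1 + (N : ℤ) ^ 2 * α' := by linarith
  have e11 : γ 1 1 = 1 + (N : ℤ) ^ 2 * δ' := by linarith
  let γ' : SL(2, ℤ) := ⟨!![γ 0 0 + b * N * c', γ 0 1 + b * N * (δ' - α') - b ^ 2 * c';
      γ 1 0, γ 1 1 - b * N * c'], by
    rw [Matrix.det_fin_two_of]
    rw [e00, e11, hc'] at hdet ⊢
    linear_combination hdet⟩
  refine ⟨γ', ?_, ?_⟩
  · refine (Gamma1_mem _ _).mpr ⟨?_, ?_, ?_⟩
    · show ((γ 0 0 + b * N * c' : ℤ) : ZMod N) = 1
      rw [e00]; push_cast; simp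
    · show ((γ 1 1 - b * N * c' : ℤ) : ZMod N) = 1
      rw [e11]; push_cast; simp
    · show ((γ 1 0 : ℤ) : ZMod N) = 0
      rw [hc']; push_cast; simp
  · rw [eq_mul_inv_iff_mul_eq]
    apply Matrix.GeneralLinearGroup.ext
    intro i j
    have e00r : ((γ 0 0 : ℤ) : ℝ) = 1 + (N : ℝ) ^ 2 * α' := by exact_mod_cast e00
    have e11r : ((γ 1 1 : ℤ) : ℝ) = 1 + (N : ℝ) ^ 2 * δ' := by exact_mod_cast e11
    have e10r : ((γ 1 0 : ℤ) : ℝ) = (N : ℝ) ^ 2 * c' := by exact_mod_cast hc'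
    simp only [Matrix.GeneralLinearGroup.coe_mul, Matrix.mul_apply, Fin.sum_univ_two,
      mapGL_apply', upperRightHom_apply]
    fin_cases i <;> fin_cases j <;> simp [γ', e00r, e11r, e10r] <;> field_simp <;> ring

/-- `τ ↦ f(τ + b/N)` as a cusp form on `Γ₁(N²)`. -/
def shiftCusp (N : ℕ) [NeZero N] {k : ℤ} (b : ℤ) (f : CuspForm (Gamma1 N) k) :
    CuspForm (Gamma1 (N ^ 2)) k where
  toFun := ⇑f ∣[k] upperRightHom ((b : ℝ) / N)
  slash_action_eq' γ hγ :=
    (CuspForm.translate f (upperRightHom ((b : ℝ) / N))).slash_action_eq' γ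
      (gamma1_sq_le_conj N b hγ)
  holo' := (CuspForm.translate f (upperRightHom ((b : ℝ) / N))).holo'
  zero_at_cusps' hc :=
    (CuspForm.translate f (upperRightHom ((b : ℝ) / N))).zero_at_cusps'
      (hc.mono (gamma1_sq_le_conj N b))

lemma shiftCusp_apply (N : ℕ) [NeZero N] {k : ℤ} (b : ℤ) (f : CuspForm (Gamma1 N) k) (τ : ℍ) :
    shiftCusp N b f τ = f (upperRightHom ((b : ℝ) / N) • τ) :=
  slash_upperRightHom k f _ τ

lemma one_mem_strictPeriods_Gamma1 (N : ℕ) :
    (1 : ℝ) ∈ ((Gamma1 N : Subgroup SL(2, ℤ)) : Subgroup (GL (Fin 2) ℝ)).strictPeriods := by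
  rw [strictPeriods_Gamma1]
  exact AddSubgroup.mem_zmultiples 1

/-- `q`-coefficients from a pointwise `q`-expansion. -/
lemma qCoeff_eq_of_hasSum (N : ℕ) [NeZero N] {k : ℤ} (g : CuspForm (Gamma1 N) k) (c : ℕ → ℂ)
    (h : ∀ τ : ℍ, HasSum (fun m ↦ c m • Function.Periodic.qParam 1 (τ : ℂ) ^ m) (g τ)) (m : ℕ) :
    ModularFormClass.qCoeff g m = c m :=
  (ModularFormClass.qExpansion_coeff_unique one_pos (one_mem_strictPeriods_Gamma1 N) h m).symm

/-- The pointwise `q`-expansion of a cusp form on `Γ₁(N)`. -/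
lemma hasSum_qCoeff (N : ℕ) [NeZero N] {k : ℤ} (f : CuspForm (Gamma1 N) k) (τ : ℍ) :
    HasSum (fun m ↦ ModularFormClass.qCoeff f m * Function.Periodic.qParam 1 (τ : ℂ) ^ m) (f τ) :=
  ModularForm.hasSum_qExpansion (f := f) one_pos (one_mem_strictPeriods_Gamma1 N) τ

lemma qParam_shift (N : ℕ) [NeZero N] (b : ℤ) (τ : ℍ) :
    Function.Periodic.qParam 1 ((upperRightHom ((b : ℝ) / N) • τ : ℍ) : ℂ) =
      Function.Periodic.qParam 1 (τ : ℂ) * ZMod.stdAddChar (b : ZMod N) := by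
  rw [coe_upperRightHom_smul, ZMod.stdAddChar_coe, Function.Periodic.qParam,
    Function.Periodic.qParam, ← Complex.exp_add]
  congr 1
  push_cast
  ring

/-- The pointwise `q`-expansion of the shifted form. -/
lemma hasSum_shiftCusp (N : ℕ) [NeZero N] {k : ℤ} (b : ℤ) (f : CuspForm (Gamma1 N) k) (τ : ℍ) :
    HasSum (fun m : ℕ ↦ (ModularFormClass.qCoeff f m *
        ZMod.stdAddChar ((b : ZMod N) * (m : ZMod N))) • Function.Periodic.qParam 1 (τ : ℂ) ^ m)
      (shiftCusp N b f τ) := by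
  have h := hasSum_qCoeff N f (upperRightHom ((b : ℝ) / N) • τ)
  rw [qParam_shift, ← shiftCusp_apply] at h
  convert h using 2 with m
  rw [smul_eq_mul, mul_pow, mul_comm (b : ZMod N) (m : ZMod N), ← nsmul_eq_mul,
    AddChar.map_nsmul_eq_pow]
  ring

/-- Projector onto the residue class `a mod N` of the `q`-expansion:
`∑ aₙ qⁿ ↦ ∑_{n ≡ a (N)} aₙ qⁿ`, as a cusp form on `Γ₁(N²)`. -/
def classProj (N : ℕ) [NeZero N] {k : ℤ} (a : ZMod N) (f : CuspForm (Gamma1 N) k) :
    CuspForm (Gamma1 (N ^ 2)) k :=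
  ((N : ℂ)⁻¹) • ∑ b : ZMod N, (ZMod.stdAddChar (-(a * b)) : ℂ) • shiftCusp N (b.val : ℤ) f

lemma classProj_apply (N : ℕ) [NeZero N] {k : ℤ} (a : ZMod N) (f : CuspForm (Gamma1 N) k)
    (τ : ℍ) :
    classProj N a f τ =
      (N : ℂ)⁻¹ * ∑ b : ZMod N, ZMod.stdAddChar (-(a * b)) * shiftCusp N (b.val : ℤ) f τ := by
  simp [classProj]

lemma sum_stdAddChar_class (N : ℕ) [NeZero N] (a : ZMod N) (m : ℕ) :
    ∑ b : ZMod N, (ZMod.stdAddChar (-(a * b)) : ℂ) * ZMod.stdAddChar (b * (m : ZMod N)) =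
      if (m : ZMod N) = a then (N : ℂ) else 0 := by
  have h := AddChar.sum_mulShift (R' := ℂ) ((m : ZMod N) - a) (ZMod.isPrimitive_stdAddChar N)
  rw [ZMod.card] at h
  simp only [sub_eq_zero] at h
  have h' : (∑ x : ZMod N, (ZMod.stdAddChar (x * ((m : ZMod N) - a)) : ℂ)) =
      if (m : ZMod N) = a then (N : ℂ) else 0 := by
    rw [h]; split_ifs <;> simp
  rw [← h']
  refine Finset.sum_congr rfl fun b _ ↦ ?_
  rw [← AddChar.map_add_eq_mul]
  congr 1
  ring

theorem qCoeff_classProj (N : ℕ) [NeZero N] {k : ℤ} (a : ZMod N) (f : CuspForm (Gamma1 N) k)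
    (m : ℕ) :
    ModularFormClass.qCoeff (classProj N a f) m =
      if (m : ZMod N) = a then ModularFormClass.qCoeff f m else 0 := by
  refine qCoeff_eq_of_hasSum (N ^ 2) (classProj N a f)
    (fun m ↦ if (m : ZMod N) = a then ModularFormClass.qCoeff f m else 0) (fun τ ↦ ?_) m
  have hb : ∀ b : ZMod N, HasSum (fun m : ℕ ↦ (ModularFormClass.qCoeff f m *
        ZMod.stdAddChar (b * (m : ZMod N))) • Function.Periodic.qParam 1 (τ : ℂ) ^ m)
      (shiftCusp N (b.val : ℤ) f τ) := by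
    intro b
    have h := hasSum_shiftCusp N (b.val : ℤ) f τ
    simpa using h
  have h1 := (hasSum_sum (fun b (_ : b ∈ (Finset.univ : Finset (ZMod N))) ↦
    (hb b).mul_left (ZMod.stdAddChar (-(a * b)) : ℂ))).mul_left ((N : ℂ)⁻¹)
  rw [← classProj_apply] at h1
  have key : (fun m : ℕ ↦ (if (m : ZMod N) = a then ModularFormClass.qCoeff f m else 0) •
        Function.Periodic.qParam 1 (τ : ℂ) ^ m) =
      fun m : ℕ ↦ (N : ℂ)⁻¹ * ∑ b : ZMod N, (ZMod.stdAddChar (-(a * b)) : ℂ) *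
        ((ModularFormClass.qCoeff f m * ZMod.stdAddChar (b * (m : ZMod N))) •
          Function.Periodic.qParam 1 (τ : ℂ) ^ m) := by
    funext m
    have hN : (N : ℂ) ≠ 0 := Nat.cast_ne_zero.mpr (NeZero.ne N)
    have h2 : ∑ b : ZMod N, (ZMod.stdAddChar (-(a * b)) : ℂ) *
        ((ModularFormClass.qCoeff f m * ZMod.stdAddChar (b * (m : ZMod N))) •
          Function.Periodic.qParam 1 (τ : ℂ) ^ m) =
        (∑ b : ZMod N, (ZMod.stdAddChar (-(a * b)) : ℂ) * ZMod.stdAddChar (b * (m : ZMod N))) *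
          (ModularFormClass.qCoeff f m * Function.Periodic.qParam 1 (τ : ℂ) ^ m) := by
      rw [Finset.sum_mul]
      refine Finset.sum_congr rfl fun b _ ↦ ?_
      rw [smul_eq_mul]
      ring
    rw [h2, sum_stdAddChar_class]
    split_ifs with h
    · rw [smul_eq_mul]
      field_simp
    · simp
  rw [key]
  exact h1

/-- The `N`-depleted form `∑_{gcd(n,N)=1} aₙ qⁿ`, a cusp form on `Γ₁(N²)`. -/
def deplete (N : ℕ) [NeZero N] {k : ℤ} (f : CuspForm (Gamma1 N) k) :
    CuspForm (Gamma1 (N ^ 2)) k :=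
  ∑ a : (ZMod N)ˣ, classProj N (a : ZMod N) f

lemma deplete_apply (N : ℕ) [NeZero N] {k : ℤ} (f : CuspForm (Gamma1 N) k) (τ : ℍ) :
    deplete N f τ = ∑ a : (ZMod N)ˣ, classProj N (a : ZMod N) f τ := by
  simp [deplete]

lemma sum_units_ite (N : ℕ) [NeZero N] (m : ℕ) (x : ℂ) :
    (∑ a : (ZMod N)ˣ, if (m : ZMod N) = (a : ZMod N) then x else 0) =
      if Nat.Coprime m N then x else 0 := by
  by_cases hm : Nat.Coprime m N
  · rw [if_pos hm]
    obtain ⟨u, hu⟩ := (ZMod.isUnit_iff_coprime m N).mpr hm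
    rw [Finset.sum_eq_single u]
    · rw [if_pos hu.symm]
    · intro a _ hau
      rw [if_neg]
      intro h
      exact hau (Units.ext (by rw [← h, hu]))
    · intro h
      exact absurd (Finset.mem_univ u) h
  · rw [if_neg hm]
    refine Finset.sum_eq_zero fun a _ ↦ ?_
    rw [if_neg]
    intro h
    exact hm ((ZMod.isUnit_iff_coprime m N).mp (h ▸ a.isUnit))

/-- **q-expansion of the depleted form.** -/
theorem qCoeff_deplete (N : ℕ) [NeZero N] {k : ℤ} (f : CuspForm (Gamma1 N) k) (m : ℕ) :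
    ModularFormClass.qCoeff (deplete N f) m =
      if Nat.Coprime m N then ModularFormClass.qCoeff f m else 0 := by
  refine qCoeff_eq_of_hasSum (N ^ 2) (deplete N f)
    (fun m ↦ if Nat.Coprime m N then ModularFormClass.qCoeff f m else 0) (fun τ ↦ ?_) m
  have h1 := hasSum_sum (fun a (_ : a ∈ (Finset.univ : Finset (ZMod N)ˣ)) ↦
    hasSum_qCoeff (N ^ 2) (classProj N (a : ZMod N) f) τ)
  rw [← deplete_apply] at h1
  have key : (fun m : ℕ ↦ (if Nat.Coprime m N then ModularFormClass.qCoeff f m else 0) •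
        Function.Periodic.qParam 1 (τ : ℂ) ^ m) =
      fun m : ℕ ↦ ∑ a : (ZMod N)ˣ, ModularFormClass.qCoeff (classProj N (a : ZMod N) f) m *
        Function.Periodic.qParam 1 (τ : ℂ) ^ m := by
    funext m
    rw [← Finset.sum_mul, smul_eq_mul]
    congr 1
    simp only [qCoeff_classProj]
    exact (sum_units_ite N m _).symm
  rw [key]
  exact h1

/-- **Depletion** (existence form). -/
theorem exists_depleted (N : ℕ) [NeZero N] (f : CuspForm (Gamma1 N) 1) :
    ∃ g : CuspForm (Gamma1 (N ^ 2)) 1, ∀ n : ℕ,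
      ModularFormClass.qCoeff g n = if Nat.Coprime n N then ModularFormClass.qCoeff f n else 0 :=
  ⟨deplete N f, qCoeff_deplete N f⟩

/-! ### Formal consequences for coefficient sequences -/

section Sequences

variable {N : ℕ} {ε : ZMod N → ℂ} {a : ℕ → ℂ}

/-- The frozen Hecke relations of S48 for a coefficient sequence. -/
def HeckeRel (N : ℕ) (ε : ZMod N → ℂ) (a : ℕ → ℂ) : Prop :=
  ∀ p : ℕ, p.Prime → ¬ p ∣ N → ∀ n : ℕ,
    a (p * n) + ε (p : ZMod N) * (if p ∣ n then a (n / p) else 0) = a p * a n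

/-- A sequence is `N`-depleted if it vanishes at `0` and at every `n` not prime to `N`. -/
def Depleted (N : ℕ) (a : ℕ → ℂ) : Prop :=
  a 0 = 0 ∧ ∀ n : ℕ, ¬ Nat.Coprime n N → a n = 0

/-- For a depleted sequence with `a 1 = 1` satisfying the Hecke relations, every coefficient
lies in any subring containing the `a p` and `ε p` (`p ∤ N` prime). -/
theorem mem_subring_of_depleted (ha1 : a 1 = 1) (hT : HeckeRel N ε a) (hdep : Depleted N a)
    (O : Subring ℂ) (hO : ∀ p : ℕ, p.Prime → ¬ p ∣ N → a p ∈ O ∧ ε (p : ZMod N) ∈ O) (n : ℕ) :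
    a n ∈ O := by
  induction n using Nat.strong_induction_on with
  | _ n ih =>
    rcases Nat.lt_or_ge n 2 with h | h
    · interval_cases n
      · rw [hdep.1]; exact O.zero_mem
      · rw [ha1]; exact O.one_mem
    · have hp := Nat.minFac_prime (show n ≠ 1 by omega)
      set p := n.minFac with hpdef
      obtain ⟨n', hn'⟩ := Nat.minFac_dvd n
      by_cases hpN : p ∣ N
      · rw [hdep.2 n]
        · exact O.zero_mem
        · intro hc
          exact hp.one_lt.ne' (Nat.eq_one_of_dvd_coprimes hc (Nat.minFac_dvd n) hpN)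
      · have hlt : n' < n := by
          rw [hn']
          have := hp.two_le
          have hn'pos : 0 < n' := by
            rcases Nat.eq_zero_or_pos n' with h0 | h0
            · rw [h0, mul_zero] at hn'; omega
            · exact h0
          nlinarith
        have hrel := hT p hp hpN n'
        rw [← hn'] at hrel
        have e : a n = a p * a n' - ε (p : ZMod N) * (if p ∣ n' then a (n' / p) else 0) := by
          rw [← hrel]; ring
        rw [e]
        refine O.sub_mem (O.mul_mem (hO p hp hpN).1 (ih n' hlt)) (O.mul_mem (hO p hp hpN).2 ?_)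
        split_ifs with hd
        · exact ih _ (lt_of_le_of_lt (Nat.div_le_self _ _) hlt)
        · exact O.zero_mem

/-- A depleted Hecke sequence is multiplicative on coprime arguments (all of them, including
those not prime to `N`). -/
theorem mul_of_coprime_of_depleted (ha1 : a 1 = 1) (hT : HeckeRel N ε a) (hdep : Depleted N a)
    (m n : ℕ) (hmn : Nat.Coprime m n) : a (m * n) = a m * a n := by
  induction m using Nat.strong_induction_on generalizing n with
  | _ m ih =>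
    rcases Nat.lt_or_ge m 2 with h | h
    · interval_cases m
      · rw [zero_mul, hdep.1, zero_mul]
      · rw [one_mul, ha1, one_mul]
    · have hp := Nat.minFac_prime (show m ≠ 1 by omega)
      set p := m.minFac with hpdef
      obtain ⟨m', hm'⟩ := Nat.minFac_dvd m
      have hm'pos : 0 < m' := by
        rcases Nat.eq_zero_or_pos m' with h0 | h0
        · rw [h0, mul_zero] at hm'; omega
        · exact h0
      have hlt : m' < m := by
        rw [hm']
        have := hp.two_le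
        nlinarith
      by_cases hpN : p ∣ N
      · have h1 : a m = 0 := hdep.2 m fun hc ↦
          hp.one_lt.ne' (Nat.eq_one_of_dvd_coprimes hc (Nat.minFac_dvd m) hpN)
        have h2 : a (m * n) = 0 := hdep.2 _ fun hc ↦
          hp.one_lt.ne' (Nat.eq_one_of_dvd_coprimes hc
            ((Nat.minFac_dvd m).trans (Dvd.intro n rfl)) hpN)
        rw [h1, h2, zero_mul]
      · have hpn : ¬ p ∣ n := fun hd ↦
          hp.one_lt.ne' (Nat.eq_one_of_dvd_coprimes hmn (Nat.minFac_dvd m) hd)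
        have hm'n : Nat.Coprime m' n := Nat.Coprime.coprime_dvd_left ⟨p, by rw [hm', mul_comm]⟩ hmn
        have r1 := hT p hp hpN (m' * n)
        have r2 := hT p hp hpN m'
        rw [← mul_assoc, ← hm'] at r1
        rw [← hm'] at r2
        have hdiv : p ∣ m' * n ↔ p ∣ m' :=
          ⟨fun hd ↦ (hp.dvd_mul.mp hd).resolve_right hpn, fun hd ↦ hd.mul_right n⟩
        have e1 : a (m' * n) = a m' * a n := ih m' hlt n hm'n
        by_cases hd : p ∣ m'
        · obtain ⟨m'', hm''⟩ := hd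
          have hdivn : m' * n / p = m'' * n := by
            rw [hm'', mul_assoc, Nat.mul_div_cancel_left _ hp.pos]
          have hdivm : m' / p = m'' := by rw [hm'', Nat.mul_div_cancel_left _ hp.pos]
          have hm''lt : m'' < m := by
            refine lt_of_le_of_lt ?_ hlt
            rw [hm'']
            exact Nat.le_mul_of_pos_left _ hp.pos
          have hm''n : Nat.Coprime m'' n :=
            Nat.Coprime.coprime_dvd_left ⟨p, by rw [hm'', mul_comm]⟩ hm'n
          have e2 : a (m'' * n) = a m'' * a n := ih m'' hm''lt n hm''n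
          rw [if_pos (hdiv.mpr ⟨m'', hm''⟩), hdivn, e1, e2] at r1
          rw [if_pos ⟨m'', hm''⟩, hdivm] at r2
          linear_combination r1 - a n * r2
        · rw [if_neg (fun h ↦ hd (hdiv.mp h)), e1] at r1
          rw [if_neg hd] at r2
          linear_combination r1 - a n * r2

end Sequences

/-! ### Depletion preserves the frozen hypotheses, and the frozen conclusion descends -/

lemma changeLevel_sq_natCast (N : ℕ) [NeZero N] (ε : DirichletCharacter ℂ N) (p : ℕ)
    (hp : Nat.Coprime p N) :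
    DirichletCharacter.changeLevel (Dvd.intro_left (N ^ 1) (by ring : N ^ 1 * N = N ^ 2)) ε
      ((p : ℕ) : ZMod (N ^ 2)) = ε (p : ZMod N) := by
  have h := DirichletCharacter.changeLevel_eq_cast_of_dvd' ε
    (Dvd.intro_left (N ^ 1) (by ring : N ^ 1 * N = N ^ 2)) (a := (p : ℤ))
    (Nat.isCoprime_iff_coprime.mpr (Nat.Coprime.pow_right 2 hp))
  simpa using h

/-- The character `ε` at level `N ^ 2`. -/
abbrev charSq (N : ℕ) [NeZero N] (ε : DirichletCharacter ℂ N) : DirichletCharacter ℂ (N ^ 2) :=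
  DirichletCharacter.changeLevel (Dvd.intro_left (N ^ 1) (by ring : N ^ 1 * N = N ^ 2)) ε

/-- The constant term of a cusp form on `Γ₁(N)` vanishes. -/
lemma qCoeff_zero (N : ℕ) [NeZero N] {k : ℤ} (f : CuspForm (Gamma1 N) k) :
    ModularFormClass.qCoeff f 0 = 0 :=
  CuspFormClass.qExpansion_coeff_zero f one_pos (one_mem_strictPeriods_Gamma1 N)

lemma coprime_sq_iff (N n : ℕ) : Nat.Coprime n (N ^ 2) ↔ Nat.Coprime n N :=
  Nat.coprime_pow_right_iff (by norm_num) n N

lemma not_dvd_sq_iff (N : ℕ) {p : ℕ} (hp : p.Prime) : ¬ p ∣ N ^ 2 ↔ ¬ p ∣ N :=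
  not_congr ⟨hp.dvd_of_dvd_pow, fun h ↦ h.trans (dvd_pow_self N (by norm_num))⟩

/-- The depleted form is a depleted sequence at level `N ^ 2`. -/
theorem depleted_deplete (N : ℕ) [NeZero N] {k : ℤ} (f : CuspForm (Gamma1 N) k) :
    Depleted (N ^ 2) (ModularFormClass.qCoeff (deplete N f)) := by
  refine ⟨?_, fun n hn ↦ ?_⟩
  · exact qCoeff_zero (N ^ 2) (deplete N f)
  · rw [qCoeff_deplete, if_neg]
    rwa [coprime_sq_iff] at hn

/-- **Depletion preserves the frozen hypotheses** (`a₁ = 1` and the Hecke relations), with the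
character moved to level `N ^ 2`. -/
theorem deplete_hecke (N : ℕ) [NeZero N] (ε : DirichletCharacter ℂ N)
    (f : CuspForm (Gamma1 N) 1)
    (hf₁ : ModularFormClass.qCoeff f 1 = 1)
    (hT : ∀ p : ℕ, p.Prime → ¬ p ∣ N → ∀ n : ℕ,
        ModularFormClass.qCoeff f (p * n) +
            ε (p : ZMod N) * (if p ∣ n then ModularFormClass.qCoeff f (n / p) else 0) =
          ModularFormClass.qCoeff f p * ModularFormClass.qCoeff f n) :
    ModularFormClass.qCoeff (deplete N f) 1 = 1 ∧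
    ∀ p : ℕ, p.Prime → ¬ p ∣ N ^ 2 → ∀ n : ℕ,
        ModularFormClass.qCoeff (deplete N f) (p * n) +
            charSq N ε (p : ZMod (N ^ 2)) *
              (if p ∣ n then ModularFormClass.qCoeff (deplete N f) (n / p) else 0) =
          ModularFormClass.qCoeff (deplete N f) p * ModularFormClass.qCoeff (deplete N f) n := by
  refine ⟨?_, fun p hp hpN n ↦ ?_⟩
  · rw [qCoeff_deplete, if_pos (Nat.coprime_one_left N), hf₁]
  · have hpN' : ¬ p ∣ N := (not_dvd_sq_iff N hp).mp hpN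
    have hcop : Nat.Coprime p N := (Nat.Prime.coprime_iff_not_dvd hp).mpr hpN'
    rw [charSq, changeLevel_sq_natCast N ε p hcop]
    simp only [qCoeff_deplete]
    rw [if_pos hcop]
    by_cases hn : Nat.Coprime n N
    · rw [if_pos (Nat.Coprime.mul_left hcop hn), if_pos hn]
      by_cases hd : p ∣ n
      · rw [if_pos hd, if_pos (Nat.Coprime.coprime_dvd_left (Nat.div_dvd_of_dvd hd) hn)]
        have := hT p hp hpN' n
        rwa [if_pos hd] at this
      · rw [if_neg hd]
        have := hT p hp hpN' n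
        rwa [if_neg hd] at this
    · have h1 : ¬ Nat.Coprime (p * n) N := fun h ↦ hn (Nat.Coprime.coprime_mul_left h)
      rw [if_neg h1, if_neg hn]
      by_cases hd : p ∣ n
      · have h2 : ¬ Nat.Coprime (n / p) N := by
          intro h
          apply hn
          obtain ⟨n', rfl⟩ := hd
          rw [Nat.mul_div_cancel_left _ hp.pos] at h
          exact Nat.Coprime.mul_left hcop h
        rw [if_pos hd, if_neg h2]
        ring
      · rw [if_neg hd]
        ring

local notation "Γℚ" => (AlgebraicClosure ℚ ≃ₐ[ℚ] AlgebraicClosure ℚ)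

/-- **Reduction of the frozen statement S48 to depleted forms**: it suffices to prove the frozen
statement for forms whose `q`-coefficients vanish at every `n` not prime to the level. -/
theorem s48_of_depleted
    (H : ∀ (N : ℕ) [NeZero N] (ε : DirichletCharacter ℂ N) (g : CuspForm (Gamma1 N) 1),
      ModularFormClass.qCoeff g 1 = 1 →
      (∀ p : ℕ, p.Prime → ¬ p ∣ N → ∀ n : ℕ,
        ModularFormClass.qCoeff g (p * n) +
            ε (p : ZMod N) * (if p ∣ n then ModularFormClass.qCoeff g (n / p) else 0) =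
          ModularFormClass.qCoeff g p * ModularFormClass.qCoeff g n) →
      (∀ n : ℕ, ¬ Nat.Coprime n N → ModularFormClass.qCoeff g n = 0) →
      ∃ ρ : Γℚ →* GL (Fin 2) ℂ, GaloisFactorsThroughFiniteLevel ρ ∧
        (Deformation.matrixRepresentation ρ).IsIrreducible ∧
        ∀ p : ℕ, p.Prime → ¬ p ∣ N →
          ∀ A : ValuationSubring (AlgebraicClosure ℚ), A.LiesOverPrime p →
            (∀ σ ∈ A.inertiaSubgroupIn ℚ, ρ σ = 1) ∧
            ∀ σ : Γℚ, A.IsFrobeniusAt σ p →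
              ((ρ σ : GL (Fin 2) ℂ) : Matrix (Fin 2) (Fin 2) ℂ).trace =
                  ModularFormClass.qCoeff g p ∧
              ((ρ σ : GL (Fin 2) ℂ) : Matrix (Fin 2) (Fin 2) ℂ).det = ε (p : ZMod N))
    (N : ℕ) [NeZero N] (ε : DirichletCharacter ℂ N) (f : CuspForm (Gamma1 N) 1)
    (hf₁ : ModularFormClass.qCoeff f 1 = 1)
    (hT : ∀ p : ℕ, p.Prime → ¬ p ∣ N → ∀ n : ℕ,
        ModularFormClass.qCoeff f (p * n) +
            ε (p : ZMod N) * (if p ∣ n then ModularFormClass.qCoeff f (n / p) else 0) =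
          ModularFormClass.qCoeff f p * ModularFormClass.qCoeff f n) :
    ∃ ρ : Γℚ →* GL (Fin 2) ℂ, GaloisFactorsThroughFiniteLevel ρ ∧
      (Deformation.matrixRepresentation ρ).IsIrreducible ∧
      ∀ p : ℕ, p.Prime → ¬ p ∣ N →
        ∀ A : ValuationSubring (AlgebraicClosure ℚ), A.LiesOverPrime p →
          (∀ σ ∈ A.inertiaSubgroupIn ℚ, ρ σ = 1) ∧
          ∀ σ : Γℚ, A.IsFrobeniusAt σ p →
            ((ρ σ : GL (Fin 2) ℂ) : Matrix (Fin 2) (Fin 2) ℂ).trace = ModularFormClass.qCoeff f p ∧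
            ((ρ σ : GL (Fin 2) ℂ) : Matrix (Fin 2) (Fin 2) ℂ).det = ε (p : ZMod N) := by
  obtain ⟨h1, h2⟩ := deplete_hecke N ε f hf₁ hT
  obtain ⟨ρ, hfin, hirr, hρ⟩ := H (N ^ 2) (charSq N ε) (deplete N f) h1 h2
    (depleted_deplete N f).2
  refine ⟨ρ, hfin, hirr, fun p hp hpN A hA ↦ ?_⟩
  have hcop : Nat.Coprime p N := (Nat.Prime.coprime_iff_not_dvd hp).mpr hpN
  obtain ⟨hin, hfr⟩ := hρ p hp ((not_dvd_sq_iff N hp).mpr hpN) A hA
  refine ⟨hin, fun σ hσ ↦ ?_⟩
  obtain ⟨htr, hdet⟩ := hfr σ hσ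
  refine ⟨?_, ?_⟩
  · rw [htr, qCoeff_deplete, if_pos hcop]
  · rw [hdet, charSq, changeLevel_sq_natCast N ε p hcop]

end

end Fermat.Agent.S48.helper8809
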