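/-
S48-SMALLN (helper9948): the "WLOG `5 ≤ N`" reduction of the Deligne–Serre statement S48.

For `N ≤ 4` there is no nonzero weight-one cusp form on `Γ₁(N)`, so the frozen hypothesis
`qCoeff f 1 = 1` is contradictory and the frozen statement holds vacuously there.

Proof: for `N ∈ {1,2,3,4}` every unit of `ZMod N` is `±1`, hence `Γ₀(N) = ±Γ₁(N)`; the square
`f²` of a weight-one cusp form on `Γ₁(N)` is weight-two invariant under `Γ₁(N)` and under `-1`,
so it is a modular form on `Γ₀(N)`, whose `q`-expansion has order `≥ 2`.  Since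
`[SL₂(ℤ) : Γ₀(N)] ≤ 6`, the Sturm bound (prelude) gives `f² = 0`.
-/
import Mathlib
import Fermat.Prelude.Thm_ModularForm_sturm_bound_Gamma0
import Fermat.Prelude.Def_FLTPrelim_Modularity
import Fermat.Prelude.Def_GaloisRep_Residual
import Fermat.Prelude.Def_Deformations_MatrixRepresentation
import Fermat.Agent.Lib.helper804_Gamma0Cosets

set_option autoImplicit false

open CongruenceSubgroup UpperHalfPlane
open scoped MatrixGroups ModularForm

local notation "Γℚ" => (AlgebraicClosure ℚ ≃ₐ[ℚ] AlgebraicClosure ℚ)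

namespace Fermat.Agent.S48.helper9948

/-- For `N ≤ 4` the only units of `ZMod N` are `±1`. -/
theorem zmod_mul_eq_one_small (N : ℕ) (hN0 : N ≠ 0) (hN : N ≤ 4) (a d : ZMod N)
    (h : a * d = 1) : (a = 1 ∧ d = 1) ∨ (a = -1 ∧ d = -1) := by
  interval_cases N
  · exact absurd rfl hN0
  all_goals (revert a d; decide)

/-- For `N ≤ 4`, `Γ₀(N) = ±Γ₁(N)`. -/
theorem mem_Gamma1_or_neg_mem (N : ℕ) [NeZero N] (hN : N ≤ 4) (g : SL(2, ℤ))
    (hg : g ∈ Gamma0 N) : g ∈ Gamma1 N ∨ -g ∈ Gamma1 N := by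
  rw [Gamma0_mem] at hg
  have hdet : ((g 0 0 : ℤ) : ZMod N) * ((g 1 1 : ℤ) : ZMod N) = 1 := by
    have h := g.det_coe
    rw [Matrix.det_fin_two] at h
    have h2 : ((g 0 0 * g 1 1 - g 0 1 * g 1 0 : ℤ) : ZMod N) = 1 := by rw [h]; simp
    push_cast at h2
    rw [hg, mul_zero, sub_zero] at h2
    exact h2
  rcases zmod_mul_eq_one_small N (NeZero.ne N) hN _ _ hdet with ⟨h1, h2⟩ | ⟨h1, h2⟩
  · left; rw [Gamma1_mem]; exact ⟨h1, h2, hg⟩
  · right; rw [Gamma1_mem]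
    refine ⟨?_, ?_, ?_⟩ <;> simp [Matrix.SpecialLinearGroup.coe_neg, h1, h2, hg]

/-- In weight one, slashing by `-g` is minus slashing by `g`. -/
theorem slash_one_neg (f : ℍ → ℂ) (g : SL(2, ℤ)) :
    f ∣[(1 : ℤ)] (-g) = -(f ∣[(1 : ℤ)] g) := by
  ext τ
  simp only [ModularForm.SL_slash_apply, Pi.neg_apply]
  rw [ModularGroup.SL_neg_smul]
  have h : denom (-g : SL(2, ℤ)) (τ : ℂ) = - denom g τ := by
    simp only [ModularGroup.denom_apply, Matrix.SpecialLinearGroup.coe_neg, Matrix.neg_apply,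
      Int.cast_neg]
    ring
  rw [h]
  simp

/-- `Γ₀(N)` and `Γ₁(N)` have the same cusps. -/
theorem isCusp_Gamma1_of_Gamma0 (N : ℕ) [NeZero N] {c : OnePoint ℝ}
    (hc : IsCusp c (Gamma0 N : Subgroup (GL (Fin 2) ℝ))) :
    IsCusp c (Gamma1 N : Subgroup (GL (Fin 2) ℝ)) := by
  have h0 := (Subgroup.IsArithmetic.is_commensurable
    (𝒢 := (Gamma0 N : Subgroup (GL (Fin 2) ℝ)))).isCusp_iff (c := c)
  have h1 := (Subgroup.IsArithmetic.is_commensurable
    (𝒢 := (Gamma1 N : Subgroup (GL (Fin 2) ℝ)))).isCusp_iff (c := c)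
  exact h1.mpr (h0.mp hc)

/-- If `Γ₀(N) = ±Γ₁(N)`, the square of a weight-one form on `Γ₁(N)` is weight-two invariant
under `Γ₀(N)`. -/
theorem sq_slash_of_mem (N : ℕ) [NeZero N]
    (hpm : ∀ g : SL(2, ℤ), g ∈ Gamma0 N → g ∈ Gamma1 N ∨ -g ∈ Gamma1 N)
    (f : CuspForm (Gamma1 N) 1) (g : SL(2, ℤ)) (hg : g ∈ Gamma0 N) :
    ((⇑f * ⇑f : ℍ → ℂ)) ∣[(2 : ℤ)] g = ⇑f * ⇑f := by
  have hinv : ∀ h : SL(2, ℤ), h ∈ Gamma1 N → (⇑f : ℍ → ℂ) ∣[(1 : ℤ)] h = ⇑f := by
    intro h hh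
    exact SlashInvariantForm.slash_action_eqn f _ (Subgroup.mem_map_of_mem _ hh)
  have hmul := ModularForm.mul_slash_SL2 1 1 g (⇑f) (⇑f)
  rw [show (2 : ℤ) = 1 + 1 from rfl, hmul]
  rcases hpm g hg with h | h
  · rw [hinv g h]
  · have h2 := hinv (-g) h
    rw [slash_one_neg] at h2
    have h3 : (⇑f : ℍ → ℂ) ∣[(1 : ℤ)] g = -⇑f := neg_eq_iff_eq_neg.mp h2
    rw [h3, neg_mul_neg]

/-- The square of a weight-one cusp form on `Γ₁(N)`, as a weight-two modular form on `Γ₀(N)`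
(when `Γ₀(N) = ±Γ₁(N)`). -/
noncomputable def sqForm (N : ℕ) [NeZero N]
    (hpm : ∀ g : SL(2, ℤ), g ∈ Gamma0 N → g ∈ Gamma1 N ∨ -g ∈ Gamma1 N)
    (f : CuspForm (Gamma1 N) 1) : ModularForm (Gamma0 N) 2 where
  toFun := ⇑f * ⇑f
  slash_action_eq' := by
    rintro γ ⟨g, hg, rfl⟩
    exact sq_slash_of_mem N hpm f g hg
  holo' := f.holo'.mul f.holo'
  bdd_at_cusps' := by
    intro c hc g hg
    have h0 := f.zero_at_cusps' (isCusp_Gamma1_of_Gamma0 N hc) g hg
    rw [show (2 : ℤ) = 1 + 1 from rfl, ModularForm.mul_slash]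
    exact (h0.boundedAtFilter.mul h0.boundedAtFilter).smul _

theorem coe_sqForm (N : ℕ) [NeZero N]
    (hpm : ∀ g : SL(2, ℤ), g ∈ Gamma0 N → g ∈ Gamma1 N ∨ -g ∈ Gamma1 N)
    (f : CuspForm (Gamma1 N) 1) : (⇑(sqForm N hpm f) : ℍ → ℂ) = ⇑f * ⇑f := rfl

/-- `[SL₂(ℤ) : Γ₀(N)] ≤ 6` for `N ≤ 4`, in the shape used by the Sturm bound in weight two. -/
theorem index_Gamma0_small (N : ℕ) [NeZero N] (hN : N ≤ 4) :
    (2 * ((Gamma0 N).index : ℤ)).toNat / 12 ≤ 1 := by
  have hN0 : N ≠ 0 := NeZero.ne N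
  have key : (Gamma0 N).index ≤ 6 := by
    interval_cases N
    · exact absurd rfl hN0
    · rw [Fermat.Agent.Lib.helper804.Gamma0_one_index]; norm_num
    · have := Fermat.Agent.Lib.helper804.index_Gamma0_prime_pow Nat.prime_two 0
      norm_num at this
      rw [this]; norm_num
    · have := Fermat.Agent.Lib.helper804.index_Gamma0_prime_pow Nat.prime_three 0
      norm_num at this
      rw [this]; norm_num
    · have := Fermat.Agent.Lib.helper804.index_Gamma0_prime_pow Nat.prime_two 1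
      norm_num at this
      rw [this]
  omega

/-- **There is no nonzero weight-one cusp form on `Γ₁(N)` for `N ≤ 4`.** -/
theorem cuspForm_Gamma1_one_eq_zero (N : ℕ) [NeZero N] (hN : N ≤ 4)
    (f : CuspForm (Gamma1 N) 1) : f = 0 := by
  have hpm := mem_Gamma1_or_neg_mem N hN
  have h1 : (1 : ℝ) ∈ (Gamma1 N : Subgroup (GL (Fin 2) ℝ)).strictPeriods := by
    simp [CongruenceSubgroup.strictPeriods_Gamma1]
  have hF : sqForm N hpm f = 0 := by
    refine ModularForm.sturm_bound_Gamma0 N (sqForm N hpm f) ?_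
    intro n hn
    have hn1 : n ≤ 1 := le_trans hn (index_Gamma0_small N hN)
    have hq : qExpansion 1 (⇑(sqForm N hpm f) : ℍ → ℂ) = qExpansion 1 f * qExpansion 1 f := by
      rw [coe_sqForm]
      exact ModularForm.qExpansion_mul_coe one_pos h1 f f
    have h0 : (qExpansion 1 f).coeff 0 = 0 := CuspFormClass.qExpansion_coeff_zero f one_pos h1
    rw [hq, PowerSeries.coeff_mul]
    interval_cases n
    · rw [Finset.Nat.antidiagonal_zero, Finset.sum_singleton, h0, zero_mul]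
    · rw [Finset.Nat.sum_antidiagonal_eq_sum_range_succ_mk]
      simp [Finset.sum_range_succ, h0]
  ext τ
  have h2 := congrArg (fun G : ModularForm (Gamma0 N) 2 => G τ) hF
  have h3 : f τ * f τ = 0 := h2
  simpa using mul_self_eq_zero.mp h3

/-- For `N ≤ 4` the normalisation `a₁ = 1` of the frozen S48 is impossible. -/
theorem qCoeff_one_ne_one_of_le_four (N : ℕ) [NeZero N] (hN : N ≤ 4)
    (f : CuspForm (Gamma1 N) 1) : ModularFormClass.qCoeff f 1 ≠ 1 := by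
  intro h
  have hf : f = 0 := cuspForm_Gamma1_one_eq_zero N hN f
  have hcoe : (⇑f : ℍ → ℂ) = 0 := by rw [hf]; rfl
  rw [ModularFormClass.qCoeff, hcoe, qExpansion_zero] at h
  simp at h

/-- The body of the frozen statement S48 at a fixed level `N`. -/
def Stmt_S48At (N : ℕ) [NeZero N] : Prop :=
  ∀ (ε : DirichletCharacter ℂ N) (f : CuspForm (Gamma1 N) 1)
    (_hf₁ : ModularFormClass.qCoeff f 1 = 1)
    (_hT : ∀ p : ℕ, p.Prime → ¬ p ∣ N → ∀ n : ℕ,
        ModularFormClass.qCoeff f (p * n) +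
            ε (p : ZMod N) * (if p ∣ n then ModularFormClass.qCoeff f (n / p) else 0) =
          ModularFormClass.qCoeff f p * ModularFormClass.qCoeff f n),
    ∃ ρ : Γℚ →* GL (Fin 2) ℂ, GaloisFactorsThroughFiniteLevel ρ ∧
      (Deformation.matrixRepresentation ρ).IsIrreducible ∧
      ∀ p : ℕ, p.Prime → ¬ p ∣ N →
        ∀ A : ValuationSubring (AlgebraicClosure ℚ), A.LiesOverPrime p →
          (∀ σ ∈ A.inertiaSubgroupIn ℚ, ρ σ = 1) ∧
          ∀ σ : Γℚ, A.IsFrobeniusAt σ p →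
            ((ρ σ : GL (Fin 2) ℂ) : Matrix (Fin 2) (Fin 2) ℂ).trace = ModularFormClass.qCoeff f p ∧
            ((ρ σ : GL (Fin 2) ℂ) : Matrix (Fin 2) (Fin 2) ℂ).det = ε (p : ZMod N)

/-- The frozen S48 holds (vacuously) at every level `N ≤ 4`. -/
theorem stmt_S48At_of_le_four (N : ℕ) [NeZero N] (hN : N ≤ 4) : Stmt_S48At N :=
  fun _ f hf₁ _ => absurd hf₁ (qCoeff_one_ne_one_of_le_four N hN f)

/-- **WLOG `5 ≤ N`**: the frozen S48 follows from its restriction to levels `N ≥ 5`. -/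
theorem stmt_S48At_of_five_le (h : ∀ (N : ℕ) [NeZero N], 5 ≤ N → Stmt_S48At N)
    (N : ℕ) [NeZero N] : Stmt_S48At N := by
  rcases Nat.lt_or_ge N 5 with hN | hN
  · exact stmt_S48At_of_le_four N (by omega)
  · exact h N hN

/-- The same reduction with the conclusion spelled out verbatim as the frozen S48. -/
theorem frozen_of_five_le (h : ∀ (N : ℕ) [NeZero N], 5 ≤ N → Stmt_S48At N)
    (N : ℕ) [NeZero N] (ε : DirichletCharacter ℂ N) (f : CuspForm (Gamma1 N) 1)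
    (hf₁ : ModularFormClass.qCoeff f 1 = 1)
    (hT : ∀ p : ℕ, p.Prime → ¬ p ∣ N → ∀ n : ℕ,
        ModularFormClass.qCoeff f (p * n) +
            ε (p : ZMod N) * (if p ∣ n then ModularFormClass.qCoeff f (n / p) else 0) =
          ModularFormClass.qCoeff f p * ModularFormClass.qCoeff f n) :
    ∃ ρ : Γℚ →* GL (Fin 2) ℂ, GaloisFactorsThroughFiniteLevel ρ ∧
      (Deformation.matrixRepresentation ρ).IsIrreducible ∧
      ∀ p : ℕ, p.Prime → ¬ p ∣ N →
        ∀ A : ValuationSubring (AlgebraicClosure ℚ), A.LiesOverPrime p →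
          (∀ σ ∈ A.inertiaSubgroupIn ℚ, ρ σ = 1) ∧
          ∀ σ : Γℚ, A.IsFrobeniusAt σ p →
            ((ρ σ : GL (Fin 2) ℂ) : Matrix (Fin 2) (Fin 2) ℂ).trace = ModularFormClass.qCoeff f p ∧
            ((ρ σ : GL (Fin 2) ℂ) : Matrix (Fin 2) (Fin 2) ℂ).det = ε (p : ZMod N) :=
  stmt_S48At_of_five_le h N ε f hf₁ hT

end Fermat.Agent.S48.helper9948
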