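/-
S48 Spec, top level: `Stmt_Reduce` (helper8809).

WLOG `5 ≤ N` and `f` is `N`-depleted:
* for `N ≤ 4` there is no weight-one cusp form on `Γ₁(N)` (`helper9948_SmallLevel`), so the
  normalisation `a₁ = 1` is contradictory;
* for `5 ≤ N` replace `f` by its `N`-depletion `∑_{(n,N)=1} a_n qⁿ`, a cusp form on `Γ₁(N²)`
  satisfying the same hypotheses for the character `ε` lifted to level `N²`, with the same
  `a_p`, `ε(p)` for `p ∤ N` (`helper8809_Deplete`); `p ∤ N² ↔ p ∤ N`.
-/
import Fermat.Agent.S48.helper8231_Spec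
import Fermat.Agent.S48.helper8809_Deplete
import Fermat.Agent.S48.helper9948_SmallLevel

set_option autoImplicit false

namespace Fermat.Agent.S48.helper8809

open CongruenceSubgroup
open scoped MatrixGroups ModularForm

/-- The depletion of a normalised weight-one eigenform is a normalised eigenform of level `N²`
for the lifted character, in the vocabulary of the Spec. -/
theorem isWt1Eigen_deplete (N : ℕ) [NeZero N] (ε : DirichletCharacter ℂ N)
    (f : CuspForm (Gamma1 N) 1) (hf : helper8231.IsWt1Eigen N ε f) :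
    helper8231.IsWt1Eigen (N ^ 2) (charSq N ε) (deplete N f) :=
  deplete_hecke N ε f hf.1 hf.2

/-- The depletion is depleted, in the vocabulary of the Spec. -/
theorem isDepleted_deplete (N : ℕ) [NeZero N] (f : CuspForm (Gamma1 N) 1) :
    helper8231.IsDepleted (N ^ 2) (deplete N f) :=
  (depleted_deplete N f).2

/-- The conclusion of S48 for the depletion gives the conclusion for the original form. -/
theorem conclusion_of_deplete (N : ℕ) [NeZero N] (ε : DirichletCharacter ℂ N)
    (f : CuspForm (Gamma1 N) 1)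
    (h : helper8231.Conclusion (N ^ 2) (fun p => ModularFormClass.qCoeff (deplete N f) p)
      (fun p => charSq N ε (p : ZMod (N ^ 2)))) :
    helper8231.Conclusion N (fun p => ModularFormClass.qCoeff f p)
      (fun p => ε (p : ZMod N)) := by
  obtain ⟨ρ, hfin, hirr, hρ⟩ := h
  refine ⟨ρ, hfin, hirr, fun p hp hpN A hA ↦ ?_⟩
  have hcop : Nat.Coprime p N := (Nat.Prime.coprime_iff_not_dvd hp).mpr hpN
  obtain ⟨hin, hfr⟩ := hρ p hp ((not_dvd_sq_iff N hp).mpr hpN) A hA
  refine ⟨hin, fun σ hσ ↦ ?_⟩
  obtain ⟨htr, hdet⟩ := hfr σ hσ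
  refine ⟨?_, ?_⟩
  · rw [htr]
    show ModularFormClass.qCoeff (deplete N f) p = ModularFormClass.qCoeff f p
    rw [qCoeff_deplete, if_pos hcop]
  · rw [hdet]
    show charSq N ε (p : ZMod (N ^ 2)) = ε (p : ZMod N)
    rw [charSq, changeLevel_sq_natCast N ε p hcop]

/-- **(REDUCE)** of the S48 Spec: WLOG `5 ≤ N` and `f` is `N`-depleted. -/
theorem stmt_Reduce : helper8231.Stmt_Reduce := by
  intro H N _ ε f hf
  have h5 : 5 ≤ N := by
    by_contra hlt
    exact helper9948.qCoeff_one_ne_one_of_le_four N (by omega) f hf.1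
  have h25 : 5 ≤ N ^ 2 := by nlinarith
  exact conclusion_of_deplete N ε f
    (H (N ^ 2) (charSq N ε) (deplete N f) (isWt1Eigen_deplete N ε f hf) h25
      (isDepleted_deplete N f))

end Fermat.Agent.S48.helper8809
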