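import Mathlib
import Fermat.Prelude.Def_GaloisRep_Residual
import Fermat.Prelude.Def_Deformations_MatrixRepresentation
import Fermat.Agent.Lib.helper74_GenChebQbar

/-!
# S48 (Deligne–Serre), leaf F8 "FINISH" (helper886)

Character theory in dimension two and the final Galois packaging.

Part A (finite group `G`, matrices over `ℂ`):
* `trace_pow_congr` : for `2 × 2` matrices, trace and determinant determine the traces of powers;
* `exists_diag_of_common_eigenvector` : Maschke for an invariant line;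
* `two_mul_card_le_sum_of_diag`, `two_mul_card_le_sum_of_not_irreducible` : a reducible
  representation has `∑ ‖tr‖² ≥ 2 |G|`;
* `exists_conj_of_trace_eq` : equal traces imply conjugate.
-/

set_option autoImplicit false

namespace Fermat.Agent.S48.helper886

open Matrix

/-! ### Part A1: `2 × 2` matrices -/

section Mat2

variable {R : Type*} [CommRing R]

/-- Cayley–Hamilton for `2 × 2` matrices. -/
theorem mul_self_eq_trace_smul_sub (M : Matrix (Fin 2) (Fin 2) R) :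
    M * M = M.trace • M - M.det • (1 : Matrix (Fin 2) (Fin 2) R) := by
  ext i j
  fin_cases i <;> fin_cases j <;>
    simp [Matrix.mul_apply, Fin.sum_univ_two, Matrix.trace_fin_two, Matrix.det_fin_two] <;> ring

theorem trace_pow_add_two (M : Matrix (Fin 2) (Fin 2) R) (n : ℕ) :
    (M ^ (n + 2)).trace = M.trace * (M ^ (n + 1)).trace - M.det * (M ^ n).trace := by
  have h : M ^ (n + 2) = M.trace • M ^ (n + 1) - M.det • M ^ n := by
    rw [pow_add, pow_two, mul_self_eq_trace_smul_sub, mul_sub, Matrix.mul_smul, Matrix.mul_smul,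
      mul_one, pow_succ]
  rw [h, Matrix.trace_sub, Matrix.trace_smul, Matrix.trace_smul, smul_eq_mul, smul_eq_mul]

/-- For `2 × 2` matrices the trace and the determinant determine the traces of all powers. -/
theorem trace_pow_congr {M M' : Matrix (Fin 2) (Fin 2) R} (ht : M.trace = M'.trace)
    (hd : M.det = M'.det) (n : ℕ) : (M ^ n).trace = (M' ^ n).trace := by
  induction n using Nat.twoStepInduction with
  | zero => simp
  | one => simpa using ht
  | more n h1 h2 => rw [trace_pow_add_two, trace_pow_add_two, ht, hd, h1, h2]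

end Mat2

/-! ### Part A2: Maschke for an invariant line -/

section Maschke

variable {G : Type*} [Group G] [Finite G]

/-- **Maschke for a line in dimension two.**  A representation of a finite group on `ℂ²` with a
common eigenvector is diagonal in a suitable basis. -/
theorem exists_diag_of_common_eigenvector (ρ : G →* GL (Fin 2) ℂ) (v : Fin 2 → ℂ) (hv : v ≠ 0)
    (hev : ∀ g, ∃ c : ℂ, (ρ g).val *ᵥ v = c • v) :
    ∃ (P : GL (Fin 2) ℂ) (χ₁ χ₂ : G →* ℂˣ), (∀ i, P.val i 0 = v i) ∧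
      ∀ g, (ρ g).val * P.val = P.val * Matrix.diagonal ![(χ₁ g : ℂ), (χ₂ g : ℂ)] := by
  classical
  have := Fintype.ofFinite G
  choose c hc using hev
  have hc0 : ∀ g, c g ≠ 0 := by
    intro g h0
    have h1 : (ρ g).val *ᵥ v = 0 := by rw [hc g, h0, zero_smul]
    have h2 : ((ρ g)⁻¹).val *ᵥ ((ρ g).val *ᵥ v) = v := by
      rw [Matrix.mulVec_mulVec, ← Units.val_mul, inv_mul_cancel]; simp
    rw [h1, Matrix.mulVec_zero] at h2
    exact hv h2.symm
  have hcmul : ∀ g h, c (g * h) = c g * c h := by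
    intro g h
    have h1 : (ρ (g * h)).val *ᵥ v = (c g * c h) • v := by
      rw [map_mul, Units.val_mul, ← Matrix.mulVec_mulVec, hc h, Matrix.mulVec_smul, hc g,
        smul_smul, mul_comm]
    rw [hc (g * h)] at h1
    exact smul_left_injective ℂ hv h1
  have hc1 : c 1 = 1 := by
    have h1 : (ρ 1).val *ᵥ v = (1 : ℂ) • v := by simp
    rw [hc 1] at h1
    exact smul_left_injective ℂ hv h1
  -- an invariant linear form
  obtain ⟨i, hi⟩ : ∃ i, v i ≠ 0 := by
    by_contra h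
    exact hv (funext fun j => by_contra fun hj => h ⟨j, hj⟩)
  set lam : Fin 2 → ℂ := Pi.single i (v i)⁻¹ with hlam
  have hlamv : lam ⬝ᵥ v = 1 := by
    rw [hlam, single_dotProduct, inv_mul_cancel₀ hi]
  set m : Fin 2 → ℂ := (Fintype.card G : ℂ)⁻¹ • ∑ g : G, (c g)⁻¹ • (lam ᵥ* (ρ g).val) with hm
  have hcard : (Fintype.card G : ℂ) ≠ 0 := Nat.cast_ne_zero.mpr Fintype.card_ne_zero
  have hmv : m ⬝ᵥ v = 1 := by
    rw [hm, smul_dotProduct, sum_dotProduct]
    have : ∀ g : G, ((c g)⁻¹ • (lam ᵥ* (ρ g).val)) ⬝ᵥ v = 1 := by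
      intro g
      rw [smul_dotProduct, ← Matrix.dotProduct_mulVec, hc g, dotProduct_smul, hlamv, smul_eq_mul,
        smul_eq_mul, mul_one, inv_mul_cancel₀ (hc0 g)]
    rw [Finset.sum_congr rfl (fun g _ => this g)]
    simp [hcard]
  have hmrow : ∀ h : G, m ᵥ* (ρ h).val = c h • m := by
    intro h
    have key : (∑ g : G, (c g)⁻¹ • (lam ᵥ* (ρ g).val)) ᵥ* (ρ h).val
        = c h • ∑ g : G, (c g)⁻¹ • (lam ᵥ* (ρ g).val) := by
      rw [Matrix.sum_vecMul, Finset.smul_sum]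
      rw [← Equiv.sum_comp (Equiv.mulRight h)
        (fun g' => c h • ((c g')⁻¹ • (lam ᵥ* (ρ g').val)))]
      refine Finset.sum_congr rfl (fun g _ => ?_)
      rw [Matrix.smul_vecMul, Matrix.vecMul_vecMul, Equiv.coe_mulRight, map_mul, Units.val_mul,
        hcmul, smul_smul]
      congr 1
      have := hc0 g
      have := hc0 h
      field_simp
    rw [hm, Matrix.smul_vecMul, key, smul_comm]
  -- the basis `v`, `u = (m 1, - m 0)`
  set P : Matrix (Fin 2) (Fin 2) ℂ := !![v 0, m 1; v 1, -m 0] with hP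
  have hmv' : m 0 * v 0 + m 1 * v 1 = 1 := by
    have := hmv
    simpa [dotProduct, Fin.sum_univ_two] using this
  have hPdet : P.det ≠ 0 := by
    rw [hP, Matrix.det_fin_two_of]
    intro h0
    have : m 0 * v 0 + m 1 * v 1 = 0 := by linear_combination -h0
    rw [hmv'] at this
    exact one_ne_zero this
  let cHom : G →* ℂ := { toFun := c, map_one' := hc1, map_mul' := hcmul }
  refine ⟨Matrix.GeneralLinearGroup.mkOfDetNeZero P hPdet, cHom.toHomUnits,
    (Matrix.GeneralLinearGroup.det.comp ρ) * (cHom.toHomUnits)⁻¹, ?_, fun g => ?_⟩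
  · intro i
    fin_cases i <;> simp [hP, Matrix.GeneralLinearGroup.mkOfDetNeZero]
  have e1 := hc g
  have e2 := hmrow g
  have e1a : (ρ g).val 0 0 * v 0 + (ρ g).val 0 1 * v 1 = c g * v 0 := by
    have := congrFun e1 0
    simpa [Matrix.mulVec, dotProduct, Fin.sum_univ_two] using this
  have e1b : (ρ g).val 1 0 * v 0 + (ρ g).val 1 1 * v 1 = c g * v 1 := by
    have := congrFun e1 1
    simpa [Matrix.mulVec, dotProduct, Fin.sum_univ_two] using this
  have e2a : m 0 * (ρ g).val 0 0 + m 1 * (ρ g).val 1 0 = c g * m 0 := by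
    have := congrFun e2 0
    simpa [Matrix.vecMul, dotProduct, Fin.sum_univ_two] using this
  have e2b : m 0 * (ρ g).val 0 1 + m 1 * (ρ g).val 1 1 = c g * m 1 := by
    have := congrFun e2 1
    simpa [Matrix.vecMul, dotProduct, Fin.sum_univ_two] using this
  have hχ₁ : ((cHom.toHomUnits g : ℂˣ) : ℂ) = c g := rfl
  have hχ₂ : ((((Matrix.GeneralLinearGroup.det.comp ρ) * (cHom.toHomUnits)⁻¹) g : ℂˣ) : ℂ)
      = (ρ g).val.det / c g := by
    simp [div_eq_mul_inv, hχ₁]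
  rw [hχ₁, hχ₂]
  have hcg := hc0 g
  ext a b
  fin_cases a <;> fin_cases b
  · simp [Matrix.mul_apply, Fin.sum_univ_two, hP, Matrix.GeneralLinearGroup.mkOfDetNeZero]
    linear_combination e1a
  · simp [Matrix.mul_apply, Fin.sum_univ_two, hP, Matrix.GeneralLinearGroup.mkOfDetNeZero,
      Matrix.det_fin_two]
    field_simp
    linear_combination (-(ρ g).val 0 0) * e2b + (ρ g).val 0 1 * e2a
  · simp [Matrix.mul_apply, Fin.sum_univ_two, hP, Matrix.GeneralLinearGroup.mkOfDetNeZero]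
    linear_combination e1b
  · simp [Matrix.mul_apply, Fin.sum_univ_two, hP, Matrix.GeneralLinearGroup.mkOfDetNeZero,
      Matrix.det_fin_two]
    field_simp
    linear_combination (-(ρ g).val 1 0) * e2b + (ρ g).val 1 1 * e2a

omit [Finite G] in
/-- The trace of a representation which is diagonal in some basis. -/
theorem trace_eq_of_diag {ρ : G →* GL (Fin 2) ℂ} {P : GL (Fin 2) ℂ} {χ₁ χ₂ : G → ℂ}
    (h : ∀ g, (ρ g).val * P.val = P.val * Matrix.diagonal ![χ₁ g, χ₂ g]) (g : G) :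
    (ρ g).val.trace = χ₁ g + χ₂ g := by
  have h1 : (ρ g).val = P.val * Matrix.diagonal ![χ₁ g, χ₂ g] * P⁻¹.val := by
    rw [← h g, mul_assoc, ← Units.val_mul, mul_inv_cancel, Units.val_one, mul_one]
  rw [h1, Matrix.trace_mul_cycle, ← Units.val_mul, inv_mul_cancel, Units.val_one, one_mul,
    Matrix.trace_diagonal, Fin.sum_univ_two]
  simp

omit [Finite G] in
/-- A representation of a finite group on `ℂ²` which is diagonal in some basis has
`∑ ‖tr‖² ≥ 2 |G|`. -/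
theorem two_mul_card_le_sum_of_diag [Fintype G] (ρ : G →* GL (Fin 2) ℂ) (P : GL (Fin 2) ℂ)
    (χ₁ χ₂ : G →* ℂˣ)
    (h : ∀ g, (ρ g).val * P.val = P.val * Matrix.diagonal ![(χ₁ g : ℂ), (χ₂ g : ℂ)]) :
    2 * (Fintype.card G : ℝ) ≤ ∑ g : G, ‖(ρ g).val.trace‖ ^ 2 := by
  classical
  have hnorm : ∀ (χ : G →* ℂˣ) (g : G), ‖((χ g : ℂˣ) : ℂ)‖ = 1 := by
    intro χ g
    refine Complex.norm_eq_one_of_pow_eq_one (n := Fintype.card G) ?_ Fintype.card_ne_zero
    rw [← Units.val_pow_eq_pow_val, ← map_pow, pow_card_eq_one, map_one, Units.val_one]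
  let ψ : G →* ℂ := (Units.coeHom ℂ).comp (χ₁ * χ₂⁻¹)
  have hψ : ∀ g, ψ g = (χ₁ g : ℂ) * ((χ₂ g : ℂ))⁻¹ := by
    intro g
    simp [ψ]
  have hterm : ∀ g : G, ‖(ρ g).val.trace‖ ^ 2 = 2 + 2 * (ψ g).re := by
    intro g
    rw [trace_eq_of_diag (χ₁ := fun g => (χ₁ g : ℂ)) (χ₂ := fun g => (χ₂ g : ℂ)) h g,
      ← Complex.normSq_eq_norm_sq, Complex.normSq_add, Complex.normSq_eq_norm_sq,
      Complex.normSq_eq_norm_sq, hnorm χ₁ g, hnorm χ₂ g, hψ g]
    have hinv : ((χ₂ g : ℂ))⁻¹ = (starRingEnd ℂ) (χ₂ g : ℂ) := by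
      rw [Complex.inv_def, Complex.normSq_eq_norm_sq, hnorm χ₂ g]
      simp
    rw [hinv]
    ring
  have hsum : (∑ g : G, ψ g) = ((if ψ = 1 then Fintype.card G else 0 : ℕ) : ℂ) :=
    sum_hom_units ψ
  have hre : 0 ≤ (∑ g : G, ψ g).re := by
    rw [hsum, Complex.natCast_re]
    exact Nat.cast_nonneg _
  rw [Finset.sum_congr rfl (fun g _ => hterm g), Finset.sum_add_distrib, ← Finset.mul_sum,
    Finset.sum_const, Finset.card_univ, ← Complex.re_sum]
  simp only [nsmul_eq_mul]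
  nlinarith [hre]

end Maschke

/-! ### Part A3: irreducibility and conjugacy via characters -/

section Conj

variable {G : Type} [Group G] [Finite G]

omit [Finite G] in
theorem character_matrixRepresentation (ρ : G →* GL (Fin 2) ℂ) (g : G) :
    (Deformation.matrixRepresentation ρ).character g = (ρ g).val.trace := by
  rw [Representation.character, Deformation.matrixRepresentation_apply, ← Matrix.toLin'_apply',
    Matrix.trace_toLin'_eq]

/-- A reducible two-dimensional matrix representation has a common eigenvector. -/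
theorem exists_common_eigenvector_of_not_irreducible {G : Type} [Group G]
    (ρ : G →* GL (Fin 2) ℂ)
    (h : ¬ (Deformation.matrixRepresentation ρ).IsIrreducible) :
    ∃ v : Fin 2 → ℂ, v ≠ 0 ∧ ∀ g, ∃ c : ℂ, (ρ g).val *ᵥ v = c • v := by
  classical
  set R := Deformation.matrixRepresentation ρ with hR
  have hnt : Nontrivial (Subrepresentation R) := by
    refine ⟨⊥, ⊤, fun hbt => ?_⟩
    have h1 : (⊥ : Subrepresentation R).toSubmodule = (⊤ : Subrepresentation R).toSubmodule := by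
      rw [hbt]
    have h2 : (Pi.single 0 1 : Fin 2 → ℂ) ∈ (⊤ : Subrepresentation R).toSubmodule :=
      Submodule.mem_top
    rw [← h1] at h2
    have h3 : (Pi.single 0 1 : Fin 2 → ℂ) = 0 := (Submodule.mem_bot ℂ).mp h2
    have := congrFun h3 0
    simp at this
  obtain ⟨W, hW0, hW1⟩ : ∃ W : Subrepresentation R, W ≠ ⊥ ∧ W ≠ ⊤ := by
    by_contra hcon
    apply h
    refine { eq_bot_or_eq_top := fun W => ?_ }
    by_contra hW
    exact hcon ⟨W, fun h0 => hW (Or.inl h0), fun h1 => hW (Or.inr h1)⟩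
  have hS0 : W.toSubmodule ≠ ⊥ := fun h0 =>
    hW0 (Subrepresentation.toSubmodule_injective h0)
  have hS1 : W.toSubmodule ≠ ⊤ := fun h1 =>
    hW1 (Subrepresentation.toSubmodule_injective h1)
  have hlt : Module.finrank ℂ W.toSubmodule < 2 := by
    have := Submodule.finrank_lt hS1
    simpa using this
  have hpos : 0 < Module.finrank ℂ W.toSubmodule := by
    rw [Module.finrank_pos_iff]
    exact (Submodule.nontrivial_iff_ne_bot).mpr hS0
  have hone : Module.finrank ℂ W.toSubmodule = 1 := by omega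
  obtain ⟨v, hv0, hv⟩ := finrank_eq_one_iff'.mp hone
  refine ⟨v.1, fun h0 => hv0 (Subtype.ext h0), fun g => ?_⟩
  have hmem : R g v.1 ∈ W.toSubmodule := W.apply_mem_toSubmodule g v.2
  obtain ⟨c, hc⟩ := hv ⟨R g v.1, hmem⟩
  refine ⟨c, ?_⟩
  have hRg : R g v.1 = (ρ g).val *ᵥ v.1 := by
    simp [R]
  have := congrArg Subtype.val hc
  simp only [Submodule.coe_smul] at this
  rw [← hRg]
  exact this.symm

/-- **A reducible representation has `∑ ‖tr‖² ≥ 2 |G|`.** -/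
theorem two_mul_card_le_sum_of_not_irreducible [Fintype G] (ρ : G →* GL (Fin 2) ℂ)
    (h : ¬ (Deformation.matrixRepresentation ρ).IsIrreducible) :
    2 * (Fintype.card G : ℝ) ≤ ∑ g : G, ‖(ρ g).val.trace‖ ^ 2 := by
  obtain ⟨v, hv, hev⟩ := exists_common_eigenvector_of_not_irreducible ρ h
  obtain ⟨P, χ₁, χ₂, -, hP⟩ := exists_diag_of_common_eigenvector ρ v hv hev
  exact two_mul_card_le_sum_of_diag ρ P χ₁ χ₂ hP

/-- Equal traces give a nonzero intertwiner (scalar product of characters). -/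
theorem exists_intertwiner_of_trace_eq (ρ ρ' : G →* GL (Fin 2) ℂ)
    (h : ∀ g, (ρ g).val.trace = (ρ' g).val.trace) :
    ∃ T : Matrix (Fin 2) (Fin 2) ℂ, T ≠ 0 ∧ ∀ g, T * (ρ g).val = (ρ' g).val * T := by
  classical
  have := Fintype.ofFinite G
  set R := Deformation.matrixRepresentation ρ with hR
  set R' := Deformation.matrixRepresentation ρ' with hR'
  have hinv : Invertible (Nat.card G : ℂ) :=
    invertibleOfNonzero (Nat.cast_ne_zero.mpr Nat.card_pos.ne')
  have h1 := Representation.card_inv_mul_sum_char_mul_char_eq_finrank R R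
  have h2 := Representation.card_inv_mul_sum_char_mul_char_eq_finrank R R'
  have hchar : R'.character = R.character := by
    ext g
    rw [hR, hR', character_matrixRepresentation, character_matrixRepresentation, h g]
  rw [hchar] at h2
  have h3 : Module.finrank ℂ (Representation.IntertwiningMap R R')
      = Module.finrank ℂ (Representation.IntertwiningMap R R) := by
    exact_mod_cast h2.symm.trans h1
  have h4 : 0 < Module.finrank ℂ (Representation.IntertwiningMap R R) := by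
    apply Module.finrank_pos_iff_exists_ne_zero.mpr
    refine ⟨Representation.IntertwiningMap.id R, fun h0 => ?_⟩
    have h5 := congrArg (fun f : Representation.IntertwiningMap R R =>
      f (Pi.single 0 1 : Fin 2 → ℂ) 0) h0
    simp [Representation.IntertwiningMap.id_apply] at h5
  rw [← h3] at h4
  obtain ⟨f, hf⟩ := Module.finrank_pos_iff_exists_ne_zero.mp h4
  refine ⟨LinearMap.toMatrix' f.toLinearMap, fun h0 => hf ?_, fun g => ?_⟩
  · apply Representation.IntertwiningMap.ext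
    have := LinearMap.toMatrix'.injective (h0.trans (LinearMap.toMatrix'.map_zero).symm)
    simpa using this
  · have h6 := f.isIntertwining' g
    have h7 : R g = Matrix.toLin' (ρ g).val := by
      rw [hR, Deformation.matrixRepresentation_apply, Matrix.toLin'_apply']
    have h8 : R' g = Matrix.toLin' (ρ' g).val := by
      rw [hR', Deformation.matrixRepresentation_apply, Matrix.toLin'_apply']
    rw [h7, h8] at h6
    have h9 := congrArg LinearMap.toMatrix' h6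
    rw [LinearMap.toMatrix'_comp, LinearMap.toMatrix'_comp, LinearMap.toMatrix'_toLin',
      LinearMap.toMatrix'_toLin'] at h9
    exact h9

/-- A vector annihilated by a nonzero row is determined up to a scalar (dimension two). -/
theorem exists_smul_eq_of_dotProduct_eq_zero {t v w : Fin 2 → ℂ} (ht : t ≠ 0) (hv : v ≠ 0)
    (h1 : t ⬝ᵥ v = 0) (h2 : t ⬝ᵥ w = 0) : ∃ c : ℂ, w = c • v := by
  have e1 : t 0 * v 0 + t 1 * v 1 = 0 := by
    simpa [dotProduct, Fin.sum_univ_two] using h1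
  have e2 : t 0 * w 0 + t 1 * w 1 = 0 := by
    simpa [dotProduct, Fin.sum_univ_two] using h2
  have hD : v 0 * w 1 - v 1 * w 0 = 0 := by
    have ht' : t 0 ≠ 0 ∨ t 1 ≠ 0 := by
      by_contra hcon
      push Not at hcon
      exact ht (funext fun i => by fin_cases i <;> simp [hcon.1, hcon.2])
    rcases ht' with h0 | h0
    · have : t 0 * (v 0 * w 1 - v 1 * w 0) = 0 := by
        linear_combination w 1 * e1 - v 1 * e2
      exact (mul_eq_zero.mp this).resolve_left h0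
    · have : t 1 * (v 0 * w 1 - v 1 * w 0) = 0 := by
        linear_combination v 0 * e2 - w 0 * e1
      exact (mul_eq_zero.mp this).resolve_left h0
  have hv' : v 0 ≠ 0 ∨ v 1 ≠ 0 := by
    by_contra hcon
    push Not at hcon
    exact hv (funext fun i => by fin_cases i <;> simp [hcon.1, hcon.2])
  rcases hv' with h0 | h0
  · refine ⟨w 0 / v 0, funext fun i => ?_⟩
    fin_cases i
    · simp only [Fin.zero_eta, Pi.smul_apply, smul_eq_mul]
      field_simp
    · simp only [Fin.mk_one, Pi.smul_apply, smul_eq_mul]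
      field_simp
      linear_combination hD
  · refine ⟨w 1 / v 1, funext fun i => ?_⟩
    fin_cases i
    · simp only [Fin.zero_eta, Pi.smul_apply, smul_eq_mul]
      field_simp
      linear_combination -hD
    · simp only [Fin.mk_one, Pi.smul_apply, smul_eq_mul]
      field_simp

omit [Finite G] in
theorem eq_conj_of_val_mul_eq {A B Q : GL (Fin 2) ℂ} (h : B.val * Q.val = Q.val * A.val) :
    B = Q * A * Q⁻¹ := by
  apply Units.ext
  rw [Units.val_mul, Units.val_mul, ← h, mul_assoc, ← Units.val_mul, mul_inv_cancel,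
    Units.val_one, mul_one]

/-- **Two representations of a finite group on `ℂ²` with the same character are conjugate.** -/
theorem exists_conj_of_trace_eq (ρ ρ' : G →* GL (Fin 2) ℂ)
    (h : ∀ g, (ρ g).val.trace = (ρ' g).val.trace) :
    ∃ Q : GL (Fin 2) ℂ, ∀ g, ρ' g = Q * ρ g * Q⁻¹ := by
  classical
  obtain ⟨T, hT0, hT⟩ := exists_intertwiner_of_trace_eq ρ ρ' h
  by_cases hdet : T.det = 0
  swap
  · exact ⟨Matrix.GeneralLinearGroup.mkOfDetNeZero T hdet, fun g =>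
      eq_conj_of_val_mul_eq (hT g).symm⟩
  -- the kernel of `T` is an invariant line
  obtain ⟨v, hv0, hv⟩ := Matrix.exists_mulVec_eq_zero_iff.mpr hdet
  obtain ⟨i, hi⟩ : ∃ i, T i ≠ 0 := by
    by_contra hcon
    exact hT0 (Matrix.ext fun i j => by
      have := by_contra fun hi : ¬ T i = 0 => hcon ⟨i, hi⟩
      simp [this])
  have hev : ∀ g, ∃ c : ℂ, (ρ g).val *ᵥ v = c • v := by
    intro g
    apply exists_smul_eq_of_dotProduct_eq_zero hi hv0
    · exact congrFun hv i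
    · have : T *ᵥ ((ρ g).val *ᵥ v) = 0 := by
        rw [Matrix.mulVec_mulVec, hT g, ← Matrix.mulVec_mulVec, hv, Matrix.mulVec_zero]
      exact congrFun this i
  obtain ⟨P, χ₁, χ₂, -, hP⟩ := exists_diag_of_common_eigenvector ρ v hv0 hev
  -- `S = T P` intertwines the diagonal representation with `ρ'`
  set S : Matrix (Fin 2) (Fin 2) ℂ := T * P.val with hS
  have hS0 : S ≠ 0 := by
    intro h0
    apply hT0
    have : S * P⁻¹.val = 0 := by rw [h0, zero_mul]
    rwa [hS, mul_assoc, ← Units.val_mul, mul_inv_cancel, Units.val_one, mul_one] at this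
  have hSg : ∀ g, (ρ' g).val * S = S * Matrix.diagonal ![(χ₁ g : ℂ), (χ₂ g : ℂ)] := by
    intro g
    rw [hS, ← mul_assoc, ← hT g, mul_assoc, hP g, ← mul_assoc]
  have hcol : ∀ (j : Fin 2) (g : G),
      (ρ' g).val *ᵥ (fun a => S a j) = (![(χ₁ g : ℂ), (χ₂ g : ℂ)] j) • (fun a => S a j) := by
    intro j g
    ext a
    have := congrFun (congrFun (hSg g) a) j
    rw [Matrix.mul_apply, Matrix.mul_apply] at this
    rw [Matrix.mulVec, dotProduct, this, Pi.smul_apply, smul_eq_mul]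
    simp only [Matrix.diagonal_apply, mul_ite, mul_zero, Finset.sum_ite_eq', Finset.mem_univ,
      if_true]
    ring
  have htr : ∀ g, (ρ' g).val.trace = (χ₁ g : ℂ) + (χ₂ g : ℂ) := by
    intro g
    rw [← h g]
    exact trace_eq_of_diag (χ₁ := fun g => (χ₁ g : ℂ)) (χ₂ := fun g => (χ₂ g : ℂ)) hP g
  have hPinv : ∀ g, P⁻¹.val * (ρ g).val
      = Matrix.diagonal ![(χ₁ g : ℂ), (χ₂ g : ℂ)] * P⁻¹.val := by
    intro g
    have h1 : (ρ g).val = P.val * Matrix.diagonal ![(χ₁ g : ℂ), (χ₂ g : ℂ)] * P⁻¹.val := by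
      rw [← hP g, mul_assoc, ← Units.val_mul, mul_inv_cancel, Units.val_one, mul_one]
    rw [h1, ← mul_assoc, ← mul_assoc, ← Units.val_mul, inv_mul_cancel, Units.val_one, one_mul]
  by_cases hcol0 : (fun a => S a 0) = 0
  · -- the second column is a common eigenvector of `ρ'` with character `χ₂`
    have hcol1 : (fun a => S a 1) ≠ 0 := by
      intro h1
      apply hS0
      ext a j
      fin_cases j
      · exact congrFun hcol0 a
      · exact congrFun h1 a
    obtain ⟨P', ψ₁, ψ₂, hP'0, hP'⟩ := exists_diag_of_common_eigenvector ρ' _ hcol1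
      (fun g => ⟨_, hcol 1 g⟩)
    have hψ₁ : ∀ g, (ψ₁ g : ℂ) = χ₂ g := by
      intro g
      have e1 : (ρ' g).val *ᵥ (fun a => S a 1) = (ψ₁ g : ℂ) • (fun a => S a 1) := by
        ext a
        have := congrFun (congrFun (hP' g) a) 0
        rw [Matrix.mul_apply, Matrix.mul_apply] at this
        simp only [hP'0] at this
        rw [Matrix.mulVec, dotProduct, this, Pi.smul_apply, smul_eq_mul]
        simp [Fin.sum_univ_two, mul_comm, hP'0 a]
      rw [hcol 1 g] at e1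
      have := smul_left_injective ℂ hcol1 e1
      simpa using this.symm
    have hψ₂ : ∀ g, (ψ₂ g : ℂ) = χ₁ g := by
      intro g
      have e1 := trace_eq_of_diag (χ₁ := fun g => (ψ₁ g : ℂ)) (χ₂ := fun g => (ψ₂ g : ℂ)) hP' g
      rw [htr g, hψ₁ g] at e1
      linear_combination -e1
    let W : Matrix (Fin 2) (Fin 2) ℂ := !![0, 1; 1, 0]
    have hWdet : (P'.val * W * P⁻¹.val).det ≠ 0 := by
      rw [Matrix.det_mul, Matrix.det_mul]
      have h1 : P'.val.det ≠ 0 := (Matrix.isUnit_iff_isUnit_det _).mp P'.isUnit |>.ne_zero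
      have h2 : P⁻¹.val.det ≠ 0 := (Matrix.isUnit_iff_isUnit_det _).mp P⁻¹.isUnit |>.ne_zero
      have h3 : W.det ≠ 0 := by simp [W, Matrix.det_fin_two_of]
      exact mul_ne_zero (mul_ne_zero h1 h3) h2
    refine ⟨Matrix.GeneralLinearGroup.mkOfDetNeZero _ hWdet, fun g =>
      eq_conj_of_val_mul_eq ?_⟩
    show (ρ' g).val * (P'.val * W * P⁻¹.val) = P'.val * W * P⁻¹.val * (ρ g).val
    have hW : Matrix.diagonal ![(ψ₁ g : ℂ), (ψ₂ g : ℂ)] * W
        = W * Matrix.diagonal ![(χ₁ g : ℂ), (χ₂ g : ℂ)] := by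
      rw [hψ₁ g, hψ₂ g]
      ext a b
      fin_cases a <;> fin_cases b <;> simp [W, Matrix.mul_apply, Fin.sum_univ_two]
    calc (ρ' g).val * (P'.val * W * P⁻¹.val)
        = ((ρ' g).val * P'.val) * W * P⁻¹.val := by simp only [mul_assoc]
      _ = P'.val * (Matrix.diagonal ![(ψ₁ g : ℂ), (ψ₂ g : ℂ)] * W) * P⁻¹.val := by
          rw [hP' g]; simp only [mul_assoc]
      _ = P'.val * W * (Matrix.diagonal ![(χ₁ g : ℂ), (χ₂ g : ℂ)] * P⁻¹.val) := by
          rw [hW]; simp only [mul_assoc]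
      _ = P'.val * W * P⁻¹.val * (ρ g).val := by
          rw [← hPinv g]; simp only [mul_assoc]
  · -- the first column is a common eigenvector of `ρ'` with character `χ₁`
    obtain ⟨P', ψ₁, ψ₂, hP'0, hP'⟩ := exists_diag_of_common_eigenvector ρ' _ hcol0
      (fun g => ⟨_, hcol 0 g⟩)
    have hψ₁ : ∀ g, (ψ₁ g : ℂ) = χ₁ g := by
      intro g
      have e1 : (ρ' g).val *ᵥ (fun a => S a 0) = (ψ₁ g : ℂ) • (fun a => S a 0) := by
        ext a
        have := congrFun (congrFun (hP' g) a) 0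
        rw [Matrix.mul_apply, Matrix.mul_apply] at this
        simp only [hP'0] at this
        rw [Matrix.mulVec, dotProduct, this, Pi.smul_apply, smul_eq_mul]
        simp [Fin.sum_univ_two, mul_comm, hP'0 a]
      rw [hcol 0 g] at e1
      have := smul_left_injective ℂ hcol0 e1
      simpa using this.symm
    have hψ₂ : ∀ g, (ψ₂ g : ℂ) = χ₂ g := by
      intro g
      have e1 := trace_eq_of_diag (χ₁ := fun g => (ψ₁ g : ℂ)) (χ₂ := fun g => (ψ₂ g : ℂ)) hP' g
      rw [htr g, hψ₁ g] at e1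
      linear_combination -e1
    have hdet' : (P'.val * P⁻¹.val).det ≠ 0 := by
      rw [Matrix.det_mul]
      have h1 : P'.val.det ≠ 0 := (Matrix.isUnit_iff_isUnit_det _).mp P'.isUnit |>.ne_zero
      have h2 : P⁻¹.val.det ≠ 0 := (Matrix.isUnit_iff_isUnit_det _).mp P⁻¹.isUnit |>.ne_zero
      exact mul_ne_zero h1 h2
    refine ⟨Matrix.GeneralLinearGroup.mkOfDetNeZero _ hdet', fun g =>
      eq_conj_of_val_mul_eq ?_⟩
    show (ρ' g).val * (P'.val * P⁻¹.val) = P'.val * P⁻¹.val * (ρ g).val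
    calc (ρ' g).val * (P'.val * P⁻¹.val)
        = ((ρ' g).val * P'.val) * P⁻¹.val := by simp only [mul_assoc]
      _ = P'.val * (Matrix.diagonal ![(χ₁ g : ℂ), (χ₂ g : ℂ)] * P⁻¹.val) := by
          rw [hP' g, hψ₁ g, hψ₂ g]; simp only [mul_assoc]
      _ = P'.val * P⁻¹.val * (ρ g).val := by
          rw [← hPinv g]; simp only [mul_assoc]

end Conj

/-! ### Part B: Galois packaging -/

section Galois

local notation "Qb" => AlgebraicClosure ℚ
local notation "Γℚ" => (AlgebraicClosure ℚ ≃ₐ[ℚ] AlgebraicClosure ℚ)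

/-- `ρ` is unramified with Frobenius trace `a p` and determinant `e p` at every prime `p ∤ N`
outside the finite set `T`.  For `T = ∅`, `a p = qCoeff f p`, `e p = ε p` this is literally the
last clause of the frozen statement S48. -/
def GoodOff (N : ℕ) (a e : ℕ → ℂ) (T : Finset ℕ) (ρ : Γℚ →* GL (Fin 2) ℂ) : Prop :=
  ∀ p : ℕ, p.Prime → ¬ p ∣ N → p ∉ T →
    ∀ A : ValuationSubring Qb, A.LiesOverPrime p →
      (∀ σ ∈ A.inertiaSubgroupIn ℚ, ρ σ = 1) ∧
      ∀ σ : Γℚ, A.IsFrobeniusAt σ p →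
        ((ρ σ : GL (Fin 2) ℂ) : Matrix (Fin 2) (Fin 2) ℂ).trace = a p ∧
        ((ρ σ : GL (Fin 2) ℂ) : Matrix (Fin 2) (Fin 2) ℂ).det = e p

theorem GoodOff.mono {N : ℕ} {a e : ℕ → ℂ} {T T' : Finset ℕ} {ρ : Γℚ →* GL (Fin 2) ℂ}
    (h : GoodOff N a e T ρ) (hT : T ⊆ T') : GoodOff N a e T' ρ :=
  fun p hp hpN hpT => h p hp hpN (fun hmem => hpT (hT hmem))

/-- A homomorphism of finite level takes equal values on elements agreeing on the level. -/
theorem map_eq_of_eqOn {M : Type*} [Group M] (ρ : Γℚ →* M) {L : IntermediateField ℚ Qb}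
    (hL : ∀ σ : Γℚ, (∀ x ∈ L, σ x = x) → ρ σ = 1) {σ τ : Γℚ} (h : ∀ x ∈ L, σ x = τ x) :
    ρ σ = ρ τ := by
  have h1 : ρ (τ⁻¹ * σ) = 1 := hL _ (fun x hx => by
    rw [AlgEquiv.mul_apply, h x hx]
    exact τ.symm_apply_apply x)
  rw [map_mul, map_inv, inv_mul_eq_one] at h1
  exact h1.symm

/-- A homomorphism of finite level has finite image. -/
theorem finite_range_of_finiteLevel {M : Type} [Group M] (ρ : Γℚ →* M)
    (h : GaloisFactorsThroughFiniteLevel ρ) : Finite ρ.range := by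
  classical
  obtain ⟨L, hLfin, hL⟩ := h
  have := hLfin
  let r : Γℚ → (L →ₐ[ℚ] Qb) := fun σ => (σ : Qb →ₐ[ℚ] Qb).comp L.val
  have hr : ∀ σ τ, r σ = r τ → ρ σ = ρ τ := by
    intro σ τ hστ
    apply map_eq_of_eqOn ρ hL
    intro x hx
    exact DFunLike.congr_fun hστ ⟨x, hx⟩
  let s : (L →ₐ[ℚ] Qb) → M := fun φ => if hφ : ∃ σ, r σ = φ then ρ hφ.choose else 1
  have hsub : (ρ.range : Set M) ⊆ Set.range s := by
    rintro _ ⟨σ, rfl⟩
    refine ⟨r σ, ?_⟩
    have hex : ∃ σ', r σ' = r σ := ⟨σ, rfl⟩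
    simp only [s, dif_pos hex]
    exact hr _ _ hex.choose_spec
  exact ((Set.finite_range s).subset hsub).to_subtype

/-- **Comparison of traces and determinants** of two representations of finite level with the
same Frobenius data outside finite sets of primes (generator-Chebotarev). -/
theorem trace_det_eq_of_goodOff {N : ℕ} (hN : N ≠ 0) {a e : ℕ → ℂ} {T₀ T₁ : Finset ℕ}
    {ρ₀ ρ₁ : Γℚ →* GL (Fin 2) ℂ} (h₀ : GaloisFactorsThroughFiniteLevel ρ₀)
    (h₁ : GaloisFactorsThroughFiniteLevel ρ₁) (g₀ : GoodOff N a e T₀ ρ₀)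
    (g₁ : GoodOff N a e T₁ ρ₁) (σ : Γℚ) :
    (ρ₀ σ).val.trace = (ρ₁ σ).val.trace ∧ (ρ₀ σ).val.det = (ρ₁ σ).val.det := by
  obtain ⟨L₀, hL₀fin, hL₀⟩ := h₀
  obtain ⟨L₁, hL₁fin, hL₁⟩ := h₁
  have := hL₀fin
  have := hL₁fin
  have : FiniteDimensional ℚ ↥(L₀ ⊔ L₁) := IntermediateField.finiteDimensional_sup L₀ L₁
  obtain ⟨ℓ, A, τ, n, hℓ, hℓT, hA, hτ, hn⟩ :=
    Fermat.Agent.Lib.helper74.exists_frobenius_pow_eq (L₀ ⊔ L₁) σ (T₀ ∪ T₁ ∪ N.primeFactors)
  have hℓN : ¬ ℓ ∣ N := fun hdvd =>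
    hℓT (Finset.mem_union_right _ (Nat.mem_primeFactors.mpr ⟨hℓ, hdvd, hN⟩))
  have hℓ0 : ℓ ∉ T₀ := fun hmem =>
    hℓT (Finset.mem_union_left _ (Finset.mem_union_left _ hmem))
  have hℓ1 : ℓ ∉ T₁ := fun hmem =>
    hℓT (Finset.mem_union_left _ (Finset.mem_union_right _ hmem))
  have e₀ : ρ₀ σ = (ρ₀ τ) ^ n := by
    rw [← map_pow]
    exact (map_eq_of_eqOn ρ₀ hL₀ (fun x hx => hn x ((le_sup_left : L₀ ≤ L₀ ⊔ L₁) hx))).symm
  have e₁ : ρ₁ σ = (ρ₁ τ) ^ n := by
    rw [← map_pow]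
    exact (map_eq_of_eqOn ρ₁ hL₁ (fun x hx => hn x ((le_sup_right : L₁ ≤ L₀ ⊔ L₁) hx))).symm
  obtain ⟨-, hF₀⟩ := g₀ ℓ hℓ hℓN hℓ0 A hA
  obtain ⟨-, hF₁⟩ := g₁ ℓ hℓ hℓN hℓ1 A hA
  obtain ⟨t₀, d₀⟩ := hF₀ τ hτ
  obtain ⟨t₁, d₁⟩ := hF₁ τ hτ
  rw [e₀, e₁, Units.val_pow_eq_pow_val, Units.val_pow_eq_pow_val]
  exact ⟨trace_pow_congr (t₀.trans t₁.symm) (d₀.trans d₁.symm) n, by
    rw [Matrix.det_pow, Matrix.det_pow, d₀, d₁]⟩

/-- Two representations of finite level with the same Frobenius data outside finite sets of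
primes are conjugate. -/
theorem exists_conj_of_goodOff {N : ℕ} (hN : N ≠ 0) {a e : ℕ → ℂ} {T₀ T₁ : Finset ℕ}
    {ρ₀ ρ₁ : Γℚ →* GL (Fin 2) ℂ} (h₀ : GaloisFactorsThroughFiniteLevel ρ₀)
    (h₁ : GaloisFactorsThroughFiniteLevel ρ₁) (g₀ : GoodOff N a e T₀ ρ₀)
    (g₁ : GoodOff N a e T₁ ρ₁) :
    ∃ Q : GL (Fin 2) ℂ, ∀ σ : Γℚ, ρ₁ σ = Q * ρ₀ σ * Q⁻¹ := by
  let Φ : Γℚ →* GL (Fin 2) ℂ × GL (Fin 2) ℂ := ρ₀.prod ρ₁
  have : Finite Φ.range := by
    have := finite_range_of_finiteLevel ρ₀ h₀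
    have := finite_range_of_finiteLevel ρ₁ h₁
    refine Set.Finite.to_subtype
      (((Set.toFinite (ρ₀.range : Set (GL (Fin 2) ℂ))).prod
        (Set.toFinite (ρ₁.range : Set (GL (Fin 2) ℂ)))).subset ?_)
    rintro _ ⟨σ, rfl⟩
    exact ⟨⟨σ, rfl⟩, ⟨σ, rfl⟩⟩
  let π₀ : Φ.range →* GL (Fin 2) ℂ :=
    (MonoidHom.fst (GL (Fin 2) ℂ) (GL (Fin 2) ℂ)).comp Φ.range.subtype
  let π₁ : Φ.range →* GL (Fin 2) ℂ :=
    (MonoidHom.snd (GL (Fin 2) ℂ) (GL (Fin 2) ℂ)).comp Φ.range.subtype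
  have htr : ∀ x : Φ.range, (π₀ x).val.trace = (π₁ x).val.trace := by
    rintro ⟨_, σ, rfl⟩
    exact (trace_det_eq_of_goodOff hN h₀ h₁ g₀ g₁ σ).1
  obtain ⟨Q, hQ⟩ := exists_conj_of_trace_eq π₀ π₁ htr
  exact ⟨Q, fun σ => hQ ⟨Φ σ, σ, rfl⟩⟩

/-- **Two-prime comparison.**  If `ρ₀` is good outside `T₀` and `ρ₁` is good outside `T₁`, then
`ρ₀` is good outside `T₀ ∩ T₁`. -/
theorem goodOff_inter {N : ℕ} (hN : N ≠ 0) {a e : ℕ → ℂ} {T₀ T₁ : Finset ℕ}
    {ρ₀ ρ₁ : Γℚ →* GL (Fin 2) ℂ} (h₀ : GaloisFactorsThroughFiniteLevel ρ₀)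
    (h₁ : GaloisFactorsThroughFiniteLevel ρ₁) (g₀ : GoodOff N a e T₀ ρ₀)
    (g₁ : GoodOff N a e T₁ ρ₁) : GoodOff N a e (T₀ ∩ T₁) ρ₀ := by
  obtain ⟨Q, hQ⟩ := exists_conj_of_goodOff hN h₀ h₁ g₀ g₁
  intro p hp hpN hpT A hA
  by_cases hp0 : p ∈ T₀
  · have hp1 : p ∉ T₁ := fun hmem => hpT (Finset.mem_inter.mpr ⟨hp0, hmem⟩)
    obtain ⟨hI, hF⟩ := g₁ p hp hpN hp1 A hA
    refine ⟨fun σ hσ => ?_, fun σ hσ => ?_⟩
    · have h1 := hI σ hσ
      rw [hQ σ] at h1
      have h2 : ρ₀ σ = Q⁻¹ * (Q * ρ₀ σ * Q⁻¹) * Q := by group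
      rw [h2, h1]
      group
    · obtain ⟨t, d⟩ := hF σ hσ
      obtain ⟨t', d'⟩ := trace_det_eq_of_goodOff hN h₀ h₁ g₀ g₁ σ
      exact ⟨t'.trans t, d'.trans d⟩
  · exact g₀ p hp hpN hp0 A hA

/-! #### Congruences modulo infinitely many primes -/

/-- A nonzero algebraic number lies in the maximal ideal of valuation subrings of `ℂ` of only
finitely many residue characteristics. -/
theorem exists_bound_of_mem_nonunits {x : ℂ} (hx : IsAlgebraic ℚ x) (hx0 : x ≠ 0) :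
    ∃ n : ℕ, ∀ (l : ℕ) (R : ValuationSubring ℂ), l.Prime → (l : ℂ) ∈ R.nonunits →
      x ∈ R.nonunits → l ≤ n := by
  have hinv : IsAlgebraic ℤ x⁻¹ := (IsFractionRing.isAlgebraic_iff ℤ ℚ ℂ).mpr hx.inv
  obtain ⟨d, hd0, hd⟩ := hinv.exists_integral_multiple
  refine ⟨d.natAbs, fun l R hl hlR hxR => ?_⟩
  have hw : d • x⁻¹ ∈ R := Fermat.Agent.Lib.helper54.mem_valuationSubring_of_isIntegral R _ hd
  have hdR : R.valuation (d : ℂ) < 1 := by
    have e : (d : ℂ) = (d • x⁻¹) * x := by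
      rw [zsmul_eq_mul, mul_assoc, inv_mul_cancel₀ hx0, mul_one]
    rw [e, map_mul]
    have h1 : R.valuation (d • x⁻¹) ≤ 1 := (R.valuation_le_one_iff _).mpr hw
    have h2 : R.valuation x < 1 := R.mem_nonunits_iff.mp hxR
    calc R.valuation (d • x⁻¹) * R.valuation x ≤ 1 * R.valuation x := by gcongr
      _ = R.valuation x := one_mul _
      _ < 1 := h2
  have hlR' : R.valuation (l : ℂ) < 1 := R.mem_nonunits_iff.mp hlR
  by_contra hlt
  push Not at hlt
  have hndvd : ¬ (l : ℤ) ∣ d := by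
    intro hdvd
    have h1 : l ∣ d.natAbs := Int.natCast_dvd.mp hdvd
    have h2 : 0 < d.natAbs := Int.natAbs_pos.mpr hd0
    exact absurd (Nat.le_of_dvd h2 h1) (not_le.mpr hlt)
  have hcop : IsCoprime (l : ℤ) d :=
    (Nat.prime_iff_prime_int.mp hl).coprime_iff_not_dvd.mpr hndvd
  obtain ⟨u, v, huv⟩ := hcop
  have hint : ∀ z : ℤ, R.valuation (z : ℂ) ≤ 1 := fun z =>
    (R.valuation_le_one_iff _).mpr (by
      have : ((z : ℤ) : ℂ) = algebraMap ℤ ℂ z := by simp
      rw [this]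
      exact Fermat.Agent.Lib.helper54.mem_valuationSubring_of_isIntegral R _ isIntegral_algebraMap)
  have h1 : (1 : ℂ) = (u : ℂ) * (l : ℂ) + (v : ℂ) * (d : ℂ) := by
    have := congrArg (fun z : ℤ => (z : ℂ)) huv
    simp only [Int.cast_add, Int.cast_mul, Int.cast_natCast, Int.cast_one] at this
    exact this.symm
  have h2 : R.valuation ((u : ℂ) * (l : ℂ) + (v : ℂ) * (d : ℂ)) < 1 := by
    refine lt_of_le_of_lt (R.valuation.map_add _ _) (max_lt ?_ ?_)
    · rw [map_mul]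
      calc R.valuation (u : ℂ) * R.valuation (l : ℂ) ≤ 1 * R.valuation (l : ℂ) := by
            gcongr; exact hint u
        _ = R.valuation (l : ℂ) := one_mul _
        _ < 1 := hlR'
    · rw [map_mul]
      calc R.valuation (v : ℂ) * R.valuation (d : ℂ) ≤ 1 * R.valuation (d : ℂ) := by
            gcongr; exact hint v
        _ = R.valuation (d : ℂ) := one_mul _
        _ < 1 := hdR
  rw [← h1, map_one] at h2
  exact lt_irrefl _ h2

open Classical in
/-- A bound for the residue characteristics at which `x` can vanish (`0` if `x` is not a nonzero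
algebraic number). -/
noncomputable def bnd (x : ℂ) : ℕ :=
  if h : IsAlgebraic ℚ x ∧ x ≠ 0 then (exists_bound_of_mem_nonunits h.1 h.2).choose else 0

theorem le_bnd {x : ℂ} (hx : IsAlgebraic ℚ x) (hx0 : x ≠ 0) {l : ℕ} {R : ValuationSubring ℂ}
    (hl : l.Prime) (hlR : (l : ℂ) ∈ R.nonunits) (hxR : x ∈ R.nonunits) : l ≤ bnd x := by
  have h : IsAlgebraic ℚ x ∧ x ≠ 0 := ⟨hx, hx0⟩
  rw [bnd, dif_pos h]
  exact (exists_bound_of_mem_nonunits h.1 h.2).choose_spec l R hl hlR hxR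

/-- The separation bound of a finite set of complex numbers. -/
noncomputable def sep (F : Finset ℂ) : ℕ := ∑ x ∈ F, ∑ y ∈ F, bnd (x - y)

/-- Two elements of a finite set of algebraic numbers which are congruent modulo a prime larger
than the separation bound are equal. -/
theorem eq_of_sub_mem_nonunits {F : Finset ℂ} (hF : ∀ x ∈ F, IsAlgebraic ℚ x) {x y : ℂ}
    (hx : x ∈ F) (hy : y ∈ F) {l : ℕ} (hl : l.Prime) {R : ValuationSubring ℂ}
    (hlR : (l : ℂ) ∈ R.nonunits) (hxy : x - y ∈ R.nonunits) (hbig : sep F < l) : x = y := by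
  by_contra hne
  have h1 : l ≤ bnd (x - y) :=
    le_bnd ((hF x hx).sub (hF y hy)) (sub_ne_zero.mpr hne) hl hlR hxy
  have h2 : bnd (x - y) ≤ sep F := by
    refine le_trans ?_ (Finset.single_le_sum (f := fun x => ∑ y ∈ F, bnd (x - y))
      (fun _ _ => Nat.zero_le _) hx)
    exact Finset.single_le_sum (f := fun y => bnd (x - y)) (fun _ _ => Nat.zero_le _) hy
  omega

/-- An algebraic number congruent to an element of a finite set `F` of algebraic numbers modulo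
arbitrarily large primes lies in `F`. -/
theorem mem_of_forall_large {F : Finset ℂ} (hF : ∀ x ∈ F, IsAlgebraic ℚ x) {y : ℂ}
    (hy : IsAlgebraic ℚ y)
    (h : ∀ l₀ : ℕ, ∃ l : ℕ, l₀ ≤ l ∧ l.Prime ∧ ∃ R : ValuationSubring ℂ,
      (l : ℂ) ∈ R.nonunits ∧ ∃ x ∈ F, x - y ∈ R.nonunits) : y ∈ F := by
  by_contra hyF
  obtain ⟨l, hl₀, hl, R, hlR, x, hx, hxy⟩ := h ((∑ x ∈ F, bnd (x - y)) + 1)
  have hne : x - y ≠ 0 := sub_ne_zero.mpr (fun hxy' => hyF (hxy' ▸ hx))
  have h1 : l ≤ bnd (x - y) := le_bnd ((hF x hx).sub hy) hne hl hlR hxy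
  have h2 : bnd (x - y) ≤ ∑ x ∈ F, bnd (x - y) :=
    Finset.single_le_sum (f := fun x => bnd (x - y)) (fun _ _ => Nat.zero_le _) hx
  omega

/-! #### Matrices of finite order -/

/-- The eigenvalues of a `2 × 2` complex matrix of finite order are roots of unity. -/
theorem exists_roots_of_pow_eq_one (M : Matrix (Fin 2) (Fin 2) ℂ) {m : ℕ} (hM : M ^ m = 1) :
    ∃ ζ₁ ζ₂ : ℂ, ζ₁ ^ m = 1 ∧ ζ₂ ^ m = 1 ∧ M.trace = ζ₁ + ζ₂ ∧ M.det = ζ₁ * ζ₂ := by
  obtain ⟨s, hs⟩ := IsAlgClosed.exists_eq_mul_self (M.trace ^ 2 - 4 * M.det)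
  have key : ∀ ζ : ℂ, ζ ^ 2 - M.trace * ζ + M.det = 0 → ζ ^ m = 1 := by
    intro ζ hζ
    have hdet : (M - ζ • (1 : Matrix (Fin 2) (Fin 2) ℂ)).det = 0 := by
      rw [Matrix.trace_fin_two, Matrix.det_fin_two] at hζ
      rw [Matrix.det_fin_two]
      simp only [Matrix.sub_apply, Matrix.smul_apply, Matrix.one_apply_eq, smul_eq_mul, mul_one,
        ne_eq, zero_ne_one, not_false_eq_true, Matrix.one_apply_ne, mul_zero, sub_zero,
        one_ne_zero]
      linear_combination hζ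
    obtain ⟨v, hv0, hv⟩ := Matrix.exists_mulVec_eq_zero_iff.mpr hdet
    have hMv : M *ᵥ v = ζ • v := by
      rw [Matrix.sub_mulVec, Matrix.smul_mulVec, Matrix.one_mulVec, sub_eq_zero] at hv
      exact hv
    have hpow : ∀ k : ℕ, (M ^ k) *ᵥ v = ζ ^ k • v := by
      intro k
      induction k with
      | zero => simp
      | succ k ih =>
        rw [pow_succ, ← Matrix.mulVec_mulVec, hMv, Matrix.mulVec_smul, ih, smul_smul, pow_succ,
          mul_comm]
    have h1 := hpow m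
    rw [hM, Matrix.one_mulVec] at h1
    have h2 : (1 : ℂ) • v = ζ ^ m • v := by rw [one_smul]; exact h1
    exact (smul_left_injective ℂ hv0 h2).symm
  refine ⟨(M.trace + s) / 2, (M.trace - s) / 2, key _ ?_, key _ ?_, by ring, ?_⟩
  · linear_combination (-1 / 4 : ℂ) * hs
  · linear_combination (-1 / 4 : ℂ) * hs
  · linear_combination (-1 / 4 : ℂ) * hs

/-- Sums of two `B!`-th roots of unity. -/
noncomputable def trSet (B : ℕ) : Finset ℂ :=
  Finset.image₂ (fun x y => x + y) (Polynomial.nthRootsFinset B.factorial (1 : ℂ))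
    (Polynomial.nthRootsFinset B.factorial (1 : ℂ))

/-- Products of two `B!`-th roots of unity. -/
noncomputable def detSet (B : ℕ) : Finset ℂ :=
  Finset.image₂ (fun x y => x * y) (Polynomial.nthRootsFinset B.factorial (1 : ℂ))
    (Polynomial.nthRootsFinset B.factorial (1 : ℂ))

theorem isIntegral_of_mem_nthRootsFinset {B : ℕ} {ζ : ℂ}
    (hζ : ζ ∈ Polynomial.nthRootsFinset B.factorial (1 : ℂ)) : IsIntegral ℚ ζ := by
  rw [Polynomial.mem_nthRootsFinset B.factorial_pos] at hζ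
  refine ⟨Polynomial.X ^ B.factorial - Polynomial.C 1,
    Polynomial.monic_X_pow_sub_C 1 B.factorial_ne_zero, ?_⟩
  simp [hζ]

theorem isAlgebraic_of_mem_trSet {B : ℕ} {x : ℂ} (hx : x ∈ trSet B) : IsAlgebraic ℚ x := by
  obtain ⟨ζ₁, h1, ζ₂, h2, rfl⟩ := Finset.mem_image₂.mp hx
  exact ((isIntegral_of_mem_nthRootsFinset h1).add (isIntegral_of_mem_nthRootsFinset h2)).isAlgebraic

theorem isAlgebraic_of_mem_detSet {B : ℕ} {x : ℂ} (hx : x ∈ detSet B) : IsAlgebraic ℚ x := by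
  obtain ⟨ζ₁, h1, ζ₂, h2, rfl⟩ := Finset.mem_image₂.mp hx
  exact ((isIntegral_of_mem_nthRootsFinset h1).mul (isIntegral_of_mem_nthRootsFinset h2)).isAlgebraic

/-- Elements of a representation of finite level with image of order `≤ B` have order dividing
`B!`. -/
theorem pow_factorial_eq_one {ρ : Γℚ →* GL (Fin 2) ℂ} (hfin : GaloisFactorsThroughFiniteLevel ρ)
    {B : ℕ} (hB : Nat.card ρ.range ≤ B) (σ : Γℚ) : (ρ σ).val ^ B.factorial = 1 := by
  have := finite_range_of_finiteLevel ρ hfin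
  have h1 : (⟨ρ σ, σ, rfl⟩ : ρ.range) ^ Nat.card ρ.range = 1 := pow_card_eq_one'
  have h2 : (ρ σ) ^ Nat.card ρ.range = 1 := by
    simpa using congrArg Subtype.val h1
  have hpos : 0 < Nat.card ρ.range := Nat.card_pos
  obtain ⟨k, hk⟩ := Nat.dvd_factorial hpos hB
  rw [← Units.val_pow_eq_pow_val, hk, pow_mul, h2, one_pow, Units.val_one]

theorem trace_mem_trSet {ρ : Γℚ →* GL (Fin 2) ℂ} (hfin : GaloisFactorsThroughFiniteLevel ρ)
    {B : ℕ} (hB : Nat.card ρ.range ≤ B) (σ : Γℚ) : (ρ σ).val.trace ∈ trSet B := by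
  obtain ⟨ζ₁, ζ₂, h1, h2, ht, -⟩ := exists_roots_of_pow_eq_one _ (pow_factorial_eq_one hfin hB σ)
  rw [ht]
  exact Finset.mem_image₂.mpr ⟨ζ₁, (Polynomial.mem_nthRootsFinset B.factorial_pos 1).mpr h1, ζ₂,
    (Polynomial.mem_nthRootsFinset B.factorial_pos 1).mpr h2, rfl⟩

theorem det_mem_detSet {ρ : Γℚ →* GL (Fin 2) ℂ} (hfin : GaloisFactorsThroughFiniteLevel ρ)
    {B : ℕ} (hB : Nat.card ρ.range ≤ B) (σ : Γℚ) : (ρ σ).val.det ∈ detSet B := by
  obtain ⟨ζ₁, ζ₂, h1, h2, -, hd⟩ := exists_roots_of_pow_eq_one _ (pow_factorial_eq_one hfin hB σ)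
  rw [hd]
  exact Finset.mem_image₂.mpr ⟨ζ₁, (Polynomial.mem_nthRootsFinset B.factorial_pos 1).mpr h1, ζ₂,
    (Polynomial.mem_nthRootsFinset B.factorial_pos 1).mpr h2, rfl⟩

/-! #### From a family of lifted mod-`λ` representations to the complex representation -/

/-- `ρ` is a member at the prime `l` of a family of complex lifts of mod-`λ` representations:
finite level, image of order `≤ B`, unramified outside `N l`, and Frobenius traces and
determinants congruent to `a p`, `e p` modulo the maximal ideal of a valuation subring `R` of `ℂ`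
of residue characteristic `l`. -/
structure IsLiftAt (N : ℕ) (a e : ℕ → ℂ) (B l : ℕ) (ρ : Γℚ →* GL (Fin 2) ℂ)
    (R : ValuationSubring ℂ) : Prop where
  mem : (l : ℂ) ∈ R.nonunits
  finiteLevel : GaloisFactorsThroughFiniteLevel ρ
  card_le : Nat.card ρ.range ≤ B
  good : ∀ p : ℕ, p.Prime → ¬ p ∣ N → p ≠ l →
    ∀ A : ValuationSubring Qb, A.LiesOverPrime p →
      (∀ σ ∈ A.inertiaSubgroupIn ℚ, ρ σ = 1) ∧
      ∀ σ : Γℚ, A.IsFrobeniusAt σ p →
        ((ρ σ : GL (Fin 2) ℂ) : Matrix (Fin 2) (Fin 2) ℂ).trace - a p ∈ R.nonunits ∧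
        ((ρ σ : GL (Fin 2) ℂ) : Matrix (Fin 2) (Fin 2) ℂ).det - e p ∈ R.nonunits

/-- A family member at a prime `l` beyond the separation bounds is good outside `{l}`. -/
theorem goodOff_singleton_of_isLiftAt {N : ℕ} {a e : ℕ → ℂ} {B : ℕ}
    (haS : ∀ p : ℕ, p.Prime → ¬ p ∣ N → a p ∈ trSet B)
    (heD : ∀ p : ℕ, p.Prime → ¬ p ∣ N → e p ∈ detSet B)
    {l : ℕ} (hl : l.Prime) {ρ : Γℚ →* GL (Fin 2) ℂ} {R : ValuationSubring ℂ}
    (hlift : IsLiftAt N a e B l ρ R) (hbig : sep (trSet B) + sep (detSet B) < l) :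
    GoodOff N a e {l} ρ := by
  intro p hp hpN hpl A hA
  have hpl' : p ≠ l := fun h => hpl (Finset.mem_singleton.mpr h)
  obtain ⟨hI, hF⟩ := hlift.good p hp hpN hpl' A hA
  refine ⟨hI, fun σ hσ => ?_⟩
  obtain ⟨ht, hd⟩ := hF σ hσ
  exact ⟨eq_of_sub_mem_nonunits (fun x hx => isAlgebraic_of_mem_trSet hx)
      (trace_mem_trSet hlift.finiteLevel hlift.card_le σ) (haS p hp hpN) hl hlift.mem ht
      (by omega),
    eq_of_sub_mem_nonunits (fun x hx => isAlgebraic_of_mem_detSet hx)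
      (det_mem_detSet hlift.finiteLevel hlift.card_le σ) (heD p hp hpN) hl hlift.mem hd
      (by omega)⟩

/-- In a family of lifts with image of order `≤ B` at arbitrarily large primes, the data `a p`,
`e p` are sums, resp. products, of two `B!`-th roots of unity. -/
theorem mem_trSet_detSet_of_family {N : ℕ} {a e : ℕ → ℂ}
    (ha : ∀ p : ℕ, p.Prime → ¬ p ∣ N → IsAlgebraic ℚ (a p))
    (he : ∀ p : ℕ, p.Prime → ¬ p ∣ N → IsAlgebraic ℚ (e p)) (B : ℕ)
    (hfam : ∀ l₀ : ℕ, ∃ l : ℕ, l₀ ≤ l ∧ l.Prime ∧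
      ∃ (ρ : Γℚ →* GL (Fin 2) ℂ) (R : ValuationSubring ℂ), IsLiftAt N a e B l ρ R) :
    (∀ p : ℕ, p.Prime → ¬ p ∣ N → a p ∈ trSet B) ∧
      (∀ p : ℕ, p.Prime → ¬ p ∣ N → e p ∈ detSet B) := by
  refine ⟨fun p hp hpN => ?_, fun p hp hpN => ?_⟩
  · refine mem_of_forall_large (fun x hx => isAlgebraic_of_mem_trSet hx) (ha p hp hpN)
      (fun l₀ => ?_)
    obtain ⟨l, hl₀, hl, ρ, R, hlift⟩ := hfam (l₀ + p + 1)
    obtain ⟨A, σ, hA, hσ⟩ := Fermat.Agent.Lib.helper54.exists_liesOverPrime_isFrobeniusAt hp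
    obtain ⟨-, hF⟩ := hlift.good p hp hpN (by omega) A hA
    exact ⟨l, by omega, hl, R, hlift.mem, _,
      trace_mem_trSet hlift.finiteLevel hlift.card_le σ, (hF σ hσ).1⟩
  · refine mem_of_forall_large (fun x hx => isAlgebraic_of_mem_detSet hx) (he p hp hpN)
      (fun l₀ => ?_)
    obtain ⟨l, hl₀, hl, ρ, R, hlift⟩ := hfam (l₀ + p + 1)
    obtain ⟨A, σ, hA, hσ⟩ := Fermat.Agent.Lib.helper54.exists_liesOverPrime_isFrobeniusAt hp
    obtain ⟨-, hF⟩ := hlift.good p hp hpN (by omega) A hA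
    exact ⟨l, by omega, hl, R, hlift.mem, _,
      det_mem_detSet hlift.finiteLevel hlift.card_le σ, (hF σ hσ).2⟩

/-- **F8, main step.**  From a family of complex lifts of mod-`λ` representations with uniformly
bounded image, for infinitely many primes `l`, to a single complex representation with the exact
Frobenius data at ALL primes not dividing `N`. -/
theorem exists_goodRep_of_family {N : ℕ} (hN : N ≠ 0) {a e : ℕ → ℂ}
    (ha : ∀ p : ℕ, p.Prime → ¬ p ∣ N → IsAlgebraic ℚ (a p))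
    (he : ∀ p : ℕ, p.Prime → ¬ p ∣ N → IsAlgebraic ℚ (e p)) (B : ℕ)
    (hfam : ∀ l₀ : ℕ, ∃ l : ℕ, l₀ ≤ l ∧ l.Prime ∧
      ∃ (ρ : Γℚ →* GL (Fin 2) ℂ) (R : ValuationSubring ℂ), IsLiftAt N a e B l ρ R) :
    ∃ ρ : Γℚ →* GL (Fin 2) ℂ, GaloisFactorsThroughFiniteLevel ρ ∧ Nat.card ρ.range ≤ B ∧
      GoodOff N a e ∅ ρ := by
  obtain ⟨haS, heD⟩ := mem_trSet_detSet_of_family ha he B hfam
  obtain ⟨l, hl₀, hl, ρ, R, hlift⟩ := hfam (sep (trSet B) + sep (detSet B) + 1)
  obtain ⟨l', hl'₀, hl', ρ', R', hlift'⟩ := hfam (l + sep (trSet B) + sep (detSet B) + 1)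
  have g : GoodOff N a e {l} ρ := goodOff_singleton_of_isLiftAt haS heD hl hlift (by omega)
  have g' : GoodOff N a e {l'} ρ' := goodOff_singleton_of_isLiftAt haS heD hl' hlift' (by omega)
  have hinter : ({l} ∩ {l'} : Finset ℕ) = ∅ := by
    rw [Finset.singleton_inter_of_notMem]
    rw [Finset.mem_singleton]
    omega
  have hgood := goodOff_inter hN hlift.finiteLevel hlift'.finiteLevel g g'
  rw [hinter] at hgood
  exact ⟨ρ, hlift.finiteLevel, hlift.card_le, hgood⟩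

/-! #### Ideal form of the congruences, and levels depending on the prime -/

/-- The same as `IsLiftAt`, with the congruences modulo a proper ideal `m ∋ l` of the ring of
all algebraic integers in `ℂ` (the output shape of the lifting leaf F7). -/
structure IsLiftAtIdeal (N : ℕ) (a e : ℕ → ℂ) (B l : ℕ) (ρ : Γℚ →* GL (Fin 2) ℂ)
    (m : Ideal (integralClosure ℤ ℂ)) : Prop where
  ne_top : m ≠ ⊤
  mem : (l : integralClosure ℤ ℂ) ∈ m
  finiteLevel : GaloisFactorsThroughFiniteLevel ρ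
  card_le : Nat.card ρ.range ≤ B
  good : ∀ p : ℕ, p.Prime → ¬ p ∣ N → p ≠ l →
    ∀ A : ValuationSubring Qb, A.LiesOverPrime p →
      (∀ σ ∈ A.inertiaSubgroupIn ℚ, ρ σ = 1) ∧
      ∀ σ : Γℚ, A.IsFrobeniusAt σ p →
        (∃ z ∈ m, (z : ℂ) = ((ρ σ : GL (Fin 2) ℂ) : Matrix (Fin 2) (Fin 2) ℂ).trace - a p) ∧
        (∃ z ∈ m, (z : ℂ) = ((ρ σ : GL (Fin 2) ℂ) : Matrix (Fin 2) (Fin 2) ℂ).det - e p)

/-- A proper ideal of the ring of algebraic integers of `ℂ` is contained in the maximal ideal of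
a valuation subring of `ℂ`. -/
theorem exists_valuationSubring_of_ideal (m : Ideal (integralClosure ℤ ℂ)) (hm : m ≠ ⊤) :
    ∃ R : ValuationSubring ℂ, ∀ z ∈ m, (z : ℂ) ∈ R.nonunits := by
  let A : Subring ℂ := (integralClosure ℤ ℂ).toSubring
  let φ : A →+* integralClosure ℤ ℂ :=
    { toFun := fun x => ⟨x.1, x.2⟩
      map_one' := rfl
      map_mul' := fun _ _ => rfl
      map_zero' := rfl
      map_add' := fun _ _ => rfl }
  have hI : m.comap φ ≠ ⊤ := by
    intro h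
    apply hm
    rw [Ideal.eq_top_iff_one] at h ⊢
    have h1 : φ 1 ∈ m := Ideal.mem_comap.mp h
    simpa using h1
  obtain ⟨R, -, hR⟩ := Ideal.image_subset_nonunits_valuationSubring (m.comap φ) hI
  refine ⟨R, fun z hz => hR ⟨⟨z.1, z.2⟩, ?_, rfl⟩⟩
  show φ ⟨z.1, z.2⟩ ∈ m
  exact hz

theorem IsLiftAtIdeal.exists_isLiftAt {N : ℕ} {a e : ℕ → ℂ} {B l : ℕ}
    {ρ : Γℚ →* GL (Fin 2) ℂ} {m : Ideal (integralClosure ℤ ℂ)}
    (h : IsLiftAtIdeal N a e B l ρ m) : ∃ R : ValuationSubring ℂ, IsLiftAt N a e B l ρ R := by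
  obtain ⟨R, hR⟩ := exists_valuationSubring_of_ideal m h.ne_top
  refine ⟨R, ⟨?_, h.finiteLevel, h.card_le, fun p hp hpN hpl A hA => ?_⟩⟩
  · have := hR _ h.mem
    simpa using this
  · obtain ⟨hI, hF⟩ := h.good p hp hpN hpl A hA
    refine ⟨hI, fun σ hσ => ?_⟩
    obtain ⟨⟨z, hz, hzt⟩, ⟨w, hw, hwd⟩⟩ := hF σ hσ
    exact ⟨hzt ▸ hR z hz, hwd ▸ hR w hw⟩

/-- Changing the level: good at level `M` implies good at a divisor `N` of `M` outside the primes
dividing `M`. -/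
theorem GoodOff.of_dvd {N M : ℕ} (hM : M ≠ 0) {a e : ℕ → ℂ} {T : Finset ℕ}
    {ρ : Γℚ →* GL (Fin 2) ℂ} (h : GoodOff M a e T ρ) : GoodOff N a e (T ∪ M.primeFactors) ρ := by
  intro p hp _ hpT A hA
  have hpM : ¬ p ∣ M := fun hdvd =>
    hpT (Finset.mem_union_right _ (Nat.mem_primeFactors.mpr ⟨hp, hdvd, hM⟩))
  exact h p hp hpM (fun hmem => hpT (Finset.mem_union_left _ hmem)) A hA

/-- **Glueing over all primes.**  If for every prime `p ∤ N` some representation of finite level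
is good outside a finite set not containing `p`, then one representation is good everywhere. -/
theorem exists_goodOff_empty {N : ℕ} (hN : N ≠ 0) {a e : ℕ → ℂ}
    (h : ∀ p : ℕ, p.Prime → ¬ p ∣ N → ∃ (T : Finset ℕ) (ρ : Γℚ →* GL (Fin 2) ℂ),
      p ∉ T ∧ GaloisFactorsThroughFiniteLevel ρ ∧ GoodOff N a e T ρ) :
    ∃ ρ : Γℚ →* GL (Fin 2) ℂ, GaloisFactorsThroughFiniteLevel ρ ∧ GoodOff N a e ∅ ρ := by
  classical
  obtain ⟨p₀, hp₀N, hp₀⟩ := Nat.exists_infinite_primes (N + 1)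
  have hp₀N' : ¬ p₀ ∣ N := fun hdvd => by
    have := Nat.le_of_dvd (Nat.pos_of_ne_zero hN) hdvd
    omega
  obtain ⟨T₀, ρ₀, -, hfin₀, hgood₀⟩ := h p₀ hp₀ hp₀N'
  refine ⟨ρ₀, hfin₀, ?_⟩
  have key : ∀ T : Finset ℕ, GoodOff N a e T ρ₀ → GoodOff N a e ∅ ρ₀ := by
    intro T
    induction T using Finset.induction_on with
    | empty => exact id
    | insert q T' hq ih =>
      intro hg
      apply ih
      by_cases hqp : q.Prime ∧ ¬ q ∣ N
      · obtain ⟨Tq, ρq, hqT, hfinq, hgoodq⟩ := h q hqp.1 hqp.2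
        refine (goodOff_inter hN hfin₀ hfinq hg hgoodq).mono (fun x hx => ?_)
        rcases Finset.mem_inter.mp hx with ⟨hx1, hx2⟩
        rcases Finset.mem_insert.mp hx1 with rfl | hx1
        · exact absurd hx2 hqT
        · exact hx1
      · intro p hp hpN hpT A hA
        refine hg p hp hpN (fun hmem => ?_) A hA
        rcases Finset.mem_insert.mp hmem with rfl | hmem
        · exact hqp ⟨hp, hpN⟩
        · exact hpT hmem
  exact key T₀ hgood₀

/-- **F8, main step, in the shape of the residual statement with auxiliary levels**: for every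
prime `p ∤ N` a level `M` with `N ∣ M`, `p ∤ M` and a family of lifts at level `M` for infinitely
many `l` with uniformly bounded image (congruences modulo ideals of the ring of algebraic
integers). -/
theorem exists_goodRep_of_families {N : ℕ} (hN : N ≠ 0) {a e : ℕ → ℂ}
    (ha : ∀ p : ℕ, p.Prime → ¬ p ∣ N → IsAlgebraic ℚ (a p))
    (he : ∀ p : ℕ, p.Prime → ¬ p ∣ N → IsAlgebraic ℚ (e p))
    (hfam : ∀ p : ℕ, p.Prime → ¬ p ∣ N → ∃ M B : ℕ, N ∣ M ∧ M ≠ 0 ∧ ¬ p ∣ M ∧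
      ∀ l₀ : ℕ, ∃ l : ℕ, l₀ ≤ l ∧ l.Prime ∧
        ∃ (ρ : Γℚ →* GL (Fin 2) ℂ) (m : Ideal (integralClosure ℤ ℂ)),
          IsLiftAtIdeal M a e B l ρ m) :
    ∃ ρ : Γℚ →* GL (Fin 2) ℂ, GaloisFactorsThroughFiniteLevel ρ ∧ GoodOff N a e ∅ ρ := by
  refine exists_goodOff_empty hN (fun p hp hpN => ?_)
  obtain ⟨M, B, hNM, hM, hpM, hfamM⟩ := hfam p hp hpN
  have hdvd : ∀ q : ℕ, ¬ q ∣ M → ¬ q ∣ N := fun q hq hqN => hq (hqN.trans hNM)
  obtain ⟨ρ, hfin, -, hgood⟩ := exists_goodRep_of_family hM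
    (fun q hq hqM => ha q hq (hdvd q hqM)) (fun q hq hqM => he q hq (hdvd q hqM)) B
    (fun l₀ => by
      obtain ⟨l, hl₀, hl, ρ, m, hlift⟩ := hfamM l₀
      obtain ⟨R, hR⟩ := hlift.exists_isLiftAt
      exact ⟨l, hl₀, hl, ρ, R, hR⟩)
  refine ⟨∅ ∪ M.primeFactors, ρ, ?_, hfin, hgood.of_dvd hM⟩
  rw [Finset.empty_union]
  exact fun hmem => hpM (Nat.dvd_of_mem_primeFactors hmem)

/-! #### Irreducibility from Rankin's bound and the symmetric Chebotarev density theorem -/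

/-- Rankin's bound on primes with bounded coefficients (leaf F4, shape of
`helper7426.exists_rankin_sq_bound` with `A = 4`). -/
def RankinSq (N : ℕ) (a : ℕ → ℂ) : Prop :=
  ∃ C : ℝ, ∀ s : ℝ, 1 < s → s ≤ 2 → ∀ P : Finset ℕ,
    (∀ p ∈ P, p.Prime ∧ ¬ p ∣ N ∧ ‖a p‖ ^ 2 ≤ 4) →
    ∑ p ∈ P, ‖a p‖ ^ 2 * (p : ℝ) ^ (-s) ≤ Real.log (1 / (s - 1)) + C

/-- Rankin's bound in logarithmic form (leaf F4, (R3)). -/
def RankinLog (N : ℕ) (a : ℕ → ℂ) : Prop :=
  ∃ C : ℝ, ∀ P : Finset ℕ, (∀ p ∈ P, p.Prime ∧ ¬ p ∣ N) → ∀ s : ℝ, 1 < s → s ≤ 2 →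
    ∑ p ∈ P, Real.log (1 + ‖a p‖ ^ 2 * (p : ℝ) ^ (-s)) ≤ Real.log (1 / (s - 1)) + C

/-- `∑_{p ∈ P} p^{-2} ≤ 1` for a finite set of primes. -/
theorem sum_primes_inv_sq_le_one (P : Finset ℕ) (hP : ∀ p ∈ P, p.Prime) :
    ∑ p ∈ P, (((p : ℝ)) ^ 2)⁻¹ ≤ 1 := by
  have hsub : P ⊆ Finset.Ioc 1 (P.sup id + 1) := by
    intro p hp
    have h1 : p ≤ P.sup id := Finset.le_sup (f := id) hp
    exact Finset.mem_Ioc.mpr ⟨(hP p hp).one_lt, by omega⟩
  have h2 := sum_Ioc_inv_sq_le_sub (α := ℝ) (k := 1) (n := P.sup id + 1) one_ne_zero (by omega)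
  have h3 : (0 : ℝ) ≤ ((P.sup id + 1 : ℕ) : ℝ)⁻¹ := by positivity
  calc ∑ p ∈ P, (((p : ℝ)) ^ 2)⁻¹ ≤ ∑ p ∈ Finset.Ioc 1 (P.sup id + 1), (((p : ℝ)) ^ 2)⁻¹ :=
        Finset.sum_le_sum_of_subset_of_nonneg hsub fun i _ _ => by positivity
    _ ≤ ((1 : ℕ) : ℝ)⁻¹ - ((P.sup id + 1 : ℕ) : ℝ)⁻¹ := h2
    _ ≤ 1 := by
        rw [Nat.cast_one, inv_one]
        linarith

/-- `x - x² ≤ log (1 + x)` for `x ≥ 0`. -/
theorem sub_sq_le_log_one_add {x : ℝ} (hx : 0 ≤ x) : x - x ^ 2 ≤ Real.log (1 + x) := by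
  have h1 : 0 < 1 + x := by linarith
  have h2 := Real.one_sub_inv_le_log_of_pos h1
  have h3 : x - x ^ 2 ≤ 1 - (1 + x)⁻¹ := by
    have h4 : 1 - (1 + x)⁻¹ = x / (1 + x) := by field_simp; ring
    rw [h4, le_div_iff₀ h1]
    nlinarith [pow_nonneg hx 3]
  linarith

/-- The logarithmic form of Rankin's bound implies the form for bounded coefficients. -/
theorem RankinLog.rankinSq {N : ℕ} {a : ℕ → ℂ} (h : RankinLog N a) : RankinSq N a := by
  obtain ⟨C, hC⟩ := h
  refine ⟨C + 16, fun s hs1 hs2 P hP => ?_⟩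
  have h1 := hC P (fun p hp => ⟨(hP p hp).1, (hP p hp).2.1⟩) s hs1 hs2
  have hterm : ∀ p ∈ P, ‖a p‖ ^ 2 * (p : ℝ) ^ (-s)
      ≤ Real.log (1 + ‖a p‖ ^ 2 * (p : ℝ) ^ (-s)) + 16 * (((p : ℝ)) ^ 2)⁻¹ := by
    intro p hp
    obtain ⟨hprime, -, h4⟩ := hP p hp
    have hp1 : (1 : ℝ) ≤ (p : ℝ) := by exact_mod_cast hprime.one_le
    have hp0 : (0 : ℝ) ≤ (p : ℝ) := by linarith
    have hpow0 : 0 ≤ (p : ℝ) ^ (-s) := Real.rpow_nonneg hp0 _
    have hx0 : 0 ≤ ‖a p‖ ^ 2 * (p : ℝ) ^ (-s) := mul_nonneg (by positivity) hpow0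
    have h5 := sub_sq_le_log_one_add hx0
    have h6 : ((p : ℝ) ^ (-s)) ^ 2 ≤ (((p : ℝ)) ^ 2)⁻¹ := by
      have e1 : ((p : ℝ) ^ (-s)) ^ 2 = (p : ℝ) ^ (-s * 2) := by
        rw [Real.rpow_mul hp0, Real.rpow_two]
      have e2 : (((p : ℝ)) ^ 2)⁻¹ = (p : ℝ) ^ (-2 : ℝ) := by
        rw [Real.rpow_neg hp0, Real.rpow_two]
      rw [e1, e2]
      exact Real.rpow_le_rpow_of_exponent_le hp1 (by linarith)
    have h7 : (‖a p‖ ^ 2 * (p : ℝ) ^ (-s)) ^ 2 ≤ 16 * (((p : ℝ)) ^ 2)⁻¹ := by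
      rw [mul_pow]
      have h8 : (‖a p‖ ^ 2) ^ 2 ≤ 16 := by
        have : 0 ≤ ‖a p‖ ^ 2 := by positivity
        nlinarith
      have h9 : 0 ≤ ((p : ℝ) ^ (-s)) ^ 2 := by positivity
      calc (‖a p‖ ^ 2) ^ 2 * ((p : ℝ) ^ (-s)) ^ 2 ≤ 16 * ((p : ℝ) ^ (-s)) ^ 2 :=
            mul_le_mul_of_nonneg_right h8 h9
        _ ≤ 16 * (((p : ℝ)) ^ 2)⁻¹ := by linarith
    linarith
  have h2 := Finset.sum_le_sum hterm
  rw [Finset.sum_add_distrib, ← Finset.mul_sum] at h2
  have h3 := sum_primes_inv_sq_le_one P (fun p hp => (hP p hp).1)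
  linarith

/-- The inversion-symmetric Chebotarev density theorem, lower bound in `e`-form over finite sets
of primes, for finite quotients of finite level (textually the Spec statement
`helper8231.Stmt_ChebDensity`, leaf F5). -/
def ChebQuot : Prop :=
  ∀ (G : Type) [Group G] [Finite G] (π : Γℚ →* G), Function.Surjective π →
    GaloisFactorsThroughFiniteLevel π →
    ∀ T : Set G, (∀ g h : G, h ∈ T → g * h * g⁻¹ ∈ T) → (∀ h ∈ T, h⁻¹ ∈ T) →
    ∀ S : ℕ, S ≠ 0 → ∀ e : ℝ, 0 < e → ∃ C : ℝ, ∀ s : ℝ, 1 < s → s ≤ 2 →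
      ∃ P : Finset ℕ,
        (∀ p ∈ P, p.Prime ∧ ¬ p ∣ S ∧ ∃ A : ValuationSubring (AlgebraicClosure ℚ),
          A.LiesOverPrime p ∧ ∃ σ : Γℚ, A.IsFrobeniusAt σ p ∧ π σ ∈ T) ∧
        ((Nat.card T : ℝ) / (Nat.card G : ℝ) - e) * Real.log (1 / (s - 1)) - C
          ≤ ∑ p ∈ P, (p : ℝ) ^ (-s)

/-- The counting step: a class function `F` with values in `[0, 4]` and mean `≥ 2`, and lower
bounds for weighted sums `S v` attached to its level sets. -/
theorem level_sum_bound {G : Type} [Fintype G] (F : G → ℝ) (hF0 : ∀ g, 0 ≤ F g)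
    (hF4 : ∀ g, F g ≤ 4) (hsum : 2 * (Fintype.card G : ℝ) ≤ ∑ g, F g) [Nonempty G]
    (Bv : ℝ → ℝ) (L : ℝ) (hL : 0 ≤ L) (S : ℝ → ℝ)
    (hS : ∀ v, ((Nat.card {g | F g = v} : ℝ) / (Fintype.card G : ℝ)
      - 1 / (8 * (Fintype.card G : ℝ))) * L - Bv v ≤ S v) :
    3 / 2 * L - ∑ v ∈ Finset.univ.image F, 4 * |Bv v| ≤ ∑ v ∈ Finset.univ.image F, v * S v := by
  classical
  set c : ℝ := (Fintype.card G : ℝ) with hc
  have hcpos : 0 < c := Nat.cast_pos.mpr Fintype.card_pos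
  set V : Finset ℝ := Finset.univ.image F with hV
  have hVmem : ∀ v ∈ V, 0 ≤ v ∧ v ≤ 4 := by
    intro v hv
    obtain ⟨g, -, rfl⟩ := Finset.mem_image.mp hv
    exact ⟨hF0 g, hF4 g⟩
  have hcard : ∀ v : ℝ, (Nat.card {g | F g = v} : ℝ)
      = ((Finset.univ.filter (fun g => F g = v)).card : ℝ) := by
    intro v
    congr 1
    rw [Set.coe_ofPred, Nat.card_eq_fintype_card, Fintype.card_subtype]
  have hfib : ∑ g, F g = ∑ v ∈ V, v * (Nat.card {g | F g = v} : ℝ) := by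
    have := Finset.sum_comp (s := (Finset.univ : Finset G)) (fun v : ℝ => v) F
    rw [this]
    refine Finset.sum_congr rfl (fun v _ => ?_)
    rw [hcard v, nsmul_eq_mul, mul_comm]
  have hVsum : ∑ v ∈ V, v ≤ 4 * c := by
    calc ∑ v ∈ V, v ≤ ∑ _v ∈ V, (4 : ℝ) := Finset.sum_le_sum (fun v hv => (hVmem v hv).2)
      _ = V.card * 4 := by rw [Finset.sum_const, nsmul_eq_mul]
      _ ≤ c * 4 := by
          have : (V.card : ℝ) ≤ c := by
            rw [hc]
            exact_mod_cast Finset.card_image_le.trans (le_of_eq Finset.card_univ)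
          nlinarith
      _ = 4 * c := by ring
  have hterm : ∀ v ∈ V, L / c * (v * (Nat.card {g | F g = v} : ℝ)) - 1 / (8 * c) * L * v
      - 4 * |Bv v| ≤ v * S v := by
    intro v hv
    obtain ⟨hv0, hv4⟩ := hVmem v hv
    have h1 := mul_le_mul_of_nonneg_left (hS v) hv0
    have h2 : v * Bv v ≤ 4 * |Bv v| := by
      have := le_abs_self (Bv v)
      have := abs_nonneg (Bv v)
      nlinarith
    have h3 : v * (((Nat.card {g | F g = v} : ℝ) / c - 1 / (8 * c)) * L - Bv v)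
        = L / c * (v * (Nat.card {g | F g = v} : ℝ)) - 1 / (8 * c) * L * v - v * Bv v := by
      field_simp
    rw [h3] at h1
    linarith
  have hsum' := Finset.sum_le_sum hterm
  rw [Finset.sum_sub_distrib, Finset.sum_sub_distrib, ← Finset.mul_sum, ← Finset.mul_sum,
    ← hfib] at hsum'
  have h4 : 2 * L ≤ L / c * ∑ g, F g := by
    have : L / c * (2 * c) ≤ L / c * ∑ g, F g :=
      mul_le_mul_of_nonneg_left hsum (div_nonneg hL hcpos.le)
    have h5 : L / c * (2 * c) = 2 * L := by field_simp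
    linarith
  have h6 : 1 / (8 * c) * L * ∑ v ∈ V, v ≤ L / 2 := by
    have h7 : 1 / (8 * c) * L * ∑ v ∈ V, v ≤ 1 / (8 * c) * L * (4 * c) :=
      mul_le_mul_of_nonneg_left hVsum (by positivity)
    have h8 : 1 / (8 * c) * L * (4 * c) = L / 2 := by field_simp; ring
    linarith
  linarith

theorem norm_hom_units_eq_one {G : Type*} [Group G] [Finite G] (χ : G →* ℂˣ) (g : G) :
    ‖((χ g : ℂˣ) : ℂ)‖ = 1 := by
  have := Fintype.ofFinite G
  refine Complex.norm_eq_one_of_pow_eq_one (n := Fintype.card G) ?_ Fintype.card_ne_zero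
  rw [← Units.val_pow_eq_pow_val, ← map_pow, pow_card_eq_one, map_one, Units.val_one]

/-- **Irreducibility.**  A representation of finite level with Frobenius traces `a p` at all
`p ∤ N` is irreducible, given Rankin's bound for `a` (F4) and the symmetric Chebotarev density
theorem (F5). -/
theorem irreducible_of_rankin_of_cheb {N : ℕ} (hN : N ≠ 0) {a e : ℕ → ℂ}
    {ρ : Γℚ →* GL (Fin 2) ℂ} (hfin : GaloisFactorsThroughFiniteLevel ρ)
    (hgood : GoodOff N a e ∅ ρ) (hR : RankinSq N a) (hD : ChebQuot) :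
    (Deformation.matrixRepresentation ρ).IsIrreducible := by
  classical
  by_contra hirr
  obtain ⟨v, hv, hev⟩ := exists_common_eigenvector_of_not_irreducible ρ hirr
  -- the finite quotient `π : Γℚ ↠ ρ.range`
  have hfinite : Finite ρ.range := finite_range_of_finiteLevel ρ hfin
  have : Fintype ρ.range := Fintype.ofFinite _
  let π : Γℚ →* ρ.range := ρ.rangeRestrict
  have hπsurj : Function.Surjective π := ρ.rangeRestrict_surjective
  have hπfin : GaloisFactorsThroughFiniteLevel π := by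
    obtain ⟨L, hLfin, hL⟩ := hfin
    exact ⟨L, hLfin, fun σ hσ => Subtype.ext (hL σ hσ)⟩
  let ι : ρ.range →* GL (Fin 2) ℂ := ρ.range.subtype
  have hevE : ∀ g : ρ.range, ∃ c : ℂ, (ι g).val *ᵥ v = c • v := by
    rintro ⟨_, σ, rfl⟩
    exact hev σ
  obtain ⟨P, χ₁, χ₂, -, hP⟩ := exists_diag_of_common_eigenvector ι v hv hevE
  have hsum := two_mul_card_le_sum_of_diag ι P χ₁ χ₂ hP
  have htrE : ∀ g, (ι g).val.trace = (χ₁ g : ℂ) + (χ₂ g : ℂ) := fun g =>
    trace_eq_of_diag (χ₁ := fun g => (χ₁ g : ℂ)) (χ₂ := fun g => (χ₂ g : ℂ)) hP g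
  set F : ρ.range → ℝ := fun g => ‖(ι g).val.trace‖ ^ 2 with hF
  have hF0 : ∀ g, 0 ≤ F g := fun g => by positivity
  have hF4 : ∀ g, F g ≤ 4 := by
    intro g
    have h1 : ‖(ι g).val.trace‖ ≤ 2 := by
      rw [htrE g]
      calc ‖(χ₁ g : ℂ) + (χ₂ g : ℂ)‖ ≤ ‖(χ₁ g : ℂ)‖ + ‖(χ₂ g : ℂ)‖ := norm_add_le _ _
        _ = 2 := by rw [norm_hom_units_eq_one, norm_hom_units_eq_one]; norm_num
    have h0 : 0 ≤ ‖(ι g).val.trace‖ := norm_nonneg _
    simp only [hF]
    nlinarith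
  have hFconj : ∀ g x : ρ.range, F (g * x * g⁻¹) = F x := by
    intro g x
    simp only [hF]
    rw [htrE, htrE]
    have h1 : ∀ χ : ρ.range →* ℂˣ, χ (g * x * g⁻¹) = χ x := by
      intro χ
      rw [map_mul, map_mul, map_inv, mul_comm, inv_mul_cancel_left]
    rw [h1 χ₁, h1 χ₂]
  have hFinv : ∀ x : ρ.range, F x⁻¹ = F x := by
    intro x
    simp only [hF]
    rw [htrE, htrE]
    have h1 : ∀ χ : ρ.range →* ℂˣ, ((χ x⁻¹ : ℂˣ) : ℂ) = (starRingEnd ℂ) (χ x : ℂ) := by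
      intro χ
      rw [map_inv, Units.val_inv_eq_inv_val, Complex.inv_def, Complex.normSq_eq_norm_sq,
        norm_hom_units_eq_one]
      simp
    rw [h1 χ₁, h1 χ₂, ← map_add, Complex.norm_conj]
  -- the Chebotarev data for the level sets of `F`
  set c : ℝ := (Fintype.card ρ.range : ℝ) with hc
  have hcpos : 0 < c := Nat.cast_pos.mpr Fintype.card_pos
  have hδ : 0 < 1 / (8 * c) := by positivity
  have hcheb : ∀ w : ℝ, ∃ B : ℝ, ∀ s : ℝ, 1 < s → s ≤ 2 → ∃ P : Finset ℕ,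
      (∀ p ∈ P, p.Prime ∧ ¬ p ∣ N ∧ ∃ A : ValuationSubring (AlgebraicClosure ℚ),
        A.LiesOverPrime p ∧ ∃ σ : Γℚ, A.IsFrobeniusAt σ p ∧ π σ ∈ {g | F g = w}) ∧
      ((Nat.card {g | F g = w} : ℝ) / c - 1 / (8 * c)) * Real.log (1 / (s - 1)) - B
        ≤ ∑ p ∈ P, (p : ℝ) ^ (-s) := by
    intro w
    have h1 := hD ρ.range π hπsurj hπfin {g | F g = w}
      (fun g x hx => by
        simp only [Set.mem_ofPred_eq] at hx ⊢
        rw [hFconj, hx])
      (fun x hx => by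
        simp only [Set.mem_ofPred_eq] at hx ⊢
        rw [hFinv, hx]) N hN (1 / (8 * c)) hδ
    rw [Nat.card_eq_fintype_card (α := ρ.range)] at h1
    exact h1
  choose Bv hBv using hcheb
  obtain ⟨C, hC⟩ := hR
  set V : Finset ℝ := Finset.univ.image F with hV
  set C₁ : ℝ := ∑ w ∈ V, 4 * |Bv w| with hC₁
  set M : ℝ := max 0 (2 * (C + C₁)) + 1 with hM
  have hM0 : 0 < M := by
    have := le_max_left 0 (2 * (C + C₁))
    linarith
  have hMbig : 2 * (C + C₁) < M := by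
    have := le_max_right 0 (2 * (C + C₁))
    linarith
  set s : ℝ := 1 + Real.exp (-M) with hs
  have hs1 : 1 < s := by
    have := Real.exp_pos (-M)
    linarith
  have hs2 : s ≤ 2 := by
    have : Real.exp (-M) ≤ 1 := Real.exp_le_one_iff.mpr (by linarith)
    linarith
  have hLs : Real.log (1 / (s - 1)) = M := by
    rw [hs, add_sub_cancel_left, one_div, ← Real.exp_neg, neg_neg, Real.log_exp]
  have hexP : ∀ w : ℝ, ∃ P : Finset ℕ,
      (∀ p ∈ P, p.Prime ∧ ¬ p ∣ N ∧ ∃ A : ValuationSubring (AlgebraicClosure ℚ),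
        A.LiesOverPrime p ∧ ∃ σ : Γℚ, A.IsFrobeniusAt σ p ∧ π σ ∈ {g | F g = w}) ∧
      ((Nat.card {g | F g = w} : ℝ) / c - 1 / (8 * c)) * Real.log (1 / (s - 1)) - Bv w
        ≤ ∑ p ∈ P, (p : ℝ) ^ (-s) := fun w => hBv w s hs1 hs2
  choose Pv hPv using hexP
  -- primes in `Pv w` have `‖a ℓ‖² = w`
  have key : ∀ w : ℝ, ∀ ℓ ∈ Pv w, ℓ.Prime ∧ ¬ ℓ ∣ N ∧ ‖a ℓ‖ ^ 2 = w := by
    intro w ℓ hℓ
    obtain ⟨hprime, hℓN, A, hA, σ, hσ, hmem⟩ := (hPv w).1 ℓ hℓ
    refine ⟨hprime, hℓN, ?_⟩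
    have h1 := ((hgood ℓ hprime hℓN (Finset.notMem_empty ℓ) A hA).2 σ hσ).1
    have h2 : F (π σ) = w := hmem
    have h3 : ι (π σ) = ρ σ := rfl
    simp only [hF] at h2
    rw [h3, h1] at h2
    exact h2
  have hdisj : Set.PairwiseDisjoint (↑V) Pv := by
    intro w _ w' _ hne
    rw [Function.onFun, Finset.disjoint_left]
    intro ℓ h1 h2
    exact hne ((key w ℓ h1).2.2.symm.trans (key w' ℓ h2).2.2)
  have hVmem : ∀ w ∈ V, 0 ≤ w ∧ w ≤ 4 := by
    intro w hw
    obtain ⟨g, -, rfl⟩ := Finset.mem_image.mp hw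
    exact ⟨hF0 g, hF4 g⟩
  have hrankin := hC s hs1 hs2 (V.biUnion Pv) (fun ℓ hℓ => by
    obtain ⟨w, hw, hℓw⟩ := Finset.mem_biUnion.mp hℓ
    obtain ⟨h1, h2, h3⟩ := key w ℓ hℓw
    exact ⟨h1, h2, h3 ▸ (hVmem w hw).2⟩)
  rw [Finset.sum_biUnion hdisj, hLs] at hrankin
  have hrewrite : ∑ w ∈ V, ∑ ℓ ∈ Pv w, ‖a ℓ‖ ^ 2 * (ℓ : ℝ) ^ (-s)
      = ∑ w ∈ V, w * ∑ ℓ ∈ Pv w, (ℓ : ℝ) ^ (-s) := by
    refine Finset.sum_congr rfl (fun w _ => ?_)
    rw [Finset.mul_sum]
    exact Finset.sum_congr rfl (fun ℓ hℓ => by rw [(key w ℓ hℓ).2.2])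
  rw [hrewrite] at hrankin
  have hlower := level_sum_bound F hF0 hF4 hsum Bv M hM0.le
    (fun w => ∑ ℓ ∈ Pv w, (ℓ : ℝ) ^ (-s)) (fun w => by
      have := (hPv w).2
      rw [hLs] at this
      exact this)
  linarith

/-! #### The frozen conclusion -/

open CongruenceSubgroup in
/-- Values of a Dirichlet character are algebraic. -/
theorem isAlgebraic_dirichletCharacter {N : ℕ} [NeZero N] (ε : DirichletCharacter ℂ N)
    (x : ZMod N) : IsAlgebraic ℚ (ε x) := by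
  by_cases hx : IsUnit x
  · obtain ⟨u, rfl⟩ := hx
    have h1 : u ^ Fintype.card (ZMod N)ˣ = 1 := pow_card_eq_one
    have h2 : ε (u : ZMod N) ^ Fintype.card (ZMod N)ˣ = 1 := by
      rw [← map_pow, ← Units.val_pow_eq_pow_val, h1, Units.val_one, map_one]
    have h3 : IsIntegral ℚ (ε (u : ZMod N)) :=
      ⟨Polynomial.X ^ Fintype.card (ZMod N)ˣ - Polynomial.C 1,
        Polynomial.monic_X_pow_sub_C 1 Fintype.card_ne_zero, by
          rw [Polynomial.eval₂_sub, Polynomial.eval₂_pow, Polynomial.eval₂_X, Polynomial.eval₂_C,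
            h2, map_one, sub_self]⟩
    exact h3.isAlgebraic
  · rw [MulChar.map_nonunit ε hx]
    exact isAlgebraic_zero

open CongruenceSubgroup in
/-- **The conclusion of the frozen statement S48**, from a representation of finite level which is
irreducible and good at every prime not dividing `N`. -/
theorem frozen_of_goodOff (N : ℕ) [NeZero N] (ε : DirichletCharacter ℂ N)
    (f : CuspForm (Gamma1 N) 1) (ρ : Γℚ →* GL (Fin 2) ℂ)
    (hfin : GaloisFactorsThroughFiniteLevel ρ)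
    (hirr : (Deformation.matrixRepresentation ρ).IsIrreducible)
    (hgood : GoodOff N (fun p => ModularFormClass.qCoeff f p) (fun p => ε (p : ZMod N)) ∅ ρ) :
    ∃ ρ : Γℚ →* GL (Fin 2) ℂ, GaloisFactorsThroughFiniteLevel ρ ∧
      (Deformation.matrixRepresentation ρ).IsIrreducible ∧
      ∀ p : ℕ, p.Prime → ¬ p ∣ N →
        ∀ A : ValuationSubring (AlgebraicClosure ℚ), A.LiesOverPrime p →
          (∀ σ ∈ A.inertiaSubgroupIn ℚ, ρ σ = 1) ∧
          ∀ σ : Γℚ, A.IsFrobeniusAt σ p →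
            ((ρ σ : GL (Fin 2) ℂ) : Matrix (Fin 2) (Fin 2) ℂ).trace =
                ModularFormClass.qCoeff f p ∧
            ((ρ σ : GL (Fin 2) ℂ) : Matrix (Fin 2) (Fin 2) ℂ).det = ε (p : ZMod N) :=
  ⟨ρ, hfin, hirr, fun p hp hpN A hA => hgood p hp hpN (Finset.notMem_empty p) A hA⟩

open CongruenceSubgroup in
/-- **F8, packaged.**  The conclusion of the frozen statement S48 from:
* algebraicity of the coefficients `a_p` (F1);
* for every prime `p ∤ N` a level `M` (`N ∣ M`, `p ∤ M`) and, for infinitely many primes `l`,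
  complex lifts of the residual representations with uniformly bounded image, unramified outside
  `M l`, with Frobenius traces and determinants congruent to `a_p`, `ε(p)` modulo a proper ideal
  above `l` of the ring of algebraic integers (machine + F3 + F6 + F7);
* Rankin's bound (F4) and the symmetric Chebotarev density theorem (F5). -/
theorem frozen_of_families (N : ℕ) [NeZero N] (ε : DirichletCharacter ℂ N)
    (f : CuspForm (Gamma1 N) 1)
    (ha : ∀ p : ℕ, p.Prime → ¬ p ∣ N → IsAlgebraic ℚ (ModularFormClass.qCoeff f p))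
    (hfam : ∀ p : ℕ, p.Prime → ¬ p ∣ N → ∃ M B : ℕ, N ∣ M ∧ M ≠ 0 ∧ ¬ p ∣ M ∧
      ∀ l₀ : ℕ, ∃ l : ℕ, l₀ ≤ l ∧ l.Prime ∧
        ∃ (ρ : Γℚ →* GL (Fin 2) ℂ) (m : Ideal (integralClosure ℤ ℂ)),
          IsLiftAtIdeal M (fun p => ModularFormClass.qCoeff f p) (fun p => ε (p : ZMod N)) B l ρ m)
    (hR : RankinSq N (fun p => ModularFormClass.qCoeff f p)) (hD : ChebQuot) :
    ∃ ρ : Γℚ →* GL (Fin 2) ℂ, GaloisFactorsThroughFiniteLevel ρ ∧
      (Deformation.matrixRepresentation ρ).IsIrreducible ∧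
      ∀ p : ℕ, p.Prime → ¬ p ∣ N →
        ∀ A : ValuationSubring (AlgebraicClosure ℚ), A.LiesOverPrime p →
          (∀ σ ∈ A.inertiaSubgroupIn ℚ, ρ σ = 1) ∧
          ∀ σ : Γℚ, A.IsFrobeniusAt σ p →
            ((ρ σ : GL (Fin 2) ℂ) : Matrix (Fin 2) (Fin 2) ℂ).trace =
                ModularFormClass.qCoeff f p ∧
            ((ρ σ : GL (Fin 2) ℂ) : Matrix (Fin 2) (Fin 2) ℂ).det = ε (p : ZMod N) := by
  have hN : N ≠ 0 := NeZero.ne N
  obtain ⟨ρ, hfin, hgood⟩ := exists_goodRep_of_families hN ha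
    (fun p _ _ => isAlgebraic_dirichletCharacter ε _) hfam
  exact frozen_of_goodOff N ε f ρ hfin
    (irreducible_of_rankin_of_cheb hN hfin hgood hR hD) hgood

end Galois

end Fermat.Agent.S48.helper886
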