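import Fermat.Agent.S48.helper8231_Spec
import Fermat.Agent.S48.helper886_Finish

/-!
# S48 endgame: the Spec statements `Stmt_Glue`, `Stmt_Exact`, `Stmt_Irred` (helper886)

* `stmt_Glue  : helper8231.Stmt_Glue`   — unconditional (generator-Chebotarev, already on main);
* `stmt_Exact : helper8231.Stmt_Exact`  — unconditional;
* `stmt_Irred : helper8231.Stmt_ChebDensity → helper8231.Stmt_Irred`.

All three are thin adapters on `helper886_Finish`.
-/

set_option autoImplicit false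

namespace Fermat.Agent.S48.helper886

open Fermat.Agent.S48.helper8231 (GQ Zc)

/-- (E3, GLUE) of the Spec, unconditionally. -/
theorem stmt_Glue : Fermat.Agent.S48.helper8231.Stmt_Glue := by
  intro a d S S' ρ ρ' hS hS' hρ hρ'
  have g : GoodOff 1 a d S.primeFactors ρ := fun p hp _ hpT A hA =>
    hρ.2 p hp (fun hdvd => hpT (Nat.mem_primeFactors.mpr ⟨hp, hdvd, hS⟩)) A hA
  have g' : GoodOff 1 a d S'.primeFactors ρ' := fun p hp _ hpT A hA =>
    hρ'.2 p hp (fun hdvd => hpT (Nat.mem_primeFactors.mpr ⟨hp, hdvd, hS'⟩)) A hA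
  have h := goodOff_inter one_ne_zero hρ.1 hρ'.1 g g'
  exact ⟨hρ.1, fun p hp hpS' A hA => h p hp hp.not_dvd_one
    (fun hmem => hpS' (Nat.dvd_of_mem_primeFactors (Finset.mem_inter.mp hmem).2)) A hA⟩

/-- A congruence lift of the Spec is a lift in the sense of `helper886_Finish`. -/
theorem exists_isLiftAt_of_hasCongLift {a d : ℕ → ℂ} {B0 B ℓ : ℕ} (hℓ : ℓ.Prime)
    (h : Fermat.Agent.S48.helper8231.HasCongLift B0 B a d ℓ) :
    ∃ (ρ : GQ →* GL (Fin 2) ℂ) (R : ValuationSubring ℂ), IsLiftAt B a d B0 ℓ ρ R := by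
  obtain ⟨𝔪, hmax, hℓ𝔪, ρ, hfin, -, hcard, hgood⟩ := h
  have hlift : IsLiftAtIdeal B a d B0 ℓ ρ 𝔪 := by
    refine ⟨hmax.ne_top, hℓ𝔪, hfin, ?_, fun p hp hpB hpℓ A hA => ?_⟩
    · have : Nat.card ρ.range = (Set.range ρ).ncard := by
        rw [← MonoidHom.coe_range]
        exact Nat.card_coe_set_eq _
      rw [this]
      exact hcard
    · have hpBℓ : ¬ p ∣ B * ℓ := by
        intro hdvd
        rcases (Nat.Prime.dvd_mul hp).mp hdvd with h | h
        · exact hpB h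
        · exact hpℓ ((Nat.prime_dvd_prime_iff_eq hp hℓ).mp h)
      obtain ⟨hI, hF⟩ := hgood p hp hpBℓ A hA
      refine ⟨hI, fun σ hσ => ?_⟩
      obtain ⟨t, δ, t', δ', ht, hδ, ht', hδ', htm, hδm⟩ := hF σ hσ
      refine ⟨⟨t - t', htm, ?_⟩, ⟨δ - δ', hδm, ?_⟩⟩
      · rw [← ht, ← ht']
        rfl
      · rw [← hδ, ← hδ']
        rfl
  obtain ⟨R, hR⟩ := hlift.exists_isLiftAt
  exact ⟨ρ, R, hR⟩

/-- (E2, EXACT) of the Spec, unconditionally. -/
theorem stmt_Exact : Fermat.Agent.S48.helper8231.Stmt_Exact := by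
  intro a d B0 B hinf
  have hfam : ∀ l₀ : ℕ, ∃ l : ℕ, l₀ ≤ l ∧ l.Prime ∧
      ∃ (ρ : GQ →* GL (Fin 2) ℂ) (R : ValuationSubring ℂ), IsLiftAt B a d B0 l ρ R := by
    intro l₀
    obtain ⟨l, ⟨hl, hcl⟩, hlt⟩ := hinf.exists_gt l₀
    exact ⟨l, hlt.le, hl, exists_isLiftAt_of_hasCongLift hl hcl⟩
  have halg : ∀ p : ℕ, p.Prime → ¬ p ∣ B → IsAlgebraic ℚ (a p) ∧ IsAlgebraic ℚ (d p) := by
    intro p hp hpB
    obtain ⟨ℓ, ⟨hℓ, 𝔪, hmax, hℓ𝔪, ρ, hfin, -, hcard, hgood⟩, hlt⟩ := hinf.exists_gt p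
    obtain ⟨A, σ, hA, hσ⟩ := Fermat.Agent.Lib.helper54.exists_liesOverPrime_isFrobeniusAt hp
    have hpBℓ : ¬ p ∣ B * ℓ := by
      intro hdvd
      rcases (Nat.Prime.dvd_mul hp).mp hdvd with h | h
      · exact hpB h
      · have := (Nat.prime_dvd_prime_iff_eq hp hℓ).mp h
        omega
    obtain ⟨t, δ, t', δ', -, -, ht', hδ', -, -⟩ := (hgood p hp hpBℓ A hA).2 σ hσ
    have key : ∀ z : Zc, IsAlgebraic ℚ (z : ℂ) := fun z =>
      (IsFractionRing.isAlgebraic_iff ℤ ℚ ℂ).mp z.2.isAlgebraic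
    exact ⟨ht' ▸ key t', hδ' ▸ key δ'⟩
  obtain ⟨haS, heD⟩ := mem_trSet_detSet_of_family (fun p hp hpB => (halg p hp hpB).1)
    (fun p hp hpB => (halg p hp hpB).2) B0 hfam
  refine (hinf.sdiff (Finset.finite_toSet
    (Finset.range (sep (trSet B0) + sep (detSet B0) + 1)))).mono ?_
  rintro ℓ ⟨⟨hℓ, hcl⟩, hℓbig⟩
  have hbig : sep (trSet B0) + sep (detSet B0) < ℓ := by
    by_contra hcon
    exact hℓbig (by simpa [Finset.mem_range] using Nat.lt_succ_of_le (not_lt.mp hcon))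
  obtain ⟨ρ, R, hR⟩ := exists_isLiftAt_of_hasCongLift hℓ hcl
  have g := goodOff_singleton_of_isLiftAt haS heD hℓ hR hbig
  refine ⟨hℓ, ρ, hR.finiteLevel, fun p hp hpBℓ A hA => ?_⟩
  exact g p hp (fun h => hpBℓ (h.mul_right ℓ))
    (fun hmem => hpBℓ (by rw [Finset.mem_singleton.mp hmem]; exact dvd_mul_left ℓ B)) A hA

/-- (E4, IRRED) of the Spec, from the Chebotarev density statement of the Spec. -/
theorem stmt_Irred (hD : Fermat.Agent.S48.helper8231.Stmt_ChebDensity) :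
    Fermat.Agent.S48.helper8231.Stmt_Irred := by
  intro N a d ρ hN hrank hgood
  have hR : RankinLog N a := by
    obtain ⟨n, b, C, hconj, hb⟩ := hrank
    obtain ⟨i, hi⟩ := hconj (RingEquiv.refl ℂ)
    refine ⟨C, fun P hP s hs1 hs2 => ?_⟩
    have h1 := hb i P hP s hs1 hs2
    have hcongr : ∑ p ∈ P, Real.log (1 + ‖a p‖ ^ 2 * (p : ℝ) ^ (-s))
        = ∑ p ∈ P, Real.log (1 + ‖b i p‖ ^ 2 * (p : ℝ) ^ (-s)) :=
      Finset.sum_congr rfl (fun p hp => by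
        rw [← hi p (hP p hp).1 (hP p hp).2]
        rfl)
    rw [hcongr]
    exact h1
  exact irreducible_of_rankin_of_cheb hN hgood.1
    (fun p hp hpN _ A hA => hgood.2 p hp hpN A hA) hR.rankinSq hD

end Fermat.Agent.S48.helper886
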