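/-
S48, machine half (M1): the ABSTRACT half of the leaf (M1-IGUSA) of `helper8782_SpecM1`
(helper886).

`helper8782.IgusaDatum A E0 E E0k Ek h0` asks for a monic polynomial `P` over the `q`-Gauss ring
of `E0` with an `A`-integral root generating `E`, whose reduction is IRREDUCIBLE and separable
over the special fibre `E0k` ("Igusa for the layer `E / E0`").  Separability is a unit
discriminant; irreducibility is the uniqueness of the extension of the Gauss valuation, and
needs an argument:

* `irreducible_separable_map_of_orbit` (Mathlib only): valuation subrings `O0 ⊆ W` of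
  `E0 ⊆ E`, every element of `W` integral over `O0`, compatible residue maps, finitely many
  `E0`-automorphisms `σ i` of `E` with `σ i y ∈ W` of pairwise distinct residues and
  `P = ∏ (X - σ i y)` over `O0`  ⟹  `P̄` is irreducible and separable.
  (Every `E0`-automorphism preserves `W` and its maximal ideal; a factor of `P̄` vanishing at
  one `ȳ_i` vanishes at all of them.)
* `minpoly_eq_prod_of_card` (Mathlib only): `#ι ≥ [E : E0]` automorphisms with pairwise
  distinct values at `y`  ⟹  `minpoly E0 y = ∏ (X - σ i y)` and `E = E0(y)`.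
* `igusaDatum_core` : the first lemma in the vocabulary of `helper8782_SpecM1` / `M1Top`
  (`IsQGauss`, `GaussIntegralOver`), concluding `IgusaDatum`; the polynomial `P` is given.
* `igusaDatum_of_orbit` : `P` replaced by "the coefficients of `∏ (X - ι (Y i))` lie in `E0`".
* `igusaDatum_of_card` : the polynomial and the generation `E = E0(y)` are derived from the
  degree bound `[E : E0] ≤ #ι` (the hypothesis shape of ORBITDISC / A2-GAL).
* `isQGauss_bar_red_surjective`, `stmt_IgusaGamma1_of_orbit`, `stmt_IgusaGamma1_of_card` : the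
  instance at `E0 = F̄_M`, `E = helper7300.gamma1FieldBar M`, concluding
  `helper8782.Stmt_IgusaGamma1 M p hpM A hA` from `helper8782.Stmt_IntGamma1 M p hpM A hA` and
  the diamond orbit of an `A`-integral generator.
-/
import Fermat.Agent.S48.helper8782_M1Top

set_option autoImplicit false
set_option synthInstance.maxHeartbeats 400000
set_option linter.style.haveILetI false

open Polynomial

namespace Fermat.Agent.S48.helper886


section IgusaAbstract

variable {E0 E : Type*} [Field E0] [Field E] [Algebra E0 E]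

theorem mem_valuationSubring_of_isIntegral (O0 : ValuationSubring E0) (W : ValuationSubring E)
    (hle : ∀ a : O0, algebraMap E0 E a ∈ W) {z : E} (hz : IsIntegral O0 z) : z ∈ W := by
  obtain ⟨p, hp, hpz⟩ := hz
  let f : O0 →+* W :=
    { toFun := fun a => ⟨algebraMap E0 E a, hle a⟩
      map_one' := Subtype.ext (by simp)
      map_mul' := fun a b => Subtype.ext (by simp)
      map_zero' := Subtype.ext (by simp)
      map_add' := fun a b => Subtype.ext (by simp) }
  have hint : IsIntegral W z := by
    refine ⟨p.map f, hp.map f, ?_⟩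
    rw [eval₂_map]
    exact hpz
  obtain ⟨w, hw⟩ := IsIntegrallyClosed.isIntegral_iff.mp hint
  rw [← hw]
  exact w.2

theorem algEquiv_mem_of_forall_isIntegral (O0 : ValuationSubring E0) (W : ValuationSubring E)
    (hle : ∀ a : O0, algebraMap E0 E a ∈ W) (hint : ∀ x ∈ W, IsIntegral O0 x)
    (τ : E ≃ₐ[E0] E) {x : E} (hx : x ∈ W) : τ x ∈ W := by
  refine mem_valuationSubring_of_isIntegral O0 W hle ?_
  exact (hint x hx).map (τ.toAlgHom.restrictScalars O0)

theorem map_eval_hom {S T : Type*} [CommRing S] [CommRing T] (g : S →+* T) (p : S[X]) (x : S) :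
    g (p.eval x) = (p.map g).eval (g x) := by
  rw [Polynomial.eval_map, Polynomial.eval₂_hom]

/-- The inclusion of a valuation subring of `E0` into a valuation subring of `E` above it. -/
def inclVal (O0 : ValuationSubring E0) (W : ValuationSubring E)
    (hle : ∀ a : O0, algebraMap E0 E a ∈ W) : O0 →+* W where
  toFun a := ⟨algebraMap E0 E a, hle a⟩
  map_one' := Subtype.ext (by simp)
  map_mul' a b := Subtype.ext (by simp)
  map_zero' := Subtype.ext (by simp)
  map_add' a b := Subtype.ext (by simp)

theorem inclVal_coe (O0 : ValuationSubring E0) (W : ValuationSubring E)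
    (hle : ∀ a : O0, algebraMap E0 E a ∈ W) (a : O0) :
    ((inclVal O0 W hle a : W) : E) = algebraMap E0 E a := rfl

/-- **Igusa irreducibility, abstract form.**  `O0`, `W` valuation subrings of `E0 ⊆ E`, every
element of `W` integral over `O0` (i.e. `W` is the unique valuation subring of `E` above `O0`),
with compatible residue maps `red0` (onto `κ0`) and `redW` (kernel the maximal ideal).  Let
`σ i` be finitely many `E0`-automorphisms of `E` and `y ∈ E` with all `σ i y ∈ W`, with pairwise
distinct residues, and let `P` be a polynomial over `O0` with `P = ∏ (X - σ i y)` over `E`.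
Then the reduction of `P` is irreducible and separable over `κ0`. -/
theorem irreducible_separable_map_of_orbit
    (O0 : ValuationSubring E0) (W : ValuationSubring E)
    (hle : ∀ a : O0, algebraMap E0 E a ∈ W) (hint : ∀ x ∈ W, IsIntegral O0 x)
    {κ0 κ : Type*} [Field κ0] [Field κ] [Algebra κ0 κ]
    (red0 : O0 →+* κ0) (hred0 : Function.Surjective red0)
    (redW : W →+* κ) (hker : ∀ w : W, w ∈ nonunits W → redW w = 0)
    (hcompat : ∀ a : O0, redW (inclVal O0 W hle a) = algebraMap κ0 κ (red0 a))
    {ι : Type*} [Fintype ι] [Nonempty ι] (σ : ι → E ≃ₐ[E0] E) (y : E) (hy : ∀ i, σ i y ∈ W)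
    (P : O0[X])
    (hP : P.map ((algebraMap E0 E).comp O0.subtype) = ∏ i, (X - C (σ i y)))
    (hdist : ∀ i j, i ≠ j → redW ⟨σ i y, hy i⟩ ≠ redW ⟨σ j y, hy j⟩) :
    Irreducible (P.map red0) ∧ (P.map red0).Separable := by
  classical
  set f : O0 →+* W := inclVal O0 W hle with hf
  set yb : ι → κ := fun i => redW ⟨σ i y, hy i⟩ with hyb
  have hybinj : Function.Injective yb := by
    intro i j hij
    by_contra hne
    exact hdist i j hne hij
  have hsub : W.subtype.comp f = (algebraMap E0 E).comp O0.subtype := by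
    ext a
    rfl
  have hcomp : redW.comp f = (algebraMap κ0 κ).comp red0 := by
    ext a
    exact hcompat a
  -- the factorisation over `W`
  have hPW : P.map f = ∏ i, (X - C (⟨σ i y, hy i⟩ : W)) := by
    apply Polynomial.map_injective W.subtype Subtype.val_injective
    rw [Polynomial.map_map, hsub, hP, Polynomial.map_prod]
    refine Finset.prod_congr rfl fun i _ => ?_
    rw [Polynomial.map_sub, Polynomial.map_X, Polynomial.map_C]
    rfl
  -- the factorisation over the residue field
  have hPk : (P.map red0).map (algebraMap κ0 κ) = ∏ i, (X - C (yb i)) := by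
    rw [Polynomial.map_map, ← hcomp, ← Polynomial.map_map, hPW, Polynomial.map_prod]
    refine Finset.prod_congr rfl fun i _ => ?_
    rw [Polynomial.map_sub, Polynomial.map_X, Polynomial.map_C]
  have hsep : (P.map red0).Separable := by
    rw [← Polynomial.separable_map (algebraMap κ0 κ), hPk]
    exact Polynomial.separable_prod_X_sub_C_iff.mpr hybinj
  refine ⟨?_, hsep⟩
  have hdeg : (P.map red0).natDegree = Fintype.card ι := by
    rw [← Polynomial.natDegree_map (algebraMap κ0 κ), hPk, Polynomial.natDegree_prod_of_monic]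
    · simp
    · intro i _
      exact Polynomial.monic_X_sub_C _
  have hne0 : P.map red0 ≠ 0 := by
    intro h0
    rw [h0, Polynomial.natDegree_zero] at hdeg
    exact Fintype.card_ne_zero hdeg.symm
  -- evaluation of a lift
  have heval : ∀ (a : κ0[X]) (at' : O0[X]), at'.map red0 = a → ∀ i,
      redW ((at'.map f).eval ⟨σ i y, hy i⟩) = (a.map (algebraMap κ0 κ)).eval (yb i) := by
    intro a at' hat i
    show redW ((at'.map f).eval ⟨σ i y, hy i⟩) =
      (a.map (algebraMap κ0 κ)).eval (redW ⟨σ i y, hy i⟩)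
    rw [← hat, Polynomial.map_map, ← hcomp, ← Polynomial.map_map, ← map_eval_hom]
  -- key: the set of `i` with `a(ȳ_i) = 0` is empty or everything
  have hkey : ∀ a : κ0[X], ∀ i, (a.map (algebraMap κ0 κ)).eval (yb i) = 0 →
      ∀ j, (a.map (algebraMap κ0 κ)).eval (yb j) = 0 := by
    intro a i hi j
    obtain ⟨at', hat⟩ := Polynomial.map_surjective red0 hred0 a
    rw [← heval a at' hat j]
    apply hker
    rw [← heval a at' hat i] at hi
    -- `z i` is a nonunit
    have hzi : (at'.map f).eval (⟨σ i y, hy i⟩ : W) ∈ nonunits W := by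
      intro hu
      have := hu.map redW
      rw [hi] at this
      exact not_isUnit_zero this
    intro hu
    apply hzi
    -- transport by `τ = σ i ∘ (σ j)⁻¹`
    set τ : E ≃ₐ[E0] E := (σ j).symm.trans (σ i) with hτ
    have hτy : τ (σ j y) = σ i y := by
      simp [hτ]
    have hval : ∀ k, (((at'.map f).eval (⟨σ k y, hy k⟩ : W) : W) : E) =
        Polynomial.aeval (σ k y) (at'.map O0.subtype) := by
      intro k
      have h0 : (((at'.map f).eval (⟨σ k y, hy k⟩ : W) : W) : E) =
          W.subtype ((at'.map f).eval (⟨σ k y, hy k⟩ : W)) := rfl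
      rw [h0, map_eval_hom, Polynomial.map_map, hsub,
        ← Polynomial.map_map, Polynomial.aeval_def, Polynomial.eval₂_eq_eval_map]
      rfl
    have hτz : τ (((at'.map f).eval (⟨σ j y, hy j⟩ : W) : W) : E) =
        (((at'.map f).eval (⟨σ i y, hy i⟩ : W) : W) : E) := by
      rw [hval, hval, ← Polynomial.aeval_algHom_apply, hτy]
    obtain ⟨u, hu'⟩ := hu
    have h1 : τ ((u : W) : E) * τ (((u⁻¹ : Wˣ) : W) : E) = 1 := by
      rw [← map_mul]
      have : ((u : W) : E) * (((u⁻¹ : Wˣ) : W) : E) = 1 := by
        have h2 := congrArg W.subtype u.mul_inv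
        rw [map_mul, map_one] at h2
        exact h2
      rw [this, map_one]
    have hmem : τ (((u⁻¹ : Wˣ) : W) : E) ∈ W :=
      algEquiv_mem_of_forall_isIntegral O0 W hle hint τ (u⁻¹ : Wˣ).1.2
    rw [hu', hτz] at h1
    have h3 : (at'.map f).eval (⟨σ i y, hy i⟩ : W) * (⟨_, hmem⟩ : W) = 1 := Subtype.ext h1
    exact ⟨⟨_, _, h3, by rw [mul_comm]; exact h3⟩, rfl⟩
  -- irreducibility
  rw [irreducible_iff]
  refine ⟨?_, ?_⟩
  · intro hu
    have := Polynomial.natDegree_eq_zero_of_isUnit hu
    rw [hdeg] at this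
    exact Fintype.card_ne_zero this
  · intro a b hab
    have ha0 : a ≠ 0 := by
      rintro rfl
      rw [zero_mul] at hab
      exact hne0 hab
    have hb0 : b ≠ 0 := by
      rintro rfl
      rw [mul_zero] at hab
      exact hne0 hab
    have hdegab : a.natDegree + b.natDegree = Fintype.card ι := by
      rw [← Polynomial.natDegree_mul ha0 hb0, ← hab, hdeg]
    -- a polynomial vanishing at all `ȳ i` has degree at least `card ι`
    have hbig : ∀ c : κ0[X], c ≠ 0 → (∀ j, (c.map (algebraMap κ0 κ)).eval (yb j) = 0) →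
        Fintype.card ι ≤ c.natDegree := by
      intro c hc0 hc
      have hc0' : c.map (algebraMap κ0 κ) ≠ 0 :=
        (Polynomial.map_ne_zero_iff (algebraMap κ0 κ).injective).mpr hc0
      have hsubr : (Finset.univ.image yb) ⊆ (c.map (algebraMap κ0 κ)).roots.toFinset := by
        intro x hx
        obtain ⟨j, -, rfl⟩ := Finset.mem_image.mp hx
        rw [Multiset.mem_toFinset, Polynomial.mem_roots hc0']
        exact hc j
      have h1 : Fintype.card ι = (Finset.univ.image yb).card := by
        rw [Finset.card_image_of_injective _ hybinj, Finset.card_univ]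
      have h2 := Finset.card_le_card hsubr
      have h3 := Multiset.toFinset_card_le (c.map (algebraMap κ0 κ)).roots
      have h4 := Polynomial.card_roots' (c.map (algebraMap κ0 κ))
      rw [Polynomial.natDegree_map] at h4
      omega
    obtain ⟨i0⟩ := (inferInstance : Nonempty ι)
    by_cases hi0 : (a.map (algebraMap κ0 κ)).eval (yb i0) = 0
    · right
      have hall := hkey a i0 hi0
      have h1 := hbig a ha0 hall
      have hb : b.natDegree = 0 := by omega
      rw [Polynomial.eq_C_of_natDegree_eq_zero hb]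
      refine Polynomial.isUnit_C.mpr (IsUnit.mk0 _ ?_)
      intro h0
      apply hb0
      rw [Polynomial.eq_C_of_natDegree_eq_zero hb, h0, map_zero]
    · left
      have hall : ∀ j, (b.map (algebraMap κ0 κ)).eval (yb j) = 0 := by
        intro j
        have hj : (a.map (algebraMap κ0 κ)).eval (yb j) ≠ 0 := fun h => hi0 (hkey a j h i0)
        have h1 : ((P.map red0).map (algebraMap κ0 κ)).eval (yb j) = 0 := by
          rw [hPk, Polynomial.eval_prod]
          exact Finset.prod_eq_zero (Finset.mem_univ j) (by simp)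
        rw [hab, Polynomial.map_mul, Polynomial.eval_mul] at h1
        exact (mul_eq_zero.mp h1).resolve_left hj
      have h1 := hbig b hb0 hall
      have ha : a.natDegree = 0 := by omega
      rw [Polynomial.eq_C_of_natDegree_eq_zero ha]
      refine Polynomial.isUnit_C.mpr (IsUnit.mk0 _ ?_)
      intro h0
      apply ha0
      rw [Polynomial.eq_C_of_natDegree_eq_zero ha, h0, map_zero]

/-- **Orbit ⟹ minimal polynomial and generation.**  If `#ι ≥ [E : E0]` automorphisms `σ i` of
`E / E0` take pairwise distinct values at `y`, then the minimal polynomial of `y` over `E0` is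
`∏ (X - σ i y)` and `E = E0(y)`. -/
theorem minpoly_eq_prod_of_card [FiniteDimensional E0 E] {ι : Type*} [Fintype ι]
    (σ : ι → E ≃ₐ[E0] E) (y : E) (hcard : Module.finrank E0 E ≤ Fintype.card ι)
    (hinj : Function.Injective fun i => σ i y) :
    (minpoly E0 y).map (algebraMap E0 E) = ∏ i, (X - C (σ i y)) ∧
      IntermediateField.adjoin E0 ({y} : Set E) = ⊤ := by
  classical
  have hyint : IsIntegral E0 y := IsIntegral.of_finite E0 y
  have hmonic : ((minpoly E0 y).map (algebraMap E0 E)).Monic := (minpoly.monic hyint).map _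
  have hroot : ∀ i, Polynomial.aeval (σ i y) (minpoly E0 y) = 0 := fun i => by
    have h1 : Polynomial.aeval ((σ i : E →ₐ[E0] E) y) (minpoly E0 y) =
        (σ i : E →ₐ[E0] E) (Polynomial.aeval y (minpoly E0 y)) :=
      Polynomial.aeval_algHom_apply _ _ _
    rw [minpoly.aeval, map_zero] at h1
    exact h1
  have hQmonic : (∏ i, (X - C (σ i y)) : E[X]).Monic :=
    Polynomial.monic_prod_of_monic _ _ fun i _ => Polynomial.monic_X_sub_C _
  have hQdeg : (∏ i, (X - C (σ i y)) : E[X]).natDegree = Fintype.card ι := by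
    rw [Polynomial.natDegree_prod_of_monic _ _ (fun i _ => Polynomial.monic_X_sub_C _)]
    simp
  have hdvd : (∏ i, (X - C (σ i y)) : E[X]) ∣ (minpoly E0 y).map (algebraMap E0 E) := by
    refine Fintype.prod_dvd_of_coprime (Polynomial.pairwise_coprime_X_sub_C hinj) fun i => ?_
    rw [Polynomial.dvd_iff_isRoot, Polynomial.IsRoot.def, Polynomial.eval_map_algebraMap]
    exact hroot i
  have hdeg1 : (minpoly E0 y).natDegree ≤ Module.finrank E0 E := minpoly.natDegree_le y
  have hdeg2 := Polynomial.natDegree_le_of_dvd hdvd hmonic.ne_zero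
  rw [hQdeg, Polynomial.natDegree_map] at hdeg2
  have hnat : (minpoly E0 y).natDegree = Module.finrank E0 E := by omega
  refine ⟨?_, (Field.primitive_element_iff_minpoly_natDegree_eq E0 y).mpr hnat⟩
  refine Polynomial.eq_of_monic_of_dvd_of_natDegree_le hQmonic hmonic hdvd ?_
  rw [hQdeg, Polynomial.natDegree_map]
  omega

end IgusaAbstract


/-! ## The `q`-Gauss vocabulary of `helper8782_SpecM1` -/

section QGauss

open Fermat.Agent.S18 Fermat.Agent.S48.helper8782 ModularCurve IntermediateField

local notation "Qb" => AlgebraicClosure ℚ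

variable (A : ValuationSubring Qb)

local notation "kA" => IsLocalRing.ResidueField A

/-- **(M1-IGUSA), abstract half, core form.**  `E0 ≤ E` subfields of `ℚ̄((q))`, `E0` `q`-Gauss
with residue map ONTO `E0k`, the nonzero elements of `E` normalisable, and every element of the
`q`-Gauss ring of `E` integral over the `q`-Gauss ring of `E0` (uniqueness of the extension of
the Gauss valuation).  Let `σ i` be finitely many automorphisms of `E` fixing `E0` pointwise and
`Y i` `A`-integral series with `σ i (ι (Y i0)) = ι (Y i)` and pairwise distinct reductions, `P`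
a polynomial over the `q`-Gauss ring of `E0` with `P = ∏ (X - ι (Y i))`, and `E = E0(ι (Y i0))`.
Then `E / E0` has an Igusa datum, with special fibre `E0k(red (Y i0))`. -/
theorem igusaDatum_core (E0 E : IntermediateField Qb (LaurentSeries Qb))
    (E0k : IntermediateField kA (LaurentSeries kA))
    (hle : E0 ≤ E) (h0 : IsQGauss A E0 E0k) (hsurj0 : Function.Surjective h0.red)
    (hnormE : ∀ f : LaurentSeries Qb, f ∈ E → f ≠ 0 →
      helper8991.IsNormalizable A (IsLocalRing.residue A) f)
    (hint : GaussIntegralOver A E0 E E0k h0)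
    {ι : Type*} [Fintype ι] (σ : ι → (↥E ≃ₐ[Qb] ↥E))
    (hσ : ∀ i (x : ↥E), (x : LaurentSeries Qb) ∈ E0 → σ i x = x)
    (Y : ι → LaurentSeries A) (i0 : ι) (hY : ∀ i, coeffMap A.subtype (Y i) ∈ E)
    (hσY : ∀ i, σ i ⟨coeffMap A.subtype (Y i0), hY i0⟩ = ⟨coeffMap A.subtype (Y i), hY i⟩)
    (hdist : ∀ i j, i ≠ j →
      coeffMap (IsLocalRing.residue A) (Y i) ≠ coeffMap (IsLocalRing.residue A) (Y j))
    (P : (↥h0.O)[X])
    (hP : P.map ((algebraMap ↥E0 (LaurentSeries Qb)).comp h0.O.subtype) =
      ∏ i, (X - C (coeffMap A.subtype (Y i))))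
    (hgen : E = IntermediateField.adjoin Qb
      ((E0 : Set (LaurentSeries Qb)) ∪ {coeffMap A.subtype (Y i0)})) :
    IgusaDatum A E0 E E0k
      (IntermediateField.adjoin kA ((E0k : Set (LaurentSeries kA)) ∪
        {coeffMap (IsLocalRing.residue A) (Y i0)})) h0 := by
  classical
  haveI : Nonempty ι := ⟨i0⟩
  letI algE : Algebra ↥E0 ↥E := (IntermediateField.inclusion hle).toRingHom.toAlgebra
  have halg : ∀ x : ↥E0, ((algebraMap ↥E0 ↥E x : ↥E) : LaurentSeries Qb) = (x : LaurentSeries Qb) :=
    fun _ => rfl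
  set W : ValuationSubring ↥E :=
    helper8991.gaussSubring A (IsLocalRing.residue A) E hnormE with hW
  have hleW : ∀ a : h0.O, algebraMap ↥E0 ↥E a ∈ W := fun a => a.2
  -- the automorphisms over `E0`
  let σ' : ι → (↥E ≃ₐ[↥E0] ↥E) := fun i =>
    AlgEquiv.ofRingEquiv (f := (σ i).toRingEquiv) (fun x => hσ i _ x.2)
  have hσ' : ∀ i (x : ↥E), σ' i x = σ i x := fun _ _ => rfl
  set y : ↥E := ⟨coeffMap A.subtype (Y i0), hY i0⟩ with hy
  have hyW : ∀ i, σ' i y ∈ W := by
    intro i
    rw [hσ', hσY i]
    exact helper8991.inc_mem_gaussSubring A (IsLocalRing.residue A) E hnormE (hY i)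
  -- integrality
  have hintW : ∀ x ∈ W, IsIntegral ↥h0.O x := by
    intro x hx
    obtain ⟨p, hp, hpx⟩ := hint (x : LaurentSeries Qb) x.2 hx
    refine ⟨p, hp, ?_⟩
    apply Subtype.val_injective
    have h1 := Polynomial.hom_eval₂ p (algebraMap ↥h0.O ↥E) E.val.toRingHom x
    have h2 : (E.val.toRingHom).comp (algebraMap ↥h0.O ↥E) =
        (algebraMap ↥E0 (LaurentSeries Qb)).comp h0.O.subtype := by
      ext a
      rfl
    rw [h2] at h1
    exact h1.trans hpx
  -- residue maps
  have hker : ∀ w : W, w ∈ nonunits W →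
      helper8991.gaussRed A (IsLocalRing.residue A) E hnormE w = 0 := by
    intro w hw
    rw [helper8991.gaussRed_eq_zero_iff, IsLocalRing.mem_maximalIdeal]
    exact hw
  have hcompat : ∀ a : h0.O,
      helper8991.gaussRed A (IsLocalRing.residue A) E hnormE (inclVal h0.O W hleW a) =
        algebraMap ↥E0k (LaurentSeries kA) (h0.red a) := fun a => rfl
  have hredY : ∀ i, helper8991.gaussRed A (IsLocalRing.residue A) E hnormE ⟨σ' i y, hyW i⟩ =
      coeffMap (IsLocalRing.residue A) (Y i) := by
    intro i
    have h1 : (((⟨σ' i y, hyW i⟩ : W) : ↥E) : LaurentSeries Qb) *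
        helper8991.inc A 1 = helper8991.inc A (Y i) := by
      rw [map_one, mul_one]
      show ((σ' i y : ↥E) : LaurentSeries Qb) = _
      rw [hσ', hσY i]
    rw [helper8991.gaussRed_eq A (IsLocalRing.residue A) E hnormE _ (X := Y i) (Y := 1)
      (by simp) h1]
    simp
  have hPE : P.map ((algebraMap ↥E0 ↥E).comp h0.O.subtype) = ∏ i, (X - C (σ' i y)) := by
    apply Polynomial.map_injective E.val.toRingHom Subtype.val_injective
    rw [Polynomial.map_map, Polynomial.map_prod]
    have h1 : (E.val.toRingHom).comp ((algebraMap ↥E0 ↥E).comp h0.O.subtype) =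
        (algebraMap ↥E0 (LaurentSeries Qb)).comp h0.O.subtype := by
      ext a
      rfl
    rw [h1, hP]
    refine Finset.prod_congr rfl fun i _ => ?_
    rw [Polynomial.map_sub, Polynomial.map_X, Polynomial.map_C]
    congr 2
    show _ = ((σ' i y : ↥E) : LaurentSeries Qb)
    rw [hσ', hσY i]
  obtain ⟨hirr, hsep⟩ := irreducible_separable_map_of_orbit h0.O W hleW hintW h0.red hsurj0
    (helper8991.gaussRed A (IsLocalRing.residue A) E hnormE) hker hcompat σ' y hyW P hPE
    (fun i j hij => by rw [hredY i, hredY j]; exact hdist i j hij)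
  -- monic
  have hmonic : P.Monic := by
    have hinj : Function.Injective ((algebraMap ↥E0 (LaurentSeries Qb)).comp h0.O.subtype) :=
      (algebraMap ↥E0 (LaurentSeries Qb)).injective.comp Subtype.val_injective
    refine Polynomial.monic_of_injective hinj ?_
    rw [hP]
    exact Polynomial.monic_prod_of_monic _ _ fun i _ => Polynomial.monic_X_sub_C _
  refine ⟨Y i0, P, hmonic, ?_, hgen, hirr, hsep, rfl⟩
  rw [← Polynomial.eval_map, hP, Polynomial.eval_prod]
  exact Finset.prod_eq_zero (Finset.mem_univ i0) (by simp)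

/-- **(M1-IGUSA), abstract half, orbit form.**  As `igusaDatum_core`, with the polynomial
replaced by: the coefficients of `∏ (X - ι (Y i))` lie in `E0` (they are then automatically in
its `q`-Gauss ring). -/
theorem igusaDatum_of_orbit (E0 E : IntermediateField Qb (LaurentSeries Qb))
    (E0k : IntermediateField kA (LaurentSeries kA))
    (hle : E0 ≤ E) (h0 : IsQGauss A E0 E0k) (hsurj0 : Function.Surjective h0.red)
    (hnormE : ∀ f : LaurentSeries Qb, f ∈ E → f ≠ 0 →
      helper8991.IsNormalizable A (IsLocalRing.residue A) f)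
    (hint : GaussIntegralOver A E0 E E0k h0)
    {ι : Type*} [Fintype ι] (σ : ι → (↥E ≃ₐ[Qb] ↥E))
    (hσ : ∀ i (x : ↥E), (x : LaurentSeries Qb) ∈ E0 → σ i x = x)
    (Y : ι → LaurentSeries A) (i0 : ι) (hY : ∀ i, coeffMap A.subtype (Y i) ∈ E)
    (hσY : ∀ i, σ i ⟨coeffMap A.subtype (Y i0), hY i0⟩ = ⟨coeffMap A.subtype (Y i), hY i⟩)
    (hdist : ∀ i j, i ≠ j →
      coeffMap (IsLocalRing.residue A) (Y i) ≠ coeffMap (IsLocalRing.residue A) (Y j))
    (hcoef : ∀ n, (∏ i, (X - C (coeffMap A.subtype (Y i)))).coeff n ∈ E0)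
    (hgen : E = IntermediateField.adjoin Qb
      ((E0 : Set (LaurentSeries Qb)) ∪ {coeffMap A.subtype (Y i0)})) :
    IgusaDatum A E0 E E0k
      (IntermediateField.adjoin kA ((E0k : Set (LaurentSeries kA)) ∪
        {coeffMap (IsLocalRing.residue A) (Y i0)})) h0 := by
  have h1 : (∏ i, (X - C (coeffMap A.subtype (Y i)))) =
      (∏ i, (X - C (Y i))).map (coeffMap A.subtype) := by
    rw [Polynomial.map_prod]
    refine Finset.prod_congr rfl fun i _ => ?_
    rw [Polynomial.map_sub, Polynomial.map_X, Polynomial.map_C]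
  have hlift : (∏ i, (X - C (coeffMap A.subtype (Y i)))) ∈
      Polynomial.lifts ((algebraMap ↥E0 (LaurentSeries Qb)).comp h0.O.subtype) := by
    rw [Polynomial.lifts_iff_coeff_lifts]
    intro n
    have h2 : coeffMap A.subtype ((∏ i, (X - C (Y i))).coeff n) ∈ E0 := by
      have h3 := hcoef n
      rw [h1, Polynomial.coeff_map] at h3
      exact h3
    refine ⟨⟨⟨_, h2⟩, h0.inc_mem h2⟩, ?_⟩
    rw [h1, Polynomial.coeff_map]
    rfl
  obtain ⟨P, hP⟩ := (Polynomial.mem_lifts _).mp hlift
  exact igusaDatum_core A E0 E E0k hle h0 hsurj0 hnormE hint σ hσ Y i0 hY hσY hdist P hP hgen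

/-- **(M1-IGUSA), abstract half, degree form.**  As `igusaDatum_of_orbit`, with "coefficients in
`E0`" and "`E = E0(y)`" replaced by the degree bound `[E : E0] ≤ #ι` (the shape in which the
diamond layer is delivered: raw automorphisms fixing `E0` + the degree). -/
theorem igusaDatum_of_card (E0 E : IntermediateField Qb (LaurentSeries Qb))
    (E0k : IntermediateField kA (LaurentSeries kA))
    (hle : E0 ≤ E) (h0 : IsQGauss A E0 E0k) (hsurj0 : Function.Surjective h0.red)
    (hnormE : ∀ f : LaurentSeries Qb, f ∈ E → f ≠ 0 →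
      helper8991.IsNormalizable A (IsLocalRing.residue A) f)
    (hint : GaussIntegralOver A E0 E E0k h0)
    (hfin : FiniteDimensional ↥E0 ↥(IntermediateField.extendScalars hle))
    {ι : Type*} [Fintype ι] (σ : ι → (↥E ≃ₐ[Qb] ↥E))
    (hσ : ∀ i (x : ↥E), (x : LaurentSeries Qb) ∈ E0 → σ i x = x)
    (Y : ι → LaurentSeries A) (i0 : ι) (hY : ∀ i, coeffMap A.subtype (Y i) ∈ E)
    (hσY : ∀ i, σ i ⟨coeffMap A.subtype (Y i0), hY i0⟩ = ⟨coeffMap A.subtype (Y i), hY i⟩)
    (hdist : ∀ i j, i ≠ j →
      coeffMap (IsLocalRing.residue A) (Y i) ≠ coeffMap (IsLocalRing.residue A) (Y j))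
    (hcard : Module.finrank ↥E0 ↥(IntermediateField.extendScalars hle) ≤ Fintype.card ι) :
    IgusaDatum A E0 E E0k
      (IntermediateField.adjoin kA ((E0k : Set (LaurentSeries kA)) ∪
        {coeffMap (IsLocalRing.residue A) (Y i0)})) h0 := by
  classical
  letI algE : Algebra ↥E0 ↥E := (IntermediateField.inclusion hle).toRingHom.toAlgebra
  let j : ↥E ≃ₗ[↥E0] ↥(IntermediateField.extendScalars hle) :=
    { toFun := fun x => ⟨x.1, x.2⟩
      invFun := fun y => ⟨y.1, y.2⟩
      left_inv := fun _ => rfl
      right_inv := fun _ => rfl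
      map_add' := fun _ _ => rfl
      map_smul' := fun _ _ => rfl }
  haveI : FiniteDimensional ↥E0 ↥E := Module.Finite.equiv j.symm
  have hfr : Module.finrank ↥E0 ↥E =
      Module.finrank ↥E0 ↥(IntermediateField.extendScalars hle) := j.finrank_eq
  let σ' : ι → (↥E ≃ₐ[↥E0] ↥E) := fun i =>
    AlgEquiv.ofRingEquiv (f := (σ i).toRingEquiv) (fun x => hσ i _ x.2)
  have hσ' : ∀ i (x : ↥E), σ' i x = σ i x := fun _ _ => rfl
  set y : ↥E := ⟨coeffMap A.subtype (Y i0), hY i0⟩ with hy
  have hval : ∀ i, ((σ' i y : ↥E) : LaurentSeries Qb) = coeffMap A.subtype (Y i) := by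
    intro i
    rw [hσ', hσY i]
  have hinj : Function.Injective fun i => σ' i y := by
    intro i j hij
    by_contra hne
    apply hdist i j hne
    have h1 : coeffMap A.subtype (Y i) = coeffMap A.subtype (Y j) := by
      rw [← hval i, ← hval j]
      exact congrArg Subtype.val hij
    rw [helper8991.inc_injective A h1]
  obtain ⟨hmin, htop⟩ := minpoly_eq_prod_of_card σ' y (hfr ▸ hcard) hinj
  have hminL : (minpoly ↥E0 y).map (algebraMap ↥E0 (LaurentSeries Qb)) =
      ∏ i, (X - C (coeffMap A.subtype (Y i))) := by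
    have h1 := congrArg (Polynomial.map E.val.toRingHom) hmin
    rw [Polynomial.map_map, Polynomial.map_prod] at h1
    have h2 : (E.val.toRingHom).comp (algebraMap ↥E0 ↥E) =
        algebraMap ↥E0 (LaurentSeries Qb) := by
      ext a
      rfl
    rw [h2] at h1
    rw [h1]
    refine Finset.prod_congr rfl fun i _ => ?_
    rw [Polynomial.map_sub, Polynomial.map_X, Polynomial.map_C]
    congr 2
    exact hval i
  refine igusaDatum_of_orbit A E0 E E0k hle h0 hsurj0 hnormE hint σ hσ Y i0 hY hσY hdist ?_ ?_
  · intro n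
    rw [← hminL, Polynomial.coeff_map]
    exact ((minpoly ↥E0 y).coeff n).2
  · apply le_antisymm
    · intro x hx
      have hx' : (⟨x, hx⟩ : ↥E) ∈ IntermediateField.adjoin ↥E0 ({y} : Set ↥E) := by
        rw [htop]
        trivial
      refine IntermediateField.adjoin_induction (F := ↥E0) (s := ({y} : Set ↥E))
        (p := fun z _ => (z : LaurentSeries Qb) ∈ IntermediateField.adjoin Qb
          ((E0 : Set (LaurentSeries Qb)) ∪ {coeffMap A.subtype (Y i0)}))
        ?_ ?_ ?_ ?_ ?_ hx'
      · intro z hz
        rw [Set.mem_singleton_iff] at hz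
        rw [hz]
        exact IntermediateField.subset_adjoin _ _ (Or.inr rfl)
      · intro a
        exact IntermediateField.subset_adjoin _ _ (Or.inl a.2)
      · intro a b _ _ ha hb
        exact add_mem ha hb
      · intro a _ ha
        exact inv_mem ha
      · intro a b _ _ ha hb
        exact mul_mem ha hb
    · rw [IntermediateField.adjoin_le_iff]
      rintro x (hx | hx)
      · exact hle hx
      · rw [Set.mem_singleton_iff] at hx
        rw [hx]
        exact hY i0

end QGauss


/-! ## The instance `E0 = F̄_M`, `E = F₁(M)` (carrier `helper7300.gamma1FieldBar M`) -/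

section Gamma1Instance

open Fermat.Agent.S18 Fermat.Agent.S48.helper8782 ModularCurve IntermediateField

local notation "Qb" => AlgebraicClosure ℚ

variable (M : ℕ) [NeZero M] (p : ℕ) [Fact p.Prime] (hpM : ¬ p ∣ M)
  (A : ValuationSubring Qb) (hA : A.LiesOverPrime p)

/-- The residue map of the `q`-Gauss ring of `F̄_M` is ONTO the function field of level `M` over
the residue field (landed: `helper8991.exists_gaussFRed_eq`). -/
theorem isQGauss_bar_red_surjective :
    Function.Surjective (isQGauss_bar M p hpM A hA).red := by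
  intro z
  obtain ⟨f, hf⟩ := helper8991.exists_gaussFRed_eq A (IsLocalRing.residue A) M
    IsLocalRing.residue_surjective z.2
  exact ⟨f, Subtype.ext hf⟩

/-- **(M1-IGUSA) for `Γ₁(M)`, orbit form**: `Stmt_IgusaGamma1` from `Stmt_IntGamma1` and the
diamond orbit of an `A`-integral generator with pairwise distinct reductions. -/
theorem stmt_IgusaGamma1_of_orbit
    (hnormE : ∀ f : LaurentSeries Qb, f ∈ helper7300.gamma1FieldBar M → f ≠ 0 →
      helper8991.IsNormalizable A (IsLocalRing.residue A) f)
    (hint : Stmt_IntGamma1 M p hpM A hA)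
    {ι : Type*} [Fintype ι]
    (σ : ι → (↥(helper7300.gamma1FieldBar M) ≃ₐ[Qb] ↥(helper7300.gamma1FieldBar M)))
    (hσ : ∀ i (x : ↥(helper7300.gamma1FieldBar M)),
      (x : LaurentSeries Qb) ∈ modularFunctionFieldBar M → σ i x = x)
    (Y : ι → LaurentSeries A) (i0 : ι)
    (hY : ∀ i, coeffMap A.subtype (Y i) ∈ helper7300.gamma1FieldBar M)
    (hσY : ∀ i, σ i ⟨coeffMap A.subtype (Y i0), hY i0⟩ = ⟨coeffMap A.subtype (Y i), hY i⟩)
    (hdist : ∀ i j, i ≠ j →
      coeffMap (IsLocalRing.residue A) (Y i) ≠ coeffMap (IsLocalRing.residue A) (Y j))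
    (hcoef : ∀ n, (∏ i, (X - C (coeffMap A.subtype (Y i)))).coeff n ∈
      modularFunctionFieldBar M)
    (hgen : helper7300.gamma1FieldBar M = IntermediateField.adjoin Qb
      ((modularFunctionFieldBar M : Set (LaurentSeries Qb)) ∪ {coeffMap A.subtype (Y i0)})) :
    Stmt_IgusaGamma1 M p hpM A hA :=
  ⟨_, igusaDatum_of_orbit A _ _ _ (helper7300.modularFunctionFieldBar_le_gamma1FieldBar M)
    (isQGauss_bar M p hpM A hA) (isQGauss_bar_red_surjective M p hpM A hA) hnormE hint σ hσ Y i0
    hY hσY hdist hcoef hgen⟩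

/-- **(M1-IGUSA) for `Γ₁(M)`, degree form**: `Stmt_IgusaGamma1` from `Stmt_IntGamma1`, the
diamond orbit of an `A`-integral generator with pairwise distinct reductions, and the degree
bound `[F₁(M) : F̄_M] ≤ #ι`. -/
theorem stmt_IgusaGamma1_of_card
    (hnormE : ∀ f : LaurentSeries Qb, f ∈ helper7300.gamma1FieldBar M → f ≠ 0 →
      helper8991.IsNormalizable A (IsLocalRing.residue A) f)
    (hint : Stmt_IntGamma1 M p hpM A hA)
    (hfin : FiniteDimensional ↥(modularFunctionFieldBar M)
      ↥(IntermediateField.extendScalars (helper7300.modularFunctionFieldBar_le_gamma1FieldBar M)))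
    {ι : Type*} [Fintype ι]
    (σ : ι → (↥(helper7300.gamma1FieldBar M) ≃ₐ[Qb] ↥(helper7300.gamma1FieldBar M)))
    (hσ : ∀ i (x : ↥(helper7300.gamma1FieldBar M)),
      (x : LaurentSeries Qb) ∈ modularFunctionFieldBar M → σ i x = x)
    (Y : ι → LaurentSeries A) (i0 : ι)
    (hY : ∀ i, coeffMap A.subtype (Y i) ∈ helper7300.gamma1FieldBar M)
    (hσY : ∀ i, σ i ⟨coeffMap A.subtype (Y i0), hY i0⟩ = ⟨coeffMap A.subtype (Y i), hY i⟩)
    (hdist : ∀ i j, i ≠ j →
      coeffMap (IsLocalRing.residue A) (Y i) ≠ coeffMap (IsLocalRing.residue A) (Y j))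
    (hcard : Module.finrank ↥(modularFunctionFieldBar M)
      ↥(IntermediateField.extendScalars (helper7300.modularFunctionFieldBar_le_gamma1FieldBar M))
        ≤ Fintype.card ι) :
    Stmt_IgusaGamma1 M p hpM A hA :=
  ⟨_, igusaDatum_of_card A _ _ _ (helper7300.modularFunctionFieldBar_le_gamma1FieldBar M)
    (isQGauss_bar M p hpM A hA) (isQGauss_bar_red_surjective M p hpM A hA) hnormE hint hfin σ hσ
    Y i0 hY hσY hdist hcard⟩

end Gamma1Instance

end Fermat.Agent.S48.helper886
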