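import Mathlib

/-!
# A weight-3 Eisenstein series with character (helper9289, S48 leaf F1-alt, module (E))

For a Dirichlet character `ψ` mod `N` we define
`eisLat ψ z = ∑_{(c,d) ∈ ℤ²} ψ(c) (c z + d)⁻³` and prove

* `eisLat_slash_of_mem_Gamma0` : `eisLat ψ ∣[3] γ = ψ(γ₁₁) • eisLat ψ` for `γ ∈ Γ₀(N)`;
* `eisLat_mdifferentiable`, `isBoundedAtImInfty_eisLat_slash` : holomorphy, boundedness at all
  cusps;
* `eisChar ψ : ModularForm (Gamma1 N) 3`, the normalised form `(-2πi)⁻³ • eisLat ψ`;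
* `hasSum_eisChar` : for odd `ψ`, `eisChar ψ τ = ∑ sigmaChar ψ n qⁿ` with
  `sigmaChar ψ n = ∑_{d e = n} ψ(d) e²`; in particular the coefficient of `q` is `1`.
-/

set_option autoImplicit false

open UpperHalfPlane Function CongruenceSubgroup EisensteinSeries Matrix
open scoped MatrixGroups Manifold ModularForm Real Topology

namespace Fermat.Agent.S48.helper9289

variable {N : ℕ}

/-- The full lattice sum `∑_{(c,d)} ψ(c) (c z + d)⁻³`. -/
noncomputable def eisLat (ψ : DirichletCharacter ℂ N) (z : ℍ) : ℂ :=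
  ∑' v : Fin 2 → ℤ, ψ ((v 0 : ℤ) : ZMod N) * eisSummand 3 v z

lemma norm_char_mul_le (ψ : DirichletCharacter ℂ N) (a : ZMod N) (w : ℂ) :
    ‖ψ a * w‖ ≤ ‖w‖ := by
  rw [norm_mul]
  exact mul_le_of_le_one_left (norm_nonneg _) (ψ.norm_le_one _)

lemma summable_eisLat_term (ψ : DirichletCharacter ℂ N) (z : ℍ) :
    Summable fun v : Fin 2 → ℤ => ψ ((v 0 : ℤ) : ZMod N) * eisSummand 3 v z :=
  Summable.of_norm_bounded (summable_norm_eisSummand (k := 3) le_rfl z)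
    fun _ => norm_char_mul_le ψ _ _

/-- Right multiplication by an element of `SL(2,ℤ)` as a permutation of `ℤ²`. -/
def vecMulEquiv (γ : SL(2, ℤ)) : (Fin 2 → ℤ) ≃ (Fin 2 → ℤ) where
  toFun v := v ᵥ* (γ : Matrix (Fin 2) (Fin 2) ℤ)
  invFun v := v ᵥ* ((γ⁻¹ : SL(2, ℤ)) : Matrix (Fin 2) (Fin 2) ℤ)
  left_inv v := by
    simp_rw [vecMul_vecMul, ← Matrix.SpecialLinearGroup.coe_mul, mul_inv_cancel,
      Matrix.SpecialLinearGroup.coe_one, vecMul_one]
  right_inv v := by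
    simp_rw [vecMul_vecMul, ← Matrix.SpecialLinearGroup.coe_mul, inv_mul_cancel,
      Matrix.SpecialLinearGroup.coe_one, vecMul_one]

@[simp] lemma vecMulEquiv_apply (γ : SL(2, ℤ)) (v : Fin 2 → ℤ) :
    vecMulEquiv γ v = v ᵥ* (γ : Matrix (Fin 2) (Fin 2) ℤ) := rfl

/-- The slash of `eisLat ψ` by any `γ ∈ SL(2,ℤ)`, as a lattice sum. -/
lemma eisLat_slash_apply (ψ : DirichletCharacter ℂ N) (γ : SL(2, ℤ)) (z : ℍ) :
    (eisLat ψ ∣[(3 : ℤ)] γ) z =
      ∑' v : Fin 2 → ℤ, ψ ((v 0 : ℤ) : ZMod N) * eisSummand 3 (v ᵥ* γ) z := by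
  rw [ModularForm.SL_slash_apply, eisLat, ← tsum_mul_right]
  refine tsum_congr fun v => ?_
  rw [eisSummand_SL2_apply]
  have hd := denom_ne_zero (γ : GL (Fin 2) ℝ) z
  rw [_root_.zpow_neg]
  field_simp

lemma cast_vecMul_zero_of_mem_Gamma0 {γ : SL(2, ℤ)} (hγ : γ ∈ Gamma0 N) (v : Fin 2 → ℤ) :
    (((v ᵥ* (γ : Matrix (Fin 2) (Fin 2) ℤ)) 0 : ℤ) : ZMod N) =
      ((v 0 : ℤ) : ZMod N) * ((γ 0 0 : ℤ) : ZMod N) := by
  have hc : ((γ 1 0 : ℤ) : ZMod N) = 0 := Gamma0_mem.mp hγ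
  simp [vecMul, vec2_dotProduct, hc]

lemma cast_mul_cast_eq_one_of_mem_Gamma0 {γ : SL(2, ℤ)} (hγ : γ ∈ Gamma0 N) :
    ((γ 0 0 : ℤ) : ZMod N) * ((γ 1 1 : ℤ) : ZMod N) = 1 := by
  have hc : ((γ 1 0 : ℤ) : ZMod N) = 0 := Gamma0_mem.mp hγ
  have hdet : (γ 0 0 : ℤ) * γ 1 1 - γ 0 1 * γ 1 0 = 1 := by
    have := γ.det_coe
    rwa [Matrix.det_fin_two] at this
  have h2 := congrArg (Int.cast : ℤ → ZMod N) hdet
  push_cast at h2
  rw [hc, mul_zero, sub_zero] at h2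
  exact h2

/-- Transformation law under `Γ₀(N)`: character `ψ(d)`. -/
theorem eisLat_slash_of_mem_Gamma0 (ψ : DirichletCharacter ℂ N) {γ : SL(2, ℤ)}
    (hγ : γ ∈ Gamma0 N) :
    eisLat ψ ∣[(3 : ℤ)] γ = ψ ((γ 1 1 : ℤ) : ZMod N) • eisLat ψ := by
  ext z
  rw [eisLat_slash_apply, Pi.smul_apply, smul_eq_mul, eisLat, ← tsum_mul_left,
    ← (vecMulEquiv γ).tsum_eq
      (fun w => ψ ((γ 1 1 : ℤ) : ZMod N) * (ψ ((w 0 : ℤ) : ZMod N) * eisSummand 3 w z))]
  refine tsum_congr fun v => ?_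
  rw [vecMulEquiv_apply, cast_vecMul_zero_of_mem_Gamma0 hγ, ← mul_assoc, ← map_mul,
    mul_comm ((γ 1 1 : ℤ) : ZMod N), mul_assoc, cast_mul_cast_eq_one_of_mem_Gamma0 hγ, mul_one]

/-! ### Holomorphy -/

/-- The lattice sum converges locally uniformly on `ℍ`. -/
theorem eisLat_tendstoLocallyUniformly (ψ : DirichletCharacter ℂ N) :
    TendstoLocallyUniformly
      (fun (s : Finset (Fin 2 → ℤ)) ↦ (∑ x ∈ s, ψ ((x 0 : ℤ) : ZMod N) * eisSummand 3 x ·))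
      (eisLat ψ ·) Filter.atTop := by
  have hk' : (2 : ℝ) < ((3 : ℤ) : ℝ) := by norm_num
  have p_sum : Summable fun x : Fin 2 → ℤ ↦ ‖x‖ ^ (-(3 : ℤ)) :=
    mod_cast (summable_one_div_norm_rpow hk')
  simp only [tendstoLocallyUniformly_iff_forall_isCompact, eisLat]
  intro K hK
  obtain ⟨A, B, hB, HABK⟩ := subset_verticalStrip_of_isCompact hK
  refine (tendstoUniformlyOn_tsum (hu := p_sum.mul_left <| r ⟨⟨A, B⟩, hB⟩ ^ (-((3 : ℤ) : ℝ)))
    (fun p z hz ↦ ?_)).mono HABK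
  refine (norm_char_mul_le ψ _ _).trans ?_
  simpa only [eisSummand, one_div, ← _root_.zpow_neg, norm_zpow, ← Real.rpow_intCast,
    Int.cast_neg] using summand_bound_of_mem_verticalStrip
      (k := ((3 : ℤ) : ℝ)) (by positivity) p hB hz

lemma eisLat_tendstoLocallyUniformlyOn (ψ : DirichletCharacter ℂ N) :
    TendstoLocallyUniformlyOn (fun (s : Finset (Fin 2 → ℤ)) ↦
      ↑ₕ(fun (z : ℍ) ↦ ∑ x ∈ s, ψ ((x 0 : ℤ) : ZMod N) * eisSummand 3 x z)) (↑ₕ(eisLat ψ))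
          Filter.atTop {z : ℂ | 0 < z.im} := by
  rw [← upperHalfPlaneSet, ← range_coe, ← Set.image_univ]
  apply TendstoLocallyUniformlyOn.comp (s := ⊤) _ _ _ (OpenPartialHomeomorph.continuousOn_symm _)
  · simp only [Set.top_eq_univ, tendstoLocallyUniformlyOn_univ]
    apply eisLat_tendstoLocallyUniformly
  · simp only [Topology.IsOpenEmbedding.toOpenPartialHomeomorph_target, Set.top_eq_univ,
      Set.mapsTo_range_iff, Set.mem_univ, forall_const]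

/-- `eisLat ψ` is holomorphic on `ℍ`. -/
theorem eisLat_mdifferentiable (ψ : DirichletCharacter ℂ N) : MDiff (eisLat ψ) := by
  intro τ
  suffices DifferentiableAt ℂ (↑ₕ(eisLat ψ)) τ.1 by
    convert! MDifferentiableAt.comp τ (DifferentiableAt.mdifferentiableAt this)
      τ.mdifferentiable_coe
    exact funext fun z ↦ (comp_ofComplex (eisLat ψ) z).symm
  refine DifferentiableOn.differentiableAt ?_ (isOpen_upperHalfPlaneSet.mem_nhds τ.2)
  exact (eisLat_tendstoLocallyUniformlyOn ψ).differentiableOn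
    (Filter.Eventually.of_forall fun s ↦ DifferentiableOn.fun_sum
    fun _ _ ↦ (eisSummand_extension_differentiableOn _ _).const_mul _) isOpen_upperHalfPlaneSet

/-! ### Boundedness at the cusps -/

lemma summable_norm_eisSummand_vecMul (γ : SL(2, ℤ)) (z : ℍ) :
    Summable fun v : Fin 2 → ℤ => ‖eisSummand 3 (v ᵥ* (γ : Matrix (Fin 2) (Fin 2) ℤ)) z‖ :=
  (vecMulEquiv γ).summable_iff.mpr (summable_norm_eisSummand (k := 3) le_rfl z)

lemma tsum_norm_eisSummand_vecMul (γ : SL(2, ℤ)) (z : ℍ) :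
    ∑' v : Fin 2 → ℤ, ‖eisSummand 3 (v ᵥ* (γ : Matrix (Fin 2) (Fin 2) ℤ)) z‖ =
      ∑' v : Fin 2 → ℤ, ‖eisSummand 3 v z‖ :=
  (vecMulEquiv γ).tsum_eq (fun w => ‖eisSummand 3 w z‖)

lemma tsum_norm_eisSummand_T_zpow (n : ℤ) (z : ℍ) :
    ∑' v : Fin 2 → ℤ, ‖eisSummand 3 v (ModularGroup.T ^ n • z)‖ =
      ∑' v : Fin 2 → ℤ, ‖eisSummand 3 v z‖ := by
  rw [← tsum_norm_eisSummand_vecMul (ModularGroup.T ^ n) z]
  refine tsum_congr fun v => ?_
  rw [eisSummand_SL2_apply]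
  have hd : denom (ModularGroup.T ^ n : SL(2, ℤ)) z = 1 := by
    rw [ModularGroup.denom_apply, ModularGroup.coe_T_zpow]
    simp
  rw [hd, _root_.one_zpow, one_mul]

/-- `eisLat ψ` is bounded at every cusp. -/
theorem isBoundedAtImInfty_eisLat_slash (ψ : DirichletCharacter ℂ N) (γ : SL(2, ℤ)) :
    IsBoundedAtImInfty (eisLat ψ ∣[(3 : ℤ)] γ) := by
  rw [UpperHalfPlane.isBoundedAtImInfty_iff]
  refine ⟨∑' (x : Fin 2 → ℤ), r ⟨⟨1, 2⟩, zero_lt_two⟩ ^ (-(3 : ℤ)) * ‖x‖ ^ (-(3 : ℤ)), 2, ?_⟩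
  intro z hz
  obtain ⟨n, hn⟩ := ModularGroup_T_zpow_mem_verticalStrip z (N := 1) one_pos
  have hk' : (2 : ℝ) < ((3 : ℤ) : ℝ) := by norm_num
  rw [eisLat_slash_apply]
  calc ‖∑' v : Fin 2 → ℤ, ψ ((v 0 : ℤ) : ZMod N) * eisSummand 3 (v ᵥ* γ) z‖
      ≤ ∑' v : Fin 2 → ℤ, ‖eisSummand 3 (v ᵥ* γ) z‖ := by
        have h1 : Summable fun v : Fin 2 → ℤ =>
            ‖ψ ((v 0 : ℤ) : ZMod N) * eisSummand 3 (v ᵥ* γ) z‖ :=
          Summable.of_nonneg_of_le (fun _ => norm_nonneg _) (fun _ => norm_char_mul_le ψ _ _)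
            (summable_norm_eisSummand_vecMul γ z)
        exact (norm_tsum_le_tsum_norm h1).trans
          (h1.tsum_le_tsum (fun _ => norm_char_mul_le ψ _ _) (summable_norm_eisSummand_vecMul γ z))
    _ = ∑' v : Fin 2 → ℤ, ‖eisSummand 3 v (ModularGroup.T ^ ((1 : ℕ) * n) • z)‖ := by
        rw [tsum_norm_eisSummand_vecMul, tsum_norm_eisSummand_T_zpow]
    _ ≤ ∑' (x : Fin 2 → ℤ), r ⟨⟨1, 2⟩, zero_lt_two⟩ ^ (-(3 : ℤ)) * ‖x‖ ^ (-(3 : ℤ)) := by
        apply (summable_norm_eisSummand (k := 3) le_rfl _).tsum_le_tsum _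
        · exact_mod_cast (summable_one_div_norm_rpow hk').mul_left <|
            r ⟨⟨1, 2⟩, zero_lt_two⟩ ^ (-(3 : ℤ))
        · intro x
          simp_rw [eisSummand, norm_zpow]
          exact_mod_cast
            summand_bound_of_mem_verticalStrip (k := ((3 : ℤ) : ℝ)) (by positivity) x two_pos
            (verticalStrip_anti_right 1 hz (by simpa using hn))

/-! ### The modular form -/

/-- `1` is a strict period of `Γ₁(N)`. -/
theorem one_mem_strictPeriods_Gamma1 (N : ℕ) :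
    (1 : ℝ) ∈ (Subgroup.map (Matrix.SpecialLinearGroup.mapGL ℝ) (Gamma1 N)).strictPeriods := by
  have hT : ModularGroup.T ∈ Gamma1 N := by
    rw [Gamma1_mem]
    simp [ModularGroup.T]
  rw [Subgroup.strictPeriods_eq_zmultiples_one_of_T_mem hT]
  exact AddSubgroup.mem_zmultiples (1 : ℝ)

/-- The normalising constant `(-2πi)³`. -/
noncomputable def eisConst : ℂ := (-2 * π * Complex.I) ^ 3

lemma eisConst_ne_zero : eisConst ≠ 0 := by
  unfold eisConst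
  refine pow_ne_zero _ ?_
  simp [Real.pi_ne_zero, Complex.I_ne_zero]

/-- The normalised Eisenstein series of weight `3` and character `ψ`, as a function. -/
noncomputable def eisB (ψ : DirichletCharacter ℂ N) : ℍ → ℂ := eisConst⁻¹ • eisLat ψ

lemma eisB_apply (ψ : DirichletCharacter ℂ N) (z : ℍ) : eisB ψ z = eisConst⁻¹ * eisLat ψ z := rfl

theorem eisB_slash_of_mem_Gamma0 (ψ : DirichletCharacter ℂ N) {γ : SL(2, ℤ)}
    (hγ : γ ∈ Gamma0 N) :
    eisB ψ ∣[(3 : ℤ)] γ = ψ ((γ 1 1 : ℤ) : ZMod N) • eisB ψ := by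
  rw [eisB, ModularForm.SL_smul_slash, eisLat_slash_of_mem_Gamma0 ψ hγ, smul_comm]

theorem eisB_mdifferentiable (ψ : DirichletCharacter ℂ N) : MDiff (eisB ψ) :=
  (eisLat_mdifferentiable ψ).const_smul _

theorem isBoundedAtImInfty_eisB_slash (ψ : DirichletCharacter ℂ N) (γ : SL(2, ℤ)) :
    IsBoundedAtImInfty (eisB ψ ∣[(3 : ℤ)] γ) := by
  rw [eisB, ModularForm.SL_smul_slash]
  exact (isBoundedAtImInfty_eisLat_slash ψ γ).const_smul_left _

/-- The Eisenstein series of weight `3` and character `ψ` as a modular form on `Γ₁(N)`. -/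
noncomputable def eisChar [NeZero N] (ψ : DirichletCharacter ℂ N) : ModularForm (Gamma1 N) 3 where
  toFun := eisB ψ
  slash_action_eq' := by
    intro A hA
    obtain ⟨γ, hγ, rfl⟩ := hA
    have hd : ((γ 1 1 : ℤ) : ZMod N) = 1 := ((Gamma1_mem N γ).mp hγ).2.1
    have h := eisB_slash_of_mem_Gamma0 ψ (Gamma1_in_Gamma0 N hγ)
    rw [hd, map_one, one_smul] at h
    exact h
  holo' := eisB_mdifferentiable ψ
  bdd_at_cusps' := fun {c} hc => by
    rw [Subgroup.IsArithmetic.isCusp_iff_isCusp_SL2Z] at hc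
    rw [OnePoint.isBoundedAt_iff_forall_SL2Z hc]
    exact fun γ _ => isBoundedAtImInfty_eisB_slash ψ γ

@[simp] lemma coe_eisChar [NeZero N] (ψ : DirichletCharacter ℂ N) :
    (eisChar ψ : ℍ → ℂ) = eisB ψ := rfl

/-! ### The `q`-expansion -/

/-- The twisted divisor sum `∑_{d e = n} ψ(d) e²`. -/
noncomputable def sigmaChar (ψ : DirichletCharacter ℂ N) (n : ℕ) : ℂ :=
  ∑ x ∈ n.divisorsAntidiagonal, ψ ((x.1 : ℕ) : ZMod N) * (x.2 : ℂ) ^ 2

@[simp] lemma sigmaChar_zero (ψ : DirichletCharacter ℂ N) : sigmaChar ψ 0 = 0 := by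
  simp [sigmaChar]

@[simp] lemma sigmaChar_one (ψ : DirichletCharacter ℂ N) : sigmaChar ψ 1 = 1 := by
  simp [sigmaChar]

lemma map_sigmaChar (σ : ℂ →+* ℂ) (ψ : DirichletCharacter ℂ N) (n : ℕ) :
    σ (sigmaChar ψ n) = sigmaChar (ψ.ringHomComp σ) n := by
  simp [sigmaChar, map_sum, MulChar.ringHomComp_apply]

lemma eisLat_eq_tsum_rows (ψ : DirichletCharacter ℂ N) (z : ℍ) :
    eisLat ψ z = ∑' m : ℤ, ψ ((m : ℤ) : ZMod N) * ∑' n : ℤ, eisSummand 3 ![m, n] z := by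
  have hs : Summable fun p : ℤ × ℤ => ψ ((p.1 : ℤ) : ZMod N) * eisSummand 3 ![p.1, p.2] z := by
    have := (finTwoArrowEquiv ℤ).symm.summable_iff.mpr (summable_eisLat_term ψ z)
    simpa [Function.comp_def] using this
  rw [eisLat, ← (finTwoArrowEquiv ℤ).symm.tsum_eq]
  simp only [finTwoArrowEquiv_symm_apply, cons_val_zero]
  rw [Summable.tsum_prod hs]
  simp_rw [tsum_mul_left]

lemma summable_rows (ψ : DirichletCharacter ℂ N) (z : ℍ) :
    Summable fun m : ℤ => ψ ((m : ℤ) : ZMod N) * ∑' n : ℤ, eisSummand 3 ![m, n] z := by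
  have hs : Summable fun p : ℤ × ℤ => ψ ((p.1 : ℤ) : ZMod N) * eisSummand 3 ![p.1, p.2] z := by
    have := (finTwoArrowEquiv ℤ).symm.summable_iff.mpr (summable_eisLat_term ψ z)
    simpa [Function.comp_def] using this
  have := hs.prod
  simp_rw [tsum_mul_left] at this
  exact this

lemma rowSum_neg (m : ℤ) (z : ℍ) :
    ∑' n : ℤ, eisSummand 3 ![-m, n] z = - ∑' n : ℤ, eisSummand 3 ![m, n] z := by
  rw [← tsum_comp_neg (fun n : ℤ => eisSummand 3 ![-m, n] z), ← tsum_neg]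
  refine tsum_congr fun n => ?_
  simp only [eisSummand, cons_val_zero, cons_val_one]
  have h : ((-m : ℤ) : ℂ) * (z : ℂ) + ((-n : ℤ) : ℂ) = -((m : ℂ) * z + n) := by
    push_cast; ring
  rw [h, Odd.neg_zpow (by decide)]

lemma rowSum_pnat (m : ℕ+) (z : ℍ) :
    ∑' n : ℤ, eisSummand 3 ![(m : ℤ), n] z =
      eisConst / 2 * ∑' d : ℕ+, (d : ℂ) ^ 2 * Complex.exp (2 * π * Complex.I * z) ^ ((m : ℕ) * d) := by
  have hm : 0 < ((m : ℂ) * (z : ℂ)).im := by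
    have : ((m : ℂ) * (z : ℂ)).im = (m : ℝ) * z.im := by simp
    rw [this]
    exact mul_pos (by exact_mod_cast m.pos) z.im_pos
  have H := EisensteinSeries.qExpansion_identity_pnat (k := 2) (by norm_num) ⟨(m : ℂ) * z, hm⟩
  have h1 : ∑' n : ℤ, eisSummand 3 ![(m : ℤ), n] z =
      ∑' n : ℤ, 1 / (((⟨(m : ℂ) * z, hm⟩ : ℍ) : ℂ) + n) ^ (2 + 1) := by
    refine tsum_congr fun n => ?_
    simp only [eisSummand, cons_val_zero, cons_val_one]
    rw [_root_.zpow_neg, one_div]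
    norm_cast
  rw [h1, H]
  have h2 : ∀ d : ℕ+, (d : ℂ) ^ 2 *
      Complex.exp (2 * π * Complex.I * ((⟨(m : ℂ) * z, hm⟩ : ℍ) : ℂ)) ^ (d : ℕ) =
      (d : ℂ) ^ 2 * Complex.exp (2 * π * Complex.I * z) ^ ((m : ℕ) * d) := by
    intro d
    rw [pow_mul, ← Complex.exp_nat_mul (2 * π * Complex.I * z) m]
    congr 3
    ring
  simp_rw [h2]
  congr 1

/-- Lambert regrouping of a double series over `ℕ+ × ℕ+` along `n = d * e`. -/
lemma tsum_prod_pnat_eq_tsum_divisorsAntidiagonal (F : ℕ → ℕ → ℂ)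
    (hF : Summable fun c : ℕ+ × ℕ+ => F c.1 c.2) :
    HasSum (fun e : ℕ+ => ∑ x ∈ (e : ℕ).divisorsAntidiagonal, F x.1 x.2)
      (∑' c : ℕ+ × ℕ+, F c.1 c.2) := by
  have hs : Summable fun s : (Σ n : ℕ+, Nat.divisorsAntidiagonal n) =>
      F (sigmaAntidiagonalEquivProd s).1 (sigmaAntidiagonalEquivProd s).2 :=
    sigmaAntidiagonalEquivProd.summable_iff.mpr hF
  have h1 : HasSum (fun s : (Σ n : ℕ+, Nat.divisorsAntidiagonal n) =>
      F (sigmaAntidiagonalEquivProd s).1 (sigmaAntidiagonalEquivProd s).2)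
      (∑' c : ℕ+ × ℕ+, F c.1 c.2) := by
    rw [← sigmaAntidiagonalEquivProd.tsum_eq (fun c : ℕ+ × ℕ+ => F c.1 c.2)]
    exact hs.hasSum
  have h2 := h1.sigma (fun e => (hasSum_fintype _))
  convert h2 using 2 with e
  simp only [sigmaAntidiagonalEquivProd, divisorsAntidiagonalFactors, Equiv.coe_fn_mk,
    PNat.mk_coe]
  exact (Finset.sum_coe_sort (e : ℕ).divisorsAntidiagonal (fun x => F x.1 x.2)).symm

/-- `eisLat ψ` as a double `q`-series, for odd `ψ`. -/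
theorem eisLat_eq_tsum_pnat (ψ : DirichletCharacter ℂ N) (hψ : ψ.Odd) (z : ℍ) :
    eisLat ψ z = eisConst * ∑' m : ℕ+, ∑' d : ℕ+,
      ψ ((m : ℕ) : ZMod N) * (d : ℂ) ^ 2 * Complex.exp (2 * π * Complex.I * z) ^ ((m : ℕ) * d) := by
  rw [eisLat_eq_tsum_rows]
  have heven : Function.Even
      (fun m : ℤ => ψ ((m : ℤ) : ZMod N) * ∑' n : ℤ, eisSummand 3 ![m, n] z) := by
    intro m
    simp only
    rw [rowSum_neg, Int.cast_neg, hψ.eval_neg, neg_mul_neg]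
  rw [tsum_int_eq_zero_add_two_mul_tsum_pnat heven (summable_rows ψ z)]
  have h0 : ∑' n : ℤ, eisSummand 3 ![(0 : ℤ), n] z = 0 := by
    have h := rowSum_neg 0 z
    rw [neg_zero] at h
    exact self_eq_neg.mp h
  simp only [h0, mul_zero, zero_add, Int.cast_natCast, nsmul_eq_mul, Nat.cast_ofNat]
  simp_rw [rowSum_pnat]
  have step : ∀ m : ℕ+, ψ ((m : ℕ) : ZMod N) * (eisConst / 2 * ∑' d : ℕ+, (d : ℂ) ^ 2 *
      Complex.exp (2 * π * Complex.I * z) ^ ((m : ℕ) * d)) =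
      eisConst / 2 * ∑' d : ℕ+, ψ ((m : ℕ) : ZMod N) * (d : ℂ) ^ 2 *
        Complex.exp (2 * π * Complex.I * z) ^ ((m : ℕ) * d) := by
    intro m
    rw [mul_left_comm, ← tsum_mul_left (a := ψ ((m : ℕ) : ZMod N))]
    congr 2
    funext d
    ring
  simp_rw [step]
  rw [tsum_mul_left]
  ring

/-- The `q`-expansion of `eisB ψ` for odd `ψ`, as a `HasSum` statement. -/
theorem hasSum_eisB (ψ : DirichletCharacter ℂ N) (hψ : ψ.Odd) (z : ℍ) :
    HasSum (fun n : ℕ => sigmaChar ψ n * Complex.exp (2 * π * Complex.I * z) ^ n) (eisB ψ z) := by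
  set q : ℂ := Complex.exp (2 * π * Complex.I * z) with hq_def
  have hq : ‖q‖ < 1 := norm_exp_two_pi_I_lt_one z
  set F : ℕ → ℕ → ℂ := fun m d => ψ ((m : ℕ) : ZMod N) * (d : ℂ) ^ 2 * q ^ (m * d) with hF_def
  have hF : Summable fun c : ℕ+ × ℕ+ => F c.1 c.2 := by
    refine Summable.of_norm_bounded ((summable_prod_mul_pow (𝕜 := ℂ) 2 hq).norm) fun c => ?_
    simp only [hF_def]
    rw [mul_assoc]
    exact norm_char_mul_le ψ _ _
  have h1 := tsum_prod_pnat_eq_tsum_divisorsAntidiagonal F hF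
  have h2 : ∀ e : ℕ+, ∑ x ∈ (e : ℕ).divisorsAntidiagonal, F x.1 x.2 = sigmaChar ψ e * q ^ (e : ℕ) := by
    intro e
    rw [sigmaChar, Finset.sum_mul]
    refine Finset.sum_congr rfl fun x hx => ?_
    simp only [hF_def, (Nat.mem_divisorsAntidiagonal.mp hx).1]
  simp_rw [h2] at h1
  have h3 : eisB ψ z = ∑' c : ℕ+ × ℕ+, F c.1 c.2 := by
    rw [eisB_apply, eisLat_eq_tsum_pnat ψ hψ z, ← mul_assoc, inv_mul_cancel₀ eisConst_ne_zero,
      one_mul, hF.tsum_prod]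
  rw [h3]
  have h4 := (hasSum_pnat_iff (f := fun n : ℕ => sigmaChar ψ n * q ^ n)).mp h1
  simpa using h4

/-- The `q`-expansion coefficients of `eisChar ψ` for odd `ψ`. -/
theorem qExpansion_eisChar_coeff [NeZero N] (ψ : DirichletCharacter ℂ N) (hψ : ψ.Odd) (n : ℕ) :
    (qExpansion 1 (eisChar ψ)).coeff n = sigmaChar ψ n := by
  refine (ModularFormClass.qExpansion_coeff_unique (c := sigmaChar ψ) one_pos
    (one_mem_strictPeriods_Gamma1 N) (f := eisChar ψ) (fun τ => ?_) n).symm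
  have h := hasSum_eisB ψ hψ τ
  simpa [Function.Periodic.qParam] using h

theorem qExpansion_eisB_coeff [NeZero N] (ψ : DirichletCharacter ℂ N) (hψ : ψ.Odd) (n : ℕ) :
    (qExpansion 1 (eisB ψ)).coeff n = sigmaChar ψ n :=
  qExpansion_eisChar_coeff ψ hψ n

theorem qExpansion_eisB_ne_zero [NeZero N] (ψ : DirichletCharacter ℂ N) (hψ : ψ.Odd) :
    qExpansion 1 (eisB ψ) ≠ 0 := by
  intro h
  have h1 := qExpansion_eisB_coeff ψ hψ 1
  rw [h, sigmaChar_one] at h1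
  simp at h1

theorem exists_eisB_ne_zero [NeZero N] (ψ : DirichletCharacter ℂ N) (hψ : ψ.Odd) :
    ∃ z, eisB ψ z ≠ 0 := by
  by_contra hcon
  have h0 : eisB ψ = 0 := funext fun z => not_not.mp fun hz => hcon ⟨z, hz⟩
  exact qExpansion_eisB_ne_zero ψ hψ (by rw [h0]; exact qExpansion_zero 1)

end Fermat.Agent.S48.helper9289
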