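import Mathlib
import Fermat.Prelude.Def_FLTPrelim_Modularity
import Fermat.Agent.S23.helper23_Final
import Fermat.Agent.S48.helper9289_EisChar

/-!
# Conjugates of weight-one cusp forms with nebentypus (helper9289, S48 leaf F1, backup design)

For `f ∈ S₁(Γ₁(N))` with nebentypus `χ` and `σ ∈ Aut(ℂ)` we construct `g ∈ S₁(Γ₁(N))` with
nebentypus `σ ∘ χ` whose `q`-expansion is the coefficientwise `σ`-conjugate of that of `f`.

Design: `A = f · B` with `B` the weight-3 Eisenstein series of character `χ⁻¹` lies in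
`S₄(Γ₀(N))`, `P = f ^ m` lies in `S_m(Γ₀(N))` (`m = φ(N)`); the landed S23 conjugation theorem on
`Γ₀(N)` gives `A'`, `P'`; `A' ^ m = P' · B' ^ m` with `B'` the Eisenstein series of character
`σ ∘ χ⁻¹`; the landed Lemma H gives a holomorphic `φ` with `φ · B' = A'`, `φ ^ m = P'`.
-/

set_option autoImplicit false

open UpperHalfPlane Function CongruenceSubgroup Matrix
open scoped MatrixGroups Manifold ModularForm Real Topology

namespace Fermat.Agent.S48.helper9289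

open Fermat.Agent.S23.helper1255 (Nice)

variable {N : ℕ}

/-! ### Generalities -/

/-- A cusp form of level `Γ₁(N)` from a function. -/
noncomputable def mkCuspGamma1 (N : ℕ) [NeZero N] (k : ℤ) (g : ℍ → ℂ) (hol : MDiff g)
    (inv : ∀ γ ∈ Gamma1 N, g ∣[k] γ = g) (zero : ∀ δ : SL(2, ℤ), IsZeroAtImInfty (g ∣[k] δ)) :
    CuspForm (Gamma1 N) k where
  toFun := g
  slash_action_eq' A hA := by
    obtain ⟨A, hA, rfl⟩ := hA
    exact inv A hA
  holo' := hol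
  zero_at_cusps' hc := by
    rw [Subgroup.IsArithmetic.isCusp_iff_isCusp_SL2Z] at hc
    rw [OnePoint.isZeroAt_iff_forall_SL2Z hc]
    intro γ _
    exact zero γ

@[simp] lemma coe_mkCuspGamma1 (N : ℕ) [NeZero N] (k : ℤ) (g : ℍ → ℂ) (hol : MDiff g)
    (inv : ∀ γ ∈ Gamma1 N, g ∣[k] γ = g) (zero : ∀ δ : SL(2, ℤ), IsZeroAtImInfty (g ∣[k] δ)) :
    ⇑(mkCuspGamma1 N k g hol inv zero) = g := rfl

/-- A cusp form of level `Γ₀(N)` from a function. -/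
noncomputable def mkCuspG0 (N : ℕ) [NeZero N] (k : ℤ) (g : ℍ → ℂ) (hol : MDiff g)
    (inv : ∀ γ ∈ Gamma0 N, g ∣[k] γ = g) (zero : ∀ δ : SL(2, ℤ), IsZeroAtImInfty (g ∣[k] δ)) :
    CuspForm (Gamma0 N) k where
  toFun := g
  slash_action_eq' A hA := by
    obtain ⟨A, hA, rfl⟩ := hA
    exact inv A hA
  holo' := hol
  zero_at_cusps' hc := by
    rw [Subgroup.IsArithmetic.isCusp_iff_isCusp_SL2Z] at hc
    rw [OnePoint.isZeroAt_iff_forall_SL2Z hc]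
    intro γ _
    exact zero γ

@[simp] lemma coe_mkCuspG0 (N : ℕ) [NeZero N] (k : ℤ) (g : ℍ → ℂ) (hol : MDiff g)
    (inv : ∀ γ ∈ Gamma0 N, g ∣[k] γ = g) (zero : ∀ δ : SL(2, ℤ), IsZeroAtImInfty (g ∣[k] δ)) :
    ⇑(mkCuspG0 N k g hol inv zero) = g := rfl

/-- A cusp form for an arithmetic group vanishes at `i∞` after slashing by any `δ ∈ SL(2,ℤ)`. -/
lemma isZeroAtImInfty_slash_cuspForm {𝒢 : Subgroup (GL (Fin 2) ℝ)} [𝒢.IsArithmetic] {k : ℤ}
    (f : CuspForm 𝒢 k) (δ : SL(2, ℤ)) : IsZeroAtImInfty ((f : ℍ → ℂ) ∣[k] δ) := by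
  have hc : IsCusp (Matrix.SpecialLinearGroup.mapGL ℝ δ • (OnePoint.infty : OnePoint ℝ)) 𝒮ℒ :=
    isCusp_SL2Z_iff'.mpr ⟨δ, rfl⟩
  have hc' := (Subgroup.IsArithmetic.isCusp_iff_isCusp_SL2Z 𝒢).mpr hc
  exact (OnePoint.isZeroAt_iff_forall_SL2Z hc).mp (f.zero_at_cusps' hc') δ rfl

/-- Slash of a power, weight one. -/
lemma pow_slash_one (F : ℍ → ℂ) (m : ℕ) (γ : SL(2, ℤ)) :
    (F ^ m) ∣[(m : ℤ)] γ = (F ∣[(1 : ℤ)] γ) ^ m := by
  ext z
  simp only [ModularForm.SL_slash_apply, Pi.pow_apply, mul_pow]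
  congr 1
  rw [← zpow_natCast (denom _ _ ^ (-1 : ℤ)) m, ← _root_.zpow_mul]
  congr 1
  ring

lemma tendsto_zero_of_pow_tendsto_zero {α : Type*} {l : Filter α} {g : α → ℂ} {m : ℕ}
    (h : Filter.Tendsto (fun a => g a ^ m) l (𝓝 0)) : Filter.Tendsto g l (𝓝 0) := by
  rw [tendsto_zero_iff_norm_tendsto_zero] at h ⊢
  rw [Metric.tendsto_nhds] at h ⊢
  intro ε hε
  have hεm : 0 < ε ^ m := pow_pos hε m
  filter_upwards [h (ε ^ m) hεm] with a ha
  simp only [dist_zero_right, norm_norm, norm_pow] at ha ⊢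
  exact lt_of_pow_lt_pow_left₀ m hε.le ha

/-! ### Characters -/

/-- For `γ ∈ Γ₀(N)` the character value at the lower right entry is nonzero. -/
lemma char_ne_zero_of_mem_Gamma0 (χ : DirichletCharacter ℂ N) {γ : SL(2, ℤ)}
    (hγ : γ ∈ Gamma0 N) : χ ((γ 1 1 : ℤ) : ZMod N) ≠ 0 := by
  intro h
  have h1 : χ (((γ 0 0 : ℤ) : ZMod N) * ((γ 1 1 : ℤ) : ZMod N)) = 1 := by
    rw [cast_mul_cast_eq_one_of_mem_Gamma0 hγ, map_one]
  rw [map_mul, h, mul_zero] at h1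
  exact zero_ne_one h1

lemma isUnit_cast_of_mem_Gamma0 {γ : SL(2, ℤ)} (hγ : γ ∈ Gamma0 N) :
    IsUnit ((γ 1 1 : ℤ) : ZMod N) :=
  IsUnit.of_mul_eq_one _ (by rw [mul_comm]; exact cast_mul_cast_eq_one_of_mem_Gamma0 hγ)

lemma char_pow_card_eq_one [NeZero N] (χ : DirichletCharacter ℂ N) {γ : SL(2, ℤ)}
    (hγ : γ ∈ Gamma0 N) : χ ((γ 1 1 : ℤ) : ZMod N) ^ (Nat.totient N) = 1 := by
  obtain ⟨u, hu⟩ := isUnit_cast_of_mem_Gamma0 hγ
  rw [← hu, ← map_pow, ← Units.val_pow_eq_pow_val, ZMod.pow_totient, Units.val_one, map_one]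

lemma odd_inv {χ : DirichletCharacter ℂ N} (hχ : χ.Odd) : (χ⁻¹).Odd := by
  unfold DirichletCharacter.Odd at hχ ⊢
  rw [MulChar.inv_apply_eq_inv', hχ]
  norm_num

/-- The conjugate character `σ ∘ χ`. -/
noncomputable def conjChar (σ : ℂ →+* ℂ) (χ : DirichletCharacter ℂ N) : DirichletCharacter ℂ N :=
  χ.ringHomComp σ

@[simp] lemma conjChar_apply (σ : ℂ →+* ℂ) (χ : DirichletCharacter ℂ N) (a : ZMod N) :
    conjChar σ χ a = σ (χ a) := rfl

lemma odd_conjChar {χ : DirichletCharacter ℂ N} (hχ : χ.Odd) (σ : ℂ →+* ℂ) :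
    (conjChar σ χ).Odd := by
  unfold DirichletCharacter.Odd at hχ ⊢
  rw [conjChar_apply, hχ, map_neg, map_one]

/-- A nonzero function of weight one with nebentypus `χ` forces `χ` to be odd. -/
lemma odd_of_nebentypus (χ : DirichletCharacter ℂ N) (F : ℍ → ℂ) (hF : F ≠ 0)
    (hneb : ∀ γ ∈ Gamma0 N, F ∣[(1 : ℤ)] γ = χ ((γ 1 1 : ℤ) : ZMod N) • F) : χ.Odd := by
  have hmem : (-1 : SL(2, ℤ)) ∈ Gamma0 N := by
    rw [Gamma0_mem]
    simp
  have h := hneb (-1) hmem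
  have h1 : F ∣[(1 : ℤ)] (-1 : SL(2, ℤ)) = -F := by
    ext z
    rw [ModularForm.SL_slash_apply]
    have hz : (-1 : SL(2, ℤ)) • z = z := by
      simp
    have hd : denom ((-1 : SL(2, ℤ)) : GL (Fin 2) ℝ) z = -1 := by
      rw [ModularGroup.denom_apply]
      simp
    rw [hz, hd]
    simp
  rw [h1] at h
  obtain ⟨z, hz⟩ : ∃ z, F z ≠ 0 := by
    by_contra hcon
    exact hF (funext fun z => not_not.mp fun hz => hcon ⟨z, hz⟩)
  have h3 := congrFun h z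
  simp only [Pi.neg_apply, Pi.smul_apply, smul_eq_mul] at h3
  have h4 : χ (((-1 : SL(2, ℤ)) 1 1 : ℤ) : ZMod N) = -1 := by
    have : (χ (((-1 : SL(2, ℤ)) 1 1 : ℤ) : ZMod N) + 1) * F z = 0 := by
      rw [add_mul, ← h3]; ring
    rcases mul_eq_zero.mp this with h5 | h5
    · exact eq_neg_of_add_eq_zero_left h5
    · exact absurd h5 hz
  unfold DirichletCharacter.Odd
  have h6 : (((-1 : SL(2, ℤ)) 1 1 : ℤ) : ZMod N) = -1 := by simp
  rw [h6] at h4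
  exact h4

/-! ### Niceness -/

lemma nice_cuspGamma1 {k : ℤ} (f : CuspForm (Gamma1 N) k) : Nice (f : ℍ → ℂ) :=
  Fermat.Agent.S23.helper1255.nice_of_modularFormClass (one_mem_strictPeriods_Gamma1 N) f

lemma nice_cuspG0 {k : ℤ} (f : CuspForm (Gamma0 N) k) : Nice (f : ℍ → ℂ) :=
  Fermat.Agent.S23.helper1255.nice_G0 N f

section main

variable [NeZero N]

lemma nice_eisB (ψ : DirichletCharacter ℂ N) : Nice (eisB ψ) :=
  Fermat.Agent.S23.helper1255.nice_of_modularFormClass (one_mem_strictPeriods_Gamma1 N)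
    (eisChar ψ)

/-- **Conjugation of weight-one cusp forms with (odd) nebentypus.** -/
theorem conj_of_nebentypus_odd (χ : DirichletCharacter ℂ N) (hχ : χ.Odd)
    (f : CuspForm (Gamma1 N) 1)
    (hf : ∀ γ ∈ Gamma0 N, (f : ℍ → ℂ) ∣[(1 : ℤ)] γ = χ ((γ 1 1 : ℤ) : ZMod N) • (f : ℍ → ℂ))
    (σ : ℂ ≃+* ℂ) :
    ∃ g : CuspForm (Gamma1 N) 1,
      (∀ γ ∈ Gamma0 N,
        (g : ℍ → ℂ) ∣[(1 : ℤ)] γ = σ (χ ((γ 1 1 : ℤ) : ZMod N)) • (g : ℍ → ℂ)) ∧
      ∀ n : ℕ, ModularFormClass.qCoeff g n = σ (ModularFormClass.qCoeff f n) := by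
  classical
  set m : ℕ := Nat.totient N with hm_def
  have hm : 0 < m := Nat.totient_pos.mpr (NeZero.pos N)
  set ψ : DirichletCharacter ℂ N := χ⁻¹ with hψ_def
  have hψ : ψ.Odd := odd_inv hχ
  set sσ : ℂ →+* ℂ := (σ : ℂ →+* ℂ) with hsσ
  set ψ' : DirichletCharacter ℂ N := conjChar sσ ψ with hψ'_def
  have hψ' : ψ'.Odd := odd_conjChar hψ _
  set F : ℍ → ℂ := ⇑f with hF_def
  set B : ℍ → ℂ := eisB ψ with hB_def
  set B' : ℍ → ℂ := eisB ψ' with hB'_def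
  have nF : Nice F := nice_cuspGamma1 f
  have nB : Nice B := nice_eisB ψ
  have nB' : Nice B' := nice_eisB ψ'
  -- the form `A = f * B` on `Γ₀(N)`, weight 4
  have hAinv : ∀ γ ∈ Gamma0 N, (F * B) ∣[(4 : ℤ)] γ = F * B := by
    intro γ hγ
    have h := ModularForm.mul_slash_SL2 1 3 γ F B
    rw [show (1 : ℤ) + 3 = 4 by norm_num] at h
    rw [h, hf γ hγ, eisB_slash_of_mem_Gamma0 ψ hγ]
    have hne := char_ne_zero_of_mem_Gamma0 χ hγ
    have hχψ : χ ((γ 1 1 : ℤ) : ZMod N) * ψ ((γ 1 1 : ℤ) : ZMod N) = 1 := by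
      rw [hψ_def, MulChar.inv_apply_eq_inv', mul_inv_cancel₀ hne]
    ext z
    simp only [Pi.mul_apply, Pi.smul_apply, smul_eq_mul]
    rw [mul_mul_mul_comm, hχψ, one_mul]
  have hAzero : ∀ δ : SL(2, ℤ), IsZeroAtImInfty ((F * B) ∣[(4 : ℤ)] δ) := by
    intro δ
    have h := ModularForm.mul_slash_SL2 1 3 δ F B
    rw [show (1 : ℤ) + 3 = 4 by norm_num] at h
    rw [h]
    exact (isZeroAtImInfty_slash_cuspForm f δ).mul_boundedAtFilter
      (isBoundedAtImInfty_eisB_slash ψ δ)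
  let A : CuspForm (Gamma0 N) 4 := mkCuspG0 N 4 (F * B) (nF.2.1.mul nB.2.1) hAinv hAzero
  -- the form `P = f ^ m` on `Γ₀(N)`, weight `m`
  have hPinv : ∀ γ ∈ Gamma0 N, (F ^ m) ∣[(m : ℤ)] γ = F ^ m := by
    intro γ hγ
    rw [pow_slash_one, hf γ hγ]
    ext z
    simp only [Pi.pow_apply, Pi.smul_apply, smul_eq_mul, mul_pow]
    rw [char_pow_card_eq_one χ hγ, one_mul]
  have hPzero : ∀ δ : SL(2, ℤ), IsZeroAtImInfty ((F ^ m) ∣[(m : ℤ)] δ) := by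
    intro δ
    rw [pow_slash_one]
    have h0 : Filter.Tendsto (F ∣[(1 : ℤ)] δ) atImInfty (𝓝 0) :=
      isZeroAtImInfty_slash_cuspForm f δ
    have h1 : Filter.Tendsto ((F ∣[(1 : ℤ)] δ) ^ m) atImInfty (𝓝 (0 ^ m)) := h0.pow m
    rwa [zero_pow hm.ne'] at h1
  let P : CuspForm (Gamma0 N) m := mkCuspG0 N m (F ^ m) (nF.pow m).2.1 hPinv hPzero
  obtain ⟨A', hA'⟩ := Fermat.Agent.S23.helper23.stmt_conj N 4 A σ
  obtain ⟨P', hP'⟩ := Fermat.Agent.S23.helper23.stmt_conj N m P σ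
  have nA' : Nice (A' : ℍ → ℂ) := nice_cuspG0 A'
  have nP' : Nice (P' : ℍ → ℂ) := nice_cuspG0 P'
  have eA : qExpansion 1 (A' : ℍ → ℂ) = (qExpansion 1 F * qExpansion 1 B).map sσ := by
    ext n
    rw [PowerSeries.coeff_map, ← nF.qExp_mul nB]
    exact hA' n
  have eP : qExpansion 1 (P' : ℍ → ℂ) = ((qExpansion 1 F) ^ m).map sσ := by
    ext n
    rw [PowerSeries.coeff_map, ← nF.qExp_pow m]
    exact hP' n
  have eB : qExpansion 1 B' = (qExpansion 1 B).map sσ := by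
    ext n
    rw [PowerSeries.coeff_map, qExpansion_eisB_coeff ψ' hψ', qExpansion_eisB_coeff ψ hψ,
      map_sigmaChar]
    rfl
  have hfun : (A' : ℍ → ℂ) ^ m = P' * B' ^ m := by
    have hn : Nice ((A' : ℍ → ℂ) ^ m - P' * B' ^ m) := (nA'.pow m).sub (nP'.mul (nB'.pow m))
    have hq : qExpansion 1 ((A' : ℍ → ℂ) ^ m - P' * B' ^ m) = 0 := by
      rw [UpperHalfPlane.qExpansion_sub (nA'.pow m).analyticAt (nP'.mul (nB'.pow m)).analyticAt,
        nA'.qExp_pow, nP'.qExp_mul (nB'.pow m), nB'.qExp_pow, eA, eP, eB]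
      simp only [map_mul, map_pow]
      ring
    exact sub_eq_zero.mp (hn.eq_zero_of_qExp_eq_zero hq)
  obtain ⟨φ, hφ, hφB, hφP⟩ :=
    Fermat.Agent.S23.helper595.exists_mdifferentiable_quotient_of_pow_eq
      (F := A') (G := B') (H := P') nA'.2.1 nB'.2.1 nP'.2.1 (exists_eisB_ne_zero ψ' hψ') m hm
      (fun τ => by simpa using congrFun hfun τ)
  have hφB' : φ * B' = A' := funext hφB
  have hB'ne : B' ≠ 0 := by
    obtain ⟨z, hz⟩ := exists_eisB_ne_zero ψ' hψ'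
    intro h
    exact hz (by rw [← hB'_def, h]; rfl)
  -- nebentypus of `φ`
  have hφneb : ∀ γ ∈ Gamma0 N, φ ∣[(1 : ℤ)] γ = σ (χ ((γ 1 1 : ℤ) : ZMod N)) • φ := by
    intro γ hγ
    have h1 := ModularForm.mul_slash_SL2 1 3 γ φ B'
    rw [show (1 : ℤ) + 3 = 4 by norm_num, hφB'] at h1
    have h3 : (A' : ℍ → ℂ) ∣[(4 : ℤ)] γ = A' := A'.slash_action_eq' _ ⟨γ, hγ, rfl⟩
    rw [h3, eisB_slash_of_mem_Gamma0 ψ' hγ] at h1
    set c := ψ' ((γ 1 1 : ℤ) : ZMod N) with hc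
    have hcne : c ≠ 0 := char_ne_zero_of_mem_Gamma0 ψ' hγ
    have h4 : (c • (φ ∣[(1 : ℤ)] γ) - φ) * B' = 0 := by
      rw [sub_mul, hφB', h1]
      ext z
      simp only [Pi.sub_apply, Pi.mul_apply, Pi.smul_apply, smul_eq_mul, Pi.zero_apply]
      ring
    have hsl : MDiff (φ ∣[(1 : ℤ)] γ) := hφ.slash 1 (γ : GL (Fin 2) ℝ)
    rcases (UpperHalfPlane.mul_eq_zero_iff ((hsl.const_smul c).sub hφ) nB'.2.1).mp h4 with h | h
    · have h5 : c • (φ ∣[(1 : ℤ)] γ) = φ := sub_eq_zero.mp h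
      have hc' : σ (χ ((γ 1 1 : ℤ) : ZMod N)) = c⁻¹ := by
        rw [hc, hψ'_def, conjChar_apply, hψ_def, MulChar.inv_apply_eq_inv', map_inv₀, inv_inv]
        rfl
      rw [hc']
      nth_rewrite 2 [← h5]
      rw [smul_smul, inv_mul_cancel₀ hcne, one_smul]
    · exact absurd h hB'ne
  -- cusp conditions
  have hφzero : ∀ δ : SL(2, ℤ), IsZeroAtImInfty (φ ∣[(1 : ℤ)] δ) := by
    intro δ
    have hP'z := isZeroAtImInfty_slash_cuspForm P' δ
    have hφm : φ ^ m = P' := funext hφP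
    rw [← hφm, pow_slash_one] at hP'z
    exact tendsto_zero_of_pow_tendsto_zero (m := m) hP'z
  have hφinv : ∀ γ ∈ Gamma1 N, φ ∣[(1 : ℤ)] γ = φ := by
    intro γ hγ
    have hd : ((γ 1 1 : ℤ) : ZMod N) = 1 := ((Gamma1_mem N γ).mp hγ).2.1
    rw [hφneb γ (Gamma1_in_Gamma0 N hγ), hd, map_one, map_one, one_smul]
  refine ⟨mkCuspGamma1 N 1 φ hφ hφinv hφzero, ?_, ?_⟩
  · intro γ hγ
    simpa using hφneb γ hγ
  · intro n
    have ng : Nice φ := nice_cuspGamma1 (mkCuspGamma1 N 1 φ hφ hφinv hφzero)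
    have h1 : qExpansion 1 φ * qExpansion 1 B' = (qExpansion 1 F).map sσ * qExpansion 1 B' := by
      rw [← ng.qExp_mul nB', hφB', eA, map_mul, eB]
    have h2 := mul_right_cancel₀ (qExpansion_eisB_ne_zero ψ' hψ') h1
    show (qExpansion 1 φ).coeff n = σ ((qExpansion 1 F).coeff n)
    rw [h2, PowerSeries.coeff_map]
    rfl

/-- **Conjugation of weight-one cusp forms with nebentypus** (no parity hypothesis: a nonzero
form forces the character to be odd). -/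
theorem conj_of_nebentypus (χ : DirichletCharacter ℂ N) (f : CuspForm (Gamma1 N) 1)
    (hf : ∀ γ ∈ Gamma0 N, (f : ℍ → ℂ) ∣[(1 : ℤ)] γ = χ ((γ 1 1 : ℤ) : ZMod N) • (f : ℍ → ℂ))
    (σ : ℂ ≃+* ℂ) :
    ∃ g : CuspForm (Gamma1 N) 1,
      (∀ γ ∈ Gamma0 N,
        (g : ℍ → ℂ) ∣[(1 : ℤ)] γ = σ (χ ((γ 1 1 : ℤ) : ZMod N)) • (g : ℍ → ℂ)) ∧
      ∀ n : ℕ, ModularFormClass.qCoeff g n = σ (ModularFormClass.qCoeff f n) := by
  by_cases h0 : (f : ℍ → ℂ) = 0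
  · refine ⟨f, fun γ hγ => ?_, fun n => ?_⟩
    · rw [h0]
      simp
    · simp only [ModularFormClass.qCoeff]
      rw [h0, qExpansion_zero]
      simp
  · exact conj_of_nebentypus_odd χ (odd_of_nebentypus χ f h0 hf) f hf σ

end main

end Fermat.Agent.S48.helper9289
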