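import Mathlib
import Fermat.Agent.S48.helper8231_Spec
import Fermat.Agent.S48.helper9289_ConjEis

/-!
# `Stmt_Conj1` (helper9289): conjugates of all weight-one cusp forms on `Γ₁(N)`

Splitting `f ∈ S₁(Γ₁(N))` into nebentypus components (orthogonality of Dirichlet characters) and
applying `conj_of_nebentypus` to each component.
-/

set_option autoImplicit false

open UpperHalfPlane Function CongruenceSubgroup Matrix
open scoped MatrixGroups Manifold ModularForm Real Topology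

namespace Fermat.Agent.S48.helper9289

open Fermat.Agent.S23.helper1255 (Nice)

variable {N : ℕ}

/-! ### Lifting units to `Γ₀(N)` -/

lemma exists_Gamma0_lift [NeZero N] (u : (ZMod N)ˣ) :
    ∃ γ : SL(2, ℤ), γ ∈ Gamma0 N ∧ ((γ 1 1 : ℤ) : ZMod N) = (u : ZMod N) := by
  have hcop : Nat.Coprime (u : ZMod N).val N := ZMod.val_coe_unit_coprime u
  have hcop' : IsCoprime (((u : ZMod N).val : ℕ) : ℤ) (N : ℤ) :=
    Nat.isCoprime_iff_coprime.mpr hcop
  obtain ⟨a, b, hab⟩ := hcop'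
  have hdet : (!![a, -b; (N : ℤ), ((u : ZMod N).val : ℤ)] : Matrix (Fin 2) (Fin 2) ℤ).det = 1 := by
    rw [Matrix.det_fin_two_of]
    linarith
  let γ : SL(2, ℤ) := ⟨!![a, -b; (N : ℤ), ((u : ZMod N).val : ℤ)], hdet⟩
  have h10 : (γ 1 0 : ℤ) = (N : ℤ) := rfl
  have h11 : (γ 1 1 : ℤ) = ((u : ZMod N).val : ℤ) := rfl
  refine ⟨γ, Gamma0_mem.mpr ?_, ?_⟩
  · rw [h10]
    simp
  · rw [h11]
    simp

/-- A chosen element of `Γ₀(N)` with lower right entry `≡ u`. -/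
noncomputable def dLift [NeZero N] (u : (ZMod N)ˣ) : SL(2, ℤ) := (exists_Gamma0_lift u).choose

lemma dLift_mem [NeZero N] (u : (ZMod N)ˣ) : dLift u ∈ Gamma0 N :=
  (exists_Gamma0_lift u).choose_spec.1

lemma dLift_cast [NeZero N] (u : (ZMod N)ˣ) : ((dLift u 1 1 : ℤ) : ZMod N) = (u : ZMod N) :=
  (exists_Gamma0_lift u).choose_spec.2

lemma cast_mul_lower_right {γ γ' : SL(2, ℤ)} (hγ : γ ∈ Gamma0 N) :
    (((γ * γ') 1 1 : ℤ) : ZMod N) = ((γ 1 1 : ℤ) : ZMod N) * ((γ' 1 1 : ℤ) : ZMod N) := by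
  have hc : ((γ 1 0 : ℤ) : ZMod N) = 0 := Gamma0_mem.mp hγ
  rw [Matrix.SpecialLinearGroup.coe_mul, Matrix.mul_apply, Fin.sum_univ_two]
  push_cast
  rw [hc, zero_mul, zero_add]

lemma mem_Gamma1_of_cast_eq_one {γ : SL(2, ℤ)} (hγ : γ ∈ Gamma0 N)
    (h : ((γ 1 1 : ℤ) : ZMod N) = 1) : γ ∈ Gamma1 N := by
  rw [Gamma1_mem]
  have h1 := cast_mul_cast_eq_one_of_mem_Gamma0 hγ
  rw [h, mul_one] at h1
  exact ⟨h1, h, Gamma0_mem.mp hγ⟩

/-- The slash of a `Γ₁(N)`-form by `γ ∈ Γ₀(N)` only depends on the lower right entry mod `N`. -/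
lemma slash_eq_of_cast_eq {k : ℤ} (f : CuspForm (Gamma1 N) k) {γ γ' : SL(2, ℤ)}
    (hγ : γ ∈ Gamma0 N) (hγ' : γ' ∈ Gamma0 N)
    (h : ((γ 1 1 : ℤ) : ZMod N) = ((γ' 1 1 : ℤ) : ZMod N)) :
    (f : ℍ → ℂ) ∣[k] γ = (f : ℍ → ℂ) ∣[k] γ' := by
  have hδ0 : γ * γ'⁻¹ ∈ Gamma0 N := (Gamma0 N).mul_mem hγ ((Gamma0 N).inv_mem hγ')
  have hδ : γ * γ'⁻¹ ∈ Gamma1 N := by
    apply mem_Gamma1_of_cast_eq_one hδ0
    have h1 := cast_mul_lower_right (γ' := γ') hδ0
    rw [inv_mul_cancel_right, h] at h1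
    obtain ⟨w, hw⟩ := isUnit_cast_of_mem_Gamma0 hγ'
    rw [← hw] at h1
    have h2 : (((γ * γ'⁻¹) 1 1 : ℤ) : ZMod N) * (w : ZMod N) = 1 * (w : ZMod N) := by
      rw [one_mul]; exact h1.symm
    exact (Units.mul_left_inj w).mp h2
  have hinv : (f : ℍ → ℂ) ∣[k] (γ * γ'⁻¹) = f :=
    SlashInvariantFormClass.slash_action_eq f _ ⟨_, hδ, rfl⟩
  calc (f : ℍ → ℂ) ∣[k] γ = (f : ℍ → ℂ) ∣[k] ((γ * γ'⁻¹) * γ') := by rw [inv_mul_cancel_right]
    _ = ((f : ℍ → ℂ) ∣[k] (γ * γ'⁻¹)) ∣[k] γ' := SlashAction.slash_mul _ _ _ _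
    _ = (f : ℍ → ℂ) ∣[k] γ' := by rw [hinv]

/-! ### Nebentypus components -/

section components

variable [NeZero N] {k : ℤ}

/-- The `χ`-component of `f`, as a function. -/
noncomputable def nebFun (χ : DirichletCharacter ℂ N) (f : CuspForm (Gamma1 N) k) : ℍ → ℂ :=
  (N.totient : ℂ)⁻¹ • ∑ u : (ZMod N)ˣ,
    χ ((u⁻¹ : (ZMod N)ˣ) : ZMod N) • ((f : ℍ → ℂ) ∣[k] dLift u)

lemma slash_dLift_slash (f : CuspForm (Gamma1 N) k) (u v : (ZMod N)ˣ) {γ : SL(2, ℤ)}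
    (hγ : γ ∈ Gamma0 N) (hv : (v : ZMod N) = ((γ 1 1 : ℤ) : ZMod N)) :
    ((f : ℍ → ℂ) ∣[k] dLift u) ∣[k] γ = (f : ℍ → ℂ) ∣[k] dLift (u * v) := by
  rw [← SlashAction.slash_mul]
  apply slash_eq_of_cast_eq f ((Gamma0 N).mul_mem (dLift_mem u) hγ) (dLift_mem _)
  rw [cast_mul_lower_right (dLift_mem u), dLift_cast, dLift_cast, ← hv]
  push_cast
  rfl

lemma nebFun_slash (χ : DirichletCharacter ℂ N) (f : CuspForm (Gamma1 N) k) {γ : SL(2, ℤ)}
    (hγ : γ ∈ Gamma0 N) :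
    nebFun χ f ∣[k] γ = χ ((γ 1 1 : ℤ) : ZMod N) • nebFun χ f := by
  obtain ⟨v, hv⟩ := isUnit_cast_of_mem_Gamma0 hγ
  rw [nebFun, ModularForm.SL_smul_slash, SlashAction.sum_slash, smul_comm]
  congr 1
  simp_rw [ModularForm.SL_smul_slash, slash_dLift_slash f _ v hγ hv]
  rw [Finset.smul_sum]
  refine Fintype.sum_equiv (Equiv.mulRight v) _ _ fun u => ?_
  simp only [Equiv.coe_mulRight, smul_smul]
  congr 1
  rw [← hv, ← map_mul]
  congr 1
  rw [← Units.val_mul]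
  congr 1
  group

lemma sum_nebFun (f : CuspForm (Gamma1 N) k) :
    ∑ χ : DirichletCharacter ℂ N, nebFun χ f = f := by
  simp only [nebFun]
  rw [← Finset.smul_sum, Finset.sum_comm]
  simp_rw [← Finset.sum_smul, DirichletCharacter.sum_characters_eq ℂ]
  rw [Finset.sum_eq_single (1 : (ZMod N)ˣ)]
  · have h1 : (f : ℍ → ℂ) ∣[k] dLift (1 : (ZMod N)ˣ) = f := by
      have hmem : dLift (1 : (ZMod N)ˣ) ∈ Gamma1 N :=
        mem_Gamma1_of_cast_eq_one (dLift_mem 1) (by rw [dLift_cast]; simp)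
      exact SlashInvariantFormClass.slash_action_eq f _ ⟨_, hmem, rfl⟩
    have hφ : (N.totient : ℂ) ≠ 0 :=
      Nat.cast_ne_zero.mpr (Nat.totient_pos.mpr (NeZero.pos N)).ne'
    simp only [inv_one, Units.val_one, if_true, h1]
    rw [smul_smul, inv_mul_cancel₀ hφ, one_smul]
  · intro u _ hu
    have : ¬ (((u⁻¹ : (ZMod N)ˣ) : ZMod N) = 1) := by
      intro h
      apply hu
      have h2 : u⁻¹ = 1 := Units.ext (by simpa using h)
      simpa using h2
    rw [if_neg this, zero_smul]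
  · intro h
    exact absurd (Finset.mem_univ _) h

lemma mdiff_finset_sum {ι : Type*} (s : Finset ι) (F : ι → ℍ → ℂ) (h : ∀ i ∈ s, MDiff (F i)) :
    MDiff (∑ i ∈ s, F i) := by
  classical
  induction s using Finset.induction_on with
  | empty =>
    simp only [Finset.sum_empty]
    exact (mdifferentiable_const : MDiff (fun _ : ℍ => (0 : ℂ)))
  | insert a s ha ih =>
    rw [Finset.sum_insert ha]
    exact (h a (Finset.mem_insert_self a s)).add
      (ih fun i hi => h i (Finset.mem_insert_of_mem hi))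

lemma isZeroAtImInfty_finset_sum {ι : Type*} (s : Finset ι) (F : ι → ℍ → ℂ)
    (h : ∀ i ∈ s, IsZeroAtImInfty (F i)) : IsZeroAtImInfty (∑ i ∈ s, F i) := by
  classical
  induction s using Finset.induction_on with
  | empty =>
    simp only [Finset.sum_empty]
    exact Filter.zero_zeroAtFilter _
  | insert a s ha ih =>
    rw [Finset.sum_insert ha]
    exact (h a (Finset.mem_insert_self a s)).add
      (ih fun i hi => h i (Finset.mem_insert_of_mem hi))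

lemma nebFun_mdiff (χ : DirichletCharacter ℂ N) (f : CuspForm (Gamma1 N) k) :
    MDiff (nebFun χ f) := by
  refine (mdiff_finset_sum _ _ fun u _ => ?_).const_smul _
  exact ((CuspFormClass.holo f).slash k (dLift u : GL (Fin 2) ℝ)).const_smul _

lemma nebFun_zero (χ : DirichletCharacter ℂ N) (f : CuspForm (Gamma1 N) k) (δ : SL(2, ℤ)) :
    IsZeroAtImInfty (nebFun χ f ∣[k] δ) := by
  rw [nebFun, ModularForm.SL_smul_slash, SlashAction.sum_slash]
  refine Filter.ZeroAtFilter.smul _ (isZeroAtImInfty_finset_sum _ _ fun u _ => ?_)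
  rw [ModularForm.SL_smul_slash, ← SlashAction.slash_mul]
  exact Filter.ZeroAtFilter.smul _ (isZeroAtImInfty_slash_cuspForm f _)

/-- The `χ`-component of `f` as a cusp form. -/
noncomputable def nebCusp (χ : DirichletCharacter ℂ N) (f : CuspForm (Gamma1 N) k) :
    CuspForm (Gamma1 N) k :=
  mkCuspGamma1 N k (nebFun χ f) (nebFun_mdiff χ f)
    (fun γ hγ => by
      have hd : ((γ 1 1 : ℤ) : ZMod N) = 1 := ((Gamma1_mem N γ).mp hγ).2.1
      rw [nebFun_slash χ f (Gamma1_in_Gamma0 N hγ), hd, map_one, one_smul])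
    (nebFun_zero χ f)

@[simp] lemma coe_nebCusp (χ : DirichletCharacter ℂ N) (f : CuspForm (Gamma1 N) k) :
    (nebCusp χ f : ℍ → ℂ) = nebFun χ f := rfl

end components

/-- **CONJ for `Γ₁(N)`, weight one**: coefficientwise conjugates of cusp forms are cusp forms. -/
theorem conj_Gamma1 (N : ℕ) [NeZero N] (f : CuspForm (Gamma1 N) 1) (σ : ℂ ≃+* ℂ) :
    ∃ g : CuspForm (Gamma1 N) 1, ∀ n : ℕ,
      ModularFormClass.qCoeff g n = σ (ModularFormClass.qCoeff f n) := by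
  classical
  choose g _ hg2 using fun χ : DirichletCharacter ℂ N =>
    conj_of_nebentypus χ (nebCusp χ f) (fun γ hγ => nebFun_slash χ f hγ) σ
  refine ⟨∑ χ, g χ, fun n => ?_⟩
  have hcoe : (⇑(∑ χ, g χ) : ℍ → ℂ) = ∑ χ, (g χ : ℍ → ℂ) := by
    ext z
    simp
  have e1 : qExpansion 1 (⇑(∑ χ, g χ) : ℍ → ℂ) = ∑ χ, qExpansion 1 (g χ : ℍ → ℂ) := by
    rw [hcoe]
    exact Nice.qExp_sum _ (fun χ _ => nice_cuspGamma1 (g χ))
  have e2 : qExpansion 1 (f : ℍ → ℂ) = ∑ χ : DirichletCharacter ℂ N, qExpansion 1 (nebFun χ f) := by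
    conv_lhs => rw [← sum_nebFun f]
    exact Nice.qExp_sum _ (fun χ _ => nice_cuspGamma1 (nebCusp χ f))
  simp only [ModularFormClass.qCoeff]
  rw [e1, e2, map_sum, map_sum, map_sum]
  exact Finset.sum_congr rfl fun χ _ => hg2 χ n

/-- The Spec Prop `Stmt_Conj1`. -/
theorem stmt_Conj1 : Fermat.Agent.S48.helper8231.Stmt_Conj1 :=
  fun N _ f σ => conj_Gamma1 N f σ

end Fermat.Agent.S48.helper9289
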