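import Mathlib
import Fermat.Agent.S48.helper8231_Spec

/-!
# S48: assembly of `Stmt_Arith` (captain's Spec Part I)

Owner: helper9584.  `stmt_Arith_of : Stmt_Conj1 → Stmt_IntCoeff → Stmt_RankinOne → Stmt_Arith`.

* integrality of all `q`-coefficients of a depleted eigenform: strong induction with the Hecke
  relations, from the integrality of the `a_p`, `p ∤ N` (`Stmt_IntCoeff`);
* `RankinFamily`: the number field `K` of `Stmt_IntCoeff` has finitely many embeddings, so finitely
  many automorphisms `σ i` of `ℂ` represent all restrictions to `K`; the conjugate forms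
  (`Stmt_Conj1`) are again eigenforms (for the conjugate character), and `Stmt_RankinOne` applies
  to each of them.  No independence of eigensystems is needed.
-/

set_option autoImplicit false

namespace Fermat.Agent.S48.helper9584

open ModularFormClass CongruenceSubgroup Fermat.Agent.S48.helper8231

/-- Finitely many automorphisms of `ℂ` represent all restrictions of automorphisms to a number
field `K ⊆ ℂ`. -/
theorem exists_conj_reps (K : IntermediateField ℚ ℂ) [FiniteDimensional ℚ K] :
    ∃ (n : ℕ) (σ : Fin n → ℂ ≃+* ℂ), ∀ τ : ℂ ≃+* ℂ, ∃ i : Fin n, ∀ x : ℂ, x ∈ K → τ x = σ i x := by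
  classical
  have : NumberField K := { to_charZero := inferInstance, to_finiteDimensional := inferInstance }
  let res : (ℂ ≃+* ℂ) → (K →+* ℂ) := fun τ => (τ : ℂ →+* ℂ).comp (algebraMap K ℂ)
  have hfin : Finite (Set.range res) := Set.Finite.to_subtype (Set.toFinite _)
  obtain ⟨n, ⟨e⟩⟩ := Finite.exists_equiv_fin (Set.range res)
  have hch : ∀ r : Set.range res, ∃ τ : ℂ ≃+* ℂ, res τ = r.1 := fun r => r.2
  choose pick hpick using hch
  refine ⟨n, fun i => pick (e.symm i), fun τ => ⟨e ⟨res τ, τ, rfl⟩, fun x hx => ?_⟩⟩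
  have h1 : res (pick (e.symm (e ⟨res τ, τ, rfl⟩))) = res τ := by
    rw [Equiv.symm_apply_apply]; exact hpick _
  have h2 := congrArg (fun φ : K →+* ℂ => φ ⟨x, hx⟩) h1
  exact h2.symm

/-- The coefficientwise conjugate of a weight-one eigenform is an eigenform for the conjugate
character. -/
theorem isWt1Eigen_conj (N : ℕ) [NeZero N] (ε : DirichletCharacter ℂ N)
    (f g : CuspForm (Gamma1 N) 1) (h : IsWt1Eigen N ε f) (σ : ℂ ≃+* ℂ)
    (hg : ∀ n : ℕ, qCoeff g n = σ (qCoeff f n)) :
    IsWt1Eigen N (ε.ringHomComp (σ : ℂ →+* ℂ)) g := by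
  obtain ⟨hf₁, hT⟩ := h
  refine ⟨by rw [hg, hf₁, map_one], ?_⟩
  intro p hp hpN n
  have h := congrArg σ (hT p hp hpN n)
  rw [map_add, map_mul, map_mul, apply_ite σ, map_zero] at h
  rw [hg, hg, hg, hg, MulChar.ringHomComp_apply]
  exact h

/-- For a depleted weight-one eigenform with `1 < N`, integrality of the eigenvalues `a_p`,
`p ∤ N`, implies integrality of all `q`-coefficients. -/
theorem isIntegral_qCoeff_of_depleted (N : ℕ) [NeZero N] (ε : DirichletCharacter ℂ N)
    (f : CuspForm (Gamma1 N) 1) (h : IsWt1Eigen N ε f) (hN : 1 < N) (hdep : IsDepleted N f)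
    (hp : ∀ p : ℕ, p.Prime → ¬ p ∣ N → IsIntegral ℤ (qCoeff f p)) :
    ∀ n : ℕ, IsIntegral ℤ (qCoeff f n) := by
  obtain ⟨hf₁, hT⟩ := h
  intro n
  induction n using Nat.strong_induction_on with
  | _ n ih =>
    by_cases hc : Nat.Coprime n N
    · by_cases hn1 : n = 1
      · rw [hn1, hf₁]; exact isIntegral_one
      · -- a prime factor `p` of `n`; it does not divide `N`
        obtain ⟨p, hpp, hpn⟩ := Nat.exists_prime_and_dvd hn1
        have hpN : ¬ p ∣ N := by
          intro hdvd
          have := Nat.Coprime.eq_one_of_dvd (Nat.Coprime.coprime_dvd_left hpn hc) hdvd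
          exact hpp.one_lt.ne' this
        obtain ⟨m, rfl⟩ := hpn
        have hn0 : p * m ≠ 0 := by
          rintro h0
          rw [h0, Nat.coprime_zero_left] at hc
          omega
        have hm0 : m ≠ 0 := fun h0 => hn0 (by rw [h0, mul_zero])
        have hmlt : m < p * m := by
          have := hpp.one_lt
          nlinarith [Nat.pos_of_ne_zero hm0]
        have hrel := hT p hpp hpN m
        have hεint : IsIntegral ℤ (ε (p : ZMod N)) := isIntegral_dirichlet N ε _
        have hmain : qCoeff f (p * m) = qCoeff f p * qCoeff f m -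
            ε (p : ZMod N) * (if p ∣ m then qCoeff f (m / p) else 0) := by
          rw [← hrel]; ring
        rw [hmain]
        refine IsIntegral.sub (IsIntegral.mul (hp p hpp hpN) (ih m hmlt)) ?_
        refine IsIntegral.mul hεint ?_
        split_ifs with hpm
        · exact ih _ (lt_of_le_of_lt (Nat.div_le_self m p) hmlt)
        · exact isIntegral_zero
    · rw [hdep n hc]; exact isIntegral_zero

/-- **Assembly of `Stmt_Arith`** from conjugate forms (F1), the coefficient field (F1-INT) and
Rankin's bound for one eigenform (F4). -/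
theorem stmt_Arith_of (hC : Stmt_Conj1) (hI : Stmt_IntCoeff) (hR : Stmt_RankinOne) :
    Stmt_Arith := by
  intro N _ ε f h h5 hdep
  obtain ⟨hint, K, hK, hKa⟩ := hI N ε f h
  refine ⟨isIntegral_qCoeff_of_depleted N ε f h (by omega) hdep hint, ?_⟩
  obtain ⟨n, σ, hσ⟩ := exists_conj_reps K
  -- the conjugate forms and their Rankin constants
  choose g hg using fun i : Fin n => hC N f (σ i)
  choose Ci hCi using fun i : Fin n =>
    hR N (ε.ringHomComp ((σ i : ℂ ≃+* ℂ) : ℂ →+* ℂ)) (g i) (isWt1Eigen_conj N ε f (g i) h (σ i) (hg i))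
  refine ⟨n, fun i p => σ i (qCoeff f p), ∑ i, |Ci i|, fun τ => ?_, fun i P hP s hs hs2 => ?_⟩
  · obtain ⟨i, hi⟩ := hσ τ
    exact ⟨i, fun p hp hpN => hi _ (hKa p hp hpN)⟩
  · have h1 := hCi i P hP s hs hs2
    simp only [hg] at h1
    have h2 : Ci i ≤ |Ci i| := le_abs_self _
    have h3 : |Ci i| ≤ ∑ j, |Ci j| :=
      Finset.single_le_sum (f := fun j => |Ci j|) (fun j _ => abs_nonneg _) (Finset.mem_univ i)
    linarith

end Fermat.Agent.S48.helper9584
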