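import Mathlib
import Fermat.Agent.S48.helper8231_Spec
import Fermat.Agent.S48.helper9584_Arith
import Fermat.Agent.S48.helper9289_ConjGamma1
import Fermat.Agent.S48.helper7414_IntCoeff
import Fermat.Agent.S48.helper7426_RankinStmt

/-!
# S48: `Stmt_Arith` is a theorem

Owner: helper9584.  `stmt_Arith : Stmt_Arith`, from the landed `stmt_Conj1` (helper9289),
`stmt_IntCoeff` (helper7414), `stmt_RankinOne` (helper7426) and the assembly `stmt_Arith_of`.
-/

set_option autoImplicit false

namespace Fermat.Agent.S48.helper9584

/-- **`Stmt_Arith`** of the Spec: integrality of all coefficients of a depleted weight-one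
eigenform and the Rankin bound for a finite family containing all its conjugates. -/
theorem stmt_Arith : Fermat.Agent.S48.helper8231.Stmt_Arith :=
  stmt_Arith_of Fermat.Agent.S48.helper9289.stmt_Conj1 Fermat.Agent.S48.helper7414.stmt_IntCoeff
    Fermat.Agent.S48.helper7426.stmt_RankinOne

end Fermat.Agent.S48.helper9584
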