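import Mathlib

/-!
# `Aut ℂ` and algebraic numbers (S48, owner helper9584)

From the fixed-field statement `FF` (landed as `Fermat.Agent.S23.helper206.stmt_FF`, passed here as
a hypothesis): `Aut ℂ` is transitive on the roots of a minimal polynomial over `ℚ`; every
embedding of a number field `K ⊆ ℂ` is induced by an automorphism of `ℂ`; Northcott's finiteness
for algebraic integers of bounded degree all of whose `Aut ℂ`-conjugates are bounded.
-/

set_option autoImplicit false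

namespace Fermat.Agent.S48.helper9584

open Polynomial

/-- A ring automorphism of `ℂ` as a `ℚ`-algebra homomorphism. -/
noncomputable def autRatAlgHom (σ : ℂ ≃+* ℂ) : ℂ →ₐ[ℚ] ℂ := (σ : ℂ →+* ℂ).toRatAlgHom

@[simp] theorem autRatAlgHom_apply (σ : ℂ ≃+* ℂ) (x : ℂ) : autRatAlgHom σ x = σ x := rfl

/-- **Transitivity of `Aut ℂ` on conjugates**, from the fixed-field statement: if `x` is algebraic
over `ℚ` and `y` is a root of its minimal polynomial, some ring automorphism of `ℂ` sends `x`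
to `y`. -/
theorem exists_ringEquiv_of_root
    (FF : ∀ c : ℂ, (∀ σ : ℂ ≃+* ℂ, σ c = c) → ∃ r : ℚ, (r : ℂ) = c)
    {x y : ℂ} (hx : IsAlgebraic ℚ x) (hy : aeval y (minpoly ℚ x) = 0) :
    ∃ σ : ℂ ≃+* ℂ, σ x = y := by
  classical
  have hxi : IsIntegral ℚ x := hx.isIntegral
  set O : Set ℂ := {z | ∃ σ : ℂ ≃+* ℂ, σ x = z} with hO
  have hOsub : O ⊆ (minpoly ℚ x).rootSet ℂ := by
    rintro z ⟨σ, rfl⟩
    rw [Polynomial.mem_rootSet]
    refine ⟨minpoly.ne_zero hxi, ?_⟩
    have := Polynomial.aeval_algHom_apply (autRatAlgHom σ) x (minpoly ℚ x)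
    rw [autRatAlgHom_apply] at this
    rw [this, minpoly.aeval, map_zero]
  have hOfin : O.Finite := (Polynomial.rootSet_finite (minpoly ℚ x) ℂ).subset hOsub
  set s : Finset ℂ := hOfin.toFinset with hs
  have hmem : ∀ z, z ∈ s ↔ ∃ σ : ℂ ≃+* ℂ, σ x = z := fun z => by
    rw [hs, Set.Finite.mem_toFinset]; rfl
  set P : ℂ[X] := ∏ z ∈ s, (X - C z) with hP
  -- `P` is fixed by every automorphism
  have hPfix : ∀ σ : ℂ ≃+* ℂ, P.map (σ : ℂ →+* ℂ) = P := by
    intro σ
    have himg : s.image (σ : ℂ → ℂ) = s := by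
      ext w
      rw [Finset.mem_image]
      constructor
      · rintro ⟨z, hz, rfl⟩
        obtain ⟨τ, rfl⟩ := (hmem z).1 hz
        exact (hmem _).2 ⟨τ.trans σ, rfl⟩
      · intro hw
        obtain ⟨τ, rfl⟩ := (hmem w).1 hw
        exact ⟨σ.symm (τ x), (hmem _).2 ⟨τ.trans σ.symm, rfl⟩, by simp⟩
    rw [hP, Polynomial.map_prod]
    have h1 : ∀ z ∈ s, (X - C z).map (σ : ℂ →+* ℂ) = X - C (σ z) := by
      intro z _
      simp
    rw [Finset.prod_congr rfl h1]
    conv_rhs => rw [← himg]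
    rw [Finset.prod_image]
    intro a _ b _ hab
    exact σ.injective hab
  have hlift : P ∈ Polynomial.lifts (algebraMap ℚ ℂ) := by
    rw [Polynomial.lifts_iff_coeff_lifts]
    intro n
    have : ∀ σ : ℂ ≃+* ℂ, σ (P.coeff n) = P.coeff n := by
      intro σ
      have h := congrArg (fun p => p.coeff n) (hPfix σ)
      simpa [Polynomial.coeff_map] using h
    obtain ⟨r, hr⟩ := FF _ this
    exact ⟨r, by simpa using hr⟩
  obtain ⟨Q, hQ'⟩ := hlift
  have hQ : Q.map (algebraMap ℚ ℂ) = P := hQ'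
  have hxs : x ∈ s := (hmem x).2 ⟨RingEquiv.refl ℂ, rfl⟩
  have hPx : P.eval x = 0 := by
    rw [hP, Polynomial.eval_prod]
    exact Finset.prod_eq_zero hxs (by simp)
  have hQx : aeval x Q = 0 := by
    rw [Polynomial.aeval_def, Polynomial.eval₂_eq_eval_map, hQ, hPx]
  obtain ⟨R, hR⟩ := minpoly.dvd ℚ x hQx
  have hQy : aeval y Q = 0 := by
    rw [hR, map_mul, hy, zero_mul]
  have hPy : P.eval y = 0 := by
    rw [← hQ, ← Polynomial.eval₂_eq_eval_map, ← Polynomial.aeval_def, hQy]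
  rw [hP, Polynomial.eval_prod, Finset.prod_eq_zero_iff] at hPy
  obtain ⟨z, hz, hyz⟩ := hPy
  have hyz' : y = z := by
    simpa [sub_eq_zero] using hyz
  obtain ⟨σ, hσ⟩ := (hmem z).1 hz
  exact ⟨σ, by rw [hσ, hyz']⟩

/-- **Extension of embeddings**: every ring embedding of a number field `K ⊆ ℂ` into `ℂ` is the
restriction of a ring automorphism of `ℂ`. -/
theorem exists_ringEquiv_extending
    (FF : ∀ c : ℂ, (∀ σ : ℂ ≃+* ℂ, σ c = c) → ∃ r : ℚ, (r : ℂ) = c)
    (K : IntermediateField ℚ ℂ) [FiniteDimensional ℚ K] (φ : K →+* ℂ) :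
    ∃ σ : ℂ ≃+* ℂ, ∀ x : K, σ (x : ℂ) = φ x := by
  classical
  obtain ⟨θ, hθ⟩ := Field.exists_primitive_element ℚ K
  have hθi : IsIntegral ℚ θ := Algebra.IsIntegral.isIntegral θ
  have hθalg : IsAlgebraic ℚ (θ : ℂ) :=
    IntermediateField.isAlgebraic_iff.1 hθi.isAlgebraic
  set φ' : K →ₐ[ℚ] ℂ := φ.toRatAlgHom with hφ'
  have hy : aeval (φ θ) (minpoly ℚ (θ : ℂ)) = 0 := by
    rw [← IntermediateField.minpoly_eq]
    have h3 := Polynomial.aeval_algHom_apply φ' θ (minpoly ℚ θ)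
    have h2 : φ' θ = φ θ := rfl
    rw [h2] at h3
    refine h3.trans ?_
    rw [minpoly.aeval, map_zero]
  obtain ⟨σ, hσ⟩ := exists_ringEquiv_of_root FF hθalg hy
  refine ⟨σ, ?_⟩
  set ψ : K →ₐ[ℚ] ℂ := (autRatAlgHom σ).comp K.val with hψ
  have htop : Algebra.adjoin ℚ ({θ} : Set K) = ⊤ := by
    rw [← IntermediateField.adjoin_simple_toSubalgebra_of_isAlgebraic hθi.isAlgebraic, hθ]
    rfl
  have heq : ψ = φ' := by
    refine AlgHom.ext_of_adjoin_eq_top htop ?_
    intro z hz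
    rw [Set.mem_singleton_iff] at hz
    subst hz
    exact hσ
  intro x
  have := congrArg (fun f : K →ₐ[ℚ] ℂ => f x) heq
  exact this

/-- **Northcott in `ℂ`**: the algebraic integers of degree at most `n` all of whose
`Aut ℂ`-conjugates have norm at most `B` form a finite set. -/
theorem finite_isIntegral_conj_le
    (FF : ∀ c : ℂ, (∀ σ : ℂ ≃+* ℂ, σ c = c) → ∃ r : ℚ, (r : ℂ) = c) (n : ℕ) (B : ℝ) :
    {x : ℂ | IsIntegral ℤ x ∧ (minpoly ℚ x).natDegree ≤ n ∧
      ∀ τ : ℂ ≃+* ℂ, ‖τ x‖ ≤ B}.Finite := by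
  classical
  let C := Nat.ceil (max B 1 ^ n * (n.choose (n / 2) : ℝ))
  have hU := Polynomial.bUnion_roots_finite (algebraMap ℤ ℂ) n (Set.finite_Icc (-C : ℤ) C)
  refine hU.subset fun x hx => ?_
  simp_rw [Set.mem_iUnion]
  obtain ⟨hxint, hdeg, hbd⟩ := hx
  have hxQ : IsIntegral ℚ x := hxint.tower_top
  have h_map := minpoly.isIntegrallyClosed_eq_field_fractions' ℚ hxint
  refine ⟨minpoly ℤ x, ⟨?_, fun i => ?_⟩, ?_⟩
  · rw [← (minpoly.monic hxint).natDegree_map (algebraMap ℤ ℚ), ← h_map]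
    exact hdeg
  · rw [Set.mem_Icc, ← abs_le, ← @Int.cast_le ℝ]
    have hb : ‖((minpoly ℚ x).map (algebraMap ℚ ℂ)).coeff i‖ ≤
        max B 1 ^ n * (n.choose (n / 2) : ℝ) := by
      refine Polynomial.coeff_bdd_of_roots_le (algebraMap ℚ ℂ) (minpoly.monic hxQ)
        (IsAlgClosed.splits _) hdeg (fun z hz => ?_) i
      have hz0 : aeval z (minpoly ℚ x) = 0 := by
        have := (Polynomial.mem_roots (Polynomial.map_ne_zero (minpoly.ne_zero hxQ))).1 hz
        rw [Polynomial.aeval_def, Polynomial.eval₂_eq_eval_map]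
        exact this
      obtain ⟨τ, rfl⟩ := exists_ringEquiv_of_root FF hxQ.isAlgebraic hz0
      exact hbd τ
    refine (Eq.trans_le ?_ hb).trans (Nat.le_ceil _)
    rw [h_map, Polynomial.coeff_map, Polynomial.coeff_map, eq_intCast, eq_ratCast,
      Rat.cast_intCast, Complex.norm_intCast, Int.cast_abs]
  · rw [Finset.mem_coe, Multiset.mem_toFinset,
      Polynomial.mem_roots ((minpoly.monic hxint).map (algebraMap ℤ ℂ)).ne_zero,
      Polynomial.IsRoot.def, ← Polynomial.eval₂_eq_eval_map, ← Polynomial.aeval_def]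
    exact minpoly.aeval ℤ x

end Fermat.Agent.S48.helper9584
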