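import Mathlib
import Fermat.Agent.S48.helper8231_Spec
import Fermat.Agent.S23.helper206_FixedField
import Fermat.Agent.S48.helper9584_AutC

/-!
# S48: `Stmt_FiniteValues` (captain's Spec Part I), number-field-free proof

Owner of this copy: helper9584 (named backup).  From `RankinFamily N a` (finitely many sequences
`b i` containing every `Aut ℂ`-conjugate of `(a p)`, each with the logarithmic Rankin bound) and
the integrality of the `a p`:

* every `a p` has at most `n` conjugates, so its degree is at most `n`;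
* if all `‖b i p‖² < c` then `a p` lies in the finite Northcott set `Y` (degree `≤ n`, conjugates
  `≤ √c`);
* the primes with `c ≤ ‖b i p‖²` for some `i` have upper density `≤ n / log (1 + c)` by the
  Rankin bound and `t log (1 + c) ≤ log (1 + c t)` for `0 ≤ t ≤ 1`.
-/

set_option autoImplicit false

namespace Fermat.Agent.S48.helper9584

open Polynomial Fermat.Agent.S48.helper8231

/-- Concavity of `log`: `t * log (1 + c) ≤ log (1 + β * t)` for `0 ≤ t ≤ 1`, `0 < c ≤ β`. -/
theorem mul_log_le_log_one_add {c β t : ℝ} (hc : 0 < c) (hβ : c ≤ β) (ht0 : 0 ≤ t) (ht1 : t ≤ 1) :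
    t * Real.log (1 + c) ≤ Real.log (1 + β * t) := by
  have h1 : (1 + c) ^ t ≤ 1 + t * c :=
    rpow_one_add_le_one_add_mul_self (by linarith) ht0 ht1
  have h2 : 0 < (1 + c) ^ t := Real.rpow_pos_of_pos (by linarith) t
  have h3 : Real.log ((1 + c) ^ t) ≤ Real.log (1 + t * c) := Real.log_le_log h2 h1
  rw [Real.log_rpow (by linarith)] at h3
  refine h3.trans (Real.log_le_log (by positivity) ?_)
  have : t * c ≤ β * t := by
    rw [mul_comm β t]
    exact mul_le_mul_of_nonneg_left hβ ht0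
  linarith

/-- The degree of an algebraic number is bounded by the number of its `Aut ℂ`-conjugates. -/
theorem natDegree_minpoly_le_of_conj
    (FF : ∀ c : ℂ, (∀ σ : ℂ ≃+* ℂ, σ c = c) → ∃ r : ℚ, (r : ℂ) = c)
    {x : ℂ} (hx : IsIntegral ℚ x) (n : ℕ) (v : Fin n → ℂ)
    (hv : ∀ τ : ℂ ≃+* ℂ, ∃ i : Fin n, τ x = v i) : (minpoly ℚ x).natDegree ≤ n := by
  classical
  have hsep : (minpoly ℚ x).Separable := (minpoly.irreducible hx).separable
  have hcard := Polynomial.card_rootSet_eq_natDegree (K := ℂ) hsep (IsAlgClosed.splits _)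
  rw [← hcard, ← Set.toFinset_card]
  have hsub : ((minpoly ℚ x).rootSet ℂ).toFinset ⊆ Finset.univ.image v := by
    intro z hz
    rw [Set.mem_toFinset, Polynomial.mem_rootSet] at hz
    obtain ⟨τ, rfl⟩ := exists_ringEquiv_of_root FF hx.isAlgebraic hz.2
    obtain ⟨i, hi⟩ := hv τ
    exact Finset.mem_image.2 ⟨i, Finset.mem_univ i, hi.symm⟩
  calc ((minpoly ℚ x).rootSet ℂ).toFinset.card ≤ (Finset.univ.image v).card :=
        Finset.card_le_card hsub
    _ ≤ (Finset.univ : Finset (Fin n)).card := Finset.card_image_le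
    _ = n := by simp

/-- **`Stmt_FiniteValues`** of the Spec. -/
theorem stmt_FiniteValues : Stmt_FiniteValues := by
  classical
  intro N a hint hrank e he
  obtain ⟨n, b, C, hb, hR⟩ := hrank
  have FF := Fermat.Agent.S23.helper206.stmt_FF
  set r : ℝ := (n : ℝ) with hr
  have hr0 : 0 ≤ r := Nat.cast_nonneg n
  set c : ℝ := Real.exp (r / e) with hc
  have hcpos : 0 < c := Real.exp_pos _
  set B : ℝ := Real.sqrt c with hB
  have hBsq : B ^ 2 = c := Real.sq_sqrt hcpos.le
  have hB0 : 0 ≤ B := Real.sqrt_nonneg c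
  have hlogpos : 0 < Real.log (1 + c) := Real.log_pos (by linarith)
  have hlog : r / e ≤ Real.log (1 + c) := by
    have h1 : Real.log c = r / e := by rw [hc, Real.log_exp]
    rw [← h1]
    exact Real.log_le_log hcpos (by linarith)
  have hre : r / Real.log (1 + c) ≤ e := by
    rw [div_le_iff₀ hlogpos]
    have := mul_le_mul_of_nonneg_left hlog he.le
    rw [mul_div_cancel₀ _ he.ne'] at this
    exact this
  have hfin := finite_isIntegral_conj_le FF n B
  refine ⟨hfin.toFinset, r * |C| / Real.log (1 + c), fun y hy => ?_, fun P hP s hs hs2 => ?_⟩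
  · rw [Set.Finite.mem_toFinset] at hy
    exact hy.1
  -- for `p ∈ P` some `b i p` is large
  have hlarge : ∀ p ∈ P, ∃ i : Fin n, c ≤ ‖b i p‖ ^ 2 := by
    intro p hp
    obtain ⟨hpp, hpN, hpY⟩ := hP p hp
    have hpint : IsIntegral ℤ (a p) := hint p hpp hpN
    have hdeg : (minpoly ℚ (a p)).natDegree ≤ n := by
      refine natDegree_minpoly_le_of_conj FF hpint.tower_top n (fun i => b i p) (fun τ => ?_)
      obtain ⟨i, hi⟩ := hb τ
      exact ⟨i, hi p hpp hpN⟩
    have hex : ∃ τ : ℂ ≃+* ℂ, B < ‖τ (a p)‖ := by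
      by_contra hcon
      push Not at hcon
      apply hpY
      rw [Set.Finite.mem_toFinset]
      exact ⟨hpint, hdeg, hcon⟩
    obtain ⟨τ, hτ⟩ := hex
    obtain ⟨i, hi⟩ := hb τ
    refine ⟨i, ?_⟩
    rw [← hi p hpp hpN, ← hBsq]
    exact pow_le_pow_left₀ hB0 hτ.le 2
  have hL0 : 0 ≤ Real.log (1 / (s - 1)) := by
    refine Real.log_nonneg ?_
    rw [le_div_iff₀ (by linarith)]
    linarith
  -- weights
  have hw0 : ∀ p : ℕ, 0 ≤ (p : ℝ) ^ (-s) := fun p => Real.rpow_nonneg (Nat.cast_nonneg p) _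
  have hw1 : ∀ p ∈ P, (p : ℝ) ^ (-s) ≤ 1 := by
    intro p hp
    have h1 : (1 : ℝ) ≤ p := by exact_mod_cast (hP p hp).1.one_le
    exact Real.rpow_le_one_of_one_le_of_nonpos h1 (by linarith)
  -- the bound for one index `i`
  have hone : ∀ i : Fin n, ∑ p ∈ P.filter (fun p => c ≤ ‖b i p‖ ^ 2), (p : ℝ) ^ (-s) ≤
      (Real.log (1 / (s - 1)) + C) / Real.log (1 + c) := by
    intro i
    rw [le_div_iff₀ hlogpos, Finset.sum_mul]
    have hsubP : ∀ p ∈ P.filter (fun p => c ≤ ‖b i p‖ ^ 2), p.Prime ∧ ¬ p ∣ N := fun p hp =>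
      ⟨(hP p (Finset.mem_filter.1 hp).1).1, (hP p (Finset.mem_filter.1 hp).1).2.1⟩
    refine le_trans (Finset.sum_le_sum fun p hp => ?_) (hR i _ hsubP s hs hs2)
    obtain ⟨hpP, hpc⟩ := Finset.mem_filter.1 hp
    exact mul_log_le_log_one_add hcpos hpc (hw0 p) (hw1 p hpP)
  calc ∑ p ∈ P, (p : ℝ) ^ (-s)
      ≤ ∑ p ∈ P, ∑ i : Fin n, (if c ≤ ‖b i p‖ ^ 2 then (p : ℝ) ^ (-s) else 0) := by
        refine Finset.sum_le_sum fun p hp => ?_
        obtain ⟨i, hi⟩ := hlarge p hp
        have hnn : ∀ j ∈ (Finset.univ : Finset (Fin n)),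
            0 ≤ (if c ≤ ‖b j p‖ ^ 2 then (p : ℝ) ^ (-s) else 0) := by
          intro j _
          split_ifs
          · exact hw0 p
          · exact le_rfl
        have h1 := Finset.single_le_sum hnn (Finset.mem_univ i)
        rw [if_pos hi] at h1
        exact h1
    _ = ∑ i : Fin n, ∑ p ∈ P.filter (fun p => c ≤ ‖b i p‖ ^ 2), (p : ℝ) ^ (-s) := by
        rw [Finset.sum_comm]
        refine Finset.sum_congr rfl (fun i _ => ?_)
        rw [Finset.sum_filter]
    _ ≤ ∑ _i : Fin n, (Real.log (1 / (s - 1)) + C) / Real.log (1 + c) :=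
        Finset.sum_le_sum (fun i _ => hone i)
    _ = r / Real.log (1 + c) * Real.log (1 / (s - 1)) + r * C / Real.log (1 + c) := by
        rw [Finset.sum_const, Finset.card_univ, Fintype.card_fin, nsmul_eq_mul, hr]
        ring
    _ ≤ e * Real.log (1 / (s - 1)) + r * |C| / Real.log (1 + c) := by
        have h1 := mul_le_mul_of_nonneg_right hre hL0
        have h2 : r * C / Real.log (1 + c) ≤ r * |C| / Real.log (1 + c) := by
          apply div_le_div_of_nonneg_right _ hlogpos.le
          exact mul_le_mul_of_nonneg_left (le_abs_self C) hr0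
        linarith

end Fermat.Agent.S48.helper9584
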