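import Fermat.Agent.S48.helper9793_EisensteinOne
import Fermat.Agent.S48.helper6076_EisW

/-!
# S48-F2: the weight-one Eisenstein series `E ≡ 1 mod λ` on `Γ₁(l)` — unconditional statements

`helper9793_EisensteinOne` proves the consumer forms of F2 from the analytic leaf `Stmt_EisW l`;
`helper6076_EisW` proves that leaf.  This file combines them.

Main statements, for a prime `l ≥ 5` and a Dirichlet character `ω` mod `l`:

* `eisOne_int`, `eisOne` : there is `E : ModularForm (Gamma1 l) 1` with nebentypus `ω⁻¹` on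
  `Γ₀(l)` whose `q`-coefficients lie in the finitely generated `ℤ`-module
  `eisRing l ω = ℤ[ζ_l, ω]`, such that for every valuation subring `R` of `ℂ` with `l ∈ 𝔪_R` and
  `ω d ≡ d mod 𝔪_R` one has `a₀(E) ≡ 1`, `aₙ(E) ≡ 0` (`n ≥ 1`) modulo `𝔪_R`;
* `eisOne_of_subring` : the same for an arbitrary subring `O ⊆ ℂ` and ideal `lam` of `O`.
-/

set_option autoImplicit false

open CongruenceSubgroup UpperHalfPlane
open scoped MatrixGroups ModularForm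

namespace Fermat.Agent.S48.helper9793

/-- The analytic leaf of F2 (proved by `helper6076`). -/
theorem stmt_EisW (l : ℕ) [hl : Fact l.Prime] (hl5 : 5 ≤ l) : Stmt_EisW l :=
  Fermat.Agent.S48.helper6076.stmt_EisW l hl.out hl5

/-- **F2 (subring form), unconditional.** -/
theorem eisOne_of_subring {l : ℕ} [hl : Fact l.Prime] (hl5 : 5 ≤ l)
    (ω : DirichletCharacter ℂ l) :
    ∃ E : ModularForm (Gamma1 l) 1,
      (∀ γ : SL(2, ℤ), γ ∈ Gamma0 l →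
        (⇑E : ℍ → ℂ) ∣[(1 : ℤ)] γ = (ω⁻¹ ((γ 1 1 : ℤ) : ZMod l)) • (⇑E : ℍ → ℂ)) ∧
      ∀ (O : Subring ℂ) (hζO : zetaL l ∈ O) (lam : Ideal O)
        (_ : (⟨1 - zetaL l, O.sub_mem O.one_mem hζO⟩ : O) ∈ lam)
        (hωO : ∀ d : (ZMod l)ˣ, ω (d : ZMod l) ∈ O)
        (_ : ∀ d : (ZMod l)ˣ,
          (⟨ω (d : ZMod l), hωO d⟩ : O) - (((d : ZMod l).val : ℕ) : O) ∈ lam),
        ∃ F : PowerSeries O, (∀ n, ModularFormClass.qCoeff E n = ((PowerSeries.coeff n F : O) : ℂ)) ∧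
          PowerSeries.constantCoeff F - 1 ∈ lam ∧ ∀ n, n ≠ 0 → PowerSeries.coeff n F ∈ lam :=
  exists_eisOne_of_subring hl5 (stmt_EisW l hl5) ω

/-- **F2 (consumer form), unconditional.**  For `l ≥ 5` prime and a Dirichlet character `ω` mod
`l` there is a weight-one modular form `E` on `Γ₁(l)` with nebentypus `ω⁻¹` whose
`q`-coefficients lie in `eisRing l ω = ℤ[ζ_l, ω]`, such that for every valuation subring `R` of
`ℂ` with `l ∈ 𝔪_R` and `ω d ≡ d mod 𝔪_R` (`d ∈ (ℤ/l)ˣ`): all `aₙ(E) ∈ R`, `a₀(E) ≡ 1` and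
`aₙ(E) ≡ 0` (`n ≥ 1`) modulo `𝔪_R`. -/
theorem eisOne {l : ℕ} [hl : Fact l.Prime] (hl5 : 5 ≤ l) (ω : DirichletCharacter ℂ l) :
    ∃ E : ModularForm (Gamma1 l) 1,
      (∀ γ : SL(2, ℤ), γ ∈ Gamma0 l →
        (⇑E : ℍ → ℂ) ∣[(1 : ℤ)] γ = (ω⁻¹ ((γ 1 1 : ℤ) : ZMod l)) • (⇑E : ℍ → ℂ)) ∧
      (∀ n, ModularFormClass.qCoeff E n ∈ eisRing l ω) ∧
      ∀ R : ValuationSubring ℂ, (l : ℂ) ∈ R.nonunits →
        (∀ d : (ZMod l)ˣ, ω (d : ZMod l) - (((d : ZMod l).val : ℕ) : ℂ) ∈ R.nonunits) →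
        (∀ n, ModularFormClass.qCoeff E n ∈ R) ∧
        ModularFormClass.qCoeff E 0 - 1 ∈ R.nonunits ∧
        ∀ n, n ≠ 0 → ModularFormClass.qCoeff E n ∈ R.nonunits :=
  exists_eisOne hl5 (stmt_EisW l hl5) ω

/-- **F2 (consumer form, Teichmüller hypothesis on integers), unconditional.** -/
theorem eisOne_int {l : ℕ} [hl : Fact l.Prime] (hl5 : 5 ≤ l) (ω : DirichletCharacter ℂ l) :
    ∃ E : ModularForm (Gamma1 l) 1,
      (∀ γ : SL(2, ℤ), γ ∈ Gamma0 l →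
        (⇑E : ℍ → ℂ) ∣[(1 : ℤ)] γ = (ω⁻¹ ((γ 1 1 : ℤ) : ZMod l)) • (⇑E : ℍ → ℂ)) ∧
      (∀ n, ModularFormClass.qCoeff E n ∈ eisRing l ω) ∧
      ∀ R : ValuationSubring ℂ, (l : ℂ) ∈ R.nonunits →
        (∀ d : ℤ, ω (d : ZMod l) - (d : ℂ) ∈ R.nonunits) →
        (∀ n, ModularFormClass.qCoeff E n ∈ R) ∧
        ModularFormClass.qCoeff E 0 - 1 ∈ R.nonunits ∧
        ∀ n, n ≠ 0 → ModularFormClass.qCoeff E n ∈ R.nonunits :=
  exists_eisOne_int hl5 (stmt_EisW l hl5) ω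

end Fermat.Agent.S48.helper9793
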